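import Fermat.Agent.S36.FixLFrac
import Fermat.Agent.S24.FInd
import Fermat.Prelude.Def_FLTPrelim_Ramification

/-!
# TRACK 10 (S36), package FIX-L-INST (helper1), part 2: the inertia action on the modular function
field — prefix `S36FI_`

`F = modularFunctionFieldBar N ⊂ ℚ̄((q))`, `H ≤ Gal(ℚ̄/ℚ)` a subgroup (e.g. the inertia group of a
place of `ℚ̄`) acting on the `q`-coefficients (`arithmeticRingAut = GR_gal`).

* `S36FI_act N H : S36FL_Act ℚ̄ F H`, `L = (S36FI_act N H).fixK = ℚ̄^H`,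
  `F_L = (S36FI_act N H).fixF = F^H`;
* `S36FI_mem_fixF_iff_coeff` : `f ∈ F_L` iff all `q`-coefficients of `f` lie in `L`;
* `S36FI_mon N` : the monomials in the generators `j(q^d)`, `d ∣ N`; they are fixed;
* `S36FI_gen` : every `f ∈ F` is a fraction `P / Q` with `P, Q ∈ ℚ̄[j(q^d)]`;
* `S36FI_frac_X0` : every `f ∈ F_L` is a fraction `P / Q` with `P, Q ∈ L[j(q^d)]`, written in
  `ℚ̄`-linearly independent monomials.
-/

set_option autoImplicit false
set_option linter.style.haveILetI false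
set_option linter.unusedSectionVars false
set_option linter.unusedVariables false

open ModularCurve IntermediateField

namespace Fermat.Agent.S36

open Fermat.Agent.S24

/-- the semilinear action of a subgroup `H ≤ Gal(ℚ̄/ℚ)` on `F = modularFunctionFieldBar N`. -/
noncomputable def S36FI_act (N : ℕ)
    (H : Subgroup (AlgebraicClosure ℚ ≃ₐ[ℚ] AlgebraicClosure ℚ)) :
    S36FL_Act (AlgebraicClosure ℚ) ↥(modularFunctionFieldBar N) ↥H where
  onK h := (h : AlgebraicClosure ℚ ≃ₐ[ℚ] AlgebraicClosure ℚ).toRingEquiv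
  onF h := arithmeticRingAut (modularFunctionFieldFull N)
    (h : AlgebraicClosure ℚ ≃ₐ[ℚ] AlgebraicClosure ℚ)
  semi _ c := arithmeticRingAut_algebraMap _ _ c

section basic

variable (N : ℕ) (H : Subgroup (AlgebraicClosure ℚ ≃ₐ[ℚ] AlgebraicClosure ℚ))

theorem S36FI_onK_apply (h : ↥H) (c : AlgebraicClosure ℚ) :
    (S36FI_act N H).onK h c = (h : AlgebraicClosure ℚ ≃ₐ[ℚ] AlgebraicClosure ℚ) c := rfl

theorem S36FI_onF_apply (h : ↥H) (f : ↥(modularFunctionFieldBar N)) :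
    (S36FI_act N H).onF h f = arithmeticRingAut (modularFunctionFieldFull N)
      (h : AlgebraicClosure ℚ ≃ₐ[ℚ] AlgebraicClosure ℚ) f := rfl

theorem S36FI_mem_fixK {c : AlgebraicClosure ℚ} :
    c ∈ (S36FI_act N H).fixK ↔ ∀ σ ∈ H, σ c = c :=
  ⟨fun h σ hσ => h ⟨σ, hσ⟩, fun h σ => h σ.1 σ.2⟩

theorem S36FI_mem_fixF {f : ↥(modularFunctionFieldBar N)} :
    f ∈ (S36FI_act N H).fixF ↔
      ∀ σ ∈ H, arithmeticRingAut (modularFunctionFieldFull N) σ f = f :=
  ⟨fun h σ hσ => h ⟨σ, hσ⟩, fun h σ => h σ.1 σ.2⟩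

/-- `f` is fixed iff its `q`-coefficients are fixed. -/
theorem S36FI_mem_fixF_iff_coeff {f : ↥(modularFunctionFieldBar N)} :
    f ∈ (S36FI_act N H).fixF ↔
      ∀ k : ℤ, (f : LaurentSeries (AlgebraicClosure ℚ)).coeff k ∈ (S36FI_act N H).fixK := by
  rw [S36FI_mem_fixF]
  constructor
  · intro h k
    rw [S36FI_mem_fixK]
    intro σ hσ
    have h1 := congrArg (fun g : ↥(modularFunctionFieldBar N) =>
      (g : LaurentSeries (AlgebraicClosure ℚ)).coeff k) (h σ hσ)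
    exact h1
  · intro h σ hσ
    apply Subtype.ext
    ext k
    exact (S36FI_mem_fixK N H).mp (h k) σ hσ

end basic

section gens

variable (N : ℕ) [NeZero N]

/-- the generators `j(q^d)`, `d ∣ N`. -/
def S36FI_gens : Set ↥(modularFunctionFieldBar N) :=
  {x | ∃ (d : ℕ) (_ : NeZero d) (hd : d ∣ N), x = jBar N d hd}

/-- the monomials in the generators. -/
noncomputable def S36FI_mon : Submonoid ↥(modularFunctionFieldBar N) := Submonoid.closure (S36FI_gens N)

theorem S36FI_jBar_mem_mon (d : ℕ) [NeZero d] (hd : d ∣ N) : jBar N d hd ∈ S36FI_mon N :=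
  Submonoid.subset_closure ⟨d, inferInstance, hd, rfl⟩

/-- the generators have rational coefficients: they are fixed by the Galois group. -/
theorem S36FI_jBar_fixed (σ : AlgebraicClosure ℚ ≃ₐ[ℚ] AlgebraicClosure ℚ)
    (d : ℕ) [NeZero d] (hd : d ∣ N) :
    arithmeticRingAut (modularFunctionFieldFull N) σ (jBar N d hd) = jBar N d hd :=
  Subtype.ext (coeffMap_coeffEmb σ _)

/-- the monomials are fixed by the Galois group. -/
theorem S36FI_mon_fixed (σ : AlgebraicClosure ℚ ≃ₐ[ℚ] AlgebraicClosure ℚ)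
    {e : ↥(modularFunctionFieldBar N)} (he : e ∈ S36FI_mon N) :
    arithmeticRingAut (modularFunctionFieldFull N) σ e = e := by
  induction he using Submonoid.closure_induction with
  | mem x hx =>
    obtain ⟨d, hne, hd, rfl⟩ := hx
    exact S36FI_jBar_fixed N σ d hd
  | one => exact map_one _
  | mul x y _ _ hx hy => rw [map_mul, hx, hy]

/-- the `ℚ̄`-span of the monomials is the subalgebra `ℚ̄[j(q^d)]`. -/
theorem S36FI_span_eq :
    Submodule.span (AlgebraicClosure ℚ) (S36FI_mon N : Set ↥(modularFunctionFieldBar N)) =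
      Subalgebra.toSubmodule (Algebra.adjoin (AlgebraicClosure ℚ) (S36FI_gens N)) := by
  rw [Algebra.adjoin_eq_span]
  rfl

/-- **generation**: every element of `F` is a fraction of polynomials in the `j(q^d)`. -/
theorem S36FI_gen (f : ↥(modularFunctionFieldBar N)) :
    ∃ P Q : ↥(modularFunctionFieldBar N),
      P ∈ Submodule.span (AlgebraicClosure ℚ) (S36FI_mon N : Set ↥(modularFunctionFieldBar N)) ∧
      Q ∈ Submodule.span (AlgebraicClosure ℚ) (S36FI_mon N : Set ↥(modularFunctionFieldBar N)) ∧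
      Q ≠ 0 ∧ f * Q = P := by
  rw [S36FI_span_eq]
  set R := Algebra.adjoin (AlgebraicClosure ℚ) (S36FI_gens N) with hR
  refine F_induction N
    (fun z => ∃ P Q : ↥(modularFunctionFieldBar N), P ∈ Subalgebra.toSubmodule R ∧
      Q ∈ Subalgebra.toSubmodule R ∧ Q ≠ 0 ∧ z * Q = P) ?_ ?_ ?_ ?_ ?_ f
  · intro c
    exact ⟨algebraMap (AlgebraicClosure ℚ) _ c, 1, R.algebraMap_mem c, R.one_mem, one_ne_zero,
      mul_one _⟩
  · intro d _ hd
    exact ⟨jBar N d hd, 1, Algebra.subset_adjoin ⟨d, inferInstance, hd, rfl⟩, R.one_mem,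
      one_ne_zero, mul_one _⟩
  · rintro x y ⟨A₁, B₁, hA₁, hB₁, h1, e1⟩ ⟨A₂, B₂, hA₂, hB₂, h2, e2⟩
    refine ⟨A₁ * B₂ + A₂ * B₁, B₁ * B₂, R.add_mem (R.mul_mem hA₁ hB₂) (R.mul_mem hA₂ hB₁),
      R.mul_mem hB₁ hB₂, mul_ne_zero h1 h2, ?_⟩
    rw [← e1, ← e2]
    ring
  · rintro x y ⟨A₁, B₁, hA₁, hB₁, h1, e1⟩ ⟨A₂, B₂, hA₂, hB₂, h2, e2⟩
    refine ⟨A₁ * A₂, B₁ * B₂, R.mul_mem hA₁ hA₂, R.mul_mem hB₁ hB₂, mul_ne_zero h1 h2, ?_⟩
    rw [← e1, ← e2]
    ring
  · rintro x ⟨A, B, hA, hB, h, e⟩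
    by_cases hx : x = 0
    · subst hx
      exact ⟨0, 1, R.zero_mem, R.one_mem, one_ne_zero, by simp⟩
    · have hA0 : A ≠ 0 := by
        rw [← e]
        exact mul_ne_zero hx h
      refine ⟨B, A, hB, hA, hA0, ?_⟩
      rw [← e]
      field_simp

/-- **FIX-L-INST**: every `H`-fixed `f ∈ F` is a fraction `P / Q` of polynomials in the `j(q^d)`
with coefficients in `L = ℚ̄^H`, written in `ℚ̄`-linearly independent monomials. -/
theorem S36FI_frac_X0 (H : Subgroup (AlgebraicClosure ℚ ≃ₐ[ℚ] AlgebraicClosure ℚ))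
    (f : ↥(modularFunctionFieldBar N)) (hf : f ∈ (S36FI_act N H).fixF) :
    ∃ (n : ℕ) (e : Fin n → ↥(modularFunctionFieldBar N)) (a b : Fin n → AlgebraicClosure ℚ),
      (∀ i, e i ∈ S36FI_mon N) ∧ LinearIndependent (AlgebraicClosure ℚ) e ∧
      (∀ i, a i ∈ (S36FI_act N H).fixK) ∧ (∀ i, b i ∈ (S36FI_act N H).fixK) ∧
      (∑ i, b i • e i) ≠ 0 ∧ f * (∑ i, b i • e i) = ∑ i, a i • e i := by
  obtain ⟨P, Q, hP, hQ, hQ0, hfQ⟩ := S36FI_gen N f
  exact S36FI_frac (S36FI_act N H) (S36FI_mon N : Set ↥(modularFunctionFieldBar N))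
    (fun e he h => S36FI_mon_fixed N _ he) f hf P Q hP hQ hQ0 hfQ

end gens

end Fermat.Agent.S36
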