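import Mathlib

/-!
# TRACK 10 (S36), package BASE-L (helper20), part 1: the finite level (Mathlib only)

`K / ℚ` a finite Galois extension, `P` a nonzero prime of `𝓞 K`, `E` the inertia field of `P`
(the fixed field of `P.inertia Gal(K/ℚ)`), `p = P ∩ 𝓞 E`.

* `S36BL_ramIdx_inertiaField` : `e(p | ℤ) = 1`  (Hilbert theory: `e(P | ℤ) = #I = e(P | 𝓞 E)`);
* `S36BL_unif` : if `e(p | ℤ) = 1` and `q ∈ p` then every `y ∈ Eˣ` is `q ^ (-k) · d / c` with
  `c, d ∈ 𝓞 E ∖ p`.
-/

set_option autoImplicit false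

open NumberField IsDedekindDomain
open scoped Pointwise

namespace Fermat.Agent.S36

/-- **Hilbert theory**: the prime below `P` in the inertia field of `P` is unramified over `ℤ`. -/
theorem S36BL_ramIdx_inertiaField {K : Type*} [Field K] [NumberField K] [IsGalois ℚ K]
    (P : Ideal (𝓞 K)) [P.IsPrime] (hP0 : P ≠ ⊥) :
    (P.under (𝓞 (IntermediateField.fixedField (P.inertia (K ≃ₐ[ℚ] K))))).ramificationIdx ℤ
      = 1 := by
  set E : IntermediateField ℚ K := IntermediateField.fixedField (P.inertia (K ≃ₐ[ℚ] K)) with hE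
  have hp0 : P.under ℤ ≠ ⊥ := by
    intro h0
    exact hP0 (Ideal.eq_bot_of_comap_eq_bot (R := ℤ) h0)
  have hpmax : (P.under ℤ).IsMaximal := Ideal.IsPrime.isMaximal inferInstance hp0
  have : Finite (ℤ ⧸ P.under ℤ) := Ideal.finiteQuotientOfFreeOfNeBot _ hp0
  have h1 := Ideal.card_inertia_eq_ramificationIdxIn (G := K ≃ₐ[ℚ] K) (P.under ℤ) P
  rw [Ideal.ramificationIdxIn_eq_ramificationIdx (P.under ℤ) P (K ≃ₐ[ℚ] K)] at h1
  have hq0 : P.under (𝓞 E) ≠ ⊥ := by
    intro h0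
    exact hP0 (Ideal.eq_bot_of_comap_eq_bot (R := 𝓞 E) h0)
  have hqmax : (P.under (𝓞 E)).IsMaximal := Ideal.IsPrime.isMaximal inferInstance hq0
  have : Finite (𝓞 E ⧸ P.under (𝓞 E)) := Ideal.finiteQuotientOfFreeOfNeBot _ hq0
  have h2 := Ideal.card_inertia_eq_ramificationIdxIn (G := K ≃ₐ[E] K) (P.under (𝓞 E)) P
  rw [Ideal.ramificationIdxIn_eq_ramificationIdx (P.under (𝓞 E)) P (K ≃ₐ[E] K)] at h2
  have h4 := Ideal.ramificationIdx_tower (R := ℤ) (P.under (𝓞 E)) P
  -- the inertia group over `E` is everything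
  have hfix : E.fixingSubgroup = P.inertia (K ≃ₐ[ℚ] K) :=
    IntermediateField.fixingSubgroup_fixedField _
  have htop : P.inertia (K ≃ₐ[E] K) = ⊤ := by
    rw [eq_top_iff]
    intro σ _ x
    have hmem : σ.restrictScalars ℚ ∈ E.fixingSubgroup := by
      intro e
      exact σ.commutes e
    rw [hfix] at hmem
    exact hmem x
  have h3 : Nat.card (P.inertia (K ≃ₐ[E] K)) = Nat.card (P.inertia (K ≃ₐ[ℚ] K)) := by
    rw [htop, Subgroup.card_top, IsGalois.card_aut_eq_finrank, ← hfix,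
      IsGalois.card_fixingSubgroup_eq_finrank]
  have hpos : 0 < P.ramificationIdx ℤ := by
    rw [← h1]; exact Nat.card_pos
  rw [← h2, h3, h1] at h4
  have h5 : (P.under (𝓞 E)).ramificationIdx ℤ * P.ramificationIdx ℤ
      = 1 * P.ramificationIdx ℤ := by
    rw [one_mul]; exact h4.symm
  exact Nat.eq_of_mul_eq_mul_right hpos h5

/-- at an unramified prime `p ∋ q` of a number field `E`, every nonzero `y` is
`q ^ (-k) · d / c` with `c, d ∈ 𝓞 E ∖ p`. -/
theorem S36BL_unif {E : Type*} [Field E] [NumberField E] (p : Ideal (𝓞 E)) [p.IsPrime]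
    (hp0 : p ≠ ⊥) (q : ℕ) (hq : q.Prime) (hqp : (q : 𝓞 E) ∈ p) (he : p.ramificationIdx ℤ = 1)
    (y : E) (hy : y ≠ 0) :
    ∃ (k : ℤ) (c d : 𝓞 E), c ∉ p ∧ d ∉ p ∧ y * (q : E) ^ k * (c : E) = (d : E) := by
  classical
  -- the prime below
  have hqZ : ((q : ℤ)) ∈ p.under ℤ := by
    rw [Ideal.under_def, Ideal.mem_comap]
    simpa using hqp
  have hprime : Prime (q : ℤ) := Nat.prime_iff_prime_int.mp hq
  have hmaxq : (Ideal.span {(q : ℤ)}).IsMaximal :=
    PrincipalIdealRing.isMaximal_of_irreducible hprime.irreducible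
  have hunder : p.under ℤ = Ideal.span {(q : ℤ)} := by
    have hle : Ideal.span {(q : ℤ)} ≤ p.under ℤ := (Ideal.span_singleton_le_iff_mem _).2 hqZ
    have hne : p.under ℤ ≠ ⊤ := Ideal.IsPrime.ne_top inferInstance
    exact (hmaxq.eq_of_le hne hle).symm
  have hp₀ne : p.under ℤ ≠ ⊥ := by
    rw [hunder]
    simp [hq.ne_zero]
  have he' : (p.under ℤ).ramificationIdx' p = 1 := by
    rw [Ideal.ramificationIdx'_eq_ramificationIdx (p.under ℤ) p hp₀ne, he]
  have hmap : Ideal.map (algebraMap ℤ (𝓞 E)) (p.under ℤ) ≤ p := Ideal.map_comap_le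
  have hnot : ¬ Ideal.map (algebraMap ℤ (𝓞 E)) (p.under ℤ) ≤ p ^ 2 := by
    intro h
    exact ((Ideal.ramificationIdx'_ne_one_iff hmap).2 h) he'
  have hq2 : (q : 𝓞 E) ∉ p ^ 2 := by
    intro h
    apply hnot
    rw [hunder, Ideal.map_span, Set.image_singleton, Ideal.span_singleton_le_iff_mem]
    simpa using h
  -- the valuation
  let v : HeightOneSpectrum (𝓞 E) := ⟨p, inferInstance, hp0⟩
  have hq0 : (q : 𝓞 E) ≠ 0 := by
    exact_mod_cast hq.ne_zero
  have hvq : v.intValuation (q : 𝓞 E) = WithZero.exp (-1 : ℤ) := by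
    have h1 : v.intValuation (q : 𝓞 E) ≤ WithZero.exp (-((1 : ℕ) : ℤ)) := by
      rw [HeightOneSpectrum.intValuation_le_pow_iff_mem]
      simpa using hqp
    have h2 : ¬ v.intValuation (q : 𝓞 E) ≤ WithZero.exp (-((2 : ℕ) : ℤ)) := by
      rw [HeightOneSpectrum.intValuation_le_pow_iff_mem]
      exact hq2
    have hne : v.intValuation (q : 𝓞 E) ≠ 0 := v.intValuation_ne_zero _ hq0
    rw [← WithZero.exp_log hne] at h1 h2 ⊢
    rw [WithZero.exp_le_exp] at h1 h2
    congr 1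
    push_cast at h1 h2
    omega
  have hvqE : v.valuation E (q : E) = WithZero.exp (-1 : ℤ) := by
    have : (q : E) = algebraMap (𝓞 E) E (q : 𝓞 E) := by simp
    rw [this, HeightOneSpectrum.valuation_of_algebraMap, hvq]
  have hvy : v.valuation E y ≠ 0 := (Valuation.ne_zero_iff _).2 hy
  set m : ℤ := WithZero.log (v.valuation E y) with hm
  have hvy' : v.valuation E y = WithZero.exp m := (WithZero.exp_log hvy).symm
  have hz : v.valuation E (y * (q : E) ^ m) = 1 := by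
    rw [map_mul, map_zpow₀, hvy', hvqE, ← WithZero.exp_zsmul, ← WithZero.exp_add]
    simp
  obtain ⟨n, d, hnd⟩ := v.exists_primeCompl_mul_eq_of_integer (y * (q : E) ^ m) hz.le
  refine ⟨m, d, n, d.2, ?_, hnd⟩
  have hvn : v.valuation E (algebraMap (𝓞 E) E n) = 1 := by
    rw [← hnd, map_mul, hz, one_mul]
    exact (HeightOneSpectrum.valuation_eq_one_iff_notMem (K := E) (v := v)).2 d.2
  exact (HeightOneSpectrum.valuation_eq_one_iff_notMem (K := E) (v := v)).1 hvn

end Fermat.Agent.S36
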