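import Mathlib
import Fermat.Agent.S19.DescNT2
import Fermat.Agent.S36.BaseL1

/-!
# TRACK 10 (S36), package BASE-L (helper20), part 2: the inertia field of a place of `ℚ̄`

`Ω = ℚ̄`, `A` a valuation subring of `Ω` over the prime `q`, `I = A.inertiaSubgroupIn ℚ`,
`L = Ω^I` the inertia field (elements of `Ω` fixed by every `τ ∈ I`).

* `S36BL_val` : **the value group of `L` is `ℤ · v(q)`**: a nonzero `x ∈ L` is `q ^ (-k) · unit of A`.

Proof: finite level Hilbert theory (`S36BL_ramIdx_inertiaField`, `S36BL_unif`) in the normal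
closure `K'` of `ℚ(x)`, and lifting of inertia (`S19D_nt2`): every element of the inertia group of
`A ∩ K'` in `Gal(K'/ℚ)` is the restriction of an element of `I`.
-/

set_option autoImplicit false
set_option linter.unusedSectionVars false
set_option linter.unusedVariables false
set_option linter.style.haveILetI false

open NumberField IsDedekindDomain IntermediateField
open scoped Pointwise
open Fermat.Agent.Lib Fermat.Agent.S19

namespace Fermat.Agent.S36

noncomputable section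

local notation "Ω" => AlgebraicClosure ℚ

variable {q : ℕ} [hq : Fact q.Prime] (A : ValuationSubring Ω)

/-- the inclusion of the integers of an intermediate field into `A`. -/
def S36BL_incl (K : IntermediateField ℚ Ω) [NumberField K] : 𝓞 K →+* A where
  toFun b := ⟨((b : K) : Ω), S19D_int_mem A
    (b.isIntegral_coe.map (IsScalarTower.toAlgHom ℤ K Ω))⟩
  map_one' := by ext; simp
  map_mul' _ _ := by ext; simp
  map_zero' := by ext; simp
  map_add' _ _ := by ext; simp

/-- the prime of `𝓞 K` below `A`. -/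
def S36BL_P (K : IntermediateField ℚ Ω) [NumberField K] : Ideal (𝓞 K) :=
  Ideal.comap (S36BL_incl A K) (IsLocalRing.maximalIdeal A)

theorem S36BL_mem_P (K : IntermediateField ℚ Ω) [NumberField K] (b : 𝓞 K) :
    b ∈ S36BL_P A K ↔ (((b : K) : Ω)) ∈ A.nonunits := by
  unfold S36BL_P
  rw [Ideal.mem_comap, ← ValuationSubring.coe_mem_nonunits_iff]
  rfl

instance S36BL_P_prime (K : IntermediateField ℚ Ω) [NumberField K] : (S36BL_P A K).IsPrime :=
  Ideal.comap_isPrime (S36BL_incl A K) _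

theorem S36BL_P_ne_bot (hA : A.LiesOverPrime q) (K : IntermediateField ℚ Ω) [NumberField K] :
    S36BL_P A K ≠ ⊥ := by
  intro h
  have h1 : (q : 𝓞 K) ∈ S36BL_P A K := by
    rw [S36BL_mem_P]
    have h2 : (q : Ω) ∈ A.nonunits := hA
    simpa using h2
  rw [h, Ideal.mem_bot] at h1
  have : (q : 𝓞 K) ≠ 0 := by exact_mod_cast hq.out.ne_zero
  exact this h1

/-- **the value group of the inertia field is `ℤ · v(q)`**. -/
theorem S36BL_val (hA : A.LiesOverPrime q) {x : Ω} (hx : x ≠ 0)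
    (hfix : ∀ τ ∈ A.inertiaSubgroupIn ℚ, τ x = x) :
    ∃ k : ℤ, x * (q : Ω) ^ k ∈ A ∧ x * (q : Ω) ^ k ∉ A.nonunits := by
  classical
  haveI := S19D_isGalois
  haveI : Normal ℚ Ω := IsGalois.to_normal
  let K' : IntermediateField ℚ Ω := IntermediateField.normalClosure ℚ ℚ⟮x⟯ Ω
  haveI : FiniteDimensional ℚ ℚ⟮x⟯ := IntermediateField.adjoin.finiteDimensional
    ((AlgebraicClosure.isAlgebraic ℚ).isAlgebraic x).isIntegral
  haveI : FiniteDimensional ℚ K' := inferInstance
  haveI : Normal ℚ K' := normalClosure.normal ℚ ℚ⟮x⟯ Ω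
  haveI : IsGalois ℚ K' := ⟨⟩
  haveI : NumberField K' := ⟨⟩
  haveI : K'.fixingSubgroup.Normal := inferInstance
  have hcl : IsClosed (K'.fixingSubgroup : Set (Ω ≃ₐ[ℚ] Ω)) := K'.fixingSubgroup_isClosed
  have hxK : x ∈ K' :=
    (IntermediateField.le_normalClosure ℚ⟮x⟯) (mem_adjoin_simple_self ℚ x)
  have hP0 : S36BL_P A K' ≠ ⊥ := S36BL_P_ne_bot A hA K'
  -- `x` is fixed by the finite-level inertia group
  have hxE : (⟨x, hxK⟩ : K') ∈
      IntermediateField.fixedField ((S36BL_P A K').inertia (K' ≃ₐ[ℚ] K')) := by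
    rintro ⟨σ', hσ'⟩
    show σ' ⟨x, hxK⟩ = ⟨x, hxK⟩
    have hσ : ∀ b : K', (σ'.liftNormal Ω) (b : Ω) = ((σ' b : K') : Ω) :=
      fun b => AlgEquiv.liftNormal_commutes σ' Ω b
    obtain ⟨ν, hνN, hνσ⟩ := S19D_nt2 A hA K'.fixingSubgroup hcl (σ'.liftNormal Ω) (by
      intro b hb hbN
      have hbK : b ∈ K' := by
        rw [← InfiniteGalois.fixedField_fixingSubgroup K']
        rintro ⟨ν, hν⟩
        exact hbN ν hν
      have hb'int : IsIntegral ℤ (⟨b, hbK⟩ : K') :=
        (isIntegral_algebraMap_iff (algebraMap K' Ω).injective).mp hb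
      obtain ⟨b'', hb''⟩ : ∃ b'' : 𝓞 K', (b'' : K') = ⟨b, hbK⟩ := ⟨⟨_, hb'int⟩, rfl⟩
      have h1 : σ' • b'' - b'' ∈ S36BL_P A K' := hσ' b''
      rw [S36BL_mem_P] at h1
      have h2 := hσ ⟨b, hbK⟩
      have h3 : (((σ' • b'' - b'' : 𝓞 K') : K') : Ω) = (σ'.liftNormal Ω) b - b := by
        have h4 : ((σ' • b'' : 𝓞 K') : K') = σ' (b'' : K') := rfl
        have h5 : (((σ' • b'' - b'' : 𝓞 K') : K') : Ω)
            = (((σ' • b'' : 𝓞 K') : K') : Ω) - ((b'' : K') : Ω) := by
          push_cast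
          rfl
        rw [h5, h4, hb'', h2]
      rw [h3] at h1
      exact h1)
    have h2 : ν ((σ'.liftNormal Ω) x) = x := hfix _ hνσ
    have h4 : (σ'.liftNormal Ω) x = ((σ' ⟨x, hxK⟩ : K') : Ω) := hσ ⟨x, hxK⟩
    have h5 : ν ((σ' ⟨x, hxK⟩ : K') : Ω) = ((σ' ⟨x, hxK⟩ : K') : Ω) := hνN (σ' ⟨x, hxK⟩)
    rw [h4, h5] at h2
    exact Subtype.ext h2
  -- finite level
  have he := S36BL_ramIdx_inertiaField (S36BL_P A K') hP0
  have hp0 : (S36BL_P A K').under
      (𝓞 (IntermediateField.fixedField ((S36BL_P A K').inertia (K' ≃ₐ[ℚ] K')))) ≠ ⊥ := by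
    intro h0
    exact hP0 (Ideal.eq_bot_of_comap_eq_bot h0)
  have hnotmem : ∀ c : 𝓞 (IntermediateField.fixedField
      ((S36BL_P A K').inertia (K' ≃ₐ[ℚ] K'))),
      c ∉ (S36BL_P A K').under (𝓞 (IntermediateField.fixedField
        ((S36BL_P A K').inertia (K' ≃ₐ[ℚ] K')))) →
      (((c : IntermediateField.fixedField ((S36BL_P A K').inertia (K' ≃ₐ[ℚ] K'))) : K') : Ω) ∈ A ∧
      (((c : IntermediateField.fixedField ((S36BL_P A K').inertia (K' ≃ₐ[ℚ] K'))) : K') : Ω)
        ∉ A.nonunits := by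
    intro c hc
    rw [Ideal.under_def, Ideal.mem_comap, S36BL_mem_P] at hc
    refine ⟨?_, hc⟩
    exact S19D_int_mem A ((c.isIntegral_coe.map (IsScalarTower.toAlgHom ℤ _ K')).map
      (IsScalarTower.toAlgHom ℤ K' Ω))
  have hqp : (q : 𝓞 (IntermediateField.fixedField
      ((S36BL_P A K').inertia (K' ≃ₐ[ℚ] K')))) ∈ (S36BL_P A K').under (𝓞
        (IntermediateField.fixedField ((S36BL_P A K').inertia (K' ≃ₐ[ℚ] K')))) := by
    rw [Ideal.under_def, Ideal.mem_comap, S36BL_mem_P]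
    have h2 : (q : Ω) ∈ A.nonunits := hA
    simpa using h2
  obtain ⟨k, c, d, hc, hd, hcd⟩ := S36BL_unif _ hp0 q hq.out hqp he
    (⟨⟨x, hxK⟩, hxE⟩ : IntermediateField.fixedField
      ((S36BL_P A K').inertia (K' ≃ₐ[ℚ] K')))
    (by
      intro h0
      apply hx
      have := congrArg (fun z : IntermediateField.fixedField
        ((S36BL_P A K').inertia (K' ≃ₐ[ℚ] K')) => ((z : K') : Ω)) h0
      simpa using this)
  obtain ⟨hcA, hcu⟩ := hnotmem c hc
  obtain ⟨hdA, hdu⟩ := hnotmem d hd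
  have hcd' : x * (q : Ω) ^ k *
      (((c : IntermediateField.fixedField ((S36BL_P A K').inertia (K' ≃ₐ[ℚ] K'))) : K') : Ω)
      = (((d : IntermediateField.fixedField ((S36BL_P A K').inertia (K' ≃ₐ[ℚ] K'))) : K') : Ω) := by
    have := congrArg (fun z : IntermediateField.fixedField
        ((S36BL_P A K').inertia (K' ≃ₐ[ℚ] K')) => algebraMap K' Ω (algebraMap _ K' z)) hcd
    simp only [map_mul, map_zpow₀, map_natCast] at this
    exact this
  have hc0 := S19D_ne_zero_of_not_nu hcu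
  have hcinv := S19D_inv_mem hcA hcu
  have hxq : x * (q : Ω) ^ k =
      (((d : IntermediateField.fixedField ((S36BL_P A K').inertia (K' ≃ₐ[ℚ] K'))) : K') : Ω) *
      ((((c : IntermediateField.fixedField ((S36BL_P A K').inertia (K' ≃ₐ[ℚ] K'))) : K') : Ω))⁻¹ := by
    rw [← hcd']
    field_simp
  refine ⟨k, ?_, ?_⟩
  · rw [hxq]
    exact A.mul_mem _ _ hdA hcinv
  · rw [hxq]
    intro hnu
    have h1 := S19D_nu_mul' hnu hcA
    rw [mul_assoc, inv_mul_cancel₀ hc0, mul_one] at h1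
    exact hdu h1

end

end Fermat.Agent.S36
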