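import Mathlib
import Fermat.Agent.S36.BaseL

/-!
# TRACK 10 (S36), package BASE-L (helper20), part 3: the value group of `L(ζ_q)`

`Ω = ℚ̄`, `A` a valuation subring of `Ω` over the prime `q`, `I` its inertia group, `D` its
decomposition group, `L = Ω^I`.

* `S36BL_dec_val`  : `v(τ c) = v(c)` for `τ ∈ D`;
* `S36BL_val'`     : valuation form of `S36BL_val`: `v(x · q ^ k) = 1`;
* `S36BL_val_zeta` : if `ζ ^ q = 1` and `c ≠ 0` is fixed by every `τ ∈ I` with `τ ζ = ζ`, then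
  `v(c ^ (q - 1) · q ^ k) = 1` for some `k : ℤ`  (the value group of `L(ζ_q)` is contained in
  `(1/(q-1)) · ℤ · v(q)`; norm from `L(ζ_q)` to `L`).
-/

set_option autoImplicit false
set_option linter.unusedSectionVars false
set_option linter.unusedVariables false
set_option linter.style.haveILetI false

open NumberField IsDedekindDomain IntermediateField
open scoped Pointwise
open Fermat.Agent.Lib Fermat.Agent.S19

namespace Fermat.Agent.S36

noncomputable section

local notation "Ω" => AlgebraicClosure ℚ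
local notation "Γ" => (AlgebraicClosure ℚ ≃ₐ[ℚ] AlgebraicClosure ℚ)

variable {q : ℕ} [hq : Fact q.Prime] (A : ValuationSubring Ω)

/-- units of `A` in valuation form. -/
theorem S36BL_unit_iff {x : Ω} : (x ∈ A ∧ x ∉ A.nonunits) ↔ A.valuation x = 1 := by
  constructor
  · rintro ⟨h1, h2⟩
    exact le_antisymm ((A.valuation_le_one_iff x).mpr h1)
      (not_lt.mp fun h => h2 (A.mem_nonunits_iff.mpr h))
  · intro h
    refine ⟨(A.valuation_le_one_iff x).mp h.le, fun h2 => ?_⟩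
    rw [A.mem_nonunits_iff, h] at h2
    exact lt_irrefl _ h2

/-- valuation form of `S36BL_val`. -/
theorem S36BL_val' (hA : A.LiesOverPrime q) {x : Ω} (hx : x ≠ 0)
    (hfix : ∀ τ ∈ A.inertiaSubgroupIn ℚ, τ x = x) :
    ∃ k : ℤ, A.valuation (x * (q : Ω) ^ k) = 1 := by
  obtain ⟨k, h1, h2⟩ := S36BL_val A hA hx hfix
  exact ⟨k, (S36BL_unit_iff A).mp ⟨h1, h2⟩⟩

/-- the decomposition group is monotone for the valuation. -/
theorem S36BL_dec_lt {τ : Γ} (hτ : τ ∈ A.decompositionSubgroup ℚ) {a b : Ω}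
    (h : A.valuation a < A.valuation b) : A.valuation (τ a) < A.valuation (τ b) := by
  have hb0 : b ≠ 0 := by
    rintro rfl
    rw [map_zero] at h
    exact not_lt_zero h
  have hvb : A.valuation b ≠ 0 := (Valuation.ne_zero_iff _).2 hb0
  have h1 : a / b ∈ A.nonunits := by
    rw [A.mem_nonunits_iff, map_div₀]
    exact (div_lt_one₀ (zero_lt_iff.mpr hvb)).mpr h
  have h2 := S19D_dec_nu hτ h1
  rw [A.mem_nonunits_iff, map_div₀, map_div₀] at h2
  have hτb : A.valuation (τ b) ≠ 0 :=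
    (Valuation.ne_zero_iff _).2 ((map_ne_zero τ).mpr hb0)
  exact (div_lt_one₀ (zero_lt_iff.mpr hτb)).mp h2

/-- the decomposition group preserves the valuation. -/
theorem S36BL_dec_val {τ : Γ} (hτ : τ ∈ A.decompositionSubgroup ℚ) (c : Ω) :
    A.valuation (τ c) = A.valuation c := by
  haveI := S19D_isGalois
  haveI := S19D_isIntegralExt
  -- a power of `τ` fixes `c`
  have hopen : IsOpen (MulAction.stabilizer Γ c : Set Γ) :=
    stabilizer_isOpen_of_isIntegral (K := ℚ) c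
  haveI : Finite (Γ ⧸ MulAction.stabilizer Γ c) := Subgroup.quotient_finite_of_isOpen _ hopen
  haveI : (MulAction.stabilizer Γ c).FiniteIndex := Subgroup.finiteIndex_of_finite_quotient
  obtain ⟨m, hm0, -, hm⟩ := Subgroup.exists_pow_mem_of_index_ne_zero
    (Subgroup.FiniteIndex.index_ne_zero (H := MulAction.stabilizer Γ c)) τ
  have hmc : (τ ^ m) c = c := hm
  have hpow : ∀ n : ℕ, τ ^ n ∈ A.decompositionSubgroup ℚ := fun n => pow_mem hτ n
  have hstep : ∀ n : ℕ, (τ ^ (n + 1)) c = τ ((τ ^ n) c) := by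
    intro n
    rw [pow_succ']
    rfl
  rcases lt_trichotomy (A.valuation (τ c)) (A.valuation c) with h | h | h
  · exfalso
    have key : ∀ n : ℕ, A.valuation ((τ ^ (n + 1)) c) < A.valuation c := by
      intro n
      induction n with
      | zero => simpa using h
      | succ n ih =>
        rw [hstep]
        exact (S36BL_dec_lt A hτ ih).trans h
    obtain ⟨j, rfl⟩ := Nat.exists_eq_succ_of_ne_zero hm0.ne'
    have := key j
    rw [hmc] at this
    exact lt_irrefl _ this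
  · exact h
  · exfalso
    have key : ∀ n : ℕ, A.valuation c < A.valuation ((τ ^ (n + 1)) c) := by
      intro n
      induction n with
      | zero => simpa using h
      | succ n ih =>
        rw [hstep (n + 1)]
        exact h.trans (S36BL_dec_lt A hτ ih)
    obtain ⟨j, rfl⟩ := Nat.exists_eq_succ_of_ne_zero hm0.ne'
    have := key j
    rw [hmc] at this
    exact lt_irrefl _ this

/-- **the value group of `L(ζ_q)`**: if `ζ ^ q = 1` and `c ≠ 0` is fixed by every element of the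
inertia group that fixes `ζ`, then `c ^ (q - 1)` is `q ^ (-k)` times a unit of `A`. -/
theorem S36BL_val_zeta (hA : A.LiesOverPrime q) {ζ : Ω} (hζ : ζ ^ q = 1) {c : Ω} (hc : c ≠ 0)
    (hfix : ∀ τ ∈ A.inertiaSubgroupIn ℚ, τ ζ = ζ → τ c = c) :
    ∃ k : ℤ, A.valuation (c ^ (q - 1) * (q : Ω) ^ k) = 1 := by
  classical
  by_cases h1 : ζ = 1
  · obtain ⟨k₀, hk₀⟩ := S36BL_val' A hA hc (fun τ hτ => hfix τ hτ (by rw [h1, map_one]))
    refine ⟨((q - 1 : ℕ) : ℤ) * k₀, ?_⟩
    rw [zpow_mul', zpow_natCast, ← mul_pow, map_pow, hk₀, one_pow]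
  have hq1 : 1 < q := hq.out.one_lt
  haveI : NeZero q := ⟨hq.out.ne_zero⟩
  have hprim : IsPrimitiveRoot ζ q := by
    have := orderOf_eq_prime hζ h1
    rw [← this]
    exact IsPrimitiveRoot.orderOf ζ
  -- the cyclotomic character on the inertia group
  let χ : ↥(A.inertiaSubgroupIn ℚ) →* (ZMod q)ˣ :=
    (hprim.autToPow ℚ).comp (A.inertiaSubgroupIn ℚ).subtype
  have hker : ∀ κ : ↥(A.inertiaSubgroupIn ℚ), κ ∈ χ.ker → (κ : Γ) c = c := by
    intro κ hκ
    apply hfix _ κ.2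
    have h2 := hprim.autToPow_spec ℚ (κ : Γ)
    have h3 : (hprim.autToPow ℚ) (κ : Γ) = 1 := hκ
    rw [h3] at h2
    rw [← h2]
    have : ((1 : (ZMod q)ˣ) : ZMod q).val = 1 := by
      haveI : Fact (1 < q) := ⟨hq1⟩
      rw [Units.val_one, ZMod.val_one]
    rw [this, pow_one]
  haveI : Finite (↥(A.inertiaSubgroupIn ℚ) ⧸ χ.ker) :=
    Finite.of_equiv _ (QuotientGroup.quotientKerEquivRange χ).toEquiv.symm
  letI : Fintype (↥(A.inertiaSubgroupIn ℚ) ⧸ χ.ker) := Fintype.ofFinite _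
  -- the norm
  set N : Ω := ∏ g : ↥(A.inertiaSubgroupIn ℚ) ⧸ χ.ker, ((g.out : ↥(A.inertiaSubgroupIn ℚ)) : Γ) c
    with hN
  have hNfix : ∀ τ ∈ A.inertiaSubgroupIn ℚ, τ N = N := by
    intro τ hτ
    rw [hN, map_prod]
    have hterm : ∀ g : ↥(A.inertiaSubgroupIn ℚ) ⧸ χ.ker,
        τ (((g.out : ↥(A.inertiaSubgroupIn ℚ)) : Γ) c)
          = ((((QuotientGroup.mk ⟨τ, hτ⟩ : ↥(A.inertiaSubgroupIn ℚ) ⧸ χ.ker) * g).out :
              ↥(A.inertiaSubgroupIn ℚ)) : Γ) c := by
      intro g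
      have hmk : (QuotientGroup.mk ((⟨τ, hτ⟩ : ↥(A.inertiaSubgroupIn ℚ)) * g.out) :
          ↥(A.inertiaSubgroupIn ℚ) ⧸ χ.ker)
          = QuotientGroup.mk
            ((QuotientGroup.mk ⟨τ, hτ⟩ : ↥(A.inertiaSubgroupIn ℚ) ⧸ χ.ker) * g).out := by
        rw [QuotientGroup.out_eq', QuotientGroup.mk_mul, QuotientGroup.out_eq']
      rw [QuotientGroup.eq] at hmk
      have h5 := hker _ hmk
      have h6 : ((((QuotientGroup.mk ⟨τ, hτ⟩ : ↥(A.inertiaSubgroupIn ℚ) ⧸ χ.ker) * g).out :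
              ↥(A.inertiaSubgroupIn ℚ)) : Γ) c
          = τ (((g.out : ↥(A.inertiaSubgroupIn ℚ)) : Γ)
              (((((⟨τ, hτ⟩ : ↥(A.inertiaSubgroupIn ℚ)) * g.out)⁻¹ *
                ((QuotientGroup.mk ⟨τ, hτ⟩ : ↥(A.inertiaSubgroupIn ℚ) ⧸ χ.ker) * g).out :
                  ↥(A.inertiaSubgroupIn ℚ)) : Γ) c)) := by
        simp only [Subgroup.coe_mul, Subgroup.coe_inv, AlgEquiv.mul_apply]
        simp
      rw [h6, h5]
    rw [Finset.prod_congr rfl (fun g _ => hterm g)]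
    exact Fintype.prod_equiv (Equiv.mulLeft (QuotientGroup.mk ⟨τ, hτ⟩)) _ _ (fun g => rfl)
  have hN0 : N ≠ 0 := by
    rw [hN]
    exact Finset.prod_ne_zero_iff.mpr (fun g _ => (map_ne_zero _).mpr hc)
  obtain ⟨k₀, hk₀⟩ := S36BL_val' A hA hN0 hNfix
  have hvN : A.valuation N = A.valuation c ^ Fintype.card (↥(A.inertiaSubgroupIn ℚ) ⧸ χ.ker) := by
    rw [hN, map_prod]
    rw [Finset.prod_congr rfl (fun g _ => S36BL_dec_val A (S19D_inertia_le (g.out).2) c)]
    simp
  -- the index divides `q - 1`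
  have hdvd : Fintype.card (↥(A.inertiaSubgroupIn ℚ) ⧸ χ.ker) ∣ q - 1 := by
    have h2 : Nat.card (↥(A.inertiaSubgroupIn ℚ) ⧸ χ.ker) = Nat.card χ.range :=
      Nat.card_congr (QuotientGroup.quotientKerEquivRange χ).toEquiv
    have h3 : Nat.card χ.range ∣ Nat.card (ZMod q)ˣ := Subgroup.card_subgroup_dvd_card _
    have h4 : Nat.card (ZMod q)ˣ = q - 1 := by
      rw [Nat.card_eq_fintype_card, ZMod.card_units_eq_totient, Nat.totient_prime hq.out]
    rw [← Nat.card_eq_fintype_card, h2, ← h4]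
    exact h3
  obtain ⟨e, he⟩ := hdvd
  refine ⟨(e : ℤ) * k₀, ?_⟩
  rw [he, pow_mul, zpow_mul', zpow_natCast, ← mul_pow, map_pow, map_mul, map_pow, ← hvN,
    ← map_mul, hk₀, one_pow]

end

end Fermat.Agent.S36
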