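import Mathlib
import Fermat.Agent.S36.BaseLZeta
import Fermat.Agent.S19.Teich

/-!
# TRACK 10 (S36), package BASE-L (helper20), part 4: `L(ζ_q) / L` is totally ramified of degree `q - 1`

`Ω = ℚ̄`, `A` a valuation subring of `Ω` over the prime `q`, `I` its inertia group, `L = Ω^I`,
`ζ` a primitive `q`-th root of unity.

* `S36BL_val_one_sub_pow`  : `v(1 - ζ ^ i) = v(1 - ζ)` for `q ∤ i`;
* `S36BL_val_one_sub_zeta` : `v(1 - ζ) ^ (q - 1) = v(q)`;
* `S36BL_chi`, `S36BL_norm` : the cyclotomic character of `I` and the norm from `L(ζ)` to `L`;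
* `S36BL_chi_surjective`   : the cyclotomic character `I → (ℤ/q)ˣ` is onto;
* `S36BL_inertia_transitive` : `I` acts transitively on the primitive `q`-th roots of unity.
-/

set_option autoImplicit false
set_option linter.unusedSectionVars false
set_option linter.unusedVariables false
set_option linter.style.haveILetI false

open scoped Pointwise
open Fermat.Agent.Lib Fermat.Agent.S19

namespace Fermat.Agent.S36

noncomputable section

local notation "Ω" => AlgebraicClosure ℚ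
local notation "Γ" => (AlgebraicClosure ℚ ≃ₐ[ℚ] AlgebraicClosure ℚ)

variable {q : ℕ} [hq : Fact q.Prime] (A : ValuationSubring Ω)

/-- `v(1 - x ^ i) ≤ v(1 - x)` for a root of unity `x`. -/
theorem S36BL_val_one_sub_pow_le {M : ℕ} (hM : 0 < M) {x : Ω} (hx : x ^ M = 1) (i : ℕ) :
    A.valuation (1 - x ^ i) ≤ A.valuation (1 - x) := by
  have hxA : x ∈ A := S19TE_root_mem A hM hx
  have hsum : (∑ j ∈ Finset.range i, x ^ j) ∈ A :=
    A.toSubring.sum_mem (fun j _ => A.toSubring.pow_mem hxA j)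
  rw [← mul_neg_geom_sum x i, map_mul]
  exact mul_le_of_le_one_right' ((A.valuation_le_one_iff _).mpr hsum)

/-- `v(1 - ζ ^ i) = v(1 - ζ)` for `q ∤ i`. -/
theorem S36BL_val_one_sub_pow {ζ : Ω} (hζ : ζ ^ q = 1) {i : ℕ} (hi : ¬ q ∣ i) :
    A.valuation (1 - ζ ^ i) = A.valuation (1 - ζ) := by
  refine le_antisymm (S36BL_val_one_sub_pow_le A hq.out.pos hζ i) ?_
  have hcop : Nat.Coprime i q := ((Nat.Prime.coprime_iff_not_dvd hq.out).mpr hi).symm
  obtain ⟨j, -, hj⟩ := Nat.exists_mul_mod_eq_one_of_coprime hcop hq.out.one_lt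
  have h1 : (ζ ^ i) ^ j = ζ := by
    rw [← pow_mul, pow_eq_pow_mod _ hζ, hj, pow_one]
  have h2 : (ζ ^ i) ^ q = 1 := by rw [← pow_mul, mul_comm, pow_mul, hζ, one_pow]
  have := S36BL_val_one_sub_pow_le A hq.out.pos h2 j
  rwa [h1] at this

/-- `v(1 - ζ) ^ (q - 1) = v(q)` for a primitive `q`-th root of unity `ζ`. -/
theorem S36BL_val_one_sub_zeta {ζ : Ω} (hprim : IsPrimitiveRoot ζ q) :
    A.valuation (1 - ζ) ^ (q - 1) = A.valuation (q : Ω) := by
  obtain ⟨n, hn⟩ : ∃ n, q = n + 1 := Nat.exists_eq_succ_of_ne_zero hq.out.ne_zero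
  have hprim' : IsPrimitiveRoot ζ (n + 1) := hn ▸ hprim
  have h1 := hprim'.prod_one_sub_pow_eq_order
  have h2 : ((n : Ω) + 1) = (q : Ω) := by rw [hn]; push_cast; rfl
  rw [h2] at h1
  rw [← h1, map_prod]
  have h3 : ∀ k ∈ Finset.range n, A.valuation (1 - ζ ^ (k + 1)) = A.valuation (1 - ζ) := by
    intro k hk
    apply S36BL_val_one_sub_pow A hprim.pow_eq_one
    intro hdvd
    have := Nat.le_of_dvd (Nat.succ_pos k) hdvd
    rw [Finset.mem_range] at hk
    omega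
  rw [Finset.prod_congr rfl h3, Finset.prod_const, Finset.card_range, hn, Nat.add_sub_cancel]

/-- the cyclotomic character of the inertia group. -/
def S36BL_chi {ζ : Ω} (hprim : IsPrimitiveRoot ζ q) :
    ↥(A.inertiaSubgroupIn ℚ) →* (ZMod q)ˣ :=
  haveI : NeZero q := ⟨hq.out.ne_zero⟩
  (hprim.autToPow ℚ).comp (A.inertiaSubgroupIn ℚ).subtype

theorem S36BL_chi_spec {ζ : Ω} (hprim : IsPrimitiveRoot ζ q) (τ : ↥(A.inertiaSubgroupIn ℚ)) :
    ζ ^ ((S36BL_chi A hprim τ : (ZMod q)ˣ) : ZMod q).val = (τ : Γ) ζ := by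
  haveI : NeZero q := ⟨hq.out.ne_zero⟩
  exact hprim.autToPow_spec ℚ (τ : Γ)

theorem S36BL_chi_ker {ζ : Ω} (hprim : IsPrimitiveRoot ζ q) (κ : ↥(A.inertiaSubgroupIn ℚ))
    (hκ : κ ∈ (S36BL_chi A hprim).ker) : (κ : Γ) ζ = ζ := by
  have h2 := S36BL_chi_spec A hprim κ
  have h3 : S36BL_chi A hprim κ = 1 := hκ
  rw [h3] at h2
  rw [← h2]
  have : ((1 : (ZMod q)ˣ) : ZMod q).val = 1 := by
    haveI : Fact (1 < q) := ⟨hq.out.one_lt⟩
    rw [Units.val_one, ZMod.val_one]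
  rw [this, pow_one]

/-- the index of the stabiliser of `ζ` in `I` divides `q - 1`. -/
theorem S36BL_card_range_dvd {ζ : Ω} (hprim : IsPrimitiveRoot ζ q) :
    Nat.card (S36BL_chi A hprim).range ∣ q - 1 := by
  haveI : NeZero q := ⟨hq.out.ne_zero⟩
  have h3 : Nat.card (S36BL_chi A hprim).range ∣ Nat.card (ZMod q)ˣ :=
    Subgroup.card_subgroup_dvd_card _
  have h4 : Nat.card (ZMod q)ˣ = q - 1 := by
    rw [Nat.card_eq_fintype_card, ZMod.card_units_eq_totient, Nat.totient_prime hq.out]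
  rwa [h4] at h3

/-- **the norm from `L(ζ)` to `L`**: if `c ≠ 0` is fixed by every element of `I` fixing `ζ`, then
`c ^ d` is `q ^ (-k)` times a unit, `d = [L(ζ) : L]` the order of the image of the cyclotomic
character. -/
theorem S36BL_norm (hA : A.LiesOverPrime q) {ζ : Ω} (hprim : IsPrimitiveRoot ζ q) {c : Ω}
    (hc : c ≠ 0) (hfix : ∀ τ ∈ A.inertiaSubgroupIn ℚ, τ ζ = ζ → τ c = c) :
    ∃ k : ℤ, A.valuation (c ^ Nat.card (S36BL_chi A hprim).range * (q : Ω) ^ k) = 1 := by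
  classical
  set χ := S36BL_chi A hprim with hχ
  have hker : ∀ κ : ↥(A.inertiaSubgroupIn ℚ), κ ∈ χ.ker → (κ : Γ) c = c :=
    fun κ hκ => hfix _ κ.2 (S36BL_chi_ker A hprim κ hκ)
  haveI : Finite (↥(A.inertiaSubgroupIn ℚ) ⧸ χ.ker) :=
    Finite.of_equiv _ (QuotientGroup.quotientKerEquivRange χ).toEquiv.symm
  letI : Fintype (↥(A.inertiaSubgroupIn ℚ) ⧸ χ.ker) := Fintype.ofFinite _
  set N : Ω := ∏ g : ↥(A.inertiaSubgroupIn ℚ) ⧸ χ.ker, ((g.out : ↥(A.inertiaSubgroupIn ℚ)) : Γ) c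
    with hN
  have hNfix : ∀ τ ∈ A.inertiaSubgroupIn ℚ, τ N = N := by
    intro τ hτ
    rw [hN, map_prod]
    have hterm : ∀ g : ↥(A.inertiaSubgroupIn ℚ) ⧸ χ.ker,
        τ (((g.out : ↥(A.inertiaSubgroupIn ℚ)) : Γ) c)
          = ((((QuotientGroup.mk ⟨τ, hτ⟩ : ↥(A.inertiaSubgroupIn ℚ) ⧸ χ.ker) * g).out :
              ↥(A.inertiaSubgroupIn ℚ)) : Γ) c := by
      intro g
      have hmk : (QuotientGroup.mk ((⟨τ, hτ⟩ : ↥(A.inertiaSubgroupIn ℚ)) * g.out) :
          ↥(A.inertiaSubgroupIn ℚ) ⧸ χ.ker)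
          = QuotientGroup.mk
            ((QuotientGroup.mk ⟨τ, hτ⟩ : ↥(A.inertiaSubgroupIn ℚ) ⧸ χ.ker) * g).out := by
        rw [QuotientGroup.out_eq', QuotientGroup.mk_mul, QuotientGroup.out_eq']
      rw [QuotientGroup.eq] at hmk
      have h5 := hker _ hmk
      have h6 : ((((QuotientGroup.mk ⟨τ, hτ⟩ : ↥(A.inertiaSubgroupIn ℚ) ⧸ χ.ker) * g).out :
              ↥(A.inertiaSubgroupIn ℚ)) : Γ) c
          = τ (((g.out : ↥(A.inertiaSubgroupIn ℚ)) : Γ)
              (((((⟨τ, hτ⟩ : ↥(A.inertiaSubgroupIn ℚ)) * g.out)⁻¹ *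
                ((QuotientGroup.mk ⟨τ, hτ⟩ : ↥(A.inertiaSubgroupIn ℚ) ⧸ χ.ker) * g).out :
                  ↥(A.inertiaSubgroupIn ℚ)) : Γ) c)) := by
        simp only [Subgroup.coe_mul, Subgroup.coe_inv, AlgEquiv.mul_apply]
        simp
      rw [h6, h5]
    rw [Finset.prod_congr rfl (fun g _ => hterm g)]
    exact Fintype.prod_equiv (Equiv.mulLeft (QuotientGroup.mk ⟨τ, hτ⟩)) _ _ (fun g => rfl)
  have hN0 : N ≠ 0 := by
    rw [hN]
    exact Finset.prod_ne_zero_iff.mpr (fun g _ => (map_ne_zero _).mpr hc)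
  obtain ⟨k₀, hk₀⟩ := S36BL_val' A hA hN0 hNfix
  have hvN : A.valuation N = A.valuation c ^ Fintype.card (↥(A.inertiaSubgroupIn ℚ) ⧸ χ.ker) := by
    rw [hN, map_prod]
    rw [Finset.prod_congr rfl (fun g _ => S36BL_dec_val A (S19D_inertia_le (g.out).2) c)]
    simp
  have hcard : Nat.card χ.range = Fintype.card (↥(A.inertiaSubgroupIn ℚ) ⧸ χ.ker) := by
    rw [← Nat.card_eq_fintype_card]
    exact (Nat.card_congr (QuotientGroup.quotientKerEquivRange χ).toEquiv).symm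
  refine ⟨k₀, ?_⟩
  rw [hcard, map_mul, map_pow, ← hvN, ← map_mul, hk₀]

/-- powers of `v(q)` are distinct. -/
theorem S36BL_zpow_inj (hA : A.LiesOverPrime q) {a b : ℤ}
    (h : A.valuation (q : Ω) ^ a = A.valuation (q : Ω) ^ b) : a = b := by
  have hq0 : (q : Ω) ≠ 0 := by exact_mod_cast hq.out.ne_zero
  have hw0 : A.valuation (q : Ω) ≠ 0 := (Valuation.ne_zero_iff _).2 hq0
  have hw1 : A.valuation (q : Ω) < 1 := A.mem_nonunits_iff.mp hA
  have hpos : 0 < A.valuation (q : Ω) := zero_lt_iff.mpr hw0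
  by_contra hne
  rcases lt_or_gt_of_ne hne with hlt | hlt
  · have := zpow_lt_zpow_right_of_lt_one₀ hpos hw1 hlt
    rw [h] at this
    exact lt_irrefl _ this
  · have := zpow_lt_zpow_right_of_lt_one₀ hpos hw1 hlt
    rw [h] at this
    exact lt_irrefl _ this

/-- **`L(ζ_q) / L` has degree `q - 1`**: the image of the cyclotomic character has `q - 1`
elements. -/
theorem S36BL_card_range (hA : A.LiesOverPrime q) {ζ : Ω} (hprim : IsPrimitiveRoot ζ q) :
    Nat.card (S36BL_chi A hprim).range = q - 1 := by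
  have hq1 : 1 < q := hq.out.one_lt
  have hζ1 : ζ ≠ 1 := hprim.ne_one hq1
  have hc : (1 - ζ : Ω) ≠ 0 := sub_ne_zero.mpr (Ne.symm hζ1)
  obtain ⟨k, hk⟩ := S36BL_norm A hA hprim hc (fun τ hτ h => by rw [map_sub, map_one, h])
  have hdvd := S36BL_card_range_dvd A hprim
  set d := Nat.card (S36BL_chi A hprim).range with hd
  have hval := S36BL_val_one_sub_zeta A hprim
  -- `v(q) ^ d = v(1 - ζ) ^ ((q - 1) d) = v(q) ^ (- k (q - 1))`
  have h1 : A.valuation (1 - ζ) ^ d * A.valuation (q : Ω) ^ k = 1 := by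
    rw [← map_pow, ← map_zpow₀, ← map_mul]; exact hk
  have hq0 : (q : Ω) ≠ 0 := by exact_mod_cast hq.out.ne_zero
  have hw0 : A.valuation (q : Ω) ≠ 0 := (Valuation.ne_zero_iff _).2 hq0
  have h2 : A.valuation (q : Ω) ^ ((d : ℤ) + k * ((q - 1 : ℕ) : ℤ)) = A.valuation (q : Ω) ^ (0 : ℤ) := by
    rw [zpow_add₀ hw0, zpow_mul, zpow_natCast, zpow_natCast, zpow_zero]
    calc A.valuation (q : Ω) ^ d * (A.valuation (q : Ω) ^ k) ^ (q - 1)
        = (A.valuation (1 - ζ) ^ (q - 1)) ^ d * (A.valuation (q : Ω) ^ k) ^ (q - 1) := by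
          rw [hval]
      _ = (A.valuation (1 - ζ) ^ d * A.valuation (q : Ω) ^ k) ^ (q - 1) := by
          rw [mul_pow, ← pow_mul, ← pow_mul, Nat.mul_comm d (q - 1)]
      _ = 1 := by rw [h1, one_pow]
  have h3 := S36BL_zpow_inj A hA h2
  -- `(q - 1) ∣ d`
  have h4 : ((q - 1 : ℕ) : ℤ) ∣ (d : ℤ) := ⟨-k, by linarith⟩
  have h5 : (q - 1) ∣ d := Int.natCast_dvd_natCast.mp h4
  exact Nat.dvd_antisymm hdvd h5

/-- the cyclotomic character of the inertia group is onto. -/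
theorem S36BL_chi_surjective (hA : A.LiesOverPrime q) {ζ : Ω} (hprim : IsPrimitiveRoot ζ q) :
    Function.Surjective (S36BL_chi A hprim) := by
  haveI : NeZero q := ⟨hq.out.ne_zero⟩
  have h4 : Nat.card (ZMod q)ˣ = q - 1 := by
    rw [Nat.card_eq_fintype_card, ZMod.card_units_eq_totient, Nat.totient_prime hq.out]
  have h1 : (S36BL_chi A hprim).range = ⊤ := by
    apply Subgroup.eq_top_of_card_eq
    rw [S36BL_card_range A hA hprim, h4]
  exact MonoidHom.range_eq_top.mp h1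

/-- **the inertia group acts transitively on the primitive `q`-th roots of unity**. -/
theorem S36BL_inertia_transitive (hA : A.LiesOverPrime q) {ζ ζ' : Ω}
    (hprim : IsPrimitiveRoot ζ q) (hprim' : IsPrimitiveRoot ζ' q) :
    ∃ τ ∈ A.inertiaSubgroupIn ℚ, τ ζ = ζ' := by
  haveI : NeZero q := ⟨hq.out.ne_zero⟩
  obtain ⟨i, hiq, hi⟩ := hprim.eq_pow_of_pow_eq_one hprim'.pow_eq_one
  have hi0 : ¬ q ∣ i := by
    intro hdvd
    obtain ⟨m, rfl⟩ := hdvd
    rw [pow_mul, hprim.pow_eq_one, one_pow] at hi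
    exact hprim'.ne_one hq.out.one_lt hi.symm
  have hcop : Nat.Coprime i q := ((Nat.Prime.coprime_iff_not_dvd hq.out).mpr hi0).symm
  obtain ⟨τ, hτ⟩ := S36BL_chi_surjective A hA hprim (ZMod.unitOfCoprime i hcop)
  refine ⟨τ, τ.2, ?_⟩
  rw [← S36BL_chi_spec A hprim τ, hτ, ZMod.coe_unitOfCoprime, ZMod.val_natCast,
    Nat.mod_eq_of_lt hiq, hi]

end

end Fermat.Agent.S36
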