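import Fermat.Agent.S36.Comp3
import Fermat.Agent.S34.Approx

/-!
# TRACK 10 (S36), package COMP3-INST part 1 (helper13): COMP3 for valuation subrings

Semi-concrete layer (Mathlib + `S34/Approx` + `S36/Comp3`).  The abstract datum `S36C3_Datum`
of COMP3 is built from

* five DISCRETE valuation subrings with residue maps into one field `Ω`
  (`S36CV_DV`: `O`, a uniformiser `π`, `dv` = every unit of `F` is `π^m ·` unit of `O`;
  `S36CV_Val` = `S36CV_DV` + `ρ : O →+* Ω` with kernel the maximal ideal):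
  `FF, FV, VV` on `F₂`, `F, V` on `F₁`;
* pairwise incomparability of `FF.O, FV.O, VV.O` (weak approximation for THREE valuations is
  proved here: `S36CV_idem3`, `S36CV_approx_v`, `S36CV_approx_r`);
* the base `A ⊂ L` (a DVR with uniformiser `ϖ`), the residue field `K ⊂ Ω`, the Frobenius
  substitution `Ψ`, the two norms with their valuation table and residue formulas.

`S36CV_main`: if both norms of `u` are trivial over `L`, then `u ^ ((q+1)(q-1)) · c · gⁿ` is a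
PRINCIPAL UNIT at `FF`, `FV` and `VV` (`u' - 1 ∈ 𝔪_i`), for suitable `c ∈ Lˣ`, `g ∈ F₂ˣ`.
-/

set_option autoImplicit false

namespace Fermat.Agent.S36

open Fermat.Agent.S34

section UG

variable {F : Type*} [Field F]

/-- the units of a valuation subring as a subgroup of `Fˣ`. -/
def S36CV_UG (O : ValuationSubring F) : Subgroup Fˣ where
  carrier := {u | (u : F) ∈ O ∧ ((u⁻¹ : Fˣ) : F) ∈ O}
  mul_mem' := by
    rintro a b ⟨ha, ha'⟩ ⟨hb, hb'⟩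
    refine ⟨?_, ?_⟩
    · rw [Units.val_mul]; exact O.mul_mem _ _ ha hb
    · rw [mul_inv, Units.val_mul]; exact O.mul_mem _ _ ha' hb'
  one_mem' := ⟨by rw [Units.val_one]; exact O.one_mem,
    by rw [inv_one, Units.val_one]; exact O.one_mem⟩
  inv_mem' := by
    rintro a ⟨ha, ha'⟩
    exact ⟨ha', by rw [inv_inv]; exact ha⟩

theorem S36CV_mem_UG {O : ValuationSubring F} {u : Fˣ} :
    u ∈ S36CV_UG O ↔ (u : F) ∈ O ∧ ((u⁻¹ : Fˣ) : F) ∈ O := Iff.rfl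

/-- `1 + a` is a unit for small `a`. -/
theorem S36CV_one_add_unit {O : ValuationSubring F} {a : F} (ha : S34AP_Small O a) :
    ∃ w : Fˣ, (w : F) = 1 + a ∧ w ∈ S36CV_UG O := by
  refine ⟨Units.mk0 (1 + a) ha.one_add_ne_zero, rfl, ?_, ?_⟩
  · exact O.add_mem _ _ O.one_mem ha.mem
  · rw [Units.val_inv_eq_inv_val]
    exact ha.inv_one_add_mem

/-- powers of a principal unit are principal units. -/
theorem S36CV_pow_sub_one {O : ValuationSubring F} {e : F} (he : S34AP_Small O (e - 1))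
    (N : ℕ) : S34AP_Small O (e ^ N - 1) := by
  have hmem : e ∈ O := by
    have := O.add_mem _ _ he.mem O.one_mem
    rwa [sub_add_cancel] at this
  induction N with
  | zero => rw [pow_zero, sub_self]; exact S34AP_small_zero O
  | succ N ih =>
    have : e ^ (N + 1) - 1 = (e - 1) * e ^ N + (e ^ N - 1) := by ring
    rw [this]
    exact (he.mul_mem (pow_mem hmem N)).add ih

end UG

/-- a discrete valuation subring with uniformiser. -/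
structure S36CV_DV (F : Type*) [Field F] where
  /-- the valuation ring -/
  O : ValuationSubring F
  /-- a uniformiser -/
  π : Fˣ
  π_mem : (π : F) ∈ O
  π_inv : ((π⁻¹ : Fˣ) : F) ∉ O
  dv : ∀ f : Fˣ, ∃ m : ℤ, f * π ^ (-m) ∈ S36CV_UG O

/-- a discrete valuation subring with uniformiser and residue map into `Ω`. -/
structure S36CV_Val (F Ω : Type*) [Field F] [Field Ω] extends S36CV_DV F where
  /-- the residue map -/
  ρ : O →+* Ω
  ρ_eq_zero : ∀ (x : F) (hx : x ∈ O), ρ ⟨x, hx⟩ = 0 ↔ S34AP_Small O x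

namespace S36CV_DV

variable {F : Type*} [Field F] (D : S36CV_DV F)

/-- the normalised valuation. -/
noncomputable def v (f : Fˣ) : ℤ := Classical.choose (D.dv f)

theorem v_spec (f : Fˣ) : f * D.π ^ (-(D.v f)) ∈ S36CV_UG D.O := Classical.choose_spec (D.dv f)

theorem pi_pow_mem (m : ℕ) : ((D.π ^ m : Fˣ) : F) ∈ D.O := by
  rw [Units.val_pow_eq_pow_val]
  exact pow_mem D.π_mem m

theorem pi_zpow_pos_not_unit (m : ℤ) (hm : 0 < m) : D.π ^ m ∉ S36CV_UG D.O := by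
  intro h
  apply D.π_inv
  obtain ⟨j, rfl⟩ : ∃ j : ℕ, m = j + 1 := ⟨(m - 1).toNat, by omega⟩
  have e : D.π⁻¹ = D.π ^ j * (D.π ^ ((j : ℤ) + 1))⁻¹ := by
    rw [zpow_add_one, mul_inv, zpow_natCast]
    rw [mul_comm (D.π ^ j)⁻¹, ← mul_assoc, mul_comm (D.π ^ j), mul_assoc, mul_inv_cancel, mul_one]
  rw [e, Units.val_mul]
  exact D.O.mul_mem _ _ (D.pi_pow_mem j) h.2

theorem pi_zpow_unit {m : ℤ} (h : D.π ^ m ∈ S36CV_UG D.O) : m = 0 := by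
  by_contra hm
  rcases lt_or_gt_of_ne hm with h1 | h1
  · have h2 : D.π ^ (-m) ∈ S36CV_UG D.O := by
      rw [zpow_neg]; exact (S36CV_UG D.O).inv_mem h
    exact D.pi_zpow_pos_not_unit (-m) (by omega) h2
  · exact D.pi_zpow_pos_not_unit m h1 h

theorem v_unique {f : Fˣ} {m : ℤ} (h : f * D.π ^ (-m) ∈ S36CV_UG D.O) : D.v f = m := by
  have h1 := (S36CV_UG D.O).mul_mem ((S36CV_UG D.O).inv_mem h) (D.v_spec f)
  have e : (f * D.π ^ (-m))⁻¹ * (f * D.π ^ (-(D.v f))) = D.π ^ (m - D.v f) := by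
    rw [mul_inv, zpow_neg, inv_inv, sub_eq_add_neg, zpow_add, zpow_neg]
    rw [mul_comm f⁻¹, mul_assoc, ← mul_assoc f⁻¹, inv_mul_cancel, one_mul]
  rw [e] at h1
  have := D.pi_zpow_unit h1
  omega

theorem v_eq_iff {f : Fˣ} {m : ℤ} : D.v f = m ↔ f * D.π ^ (-m) ∈ S36CV_UG D.O :=
  ⟨fun h => h ▸ D.v_spec f, D.v_unique⟩

theorem v_mul (f g : Fˣ) : D.v (f * g) = D.v f + D.v g := by
  apply D.v_unique
  have h := (S36CV_UG D.O).mul_mem (D.v_spec f) (D.v_spec g)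
  have e : f * D.π ^ (-(D.v f)) * (g * D.π ^ (-(D.v g))) =
      f * g * D.π ^ (-(D.v f + D.v g)) := by
    rw [neg_add, zpow_add]
    rw [mul_mul_mul_comm]
  rwa [e] at h

theorem v_eq_zero_iff {f : Fˣ} : D.v f = 0 ↔ f ∈ S36CV_UG D.O := by
  rw [D.v_eq_iff, neg_zero, zpow_zero, mul_one]

theorem v_one : D.v 1 = 0 := D.v_eq_zero_iff.2 (S36CV_UG D.O).one_mem

theorem v_inv (f : Fˣ) : D.v f⁻¹ = -D.v f := by
  have h := D.v_mul f f⁻¹
  rw [mul_inv_cancel, D.v_one] at h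
  omega

theorem v_pow (f : Fˣ) (j : ℕ) : D.v (f ^ j) = j * D.v f := by
  induction j with
  | zero => rw [pow_zero, D.v_one, Nat.cast_zero, zero_mul]
  | succ j ih => rw [pow_succ, D.v_mul, ih]; push_cast; ring

theorem v_zpow (f : Fˣ) (j : ℤ) : D.v (f ^ j) = j * D.v f := by
  cases j with
  | ofNat j => rw [Int.ofNat_eq_natCast, zpow_natCast, D.v_pow]
  | negSucc j =>
    rw [zpow_negSucc, D.v_inv, D.v_pow, Int.negSucc_eq]
    push_cast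
    ring

theorem v_pi : D.v D.π = 1 := by
  apply D.v_unique
  rw [zpow_neg, zpow_one, mul_inv_cancel]
  exact (S36CV_UG D.O).one_mem

theorem mem_iff (f : Fˣ) : (f : F) ∈ D.O ↔ 0 ≤ D.v f := by
  have hs := D.v_spec f
  have ef : f = (f * D.π ^ (-(D.v f))) * D.π ^ (D.v f) := by
    rw [mul_assoc, ← zpow_add, neg_add_cancel, zpow_zero, mul_one]
  constructor
  · intro hf
    by_contra hneg
    rw [not_le] at hneg
    -- `π^(v f) = w⁻¹ f ∈ O` and `π^(-v f) ∈ O`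
    have h1 : ((D.π ^ (D.v f) : Fˣ) : F) ∈ D.O := by
      have e : D.π ^ (D.v f) = (f * D.π ^ (-(D.v f)))⁻¹ * f := by
        rw [mul_inv, zpow_neg, inv_inv, mul_comm f⁻¹, mul_assoc, inv_mul_cancel, mul_one]
      rw [e, Units.val_mul]
      exact D.O.mul_mem _ _ hs.2 hf
    have h2 : ((D.π ^ (D.v f) : Fˣ)⁻¹ : Fˣ).1 ∈ D.O := by
      obtain ⟨j, hj⟩ : ∃ j : ℕ, -D.v f = j := ⟨(-D.v f).toNat, by omega⟩
      rw [← zpow_neg, hj, zpow_natCast]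
      exact D.pi_pow_mem j
    have := D.pi_zpow_unit (m := D.v f) ⟨h1, h2⟩
    omega
  · intro hv
    obtain ⟨j, hj⟩ : ∃ j : ℕ, D.v f = j := ⟨(D.v f).toNat, by omega⟩
    rw [ef, Units.val_mul, hj, zpow_natCast]
    rw [hj] at hs
    exact D.O.mul_mem _ _ hs.1 (D.pi_pow_mem j)

theorem small_iff (f : Fˣ) : S34AP_Small D.O (f : F) ↔ 0 < D.v f := by
  have h := D.mem_iff f⁻¹
  rw [D.v_inv] at h
  constructor
  · rintro (h0 | h1)
    · exact absurd h0 f.ne_zero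
    · rw [← Units.val_inv_eq_inv_val] at h1
      by_contra hneg
      exact h1 (h.2 (by omega))
  · intro hv
    right
    rw [← Units.val_inv_eq_inv_val]
    intro hmem
    have := h.1 hmem
    omega

/-- the valuation of a sum with distinct valuations. -/
theorem exists_add (x y : Fˣ) (h : D.v x < D.v y) :
    ∃ z : Fˣ, (z : F) = x + y ∧ D.v z = D.v x := by
  have hw : S34AP_Small D.O ((y * x⁻¹ : Fˣ) : F) := by
    rw [D.small_iff, D.v_mul, D.v_inv]; omega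
  obtain ⟨w, hw1, hw2⟩ := S36CV_one_add_unit hw
  refine ⟨x * w, ?_, ?_⟩
  · rw [Units.val_mul, hw1, Units.val_mul, Units.val_inv_eq_inv_val, mul_add, mul_one,
      mul_comm (y : F), ← mul_assoc, mul_inv_cancel₀ x.ne_zero, one_mul]
  · rw [D.v_mul, D.v_eq_zero_iff.2 hw2, add_zero]

end S36CV_DV

namespace S36CV_Val

variable {F Ω : Type*} [Field F] [Field Ω] (D : S36CV_Val F Ω)

/-! ### residues -/

open Classical in
/-- the residue of a unit, as a unit of `Ω` (junk value `1` for non-units). -/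
noncomputable def r (u : Fˣ) : Ωˣ :=
  if h : u ∈ S36CV_UG D.O then
    Units.mk0 (D.ρ ⟨u, h.1⟩) (by
      intro h0
      rcases (D.ρ_eq_zero _ h.1).1 h0 with h1 | h1
      · exact u.ne_zero h1
      · exact h1 (by rw [← Units.val_inv_eq_inv_val]; exact h.2))
  else 1

theorem r_val {u : Fˣ} (h : u ∈ S36CV_UG D.O) : ((D.r u : Ωˣ) : Ω) = D.ρ ⟨u, h.1⟩ := by
  rw [r, dif_pos h]
  rfl

theorem r_mul (a b : Fˣ) (ha : D.v a = 0) (hb : D.v b = 0) : D.r (a * b) = D.r a * D.r b := by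
  have ha' := D.v_eq_zero_iff.1 ha
  have hb' := D.v_eq_zero_iff.1 hb
  have hab := (S36CV_UG D.O).mul_mem ha' hb'
  apply Units.ext
  rw [Units.val_mul, D.r_val ha', D.r_val hb', D.r_val hab, ← map_mul]
  rfl

theorem r_congr {a b : Fˣ} (ha : a ∈ S36CV_UG D.O) (hb : b ∈ S36CV_UG D.O)
    (h : S34AP_Small D.O ((a : F) - b)) : D.r a = D.r b := by
  apply Units.ext
  rw [D.r_val ha, D.r_val hb]
  have h1 := (D.ρ_eq_zero _ (D.O.sub_mem ha.1 hb.1)).2 h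
  have e : (⟨(a : F) - b, D.O.sub_mem ha.1 hb.1⟩ : D.O) = ⟨a, ha.1⟩ - ⟨b, hb.1⟩ := rfl
  rw [e, map_sub, sub_eq_zero] at h1
  exact h1

theorem r_eq_one_iff {a : Fˣ} (ha : a ∈ S36CV_UG D.O) :
    D.r a = 1 ↔ S34AP_Small D.O ((a : F) - 1) := by
  have e : (⟨(a : F) - 1, D.O.sub_mem ha.1 D.O.one_mem⟩ : D.O) = ⟨a, ha.1⟩ - 1 := rfl
  rw [← D.ρ_eq_zero _ (D.O.sub_mem ha.1 D.O.one_mem), e, map_sub, map_one, sub_eq_zero,
    ← D.r_val ha]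
  constructor
  · intro h; rw [h]; rfl
  · intro h; exact Units.ext h

end S36CV_Val

/-! ### weak approximation for three valuation rings -/

section Approx3

variable {F : Type*} [Field F]

/-- make an element with `x ≡ 1 (𝔪₁)`, `x ≡ 0 (𝔪₂)` integral at a third valuation ring. -/
theorem S36CV_fix (O₁ O₂ O₃ : ValuationSubring F) (x : F) (h₁ : S34AP_Small O₁ (x - 1))
    (h₂ : S34AP_Small O₂ x) :
    ∃ x' : F, S34AP_Small O₁ (x' - 1) ∧ S34AP_Small O₂ x' ∧ x' ∈ O₃ := by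
  by_cases hx : x ∈ O₃
  · exact ⟨x, h₁, h₂, hx⟩
  refine ⟨x * (1 + (x ^ 2 - x))⁻¹, ?_, ?_, ?_⟩
  · have hb : S34AP_Small O₁ (x ^ 2 - x) := by
      have : x ^ 2 - x = (x - 1) + (x - 1) * (x - 1) := by ring
      rw [this]; exact h₁.add (h₁.mul_mem h₁.mem)
    have hne := hb.one_add_ne_zero
    have hD : (1 + (x ^ 2 - x)) * (1 + (x ^ 2 - x))⁻¹ = 1 := mul_inv_cancel₀ hne
    have : x * (1 + (x ^ 2 - x))⁻¹ - 1 = -((x - 1) * (x - 1)) * (1 + (x ^ 2 - x))⁻¹ := by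
      have e1 : x * (1 + (x ^ 2 - x))⁻¹ - 1 =
          x * (1 + (x ^ 2 - x))⁻¹ - (1 + (x ^ 2 - x)) * (1 + (x ^ 2 - x))⁻¹ := by rw [hD]
      rw [e1]
      ring
    rw [this]
    exact ((h₁.mul_mem h₁.mem).neg).mul_mem hb.inv_one_add_mem
  · have hb : S34AP_Small O₂ (x ^ 2 - x) := by
      have : x ^ 2 - x = x * x - x := by ring
      rw [this]; exact (h₂.mul_mem h₂.mem).sub h₂
    exact h₂.mul_mem hb.inv_one_add_mem
  · have hs : S34AP_Small O₃ x⁻¹ := S34AP_small_of_not_mem hx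
    have hx0 : x ≠ 0 := fun h => hx (h ▸ O₃.zero_mem)
    have hb : S34AP_Small O₃ (x⁻¹ ^ 2 - x⁻¹) := by
      have : x⁻¹ ^ 2 - x⁻¹ = x⁻¹ * x⁻¹ - x⁻¹ := by ring
      rw [this]; exact (hs.mul_mem hs.mem).sub hs
    have hne := hb.one_add_ne_zero
    have h1 : 1 + (x ^ 2 - x) = x ^ 2 * (1 + (x⁻¹ ^ 2 - x⁻¹)) := by
      field_simp
      ring
    have : x * (1 + (x ^ 2 - x))⁻¹ = x⁻¹ * (1 + (x⁻¹ ^ 2 - x⁻¹))⁻¹ := by
      rw [h1, mul_inv, ← mul_assoc]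
      congr 1
      field_simp
    rw [this]
    exact (hs.mul_mem hb.inv_one_add_mem).mem

/-- pairwise incomparability of three valuation subrings. -/
structure S36CV_Indep (O₁ O₂ O₃ : ValuationSubring F) : Prop where
  h12 : ¬ O₁ ≤ O₂
  h21 : ¬ O₂ ≤ O₁
  h13 : ¬ O₁ ≤ O₃
  h31 : ¬ O₃ ≤ O₁
  h23 : ¬ O₂ ≤ O₃
  h32 : ¬ O₃ ≤ O₂

theorem S36CV_Indep.rot {O₁ O₂ O₃ : ValuationSubring F} (h : S36CV_Indep O₁ O₂ O₃) :
    S36CV_Indep O₂ O₃ O₁ := ⟨h.h23, h.h32, h.h21, h.h12, h.h31, h.h13⟩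

/-- **idempotent-like element for three valuation rings**: `e ≡ 1 (𝔪₁)`, `e ≡ 0 (𝔪₂, 𝔪₃)`. -/
theorem S36CV_idem3 {O₁ O₂ O₃ : ValuationSubring F} (h : S36CV_Indep O₁ O₂ O₃) :
    ∃ e : F, S34AP_Small O₁ (e - 1) ∧ S34AP_Small O₂ e ∧ S34AP_Small O₃ e := by
  obtain ⟨x, -, -, hx1, hx2⟩ := S34AP_exists_idem O₁ O₂ h.h12 h.h21
  obtain ⟨y, -, -, hy1, hy3⟩ := S34AP_exists_idem O₁ O₃ h.h13 h.h31
  obtain ⟨x', hx1', hx2', hx3'⟩ := S36CV_fix O₁ O₂ O₃ x hx1 hx2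
  obtain ⟨y', hy1', hy3', hy2'⟩ := S36CV_fix O₁ O₃ O₂ y hy1 hy3
  refine ⟨x' * y', ?_, hx2'.mul_mem hy2', hy3'.mem_mul hx3'⟩
  have e : x' * y' - 1 = (x' - 1) * y' + (y' - 1) := by ring
  rw [e]
  have hy'mem : y' ∈ O₁ := by
    have := O₁.add_mem _ _ hy1'.mem O₁.one_mem
    rwa [sub_add_cancel] at this
  exact (hx1'.mul_mem hy'mem).add hy1'

/-- the idempotent as a unit, with its valuations. -/
theorem S36CV_idem3_v (D₁ D₂ D₃ : S36CV_DV F) (h : S36CV_Indep D₁.O D₂.O D₃.O) :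
    ∃ e f : Fˣ, (f : F) = 1 - e ∧ S34AP_Small D₁.O ((e : F) - 1) ∧
      D₁.v e = 0 ∧ 0 < D₁.v f ∧ 0 < D₂.v e ∧ D₂.v f = 0 ∧ 0 < D₃.v e ∧ D₃.v f = 0 := by
  obtain ⟨e, h1, h2, h3⟩ := S36CV_idem3 h
  obtain ⟨eu, heu, heu'⟩ := S36CV_one_add_unit h1
  rw [add_sub_cancel] at heu
  obtain ⟨fu, hfu, hfu'⟩ := S36CV_one_add_unit h2.neg
  rw [← sub_eq_add_neg] at hfu
  obtain ⟨fu₃, hfu₃, hfu₃'⟩ := S36CV_one_add_unit h3.neg
  rw [← sub_eq_add_neg] at hfu₃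
  have e3 : fu₃ = fu := Units.ext (by rw [hfu₃, hfu])
  rw [e3] at hfu₃'
  refine ⟨eu, fu, by rw [hfu, heu], by rw [heu]; exact h1, D₁.v_eq_zero_iff.2 heu', ?_, ?_,
    D₂.v_eq_zero_iff.2 hfu', ?_, D₃.v_eq_zero_iff.2 hfu₃'⟩
  · rw [← D₁.small_iff, hfu]
    have : (1 : F) - e = -(e - 1) := by ring
    rw [this]; exact h1.neg
  · rw [← D₂.small_iff, heu]; exact h2
  · rw [← D₃.small_iff, heu]; exact h3

/-- an element with valuations `(1, 0, 0)`. -/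
theorem S36CV_gen (D₁ D₂ D₃ : S36CV_DV F) (h : S36CV_Indep D₁.O D₂.O D₃.O) :
    ∃ g : Fˣ, D₁.v g = 1 ∧ D₂.v g = 0 ∧ D₃.v g = 0 := by
  obtain ⟨e, f, -, -, a1, a2, b1, b2, c1, c2⟩ := S36CV_idem3_v D₁ D₂ D₃ h
  set N : ℕ := 2 + (D₂.v D₁.π).natAbs + (D₃.v D₁.π).natAbs with hN
  set x : Fˣ := D₁.π * e ^ N with hx
  set y : Fˣ := f ^ N with hy
  have hNZ : (2 : ℤ) ≤ (N : ℤ) := by omega
  have hN2 : -(D₂.v D₁.π) + 2 ≤ (N : ℤ) := by omega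
  have hN3 : -(D₃.v D₁.π) + 2 ≤ (N : ℤ) := by omega
  have x1 : D₁.v x = 1 := by rw [hx, D₁.v_mul, D₁.v_pi, D₁.v_pow, a1, mul_zero, add_zero]
  have y1 : 2 ≤ D₁.v y := by
    rw [hy, D₁.v_pow]; nlinarith
  have x2 : 2 ≤ D₂.v x := by
    rw [hx, D₂.v_mul, D₂.v_pow]; nlinarith
  have y2 : D₂.v y = 0 := by rw [hy, D₂.v_pow, b2, mul_zero]
  have x3 : 2 ≤ D₃.v x := by
    rw [hx, D₃.v_mul, D₃.v_pow]; nlinarith
  have y3 : D₃.v y = 0 := by rw [hy, D₃.v_pow, c2, mul_zero]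
  obtain ⟨z, hz, hz1⟩ := D₁.exists_add x y (by omega)
  obtain ⟨z₂, hz₂, hz2⟩ := D₂.exists_add y x (by omega)
  obtain ⟨z₃, hz₃, hz3⟩ := D₃.exists_add y x (by omega)
  have e2 : z₂ = z := Units.ext (by rw [hz₂, hz, add_comm])
  have e3 : z₃ = z := Units.ext (by rw [hz₃, hz, add_comm])
  rw [e2] at hz2
  rw [e3] at hz3
  exact ⟨z, by rw [hz1, x1], by rw [hz2, y2], by rw [hz3, y3]⟩

/-- **weak approximation, values**: every triple of integers is the triple of valuations of a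
unit of `F`. -/
theorem S36CV_approx_v (D₁ D₂ D₃ : S36CV_DV F) (h : S36CV_Indep D₁.O D₂.O D₃.O)
    (a b c : ℤ) : ∃ g : Fˣ, D₁.v g = a ∧ D₂.v g = b ∧ D₃.v g = c := by
  obtain ⟨g₁, p1, p2, p3⟩ := S36CV_gen D₁ D₂ D₃ h
  obtain ⟨g₂, q2, q3, q1⟩ := S36CV_gen D₂ D₃ D₁ h.rot
  obtain ⟨g₃, r3, r1, r2⟩ := S36CV_gen D₃ D₁ D₂ h.rot.rot
  refine ⟨g₁ ^ a * g₂ ^ b * g₃ ^ c, ?_, ?_, ?_⟩
  · rw [D₁.v_mul, D₁.v_mul, D₁.v_zpow, D₁.v_zpow, D₁.v_zpow, p1, q1, r1]; ring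
  · rw [D₂.v_mul, D₂.v_mul, D₂.v_zpow, D₂.v_zpow, D₂.v_zpow, p2, q2, r2]; ring
  · rw [D₃.v_mul, D₃.v_mul, D₃.v_zpow, D₃.v_zpow, D₃.v_zpow, p3, q3, r3]; ring

/-- one summand of the approximation: `y ≡ x (𝔪₁)`, `y ≡ 0 (𝔪₂, 𝔪₃)`. -/
theorem S36CV_approx_one (D₁ D₂ D₃ : S36CV_DV F) (h : S36CV_Indep D₁.O D₂.O D₃.O)
    (x : Fˣ) (hx : x ∈ S36CV_UG D₁.O) :
    ∃ y : F, S34AP_Small D₁.O (y - x) ∧ S34AP_Small D₂.O y ∧ S34AP_Small D₃.O y := by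
  obtain ⟨e, f, -, he, a1, a2, b1, b2, c1, c2⟩ := S36CV_idem3_v D₁ D₂ D₃ h
  set N : ℕ := 1 + (D₂.v x).natAbs + (D₃.v x).natAbs with hN
  have hN2 : -(D₂.v x) + 1 ≤ (N : ℤ) := by omega
  have hN3 : -(D₃.v x) + 1 ≤ (N : ℤ) := by omega
  refine ⟨((x * e ^ N : Fˣ) : F), ?_, ?_, ?_⟩
  · have e1 : ((x * e ^ N : Fˣ) : F) - x = (x : F) * ((e : F) ^ N - 1) := by
      rw [Units.val_mul, Units.val_pow_eq_pow_val]; ring
    rw [e1]
    exact (S36CV_pow_sub_one he N).mem_mul hx.1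
  · rw [D₂.small_iff, D₂.v_mul, D₂.v_pow]; nlinarith
  · rw [D₃.small_iff, D₃.v_mul, D₃.v_pow]; nlinarith

/-- **weak approximation, residues**: three units are simultaneously approximated. -/
theorem S36CV_approx_r (D₁ D₂ D₃ : S36CV_DV F) (h : S36CV_Indep D₁.O D₂.O D₃.O)
    (x₁ x₂ x₃ : Fˣ) (h₁ : x₁ ∈ S36CV_UG D₁.O) (h₂ : x₂ ∈ S36CV_UG D₂.O)
    (h₃ : x₃ ∈ S36CV_UG D₃.O) :
    ∃ g : Fˣ, g ∈ S36CV_UG D₁.O ∧ g ∈ S36CV_UG D₂.O ∧ g ∈ S36CV_UG D₃.O ∧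
      S34AP_Small D₁.O ((g : F) - x₁) ∧ S34AP_Small D₂.O ((g : F) - x₂) ∧
      S34AP_Small D₃.O ((g : F) - x₃) := by
  obtain ⟨y₁, a1, a2, a3⟩ := S36CV_approx_one D₁ D₂ D₃ h x₁ h₁
  obtain ⟨y₂, b2, b3, b1⟩ := S36CV_approx_one D₂ D₃ D₁ h.rot x₂ h₂
  obtain ⟨y₃, c3, c1, c2⟩ := S36CV_approx_one D₃ D₁ D₂ h.rot.rot x₃ h₃
  have s1 : S34AP_Small D₁.O (y₁ + y₂ + y₃ - x₁) := by
    have : y₁ + y₂ + y₃ - x₁ = (y₁ - x₁) + y₂ + y₃ := by ring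
    rw [this]; exact (a1.add b1).add c1
  have s2 : S34AP_Small D₂.O (y₁ + y₂ + y₃ - x₂) := by
    have : y₁ + y₂ + y₃ - x₂ = (y₂ - x₂) + y₁ + y₃ := by ring
    rw [this]; exact (b2.add a2).add c2
  have s3 : S34AP_Small D₃.O (y₁ + y₂ + y₃ - x₃) := by
    have : y₁ + y₂ + y₃ - x₃ = (y₃ - x₃) + y₁ + y₂ := by ring
    rw [this]; exact (c3.add a3).add b3
  have key : ∀ (O : ValuationSubring F) (x : Fˣ), x ∈ S36CV_UG O →
      S34AP_Small O (y₁ + y₂ + y₃ - x) →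
      y₁ + y₂ + y₃ ≠ 0 ∧ y₁ + y₂ + y₃ ∈ O ∧ (y₁ + y₂ + y₃)⁻¹ ∈ O := by
    intro O x hx hs
    have hxi : (x : F)⁻¹ ∈ O := by rw [← Units.val_inv_eq_inv_val]; exact hx.2
    obtain ⟨n1, n2⟩ := S34AP_inv_mem_of_small_sub hxi x.ne_zero hs
    refine ⟨n1, ?_, n2⟩
    have := O.add_mem _ _ hs.mem hx.1
    rwa [sub_add_cancel] at this
  obtain ⟨n0, m1, i1⟩ := key D₁.O x₁ h₁ s1
  obtain ⟨-, m2, i2⟩ := key D₂.O x₂ h₂ s2
  obtain ⟨-, m3, i3⟩ := key D₃.O x₃ h₃ s3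
  refine ⟨Units.mk0 _ n0, ⟨m1, ?_⟩, ⟨m2, ?_⟩, ⟨m3, ?_⟩, s1, s2, s3⟩
  · rw [Units.val_inv_eq_inv_val]; exact i1
  · rw [Units.val_inv_eq_inv_val]; exact i2
  · rw [Units.val_inv_eq_inv_val]; exact i3

/-- discrete valuation rings are maximal: an inclusion is an equality. -/
theorem S36CV_DV.le_of_le (D₁ D₂ : S36CV_DV F) (h : D₁.O ≤ D₂.O) : D₂.O ≤ D₁.O := by
  have hUG : ∀ u : Fˣ, u ∈ S36CV_UG D₁.O → u ∈ S36CV_UG D₂.O := fun u hu => ⟨h hu.1, h hu.2⟩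
  have key : ∀ x : Fˣ, D₂.v x = D₁.v x * D₂.v D₁.π := by
    intro x
    have h1 := D₂.v_eq_zero_iff.2 (hUG _ (D₁.v_spec x))
    rw [D₂.v_mul, D₂.v_zpow] at h1
    linarith
  have hc : D₂.v D₁.π = 1 := by
    have h1 := key D₂.π
    rw [D₂.v_pi] at h1
    have h2 : 0 ≤ D₂.v D₁.π := (D₂.mem_iff D₁.π).1 (h D₁.π_mem)
    rcases Int.mul_eq_one_iff_eq_one_or_neg_one.1 h1.symm with ⟨-, h3⟩ | ⟨-, h3⟩
    · exact h3
    · omega
  intro z hz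
  by_cases hz0 : z = 0
  · rw [hz0]; exact D₁.O.zero_mem
  have h1 := (D₂.mem_iff (Units.mk0 z hz0)).1 hz
  rw [key, hc, mul_one] at h1
  exact (D₁.mem_iff (Units.mk0 z hz0)).2 h1

/-- three pairwise distinct discrete valuation rings are pairwise incomparable. -/
theorem S36CV_Indep.of_ne (D₁ D₂ D₃ : S36CV_DV F) (h12 : D₁.O ≠ D₂.O) (h13 : D₁.O ≠ D₃.O)
    (h23 : D₂.O ≠ D₃.O) : S36CV_Indep D₁.O D₂.O D₃.O where
  h12 := fun h => h12 (le_antisymm h (D₁.le_of_le D₂ h))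
  h21 := fun h => h12 (le_antisymm (D₂.le_of_le D₁ h) h)
  h13 := fun h => h13 (le_antisymm h (D₁.le_of_le D₃ h))
  h31 := fun h => h13 (le_antisymm (D₃.le_of_le D₁ h) h)
  h23 := fun h => h23 (le_antisymm h (D₂.le_of_le D₃ h))
  h32 := fun h => h23 (le_antisymm (D₃.le_of_le D₂ h) h)

/-- a unit of one ring that is not a unit of the other separates the rings. -/
theorem S36CV_ne_of_unit {O₁ O₂ : ValuationSubring F} (x : Fˣ) (h₁ : x ∈ S36CV_UG O₁)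
    (h₂ : x ∉ S36CV_UG O₂) : O₁ ≠ O₂ := by
  rintro rfl
  exact h₂ h₁

end Approx3

end Fermat.Agent.S36
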