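import Mathlib

/-!
# TRACK 10 (S36), package F4 = INT (R12) (helper17), abstract part.  Prefix `S36IT_`.  Mathlib only.

## Part A: the local ring at a closed point is the intersection of the valuation rings through it

`Λ = {x : K | ∀ i, v i x ≤ 1}` (finite character, archimedean values), `y : Λ →+* k` a closed
point.  A valuation `v i` is **through `y`** (`i ∈ S36IT_thru v Λ y`) if its centre on `Λ` is
contained in `ker y`:  `∀ x : Λ, v i x < 1 → y x = 0`.

* `S36IT_exists_den` (**INT**): `v i f ≤ 1` for every `i` through `y` ⇒ `∃ d : Λ, y d ≠ 0 ∧ d * f ∈ Λ`;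
* `S36IT_loc v Λ y : Subring K` = `{x | ∃ d : Λ, y d ≠ 0 ∧ d * x ∈ Λ}` (the localisation `Λ_y`);
* `S36IT_mem_loc_iff` : `x ∈ Λ_y ↔ ∀ i ∈ thru, v i x ≤ 1`  (the shape `hR` of `S36LI_val`).

## Part B: minimal polynomials over the inertia field

`L ⊂ Ω` normal, `𝔸 ⊂ Ω` a valuation ring with residue map `res : 𝔸 → k`, such that every
`σ : Ω ≃ₐ[L] Ω` keeps `𝔸` and acts trivially on the residues (`Gal(Ω/L)` = inertia).
`S36IT_RedTo 𝔸 res μ P` : `μ : L[X]` has coefficients in `𝔸` and reduces to `P : k[X]`.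

* `S36IT_minpoly_red`  : `a ∈ 𝔸` ⇒ `minpoly L a` reduces to `(X − ā) ^ deg`;
* `S36IT_reverse_red`  : `a ∉ 𝔸` ⇒ `(minpoly L a⁻¹).reverse` (which kills `a`) reduces to `1`.

## Part C: horizontal places through `y` specialise to `y`

`ev : Λ →+* Ω` the evaluation at a horizontal place `Q` (a `ℚ̄`-point of the generic fibre).

* `S36IT_eval_red` : `Q` through `y`, `μ (ev φ) = 0`, `μ` reduces to `P` ⇒ `P (y φ) = 0`;
* `S36IT_thru_spec` : `Q` through `y` ⇒ `∀ φ : Λ, ev φ ∈ 𝔸 ∧ y φ = res (ev φ)`;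
* `S36IT_horiz_den` : if `ev φ ∉ 𝔸` or `res (ev φ) ≠ y φ` for some `φ`, there is `d : Λ` with
  `ev d = 0` and `y d ≠ 0` (the designer's `d = μ(φ)`).
-/

set_option autoImplicit false

open Polynomial

namespace Fermat.Agent.S36

/-! ### Part A -/

section loc

variable {K : Type*} [Field K] {Γ₀ : Type*} [LinearOrderedCommGroupWithZero Γ₀] {ι : Type*}
  {k : Type*} [Field k]

/-- the valuations through the closed point `y`: the centre on `Λ` is contained in `ker y`. -/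
def S36IT_thru (v : ι → Valuation K Γ₀) (Λ : Subring K) (y : Λ →+* k) : Set ι :=
  {i | ∀ x : Λ, v i (x : K) < 1 → y x = 0}

theorem S36IT_mem_thru {v : ι → Valuation K Γ₀} {Λ : Subring K} {y : Λ →+* k} {i : ι} :
    i ∈ S36IT_thru v Λ y ↔ ∀ x : Λ, v i (x : K) < 1 → y x = 0 := Iff.rfl

/-- a denominator has value `1` at every valuation through `y`. -/
theorem S36IT_val_den {v : ι → Valuation K Γ₀} {Λ : Subring K}
    (hΛ : ∀ x : K, x ∈ Λ → ∀ i, v i x ≤ 1) {y : Λ →+* k} {i : ι}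
    (hi : i ∈ S36IT_thru v Λ y) {d : Λ} (hd : y d ≠ 0) : v i (d : K) = 1 :=
  le_antisymm (hΛ _ d.2 i) (not_lt.1 fun h => hd (hi d h))

/-- **INT (R12)**: an element of `K` which is integral at every valuation through `y` has a
denominator in `Λ` not vanishing at `y`. -/
theorem S36IT_exists_den (v : ι → Valuation K Γ₀) (Λ : Subring K)
    (hΛ : ∀ x : K, x ∈ Λ ↔ ∀ i, v i x ≤ 1)
    (hfin : ∀ x : K, x ≠ 0 → {i | 1 < v i x}.Finite)
    (harch : ∀ (i : ι) (d x : K), v i d < 1 → ∃ n : ℕ, v i d ^ n * v i x ≤ 1)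
    (y : Λ →+* k) (f : K) (hf : ∀ i ∈ S36IT_thru v Λ y, v i f ≤ 1) :
    ∃ d : Λ, y d ≠ 0 ∧ (d : K) * f ∈ Λ := by
  classical
  rcases eq_or_ne f 0 with rfl | hf0
  · refine ⟨1, ?_, ?_⟩
    · rw [map_one]; exact one_ne_zero
    · rw [mul_zero]; exact Λ.zero_mem
  set S := (hfin f hf0).toFinset with hSdef
  have hS : ∀ i, i ∈ S ↔ 1 < v i f := fun i => by rw [hSdef, Set.Finite.mem_toFinset]; rfl
  have hex : ∀ i : ι, ∃ d : Λ, ∃ n : ℕ, y d ≠ 0 ∧ (1 < v i f → v i (d : K) ^ n * v i f ≤ 1) := by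
    intro i
    by_cases hi : 1 < v i f
    · have hnot : i ∉ S36IT_thru v Λ y := fun h => not_le.2 hi (hf i h)
      rw [S36IT_mem_thru] at hnot
      push Not at hnot
      obtain ⟨d, hd, hyd⟩ := hnot
      obtain ⟨n, hn⟩ := harch i d f hd
      exact ⟨d, n, hyd, fun _ => hn⟩
    · exact ⟨1, 0, by rw [map_one]; exact one_ne_zero, fun h => absurd h hi⟩
  choose d n hyd hdn using hex
  have hle : ∀ (i : ι) (x : Λ), v i (x : K) ≤ 1 := fun i x => (hΛ _).1 x.2 i
  refine ⟨∏ i ∈ S, d i ^ n i, ?_, ?_⟩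
  · rw [map_prod]
    exact Finset.prod_ne_zero_iff.2 fun i _ => by rw [map_pow]; exact pow_ne_zero _ (hyd i)
  · rw [hΛ]
    intro j
    rw [map_mul]
    by_cases hj : j ∈ S
    · have e : ((∏ i ∈ S, d i ^ n i : Λ) : K) =
          ((d j ^ n j : Λ) : K) * ((∏ i ∈ S.erase j, d i ^ n i : Λ) : K) := by
        rw [← Subring.coe_mul, Finset.mul_prod_erase S (fun i => d i ^ n i) hj]
      rw [e, map_mul, mul_assoc, mul_comm (v j _) (v j f), ← mul_assoc]
      have h1 : v j ((d j ^ n j : Λ) : K) * v j f ≤ 1 := by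
        rw [Subring.coe_pow, map_pow]
        exact hdn j ((hS j).1 hj)
      exact mul_le_one' h1 (hle j _)
    · have hfj : v j f ≤ 1 := not_lt.1 fun h => hj ((hS j).2 h)
      exact mul_le_one' (hle j _) hfj

/-- the localisation `Λ_y`, as a subring of `K`. -/
def S36IT_loc (Λ : Subring K) (y : Λ →+* k) : Subring K where
  carrier := {x | ∃ d : Λ, y d ≠ 0 ∧ (d : K) * x ∈ Λ}
  one_mem' := ⟨1, by rw [map_one]; exact one_ne_zero, by
    rw [Subring.coe_one, mul_one]; exact Λ.one_mem⟩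
  zero_mem' := ⟨1, by rw [map_one]; exact one_ne_zero, by rw [mul_zero]; exact Λ.zero_mem⟩
  mul_mem' := by
    rintro a b ⟨d, hd, hda⟩ ⟨e, he, heb⟩
    refine ⟨d * e, by rw [map_mul]; exact mul_ne_zero hd he, ?_⟩
    have : ((d * e : Λ) : K) * (a * b) = ((d : K) * a) * ((e : K) * b) := by
      rw [Subring.coe_mul]; ring
    rw [this]
    exact Λ.mul_mem hda heb
  add_mem' := by
    rintro a b ⟨d, hd, hda⟩ ⟨e, he, heb⟩
    refine ⟨d * e, by rw [map_mul]; exact mul_ne_zero hd he, ?_⟩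
    have : ((d * e : Λ) : K) * (a + b) = (e : K) * ((d : K) * a) + (d : K) * ((e : K) * b) := by
      rw [Subring.coe_mul]; ring
    rw [this]
    exact Λ.add_mem (Λ.mul_mem e.2 hda) (Λ.mul_mem d.2 heb)
  neg_mem' := by
    rintro a ⟨d, hd, hda⟩
    refine ⟨d, hd, ?_⟩
    rw [mul_neg]
    exact Λ.neg_mem hda

theorem S36IT_mem_loc {Λ : Subring K} {y : Λ →+* k} {x : K} :
    x ∈ S36IT_loc Λ y ↔ ∃ d : Λ, y d ≠ 0 ∧ (d : K) * x ∈ Λ := Iff.rfl

theorem S36IT_le_loc (Λ : Subring K) (y : Λ →+* k) : Λ ≤ S36IT_loc Λ y := fun x hx =>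
  ⟨1, by rw [map_one]; exact one_ne_zero, by rw [Subring.coe_one, one_mul]; exact hx⟩

/-- the inverse of a denominator lies in `Λ_y`. -/
theorem S36IT_inv_mem_loc {Λ : Subring K} {y : Λ →+* k} {d : Λ} (hd : y d ≠ 0) :
    ((d : K))⁻¹ ∈ S36IT_loc Λ y := by
  have hd0 : (d : K) ≠ 0 := by
    intro h
    apply hd
    have : d = 0 := Subtype.ext h
    rw [this, map_zero]
  exact ⟨d, hd, by rw [mul_inv_cancel₀ hd0]; exact Λ.one_mem⟩

/-- **`Λ_y` is the intersection of the valuation rings through `y`**. -/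
theorem S36IT_mem_loc_iff (v : ι → Valuation K Γ₀) (Λ : Subring K)
    (hΛ : ∀ x : K, x ∈ Λ ↔ ∀ i, v i x ≤ 1)
    (hfin : ∀ x : K, x ≠ 0 → {i | 1 < v i x}.Finite)
    (harch : ∀ (i : ι) (d x : K), v i d < 1 → ∃ n : ℕ, v i d ^ n * v i x ≤ 1)
    (y : Λ →+* k) (x : K) :
    x ∈ S36IT_loc Λ y ↔ ∀ i ∈ S36IT_thru v Λ y, v i x ≤ 1 := by
  constructor
  · rintro ⟨d, hd, hdx⟩ i hi
    have h1 := (hΛ _).1 hdx i
    rwa [map_mul, S36IT_val_den (fun x hx => (hΛ x).1 hx) hi hd, one_mul] at h1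
  · intro h
    exact S36IT_exists_den v Λ hΛ hfin harch y x h

/-- `harch` for values in `ℤᵐ⁰`. -/
theorem S36IT_harch_int {ι : Type*} (v : ι → Valuation K (WithZero (Multiplicative ℤ)))
    (i : ι) (d x : K) (hd : v i d < 1) : ∃ n : ℕ, v i d ^ n * v i x ≤ 1 := by
  rcases eq_or_ne (v i x) 0 with hx | hx
  · exact ⟨0, by rw [hx, mul_zero]; exact zero_le_one⟩
  rcases eq_or_ne (v i d) 0 with hd0 | hd0
  · exact ⟨1, by rw [hd0, pow_one, zero_mul]; exact zero_le_one⟩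
  -- both non-zero: use `log`
  have hdl : WithZero.log (v i d) < 0 := by
    rw [← WithZero.log_one]
    exact (WithZero.log_lt_log hd0 one_ne_zero).2 hd
  set a : ℤ := WithZero.log (v i d) with ha
  set b : ℤ := WithZero.log (v i x) with hb
  refine ⟨b.toNat, ?_⟩
  rw [← WithZero.log_le_log (mul_ne_zero (pow_ne_zero _ hd0) hx) one_ne_zero,
    WithZero.log_mul (pow_ne_zero _ hd0) hx, WithZero.log_pow, WithZero.log_one, ← ha, ← hb]
  have h1 : (b.toNat : ℤ) * a ≤ -(b.toNat : ℤ) := by nlinarith [Int.natCast_nonneg b.toNat]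
  have h2 : b ≤ (b.toNat : ℤ) := Int.self_le_toNat b
  simp only [nsmul_eq_mul]
  linarith

end loc

/-! ### Part B -/

section minpoly

variable {L Ω k : Type*} [Field L] [Field Ω] [Algebra L Ω] [Field k]

/-- `μ : L[X]` has coefficients in `𝔸` and reduces to `P : k[X]`. -/
def S36IT_RedTo (𝔸 : Subring Ω) (res : 𝔸 →+* k) (μ : Polynomial L) (P : Polynomial k) : Prop :=
  ∀ i : ℕ, ∃ h : algebraMap L Ω (μ.coeff i) ∈ 𝔸, res ⟨_, h⟩ = P.coeff i

/-- a polynomial over `𝔸` whose image in `Ω[X]` is defined over `L` gives `S36IT_RedTo`. -/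
theorem S36IT_redTo_of_lift {𝔸 : Subring Ω} {res : 𝔸 →+* k} {μ : Polynomial L} (Q : Polynomial 𝔸)
    (hQ : Q.map 𝔸.subtype = μ.map (algebraMap L Ω)) : S36IT_RedTo 𝔸 res μ (Q.map res) := by
  intro i
  have h1 : algebraMap L Ω (μ.coeff i) = ((Q.coeff i : 𝔸) : Ω) := by
    have := congrArg (fun p => p.coeff i) hQ
    simp only [coeff_map] at this
    exact this.symm
  refine ⟨h1 ▸ (Q.coeff i).2, ?_⟩
  rw [coeff_map]
  congr 1
  exact Subtype.ext h1

variable [Normal L Ω] (𝔸 : ValuationSubring Ω) (res : 𝔸.toSubring →+* k)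
  (hI : ∀ (σ : Ω ≃ₐ[L] Ω) (a : Ω) (ha : a ∈ 𝔸.toSubring),
    ∃ h : σ a ∈ 𝔸.toSubring, res ⟨σ a, h⟩ = res ⟨a, ha⟩)

include hI in
/-- **the minimal polynomial over the inertia field** of `a ∈ 𝔸` has coefficients in `𝔸` and
reduces to `(X − ā) ^ deg`. -/
theorem S36IT_minpoly_red (a : Ω) (ha : a ∈ 𝔸.toSubring) :
    S36IT_RedTo 𝔸.toSubring res (minpoly L a)
      ((X - C (res ⟨a, ha⟩)) ^ (minpoly L a).natDegree) := by
  classical
  have hint : IsIntegral L a := Normal.isIntegral ‹Normal L Ω› a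
  have halg : IsAlgebraic L a := hint.isAlgebraic
  have hmon : (minpoly L a).Monic := minpoly.monic hint
  set pΩ : Polynomial Ω := (minpoly L a).map (algebraMap L Ω) with hpΩ
  have hsplit : pΩ.Splits := Normal.splits ‹Normal L Ω› a
  have hmonΩ : pΩ.Monic := hmon.map _
  have hroot : ∀ r ∈ pΩ.roots, ∃ h : r ∈ 𝔸.toSubring, res ⟨r, h⟩ = res ⟨a, ha⟩ := by
    intro r hr
    have hr0 : aeval r (minpoly L a) = 0 := by
      have := (mem_roots hmonΩ.ne_zero).1 hr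
      rwa [IsRoot.def, hpΩ, eval_map_algebraMap] at this
    obtain ⟨σ, hσ⟩ := minpoly.exists_algEquiv_of_root' halg hr0
    obtain ⟨h, hres⟩ := hI σ a ha
    exact ⟨hσ ▸ h, by
      have e : (⟨r, hσ ▸ h⟩ : 𝔸.toSubring) = ⟨σ a, h⟩ := Subtype.ext hσ.symm
      rw [e, hres]⟩
  -- the lift to `𝔸[X]`
  set Q : Polynomial 𝔸.toSubring :=
    (pΩ.roots.attach.map fun r => X - C (⟨r.1, (hroot r.1 r.2).choose⟩ : 𝔸.toSubring)).prod
    with hQdef
  have hQ1 : Q.map 𝔸.toSubring.subtype = pΩ := by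
    rw [hQdef, Polynomial.map_multiset_prod, Multiset.map_map]
    have e : (pΩ.roots.attach.map
        ((Polynomial.map 𝔸.toSubring.subtype) ∘ fun r =>
          X - C (⟨r.1, (hroot r.1 r.2).choose⟩ : 𝔸.toSubring))) =
        (pΩ.roots.attach.map fun r => X - C (r.1 : Ω)) := by
      refine Multiset.map_congr rfl fun r _ => ?_
      simp
    rw [e]
    have e2 : (pΩ.roots.attach.map fun r => X - C (r.1 : Ω)) =
        pΩ.roots.map (fun r => X - C r) := by
      conv_rhs => rw [← Multiset.attach_map_val pΩ.roots]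
      rw [Multiset.map_map]
      rfl
    rw [e2]
    exact (hsplit.eq_prod_roots_of_monic hmonΩ).symm
  have hQ2 : Q.map res = (X - C (res ⟨a, ha⟩)) ^ (minpoly L a).natDegree := by
    rw [hQdef, Polynomial.map_multiset_prod, Multiset.map_map]
    have e : (pΩ.roots.attach.map
        ((Polynomial.map res) ∘ fun r =>
          X - C (⟨r.1, (hroot r.1 r.2).choose⟩ : 𝔸.toSubring))) =
        (pΩ.roots.attach.map fun _ => X - C (res ⟨a, ha⟩)) := by
      refine Multiset.map_congr rfl fun r _ => ?_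
      simp only [Function.comp_apply, Polynomial.map_sub, map_X, map_C]
      rw [(hroot r.1 r.2).choose_spec]
    rw [e, Multiset.map_const', Multiset.prod_replicate, Multiset.card_attach,
      ← hsplit.natDegree_eq_card_roots, hpΩ,
      natDegree_map_eq_of_injective (algebraMap L Ω).injective]
  have := S36IT_redTo_of_lift (res := res) (μ := minpoly L a) Q hQ1
  rwa [hQ2] at this

include hI in
/-- for `a ∉ 𝔸` the reversed minimal polynomial of `a⁻¹` kills `a` and reduces to `1`. -/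
theorem S36IT_reverse_red (hres : ∀ b : 𝔸.toSubring, ¬ IsUnit b → res b = 0) (a : Ω)
    (ha : a ∉ 𝔸.toSubring) :
    aeval a (minpoly L a⁻¹).reverse = 0 ∧
      S36IT_RedTo 𝔸.toSubring res (minpoly L a⁻¹).reverse 1 := by
  classical
  have ha0 : a ≠ 0 := fun h => ha (h ▸ 𝔸.toSubring.zero_mem)
  have hb : a⁻¹ ∈ 𝔸.toSubring := (𝔸.mem_or_inv_mem a).resolve_left ha
  have hbu : ¬ IsUnit (⟨a⁻¹, hb⟩ : 𝔸.toSubring) := by
    rintro ⟨u, hu⟩
    apply ha
    have h1 : ((u : 𝔸.toSubring) : Ω) * (((u⁻¹ : (𝔸.toSubring)ˣ) : 𝔸.toSubring) : Ω) = 1 := by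
      exact_mod_cast congrArg (fun z : 𝔸.toSubring => (z : Ω)) u.mul_inv
    have h2 : ((u : 𝔸.toSubring) : Ω) = a⁻¹ := congrArg Subtype.val hu
    rw [h2] at h1
    have h3 : (((u⁻¹ : (𝔸.toSubring)ˣ) : 𝔸.toSubring) : Ω) = a := by
      have := congrArg (fun z => a * z) h1
      simp only [mul_one, ← mul_assoc, mul_inv_cancel₀ ha0, one_mul] at this
      exact this
    rw [← h3]
    exact ((u⁻¹ : (𝔸.toSubring)ˣ) : 𝔸.toSubring).2
  have hres0 : res ⟨a⁻¹, hb⟩ = 0 := hres _ hbu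
  have hred := S36IT_minpoly_red 𝔸 res hI a⁻¹ hb
  rw [hres0, C_0, sub_zero] at hred
  constructor
  · let _ : Invertible a⁻¹ := invertibleOfNonzero (inv_ne_zero ha0)
    have h := (eval₂_reverse_eq_zero_iff (algebraMap L Ω) a⁻¹ (minpoly L a⁻¹)).2
      (minpoly.aeval L a⁻¹)
    rwa [invOf_eq_inv, inv_inv] at h
  · intro i
    obtain ⟨h, hh⟩ := hred (revAt (minpoly L a⁻¹).natDegree i)
    rw [coeff_reverse]
    refine ⟨h, ?_⟩
    rw [hh, coeff_X_pow, coeff_one]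
    by_cases hi : i = 0
    · subst hi
      rw [revAt_le (Nat.zero_le _), Nat.sub_zero, if_pos rfl, if_pos rfl]
    · rw [if_neg hi, if_neg]
      intro hcon
      by_cases hle : i ≤ (minpoly L a⁻¹).natDegree
      · rw [revAt_le hle] at hcon
        omega
      · rw [revAt, Function.Embedding.coeFn_mk, if_neg hle] at hcon
        omega

end minpoly

/-! ### Part C -/

section horiz

variable {L K Ω k : Type*} [Field L] [Field K] [Algebra L K] [Field Ω] [Algebra L Ω] [Field k]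

/-- the data of a horizontal place over a lattice `Λ ⊂ K`: evaluation `ev : Λ → Ω`, compatible
with the constants, which are integral (`∈ Λ`) as soon as they lie in `𝔸`, and on which `y` is
the residue map. -/
structure S36IT_Horiz (Λ : Subring K) (y : Λ →+* k) (𝔸 : Subring Ω) (res : 𝔸 →+* k)
    (ev : Λ →+* Ω) : Prop where
  const_mem : ∀ c : L, algebraMap L Ω c ∈ 𝔸 → algebraMap L K c ∈ Λ
  ev_const : ∀ (c : L) (h : algebraMap L K c ∈ Λ), ev ⟨_, h⟩ = algebraMap L Ω c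
  y_const : ∀ (c : L) (h : algebraMap L Ω c ∈ 𝔸) (h' : algebraMap L K c ∈ Λ),
    y ⟨_, h'⟩ = res ⟨_, h⟩

variable {Λ : Subring K} {y : Λ →+* k} {𝔸 : Subring Ω} {res : 𝔸 →+* k} {ev : Λ →+* Ω}

/-- `μ(φ) ∈ Λ` with `ev (μ(φ)) = μ (ev φ)` and `y (μ(φ)) = μ̄ (y φ)`. -/
theorem S36IT_apply_poly (H : S36IT_Horiz (L := L) Λ y 𝔸 res ev) (φ : Λ) {μ : Polynomial L} {P : Polynomial k}
    (hred : S36IT_RedTo 𝔸 res μ P) :
    ∃ d : Λ, ev d = aeval (ev φ) μ ∧ y d = eval (y φ) P := by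
  classical
  set N := max μ.natDegree P.natDegree + 1 with hN
  have hcΛ : ∀ i, algebraMap L K (μ.coeff i) ∈ Λ := fun i => H.const_mem _ (hred i).choose
  refine ⟨∑ i ∈ Finset.range N, ⟨_, hcΛ i⟩ * φ ^ i, ?_, ?_⟩
  · rw [map_sum, aeval_eq_sum_range' (n := N) (by rw [hN]; omega)]
    refine Finset.sum_congr rfl fun i _ => ?_
    rw [map_mul, map_pow, H.ev_const, Algebra.smul_def]
  · rw [map_sum, eval_eq_sum_range' (n := N) (by rw [hN]; omega)]
    refine Finset.sum_congr rfl fun i _ => ?_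
    rw [map_mul, map_pow, H.y_const _ (hred i).choose, (hred i).choose_spec]

/-- **Part C, core**: if the place is through `y` (`ev x = 0 → y x = 0`), `μ (ev φ) = 0` and `μ`
reduces to `P`, then `P (y φ) = 0`. -/
theorem S36IT_eval_red (H : S36IT_Horiz (L := L) Λ y 𝔸 res ev)
    (hthru : ∀ x : Λ, ev x = 0 → y x = 0) (φ : Λ) {μ : Polynomial L} {P : Polynomial k}
    (hred : S36IT_RedTo 𝔸 res μ P) (hμ : aeval (ev φ) μ = 0) : eval (y φ) P = 0 := by
  obtain ⟨d, hd1, hd2⟩ := S36IT_apply_poly H φ hred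
  rw [← hd2]
  exact hthru d (by rw [hd1, hμ])

end horiz

section spec

variable {L K Ω k : Type*} [Field L] [Field K] [Algebra L K] [Field Ω] [Algebra L Ω] [Field k]
  [Normal L Ω] {Λ : Subring K} {y : Λ →+* k} (𝔸 : ValuationSubring Ω)
  {res : 𝔸.toSubring →+* k} {ev : Λ →+* Ω}

/-- **a horizontal place through `y` specialises to `y`**: all its values are integral and
reduce to the values of `y`. -/
theorem S36IT_thru_spec (H : S36IT_Horiz (L := L) Λ y 𝔸.toSubring res ev)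
    (hI : ∀ (σ : Ω ≃ₐ[L] Ω) (a : Ω) (ha : a ∈ 𝔸.toSubring),
      ∃ h : σ a ∈ 𝔸.toSubring, res ⟨σ a, h⟩ = res ⟨a, ha⟩)
    (hres : ∀ b : 𝔸.toSubring, ¬ IsUnit b → res b = 0)
    (hthru : ∀ x : Λ, ev x = 0 → y x = 0) (φ : Λ) :
    ∃ h : ev φ ∈ 𝔸.toSubring, y φ = res ⟨ev φ, h⟩ := by
  by_cases hmem : ev φ ∈ 𝔸.toSubring
  · refine ⟨hmem, ?_⟩
    have h := S36IT_eval_red H hthru φ (S36IT_minpoly_red 𝔸 res hI (ev φ) hmem)
      (minpoly.aeval L (ev φ))
    rw [eval_pow, eval_sub, eval_X, eval_C] at h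
    exact sub_eq_zero.1 ((pow_eq_zero_iff
      (minpoly.natDegree_pos (Normal.isIntegral ‹Normal L Ω› (ev φ))).ne').1 h)
  · exfalso
    obtain ⟨h1, h2⟩ := S36IT_reverse_red 𝔸 res hI hres (ev φ) hmem
    have h := S36IT_eval_red H hthru φ h2 h1
    rw [eval_one] at h
    exact one_ne_zero h

/-- **INT, horizontal part** (the designer's `d = μ(φ)`): if some `φ : Λ` has a value at the
place which is not integral, or whose residue differs from `y φ`, then there is `d : Λ`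
vanishing at the place with `y d ≠ 0`:  the place is NOT through `y`. -/
theorem S36IT_horiz_den (H : S36IT_Horiz (L := L) Λ y 𝔸.toSubring res ev)
    (hI : ∀ (σ : Ω ≃ₐ[L] Ω) (a : Ω) (ha : a ∈ 𝔸.toSubring),
      ∃ h : σ a ∈ 𝔸.toSubring, res ⟨σ a, h⟩ = res ⟨a, ha⟩)
    (hres : ∀ b : 𝔸.toSubring, ¬ IsUnit b → res b = 0)
    (φ : Λ) (hφ : ∀ h : ev φ ∈ 𝔸.toSubring, y φ ≠ res ⟨ev φ, h⟩) :
    ∃ d : Λ, ev d = 0 ∧ y d ≠ 0 := by
  by_contra hcon
  push Not at hcon
  obtain ⟨h, hh⟩ := S36IT_thru_spec 𝔸 H hI hres hcon φ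
  exact hφ h hh

/-- conversely a place which specialises to `y` is through `y`. -/
theorem S36IT_thru_of_spec (hspec : ∀ φ : Λ, ∃ h : ev φ ∈ 𝔸.toSubring, y φ = res ⟨ev φ, h⟩)
    (x : Λ) (hx : ev x = 0) : y x = 0 := by
  obtain ⟨h, hh⟩ := hspec x
  rw [hh]
  have : (⟨ev x, h⟩ : 𝔸.toSubring) = 0 := Subtype.ext hx
  rw [this, map_zero]

end spec

end Fermat.Agent.S36
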