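import Mathlib
import Fermat.Agent.S36.Int3

/-!
# TRACK 10 (S36), package F4 = INT (helper17), part D: `Λ_y` is a local ring.  Prefix `S36IT_`.

`Λ ⊂ K` a subring of a field, `y : Λ →+* k` a ring homomorphism to a field,
`Λ_y = S36IT_loc Λ y = {x | ∃ d : Λ, y d ≠ 0 ∧ d * x ∈ Λ}` (`S36/Int3.lean`).

* `S36IT_res Λ y : Λ_y →+* k` — the residue map `ȳ`, `ȳ (a / d) = y a / y d`
  (`S36IT_res_eq`, `S36IT_res_incl`);
* `S36IT_isUnit_iff` : `IsUnit z ↔ ȳ z ≠ 0`;
* `S36IT_isLocalRing` : `Λ_y` is a local ring; `S36IT_mem_maximalIdeal_iff` : `z ∈ 𝔪 ↔ ȳ z = 0`;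
  `S36IT_incl_mem_maximalIdeal_iff` : for `s : Λ`: `s ∈ 𝔪 ↔ y s = 0`;
* `S36IT_res_surjective` : `ȳ` is onto if `y` is;
* `S36IT_dvd_iff` : for `s ≠ 0` in `Λ_y`: `s ∣ z` in `Λ_y` `↔ z / s ∈ Λ_y`;
* `S36IT_exists_frac` : every element of `Λ_y` is `a / d` with `a, d : Λ`, `y d ≠ 0`.
-/

set_option autoImplicit false

namespace Fermat.Agent.S36

variable {K : Type*} [Field K] {k : Type*} [Field k] (Λ : Subring K) (y : Λ →+* k)

/-- the inclusion `Λ → Λ_y`. -/
def S36IT_incl : Λ →+* S36IT_loc Λ y := Subring.inclusion (S36IT_le_loc Λ y)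

@[simp] theorem S36IT_incl_coe (x : Λ) : ((S36IT_incl Λ y x : S36IT_loc Λ y) : K) = (x : K) := rfl

variable {Λ y}

theorem S36IT_den_ne_zero {d : Λ} (hd : y d ≠ 0) : (d : K) ≠ 0 := by
  intro h
  apply hd
  have : d = 0 := Subtype.ext h
  rw [this, map_zero]

/-- the value `y (d z) / y d` does not depend on the denominator `d`. -/
theorem S36IT_res_indep {z : K} {d e : Λ} (hd : y d ≠ 0) (he : y e ≠ 0)
    (hdz : (d : K) * z ∈ Λ) (hez : (e : K) * z ∈ Λ) :
    y ⟨_, hdz⟩ / y d = y ⟨_, hez⟩ / y e := by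
  rw [div_eq_div_iff hd he, ← map_mul, ← map_mul]
  congr 1
  apply Subtype.ext
  simp only [Subring.coe_mul]
  ring

variable (Λ y)

/-- the residue map `ȳ : Λ_y → k`. -/
noncomputable def S36IT_res : S36IT_loc Λ y →+* k where
  toFun z := y ⟨_, z.2.choose_spec.2⟩ / y z.2.choose
  map_one' := by
    have h1 : ((1 : Λ) : K) * ((1 : S36IT_loc Λ y) : K) ∈ Λ := by
      rw [Subring.coe_one, Subring.coe_one, mul_one]; exact Λ.one_mem
    rw [S36IT_res_indep (1 : S36IT_loc Λ y).2.choose_spec.1 (e := 1)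
      (by rw [map_one]; exact one_ne_zero) _ h1]
    rw [map_one, div_one]
    have : (⟨_, h1⟩ : Λ) = 1 := Subtype.ext (by simp)
    rw [this, map_one]
  map_zero' := by
    have h1 : ((1 : Λ) : K) * ((0 : S36IT_loc Λ y) : K) ∈ Λ := by
      rw [Subring.coe_zero, mul_zero]; exact Λ.zero_mem
    rw [S36IT_res_indep (0 : S36IT_loc Λ y).2.choose_spec.1 (e := 1)
      (by rw [map_one]; exact one_ne_zero) _ h1]
    have : (⟨_, h1⟩ : Λ) = 0 := Subtype.ext (by simp)
    rw [this, map_zero, zero_div]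
  map_mul' a b := by
    set d := a.2.choose with hd
    set e := b.2.choose with he
    have hda := a.2.choose_spec
    have heb := b.2.choose_spec
    set f := (a * b).2.choose
    have hf := (a * b).2.choose_spec
    have hde : y (d * e) ≠ 0 := by rw [map_mul]; exact mul_ne_zero hda.1 heb.1
    have hmem : ((d * e : Λ) : K) * ((a * b : S36IT_loc Λ y) : K) ∈ Λ := by
      have : ((d * e : Λ) : K) * ((a * b : S36IT_loc Λ y) : K) =
          ((d : K) * (a : K)) * ((e : K) * (b : K)) := by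
        simp only [Subring.coe_mul]; ring
      rw [this]
      exact Λ.mul_mem hda.2 heb.2
    have key : (⟨_, hmem⟩ : Λ) = ⟨_, hda.2⟩ * ⟨_, heb.2⟩ := by
      apply Subtype.ext
      simp only [Subring.coe_mul]
      ring
    rw [S36IT_res_indep hf.1 hde hf.2 hmem, key, map_mul, map_mul, div_mul_div_comm]
  map_add' a b := by
    set d := a.2.choose with hd
    set e := b.2.choose with he
    have hda := a.2.choose_spec
    have heb := b.2.choose_spec
    set f := (a + b).2.choose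
    have hf := (a + b).2.choose_spec
    have hde : y (d * e) ≠ 0 := by rw [map_mul]; exact mul_ne_zero hda.1 heb.1
    have hmem : ((d * e : Λ) : K) * ((a + b : S36IT_loc Λ y) : K) ∈ Λ := by
      have : ((d * e : Λ) : K) * ((a + b : S36IT_loc Λ y) : K) =
          (e : K) * ((d : K) * (a : K)) + (d : K) * ((e : K) * (b : K)) := by
        simp only [Subring.coe_mul, Subring.coe_add]; ring
      rw [this]
      exact Λ.add_mem (Λ.mul_mem e.2 hda.2) (Λ.mul_mem d.2 heb.2)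
    have key : (⟨_, hmem⟩ : Λ) = e * ⟨_, hda.2⟩ + d * ⟨_, heb.2⟩ := by
      apply Subtype.ext
      simp only [Subring.coe_mul, Subring.coe_add]
      ring
    rw [S36IT_res_indep hf.1 hde hf.2 hmem, key, map_add, map_mul, map_mul, map_mul,
      div_add_div _ _ hda.1 heb.1]
    congr 1
    ring

variable {Λ y}

/-- `ȳ z = y (d z) / y d` for EVERY denominator `d` of `z`. -/
theorem S36IT_res_eq (z : S36IT_loc Λ y) {d : Λ} (hd : y d ≠ 0) (hdz : (d : K) * (z : K) ∈ Λ) :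
    S36IT_res Λ y z = y ⟨_, hdz⟩ / y d :=
  S36IT_res_indep z.2.choose_spec.1 hd z.2.choose_spec.2 hdz

/-- `ȳ` extends `y`. -/
theorem S36IT_res_incl (x : Λ) : S36IT_res Λ y (S36IT_incl Λ y x) = y x := by
  have h1 : ((1 : Λ) : K) * ((S36IT_incl Λ y x : S36IT_loc Λ y) : K) ∈ Λ := by
    rw [Subring.coe_one, one_mul]; exact x.2
  rw [S36IT_res_eq _ (d := 1) (by rw [map_one]; exact one_ne_zero) h1, map_one, div_one]
  congr 1
  apply Subtype.ext
  simp

/-- `ȳ` on an element of `Λ` seen in `Λ_y`. -/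
theorem S36IT_res_of_mem {x : K} (hx : x ∈ Λ) :
    S36IT_res Λ y ⟨x, S36IT_le_loc Λ y hx⟩ = y ⟨x, hx⟩ :=
  S36IT_res_incl ⟨x, hx⟩

/-- **the units of `Λ_y`** are the elements with non-zero residue. -/
theorem S36IT_isUnit_iff (z : S36IT_loc Λ y) : IsUnit z ↔ S36IT_res Λ y z ≠ 0 := by
  constructor
  · intro h
    exact (h.map (S36IT_res Λ y)).ne_zero
  · intro h
    obtain ⟨d, hd, hdz⟩ := z.2
    rw [S36IT_res_eq z hd hdz] at h
    have hnum : y ⟨_, hdz⟩ ≠ 0 := fun h0 => h (by rw [h0, zero_div])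
    have hz0 : (z : K) ≠ 0 := by
      intro h0
      apply hnum
      have : (⟨_, hdz⟩ : Λ) = 0 := Subtype.ext (by simp [h0])
      rw [this, map_zero]
    have hinv : (z : K)⁻¹ ∈ S36IT_loc Λ y := by
      refine ⟨⟨_, hdz⟩, hnum, ?_⟩
      have : (d : K) * (z : K) * (z : K)⁻¹ = (d : K) := by
        rw [mul_assoc, mul_inv_cancel₀ hz0, mul_one]
      rw [this]
      exact d.2
    refine ⟨⟨z, ⟨_, hinv⟩, ?_, ?_⟩, rfl⟩
    · exact Subtype.ext (mul_inv_cancel₀ hz0)
    · exact Subtype.ext (inv_mul_cancel₀ hz0)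

variable (Λ y)

/-- **`Λ_y` is a local ring.** -/
theorem S36IT_isLocalRing : IsLocalRing (S36IT_loc Λ y) := by
  have : Nontrivial (S36IT_loc Λ y) := ⟨⟨0, 1, fun h => by
    have := congrArg (fun z : S36IT_loc Λ y => (z : K)) h
    simp at this⟩⟩
  refine IsLocalRing.of_nonunits_add fun a b ha hb => ?_
  rw [mem_nonunits_iff, S36IT_isUnit_iff, not_not] at ha hb ⊢
  rw [map_add, ha, hb, add_zero]

variable {Λ y}

/-- the maximal ideal of `Λ_y` is the kernel of `ȳ`. -/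
theorem S36IT_mem_maximalIdeal_iff (z : S36IT_loc Λ y) :
    z ∈ @IsLocalRing.maximalIdeal _ _ (S36IT_isLocalRing Λ y) ↔ S36IT_res Λ y z = 0 := by
  let _ := S36IT_isLocalRing Λ y
  rw [IsLocalRing.mem_maximalIdeal, mem_nonunits_iff, S36IT_isUnit_iff, not_not]

theorem S36IT_incl_mem_maximalIdeal_iff (s : Λ) :
    S36IT_incl Λ y s ∈ @IsLocalRing.maximalIdeal _ _ (S36IT_isLocalRing Λ y) ↔ y s = 0 := by
  rw [S36IT_mem_maximalIdeal_iff, S36IT_res_incl]

theorem S36IT_res_surjective (hy : Function.Surjective y) :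
    Function.Surjective (S36IT_res Λ y) := fun c => by
  obtain ⟨x, hx⟩ := hy c
  exact ⟨S36IT_incl Λ y x, by rw [S36IT_res_incl, hx]⟩

/-- every element of `Λ_y` is a fraction `a / d`, `a d : Λ`, `y d ≠ 0`. -/
theorem S36IT_exists_frac (z : S36IT_loc Λ y) :
    ∃ a d : Λ, y d ≠ 0 ∧ S36IT_incl Λ y d * z = S36IT_incl Λ y a ∧
      S36IT_res Λ y z = y a / y d := by
  obtain ⟨d, hd, hdz⟩ := z.2
  exact ⟨⟨_, hdz⟩, d, hd, Subtype.ext rfl, S36IT_res_eq z hd hdz⟩

/-- divisibility in `Λ_y`. -/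
theorem S36IT_dvd_iff {s z : S36IT_loc Λ y} (hs : (s : K) ≠ 0) :
    s ∣ z ↔ (z : K) / (s : K) ∈ S36IT_loc Λ y := by
  constructor
  · rintro ⟨w, rfl⟩
    have : ((s * w : S36IT_loc Λ y) : K) / (s : K) = (w : K) := by
      rw [Subring.coe_mul, mul_div_assoc, mul_comm, div_mul_cancel₀ _ hs]
    rw [this]
    exact w.2
  · intro h
    exact ⟨⟨_, h⟩, Subtype.ext (by
      show (z : K) = (s : K) * ((z : K) / (s : K))
      rw [mul_div_cancel₀ _ hs])⟩

/-- a denominator is a unit of `Λ_y`. -/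
theorem S36IT_isUnit_incl {d : Λ} (hd : y d ≠ 0) : IsUnit (S36IT_incl Λ y d) := by
  rw [S36IT_isUnit_iff, S36IT_res_incl]
  exact hd

end Fermat.Agent.S36
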