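import Mathlib
import Fermat.Agent.S36.Int3Loc

/-!
# TRACK 10 (S36), package F4 = INT (helper17), VALUATION-SUBRING form.  Prefix `S36IT_`.

The same statements as `S36/Int3.lean` (part A) and `S36/Int3Sub.lean`, for a family of valuation
RINGS `O : ι → ValuationSubring K` (vertical AND horizontal ones, with different value groups;
this is the language of `S36/Cart3.lean` and of `S18_Val`, `Place.toValuationSubring`):

`Λ = {x ∈ K₀ | ∀ i, x ∈ O i}`, `K₀ ⊂ K` the subfield of `L`-rational functions, `y : Λ →+* k`.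

* `S36IT_thruVS O Λ y : Set ι` — the valuation rings through `y`: every non-unit of `O i` in `Λ`
  is killed by `y`;
* `S36IT_exists_den_vs` (**INT (R12)**): `f ∈ K₀`, `f ∈ O i` for all `i` through `y`
  ⇒ `∃ d : Λ, y d ≠ 0 ∧ d * f ∈ Λ`;
* `S36IT_mem_loc_iff_vs` : `x ∈ Λ_y ↔ x ∈ K₀ ∧ ∀ i ∈ thru, x ∈ O i`;
* `S36IT_isUnit_iff_vs` : `z ∈ Λ_y`, `z ≠ 0`: `IsUnit z ↔ ∀ i ∈ thru, z⁻¹ ∈ O i`;
* `S36IT_not_thru_iff` : `i ∉ thru ↔ ∃ d : Λ, d⁻¹ ∉ O i ∧ y d ≠ 0`.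

`harch` has the shape of `S36CA_harch_of_dvr` (helper5, `S36/Cart3.lean`).
-/

set_option autoImplicit false

namespace Fermat.Agent.S36

variable {K : Type*} [Field K] {ι : Type*} {k : Type*} [Field k]

/-- the valuation rings through the closed point `y`. -/
def S36IT_thruVS (O : ι → ValuationSubring K) (Λ : Subring K) (y : Λ →+* k) : Set ι :=
  {i | ∀ x : Λ, ((x : K))⁻¹ ∉ O i → y x = 0}

theorem S36IT_mem_thruVS {O : ι → ValuationSubring K} {Λ : Subring K} {y : Λ →+* k} {i : ι} :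
    i ∈ S36IT_thruVS O Λ y ↔ ∀ x : Λ, ((x : K))⁻¹ ∉ O i → y x = 0 := Iff.rfl

theorem S36IT_not_thru_iff {O : ι → ValuationSubring K} {Λ : Subring K} {y : Λ →+* k} {i : ι} :
    i ∉ S36IT_thruVS O Λ y ↔ ∃ d : Λ, ((d : K))⁻¹ ∉ O i ∧ y d ≠ 0 := by
  rw [S36IT_mem_thruVS]
  push Not
  rfl

/-- a denominator is a unit of every valuation ring through `y`. -/
theorem S36IT_inv_mem_of_thru {O : ι → ValuationSubring K} {Λ : Subring K} {y : Λ →+* k} {i : ι}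
    (hi : i ∈ S36IT_thruVS O Λ y) {d : Λ} (hd : y d ≠ 0) : ((d : K))⁻¹ ∈ O i := by
  by_contra h
  exact hd (hi d h)

/-- **INT (R12)**, valuation-subring form. -/
theorem S36IT_exists_den_vs (O : ι → ValuationSubring K) (K₀ : Subfield K) (Λ : Subring K)
    (hΛ : ∀ x : K, x ∈ Λ ↔ x ∈ K₀ ∧ ∀ i, x ∈ O i)
    (hfin : ∀ x : K, x ∈ K₀ → x ≠ 0 → {i | x ∉ O i}.Finite)
    (harch : ∀ (i : ι) (x : K), x ≠ 0 → x ∈ O i → x⁻¹ ∉ O i → ∀ z : K, ∃ n : ℕ, z * x ^ n ∈ O i)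
    (y : Λ →+* k) (f : K) (hf₀ : f ∈ K₀) (hf : ∀ i ∈ S36IT_thruVS O Λ y, f ∈ O i) :
    ∃ d : Λ, y d ≠ 0 ∧ (d : K) * f ∈ Λ := by
  classical
  rcases eq_or_ne f 0 with rfl | hf0
  · refine ⟨1, ?_, ?_⟩
    · rw [map_one]; exact one_ne_zero
    · rw [mul_zero]; exact Λ.zero_mem
  set S := (hfin f hf₀ hf0).toFinset with hSdef
  have hS : ∀ i, i ∈ S ↔ f ∉ O i := fun i => by rw [hSdef, Set.Finite.mem_toFinset]; rfl
  have hmemO : ∀ (i : ι) (x : Λ), (x : K) ∈ O i := fun i x => ((hΛ _).1 x.2).2 i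
  have hex : ∀ i : ι, ∃ d : Λ, ∃ n : ℕ, y d ≠ 0 ∧ (f ∉ O i → f * (d : K) ^ n ∈ O i) := by
    intro i
    by_cases hi : f ∉ O i
    · have hnot : i ∉ S36IT_thruVS O Λ y := fun h => hi (hf i h)
      obtain ⟨d, hd, hyd⟩ := S36IT_not_thru_iff.1 hnot
      have hd0 : (d : K) ≠ 0 := S36IT_den_ne_zero hyd
      obtain ⟨n, hn⟩ := harch i d hd0 (hmemO i d) hd f
      exact ⟨d, n, hyd, fun _ => hn⟩
    · exact ⟨1, 0, by rw [map_one]; exact one_ne_zero, fun h => absurd h hi⟩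
  choose d n hyd hdn using hex
  refine ⟨∏ i ∈ S, d i ^ n i, ?_, ?_⟩
  · rw [map_prod]
    exact Finset.prod_ne_zero_iff.2 fun i _ => by rw [map_pow]; exact pow_ne_zero _ (hyd i)
  · rw [hΛ]
    refine ⟨K₀.mul_mem ((hΛ _).1 (∏ i ∈ S, d i ^ n i : Λ).2).1 hf₀, fun j => ?_⟩
    by_cases hj : j ∈ S
    · have e : ((∏ i ∈ S, d i ^ n i : Λ) : K) * f =
          ((∏ i ∈ S.erase j, d i ^ n i : Λ) : K) * (f * (d j : K) ^ n j) := by
        rw [← Finset.mul_prod_erase S (fun i => d i ^ n i) hj]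
        simp only [Subring.coe_mul, Subring.coe_pow]
        ring
      rw [e]
      exact (O j).mul_mem _ _ (hmemO j _) (hdn j ((hS j).1 hj))
    · have hfj : f ∈ O j := by
        by_contra h
        exact hj ((hS j).2 h)
      exact (O j).mul_mem _ _ (hmemO j _) hfj

/-- **`Λ_y` is the intersection of `K₀` with the valuation rings through `y`.** -/
theorem S36IT_mem_loc_iff_vs (O : ι → ValuationSubring K) (K₀ : Subfield K) (Λ : Subring K)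
    (hΛ : ∀ x : K, x ∈ Λ ↔ x ∈ K₀ ∧ ∀ i, x ∈ O i)
    (hfin : ∀ x : K, x ∈ K₀ → x ≠ 0 → {i | x ∉ O i}.Finite)
    (harch : ∀ (i : ι) (x : K), x ≠ 0 → x ∈ O i → x⁻¹ ∉ O i → ∀ z : K, ∃ n : ℕ, z * x ^ n ∈ O i)
    (y : Λ →+* k) (x : K) :
    x ∈ S36IT_loc Λ y ↔ x ∈ K₀ ∧ ∀ i ∈ S36IT_thruVS O Λ y, x ∈ O i := by
  constructor
  · rintro ⟨d, hd, hdx⟩
    have hd0 : (d : K) ≠ 0 := S36IT_den_ne_zero hd
    have hx : x = ((d : K))⁻¹ * ((d : K) * x) := by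
      rw [← mul_assoc, inv_mul_cancel₀ hd0, one_mul]
    refine ⟨?_, fun i hi => ?_⟩
    · rw [hx]
      exact K₀.mul_mem (K₀.inv_mem ((hΛ _).1 d.2).1) ((hΛ _).1 hdx).1
    · rw [hx]
      exact (O i).mul_mem _ _ (S36IT_inv_mem_of_thru hi hd) (((hΛ _).1 hdx).2 i)
  · rintro ⟨h0, h⟩
    exact S36IT_exists_den_vs O K₀ Λ hΛ hfin harch y x h0 h

/-- **units of `Λ_y`**: a non-zero `z ∈ Λ_y` is a unit iff it is a unit of every valuation ring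
through `y`. -/
theorem S36IT_isUnit_iff_vs (O : ι → ValuationSubring K) (K₀ : Subfield K) (Λ : Subring K)
    (hΛ : ∀ x : K, x ∈ Λ ↔ x ∈ K₀ ∧ ∀ i, x ∈ O i)
    (hfin : ∀ x : K, x ∈ K₀ → x ≠ 0 → {i | x ∉ O i}.Finite)
    (harch : ∀ (i : ι) (x : K), x ≠ 0 → x ∈ O i → x⁻¹ ∉ O i → ∀ z : K, ∃ n : ℕ, z * x ^ n ∈ O i)
    (y : Λ →+* k) (z : S36IT_loc Λ y) (hz0 : (z : K) ≠ 0) :
    IsUnit z ↔ ∀ i ∈ S36IT_thruVS O Λ y, ((z : K))⁻¹ ∈ O i := by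
  have hzK := (S36IT_mem_loc_iff_vs O K₀ Λ hΛ hfin harch y z).1 z.2
  constructor
  · rintro ⟨u, hu⟩ i hi
    have h1 := ((S36IT_mem_loc_iff_vs O K₀ Λ hΛ hfin harch y _).1
      ((u⁻¹ : (S36IT_loc Λ y)ˣ) : S36IT_loc Λ y).2).2 i hi
    have h2 : (((u⁻¹ : (S36IT_loc Λ y)ˣ) : S36IT_loc Λ y) : K) = ((z : K))⁻¹ := by
      have h3 : ((u : S36IT_loc Λ y) : K) *
          (((u⁻¹ : (S36IT_loc Λ y)ˣ) : S36IT_loc Λ y) : K) = 1 := by
        rw [← Subring.coe_mul, Units.mul_inv, Subring.coe_one]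
      rw [hu] at h3
      exact (eq_inv_of_mul_eq_one_right h3)
    rwa [h2] at h1
  · intro h
    have hinv : (z : K)⁻¹ ∈ S36IT_loc Λ y := by
      rw [S36IT_mem_loc_iff_vs O K₀ Λ hΛ hfin harch y]
      exact ⟨K₀.inv_mem hzK.1, h⟩
    exact ⟨⟨z, ⟨_, hinv⟩, Subtype.ext (mul_inv_cancel₀ hz0), Subtype.ext (inv_mul_cancel₀ hz0)⟩, rfl⟩

/-- the residue `ȳ z` of `z ∈ Λ_y` vanishes iff `z` is a non-unit of some valuation ring through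
`y` (or `z = 0`). -/
theorem S36IT_res_eq_zero_iff_vs (O : ι → ValuationSubring K) (K₀ : Subfield K) (Λ : Subring K)
    (hΛ : ∀ x : K, x ∈ Λ ↔ x ∈ K₀ ∧ ∀ i, x ∈ O i)
    (hfin : ∀ x : K, x ∈ K₀ → x ≠ 0 → {i | x ∉ O i}.Finite)
    (harch : ∀ (i : ι) (x : K), x ≠ 0 → x ∈ O i → x⁻¹ ∉ O i → ∀ z : K, ∃ n : ℕ, z * x ^ n ∈ O i)
    (y : Λ →+* k) (z : S36IT_loc Λ y) (hz0 : (z : K) ≠ 0) :
    S36IT_res Λ y z = 0 ↔ ∃ i ∈ S36IT_thruVS O Λ y, ((z : K))⁻¹ ∉ O i := by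
  have h := S36IT_isUnit_iff_vs O K₀ Λ hΛ hfin harch y z hz0
  rw [S36IT_isUnit_iff] at h
  constructor
  · intro h0
    by_contra hcon
    push Not at hcon
    exact h.2 hcon h0
  · rintro ⟨i, hi, hzi⟩
    by_contra hne
    exact hzi (h.1 hne i hi)

end Fermat.Agent.S36
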