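import Mathlib
import Fermat.Agent.S36.Int3VS

/-!
# TRACK 10 (S36), package F4 = INT (helper17): BRIDGE between valuation SUBRINGS and valuations with
ONE value group.  Prefix `S36IT_`.  Mathlib only.

The abstract packages INT (`Int3.lean`, `Int3Sub.lean`), CART (`Cart3Val.lean`, `Cart3Sub.lean`),
LI (`LiVal.lean`, `LiAbs.lean`) are stated for a family `v : ι → Valuation K Γ₀` with ONE value
group `Γ₀`.  The concrete valuations (`S18_Val.O`, `Place.toValuationSubring`) are valuation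
SUBRINGS, each with its own value group.  Over the inertia field all of them are DISCRETE, and a
discrete valuation subring has a canonical valuation with values in `ℤᵐ⁰`:

* `S36IT_isDVR_of_unif` : a valuation subring `O` with `𝔪 = π O` and `⋂ πⁿ O = 0` is a discrete
  valuation ring;
* `S36IT_dvrVal O : Valuation K ℤᵐ⁰` for `[IsDiscreteValuationRing O]`;
  `S36IT_dvrVal_le_one_iff : v x ≤ 1 ↔ x ∈ O`, `S36IT_dvrVal_lt_one_iff : v x < 1 ↔ x⁻¹ ∉ O`,
  `S36IT_dvrVal_eq_one_iff : v x = 1 ↔ x ∈ O ∧ x⁻¹ ∈ O`;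
* `S36IT_thru_dvr` : `S36IT_thru (fun i => S36IT_dvrVal (O i)) Λ y = S36IT_thruVS O Λ y`;
* `S36IT_hΛ_dvr`, `S36IT_hfin_dvr`, `S36IT_harch_dvr` : the hypotheses `hΛ`, `hfin`, `harch` of
  `Int3Sub.lean` for `v i = S36IT_dvrVal (O i)` from their valuation-subring forms.
-/

set_option autoImplicit false

open IsDedekindDomain WithZero

namespace Fermat.Agent.S36

variable {K : Type*} [Field K]

section unif

/-- a unit of `O`: `x ∈ O`, `x⁻¹ ∈ O`, `x ≠ 0`. -/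
theorem S36IT_isUnit_of_mem (O : ValuationSubring K) {x : K} (hx : x ∈ O) (hxi : x⁻¹ ∈ O)
    (hx0 : x ≠ 0) : IsUnit (⟨x, hx⟩ : O) :=
  ⟨⟨⟨x, hx⟩, ⟨x⁻¹, hxi⟩, Subtype.ext (mul_inv_cancel₀ hx0), Subtype.ext (inv_mul_cancel₀ hx0)⟩, rfl⟩

theorem S36IT_inv_mem_of_isUnit (O : ValuationSubring K) {x : O} (hx : IsUnit x) :
    ((x : K))⁻¹ ∈ O := by
  obtain ⟨u, rfl⟩ := hx
  have h : ((u : O) : K) * (((u⁻¹ : Oˣ) : O) : K) = 1 := by
    exact_mod_cast congrArg (fun z : O => (z : K)) u.mul_inv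
  rw [inv_eq_of_mul_eq_one_right h]
  exact ((u⁻¹ : Oˣ) : O).2

/-- **criterion**: a valuation subring with principal maximal ideal `π O` and `⋂ πⁿ O = 0` is a
discrete valuation ring. -/
theorem S36IT_isDVR_of_unif (O : ValuationSubring K) (π : K) (hπ : π ∈ O) (hπ0 : π ≠ 0)
    (hπi : π⁻¹ ∉ O) (hgen : ∀ x : K, x ∈ O → x⁻¹ ∉ O → x / π ∈ O)
    (hsep : ∀ x : K, x ∈ O → x ≠ 0 → ∃ n : ℕ, x / π ^ n ∉ O) :
    IsDiscreteValuationRing O := by
  classical
  apply IsDiscreteValuationRing.ofHasUnitMulPowIrreducibleFactorization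
  have hπnu : ¬ IsUnit (⟨π, hπ⟩ : O) := fun h => hπi (S36IT_inv_mem_of_isUnit O h)
  have hπ0' : (⟨π, hπ⟩ : O) ≠ 0 := fun h => hπ0 (congrArg Subtype.val h)
  -- every non-unit is divisible by `π`
  have hdvd : ∀ a : O, ¬ IsUnit a → (⟨π, hπ⟩ : O) ∣ a := by
    intro a ha
    by_cases ha0 : (a : K) = 0
    · exact ⟨0, by rw [mul_zero]; exact Subtype.ext ha0⟩
    have hai : ((a : K))⁻¹ ∉ O := fun h => ha (S36IT_isUnit_of_mem O a.2 h ha0)
    refine ⟨⟨_, hgen a a.2 hai⟩, Subtype.ext ?_⟩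
    show (a : K) = π * ((a : K) / π)
    rw [mul_div_cancel₀ _ hπ0]
  refine ⟨⟨π, hπ⟩, ⟨hπnu, fun a b hab => ?_⟩, fun {x} hx => ?_⟩
  · -- irreducible
    by_contra hcon
    push Not at hcon
    obtain ⟨a', ha'⟩ := hdvd a hcon.1
    have h1 : (⟨π, hπ⟩ : O) * 1 = ⟨π, hπ⟩ * (a' * b) := by
      rw [mul_one, ← mul_assoc, ← ha', ← hab]
    have h2 : (1 : O) = a' * b := mul_left_cancel₀ hπ0' h1
    exact hcon.2 (IsUnit.of_mul_eq_one a' (by rw [mul_comm]; exact h2.symm))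
  · -- factorisation
    have hxK : (x : K) ≠ 0 := fun h => hx (Subtype.ext h)
    have hex := hsep x x.2 hxK
    have hmin : ∀ {m : ℕ}, m < Nat.find hex → ¬ ((x : K) / π ^ m ∉ O) := fun h => Nat.find_min hex h
    have hn := Nat.find_spec hex
    set n := Nat.find hex with hndef
    have hn0 : n ≠ 0 := by
      intro h0
      rw [h0, pow_zero, div_one] at hn
      exact hn x.2
    obtain ⟨m, hm⟩ := Nat.exists_eq_succ_of_ne_zero hn0
    have hmem : (x : K) / π ^ m ∈ O := by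
      by_contra hcon
      exact hmin (m := m) (by rw [hm]; exact Nat.lt_succ_self m) hcon
    have hu : IsUnit (⟨_, hmem⟩ : O) := by
      by_contra hnu
      obtain ⟨c, hc⟩ := hdvd _ hnu
      apply hn
      have hc' : (x : K) / π ^ m = π * (c : K) := congrArg Subtype.val hc
      have : (x : K) / π ^ n = (c : K) := by
        rw [hm, pow_succ, ← div_div, hc', mul_div_cancel_left₀ _ hπ0]
      rw [this]
      exact c.2
    refine ⟨m, ?_⟩
    obtain ⟨u, hu'⟩ := hu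
    refine ⟨u, Subtype.ext ?_⟩
    show (π ^ m : K) * ((u : O) : K) = (x : K)
    rw [hu']
    show π ^ m * ((x : K) / π ^ m) = (x : K)
    rw [mul_div_cancel₀ _ (pow_ne_zero m hπ0)]

end unif

section dvrVal

variable (O : ValuationSubring K) [IsDiscreteValuationRing O]

/-- the canonical `ℤᵐ⁰`-valued valuation of a discrete valuation subring. -/
noncomputable def S36IT_dvrVal : Valuation K ℤᵐ⁰ :=
  (IsDiscreteValuationRing.maximalIdeal O).valuation K

theorem S36IT_dvrVal_coe (a : O) :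
    S36IT_dvrVal O (a : K) = (IsDiscreteValuationRing.maximalIdeal O).intValuation a := by
  simpa [S36IT_dvrVal] using
    (IsDiscreteValuationRing.maximalIdeal O).valuation_of_algebraMap (K := K) a

theorem S36IT_dvrVal_le_one_of_mem {x : K} (hx : x ∈ O) : S36IT_dvrVal O x ≤ 1 := by
  have h := (S36IT_dvrVal_coe O ⟨x, hx⟩).trans_le
    ((IsDiscreteValuationRing.maximalIdeal O).intValuation_le_one ⟨x, hx⟩)
  simpa using h

theorem S36IT_dvrVal_coe_lt_one_iff (a : O) :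
    S36IT_dvrVal O (a : K) < 1 ↔ ¬ IsUnit a := by
  rw [S36IT_dvrVal_coe, HeightOneSpectrum.intValuation_lt_one_iff_mem]
  show a ∈ IsLocalRing.maximalIdeal O ↔ _
  rw [IsLocalRing.mem_maximalIdeal, mem_nonunits_iff]

/-- `v x ≤ 1 ↔ x ∈ O`. -/
theorem S36IT_dvrVal_le_one_iff (x : K) : S36IT_dvrVal O x ≤ 1 ↔ x ∈ O := by
  constructor
  · intro h
    by_contra hx
    have hxi : x⁻¹ ∈ O := (O.mem_or_inv_mem x).resolve_left hx
    have hx0 : x ≠ 0 := fun h0 => hx (h0 ▸ O.zero_mem)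
    have hnu : ¬ IsUnit (⟨x⁻¹, hxi⟩ : O) := by
      intro hu
      have := S36IT_inv_mem_of_isUnit O hu
      simp only [inv_inv] at this
      exact hx this
    have h1 : S36IT_dvrVal O x⁻¹ < 1 := (S36IT_dvrVal_coe_lt_one_iff O ⟨x⁻¹, hxi⟩).2 hnu
    rw [map_inv₀] at h1
    have hv0 : S36IT_dvrVal O x ≠ 0 := (Valuation.ne_zero_iff _).2 hx0
    have h2 : 1 < S36IT_dvrVal O x := by
      by_contra hcon
      have hle : S36IT_dvrVal O x ≤ 1 := not_lt.1 hcon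
      have : (1 : ℤᵐ⁰) ≤ (S36IT_dvrVal O x)⁻¹ := (one_le_inv₀ (zero_lt_iff.2 hv0)).2 hle
      exact not_lt.2 this h1
    exact not_le.2 h2 h
  · exact S36IT_dvrVal_le_one_of_mem O

/-- `v x < 1 ↔ x⁻¹ ∉ O` (in particular `x = 0` has `v x < 1` and `x⁻¹ = 0 ∈ O`: for `x ≠ 0`). -/
theorem S36IT_dvrVal_lt_one_iff {x : K} (hx0 : x ≠ 0) : S36IT_dvrVal O x < 1 ↔ x⁻¹ ∉ O := by
  rw [← not_le, not_iff_not]
  have hv0 : S36IT_dvrVal O x ≠ 0 := (Valuation.ne_zero_iff _).2 hx0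
  rw [← S36IT_dvrVal_le_one_iff O x⁻¹, map_inv₀]
  constructor
  · intro h
    exact (inv_le_one₀ (zero_lt_iff.2 hv0)).2 h
  · intro h
    exact (inv_le_one₀ (zero_lt_iff.2 hv0)).1 h

theorem S36IT_dvrVal_eq_one_iff {x : K} (hx0 : x ≠ 0) :
    S36IT_dvrVal O x = 1 ↔ x ∈ O ∧ x⁻¹ ∈ O := by
  rw [le_antisymm_iff, S36IT_dvrVal_le_one_iff, ← not_lt, S36IT_dvrVal_lt_one_iff O hx0,
    not_not]

end dvrVal

section family

variable {ι : Type*} {k : Type*} [Field k] (O : ι → ValuationSubring K)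
  [∀ i, IsDiscreteValuationRing (O i)]

/-- "through `y`" is the same in both languages. -/
theorem S36IT_thru_dvr (Λ : Subring K) (y : Λ →+* k) :
    S36IT_thru (fun i => S36IT_dvrVal (O i)) Λ y = S36IT_thruVS O Λ y := by
  ext i
  rw [S36IT_mem_thru, S36IT_mem_thruVS]
  refine forall_congr' fun x => ?_
  rcases eq_or_ne (x : K) 0 with h0 | h0
  · have hx : x = 0 := Subtype.ext h0
    simp [hx]
  · rw [S36IT_dvrVal_lt_one_iff (O i) h0]

/-- `hΛ` of `Int3Sub.lean` from its valuation-subring form. -/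
theorem S36IT_hΛ_dvr (K₀ : Subfield K) (Λ : Subring K)
    (hΛ : ∀ x : K, x ∈ Λ ↔ x ∈ K₀ ∧ ∀ i, x ∈ O i) (x : K) :
    x ∈ Λ ↔ x ∈ K₀ ∧ ∀ i, S36IT_dvrVal (O i) x ≤ 1 := by
  rw [hΛ]
  exact and_congr Iff.rfl (forall_congr' fun i => (S36IT_dvrVal_le_one_iff (O i) x).symm)

/-- `hfin` of `Int3Sub.lean` from its valuation-subring form. -/
theorem S36IT_hfin_dvr (K₀ : Subfield K)
    (hfin : ∀ x : K, x ∈ K₀ → x ≠ 0 → {i | x ∉ O i}.Finite) (x : K) (hx : x ∈ K₀)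
    (hx0 : x ≠ 0) : {i | 1 < S36IT_dvrVal (O i) x}.Finite := by
  refine (hfin x hx hx0).subset fun i hi => ?_
  show x ∉ O i
  have hi' : 1 < S36IT_dvrVal (O i) x := hi
  intro hmem
  exact not_le.2 hi' ((S36IT_dvrVal_le_one_iff (O i) x).2 hmem)

/-- `harch` of `Int3.lean` / `Int3Sub.lean` for the valuations of discrete valuation subrings. -/
theorem S36IT_harch_dvr (i : ι) (d x : K) (hd : S36IT_dvrVal (O i) d < 1) :
    ∃ n : ℕ, S36IT_dvrVal (O i) d ^ n * S36IT_dvrVal (O i) x ≤ 1 :=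
  S36IT_harch_int (fun i => S36IT_dvrVal (O i)) i d x hd

/-- `harch` in the valuation-subring form (shape of `S36CA_harch_of_dvr`). -/
theorem S36IT_harch_vs_dvr (i : ι) (x : K) (hx0 : x ≠ 0) (_hx : x ∈ O i) (hxi : x⁻¹ ∉ O i)
    (z : K) : ∃ n : ℕ, z * x ^ n ∈ O i := by
  obtain ⟨n, hn⟩ := S36IT_harch_dvr O i x z ((S36IT_dvrVal_lt_one_iff (O i) hx0).2 hxi)
  refine ⟨n, ?_⟩
  rw [← S36IT_dvrVal_le_one_iff (O i), map_mul, map_pow, mul_comm]
  exact hn

end family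

end Fermat.Agent.S36
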