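import Mathlib
import Fermat.Agent.S36.BaseLCyc
import Fermat.Agent.S36.Int3Dvr
import Fermat.Agent.S36.Comp3VS

/-!
# TRACK 10 (S36), package BASE-L (helper20), part 5: the valuation ring of the inertia field

`Ω = ℚ̄`, `A` a valuation subring of `Ω` over the prime `q`, `I` its inertia group, `L ⊆ Ω` a
subfield of `Ω^I` (for the surjectivity of the residue map: `L = Ω^I`), `A_L = A ∩ L`
(`= A.comap L.subtype`, which is `S36FL_AL S A` of FIX-L for `L = S.fixK`).

* `S36BL_dv`        : every `c ≠ 0` of `L` is `q ^ m · unit` of `A_L`;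
* `S36BL_pi`, `S36BL_dvL` : the same in the shape of `S36CH_Hyp.dvL` (`S36CV_UG`);
* `S36BL_isDVR`     : `A_L` is a discrete valuation ring (uniformiser `q`);
* `S36BL_resL`      : the residue map `A_L →+* k = IsLocalRing.ResidueField A`,
  `S36BL_resL_eq_zero_iff`, `S36BL_resL_surjective`;
* `S36BL_hres`, `S36BL_hres0` : the hypotheses `hres`, `hres0` of `S36FL_val`.
-/

set_option autoImplicit false
set_option linter.unusedSectionVars false
set_option linter.unusedVariables false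
set_option linter.style.haveILetI false

open Fermat.Agent.S19

namespace Fermat.Agent.S36

noncomputable section

local notation "Ω" => AlgebraicClosure ℚ
local notation "Γ" => (AlgebraicClosure ℚ ≃ₐ[ℚ] AlgebraicClosure ℚ)

variable {q : ℕ} [hq : Fact q.Prime] (A : ValuationSubring Ω) (L : Subfield Ω)

theorem S36BL_q_ne_zero : (q : Ω) ≠ 0 := by exact_mod_cast hq.out.ne_zero

theorem S36BL_qL_ne_zero : (q : L) ≠ 0 := by exact_mod_cast hq.out.ne_zero

theorem S36BL_vq_lt_one (hA : A.LiesOverPrime q) : A.valuation (q : Ω) < 1 :=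
  A.mem_nonunits_iff.mp hA

theorem S36BL_vq_ne_zero : A.valuation (q : Ω) ≠ 0 :=
  (Valuation.ne_zero_iff _).2 S36BL_q_ne_zero

/-- `v(q) ^ a < 1` iff `0 < a`. -/
theorem S36BL_zpow_lt_one_iff (hA : A.LiesOverPrime q) {a : ℤ} :
    A.valuation (q : Ω) ^ a < 1 ↔ 0 < a := by
  have hw0 := S36BL_vq_ne_zero (q := q) A
  have hw1 := S36BL_vq_lt_one A hA
  have hpos : 0 < A.valuation (q : Ω) := zero_lt_iff.mpr hw0
  constructor
  · intro h
    by_contra hcon
    push Not at hcon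
    rcases hcon.lt_or_eq with hlt | heq
    · have := zpow_lt_zpow_right_of_lt_one₀ hpos hw1 hlt
      rw [zpow_zero] at this
      exact lt_irrefl _ (this.trans h)
    · rw [heq, zpow_zero] at h
      exact lt_irrefl _ h
  · intro h
    have := zpow_lt_zpow_right_of_lt_one₀ hpos hw1 h
    rwa [zpow_zero] at this

/-- `v(q) ^ a ≤ 1` iff `0 ≤ a`. -/
theorem S36BL_zpow_le_one_iff (hA : A.LiesOverPrime q) {a : ℤ} :
    A.valuation (q : Ω) ^ a ≤ 1 ↔ 0 ≤ a := by
  have hw0 := S36BL_vq_ne_zero (q := q) A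
  have hw1 := S36BL_vq_lt_one A hA
  have hpos : 0 < A.valuation (q : Ω) := zero_lt_iff.mpr hw0
  constructor
  · intro h
    by_contra hcon
    push Not at hcon
    have := zpow_lt_zpow_right_of_lt_one₀ hpos hw1 hcon
    rw [zpow_zero] at this
    exact lt_irrefl _ (this.trans_le h)
  · intro h
    rcases h.lt_or_eq with hlt | heq
    · exact ((S36BL_zpow_lt_one_iff A hA).2 hlt).le
    · rw [← heq, zpow_zero]

/-- **the value of a fixed element**: `v(c) = v(q) ^ m`. -/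
theorem S36BL_val_eq (hA : A.LiesOverPrime q) {c : Ω} (hc : c ≠ 0)
    (hfix : ∀ τ ∈ A.inertiaSubgroupIn ℚ, τ c = c) :
    ∃ m : ℤ, A.valuation c = A.valuation (q : Ω) ^ m := by
  obtain ⟨k, hk⟩ := S36BL_val' A hA hc hfix
  refine ⟨-k, ?_⟩
  rw [map_mul, map_zpow₀] at hk
  rw [zpow_neg]
  exact eq_inv_of_mul_eq_one_left hk

/-- every non-zero element of `L` is `q ^ m · unit` of `A ∩ L`. -/
theorem S36BL_dv (hA : A.LiesOverPrime q)
    (hL : ∀ c ∈ L, ∀ τ ∈ A.inertiaSubgroupIn ℚ, τ c = c) {c : L} (hc : c ≠ 0) :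
    ∃ m : ℤ, c * (q : L) ^ (-m) ∈ A.comap L.subtype ∧
      (c * (q : L) ^ (-m))⁻¹ ∈ A.comap L.subtype := by
  have hc' : (c : Ω) ≠ 0 := fun h => hc (Subtype.ext h)
  obtain ⟨k, hk⟩ := S36BL_val' A hA hc' (hL c c.2)
  refine ⟨-k, ?_⟩
  rw [neg_neg]
  have hcoe : L.subtype (c * (q : L) ^ k) = (c : Ω) * (q : Ω) ^ k := by
    rw [map_mul, map_zpow₀, map_natCast]
    rfl
  constructor
  · show L.subtype (c * (q : L) ^ k) ∈ A
    rw [hcoe]
    exact ((S36BL_unit_iff A).mpr hk).1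
  · show L.subtype (c * (q : L) ^ k)⁻¹ ∈ A
    rw [map_inv₀, hcoe, ← A.valuation_le_one_iff, map_inv₀, hk, inv_one]

/-- the uniformiser `q` of `L`. -/
def S36BL_pi : Lˣ := Units.mk0 (q : L) (S36BL_qL_ne_zero L)

theorem S36BL_pi_val : ((S36BL_pi (q := q) L : Lˣ) : L) = (q : L) := rfl

/-- **`dvL` of `S36CH_Hyp`**. -/
theorem S36BL_dvL (hA : A.LiesOverPrime q)
    (hL : ∀ c ∈ L, ∀ τ ∈ A.inertiaSubgroupIn ℚ, τ c = c) (c : Lˣ) :
    ∃ m : ℤ, c * S36BL_pi (q := q) L ^ (-m) ∈ S36CV_UG (A.comap L.subtype) := by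
  obtain ⟨m, h1, h2⟩ := S36BL_dv A L hA hL c.ne_zero
  refine ⟨m, ?_, ?_⟩
  · rw [Units.val_mul, Units.val_zpow_eq_zpow_val]
    exact h1
  · rw [Units.val_inv_eq_inv_val, Units.val_mul, Units.val_zpow_eq_zpow_val]
    exact h2

/-- `q` is not a unit of `A ∩ L`, in the shape of `S36CV_UG`. -/
theorem S36BL_pi_not_unit (hA : A.LiesOverPrime q) :
    S36BL_pi (q := q) L ∉ S36CV_UG (A.comap L.subtype) := by
  rintro ⟨-, h2⟩
  rw [Units.val_inv_eq_inv_val] at h2
  have h3 : ((q : Ω))⁻¹ ∈ A := by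
    have : L.subtype ((q : L))⁻¹ ∈ A := h2
    rwa [map_inv₀, map_natCast] at this
  rw [← A.valuation_le_one_iff, map_inv₀] at h3
  have hw0 := S36BL_vq_ne_zero (q := q) A
  have hw1 := S36BL_vq_lt_one A hA
  have : 1 ≤ A.valuation (q : Ω) := by
    have := (inv_le_one₀ (zero_lt_iff.mpr hw0)).mp h3
    exact this
  exact lt_irrefl _ (hw1.trans_le this)

theorem S36BL_pi_mem (hA : A.LiesOverPrime q) : (q : L) ∈ A.comap L.subtype := by
  show L.subtype (q : L) ∈ A
  rw [map_natCast, ← A.valuation_le_one_iff]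
  exact (S36BL_vq_lt_one A hA).le

/-- **`A ∩ L` is a discrete valuation ring** (with uniformiser `q`). -/
theorem S36BL_isDVR (hA : A.LiesOverPrime q)
    (hL : ∀ c ∈ L, ∀ τ ∈ A.inertiaSubgroupIn ℚ, τ c = c) :
    IsDiscreteValuationRing ↥(A.comap L.subtype) := by
  have hw0 := S36BL_vq_ne_zero (q := q) A
  have hw1 := S36BL_vq_lt_one A hA
  have hmem : ∀ x : L, x ∈ A.comap L.subtype ↔ A.valuation (x : Ω) ≤ 1 := fun x => by
    rw [A.valuation_le_one_iff]; rfl
  have hval : ∀ x : L, x ≠ 0 → ∃ m : ℤ, A.valuation (x : Ω) = A.valuation (q : Ω) ^ m :=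
    fun x hx => S36BL_val_eq A hA (fun h => hx (Subtype.ext h)) (hL x x.2)
  refine S36IT_isDVR_of_unif (A.comap L.subtype) (q : L) (S36BL_pi_mem A L hA)
    (S36BL_qL_ne_zero L) ?_ ?_ ?_
  · rw [hmem]
    push_cast
    rw [map_inv₀, not_le]
    exact (one_lt_inv₀ (zero_lt_iff.mpr hw0)).mpr hw1
  · intro x hx hxi
    have hx0 : x ≠ 0 := by
      rintro rfl
      rw [inv_zero] at hxi
      exact hxi (A.comap L.subtype).zero_mem
    obtain ⟨m, hm⟩ := hval x hx0
    have hlt : A.valuation (x : Ω) < 1 := by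
      rw [hmem] at hxi
      push_cast at hxi
      rw [map_inv₀, not_le] at hxi
      have hvx0 : A.valuation (x : Ω) ≠ 0 :=
        (Valuation.ne_zero_iff _).2 (fun h => hx0 (Subtype.ext h))
      exact (one_lt_inv₀ (zero_lt_iff.mpr hvx0)).mp hxi
    rw [hm, S36BL_zpow_lt_one_iff A hA] at hlt
    rw [hmem]
    push_cast
    rw [map_div₀, hm, div_eq_mul_inv, ← zpow_neg_one, ← zpow_add₀ hw0,
      S36BL_zpow_le_one_iff A hA]
    omega
  · intro x hx hx0
    obtain ⟨m, hm⟩ := hval x hx0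
    have hle : A.valuation (x : Ω) ≤ 1 := (hmem x).mp hx
    rw [hm, S36BL_zpow_le_one_iff A hA] at hle
    refine ⟨m.toNat + 1, ?_⟩
    rw [hmem]
    push_cast
    rw [map_div₀, map_pow, hm, not_le, div_eq_mul_inv, ← zpow_natCast, ← zpow_neg,
      ← zpow_add₀ hw0]
    have hneg : m + -((m.toNat + 1 : ℕ) : ℤ) < 0 := by
      have := Int.toNat_of_nonneg hle
      push_cast
      omega
    have hpos : 0 < A.valuation (q : Ω) := zero_lt_iff.mpr hw0
    have := zpow_lt_zpow_right_of_lt_one₀ hpos hw1 hneg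
    rwa [zpow_zero] at this

/-- the inclusion `A ∩ L → A`. -/
def S36BL_ALincl : ↥(A.comap L.subtype) →+* A where
  toFun c := ⟨((c : L) : Ω), c.2⟩
  map_one' := rfl
  map_mul' _ _ := rfl
  map_zero' := rfl
  map_add' _ _ := rfl

theorem S36BL_ALincl_val (c : ↥(A.comap L.subtype)) :
    ((S36BL_ALincl A L c : A) : Ω) = ((c : L) : Ω) := rfl

/-- the residue map of `A ∩ L`, with values in the residue field of `A`. -/
def S36BL_resL : ↥(A.comap L.subtype) →+* IsLocalRing.ResidueField A :=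
  (IsLocalRing.residue A).comp (S36BL_ALincl A L)

theorem S36BL_resL_apply (c : ↥(A.comap L.subtype)) :
    S36BL_resL A L c = IsLocalRing.residue A ⟨((c : L) : Ω), c.2⟩ := rfl

/-- `hres0` of `S36FL_val`. -/
theorem S36BL_hres0 (a : A) : IsLocalRing.residue A a = 0 ↔ ¬ IsUnit a := by
  rw [IsLocalRing.residue_eq_zero_iff, IsLocalRing.mem_maximalIdeal, mem_nonunits_iff]

/-- `hres` of `S36FL_val`: every residue has an `I`-fixed lift. -/
theorem S36BL_hres (hA : A.LiesOverPrime q)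
    (hL : ∀ c : Ω, (∀ τ ∈ A.inertiaSubgroupIn ℚ, τ c = c) → c ∈ L)
    (y : IsLocalRing.ResidueField A) :
    ∃ a : A, (a : Ω) ∈ L ∧ IsLocalRing.residue A a = y := by
  haveI : Algebra.IsAlgebraic ℚ Ω := AlgebraicClosure.isAlgebraic ℚ
  obtain ⟨a, ha, hfix⟩ := S19TE_exists_lift A hq.out hA y
  exact ⟨a, hL _ hfix, ha⟩

/-- the residue map `A ∩ L → k` is onto. -/
theorem S36BL_resL_surjective (hA : A.LiesOverPrime q)
    (hL : ∀ c : Ω, (∀ τ ∈ A.inertiaSubgroupIn ℚ, τ c = c) → c ∈ L) :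
    Function.Surjective (S36BL_resL A L) := by
  intro y
  obtain ⟨a, haL, ha⟩ := S36BL_hres A L hA hL y
  exact ⟨⟨⟨(a : Ω), haL⟩, a.2⟩, ha⟩

/-- the kernel of the residue map: the non-units. -/
theorem S36BL_resL_eq_zero_iff (c : ↥(A.comap L.subtype)) :
    S36BL_resL A L c = 0 ↔ ((c : L))⁻¹ ∉ A.comap L.subtype ∨ c = 0 := by
  rw [S36BL_resL_apply, S36BL_hres0]
  constructor
  · intro h
    by_cases hc : c = 0
    · exact Or.inr hc
    · left
      intro hinv
      apply h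
      have hc0 : ((c : L) : Ω) ≠ 0 := fun h0 => hc (Subtype.ext (Subtype.ext h0))
      have hinv' : (((c : L) : Ω))⁻¹ ∈ A := by
        have : L.subtype ((c : L))⁻¹ ∈ A := hinv
        rwa [map_inv₀] at this
      exact S36IT_isUnit_of_mem A c.2 hinv' hc0
  · rintro (h | rfl)
    · intro hu
      apply h
      have := S36IT_inv_mem_of_isUnit A hu
      show L.subtype ((c : L))⁻¹ ∈ A
      rw [map_inv₀]
      exact this
    · exact not_isUnit_zero

/-- `q` reduces to `0`. -/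
theorem S36BL_resL_q (hA : A.LiesOverPrime q) :
    S36BL_resL A L ⟨(q : L), S36BL_pi_mem A L hA⟩ = 0 := by
  rw [S36BL_resL_apply, IsLocalRing.residue_eq_zero_iff, IsLocalRing.mem_maximalIdeal,
    mem_nonunits_iff]
  intro hu
  have := S36IT_inv_mem_of_isUnit A hu
  rw [← A.valuation_le_one_iff, map_inv₀] at this
  have hw0 := S36BL_vq_ne_zero (q := q) A
  have hw1 := S36BL_vq_lt_one A hA
  have h1 : 1 ≤ A.valuation (q : Ω) := by
    have h2 := (inv_le_one₀ (zero_lt_iff.mpr hw0)).mp this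
    simpa using h2
  exact lt_irrefl _ (hw1.trans_le h1)

end

end Fermat.Agent.S36
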