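import Mathlib
import Fermat.Agent.Lib.LaurentTheta
import Fermat.Agent.GalRep.ESSeries

/-!
# TRACK 10 (S36), package F5b = ORD-FV-Q (helper24), abstract core: the `q`-expansion computation

`R` a commutative ring, `ζ : Rˣ` with `1 + ζ + ⋯ + ζ^{q-1} = 0` (`q` prime), `π = ζ - 1`,
`tw_ζ f = f(ζ t)` (`ES_tw`), `θ = t d/dt` (`LT_theta`).

* `S36OQ_gs ζ k` — the `ζ`-integer `[k]_ζ`: `(ζ - 1) [k]_ζ = ζ^k - 1`, `[k]_ζ ≡ k mod (ζ - 1)`.
* `S36OQ_D ζ f` — the series `∑ [k]_ζ a_k t^k`;  `S36OQ_tw_sub : f(ζt) - f(t) = π · D f`;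
  `S36OQ_D_red : coeffMap φ (D f) = θ (coeffMap φ f)` for every `φ` with `φ ζ = 1`.
* `S36OQ_pi_pow : π^{q-1} = q · (-1 + π a)`.
* `S36OQ_prod`, `S36OQ_main` — **the formula of (R6)**: a product of `q - 1` differences
  `f_i(ζ t) - f_i(t)` is `q · g` with `coeffMap φ g = - ∏ θ (coeffMap φ f_i)`; in particular
  `red ((f(ζt) - f(t))^{q-1} / q) = - (θ f̄)^{q-1}`.
* helpers for the instantiation: `S36OQ_geom_zero` (domain, `ζ^q = 1`, `ζ ≠ 1`),
  `S36OQ_map_eq_one` (`φ ζ = 1` in characteristic `q`), `S36OQ_zeta_mem` (roots of unity lie in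
  every valuation subring), `S36OQ_theta_order` (order of `θ f`).
-/

set_option autoImplicit false

open HahnSeries ModularCurve

noncomputable section

namespace Fermat.Agent.S36

open Fermat.Agent.Lib Fermat.Agent.GalRep

variable {R : Type*} [CommRing R]

/-! ### the `ζ`-integers -/

/-- the `ζ`-integer `[k]_ζ = (ζ^k - 1)/(ζ - 1)`, `k ∈ ℤ`. -/
def S36OQ_gs (ζ : Rˣ) (k : ℤ) : R :=
  if 0 ≤ k then ∑ i ∈ Finset.range k.toNat, (ζ : R) ^ i
  else -((ζ ^ k : Rˣ) : R) * ∑ i ∈ Finset.range (-k).toNat, (ζ : R) ^ i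

theorem S36OQ_gs_spec (ζ : Rˣ) (k : ℤ) :
    ((ζ : R) - 1) * S36OQ_gs ζ k = ((ζ ^ k : Rˣ) : R) - 1 := by
  unfold S36OQ_gs
  split_ifs with hk
  · obtain ⟨n, rfl⟩ := Int.eq_ofNat_of_zero_le hk
    rw [Int.toNat_natCast, mul_geom_sum, zpow_natCast, Units.val_pow_eq_pow_val]
  · obtain ⟨n, hn⟩ := Int.eq_ofNat_of_zero_le (show (0 : ℤ) ≤ -k by omega)
    rw [hn, Int.toNat_natCast]
    have hk' : k = -(n : ℤ) := by omega
    have h1 : ((ζ ^ k : Rˣ) : R) * (ζ : R) ^ n = 1 := by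
      rw [hk', ← Units.val_pow_eq_pow_val, ← Units.val_mul, zpow_neg, zpow_natCast,
        inv_mul_cancel, Units.val_one]
    calc ((ζ : R) - 1) * (-((ζ ^ k : Rˣ) : R) * ∑ i ∈ Finset.range n, (ζ : R) ^ i)
        = -((ζ ^ k : Rˣ) : R) * (((ζ : R) - 1) * ∑ i ∈ Finset.range n, (ζ : R) ^ i) := by ring
      _ = -((ζ ^ k : Rˣ) : R) * ((ζ : R) ^ n - 1) := by rw [mul_geom_sum]
      _ = ((ζ ^ k : Rˣ) : R) - ((ζ ^ k : Rˣ) : R) * (ζ : R) ^ n := by ring
      _ = ((ζ ^ k : Rˣ) : R) - 1 := by rw [h1]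

/-- `[k]_ζ ↦ k` under every ring homomorphism with `φ ζ = 1`. -/
theorem S36OQ_map_gs {S : Type*} [CommRing S] (φ : R →+* S) (ζ : Rˣ) (hφ : φ (ζ : R) = 1)
    (k : ℤ) : φ (S36OQ_gs ζ k) = (k : S) := by
  have hz : ∀ m : ℤ, φ ((ζ ^ m : Rˣ) : R) = 1 := by
    intro m
    have h1 : Units.map (φ : R →* S) ζ = 1 := Units.ext hφ
    have h2 : φ ((ζ ^ m : Rˣ) : R) = ((Units.map (φ : R →* S) (ζ ^ m) : Sˣ) : S) := rfl
    rw [h2, map_zpow, h1, one_zpow, Units.val_one]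
  unfold S36OQ_gs
  split_ifs with hk
  · obtain ⟨n, rfl⟩ := Int.eq_ofNat_of_zero_le hk
    rw [Int.toNat_natCast, map_sum]
    simp [hφ]
  · obtain ⟨n, hn⟩ := Int.eq_ofNat_of_zero_le (show (0 : ℤ) ≤ -k by omega)
    rw [hn, Int.toNat_natCast, map_mul, map_neg, hz, map_sum]
    have hk' : k = -(n : ℤ) := by omega
    simp [hφ, hk']

theorem S36OQ_gs_congr (ζ : Rˣ) (k : ℤ) :
    ∃ c : R, S36OQ_gs ζ k = (k : R) + ((ζ : R) - 1) * c := by
  have h := S36OQ_map_gs (Ideal.Quotient.mk (Ideal.span {(ζ : R) - 1})) ζ (by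
    have : (Ideal.Quotient.mk (Ideal.span {(ζ : R) - 1})) ((ζ : R) - 1) = 0 :=
      Ideal.Quotient.eq_zero_iff_mem.mpr (Ideal.subset_span rfl)
    rw [map_sub, map_one, sub_eq_zero] at this
    exact this) k
  have h2 : (Ideal.Quotient.mk (Ideal.span {(ζ : R) - 1})) (S36OQ_gs ζ k - (k : R)) = 0 := by
    rw [map_sub, h, map_intCast, sub_self]
  obtain ⟨c, hc⟩ := Ideal.mem_span_singleton'.mp (Ideal.Quotient.eq_zero_iff_mem.mp h2)
  exact ⟨c, by rw [mul_comm, hc]; ring⟩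

/-! ### the operator `D_ζ` -/

/-- the series `∑ [k]_ζ a_k t^k`. -/
def S36OQ_Dfun (ζ : Rˣ) (f : LaurentSeries R) : LaurentSeries R where
  coeff n := S36OQ_gs ζ n * f.coeff n
  isPWO_support' := f.isPWO_support.mono (fun n hn => by
    simp only [Function.mem_support, ne_eq] at hn
    exact fun h0 => hn (by rw [h0, mul_zero]))

/-- `D_ζ f = (f(ζ t) - f(t)) / (ζ - 1)`, as an additive map. -/
def S36OQ_D (ζ : Rˣ) : LaurentSeries R →+ LaurentSeries R where
  toFun := S36OQ_Dfun ζ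
  map_zero' := by
    ext n
    simp [S36OQ_Dfun]
  map_add' f g := by
    ext n
    simp [S36OQ_Dfun, mul_add]

@[simp]
theorem S36OQ_D_coeff (ζ : Rˣ) (f : LaurentSeries R) (n : ℤ) :
    (S36OQ_D ζ f).coeff n = S36OQ_gs ζ n * f.coeff n := rfl

theorem S36OQ_coeff_C_mul (c : R) (f : LaurentSeries R) (n : ℤ) :
    (HahnSeries.C c * f).coeff n = c * f.coeff n := by
  rw [HahnSeries.C_apply, HahnSeries.coeff_single_zero_mul]

/-- `f(ζ t) - f(t) = (ζ - 1) · D_ζ f`. -/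
theorem S36OQ_tw_sub (ζ : Rˣ) (f : LaurentSeries R) :
    ES_tw ζ f - f = HahnSeries.C ((ζ : R) - 1) * S36OQ_D ζ f := by
  ext n
  rw [HahnSeries.coeff_sub, ES_tw_coeff, S36OQ_coeff_C_mul, S36OQ_D_coeff, ← mul_assoc,
    S36OQ_gs_spec]
  ring

/-- the reduction of `D_ζ f` is `θ f̄`. -/
theorem S36OQ_D_red {S : Type*} [CommRing S] (φ : R →+* S) (ζ : Rˣ) (hφ : φ (ζ : R) = 1)
    (f : LaurentSeries R) :
    coeffMap φ (S36OQ_D ζ f) = LT_theta (coeffMap φ f) := by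
  ext n
  rw [coeffMap_coeff, S36OQ_D_coeff, map_mul, S36OQ_map_gs φ ζ hφ, LT_theta_coeff,
    coeffMap_coeff]

theorem S36OQ_coeffMap_C {S : Type*} [CommRing S] (φ : R →+* S) (c : R) :
    coeffMap φ (HahnSeries.C c : LaurentSeries R) = HahnSeries.C (φ c) := by
  rw [HahnSeries.C_apply, HahnSeries.C_apply, coeffMap_single]

/-! ### `π^{q-1} = -q (1 + ⋯)` -/

/-- `Φ_q(1 + X) = X^{q-1} + q (1 + X Q)` in `ℤ[X]`. -/
theorem S36OQ_cyclotomic_shift (q : ℕ) (hq : q.Prime) :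
    ∃ Q : Polynomial ℤ, (Polynomial.cyclotomic q ℤ).comp (Polynomial.X + 1) =
      Polynomial.X ^ (q - 1) + Polynomial.C (q : ℤ) * (1 + Polynomial.X * Q) := by
  classical
  have : Fact q.Prime := ⟨hq⟩
  set P : Polynomial ℤ := (Polynomial.cyclotomic q ℤ).comp (Polynomial.X + 1) with hP
  have hE : P.IsEisensteinAt (Submodule.span ℤ {(q : ℤ)}) :=
    cyclotomic_comp_X_add_one_isEisensteinAt q
  have hmonic : P.Monic := by
    have h1 : (Polynomial.X + 1 : Polynomial ℤ) = Polynomial.X + Polynomial.C 1 := by simp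
    rw [hP, h1]
    exact (Polynomial.cyclotomic.monic q ℤ).comp_X_add_C 1
  have hdeg : P.natDegree = q - 1 := by
    have h1 : (Polynomial.X + 1 : Polynomial ℤ) = Polynomial.X + Polynomial.C 1 := by simp
    rw [hP, h1, Polynomial.natDegree_comp, Polynomial.natDegree_X_add_C, mul_one,
      Polynomial.natDegree_cyclotomic, Nat.totient_prime hq]
  have hq1 : 0 < q - 1 := Nat.sub_pos_of_lt hq.one_lt
  have hc0 : P.coeff 0 = (q : ℤ) := by
    rw [Polynomial.coeff_zero_eq_eval_zero, hP, Polynomial.eval_comp]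
    simp [Polynomial.eval_one_cyclotomic_prime]
  -- all coefficients of `P - X^(q-1)` are divisible by `q`
  have hdiv : Polynomial.C (q : ℤ) ∣ P - Polynomial.X ^ (q - 1) := by
    rw [Polynomial.C_dvd_iff_dvd_coeff]
    intro j
    rw [Polynomial.coeff_sub, Polynomial.coeff_X_pow]
    rcases lt_trichotomy j (q - 1) with hj | hj | hj
    · rw [if_neg hj.ne, sub_zero]
      have := hE.mem (n := j) (by rw [hdeg]; exact hj)
      exact Ideal.mem_span_singleton.mp this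
    · rw [if_pos hj, hj, ← hdeg]
      have : P.coeff P.natDegree = 1 := hmonic.coeff_natDegree
      rw [this, sub_self]
      exact dvd_zero _
    · rw [if_neg hj.ne', sub_zero, Polynomial.coeff_eq_zero_of_natDegree_lt (by rw [hdeg]; exact hj)]
      exact dvd_zero _
  obtain ⟨P₁, hP₁⟩ := hdiv
  have hP₁0 : P₁.coeff 0 = 1 := by
    have h := congrArg (fun p : Polynomial ℤ => p.coeff 0) hP₁
    simp only [Polynomial.coeff_sub, Polynomial.coeff_X_pow, Polynomial.coeff_C_mul] at h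
    rw [hc0, if_neg hq1.ne, sub_zero] at h
    have hq0 : (q : ℤ) ≠ 0 := by exact_mod_cast hq.ne_zero
    have : (q : ℤ) * 1 = (q : ℤ) * P₁.coeff 0 := by rw [mul_one]; exact h
    exact (mul_left_cancel₀ hq0 this).symm
  have hX : Polynomial.X ∣ P₁ - 1 := by
    rw [Polynomial.X_dvd_iff, Polynomial.coeff_sub, hP₁0, Polynomial.coeff_one_zero, sub_self]
  obtain ⟨Q, hQ⟩ := hX
  refine ⟨Q, ?_⟩
  have e1 : P = Polynomial.X ^ (q - 1) + Polynomial.C (q : ℤ) * P₁ := by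
    rw [← hP₁]; ring
  have e2 : P₁ = 1 + Polynomial.X * Q := by
    rw [← hQ]; ring
  rw [e1, e2]

/-- **`π^{q-1} = q · (-1 + π a)`** for `π = ζ - 1`, `ζ` a root of `Φ_q`. -/
theorem S36OQ_pi_pow (q : ℕ) (hq : q.Prime) (ζ : R)
    (hζ : ∑ i ∈ Finset.range q, ζ ^ i = 0) :
    ∃ a : R, (ζ - 1) ^ (q - 1) = (q : R) * (-1 + (ζ - 1) * a) := by
  have : Fact q.Prime := ⟨hq⟩
  obtain ⟨Q, hQ⟩ := S36OQ_cyclotomic_shift q hq
  have h1 := congrArg (Polynomial.aeval (ζ - 1)) hQ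
  have h2 : Polynomial.aeval (ζ - 1) ((Polynomial.cyclotomic q ℤ).comp (Polynomial.X + 1)) = 0 := by
    rw [Polynomial.aeval_comp]
    have : Polynomial.aeval (ζ - 1) (Polynomial.X + 1 : Polynomial ℤ) = ζ := by simp
    rw [this, Polynomial.cyclotomic_prime ℤ q]
    simpa using hζ
  rw [h2] at h1
  refine ⟨-Polynomial.aeval (ζ - 1) Q, ?_⟩
  have h3 : Polynomial.aeval (ζ - 1) (Polynomial.C (q : ℤ)) = (q : R) := by
    rw [Polynomial.aeval_C]
    simp
  rw [map_add, map_mul, map_pow, Polynomial.aeval_X, h3, map_add, map_one, map_mul,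
    Polynomial.aeval_X] at h1
  linear_combination -h1

/-! ### the formula of (R6) -/

/-- **ORD-FV-Q, polarised form.**  A product of `q - 1` differences `f_i(ζ t) - f_i(t)` is
`q · g`, and the reduction of `g` is `- ∏ θ f̄_i`. -/
theorem S36OQ_prod (q : ℕ) (hq : q.Prime) (ζ : Rˣ)
    (hζ : ∑ i ∈ Finset.range q, (ζ : R) ^ i = 0)
    {ι : Type*} (s : Finset ι) (hs : s.card = q - 1) (f : ι → LaurentSeries R) :
    ∃ g : LaurentSeries R,
      ∏ i ∈ s, (ES_tw ζ (f i) - f i) = HahnSeries.C (q : R) * g ∧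
      ∀ {S : Type*} [CommRing S] (φ : R →+* S), φ (ζ : R) = 1 →
        coeffMap φ g = -∏ i ∈ s, LT_theta (coeffMap φ (f i)) := by
  obtain ⟨a, ha⟩ := S36OQ_pi_pow q hq (ζ : R) hζ
  refine ⟨HahnSeries.C (-1 + ((ζ : R) - 1) * a) * ∏ i ∈ s, S36OQ_D ζ (f i), ?_, ?_⟩
  · have h1 : ∀ i ∈ s, ES_tw ζ (f i) - f i = HahnSeries.C ((ζ : R) - 1) * S36OQ_D ζ (f i) :=
      fun i _ => S36OQ_tw_sub ζ (f i)
    rw [Finset.prod_congr rfl h1, Finset.prod_mul_distrib, Finset.prod_const, hs, ← map_pow, ha,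
      map_mul, map_natCast, mul_assoc]
  · intro S _ φ hφ
    have h0 : φ (-1 + ((ζ : R) - 1) * a) = -1 := by
      rw [map_add, map_neg, map_one, map_mul, map_sub, hφ, map_one, sub_self, zero_mul, add_zero]
    rw [map_mul, S36OQ_coeffMap_C, h0, map_neg, map_one, neg_one_mul, map_prod]
    congr 1
    exact Finset.prod_congr rfl (fun i _ => S36OQ_D_red φ ζ hφ (f i))

/-- **ORD-FV-Q.**  `(f(ζ t) - f(t))^{q-1} = q · g` and the reduction of `g` is `- (θ f̄)^{q-1}`. -/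
theorem S36OQ_main (q : ℕ) (hq : q.Prime) (ζ : Rˣ)
    (hζ : ∑ i ∈ Finset.range q, (ζ : R) ^ i = 0) (f : LaurentSeries R) :
    ∃ g : LaurentSeries R,
      (ES_tw ζ f - f) ^ (q - 1) = HahnSeries.C (q : R) * g ∧
      ∀ {S : Type*} [CommRing S] (φ : R →+* S), φ (ζ : R) = 1 →
        coeffMap φ g = -(LT_theta (coeffMap φ f)) ^ (q - 1) := by
  obtain ⟨g, h1, h2⟩ := S36OQ_prod q hq ζ hζ (Finset.univ : Finset (Fin (q - 1)))
    (by rw [Finset.card_univ, Fintype.card_fin]) (fun _ => f)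
  refine ⟨g, ?_, ?_⟩
  · rw [← h1, Finset.prod_const, Finset.card_univ, Fintype.card_fin]
  · intro S _ φ hφ
    rw [h2 φ hφ, Finset.prod_const, Finset.card_univ, Fintype.card_fin]

/-! ### helpers for the instantiation -/

/-- in a domain, a `q`-th root of unity `ζ ≠ 1` is a root of `1 + X + ⋯ + X^{q-1}`. -/
theorem S36OQ_geom_zero [IsDomain R] (q : ℕ) (ζ : R) (hζ : ζ ^ q = 1) (hζ1 : ζ ≠ 1) :
    ∑ i ∈ Finset.range q, ζ ^ i = 0 := by
  have h := mul_geom_sum ζ q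
  rw [hζ, sub_self] at h
  rcases mul_eq_zero.mp h with h1 | h1
  · exact absurd (sub_eq_zero.mp h1) hζ1
  · exact h1

/-- in a reduced ring of characteristic `q`, the only `q`-th root of unity is `1`. -/
theorem S36OQ_eq_one_of_char {S : Type*} [CommRing S] [IsReduced S] (q : ℕ) [Fact q.Prime]
    [CharP S q] (x : S) (hx : x ^ q = 1) : x = 1 := by
  have h : (x - 1) ^ q = 0 := by
    rw [sub_pow_char, hx, one_pow, sub_self]
  exact sub_eq_zero.mp (pow_eq_zero_iff (Nat.Prime.ne_zero Fact.out) |>.mp h)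

/-- a ring homomorphism to a reduced ring of characteristic `q` maps `q`-th roots of unity
to `1`. -/
theorem S36OQ_map_eq_one {S : Type*} [CommRing S] [IsReduced S] (q : ℕ) [Fact q.Prime]
    [CharP S q] (φ : R →+* S) (ζ : R) (hζ : ζ ^ q = 1) : φ ζ = 1 :=
  S36OQ_eq_one_of_char q (φ ζ) (by rw [← map_pow, hζ, map_one])

/-- roots of unity lie in every valuation subring. -/
theorem S36OQ_zeta_mem {K : Type*} [Field K] (A : ValuationSubring K) (n : ℕ) (hn : 0 < n)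
    (ζ : K) (hζ : ζ ^ n = 1) : ζ ∈ A := by
  rcases A.mem_or_inv_mem ζ with h | h
  · exact h
  · have h1 : ζ = ζ⁻¹ ^ (n - 1) := by
      have hζ0 : ζ ≠ 0 := by
        rintro rfl
        rw [zero_pow hn.ne'] at hζ
        exact zero_ne_one hζ
      have e : ζ ^ n = ζ ^ (n - 1) * ζ := by
        rw [← pow_succ, Nat.sub_add_cancel hn]
      rw [inv_pow]
      exact eq_inv_of_mul_eq_one_left (by rw [mul_comm, ← e, hζ])
    rw [h1]
    exact pow_mem h _

/-- the order of `θ f` when the characteristic does not divide the order of `f`. -/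
theorem S36OQ_theta_order {k : Type*} [Field k] (f : LaurentSeries k) (hf : f ≠ 0)
    (h : ((f.order : ℤ) : k) ≠ 0) : (LT_theta f).order = f.order := by
  have hc : (LT_theta f).coeff f.order ≠ 0 := by
    rw [LT_theta_coeff]
    exact mul_ne_zero h (fun h0 => hf (HahnSeries.coeff_order_eq_zero.mp h0))
  have h0 : LT_theta f ≠ 0 := HahnSeries.ne_zero_of_coeff_ne_zero hc
  refine le_antisymm (HahnSeries.order_le_of_coeff_ne_zero hc) ?_
  by_contra hlt
  rw [not_le] at hlt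
  have h1 : (LT_theta f).coeff (LT_theta f).order = 0 := by
    rw [LT_theta_coeff, HahnSeries.coeff_eq_zero_of_lt_order hlt, mul_zero]
  exact h0 (HahnSeries.coeff_order_eq_zero.mp h1)

/-- the leading coefficient of `θ f`. -/
theorem S36OQ_theta_coeff_order {k : Type*} [Field k] (f : LaurentSeries k) :
    (LT_theta f).coeff f.order = ((f.order : ℤ) : k) * f.coeff f.order :=
  LT_theta_coeff f _

/-- the order of `(θ f)^n` when the characteristic does not divide the order of `f`: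
for `f = j̄ = t⁻¹ + ⋯` the function `H_j = -(θ j̄)^{q-1}` has order `-(q-1)` in `t`. -/
theorem S36OQ_theta_pow_order {k : Type*} [Field k] (f : LaurentSeries k) (hf : f ≠ 0)
    (h : ((f.order : ℤ) : k) ≠ 0) (n : ℕ) :
    (-(LT_theta f) ^ n).order = n • f.order := by
  rw [HahnSeries.order_neg, HahnSeries.order_pow, S36OQ_theta_order f hf h]

end Fermat.Agent.S36
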