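import Fermat.Agent.S36.Val3
import Fermat.Agent.S34.WqInst
import Fermat.Prelude.Thm_ModularCurve_coeffMap_qExpand

/-!
# TRACK 10 (S36), package P-VAL3 §4 (helper29): `G_ℚ`-equivariance of `coe₂`, `w₂`, `ι_ζ`

Levels `M`, `N₁ = M q`, `N₂ = M q q`; `σ ∈ G_ℚ` acts on `F_N` through the `q`-expansion coefficients
(`GR_gal N σ`).

* `S36VE_coe_gal`   : `coe (σ f) = σ (coe f)` (coefficientwise);
* `S36VE_gal_alpha`, `S36VE_gal_beta` : `α`, `β` commute with `σ`;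
* `S36VE_wq_gal`    : `w_q (σ f) = σ (w_q f)` (TRACK 7);
* `S36VE_w2_gal`    : `w₂ (σ f) = σ (w₂ f)`;
* `S36VE_iota_gal`  : `σ (ι_ζ f) = ι_{σ ζ} (σ f)` (coefficientwise), for every `ζ'` with `ζ' = σ ζ`;
* `S36VE_iota_gal_fix` : if `σ ζ = ζ` then `ι_ζ (σ f) = σ (ι_ζ f)`;
* `S36VE_iota_gal'` : `ι_ζ (σ f) = σ (ι_{σ⁻¹ ζ} f)`.
-/

set_option autoImplicit false
set_option synthInstance.maxHeartbeats 400000
set_option maxHeartbeats 1000000
set_option linter.style.haveILetI false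
set_option linter.unusedSectionVars false

open HahnSeries IntermediateField AlgebraicCurve ModularCurve

noncomputable section

namespace Fermat.Agent.S36

open Fermat.Agent.S18 Fermat.Agent.S24 Fermat.Agent.S34 Fermat.Agent.S37 Fermat.Agent.GalRep

local notation "ℚbar" => AlgebraicClosure ℚ

section general

variable (N q : ℕ) [NeZero N] [NeZero q] [NeZero (N * q)]

/-- the Galois action is coefficientwise. -/
theorem S36VE_coe_gal (σ : GQ) (x : ↥(modularFunctionFieldBar N)) :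
    ((GR_gal N σ x : ↥(modularFunctionFieldBar N)) : LaurentSeries ℚbar) =
      coeffMap (σ : ℚbar →+* ℚbar) (x : LaurentSeries ℚbar) := rfl

theorem S36VE_gal_alpha (σ : GQ) (x : ↥(modularFunctionFieldBar N)) :
    GR_gal (N * q) σ (heckeAlphaBar ℚbar N q x) = heckeAlphaBar ℚbar N q (GR_gal N σ x) := by
  apply Subtype.ext
  rw [coe_arithmeticRingAut_apply, coe_heckeAlphaBar, coe_heckeAlphaBar,
    coe_arithmeticRingAut_apply]

theorem S36VE_gal_beta (σ : GQ) (x : ↥(modularFunctionFieldBar N)) :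
    GR_gal (N * q) σ (heckeBetaBar ℚbar N q x) = heckeBetaBar ℚbar N q (GR_gal N σ x) := by
  apply Subtype.ext
  rw [coe_arithmeticRingAut_apply, coe_heckeBetaBar, coe_heckeBetaBar,
    coe_arithmeticRingAut_apply]
  exact ModularCurve.coeffMap_qExpand _ q _

end general

variable (M q : ℕ) [NeZero M] [NeZero q] (hq : q.Prime) (hqM : ¬ q ∣ M)

/-- `w_q` commutes with the Galois action (TRACK 7, `S34WJ_wq_gal`). -/
theorem S36VE_wq_gal (σ : GQ) (f : ↥(modularFunctionFieldBar (M * q))) :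
    S34DF_wq M q hq hqM (GR_gal (M * q) σ f) = GR_gal (M * q) σ (S34DF_wq M q hq hqM f) :=
  S34WJ_wq_gal hq hqM σ f

/-- **`w_{q²}` commutes with the Galois action**. -/
theorem S36VE_w2_gal (σ : GQ) (f : ↥(modularFunctionFieldBar (M * q * q))) :
    S36V_w2 M q hq hqM (GR_gal (M * q * q) σ f) = GR_gal (M * q * q) σ (S36V_w2 M q hq hqM f) := by
  have h := S36V_glue_unique M q hq
    ((S36V_w2Hom M q hq hqM).comp
      ((GR_gal (M * q * q) σ : ↥(modularFunctionFieldBar (M * q * q)) ≃+*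
        ↥(modularFunctionFieldBar (M * q * q))) : ↥(modularFunctionFieldBar (M * q * q)) →+*
          ↥(modularFunctionFieldBar (M * q * q))))
    (((GR_gal (M * q * q) σ : ↥(modularFunctionFieldBar (M * q * q)) ≃+*
        ↥(modularFunctionFieldBar (M * q * q))) : ↥(modularFunctionFieldBar (M * q * q)) →+*
          ↥(modularFunctionFieldBar (M * q * q))).comp (S36V_w2Hom M q hq hqM))
    (fun s => by
      show S36V_w2Hom M q hq hqM (GR_gal (M * q * q) σ (heckeAlphaBar ℚbar (M * q) q s)) =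
        GR_gal (M * q * q) σ (S36V_w2Hom M q hq hqM (heckeAlphaBar ℚbar (M * q) q s))
      rw [S36VE_gal_alpha, S36V_w2Hom_alpha, S36V_w2Hom_alpha, S36VE_gal_beta, S36VE_wq_gal])
    (fun t => by
      show S36V_w2Hom M q hq hqM (GR_gal (M * q * q) σ (heckeBetaBar ℚbar (M * q) q t)) =
        GR_gal (M * q * q) σ (S36V_w2Hom M q hq hqM (heckeBetaBar ℚbar (M * q) q t))
      rw [S36VE_gal_beta, S36V_w2Hom_beta, S36V_w2Hom_beta, S36VE_gal_alpha, S36VE_wq_gal])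
  exact congrArg (fun φ : ↥(modularFunctionFieldBar (M * q * q)) →+*
    ↥(modularFunctionFieldBar (M * q * q)) => φ f) h

/-- **the middle embedding is `G_ℚ`-equivariant**: `σ (ι_ζ f) = ι_{σ ζ} (σ f)`. -/
theorem S36VE_iota_gal (σ : GQ) (ζ : ℚbarˣ) (hζ : ζ ^ q = 1) (hζ1 : ζ ≠ 1)
    (ζ' : ℚbarˣ) (hζ' : ζ' ^ q = 1) (hζ'1 : ζ' ≠ 1) (hσ : (ζ' : ℚbar) = σ (ζ : ℚbar))
    (f : ↥(modularFunctionFieldBar (M * q * q))) :
    coeffMap (σ : ℚbar →+* ℚbar) (S36V_iota M q hq hqM ζ hζ hζ1 f) =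
      S36V_iota M q hq hqM ζ' hζ' hζ'1 (GR_gal (M * q * q) σ f) := by
  have hu : Units.map ((σ : ℚbar →+* ℚbar) : ℚbar →* ℚbar) ζ = ζ' := by
    apply Units.ext
    rw [hσ]
    rfl
  have h := S36V_glue_unique M q hq
    ((coeffMap (σ : ℚbar →+* ℚbar)).comp (S36V_iotaHom M q hq hqM ζ hζ hζ1))
    ((S36V_iotaHom M q hq hqM ζ' hζ' hζ'1).comp
      ((GR_gal (M * q * q) σ : ↥(modularFunctionFieldBar (M * q * q)) ≃+*
        ↥(modularFunctionFieldBar (M * q * q))) : ↥(modularFunctionFieldBar (M * q * q)) →+*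
          ↥(modularFunctionFieldBar (M * q * q))))
    (fun s => by
      show coeffMap (σ : ℚbar →+* ℚbar)
          (S36V_iotaHom M q hq hqM ζ hζ hζ1 (heckeAlphaBar ℚbar (M * q) q s)) =
        S36V_iotaHom M q hq hqM ζ' hζ' hζ'1
          (GR_gal (M * q * q) σ (heckeAlphaBar ℚbar (M * q) q s))
      rw [S36VE_gal_alpha, S36V_iotaHom_alpha, S36V_iotaHom_alpha]
      rfl)
    (fun t => by
      show coeffMap (σ : ℚbar →+* ℚbar)
          (S36V_iotaHom M q hq hqM ζ hζ hζ1 (heckeBetaBar ℚbar (M * q) q t)) =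
        S36V_iotaHom M q hq hqM ζ' hζ' hζ'1
          (GR_gal (M * q * q) σ (heckeBetaBar ℚbar (M * q) q t))
      rw [S36VE_gal_beta, S36V_iotaHom_beta, S36V_iotaHom_beta, ES_coeffMap_tw, hu,
        S36VE_wq_gal]
      rfl)
  exact congrArg (fun φ : ↥(modularFunctionFieldBar (M * q * q)) →+*
    LaurentSeries ℚbar => φ f) h

/-- if `σ` fixes `ζ`, the middle embedding `ι_ζ` commutes with `σ`. -/
theorem S36VE_iota_gal_fix (σ : GQ) (ζ : ℚbarˣ) (hζ : ζ ^ q = 1) (hζ1 : ζ ≠ 1)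
    (hσ : σ (ζ : ℚbar) = ζ) (f : ↥(modularFunctionFieldBar (M * q * q))) :
    S36V_iota M q hq hqM ζ hζ hζ1 (GR_gal (M * q * q) σ f) =
      coeffMap (σ : ℚbar →+* ℚbar) (S36V_iota M q hq hqM ζ hζ hζ1 f) :=
  (S36VE_iota_gal M q hq hqM σ ζ hζ hζ1 ζ hζ hζ1 hσ.symm f).symm

/-- the image of a root of unity under `σ`, as a unit. -/
def S36VE_sig (σ : GQ) (ζ : ℚbarˣ) : ℚbarˣ :=
  Units.map ((σ : ℚbar →+* ℚbar) : ℚbar →* ℚbar) ζ

theorem S36VE_sig_val (σ : GQ) (ζ : ℚbarˣ) : ((S36VE_sig σ ζ : ℚbarˣ) : ℚbar) = σ (ζ : ℚbar) :=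
  rfl

theorem S36VE_sig_pow (σ : GQ) (ζ : ℚbarˣ) (hζ : ζ ^ q = 1) : S36VE_sig σ ζ ^ q = 1 := by
  rw [S36VE_sig, ← map_pow, hζ, map_one]

theorem S36VE_sig_ne_one (σ : GQ) (ζ : ℚbarˣ) (hζ1 : ζ ≠ 1) : S36VE_sig σ ζ ≠ 1 := by
  intro h
  apply hζ1
  apply Units.ext
  have h1 : σ (ζ : ℚbar) = 1 := by
    rw [← S36VE_sig_val, h]
    rfl
  have h2 : σ (ζ : ℚbar) = σ 1 := by rw [h1, map_one]
  exact σ.injective h2

/-- **equivariance, canonical form**: `σ (ι_ζ f) = ι_{σ ζ} (σ f)`. -/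
theorem S36VE_iota_gal_sig (σ : GQ) (ζ : ℚbarˣ) (hζ : ζ ^ q = 1) (hζ1 : ζ ≠ 1)
    (f : ↥(modularFunctionFieldBar (M * q * q))) :
    coeffMap (σ : ℚbar →+* ℚbar) (S36V_iota M q hq hqM ζ hζ hζ1 f) =
      S36V_iota M q hq hqM (S36VE_sig σ ζ) (S36VE_sig_pow q σ ζ hζ) (S36VE_sig_ne_one σ ζ hζ1)
        (GR_gal (M * q * q) σ f) :=
  S36VE_iota_gal M q hq hqM σ ζ hζ hζ1 _ _ _ (S36VE_sig_val σ ζ) f

/-- **equivariance, helper12's form**: `ι_ζ (σ f) = σ (ι_{σ⁻¹ ζ} f)`. -/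
theorem S36VE_iota_gal' (σ : GQ) (ζ : ℚbarˣ) (hζ : ζ ^ q = 1) (hζ1 : ζ ≠ 1)
    (f : ↥(modularFunctionFieldBar (M * q * q))) :
    S36V_iota M q hq hqM ζ hζ hζ1 (GR_gal (M * q * q) σ f) =
      coeffMap (σ : ℚbar →+* ℚbar)
        (S36V_iota M q hq hqM (S36VE_sig σ⁻¹ ζ) (S36VE_sig_pow q σ⁻¹ ζ hζ)
          (S36VE_sig_ne_one σ⁻¹ ζ hζ1) f) := by
  refine (S36VE_iota_gal M q hq hqM σ (S36VE_sig σ⁻¹ ζ) (S36VE_sig_pow q σ⁻¹ ζ hζ)
    (S36VE_sig_ne_one σ⁻¹ ζ hζ1) ζ hζ hζ1 ?_ f).symm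
  rw [S36VE_sig_val]
  exact (AlgEquiv.apply_symm_apply σ (ζ : ℚbar)).symm

/-- the middle embeddings depend only on the value of `ζ`. -/
theorem S36VE_iota_congr (ζ : ℚbarˣ) (hζ : ζ ^ q = 1) (hζ1 : ζ ≠ 1)
    (ζ' : ℚbarˣ) (hζ' : ζ' ^ q = 1) (hζ'1 : ζ' ≠ 1) (h : ζ = ζ')
    (f : ↥(modularFunctionFieldBar (M * q * q))) :
    S36V_iota M q hq hqM ζ hζ hζ1 f = S36V_iota M q hq hqM ζ' hζ' hζ'1 f := by
  subst h
  rfl

end Fermat.Agent.S36
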