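import Mathlib
import Fermat.Agent.S18.ValRep
import Fermat.Agent.GalRep.ESSeries

/-!
# TRACK 10 (S36), package VAL3 (helper12), part 2: the Gauss ring along an embedding

`A ⊂ L` a valuation subring with residue field `k`, `φ : F → L((t))` a ring homomorphism from a
field.  The **Gauss ring along `φ`** is
`S36V_G A φ = {f | φ f = ι s₁ / ι s₂, s₁ s₂ ∈ A((t)), ρ s₂ ≠ 0}`, with reduction
`S36V_Gred A φ : S36V_G A φ →+* k((t))`, `f ↦ ρ s₁ / ρ s₂`.

* `S36V_Gred_eq` : computation of the reduction from any representation;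
* `S36V_G_inv_mem` : an element with non-zero reduction is a unit of the Gauss ring;
* `S36V_G_comp`, `S36V_Gred_comp` : functoriality in `F`;
* `S36V_G_post`, `S36V_Gred_post` : post-composition with an operator on series that is defined
  over `A` (twists `t ↦ u t`, substitutions `t ↦ t^n`): `S36V_G_tw`, `S36V_G_qExpand`;
* `S36V_G_of_int`, `S36V_Gred_of_int` : integral series; `S36V_G_const` : constants;
* `S36V_S18_le`, `S36V_Gred_S18` : comparison with `S18_O`, `S18_red`.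
-/

set_option autoImplicit false
set_option linter.unusedSectionVars false

open HahnSeries ModularCurve

noncomputable section

namespace Fermat.Agent.S36

open Fermat.Agent.S18 Fermat.Agent.GalRep

variable {L : Type*} [Field L] [Algebra ℚ L] (A : ValuationSubring L)
variable {F : Type*} [Field F] (φ : F →+* LaurentSeries L)

/-- the Gauss ring of `F` along `φ : F → L((t))`. -/
def S36V_G : Subring F where
  carrier := {f | ∃ s₁ s₂ : LaurentSeries A, S18_ρ A s₂ ≠ 0 ∧ φ f * S18_ι A s₂ = S18_ι A s₁}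
  zero_mem' := ⟨0, 1, by simp, by simp⟩
  one_mem' := ⟨1, 1, by simp, by simp⟩
  add_mem' := by
    rintro f g ⟨s₁, s₂, hne, hf⟩ ⟨t₁, t₂, kne, hg⟩
    refine ⟨s₁ * t₂ + t₁ * s₂, s₂ * t₂, ?_, ?_⟩
    · rw [map_mul]
      exact mul_ne_zero hne kne
    · simp only [map_add, map_mul]
      rw [← hf, ← hg]
      ring
  mul_mem' := by
    rintro f g ⟨s₁, s₂, hne, hf⟩ ⟨t₁, t₂, kne, hg⟩
    refine ⟨s₁ * t₁, s₂ * t₂, ?_, ?_⟩
    · rw [map_mul]
      exact mul_ne_zero hne kne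
    · simp only [map_mul]
      rw [← hf, ← hg]
      ring
  neg_mem' := by
    rintro f ⟨s₁, s₂, hne, hf⟩
    refine ⟨-s₁, s₂, hne, ?_⟩
    simp only [map_neg]
    rw [← hf]
    ring

theorem S36V_mem_G {f : F} :
    f ∈ S36V_G A φ ↔ ∃ s₁ s₂ : LaurentSeries A, S18_ρ A s₂ ≠ 0 ∧
      φ f * S18_ι A s₂ = S18_ι A s₁ :=
  Iff.rfl

open Classical in
/-- the reduction of an element of the Gauss ring (junk value `0` outside). -/
def S36V_GredFun (f : F) : LaurentSeries (IsLocalRing.ResidueField A) :=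
  if h : f ∈ S36V_G A φ then S18_ρ A h.choose / S18_ρ A h.choose_spec.choose else 0

theorem S36V_GredFun_eq {f : F} {s₁ s₂ : LaurentSeries A}
    (hne : S18_ρ A s₂ ≠ 0) (hf : φ f * S18_ι A s₂ = S18_ι A s₁) :
    S36V_GredFun A φ f = S18_ρ A s₁ / S18_ρ A s₂ := by
  have hO : f ∈ S36V_G A φ := ⟨s₁, s₂, hne, hf⟩
  rw [S36V_GredFun, dif_pos hO]
  have hspec := hO.choose_spec.choose_spec
  have e1 : φ f * S18_ι A hO.choose_spec.choose = S18_ι A hO.choose := hspec.2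
  have hkey : s₁ * hO.choose_spec.choose = hO.choose * s₂ := by
    apply S18_ι_injective A
    rw [map_mul, map_mul]
    linear_combination (-(S18_ι A hO.choose_spec.choose)) * hf + (S18_ι A s₂) * e1
  have hkey' := congrArg (S18_ρ A) hkey
  rw [map_mul, map_mul] at hkey'
  rw [div_eq_div_iff hspec.1 hne]
  exact hkey'.symm

/-- the reduction map of the Gauss ring along `φ`. -/
def S36V_Gred : S36V_G A φ →+* LaurentSeries (IsLocalRing.ResidueField A) where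
  toFun f := S36V_GredFun A φ f.1
  map_zero' := by
    show S36V_GredFun A φ 0 = 0
    rw [S36V_GredFun_eq A φ (s₁ := 0) (s₂ := 1) (by simp) (by simp)]
    simp
  map_one' := by
    show S36V_GredFun A φ 1 = 1
    rw [S36V_GredFun_eq A φ (s₁ := 1) (s₂ := 1) (by simp) (by simp)]
    simp
  map_add' := by
    rintro ⟨f, s₁, s₂, hne, hf⟩ ⟨g, t₁, t₂, kne, hg⟩
    show S36V_GredFun A φ (f + g) = S36V_GredFun A φ f + S36V_GredFun A φ g
    rw [S36V_GredFun_eq A φ hne hf, S36V_GredFun_eq A φ kne hg,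
      S36V_GredFun_eq A φ (s₁ := s₁ * t₂ + t₁ * s₂) (s₂ := s₂ * t₂)
        (by rw [map_mul]; exact mul_ne_zero hne kne)
        (by simp only [map_add, map_mul]; rw [← hf, ← hg]; ring)]
    simp only [map_add, map_mul]
    field_simp
  map_mul' := by
    rintro ⟨f, s₁, s₂, hne, hf⟩ ⟨g, t₁, t₂, kne, hg⟩
    show S36V_GredFun A φ (f * g) = S36V_GredFun A φ f * S36V_GredFun A φ g
    rw [S36V_GredFun_eq A φ hne hf, S36V_GredFun_eq A φ kne hg,
      S36V_GredFun_eq A φ (s₁ := s₁ * t₁) (s₂ := s₂ * t₂)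
        (by rw [map_mul]; exact mul_ne_zero hne kne)
        (by simp only [map_mul]; rw [← hf, ← hg]; ring)]
    simp only [map_mul]
    field_simp

/-- **computation of the reduction** from any representation `φ f · ι s₂ = ι s₁`. -/
theorem S36V_Gred_eq {f : F} (hfO : f ∈ S36V_G A φ) {s₁ s₂ : LaurentSeries A}
    (hne : S18_ρ A s₂ ≠ 0) (hf : φ f * S18_ι A s₂ = S18_ι A s₁) :
    S36V_Gred A φ ⟨f, hfO⟩ = S18_ρ A s₁ / S18_ρ A s₂ :=
  S36V_GredFun_eq A φ hne hf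

/-- an element with a representation `φ f · ι s₂ = ι s₁`, `ρ s₂ ≠ 0`, lies in the Gauss ring. -/
theorem S36V_G_of_rep {f : F} {s₁ s₂ : LaurentSeries A}
    (hne : S18_ρ A s₂ ≠ 0) (hf : φ f * S18_ι A s₂ = S18_ι A s₁) : f ∈ S36V_G A φ :=
  ⟨s₁, s₂, hne, hf⟩

/-- integral series lie in the Gauss ring. -/
theorem S36V_G_of_int {f : F} {s : LaurentSeries A} (hf : φ f = S18_ι A s) :
    f ∈ S36V_G A φ :=
  ⟨s, 1, by simp, by simp [hf]⟩

theorem S36V_Gred_of_int {f : F} {s : LaurentSeries A} (hf : φ f = S18_ι A s)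
    (hfO : f ∈ S36V_G A φ) : S36V_Gred A φ ⟨f, hfO⟩ = S18_ρ A s := by
  rw [S36V_Gred_eq A φ hfO (s₁ := s) (s₂ := 1) (by simp) (by simp [hf])]
  simp

/-- an element of the Gauss ring with non-zero reduction is a unit of the Gauss ring. -/
theorem S36V_G_inv_mem {f : F} (hfO : f ∈ S36V_G A φ) (hred : S36V_Gred A φ ⟨f, hfO⟩ ≠ 0) :
    f⁻¹ ∈ S36V_G A φ := by
  obtain ⟨s₁, s₂, hne, hf⟩ := hfO
  have h1 : S18_ρ A s₁ ≠ 0 := by
    intro h0
    apply hred
    rw [S36V_Gred_eq A φ _ hne hf, h0, zero_div]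
  have hs1 : S18_ι A s₁ ≠ 0 := by
    intro h0
    apply h1
    have : s₁ = 0 := S18_ι_injective A (by rw [h0, map_zero])
    rw [this, map_zero]
  have hf0 : φ f ≠ 0 := by
    intro h0
    rw [h0, zero_mul] at hf
    exact hs1 hf.symm
  refine ⟨s₂, s₁, h1, ?_⟩
  rw [map_inv₀, ← hf]
  field_simp

theorem S36V_Gred_inv {f : F} (hfO : f ∈ S36V_G A φ) (hred : S36V_Gred A φ ⟨f, hfO⟩ ≠ 0) :
    S36V_Gred A φ ⟨f⁻¹, S36V_G_inv_mem A φ hfO hred⟩ = (S36V_Gred A φ ⟨f, hfO⟩)⁻¹ := by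
  have hf0 : f ≠ 0 := by
    rintro rfl
    apply hred
    exact map_zero (S36V_Gred A φ)
  have h1 : (⟨f⁻¹, S36V_G_inv_mem A φ hfO hred⟩ : S36V_G A φ) * ⟨f, hfO⟩ = 1 :=
    Subtype.ext (inv_mul_cancel₀ hf0)
  have h2 := congrArg (S36V_Gred A φ) h1
  rw [map_mul, map_one] at h2
  exact eq_inv_of_mul_eq_one_left h2

/-- units of the Gauss ring = elements with non-zero reduction. -/
theorem S36V_Gred_ne_zero_iff (x : S36V_G A φ) : S36V_Gred A φ x ≠ 0 ↔ IsUnit x := by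
  constructor
  · intro h
    have hx0 : (x : F) ≠ 0 := by
      intro h0
      apply h
      have : x = 0 := Subtype.ext h0
      rw [this, map_zero]
    refine ⟨⟨x, ⟨(x : F)⁻¹, S36V_G_inv_mem A φ x.2 h⟩, Subtype.ext (mul_inv_cancel₀ hx0),
      Subtype.ext (inv_mul_cancel₀ hx0)⟩, rfl⟩
  · rintro ⟨u, rfl⟩ h0
    have h1 := congrArg (S36V_Gred A φ) u.mul_inv
    rw [map_mul, h0, zero_mul, map_one] at h1
    exact zero_ne_one h1

/-! ### functoriality -/

variable {F' : Type*} [Field F'] (ψ : F' →+* F)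

theorem S36V_G_comp : S36V_G A (φ.comp ψ) = (S36V_G A φ).comap ψ := by
  ext f
  rfl

theorem S36V_mem_G_comp {f : F'} : f ∈ S36V_G A (φ.comp ψ) ↔ ψ f ∈ S36V_G A φ := Iff.rfl

theorem S36V_Gred_comp {f : F'} (hf : f ∈ S36V_G A (φ.comp ψ)) :
    S36V_Gred A (φ.comp ψ) ⟨f, hf⟩ = S36V_Gred A φ ⟨ψ f, hf⟩ := by
  obtain ⟨s₁, s₂, hne, h⟩ := hf
  rw [S36V_Gred_eq A (φ.comp ψ) _ hne h, S36V_Gred_eq A φ _ hne h]

/-- two embeddings that agree on `f` give the same membership and reduction. -/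
theorem S36V_mem_G_congr {φ' : F →+* LaurentSeries L} {f : F} (h : φ f = φ' f) :
    f ∈ S36V_G A φ ↔ f ∈ S36V_G A φ' := by
  rw [S36V_mem_G, S36V_mem_G, h]

theorem S36V_Gred_congr {φ' : F →+* LaurentSeries L} {f : F} (h : φ f = φ' f)
    (hf : f ∈ S36V_G A φ) (hf' : f ∈ S36V_G A φ') :
    S36V_Gred A φ ⟨f, hf⟩ = S36V_Gred A φ' ⟨f, hf'⟩ := by
  obtain ⟨s₁, s₂, hne, e⟩ := hf
  rw [S36V_Gred_eq A φ _ hne e, S36V_Gred_eq A φ' _ hne (h ▸ e)]

/-! ### post-composition with an operator defined over `A` -/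

section Post

variable (TL : LaurentSeries L →+* LaurentSeries L) (TA : LaurentSeries A →+* LaurentSeries A)
  (Tk : LaurentSeries (IsLocalRing.ResidueField A) →+*
    LaurentSeries (IsLocalRing.ResidueField A))
  (hι : ∀ s, S18_ι A (TA s) = TL (S18_ι A s)) (hρ : ∀ s, S18_ρ A (TA s) = Tk (S18_ρ A s))

include hι hρ in
theorem S36V_G_post {f : F} (hf : f ∈ S36V_G A φ) : f ∈ S36V_G A (TL.comp φ) := by
  obtain ⟨s₁, s₂, hne, h⟩ := hf
  refine ⟨TA s₁, TA s₂, ?_, ?_⟩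
  · rw [hρ]
    exact (map_ne_zero_iff Tk Tk.injective).2 hne
  · rw [hι, hι, ← h, RingHom.comp_apply, map_mul]

include hι hρ in
theorem S36V_Gred_post {f : F} (hf : f ∈ S36V_G A φ) (hf' : f ∈ S36V_G A (TL.comp φ)) :
    S36V_Gred A (TL.comp φ) ⟨f, hf'⟩ = Tk (S36V_Gred A φ ⟨f, hf⟩) := by
  obtain ⟨s₁, s₂, hne, h⟩ := hf
  have hne' : S18_ρ A (TA s₂) ≠ 0 := by
    rw [hρ]
    exact (map_ne_zero_iff Tk Tk.injective).2 hne
  have h' : (TL.comp φ) f * S18_ι A (TA s₂) = S18_ι A (TA s₁) := by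
    rw [hι, hι, ← h, RingHom.comp_apply, map_mul]
  rw [S36V_Gred_eq A (TL.comp φ) hf' hne' h', S36V_Gred_eq A φ _ hne h, hρ, hρ, map_div₀]

end Post

/-- the twist by a unit of `A`. -/
theorem S36V_G_tw (u : Aˣ) {f : F} (hf : f ∈ S36V_G A φ) :
    f ∈ S36V_G A ((ES_tw (Units.map (A.subtype : A →* L) u)).comp φ) :=
  S36V_G_post A φ _ (ES_tw u) (ES_tw (Units.map (IsLocalRing.residue A : A →* _) u))
    (fun s => ES_coeffMap_tw A.subtype u s) (fun s => ES_coeffMap_tw (IsLocalRing.residue A) u s)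
    hf

theorem S36V_Gred_tw (u : Aˣ) {f : F} (hf : f ∈ S36V_G A φ)
    (hf' : f ∈ S36V_G A ((ES_tw (Units.map (A.subtype : A →* L) u)).comp φ)) :
    S36V_Gred A ((ES_tw (Units.map (A.subtype : A →* L) u)).comp φ) ⟨f, hf'⟩ =
      ES_tw (Units.map (IsLocalRing.residue A : A →* _) u) (S36V_Gred A φ ⟨f, hf⟩) :=
  S36V_Gred_post A φ _ (ES_tw u) (ES_tw (Units.map (IsLocalRing.residue A : A →* _) u))
    (fun s => ES_coeffMap_tw A.subtype u s) (fun s => ES_coeffMap_tw (IsLocalRing.residue A) u s)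
    hf hf'

/-- the substitution `t ↦ t^n`. -/
theorem S36V_G_qExpand (n : ℕ) [NeZero n] {f : F} (hf : f ∈ S36V_G A φ) :
    f ∈ S36V_G A ((qExpand L n).comp φ) :=
  S36V_G_post A φ _ (qExpand A n) (qExpand _ n)
    (fun s => coeffMap_qExpand A.subtype n s) (fun s => coeffMap_qExpand (IsLocalRing.residue A) n s)
    hf

theorem S36V_Gred_qExpand (n : ℕ) [NeZero n] {f : F} (hf : f ∈ S36V_G A φ)
    (hf' : f ∈ S36V_G A ((qExpand L n).comp φ)) :
    S36V_Gred A ((qExpand L n).comp φ) ⟨f, hf'⟩ =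
      qExpand (IsLocalRing.ResidueField A) n (S36V_Gred A φ ⟨f, hf⟩) :=
  S36V_Gred_post A φ _ (qExpand A n) (qExpand _ n)
    (fun s => coeffMap_qExpand A.subtype n s) (fun s => coeffMap_qExpand (IsLocalRing.residue A) n s)
    hf hf'


/-! ### pointwise transport (no unfolding of the embeddings) -/

section Pointwise

variable {F' : Type*} [Field F'] (φ' : F' →+* LaurentSeries L)

/-- if `φ g = φ' f` then `g ∈ G(φ) ↔ f ∈ G(φ')`. -/
theorem S36V_mem_G_of_eq {g : F} {f : F'} (h : φ g = φ' f) :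
    g ∈ S36V_G A φ ↔ f ∈ S36V_G A φ' := by
  rw [S36V_mem_G, S36V_mem_G, h]

theorem S36V_Gred_of_eq {g : F} {f : F'} (h : φ g = φ' f)
    (hg : g ∈ S36V_G A φ) (hf : f ∈ S36V_G A φ') :
    S36V_Gred A φ ⟨g, hg⟩ = S36V_Gred A φ' ⟨f, hf⟩ := by
  obtain ⟨s₁, s₂, hne, e⟩ := hf
  rw [S36V_Gred_eq A φ' _ hne e, S36V_Gred_eq A φ hg hne (h ▸ e)]

variable (TL : LaurentSeries L →+* LaurentSeries L) (TA : LaurentSeries A →+* LaurentSeries A)
  (Tk : LaurentSeries (IsLocalRing.ResidueField A) →+*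
    LaurentSeries (IsLocalRing.ResidueField A))
  (hι : ∀ s, S18_ι A (TA s) = TL (S18_ι A s)) (hρ : ∀ s, S18_ρ A (TA s) = Tk (S18_ρ A s))

include hι hρ in
/-- if `φ g = T (φ' f)` for an operator `T` defined over `A`, then `f ∈ G(φ') → g ∈ G(φ)`. -/
theorem S36V_mem_G_of_eq_post {g : F} {f : F'} (h : φ g = TL (φ' f))
    (hf : f ∈ S36V_G A φ') : g ∈ S36V_G A φ := by
  obtain ⟨s₁, s₂, hne, e⟩ := hf
  refine ⟨TA s₁, TA s₂, ?_, ?_⟩
  · rw [hρ]
    exact (map_ne_zero_iff Tk Tk.injective).2 hne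
  · rw [hι, hι, ← e, h, map_mul]

include hι hρ in
theorem S36V_Gred_of_eq_post {g : F} {f : F'} (h : φ g = TL (φ' f))
    (hf : f ∈ S36V_G A φ') (hg : g ∈ S36V_G A φ) :
    S36V_Gred A φ ⟨g, hg⟩ = Tk (S36V_Gred A φ' ⟨f, hf⟩) := by
  obtain ⟨s₁, s₂, hne, e⟩ := hf
  have hne' : S18_ρ A (TA s₂) ≠ 0 := by
    rw [hρ]
    exact (map_ne_zero_iff Tk Tk.injective).2 hne
  have e' : φ g * S18_ι A (TA s₂) = S18_ι A (TA s₁) := by
    rw [hι, hι, ← e, h, map_mul]
  rw [S36V_Gred_eq A φ hg hne' e', S36V_Gred_eq A φ' _ hne e, hρ, hρ, map_div₀]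

end Pointwise

/-- pointwise twist. -/
theorem S36V_mem_G_of_eq_tw {F' : Type*} [Field F'] (φ' : F' →+* LaurentSeries L) (u : Aˣ)
    {g : F} {f : F'} (h : φ g = ES_tw (Units.map (A.subtype : A →* L) u) (φ' f))
    (hf : f ∈ S36V_G A φ') : g ∈ S36V_G A φ :=
  S36V_mem_G_of_eq_post A φ φ' _ (ES_tw u)
    (ES_tw (Units.map (IsLocalRing.residue A : A →* _) u))
    (fun s => ES_coeffMap_tw A.subtype u s) (fun s => ES_coeffMap_tw (IsLocalRing.residue A) u s)
    h hf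

theorem S36V_Gred_of_eq_tw {F' : Type*} [Field F'] (φ' : F' →+* LaurentSeries L) (u : Aˣ)
    {g : F} {f : F'} (h : φ g = ES_tw (Units.map (A.subtype : A →* L) u) (φ' f))
    (hf : f ∈ S36V_G A φ') (hg : g ∈ S36V_G A φ) :
    S36V_Gred A φ ⟨g, hg⟩ =
      ES_tw (Units.map (IsLocalRing.residue A : A →* _) u) (S36V_Gred A φ' ⟨f, hf⟩) :=
  S36V_Gred_of_eq_post A φ φ' _ (ES_tw u)
    (ES_tw (Units.map (IsLocalRing.residue A : A →* _) u))
    (fun s => ES_coeffMap_tw A.subtype u s) (fun s => ES_coeffMap_tw (IsLocalRing.residue A) u s)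
    h hf hg

/-- pointwise substitution `t ↦ t^n`. -/
theorem S36V_mem_G_of_eq_qExpand {F' : Type*} [Field F'] (φ' : F' →+* LaurentSeries L) (n : ℕ)
    [NeZero n] {g : F} {f : F'} (h : φ g = qExpand L n (φ' f))
    (hf : f ∈ S36V_G A φ') : g ∈ S36V_G A φ :=
  S36V_mem_G_of_eq_post A φ φ' _ (qExpand A n) (qExpand _ n)
    (fun s => coeffMap_qExpand A.subtype n s) (fun s => coeffMap_qExpand (IsLocalRing.residue A) n s)
    h hf

theorem S36V_Gred_of_eq_qExpand {F' : Type*} [Field F'] (φ' : F' →+* LaurentSeries L) (n : ℕ)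
    [NeZero n] {g : F} {f : F'} (h : φ g = qExpand L n (φ' f))
    (hf : f ∈ S36V_G A φ') (hg : g ∈ S36V_G A φ) :
    S36V_Gred A φ ⟨g, hg⟩ = qExpand (IsLocalRing.ResidueField A) n (S36V_Gred A φ' ⟨f, hf⟩) :=
  S36V_Gred_of_eq_post A φ φ' _ (qExpand A n) (qExpand _ n)
    (fun s => coeffMap_qExpand A.subtype n s) (fun s => coeffMap_qExpand (IsLocalRing.residue A) n s)
    h hf hg

/-! ### constants -/

/-- constants of `A` lie in the Gauss ring (for `φ` mapping the constant to a constant series). -/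
theorem S36V_G_const {f : F} (a : A) (hf : φ f = algebraMap L (LaurentSeries L) (a : L)) :
    f ∈ S36V_G A φ :=
  S36V_G_of_int A φ (s := HahnSeries.C a) (by rw [hf, S18_ι_C])

theorem S36V_Gred_const {f : F} (a : A) (hf : φ f = algebraMap L (LaurentSeries L) (a : L))
    (hfO : f ∈ S36V_G A φ) :
    S36V_Gred A φ ⟨f, hfO⟩ = algebraMap (IsLocalRing.ResidueField A)
      (LaurentSeries (IsLocalRing.ResidueField A)) (IsLocalRing.residue A a) := by
  rw [S36V_Gred_of_int A φ (s := HahnSeries.C a) (by rw [hf, S18_ι_C]), S18_ρ_C]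

/-- a constant in the Gauss ring lies in `A`. -/
theorem S36V_const_mem {f : F} (c : L) (hf : φ f = algebraMap L (LaurentSeries L) c)
    (hfO : f ∈ S36V_G A φ) : c ∈ A := by
  by_contra hc
  have hci : c⁻¹ ∈ A := (A.mem_or_inv_mem c).resolve_left hc
  have hc0 : c ≠ 0 := fun h0 => hc (h0 ▸ A.zero_mem)
  obtain ⟨s₁, s₂, hne, h⟩ := hfO
  apply hne
  have hnu : ¬ IsUnit (⟨c⁻¹, hci⟩ : A) := by
    rintro ⟨u, hu⟩
    apply hc
    have h2 : ((u : A) : L) * ((u⁻¹ : Aˣ) : L) = 1 := by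
      rw [← A.coe_mul, ← Units.val_mul, mul_inv_cancel, Units.val_one, A.coe_one]
    rw [hu] at h2
    have h1 : ((u⁻¹ : Aˣ) : L) = c := by
      have h3 : c⁻¹ * ((u⁻¹ : Aˣ) : L) = 1 := h2
      field_simp at h3
      exact h3
    rw [← h1]
    exact ((u⁻¹ : Aˣ) : A).2
  have hres : IsLocalRing.residue A ⟨c⁻¹, hci⟩ = 0 := by
    rwa [IsLocalRing.residue_eq_zero_iff, IsLocalRing.mem_maximalIdeal, mem_nonunits_iff]
  have h2 : s₂ = HahnSeries.C ⟨c⁻¹, hci⟩ * s₁ := by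
    apply S18_ι_injective A
    rw [map_mul, ← h, hf, S18_ι_C, ← mul_assoc, ← map_mul]
    show _ = algebraMap L (LaurentSeries L) (c⁻¹ * c) * _
    rw [inv_mul_cancel₀ hc0, map_one, one_mul]
  rw [h2, map_mul, S18_ρ_C, hres, map_zero, zero_mul]

/-! ### comparison with the Gauss ring `S18_O` -/

theorem S36V_S18_le (N : ℕ) :
    S18_O A N ≤ S36V_G A (laurentBaseChange L (modularFunctionFieldFull N)).val.toRingHom := by
  rintro f ⟨s₁, -, s₂, -, hne, h⟩
  exact ⟨s₁, s₂, hne, h⟩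

theorem S36V_Gred_S18 (N : ℕ) (f : S18_O A N) :
    S36V_Gred A (laurentBaseChange L (modularFunctionFieldFull N)).val.toRingHom
      ⟨f.1, S36V_S18_le A N f.2⟩ =
    ((S18_red A N f : ↥(modularFunctionFieldFullC (IsLocalRing.ResidueField A) N)) :
      LaurentSeries (IsLocalRing.ResidueField A)) := by
  obtain ⟨f, s₁, h1, s₂, h2, hne, h⟩ := f
  rw [S18_red_eq A N h1 h2 hne h]
  exact S36V_Gred_eq A _ _ hne h

end Fermat.Agent.S36
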