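import Fermat.Agent.S36.Val3
import Fermat.Agent.S36.Val3Def
import Fermat.Agent.S36.OrdQ

/-!
# TRACK 10 (S36), package VAL3 (helper12), part 3: the three Gauss rings of `F₂ = F_{M q²}`

Levels `M`, `N₁ = M q`, `N₂ = M q q` (`q ∤ M` prime), `A ⊂ ℚ̄` a valuation subring, `k` its residue
field, `α, β : F₁ → F₂`, `w = w_q` on `F₁`, `w₂ = w_{q²}` on `F₂`, `ζ` a `q`-th root of unity `≠ 1`.

Embeddings into `ℚ̄((t))`:
* `S36V_emF = coe₁`, `S36V_emV = coe₁ ∘ w` (level `M q`);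
* `S36V_emFF = coe₂`, `S36V_emVV = coe₂ ∘ w₂`, `S36V_emFV ζ = ι_ζ` (level `M q²`).

Gauss rings (`S36V_G A` of `S36/Val3Def.lean`) and reductions (`S36V_Gred A`) along them.

**The table** (`p₁ = α`, `p₂ = β`):
* `S36V_FF_alpha`, `S36V_FV_alpha` : `FF ∘ α = F`, `FV ∘ α = F` (same reduction; `_red`);
* `S36V_FF_beta` : `F ⊂ FF ∘ β`, reduction `f̄(t^q)`;
* `S36V_FV_beta` : `V ⊂ FV ∘ β`, same reduction (because `ζ̄ = 1`);
* `S36V_VV_alpha` : `V ⊂ VV ∘ α`, reduction `f̄(t^q)`;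
* `S36V_VV_beta` : `VV ∘ β = V` (same reduction).
-/

set_option autoImplicit false
set_option synthInstance.maxHeartbeats 400000
set_option maxHeartbeats 1000000
set_option linter.style.haveILetI false
set_option linter.unusedSectionVars false

open HahnSeries IntermediateField AlgebraicCurve ModularCurve

noncomputable section

namespace Fermat.Agent.S36

open Fermat.Agent.S18 Fermat.Agent.S24 Fermat.Agent.S34 Fermat.Agent.S37 Fermat.Agent.GalRep
  Fermat.Agent.Lib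

local notation "ℚbar" => AlgebraicClosure ℚ

variable (M q : ℕ) [NeZero M] [NeZero q] (hq : q.Prime) (hqM : ¬ q ∣ M)
  (A : ValuationSubring ℚbar)
  (ζ : ℚbarˣ) (hζ : ζ ^ q = 1) (hζ1 : ζ ≠ 1)

/-! ### the embeddings -/

/-- the inclusion `F₂ ⊂ ℚ̄((t))` as a ring map. -/
def S36V_coe2 : ↥(modularFunctionFieldBar (M * q * q)) →+* LaurentSeries ℚbar :=
  (modularFunctionFieldBar (M * q * q)).val.toRingHom

theorem S36V_coe2_apply (f : ↥(modularFunctionFieldBar (M * q * q))) :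
    S36V_coe2 M q f = (f : LaurentSeries ℚbar) := rfl

/-- the embedding of `F₁` for the valuation `F` (cusp `∞`). -/
def S36V_emF : ↥(modularFunctionFieldBar (M * q)) →+* LaurentSeries ℚbar := S36V_coe1 M q

/-- the embedding of `F₁` for the valuation `V` (cusp `0`). -/
def S36V_emV : ↥(modularFunctionFieldBar (M * q)) →+* LaurentSeries ℚbar :=
  (S36V_coe1 M q).comp (S34DF_wq M q hq hqM : ↥(modularFunctionFieldBar (M * q)) →+*
    ↥(modularFunctionFieldBar (M * q)))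

/-- the embedding of `F₂` for the valuation `FF` (cusp `∞`). -/
def S36V_emFF : ↥(modularFunctionFieldBar (M * q * q)) →+* LaurentSeries ℚbar := S36V_coe2 M q

/-- the embedding of `F₂` for the valuation `VV` (cusp `0`). -/
def S36V_emVV : ↥(modularFunctionFieldBar (M * q * q)) →+* LaurentSeries ℚbar :=
  (S36V_coe2 M q).comp (S36V_w2 M q hq hqM : ↥(modularFunctionFieldBar (M * q * q)) →+*
    ↥(modularFunctionFieldBar (M * q * q)))

/-- the embedding of `F₂` for the valuation `FV` (middle cusp). -/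
def S36V_emFV : ↥(modularFunctionFieldBar (M * q * q)) →+* LaurentSeries ℚbar :=
  (S36V_iota M q hq hqM ζ hζ hζ1 : ↥(modularFunctionFieldBar (M * q * q)) →+*
    LaurentSeries ℚbar)

theorem S36V_emF_apply (f : ↥(modularFunctionFieldBar (M * q))) :
    S36V_emF M q f = (f : LaurentSeries ℚbar) := rfl

theorem S36V_emV_apply (f : ↥(modularFunctionFieldBar (M * q))) :
    S36V_emV M q hq hqM f =
      ((S34DF_wq M q hq hqM f : ↥(modularFunctionFieldBar (M * q))) : LaurentSeries ℚbar) := rfl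

theorem S36V_emFF_apply (f : ↥(modularFunctionFieldBar (M * q * q))) :
    S36V_emFF M q f = (f : LaurentSeries ℚbar) := rfl

theorem S36V_emVV_apply (f : ↥(modularFunctionFieldBar (M * q * q))) :
    S36V_emVV M q hq hqM f =
      ((S36V_w2 M q hq hqM f : ↥(modularFunctionFieldBar (M * q * q))) :
        LaurentSeries ℚbar) := rfl

theorem S36V_emFV_apply (f : ↥(modularFunctionFieldBar (M * q * q))) :
    S36V_emFV M q hq hqM ζ hζ hζ1 f = S36V_iota M q hq hqM ζ hζ hζ1 f := rfl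

/-! ### the six composites with `α`, `β` (pointwise) -/

theorem S36V_emFF_alpha (s : ↥(modularFunctionFieldBar (M * q))) :
    S36V_emFF M q (heckeAlphaBar ℚbar (M * q) q s) = S36V_emF M q s :=
  coe_heckeAlphaBar (M * q) q s

theorem S36V_emFF_beta (t : ↥(modularFunctionFieldBar (M * q))) :
    S36V_emFF M q (heckeBetaBar ℚbar (M * q) q t) = qExpand ℚbar q (S36V_emF M q t) :=
  coe_heckeBetaBar (M * q) q t

theorem S36V_emFV_alpha (s : ↥(modularFunctionFieldBar (M * q))) :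
    S36V_emFV M q hq hqM ζ hζ hζ1 (heckeAlphaBar ℚbar (M * q) q s) = S36V_emF M q s :=
  S36V_iota_alpha M q hq hqM ζ hζ hζ1 s

theorem S36V_emFV_beta (t : ↥(modularFunctionFieldBar (M * q))) :
    S36V_emFV M q hq hqM ζ hζ hζ1 (heckeBetaBar ℚbar (M * q) q t) =
      ES_tw ζ (S36V_emV M q hq hqM t) :=
  S36V_iota_beta M q hq hqM ζ hζ hζ1 t

theorem S36V_emVV_alpha (s : ↥(modularFunctionFieldBar (M * q))) :
    S36V_emVV M q hq hqM (heckeAlphaBar ℚbar (M * q) q s) =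
      qExpand ℚbar q (S36V_emV M q hq hqM s) := by
  rw [S36V_emVV_apply, S36V_w2_alpha, S36V_emV_apply]
  exact coe_heckeBetaBar (M * q) q _

theorem S36V_emVV_beta (t : ↥(modularFunctionFieldBar (M * q))) :
    S36V_emVV M q hq hqM (heckeBetaBar ℚbar (M * q) q t) = S36V_emV M q hq hqM t := by
  rw [S36V_emVV_apply, S36V_w2_beta, S36V_emV_apply]
  exact coe_heckeAlphaBar (M * q) q _

/-! ### `ζ` as a unit of `A`, with residue `1` -/

include hζ in
theorem S36V_zeta_mem : (ζ : ℚbar) ∈ A :=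
  S36OQ_zeta_mem A q (Nat.pos_of_ne_zero (NeZero.ne q)) (ζ : ℚbar)
    (by rw [← Units.val_pow_eq_pow_val, hζ, Units.val_one])

include hζ in
theorem S36V_zeta_inv_mem : ((ζ⁻¹ : ℚbarˣ) : ℚbar) ∈ A :=
  S36OQ_zeta_mem A q (Nat.pos_of_ne_zero (NeZero.ne q)) ((ζ⁻¹ : ℚbarˣ) : ℚbar)
    (by rw [← Units.val_pow_eq_pow_val, inv_pow, hζ, inv_one, Units.val_one])

/-- `ζ` as a unit of `A`. -/
def S36V_zetaA : Aˣ where
  val := ⟨(ζ : ℚbar), S36V_zeta_mem q A ζ hζ⟩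
  inv := ⟨((ζ⁻¹ : ℚbarˣ) : ℚbar), S36V_zeta_inv_mem q A ζ hζ⟩
  val_inv := Subtype.ext (by simp)
  inv_val := Subtype.ext (by simp)

theorem S36V_zetaA_map : Units.map (A.subtype : A →* ℚbar) (S36V_zetaA q A ζ hζ) = ζ :=
  Units.ext rfl

theorem S36V_zetaA_pow : (S36V_zetaA q A ζ hζ) ^ q = 1 := by
  apply Units.ext
  apply Subtype.ext
  show ((((S36V_zetaA q A ζ hζ) ^ q : Aˣ) : A) : ℚbar) = ((1 : Aˣ) : A)
  rw [Units.val_pow_eq_pow_val, Units.val_one, A.coe_pow, A.coe_one]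
  show (ζ : ℚbar) ^ q = 1
  rw [← Units.val_pow_eq_pow_val, hζ, Units.val_one]

/-- the residue of `ζ` is `1` when the residue characteristic is `q`. -/
theorem S36V_zetaA_res [Fact q.Prime] [CharP (IsLocalRing.ResidueField A) q] :
    Units.map (IsLocalRing.residue A : A →* IsLocalRing.ResidueField A) (S36V_zetaA q A ζ hζ) =
      1 := by
  apply Units.ext
  show IsLocalRing.residue A ((S36V_zetaA q A ζ hζ : Aˣ) : A) = 1
  apply S36OQ_map_eq_one q (IsLocalRing.residue A)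
  rw [← Units.val_pow_eq_pow_val, S36V_zetaA_pow, Units.val_one]

/-! ### the table -/

/-- `FF ∘ α = F`. -/
theorem S36V_FF_alpha {s : ↥(modularFunctionFieldBar (M * q))} :
    heckeAlphaBar ℚbar (M * q) q s ∈ S36V_G A (S36V_emFF M q) ↔ s ∈ S36V_G A (S36V_emF M q) :=
  S36V_mem_G_of_eq A _ _ (S36V_emFF_alpha M q s)

theorem S36V_FF_alpha_red {s : ↥(modularFunctionFieldBar (M * q))}
    (hs : s ∈ S36V_G A (S36V_emF M q))
    (hs' : heckeAlphaBar ℚbar (M * q) q s ∈ S36V_G A (S36V_emFF M q)) :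
    S36V_Gred A (S36V_emFF M q) ⟨_, hs'⟩ = S36V_Gred A (S36V_emF M q) ⟨s, hs⟩ :=
  S36V_Gred_of_eq A _ _ (S36V_emFF_alpha M q s) hs' hs

/-- `FV ∘ α = F`. -/
theorem S36V_FV_alpha {s : ↥(modularFunctionFieldBar (M * q))} :
    heckeAlphaBar ℚbar (M * q) q s ∈ S36V_G A (S36V_emFV M q hq hqM ζ hζ hζ1) ↔
      s ∈ S36V_G A (S36V_emF M q) :=
  S36V_mem_G_of_eq A _ _ (S36V_emFV_alpha M q hq hqM ζ hζ hζ1 s)

theorem S36V_FV_alpha_red {s : ↥(modularFunctionFieldBar (M * q))}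
    (hs : s ∈ S36V_G A (S36V_emF M q))
    (hs' : heckeAlphaBar ℚbar (M * q) q s ∈ S36V_G A (S36V_emFV M q hq hqM ζ hζ hζ1)) :
    S36V_Gred A (S36V_emFV M q hq hqM ζ hζ hζ1) ⟨_, hs'⟩ =
      S36V_Gred A (S36V_emF M q) ⟨s, hs⟩ :=
  S36V_Gred_of_eq A _ _ (S36V_emFV_alpha M q hq hqM ζ hζ hζ1 s) hs' hs

/-- `VV ∘ β = V`. -/
theorem S36V_VV_beta {t : ↥(modularFunctionFieldBar (M * q))} :
    heckeBetaBar ℚbar (M * q) q t ∈ S36V_G A (S36V_emVV M q hq hqM) ↔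
      t ∈ S36V_G A (S36V_emV M q hq hqM) :=
  S36V_mem_G_of_eq A _ _ (S36V_emVV_beta M q hq hqM t)

theorem S36V_VV_beta_red {t : ↥(modularFunctionFieldBar (M * q))}
    (ht : t ∈ S36V_G A (S36V_emV M q hq hqM))
    (ht' : heckeBetaBar ℚbar (M * q) q t ∈ S36V_G A (S36V_emVV M q hq hqM)) :
    S36V_Gred A (S36V_emVV M q hq hqM) ⟨_, ht'⟩ =
      S36V_Gred A (S36V_emV M q hq hqM) ⟨t, ht⟩ :=
  S36V_Gred_of_eq A _ _ (S36V_emVV_beta M q hq hqM t) ht' ht

/-- `F ⊂ FF ∘ β`, with reduction `f̄(t^q)`. -/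
theorem S36V_FF_beta {t : ↥(modularFunctionFieldBar (M * q))}
    (ht : t ∈ S36V_G A (S36V_emF M q)) :
    heckeBetaBar ℚbar (M * q) q t ∈ S36V_G A (S36V_emFF M q) :=
  S36V_mem_G_of_eq_qExpand A _ _ q (S36V_emFF_beta M q t) ht

theorem S36V_FF_beta_red {t : ↥(modularFunctionFieldBar (M * q))}
    (ht : t ∈ S36V_G A (S36V_emF M q))
    (ht' : heckeBetaBar ℚbar (M * q) q t ∈ S36V_G A (S36V_emFF M q)) :
    S36V_Gred A (S36V_emFF M q) ⟨_, ht'⟩ =
      qExpand (IsLocalRing.ResidueField A) q (S36V_Gred A (S36V_emF M q) ⟨t, ht⟩) :=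
  S36V_Gred_of_eq_qExpand A _ _ q (S36V_emFF_beta M q t) ht ht'

/-- `V ⊂ VV ∘ α`, with reduction `f̄(t^q)`. -/
theorem S36V_VV_alpha {s : ↥(modularFunctionFieldBar (M * q))}
    (hs : s ∈ S36V_G A (S36V_emV M q hq hqM)) :
    heckeAlphaBar ℚbar (M * q) q s ∈ S36V_G A (S36V_emVV M q hq hqM) :=
  S36V_mem_G_of_eq_qExpand A _ _ q (S36V_emVV_alpha M q hq hqM s) hs

theorem S36V_VV_alpha_red {s : ↥(modularFunctionFieldBar (M * q))}
    (hs : s ∈ S36V_G A (S36V_emV M q hq hqM))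
    (hs' : heckeAlphaBar ℚbar (M * q) q s ∈ S36V_G A (S36V_emVV M q hq hqM)) :
    S36V_Gred A (S36V_emVV M q hq hqM) ⟨_, hs'⟩ =
      qExpand (IsLocalRing.ResidueField A) q (S36V_Gred A (S36V_emV M q hq hqM) ⟨s, hs⟩) :=
  S36V_Gred_of_eq_qExpand A _ _ q (S36V_emVV_alpha M q hq hqM s) hs hs'

/-- `V ⊂ FV ∘ β`. -/
theorem S36V_FV_beta {t : ↥(modularFunctionFieldBar (M * q))}
    (ht : t ∈ S36V_G A (S36V_emV M q hq hqM)) :
    heckeBetaBar ℚbar (M * q) q t ∈ S36V_G A (S36V_emFV M q hq hqM ζ hζ hζ1) :=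
  S36V_mem_G_of_eq_tw A _ _ (S36V_zetaA q A ζ hζ)
    (by rw [S36V_zetaA_map]; exact S36V_emFV_beta M q hq hqM ζ hζ hζ1 t) ht

/-- the reduction of `β t` along `FV` is the reduction of `t` along `V` (residue
characteristic `q`). -/
theorem S36V_FV_beta_red [Fact q.Prime] [CharP (IsLocalRing.ResidueField A) q]
    {t : ↥(modularFunctionFieldBar (M * q))}
    (ht : t ∈ S36V_G A (S36V_emV M q hq hqM))
    (ht' : heckeBetaBar ℚbar (M * q) q t ∈ S36V_G A (S36V_emFV M q hq hqM ζ hζ hζ1)) :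
    S36V_Gred A (S36V_emFV M q hq hqM ζ hζ hζ1) ⟨_, ht'⟩ =
      S36V_Gred A (S36V_emV M q hq hqM) ⟨t, ht⟩ := by
  have h1 := S36V_Gred_of_eq_tw A (S36V_emFV M q hq hqM ζ hζ hζ1) (S36V_emV M q hq hqM)
    (S36V_zetaA q A ζ hζ)
    (by rw [S36V_zetaA_map]; exact S36V_emFV_beta M q hq hqM ζ hζ hζ1 t) ht ht'
  rw [h1, S36V_zetaA_res, ES_tw_one]

end Fermat.Agent.S36
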