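import Fermat.Agent.S36.FixLUnit
import Fermat.Agent.S36.Val3Three
import Fermat.Agent.S36.Val3Eq
import Fermat.Agent.S18.CuspKQ
import Fermat.Agent.S34.AtkinLehnerPhi
import Fermat.Agent.S34.WqJac

/-!
# TRACK 10 (S36), package FIX-L-INST (helper1), part 3d: the value groups of the five valuations
over the inertia field — prefix `S36FI_`

`N₁ = M q`, `N₂ = M q q`, `A ⊂ ℚ̄` over `q`, `I = A.inertiaSubgroupIn ℚ`.  For the five embeddings
`em X` of `S36/Val3Three.lean` (`X = F, V` at level `N₁`; `X = FF, VV, FV ζ` at level `N₂`):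

* `S36FI_emX_const` : `em X` is the identity on constants;
* `S36FI_emX_int` : `em X (j(t^d)) = ι s` with `s ∈ A((t))` (integrality of the generators);
* `S36FI_emX_eq` : equivariance for `I` (for `FV`: for the elements of `I` fixing `ζ`);
* **`S36FI_dv_F`, `S36FI_dv_V`, `S36FI_dv_FF`, `S36FI_dv_VV`** : for `f ≠ 0` `I`-fixed there is `k : ℤ` with
  `f · q^k` a unit of the Gauss ring `S36V_G A (em X)`  (uniformiser `q`);
* **`S36FI_dv_FV`** : for `f ≠ 0` `I`-fixed there is `k : ℤ` with `f^(q-1) · q^k` a unit of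
  `S36V_G A (S36V_emFV ζ)`  (value group `(1/(q-1)) ℤ`).
-/

set_option autoImplicit false
set_option linter.unusedSectionVars false
set_option linter.unusedVariables false
set_option linter.style.haveILetI false
set_option synthInstance.maxHeartbeats 400000
set_option maxHeartbeats 1000000

open HahnSeries ModularCurve IntermediateField

noncomputable section

namespace Fermat.Agent.S36

open Fermat.Agent.S18 Fermat.Agent.S24 Fermat.Agent.S34 Fermat.Agent.GalRep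

local notation "Ω" => AlgebraicClosure ℚ

/-! ### generalities -/

section gen

variable (A : ValuationSubring Ω)

/-- the series `j(t^d)` is integral. -/
theorem S36FI_jBar_int (N : ℕ) [NeZero N] (d : ℕ) [NeZero d] (hd : d ∣ N) :
    ∃ s : LaurentSeries A,
      ((jBar N d hd : ↥(modularFunctionFieldBar N)) : LaurentSeries Ω) = S18_ι A s := by
  refine ⟨jqNModC A d, ?_⟩
  rw [KE_jBar_coe N d hd]
  show _ = coeffMap A.subtype (jqNModC A d)
  rw [coeffMap_jqNModC]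
  rfl

/-- divisors of `M' q`, `q` prime. -/
theorem S36FI_dvd_cases {M' q d : ℕ} (hq : q.Prime) (hd : d ∣ M' * q) :
    d ∣ M' ∨ ∃ d', d = q * d' ∧ d' ∣ M' := by
  by_cases hqd : q ∣ d
  · obtain ⟨d', rfl⟩ := hqd
    refine Or.inr ⟨d', rfl, ?_⟩
    rw [mul_comm M' q] at hd
    exact (Nat.mul_dvd_mul_iff_left hq.pos).mp hd
  · left
    have hc : Nat.Coprime d q := ((Nat.Prime.coprime_iff_not_dvd hq).mpr hqd).symm
    exact hc.dvd_of_dvd_mul_right hd

/-- the constants as series. -/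
theorem S36FI_coe_const (N : ℕ) (c : Ω) :
    ((algebraMap Ω ↥(modularFunctionFieldBar N) c : ↥(modularFunctionFieldBar N)) :
      LaurentSeries Ω) = HahnSeries.C c := by
  rw [HahnSeries.C_apply, ← algebraMap_laurentSeries_eq_single]
  rfl

/-- `qExpand` of an integral series is integral. -/
theorem S36FI_int_qExpand (n : ℕ) [NeZero n] {x : LaurentSeries Ω}
    (h : ∃ s : LaurentSeries A, x = S18_ι A s) :
    ∃ s : LaurentSeries A, qExpand Ω n x = S18_ι A s := by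
  obtain ⟨s, rfl⟩ := h
  exact ⟨qExpand A n s, (ModularCurve.coeffMap_qExpand A.subtype n s).symm⟩

/-- the twist by a unit of `A` of an integral series is integral. -/
theorem S36FI_int_tw (u : Aˣ) {x : LaurentSeries Ω}
    (h : ∃ s : LaurentSeries A, x = S18_ι A s) :
    ∃ s : LaurentSeries A,
      ES_tw (Units.map (A.subtype : A →* Ω) u) x = S18_ι A s := by
  obtain ⟨s, rfl⟩ := h
  exact ⟨ES_tw u s, (ES_coeffMap_tw A.subtype u s).symm⟩

end gen

variable (M q : ℕ) [NeZero M] [NeZero q] (hq : q.Prime) (hqM : ¬ q ∣ M)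
  (A : ValuationSubring Ω)
  (ζ : Ωˣ) (hζ : ζ ^ q = 1) (hζ1 : ζ ≠ 1)

/-! ### constants -/

theorem S36FI_emF_const (c : Ω) :
    S36V_emF M q (algebraMap Ω ↥(modularFunctionFieldBar (M * q)) c) = HahnSeries.C c :=
  S36FI_coe_const (M * q) c

theorem S36FI_emV_const (c : Ω) :
    S36V_emV M q hq hqM (algebraMap Ω ↥(modularFunctionFieldBar (M * q)) c) = HahnSeries.C c := by
  rw [S36V_emV_apply, AlgEquiv.commutes]
  exact S36FI_coe_const (M * q) c

theorem S36FI_emFF_const (c : Ω) :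
    S36V_emFF M q (algebraMap Ω ↥(modularFunctionFieldBar (M * q * q)) c) = HahnSeries.C c :=
  S36FI_coe_const (M * q * q) c

theorem S36FI_emVV_const (c : Ω) :
    S36V_emVV M q hq hqM (algebraMap Ω ↥(modularFunctionFieldBar (M * q * q)) c) =
      HahnSeries.C c := by
  rw [S36V_emVV_apply, AlgEquiv.commutes]
  exact S36FI_coe_const (M * q * q) c

theorem S36FI_emFV_const (c : Ω) :
    S36V_emFV M q hq hqM ζ hζ hζ1 (algebraMap Ω ↥(modularFunctionFieldBar (M * q * q)) c) =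
      HahnSeries.C c := by
  rw [S36V_emFV_apply, AlgHom.commutes, HahnSeries.C_apply, ← algebraMap_laurentSeries_eq_single]

/-! ### integrality of the generators -/

theorem S36FI_emF_int (d : ℕ) [NeZero d] (hd : d ∣ M * q) :
    ∃ s : LaurentSeries A, S36V_emF M q (jBar (M * q) d hd) = S18_ι A s :=
  S36FI_jBar_int A (M * q) d hd

theorem S36FI_emV_int (d : ℕ) [NeZero d] (hd : d ∣ M * q) :
    ∃ s : LaurentSeries A, S36V_emV M q hq hqM (jBar (M * q) d hd) = S18_ι A s := by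
  rw [S36V_emV_apply]
  rcases S36FI_dvd_cases hq hd with h | ⟨d', rfl, hd'⟩
  · have e := S34WQ_wqMq_jBar_old M q hq hqM d h
    have e' : S34DF_wq M q hq hqM (jBar (M * q) d hd) = _ := e
    rw [e']
    haveI : NeZero (q * d) := ⟨Nat.mul_ne_zero hq.ne_zero (NeZero.ne d)⟩
    exact S36FI_jBar_int A (M * q) (q * d) _
  · haveI : NeZero d' := ⟨fun h0 => NeZero.ne (q * d') (by rw [h0, mul_zero])⟩
    have e := S34WQ_wqMq_jBar_new M q hq hqM d' hd'
    have e' : S34DF_wq M q hq hqM (jBar (M * q) (q * d') hd) = _ := e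
    rw [e']
    exact S36FI_jBar_int A (M * q) d' _

theorem S36FI_emFF_int (d : ℕ) [NeZero d] (hd : d ∣ M * q * q) :
    ∃ s : LaurentSeries A, S36V_emFF M q (jBar (M * q * q) d hd) = S18_ι A s :=
  S36FI_jBar_int A (M * q * q) d hd

include hq in
/-- the generators of level `M q q` are `α` or `β` of generators of level `M q`. -/
theorem S36FI_jBar_cases (d : ℕ) [NeZero d] (hd : d ∣ M * q * q) :
    (∃ (d₁ : ℕ) (_ : NeZero d₁) (hd₁ : d₁ ∣ M * q), jBar (M * q * q) d hd =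
        heckeAlphaBar Ω (M * q) q (jBar (M * q) d₁ hd₁)) ∨
      ∃ (d₁ : ℕ) (_ : NeZero d₁) (hd₁ : d₁ ∣ M * q), jBar (M * q * q) d hd =
        heckeBetaBar Ω (M * q) q (jBar (M * q) d₁ hd₁) := by
  rcases S36FI_dvd_cases hq hd with h | ⟨d', rfl, hd'⟩
  · exact Or.inl ⟨d, inferInstance, h, (S34WJ_alpha_jBar d h).symm⟩
  · haveI : NeZero d' := ⟨fun h0 => NeZero.ne (q * d') (by rw [h0, mul_zero])⟩
    exact Or.inr ⟨d', inferInstance, hd', (S34WJ_beta_jBar d' hd').symm⟩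

theorem S36FI_emVV_int (d : ℕ) [NeZero d] (hd : d ∣ M * q * q) :
    ∃ s : LaurentSeries A, S36V_emVV M q hq hqM (jBar (M * q * q) d hd) = S18_ι A s := by
  rcases S36FI_jBar_cases M q hq d hd with ⟨d₁, _, hd₁, e⟩ | ⟨d₁, _, hd₁, e⟩
  · rw [e, S36V_emVV_alpha]
    exact S36FI_int_qExpand A q (S36FI_emV_int M q hq hqM A d₁ hd₁)
  · rw [e, S36V_emVV_beta]
    exact S36FI_emV_int M q hq hqM A d₁ hd₁

theorem S36FI_emFV_int (d : ℕ) [NeZero d] (hd : d ∣ M * q * q) :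
    ∃ s : LaurentSeries A,
      S36V_emFV M q hq hqM ζ hζ hζ1 (jBar (M * q * q) d hd) = S18_ι A s := by
  rcases S36FI_jBar_cases M q hq d hd with ⟨d₁, _, hd₁, e⟩ | ⟨d₁, _, hd₁, e⟩
  · rw [e, S36V_emFV_alpha]
    exact S36FI_emF_int M q A d₁ hd₁
  · rw [e, S36V_emFV_beta, ← S36V_zetaA_map q A ζ hζ]
    exact S36FI_int_tw A _ (S36FI_emV_int M q hq hqM A d₁ hd₁)

/-! ### equivariance -/

theorem S36FI_emF_eq (σ : Ω ≃ₐ[ℚ] Ω) (f : ↥(modularFunctionFieldBar (M * q))) :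
    S36V_emF M q (arithmeticRingAut (modularFunctionFieldFull (M * q)) σ f) =
      coeffMap ((σ : Ω ≃ₐ[ℚ] Ω) : Ω →+* Ω) (S36V_emF M q f) := rfl

theorem S36FI_emV_eq (σ : Ω ≃ₐ[ℚ] Ω) (f : ↥(modularFunctionFieldBar (M * q))) :
    S36V_emV M q hq hqM (arithmeticRingAut (modularFunctionFieldFull (M * q)) σ f) =
      coeffMap ((σ : Ω ≃ₐ[ℚ] Ω) : Ω →+* Ω) (S36V_emV M q hq hqM f) := by
  rw [S36V_emV_apply, S36V_emV_apply]
  have h := S36VE_wq_gal M q hq hqM σ f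
  have h' : S34DF_wq M q hq hqM (arithmeticRingAut (modularFunctionFieldFull (M * q)) σ f) =
      GR_gal (M * q) σ (S34DF_wq M q hq hqM f) := h
  rw [h']
  rfl

theorem S36FI_emFF_eq (σ : Ω ≃ₐ[ℚ] Ω) (f : ↥(modularFunctionFieldBar (M * q * q))) :
    S36V_emFF M q (arithmeticRingAut (modularFunctionFieldFull (M * q * q)) σ f) =
      coeffMap ((σ : Ω ≃ₐ[ℚ] Ω) : Ω →+* Ω) (S36V_emFF M q f) := rfl

theorem S36FI_emVV_eq (σ : Ω ≃ₐ[ℚ] Ω) (f : ↥(modularFunctionFieldBar (M * q * q))) :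
    S36V_emVV M q hq hqM (arithmeticRingAut (modularFunctionFieldFull (M * q * q)) σ f) =
      coeffMap ((σ : Ω ≃ₐ[ℚ] Ω) : Ω →+* Ω) (S36V_emVV M q hq hqM f) := by
  rw [S36V_emVV_apply, S36V_emVV_apply]
  have h := S36VE_w2_gal M q hq hqM σ f
  have h' : S36V_w2 M q hq hqM (arithmeticRingAut (modularFunctionFieldFull (M * q * q)) σ f) =
      GR_gal (M * q * q) σ (S36V_w2 M q hq hqM f) := h
  rw [h']
  rfl

theorem S36FI_emFV_eq (σ : Ω ≃ₐ[ℚ] Ω) (hσ : σ (ζ : Ω) = ζ)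
    (f : ↥(modularFunctionFieldBar (M * q * q))) :
    S36V_emFV M q hq hqM ζ hζ hζ1
        (arithmeticRingAut (modularFunctionFieldFull (M * q * q)) σ f) =
      coeffMap ((σ : Ω ≃ₐ[ℚ] Ω) : Ω →+* Ω) (S36V_emFV M q hq hqM ζ hζ hζ1 f) :=
  S36VE_iota_gal_fix M q hq hqM σ ζ hζ hζ1 hσ f

/-! ### the value groups -/

include hq in
/-- **`dv_F`**: the value group of `F` over the inertia field is generated by `v(q)`. -/
theorem S36FI_dv_F (hA : A.LiesOverPrime q) (f : ↥(modularFunctionFieldBar (M * q)))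
    (hf : f ∈ (S36FI_act (M * q) (A.inertiaSubgroupIn ℚ)).fixF) (hf0 : f ≠ 0) :
    ∃ k : ℤ, f * algebraMap Ω ↥(modularFunctionFieldBar (M * q)) ((q : Ω) ^ k) ∈
        S36V_G A (S36V_emF M q) ∧
      (f * algebraMap Ω ↥(modularFunctionFieldBar (M * q)) ((q : Ω) ^ k))⁻¹ ∈
        S36V_G A (S36V_emF M q) :=
  haveI : Fact q.Prime := ⟨hq⟩
  S36FI_unit_I (M * q) A hA (S36V_emF M q) (S36FI_emF_const M q)
    (fun d _ hd => S36FI_emF_int M q A d hd) (fun σ _ g => S36FI_emF_eq M q σ g) f hf hf0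

/-- **`dv_V`**. -/
theorem S36FI_dv_V (hA : A.LiesOverPrime q) (f : ↥(modularFunctionFieldBar (M * q)))
    (hf : f ∈ (S36FI_act (M * q) (A.inertiaSubgroupIn ℚ)).fixF) (hf0 : f ≠ 0) :
    ∃ k : ℤ, f * algebraMap Ω ↥(modularFunctionFieldBar (M * q)) ((q : Ω) ^ k) ∈
        S36V_G A (S36V_emV M q hq hqM) ∧
      (f * algebraMap Ω ↥(modularFunctionFieldBar (M * q)) ((q : Ω) ^ k))⁻¹ ∈
        S36V_G A (S36V_emV M q hq hqM) :=
  haveI : Fact q.Prime := ⟨hq⟩
  S36FI_unit_I (M * q) A hA (S36V_emV M q hq hqM) (S36FI_emV_const M q hq hqM)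
    (fun d _ hd => S36FI_emV_int M q hq hqM A d hd)
    (fun σ _ g => S36FI_emV_eq M q hq hqM σ g) f hf hf0

include hq in
/-- **`dv_FF`**. -/
theorem S36FI_dv_FF (hA : A.LiesOverPrime q) (f : ↥(modularFunctionFieldBar (M * q * q)))
    (hf : f ∈ (S36FI_act (M * q * q) (A.inertiaSubgroupIn ℚ)).fixF) (hf0 : f ≠ 0) :
    ∃ k : ℤ, f * algebraMap Ω ↥(modularFunctionFieldBar (M * q * q)) ((q : Ω) ^ k) ∈
        S36V_G A (S36V_emFF M q) ∧
      (f * algebraMap Ω ↥(modularFunctionFieldBar (M * q * q)) ((q : Ω) ^ k))⁻¹ ∈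
        S36V_G A (S36V_emFF M q) :=
  haveI : Fact q.Prime := ⟨hq⟩
  S36FI_unit_I (M * q * q) A hA (S36V_emFF M q) (S36FI_emFF_const M q)
    (fun d _ hd => S36FI_emFF_int M q A d hd) (fun σ _ g => S36FI_emFF_eq M q σ g) f hf hf0

/-- **`dv_VV`**. -/
theorem S36FI_dv_VV (hA : A.LiesOverPrime q) (f : ↥(modularFunctionFieldBar (M * q * q)))
    (hf : f ∈ (S36FI_act (M * q * q) (A.inertiaSubgroupIn ℚ)).fixF) (hf0 : f ≠ 0) :
    ∃ k : ℤ, f * algebraMap Ω ↥(modularFunctionFieldBar (M * q * q)) ((q : Ω) ^ k) ∈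
        S36V_G A (S36V_emVV M q hq hqM) ∧
      (f * algebraMap Ω ↥(modularFunctionFieldBar (M * q * q)) ((q : Ω) ^ k))⁻¹ ∈
        S36V_G A (S36V_emVV M q hq hqM) :=
  haveI : Fact q.Prime := ⟨hq⟩
  S36FI_unit_I (M * q * q) A hA (S36V_emVV M q hq hqM) (S36FI_emVV_const M q hq hqM)
    (fun d _ hd => S36FI_emVV_int M q hq hqM A d hd)
    (fun σ _ g => S36FI_emVV_eq M q hq hqM σ g) f hf hf0

/-- **`dv_FV`**: along the middle valuation, `f^(q-1) · q^k` is a unit. -/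
theorem S36FI_dv_FV (hA : A.LiesOverPrime q) (f : ↥(modularFunctionFieldBar (M * q * q)))
    (hf : f ∈ (S36FI_act (M * q * q) (A.inertiaSubgroupIn ℚ)).fixF) (hf0 : f ≠ 0) :
    ∃ k : ℤ, f ^ (q - 1) * algebraMap Ω ↥(modularFunctionFieldBar (M * q * q)) ((q : Ω) ^ k) ∈
        S36V_G A (S36V_emFV M q hq hqM ζ hζ hζ1) ∧
      (f ^ (q - 1) * algebraMap Ω ↥(modularFunctionFieldBar (M * q * q)) ((q : Ω) ^ k))⁻¹ ∈
        S36V_G A (S36V_emFV M q hq hqM ζ hζ hζ1) :=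
  haveI : Fact q.Prime := ⟨hq⟩
  S36FI_unit_zeta (M * q * q) A hA (ζ := (ζ : Ω))
    (by rw [← Units.val_pow_eq_pow_val, hζ, Units.val_one])
    (S36V_emFV M q hq hqM ζ hζ hζ1) (S36FI_emFV_const M q hq hqM ζ hζ hζ1)
    (fun d _ hd => S36FI_emFV_int M q hq hqM A ζ hζ hζ1 d hd)
    (fun σ _ hσ g => S36FI_emFV_eq M q hq hqM ζ hζ hζ1 σ hσ g) f hf hf0

end Fermat.Agent.S36
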