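import Fermat.Agent.S36.Val3Def

/-!
# TRACK 10 (S36), package NORMRES (helper4), part 3: the Gauss ring of `L((t))` (series level)

`A ⊂ L` a valuation subring with residue field `k`.  helper12's Gauss ring along an embedding
`φ : F → L((t))` (`S36V_G A φ`, `S36/Val3Def.lean`) is the preimage under `φ` of ONE subring of
`L((t))`:

* `S36NR_Gs A = S36V_G A id ⊂ L((t))`, with reduction `S36NR_rf A : L((t)) → k((t))` (function
  level, junk value `0` outside `S36NR_Gs A`);
* `S36NR_mem_G_iff` : `f ∈ S36V_G A φ ↔ φ f ∈ S36NR_Gs A`;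
  `S36NR_Gred_eq` : `S36V_Gred A φ ⟨f, _⟩ = S36NR_rf A (φ f)`;
* `S36NR_rf_add/_mul/_prod/_sum/_pow` : `rf` is a ring homomorphism on `S36NR_Gs A`;
* `S36NR_tw_mem`, `S36NR_rf_tw`, `S36NR_rf_tw_one` : twists `t ↦ u t` by units of `A`
  (`rf (tw_u x) = rf x` if `ū = 1`);
* `S36NR_qExpand_mem`, `S36NR_rf_qExpand` : the substitution `t ↦ t^n`;
* `S36NR_inv_mem`, `S36NR_rf_inv` : units = non-zero reduction;
* `S36NR_const_mem` : a constant series in the Gauss ring has its constant in `A`.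
-/

set_option autoImplicit false
set_option linter.unusedSectionVars false

open HahnSeries ModularCurve

noncomputable section

namespace Fermat.Agent.S36

open Fermat.Agent.S18 Fermat.Agent.GalRep

variable {L : Type*} [Field L] [Algebra ℚ L] (A : ValuationSubring L)

/-- the Gauss ring of `L((t))`: fractions of integral series with denominator of nonzero
reduction. -/
def S36NR_Gs : Subring (LaurentSeries L) := S36V_G A (RingHom.id (LaurentSeries L))

/-- the reduction `L((t)) ⊃ G → k((t))`, function level (junk value `0` outside `G`). -/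
def S36NR_rf (x : LaurentSeries L) : LaurentSeries (IsLocalRing.ResidueField A) :=
  S36V_GredFun A (RingHom.id (LaurentSeries L)) x

theorem S36NR_mem_Gs {x : LaurentSeries L} :
    x ∈ S36NR_Gs A ↔ ∃ s₁ s₂ : LaurentSeries A, S18_ρ A s₂ ≠ 0 ∧
      x * S18_ι A s₂ = S18_ι A s₁ :=
  Iff.rfl

theorem S36NR_rf_eq {x : LaurentSeries L} {s₁ s₂ : LaurentSeries A}
    (hne : S18_ρ A s₂ ≠ 0) (hf : x * S18_ι A s₂ = S18_ι A s₁) :
    S36NR_rf A x = S18_ρ A s₁ / S18_ρ A s₂ :=
  S36V_GredFun_eq A (RingHom.id (LaurentSeries L)) hne hf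

/-- the reduction as a ring homomorphism on the Gauss ring. -/
def S36NR_red : S36NR_Gs A →+* LaurentSeries (IsLocalRing.ResidueField A) :=
  S36V_Gred A (RingHom.id (LaurentSeries L))

theorem S36NR_red_apply (x : S36NR_Gs A) : S36NR_red A x = S36NR_rf A x.1 := rfl

/-! ### the bridge to the Gauss ring along an embedding -/

section Bridge

variable {F : Type*} [Field F] (φ : F →+* LaurentSeries L)

theorem S36NR_mem_G_iff {f : F} : f ∈ S36V_G A φ ↔ φ f ∈ S36NR_Gs A := Iff.rfl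

theorem S36NR_Gred_eq {f : F} (hf : f ∈ S36V_G A φ) :
    S36V_Gred A φ ⟨f, hf⟩ = S36NR_rf A (φ f) := by
  have hf' := hf
  obtain ⟨s₁, s₂, hne, e⟩ := hf'
  rw [S36V_Gred_eq A φ hf hne e]
  exact (S36NR_rf_eq A hne e).symm

end Bridge

/-! ### ring structure -/

theorem S36NR_ι_mem (s : LaurentSeries A) : S18_ι A s ∈ S36NR_Gs A :=
  ⟨s, 1, by simp, by simp⟩

theorem S36NR_rf_ι (s : LaurentSeries A) : S36NR_rf A (S18_ι A s) = S18_ρ A s := by
  rw [S36NR_rf_eq A (s₁ := s) (s₂ := 1) (by simp) (by simp)]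
  simp

theorem S36NR_rf_zero : S36NR_rf A (0 : LaurentSeries L) = 0 := by
  rw [S36NR_rf_eq A (s₁ := 0) (s₂ := 1) (by simp) (by simp)]
  simp

theorem S36NR_rf_one : S36NR_rf A (1 : LaurentSeries L) = 1 := by
  rw [S36NR_rf_eq A (s₁ := 1) (s₂ := 1) (by simp) (by simp)]
  simp

theorem S36NR_rf_add {x y : LaurentSeries L} (hx : x ∈ S36NR_Gs A) (hy : y ∈ S36NR_Gs A) :
    S36NR_rf A (x + y) = S36NR_rf A x + S36NR_rf A y := by
  obtain ⟨s₁, s₂, hne, hf⟩ := (S36NR_mem_Gs A).1 hx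
  obtain ⟨t₁, t₂, kne, hg⟩ := (S36NR_mem_Gs A).1 hy
  rw [S36NR_rf_eq A hne hf, S36NR_rf_eq A kne hg,
    S36NR_rf_eq A (s₁ := s₁ * t₂ + t₁ * s₂) (s₂ := s₂ * t₂)
      (by rw [map_mul]; exact mul_ne_zero hne kne)
      (by simp only [map_add, map_mul]; rw [← hf, ← hg]; ring)]
  simp only [map_add, map_mul]
  field_simp

theorem S36NR_rf_mul {x y : LaurentSeries L} (hx : x ∈ S36NR_Gs A) (hy : y ∈ S36NR_Gs A) :
    S36NR_rf A (x * y) = S36NR_rf A x * S36NR_rf A y := by
  obtain ⟨s₁, s₂, hne, hf⟩ := (S36NR_mem_Gs A).1 hx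
  obtain ⟨t₁, t₂, kne, hg⟩ := (S36NR_mem_Gs A).1 hy
  rw [S36NR_rf_eq A hne hf, S36NR_rf_eq A kne hg,
    S36NR_rf_eq A (s₁ := s₁ * t₁) (s₂ := s₂ * t₂)
      (by rw [map_mul]; exact mul_ne_zero hne kne)
      (by simp only [map_mul]; rw [← hf, ← hg]; ring)]
  simp only [map_mul]
  field_simp

theorem S36NR_rf_pow {x : LaurentSeries L} (hx : x ∈ S36NR_Gs A) (n : ℕ) :
    S36NR_rf A (x ^ n) = S36NR_rf A x ^ n := by
  induction n with
  | zero => rw [pow_zero, pow_zero, S36NR_rf_one]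
  | succ n ih =>
    rw [pow_succ, pow_succ, S36NR_rf_mul A (Subring.pow_mem _ hx n) hx, ih]

/-- finite products: membership. -/
theorem S36NR_prod_mem {X : Type*} (s : Finset X) (f : X → LaurentSeries L)
    (h : ∀ i ∈ s, f i ∈ S36NR_Gs A) : ∏ i ∈ s, f i ∈ S36NR_Gs A :=
  Subring.prod_mem _ h

/-- finite sums: membership. -/
theorem S36NR_sum_mem {X : Type*} (s : Finset X) (f : X → LaurentSeries L)
    (h : ∀ i ∈ s, f i ∈ S36NR_Gs A) : ∑ i ∈ s, f i ∈ S36NR_Gs A :=
  Subring.sum_mem _ h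

/-- finite products: reduction. -/
theorem S36NR_rf_prod {X : Type*} (s : Finset X) (f : X → LaurentSeries L)
    (h : ∀ i ∈ s, f i ∈ S36NR_Gs A) :
    S36NR_rf A (∏ i ∈ s, f i) = ∏ i ∈ s, S36NR_rf A (f i) := by
  classical
  induction s using Finset.induction_on with
  | empty => simp [S36NR_rf_one]
  | insert a s ha ih =>
    rw [Finset.prod_insert ha, Finset.prod_insert ha,
      S36NR_rf_mul A (h a (Finset.mem_insert_self a s))
        (S36NR_prod_mem A s f fun i hi => h i (Finset.mem_insert_of_mem hi)),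
      ih fun i hi => h i (Finset.mem_insert_of_mem hi)]

/-- finite sums: reduction. -/
theorem S36NR_rf_sum {X : Type*} (s : Finset X) (f : X → LaurentSeries L)
    (h : ∀ i ∈ s, f i ∈ S36NR_Gs A) :
    S36NR_rf A (∑ i ∈ s, f i) = ∑ i ∈ s, S36NR_rf A (f i) := by
  classical
  induction s using Finset.induction_on with
  | empty => simp [S36NR_rf_zero]
  | insert a s ha ih =>
    rw [Finset.sum_insert ha, Finset.sum_insert ha,
      S36NR_rf_add A (h a (Finset.mem_insert_self a s))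
        (S36NR_sum_mem A s f fun i hi => h i (Finset.mem_insert_of_mem hi)),
      ih fun i hi => h i (Finset.mem_insert_of_mem hi)]

/-! ### units -/

theorem S36NR_inv_mem {x : LaurentSeries L} (hx : x ∈ S36NR_Gs A) (h : S36NR_rf A x ≠ 0) :
    x⁻¹ ∈ S36NR_Gs A :=
  S36V_G_inv_mem A (RingHom.id (LaurentSeries L)) hx h

theorem S36NR_rf_inv {x : LaurentSeries L} (hx : x ∈ S36NR_Gs A) (h : S36NR_rf A x ≠ 0) :
    S36NR_rf A x⁻¹ = (S36NR_rf A x)⁻¹ :=
  S36V_Gred_inv A (RingHom.id (LaurentSeries L)) hx h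

/-- a unit of the Gauss ring has non-zero reduction. -/
theorem S36NR_rf_ne_zero {x : LaurentSeries L} (hx : x ∈ S36NR_Gs A) (hx' : x⁻¹ ∈ S36NR_Gs A)
    (hx0 : x ≠ 0) : S36NR_rf A x ≠ 0 := by
  intro h0
  have h1 := S36NR_rf_mul A hx hx'
  rw [mul_inv_cancel₀ hx0, S36NR_rf_one, h0, zero_mul] at h1
  exact one_ne_zero h1

/-- integral series with non-zero reduction are units. -/
theorem S36NR_ι_inv_mem {s : LaurentSeries A} (hs : S18_ρ A s ≠ 0) :
    (S18_ι A s)⁻¹ ∈ S36NR_Gs A :=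
  S36NR_inv_mem A (S36NR_ι_mem A s) (by rwa [S36NR_rf_ι])

/-! ### constants -/

theorem S36NR_C_mem (a : A) : algebraMap L (LaurentSeries L) (a : L) ∈ S36NR_Gs A :=
  S36V_G_const A (RingHom.id (LaurentSeries L)) a rfl

theorem S36NR_rf_C (a : A) :
    S36NR_rf A (algebraMap L (LaurentSeries L) (a : L)) =
      algebraMap (IsLocalRing.ResidueField A) (LaurentSeries (IsLocalRing.ResidueField A))
        (IsLocalRing.residue A a) :=
  S36V_Gred_const A (RingHom.id (LaurentSeries L)) a rfl (S36NR_C_mem A a)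

/-- a constant in the Gauss ring lies in `A`. -/
theorem S36NR_const_mem (c : L) (h : algebraMap L (LaurentSeries L) c ∈ S36NR_Gs A) : c ∈ A :=
  S36V_const_mem A (RingHom.id (LaurentSeries L)) c rfl h

/-! ### operators defined over `A` -/

section Post

variable (TL : LaurentSeries L →+* LaurentSeries L) (TA : LaurentSeries A →+* LaurentSeries A)
  (Tk : LaurentSeries (IsLocalRing.ResidueField A) →+*
    LaurentSeries (IsLocalRing.ResidueField A))
  (hι : ∀ s, S18_ι A (TA s) = TL (S18_ι A s)) (hρ : ∀ s, S18_ρ A (TA s) = Tk (S18_ρ A s))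

include hι hρ in
theorem S36NR_post_mem {x : LaurentSeries L} (hx : x ∈ S36NR_Gs A) : TL x ∈ S36NR_Gs A := by
  obtain ⟨s₁, s₂, hne, h⟩ := (S36NR_mem_Gs A).1 hx
  refine (S36NR_mem_Gs A).2 ⟨TA s₁, TA s₂, ?_, ?_⟩
  · rw [hρ]
    exact (map_ne_zero_iff Tk Tk.injective).2 hne
  · rw [hι, hι, ← h, map_mul]

include hι hρ in
theorem S36NR_rf_post {x : LaurentSeries L} (hx : x ∈ S36NR_Gs A) :
    S36NR_rf A (TL x) = Tk (S36NR_rf A x) := by
  obtain ⟨s₁, s₂, hne, h⟩ := (S36NR_mem_Gs A).1 hx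
  have hne' : S18_ρ A (TA s₂) ≠ 0 := by
    rw [hρ]
    exact (map_ne_zero_iff Tk Tk.injective).2 hne
  have h' : TL x * S18_ι A (TA s₂) = S18_ι A (TA s₁) := by
    rw [hι, hι, ← h, map_mul]
  rw [S36NR_rf_eq A hne' h', S36NR_rf_eq A hne h, hρ, hρ, map_div₀]

end Post

/-- twists by units of `A`. -/
theorem S36NR_tw_mem (u : Aˣ) {x : LaurentSeries L} (hx : x ∈ S36NR_Gs A) :
    ES_tw (Units.map (A.subtype : A →* L) u) x ∈ S36NR_Gs A := by
  have hι : ∀ s, S18_ι A (ES_tw u s) = ES_tw (Units.map (A.subtype : A →* L) u) (S18_ι A s) :=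
    fun s => ES_coeffMap_tw A.subtype u s
  have hρ : ∀ s, S18_ρ A (ES_tw u s) =
      ES_tw (Units.map (IsLocalRing.residue A : A →* IsLocalRing.ResidueField A) u) (S18_ρ A s) :=
    fun s => ES_coeffMap_tw (IsLocalRing.residue A) u s
  exact S36NR_post_mem A (ES_tw (Units.map (A.subtype : A →* L) u)) (ES_tw u)
    (ES_tw (Units.map (IsLocalRing.residue A : A →* IsLocalRing.ResidueField A) u)) hι hρ hx

theorem S36NR_rf_tw (u : Aˣ) {x : LaurentSeries L} (hx : x ∈ S36NR_Gs A) :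
    S36NR_rf A (ES_tw (Units.map (A.subtype : A →* L) u) x) =
      ES_tw (Units.map (IsLocalRing.residue A : A →* IsLocalRing.ResidueField A) u) (S36NR_rf A x) := by
  have hι : ∀ s, S18_ι A (ES_tw u s) = ES_tw (Units.map (A.subtype : A →* L) u) (S18_ι A s) :=
    fun s => ES_coeffMap_tw A.subtype u s
  have hρ : ∀ s, S18_ρ A (ES_tw u s) =
      ES_tw (Units.map (IsLocalRing.residue A : A →* IsLocalRing.ResidueField A) u) (S18_ρ A s) :=
    fun s => ES_coeffMap_tw (IsLocalRing.residue A) u s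
  exact S36NR_rf_post A (ES_tw (Units.map (A.subtype : A →* L) u)) (ES_tw u)
    (ES_tw (Units.map (IsLocalRing.residue A : A →* IsLocalRing.ResidueField A) u)) hι hρ hx

/-- a twist by a unit with residue `1` does not change the reduction. -/
theorem S36NR_rf_tw_one (u : Aˣ)
    (hu : Units.map (IsLocalRing.residue A : A →* IsLocalRing.ResidueField A) u = 1)
    {x : LaurentSeries L} (hx : x ∈ S36NR_Gs A) :
    S36NR_rf A (ES_tw (Units.map (A.subtype : A →* L) u) x) = S36NR_rf A x := by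
  rw [S36NR_rf_tw A u hx, hu, ES_tw_one]

/-- the substitution `t ↦ t^n`. -/
theorem S36NR_qExpand_mem (n : ℕ) [NeZero n] {x : LaurentSeries L} (hx : x ∈ S36NR_Gs A) :
    qExpand L n x ∈ S36NR_Gs A := by
  have hι : ∀ s, S18_ι A (qExpand A n s) = qExpand L n (S18_ι A s) :=
    fun s => coeffMap_qExpand A.subtype n s
  have hρ : ∀ s, S18_ρ A (qExpand A n s) = qExpand _ n (S18_ρ A s) :=
    fun s => coeffMap_qExpand (IsLocalRing.residue A) n s
  exact S36NR_post_mem A (qExpand L n) (qExpand A n) (qExpand _ n) hι hρ hx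

theorem S36NR_rf_qExpand (n : ℕ) [NeZero n] {x : LaurentSeries L} (hx : x ∈ S36NR_Gs A) :
    S36NR_rf A (qExpand L n x) = qExpand (IsLocalRing.ResidueField A) n (S36NR_rf A x) := by
  have hι : ∀ s, S18_ι A (qExpand A n s) = qExpand L n (S18_ι A s) :=
    fun s => coeffMap_qExpand A.subtype n s
  have hρ : ∀ s, S18_ρ A (qExpand A n s) = qExpand _ n (S18_ρ A s) :=
    fun s => coeffMap_qExpand (IsLocalRing.residue A) n s
  exact S36NR_rf_post A (qExpand L n) (qExpand A n) (qExpand _ n) hι hρ hx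

end Fermat.Agent.S36
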