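import Mathlib
import Fermat.Agent.S18.ValDefs
import Fermat.Agent.S24.FInd

/-!
# TRACK 10 (S36), package VAL3-BDD (helper22, shape by helper12), prefix `S36VB_`

*Every `f ∈ F_N = ℚ̄(X₀(N))` is (constant)·(Gauss unit) along ANY integral embedding.*

A Laurent series over `ℚ̄` is GOOD (`S36VB_Good`) if its coefficients lie in one number field
and it is bounded (`∃ c ≠ 0, ∀ n, c·sₙ ∈ A`).  Good series form a subring containing the
constants.  If `φ : F_N → ℚ̄((t))` is a `ℚ̄`-algebra embedding mapping the generators `j(t^d)`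
to good series, then by `F_induction` every `φ f` is a quotient of good series, and by the
primitive-part lemma `S36VB_Prim` (helper8's `S36VD_prim`, a hypothesis here)
`φ f · ι s₂ = c · ι s₁` with `s₁, s₂` integral series with non-zero reduction.
-/

set_option autoImplicit false

open HahnSeries IntermediateField ModularCurve

namespace Fermat.Agent.S36

open Fermat.Agent.S18 Fermat.Agent.S24

local notation "Qb" => AlgebraicClosure ℚ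

/-- the primitive-part lemma (helper8's `S36VD_prim`), as a hypothesis. -/
def S36VB_Prim (A : ValuationSubring Qb) : Prop :=
  ∀ (E : IntermediateField ℚ Qb) [FiniteDimensional ℚ E] (s : LaurentSeries Qb),
    s ≠ 0 → (∀ n, s.coeff n ∈ E) → (∃ c : Qb, c ≠ 0 ∧ ∀ n, c * s.coeff n ∈ A) →
    ∃ c : Qb, c ≠ 0 ∧ ∃ s' : LaurentSeries A, S18_ρ A s' ≠ 0 ∧ s = HahnSeries.C c * S18_ι A s'

/-- a good series: coefficients in one number field, bounded (with a bound in `A`). -/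
def S36VB_Good (A : ValuationSubring Qb) (s : LaurentSeries Qb) : Prop :=
  (∃ E : IntermediateField ℚ Qb, FiniteDimensional ℚ E ∧ ∀ n, s.coeff n ∈ E) ∧
    ∃ c : Qb, c ≠ 0 ∧ c ∈ A ∧ ∀ n, c * s.coeff n ∈ A

variable (A : ValuationSubring Qb)

theorem S36VB_good_of_bdd {s : LaurentSeries Qb}
    (hE : ∃ E : IntermediateField ℚ Qb, FiniteDimensional ℚ E ∧ ∀ n, s.coeff n ∈ E)
    (hb : ∃ c : Qb, c ≠ 0 ∧ ∀ n, c * s.coeff n ∈ A) : S36VB_Good A s := by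
  obtain ⟨c, hc, hcs⟩ := hb
  refine ⟨hE, ?_⟩
  rcases A.mem_or_inv_mem c with h | h
  · exact ⟨c, hc, h, hcs⟩
  · refine ⟨1, one_ne_zero, one_mem _, fun n => ?_⟩
    have : (1 : Qb) * s.coeff n = c⁻¹ * (c * s.coeff n) := by
      rw [← mul_assoc, inv_mul_cancel₀ hc]
    rw [this]
    exact mul_mem h (hcs n)

theorem S36VB_good_C (c : Qb) : S36VB_Good A (HahnSeries.C c) := by
  have halg : IsIntegral ℚ c := ((AlgebraicClosure.isAlgebraic ℚ).isAlgebraic c).isIntegral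
  apply S36VB_good_of_bdd
  · refine ⟨ℚ⟮c⟯, IntermediateField.adjoin.finiteDimensional halg, fun n => ?_⟩
    rw [HahnSeries.C_apply, HahnSeries.coeff_single]
    split_ifs
    · exact IntermediateField.mem_adjoin_simple_self ℚ c
    · exact zero_mem _
  · by_cases hc : c = 0
    · refine ⟨1, one_ne_zero, fun n => ?_⟩
      rw [hc, map_zero, HahnSeries.coeff_zero, mul_zero]
      exact zero_mem _
    · refine ⟨c⁻¹, inv_ne_zero hc, fun n => ?_⟩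
      rw [HahnSeries.C_apply, HahnSeries.coeff_single]
      split_ifs
      · rw [inv_mul_cancel₀ hc]; exact one_mem _
      · rw [mul_zero]; exact zero_mem _

theorem S36VB_good_one : S36VB_Good A 1 := by
  have := S36VB_good_C A 1
  rwa [map_one] at this

theorem S36VB_good_zero : S36VB_Good A 0 := by
  have := S36VB_good_C A 0
  rwa [map_zero] at this

theorem S36VB_good_add {s t : LaurentSeries Qb} (hs : S36VB_Good A s) (ht : S36VB_Good A t) :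
    S36VB_Good A (s + t) := by
  obtain ⟨⟨E₁, hE₁, h₁⟩, c₁, hc₁, hc₁A, hb₁⟩ := hs
  obtain ⟨⟨E₂, hE₂, h₂⟩, c₂, hc₂, hc₂A, hb₂⟩ := ht
  refine ⟨⟨E₁ ⊔ E₂, IntermediateField.finiteDimensional_sup E₁ E₂, fun n => ?_⟩,
    c₁ * c₂, mul_ne_zero hc₁ hc₂, mul_mem hc₁A hc₂A, fun n => ?_⟩
  · rw [HahnSeries.coeff_add]
    exact add_mem ((le_sup_left : E₁ ≤ E₁ ⊔ E₂) (h₁ n)) ((le_sup_right : E₂ ≤ E₁ ⊔ E₂) (h₂ n))
  · rw [HahnSeries.coeff_add]
    have e : c₁ * c₂ * (s.coeff n + t.coeff n) =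
        c₂ * (c₁ * s.coeff n) + c₁ * (c₂ * t.coeff n) := by ring
    rw [e]
    exact add_mem (mul_mem hc₂A (hb₁ n)) (mul_mem hc₁A (hb₂ n))

theorem S36VB_good_mul {s t : LaurentSeries Qb} (hs : S36VB_Good A s) (ht : S36VB_Good A t) :
    S36VB_Good A (s * t) := by
  obtain ⟨⟨E₁, hE₁, h₁⟩, c₁, hc₁, hc₁A, hb₁⟩ := hs
  obtain ⟨⟨E₂, hE₂, h₂⟩, c₂, hc₂, hc₂A, hb₂⟩ := ht
  refine ⟨⟨E₁ ⊔ E₂, IntermediateField.finiteDimensional_sup E₁ E₂, fun n => ?_⟩,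
    c₁ * c₂, mul_ne_zero hc₁ hc₂, mul_mem hc₁A hc₂A, fun n => ?_⟩
  · rw [HahnSeries.coeff_mul]
    exact sum_mem fun ij _ =>
      mul_mem ((le_sup_left : E₁ ≤ E₁ ⊔ E₂) (h₁ _)) ((le_sup_right : E₂ ≤ E₁ ⊔ E₂) (h₂ _))
  · rw [HahnSeries.coeff_mul, Finset.mul_sum]
    refine sum_mem fun ij _ => ?_
    have e : c₁ * c₂ * (s.coeff ij.1 * t.coeff ij.2) =
        (c₁ * s.coeff ij.1) * (c₂ * t.coeff ij.2) := by ring
    rw [e]
    exact mul_mem (hb₁ _) (hb₂ _)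

/-- `φ f` is a quotient of good series. -/
def S36VB_P {N : ℕ} [NeZero N]
    (φ : ↥(modularFunctionFieldBar N) →ₐ[Qb] LaurentSeries Qb)
    (f : ↥(modularFunctionFieldBar N)) : Prop :=
  ∃ s₁ s₂ : LaurentSeries Qb, S36VB_Good A s₁ ∧ S36VB_Good A s₂ ∧ s₂ ≠ 0 ∧ φ f * s₂ = s₁

set_option synthInstance.maxHeartbeats 400000 in
theorem S36VB_P_all {N : ℕ} [NeZero N]
    (φ : ↥(modularFunctionFieldBar N) →ₐ[Qb] LaurentSeries Qb)
    (hgen : ∀ (d : ℕ) [NeZero d] (hd : d ∣ N), ∃ (E : IntermediateField ℚ Qb),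
      FiniteDimensional ℚ E ∧
        (∀ n, (φ (jBar N d hd)).coeff n ∈ E) ∧ ∀ n, (φ (jBar N d hd)).coeff n ∈ A)
    (f : ↥(modularFunctionFieldBar N)) : S36VB_P A φ f := by
  refine F_induction N (S36VB_P A φ) ?_ ?_ ?_ ?_ ?_ f
  · intro c
    refine ⟨HahnSeries.C c, 1, S36VB_good_C A c, S36VB_good_one A, one_ne_zero, ?_⟩
    rw [mul_one, AlgHom.commutes, HahnSeries.algebraMap_apply', PowerSeries.algebraMap_apply,
      HahnSeries.ofPowerSeries_C]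
    rfl
  · intro d _ hd
    obtain ⟨E, hE, hcE, hcA⟩ := hgen d hd
    refine ⟨φ (jBar N d hd), 1, ⟨⟨E, hE, hcE⟩, 1, one_ne_zero, one_mem _, fun n => ?_⟩,
      S36VB_good_one A, one_ne_zero, mul_one _⟩
    rw [one_mul]
    exact hcA n
  · rintro x y ⟨s₁, s₂, hs₁, hs₂, hs₂0, hx⟩ ⟨t₁, t₂, ht₁, ht₂, ht₂0, hy⟩
    refine ⟨s₁ * t₂ + t₁ * s₂, s₂ * t₂,
      S36VB_good_add A (S36VB_good_mul A hs₁ ht₂) (S36VB_good_mul A ht₁ hs₂),
      S36VB_good_mul A hs₂ ht₂, mul_ne_zero hs₂0 ht₂0, ?_⟩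
    rw [map_add, ← hx, ← hy]
    ring
  · rintro x y ⟨s₁, s₂, hs₁, hs₂, hs₂0, hx⟩ ⟨t₁, t₂, ht₁, ht₂, ht₂0, hy⟩
    refine ⟨s₁ * t₁, s₂ * t₂, S36VB_good_mul A hs₁ ht₁, S36VB_good_mul A hs₂ ht₂,
      mul_ne_zero hs₂0 ht₂0, ?_⟩
    rw [map_mul, ← hx, ← hy]
    ring
  · rintro x ⟨s₁, s₂, hs₁, hs₂, hs₂0, hx⟩
    by_cases hx0 : x = 0
    · refine ⟨0, 1, S36VB_good_zero A, S36VB_good_one A, one_ne_zero, ?_⟩
      rw [hx0, inv_zero, map_zero, zero_mul]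
    · have hs₁0 : s₁ ≠ 0 := by
        intro h
        rw [h] at hx
        rcases mul_eq_zero.mp hx with h1 | h1
        · exact hx0 ((map_eq_zero φ).mp h1)
        · exact hs₂0 h1
      refine ⟨s₂, s₁, hs₂, hs₁, hs₁0, ?_⟩
      rw [← hx, ← mul_assoc, ← map_mul, inv_mul_cancel₀ hx0, map_one, one_mul]

set_option synthInstance.maxHeartbeats 400000 in
/-- **VAL3-BDD**: every `f ≠ 0` of `F_N` is (constant)·(Gauss unit) along an embedding `φ` whose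
values on the generators are integral series with coefficients in a number field. -/
theorem S36VB_main (N : ℕ) [NeZero N] (hprim : S36VB_Prim A)
    (φ : ↥(modularFunctionFieldBar N) →ₐ[Qb] LaurentSeries Qb)
    (hgen : ∀ (d : ℕ) [NeZero d] (hd : d ∣ N), ∃ (E : IntermediateField ℚ Qb),
      FiniteDimensional ℚ E ∧
        (∀ n, (φ (jBar N d hd)).coeff n ∈ E) ∧ ∀ n, (φ (jBar N d hd)).coeff n ∈ A)
    (f : ↥(modularFunctionFieldBar N)) (hf : f ≠ 0) :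
    ∃ c : Qb, c ≠ 0 ∧ ∃ s₁ s₂ : LaurentSeries A, S18_ρ A s₁ ≠ 0 ∧ S18_ρ A s₂ ≠ 0 ∧
      φ f * S18_ι A s₂ = HahnSeries.C c * S18_ι A s₁ := by
  obtain ⟨t₁, t₂, ⟨⟨E₁, hE₁, h₁⟩, c₁, hc₁, _, hb₁⟩, ⟨⟨E₂, hE₂, h₂⟩, c₂, hc₂, _, hb₂⟩, ht₂0, hφ⟩ :=
    S36VB_P_all A φ hgen f
  have ht₁0 : t₁ ≠ 0 := by
    intro h
    rw [h] at hφ
    rcases mul_eq_zero.mp hφ with h1 | h1
    · exact hf ((map_eq_zero φ).mp h1)
    · exact ht₂0 h1
  obtain ⟨a₁, ha₁, s₁, hs₁, e₁⟩ := hprim E₁ t₁ ht₁0 h₁ ⟨c₁, hc₁, hb₁⟩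
  obtain ⟨a₂, ha₂, s₂, hs₂, e₂⟩ := hprim E₂ t₂ ht₂0 h₂ ⟨c₂, hc₂, hb₂⟩
  refine ⟨a₁ / a₂, div_ne_zero ha₁ ha₂, s₁, s₂, hs₁, hs₂, ?_⟩
  have hC : (HahnSeries.C a₂ : LaurentSeries Qb) ≠ 0 := by
    rw [Ne, map_eq_zero]
    exact ha₂
  have h := hφ
  rw [e₁, e₂] at h
  apply mul_left_cancel₀ hC
  have e : (HahnSeries.C a₂ : LaurentSeries Qb) * (HahnSeries.C (a₁ / a₂) * S18_ι A s₁) =
      HahnSeries.C a₁ * S18_ι A s₁ := by
    rw [← mul_assoc, ← map_mul, mul_div_cancel₀ _ ha₂]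
  rw [e, ← h]
  ring

end Fermat.Agent.S36
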