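import Fermat.Agent.S36.Val3Disc
import Fermat.Agent.S36.Val3Bdd
import Fermat.Prelude.Def_FLTPrelim_Ramification

/-!
# TRACK 10 (S36), VAL3-DISC instantiated (helper8): `S36VB_Prim` holds, `S36VB_main` unconditional

* `S36VD_Prim` : helper22's hypothesis `S36VB_Prim A` for every valuation subring `A ⊂ ℚ̄`
  lying over a prime `q`;
* `S36VD_main` : `S36VB_main` without `hprim`: every `f ≠ 0` of `F_N` is (constant)·(Gauss unit)
  along any embedding `φ : F_N → ℚ̄((t))` whose generators `φ (j_d)` have `A`-integral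
  coefficients in one number field.
-/

set_option autoImplicit false

open HahnSeries IntermediateField ModularCurve

namespace Fermat.Agent.S36

open Fermat.Agent.S18 Fermat.Agent.S24

theorem S36VD_Prim (A : ValuationSubring (AlgebraicClosure ℚ)) (q : ℕ) (hq : q.Prime)
    (hA : A.LiesOverPrime q) : S36VB_Prim A := by
  intro E _ s hs hE hb
  haveI : Algebra.IsAlgebraic ℚ (AlgebraicClosure ℚ) := AlgebraicClosure.isAlgebraic ℚ
  exact S36VD_prim_nonunits A q hq hA E s hs hE hb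

theorem S36VD_main (A : ValuationSubring (AlgebraicClosure ℚ)) (q : ℕ) (hq : q.Prime)
    (hA : A.LiesOverPrime q) (N : ℕ) [NeZero N]
    (φ : ↥(modularFunctionFieldBar N) →ₐ[AlgebraicClosure ℚ] LaurentSeries (AlgebraicClosure ℚ))
    (hgen : ∀ (d : ℕ) [NeZero d] (hd : d ∣ N), ∃ (E : IntermediateField ℚ (AlgebraicClosure ℚ)),
      FiniteDimensional ℚ E ∧
        (∀ n, (φ (jBar N d hd)).coeff n ∈ E) ∧ ∀ n, (φ (jBar N d hd)).coeff n ∈ A)
    (f : ↥(modularFunctionFieldBar N)) (hf : f ≠ 0) :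
    ∃ c : AlgebraicClosure ℚ, c ≠ 0 ∧ ∃ s₁ s₂ : LaurentSeries A, S18_ρ A s₁ ≠ 0 ∧
      S18_ρ A s₂ ≠ 0 ∧ φ f * S18_ι A s₂ = HahnSeries.C c * S18_ι A s₁ :=
  S36VB_main A N (S36VD_Prim A q hq hA) φ hgen f hf

end Fermat.Agent.S36
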