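import Fermat.Agent.S36.Val3Three
import Fermat.Agent.S36.Val3DiscInst
import Fermat.Agent.S18.CuspKQ

/-!
# TRACK 10 (S36), package VAL3 (helper12), part 4: the five Gauss rings are VALUATION rings

* generic: `S36V_Rep A φ` (every `f ≠ 0` is (constant)·(Gauss unit) along `φ`),
  `S36V_VS A φ hrep : ValuationSubring F` (carrier = `S36V_G A φ`), its reduction
  `S36V_VSred A φ hrep : S36V_VS A φ hrep →+* k((t))`, and the hypotheses `hred0`, `hmem`,
  `hredalg` of `S36FL_val` (`S36V_VSred_ne_zero_iff`, `S36V_VS_algebraMap_mem_iff`,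
  `S36V_VSred_algebraMap`), `S36V_exists_unit` (the value of `f` is the value of a constant);
* concrete: `S36V_rep_val` (cusp `∞`, any level), `S36V_rep_emFF`, `S36V_rep_emF`,
  `S36V_rep_emVV`, `S36V_rep_emV`, `S36V_rep_emFV` (middle cusp), for every valuation subring `A`
  of `ℚ̄` over `q`.  No Newton iteration: VAL3-DISC (helper8) + VAL3-BDD (helper22).
-/

set_option autoImplicit false
set_option synthInstance.maxHeartbeats 400000
set_option maxHeartbeats 1000000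
set_option linter.style.haveILetI false
set_option linter.unusedSectionVars false

open HahnSeries IntermediateField AlgebraicCurve ModularCurve

noncomputable section

namespace Fermat.Agent.S36

open Fermat.Agent.S18 Fermat.Agent.S24 Fermat.Agent.S34 Fermat.Agent.S37 Fermat.Agent.GalRep
  Fermat.Agent.Lib

/-! ### generic part -/

section Generic

variable {L : Type*} [Field L] [Algebra ℚ L] (A : ValuationSubring L)
variable {F : Type*} [Field F] (φ : F →+* LaurentSeries L)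

/-- every `f ≠ 0` is (constant)·(Gauss unit) along `φ`. -/
def S36V_Rep : Prop :=
  ∀ f : F, f ≠ 0 → ∃ c : L, c ≠ 0 ∧ ∃ s₁ s₂ : LaurentSeries A,
    S18_ρ A s₁ ≠ 0 ∧ S18_ρ A s₂ ≠ 0 ∧ φ f * S18_ι A s₂ = HahnSeries.C c * S18_ι A s₁

theorem S36V_ι_C (a : A) : S18_ι A (HahnSeries.C a) = HahnSeries.C (a : L) := by
  rw [S18_ι_C, LaurentSeries.algebraMap_apply]

theorem S36V_ρ_C (a : A) :
    S18_ρ A (HahnSeries.C a) = HahnSeries.C (IsLocalRing.residue A a) := by
  rw [S18_ρ_C, LaurentSeries.algebraMap_apply]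

variable {A φ}

theorem S36V_mem_or_inv_mem (hrep : S36V_Rep A φ) (f : F) :
    f ∈ S36V_G A φ ∨ f⁻¹ ∈ S36V_G A φ := by
  by_cases hf : f = 0
  · left
    rw [hf]
    exact zero_mem _
  obtain ⟨c, hc, s₁, s₂, h1, h2, h⟩ := hrep f hf
  rcases A.mem_or_inv_mem c with hcA | hcA
  · left
    refine ⟨HahnSeries.C ⟨c, hcA⟩ * s₁, s₂, h2, ?_⟩
    rw [h, map_mul, S36V_ι_C]
  · right
    refine ⟨HahnSeries.C ⟨c⁻¹, hcA⟩ * s₂, s₁, h1, ?_⟩
    have hφ : φ f ≠ 0 := (map_ne_zero φ).2 hf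
    rw [map_mul, S36V_ι_C, map_inv₀, inv_mul_eq_iff_eq_mul₀ hφ, ← mul_assoc,
      mul_comm (φ f), mul_assoc, h, ← mul_assoc, ← map_mul]
    show S18_ι A s₁ = HahnSeries.C (c⁻¹ * c) * S18_ι A s₁
    rw [inv_mul_cancel₀ hc, map_one, one_mul]

variable (A φ)

/-- the Gauss ring along `φ` as a valuation subring. -/
def S36V_VS (hrep : S36V_Rep A φ) : ValuationSubring F :=
  { S36V_G A φ with mem_or_inv_mem' := S36V_mem_or_inv_mem hrep }

theorem S36V_mem_VS (hrep : S36V_Rep A φ) {f : F} :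
    f ∈ S36V_VS A φ hrep ↔ f ∈ S36V_G A φ := Iff.rfl

/-- the identity `S36V_VS → S36V_G`. -/
def S36V_VSincl (hrep : S36V_Rep A φ) : ↥(S36V_VS A φ hrep) →+* ↥(S36V_G A φ) where
  toFun x := ⟨x.1, x.2⟩
  map_one' := rfl
  map_mul' _ _ := rfl
  map_zero' := rfl
  map_add' _ _ := rfl

/-- the reduction map on the valuation subring. -/
def S36V_VSred (hrep : S36V_Rep A φ) :
    ↥(S36V_VS A φ hrep) →+* LaurentSeries (IsLocalRing.ResidueField A) :=
  (S36V_Gred A φ).comp (S36V_VSincl A φ hrep)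

theorem S36V_VSred_apply (hrep : S36V_Rep A φ) (x : ↥(S36V_VS A φ hrep)) :
    S36V_VSred A φ hrep x = S36V_Gred A φ ⟨x.1, x.2⟩ := rfl

/-- `hred0` of `S36FL_val`. -/
theorem S36V_VSred_ne_zero_iff (hrep : S36V_Rep A φ) (x : ↥(S36V_VS A φ hrep)) :
    S36V_VSred A φ hrep x ≠ 0 ↔ IsUnit x := by
  constructor
  · intro h
    have hx0 : (x : F) ≠ 0 := by
      intro h0
      apply h
      have : x = 0 := Subtype.ext h0
      rw [this, map_zero]
    have hinv : (x : F)⁻¹ ∈ S36V_VS A φ hrep := S36V_G_inv_mem A φ x.2 h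
    exact ⟨⟨x, ⟨(x : F)⁻¹, hinv⟩, Subtype.ext (mul_inv_cancel₀ hx0),
      Subtype.ext (inv_mul_cancel₀ hx0)⟩, rfl⟩
  · rintro ⟨u, rfl⟩ h0
    have h1 := congrArg (S36V_VSred A φ hrep) u.mul_inv
    rw [map_mul, h0, zero_mul, map_one] at h1
    exact zero_ne_one h1

variable [Algebra L F] (hφ : ∀ c : L, φ (algebraMap L F c) = algebraMap L (LaurentSeries L) c)

include hφ in
/-- `hmem` of `S36FL_val`. -/
theorem S36V_VS_algebraMap_mem_iff (hrep : S36V_Rep A φ) (a : L) :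
    algebraMap L F a ∈ S36V_VS A φ hrep ↔ a ∈ A :=
  ⟨fun h => S36V_const_mem A φ a (hφ a) h, fun h => S36V_G_const A φ ⟨a, h⟩ (hφ a)⟩

include hφ in
/-- `hredalg` of `S36FL_val` (as a series). -/
theorem S36V_VSred_algebraMap (hrep : S36V_Rep A φ) (a : L) (ha : a ∈ A)
    (haO : algebraMap L F a ∈ S36V_VS A φ hrep) :
    S36V_VSred A φ hrep ⟨algebraMap L F a, haO⟩ =
      algebraMap (IsLocalRing.ResidueField A) (LaurentSeries (IsLocalRing.ResidueField A))
        (IsLocalRing.residue A ⟨a, ha⟩) :=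
  S36V_Gred_const A φ ⟨a, ha⟩ (hφ a) haO

include hφ in
/-- **the value of `f` is the value of a constant**: `f = c · u`, `u` a Gauss unit. -/
theorem S36V_exists_unit (hrep : S36V_Rep A φ) (f : F) (hf : f ≠ 0) :
    ∃ c : L, c ≠ 0 ∧ ∃ hu : f * (algebraMap L F c)⁻¹ ∈ S36V_G A φ,
      S36V_Gred A φ ⟨_, hu⟩ ≠ 0 := by
  obtain ⟨c, hc, s₁, s₂, h1, h2, h⟩ := hrep f hf
  have hrepu : φ (f * (algebraMap L F c)⁻¹) * S18_ι A s₂ = S18_ι A s₁ := by
    rw [map_mul, map_inv₀, hφ, LaurentSeries.algebraMap_apply, mul_comm (φ f), mul_assoc, h,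
      ← mul_assoc, ← map_inv₀, ← map_mul, inv_mul_cancel₀ hc, map_one, one_mul]
  have hu : f * (algebraMap L F c)⁻¹ ∈ S36V_G A φ := ⟨s₁, s₂, h2, hrepu⟩
  refine ⟨c, hc, hu, ?_⟩
  rw [S36V_Gred_eq A φ hu h2 hrepu]
  exact div_ne_zero h1 h2

/-- transport of `S36V_Rep` along an isomorphism of the source. -/
theorem S36V_rep_comp {F' : Type*} [Field F'] (e : F' ≃+* F) (hrep : S36V_Rep A φ) :
    S36V_Rep A (φ.comp (e : F' →+* F)) := by
  intro f hf
  exact hrep (e f) ((map_ne_zero_iff e e.injective).2 hf)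

end Generic

/-! ### the cusp `∞`, any level -/

local notation "ℚbar" => AlgebraicClosure ℚ

section Val

variable (A : ValuationSubring ℚbar) (q : ℕ) (hq : q.Prime) (hA : A.LiesOverPrime q)

/-- the coefficients of `j(t^d)` are integers. -/
theorem S36V_coeff_jqN (d : ℕ) [NeZero d] (n : ℤ) :
    (jqNModC ℚbar d).coeff n = (((jqNModC ℤ d).coeff n : ℤ) : ℚbar) := by
  rw [← coeffMap_jqNModC (Int.castRingHom ℚbar) d, coeffMap_coeff]
  rfl

theorem S36V_coe_jBar (N : ℕ) [NeZero N] (d : ℕ) [NeZero d] (hd : d ∣ N) :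
    ((jBar N d hd : ↥(modularFunctionFieldBar N)) : LaurentSeries ℚbar) = jqNModC ℚbar d :=
  KE_jBar_coe N d hd

theorem S36V_intCast_mem (z : ℤ) : ((z : ℤ) : ℚbar) ∈ A := by
  have : ((z : ℤ) : ℚbar) = ((z : A) : ℚbar) := by simp
  rw [this]
  exact (z : A).2

include hq hA in
theorem S36V_rep_val (N : ℕ) [NeZero N] :
    S36V_Rep A (modularFunctionFieldBar N).val.toRingHom := by
  intro f hf
  refine S36VD_main A q hq hA N (modularFunctionFieldBar N).val ?_ f hf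
  intro d _ hd
  refine ⟨⊥, inferInstance, fun n => ?_, fun n => ?_⟩
  · show ((jBar N d hd : ↥(modularFunctionFieldBar N)) : LaurentSeries ℚbar).coeff n ∈ _
    rw [S36V_coe_jBar, S36V_coeff_jqN]
    exact intCast_mem _ _
  · show ((jBar N d hd : ↥(modularFunctionFieldBar N)) : LaurentSeries ℚbar).coeff n ∈ A
    rw [S36V_coe_jBar, S36V_coeff_jqN]
    exact S36V_intCast_mem A _

end Val

/-! ### the five valuations -/

variable (M q : ℕ) [NeZero M] [NeZero q] (hq : q.Prime) (hqM : ¬ q ∣ M)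
  (A : ValuationSubring ℚbar) (hA : A.LiesOverPrime q)
  (ζ : ℚbarˣ) (hζ : ζ ^ q = 1) (hζ1 : ζ ≠ 1)

include hq hA in
theorem S36V_rep_emF : S36V_Rep A (S36V_emF M q) :=
  S36V_rep_val A q hq hA (M * q)

include hq hA in
theorem S36V_rep_emFF : S36V_Rep A (S36V_emFF M q) :=
  S36V_rep_val A q hq hA (M * q * q)

include hq hA in
theorem S36V_rep_emV : S36V_Rep A (S36V_emV M q hq hqM) :=
  S36V_rep_comp A (S36V_emF M q) (S34DF_wq M q hq hqM).toRingEquiv (S36V_rep_emF M q hq A hA)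

include hq hA in
theorem S36V_rep_emVV : S36V_Rep A (S36V_emVV M q hq hqM) :=
  S36V_rep_comp A (S36V_emFF M q) (S36V_w2 M q hq hqM).toRingEquiv (S36V_rep_emFF M q hq A hA)

/-! ### the middle cusp -/

/-- a divisor of `M q²` that does not divide `M q` is `d' q²` with `d' ∣ M`. -/
theorem S36V_dvd_cases (hq : q.Prime) (d : ℕ) (hd : d ∣ M * q * q)
    (hd' : ¬ d ∣ M * q) : ∃ d' : ℕ, d' ∣ M ∧ d = q * (q * d') := by
  rw [mul_assoc] at hd
  obtain ⟨d₁, d₂, h1, h2, rfl⟩ := (Nat.dvd_mul).1 hd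
  rw [← pow_two] at h2
  obtain ⟨i, hi, rfl⟩ := (Nat.dvd_prime_pow hq).1 h2
  interval_cases i
  · exact absurd (by simpa using Dvd.dvd.mul_right h1 q) hd'
  · exact absurd (by simpa using Nat.mul_dvd_mul h1 (dvd_refl q)) hd'
  · exact ⟨d₁, h1, by ring⟩

theorem S36V_iota_jBar_low (d : ℕ) [NeZero d] (hd : d ∣ M * q * q) (hd' : d ∣ M * q) :
    S36V_iota M q hq hqM ζ hζ hζ1 (jBar (M * q * q) d hd) = jqNModC ℚbar d := by
  have h1 : jBar (M * q * q) d hd = heckeAlphaBar ℚbar (M * q) q (jBar (M * q) d hd') := by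
    apply Subtype.ext
    rw [coe_heckeAlphaBar, S36V_coe_jBar, S36V_coe_jBar]
  rw [h1, S36V_iota_alpha, S36V_coe_jBar]

theorem S36V_iota_jBar_high (d' : ℕ) [NeZero d'] (hd' : d' ∣ M)
    (hd : q * (q * d') ∣ M * q * q) :
    S36V_iota M q hq hqM ζ hζ hζ1 (jBar (M * q * q) (q * (q * d')) hd) =
      ES_tw ζ (jqNModC ℚbar d') := by
  have hqd : q * d' ∣ M * q := by
    rw [mul_comm M q]
    exact Nat.mul_dvd_mul (dvd_refl q) hd'
  have h1 : jBar (M * q * q) (q * (q * d')) hd =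
      heckeBetaBar ℚbar (M * q) q (jBar (M * q) (q * d') hqd) := by
    apply Subtype.ext
    rw [coe_heckeBetaBar, S36V_coe_jBar, S36V_coe_jBar, jqNModC, jqNModC, qExpand_qExpand]
  have h2 : jBar (M * q) (q * d') hqd = heckeBetaBar ℚbar M q (jBar M d' hd') := by
    apply Subtype.ext
    rw [coe_heckeBetaBar, S36V_coe_jBar, S36V_coe_jBar, jqNModC, jqNModC, qExpand_qExpand]
  rw [h1, S36V_iota_beta, h2, S34VW_wq_beta, coe_heckeAlphaBar, S36V_coe_jBar]

include hq hA in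
theorem S36V_rep_emFV : S36V_Rep A (S36V_emFV M q hq hqM ζ hζ hζ1) := by
  intro f hf
  refine S36VD_main A q hq hA (M * q * q) (S36V_iota M q hq hqM ζ hζ hζ1) ?_ f hf
  intro d _ hd
  haveI : Algebra.IsAlgebraic ℚ ℚbar := AlgebraicClosure.isAlgebraic ℚ
  have hζint : IsIntegral ℚ (ζ : ℚbar) :=
    (Algebra.IsAlgebraic.isAlgebraic (ζ : ℚbar)).isIntegral
  haveI : FiniteDimensional ℚ ↥(IntermediateField.adjoin ℚ {(ζ : ℚbar)}) :=
    IntermediateField.adjoin.finiteDimensional hζint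
  refine ⟨IntermediateField.adjoin ℚ {(ζ : ℚbar)}, inferInstance, ?_⟩
  by_cases hd' : d ∣ M * q
  · rw [S36V_iota_jBar_low M q hq hqM ζ hζ hζ1 d hd hd']
    refine ⟨fun n => ?_, fun n => ?_⟩
    · rw [S36V_coeff_jqN]
      exact intCast_mem _ _
    · rw [S36V_coeff_jqN]
      exact S36V_intCast_mem A _
  · obtain ⟨d', hd'M, rfl⟩ := S36V_dvd_cases M q hq d hd hd'
    have hd'0 : d' ≠ 0 := by
      rintro rfl
      exact (NeZero.ne (q * (q * 0))) (by simp)
    haveI : NeZero d' := ⟨hd'0⟩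
    rw [S36V_iota_jBar_high M q hq hqM ζ hζ hζ1 d' hd'M hd]
    have hζE : ∀ n : ℤ, ((ζ ^ n : ℚbarˣ) : ℚbar) ∈ IntermediateField.adjoin ℚ {(ζ : ℚbar)} := by
      intro n
      rw [Units.val_zpow_eq_zpow_val]
      exact zpow_mem (IntermediateField.subset_adjoin ℚ _ (Set.mem_singleton _)) n
    have hζA : ∀ n : ℤ, ((ζ ^ n : ℚbarˣ) : ℚbar) ∈ A := by
      intro n
      refine S36OQ_zeta_mem A q (Nat.pos_of_ne_zero (NeZero.ne q)) _ ?_
      rw [← Units.val_pow_eq_pow_val, ← zpow_natCast, ← zpow_mul, mul_comm, zpow_mul,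
        zpow_natCast, hζ, one_zpow, Units.val_one]
    refine ⟨fun n => ?_, fun n => ?_⟩
    · rw [ES_tw_coeff, S36V_coeff_jqN]
      exact mul_mem (hζE n) (intCast_mem _ _)
    · rw [ES_tw_coeff, S36V_coeff_jqN]
      exact mul_mem (hζA n) (S36V_intCast_mem A _)

/-! ### the five valuation subrings -/

/-- the valuation ring `F` of `F₁` (cusp `∞`). -/
def S36V_OF : ValuationSubring ↥(modularFunctionFieldBar (M * q)) :=
  S36V_VS A (S36V_emF M q) (S36V_rep_emF M q hq A hA)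

/-- the valuation ring `V` of `F₁` (cusp `0`). -/
def S36V_OV : ValuationSubring ↥(modularFunctionFieldBar (M * q)) :=
  S36V_VS A (S36V_emV M q hq hqM) (S36V_rep_emV M q hq hqM A hA)

/-- the valuation ring `FF` of `F₂` (cusp `∞`). -/
def S36V_OFF : ValuationSubring ↥(modularFunctionFieldBar (M * q * q)) :=
  S36V_VS A (S36V_emFF M q) (S36V_rep_emFF M q hq A hA)

/-- the valuation ring `VV` of `F₂` (cusp `0`). -/
def S36V_OVV : ValuationSubring ↥(modularFunctionFieldBar (M * q * q)) :=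
  S36V_VS A (S36V_emVV M q hq hqM) (S36V_rep_emVV M q hq hqM A hA)

/-- the valuation ring `FV` of `F₂` (middle cusp). -/
def S36V_OFV : ValuationSubring ↥(modularFunctionFieldBar (M * q * q)) :=
  S36V_VS A (S36V_emFV M q hq hqM ζ hζ hζ1) (S36V_rep_emFV M q hq hqM A hA ζ hζ hζ1)

/-! ### the embeddings are `ℚ̄`-linear -/

theorem S36V_emF_const (c : ℚbar) :
    S36V_emF M q (algebraMap ℚbar ↥(modularFunctionFieldBar (M * q)) c) =
      algebraMap ℚbar (LaurentSeries ℚbar) c := rfl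

theorem S36V_emFF_const (c : ℚbar) :
    S36V_emFF M q (algebraMap ℚbar ↥(modularFunctionFieldBar (M * q * q)) c) =
      algebraMap ℚbar (LaurentSeries ℚbar) c := rfl

theorem S36V_emV_const (c : ℚbar) :
    S36V_emV M q hq hqM (algebraMap ℚbar ↥(modularFunctionFieldBar (M * q)) c) =
      algebraMap ℚbar (LaurentSeries ℚbar) c := by
  rw [S36V_emV_apply, AlgEquiv.commutes]
  rfl

theorem S36V_emVV_const (c : ℚbar) :
    S36V_emVV M q hq hqM (algebraMap ℚbar ↥(modularFunctionFieldBar (M * q * q)) c) =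
      algebraMap ℚbar (LaurentSeries ℚbar) c := by
  rw [S36V_emVV_apply, AlgEquiv.commutes]
  rfl

theorem S36V_emFV_const (c : ℚbar) :
    S36V_emFV M q hq hqM ζ hζ hζ1 (algebraMap ℚbar ↥(modularFunctionFieldBar (M * q * q)) c) =
      algebraMap ℚbar (LaurentSeries ℚbar) c := by
  rw [S36V_emFV_apply, AlgHom.commutes]

end Fermat.Agent.S36
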