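import Fermat.Agent.S36.NormRes2
import Fermat.Agent.S36.NormResG
import Fermat.Agent.S36.Val3VS
import Fermat.Agent.S34.ValHgenAsm
import Fermat.Agent.S34.Defs

/-!
# TRACK 10 (S36), package NORMRES (helper4), part 4: integrality of the traces

Levels `N₁ = M q`, `N₂ = M q q` (`q ∤ M` prime), `A ⊂ ℚ̄` a valuation subring over `q`.
Gauss rings `S36V_G A (em X)` along the five embeddings of `S36/Val3Three.lean`.

* `S36NR_reflect` : (generic) if every `f ≠ 0` is (constant)·(Gauss unit) along `φ` and `T` is an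
  operator on series defined over `A` fixing the constants, then `T (φ f) ∈ G ⇒ f ∈ G(φ)`;
* `S36NR_G_le_S18` : at level `M q`, `S36V_G A emF = S18_O A (M q)` (with `S36V_S18_le`);
* `S36NR_TA_eq`, `S36NR_TB_eq` : `Tr_α m = w_q (Tr_β (w₂ m))`, `Tr_β m = w_q (Tr_α (w₂ m))`;
* `S36NR_TA_mem_F` : `m ∈ FF ∩ ⋂_ζ FV_ζ ⇒ Tr_α m ∈ F`;
  `S36NR_TA_mem_V` : `m ∈ VV ⇒ Tr_α m ∈ V`;
  `S36NR_TB_mem_F` : `m ∈ FF ⇒ Tr_β m ∈ F`;
  `S36NR_TB_mem_V` : `m ∈ VV ∩ ⋂_ζ FV_ζ ⇒ Tr_β m ∈ V`;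
* `S36NR_TA_mem_lat`, `S36NR_TB_mem_lat` : `m ∈ FF ∩ ⋂_ζ FV_ζ ∩ VV ⇒ Tr_α m, Tr_β m ∈
  (S34DF_lat M q hq hqM A).O` (the two-valuation lattice `V₁ ∩ V₂` of TRACK 7).
-/

set_option autoImplicit false
set_option synthInstance.maxHeartbeats 400000
set_option maxHeartbeats 1000000
set_option linter.style.haveILetI false
set_option linter.unusedSectionVars false

open HahnSeries IntermediateField AlgebraicCurve ModularCurve

noncomputable section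

namespace Fermat.Agent.S36

open Fermat.Agent.S18 Fermat.Agent.S24 Fermat.Agent.S34 Fermat.Agent.S35 Fermat.Agent.S37
  Fermat.Agent.GalRep Fermat.Agent.Lib

/-! ### reflection -/

section Generic

variable {L : Type*} [Field L] [Algebra ℚ L] (A : ValuationSubring L)
variable {F : Type*} [Field F] (φ : F →+* LaurentSeries L)
variable (TL : LaurentSeries L →+* LaurentSeries L) (TA : LaurentSeries A →+* LaurentSeries A)
  (Tk : LaurentSeries (IsLocalRing.ResidueField A) →+*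
    LaurentSeries (IsLocalRing.ResidueField A))
  (hι : ∀ s, S18_ι A (TA s) = TL (S18_ι A s)) (hρ : ∀ s, S18_ρ A (TA s) = Tk (S18_ρ A s))
  (hC : ∀ c : L, TL (HahnSeries.C c) = HahnSeries.C c)

include hι hρ hC in
/-- **reflection**: `T (φ f) ∈ G ⇒ f ∈ G(φ)` when `φ` has the representation property. -/
theorem S36NR_reflect (hrep : S36V_Rep A φ) {f : F} (h : TL (φ f) ∈ S36NR_Gs A) :
    f ∈ S36V_G A φ := by
  by_cases hf : f = 0
  · rw [hf]
    exact zero_mem _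
  obtain ⟨c, hc, s₁, s₂, h1, h2, e⟩ := hrep f hf
  have e' : TL (φ f) * S18_ι A (TA s₂) = HahnSeries.C c * S18_ι A (TA s₁) := by
    rw [hι, hι, ← map_mul, e, map_mul, hC]
  have h1' : S18_ρ A (TA s₁) ≠ 0 := by
    rw [hρ]
    exact (map_ne_zero_iff Tk Tk.injective).2 h1
  have hs1 : S18_ι A (TA s₁) ≠ 0 := by
    intro h0
    apply h1'
    have : TA s₁ = 0 := S18_ι_injective A (by rw [h0, map_zero])
    rw [this, map_zero]
  have hCc : HahnSeries.C c = TL (φ f) * S18_ι A (TA s₂) * (S18_ι A (TA s₁))⁻¹ := by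
    rw [e', mul_assoc, mul_inv_cancel₀ hs1, mul_one]
  have hmem : algebraMap L (LaurentSeries L) c ∈ S36NR_Gs A := by
    rw [LaurentSeries.algebraMap_apply, hCc]
    exact mul_mem (mul_mem h (S36NR_ι_mem A _)) (S36NR_ι_inv_mem A h1')
  have hcA : c ∈ A := S36NR_const_mem A c hmem
  refine ⟨HahnSeries.C ⟨c, hcA⟩ * s₁, s₂, h2, ?_⟩
  rw [e, map_mul, S36V_ι_C]

include hι hρ hC in
/-- reflection, reduction: `Tk (red f) = rf (T (φ f))`. -/
theorem S36NR_reflect_red {f : F} (hf : f ∈ S36V_G A φ) :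
    Tk (S36V_Gred A φ ⟨f, hf⟩) = S36NR_rf A (TL (φ f)) := by
  rw [S36NR_Gred_eq A φ hf, S36NR_rf_post A TL TA Tk hι hρ ((S36NR_mem_G_iff A φ).1 hf)]

end Generic

local notation "ℚbar" => AlgebraicClosure ℚ

variable (M q : ℕ) [NeZero M] [NeZero q] (hq : q.Prime) (hqM : ¬ q ∣ M)
  (A : ValuationSubring ℚbar) (hA : A.LiesOverPrime q)

/-! ### reflection for `t ↦ t^q` and for twists -/

include hq hA in
/-- reflection along `t ↦ t^q` at level `M q`. -/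
theorem S36NR_reflect_psi {f : ↥(modularFunctionFieldBar (M * q))}
    (h : qExpand ℚbar q (f : LaurentSeries ℚbar) ∈ S36NR_Gs A) :
    f ∈ S36V_G A (S36V_emF M q) := by
  have hι : ∀ s, S18_ι A (qExpand A q s) = qExpand ℚbar q (S18_ι A s) :=
    fun s => ModularCurve.coeffMap_qExpand A.subtype q s
  have hρ : ∀ s, S18_ρ A (qExpand A q s) = qExpand _ q (S18_ρ A s) :=
    fun s => ModularCurve.coeffMap_qExpand (IsLocalRing.residue A) q s
  refine S36NR_reflect A (S36V_emF M q) (qExpand ℚbar q) (qExpand A q) (qExpand _ q) hι hρ ?_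
    (S36V_rep_emF M q hq A hA) h
  intro c
  exact ES_qExpand_C q c

/-- twists by `q`-th roots of unity preserve the Gauss ring. -/
theorem S36NR_zeta_tw_mem (ζ : ℚbarˣ) (hζ : ζ ^ q = 1) {x : LaurentSeries ℚbar}
    (hx : x ∈ S36NR_Gs A) : ES_tw ζ x ∈ S36NR_Gs A := by
  rw [← S36V_zetaA_map q A ζ hζ]
  exact S36NR_tw_mem A _ hx

/-- twists by `q`-th roots of unity do not change the reduction (residue characteristic `q`). -/
theorem S36NR_zeta_rf_tw [Fact q.Prime] [CharP (IsLocalRing.ResidueField A) q]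
    (ζ : ℚbarˣ) (hζ : ζ ^ q = 1) {x : LaurentSeries ℚbar}
    (hx : x ∈ S36NR_Gs A) : S36NR_rf A (ES_tw ζ x) = S36NR_rf A x := by
  rw [← S36V_zetaA_map q A ζ hζ]
  exact S36NR_rf_tw_one A _ (S36V_zetaA_res q A ζ hζ) hx

/-! ### `S36V_G A emF = S18_O A (M q)` -/

include hq hqM hA in
/-- at level `M q` the Gauss ring along `coe₁` is the Gauss ring `S18_O` of TRACK 7. -/
theorem S36NR_G_le_S18 {f : ↥(modularFunctionFieldBar (M * q))}
    (hf : f ∈ S36V_G A (S36V_emF M q)) : f ∈ S18_O A (M * q) := by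
  by_cases hf0 : f = 0
  · rw [hf0]
    exact zero_mem _
  obtain ⟨c, s₁, s₂, hc, h1, h2, hrep⟩ := S34VH_exists_rep M q hq hqM A hA f hf0
  have hcoe : (f : LaurentSeries ℚbar) * S18_ι A s₂.1 =
      algebraMap ℚbar (LaurentSeries ℚbar) c * S18_ι A s₁.1 :=
    congrArg (fun x : ↥(modularFunctionFieldBar (M * q)) => (x : LaurentSeries ℚbar)) hrep
  have h1' : S18_ρ A s₁.1 ≠ 0 := fun h => h1 (Subtype.ext h)
  have hs1 : S18_ι A s₁.1 ≠ 0 := by
    intro h0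
    apply h1'
    have : s₁.1 = 0 := S18_ι_injective A (by rw [h0, map_zero])
    rw [this, map_zero]
  have hCc : algebraMap ℚbar (LaurentSeries ℚbar) c =
      (f : LaurentSeries ℚbar) * S18_ι A s₂.1 * (S18_ι A s₁.1)⁻¹ := by
    rw [hcoe, mul_assoc, mul_inv_cancel₀ hs1, mul_one]
  have hmem : algebraMap ℚbar (LaurentSeries ℚbar) c ∈ S36NR_Gs A := by
    rw [hCc]
    exact mul_mem (mul_mem ((S36NR_mem_G_iff A (S36V_emF M q)).1 hf) (S36NR_ι_mem A _))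
      (S36NR_ι_inv_mem A h1')
  have hcA : c ∈ A := S36NR_const_mem A c hmem
  have hB2 : S18_Bι A (M * q) s₂ ≠ 0 := S18_Bι_ne_zero A (M * q) h2
  have hfeq : f = algebraMap ℚbar ↥(modularFunctionFieldBar (M * q)) c * S18_Bι A (M * q) s₁ *
      (S18_Bι A (M * q) s₂)⁻¹ := by
    rw [← hrep, mul_assoc, mul_inv_cancel₀ hB2, mul_one]
  rw [hfeq]
  refine mul_mem (mul_mem ((S18_algebraMap_mem_O_iff A (M * q) c).2 hcA)
    (S18_Bι_mem_O A (M * q) s₁)) ?_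
  exact S18_inv_mem_O A (M * q) (S18_Bι_mem_O A (M * q) s₂) (by rw [S18_red_Bι]; exact h2)

theorem S36NR_S18_le_G {f : ↥(modularFunctionFieldBar (M * q))}
    (hf : f ∈ S18_O A (M * q)) : f ∈ S36V_G A (S36V_emF M q) :=
  S36V_S18_le A (M * q) hf

/-! ### the traces and the involutions -/

/-- **`Tr_α m = w_q (Tr_β (w₂ m))`**. -/
theorem S36NR_TA_eq (m : ↥(modularFunctionFieldBar (M * q * q))) :
    S36NR_TA M q m
      = S34DF_wq M q hq hqM (S36NR_TB M q (S36V_w2 M q hq hqM m)) := by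
  have h := @Algebra.trace_eq_of_equiv_equiv ↥(modularFunctionFieldBar (M * q))
    ↥(modularFunctionFieldBar (M * q * q)) ↥(modularFunctionFieldBar (M * q))
    ↥(modularFunctionFieldBar (M * q * q)) _ _ _ _
    (heckeAlphaBar (AlgebraicClosure ℚ) (M * q) q).toRingHom.toAlgebra
    (heckeBetaBar (AlgebraicClosure ℚ) (M * q) q).toRingHom.toAlgebra
    ((S34DF_wq M q hq hqM).toRingEquiv) ((S36V_w2 M q hq hqM).toRingEquiv)
    (RingHom.ext fun a => (S36V_w2_alpha M q hq hqM a).symm) m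
  have h2 : S36NR_TA M q m
      = (S34DF_wq M q hq hqM).symm (S36NR_TB M q (S36V_w2 M q hq hqM m)) := h
  rw [h2, S36NR_wq_symm]

/-- **`Tr_β m = w_q (Tr_α (w₂ m))`**. -/
theorem S36NR_TB_eq (m : ↥(modularFunctionFieldBar (M * q * q))) :
    S36NR_TB M q m
      = S34DF_wq M q hq hqM (S36NR_TA M q (S36V_w2 M q hq hqM m)) := by
  rw [S36NR_TA_eq M q hq hqM, S36V_w2_w2, S34DF_wq_wq]

/-! ### membership in the five Gauss rings, series form -/

theorem S36NR_mem_FF_iff {m : ↥(modularFunctionFieldBar (M * q * q))} :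
    m ∈ S36V_G A (S36V_emFF M q) ↔ (m : LaurentSeries ℚbar) ∈ S36NR_Gs A := Iff.rfl

theorem S36NR_mem_F_iff {f : ↥(modularFunctionFieldBar (M * q))} :
    f ∈ S36V_G A (S36V_emF M q) ↔ (f : LaurentSeries ℚbar) ∈ S36NR_Gs A := Iff.rfl

theorem S36NR_mem_VV_iff {m : ↥(modularFunctionFieldBar (M * q * q))} :
    m ∈ S36V_G A (S36V_emVV M q hq hqM) ↔
      S36V_w2 M q hq hqM m ∈ S36V_G A (S36V_emFF M q) := Iff.rfl

theorem S36NR_mem_V_iff {f : ↥(modularFunctionFieldBar (M * q))} :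
    f ∈ S36V_G A (S36V_emV M q hq hqM) ↔
      S34DF_wq M q hq hqM f ∈ S36V_G A (S36V_emF M q) := Iff.rfl

theorem S36NR_mem_FV_iff (ζ : ℚbarˣ) (hζ : ζ ^ q = 1) (hζ1 : ζ ≠ 1)
    {m : ↥(modularFunctionFieldBar (M * q * q))} :
    m ∈ S36V_G A (S36V_emFV M q hq hqM ζ hζ hζ1) ↔
      S36V_iota M q hq hqM ζ hζ hζ1 m ∈ S36NR_Gs A := Iff.rfl

/-- `w₂` exchanges the middle Gauss rings `FV_ζ` and `FV_{ζ⁻¹}`. -/
theorem S36NR_w2_mem_FV (ζ : ℚbarˣ) (hζ : ζ ^ q = 1) (hζ1 : ζ ≠ 1)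
    {m : ↥(modularFunctionFieldBar (M * q * q))}
    (h : m ∈ S36V_G A (S36V_emFV M q hq hqM ζ⁻¹ (by rw [inv_pow, hζ, inv_one])
      (fun h => hζ1 (inv_eq_one.mp h)))) :
    S36V_w2 M q hq hqM m ∈ S36V_G A (S36V_emFV M q hq hqM ζ hζ hζ1) := by
  rw [S36NR_mem_FV_iff, S36NR_iota_w2]
  exact S36NR_zeta_tw_mem q A ζ hζ ((S36NR_mem_FV_iff M q hq hqM A _ _ _).1 h)

/-- inversion on the index set `Z`. -/
def S36NR_Zinv (ζ : S36NR_Z q) : S36NR_Z q :=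
  ⟨ζ.1⁻¹, by rw [inv_pow, ζ.2.1, inv_one], fun h => ζ.2.2 (inv_eq_one.mp h)⟩

theorem S36NR_Zinv_inv (ζ : S36NR_Z q) : S36NR_Zinv q (S36NR_Zinv q ζ) = ζ :=
  Subtype.ext (inv_inv _)

/-- inversion on `Z` as an equivalence. -/
def S36NR_ZinvEquiv : S36NR_Z q ≃ S36NR_Z q where
  toFun := S36NR_Zinv q
  invFun := S36NR_Zinv q
  left_inv := S36NR_Zinv_inv q
  right_inv := S36NR_Zinv_inv q

/-- if `m` lies in all middle Gauss rings, so does `w₂ m`. -/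
theorem S36NR_w2_mem_FV_all {m : ↥(modularFunctionFieldBar (M * q * q))}
    (h : ∀ ζ : S36NR_Z q, m ∈ S36V_G A (S36V_emFV M q hq hqM ζ.1 ζ.2.1 ζ.2.2))
    (ζ : S36NR_Z q) :
    S36V_w2 M q hq hqM m ∈ S36V_G A (S36V_emFV M q hq hqM ζ.1 ζ.2.1 ζ.2.2) :=
  S36NR_w2_mem_FV M q hq hqM A ζ.1 ζ.2.1 ζ.2.2 (h (S36NR_Zinv q ζ))

/-! ### integrality of the traces -/

/-- **`Tr_α` maps `FF ∩ ⋂ FV_ζ` into `F`.** -/
theorem S36NR_TA_mem_F {m : ↥(modularFunctionFieldBar (M * q * q))}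
    (h0 : m ∈ S36V_G A (S36V_emFF M q))
    (hζ : ∀ ζ : S36NR_Z q, m ∈ S36V_G A (S36V_emFV M q hq hqM ζ.1 ζ.2.1 ζ.2.2)) :
    S36NR_TA M q m ∈ S36V_G A (S36V_emF M q) := by
  rw [S36NR_mem_F_iff, S36NR_trace_alpha M q hq hqM m]
  exact add_mem h0 (S36NR_sum_mem A _ _ fun ζ _ => hζ ζ)

include hq in
/-- the trace along `β` of an `FF`-integral element, after `t ↦ t^q`. -/
theorem S36NR_TB_psi_mem {m : ↥(modularFunctionFieldBar (M * q * q))}
    (h0 : m ∈ S36V_G A (S36V_emFF M q)) :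
    qExpand ℚbar q ((S36NR_TB M q m : ↥(modularFunctionFieldBar (M * q))) :
      LaurentSeries ℚbar) ∈ S36NR_Gs A := by
  rw [S36NR_trace_beta M q hq m]
  exact S36NR_sum_mem A _ _ fun ζ _ => S36NR_zeta_tw_mem q A ζ.1 ζ.2 h0

include hq hA in
/-- **`Tr_β` maps `FF` into `F`.** -/
theorem S36NR_TB_mem_F {m : ↥(modularFunctionFieldBar (M * q * q))}
    (h0 : m ∈ S36V_G A (S36V_emFF M q)) :
    S36NR_TB M q m ∈ S36V_G A (S36V_emF M q) :=
  S36NR_reflect_psi M q hq A hA (S36NR_TB_psi_mem M q hq A h0)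

include hA in
/-- **`Tr_α` maps `VV` into `V`.** -/
theorem S36NR_TA_mem_V {m : ↥(modularFunctionFieldBar (M * q * q))}
    (h : m ∈ S36V_G A (S36V_emVV M q hq hqM)) :
    S36NR_TA M q m ∈ S36V_G A (S36V_emV M q hq hqM) := by
  rw [S36NR_mem_V_iff, S36NR_TA_eq M q hq hqM, S34DF_wq_wq]
  exact S36NR_TB_mem_F M q hq A hA ((S36NR_mem_VV_iff M q hq hqM A).1 h)

/-- **`Tr_β` maps `VV ∩ ⋂ FV_ζ` into `V`.** -/
theorem S36NR_TB_mem_V {m : ↥(modularFunctionFieldBar (M * q * q))}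
    (h : m ∈ S36V_G A (S36V_emVV M q hq hqM))
    (hζ : ∀ ζ : S36NR_Z q, m ∈ S36V_G A (S36V_emFV M q hq hqM ζ.1 ζ.2.1 ζ.2.2)) :
    S36NR_TB M q m ∈ S36V_G A (S36V_emV M q hq hqM) := by
  rw [S36NR_mem_V_iff, S36NR_TB_eq M q hq hqM, S34DF_wq_wq]
  exact S36NR_TA_mem_F M q hq hqM A ((S36NR_mem_VV_iff M q hq hqM A).1 h)
    (S36NR_w2_mem_FV_all M q hq hqM A hζ)

include hA in
/-- **(P1) of FIN**: `Tr_α` maps `FF ∩ ⋂ FV_ζ ∩ VV` into the two-valuation lattice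
`V₁ ∩ V₂` of level `M q`. -/
theorem S36NR_TA_mem_lat {m : ↥(modularFunctionFieldBar (M * q * q))}
    (h0 : m ∈ S36V_G A (S36V_emFF M q))
    (hζ : ∀ ζ : S36NR_Z q, m ∈ S36V_G A (S36V_emFV M q hq hqM ζ.1 ζ.2.1 ζ.2.2))
    (h2 : m ∈ S36V_G A (S36V_emVV M q hq hqM)) :
    S36NR_TA M q m ∈ (S34DF_lat M q hq hqM A).O :=
  (S34DF_mem_lat_O M q hq hqM A).2
    ⟨S36NR_G_le_S18 M q hq hqM A hA (S36NR_TA_mem_F M q hq hqM A h0 hζ),
      S36NR_G_le_S18 M q hq hqM A hA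
        ((S36NR_mem_V_iff M q hq hqM A).1 (S36NR_TA_mem_V M q hq hqM A hA h2))⟩

include hA in
/-- `Tr_β` maps `FF ∩ ⋂ FV_ζ ∩ VV` into the two-valuation lattice of level `M q`. -/
theorem S36NR_TB_mem_lat {m : ↥(modularFunctionFieldBar (M * q * q))}
    (h0 : m ∈ S36V_G A (S36V_emFF M q))
    (hζ : ∀ ζ : S36NR_Z q, m ∈ S36V_G A (S36V_emFV M q hq hqM ζ.1 ζ.2.1 ζ.2.2))
    (h2 : m ∈ S36V_G A (S36V_emVV M q hq hqM)) :
    S36NR_TB M q m ∈ (S34DF_lat M q hq hqM A).O :=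
  (S34DF_mem_lat_O M q hq hqM A).2
    ⟨S36NR_G_le_S18 M q hq hqM A hA (S36NR_TB_mem_F M q hq A hA h0),
      S36NR_G_le_S18 M q hq hqM A hA
        ((S36NR_mem_V_iff M q hq hqM A).1 (S36NR_TB_mem_V M q hq hqM A h2 hζ))⟩

end Fermat.Agent.S36
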