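import Fermat.Agent.S36.DescWInst
import Fermat.Agent.S36.Val3VS
import Fermat.Agent.S34.SatBridge

/-!
# TRACK 10 (S36), package DESC-W-INST (helper26), part 2: Gauss-ring form and chart rings
— prefix `S36DW_`

Level `M q`, `A ⊂ ℚ̄` over `q`, `I` its inertia group, `G_F = S36V_G A emF`, `G_V = S36V_G A emV`
the two Gauss rings of `F = modularFunctionFieldBar (M q)` with reductions `S36V_Gred`.

* `S36DW_Gred_eq` : elements which differ by an element of the maximal ideal have the same `Gred`;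
* `S36DW_levG`    : `V` spanned by its `I`-fixed elements, `f ∈ V ∩ G_F ∩ G_V` ⇒ there is an
  `I`-fixed `g ∈ V ∩ G_F ∩ G_V` with `Gred_F g = Gred_F f`, `Gred_V g = Gred_V f`;
* `S36DW_levGD`   : the same for `V = L(D)`, `D` an `I`-stable divisor;
* `S36DW_regZ_le`, `S36DW_exists_b` : `regZ (x - c) = ⋃_b L(b (x - c)₀)`;
  `S36DW_reg_le`, `S36DW_exists_a`  : `reg x = ⋃_a L(a (x)_∞)`;
* **`S36DW_levZ`** : chart `U' = {x ≠ c}`: `s` regular off the zeros of `x - c`, Gauss-integral at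
  `F` and `V` ⇒ there is an `I`-fixed `g` with the same properties and the same reductions;
* **`S36DW_levU`** : chart `U = {x ≠ ∞}`: the same for `s` regular off the poles of `x`.
-/

set_option autoImplicit false
set_option synthInstance.maxHeartbeats 400000
set_option maxHeartbeats 1000000
set_option linter.style.haveILetI false
set_option linter.unusedSectionVars false
set_option linter.unusedVariables false

open HahnSeries IntermediateField AlgebraicCurve ModularCurve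

noncomputable section

namespace Fermat.Agent.S36

open Fermat.Agent.S18 Fermat.Agent.S24 Fermat.Agent.S34 Fermat.Agent.S37 Fermat.Agent.GalRep
  Fermat.Agent.Lib Fermat.Agent.S17

local notation "Ω" => AlgebraicClosure ℚ

/-! ### the reduction of the Gauss ring -/

section gred

variable (A : ValuationSubring Ω) {F : Type*} [Field F] (φ : F →+* LaurentSeries Ω)
  (O : ValuationSubring F) (hO : ∀ f, f ∈ O ↔ f ∈ S36V_G A φ)

include hO in
/-- elements which differ by an element of the maximal ideal have the same reduction. -/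
theorem S36DW_Gred_eq {f g : F} (hf : f ∈ S36V_G A φ) (hg : g ∈ S36V_G A φ)
    (h : f - g ∈ O.nonunits) :
    S36V_Gred A φ ⟨g, hg⟩ = S36V_Gred A φ ⟨f, hf⟩ := by
  have hfg : f - g ∈ S36V_G A φ := sub_mem hf hg
  have h0 : S36V_Gred A φ ⟨f - g, hfg⟩ = 0 := by
    by_contra hne
    have hinv := S36V_G_inv_mem A φ hfg hne
    have h1 : O.valuation (f - g)⁻¹ ≤ 1 := (O.valuation_le_one_iff _).2 ((hO _).2 hinv)
    have h2 : O.valuation (f - g) < 1 := (ValuationSubring.mem_nonunits_iff O).mp h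
    have hne0 : f - g ≠ 0 := by
      intro h3
      apply hne
      have : (⟨f - g, hfg⟩ : S36V_G A φ) = 0 := Subtype.ext h3
      rw [this, map_zero]
    have hv0 : O.valuation (f - g) ≠ 0 := (Valuation.ne_zero_iff _).2 hne0
    rw [map_inv₀] at h1
    have h3 : 1 ≤ O.valuation (f - g) := (inv_le_one₀ (zero_lt_iff.2 hv0)).1 h1
    exact absurd h2 (not_lt.2 h3)
  have h1 : (⟨f - g, hfg⟩ : S36V_G A φ) = ⟨f, hf⟩ - ⟨g, hg⟩ := rfl
  rw [h1, map_sub, sub_eq_zero] at h0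
  exact h0.symm

end gred

/-! ### the grid and the chart rings -/

section grid

variable {K F : Type*} [Field K] [Field F] [Algebra K F] (hP : HasPrincipalDivisors K F)

/-- `L(b (x - c)₀)` consists of functions regular off the zeros of `x - c`. -/
theorem S36DW_regZ_le (x : F) (c : K) (b : ℕ) {f : F}
    (hf : f ∈ riemannRochSpace (S34P_E hP x (x - algebraMap K F c) 0 b)) :
    f ∈ S34SB_regZ K (x - algebraMap K F c) := by
  rcases eq_or_ne f 0 with rfl | hf0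
  · exact zero_mem _
  unfold S34SB_regZ
  rw [S34SB_mem_regOff_iff hf0]
  intro v hv
  rw [S34SB_mem_zeros, not_lt] at hv
  have h1 := (S17RS_mem_iff_ord hf0).1 hf v
  rcases S34P_E_apply_sub hP x c 0 b v with ⟨_, e⟩ | ⟨_, h2, e⟩
  · rw [e] at h1
    simp only [Nat.cast_zero, zero_mul, neg_zero] at h1
    exact h1
  · have h3 : v.ord (x - algebraMap K F c) = 0 := le_antisymm hv h2
    rw [e, h3, mul_zero, neg_zero] at h1
    exact h1

/-- `L(a (x)_∞)` consists of functions regular off the poles of `x`. -/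
theorem S36DW_reg_le (x : F) (c : K) (a : ℕ) {f : F}
    (hf : f ∈ riemannRochSpace (S34P_E hP x (x - algebraMap K F c) a 0)) :
    f ∈ S34SB_reg K x := by
  rcases eq_or_ne f 0 with rfl | hf0
  · exact zero_mem _
  rw [S34SB_mem_reg_iff hf0]
  intro v hv
  have h1 := (S17RS_mem_iff_ord hf0).1 hf v
  rcases S34P_E_apply_sub hP x c a 0 v with ⟨h, _⟩ | ⟨_, _, e⟩
  · omega
  · rw [e] at h1
    simp only [Nat.cast_zero, zero_mul, neg_zero] at h1
    exact h1

include hP in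
/-- a bound for the pole orders of a nonzero function. -/
theorem S36DW_ord_bound {s : F} (hs0 : s ≠ 0) :
    ∃ N : ℕ, ∀ v : Place K F, -(N : ℤ) ≤ v.ord s := by
  classical
  set T : Divisor K F := RR_div hP s with hT
  refine ⟨∑ v ∈ T.support, (T v).natAbs, fun v => ?_⟩
  have hTv : T v = v.ord s := RR_div_apply hP s v
  by_cases hv : v ∈ T.support
  · have h1 : (T v).natAbs ≤ ∑ w ∈ T.support, (T w).natAbs :=
      Finset.single_le_sum (f := fun w => (T w).natAbs) (fun _ _ => Nat.zero_le _) hv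
    have h3 : ((T v).natAbs : ℤ) ≤ ((∑ w ∈ T.support, (T w).natAbs : ℕ) : ℤ) := by
      exact_mod_cast h1
    rw [← hTv]
    omega
  · have h0 : T v = 0 := Finsupp.notMem_support_iff.1 hv
    rw [← hTv, h0]
    have : (0 : ℤ) ≤ ((∑ w ∈ T.support, (T w).natAbs : ℕ) : ℤ) := Int.natCast_nonneg _
    omega

/-- a function regular off the zeros of `x - c` lies in some `L(b (x - c)₀)`. -/
theorem S36DW_exists_b (x : F) (c : K) {s : F} (hs : s ∈ S34SB_regZ K (x - algebraMap K F c)) :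
    ∃ b : ℕ, s ∈ riemannRochSpace (S34P_E hP x (x - algebraMap K F c) 0 b) := by
  rcases eq_or_ne s 0 with rfl | hs0
  · exact ⟨0, Submodule.zero_mem _⟩
  obtain ⟨N, hN⟩ := S36DW_ord_bound hP hs0
  refine ⟨N, (S17RS_mem_iff_ord hs0).2 fun v => ?_⟩
  unfold S34SB_regZ at hs
  rw [S34SB_mem_regOff_iff hs0] at hs
  rcases S34P_E_apply_sub hP x c 0 N v with ⟨h, e⟩ | ⟨_, h2, e⟩
  · rw [e]
    simp only [Nat.cast_zero, zero_mul, neg_zero]
    apply hs v
    rw [S34SB_mem_zeros, not_lt, LC_ord_sub_const_of_neg v h c]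
    omega
  · rw [e]
    rcases eq_or_lt_of_le h2 with h3 | h3
    · rw [← h3, mul_zero, neg_zero]
      apply hs v
      rw [S34SB_mem_zeros, not_lt, ← h3]
    · have h4 := hN v
      have h5 : (0 : ℤ) ≤ N := Int.natCast_nonneg _
      nlinarith

/-- a function regular off the poles of `x` lies in some `L(a (x)_∞)`. -/
theorem S36DW_exists_a (x : F) (c : K) {s : F} (hs : s ∈ S34SB_reg K x) :
    ∃ a : ℕ, s ∈ riemannRochSpace (S34P_E hP x (x - algebraMap K F c) a 0) := by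
  rcases eq_or_ne s 0 with rfl | hs0
  · exact ⟨0, Submodule.zero_mem _⟩
  obtain ⟨N, hN⟩ := S36DW_ord_bound hP hs0
  refine ⟨N, (S17RS_mem_iff_ord hs0).2 fun v => ?_⟩
  rw [S34SB_mem_reg_iff hs0] at hs
  rcases S34P_E_apply_sub hP x c N 0 v with ⟨h, e⟩ | ⟨h, _, e⟩
  · rw [e]
    have h4 := hN v
    have h5 : (0 : ℤ) ≤ N := Int.natCast_nonneg _
    nlinarith
  · rw [e]
    simp only [Nat.cast_zero, zero_mul, neg_zero]
    exact hs v h

end grid

/-! ### level `M q`, Gauss-ring form -/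

section lev

variable (M q : ℕ) [NeZero M] [NeZero q] (hq : q.Prime) (hqM : ¬ q ∣ M)
  (A : ValuationSubring Ω) (hA : A.LiesOverPrime q)

include hA in
/-- **DESC-W-INST, Gauss-ring form**: `V` spanned by its `I`-fixed elements;
every `f ∈ V ∩ G_F ∩ G_V` has the same reductions as an `I`-fixed `g ∈ V ∩ G_F ∩ G_V`. -/
theorem S36DW_levG (V : Submodule Ω ↥(modularFunctionFieldBar (M * q)))
    (hV : V ≤ Submodule.span Ω
      {w | w ∈ V ∧ ∀ τ ∈ A.inertiaSubgroupIn ℚ, GR_gal (M * q) τ w = w})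
    (f : ↥(modularFunctionFieldBar (M * q))) (hf : f ∈ V)
    (hf₁ : f ∈ S36V_G A (S36V_emF M q)) (hf₂ : f ∈ S36V_G A (S36V_emV M q hq hqM)) :
    ∃ g : ↥(modularFunctionFieldBar (M * q)), g ∈ V ∧
      (∀ τ ∈ A.inertiaSubgroupIn ℚ, GR_gal (M * q) τ g = g) ∧
      ∃ (hg₁ : g ∈ S36V_G A (S36V_emF M q)) (hg₂ : g ∈ S36V_G A (S36V_emV M q hq hqM)),
        S36V_Gred A (S36V_emF M q) ⟨g, hg₁⟩ = S36V_Gred A (S36V_emF M q) ⟨f, hf₁⟩ ∧
        S36V_Gred A (S36V_emV M q hq hqM) ⟨g, hg₂⟩ =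
          S36V_Gred A (S36V_emV M q hq hqM) ⟨f, hf₂⟩ := by
  obtain ⟨g, hgV, hgfix, hg₁, hg₂, hd₁, hd₂⟩ :=
    S36DW_levV M q hq hqM A hA (S36V_OF M q hq A hA) (S36V_OV M q hq hqM A hA)
      (fun _ => Iff.rfl) (fun _ => Iff.rfl) V hV f hf hf₁ hf₂
  exact ⟨g, hgV, hgfix, hg₁, hg₂,
    S36DW_Gred_eq A (S36V_emF M q) (S36V_OF M q hq A hA) (fun _ => Iff.rfl) hf₁ hg₁ hd₁,
    S36DW_Gred_eq A (S36V_emV M q hq hqM) (S36V_OV M q hq hqM A hA) (fun _ => Iff.rfl) hf₂ hg₂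
      hd₂⟩

include hA in
/-- **DESC-W-INST, Gauss-ring form, for `L(D)`**, `D` an `I`-stable divisor. -/
theorem S36DW_levGD (D : Divisor Ω ↥(modularFunctionFieldBar (M * q)))
    (hD : ∀ τ ∈ A.inertiaSubgroupIn ℚ, ∀ v,
      D (arithmeticGalois (modularFunctionFieldFull (M * q)) τ • v) = D v)
    (f : ↥(modularFunctionFieldBar (M * q))) (hf : f ∈ riemannRochSpace D)
    (hf₁ : f ∈ S36V_G A (S36V_emF M q)) (hf₂ : f ∈ S36V_G A (S36V_emV M q hq hqM)) :
    ∃ g : ↥(modularFunctionFieldBar (M * q)), g ∈ riemannRochSpace D ∧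
      (∀ τ ∈ A.inertiaSubgroupIn ℚ, GR_gal (M * q) τ g = g) ∧
      ∃ (hg₁ : g ∈ S36V_G A (S36V_emF M q)) (hg₂ : g ∈ S36V_G A (S36V_emV M q hq hqM)),
        S36V_Gred A (S36V_emF M q) ⟨g, hg₁⟩ = S36V_Gred A (S36V_emF M q) ⟨f, hf₁⟩ ∧
        S36V_Gred A (S36V_emV M q hq hqM) ⟨g, hg₂⟩ =
          S36V_Gred A (S36V_emV M q hq hqM) ⟨f, hf₂⟩ := by
  refine S36DW_levG M q hq hqM A hA (riemannRochSpace D) ?_ f hf hf₁ hf₂
  refine le_trans (S36SH_rr_span (M * q) (A.inertiaSubgroupIn ℚ : Set (Ω ≃ₐ[ℚ] Ω)) D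
    (fun τ hτ v => hD τ hτ v)) (Submodule.span_mono ?_)
  rintro w ⟨hw1, hw2⟩
  exact ⟨hw1, fun τ hτ => hw2 ⟨τ, hτ⟩⟩

/-- `x - c` is `I`-fixed if `x` and `c` are. -/
theorem S36DW_sub_fixed (N : ℕ) (τ : Ω ≃ₐ[ℚ] Ω) {x : ↥(modularFunctionFieldBar N)}
    (hx : GR_gal N τ x = x) {c : Ω} (hc : τ c = c) :
    GR_gal N τ (x - algebraMap Ω ↥(modularFunctionFieldBar N) c) =
      x - algebraMap Ω ↥(modularFunctionFieldBar N) c := by
  rw [map_sub, hx]
  congr 1
  have h := arithmeticRingAut_algebraMap (modularFunctionFieldFull N) τ c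
  rw [hc] at h
  exact h

include hA in
/-- **DESC-W-INST on the chart `U' = {x ≠ c}`** (`x`, `c` fixed by `I`): a function regular off
the zeros of `x - c` and Gauss-integral at `F` and `V` has the same reductions as an `I`-FIXED
function with the same properties. -/
theorem S36DW_levZ (x : ↥(modularFunctionFieldBar (M * q)))
    (hx : ∀ τ ∈ A.inertiaSubgroupIn ℚ, GR_gal (M * q) τ x = x)
    (c : Ω) (hc : ∀ τ ∈ A.inertiaSubgroupIn ℚ, τ c = c)
    (s : ↥(modularFunctionFieldBar (M * q)))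
    (hs : s ∈ S34SB_regZ Ω (x - algebraMap Ω ↥(modularFunctionFieldBar (M * q)) c))
    (hs₁ : s ∈ S36V_G A (S36V_emF M q)) (hs₂ : s ∈ S36V_G A (S36V_emV M q hq hqM)) :
    ∃ g : ↥(modularFunctionFieldBar (M * q)),
      g ∈ S34SB_regZ Ω (x - algebraMap Ω ↥(modularFunctionFieldBar (M * q)) c) ∧
      (∀ τ ∈ A.inertiaSubgroupIn ℚ, GR_gal (M * q) τ g = g) ∧
      ∃ (hg₁ : g ∈ S36V_G A (S36V_emF M q)) (hg₂ : g ∈ S36V_G A (S36V_emV M q hq hqM)),
        S36V_Gred A (S36V_emF M q) ⟨g, hg₁⟩ = S36V_Gred A (S36V_emF M q) ⟨s, hs₁⟩ ∧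
        S36V_Gred A (S36V_emV M q hq hqM) ⟨g, hg₂⟩ =
          S36V_Gred A (S36V_emV M q hq hqM) ⟨s, hs₂⟩ := by
  have hP := (S36LD_hRR (M * q)).principal
  obtain ⟨b, hb⟩ := S36DW_exists_b hP x c hs
  obtain ⟨g, hgV, hgfix, hg⟩ := S36DW_levGD M q hq hqM A hA _
    (fun τ hτ v => S36DW_E_stable (M * q) hP x _ 0 b τ (hx τ hτ)
      (S36DW_sub_fixed (M * q) τ (hx τ hτ) (hc τ hτ)) v) s hb hs₁ hs₂
  exact ⟨g, S36DW_regZ_le hP x c b hgV, hgfix, hg⟩

include hA in
/-- **DESC-W-INST on the chart `U = {x ≠ ∞}`** (`x` fixed by `I`): a function regular off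
the poles of `x` and Gauss-integral at `F` and `V` has the same reductions as an `I`-FIXED
function with the same properties. -/
theorem S36DW_levU (x : ↥(modularFunctionFieldBar (M * q)))
    (hx : ∀ τ ∈ A.inertiaSubgroupIn ℚ, GR_gal (M * q) τ x = x)
    (s : ↥(modularFunctionFieldBar (M * q)))
    (hs : s ∈ S34SB_reg Ω x)
    (hs₁ : s ∈ S36V_G A (S36V_emF M q)) (hs₂ : s ∈ S36V_G A (S36V_emV M q hq hqM)) :
    ∃ g : ↥(modularFunctionFieldBar (M * q)), g ∈ S34SB_reg Ω x ∧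
      (∀ τ ∈ A.inertiaSubgroupIn ℚ, GR_gal (M * q) τ g = g) ∧
      ∃ (hg₁ : g ∈ S36V_G A (S36V_emF M q)) (hg₂ : g ∈ S36V_G A (S36V_emV M q hq hqM)),
        S36V_Gred A (S36V_emF M q) ⟨g, hg₁⟩ = S36V_Gred A (S36V_emF M q) ⟨s, hs₁⟩ ∧
        S36V_Gred A (S36V_emV M q hq hqM) ⟨g, hg₂⟩ =
          S36V_Gred A (S36V_emV M q hq hqM) ⟨s, hs₂⟩ := by
  have hP := (S36LD_hRR (M * q)).principal
  obtain ⟨a, ha⟩ := S36DW_exists_a hP x (0 : Ω) hs
  obtain ⟨g, hgV, hgfix, hg⟩ := S36DW_levGD M q hq hqM A hA _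
    (fun τ hτ v => S36DW_E_stable (M * q) hP x _ a 0 τ (hx τ hτ)
      (S36DW_sub_fixed (M * q) τ (hx τ hτ) (map_zero τ)) v) s ha hs₁ hs₂
  exact ⟨g, S36DW_reg_le hP x (0 : Ω) a hgV, hgfix, hg⟩

end lev

end Fermat.Agent.S36
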