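import Mathlib
import Fermat.Agent.S34.RedNorm
import Fermat.Agent.S37.FinrankAlpha

/-!
# TRACK 10 (S36), package OP-NORM (helper18): the operator identities of the two degeneracy
maps `X₀(M q²) ⇉ X₀(M q)`, in function-field (norm) form

Levels `M` (`q ∤ M`, `q` prime), `N₁ = M * q`, `N₂ = M * q * q`.

* `α₁ = heckeAlphaBar ℚ̄ M q`, `β₁ = heckeBetaBar ℚ̄ M q : F_M → F_{N₁}`,
* `α₂ = heckeAlphaBar ℚ̄ (M * q) q`, `β₂ = heckeBetaBar ℚ̄ (M * q) q : F_{N₁} → F_{N₂}`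
  (`p₁^* = α₂`, `p₂^* = β₂`, `p₁⁎ = N_{α₂}`, `p₂⁎ = N_{β₂}` on Kummer generators),
* `w = S34WJ_wq hq hqM` the Atkin–Lehner involution of `F_{N₁}`, `θ_N = GRHF_theta N` (Fricke),
* norms `S34NK_normAlpha`, `S34NK_normBeta` (TRACK 7).

Results:

* `S36ON_alpha_beta`       (O0): `α₂ (β₁ g) = β₂ (α₁ g)`;
* `S36ON_normAlpha_alpha`, `S36ON_normBeta_beta` (O1): `N_{α₂}(α₂ f) = f ^ q = N_{β₂}(β₂ f)`;
* `S36ON_normAlpha_theta`  : `N_α x = θ_N (N_β (θ_{Nℓ} x))` (all levels);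
* `S36ON_theta_wq`         : `θ_{N₁} (w f) = w (θ_{N₁} f)`;
* `S36ON_normBeta_alpha`   (O2): `N_{β₂}(α₂ f) * w f = α₁ (N_{β₁} f)`;
* `S36ON_normAlpha_beta`   (O2'): `N_{α₂}(β₂ f) * w f = β₁ (N_{α₁} f)`.

In class form (`p₁⁎ p₁^* = p₂⁎ p₂^* = q`, `p₂⁎ p₁^* = α₁^* β₁⁎ − w`, `p₁⁎ p₂^* = β₁^* α₁⁎ − w`):
on `K'₁ = ker α₁⁎ ∩ ker β₁⁎` the matrix of `(p₁⁎, p₂⁎) ∘ (p₁^* + p₂^*)` is `[[q, −w], [−w, q]]`,
of determinant `q² − 1`.
-/

set_option autoImplicit false
set_option synthInstance.maxHeartbeats 400000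
set_option maxHeartbeats 1000000
set_option linter.unusedSectionVars false
set_option linter.style.haveILetI false

open HahnSeries IntermediateField AlgebraicCurve ModularCurve

noncomputable section

namespace Fermat.Agent.S36

open Fermat.Agent.S34 Fermat.Agent.S24 Fermat.Agent.GalRep Fermat.Agent.S37

section general

variable (N ℓ : ℕ) [NeZero N] [NeZero ℓ]

/-- (O0) `α' ∘ β = β' ∘ α` for the degeneracy maps `F_N → F_{Nℓ} → F_{Nℓℓ}`. -/
theorem S36ON_alpha_beta (g : ↥(modularFunctionFieldBar N)) :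
    heckeAlphaBar (AlgebraicClosure ℚ) (N * ℓ) ℓ (heckeBetaBar (AlgebraicClosure ℚ) N ℓ g) =
      heckeBetaBar (AlgebraicClosure ℚ) (N * ℓ) ℓ (heckeAlphaBar (AlgebraicClosure ℚ) N ℓ g) := by
  apply Subtype.ext
  rw [coe_heckeAlphaBar, coe_heckeBetaBar, coe_heckeBetaBar, coe_heckeAlphaBar]

/-- `N_α (α g) = g ^ [F_{Nℓ} : F_N]`. -/
theorem S36ON_normAlpha_alpha' (hℓ : ℓ.Prime) (g : ↥(modularFunctionFieldBar N)) :
    S34NK_normAlpha N ℓ (heckeAlphaBar (AlgebraicClosure ℚ) N ℓ g) =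
      g ^ (if ℓ ∣ N then ℓ else ℓ + 1) := by
  letI := algebraAlong (heckeAlphaBar (AlgebraicClosure ℚ) N ℓ)
  have h := Algebra.norm_algebraMap (S := ↥(modularFunctionFieldBar (N * ℓ))) g
  rw [S37P_finrank_alpha' N ℓ hℓ] at h
  exact h

/-- `N_β (β g) = g ^ [F_{Nℓ} : β F_N]`. -/
theorem S36ON_normBeta_beta' (hℓ : ℓ.Prime) (g : ↥(modularFunctionFieldBar N)) :
    S34NK_normBeta N ℓ (heckeBetaBar (AlgebraicClosure ℚ) N ℓ g) =
      g ^ (if ℓ ∣ N then ℓ else ℓ + 1) := by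
  letI := algebraAlong (heckeBetaBar (AlgebraicClosure ℚ) N ℓ)
  have h := Algebra.norm_algebraMap (S := ↥(modularFunctionFieldBar (N * ℓ))) g
  rw [GRHF_finrank_beta N ℓ hℓ] at h
  exact h

/-- the norm along `α` is conjugate to the norm along `β` by the Fricke involutions. -/
theorem S36ON_normAlpha_theta (x : ↥(modularFunctionFieldBar (N * ℓ))) :
    S34NK_normAlpha N ℓ x = GRHF_theta N (S34NK_normBeta N ℓ (GRHF_theta (N * ℓ) x)) := by
  have h := @Algebra.norm_eq_of_equiv_equiv ↥(modularFunctionFieldBar N)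
    ↥(modularFunctionFieldBar (N * ℓ)) ↥(modularFunctionFieldBar N)
    ↥(modularFunctionFieldBar (N * ℓ)) _ _ _ _
    (heckeAlphaBar (AlgebraicClosure ℚ) N ℓ).toRingHom.toAlgebra
    (heckeBetaBar (AlgebraicClosure ℚ) N ℓ).toRingHom.toAlgebra
    (GRHF_theta N : ↥(modularFunctionFieldBar N) ≃+* ↥(modularFunctionFieldBar N))
    (GRHF_theta (N * ℓ) : ↥(modularFunctionFieldBar (N * ℓ)) ≃+*
      ↥(modularFunctionFieldBar (N * ℓ)))
    (RingHom.ext fun a => (GRHF_theta_alpha N ℓ a).symm) x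
  have hsymm : ∀ z : ↥(modularFunctionFieldBar N),
      (GRHF_theta N : ↥(modularFunctionFieldBar N) ≃+* ↥(modularFunctionFieldBar N)).symm z =
        GRHF_theta N z := by
    intro z
    rw [RingEquiv.symm_apply_eq]
    exact (GRHF_theta_theta N z).symm
  rw [hsymm] at h
  exact h

/-- the norm along `β` is conjugate to the norm along `α` by the Fricke involutions. -/
theorem S36ON_normBeta_theta (x : ↥(modularFunctionFieldBar (N * ℓ))) :
    S34NK_normBeta N ℓ x = GRHF_theta N (S34NK_normAlpha N ℓ (GRHF_theta (N * ℓ) x)) := by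
  rw [S36ON_normAlpha_theta, GRHF_theta_theta, GRHF_theta_theta]

end general

variable (M q : ℕ) [NeZero M] [NeZero q]

/-- (O1) `N_{α₂} (α₂ f) = f ^ q`. -/
theorem S36ON_normAlpha_alpha (hq : q.Prime) (f : ↥(modularFunctionFieldBar (M * q))) :
    S34NK_normAlpha (M * q) q (heckeAlphaBar (AlgebraicClosure ℚ) (M * q) q f) = f ^ q := by
  rw [S36ON_normAlpha_alpha' (M * q) q hq f, if_pos (Dvd.intro_left M rfl)]

/-- (O1) `N_{β₂} (β₂ f) = f ^ q`. -/
theorem S36ON_normBeta_beta (hq : q.Prime) (f : ↥(modularFunctionFieldBar (M * q))) :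
    S34NK_normBeta (M * q) q (heckeBetaBar (AlgebraicClosure ℚ) (M * q) q f) = f ^ q := by
  rw [S36ON_normBeta_beta' (M * q) q hq f, if_pos (Dvd.intro_left M rfl)]

/-- `N_{α₁} (α₁ g) = g ^ (q + 1)` (`q ∤ M`). -/
theorem S36ON_normAlpha_alpha_one (hq : q.Prime) (hqM : ¬ q ∣ M)
    (g : ↥(modularFunctionFieldBar M)) :
    S34NK_normAlpha M q (heckeAlphaBar (AlgebraicClosure ℚ) M q g) = g ^ (q + 1) := by
  rw [S36ON_normAlpha_alpha' M q hq g, if_neg hqM]

/-- `N_{β₁} (β₁ g) = g ^ (q + 1)` (`q ∤ M`). -/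
theorem S36ON_normBeta_beta_one (hq : q.Prime) (hqM : ¬ q ∣ M)
    (g : ↥(modularFunctionFieldBar M)) :
    S34NK_normBeta M q (heckeBetaBar (AlgebraicClosure ℚ) M q g) = g ^ (q + 1) := by
  rw [S36ON_normBeta_beta' M q hq g, if_neg hqM]

variable (hq : q.Prime) (hqM : ¬ q ∣ M)

/-- (O2) `N_{β₂} (α₂ f) · w f = α₁ (N_{β₁} f)`. -/
theorem S36ON_normBeta_alpha (f : ↥(modularFunctionFieldBar (M * q))) :
    S34NK_normBeta (M * q) q (heckeAlphaBar (AlgebraicClosure ℚ) (M * q) q f) *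
        S34WJ_wq hq hqM f =
      heckeAlphaBar (AlgebraicClosure ℚ) M q (S34NK_normBeta M q f) := by
  obtain ⟨y, w, h⟩ := GRHP_exists_yw hq hqM
  obtain ⟨ζ₀, hζ₀⟩ := HasEnoughRootsOfUnity.exists_primitiveRoot (AlgebraicClosure ℚ) q
  set ζ : (AlgebraicClosure ℚ)ˣ := (hζ₀.isUnit (NeZero.ne q)).unit with hζdef
  have hζ : IsPrimitiveRoot (ζ : AlgebraicClosure ℚ) q := by
    rw [hζdef, IsUnit.unit_spec]; exact hζ₀
  apply (heckeBetaBar (AlgebraicClosure ℚ) (M * q) q).toRingHom.injective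
  apply Subtype.ext
  have h1 := GRHS_norm_U (N := M * q) (ℓ := q) ζ hζ hq (Dvd.intro_left M rfl)
    (heckeAlphaBar (AlgebraicClosure ℚ) (M * q) q f)
  have h2 := GRHS_norm_T (N := M) (ℓ := q) ζ hζ y w h hq hqM f
  have h3 := S34NK_qExpand_wq M q hq hqM y w h f
  have e1 := congrArg (fun z : ↥(modularFunctionFieldBar (M * q * q)) =>
    (z : LaurentSeries (AlgebraicClosure ℚ)))
    (S34NK_beta_normBeta (M * q) q (heckeAlphaBar (AlgebraicClosure ℚ) (M * q) q f))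
  have e2 := congrArg (fun z : ↥(modularFunctionFieldBar (M * q)) =>
    (z : LaurentSeries (AlgebraicClosure ℚ))) (S34NK_beta_normBeta M q f)
  rw [h1] at e1
  rw [h2] at e2
  show ((heckeBetaBar (AlgebraicClosure ℚ) (M * q) q
      (S34NK_normBeta (M * q) q (heckeAlphaBar (AlgebraicClosure ℚ) (M * q) q f) *
        S34WJ_wq hq hqM f) : ↥(modularFunctionFieldBar (M * q * q))) :
      LaurentSeries (AlgebraicClosure ℚ)) =
    ((heckeBetaBar (AlgebraicClosure ℚ) (M * q) q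
      (heckeAlphaBar (AlgebraicClosure ℚ) M q (S34NK_normBeta M q f)) :
        ↥(modularFunctionFieldBar (M * q * q))) : LaurentSeries (AlgebraicClosure ℚ))
  have hR : ((heckeBetaBar (AlgebraicClosure ℚ) (M * q) q
      (heckeAlphaBar (AlgebraicClosure ℚ) M q (S34NK_normBeta M q f)) :
        ↥(modularFunctionFieldBar (M * q * q))) : LaurentSeries (AlgebraicClosure ℚ)) =
      ((heckeBetaBar (AlgebraicClosure ℚ) M q (S34NK_normBeta M q f) :
        ↥(modularFunctionFieldBar (M * q))) : LaurentSeries (AlgebraicClosure ℚ)) := by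
    rw [coe_heckeBetaBar, coe_heckeAlphaBar, coe_heckeBetaBar]
  rw [hR, e2, map_mul, MulMemClass.coe_mul, e1, coe_heckeBetaBar, h3, coe_heckeAlphaBar,
    mul_comm]

/-- the Fricke involution of `F_{M q}` commutes with the Atkin–Lehner involution `w_q`. -/
theorem S36ON_theta_wq (f : ↥(modularFunctionFieldBar (M * q))) :
    GRHF_theta (M * q) (S34WJ_wq hq hqM f) = S34WJ_wq hq hqM (GRHF_theta (M * q) f) := by
  have hw := S34WJ_wq_isAL hq hqM
  have key : ∀ (d : ℕ) [NeZero d] (hd : d ∣ M), ∃ (d' : ℕ) (_ : NeZero d') (hd' : d' ∣ M),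
      GRHF_theta (M * q) (jBar (M * q) d (Dvd.dvd.mul_right hd q)) =
        jBar (M * q) (q * d')
          ((Nat.mul_dvd_mul_left q hd').trans (dvd_of_eq (mul_comm q M))) ∧
      GRHF_theta (M * q) (jBar (M * q) (q * d)
          ((Nat.mul_dvd_mul_left q hd).trans (dvd_of_eq (mul_comm q M)))) =
        jBar (M * q) d' (Dvd.dvd.mul_right hd' q) := by
    intro d _ hd
    obtain ⟨d', hd'⟩ := hd
    have hne : NeZero d' := ⟨by
      rintro rfl
      rw [mul_zero] at hd'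
      exact NeZero.ne M hd'⟩
    refine ⟨d', hne, Dvd.intro_left d hd'.symm, ?_, ?_⟩
    · exact GRHF_theta_jBar (M * q) d (q * d') (by rw [hd']; ring)
    · exact GRHF_theta_jBar (M * q) (q * d) d' (by rw [hd']; ring)
  revert f
  apply S34WJ_ind hq
  · intro c
    rw [AlgEquiv.commutes, AlgEquiv.commutes, AlgEquiv.commutes]
  · intro d _ hd
    obtain ⟨d', _, hd', h1, h2⟩ := key d hd
    rw [hw.low d hd, h2, h1, hw.high d' hd']
  · intro d _ hd
    obtain ⟨d', _, hd', h1, h2⟩ := key d hd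
    rw [hw.high d hd, h1, h2, hw.low d' hd']
  · intro x y hx hy
    rw [map_add, map_add, map_add, map_add, hx, hy]
  · intro x y hx hy
    rw [map_mul, map_mul, map_mul, map_mul, hx, hy]
  · intro x hx
    rw [map_inv₀, map_inv₀, map_inv₀, map_inv₀, hx]

/-- (O2') `N_{α₂} (β₂ f) · w f = β₁ (N_{α₁} f)`. -/
theorem S36ON_normAlpha_beta (f : ↥(modularFunctionFieldBar (M * q))) :
    S34NK_normAlpha (M * q) q (heckeBetaBar (AlgebraicClosure ℚ) (M * q) q f) *
        S34WJ_wq hq hqM f =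
      heckeBetaBar (AlgebraicClosure ℚ) M q (S34NK_normAlpha M q f) := by
  rw [S36ON_normAlpha_theta (M * q) q, GRHF_theta_beta (M * q) q f]
  have h1 := congrArg (GRHF_theta (M * q))
    (S36ON_normBeta_alpha M q hq hqM (GRHF_theta (M * q) f))
  rw [map_mul, S36ON_theta_wq M q hq hqM, GRHF_theta_theta, GRHF_theta_alpha M q,
    ← S36ON_normAlpha_theta M q f] at h1
  exact h1

end Fermat.Agent.S36
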