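import Mathlib
import Fermat.Agent.S36.OpNorm
import Fermat.Agent.GalRep.HeckeNK

/-!
# TRACK 10 (S36), AUX-r, the function-field side (helper18): norm down along `α`

`α = heckeAlphaBar ℚ̄ N ℓ : F_N → F_{Nℓ}` (the inclusion), `ℓ` prime, `D = [F_{Nℓ} : F_N]`
(`= ℓ` if `ℓ ∣ N`, `= ℓ + 1` otherwise).

* `S36XN_normAlpha_mul`, `S36XN_normAlpha_pow`, `S36XN_normAlpha_const`, `S36XN_normAlpha_ne_zero`:
  the norm `S34NK_normAlpha N ℓ` is multiplicative, maps constants to constants, nonzero to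
  nonzero;
* `S36XN_triv_normAlpha` : the norm of a trivial Kummer generator is trivial;
* `S36XN_norm_down`   : if `(α f) ^ c` is a trivial Kummer generator of exponent `n` at level
  `N ℓ`, then `f ^ (c * D)` is a trivial Kummer generator of exponent `n` at level `N`;
* `S36XN_alpha_isKum` : `α` maps Kummer generators to Kummer generators (`GRNK_res`);
* `S36XN_alpha_triv`  : `α` maps trivial Kummer generators to trivial ones.
The same along `β` (`S36XN_*Beta*`).
-/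

set_option autoImplicit false
set_option synthInstance.maxHeartbeats 400000
set_option maxHeartbeats 1000000
set_option linter.unusedSectionVars false
set_option linter.style.haveILetI false

open HahnSeries IntermediateField AlgebraicCurve ModularCurve

noncomputable section

namespace Fermat.Agent.S36

open Fermat.Agent.S34 Fermat.Agent.S24 Fermat.Agent.GalRep Fermat.Agent.S37

variable (N ℓ : ℕ) [NeZero N] [NeZero ℓ]

/-- the degree of `F_{Nℓ}` over `F_N`. -/
def S36XN_deg : ℕ := if ℓ ∣ N then ℓ else ℓ + 1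

theorem S36XN_deg_ne_zero : S36XN_deg N ℓ ≠ 0 := by
  unfold S36XN_deg
  split_ifs
  · exact NeZero.ne ℓ
  · exact Nat.succ_ne_zero ℓ

theorem S36XN_normAlpha_mul (x y : ↥(modularFunctionFieldBar (N * ℓ))) :
    S34NK_normAlpha N ℓ (x * y) = S34NK_normAlpha N ℓ x * S34NK_normAlpha N ℓ y := by
  letI := algebraAlong (heckeAlphaBar (AlgebraicClosure ℚ) N ℓ)
  exact map_mul (Algebra.norm ↥(modularFunctionFieldBar N)) x y

theorem S36XN_normAlpha_pow (x : ↥(modularFunctionFieldBar (N * ℓ))) (m : ℕ) :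
    S34NK_normAlpha N ℓ (x ^ m) = S34NK_normAlpha N ℓ x ^ m := by
  letI := algebraAlong (heckeAlphaBar (AlgebraicClosure ℚ) N ℓ)
  exact map_pow (Algebra.norm ↥(modularFunctionFieldBar N)) x m

theorem S36XN_normBeta_mul (x y : ↥(modularFunctionFieldBar (N * ℓ))) :
    S34NK_normBeta N ℓ (x * y) = S34NK_normBeta N ℓ x * S34NK_normBeta N ℓ y := by
  letI := algebraAlong (heckeBetaBar (AlgebraicClosure ℚ) N ℓ)
  exact map_mul (Algebra.norm ↥(modularFunctionFieldBar N)) x y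

theorem S36XN_normBeta_pow (x : ↥(modularFunctionFieldBar (N * ℓ))) (m : ℕ) :
    S34NK_normBeta N ℓ (x ^ m) = S34NK_normBeta N ℓ x ^ m := by
  letI := algebraAlong (heckeBetaBar (AlgebraicClosure ℚ) N ℓ)
  exact map_pow (Algebra.norm ↥(modularFunctionFieldBar N)) x m

variable (hℓ : ℓ.Prime)

include hℓ in
theorem S36XN_normAlpha_const (a : AlgebraicClosure ℚ) :
    S34NK_normAlpha N ℓ (algebraMap (AlgebraicClosure ℚ) ↥(modularFunctionFieldBar (N * ℓ)) a) =
      algebraMap (AlgebraicClosure ℚ) ↥(modularFunctionFieldBar N) (a ^ S36XN_deg N ℓ) := by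
  have h := S36ON_normAlpha_alpha' N ℓ hℓ
    (algebraMap (AlgebraicClosure ℚ) ↥(modularFunctionFieldBar N) a)
  rw [AlgHom.commutes] at h
  rw [h, map_pow]
  rfl

include hℓ in
theorem S36XN_normBeta_const (a : AlgebraicClosure ℚ) :
    S34NK_normBeta N ℓ (algebraMap (AlgebraicClosure ℚ) ↥(modularFunctionFieldBar (N * ℓ)) a) =
      algebraMap (AlgebraicClosure ℚ) ↥(modularFunctionFieldBar N) (a ^ S36XN_deg N ℓ) := by
  have h := S36ON_normBeta_beta' N ℓ hℓ
    (algebraMap (AlgebraicClosure ℚ) ↥(modularFunctionFieldBar N) a)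
  rw [AlgHom.commutes] at h
  rw [h, map_pow]
  rfl

include hℓ in
theorem S36XN_normAlpha_ne_zero {x : ↥(modularFunctionFieldBar (N * ℓ))} (hx : x ≠ 0) :
    S34NK_normAlpha N ℓ x ≠ 0 := by
  letI := algebraAlong (heckeAlphaBar (AlgebraicClosure ℚ) N ℓ)
  haveI : FiniteDimensional ↥(modularFunctionFieldBar N) ↥(modularFunctionFieldBar (N * ℓ)) := by
    apply Module.finite_of_finrank_pos
    rw [S37P_finrank_alpha' N ℓ hℓ]
    exact Nat.pos_of_ne_zero (S36XN_deg_ne_zero N ℓ)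
  exact (Algebra.norm_ne_zero_iff (R := ↥(modularFunctionFieldBar N))).mpr hx

include hℓ in
theorem S36XN_normBeta_ne_zero {x : ↥(modularFunctionFieldBar (N * ℓ))} (hx : x ≠ 0) :
    S34NK_normBeta N ℓ x ≠ 0 := by
  letI := algebraAlong (heckeBetaBar (AlgebraicClosure ℚ) N ℓ)
  haveI : FiniteDimensional ↥(modularFunctionFieldBar N) ↥(modularFunctionFieldBar (N * ℓ)) := by
    apply Module.finite_of_finrank_pos
    rw [GRHF_finrank_beta N ℓ hℓ]
    exact Nat.pos_of_ne_zero (S36XN_deg_ne_zero N ℓ)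
  exact (Algebra.norm_ne_zero_iff (R := ↥(modularFunctionFieldBar N))).mpr hx

include hℓ in
/-- the norm along `α` of a trivial Kummer generator is trivial. -/
theorem S36XN_triv_normAlpha {n : ℕ} {x : ↥(modularFunctionFieldBar (N * ℓ))}
    (hx : GR_IsTriv (N * ℓ) n x) : GR_IsTriv N n (S34NK_normAlpha N ℓ x) := by
  obtain ⟨a, g, ha, hg, rfl⟩ := hx
  refine ⟨a ^ S36XN_deg N ℓ, S34NK_normAlpha N ℓ g, pow_ne_zero _ ha,
    S36XN_normAlpha_ne_zero N ℓ hℓ hg, ?_⟩
  rw [S36XN_normAlpha_mul, S36XN_normAlpha_pow, S36XN_normAlpha_const N ℓ hℓ]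

include hℓ in
/-- the norm along `β` of a trivial Kummer generator is trivial. -/
theorem S36XN_triv_normBeta {n : ℕ} {x : ↥(modularFunctionFieldBar (N * ℓ))}
    (hx : GR_IsTriv (N * ℓ) n x) : GR_IsTriv N n (S34NK_normBeta N ℓ x) := by
  obtain ⟨a, g, ha, hg, rfl⟩ := hx
  refine ⟨a ^ S36XN_deg N ℓ, S34NK_normBeta N ℓ g, pow_ne_zero _ ha,
    S36XN_normBeta_ne_zero N ℓ hℓ hg, ?_⟩
  rw [S36XN_normBeta_mul, S36XN_normBeta_pow, S36XN_normBeta_const N ℓ hℓ]

include hℓ in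
/-- **norm down**: if `(α f) ^ c` is trivial at level `N ℓ` then `f ^ (c * D)` is trivial at
level `N`. -/
theorem S36XN_norm_down {n : ℕ} (f : ↥(modularFunctionFieldBar N)) (c : ℕ)
    (h : GR_IsTriv (N * ℓ) n ((heckeAlphaBar (AlgebraicClosure ℚ) N ℓ f) ^ c)) :
    GR_IsTriv N n (f ^ (c * S36XN_deg N ℓ)) := by
  have h1 := S36XN_triv_normAlpha N ℓ hℓ h
  rw [S36XN_normAlpha_pow, S36ON_normAlpha_alpha' N ℓ hℓ f, ← pow_mul, mul_comm] at h1
  exact h1

include hℓ in
/-- norm down along `β`. -/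
theorem S36XN_norm_down_beta {n : ℕ} (f : ↥(modularFunctionFieldBar N)) (c : ℕ)
    (h : GR_IsTriv (N * ℓ) n ((heckeBetaBar (AlgebraicClosure ℚ) N ℓ f) ^ c)) :
    GR_IsTriv N n (f ^ (c * S36XN_deg N ℓ)) := by
  have h1 := S36XN_triv_normBeta N ℓ hℓ h
  rw [S36XN_normBeta_pow, S36ON_normBeta_beta' N ℓ hℓ f, ← pow_mul, mul_comm] at h1
  exact h1

/-- `α` maps Kummer generators to Kummer generators. -/
theorem S36XN_alpha_isKum {n : ℕ} {f : ↥(modularFunctionFieldBar N)}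
    (hf : KM_IsKum (AlgebraicClosure ℚ) ↥(modularFunctionFieldBar N) n f) :
    KM_IsKum (AlgebraicClosure ℚ) ↥(modularFunctionFieldBar (N * ℓ)) n
      (heckeAlphaBar (AlgebraicClosure ℚ) N ℓ f) :=
  GRNK_res (heckeAlphaBar (AlgebraicClosure ℚ) N ℓ) n hf

/-- `α` maps trivial Kummer generators to trivial ones. -/
theorem S36XN_alpha_triv {n : ℕ} {f : ↥(modularFunctionFieldBar N)} (hf : GR_IsTriv N n f) :
    GR_IsTriv (N * ℓ) n (heckeAlphaBar (AlgebraicClosure ℚ) N ℓ f) := by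
  obtain ⟨a, g, ha, hg, rfl⟩ := hf
  exact ⟨a, heckeAlphaBar (AlgebraicClosure ℚ) N ℓ g, ha,
    (map_ne_zero (heckeAlphaBar (AlgebraicClosure ℚ) N ℓ)).mpr hg,
    by rw [map_mul, map_pow, AlgHom.commutes]⟩

end Fermat.Agent.S36
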