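import Fermat.Agent.S36.Comp3VS

/-!
# TRACK 10 (S36), package COMP3-INST part 1b (helper13): the hypotheses of COMP3 in the language
of valuation subrings, and COMP3 for them

`S36CH_Hyp L F₂ F₁ k Ω n q` collects what the concrete side (FIX-L, VAL3, NORMRES, BASE-L) has to
supply; `S36CH_Hyp.datum` is the abstract `S36C3_Datum`, and `S36CH_main` is COMP3:

  `N₁ u = c₁ · g₁ⁿ`, `N₂ u = c₂ · g₂ⁿ` (`c_i ∈ Lˣ`)  ⟹
  `∃ c ∈ Lˣ, g ∈ F₂ˣ`: `u' := u ^ ((q+1)(q-1)) · c · gⁿ` is a PRINCIPAL UNIT at `FF`, `FV`, `VV`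
  (`u' - 1 ∈ 𝔪_i`, i.e. `u' ∈ O_i` and `red_i u' = 1`).
-/

set_option autoImplicit false

namespace Fermat.Agent.S36

open Fermat.Agent.S34

/-- the constants of `F` coming from `L`. -/
def S36CH_const (L F : Type*) [Field L] [Field F] [Algebra L F] : Lˣ →* Fˣ :=
  Units.map (algebraMap L F : L →* F)

theorem S36CH_const_val (L F : Type*) [Field L] [Field F] [Algebra L F] (c : Lˣ) :
    ((S36CH_const L F c : Fˣ) : F) = algebraMap L F c := rfl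

/-- the hypotheses of COMP3 for valuation subrings. -/
structure S36CH_Hyp (L F₂ F₁ k Ω : Type*) [Field L] [Field F₂] [Field F₁] [Field k] [Field Ω]
    [Algebra L F₂] [Algebra L F₁] [Algebra k Ω] (n q : ℕ) where
  hq : q ≠ 0
  /-- Gauss valuation at `∞` of level `q²` -/
  FF : S36CV_Val F₂ Ω
  /-- Gauss valuation at the middle cusp (uniformiser of valuation `1/(q-1)`) -/
  FV : S36CV_Val F₂ Ω
  /-- `FF ∘ w_{q²}` -/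
  VV : S36CV_Val F₂ Ω
  /-- Gauss valuation at `∞` of level `q` -/
  F : S36CV_Val F₁ Ω
  /-- `F ∘ w_q` -/
  V : S36CV_Val F₁ Ω
  indep : S36CV_Indep FF.O FV.O VV.O
  /-- the valuation ring of the base field -/
  A : ValuationSubring L
  /-- the uniformiser of the base -/
  ϖ : Lˣ
  dvL : ∀ c : Lˣ, ∃ m : ℤ, c * ϖ ^ (-m) ∈ S36CV_UG A
  /-- the residue map of the base -/
  res : A →+* k
  FF_const : ∀ a : L, a ∈ A → algebraMap L F₂ a ∈ FF.O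
  FV_const : ∀ a : L, a ∈ A → algebraMap L F₂ a ∈ FV.O
  VV_const : ∀ a : L, a ∈ A → algebraMap L F₂ a ∈ VV.O
  F_const : ∀ a : L, a ∈ A → algebraMap L F₁ a ∈ F.O
  V_const : ∀ a : L, a ∈ A → algebraMap L F₁ a ∈ V.O
  F_ρ_const : ∀ (a : L) (ha : a ∈ A) (h : algebraMap L F₁ a ∈ F.O),
    F.ρ ⟨_, h⟩ = algebraMap k Ω (res ⟨a, ha⟩)
  V_ρ_const : ∀ (a : L) (ha : a ∈ A) (h : algebraMap L F₁ a ∈ V.O),
    V.ρ ⟨_, h⟩ = algebraMap k Ω (res ⟨a, ha⟩)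
  FF_π : FF.v (S36CH_const L F₂ ϖ) = 1
  FV_π : FV.v (S36CH_const L F₂ ϖ) = (q : ℤ) - 1
  VV_π : VV.v (S36CH_const L F₂ ϖ) = 1
  F_π : F.v (S36CH_const L F₁ ϖ) = 1
  V_π : V.v (S36CH_const L F₁ ϖ) = 1
  /-- the common residue field inside `Ω` -/
  K : Subfield Ω
  F_ρ_mem : ∀ x, F.ρ x ∈ K
  V_ρ_mem : ∀ x, V.ρ x ∈ K
  FF_ρ_surj : ∀ g ∈ K, ∃ x, FF.ρ x = g
  FV_ρ_surj : ∀ g ∈ K, ∃ x, FV.ρ x = g
  VV_ρ_surj : ∀ g ∈ K, ∃ x, VV.ρ x = g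
  k_le_K : ∀ c : k, algebraMap k Ω c ∈ K
  /-- the Frobenius substitution `t ↦ t^q` -/
  Ψ : Ω →+* Ω
  Ψ_const : ∀ c : k, ∃ c' : k, Ψ (algebraMap k Ω c) = algebraMap k Ω c'
  Ψ_pow : ∀ x ∈ K, ∃ g ∈ K, Ψ x = g ^ q
  root_q : ∀ (x : Ω) (c : k), x ^ q = algebraMap k Ω c → ∃ d : k, x = algebraMap k Ω d
  root_n : ∀ c : k, ∃ d : k, d ^ n = c
  /-- the norm along `α` -/
  N₁ : F₂ˣ →* F₁ˣ
  /-- the norm along `β` -/
  N₂ : F₂ˣ →* F₁ˣ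
  N₁_const : ∀ c : Lˣ, ∃ c' : Lˣ, N₁ (S36CH_const L F₂ c) = S36CH_const L F₁ c'
  N₂_const : ∀ c : Lˣ, ∃ c' : Lˣ, N₂ (S36CH_const L F₂ c) = S36CH_const L F₁ c'
  vF_N₁ : ∀ u, F.v (N₁ u) = FF.v u + FV.v u
  vV_N₁ : ∀ u, V.v (N₁ u) = q * VV.v u
  vF_N₂ : ∀ u, F.v (N₂ u) = q * FF.v u
  vV_N₂ : ∀ u, V.v (N₂ u) = FV.v u + VV.v u
  NR1F : ∀ u, FF.v u = 0 → FV.v u = 0 → VV.v u = 0 →
    F.r (N₁ u) = FF.r u * FV.r u ^ (q - 1)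
  NR1V : ∀ u, FF.v u = 0 → FV.v u = 0 → VV.v u = 0 →
    Units.map (Ψ : Ω →* Ω) (V.r (N₁ u)) = VV.r u ^ q
  NR2F : ∀ u, FF.v u = 0 → FV.v u = 0 → VV.v u = 0 →
    Units.map (Ψ : Ω →* Ω) (F.r (N₂ u)) = FF.r u ^ q
  NR2V : ∀ u, FF.v u = 0 → FV.v u = 0 → VV.v u = 0 →
    V.r (N₂ u) = FV.r u ^ (q - 1) * VV.r u

namespace S36CH_Hyp

variable {L F₂ F₁ k Ω : Type*} [Field L] [Field F₂] [Field F₁] [Field k] [Field Ω]
  [Algebra L F₂] [Algebra L F₁] [Algebra k Ω] {n q : ℕ} (H : S36CH_Hyp L F₂ F₁ k Ω n q)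

/-- the units of the residue field. -/
def κ : Subgroup Ωˣ where
  carrier := {x | (x : Ω) ∈ H.K}
  mul_mem' := by
    intro a b ha hb
    show ((a * b : Ωˣ) : Ω) ∈ H.K
    rw [Units.val_mul]; exact H.K.mul_mem ha hb
  one_mem' := by
    show ((1 : Ωˣ) : Ω) ∈ H.K
    rw [Units.val_one]; exact H.K.one_mem
  inv_mem' := by
    intro a ha
    show ((a⁻¹ : Ωˣ) : Ω) ∈ H.K
    rw [Units.val_inv_eq_inv_val]; exact H.K.inv_mem ha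

/-- the constants of the residue field. -/
def Cst (_H : S36CH_Hyp L F₂ F₁ k Ω n q) : Subgroup Ωˣ :=
  (Units.map (algebraMap k Ω : k →* Ω)).range

theorem mem_Cst_iff {x : Ωˣ} : x ∈ H.Cst ↔ ∃ c : k, (x : Ω) = algebraMap k Ω c := by
  constructor
  · rintro ⟨c, rfl⟩
    exact ⟨c, rfl⟩
  · rintro ⟨c, hc⟩
    have hc0 : c ≠ 0 := by
      rintro rfl
      rw [map_zero] at hc
      exact x.ne_zero hc
    exact ⟨Units.mk0 c hc0, Units.ext hc.symm⟩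

/-- the valuation of a constant, at a valuation whose restriction to `L` is `A` with
uniformiser `ϖ`. -/
theorem v_const {F : Type*} [Field F] [Algebra L F] (D : S36CV_Val F Ω)
    (hc : ∀ a : L, a ∈ H.A → algebraMap L F a ∈ D.O) (hπ : D.v (S36CH_const L F H.ϖ) = 1)
    (c : Lˣ) (m : ℤ) (hm : c * H.ϖ ^ (-m) ∈ S36CV_UG H.A) : D.v (S36CH_const L F c) = m := by
  have hu : S36CH_const L F (c * H.ϖ ^ (-m)) ∈ S36CV_UG D.O := by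
    refine ⟨hc _ hm.1, ?_⟩
    rw [← map_inv]
    exact hc _ hm.2
  have h1 := D.v_eq_zero_iff.2 hu
  rw [map_mul, map_zpow, D.v_mul, D.v_zpow, hπ] at h1
  omega

theorem const_unit {F : Type*} [Field F] [Algebra L F] (D : S36CV_Val F Ω)
    (hc : ∀ a : L, a ∈ H.A → algebraMap L F a ∈ D.O) (hπ : D.v (S36CH_const L F H.ϖ) = 1)
    (c : Lˣ) (h0 : D.v (S36CH_const L F c) = 0) : c ∈ S36CV_UG H.A := by
  obtain ⟨m, hm⟩ := H.dvL c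
  have := H.v_const D hc hπ c m hm
  have hm0 : m = 0 := by omega
  rw [hm0, neg_zero, zpow_zero, mul_one] at hm
  exact hm

theorem r_const {F : Type*} [Field F] [Algebra L F] (D : S36CV_Val F Ω)
    (hc : ∀ a : L, a ∈ H.A → algebraMap L F a ∈ D.O) (hπ : D.v (S36CH_const L F H.ϖ) = 1)
    (hρ : ∀ (a : L) (ha : a ∈ H.A) (h : algebraMap L F a ∈ D.O),
      D.ρ ⟨_, h⟩ = algebraMap k Ω (H.res ⟨a, ha⟩))
    (c : Lˣ) (h0 : D.v (S36CH_const L F c) = 0) : D.r (S36CH_const L F c) ∈ H.Cst := by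
  have hcA := H.const_unit D hc hπ c h0
  rw [H.mem_Cst_iff]
  refine ⟨H.res ⟨c, hcA.1⟩, ?_⟩
  rw [D.r_val (D.v_eq_zero_iff.1 h0)]
  exact hρ c hcA.1 _

/-- surjectivity of the residue map on units. -/
theorem exists_unit_ρ {F : Type*} [Field F] (D : S36CV_Val F Ω)
    (hs : ∀ g ∈ H.K, ∃ x, D.ρ x = g) (g : Ωˣ) (hg : g ∈ H.κ) :
    ∃ x : Fˣ, x ∈ S36CV_UG D.O ∧ D.r x = g := by
  obtain ⟨x, hx⟩ := hs g hg
  have hx0 : (x : F) ≠ 0 := by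
    intro h0
    have : x = 0 := Subtype.ext h0
    rw [this, map_zero] at hx
    exact g.ne_zero hx.symm
  have hns : ¬ S34AP_Small D.O (x : F) := by
    intro hsm
    have := (D.ρ_eq_zero _ x.2).2 hsm
    rw [Subtype.coe_eta, hx] at this
    exact g.ne_zero this
  have hinv : (x : F)⁻¹ ∈ D.O := by
    by_contra hcon
    exact hns (Or.inr hcon)
  have hU : Units.mk0 (x : F) hx0 ∈ S36CV_UG D.O := by
    refine ⟨x.2, ?_⟩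
    rw [Units.val_inv_eq_inv_val]
    exact hinv
  refine ⟨Units.mk0 (x : F) hx0, hU, ?_⟩
  apply Units.ext
  rw [D.r_val hU, ← hx]
  rfl

/-- the abstract datum of COMP3. -/
noncomputable def datum : S36C3_Datum F₂ F₁ Ω n q where
  C₂ := (S36CH_const L F₂).range
  C₁ := (S36CH_const L F₁).range
  N₁ := H.N₁
  N₂ := H.N₂
  N₁_const := by
    rintro _ ⟨c, rfl⟩
    obtain ⟨c', hc'⟩ := H.N₁_const c
    exact ⟨c', hc'.symm⟩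
  N₂_const := by
    rintro _ ⟨c, rfl⟩
    obtain ⟨c', hc'⟩ := H.N₂_const c
    exact ⟨c', hc'.symm⟩
  vFF := H.FF.v
  vFV := H.FV.v
  vVV := H.VV.v
  vF := H.F.v
  vV := H.V.v
  vFF_mul := H.FF.v_mul
  vFV_mul := H.FV.v_mul
  vVV_mul := H.VV.v_mul
  vF_mul := H.F.v_mul
  vV_mul := H.V.v_mul
  v_const₁ := by
    rintro _ ⟨c, rfl⟩
    obtain ⟨m, hm⟩ := H.dvL c
    rw [H.v_const H.F H.F_const H.F_π c m hm, H.v_const H.V H.V_const H.V_π c m hm]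
  q₂ := S36CH_const L F₂ H.ϖ
  q₂_mem := ⟨H.ϖ, rfl⟩
  vFF_q₂ := H.FF_π
  vFV_q₂ := H.FV_π
  vVV_q₂ := H.VV_π
  q₁ := S36CH_const L F₁ H.ϖ
  q₁_mem := ⟨H.ϖ, rfl⟩
  vF_q₁ := H.F_π
  vF_N₁ := H.vF_N₁
  vV_N₁ := H.vV_N₁
  vF_N₂ := H.vF_N₂
  vV_N₂ := H.vV_N₂
  approx_v := S36CV_approx_v H.FF.toS36CV_DV H.FV.toS36CV_DV H.VV.toS36CV_DV H.indep
  κ := H.κ
  Cst := H.Cst
  rFF := H.FF.r
  rFV := H.FV.r
  rVV := H.VV.r
  rF := H.F.r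
  rV := H.V.r
  rFF_mul := H.FF.r_mul
  rFV_mul := H.FV.r_mul
  rVV_mul := H.VV.r_mul
  rF_mul := H.F.r_mul
  rV_mul := H.V.r_mul
  rF_mem := by
    intro a ha
    show ((H.F.r a : Ωˣ) : Ω) ∈ H.K
    rw [H.F.r_val (H.F.v_eq_zero_iff.1 ha)]
    exact H.F_ρ_mem _
  rV_mem := by
    intro a ha
    show ((H.V.r a : Ωˣ) : Ω) ∈ H.K
    rw [H.V.r_val (H.V.v_eq_zero_iff.1 ha)]
    exact H.V_ρ_mem _
  rF_const := by
    rintro _ ⟨c, rfl⟩ h0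
    exact H.r_const H.F H.F_const H.F_π H.F_ρ_const c h0
  rV_const := by
    rintro _ ⟨c, rfl⟩ h0
    exact H.r_const H.V H.V_const H.V_π H.V_ρ_const c h0
  ψ := Units.map (H.Ψ : Ω →* Ω)
  ψ_const := by
    intro c hc
    obtain ⟨c₀, hc₀⟩ := H.mem_Cst_iff.1 hc
    obtain ⟨c', hc'⟩ := H.Ψ_const c₀
    rw [H.mem_Cst_iff]
    refine ⟨c', ?_⟩
    rw [← hc', ← hc₀]
    rfl
  ψ_pow := by
    intro x hx
    obtain ⟨g, hg, hgx⟩ := H.Ψ_pow x hx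
    have hg0 : g ≠ 0 := by
      rintro rfl
      rw [zero_pow H.hq] at hgx
      have hx0 : H.Ψ (x : Ω) ≠ 0 := by
        rw [Ne, map_eq_zero]
        exact x.ne_zero
      exact hx0 hgx
    refine ⟨Units.mk0 g hg0, hg, ?_⟩
    apply Units.ext
    rw [Units.val_pow_eq_pow_val]
    exact hgx
  root_q := by
    intro x hx
    obtain ⟨c, hc⟩ := H.mem_Cst_iff.1 hx
    rw [Units.val_pow_eq_pow_val] at hc
    obtain ⟨d, hd⟩ := H.root_q x c hc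
    exact H.mem_Cst_iff.2 ⟨d, hd⟩
  root_n := by
    intro c hc
    obtain ⟨c₀, hc₀⟩ := H.mem_Cst_iff.1 hc
    obtain ⟨d, hd⟩ := H.root_n c₀
    by_cases hd0 : d = 0
    · -- then `n = 0` and `c = 1`
      refine ⟨1, H.Cst.one_mem, ?_⟩
      rw [one_pow]
      apply Units.ext
      rw [hc₀, ← hd, hd0, Units.val_one]
      by_cases hn : n = 0
      · rw [hn, pow_zero, map_one]
      · exfalso
        rw [hd0, zero_pow hn] at hd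
        rw [← hd, map_zero] at hc₀
        exact c.ne_zero hc₀
    · refine ⟨Units.mk0 (algebraMap k Ω d) (by rwa [Ne, map_eq_zero]), H.mem_Cst_iff.2 ⟨d, rfl⟩, ?_⟩
      apply Units.ext
      rw [Units.val_pow_eq_pow_val, Units.val_mk0, ← map_pow, hd, hc₀]
  Cst_le := by
    intro x hx
    obtain ⟨c, hc⟩ := H.mem_Cst_iff.1 hx
    show (x : Ω) ∈ H.K
    rw [hc]
    exact H.k_le_K c
  NR1F := H.NR1F
  NR1V := H.NR1V
  NR2F := H.NR2F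
  NR2V := H.NR2V
  approx_r := by
    intro g₁ hg₁ g₂ hg₂ g₃ hg₃
    obtain ⟨x₁, hx₁, e₁⟩ := H.exists_unit_ρ H.FF H.FF_ρ_surj g₁ hg₁
    obtain ⟨x₂, hx₂, e₂⟩ := H.exists_unit_ρ H.FV H.FV_ρ_surj g₂ hg₂
    obtain ⟨x₃, hx₃, e₃⟩ := H.exists_unit_ρ H.VV H.VV_ρ_surj g₃ hg₃
    obtain ⟨h, u1, u2, u3, s1, s2, s3⟩ :=
      S36CV_approx_r H.FF.toS36CV_DV H.FV.toS36CV_DV H.VV.toS36CV_DV H.indep x₁ x₂ x₃ hx₁ hx₂ hx₃
    exact ⟨h, H.FF.v_eq_zero_iff.2 u1, H.FV.v_eq_zero_iff.2 u2, H.VV.v_eq_zero_iff.2 u3,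
      by rw [H.FF.r_congr u1 hx₁ s1, e₁], by rw [H.FV.r_congr u2 hx₂ s2, e₂],
      by rw [H.VV.r_congr u3 hx₃ s3, e₃]⟩

/-- **COMP3 for valuation subrings**: if both norms of `u` are trivial over `L`, then
`u ^ ((q+1)(q-1)) · c · gⁿ` is a principal unit at `FF`, `FV`, `VV` for suitable `c ∈ Lˣ`,
`g ∈ F₂ˣ`. -/
theorem S36CH_main (u : F₂ˣ)
    (h₁ : ∃ (c : Lˣ) (g : F₁ˣ), H.N₁ u = S36CH_const L F₁ c * g ^ n)
    (h₂ : ∃ (c : Lˣ) (g : F₁ˣ), H.N₂ u = S36CH_const L F₁ c * g ^ n) :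
    ∃ (c : Lˣ) (g : F₂ˣ),
      S34AP_Small H.FF.O
        (((u ^ ((q + 1) * (q - 1)) * (S36CH_const L F₂ c * g ^ n) : F₂ˣ) : F₂) - 1) ∧
      S34AP_Small H.FV.O
        (((u ^ ((q + 1) * (q - 1)) * (S36CH_const L F₂ c * g ^ n) : F₂ˣ) : F₂) - 1) ∧
      S34AP_Small H.VV.O
        (((u ^ ((q + 1) * (q - 1)) * (S36CH_const L F₂ c * g ^ n) : F₂ˣ) : F₂) - 1) := by
  have t₁ : H.datum.N₁ u ∈ H.datum.Triv₁ := by
    obtain ⟨c, g, hcg⟩ := h₁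
    exact H.datum.mem_Triv₁_iff.2 ⟨_, ⟨c, rfl⟩, g, hcg⟩
  have t₂ : H.datum.N₂ u ∈ H.datum.Triv₁ := by
    obtain ⟨c, g, hcg⟩ := h₂
    exact H.datum.mem_Triv₁_iff.2 ⟨_, ⟨c, rfl⟩, g, hcg⟩
  obtain ⟨t, ht, v1, v2, v3, r1, r2, r3⟩ := H.datum.S36C3_main u t₁ t₂
  obtain ⟨_, ⟨c, rfl⟩, g, rfl⟩ := H.datum.mem_Triv₂_iff.1 ht
  exact ⟨c, g, (H.FF.r_eq_one_iff (H.FF.v_eq_zero_iff.1 v1)).1 r1,
    (H.FV.r_eq_one_iff (H.FV.v_eq_zero_iff.1 v2)).1 r2,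
    (H.VV.r_eq_one_iff (H.VV.v_eq_zero_iff.1 v3)).1 r3⟩

end S36CH_Hyp

end Fermat.Agent.S36
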