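import Fermat.Agent.S36.FixL
import Fermat.Agent.S18.LiftVal

/-!
# TRACK 10 (S36), package FIX-L (helper22), part 2: restriction of a valuation datum to the
fixed field — prefix `S36FL_`

`S : S36FL_Act K F H` a semilinear action, `L = S.fixK`, `F_L = S.fixF`.
* `S36FL_Act.algebraFix` : `Algebra L F_L`;
* `S36FL_val` : from a valuation ring `O ⊂ F` over `A ⊂ K` with a reduction map
  `red : O →+* R` (e.g. `R = k((t))`), and a field `Fk ↪ R` such that the reductions of the
  `H`-fixed elements of `O` are exactly the elements of `Fk`, the datum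
  `S18_Val L F_L k Fk` (`A_L = A ∩ L`, `O_L = O ∩ F_L`).
-/

set_option autoImplicit false

namespace Fermat.Agent.S36

open Fermat.Agent.S18

variable {K F H : Type*} [Field K] [Field F] [Algebra K F]

/-- the inclusion `K^H → F^H`. -/
def S36FL_Act.fixMap (S : S36FL_Act K F H) : S.fixK →+* S.fixF where
  toFun c := ⟨algebraMap K F c, S.algebraMap_mem_fixF c.2⟩
  map_one' := Subtype.ext (map_one _)
  map_mul' _ _ := Subtype.ext (map_mul _ _ _)
  map_zero' := Subtype.ext (map_zero _)
  map_add' _ _ := Subtype.ext (map_add _ _ _)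

/-- the algebra structure `K^H → F^H`. -/
instance S36FL_Act.algebraFix (S : S36FL_Act K F H) : Algebra S.fixK S.fixF :=
  S.fixMap.toAlgebra

theorem S36FL_Act.algebraMap_fix_coe (S : S36FL_Act K F H) (c : S.fixK) :
    ((algebraMap S.fixK S.fixF c : S.fixF) : F) = algebraMap K F (c : K) := rfl

section val

variable (S : S36FL_Act K F H) {k Fk R : Type*} [Field k] [Field Fk] [Algebra k Fk] [CommRing R]
  (A : ValuationSubring K) (res : A →+* k)
  (O : ValuationSubring F) (red : O →+* R) (incl : Fk →+* R)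

/-- the valuation ring `A ∩ L` of `L = K^H`. -/
def S36FL_AL : ValuationSubring S.fixK := A.comap S.fixK.subtype

/-- the valuation ring `O ∩ F_L` of `F_L = F^H`. -/
def S36FL_OL : ValuationSubring S.fixF := O.comap S.fixF.subtype

theorem S36FL_mem_AL {c : S.fixK} : c ∈ S36FL_AL S A ↔ (c : K) ∈ A := Iff.rfl

theorem S36FL_mem_OL {f : S.fixF} : f ∈ S36FL_OL S O ↔ (f : F) ∈ O := Iff.rfl

/-- the inclusion `A ∩ L → A`. -/
def S36FL_ALincl : S36FL_AL S A →+* A where
  toFun c := ⟨((c : S.fixK) : K), c.2⟩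
  map_one' := rfl
  map_mul' _ _ := rfl
  map_zero' := rfl
  map_add' _ _ := rfl

/-- the inclusion `O ∩ F_L → O`. -/
def S36FL_OLincl : S36FL_OL S O →+* O where
  toFun f := ⟨((f : S.fixF) : F), f.2⟩
  map_one' := rfl
  map_mul' _ _ := rfl
  map_zero' := rfl
  map_add' _ _ := rfl

theorem S36FL_isUnit_AL (c : S36FL_AL S A) : IsUnit c ↔ IsUnit (S36FL_ALincl S A c) := by
  constructor
  · exact fun h => h.map _
  · intro h
    have hc0 : ((c : S.fixK) : K) ≠ 0 := by
      intro h0
      have : S36FL_ALincl S A c = 0 := Subtype.ext h0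
      rw [this] at h
      exact not_isUnit_zero h
    have hinv : ((c : S.fixK) : K)⁻¹ ∈ A := by
      obtain ⟨u, hu⟩ := h
      have h1 : ((u⁻¹ : Aˣ) : A) * S36FL_ALincl S A c = 1 := by
        rw [← hu]; exact u.inv_mul
      have h2 : (((u⁻¹ : Aˣ) : A) : K) * ((c : S.fixK) : K) = 1 := congrArg Subtype.val h1
      have : ((c : S.fixK) : K)⁻¹ = (((u⁻¹ : Aˣ) : A) : K) :=
        (eq_inv_of_mul_eq_one_left h2).symm
      rw [this]
      exact ((u⁻¹ : Aˣ) : A).2
    have hc0' : (c : S.fixK) ≠ 0 := fun h0 => hc0 (by rw [h0]; rfl)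
    refine ⟨⟨c, ⟨(c : S.fixK)⁻¹, hinv⟩, ?_, ?_⟩, rfl⟩
    · exact Subtype.ext (mul_inv_cancel₀ hc0')
    · exact Subtype.ext (inv_mul_cancel₀ hc0')

theorem S36FL_isUnit_OL (f : S36FL_OL S O) : IsUnit f ↔ IsUnit (S36FL_OLincl S O f) := by
  constructor
  · exact fun h => h.map _
  · intro h
    have hc0 : ((f : S.fixF) : F) ≠ 0 := by
      intro h0
      have : S36FL_OLincl S O f = 0 := Subtype.ext h0
      rw [this] at h
      exact not_isUnit_zero h
    have hinv : ((f : S.fixF) : F)⁻¹ ∈ O := by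
      obtain ⟨u, hu⟩ := h
      have h1 : ((u⁻¹ : Oˣ) : O) * S36FL_OLincl S O f = 1 := by
        rw [← hu]; exact u.inv_mul
      have h2 : (((u⁻¹ : Oˣ) : O) : F) * ((f : S.fixF) : F) = 1 := congrArg Subtype.val h1
      have : ((f : S.fixF) : F)⁻¹ = (((u⁻¹ : Oˣ) : O) : F) :=
        (eq_inv_of_mul_eq_one_left h2).symm
      rw [this]
      exact ((u⁻¹ : Oˣ) : O).2
    have hc0' : (f : S.fixF) ≠ 0 := fun h0 => hc0 (by rw [h0]; rfl)
    refine ⟨⟨f, ⟨(f : S.fixF)⁻¹, hinv⟩, ?_, ?_⟩, rfl⟩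
    · exact Subtype.ext (mul_inv_cancel₀ hc0')
    · exact Subtype.ext (inv_mul_cancel₀ hc0')

variable {S A O red incl}

/-- the reduction map on `O ∩ F_L`, with values in `Fk`. -/
noncomputable def S36FL_redL (hincl : Function.Injective incl)
    (hred_mem : ∀ x : O, (x : F) ∈ S.fixF → ∃ y : Fk, red x = incl y) : S36FL_OL S O →+* Fk :=
  (RingEquiv.ofLeftInverse (f := incl) (g := Function.invFun incl)
      (Function.leftInverse_invFun hincl)).symm.toRingHom.comp
    ((red.comp (S36FL_OLincl S O)).codRestrict incl.range (fun f => by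
      obtain ⟨y, hy⟩ := hred_mem (S36FL_OLincl S O f) (f : S.fixF).2
      exact ⟨y, hy.symm⟩))

theorem S36FL_incl_redL (hincl : Function.Injective incl)
    (hred_mem : ∀ x : O, (x : F) ∈ S.fixF → ∃ y : Fk, red x = incl y) (f : S36FL_OL S O) :
    incl (S36FL_redL hincl hred_mem f) = red (S36FL_OLincl S O f) := by
  have h := (RingEquiv.ofLeftInverse (f := incl) (g := Function.invFun incl)
      (Function.leftInverse_invFun hincl)).apply_symm_apply
      ((red.comp (S36FL_OLincl S O)).codRestrict incl.range (fun f => by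
      obtain ⟨y, hy⟩ := hred_mem (S36FL_OLincl S O f) (f : S.fixF).2
      exact ⟨y, hy.symm⟩) f)
  exact congrArg Subtype.val h

/-- **FIX-L (c)**: restriction of a valuation datum to the fixed field. -/
noncomputable def S36FL_val
    (hres : ∀ y : k, ∃ a : A, (a : K) ∈ S.fixK ∧ res a = y)
    (hres0 : ∀ a : A, res a = 0 ↔ ¬ IsUnit a)
    (hincl : Function.Injective incl)
    (hred_mem : ∀ x : O, (x : F) ∈ S.fixF → ∃ y : Fk, red x = incl y)
    (hred_surj : ∀ y : Fk, ∃ x : O, (x : F) ∈ S.fixF ∧ red x = incl y)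
    (hred0 : ∀ x : O, red x ≠ 0 ↔ IsUnit x)
    (hmem : ∀ a : K, algebraMap K F a ∈ O ↔ a ∈ A)
    (hredalg : ∀ (a : K) (ha : a ∈ A) (haO : algebraMap K F a ∈ O),
      red ⟨algebraMap K F a, haO⟩ = incl (algebraMap k Fk (res ⟨a, ha⟩))) :
    S18_Val S.fixK S.fixF k Fk where
  A := S36FL_AL S A
  res := res.comp (S36FL_ALincl S A)
  res_surjective := by
    intro y
    obtain ⟨a, ha, hay⟩ := hres y
    exact ⟨⟨⟨(a : K), ha⟩, a.2⟩, hay⟩
  res_eq_zero_iff := by
    intro a
    rw [RingHom.comp_apply, hres0, S36FL_isUnit_AL]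
  O := S36FL_OL S O
  red := S36FL_redL hincl hred_mem
  red_surjective := by
    intro y
    obtain ⟨x, hx, hxy⟩ := hred_surj y
    refine ⟨⟨⟨(x : F), hx⟩, x.2⟩, hincl ?_⟩
    rw [S36FL_incl_redL, ← hxy]
    rfl
  red_ne_zero_iff := by
    intro x
    rw [S36FL_isUnit_OL, ← hred0, ← S36FL_incl_redL hincl hred_mem x]
    constructor
    · intro h h0
      apply h
      apply hincl
      rw [h0, map_zero]
    · intro h h0
      apply h
      rw [h0, map_zero]
  algebraMap_mem_iff := by
    intro a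
    exact hmem (a : K)
  red_algebraMap := by
    intro a ha haO
    apply hincl
    rw [S36FL_incl_redL]
    exact hredalg (a : K) ha haO

end val

end Fermat.Agent.S36
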