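import Fermat.Agent.S36.Comp3S18
import Fermat.Agent.S36.FixLInst
import Fermat.Agent.S36.FixLVal

/-!
# TRACK 10 (S36), package COMP3-INST part 2a (helper13): the concrete types of COMP3

`H ≤ Gal(ℚ̄/ℚ)` (the inertia group of a place over `q`), levels `N` (`= M q q`) and `N'`
(`= M q`).  The base field of COMP3 is `L = (S36FI_act N H).fixK` (the type used by the
valuation data of level `N` over `L`), and `F₁ = (S36FI_act N' H).fixF` is an `L`-algebra by
`S36CT_alg N N' H`.

WARNING (kernel): `(S36FI_act N H).fixK` and `(S36FI_act N' H).fixK` are equal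
(`S36CT_fixK_eq`), but NOT by `rfl` for the kernel (the check unfolds the two function fields
and times out).  Never identify the two types by defeq; use `S36CT_alg` / `S36CT_mem_iff`.
-/

set_option autoImplicit false

namespace Fermat.Agent.S36

open ModularCurve

variable (N N' : ℕ) (H : Subgroup (AlgebraicClosure ℚ ≃ₐ[ℚ] AlgebraicClosure ℚ))

/-- the fixed fields of constants of two levels have the same elements. -/
theorem S36CT_mem_iff {c : AlgebraicClosure ℚ} :
    c ∈ (S36FI_act N H).fixK ↔ c ∈ (S36FI_act N' H).fixK :=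
  (S36FI_mem_fixK N H).trans (S36FI_mem_fixK N' H).symm

theorem S36CT_fixK_eq : (S36FI_act N H).fixK = (S36FI_act N' H).fixK :=
  Subfield.ext fun _ => S36CT_mem_iff N N' H

/-- the structure map `L → F_{N'}^H`, `L = ℚ̄^H` written at level `N`. -/
noncomputable def S36CT_map : ↥(S36FI_act N H).fixK →+* ↥(S36FI_act N' H).fixF where
  toFun c := ⟨algebraMap (AlgebraicClosure ℚ) ↥(modularFunctionFieldBar N') (c : AlgebraicClosure ℚ),
    (S36FI_act N' H).algebraMap_mem_fixF ((S36CT_mem_iff N N' H).1 c.2)⟩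
  map_one' := Subtype.ext (map_one _)
  map_mul' _ _ := Subtype.ext (map_mul _ _ _)
  map_zero' := Subtype.ext (map_zero _)
  map_add' _ _ := Subtype.ext (map_add _ _ _)

/-- `F_{N'}^H` as an algebra over `L = ℚ̄^H` (written at level `N`).  NOT an instance. -/
@[reducible] noncomputable def S36CT_alg : Algebra ↥(S36FI_act N H).fixK ↥(S36FI_act N' H).fixF :=
  (S36CT_map N N' H).toAlgebra

theorem S36CT_algebraMap_coe (c : ↥(S36FI_act N H).fixK) :
    ((@algebraMap ↥(S36FI_act N H).fixK ↥(S36FI_act N' H).fixF _ _ (S36CT_alg N N' H) c :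
      ↥(S36FI_act N' H).fixF) : ↥(modularFunctionFieldBar N')) =
      algebraMap (AlgebraicClosure ℚ) ↥(modularFunctionFieldBar N') (c : AlgebraicClosure ℚ) :=
  rfl

/-- an `H`-fixed constant as an element of `L`. -/
def S36CT_mkL (c : AlgebraicClosure ℚ) (hc : ∀ σ ∈ H, σ c = c) : ↥(S36FI_act N H).fixK :=
  ⟨c, (S36FI_mem_fixK N H).2 hc⟩

/-- an `H`-fixed function as an element of `F_N^H`. -/
def S36CT_mkF (f : ↥(modularFunctionFieldBar N))
    (hf : ∀ σ ∈ H, arithmeticRingAut (modularFunctionFieldFull N) σ f = f) :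
    ↥(S36FI_act N H).fixF :=
  ⟨f, (S36FI_mem_fixF N H).2 hf⟩

end Fermat.Agent.S36
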