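import Mathlib
import Fermat.Agent.GalRep.Geom
import Fermat.Agent.Lib.CuspEmb
import Fermat.Agent.Lib.RiemannCharZero
import Fermat.Agent.S18.Spec
import Fermat.Agent.S24.EvDeg

/-!
# TRACK 10 (S36), package L-DESC (helper5): canonical Kummer generators

`F = modularFunctionFieldBar N ⊂ ℚ̄((q))`, `O` = the cusp `∞` (the place of the `q`-adic order,
fixed by `Gal(ℚ̄/ℚ)`), `f` a Kummer generator of exponent `n` (`n ∣ div f`), `D = div(f)/n`.

Let `m₀` be the least integer with `L(D + m₀ O) ≠ 0`.  Then `L(D + m₀ O) = ℚ̄ φ₀` is a line, and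
`f' := φ₀ⁿ f / (leading coefficient)` is a Kummer generator in the class of `f` which is
**canonical**: every `τ ∈ Gal(ℚ̄/ℚ)` that fixes the class of `f` (`τ f / f = c gⁿ`) fixes `f'`.
No Hilbert 90 is needed.

* abstract part (any `RR_Hyp K F`, any place `O`): `S36LD_D`, `S36LD_exists_min`,
  `S36LD_exists_gen`, `S36LD_transport`;
* `S36LD_O N`, `S36LD_ord_O`, `S36LD_smul_O` : the cusp `∞` (as in `S17/Emb.lean`, re-done here to
  keep the import closure small);
* `S36LD_main` : the canonical Kummer generator;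
* `S36LD_inertia` : the shape for an inertia group: a class of exponent `n` fixed by
  `P.inertiaSubgroupIn ℚ` has a Kummer generator fixed by `P.inertiaSubgroupIn ℚ`, with an
  invariant divisor.
-/

set_option autoImplicit false
set_option linter.unusedSectionVars false

open AlgebraicCurve ModularCurve HahnSeries

namespace Fermat.Agent.S36

open Fermat.Agent.Lib Fermat.Agent.GalRep Fermat.Agent.S24

noncomputable section

/-! ### abstract part -/

section Abstract

variable {K F : Type*} [Field K] [Field F] [Algebra K F]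

/-- the divisor `div(f)/n`. -/
def S36LD_D (hP : HasPrincipalDivisors K F) (n : ℕ) (f : F) : Divisor K F :=
  (RR_div hP f).mapRange (fun a => a / (n : ℤ)) (by simp)

theorem S36LD_D_apply (hP : HasPrincipalDivisors K F) (n : ℕ) (f : F) (v : Place K F) :
    S36LD_D hP n f v = v.ord f / (n : ℤ) := by
  rw [S36LD_D, Finsupp.mapRange_apply, RR_div_apply]

theorem S36LD_D_mul (hP : HasPrincipalDivisors K F) (n : ℕ) (f : F)
    (hdiv : ∀ v : Place K F, (n : ℤ) ∣ v.ord f) (v : Place K F) :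
    (n : ℤ) * S36LD_D hP n f v = v.ord f := by
  rw [S36LD_D_apply]
  exact Int.mul_ediv_cancel' (hdiv v)

theorem S36LD_D_degree (hP : HasPrincipalDivisors K F) (n : ℕ) (hn : 0 < n) (f : F)
    (hdiv : ∀ v : Place K F, (n : ℤ) ∣ v.ord f) : (S36LD_D hP n f).degree = 0 := by
  have h1 : (n : ℤ) • S36LD_D hP n f = RR_div hP f := by
    ext v
    rw [Finsupp.smul_apply, smul_eq_mul, S36LD_D_mul hP n f hdiv, RR_div_apply]
  have h2 := congrArg Divisor.degree h1
  rw [map_zsmul, RR_div_degree, smul_eq_mul] at h2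
  rcases mul_eq_zero.mp h2 with h | h
  · exact absurd (by exact_mod_cast h) hn.ne'
  · exact h

/-- the divisor `D + m O`. -/
def S36LD_DO (hP : HasPrincipalDivisors K F) (O : Place K F) (n : ℕ) (f : F) (m : ℤ) :
    Divisor K F :=
  S36LD_D hP n f + Finsupp.single O m

theorem S36LD_DO_degree (h : RR_Hyp K F) (O : Place K F) (n : ℕ) (hn : 0 < n) (f : F)
    (hdiv : ∀ v : Place K F, (n : ℤ) ∣ v.ord f) (m : ℤ) :
    (S36LD_DO h.principal O n f m).degree = m := by
  rw [S36LD_DO, map_add, S36LD_D_degree h.principal n hn f hdiv, Divisor.degree_single,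
    h.deg_one O]
  simp

theorem S36LD_DO_succ (hP : HasPrincipalDivisors K F) (O : Place K F) (n : ℕ) (f : F) (m : ℤ) :
    S36LD_DO hP O n f (m - 1) + Finsupp.single O 1 = S36LD_DO hP O n f m := by
  rw [S36LD_DO, S36LD_DO, add_assoc, ← Finsupp.single_add]
  congr 2
  ring

/-- **the minimal twist**: the least `m₀` with `L(D + m₀ O) ≠ 0`; `0 ≤ m₀ ≤ g`. -/
theorem S36LD_exists_min (h : RR_Hyp K F) (O : Place K F) (n : ℕ) (hn : 0 < n) (f : F)
    (hdiv : ∀ v : Place K F, (n : ℤ) ∣ v.ord f) :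
    ∃ m₀ : ℤ, 0 ≤ m₀ ∧ m₀ ≤ (RR_genus K F : ℤ) ∧
      riemannRochSpace (S36LD_DO h.principal O n f m₀) ≠ ⊥ ∧
      riemannRochSpace (S36LD_DO h.principal O n f (m₀ - 1)) = ⊥ := by
  classical
  set P : ℤ → Prop := fun m => riemannRochSpace (S36LD_DO h.principal O n f m) ≠ ⊥ with hPdef
  have hlow : ∀ m : ℤ, P m → 0 ≤ m := by
    intro m hm
    by_contra hneg
    rw [not_le] at hneg
    apply hm
    apply RR_eq_bot_of_degree_neg h.deg_one h.principal
    rw [S36LD_DO_degree h O n hn f hdiv]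
    exact hneg
  have hg : P (RR_genus K F : ℤ) := by
    intro hbot
    have h1 := RR_riemann_ineq h (S36LD_DO h.principal O n f (RR_genus K F : ℤ))
    rw [S36LD_DO_degree h O n hn f hdiv, hbot, finrank_bot] at h1
    simp at h1
  obtain ⟨m₀, hm₀, hleast⟩ := Int.exists_least_of_bdd (P := P) ⟨0, hlow⟩ ⟨_, hg⟩
  refine ⟨m₀, hlow m₀ hm₀, hleast _ hg, hm₀, ?_⟩
  by_contra hne
  have := hleast (m₀ - 1) hne
  linarith

/-- **the minimal twist is a line**. -/
theorem S36LD_exists_gen (h : RR_Hyp K F) (O : Place K F) (n : ℕ) (hn : 0 < n) (f : F)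
    (hdiv : ∀ v : Place K F, (n : ℤ) ∣ v.ord f) :
    ∃ (m₀ : ℤ) (φ₀ : F), 0 ≤ m₀ ∧ m₀ ≤ (RR_genus K F : ℤ) ∧ φ₀ ≠ 0 ∧
      φ₀ ∈ riemannRochSpace (S36LD_DO h.principal O n f m₀) ∧
      ∀ ψ ∈ riemannRochSpace (S36LD_DO h.principal O n f m₀), ∃ a : K, ψ = a • φ₀ := by
  obtain ⟨m₀, h0, hg, hne, hbot⟩ := S36LD_exists_min h O n hn f hdiv
  have hfin0 : Module.Finite K (riemannRochSpace (S36LD_DO h.principal O n f (m₀ - 1))) :=
    RR_finite h _
  have h1 := RR_finite_add_single O (h.deg_one O) _ hfin0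
  rw [S36LD_DO_succ, hbot, finrank_bot, zero_add] at h1
  obtain ⟨hfin, hle⟩ := h1
  obtain ⟨φ₀, hφ₀mem, hφ₀⟩ := (Submodule.ne_bot_iff _).mp hne
  refine ⟨m₀, φ₀, h0, hg, hφ₀, hφ₀mem, ?_⟩
  intro ψ hψ
  have hone : Module.finrank K (riemannRochSpace (S36LD_DO h.principal O n f m₀)) = 1 := by
    apply le_antisymm hle
    rw [Nat.one_le_iff_ne_zero]
    intro h0'
    have := (Submodule.finrank_eq_zero (S := riemannRochSpace
      (S36LD_DO h.principal O n f m₀))).mp h0'
    exact hne this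
  have hφ' : (⟨φ₀, hφ₀mem⟩ : riemannRochSpace (S36LD_DO h.principal O n f m₀)) ≠ 0 := by
    intro h0'
    exact hφ₀ (congrArg Subtype.val h0')
  obtain ⟨a, ha⟩ := (finrank_eq_one_iff_of_nonzero' _ hφ').mp hone ⟨ψ, hψ⟩
  exact ⟨a, (congrArg Subtype.val ha).symm⟩

/-- **transport**: an automorphism `τ` of `F` acting on the places compatibly, fixing `O`, with
`τ f = c gⁿ f`, maps `L(D + m O)` to itself after multiplication by `g`. -/
theorem S36LD_transport (hP : HasPrincipalDivisors K F) (O : Place K F) (n : ℕ) (hn : 0 < n)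
    (f : F) (hf : f ≠ 0) (hdiv : ∀ v : Place K F, (n : ℤ) ∣ v.ord f)
    (τ : F ≃+* F) (τP : Place K F → Place K F) (hsurj : Function.Surjective τP)
    (hO : ∀ v, τP v = O ↔ v = O) (hord : ∀ (v : Place K F) (x : F), (τP v).ord (τ x) = v.ord x)
    (c g : F) (hc0 : c ≠ 0) (hc : ∀ v : Place K F, v.ord c = 0) (hg : g ≠ 0)
    (hτf : τ f = c * g ^ n * f) (m : ℤ) (φ : F)
    (hφ : φ ∈ riemannRochSpace (S36LD_DO hP O n f m)) :
    τ φ * g ∈ riemannRochSpace (S36LD_DO hP O n f m) := by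
  classical
  rcases eq_or_ne φ 0 with rfl | hφ0
  · rw [map_zero, zero_mul]
    exact Submodule.zero_mem _
  have hτφ0 : τ φ ≠ 0 := fun h0 => hφ0 ((map_eq_zero_iff τ τ.injective).mp h0)
  rw [mem_riemannRochSpace_iff] at hφ ⊢
  intro w
  right
  obtain ⟨v, rfl⟩ := hsurj w
  have h1 := (hφ v).resolve_left hφ0
  rw [Place.ord_mul _ hτφ0 hg, hord v φ]
  -- the order of `g`
  have hgn : g ^ n ≠ 0 := pow_ne_zero _ hg
  have h2 : (τP v).ord (τ f) = (n : ℤ) * (τP v).ord g + (τP v).ord f := by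
    rw [hτf, Place.ord_mul _ (mul_ne_zero hc0 hgn) hf, Place.ord_mul _ hc0 hgn, hc, zero_add,
      ← zpow_natCast, Place.ord_zpow]
  rw [hord v f] at h2
  have h3 : (n : ℤ) * (τP v).ord g =
      (n : ℤ) * (S36LD_D hP n f v - S36LD_D hP n f (τP v)) := by
    rw [mul_sub, S36LD_D_mul hP n f hdiv, S36LD_D_mul hP n f hdiv]
    linarith
  have hn0 : (n : ℤ) ≠ 0 := by exact_mod_cast hn.ne'
  have h4 : (τP v).ord g = S36LD_D hP n f v - S36LD_D hP n f (τP v) :=
    mul_left_cancel₀ hn0 h3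
  have h5 : (Finsupp.single O m : Divisor K F) (τP v) = (Finsupp.single O m : Divisor K F) v := by
    rw [Finsupp.single_apply, Finsupp.single_apply]
    by_cases hv : v = O
    · rw [if_pos ((hO v).mpr hv).symm, if_pos hv.symm]
    · rw [if_neg (fun h => hv ((hO v).mp h.symm)), if_neg (fun h => hv h.symm)]
  rw [S36LD_DO, Finsupp.add_apply] at h1 ⊢
  rw [h4, h5]
  linarith

end Abstract

/-! ### the cusp `∞` -/

section Cusp

local notation "ℚbar" => AlgebraicClosure ℚ

variable (N : ℕ) [NeZero N]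

/-- Riemann's theorem for `F = modularFunctionFieldBar N`. -/
theorem S36LD_hRR : RR_Hyp ℚbar ↥(modularFunctionFieldBar N) := by
  have := finiteDimensional_jB N
  exact RR_hyp_of_charZero (transcendental_jB N)

/-- the `q`-adic order on `F`. -/
def S36LD_w (f : ↥(modularFunctionFieldBar N)) : ℤ :=
  CU_w (modularFunctionFieldBar N).val f

theorem S36LD_w_def (f : ↥(modularFunctionFieldBar N)) :
    S36LD_w N f = (f : LaurentSeries ℚbar).order := rfl

theorem S36LD_w_isVal : IsVal (K := ℚbar) (S36LD_w N) :=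
  CU_w_isVal (modularFunctionFieldBar N).val

/-- the `q`-expansion of `j` has order `-1`. -/
theorem S36LD_order_jB : S36LD_w N (jB N) = -1 := by
  rw [S36LD_w_def]
  have hcoe : ((jB N : ↥(modularFunctionFieldBar N)) : LaurentSeries ℚbar) =
      coeffEmb ℚbar (qExpand ℚ 1 jq) := rfl
  rw [hcoe, qExpand_one_apply]
  have h1 : (coeffEmb ℚbar jq).coeff (-1) = 1 := by
    rw [coeffEmb_coeff, coeff_jq_neg_one, map_one]
  have hne : coeffEmb ℚbar jq ≠ 0 := by
    intro h0
    rw [h0] at h1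
    simp at h1
  apply le_antisymm
  · exact HahnSeries.order_le_of_coeff_ne_zero (by rw [h1]; exact one_ne_zero)
  · by_contra hlt
    push Not at hlt
    have h2 : (coeffEmb ℚbar jq).coeff (coeffEmb ℚbar jq).order ≠ 0 :=
      mt HahnSeries.coeff_order_eq_zero.mp hne
    apply h2
    rw [coeffEmb_coeff, coeff_jq_of_lt hlt, map_zero]

theorem S36LD_jB_ne_zero : jB N ≠ 0 := by
  intro h
  have h1 := S36LD_order_jB N
  rw [h, S36LD_w_def] at h1
  simp at h1

/-- the cusp `∞` of `X₀(N)`: the place of the `q`-adic order. -/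
def S36LD_O : Place ℚbar ↥(modularFunctionFieldBar N) :=
  (S36LD_w_isVal N).place (jB N)⁻¹ (inv_ne_zero (S36LD_jB_ne_zero N))
    (by rw [(S36LD_w_isVal N).inv (S36LD_jB_ne_zero N), S36LD_order_jB]; norm_num)

/-- `ord_O` is the order of the `q`-expansion. -/
theorem S36LD_ord_O {f : ↥(modularFunctionFieldBar N)} (hf : f ≠ 0) :
    (S36LD_O N).ord f = (f : LaurentSeries ℚbar).order := by
  obtain ⟨m, hm, _, hmf⟩ := (S36LD_w_isVal N).exists_mul_ord (jB N)⁻¹
    (inv_ne_zero (S36LD_jB_ne_zero N))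
    (by rw [(S36LD_w_isVal N).inv (S36LD_jB_ne_zero N), S36LD_order_jB]; norm_num)
  have h1 := hmf (jB N)⁻¹ (inv_ne_zero (S36LD_jB_ne_zero N))
  have h1' : S36LD_w N (jB N)⁻¹ = 1 := by
    rw [(S36LD_w_isVal N).inv (S36LD_jB_ne_zero N), S36LD_order_jB, neg_neg]
  have hm1 : m = 1 := by
    have hdvd : m ∣ 1 := ⟨_, h1'.symm.trans h1⟩
    exact Int.eq_one_of_dvd_one hm.le hdvd
  have h2 := hmf f hf
  rw [hm1, one_mul] at h2
  rw [← S36LD_w_def, h2]
  rfl

/-- membership in the valuation ring of `O`. -/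
theorem S36LD_mem_O_iff {f : ↥(modularFunctionFieldBar N)} :
    f ∈ (S36LD_O N).toValuationSubring ↔ f = 0 ∨ 0 ≤ (f : LaurentSeries ℚbar).order :=
  Iff.rfl

/-- an injective coefficient map preserves the order. -/
theorem S36LD_order_coeffMap {R S : Type*} [Field R] [Field S] (φ : R →+* S)
    (x : LaurentSeries R) : (coeffMap φ x).order = x.order := by
  by_cases hx : x = 0
  · rw [hx, map_zero, HahnSeries.order_zero, HahnSeries.order_zero]
  have hne : coeffMap φ x ≠ 0 := by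
    intro h0
    apply hx
    have := (coeffMap φ).injective (h0.trans (map_zero (coeffMap φ)).symm)
    exact this
  apply le_antisymm
  · apply HahnSeries.order_le_of_coeff_ne_zero
    rw [coeffMap_coeff]
    intro h0
    exact (mt HahnSeries.coeff_order_eq_zero.mp hx) ((map_eq_zero φ).mp h0)
  · apply HahnSeries.order_le_of_coeff_ne_zero
    intro h0
    apply mt HahnSeries.coeff_order_eq_zero.mp hne
    rw [coeffMap_coeff, h0, map_zero]

/-- the Galois action preserves the `q`-adic order. -/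
theorem S36LD_w_smul (σ : GQ) (f : ↥(modularFunctionFieldBar N)) :
    S36LD_w N (arithmeticGalois (modularFunctionFieldFull N) σ • f) = S36LD_w N f := by
  rw [S36LD_w_def, S36LD_w_def, coe_arithmeticGalois_smul, S36LD_order_coeffMap]

theorem S36LD_gal_ne_zero (σ : GQ) {f : ↥(modularFunctionFieldBar N)} (hf : f ≠ 0) :
    arithmeticGalois (modularFunctionFieldFull N) σ • f ≠ 0 := by
  intro h0
  apply hf
  have := congrArg (fun x => (arithmeticGalois (modularFunctionFieldFull N) σ)⁻¹ • x) h0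
  simpa using this

/-- **the cusp `∞` is rational**: `σ • O = O`. -/
theorem S36LD_smul_O (σ : GQ) :
    arithmeticGalois (modularFunctionFieldFull N) σ • S36LD_O N = S36LD_O N := by
  apply Place.ext
  rw [SemilinearAut.smul_toValuationSubring]
  ext f
  rw [ValuationSubring.mem_pointwise_smul_iff_inv_smul_mem, S36LD_mem_O_iff, S36LD_mem_O_iff,
    ← map_inv, ← S36LD_w_def, S36LD_w_smul, S36LD_w_def]
  constructor
  · rintro (h | h)
    · left
      by_contra hf
      exact S36LD_gal_ne_zero N σ⁻¹ hf h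
    · right; exact h
  · rintro (h | h)
    · left; rw [h, smul_zero]
    · right; exact h

end Cusp

/-! ### the canonical Kummer generator -/

section Main

local notation "ℚbar" => AlgebraicClosure ℚ

variable (N : ℕ) [NeZero N]

theorem S36LD_gal_eq_smul (σ : GQ) (x : ↥(modularFunctionFieldBar N)) :
    GR_gal N σ x = arithmeticGalois (modularFunctionFieldFull N) σ • x := rfl

/-- the Galois action on places is compatible with the orders. -/
theorem S36LD_ord_gal (σ : GQ) (v : Place ℚbar ↥(modularFunctionFieldBar N))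
    (x : ↥(modularFunctionFieldBar N)) :
    (arithmeticGalois (modularFunctionFieldFull N) σ • v).ord (GR_gal N σ x) = v.ord x :=
  SemilinearAut.ord_smul (arithmeticGalois (modularFunctionFieldFull N) σ) v x

/-- the Galois action on `q`-expansion coefficients. -/
theorem S36LD_coeff_gal (σ : GQ) (x : ↥(modularFunctionFieldBar N)) (k : ℤ) :
    ((GR_gal N σ x : ↥(modularFunctionFieldBar N)) : LaurentSeries ℚbar).coeff k =
      σ ((x : LaurentSeries ℚbar).coeff k) := by
  rw [show ((GR_gal N σ x : ↥(modularFunctionFieldBar N)) : LaurentSeries ℚbar) =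
    coeffMap (σ : ℚbar →+* ℚbar) (x : LaurentSeries ℚbar) from rfl, coeffMap_coeff]
  rfl

/-- coefficients of a constant multiple. -/
theorem S36LD_coeff_const_mul (c : ℚbar) (x : ↥(modularFunctionFieldBar N)) (k : ℤ) :
    ((algebraMap ℚbar ↥(modularFunctionFieldBar N) c * x : ↥(modularFunctionFieldBar N)) :
      LaurentSeries ℚbar).coeff k = c * (x : LaurentSeries ℚbar).coeff k := by
  have h1 : ((algebraMap ℚbar ↥(modularFunctionFieldBar N) c * x :
      ↥(modularFunctionFieldBar N)) : LaurentSeries ℚbar) = c • (x : LaurentSeries ℚbar) := by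
    have h2 : ((algebraMap ℚbar ↥(modularFunctionFieldBar N) c * x :
        ↥(modularFunctionFieldBar N)) : LaurentSeries ℚbar) =
        algebraMap ℚbar (LaurentSeries ℚbar) c * (x : LaurentSeries ℚbar) := rfl
    rw [h2, CU_algebraMap_eq_C, Algebra.algebraMap_self, RingHom.id_apply,
      HahnSeries.C_mul_eq_smul]
  rw [h1, HahnSeries.coeff_smul, smul_eq_mul]

theorem S36LD_gal_algebraMap (σ : GQ) (c : ℚbar) :
    GR_gal N σ (algebraMap ℚbar ↥(modularFunctionFieldBar N) c) =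
      algebraMap ℚbar ↥(modularFunctionFieldBar N) (σ c) :=
  arithmeticRingAut_algebraMap (modularFunctionFieldFull N) σ c

/-- **L-DESC, main theorem**: every Kummer class of exponent `n` contains a CANONICAL Kummer
generator `f'`: `div f' ≥ -n m₀ O` with `0 ≤ m₀ ≤ g`, and every `τ ∈ Gal(ℚ̄/ℚ)` fixing the class
of `f` fixes `f'`. -/
theorem S36LD_main (n : ℕ) (hn : 0 < n) (f : ↥(modularFunctionFieldBar N))
    (hf : KM_IsKum ℚbar ↥(modularFunctionFieldBar N) n f) :
    ∃ f' : ↥(modularFunctionFieldBar N),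
      KM_IsKum ℚbar ↥(modularFunctionFieldBar N) n f' ∧
      GR_IsTriv N n (f' * f⁻¹) ∧
      (∃ m₀ : ℤ, 0 ≤ m₀ ∧ m₀ ≤ (RR_genus ℚbar ↥(modularFunctionFieldBar N) : ℤ) ∧
        ∀ v : Place ℚbar ↥(modularFunctionFieldBar N),
          -((n : ℤ) * (Finsupp.single (S36LD_O N) m₀ : Divisor ℚbar
            ↥(modularFunctionFieldBar N)) v) ≤ v.ord f') ∧
      ∀ τ : GQ, GR_IsTriv N n (GR_gal N τ f * f⁻¹) → GR_gal N τ f' = f' := by
  classical
  obtain ⟨hf0, hdiv⟩ := hf
  have hR := S36LD_hRR N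
  obtain ⟨m₀, φ₀, hm0, hmg, hφ0, hφmem, hline⟩ :=
    S36LD_exists_gen hR (S36LD_O N) n hn f hdiv
  -- the unnormalised generator
  set f₁ : ↥(modularFunctionFieldBar N) := φ₀ ^ n * f with hf₁
  have hφn : φ₀ ^ n ≠ 0 := pow_ne_zero _ hφ0
  have hf₁0 : f₁ ≠ 0 := mul_ne_zero hφn hf0
  have hcoe0 : ((f₁ : ↥(modularFunctionFieldBar N)) : LaurentSeries ℚbar) ≠ 0 := by
    intro h0
    exact hf₁0 (Subtype.ext h0)
  set k₀ : ℤ := ((f₁ : ↥(modularFunctionFieldBar N)) : LaurentSeries ℚbar).order with hk₀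
  set a₀ : ℚbar := ((f₁ : ↥(modularFunctionFieldBar N)) : LaurentSeries ℚbar).coeff k₀ with ha₀
  have ha₀0 : a₀ ≠ 0 := mt HahnSeries.coeff_order_eq_zero.mp hcoe0
  have hc0 : algebraMap ℚbar ↥(modularFunctionFieldBar N) a₀⁻¹ ≠ 0 := by
    rw [Ne, map_eq_zero]
    exact inv_ne_zero ha₀0
  have hordf₁ : ∀ v : Place ℚbar ↥(modularFunctionFieldBar N),
      v.ord f₁ = (n : ℤ) * v.ord φ₀ + v.ord f := by
    intro v
    rw [hf₁, Place.ord_mul _ hφn hf0, ← zpow_natCast, Place.ord_zpow]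
  refine ⟨algebraMap ℚbar ↥(modularFunctionFieldBar N) a₀⁻¹ * f₁, ⟨mul_ne_zero hc0 hf₁0, ?_⟩,
    ?_, ⟨m₀, hm0, hmg, ?_⟩, ?_⟩
  · -- Kummer
    intro v
    rw [Place.ord_mul _ hc0 hf₁0, Fermat.Agent.S18.S18_Spec.ord_algebraMap, zero_add, hordf₁]
    exact dvd_add (dvd_mul_right _ _) (hdiv v)
  · -- same class
    refine ⟨a₀⁻¹, φ₀, inv_ne_zero ha₀0, hφ0, ?_⟩
    rw [hf₁, mul_assoc, mul_assoc, mul_inv_cancel₀ hf0, mul_one]
  · -- effectivity
    intro v
    rw [Place.ord_mul _ hc0 hf₁0, Fermat.Agent.S18.S18_Spec.ord_algebraMap, zero_add, hordf₁]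
    have h1 := ((mem_riemannRochSpace_iff.mp hφmem) v).resolve_left hφ0
    rw [S36LD_DO, Finsupp.add_apply] at h1
    have h2 := S36LD_D_mul hR.principal n f hdiv v
    have hn' : (0 : ℤ) ≤ n := Int.natCast_nonneg n
    nlinarith
  · -- invariance
    intro τ hτ
    obtain ⟨c, g, hc, hg, hcg⟩ := hτ
    have hτf : GR_gal N τ f = algebraMap ℚbar ↥(modularFunctionFieldBar N) c * g ^ n * f := by
      rw [← hcg, mul_assoc, inv_mul_cancel₀ hf0, mul_one]
    have hcc : algebraMap ℚbar ↥(modularFunctionFieldBar N) c ≠ 0 := by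
      rw [Ne, map_eq_zero]
      exact hc
    -- transport of the line
    have hψ := S36LD_transport hR.principal (S36LD_O N) n hn f hf0 hdiv (GR_gal N τ)
      (fun v => arithmeticGalois (modularFunctionFieldFull N) τ • v)
      (fun w => ⟨(arithmeticGalois (modularFunctionFieldFull N) τ)⁻¹ • w, by
        simp only [smul_inv_smul]⟩)
      (fun v => by
        constructor
        · intro h
          have h2 := congrArg (fun w => (arithmeticGalois (modularFunctionFieldFull N) τ)⁻¹ • w) h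
          simp only [inv_smul_smul] at h2
          rw [h2, ← map_inv, S36LD_smul_O]
        · intro h
          rw [h, S36LD_smul_O])
      (fun v x => S36LD_ord_gal N τ v x)
      (algebraMap ℚbar ↥(modularFunctionFieldBar N) c) g hcc
      (fun v => Fermat.Agent.S18.S18_Spec.ord_algebraMap v c) hg hτf m₀ φ₀ hφmem
    obtain ⟨b, hb⟩ := hline _ hψ
    have hτφ0 : GR_gal N τ φ₀ ≠ 0 :=
      fun h0 => hφ0 ((map_eq_zero_iff (GR_gal N τ) (GR_gal N τ).injective).mp h0)
    -- `τ f₁ = (bⁿ c) f₁`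
    have hτf₁ : GR_gal N τ f₁ =
        algebraMap ℚbar ↥(modularFunctionFieldBar N) (b ^ n * c) * f₁ := by
      calc GR_gal N τ f₁
          = (GR_gal N τ φ₀) ^ n *
              (algebraMap ℚbar ↥(modularFunctionFieldBar N) c * g ^ n * f) := by
            rw [hf₁, map_mul, map_pow, hτf]
        _ = algebraMap ℚbar ↥(modularFunctionFieldBar N) c * (GR_gal N τ φ₀ * g) ^ n * f := by
            ring
        _ = algebraMap ℚbar ↥(modularFunctionFieldBar N) c * (b • φ₀) ^ n * f := by rw [hb]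
        _ = algebraMap ℚbar ↥(modularFunctionFieldBar N) (b ^ n * c) * f₁ := by
            rw [Algebra.smul_def, map_mul, map_pow, hf₁]
            ring
    -- compare the leading coefficients
    have hcoef := congrArg (fun x : ↥(modularFunctionFieldBar N) =>
      ((x : ↥(modularFunctionFieldBar N)) : LaurentSeries ℚbar).coeff k₀) hτf₁
    simp only [S36LD_coeff_gal, S36LD_coeff_const_mul] at hcoef
    rw [← ha₀] at hcoef
    have hτa : τ a₀ ≠ 0 := by
      rw [Ne, map_eq_zero]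
      exact ha₀0
    have hbc : b ^ n * c ≠ 0 := by
      intro h0
      rw [h0, zero_mul] at hcoef
      exact hτa hcoef
    have key : τ a₀⁻¹ * (b ^ n * c) = a₀⁻¹ := by
      rw [map_inv₀, hcoef, mul_inv_rev, mul_assoc, inv_mul_cancel₀ hbc, mul_one]
    -- conclusion
    rw [map_mul, S36LD_gal_algebraMap, hτf₁, ← mul_assoc, ← map_mul, key]

/-- the `q`-expansion coefficients of a function fixed by `τ` are fixed by `τ`. -/
theorem S36LD_coeff_fixed (τ : GQ) (x : ↥(modularFunctionFieldBar N))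
    (hx : GR_gal N τ x = x) (k : ℤ) :
    τ ((x : LaurentSeries ℚbar).coeff k) = (x : LaurentSeries ℚbar).coeff k := by
  rw [← S36LD_coeff_gal, hx]

/-- the divisor `div(f)/n` of a function fixed by `τ` is fixed by `τ`. -/
theorem S36LD_D_fixed (n : ℕ) (τ : GQ) (x : ↥(modularFunctionFieldBar N))
    (hx : GR_gal N τ x = x) (v : Place ℚbar ↥(modularFunctionFieldBar N)) :
    S36LD_D (S36LD_hRR N).principal n x (arithmeticGalois (modularFunctionFieldFull N) τ • v) =
      S36LD_D (S36LD_hRR N).principal n x v := by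
  rw [S36LD_D_apply, S36LD_D_apply]
  congr 1
  have h := S36LD_ord_gal N τ v x
  rw [hx] at h
  exact h

/-- **L-DESC for a set `H` of Galois automorphisms** (e.g. an inertia group): a Kummer class of
exponent `n` fixed by `H` has a Kummer generator `f'` fixed by `H`, with `q`-expansion
coefficients fixed by `H`, and an `H`-invariant divisor `D'` with `n D' = div f'`,
`D' + m₀ O ≥ 0`, `0 ≤ m₀ ≤ g`. -/
theorem S36LD_of_fixed (H : Set GQ) (n : ℕ) (hn : 0 < n) (f : ↥(modularFunctionFieldBar N))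
    (hf : KM_IsKum ℚbar ↥(modularFunctionFieldBar N) n f)
    (hfix : ∀ τ ∈ H, GR_IsTriv N n (GR_gal N τ f * f⁻¹)) :
    ∃ f' : ↥(modularFunctionFieldBar N),
      KM_IsKum ℚbar ↥(modularFunctionFieldBar N) n f' ∧
      GR_IsTriv N n (f' * f⁻¹) ∧
      (∀ τ ∈ H, GR_gal N τ f' = f') ∧
      (∀ τ ∈ H, ∀ k : ℤ, τ ((f' : LaurentSeries ℚbar).coeff k) = (f' : LaurentSeries ℚbar).coeff k) ∧
      ∃ (D' : Divisor ℚbar ↥(modularFunctionFieldBar N)) (m₀ : ℤ),
        (∀ v, (n : ℤ) * D' v = v.ord f') ∧ D'.degree = 0 ∧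
        (∀ τ ∈ H, ∀ v, D' (arithmeticGalois (modularFunctionFieldFull N) τ • v) = D' v) ∧
        0 ≤ m₀ ∧ m₀ ≤ (RR_genus ℚbar ↥(modularFunctionFieldBar N) : ℤ) ∧
        ∀ v, 0 ≤ D' v + (Finsupp.single (S36LD_O N) m₀ : Divisor ℚbar
          ↥(modularFunctionFieldBar N)) v := by
  obtain ⟨f', hK, hT, ⟨m₀, hm0, hmg, heff⟩, hinv⟩ := S36LD_main N n hn f hf
  have hR := S36LD_hRR N
  refine ⟨f', hK, hT, fun τ hτ => hinv τ (hfix τ hτ),
    fun τ hτ k => S36LD_coeff_fixed N τ f' (hinv τ (hfix τ hτ)) k,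
    S36LD_D hR.principal n f', m₀, S36LD_D_mul hR.principal n f' hK.2,
    S36LD_D_degree hR.principal n hn f' hK.2,
    fun τ hτ v => S36LD_D_fixed N n τ f' (hinv τ (hfix τ hτ)) v, hm0, hmg, ?_⟩
  intro v
  have h1 := heff v
  have h2 := S36LD_D_mul hR.principal n f' hK.2 v
  have hn' : (0 : ℤ) < n := by exact_mod_cast hn
  by_contra hneg
  rw [not_le] at hneg
  have h3 : (n : ℤ) * (S36LD_D hR.principal n f' v +
      (Finsupp.single (S36LD_O N) m₀ : Divisor ℚbar ↥(modularFunctionFieldBar N)) v) < 0 :=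
    mul_neg_of_pos_of_neg hn' hneg
  rw [mul_add, h2] at h3
  linarith

/-- **L-DESC at an inertia group**: the shape consumed by TRACK 10. -/
theorem S36LD_inertia (P : ValuationSubring ℚbar) (n : ℕ) (hn : 0 < n)
    (f : ↥(modularFunctionFieldBar N))
    (hf : KM_IsKum ℚbar ↥(modularFunctionFieldBar N) n f)
    (hfix : ∀ τ ∈ P.inertiaSubgroupIn ℚ, GR_IsTriv N n (GR_gal N τ f * f⁻¹)) :
    ∃ f' : ↥(modularFunctionFieldBar N),
      KM_IsKum ℚbar ↥(modularFunctionFieldBar N) n f' ∧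
      GR_IsTriv N n (f' * f⁻¹) ∧
      (∀ τ ∈ P.inertiaSubgroupIn ℚ, GR_gal N τ f' = f') ∧
      (∀ τ ∈ P.inertiaSubgroupIn ℚ, ∀ k : ℤ,
        τ ((f' : LaurentSeries ℚbar).coeff k) = (f' : LaurentSeries ℚbar).coeff k) ∧
      ∃ (D' : Divisor ℚbar ↥(modularFunctionFieldBar N)) (m₀ : ℤ),
        (∀ v, (n : ℤ) * D' v = v.ord f') ∧ D'.degree = 0 ∧
        (∀ τ ∈ P.inertiaSubgroupIn ℚ, ∀ v,
          D' (arithmeticGalois (modularFunctionFieldFull N) τ • v) = D' v) ∧
        0 ≤ m₀ ∧ m₀ ≤ (RR_genus ℚbar ↥(modularFunctionFieldBar N) : ℤ) ∧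
        ∀ v, 0 ≤ D' v + (Finsupp.single (S36LD_O N) m₀ : Divisor ℚbar
          ↥(modularFunctionFieldBar N)) v :=
  S36LD_of_fixed N {τ | τ ∈ P.inertiaSubgroupIn ℚ} n hn f hf hfix

end Main

end

end Fermat.Agent.S36
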