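import Mathlib
import Fermat.Agent.S36.LDesc
import Fermat.Agent.S35.BridgeA
import Fermat.Prelude.Thm_ModularCurve_coeffMap_qExpand

/-!
# TRACK 10 (S36), package WIRE (helper2), layer 2a: descent of the hypotheses of CORE

`F_N = modularFunctionFieldBar N` with the Galois action `GR_gal N σ` on `q`-expansion
coefficients; `α, β : F_N → F_{N q}` (`heckeAlphaBar`, `heckeBetaBar`), `N_α = S35B_NA`,
`N_β = S35B_NB` the two norms.

* `S36WD_lc` : the leading `q`-expansion coefficient, multiplicative and Galois equivariant;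
* `S36WD_gal_alpha`, `S36WD_gal_beta` : `α`, `β` commute with the Galois action;
* `S36WD_NA_gal`, `S36WD_NB_gal` : the norms commute with the Galois action; in particular the
  norms of a function fixed by `H ⊆ G_ℚ` are fixed by `H` (`S36WD_NA_fixed`, `S36WD_NB_fixed`);
* `S36WD_const_of_pow_eq_one` : `wⁿ = 1` in `F_N` ⇒ `w` is a constant;
* **`S36WD_triv_descent`** : a trivial generator `u = c · gⁿ` fixed by `H` is trivial over the
  fixed field: `u = c' · g'ⁿ` with `c'`, `g'` fixed by `H` (and `g'` normalised: leading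
  coefficient `1`).  No Hilbert 90.
-/

set_option autoImplicit false
set_option linter.style.haveILetI false
set_option linter.unusedSectionVars false

open AlgebraicCurve ModularCurve HahnSeries

noncomputable section

namespace Fermat.Agent.S36

open Fermat.Agent.Lib Fermat.Agent.GalRep Fermat.Agent.S24 Fermat.Agent.S35

local notation "ℚbar" => AlgebraicClosure ℚ

/-! ### the leading coefficient -/

section lc

variable (N : ℕ) [NeZero N]

/-- the leading coefficient of the `q`-expansion. -/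
def S36WD_lc (f : ↥(modularFunctionFieldBar N)) : ℚbar :=
  (f : LaurentSeries ℚbar).leadingCoeff

theorem S36WD_lc_mul (f g : ↥(modularFunctionFieldBar N)) :
    S36WD_lc N (f * g) = S36WD_lc N f * S36WD_lc N g :=
  HahnSeries.leadingCoeff_mul (f : LaurentSeries ℚbar) (g : LaurentSeries ℚbar)

theorem S36WD_lc_one : S36WD_lc N 1 = 1 :=
  HahnSeries.leadingCoeff_one

theorem S36WD_lc_pow (f : ↥(modularFunctionFieldBar N)) (m : ℕ) :
    S36WD_lc N (f ^ m) = S36WD_lc N f ^ m := by
  induction m with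
  | zero => rw [pow_zero, pow_zero, S36WD_lc_one]
  | succ m ih => rw [pow_succ, pow_succ, S36WD_lc_mul, ih]

theorem S36WD_lc_ne_zero {f : ↥(modularFunctionFieldBar N)} (hf : f ≠ 0) : S36WD_lc N f ≠ 0 := by
  unfold S36WD_lc
  rw [HahnSeries.leadingCoeff_ne_zero]
  intro h0
  exact hf (Subtype.ext h0)

theorem S36WD_lc_const (c : ℚbar) :
    S36WD_lc N (algebraMap ℚbar ↥(modularFunctionFieldBar N) c) = c := by
  unfold S36WD_lc
  have h : ((algebraMap ℚbar ↥(modularFunctionFieldBar N) c : ↥(modularFunctionFieldBar N)) :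
      LaurentSeries ℚbar) = HahnSeries.single 0 c := by
    have h2 : ((algebraMap ℚbar ↥(modularFunctionFieldBar N) c : ↥(modularFunctionFieldBar N)) :
        LaurentSeries ℚbar) = algebraMap ℚbar (LaurentSeries ℚbar) c := rfl
    rw [h2, CU_algebraMap_eq_C, Algebra.algebraMap_self, RingHom.id_apply]
    rfl
  rw [h, HahnSeries.leadingCoeff_of_single]

theorem S36WD_lc_gal (σ : GQ) (f : ↥(modularFunctionFieldBar N)) :
    S36WD_lc N (GR_gal N σ f) = σ (S36WD_lc N f) := by
  unfold S36WD_lc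
  rw [HahnSeries.leadingCoeff_eq, HahnSeries.leadingCoeff_eq, S36LD_coeff_gal]
  have h : ((GR_gal N σ f : ↥(modularFunctionFieldBar N)) : LaurentSeries ℚbar).order
      = (f : LaurentSeries ℚbar).order := by
    rw [show ((GR_gal N σ f : ↥(modularFunctionFieldBar N)) : LaurentSeries ℚbar) =
      coeffMap (σ : ℚbar →+* ℚbar) (f : LaurentSeries ℚbar) from rfl, S36LD_order_coeffMap]
  rw [h]

/-- an `n`-th root of unity of `F_N` is a constant. -/
theorem S36WD_const_of_pow_eq_one {n : ℕ} (hn : 0 < n) (w : ↥(modularFunctionFieldBar N))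
    (hw : w ^ n = 1) : ∃ ζ : ℚbar, algebraMap ℚbar ↥(modularFunctionFieldBar N) ζ = w := by
  have hint : IsIntegral ℚbar w := by
    refine ⟨Polynomial.X ^ n - Polynomial.C 1, Polynomial.monic_X_pow_sub_C 1 hn.ne', ?_⟩
    simp [hw]
  have hdeg := IsAlgClosed.degree_eq_one_of_irreducible ℚbar (minpoly.irreducible hint)
  exact minpoly.mem_range_of_degree_eq_one ℚbar w hdeg

/-- **descent of triviality**: a trivial generator fixed by `H` is trivial over the fixed field. -/
theorem S36WD_triv_descent {n : ℕ} (hn : 0 < n) (H : Set GQ) (u : ↥(modularFunctionFieldBar N))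
    (hfix : ∀ τ ∈ H, GR_gal N τ u = u) (ht : GR_IsTriv N n u) :
    ∃ (c : ℚbar) (g : ↥(modularFunctionFieldBar N)), c ≠ 0 ∧ g ≠ 0 ∧
      u = algebraMap ℚbar ↥(modularFunctionFieldBar N) c * g ^ n ∧
      (∀ τ ∈ H, τ c = c) ∧ (∀ τ ∈ H, GR_gal N τ g = g) ∧ S36WD_lc N g = 1 := by
  obtain ⟨c, g, hc, hg, rfl⟩ := ht
  set a := S36WD_lc N g with ha
  have ha0 : a ≠ 0 := S36WD_lc_ne_zero N hg
  set g' : ↥(modularFunctionFieldBar N) := algebraMap ℚbar ↥(modularFunctionFieldBar N) a⁻¹ * g
    with hg'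
  set c' : ℚbar := c * a ^ n with hc'
  have hai : algebraMap ℚbar ↥(modularFunctionFieldBar N) a⁻¹ ≠ 0 := by
    rw [Ne, map_eq_zero]
    exact inv_ne_zero ha0
  have hg'0 : g' ≠ 0 := mul_ne_zero hai hg
  have hc'0 : c' ≠ 0 := mul_ne_zero hc (pow_ne_zero n ha0)
  have hlc : S36WD_lc N g' = 1 := by
    rw [hg', S36WD_lc_mul, S36WD_lc_const, ← ha, inv_mul_cancel₀ ha0]
  have hu : algebraMap ℚbar ↥(modularFunctionFieldBar N) c * g ^ n
      = algebraMap ℚbar ↥(modularFunctionFieldBar N) c' * g' ^ n := by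
    have haF : algebraMap ℚbar ↥(modularFunctionFieldBar N) a ≠ 0 := by
      rw [Ne, map_eq_zero]
      exact ha0
    rw [hg', hc', mul_pow, map_mul, map_pow, map_inv₀, inv_pow]
    field_simp
  have hc'F : algebraMap ℚbar ↥(modularFunctionFieldBar N) c' ≠ 0 := by
    rw [Ne, map_eq_zero]
    exact hc'0
  -- the action of `τ ∈ H`
  have key : ∀ τ ∈ H, τ c' = c' ∧ GR_gal N τ g' = g' := by
    intro τ hτ
    have h1 := hfix τ hτ
    rw [hu, map_mul, map_pow, S36LD_gal_algebraMap] at h1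
    have h2 := congrArg (S36WD_lc N) h1
    rw [S36WD_lc_mul, S36WD_lc_mul, S36WD_lc_const, S36WD_lc_const, S36WD_lc_pow, S36WD_lc_pow,
      S36WD_lc_gal, hlc, map_one, one_pow, mul_one, mul_one] at h2
    refine ⟨h2, ?_⟩
    rw [h2] at h1
    have h3 : (GR_gal N τ g') ^ n = g' ^ n := mul_left_cancel₀ hc'F h1
    set w : ↥(modularFunctionFieldBar N) := GR_gal N τ g' * g'⁻¹ with hw
    have hwn : w ^ n = 1 := by
      rw [hw, mul_pow, h3, inv_pow, mul_inv_cancel₀ (pow_ne_zero n hg'0)]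
    obtain ⟨ζ, hζ⟩ := S36WD_const_of_pow_eq_one N hn w hwn
    have hlcw : S36WD_lc N w = 1 := by
      have hinv : S36WD_lc N g'⁻¹ = 1 := by
        have := S36WD_lc_mul N g' g'⁻¹
        rw [mul_inv_cancel₀ hg'0, S36WD_lc_one, hlc, one_mul] at this
        exact this.symm
      rw [hw, S36WD_lc_mul, S36WD_lc_gal, hlc, map_one, hinv, mul_one]
    have hζ1 : ζ = 1 := by
      rw [← hζ, S36WD_lc_const] at hlcw
      exact hlcw
    have hw1 : w = 1 := by rw [← hζ, hζ1, map_one]
    have : GR_gal N τ g' = w * g' := by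
      rw [hw, mul_assoc, inv_mul_cancel₀ hg'0, mul_one]
    rw [this, hw1, one_mul]
  exact ⟨c', g', hc'0, hg'0, hu, fun τ hτ => (key τ hτ).1, fun τ hτ => (key τ hτ).2, hlc⟩

end lc

/-! ### the degeneracy maps and the norms commute with the Galois action -/

section norms

variable (N q : ℕ) [NeZero N] [NeZero q] [NeZero (N * q)]

theorem S36WD_gal_alpha (σ : GQ) (x : ↥(modularFunctionFieldBar N)) :
    GR_gal (N * q) σ (heckeAlphaBar ℚbar N q x) = heckeAlphaBar ℚbar N q (GR_gal N σ x) := by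
  apply Subtype.ext
  rw [coe_arithmeticRingAut_apply, coe_heckeAlphaBar, coe_heckeAlphaBar,
    coe_arithmeticRingAut_apply]

theorem S36WD_gal_beta (σ : GQ) (x : ↥(modularFunctionFieldBar N)) :
    GR_gal (N * q) σ (heckeBetaBar ℚbar N q x) = heckeBetaBar ℚbar N q (GR_gal N σ x) := by
  apply Subtype.ext
  rw [coe_arithmeticRingAut_apply, coe_heckeBetaBar, coe_heckeBetaBar,
    coe_arithmeticRingAut_apply]
  exact ModularCurve.coeffMap_qExpand _ q _

/-- the norm along `α` commutes with the Galois action. -/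
theorem S36WD_NA_gal (σ : GQ) (x : ↥(modularFunctionFieldBar (N * q))) :
    S35B_NA N q (GR_gal (N * q) σ x) = GR_gal N σ (S35B_NA N q x) := by
  letI : Algebra ↥(modularFunctionFieldBar N) ↥(modularFunctionFieldBar (N * q)) :=
    (heckeAlphaBar ℚbar N q).toRingHom.toAlgebra
  have he : RingHom.comp (algebraMap ↥(modularFunctionFieldBar N)
        ↥(modularFunctionFieldBar (N * q)))
        ((GR_gal N σ : ↥(modularFunctionFieldBar N) ≃+* ↥(modularFunctionFieldBar N)) :
          ↥(modularFunctionFieldBar N) →+* ↥(modularFunctionFieldBar N))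
      = RingHom.comp ((GR_gal (N * q) σ : ↥(modularFunctionFieldBar (N * q)) ≃+*
          ↥(modularFunctionFieldBar (N * q))) : ↥(modularFunctionFieldBar (N * q)) →+*
            ↥(modularFunctionFieldBar (N * q)))
        (algebraMap ↥(modularFunctionFieldBar N) ↥(modularFunctionFieldBar (N * q))) := by
    refine RingHom.ext fun y => ?_
    exact (S36WD_gal_alpha N q σ y).symm
  have h := Algebra.norm_eq_of_equiv_equiv (GR_gal N σ) (GR_gal (N * q) σ) he x
  show Algebra.norm ↥(modularFunctionFieldBar N) (GR_gal (N * q) σ x)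
    = GR_gal N σ (Algebra.norm ↥(modularFunctionFieldBar N) x)
  rw [h, RingEquiv.apply_symm_apply]

/-- the norm along `β` commutes with the Galois action. -/
theorem S36WD_NB_gal (σ : GQ) (x : ↥(modularFunctionFieldBar (N * q))) :
    S35B_NB N q (GR_gal (N * q) σ x) = GR_gal N σ (S35B_NB N q x) := by
  letI : Algebra ↥(modularFunctionFieldBar N) ↥(modularFunctionFieldBar (N * q)) :=
    (heckeBetaBar ℚbar N q).toRingHom.toAlgebra
  have he : RingHom.comp (algebraMap ↥(modularFunctionFieldBar N)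
        ↥(modularFunctionFieldBar (N * q)))
        ((GR_gal N σ : ↥(modularFunctionFieldBar N) ≃+* ↥(modularFunctionFieldBar N)) :
          ↥(modularFunctionFieldBar N) →+* ↥(modularFunctionFieldBar N))
      = RingHom.comp ((GR_gal (N * q) σ : ↥(modularFunctionFieldBar (N * q)) ≃+*
          ↥(modularFunctionFieldBar (N * q))) : ↥(modularFunctionFieldBar (N * q)) →+*
            ↥(modularFunctionFieldBar (N * q)))
        (algebraMap ↥(modularFunctionFieldBar N) ↥(modularFunctionFieldBar (N * q))) := by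
    refine RingHom.ext fun y => ?_
    exact (S36WD_gal_beta N q σ y).symm
  have h := Algebra.norm_eq_of_equiv_equiv (GR_gal N σ) (GR_gal (N * q) σ) he x
  show Algebra.norm ↥(modularFunctionFieldBar N) (GR_gal (N * q) σ x)
    = GR_gal N σ (Algebra.norm ↥(modularFunctionFieldBar N) x)
  rw [h, RingEquiv.apply_symm_apply]

theorem S36WD_NA_fixed (H : Set GQ) (x : ↥(modularFunctionFieldBar (N * q)))
    (hx : ∀ τ ∈ H, GR_gal (N * q) τ x = x) (τ : GQ) (hτ : τ ∈ H) :
    GR_gal N τ (S35B_NA N q x) = S35B_NA N q x := by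
  rw [← S36WD_NA_gal, hx τ hτ]

theorem S36WD_NB_fixed (H : Set GQ) (x : ↥(modularFunctionFieldBar (N * q)))
    (hx : ∀ τ ∈ H, GR_gal (N * q) τ x = x) (τ : GQ) (hτ : τ ∈ H) :
    GR_gal N τ (S35B_NB N q x) = S35B_NB N q x := by
  rw [← S36WD_NB_gal, hx τ hτ]

/-- **the hypotheses of CORE over the fixed field**: for `f` fixed by `H` with trivial norms, the
norms are `c · gⁿ` with `c`, `g` fixed by `H`. -/
theorem S36WD_norms_descent {n : ℕ} (hn : 0 < n) (H : Set GQ)
    (f : ↥(modularFunctionFieldBar (N * q))) (hf : ∀ τ ∈ H, GR_gal (N * q) τ f = f)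
    (hA : GR_IsTriv N n (S35B_NA N q f)) (hB : GR_IsTriv N n (S35B_NB N q f)) :
    (∃ (c : ℚbar) (g : ↥(modularFunctionFieldBar N)), c ≠ 0 ∧ g ≠ 0 ∧
      S35B_NA N q f = algebraMap ℚbar ↥(modularFunctionFieldBar N) c * g ^ n ∧
      (∀ τ ∈ H, τ c = c) ∧ (∀ τ ∈ H, GR_gal N τ g = g) ∧ S36WD_lc N g = 1) ∧
    (∃ (c : ℚbar) (g : ↥(modularFunctionFieldBar N)), c ≠ 0 ∧ g ≠ 0 ∧
      S35B_NB N q f = algebraMap ℚbar ↥(modularFunctionFieldBar N) c * g ^ n ∧
      (∀ τ ∈ H, τ c = c) ∧ (∀ τ ∈ H, GR_gal N τ g = g) ∧ S36WD_lc N g = 1) :=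
  ⟨S36WD_triv_descent N hn H _ (S36WD_NA_fixed N q H f hf) hA,
    S36WD_triv_descent N hn H _ (S36WD_NB_fixed N q H f hf) hB⟩

end norms

end Fermat.Agent.S36
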