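import Mathlib
import Fermat.Agent.S36.AuxRNorm
import Fermat.Agent.S36.WireDesc
import Fermat.Agent.S36.Comp3Types
import Fermat.Agent.S36.Comp3Hyp

/-!
# TRACK 10 (S36), COMP3-INST, package NORM-L (helper18): the norms on the fixed fields

`H ≤ Gal(ℚ̄/ℚ)`, levels `N` and `N * q` (`q` prime).  `F₂,L = (S36FI_act (N * q) H).fixF`,
`F₁,L = (S36FI_act N H).fixF`, `L = (S36FI_act (N * q) H).fixK`; `F₁,L` is an `L`-algebra by
`S36CT_alg (N * q) N H`.

* `S36CN_NA N q H`, `S36CN_NB N q H : (F₂,L)ˣ →* (F₁,L)ˣ` — the restrictions of the norms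
  `S35B_NA N q`, `S35B_NB N q` along `α`, `β` to the units of the fixed fields;
* `S36CN_NA_coe`, `S36CN_NB_coe` : their values in `F_N` (the hypotheses `hN₁`, `hN₂` of
  `S36WC_coreL_body`);
* `S36CN_NA_const`, `S36CN_NB_const` : `N (const c) = const (c ^ D)` over `L`
  (`N₁_const`, `N₂_const` of `S36CH_Hyp`), `D = S36XN_deg N q`.
-/

set_option autoImplicit false
set_option synthInstance.maxHeartbeats 400000
set_option maxHeartbeats 1000000
set_option linter.unusedSectionVars false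
set_option linter.style.haveILetI false

open HahnSeries IntermediateField AlgebraicCurve ModularCurve

noncomputable section

namespace Fermat.Agent.S36

open Fermat.Agent.S34 Fermat.Agent.S24 Fermat.Agent.GalRep Fermat.Agent.S35

variable (N q : ℕ) [NeZero N] [NeZero q] [NeZero (N * q)]
  (H : Subgroup (AlgebraicClosure ℚ ≃ₐ[ℚ] AlgebraicClosure ℚ))

/-- the norm along `α` maps `H`-fixed functions to `H`-fixed functions. -/
theorem S36CN_NA_mem {x : ↥(modularFunctionFieldBar (N * q))}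
    (hx : x ∈ (S36FI_act (N * q) H).fixF) : S35B_NA N q x ∈ (S36FI_act N H).fixF := by
  rw [S36FI_mem_fixF] at hx ⊢
  exact fun τ hτ => S36WD_NA_fixed N q (H : Set GQ) x hx τ hτ

/-- the norm along `β` maps `H`-fixed functions to `H`-fixed functions. -/
theorem S36CN_NB_mem {x : ↥(modularFunctionFieldBar (N * q))}
    (hx : x ∈ (S36FI_act (N * q) H).fixF) : S35B_NB N q x ∈ (S36FI_act N H).fixF := by
  rw [S36FI_mem_fixF] at hx ⊢
  exact fun τ hτ => S36WD_NB_fixed N q (H : Set GQ) x hx τ hτ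

theorem S36CN_NA_one : S35B_NA N q 1 = 1 := by
  letI := algebraAlong (heckeAlphaBar (AlgebraicClosure ℚ) N q)
  exact map_one (Algebra.norm ↥(modularFunctionFieldBar N))

theorem S36CN_NB_one : S35B_NB N q 1 = 1 := by
  letI := algebraAlong (heckeBetaBar (AlgebraicClosure ℚ) N q)
  exact map_one (Algebra.norm ↥(modularFunctionFieldBar N))

theorem S36CN_NA_mul (x y : ↥(modularFunctionFieldBar (N * q))) :
    S35B_NA N q (x * y) = S35B_NA N q x * S35B_NA N q y :=
  S36XN_normAlpha_mul N q x y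

theorem S36CN_NB_mul (x y : ↥(modularFunctionFieldBar (N * q))) :
    S35B_NB N q (x * y) = S35B_NB N q x * S35B_NB N q y :=
  S36XN_normBeta_mul N q x y

/-- the norm along `α` on the fixed fields, as a monoid homomorphism. -/
def S36CN_NAfix : ↥(S36FI_act (N * q) H).fixF →* ↥(S36FI_act N H).fixF where
  toFun x := ⟨S35B_NA N q (x : ↥(modularFunctionFieldBar (N * q))), S36CN_NA_mem N q H x.2⟩
  map_one' := Subtype.ext (S36CN_NA_one N q)
  map_mul' _ _ := Subtype.ext (S36CN_NA_mul N q _ _)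

/-- the norm along `β` on the fixed fields, as a monoid homomorphism. -/
def S36CN_NBfix : ↥(S36FI_act (N * q) H).fixF →* ↥(S36FI_act N H).fixF where
  toFun x := ⟨S35B_NB N q (x : ↥(modularFunctionFieldBar (N * q))), S36CN_NB_mem N q H x.2⟩
  map_one' := Subtype.ext (S36CN_NB_one N q)
  map_mul' _ _ := Subtype.ext (S36CN_NB_mul N q _ _)

/-- **`N₁`**: the norm along `α` on the units of the fixed fields. -/
def S36CN_NA : (↥(S36FI_act (N * q) H).fixF)ˣ →* (↥(S36FI_act N H).fixF)ˣ :=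
  Units.map (S36CN_NAfix N q H)

/-- **`N₂`**: the norm along `β` on the units of the fixed fields. -/
def S36CN_NB : (↥(S36FI_act (N * q) H).fixF)ˣ →* (↥(S36FI_act N H).fixF)ˣ :=
  Units.map (S36CN_NBfix N q H)

/-- `hN₁` of `S36WC_coreL_body`. -/
theorem S36CN_NA_coe (u : (↥(S36FI_act (N * q) H).fixF)ˣ) :
    (((S36CN_NA N q H u : (↥(S36FI_act N H).fixF)ˣ) : ↥(S36FI_act N H).fixF) :
        ↥(modularFunctionFieldBar N)) =
      S35B_NA N q (((u : ↥(S36FI_act (N * q) H).fixF)) : ↥(modularFunctionFieldBar (N * q))) :=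
  rfl

/-- `hN₂` of `S36WC_coreL_body`. -/
theorem S36CN_NB_coe (u : (↥(S36FI_act (N * q) H).fixF)ˣ) :
    (((S36CN_NB N q H u : (↥(S36FI_act N H).fixF)ˣ) : ↥(S36FI_act N H).fixF) :
        ↥(modularFunctionFieldBar N)) =
      S35B_NB N q (((u : ↥(S36FI_act (N * q) H).fixF)) : ↥(modularFunctionFieldBar (N * q))) :=
  rfl

variable (hq : q.Prime)

include hq in
/-- `N₁_const` of `S36CH_Hyp`, with the explicit constant `c ^ D`. -/
theorem S36CN_NA_const' (c : (↥(S36FI_act (N * q) H).fixK)ˣ) :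
    S36CN_NA N q H (S36CH_const ↥(S36FI_act (N * q) H).fixK ↥(S36FI_act (N * q) H).fixF c) =
      @S36CH_const ↥(S36FI_act (N * q) H).fixK ↥(S36FI_act N H).fixF _ _
        (S36CT_alg (N * q) N H) (c ^ S36XN_deg N q) := by
  apply Units.ext
  apply Subtype.ext
  show S35B_NA N q (algebraMap (AlgebraicClosure ℚ) ↥(modularFunctionFieldBar (N * q))
      ((c : ↥(S36FI_act (N * q) H).fixK) : AlgebraicClosure ℚ)) =
    algebraMap (AlgebraicClosure ℚ) ↥(modularFunctionFieldBar N)
      ((((c ^ S36XN_deg N q : (↥(S36FI_act (N * q) H).fixK)ˣ) :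
        ↥(S36FI_act (N * q) H).fixK)) : AlgebraicClosure ℚ)
  rw [Units.val_pow_eq_pow_val, SubmonoidClass.coe_pow]
  exact S36XN_normAlpha_const N q hq _

include hq in
/-- `N₂_const` of `S36CH_Hyp`, with the explicit constant `c ^ D`. -/
theorem S36CN_NB_const' (c : (↥(S36FI_act (N * q) H).fixK)ˣ) :
    S36CN_NB N q H (S36CH_const ↥(S36FI_act (N * q) H).fixK ↥(S36FI_act (N * q) H).fixF c) =
      @S36CH_const ↥(S36FI_act (N * q) H).fixK ↥(S36FI_act N H).fixF _ _
        (S36CT_alg (N * q) N H) (c ^ S36XN_deg N q) := by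
  apply Units.ext
  apply Subtype.ext
  show S35B_NB N q (algebraMap (AlgebraicClosure ℚ) ↥(modularFunctionFieldBar (N * q))
      ((c : ↥(S36FI_act (N * q) H).fixK) : AlgebraicClosure ℚ)) =
    algebraMap (AlgebraicClosure ℚ) ↥(modularFunctionFieldBar N)
      ((((c ^ S36XN_deg N q : (↥(S36FI_act (N * q) H).fixK)ˣ) :
        ↥(S36FI_act (N * q) H).fixK)) : AlgebraicClosure ℚ)
  rw [Units.val_pow_eq_pow_val, SubmonoidClass.coe_pow]
  exact S36XN_normBeta_const N q hq _

include hq in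
/-- `N₁_const` in the shape of `S36CH_Hyp`. -/
theorem S36CN_NA_const (c : (↥(S36FI_act (N * q) H).fixK)ˣ) :
    ∃ c' : (↥(S36FI_act (N * q) H).fixK)ˣ,
      S36CN_NA N q H (S36CH_const ↥(S36FI_act (N * q) H).fixK ↥(S36FI_act (N * q) H).fixF c) =
        @S36CH_const ↥(S36FI_act (N * q) H).fixK ↥(S36FI_act N H).fixF _ _
          (S36CT_alg (N * q) N H) c' :=
  ⟨_, S36CN_NA_const' N q H hq c⟩

include hq in
/-- `N₂_const` in the shape of `S36CH_Hyp`. -/
theorem S36CN_NB_const (c : (↥(S36FI_act (N * q) H).fixK)ˣ) :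
    ∃ c' : (↥(S36FI_act (N * q) H).fixK)ˣ,
      S36CN_NB N q H (S36CH_const ↥(S36FI_act (N * q) H).fixK ↥(S36FI_act (N * q) H).fixF c) =
        @S36CH_const ↥(S36FI_act (N * q) H).fixK ↥(S36FI_act N H).fixF _ _
          (S36CT_alg (N * q) N H) c' :=
  ⟨_, S36CN_NB_const' N q H hq c⟩

end Fermat.Agent.S36
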