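import Mathlib
import Fermat.Agent.GalRep.Geom
import Fermat.Agent.GalRep.TwrIso
import Fermat.Agent.S41.DegPoly

/-!
# TRACK 10 (S36), package ALG36 (helper2): the INTERFACE between the geometry and the algebra

Level `N * q`, `q` prime (the case of interest: `q ∣ N`, `q² ∤ N`, i.e. `q² ∥ N q`);
`F = modularFunctionFieldBar (N * q)`; exponent `n = p ^ k`, `p` a prime `≠ q`.
Everything is stated with the notions of `GalRep/Geom.lean` and `S35/Iface.lean`: Kummer generators
`KM_IsKum`, trivial generators `GR_IsTriv`, the Galois action `GR_gal`, Kummer characters `GR_KChar`,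
the `q`-new part `S41D_B N q = ker trA ⊓ ker trB ⊆ parInt (N * q)` (the two transfers to level `N`).

* `S36A_G36K N q p` : **(G36-K)** there is `c ≠ 0` such that every Kummer generator `f` of exponent
  `p ^ k` whose Kummer character is the reduction of a `q`-new class `z ∈ S41D_B N q` and whose
  class is fixed by an inertia group at `q` (`τ f / f` trivial for all `τ`) satisfies: `f ^ c` is
  trivial.  In words: *the inertia-fixed `q`-new classes of `p`-power exponent are killed by a
  fixed integer*.

ALG36 (`S36/AlgMain.lean`) proves the frozen statement S36 from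
`∀ N q p, q ∣ N → ¬ q ^ 2 ∣ N → q ≠ p → S36A_G36K N q p`.
-/

set_option autoImplicit false

open ModularCurve AlgebraicCurve CongruenceSubgroup

namespace Fermat.Agent.S36

open Fermat.Agent.GalRep Fermat.Agent.S16 Fermat.Agent.S41 Fermat.Agent.S24

/-- **(G36-K)**: the inertia-fixed `q`-new Kummer classes of exponent `p ^ k` (all `k`) of level
`N * q` are killed by a fixed integer `c ≠ 0`. -/
def S36A_G36K (N q p : ℕ) [NeZero N] [NeZero (N * q)] [Fact q.Prime] : Prop :=
  ∃ c : ℕ, c ≠ 0 ∧ ∀ (k : ℕ),
    ∀ P : ValuationSubring (AlgebraicClosure ℚ), P.LiesOverPrime q →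
      ∀ (f : ↥(modularFunctionFieldBar (N * q))) (z : ↥(parInt (N * q))),
        z ∈ S41D_B N q →
        KM_IsKum (AlgebraicClosure ℚ) ↥(modularFunctionFieldBar (N * q)) (p ^ k) f →
        GR_KChar (N * q) (p ^ k) f
          ((GRT_red (N * q) (p ^ k) z : ↥(GRT_X (N * q) (p ^ k))) :
            Additive (Gamma0 (N * q)) →+ ZMod (p ^ k)) →
        (∀ τ ∈ P.inertiaSubgroupIn ℚ,
          GR_IsTriv (N * q) (p ^ k) (GR_gal (N * q) τ f * f⁻¹)) →
        GR_IsTriv (N * q) (p ^ k) (f ^ c)

/-- the hypothesis of ALG36: (G36-K) at every level `N q` with `q ∥ N` and every prime `p ≠ q`. -/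
def S36A_G36KAll : Prop :=
  ∀ (N q p : ℕ) [NeZero N] [NeZero (N * q)] [Fact q.Prime] [Fact p.Prime],
    q ∣ N → ¬ q ^ 2 ∣ N → q ≠ p → S36A_G36K N q p

end Fermat.Agent.S36
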