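import Mathlib
import Fermat.Agent.S35.BridgeB

/-!
# TRACK 10 (S36), package BRIDGE2 (helper27): helper8's BRIDGE at a prime `q ∣ N`

Level `N q` with `q` prime and `q ∣ N` (for S36: `N = q M'`, level `N q = q² M'`).
`α = heckeAlphaBar : F_N → F_{Nq}` (the inclusion), `β = heckeBetaBar` (`f(t) ↦ f(t^q)`),
`N_α = S35B_NA N q`, `N_β = S35B_NB N q` the two norms `F_{Nq} → F_N` (both of degree `q` now).

* `S36B_lA`, `S36B_lA_bijective` : the transversal `[[1,0],[jN,1]]`, `j ∈ ZMod q`, of `Γ₀(N)/Γ₀(Nq)`;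
* `S36B_tB_bijective`            : the transversal `[[1,j],[0,1]]`, `j ∈ ZMod q`, of `Γ₀(N)/range deg`;
* `S36B_ev_NA`, `S36B_ev_NB`     : the norm formulas in `Mer` (products over the `q` embeddings);
* `S36B_NA_char`, `S36B_NB_char` : `KChar x = red z ⇒ KChar (N_α x) = red (trA z)`, same for `β`;
* `S36B_bridge`                  : **BRIDGE2**: `z ∈ S41D_B N q = ker trA ⊓ ker trB`, `x` a Kummer
  generator with `KChar x = red z`  `⇒  GR_IsTriv N n (N_α x) ∧ GR_IsTriv N n (N_β x)`.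
-/

set_option autoImplicit false
set_option synthInstance.maxHeartbeats 400000
set_option maxHeartbeats 1000000
set_option linter.style.haveILetI false
set_option linter.unusedSectionVars false

open UpperHalfPlane hiding I
open scoped MatrixGroups Manifold ModularForm
open CongruenceSubgroup Matrix.SpecialLinearGroup ModularCurve AlgebraicCurve IntermediateField
open P2MW.S_ModularForm_heckeT_slash_eq_self_of_mem_Gamma0.ModularForm.HeckeSlashInvariance
open ModularForm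

noncomputable section

namespace Fermat.Agent.S36

open Fermat.Agent.S24 Fermat.Agent.S16 Fermat.Agent.GalRep Fermat.Agent.S41 Fermat.Agent.S20
open Fermat.Agent.S28 Fermat.Agent.S35

/-! ### the two transversals for `q ∣ N` -/

section transversals

variable (N : ℕ)

/-- the lower unipotent `[[1,0],[m N,1]] ∈ Γ₀(N)`. -/
def S36B_lA (m : ℤ) : Gamma0 N :=
  ⟨S41A_imk 1 0 (m * N) 1 (by ring), by rw [S41A_Gamma0_mem_iff]; exact ⟨m, by simp [mul_comm]⟩⟩

theorem S36B_lA_00 (m : ℤ) : ((S36B_lA N m : Gamma0 N) : SL(2, ℤ)) 0 0 = 1 := rfl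
theorem S36B_lA_01 (m : ℤ) : ((S36B_lA N m : Gamma0 N) : SL(2, ℤ)) 0 1 = 0 := rfl
theorem S36B_lA_10 (m : ℤ) : ((S36B_lA N m : Gamma0 N) : SL(2, ℤ)) 1 0 = m * N := rfl
theorem S36B_lA_11 (m : ℤ) : ((S36B_lA N m : Gamma0 N) : SL(2, ℤ)) 1 1 = 1 := rfl

variable {N} {q : ℕ}

theorem S36B_mem_range_res (x : Gamma0 N) :
    x ∈ (S41A_res N q).range ↔ ((N * q : ℕ) : ℤ) ∣ (x : SL(2, ℤ)) 1 0 := by
  constructor
  · rintro ⟨γ, rfl⟩
    exact S41A_Gamma0_mem_iff.mp γ.2
  · intro h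
    exact ⟨⟨(x : SL(2, ℤ)), S41A_Gamma0_mem_iff.mpr h⟩, Subtype.ext rfl⟩

/-- for `x ∈ Γ₀(N)` and `q ∣ N`: `x₀₀ x₁₁ ≡ 1 mod q`. -/
theorem S36B_diag_mod (hqN : q ∣ N) (x : Gamma0 N) :
    (q : ℤ) ∣ (x : SL(2, ℤ)) 0 0 * (x : SL(2, ℤ)) 1 1 - 1 := by
  have hdet := S41A_det_eq_int (x : SL(2, ℤ))
  have hc : ((N : ℕ) : ℤ) ∣ (x : SL(2, ℤ)) 1 0 := S41A_Gamma0_mem_iff.mp x.2
  have hq : (q : ℤ) ∣ (x : SL(2, ℤ)) 1 0 := dvd_trans (Int.natCast_dvd_natCast.mpr hqN) hc
  have e : (x : SL(2, ℤ)) 0 0 * (x : SL(2, ℤ)) 1 1 - 1 = (x : SL(2, ℤ)) 0 1 * (x : SL(2, ℤ)) 1 0 := by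
    linear_combination hdet
  rw [e]
  exact Dvd.dvd.mul_left hq _

theorem S36B_zmod_eq_of_dvd [NeZero q] (i j : ZMod q) (h : (q : ℤ) ∣ (i.val : ℤ) - (j.val : ℤ)) :
    i = j := by
  have h1 : ((i.val : ℤ) : ZMod q) = ((j.val : ℤ) : ZMod q) :=
    (ZMod.intCast_eq_intCast_iff_dvd_sub _ _ _).mpr (by
      have : (j.val : ℤ) - (i.val : ℤ) = -((i.val : ℤ) - (j.val : ℤ)) := by ring
      rw [this]; exact (dvd_neg).mpr h)
  simpa using h1

/-- **the transversal for `trA`, `q ∣ N`**: the `(lA j)⁻¹`, `j ∈ ZMod q`, represent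
`Γ₀(N) / Γ₀(N q)`. -/
theorem S36B_lA_bijective [NeZero N] [NeZero q] (hqN : q ∣ N) :
    Function.Bijective (fun j : ZMod q =>
      (((S36B_lA N (j.val : ℤ))⁻¹ : Gamma0 N) : Gamma0 N ⧸ (S41A_res N q).range)) := by
  have hN0 : (N : ℤ) ≠ 0 := by exact_mod_cast NeZero.ne N
  apply S41D_bijective_of
  · intro i j hij
    rw [S36B_mem_range_res] at hij
    have key : ((S36B_lA N (i.val : ℤ) * (S36B_lA N (j.val : ℤ))⁻¹ : Gamma0 N) : SL(2, ℤ)) 1 0
        = ((i.val : ℤ) - (j.val : ℤ)) * N := by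
      rw [S41D_mul_10, S41D_inv_00, S41D_inv_10, S36B_lA_10, S36B_lA_11, S36B_lA_11, S36B_lA_10]
      ring
    rw [key] at hij
    apply S36B_zmod_eq_of_dvd
    have h2 : ((N : ℤ) * q) ∣ ((i.val : ℤ) - (j.val : ℤ)) * N := by
      have := hij
      push_cast at this
      exact this
    rw [mul_comm ((i.val : ℤ) - (j.val : ℤ)) (N : ℤ)] at h2
    exact (mul_dvd_mul_iff_left hN0).mp h2
  · intro g
    obtain ⟨c', hc'⟩ : ((N : ℕ) : ℤ) ∣ (g : SL(2, ℤ)) 1 0 := S41A_Gamma0_mem_iff.mp g.2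
    have hdiag := S36B_diag_mod hqN g
    -- j ≡ - c' * g₁₁
    refine ⟨((-(c' * (g : SL(2, ℤ)) 1 1) : ℤ) : ZMod q), ?_⟩
    rw [S36B_mem_range_res, S41D_mul_10, S36B_lA_10, S36B_lA_11, hc']
    set j : ZMod q := ((-(c' * (g : SL(2, ℤ)) 1 1) : ℤ) : ZMod q) with hj
    have hjv : (q : ℤ) ∣ (j.val : ℤ) - (-(c' * (g : SL(2, ℤ)) 1 1)) := by
      rw [← ZMod.intCast_eq_intCast_iff_dvd_sub]
      simp [hj]
    obtain ⟨u, hu⟩ := hjv
    obtain ⟨v, hv⟩ := hdiag
    refine ⟨u * (g : SL(2, ℤ)) 0 0 - c' * v, ?_⟩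
    have hjval : (j.val : ℤ) = -(c' * (g : SL(2, ℤ)) 1 1) + q * u := by linear_combination hu
    rw [hjval]
    push_cast
    linear_combination (-(N : ℤ) * c') * hv

/-- **the transversal for `trB`, `q ∣ N`**: the `T^{-j}`, `j ∈ ZMod q`, represent
`Γ₀(N) / range deg`. -/
theorem S36B_tB_bijective [NeZero N] [NeZero q] (hqN : q ∣ N) :
    Function.Bijective (fun j : ZMod q =>
      (((S41D_T N (j.val : ℤ))⁻¹ : Gamma0 N) : Gamma0 N ⧸ (S41A_deg N q).range)) := by
  apply S41D_bijective_of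
  · intro i j hij
    rw [S41D_mem_range_deg (NeZero.ne q)] at hij
    have key : ((S41D_T N (i.val : ℤ) * (S41D_T N (j.val : ℤ))⁻¹ : Gamma0 N) : SL(2, ℤ)) 0 1
        = (i.val : ℤ) - (j.val : ℤ) := by
      rw [S41D_mul_01, S41D_inv_01, S41D_inv_11, S41D_T_00, S41D_T_01, S41D_T_01, S41D_T_00]
      ring
    rw [key] at hij
    exact S36B_zmod_eq_of_dvd i j hij
  · intro g
    have hdiag := S36B_diag_mod hqN g
    refine ⟨((-((g : SL(2, ℤ)) 0 1 * (g : SL(2, ℤ)) 0 0) : ℤ) : ZMod q), ?_⟩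
    rw [S41D_mem_range_deg (NeZero.ne q), S41D_mul_01, S41D_T_00, S41D_T_01]
    set j : ZMod q := ((-((g : SL(2, ℤ)) 0 1 * (g : SL(2, ℤ)) 0 0) : ℤ) : ZMod q) with hj
    have hjv : (q : ℤ) ∣ (j.val : ℤ) - (-((g : SL(2, ℤ)) 0 1 * (g : SL(2, ℤ)) 0 0)) := by
      rw [← ZMod.intCast_eq_intCast_iff_dvd_sub]
      simp [hj]
    obtain ⟨u, hu⟩ := hjv
    obtain ⟨v, hv⟩ := hdiag
    refine ⟨u * (g : SL(2, ℤ)) 1 1 - (g : SL(2, ℤ)) 0 1 * v, ?_⟩
    have hjval : (j.val : ℤ) = -((g : SL(2, ℤ)) 0 1 * (g : SL(2, ℤ)) 0 0) + q * u := by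
      linear_combination hu
    rw [hjval]
    linear_combination (-(g : SL(2, ℤ)) 0 1) * hv

end transversals

variable {N q : ℕ} [NeZero N] [NeZero q]

/-! ### degrees for `q ∣ N` -/

theorem S36B_finrank_alpha (hq : q.Prime) (hqN : q ∣ N) :
    @Module.finrank ↥(modularFunctionFieldBar N) ↥(modularFunctionFieldBar (N * q)) _ _
        ((heckeAlphaBar (AlgebraicClosure ℚ) N q).toRingHom.toAlgebra.toModule) = q := by
  have h1 := GRHF_finrank_betaRange N q hq
  rw [if_pos hqN, GRHF_finrank_betaRange_eq] at h1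
  refine Eq.trans ?_ h1
  let _ : Algebra ↥(modularFunctionFieldBar N) ↥(modularFunctionFieldBar (N * q)) :=
    (heckeAlphaBar (AlgebraicClosure ℚ) N q).toRingHom.toAlgebra
  exact Algebra.finrank_eq_of_equiv_equiv
    (AlgEquiv.ofInjectiveField (heckeAlphaBar (AlgebraicClosure ℚ) N q)).toRingEquiv
    (RingEquiv.refl _) rfl

theorem S36B_finiteDimensional_alpha (hq : q.Prime) (hqN : q ∣ N) :
    @FiniteDimensional ↥(modularFunctionFieldBar N) ↥(modularFunctionFieldBar (N * q)) _ _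
      (@Algebra.toModule _ _ _ _ (heckeAlphaBar (AlgebraicClosure ℚ) N q).toRingHom.toAlgebra) := by
  let _ : Algebra ↥(modularFunctionFieldBar N) ↥(modularFunctionFieldBar (N * q)) :=
    (heckeAlphaBar (AlgebraicClosure ℚ) N q).toRingHom.toAlgebra
  apply Module.finite_of_finrank_pos
  rw [S36B_finrank_alpha hq hqN]
  exact hq.pos

/-! ### the norm formula along `α` -/

/-- **norm formula along `α` in `Mer`, `q ∣ N`**: `ev_N (N_α x) = ∏_j (ev_{Nq} x) ∘ l_j`,
`l_j = [[1,0],[jN,1]]`, `j ∈ ZMod q`. -/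
theorem S36B_ev_NA [Fact q.Prime] (hqN : q ∣ N) (x : ↥(modularFunctionFieldBar (N * q))) :
    ev N (S35B_NA N q x)
      = ∏ j : ZMod q,
          merComp ((S36B_lA N (j.val : ℤ) : Gamma0 N) : SL(2, ℤ)) (ev (N * q) x) := by
  classical
  have hq : q.Prime := Fact.out
  letI algF : Algebra ↥(modularFunctionFieldBar N) ↥(modularFunctionFieldBar (N * q)) :=
    (heckeAlphaBar (AlgebraicClosure ℚ) N q).toRingHom.toAlgebra
  letI algM : Algebra ↥(modularFunctionFieldBar N) Mer := (ev N).toAlgebra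
  haveI fd : FiniteDimensional ↥(modularFunctionFieldBar N) ↥(modularFunctionFieldBar (N * q)) :=
    S36B_finiteDimensional_alpha hq hqN
  let σ : ZMod q → (↥(modularFunctionFieldBar (N * q)) →ₐ[↥(modularFunctionFieldBar N)]
      Mer) := fun i =>
    { (merComp ((S36B_lA N (i.val : ℤ) : Gamma0 N) : SL(2, ℤ))).comp (ev (N * q)) with
      commutes' := fun f => by
        show merComp ((S36B_lA N (i.val : ℤ) : Gamma0 N) : SL(2, ℤ))
          (ev (N * q) (heckeAlphaBar (AlgebraicClosure ℚ) N q f)) = ev N f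
        rw [S35B_ev_alpha, S24_hinv N (ev N) (isEv_ev N) _ (S36B_lA N (i.val : ℤ)).2] }
  have hσ : Function.Injective σ := by
    intro i k hik
    have h1 : conjEv (N * q) (ev (N * q)) ((S36B_lA N (i.val : ℤ) : Gamma0 N) : SL(2, ℤ))
        = conjEv (N * q) (ev (N * q)) ((S36B_lA N (k.val : ℤ) : Gamma0 N) : SL(2, ℤ)) := by
      ext f
      exact congrArg (fun φ : ↥(modularFunctionFieldBar (N * q)) →ₐ[↥(modularFunctionFieldBar N)]
        Mer => φ f) hik
    have h2 := conjEv_eq_imp_mem_Gamma0 (N * q) (ev (N * q)) (isEv_ev (N * q)) _ _ h1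
    have h3 : S36B_lA N (k.val : ℤ) * (S36B_lA N (i.val : ℤ))⁻¹ ∈ (S41A_res N q).range :=
      ⟨⟨_, h2⟩, Subtype.ext rfl⟩
    have h4 : ((S36B_lA N (i.val : ℤ))⁻¹)⁻¹ * (S36B_lA N (k.val : ℤ))⁻¹
        ∈ (S41A_res N q).range := by
      have := inv_mem h3
      rw [mul_inv_rev, inv_inv] at this
      rw [inv_inv]
      exact this
    exact (S36B_lA_bijective hqN).1 (QuotientGroup.eq.mpr h4)
  have hcard : Module.finrank ↥(modularFunctionFieldBar N) ↥(modularFunctionFieldBar (N * q))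
      ≤ Fintype.card (ZMod q) := by
    rw [S36B_finrank_alpha hq hqN, ZMod.card]
  exact S24_norm_eq_prod_of_injective σ hσ hcard x

/-! ### the Kummer character of `N_α x` is the transfer `trA` -/

/-- **BRIDGE2 (α)**: if the Kummer character of `x ∈ F_{Nq}` is the reduction of `z`, then the
Kummer character of the norm `N_α x ∈ F_N` is the reduction of `trA z`  (`q ∣ N`). -/
theorem S36B_NA_char [Fact q.Prime] (hqN : q ∣ N) (n : ℕ) (hn : 0 < n)
    (x : ↥(modularFunctionFieldBar (N * q))) (z : ↥(parInt (N * q)))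
    (hx : GR_KChar (N * q) n x
      ((GRT_red (N * q) n z : ↥(GRT_X (N * q) n)) : Additive (Gamma0 (N * q)) →+ ZMod n)) :
    GR_KChar N n (S35B_NA N q x)
      ((GRT_red N n (S41D_trA N q z) : ↥(GRT_X N n)) : Additive (Gamma0 N) →+ ZMod n) := by
  have hq : q.Prime := Fact.out
  obtain ⟨y, hy, hchar⟩ := hx
  refine ⟨∏ j : ZMod q, merComp ((S36B_lA N (j.val : ℤ) : Gamma0 N) : SL(2, ℤ)) y, ?_, ?_⟩
  · rw [S36B_ev_NA hqN, ← Finset.prod_pow]
    refine Finset.prod_congr rfl fun i _ => ?_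
    rw [← map_pow, hy]
  · intro γ
    obtain ⟨σ, hh, hmul⟩ := S41D_exists_data (S41A_res N q).range
      (fun j : ZMod q => (S36B_lA N (j.val : ℤ))⁻¹) (S36B_lA_bijective hqN) γ
    choose h' hh' using fun i => (hh i).2
    have hmul' : ∀ i, γ * (S36B_lA N ((σ i).val : ℤ))⁻¹
        = (S36B_lA N (i.val : ℤ))⁻¹ * S41A_res N q (h' i) :=
      fun i => by rw [hh']; exact hmul i
    have hsγ : ∀ i, S36B_lA N (i.val : ℤ) * γ
        = S41A_res N q (h' i) * S36B_lA N ((σ i).val : ℤ) := by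
      intro i
      have := hmul' i
      calc S36B_lA N (i.val : ℤ) * γ
          = S36B_lA N (i.val : ℤ) * (γ * (S36B_lA N ((σ i).val : ℤ))⁻¹)
              * S36B_lA N ((σ i).val : ℤ) := by group
        _ = S41A_res N q (h' i) * S36B_lA N ((σ i).val : ℤ) := by rw [this]; group
    have key := S35B_prod_char hn hchar
      (fun i : ZMod q => mapGL ℝ ((S36B_lA N (i.val : ℤ) : Gamma0 N) : SL(2, ℤ)))
      (fun i => GRHM_det_mapGL_pos _) (γ : SL(2, ℤ)) σ h' (fun i => by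
        rw [← map_mul, ← map_mul]
        congr 1
        have := congrArg (fun g : Gamma0 N => (g : SL(2, ℤ))) (hsγ i)
        simpa using this)
    simp only [GRHM_merComp_mapGL] at key
    rw [key]
    congr 2
    rw [GRT_red_apply, S41D_trA_apply N q z (fun j : ZMod q => (S36B_lA N (j.val : ℤ))⁻¹)
      (S36B_lA_bijective hqN) γ σ h' hmul', Int.cast_sum]
    rfl

/-- the norm `N_α` of a Kummer generator is a Kummer generator (`q ∣ N`). -/
theorem S36B_NA_kum [Fact q.Prime] (hqN : q ∣ N) (n : ℕ)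
    {x : ↥(modularFunctionFieldBar (N * q))}
    (hx : KM_IsKum (AlgebraicClosure ℚ) ↥(modularFunctionFieldBar (N * q)) n x) :
    KM_IsKum (AlgebraicClosure ℚ) ↥(modularFunctionFieldBar N) n (S35B_NA N q x) :=
  GRNK_norm_of_algHom (heckeAlphaBar (AlgebraicClosure ℚ) N q)
    (S36B_finiteDimensional_alpha Fact.out hqN) n hx

/-- **BRIDGE2 (α), triviality**. -/
theorem S36B_NA_triv [Fact q.Prime] (hqN : q ∣ N) (hK : GR_KappaStmt N) (n : ℕ) (hn : 0 < n)
    (x : ↥(modularFunctionFieldBar (N * q))) (z : ↥(parInt (N * q)))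
    (hz : S41D_trA N q z = 0)
    (hkum : KM_IsKum (AlgebraicClosure ℚ) ↥(modularFunctionFieldBar (N * q)) n x)
    (hx : GR_KChar (N * q) n x
      ((GRT_red (N * q) n z : ↥(GRT_X (N * q) n)) : Additive (Gamma0 (N * q)) →+ ZMod n)) :
    GR_IsTriv N n (S35B_NA N q x) := by
  have h1 := S36B_NA_char hqN n hn x z hx
  rw [hz, map_zero] at h1
  exact hK.inj n hn _ (S36B_NA_kum hqN n hkum) h1

/-! ### the norm formula along `β` -/

/-- **norm formula along `β` in `Mer`, `q ∣ N`**: `ev_N (N_β x) = ∏_j (ev_{Nq} x) ∘ (D⁻¹ T^j)`,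
`D = diag(q,1)`, `j ∈ ZMod q`. -/
theorem S36B_ev_NB [Fact q.Prime] (hqN : q ∣ N) (x : ↥(modularFunctionFieldBar (N * q))) :
    ev N (S35B_NB N q x)
      = ∏ i : ZMod q,
          GRHM_merComp ((heckeDiagMatrix q)⁻¹
              * mapGL ℝ ((S41D_T N (i.val : ℤ) : Gamma0 N) : SL(2, ℤ)))
            (ev (N * q) x) := by
  classical
  have hq : q.Prime := Fact.out
  letI algF : Algebra ↥(modularFunctionFieldBar N) ↥(modularFunctionFieldBar (N * q)) :=
    (heckeBetaBar (AlgebraicClosure ℚ) N q).toRingHom.toAlgebra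
  letI algM : Algebra ↥(modularFunctionFieldBar N) Mer :=
    ((GRHM_merComp (heckeDiagMatrix q)).comp (ev N)).toAlgebra
  haveI fd : FiniteDimensional ↥(modularFunctionFieldBar N) ↥(modularFunctionFieldBar (N * q)) :=
    GRHK_finiteDimensional hq
  let σ : ZMod q → (↥(modularFunctionFieldBar (N * q)) →ₐ[↥(modularFunctionFieldBar N)]
      Mer) := fun i =>
    { (GRHM_merComp ((heckeDiagMatrix q)⁻¹
          * mapGL ℝ ((S41D_T N (i.val : ℤ) : Gamma0 N) : SL(2, ℤ))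
        * heckeDiagMatrix q)).comp (ev (N * q)) with
      commutes' := fun f => by
        show GRHM_merComp ((heckeDiagMatrix q)⁻¹
              * mapGL ℝ ((S41D_T N (i.val : ℤ) : Gamma0 N) : SL(2, ℤ))
            * heckeDiagMatrix q) (ev (N * q) (heckeBetaBar (AlgebraicClosure ℚ) N q f))
          = GRHM_merComp (heckeDiagMatrix q) (ev N f)
        rw [S35B_ev_beta, ← GRHM_merComp_mul_apply (det_heckeDiagMatrix_pos q)
          (S35B_det_c_pos q _)]
        have e1 : heckeDiagMatrix q * ((heckeDiagMatrix q)⁻¹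
            * mapGL ℝ ((S41D_T N (i.val : ℤ) : Gamma0 N) : SL(2, ℤ)) * heckeDiagMatrix q)
            = mapGL ℝ ((S41D_T N (i.val : ℤ) : Gamma0 N) : SL(2, ℤ)) * heckeDiagMatrix q := by
          group
        rw [e1, GRHM_merComp_mul_apply (GRHM_det_mapGL_pos _) (det_heckeDiagMatrix_pos q),
          GRHM_merComp_mapGL, S24_hinv N (ev N) (isEv_ev N) _ (S41D_T N (i.val : ℤ)).2] }
  have hσ : Function.Injective σ := by
    intro i k hik
    have h1 := congrArg (fun φ : ↥(modularFunctionFieldBar (N * q)) →ₐ[↥(modularFunctionFieldBar N)]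
        Mer => φ (jBar (N * q) 1 (one_dvd _))) hik
    have h2 : GRHM_merComp ((heckeDiagMatrix q)⁻¹
            * mapGL ℝ ((S41D_T N (i.val : ℤ) : Gamma0 N) : SL(2, ℤ))
          * heckeDiagMatrix q) (ev (N * q) (jBar (N * q) 1 (one_dvd _)))
        = GRHM_merComp ((heckeDiagMatrix q)⁻¹
            * mapGL ℝ ((S41D_T N (k.val : ℤ) : Gamma0 N) : SL(2, ℤ))
          * heckeDiagMatrix q) (ev (N * q) (jBar (N * q) 1 (one_dvd _))) := h1
    rw [(isEv_ev (N * q)).gen 1 (one_dvd _), GRHM_merComp_algebraMap,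
      GRHM_merComp_algebraMap] at h2
    have h3 := IsFractionRing.injective Hol Mer h2
    have h4 : (q : ℤ) ∣ (((S41D_T N (k.val : ℤ) : Gamma0 N) : SL(2, ℤ))
        * ((S41D_T N (i.val : ℤ) : Gamma0 N) : SL(2, ℤ))⁻¹) 0 1 := by
      apply S35B_dvd_of_jFun_eq q
      intro τ
      have h5 := congrArg (fun f : Hol => (f : ℍ → ℂ) τ) h3
      simp only [GRHM_holComp_apply (S35B_det_c_pos q _), jHol_apply, mul_smul] at h5
      exact h5
    have h6 : S41D_T N (k.val : ℤ) * (S41D_T N (i.val : ℤ))⁻¹ ∈ (S41A_deg N q).range :=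
      (S41D_mem_range_deg hq.ne_zero _).mpr h4
    have h7 : ((S41D_T N (i.val : ℤ))⁻¹)⁻¹ * (S41D_T N (k.val : ℤ))⁻¹
        ∈ (S41A_deg N q).range := by
      have := inv_mem h6
      rw [mul_inv_rev, inv_inv] at this
      rw [inv_inv]
      exact this
    exact (S36B_tB_bijective hqN).1 (QuotientGroup.eq.mpr h7)
  have hcard : Module.finrank ↥(modularFunctionFieldBar N) ↥(modularFunctionFieldBar (N * q))
      ≤ Fintype.card (ZMod q) := by
    rw [GRHF_finrank_beta N q hq, if_pos hqN, ZMod.card]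
  have key := S24_norm_eq_prod_of_injective σ hσ hcard x
  have key' : GRHM_merComp (heckeDiagMatrix q) (ev N (S35B_NB N q x))
      = ∏ i : ZMod q,
          GRHM_merComp ((heckeDiagMatrix q)⁻¹
              * mapGL ℝ ((S41D_T N (i.val : ℤ) : Gamma0 N) : SL(2, ℤ))
            * heckeDiagMatrix q) (ev (N * q) x) := key
  have h8 := congrArg (GRHM_merComp ((heckeDiagMatrix q)⁻¹)) key'
  rw [← GRHM_merComp_mul_apply (det_heckeDiagMatrix_pos q) (S35B_det_diag_inv_pos q),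
    mul_inv_cancel, GRHM_merComp_one, map_prod] at h8
  rw [show ev N (S35B_NB N q x) = (RingHom.id Mer) (ev N (S35B_NB N q x)) from rfl, h8]
  refine Finset.prod_congr rfl fun i _ => ?_
  rw [← GRHM_merComp_mul_apply (S35B_det_c_pos q _) (S35B_det_diag_inv_pos q),
    mul_inv_cancel_right]

/-! ### the Kummer character of `N_β x` is the transfer `trB` -/

/-- **BRIDGE2 (β)**: if the Kummer character of `x ∈ F_{Nq}` is the reduction of `z`, then the
Kummer character of the norm `N_β x ∈ F_N` is the reduction of `trB z`  (`q ∣ N`). -/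
theorem S36B_NB_char [Fact q.Prime] (hqN : q ∣ N) (n : ℕ) (hn : 0 < n)
    (x : ↥(modularFunctionFieldBar (N * q))) (z : ↥(parInt (N * q)))
    (hx : GR_KChar (N * q) n x
      ((GRT_red (N * q) n z : ↥(GRT_X (N * q) n)) : Additive (Gamma0 (N * q)) →+ ZMod n)) :
    GR_KChar N n (S35B_NB N q x)
      ((GRT_red N n (S41D_trB N q z) : ↥(GRT_X N n)) : Additive (Gamma0 N) →+ ZMod n) := by
  have hq : q.Prime := Fact.out
  obtain ⟨y, hy, hchar⟩ := hx
  refine ⟨∏ i : ZMod q,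
    GRHM_merComp ((heckeDiagMatrix q)⁻¹
      * mapGL ℝ ((S41D_T N (i.val : ℤ) : Gamma0 N) : SL(2, ℤ))) y,
    ?_, ?_⟩
  · rw [S36B_ev_NB hqN, ← Finset.prod_pow]
    refine Finset.prod_congr rfl fun i _ => ?_
    rw [← map_pow, hy]
  · intro γ
    obtain ⟨σ, hh, hmul⟩ := S41D_exists_data (S41A_deg N q).range
      (fun i : ZMod q => (S41D_T N (i.val : ℤ))⁻¹) (S36B_tB_bijective hqN) γ
    choose h' hh' using fun i => (hh i).2
    have hmul' : ∀ i, γ * (S41D_T N ((σ i).val : ℤ))⁻¹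
        = (S41D_T N (i.val : ℤ))⁻¹ * S41A_deg N q (h' i) :=
      fun i => by rw [hh']; exact hmul i
    have hsγ : ∀ i, S41D_T N (i.val : ℤ) * γ
        = S41A_deg N q (h' i) * S41D_T N ((σ i).val : ℤ) := by
      intro i
      have := hmul' i
      calc S41D_T N (i.val : ℤ) * γ
          = S41D_T N (i.val : ℤ) * (γ * (S41D_T N ((σ i).val : ℤ))⁻¹)
              * S41D_T N ((σ i).val : ℤ) := by group
        _ = S41A_deg N q (h' i) * S41D_T N ((σ i).val : ℤ) := by rw [this]; group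
    have key := S35B_prod_char hn hchar
      (fun i : ZMod q =>
        (heckeDiagMatrix q)⁻¹ * mapGL ℝ ((S41D_T N (i.val : ℤ) : Gamma0 N) : SL(2, ℤ)))
      (fun i => S35B_det_b_pos q _) (γ : SL(2, ℤ)) σ h' (fun i => by
        have e1 : mapGL ℝ ((S41D_T N (i.val : ℤ) : Gamma0 N) : SL(2, ℤ))
              * mapGL ℝ (γ : SL(2, ℤ))
            = mapGL ℝ ((S41A_deg N q (h' i) : Gamma0 N) : SL(2, ℤ))
              * mapGL ℝ ((S41D_T N ((σ i).val : ℤ) : Gamma0 N) : SL(2, ℤ)) := by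
          rw [← map_mul, ← map_mul]
          congr 1
          have := congrArg (fun g : Gamma0 N => (g : SL(2, ℤ))) (hsγ i)
          simpa using this
        rw [mul_assoc, e1, ← mul_assoc, S35B_diag_inv_deg hq.ne_zero, mul_assoc])
    rw [key]
    congr 2
    rw [GRT_red_apply, S41D_trB_apply N q z (fun i : ZMod q => (S41D_T N (i.val : ℤ))⁻¹)
      (S36B_tB_bijective hqN) γ σ h' hmul', Int.cast_sum]
    rfl

/-- **BRIDGE2 (β), triviality**. -/
theorem S36B_NB_triv [Fact q.Prime] (hqN : q ∣ N) (hK : GR_KappaStmt N) (n : ℕ) (hn : 0 < n)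
    (x : ↥(modularFunctionFieldBar (N * q))) (z : ↥(parInt (N * q)))
    (hz : S41D_trB N q z = 0)
    (hkum : KM_IsKum (AlgebraicClosure ℚ) ↥(modularFunctionFieldBar (N * q)) n x)
    (hx : GR_KChar (N * q) n x
      ((GRT_red (N * q) n z : ↥(GRT_X (N * q) n)) : Additive (Gamma0 (N * q)) →+ ZMod n)) :
    GR_IsTriv N n (S35B_NB N q x) := by
  have h1 := S36B_NB_char hqN n hn x z hx
  rw [hz, map_zero] at h1
  exact hK.inj n hn _ (S35B_NB_kum n hkum) h1

/-- **BRIDGE2, final form** (`q ∣ N`): a `q`-new Kummer generator at level `N q`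
(`KChar x = red z`, `z ∈ S41D_B N q = ker trA ⊓ ker trB`) has trivial norms `N_α x`, `N_β x`
at level `N`. -/
theorem S36B_bridge [Fact q.Prime] (hqN : q ∣ N) (hK : GR_KappaStmt N) (n : ℕ) (hn : 0 < n)
    (x : ↥(modularFunctionFieldBar (N * q))) (z : ↥(parInt (N * q)))
    (hz : z ∈ S41D_B N q)
    (hkum : KM_IsKum (AlgebraicClosure ℚ) ↥(modularFunctionFieldBar (N * q)) n x)
    (hx : GR_KChar (N * q) n x
      ((GRT_red (N * q) n z : ↥(GRT_X (N * q) n)) : Additive (Gamma0 (N * q)) →+ ZMod n)) :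
    GR_IsTriv N n (S35B_NA N q x) ∧ GR_IsTriv N n (S35B_NB N q x) := by
  have hz' := (S41D_mem_B N q z).mp hz
  exact ⟨S36B_NA_triv hqN hK n hn x z hz'.1 hkum hx, S36B_NB_triv hqN hK n hn x z hz'.2 hkum hx⟩

/-- **BRIDGE, both cases**: for every prime `q` (dividing `N` or not) a `q`-new Kummer generator
at level `N q` has trivial norms `N_α x`, `N_β x` at level `N`. -/
theorem S36B_bridge_all [Fact q.Prime] (hK : GR_KappaStmt N) (n : ℕ) (hn : 0 < n)
    (x : ↥(modularFunctionFieldBar (N * q))) (z : ↥(parInt (N * q)))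
    (hz : z ∈ S41D_B N q)
    (hkum : KM_IsKum (AlgebraicClosure ℚ) ↥(modularFunctionFieldBar (N * q)) n x)
    (hx : GR_KChar (N * q) n x
      ((GRT_red (N * q) n z : ↥(GRT_X (N * q) n)) : Additive (Gamma0 (N * q)) →+ ZMod n)) :
    GR_IsTriv N n (S35B_NA N q x) ∧ GR_IsTriv N n (S35B_NB N q x) := by
  by_cases hqN : q ∣ N
  · exact S36B_bridge hqN hK n hn x z hz hkum hx
  · exact S35B_bridge hqN hK n hn x z hz hkum hx

end Fermat.Agent.S36
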