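import Mathlib
import Fermat.Agent.S36.AlgIface
import Fermat.Agent.S36.Bridge2
import Fermat.Agent.S24.EvDeg
import Fermat.Agent.S41.DegTransv
import Fermat.Agent.GalRep.HeckeNK

/-!
# TRACK 10 (S36), package AUX-r (helper10): raising the level by an auxiliary factor `d`

`q` prime, `q ∣ N`, `d` coprime to `q`.  Then

  `S36X_main : S36A_G36K (N * d) q p → S36A_G36K N q p`

(the bound (G36-K) at level `N d q` implies the bound at level `N q`, the constant being multiplied
by the degree `[F_{N d q} : F_{N q}]`).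

* `S36X_incl`  : the inclusion `π : F_M ↪ F_{M'}` for `M ∣ M'` (same Laurent series);
* `S36X_ev_incl`, `S36X_gal_incl`, `S36X_kum_incl`, `S36X_triv_incl` : `π` is compatible with the
  analytic realisation, the Galois action, Kummer generators and trivial generators;
* `S36X_finite` : `F_{M'}` is finite over `π F_M`;  `S36X_norm_down` : the norm argument;
* `S36X_pull`   : restriction of classes `parInt M → parInt M'`;
* `S36X_trA_pull`, `S36X_trB_pull` : the restriction of a `q`-new class is `q`-new (common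
  transversals of `Γ₀(N d) / Γ₀(N d q)` and `Γ₀(N) / Γ₀(N q)`).
-/

set_option autoImplicit false
set_option synthInstance.maxHeartbeats 400000
set_option maxHeartbeats 1000000
set_option linter.style.haveILetI false
set_option linter.unusedSectionVars false

open UpperHalfPlane hiding I
open scoped MatrixGroups
open CongruenceSubgroup Matrix.SpecialLinearGroup ModularCurve AlgebraicCurve IntermediateField
open ModularCurve.Period

namespace Fermat.Agent.S36

open Fermat.Agent.S24 Fermat.Agent.S16 Fermat.Agent.GalRep Fermat.Agent.S41 Fermat.Agent.S20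
open Fermat.Agent.S35

/-! ### the inclusion of function fields -/

section incl

variable (M M' : ℕ) [NeZero M] [NeZero M']

/-- `M ∣ M'` implies `F_M ⊆ F_{M'}` inside the field of Laurent series. -/
theorem S36X_bar_le (h : M ∣ M') : modularFunctionFieldBar M ≤ modularFunctionFieldBar M' := by
  show laurentBaseChange (AlgebraicClosure ℚ) (modularFunctionFieldFull M) ≤
    laurentBaseChange (AlgebraicClosure ℚ) (modularFunctionFieldFull M')
  rw [laurentBaseChange, IntermediateField.adjoin_le_iff]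
  rintro _ ⟨y, hy, rfl⟩
  exact coeffEmb_mem_laurentBaseChange (AlgebraicClosure ℚ) (full_degeneracy_le h hy)

/-- the inclusion `π : F_M → F_{M'}`. -/
noncomputable def S36X_incl (h : M ∣ M') :
    ↥(modularFunctionFieldBar M) →ₐ[AlgebraicClosure ℚ] ↥(modularFunctionFieldBar M') :=
  IntermediateField.inclusion (S36X_bar_le M M' h)

theorem S36X_incl_coe (h : M ∣ M') (f : ↥(modularFunctionFieldBar M)) :
    ((S36X_incl M M' h f : ↥(modularFunctionFieldBar M')) : LaurentSeries (AlgebraicClosure ℚ))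
      = (f : LaurentSeries (AlgebraicClosure ℚ)) :=
  IntermediateField.coe_inclusion (S36X_bar_le M M' h) f

theorem S36X_incl_jBar (h : M ∣ M') (d : ℕ) [NeZero d] (hd : d ∣ M) :
    S36X_incl M M' h (jBar M d hd) = jBar M' d (hd.trans h) := by
  apply Subtype.ext
  rw [S36X_incl_coe]
  rfl

/-- `ev_{M'} ∘ π = ev_M`. -/
theorem S36X_ev_incl (h : M ∣ M') (f : ↥(modularFunctionFieldBar M)) :
    ev M' (S36X_incl M M' h f) = ev M f := by
  have key : (ev M').comp
      (S36X_incl M M' h : ↥(modularFunctionFieldBar M) →+* ↥(modularFunctionFieldBar M'))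
        = ev M := by
    apply ringHom_ext_gen M
    · intro a
      simp only [RingHom.comp_apply, RingHom.coe_coe, AlgHom.commutes]
      rw [(isEv_ev M').const, (isEv_ev M).const]
    · intro d _ hd
      simp only [RingHom.comp_apply, RingHom.coe_coe]
      rw [S36X_incl_jBar, (isEv_ev M').gen, (isEv_ev M).gen]
  exact congrArg (fun φ : ↥(modularFunctionFieldBar M) →+* Mer => φ f) key

/-- `π` commutes with the Galois action on the coefficients. -/
theorem S36X_gal_incl (h : M ∣ M') (τ : GQ) (f : ↥(modularFunctionFieldBar M)) :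
    GR_gal M' τ (S36X_incl M M' h f) = S36X_incl M M' h (GR_gal M τ f) := by
  apply Subtype.ext
  rw [coe_arithmeticRingAut_apply, S36X_incl_coe, S36X_incl_coe, coe_arithmeticRingAut_apply]

/-- `π` maps Kummer generators to Kummer generators. -/
theorem S36X_kum_incl (h : M ∣ M') (n : ℕ) {f : ↥(modularFunctionFieldBar M)}
    (hf : KM_IsKum (AlgebraicClosure ℚ) ↥(modularFunctionFieldBar M) n f) :
    KM_IsKum (AlgebraicClosure ℚ) ↥(modularFunctionFieldBar M') n (S36X_incl M M' h f) :=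
  GRNK_res (S36X_incl M M' h) n hf

/-- `π` maps trivial generators to trivial generators. -/
theorem S36X_triv_incl (h : M ∣ M') (n : ℕ) {f : ↥(modularFunctionFieldBar M)}
    (hf : GR_IsTriv M n f) : GR_IsTriv M' n (S36X_incl M M' h f) := by
  obtain ⟨c, g, hc, hg, hfg⟩ := hf
  refine ⟨c, S36X_incl M M' h g, hc, (map_ne_zero (S36X_incl M M' h)).mpr hg, ?_⟩
  rw [hfg, map_mul, map_pow, AlgHom.commutes]

end incl

/-! ### restriction of classes -/

section grp

variable (M M' : ℕ)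

theorem S36X_Gamma0_le (h : M ∣ M') : Gamma0 M' ≤ Gamma0 M := by
  intro γ hγ
  rw [S41A_Gamma0_mem_iff] at hγ ⊢
  exact dvd_trans (Int.natCast_dvd_natCast.mpr h) hγ

/-- the inclusion `Γ₀(M') → Γ₀(M)` for `M ∣ M'`. -/
def S36X_resG (h : M ∣ M') : Gamma0 M' →* Gamma0 M :=
  Subgroup.inclusion (S36X_Gamma0_le M M' h)

theorem S36X_resG_coe (h : M ∣ M') (γ : Gamma0 M') :
    ((S36X_resG M M' h γ : Gamma0 M) : SL(2, ℤ)) = (γ : SL(2, ℤ)) := rfl

/-- restriction of classes from `Γ₀(M)` to `Γ₀(M')`. -/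
noncomputable def S36X_pull (h : M ∣ M') : ↥(parInt M) →ₗ[ℤ] ↥(parInt M') where
  toFun χ := ⟨(χ : Additive (Gamma0 M) →+ ℤ).comp (MonoidHom.toAdditive (S36X_resG M M' h)),
    S41D_comp_parabolic _ (fun _ => rfl) _ χ.2⟩
  map_add' _ _ := Subtype.ext rfl
  map_smul' _ _ := Subtype.ext rfl

theorem S36X_pull_apply (h : M ∣ M') (χ : ↥(parInt M)) (γ : Gamma0 M') :
    ((S36X_pull M M' h χ : ↥(parInt M')) : Additive (Gamma0 M') →+ ℤ) (Additive.ofMul γ)
      = (χ : Additive (Gamma0 M) →+ ℤ) (Additive.ofMul (S36X_resG M M' h γ)) := rfl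

/-- naturality of the Kummer character under `π` and the restriction of classes. -/
theorem S36X_kchar_incl [NeZero M] [NeZero M'] (h : M ∣ M') (n : ℕ)
    (f : ↥(modularFunctionFieldBar M)) (z : ↥(parInt M))
    (hf : GR_KChar M n f ((GRT_red M n z : ↥(GRT_X M n)) : Additive (Gamma0 M) →+ ZMod n)) :
    GR_KChar M' n (S36X_incl M M' h f)
      ((GRT_red M' n (S36X_pull M M' h z) : ↥(GRT_X M' n)) :
        Additive (Gamma0 M') →+ ZMod n) := by
  obtain ⟨y, hy, hchar⟩ := hf
  refine ⟨y, ?_, fun γ => ?_⟩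
  · rw [S36X_ev_incl]
    exact hy
  · rw [GRT_red_apply, S36X_pull_apply, ← GRT_red_apply]
    exact hchar (S36X_resG M M' h γ)

end grp

/-! ### the restriction of a `q`-new class is `q`-new -/

section mackey

variable (N q d : ℕ)

theorem S36X_dvdA : N * q ∣ N * d * q := ⟨d, by ring⟩

theorem S36X_resG_lA (m : ℤ) :
    S36X_resG N (N * d) (dvd_mul_right N d) (S36B_lA (N * d) m) = S36B_lA N (m * d) := by
  apply Subtype.ext
  rw [S36X_resG_coe]
  apply S41A_ext_int
  · rfl
  · rfl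
  · rw [S36B_lA_10, S36B_lA_10]
    push_cast
    ring
  · rfl

theorem S36X_resG_T (m : ℤ) :
    S36X_resG N (N * d) (dvd_mul_right N d) (S41D_T (N * d) m) = S41D_T N m :=
  Subtype.ext rfl

theorem S36X_resG_res (x : Gamma0 (N * d * q)) :
    S36X_resG N (N * d) (dvd_mul_right N d) (S41A_res (N * d) q x)
      = S41A_res N q (S36X_resG (N * q) (N * d * q) (S36X_dvdA N q d) x) :=
  Subtype.ext rfl

theorem S36X_resG_deg (x : Gamma0 (N * d * q)) :
    S36X_resG N (N * d) (dvd_mul_right N d) (S41A_deg (N * d) q x)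
      = S41A_deg N q (S36X_resG (N * q) (N * d * q) (S36X_dvdA N q d) x) := by
  apply Subtype.ext
  rw [S36X_resG_coe, S41A_deg_coe, S41A_deg_coe]
  apply S41A_ext_int
  · rfl
  · rfl
  · rfl
  · rfl

variable {N q d}

/-- the `(lA (j d))⁻¹`, `j ∈ ZMod q`, represent `Γ₀(N) / Γ₀(N q)` when `d` is prime to `q`. -/
theorem S36X_lA_bijective [NeZero N] [NeZero q] (hqN : q ∣ N) (hdq : d.Coprime q) :
    Function.Bijective (fun j : ZMod q =>
      (((S36B_lA N ((j.val : ℤ) * d))⁻¹ : Gamma0 N) : Gamma0 N ⧸ (S41A_res N q).range)) := by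
  have hN0 : (N : ℤ) ≠ 0 := by exact_mod_cast NeZero.ne N
  have hcop : IsCoprime (q : ℤ) (d : ℤ) := Nat.isCoprime_iff_coprime.mpr hdq.symm
  apply S41D_bijective_of
  · intro i j hij
    rw [S36B_mem_range_res] at hij
    have key : ((S36B_lA N ((i.val : ℤ) * d) * (S36B_lA N ((j.val : ℤ) * d))⁻¹ : Gamma0 N) :
        SL(2, ℤ)) 1 0 = (((i.val : ℤ) - (j.val : ℤ)) * d) * N := by
      rw [S41D_mul_10, S41D_inv_00, S41D_inv_10, S36B_lA_10, S36B_lA_11, S36B_lA_11, S36B_lA_10]
      ring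
    rw [key] at hij
    apply S36B_zmod_eq_of_dvd
    have h2 : ((N : ℤ) * q) ∣ (N : ℤ) * (((i.val : ℤ) - (j.val : ℤ)) * d) := by
      have := hij
      push_cast at this
      rw [mul_comm (((i.val : ℤ) - (j.val : ℤ)) * d) (N : ℤ)] at this
      exact this
    have h3 : (q : ℤ) ∣ ((i.val : ℤ) - (j.val : ℤ)) * d := (mul_dvd_mul_iff_left hN0).mp h2
    exact hcop.dvd_of_dvd_mul_right h3
  · intro g
    obtain ⟨c', hc'⟩ : ((N : ℕ) : ℤ) ∣ (g : SL(2, ℤ)) 1 0 := S41A_Gamma0_mem_iff.mp g.2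
    have hdiag := S36B_diag_mod hqN g
    obtain ⟨u, v, huv⟩ := hcop
    -- u q + v d = 1 ;  j ≡ - c' g₁₁ v
    refine ⟨((-(c' * (g : SL(2, ℤ)) 1 1 * v) : ℤ) : ZMod q), ?_⟩
    rw [S36B_mem_range_res, S41D_mul_10, S36B_lA_10, S36B_lA_11, hc']
    set j : ZMod q := ((-(c' * (g : SL(2, ℤ)) 1 1 * v) : ℤ) : ZMod q) with hj
    have hjv : (q : ℤ) ∣ (j.val : ℤ) - (-(c' * (g : SL(2, ℤ)) 1 1 * v)) := by
      rw [← ZMod.intCast_eq_intCast_iff_dvd_sub]
      simp [hj]
    obtain ⟨a, ha⟩ := hjv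
    obtain ⟨b, hb⟩ := hdiag
    have hjval : (j.val : ℤ) = -(c' * (g : SL(2, ℤ)) 1 1 * v) + q * a := by
      linear_combination ha
    refine ⟨a * d * (g : SL(2, ℤ)) 0 0 - c' * v * d * b + c' * u, ?_⟩
    rw [hjval]
    push_cast
    linear_combination (-(N : ℤ) * c' * v * d) * hb + (-(N : ℤ) * c') * huv

variable (N q d)

/-- **Mackey for `trA`**: the transfer `Γ₀(N d q) → Γ₀(N d)` of the restricted class is the
restriction of the transfer `Γ₀(N q) → Γ₀(N)`. -/
theorem S36X_trA_pull [NeZero N] [NeZero q] [NeZero d] (hqN : q ∣ N) (hdq : d.Coprime q)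
    (z : ↥(parInt (N * q))) :
    S41D_trA (N * d) q (S36X_pull (N * q) (N * d * q) (S36X_dvdA N q d) z)
      = S36X_pull N (N * d) (dvd_mul_right N d) (S41D_trA N q z) := by
  apply Subtype.ext
  refine AddMonoidHom.ext fun γ' => ?_
  obtain ⟨γ, rfl⟩ := Additive.ofMul.surjective γ'
  obtain ⟨σ, hh, hmul⟩ := S41D_exists_data (S41A_res (N * d) q).range
    (fun j : ZMod q => (S36B_lA (N * d) (j.val : ℤ))⁻¹)
    (S36B_lA_bijective (Dvd.dvd.mul_right hqN d)) γ
  choose h' hh' using fun i => (hh i).2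
  have hmul' : ∀ i, γ * (S36B_lA (N * d) ((σ i).val : ℤ))⁻¹
      = (S36B_lA (N * d) (i.val : ℤ))⁻¹ * S41A_res (N * d) q (h' i) :=
    fun i => by rw [hh']; exact hmul i
  have hmul2 : ∀ i, S36X_resG N (N * d) (dvd_mul_right N d) γ
        * (S36B_lA N (((σ i).val : ℤ) * d))⁻¹
      = (S36B_lA N ((i.val : ℤ) * d))⁻¹
        * S41A_res N q (S36X_resG (N * q) (N * d * q) (S36X_dvdA N q d) (h' i)) := by
    intro i
    have := congrArg (S36X_resG N (N * d) (dvd_mul_right N d)) (hmul' i)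
    rw [map_mul, map_mul, map_inv, map_inv, S36X_resG_lA, S36X_resG_lA, S36X_resG_res] at this
    exact this
  rw [S41D_trA_apply (N * d) q _ (fun j : ZMod q => (S36B_lA (N * d) (j.val : ℤ))⁻¹)
    (S36B_lA_bijective (Dvd.dvd.mul_right hqN d)) γ σ h' hmul', S36X_pull_apply,
    S41D_trA_apply N q z (fun j : ZMod q => (S36B_lA N ((j.val : ℤ) * d))⁻¹)
    (S36X_lA_bijective hqN hdq) (S36X_resG N (N * d) (dvd_mul_right N d) γ) σ
    (fun i => S36X_resG (N * q) (N * d * q) (S36X_dvdA N q d) (h' i)) hmul2]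
  rfl

/-- **Mackey for `trB`**. -/
theorem S36X_trB_pull [NeZero N] [NeZero q] [NeZero d] (hqN : q ∣ N)
    (z : ↥(parInt (N * q))) :
    S41D_trB (N * d) q (S36X_pull (N * q) (N * d * q) (S36X_dvdA N q d) z)
      = S36X_pull N (N * d) (dvd_mul_right N d) (S41D_trB N q z) := by
  apply Subtype.ext
  refine AddMonoidHom.ext fun γ' => ?_
  obtain ⟨γ, rfl⟩ := Additive.ofMul.surjective γ'
  obtain ⟨σ, hh, hmul⟩ := S41D_exists_data (S41A_deg (N * d) q).range
    (fun j : ZMod q => (S41D_T (N * d) (j.val : ℤ))⁻¹)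
    (S36B_tB_bijective (Dvd.dvd.mul_right hqN d)) γ
  choose h' hh' using fun i => (hh i).2
  have hmul' : ∀ i, γ * (S41D_T (N * d) ((σ i).val : ℤ))⁻¹
      = (S41D_T (N * d) (i.val : ℤ))⁻¹ * S41A_deg (N * d) q (h' i) :=
    fun i => by rw [hh']; exact hmul i
  have hmul2 : ∀ i, S36X_resG N (N * d) (dvd_mul_right N d) γ
        * (S41D_T N ((σ i).val : ℤ))⁻¹
      = (S41D_T N (i.val : ℤ))⁻¹
        * S41A_deg N q (S36X_resG (N * q) (N * d * q) (S36X_dvdA N q d) (h' i)) := by
    intro i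
    have := congrArg (S36X_resG N (N * d) (dvd_mul_right N d)) (hmul' i)
    rw [map_mul, map_mul, map_inv, map_inv, S36X_resG_T, S36X_resG_T, S36X_resG_deg] at this
    exact this
  rw [S41D_trB_apply (N * d) q _ (fun j : ZMod q => (S41D_T (N * d) (j.val : ℤ))⁻¹)
    (S36B_tB_bijective (Dvd.dvd.mul_right hqN d)) γ σ h' hmul', S36X_pull_apply,
    S41D_trB_apply N q z (fun j : ZMod q => (S41D_T N (j.val : ℤ))⁻¹)
    (S36B_tB_bijective hqN) (S36X_resG N (N * d) (dvd_mul_right N d) γ) σ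
    (fun i => S36X_resG (N * q) (N * d * q) (S36X_dvdA N q d) (h' i)) hmul2]
  rfl

/-- the restriction of a `q`-new class is `q`-new. -/
theorem S36X_pull_mem_B [NeZero N] [Fact q.Prime] [NeZero d] (hqN : q ∣ N) (hdq : d.Coprime q)
    (z : ↥(parInt (N * q))) (hz : z ∈ S41D_B N q) :
    S36X_pull (N * q) (N * d * q) (S36X_dvdA N q d) z ∈ S41D_B (N * d) q := by
  rw [S41D_mem_B] at hz ⊢
  rw [S36X_trA_pull N q d hqN hdq, S36X_trB_pull N q d hqN, hz.1, hz.2, map_zero]
  exact ⟨rfl, rfl⟩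

end mackey

/-! ### assembly -/

section main

theorem S36X_incl_jB (M M' : ℕ) [NeZero M] [NeZero M'] (h : M ∣ M') :
    S36X_incl M M' h (jB M) = jB M' :=
  S36X_incl_jBar M M' h 1 (one_dvd M)

/-- the norm-down statement for `π : F_{N q} → F_{N d q}` (proved in `S36/AuxRMain.lean`). -/
def S36X_NormDown (N q d : ℕ) [NeZero (N * q)] [NeZero (N * d * q)] : Prop :=
  ∃ e : ℕ, e ≠ 0 ∧ ∀ (n c : ℕ) (f : ↥(modularFunctionFieldBar (N * q))),
    GR_IsTriv (N * d * q) n (S36X_incl (N * q) (N * d * q) (S36X_dvdA N q d) f ^ c) →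
      GR_IsTriv (N * q) n (f ^ (c * e))

/-- **AUX-r, modulo the norm argument**: (G36-K) at level `N d q` implies (G36-K) at level
`N q` (`q ∣ N`, `d` prime to `q`). -/
theorem S36X_main_of (N q p d : ℕ) [NeZero N] [NeZero (N * q)] [NeZero (N * d)]
    [NeZero (N * d * q)] [Fact q.Prime] (hqN : q ∣ N) (hdq : d.Coprime q)
    (hnorm : S36X_NormDown N q d) (hG : S36A_G36K (N * d) q p) : S36A_G36K N q p := by
  haveI : NeZero d := ⟨fun h0 => NeZero.ne (N * d) (by rw [h0, mul_zero])⟩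
  obtain ⟨c, hc, H⟩ := hG
  obtain ⟨e, he, Hn⟩ := hnorm
  refine ⟨c * e, mul_ne_zero hc he, fun k P hP f z hz hkum hchar hin => ?_⟩
  apply Hn (p ^ k) c f
  refine H k P hP (S36X_incl (N * q) (N * d * q) (S36X_dvdA N q d) f)
    (S36X_pull (N * q) (N * d * q) (S36X_dvdA N q d) z)
    (S36X_pull_mem_B N q d hqN hdq z hz)
    (S36X_kum_incl (N * q) (N * d * q) (S36X_dvdA N q d) (p ^ k) hkum)
    (S36X_kchar_incl (N * q) (N * d * q) (S36X_dvdA N q d) (p ^ k) f z hchar) ?_
  intro τ hτ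
  have h1 := S36X_triv_incl (N * q) (N * d * q) (S36X_dvdA N q d) (p ^ k) (hin τ hτ)
  rw [map_mul, map_inv₀, ← S36X_gal_incl] at h1
  exact h1

end main

end Fermat.Agent.S36
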