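import Mathlib
import Fermat.Agent.GalRep.KMFinal
import Fermat.Agent.GalRep.TwrAct
import Fermat.Agent.S36.AlgIface
import Fermat.Agent.S36.Bridge2
import Fermat.Agent.S36.LDesc

/-!
# TRACK 10 (S36), package WIRE (helper2), layer 1: (G36-K) from the CORE statement

The CORE statement is (G36-K) in pure function-field language (no Kummer characters, no
cohomology): level `N q` (`q` prime), `F₂ = modularFunctionFieldBar (N q)`,
`F₁ = modularFunctionFieldBar N`, `N_α, N_β : F₂ → F₁` the two norms (`S35B_NA`, `S35B_NB`).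

* `S36W_Core N q p` : there is `c ≠ 0` such that every Kummer generator `f ∈ F₂` of exponent `p ^ k`
  which is FIXED by an inertia group `I` at `q` (as a function: `τ f = f`; `q`-expansion
  coefficients in `ℚ̄^I`; divisor `n D'` with `D'` an `I`-stable divisor of degree `0` and
  `D' + m₀ (∞) ≥ 0`, `0 ≤ m₀ ≤ g`) and whose norms `N_α f`, `N_β f` are trivial (`= const · gⁿ`)
  satisfies: `f ^ c` is trivial.
* `S36W_g36k_of_core` : `S36W_Core N q p → S36A_G36K N q p`  (L-DESC of helper5 + BRIDGE2 of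
  helper27 + KAPPA).
* `S36W_CoreAll` : CORE at every level `M q q` with `q ∤ M`, `M` divisible by an auxiliary prime
  `r ≡ 11 mod 12`, `r ∥ M`, `r ≠ p` (so that `X₀(M)` has no elliptic points).
* `S36W_AuxStmt` : AUX-r (helper10): (G36-K) at level `N d q` implies (G36-K) at level `N q`.
* `S36W_all` : `S36W_AuxStmt → S36W_CoreAll → S36A_G36KAll`  (Dirichlet for the auxiliary prime).
-/

set_option autoImplicit false
set_option linter.style.haveILetI false
set_option linter.unusedSectionVars false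

open ModularCurve AlgebraicCurve CongruenceSubgroup

namespace Fermat.Agent.S36

open Fermat.Agent.GalRep Fermat.Agent.S16 Fermat.Agent.S41 Fermat.Agent.S24 Fermat.Agent.S35
open Fermat.Agent.Lib

/-! ### trivial generators form a group -/

theorem S36W_isTriv_mul {L n : ℕ} {a b : ↥(modularFunctionFieldBar L)}
    (ha : GR_IsTriv L n a) (hb : GR_IsTriv L n b) : GR_IsTriv L n (a * b) := by
  obtain ⟨c, g, hc, hg, rfl⟩ := ha
  obtain ⟨c', g', hc', hg', rfl⟩ := hb
  refine ⟨c * c', g * g', mul_ne_zero hc hc', mul_ne_zero hg hg', ?_⟩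
  rw [map_mul, mul_pow]
  ring

theorem S36W_isTriv_inv {L n : ℕ} {a : ↥(modularFunctionFieldBar L)}
    (ha : GR_IsTriv L n a) : GR_IsTriv L n a⁻¹ := by
  obtain ⟨c, g, hc, hg, rfl⟩ := ha
  refine ⟨c⁻¹, g⁻¹, inv_ne_zero hc, inv_ne_zero hg, ?_⟩
  rw [map_inv₀, inv_pow, mul_inv]

theorem S36W_isTriv_pow {L n : ℕ} {a : ↥(modularFunctionFieldBar L)}
    (ha : GR_IsTriv L n a) (m : ℕ) : GR_IsTriv L n (a ^ m) := by
  obtain ⟨c, g, hc, hg, rfl⟩ := ha
  refine ⟨c ^ m, g ^ m, pow_ne_zero m hc, pow_ne_zero m hg, ?_⟩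
  rw [map_pow, mul_pow, ← pow_mul, ← pow_mul, mul_comm m n]

theorem S36W_isTriv_ne_zero {L n : ℕ} {a : ↥(modularFunctionFieldBar L)}
    (ha : GR_IsTriv L n a) : a ≠ 0 := by
  obtain ⟨c, g, hc, hg, rfl⟩ := ha
  have hc' : algebraMap (AlgebraicClosure ℚ) ↥(modularFunctionFieldBar L) c ≠ 0 := by
    rwa [Ne, map_eq_zero]
  exact mul_ne_zero hc' (pow_ne_zero _ hg)

/-! ### the CORE statement -/

/-- **CORE**: (G36-K) in function-field language.  See the module docstring. -/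
def S36W_Core (N q p : ℕ) [NeZero N] [NeZero (N * q)] [Fact q.Prime] : Prop :=
  ∃ c : ℕ, c ≠ 0 ∧ ∀ (k : ℕ),
    ∀ P : ValuationSubring (AlgebraicClosure ℚ), P.LiesOverPrime q →
      ∀ f : ↥(modularFunctionFieldBar (N * q)),
        KM_IsKum (AlgebraicClosure ℚ) ↥(modularFunctionFieldBar (N * q)) (p ^ k) f →
        (∀ τ ∈ P.inertiaSubgroupIn ℚ, GR_gal (N * q) τ f = f) →
        (∀ τ ∈ P.inertiaSubgroupIn ℚ, ∀ j : ℤ,
          τ ((f : LaurentSeries (AlgebraicClosure ℚ)).coeff j)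
            = (f : LaurentSeries (AlgebraicClosure ℚ)).coeff j) →
        (∃ (D' : Divisor (AlgebraicClosure ℚ) ↥(modularFunctionFieldBar (N * q))) (m₀ : ℤ),
          (∀ v, ((p ^ k : ℕ) : ℤ) * D' v = v.ord f) ∧ D'.degree = 0 ∧
          (∀ τ ∈ P.inertiaSubgroupIn ℚ, ∀ v,
            D' (arithmeticGalois (modularFunctionFieldFull (N * q)) τ • v) = D' v) ∧
          0 ≤ m₀ ∧
          m₀ ≤ (RR_genus (AlgebraicClosure ℚ) ↥(modularFunctionFieldBar (N * q)) : ℤ) ∧
          ∀ v, 0 ≤ D' v + (Finsupp.single (S36LD_O (N * q)) m₀ :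
            Divisor (AlgebraicClosure ℚ) ↥(modularFunctionFieldBar (N * q))) v) →
        GR_IsTriv N (p ^ k) (S35B_NA N q f) →
        GR_IsTriv N (p ^ k) (S35B_NB N q f) →
        GR_IsTriv (N * q) (p ^ k) (f ^ c)

/-- **WIRE, layer 1**: CORE ⇒ (G36-K). -/
theorem S36W_g36k_of_core (N q p : ℕ) [NeZero N] [NeZero (N * q)] [Fact q.Prime]
    [hp : Fact p.Prime] (h : S36W_Core N q p) : S36A_G36K N q p := by
  obtain ⟨c, hc, H⟩ := h
  refine ⟨c, hc, fun k P hP f z hz hkum hchar hfix => ?_⟩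
  have hn : 0 < p ^ k := pow_pos hp.out.pos k
  have hK2 : GR_KappaStmt (N * q) := KMF_kappa_final (N * q)
  have hK1 : GR_KappaStmt N := KMF_kappa_final N
  obtain ⟨f', hf', htriv, hfix', hcoef, hD⟩ := S36LD_inertia (N * q) P (p ^ k) hn f hkum hfix
  have hchar' := GRT_kchar_of_isTriv_mul hK2 hn htriv hkum.1 hchar
  obtain ⟨hNA, hNB⟩ := S36B_bridge_all hK1 (p ^ k) hn f' z hz hf' hchar'
  have h1 := H k P hP f' hf' hfix' hcoef hD hNA hNB
  have h2 : GR_IsTriv (N * q) (p ^ k) ((f' * f⁻¹) ^ c)⁻¹ :=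
    S36W_isTriv_inv (S36W_isTriv_pow htriv c)
  have h3 := S36W_isTriv_mul h1 h2
  have e : f' ^ c * ((f' * f⁻¹) ^ c)⁻¹ = f ^ c := by
    have hf'0 : f' ≠ 0 := hf'.1
    have hf0 : f ≠ 0 := hkum.1
    rw [mul_pow, inv_pow, mul_inv, inv_inv, ← mul_assoc, mul_inv_cancel₀ (pow_ne_zero c hf'0),
      one_mul]
  rwa [e] at h3

/-! ### the auxiliary prime -/

/-- **CORE at the levels with an auxiliary prime**: level `M q q`, `q ∤ M`, and `M` is exactly
divisible by a prime `r ≡ 11 mod 12`, `r ≠ p` (`X₀(M)` has no elliptic points). -/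
def S36W_CoreAll : Prop :=
  ∀ (M q p : ℕ) [NeZero (M * q)] [NeZero (M * q * q)] [Fact q.Prime] [Fact p.Prime],
    ¬ q ∣ M → q ≠ p →
    (∃ r : ℕ, r.Prime ∧ r % 12 = 11 ∧ r ≠ p ∧ r ≠ q ∧ r ∣ M ∧ ¬ r ^ 2 ∣ M) →
    S36W_Core (M * q) q p

/-- **AUX-r** (helper10): (G36-K) at level `N d q` implies (G36-K) at level `N q`. -/
def S36W_AuxStmt : Prop :=
  ∀ (N q p d : ℕ) [NeZero N] [NeZero (N * q)] [NeZero (N * d)] [NeZero (N * d * q)]
    [Fact q.Prime], q ∣ N → d.Coprime q → S36A_G36K (N * d) q p → S36A_G36K N q p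

/-- transport of (G36-K) along an equality of levels. -/
theorem S36W_cast {N N' q p : ℕ} [NeZero N] [NeZero (N * q)] [NeZero N'] [NeZero (N' * q)]
    [Fact q.Prime] (h : N = N') (H : S36A_G36K N q p) : S36A_G36K N' q p := by
  subst h
  exact H

/-- **WIRE, layer 1, all levels**: AUX-r + CORE (with auxiliary prime) ⇒ the hypothesis of ALG36. -/
theorem S36W_all (haux : S36W_AuxStmt) (hcore : S36W_CoreAll) : S36A_G36KAll := by
  intro N q p _ _ hqf hpf hqN hq2N hqp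
  have hq : q.Prime := hqf.out
  have hN0 : N ≠ 0 := NeZero.ne N
  obtain ⟨M', rfl⟩ : ∃ M', N = M' * q := ⟨N / q, (Nat.div_mul_cancel hqN).symm⟩
  have hM'0 : M' ≠ 0 := fun h => hN0 (by rw [h, zero_mul])
  have hqM' : ¬ q ∣ M' := by
    intro h
    apply hq2N
    rw [sq]
    exact Nat.mul_dvd_mul_right h q
  -- the auxiliary prime
  obtain ⟨r, hrgt, hr, hrmod⟩ := Nat.forall_exists_prime_gt_and_modEq (M' * q + p + q)
    (q := 12) (a := 11) (by norm_num) (by norm_num)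
  have hr11 : r % 12 = 11 := by
    have := hrmod
    unfold Nat.ModEq at this
    simpa using this
  have hrp : r ≠ p := by omega
  have hrq : r ≠ q := by omega
  have hrM' : ¬ r ∣ M' := by
    intro h
    have h1 := Nat.le_of_dvd (Nat.pos_of_ne_zero hM'0) h
    have h2 : M' ≤ M' * q := Nat.le_mul_of_pos_right M' hq.pos
    omega
  have hr0 : r ≠ 0 := hr.ne_zero
  haveI : NeZero (M' * r * q) := ⟨mul_ne_zero (mul_ne_zero hM'0 hr0) hq.ne_zero⟩
  haveI : NeZero (M' * r * q * q) :=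
    ⟨mul_ne_zero (mul_ne_zero (mul_ne_zero hM'0 hr0) hq.ne_zero) hq.ne_zero⟩
  haveI : NeZero (M' * q * r) := ⟨mul_ne_zero (mul_ne_zero hM'0 hq.ne_zero) hr0⟩
  haveI : NeZero (M' * q * r * q) :=
    ⟨mul_ne_zero (mul_ne_zero (mul_ne_zero hM'0 hq.ne_zero) hr0) hq.ne_zero⟩
  have hqM : ¬ q ∣ M' * r := by
    intro h
    rcases (Nat.Prime.dvd_mul hq).mp h with h1 | h1
    · exact hqM' h1
    · exact hrq ((Nat.prime_dvd_prime_iff_eq hq hr).mp h1).symm
  have hr2 : ¬ r ^ 2 ∣ M' * r := by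
    intro h
    rw [sq] at h
    exact hrM' ((Nat.mul_dvd_mul_iff_right hr.pos).mp h)
  have hC := hcore (M' * r) q p hqM hqp ⟨r, hr, hr11, hrp, hrq, Dvd.intro_left M' rfl, hr2⟩
  have hG := S36W_g36k_of_core (M' * r * q) q p hC
  have hG' : S36A_G36K (M' * q * r) q p := S36W_cast (Nat.mul_right_comm M' r q) hG
  have hcop : r.Coprime q := (Nat.coprime_primes hr hq).mpr hrq
  exact haux (M' * q) q p r hqN hcop hG'

end Fermat.Agent.S36
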