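import Mathlib
import Fermat.Agent.S36.AuxR
import Fermat.Agent.S36.Wire36

/-!
# TRACK 10 (S36), package AUX-r (helper10): the norm argument and the final statement

* `S36X_finite`    : `F_{M'}` is finite over `π F_M` (`M ∣ M'`), via `finiteDimensional_jB`;
* `S36X_norm_down` : `π(f) ^ c` trivial at level `M'`  ⇒  `f ^ (c [F_{M'} : F_M])` trivial at
  level `M` (norm of the relation `π(f)^c = a hⁿ`);
* `S36X_main`      : `S36A_G36K (N * d) q p → S36A_G36K N q p` (`q ∣ N`, `d` prime to `q`);
* `S36X_auxStmt`   : `S36W_AuxStmt`.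
-/

set_option autoImplicit false
set_option synthInstance.maxHeartbeats 400000
set_option maxHeartbeats 1000000
set_option linter.style.haveILetI false
set_option linter.unusedSectionVars false

open ModularCurve AlgebraicCurve IntermediateField

namespace Fermat.Agent.S36

open Fermat.Agent.S24 Fermat.Agent.GalRep

section norm

variable (M M' : ℕ) [NeZero M] [NeZero M']

/-- a field which is finite over an intermediate field is finite over every bigger one. -/
theorem S36X_finite_of_le {K L : Type*} [Field K] [Field L] [Algebra K L]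
    (E₁ E₂ : IntermediateField K L) (h : E₁ ≤ E₂) [FiniteDimensional ↥E₁ L] :
    FiniteDimensional ↥E₂ L := by
  letI : Algebra ↥E₁ ↥E₂ := (IntermediateField.inclusion h).toRingHom.toAlgebra
  haveI : IsScalarTower ↥E₁ ↥E₂ L := IsScalarTower.of_algebraMap_eq (fun _ => rfl)
  exact Module.Finite.of_restrictScalars_finite ↥E₁ ↥E₂ L

/-- `F_{M'}` is finite over `π F_M`. -/
theorem S36X_finite_range (h : M ∣ M') :
    FiniteDimensional ↥(S36X_incl M M' h).fieldRange ↥(modularFunctionFieldBar M') := by
  haveI := finiteDimensional_jB M'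
  refine S36X_finite_of_le ((AlgebraicClosure ℚ)⟮jB M'⟯) (S36X_incl M M' h).fieldRange ?_
  rw [IntermediateField.adjoin_simple_le_iff]
  exact ⟨jB M, S36X_incl_jB M M' h⟩

/-- the degree `[F_{M'} : F_M]`. -/
noncomputable def S36X_deg (h : M ∣ M') : ℕ :=
  @Module.finrank ↥(modularFunctionFieldBar M) ↥(modularFunctionFieldBar M') _ _
    ((S36X_incl M M' h).toRingHom.toAlgebra.toModule)

theorem S36X_deg_eq (h : M ∣ M') :
    S36X_deg M M' h
      = Module.finrank ↥(S36X_incl M M' h).fieldRange ↥(modularFunctionFieldBar M') := by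
  letI : Algebra ↥(modularFunctionFieldBar M) ↥(modularFunctionFieldBar M') :=
    (S36X_incl M M' h).toRingHom.toAlgebra
  exact Algebra.finrank_eq_of_equiv_equiv
    (AlgEquiv.ofInjectiveField (S36X_incl M M' h)).toRingEquiv (RingEquiv.refl _) rfl

theorem S36X_deg_pos (h : M ∣ M') : 0 < S36X_deg M M' h := by
  rw [S36X_deg_eq]
  haveI := S36X_finite_range M M' h
  exact Module.finrank_pos

theorem S36X_finite (h : M ∣ M') :
    @FiniteDimensional ↥(modularFunctionFieldBar M) ↥(modularFunctionFieldBar M') _ _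
      (@Algebra.toModule _ _ _ _ (S36X_incl M M' h).toRingHom.toAlgebra) := by
  letI : Algebra ↥(modularFunctionFieldBar M) ↥(modularFunctionFieldBar M') :=
    (S36X_incl M M' h).toRingHom.toAlgebra
  apply Module.finite_of_finrank_pos
  exact S36X_deg_pos M M' h

/-- **norm down**: if `π(f) ^ c` is trivial at level `M'`, then `f ^ (c [F_{M'} : F_M])` is
trivial at level `M`. -/
theorem S36X_norm_down (h : M ∣ M') (n c : ℕ) (f : ↥(modularFunctionFieldBar M))
    (hf : GR_IsTriv M' n (S36X_incl M M' h f ^ c)) :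
    GR_IsTriv M n (f ^ (c * S36X_deg M M' h)) := by
  letI algF : Algebra ↥(modularFunctionFieldBar M) ↥(modularFunctionFieldBar M') :=
    (S36X_incl M M' h).toRingHom.toAlgebra
  haveI fd : FiniteDimensional ↥(modularFunctionFieldBar M) ↥(modularFunctionFieldBar M') :=
    S36X_finite M M' h
  obtain ⟨a, g, ha, hg, hfg⟩ := hf
  have hd : Module.finrank ↥(modularFunctionFieldBar M) ↥(modularFunctionFieldBar M')
      = S36X_deg M M' h := rfl
  have h1 : algebraMap ↥(modularFunctionFieldBar M) ↥(modularFunctionFieldBar M') (f ^ c)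
      = S36X_incl M M' h f ^ c := by
    rw [map_pow]
    rfl
  have h2 : algebraMap (AlgebraicClosure ℚ) ↥(modularFunctionFieldBar M') a
      = algebraMap ↥(modularFunctionFieldBar M) ↥(modularFunctionFieldBar M')
          (algebraMap (AlgebraicClosure ℚ) ↥(modularFunctionFieldBar M) a) :=
    ((S36X_incl M M' h).commutes a).symm
  have h3 := congrArg (Algebra.norm ↥(modularFunctionFieldBar M)) hfg
  rw [← h1, Algebra.norm_algebraMap, h2, map_mul, Algebra.norm_algebraMap, map_pow, hd,
    ← pow_mul, ← map_pow] at h3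
  exact ⟨a ^ S36X_deg M M' h, Algebra.norm ↥(modularFunctionFieldBar M) g, pow_ne_zero _ ha,
    (Algebra.norm_ne_zero_iff (R := ↥(modularFunctionFieldBar M))).mpr hg, h3⟩

end norm

/-- **AUX-r**: (G36-K) at level `N d q` implies (G36-K) at level `N q` (`q ∣ N`, `d` prime to
`q`); the constant is multiplied by `[F_{N d q} : F_{N q}]`. -/
theorem S36X_main (N q p d : ℕ) [NeZero N] [NeZero (N * q)] [NeZero (N * d)]
    [NeZero (N * d * q)] [Fact q.Prime] (hqN : q ∣ N) (hdq : d.Coprime q)
    (hG : S36A_G36K (N * d) q p) : S36A_G36K N q p :=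
  S36X_main_of N q p d hqN hdq
    ⟨S36X_deg (N * q) (N * d * q) (S36X_dvdA N q d),
      (S36X_deg_pos (N * q) (N * d * q) (S36X_dvdA N q d)).ne',
      fun n c f hf => S36X_norm_down (N * q) (N * d * q) (S36X_dvdA N q d) n c f hf⟩ hG

/-- **AUX-r** in the shape of `S36/Wire36.lean`. -/
theorem S36X_auxStmt : S36W_AuxStmt :=
  fun N q p d _ _ _ _ _ hqN hdq hG => S36X_main N q p d hqN hdq hG

end Fermat.Agent.S36
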