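import Mathlib
import Fermat.Agent.S34.Tors

/-!
# TRACK 10 (S36), package TORS3 (helper6), part 1: the finitely generated cover

Pure algebra over Mathlib (+ `S34T_htors`).  Prefix `S36T_`.

`R` a commutative ring (in the application the discrete valuation ring `O_L` of the inertia field
`L`), `F` a field which is an `R`-algebra, `x = j − c`, `s = x⁻¹`.  `M`, `M'`, `M''` are the
integral sections on the charts `U = {j ≠ ∞}`, `U' = {j ≠ c}`, `U ∩ U'`.

* `S36T_cover` : if `M` is generated over `R[x]` by finitely many `m i`, `M'` is stable under `s`,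
  every `h ∈ M''` has `x ^ a * h ∈ M` and every `m i` has `s ^ b * m i ∈ M'`, then
  `M'' ≤ M ⊔ M' ⊔ P` with `P` a finitely generated `R`-module (spanned by the `s ^ e * m i`,
  `1 ≤ e ≤ B`);
* `S36T_htors` : hence the hypothesis `htors` of `S34I_false`.
-/

set_option autoImplicit false

open Polynomial

namespace Fermat.Agent.S36

open Fermat.Agent.S34

section cover

variable {R F : Type*} [CommRing R] [Field F] [Algebra R F]

/-- stability under `x` gives stability under `x ^ n`. -/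
theorem S36T_pow_mem (x : F) (M : Submodule R F) (hMx : ∀ f ∈ M, x * f ∈ M) (n : ℕ) :
    ∀ f ∈ M, x ^ n * f ∈ M := by
  induction n with
  | zero => intro f hf; simpa using hf
  | succ n ih =>
    intro f hf
    rw [pow_succ, mul_assoc]
    exact ih _ (hMx f hf)

/-- **(T1)** the finitely generated cover. -/
theorem S36T_cover (x s : F) (hxs : s * x = 1) (M M' M'' : Submodule R F)
    (hMx : ∀ f ∈ M, x * f ∈ M) (hM's : ∀ f ∈ M', s * f ∈ M')
    {r : ℕ} (m : Fin r → F) (hm : ∀ i, m i ∈ M)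
    (hgen : ∀ f ∈ M, ∃ P : Fin r → R[X], f = ∑ i, aeval x (P i) * m i)
    (hloc : ∀ h ∈ M'', ∃ a : ℕ, x ^ a * h ∈ M)
    (hm' : ∀ i, ∃ b : ℕ, s ^ b * m i ∈ M') :
    ∃ P : Submodule R F, P.FG ∧ M'' ≤ M ⊔ M' ⊔ P := by
  classical
  choose b hb using hm'
  set B : ℕ := ∑ i, b i with hB
  have hbB : ∀ i, b i ≤ B := fun i => Finset.single_le_sum (fun _ _ => Nat.zero_le _)
    (Finset.mem_univ i)
  set P : Submodule R F :=
    Submodule.span R (Set.range (fun p : Fin r × Fin B => s ^ (p.2.val + 1) * m p.1)) with hP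
  have hsx : ∀ n : ℕ, s ^ n * x ^ n = 1 := fun n => by rw [← mul_pow, hxs, one_pow]
  refine ⟨P, Submodule.fg_span (Set.finite_range _), ?_⟩
  -- the monomials
  have key : ∀ (i : Fin r) (k a : ℕ), s ^ a * (x ^ k * m i) ∈ M ⊔ M' ⊔ P := by
    intro i k a
    rcases le_or_gt a k with hak | hak
    · -- `x ^ (k - a) * m i ∈ M`
      have h1 : s ^ a * (x ^ k * m i) = x ^ (k - a) * m i := by
        obtain ⟨e, rfl⟩ := Nat.exists_eq_add_of_le hak
        rw [Nat.add_sub_cancel_left, pow_add, ← mul_assoc, ← mul_assoc, hsx, one_mul]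
      rw [h1]
      exact Submodule.mem_sup_left (Submodule.mem_sup_left
        (S36T_pow_mem x M hMx _ _ (hm i)))
    · obtain ⟨e, he⟩ := Nat.exists_eq_add_of_lt hak
      -- `a = k + e + 1`
      have h1 : s ^ a * (x ^ k * m i) = s ^ (e + 1) * m i := by
        rw [he, add_assoc, add_comm k, pow_add, mul_assoc, ← mul_assoc (s ^ k), hsx, one_mul]
      rw [h1]
      rcases lt_or_ge e B with heB | heB
      · refine Submodule.mem_sup_right (Submodule.subset_span ⟨(i, ⟨e, heB⟩), rfl⟩)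
      · have h2 : s ^ (e + 1) * m i = s ^ (e + 1 - b i) * (s ^ b i * m i) := by
          rw [← mul_assoc, ← pow_add, Nat.sub_add_cancel (by have := hbB i; omega)]
        rw [h2]
        exact Submodule.mem_sup_left (Submodule.mem_sup_right
          (S36T_pow_mem s M' hM's _ _ (hb i)))
  intro h hh
  obtain ⟨a, ha⟩ := hloc h hh
  obtain ⟨Q, hQ⟩ := hgen _ ha
  have h1 : h = s ^ a * (x ^ a * h) := by rw [← mul_assoc, hsx, one_mul]
  rw [h1, hQ, Finset.mul_sum]
  refine Submodule.sum_mem _ fun i _ => ?_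
  rw [aeval_eq_sum_range, Finset.sum_mul, Finset.mul_sum]
  refine Submodule.sum_mem _ fun k _ => ?_
  rw [smul_mul_assoc, mul_smul_comm]
  exact Submodule.smul_mem _ _ (key i k a)

/-- **(T2)** the hypothesis `htors` of `S34I_false` from the data of `S36T_cover`. -/
theorem S36T_htors [IsDomain R] (x s : F) (hxs : s * x = 1) (M M' M'' : Submodule R F)
    (hMx : ∀ f ∈ M, x * f ∈ M) (hM's : ∀ f ∈ M', s * f ∈ M')
    {r : ℕ} (m : Fin r → F) (hm : ∀ i, m i ∈ M)
    (hgen : ∀ f ∈ M, ∃ P : Fin r → R[X], f = ∑ i, aeval x (P i) * m i)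
    (hloc : ∀ h ∈ M'', ∃ a : ℕ, x ^ a * h ∈ M)
    (hm' : ∀ i, ∃ b : ℕ, s ^ b * m i ∈ M') :
    ∃ c₀ : R, c₀ ≠ 0 ∧ ∀ h ∈ M'', ∀ a : R, a ≠ 0 → a • h ∈ M ⊔ M' → c₀ • h ∈ M ⊔ M' := by
  obtain ⟨P, hP, hcov⟩ := S36T_cover x s hxs M M' M'' hMx hM's m hm hgen hloc hm'
  exact S34T_htors M M' M'' P hP hcov

end cover

end Fermat.Agent.S36
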