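import Mathlib
import Fermat.Agent.S36.Tors3

/-!
# TRACK 10 (S36), package TORS3 (helper6), part 2: finite generation over `R[x]` from integrality

`R` a Noetherian integrally closed domain (the discrete valuation ring `O_L`), `L = Frac R`,
`F` a field of characteristic `0`, finite over `L(x)`, `x` transcendental over `L`.

* `S36T_gen_of_integral` : an `R`-submodule `M ⊂ F` which is stable under `x` and such that
  `d • M` (`d ≠ 0`) is integral over `R[x]` is generated over `R[x]` by finitely many elements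
  (`IsIntegralClosure.isNoetherian` for `R[X]`): this is the hypothesis `hgen` of `S36T_cover`.
* `S36T_htors_of_integral` : `htors` of `S34I_false` from integrality.
-/

set_option autoImplicit false
set_option linter.style.haveILetI false

open Polynomial IntermediateField

namespace Fermat.Agent.S36

section gen

variable {R L F : Type*} [CommRing R] [Field L] [Algebra R L] [IsFractionRing R L]
  [Field F] [Algebra L F] [Algebra R F] [IsScalarTower R L F]

/-- `aeval x` over `R` is injective when `x` is transcendental over `L = Frac R`. -/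
theorem S36T_aeval_injective (x : F) (hx : Transcendental L x) :
    Function.Injective (aeval x : R[X] →ₐ[R] F) := by
  intro p q hpq
  have h1 : aeval x (p.map (algebraMap R L)) = aeval x (q.map (algebraMap R L)) := by
    rw [aeval_map_algebraMap, aeval_map_algebraMap]
    exact hpq
  have h2 := (transcendental_iff_injective.mp hx) h1
  exact Polynomial.map_injective _ (IsFractionRing.injective R L) h2

omit [Field L] [Algebra R L] [IsFractionRing R L] [Algebra L F] [IsScalarTower R L F] in
/-- stability under `x` and `R` gives stability under `R[x]`. -/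
theorem S36T_aeval_mul_mem (x : F) (M : Submodule R F) (hMx : ∀ f ∈ M, x * f ∈ M) (p : R[X])
    {f : F} (hf : f ∈ M) : aeval x p * f ∈ M := by
  rw [aeval_eq_sum_range, Finset.sum_mul]
  refine Submodule.sum_mem _ fun k _ => ?_
  rw [smul_mul_assoc]
  exact Submodule.smul_mem _ _ (S36T_pow_mem x M hMx k f hf)

omit [Field L] [Algebra R L] [IsFractionRing R L] [Algebra L F] [IsScalarTower R L F] in
/-- integrality over the subalgebra `R[x] ⊂ F` is integrality over the polynomial ring. -/
theorem S36T_isIntegral_aeval (x : F) {z : F} (hz : IsIntegral (Algebra.adjoin R {x}) z) :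
    (aeval x : R[X] →ₐ[R] F).toRingHom.IsIntegralElem z := by
  obtain ⟨p, hp, hpz⟩ := hz
  have hlift : p.map (algebraMap (Algebra.adjoin R {x}) F) ∈
      Polynomial.lifts (aeval x : R[X] →ₐ[R] F).toRingHom := by
    rw [Polynomial.lifts_iff_coeff_lifts]
    intro n
    rw [Polynomial.coeff_map]
    have h0 : ∀ y : F, y ∈ Algebra.adjoin R {x} → ∃ q : R[X], aeval x q = y := by
      intro y hy
      rw [Algebra.adjoin_singleton_eq_range_aeval] at hy
      exact hy
    obtain ⟨q, hq⟩ := h0 _ (p.coeff n).2
    exact ⟨q, hq⟩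
  obtain ⟨q, hq, -, hqm⟩ := Polynomial.lifts_and_degree_eq_and_monic hlift (hp.map _)
  refine ⟨q, hqm, ?_⟩
  rw [← Polynomial.eval_map, hq, Polynomial.eval_map]
  exact hpz

/-- every element of `L(x)` comes from the fraction field of `R[X]`. -/
theorem S36T_range_fraction [IsDomain R] (x : F) (φ : FractionRing R[X] →+* F)
    (hφ : ∀ p : R[X], φ (algebraMap R[X] (FractionRing R[X]) p) = aeval x p)
    (z : L⟮x⟯) : ∃ k : FractionRing R[X], φ k = (z : F) := by
  have hL : ∀ l : L, algebraMap L F l ∈ φ.fieldRange := by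
    intro l
    obtain ⟨a, b, -, rfl⟩ := IsFractionRing.div_surjective (A := R) l
    rw [map_div₀, ← IsScalarTower.algebraMap_apply, ← IsScalarTower.algebraMap_apply]
    refine div_mem ⟨algebraMap R[X] (FractionRing R[X]) (C a), ?_⟩
      ⟨algebraMap R[X] (FractionRing R[X]) (C b), ?_⟩
    · rw [hφ, aeval_C]
    · rw [hφ, aeval_C]
  have hle : L⟮x⟯ ≤ φ.fieldRange.toIntermediateField hL := by
    rw [IntermediateField.adjoin_simple_le_iff]
    exact ⟨algebraMap R[X] (FractionRing R[X]) X, by rw [hφ, aeval_X]⟩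
  obtain ⟨k, hk⟩ := hle z.2
  exact ⟨k, hk⟩

/-- **(T3)** finite generation over `R[x]` from integrality. -/
theorem S36T_gen_of_integral [IsDomain R] [IsNoetherianRing R] [IsIntegrallyClosed R]
    [CharZero L] (x : F) (hx : Transcendental L x) [FiniteDimensional L⟮x⟯ F]
    (M : Submodule R F) (hMx : ∀ f ∈ M, x * f ∈ M)
    (d : F) (hd : d ≠ 0) (hint : ∀ f ∈ M, IsIntegral (Algebra.adjoin R {x}) (d * f)) :
    ∃ (r : ℕ) (m : Fin r → F), (∀ i, m i ∈ M) ∧
      ∀ f ∈ M, ∃ P : Fin r → R[X], f = ∑ i, aeval x (P i) * m i := by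
  classical
  letI algA : Algebra R[X] F := (aeval x : R[X] →ₐ[R] F).toRingHom.toAlgebra
  have hmap : ∀ p : R[X], algebraMap R[X] F p = aeval x p := fun _ => rfl
  have hinj : Function.Injective (algebraMap R[X] F) := S36T_aeval_injective (L := L) x hx
  haveI : FaithfulSMul R[X] F := (faithfulSMul_iff_algebraMap_injective R[X] F).mpr hinj
  letI algK : Algebra (FractionRing R[X]) F := FractionRing.liftAlgebra R[X] F
  haveI : IsScalarTower R[X] (FractionRing R[X]) F :=
    FractionRing.isScalarTower_liftAlgebra R[X] F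
  have hφ : ∀ p : R[X], algebraMap (FractionRing R[X]) F
      (algebraMap R[X] (FractionRing R[X]) p) = aeval x p := by
    intro p
    rw [← IsScalarTower.algebraMap_apply, hmap]
  -- finite-dimensionality over `Frac R[X]`
  haveI : FiniteDimensional (FractionRing R[X]) F := by
    let b := Module.finBasis L⟮x⟯ F
    refine Module.finite_def.mpr ⟨Finset.univ.image b, ?_⟩
    rw [eq_top_iff]
    intro f _
    rw [← b.sum_repr f]
    refine Submodule.sum_mem _ fun i _ => ?_
    obtain ⟨k, hk⟩ := S36T_range_fraction (L := L) x (algebraMap (FractionRing R[X]) F) hφ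
      (b.repr f i)
    have h1 : (b.repr f i) • b i = k • b i := by
      rw [Algebra.smul_def, Algebra.smul_def, hk]
      rfl
    rw [h1]
    exact Submodule.smul_mem _ _ (Submodule.subset_span (by simp))
  haveI : CharZero F := charZero_of_injective_algebraMap (algebraMap L F).injective
  haveI : CharZero (FractionRing R[X]) := (algebraMap (FractionRing R[X]) F).charZero
  haveI : Algebra.IsSeparable (FractionRing R[X]) F := inferInstance
  have hnoeth : IsNoetherian R[X] (integralClosure R[X] F) :=
    IsIntegralClosure.isNoetherian R[X] (FractionRing R[X]) F (integralClosure R[X] F)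
  -- the submodule `d • M`
  let N : Submodule R[X] F :=
    { carrier := {z | ∃ f ∈ M, z = d * f}
      add_mem' := by
        rintro _ _ ⟨f, hf, rfl⟩ ⟨g, hg, rfl⟩
        exact ⟨f + g, M.add_mem hf hg, by ring⟩
      zero_mem' := ⟨0, M.zero_mem, by ring⟩
      smul_mem' := by
        rintro p _ ⟨f, hf, rfl⟩
        refine ⟨aeval x p * f, S36T_aeval_mul_mem x M hMx p hf, ?_⟩
        rw [Algebra.smul_def, hmap]
        ring }
  have hN : N ≤ Subalgebra.toSubmodule (integralClosure R[X] F) := by
    rintro _ ⟨f, hf, rfl⟩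
    exact S36T_isIntegral_aeval x (hint f hf)
  have hfg : N.FG := isNoetherian_submodule.mp hnoeth N hN
  obtain ⟨r, n, hn⟩ := Submodule.fg_iff_exists_fin_generating_family.mp hfg
  have hnN : ∀ i, n i ∈ N := fun i => by
    rw [← hn]
    exact Submodule.subset_span ⟨i, rfl⟩
  choose m hmM hm using hnN
  refine ⟨r, m, hmM, ?_⟩
  intro f hf
  have hdf : d * f ∈ Submodule.span R[X] (Set.range n) := by
    rw [hn]
    exact ⟨f, hf, rfl⟩
  obtain ⟨c, hc⟩ := (Submodule.mem_span_range_iff_exists_fun R[X]).mp hdf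
  refine ⟨c, ?_⟩
  apply mul_left_cancel₀ hd
  rw [← hc, Finset.mul_sum]
  refine Finset.sum_congr rfl fun i _ => ?_
  rw [Algebra.smul_def, hmap, hm i]
  ring

/-- **(T2 + T3)** the hypothesis `htors` of `S34I_false` from integrality over `R[x]`. -/
theorem S36T_htors_of_integral [IsDomain R] [IsNoetherianRing R] [IsIntegrallyClosed R]
    [CharZero L] (x s : F) (hxs : s * x = 1) (hx : Transcendental L x)
    [FiniteDimensional L⟮x⟯ F] (M M' M'' : Submodule R F)
    (hMx : ∀ f ∈ M, x * f ∈ M) (hM's : ∀ f ∈ M', s * f ∈ M')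
    (d : F) (hd : d ≠ 0) (hint : ∀ f ∈ M, IsIntegral (Algebra.adjoin R {x}) (d * f))
    (hloc : ∀ h ∈ M'', ∃ a : ℕ, x ^ a * h ∈ M)
    (hM' : ∀ f ∈ M, ∃ b : ℕ, s ^ b * f ∈ M') :
    ∃ c₀ : R, c₀ ≠ 0 ∧ ∀ h ∈ M'', ∀ a : R, a ≠ 0 → a • h ∈ M ⊔ M' → c₀ • h ∈ M ⊔ M' := by
  obtain ⟨r, m, hm, hgen⟩ := S36T_gen_of_integral (L := L) x hx M hMx d hd hint
  exact S36T_htors x s hxs M M' M'' hMx hM's m hm hgen hloc (fun i => hM' _ (hm i))

omit [Field L] [Algebra R L] [IsFractionRing R L] [Algebra L F] [IsScalarTower R L F] in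
/-- integrality over a smaller subalgebra gives integrality over a bigger one. -/
theorem S36T_isIntegral_of_le {S T : Subalgebra R F} (h : S ≤ T) {z : F} (hz : IsIntegral S z) :
    IsIntegral T z := by
  letI : Algebra S T := (Subalgebra.inclusion h).toRingHom.toAlgebra
  haveI : IsScalarTower S T F := IsScalarTower.of_algebraMap_eq (fun _ => rfl)
  exact hz.tower_top

omit [Field L] [Algebra R L] [IsFractionRing R L] [Algebra L F] [IsScalarTower R L F] in
/-- `R[j] ≤ R[j − c]`. -/
theorem S36T_adjoin_le_sub (j : F) (c : R) :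
    Algebra.adjoin R {j} ≤ Algebra.adjoin R {j - algebraMap R F c} := by
  refine Algebra.adjoin_le ?_
  intro y hy
  rw [Set.mem_singleton_iff.mp hy]
  have h1 : j - algebraMap R F c ∈ Algebra.adjoin R {j - algebraMap R F c} :=
    Algebra.subset_adjoin rfl
  have h2 := Subalgebra.add_mem _ h1 (Subalgebra.algebraMap_mem _ c)
  simpa using h2

/-- **TORS3** in terms of `j` and the centre `c ∈ R` of the second chart: `x = j − c`. -/
theorem S36T_htors_jc [IsDomain R] [IsNoetherianRing R] [IsIntegrallyClosed R]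
    [CharZero L] (j : F) (c : R) (s : F) (hs : s * (j - algebraMap R F c) = 1)
    (hj : Transcendental L j) [FiniteDimensional L⟮j⟯ F] (M M' M'' : Submodule R F)
    (hMj : ∀ f ∈ M, j * f ∈ M) (hM's : ∀ f ∈ M', s * f ∈ M')
    (d : F) (hd : d ≠ 0) (hint : ∀ f ∈ M, IsIntegral (Algebra.adjoin R {j}) (d * f))
    (hloc : ∀ h ∈ M'', ∃ a : ℕ, (j - algebraMap R F c) ^ a * h ∈ M)
    (hM' : ∀ f ∈ M, ∃ b : ℕ, s ^ b * f ∈ M') :
    ∃ c₀ : R, c₀ ≠ 0 ∧ ∀ h ∈ M'', ∀ a : R, a ≠ 0 → a • h ∈ M ⊔ M' → c₀ • h ∈ M ⊔ M' := by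
  have hx : Transcendental L (j - algebraMap R F c) := by
    have h1 := hj.aeval (X - C (algebraMap R L c)) (by
      rw [natDegree_X_sub_C]; exact one_ne_zero) (by
      rw [leadingCoeff_X_sub_C]; exact one_mem _)
    rwa [map_sub, aeval_X, aeval_C, ← IsScalarTower.algebraMap_apply] at h1
  have he : L⟮j - algebraMap R F c⟯ = L⟮j⟯ := by
    apply le_antisymm
    · rw [IntermediateField.adjoin_simple_le_iff]
      refine sub_mem (IntermediateField.mem_adjoin_simple_self L j) ?_
      rw [IsScalarTower.algebraMap_apply R L F]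
      exact IntermediateField.algebraMap_mem _ _
    · rw [IntermediateField.adjoin_simple_le_iff]
      have h1 := IntermediateField.mem_adjoin_simple_self L (j - algebraMap R F c)
      have h2 : algebraMap R F c ∈ L⟮j - algebraMap R F c⟯ := by
        rw [IsScalarTower.algebraMap_apply R L F]
        exact IntermediateField.algebraMap_mem _ _
      have h3 := add_mem h1 h2
      simpa using h3
  haveI : FiniteDimensional L⟮j - algebraMap R F c⟯ F := by
    rw [he]
    infer_instance
  refine S36T_htors_of_integral (L := L) (j - algebraMap R F c) s hs hx M M' M'' ?_ hM's d hd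
    (fun f hf => S36T_isIntegral_of_le (S36T_adjoin_le_sub j c) (hint f hf)) hloc hM'
  intro f hf
  rw [sub_mul]
  refine M.sub_mem (hMj f hf) ?_
  rw [← Algebra.smul_def]
  exact M.smul_mem _ hf

end gen

end Fermat.Agent.S36
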