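import Mathlib
import Fermat.Agent.S36.Tors3Gen

/-!
# TRACK 10 (S36), package TORS3 (helper6), part 3: the Kummer form

The form of `htors` (hypothesis of `S34I_false` / `S36IN_false`) for the modules of sections
`M_* = {f | fⁿ u ∈ Λ_*}` of a Kummer generator `u` on the charts `U = {j ≠ ∞}`, `U' = {j ≠ c}`,
`U ∩ U'`:

* `S36T_htors_kummer` : if every element of `Λ` is integral over `R[j]`, `Λ'' ⊂ ⋃ (j − c)^(-a) Λ`,
  `Λ ⊂ ⋃ s^(-b) Λ'` (`s = 1/(j − c)`) and `dⁿ/u ∈ Λ` for one `d ≠ 0`, then the torsion of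
  `M''/(M + M')` is killed by one nonzero element of `R`.
* `S36T_exists_d` : such a `d` exists as soon as `u = a/b` with `a, b ∈ Λ`.
-/

set_option autoImplicit false
set_option linter.style.haveILetI false

open Polynomial IntermediateField

namespace Fermat.Agent.S36

section kummer

variable {R L F : Type*} [CommRing R] [Field L] [Algebra R L] [IsFractionRing R L]
  [Field F] [Algebra L F] [Algebra R F] [IsScalarTower R L F]

omit [Field L] [Algebra R L] [IsFractionRing R L] [Algebra L F] [IsScalarTower R L F] in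
/-- a denominator for the Kummer sections: `u = a/b` with `a, b ∈ Λ` gives `aⁿ/u ∈ Λ`. -/
theorem S36T_exists_d (Λ : Subalgebra R F) (n : ℕ) (hn : n ≠ 0) (u a b : F) (ha : a ∈ Λ)
    (hb : b ∈ Λ) (ha0 : a ≠ 0) (hub : u * b = a) : a ^ n * u⁻¹ ∈ Λ := by
  have hu : u ≠ 0 := by
    rintro rfl
    rw [zero_mul] at hub
    exact ha0 hub.symm
  obtain ⟨m, rfl⟩ := Nat.exists_eq_succ_of_ne_zero hn
  have h1 : a ^ (m + 1) * u⁻¹ = a ^ m * b := by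
    rw [pow_succ, ← hub]
    field_simp
  rw [h1]
  exact Λ.mul_mem (Λ.pow_mem ha m) hb

/-- **TORS3, Kummer form**. -/
theorem S36T_htors_kummer [IsDomain R] [IsNoetherianRing R] [IsIntegrallyClosed R]
    [CharZero L] (j : F) (c : R) (s : F) (hs : s * (j - algebraMap R F c) = 1)
    (hj : Transcendental L j) [FiniteDimensional L⟮j⟯ F]
    (n : ℕ) (hn : n ≠ 0) (u : F) (hu : u ≠ 0)
    (Λ Λ' Λ'' : Subalgebra R F) (M M' M'' : Submodule R F)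
    (hM : ∀ f, f ∈ M ↔ f ^ n * u ∈ Λ) (hM' : ∀ f, f ∈ M' ↔ f ^ n * u ∈ Λ')
    (hM'' : ∀ f ∈ M'', f ^ n * u ∈ Λ'')
    (hjΛ : j ∈ Λ) (hsΛ' : s ∈ Λ')
    (hΛint : ∀ g ∈ Λ, IsIntegral (Algebra.adjoin R {j}) g)
    (hΛ''loc : ∀ g ∈ Λ'', ∃ a : ℕ, (j - algebraMap R F c) ^ a * g ∈ Λ)
    (hΛΛ' : ∀ g ∈ Λ, ∃ b : ℕ, s ^ b * g ∈ Λ')
    (d : F) (hd : d ≠ 0) (hdu : d ^ n * u⁻¹ ∈ Λ) :
    ∃ c₀ : R, c₀ ≠ 0 ∧ ∀ h ∈ M'', ∀ a : R, a ≠ 0 → a • h ∈ M ⊔ M' → c₀ • h ∈ M ⊔ M' := by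
  have hn0 : 0 < n := Nat.pos_of_ne_zero hn
  have hxΛ : j - algebraMap R F c ∈ Λ := Λ.sub_mem hjΛ (Λ.algebraMap_mem c)
  refine S36T_htors_jc (L := L) j c s hs hj M M' M'' ?_ ?_ d hd ?_ ?_ ?_
  · intro f hf
    rw [hM] at hf ⊢
    rw [mul_pow, mul_assoc]
    exact Λ.mul_mem (Λ.pow_mem hjΛ n) hf
  · intro f hf
    rw [hM'] at hf ⊢
    rw [mul_pow, mul_assoc]
    exact Λ'.mul_mem (Λ'.pow_mem hsΛ' n) hf
  · intro f hf
    rw [hM] at hf
    have h1 : (d * f) ^ n = d ^ n * u⁻¹ * (f ^ n * u) := by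
      rw [mul_pow]
      field_simp
    have h2 : IsIntegral (Algebra.adjoin R {j}) ((d * f) ^ n) := by
      rw [h1]
      exact hΛint _ (Λ.mul_mem hdu hf)
    exact IsIntegral.of_pow hn0 h2
  · intro h hh
    obtain ⟨a, ha⟩ := hΛ''loc _ (hM'' h hh)
    refine ⟨a, ?_⟩
    rw [hM]
    obtain ⟨m, rfl⟩ := Nat.exists_eq_succ_of_ne_zero hn
    have h1 : ((j - algebraMap R F c) ^ a * h) ^ (m + 1) * u =
        ((j - algebraMap R F c) ^ a) ^ m * ((j - algebraMap R F c) ^ a * (h ^ (m + 1) * u)) := by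
      ring
    rw [h1]
    exact Λ.mul_mem (Λ.pow_mem (Λ.pow_mem hxΛ a) m) ha
  · intro f hf
    rw [hM] at hf
    obtain ⟨b, hb⟩ := hΛΛ' _ hf
    refine ⟨b, ?_⟩
    rw [hM']
    obtain ⟨m, rfl⟩ := Nat.exists_eq_succ_of_ne_zero hn
    have h1 : (s ^ b * f) ^ (m + 1) * u = (s ^ b) ^ m * (s ^ b * (f ^ (m + 1) * u)) := by
      ring
    rw [h1]
    exact Λ'.mul_mem (Λ'.pow_mem (Λ'.pow_mem hsΛ' b) m) hb

end kummer

end Fermat.Agent.S36
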