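import Fermat.Agent.S36.Inj3Lat
import Fermat.Agent.S36.Tors3Kum

/-!
# TRACK 10 (S36), package F9 INJ3, layer above the lattice (helper27): `htors` in the shape of
`S36L3I_inj_W` from TORS3

`S₁, S₂, S₃ : S18_Val L F k Fk_j` the three valuations (`FF`, `FV`, `VV`), `A = S₁.A` a Noetherian
valuation ring (`= O_L`, a discrete valuation ring), `j ∈ F` the coordinate, `c ∈ A`,
`s = 1/(j − c)`, charts `C` (`U = {j ≠ ∞}`), `C'` (`U' = {j ≠ c}`), `C''` (`U ∩ U'`).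

* `S36I3_htors` : the hypothesis `htors` of `S36L3I_inj_W` (helper9), literally, from
  - `hint` : the integral functions on `U` are integral over `A[j]` (FIN, F1),
  - `hloc`, `hglob` : finiteness of the pole orders over `j = c` resp. `j = ∞`,
  - `j, s ∈ O₃` (the reductions of `j − c` are non-zero on the three components),
  - one `d ≠ 0` with `dⁿ/u` integral on `U`,
  by `S36T_htors_kummer` (helper6) and `S36L3I_mem_M_iff` (helper9).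
* `S36I3_inj` : `S36L3I_inj_W` with `htors` replaced by these inputs.
-/

set_option autoImplicit false

open IntermediateField

namespace Fermat.Agent.S36

open Fermat.Agent.S18 Fermat.Agent.S34

variable {L F k Fk₁ Fk₂ Fk₃ : Type*} [Field L] [Field F] [Algebra L F] [Field k]
  [Field Fk₁] [Field Fk₂] [Field Fk₃] [Algebra k Fk₁] [Algebra k Fk₂] [Algebra k Fk₃]
  {S₁ : S18_Val L F k Fk₁} {S₂ : S18_Val L F k Fk₂} {S₃ : S18_Val L F k Fk₃}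

/-- **TORS3 in the shape of INJ3**: the hypothesis `htors` of `S36L3I_inj_W`. -/
theorem S36I3_htors (hS : S36L3_Same S₁ S₂ S₃) [IsNoetherianRing S₁.A] [CharZero L]
    (j : F) (c : S₁.A) (s : F) (hs : s * (j - algebraMap S₁.A F c) = 1)
    (hj : Transcendental L j) [FiniteDimensional L⟮j⟯ F]
    (hjO : j ∈ S36L3_O3 S₁ S₂ S₃) (hsO : s ∈ S36L3_O3 S₁ S₂ S₃)
    (n : ℕ) (C C' C'' : S36L3_Chart L F k Fk₁ Fk₂ Fk₃ n)
    (hjB : j ∈ C.B) (hsB' : s ∈ C'.B)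
    (u : F) (hu : u ∈ S36L3_Norm S₁ S₂ S₃)
    (hint : ∀ g : F, g ∈ S36L3_O3 S₁ S₂ S₃ → g ∈ C.B →
      IsIntegral (Algebra.adjoin S₁.A {j}) g)
    (hloc : ∀ g : F, g ∈ C''.B → ∃ a : ℕ, (j - algebraMap S₁.A F c) ^ a * g ∈ C.B)
    (hglob : ∀ g : F, g ∈ C.B → ∃ b : ℕ, s ^ b * g ∈ C'.B)
    (d : F) (hd : d ≠ 0) (hdO : d ^ n * u⁻¹ ∈ S36L3_O3 S₁ S₂ S₃) (hdB : d ^ n * u⁻¹ ∈ C.B) :
    ∃ c₀ : S₁.A, c₀ ≠ 0 ∧
      ∀ h ∈ S34IC_M (S36L3_toLat hS) C''.B n C''.root u, ∀ a : S₁.A, a ≠ 0 →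
      a • h ∈ S34IC_M (S36L3_toLat hS) C.B n C.root u ⊔
        S34IC_M (S36L3_toLat hS) C'.B n C'.root u →
      c₀ • h ∈ S34IC_M (S36L3_toLat hS) C.B n C.root u ⊔
        S34IC_M (S36L3_toLat hS) C'.B n C'.root u := by
  have hu0 : u ≠ 0 := S36L3_ne_zero_of_Norm hu
  have hui := S36L3_inv_mem_Norm hu
  obtain ⟨hu1, -⟩ := hu
  obtain ⟨hui1, -⟩ := hui
  have hOroot : ∀ y : F, y ^ n ∈ (S36L3_toLat hS).O → y ∈ (S36L3_toLat hS).O :=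
    fun y hy => S36L3I_root_O3 C.hn y hy
  have hcO : algebraMap S₁.A F c ∈ S36L3_O3 S₁ S₂ S₃ := S36L3_const_mem hS c
  refine S36T_htors_kummer (R := S₁.A) (L := L) j c s hs hj n C.hn.ne' u hu0
    (S34IC_Lam (S36L3_toLat hS) C.B) (S34IC_Lam (S36L3_toLat hS) C'.B)
    (S34IC_Lam (S36L3_toLat hS) C''.B)
    (S34IC_M (S36L3_toLat hS) C.B n C.root u) (S34IC_M (S36L3_toLat hS) C'.B n C'.root u)
    (S34IC_M (S36L3_toLat hS) C''.B n C''.root u)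
    (fun f => S36L3I_mem_M_iff (S36L3_toLat hS) C.B n C.root hOroot u hu1 hui1 hu0 f)
    (fun f => S36L3I_mem_M_iff (S36L3_toLat hS) C'.B n C'.root hOroot u hu1 hui1 hu0 f)
    (fun f hf => (S36L3I_mem_M_iff (S36L3_toLat hS) C''.B n C''.root hOroot u hu1 hui1 hu0 f).1 hf)
    ⟨hjO, hjB⟩ ⟨hsO, hsB'⟩ (fun g hg => hint g hg.1 hg.2) ?_ ?_ d hd ⟨hdO, hdB⟩
  · rintro g ⟨hgO, hgB⟩
    obtain ⟨a, ha⟩ := hloc g hgB
    exact ⟨a, (S36L3_O3 S₁ S₂ S₃).mul_mem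
      ((S36L3_O3 S₁ S₂ S₃).pow_mem ((S36L3_O3 S₁ S₂ S₃).sub_mem hjO hcO) a) hgO, ha⟩
  · rintro g ⟨hgO, hgB⟩
    obtain ⟨b, hb⟩ := hglob g hgB
    exact ⟨b, (S36L3_O3 S₁ S₂ S₃).mul_mem ((S36L3_O3 S₁ S₂ S₃).pow_mem hsO b) hgO, hb⟩

/-- `hrank` of INJ3 for a uniformiser of a discrete valuation ring. -/
theorem S36I3_hrank {A : Type*} [CommRing A] [IsDomain A] [IsDiscreteValuationRing A]
    (c : A) (hc : Irreducible c) : ∀ a : A, a ≠ 0 → ∃ N : ℕ, a ∣ c ^ N := by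
  intro a ha
  obtain ⟨m, w, hw⟩ := IsDiscreteValuationRing.eq_unit_mul_pow_irreducible ha hc
  refine ⟨m, ⟨((w⁻¹ : Aˣ) : A), ?_⟩⟩
  rw [hw, mul_comm ((w : A)) _, mul_assoc, Units.mul_inv, mul_one]

/-- **INJ3 with TORS3 plugged in** (the lattice form of F9): `A = S₁.A` a discrete valuation
ring with uniformiser `q`, `hrad` (the kernel of the reduction is the radical of `q·O₃`),
`hconst` (`U ∪ U'` is everything), FIN (`hint`), finiteness of pole orders (`hloc`, `hglob`),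
one denominator `d` for `u`, and `1 ∈ W^u` on the two charts (TRIV) ⇒ `u = a·gⁿ`. -/
theorem S36I3_inj (hS : S36L3_Same S₁ S₂ S₃) [IsDiscreteValuationRing S₁.A] [CharZero L]
    (q : S₁.A) (hq : Irreducible q)
    (hrad : ∃ K : ℕ, ∀ f : (S36L3_toLat hS).O, (S36L3_toLat hS).red f = 0 →
      ∃ g : (S36L3_toLat hS).O, f ^ K = (S36L3_toLat hS).const q * g)
    (n : ℕ) (hnk : (n : k) ≠ 0)
    (C C' C'' : S36L3_Chart L F k Fk₁ Fk₂ Fk₃ n) (hB : C.B ≤ C''.B) (hB' : C'.B ≤ C''.B)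
    (hconst : ∀ f : F, f ∈ C.B → f ∈ C'.B → ∃ a : L, f = algebraMap L F a)
    (j : F) (c : S₁.A) (s : F) (hs : s * (j - algebraMap S₁.A F c) = 1)
    (hj : Transcendental L j) [FiniteDimensional L⟮j⟯ F]
    (hjO : j ∈ S36L3_O3 S₁ S₂ S₃) (hsO : s ∈ S36L3_O3 S₁ S₂ S₃)
    (hjB : j ∈ C.B) (hsB' : s ∈ C'.B)
    (u : F) (hu : u ∈ S36L3_Norm S₁ S₂ S₃)
    (hint : ∀ g : F, g ∈ S36L3_O3 S₁ S₂ S₃ → g ∈ C.B →
      IsIntegral (Algebra.adjoin S₁.A {j}) g)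
    (hloc : ∀ g : F, g ∈ C''.B → ∃ a : ℕ, (j - algebraMap S₁.A F c) ^ a * g ∈ C.B)
    (hglob : ∀ g : F, g ∈ C.B → ∃ b : ℕ, s ^ b * g ∈ C'.B)
    (d : F) (hd : d ≠ 0) (hdO : d ^ n * u⁻¹ ∈ S36L3_O3 S₁ S₂ S₃) (hdB : d ^ n * u⁻¹ ∈ C.B)
    (h1 : (1 : ↥C.Rb₁ × ↥C.Rb₂ × ↥C.Rb₃) ∈ S36L3_W hS C u)
    (h1' : (1 : ↥C'.Rb₁ × ↥C'.Rb₂ × ↥C'.Rb₃) ∈ S36L3_W hS C' u) :
    ∃ (a : L) (g : F), a ≠ 0 ∧ g ≠ 0 ∧ u = algebraMap L F a * g ^ n :=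
  S36L3I_inj_W hS q hq.not_isUnit hq.ne_zero (S36I3_hrank q hq) hrad n hnk C C' C'' hB hB'
    hconst u hu
    (S36I3_htors hS j c s hs hj hjO hsO n C C' C'' hjB hsB' u hu hint hloc hglob d hd hdO hdB)
    h1 h1'

end Fermat.Agent.S36
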