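import Fermat.Agent.S34.InjConc
import Fermat.Agent.S36.FixLVal
import Fermat.Agent.S36.Inj3Tors

/-!
# TRACK 10 (S36), package F9 INJ3, the chart layer over the fixed field (helper27)

`S : S36FL_Act K F H` a semilinear action (`K = ℚ̄`, `F = ℚ̄(X₀(N))`, `H` = inertia),
`L = S.fixK`, `F_L = S.fixF` (FIX-L, helper22).  The charts of `F_L` are cut out by the places of
`F / K`:

* `S36I3_reg S T : Subalgebra L F_L` : the functions of `F_L` regular at all places of `T`;
  root closed (`S36I3_reg_root`), antitone (`S36I3_reg_anti`), only the constants of `L` are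
  regular everywhere (`S36I3_reg_const`, `hconst` of INJ3);
* `S36I3_ord_bdd` : pole orders are bounded; `S36I3_loc_K`, `S36I3_glob_K` : the inputs `hloc`,
  `hglob` of TORS3 for the standard charts `U = {x ≠ ∞}`, `U' = {x ≠ c}`, `U ∩ U'`;
* `S36I3_inj_fix` : **INJ3 over the fixed field** for the three standard charts of a coordinate
  `j`: all chart hypotheses of `S36I3_inj` are discharged.
-/

set_option autoImplicit false

open AlgebraicCurve IntermediateField

namespace Fermat.Agent.S36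

open Fermat.Agent.Lib Fermat.Agent.S18 Fermat.Agent.S24 Fermat.Agent.S34

section K

variable {K F : Type*} [Field K] [Field F] [Algebra K F]

/-- regularity at one place in terms of `ord` (also for `f = 0`). -/
theorem S36I3_mem_iff_ord (v : Place K F) (f : F) :
    f ∈ v.toValuationSubring ↔ 0 ≤ v.ord f := by
  rcases eq_or_ne f 0 with rfl | hf
  · simp [v.toValuationSubring.zero_mem]
  · exact BG_mem_iff_ord_nonneg v hf

/-- the pole orders of a function are bounded. -/
theorem S36I3_ord_bdd [HasPrincipalDivisors K F] (g : F) :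
    ∃ N : ℕ, ∀ v : Place K F, -(N : ℤ) ≤ v.ord g := by
  classical
  rcases eq_or_ne g 0 with rfl | hg
  · exact ⟨0, fun v => by simp⟩
  obtain ⟨D, hD, -⟩ := HasPrincipalDivisors.exists_divisor (K := K) g hg
  refine ⟨D.support.sup (fun v => (D v).natAbs), fun v => ?_⟩
  rw [← hD v]
  by_cases hv : v ∈ D.support
  · have h1 : (D v).natAbs ≤ D.support.sup (fun v => (D v).natAbs) :=
      Finset.le_sup (f := fun v => (D v).natAbs) hv
    have h2 : ((D v).natAbs : ℤ) ≤ ((D.support.sup (fun v => (D v).natAbs) : ℕ) : ℤ) := by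
      exact_mod_cast h1
    omega
  · have h0 : D v = 0 := Finsupp.notMem_support_iff.mp hv
    rw [h0]
    omega

/-- the order of a product with a power. -/
theorem S36I3_ord_pow_mul (v : Place K F) {y g : F} (hy : y ≠ 0) (hg : g ≠ 0) (a : ℕ) :
    v.ord (y ^ a * g) = a * v.ord y + v.ord g := by
  rw [v.ord_mul (pow_ne_zero a hy) hg, ← zpow_natCast, v.ord_zpow]

/-- **(loc)**: a function regular on `U ∩ U'` becomes regular on `U` after multiplication by a
power of `x - c`. -/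
theorem S36I3_loc_K [HasPrincipalDivisors K F] (x : F) (c : K) (g : F)
    (hg : g ∈ S34IX_reg (S34IX_TU'' x c)) :
    ∃ a : ℕ, (x - algebraMap K F c) ^ a * g ∈ S34IX_reg (S34IX_TU (K := K) x) := by
  obtain ⟨N, hN⟩ := S36I3_ord_bdd (K := K) g
  refine ⟨N, fun v hv => ?_⟩
  have hx : x ∈ v.toValuationSubring := (S36I3_mem_iff_ord v x).2 hv
  have hy : x - algebraMap K F c ∈ v.toValuationSubring :=
    sub_mem hx (v.algebraMap_mem' c)
  rcases le_or_gt (v.ord (x - algebraMap K F c)) 0 with h | h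
  · have hv'' : v ∈ S34IX_TU'' x c := ⟨hv, h⟩
    exact mul_mem (pow_mem hy N) (hg v hv'')
  · rcases eq_or_ne g 0 with rfl | hg0
    · rw [mul_zero]
      exact v.toValuationSubring.zero_mem
    have hy0 : x - algebraMap K F c ≠ 0 := by
      intro h0
      rw [h0, Place.ord_zero] at h
      exact lt_irrefl _ h
    rw [S36I3_mem_iff_ord, S36I3_ord_pow_mul v hy0 hg0]
    have := hN v
    nlinarith

/-- **(glob)**: a function regular on `U` becomes regular on `U'` after multiplication by a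
power of `1/(x - c)`. -/
theorem S36I3_glob_K [HasPrincipalDivisors K F] (x : F) (c : K) (g : F)
    (hg : g ∈ S34IX_reg (S34IX_TU (K := K) x)) :
    ∃ b : ℕ, ((x - algebraMap K F c)⁻¹) ^ b * g ∈ S34IX_reg (S34IX_TU' x c) := by
  obtain ⟨N, hN⟩ := S36I3_ord_bdd (K := K) g
  refine ⟨N, fun v hv => ?_⟩
  have hv' : v.ord (x - algebraMap K F c) ≤ 0 := hv
  have hs : (x - algebraMap K F c)⁻¹ ∈ v.toValuationSubring := by
    rw [S36I3_mem_iff_ord, Place.ord_inv]
    omega
  rcases eq_or_lt_of_le hv' with h | h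
  · -- `x - c` is a unit at `v`, so `x` is regular at `v`
    have hy : x - algebraMap K F c ∈ v.toValuationSubring := by
      rw [S36I3_mem_iff_ord, h]
    have hx : x ∈ v.toValuationSubring := by
      have := add_mem hy (v.algebraMap_mem' c)
      simpa using this
    have hvU : v ∈ S34IX_TU (K := K) x := (S36I3_mem_iff_ord v x).1 hx
    exact mul_mem (pow_mem hs N) (hg v hvU)
  · rcases eq_or_ne g 0 with rfl | hg0
    · rw [mul_zero]
      exact v.toValuationSubring.zero_mem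
    have hy0 : x - algebraMap K F c ≠ 0 := by
      intro h0
      rw [h0, Place.ord_zero] at h
      exact lt_irrefl _ h
    rw [S36I3_mem_iff_ord, S36I3_ord_pow_mul v (inv_ne_zero hy0) hg0, Place.ord_inv]
    have := hN v
    nlinarith

end K

section fix

variable {K F H : Type*} [Field K] [Field F] [Algebra K F] (S : S36FL_Act K F H)

/-- the functions of `F_L = F^H` regular at every place of `T`. -/
def S36I3_reg (T : Set (Place K F)) : Subalgebra S.fixK S.fixF where
  carrier := {f | (f : F) ∈ S34IX_reg T}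
  mul_mem' := fun ha hb => (S34IX_reg T).mul_mem ha hb
  add_mem' := fun ha hb => (S34IX_reg T).add_mem ha hb
  algebraMap_mem' := fun a => (S34IX_reg T).algebraMap_mem (a : K)

theorem S36I3_mem_reg {T : Set (Place K F)} {f : S.fixF} :
    f ∈ S36I3_reg S T ↔ (f : F) ∈ S34IX_reg T := Iff.rfl

theorem S36I3_reg_anti {T T' : Set (Place K F)} (h : T ⊆ T') :
    S36I3_reg S T' ≤ S36I3_reg S T :=
  fun _ hf => S34IX_reg_anti h hf

/-- a chart of `F_L` is root closed. -/
theorem S36I3_reg_root (T : Set (Place K F)) {n : ℕ} (hn : 0 < n) (f : S.fixF)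
    (hf : f ^ n ∈ S36I3_reg S T) : f ∈ S36I3_reg S T :=
  S34IX_reg_root T hn (f : F) hf

/-- **(glob) over `L`**: two charts covering the curve have only the constants of `L = K^H` in
common. -/
theorem S36I3_reg_const (h : RR_Hyp K F) {T T' : Set (Place K F)} (hT : ∀ v, v ∈ T ∨ v ∈ T')
    (f : S.fixF) (hf : f ∈ S36I3_reg S T) (hf' : f ∈ S36I3_reg S T') :
    ∃ a : S.fixK, f = algebraMap S.fixK S.fixF a := by
  obtain ⟨a, ha⟩ := S34IX_reg_const h hT (f : F) hf hf'
  have haf : a ∈ S.fixK := by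
    intro g
    have h1 := f.2 g
    rw [ha, S.semi] at h1
    exact (algebraMap K F).injective h1
  exact ⟨⟨a, haf⟩, Subtype.ext ha⟩

variable {k Fk₁ Fk₂ Fk₃ : Type*} [Field k]
  [Field Fk₁] [Field Fk₂] [Field Fk₃] [Algebra k Fk₁] [Algebra k Fk₂] [Algebra k Fk₃]
  {S₁ : S18_Val S.fixK S.fixF k Fk₁} {S₂ : S18_Val S.fixK S.fixF k Fk₂}
  {S₃ : S18_Val S.fixK S.fixF k Fk₃}

/-- **INJ3 over the fixed field, standard charts** (F9): `K` the big constant field with the
places of `F / K` (`hRR`), `L = K^H`, `F_L = F^H` with the three valuations `S₁, S₂, S₃` over the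
discrete valuation ring `A = S₁.A` (uniformiser `q`), `j ∈ F_L` the coordinate, `c ∈ A`;
the charts are `U = {j ≠ ∞}`, `U' = {j ≠ c}`, `U'' = U ∩ U'`.
Inputs: `hrad` (VAL3), `hint` (FIN), `j, 1/(j − c) ∈ O₃`, a denominator `d` of `u`, and
`1 ∈ W^u` on `U` and `U'` (TRIV).  Output: the normalised Kummer generator `u` is trivial. -/
theorem S36I3_inj_fix (hRR : RR_Hyp K F) (hS : S36L3_Same S₁ S₂ S₃)
    [IsDiscreteValuationRing S₁.A] [CharZero S.fixK]
    (q : S₁.A) (hq : Irreducible q)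
    (hrad : ∃ N : ℕ, ∀ f : (S36L3_toLat hS).O, (S36L3_toLat hS).red f = 0 →
      ∃ g : (S36L3_toLat hS).O, f ^ N = (S36L3_toLat hS).const q * g)
    (n : ℕ) (hnk : (n : k) ≠ 0)
    (C C' C'' : S36L3_Chart S.fixK S.fixF k Fk₁ Fk₂ Fk₃ n)
    (j : S.fixF) (c : S₁.A)
    (hC : C.B = S36I3_reg S (S34IX_TU (K := K) (j : F)))
    (hC' : C'.B = S36I3_reg S (S34IX_TU' (j : F) ((c : S.fixK) : K)))
    (hC'' : C''.B = S36I3_reg S (S34IX_TU'' (j : F) ((c : S.fixK) : K)))
    (hj : Transcendental S.fixK j) [FiniteDimensional (S.fixK)⟮j⟯ S.fixF]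
    (hjO : j ∈ S36L3_O3 S₁ S₂ S₃)
    (hsO : (j - algebraMap S₁.A S.fixF c)⁻¹ ∈ S36L3_O3 S₁ S₂ S₃)
    (u : S.fixF) (hu : u ∈ S36L3_Norm S₁ S₂ S₃)
    (hint : ∀ g : S.fixF, g ∈ S36L3_O3 S₁ S₂ S₃ → g ∈ C.B →
      IsIntegral (Algebra.adjoin S₁.A {j}) g)
    (d : S.fixF) (hd : d ≠ 0) (hdO : d ^ n * u⁻¹ ∈ S36L3_O3 S₁ S₂ S₃)
    (hdB : d ^ n * u⁻¹ ∈ C.B)
    (h1 : (1 : ↥C.Rb₁ × ↥C.Rb₂ × ↥C.Rb₃) ∈ S36L3_W hS C u)
    (h1' : (1 : ↥C'.Rb₁ × ↥C'.Rb₂ × ↥C'.Rb₃) ∈ S36L3_W hS C' u) :
    ∃ (a : S.fixK) (g : S.fixF), a ≠ 0 ∧ g ≠ 0 ∧ u = algebraMap S.fixK S.fixF a * g ^ n := by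
  have : HasPrincipalDivisors K F := hRR.principal
  have hjc : j - algebraMap S₁.A S.fixF c ≠ 0 := by
    intro h0
    apply hj
    rw [sub_eq_zero.mp h0]
    exact isAlgebraic_algebraMap (R := S.fixK) (A := S.fixF) (c : S.fixK)
  have hcoe : ((j - algebraMap S₁.A S.fixF c : S.fixF) : F)
      = (j : F) - algebraMap K F ((c : S.fixK) : K) := rfl
  refine S36I3_inj hS q hq hrad n hnk C C' C'' ?_ ?_ ?_ j c (j - algebraMap S₁.A S.fixF c)⁻¹
    (inv_mul_cancel₀ hjc) hj hjO hsO ?_ ?_ u hu hint ?_ ?_ d hd hdO hdB h1 h1'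
  · rw [hC, hC'']
    exact S36I3_reg_anti S (S34IX_TU''_sub _ _)
  · rw [hC', hC'']
    exact S36I3_reg_anti S (S34IX_TU''_sub' _ _)
  · intro f hf hf'
    rw [hC] at hf
    rw [hC'] at hf'
    exact S36I3_reg_const S hRR (S34IX_cover (j : F) ((c : S.fixK) : K)) f hf hf'
  · rw [hC]
    exact S34IX_x_mem (K := K) (j : F)
  · rw [hC']
    show (((j - algebraMap S₁.A S.fixF c)⁻¹ : S.fixF) : F) ∈ S34IX_reg _
    have := S34IX_inv_mem (j : F) ((c : S.fixK) : K)
    rw [← hcoe] at this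
    simpa using this
  · intro g hg
    rw [hC''] at hg
    rw [hC]
    obtain ⟨a, ha⟩ := S36I3_loc_K (j : F) ((c : S.fixK) : K) (g : F) hg
    refine ⟨a, ?_⟩
    show (((j - algebraMap S₁.A S.fixF c) ^ a * g : S.fixF) : F) ∈ S34IX_reg _
    rw [← hcoe] at ha
    simpa using ha
  · intro g hg
    rw [hC] at hg
    rw [hC']
    obtain ⟨b, hb⟩ := S36I3_glob_K (j : F) ((c : S.fixK) : K) (g : F) hg
    refine ⟨b, ?_⟩
    show ((((j - algebraMap S₁.A S.fixF c)⁻¹) ^ b * g : S.fixF) : F) ∈ S34IX_reg _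
    rw [← hcoe] at hb
    simpa using hb

end fix

end Fermat.Agent.S36
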