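import Fermat.Agent.S34.SatBridge
import Fermat.Agent.S36.Inj3Chart

/-!
# TRACK 10 (S36), instantiation C1.1 CHARTS (helper23), prefix `S36CU_`

`S : S36FL_Act K F H` (`K = ℚ̄`, `F = ℚ̄(X₀(N))`, `H` = inertia), `L = S.fixK`, `F_L = S.fixF`.
The three standard charts of the triple `(FF, FV, VV)` attached to a coordinate `j ∈ F_L`, a
constant `c ∈ L`, and functions `x₁, x₂, x₃` (the reductions of `j`) and `z₁, z₂, z₃` (the
reductions of `j − c`) on the three components of the special fibre: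

* `S36CU_U   S k j x₁ x₂ x₃ n hn`            : `U = {j ≠ ∞}`,  `B = ` regular where `j` is regular
                                                (`S36I3_reg S (S34IX_TU j)`), `Rbᵢ = S34SB_reg k xᵢ`;
* `S36CU_U'  S k j c z₁ z₂ z₃ n hn`          : `U' = {j ≠ c}`, `B = S36I3_reg S (S34IX_TU' j c)`,
                                                `Rbᵢ = S34SB_regZ k zᵢ`;
* `S36CU_U'' S k j c x₁ x₂ x₃ z₁ z₂ z₃ n hn` : `U'' = U ∩ U'`, `Rbᵢ = S34SB_reg2 k xᵢ zᵢ`;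
* `S36CU_le`, `S36CU_le'` : `S36L3_ChartLE` for `U ⊇ U''` and `U' ⊇ U''`;
* `S36CU_hconst` : `hconst` of INJ3 for these charts (C3.6 HGLOB);
* `S36CU_reg_eq`, `S36CU_regZ_eq`, `S36CU_reg2_eq` : the Place-cut charts `S34IX_reg (S34IX_TU x)`
  of INJ3 are the coordinate rings `S34SB_reg`, `S34SB_regZ`, `S34SB_reg2` of TRACK 7;
* `S36CU_integral_le_reg`, `_regZ`, `_reg2` : elements integral over `k[x]` (`k[1/z]`,
  `k[x, 1/z]`) are regular off the poles of `x` (the zeros of `z`, both).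

The `B`-fields are definitionally the hypotheses `hC`, `hC'`, `hC''` of `S36I3_inj_fix`.
-/

set_option autoImplicit false
set_option linter.unusedSectionVars false

open AlgebraicCurve IntermediateField

namespace Fermat.Agent.S36

open Fermat.Agent.Lib Fermat.Agent.S18 Fermat.Agent.S24 Fermat.Agent.S34

/-! ### the two descriptions of the coordinate rings agree -/

section compare

variable {K F : Type*} [Field K] [Field F] [Algebra K F]

theorem S36CU_reg_eq (x : F) : S34IX_reg (S34IX_TU (K := K) x) = S34SB_reg K x := by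
  ext f
  rw [S34SB_mem_reg]
  exact Iff.rfl

theorem S36CU_regZ_eq (x : F) (c : K) :
    S34IX_reg (S34IX_TU' x c) = S34SB_regZ K (x - algebraMap K F c) := by
  ext f
  show (∀ v ∈ S34IX_TU' x c, f ∈ v.toValuationSubring) ↔
    ∀ Q : Place K F, Q ∉ S34SB_zeros K (x - algebraMap K F c) → f ∈ Q.toValuationSubring
  refine forall_congr' fun Q => ?_
  rw [S34SB_mem_zeros, not_lt]
  exact Iff.rfl

theorem S36CU_reg2_eq (x : F) (c : K) :
    S34IX_reg (S34IX_TU'' x c) = S34SB_reg2 K x (x - algebraMap K F c) := by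
  ext f
  show (∀ v ∈ S34IX_TU'' x c, f ∈ v.toValuationSubring) ↔
    f ∈ S34SB_reg2 K x (x - algebraMap K F c)
  unfold S34SB_reg2
  rw [S34SB_mem_regOff]
  refine forall_congr' fun Q => ?_
  have : Q ∈ S34IX_TU'' x c ↔
      Q ∉ S34SB_poles K x ∪ S34SB_zeros K (x - algebraMap K F c) := by
    rw [Set.mem_union, not_or, S34SB_mem_poles, S34SB_mem_zeros, not_lt, not_lt]
    exact Iff.rfl
  rw [this]

end compare

/-! ### the charts -/

section charts

variable {K F H : Type*} [Field K] [Field F] [Algebra K F] (S : S36FL_Act K F H)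
variable (k : Type*) {Fk₁ Fk₂ Fk₃ : Type*} [Field k]
  [Field Fk₁] [Field Fk₂] [Field Fk₃] [Algebra k Fk₁] [Algebra k Fk₂] [Algebra k Fk₃]

/-- the chart `U = {j ≠ ∞}`. -/
def S36CU_U (j : S.fixF) (x₁ : Fk₁) (x₂ : Fk₂) (x₃ : Fk₃) (n : ℕ) (hn : 0 < n) :
    S36L3_Chart S.fixK S.fixF k Fk₁ Fk₂ Fk₃ n where
  B := S36I3_reg S (S34IX_TU (K := K) (j : F))
  hn := hn
  root := fun f hf => S36I3_reg_root S _ hn f hf
  Rb₁ := S34SB_reg k x₁
  Rb₂ := S34SB_reg k x₂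
  Rb₃ := S34SB_reg k x₃

/-- the chart `U' = {j ≠ c}`. -/
def S36CU_U' (j : S.fixF) (c : S.fixK) (z₁ : Fk₁) (z₂ : Fk₂) (z₃ : Fk₃) (n : ℕ) (hn : 0 < n) :
    S36L3_Chart S.fixK S.fixF k Fk₁ Fk₂ Fk₃ n where
  B := S36I3_reg S (S34IX_TU' (j : F) (c : K))
  hn := hn
  root := fun f hf => S36I3_reg_root S _ hn f hf
  Rb₁ := S34SB_regZ k z₁
  Rb₂ := S34SB_regZ k z₂
  Rb₃ := S34SB_regZ k z₃

/-- the chart `U'' = U ∩ U'`. -/
def S36CU_U'' (j : S.fixF) (c : S.fixK) (x₁ : Fk₁) (x₂ : Fk₂) (x₃ : Fk₃)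
    (z₁ : Fk₁) (z₂ : Fk₂) (z₃ : Fk₃) (n : ℕ) (hn : 0 < n) :
    S36L3_Chart S.fixK S.fixF k Fk₁ Fk₂ Fk₃ n where
  B := S36I3_reg S (S34IX_TU'' (j : F) (c : K))
  hn := hn
  root := fun f hf => S36I3_reg_root S _ hn f hf
  Rb₁ := S34SB_reg2 k x₁ z₁
  Rb₂ := S34SB_reg2 k x₂ z₂
  Rb₃ := S34SB_reg2 k x₃ z₃

variable (j : S.fixF) (c : S.fixK) (x₁ : Fk₁) (x₂ : Fk₂) (x₃ : Fk₃)
  (z₁ : Fk₁) (z₂ : Fk₂) (z₃ : Fk₃) (n : ℕ) (hn : 0 < n)

@[simp] theorem S36CU_U_B :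
    (S36CU_U S k j x₁ x₂ x₃ n hn).B = S36I3_reg S (S34IX_TU (K := K) (j : F)) := rfl

@[simp] theorem S36CU_U'_B :
    (S36CU_U' S k j c z₁ z₂ z₃ n hn).B = S36I3_reg S (S34IX_TU' (j : F) (c : K)) := rfl

@[simp] theorem S36CU_U''_B :
    (S36CU_U'' S k j c x₁ x₂ x₃ z₁ z₂ z₃ n hn).B =
      S36I3_reg S (S34IX_TU'' (j : F) (c : K)) := rfl

@[simp] theorem S36CU_U_Rb₁ : (S36CU_U S k j x₁ x₂ x₃ n hn).Rb₁ = S34SB_reg k x₁ := rfl
@[simp] theorem S36CU_U_Rb₂ : (S36CU_U S k j x₁ x₂ x₃ n hn).Rb₂ = S34SB_reg k x₂ := rfl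
@[simp] theorem S36CU_U_Rb₃ : (S36CU_U S k j x₁ x₂ x₃ n hn).Rb₃ = S34SB_reg k x₃ := rfl

@[simp] theorem S36CU_U'_Rb₁ : (S36CU_U' S k j c z₁ z₂ z₃ n hn).Rb₁ = S34SB_regZ k z₁ := rfl
@[simp] theorem S36CU_U'_Rb₂ : (S36CU_U' S k j c z₁ z₂ z₃ n hn).Rb₂ = S34SB_regZ k z₂ := rfl
@[simp] theorem S36CU_U'_Rb₃ : (S36CU_U' S k j c z₁ z₂ z₃ n hn).Rb₃ = S34SB_regZ k z₃ := rfl

@[simp] theorem S36CU_U''_Rb₁ :
    (S36CU_U'' S k j c x₁ x₂ x₃ z₁ z₂ z₃ n hn).Rb₁ = S34SB_reg2 k x₁ z₁ := rfl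
@[simp] theorem S36CU_U''_Rb₂ :
    (S36CU_U'' S k j c x₁ x₂ x₃ z₁ z₂ z₃ n hn).Rb₂ = S34SB_reg2 k x₂ z₂ := rfl
@[simp] theorem S36CU_U''_Rb₃ :
    (S36CU_U'' S k j c x₁ x₂ x₃ z₁ z₂ z₃ n hn).Rb₃ = S34SB_reg2 k x₃ z₃ := rfl

/-- `U ⊇ U''`. -/
theorem S36CU_le :
    S36L3_ChartLE (S36CU_U S k j x₁ x₂ x₃ n hn)
      (S36CU_U'' S k j c x₁ x₂ x₃ z₁ z₂ z₃ n hn) where
  B_le := S36I3_reg_anti S (S34IX_TU''_sub (j : F) (c : K))
  Rb₁_le := S34SB_reg_le_reg2 x₁ z₁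
  Rb₂_le := S34SB_reg_le_reg2 x₂ z₂
  Rb₃_le := S34SB_reg_le_reg2 x₃ z₃

/-- `U' ⊇ U''`. -/
theorem S36CU_le' :
    S36L3_ChartLE (S36CU_U' S k j c z₁ z₂ z₃ n hn)
      (S36CU_U'' S k j c x₁ x₂ x₃ z₁ z₂ z₃ n hn) where
  B_le := S36I3_reg_anti S (S34IX_TU''_sub' (j : F) (c : K))
  Rb₁_le := S34SB_regZ_le_reg2 x₁ z₁
  Rb₂_le := S34SB_regZ_le_reg2 x₂ z₂
  Rb₃_le := S34SB_regZ_le_reg2 x₃ z₃

/-- **C3.6 HGLOB**: `hconst` of INJ3 (`S36L3I_inj_W`, `S36I3_inj`) for the charts `U`, `U'`: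
a function regular on `U` and on `U'` is a constant of `L`. -/
theorem S36CU_hconst (h : RR_Hyp K F) (f : S.fixF)
    (hf : f ∈ (S36CU_U S k j x₁ x₂ x₃ n hn).B)
    (hf' : f ∈ (S36CU_U' S k j c z₁ z₂ z₃ n hn).B) :
    ∃ a : S.fixK, f = algebraMap S.fixK S.fixF a :=
  S36I3_reg_const S h (S34IX_cover (j : F) (c : K)) f hf hf'

/-- membership in `B_U` in terms of the places of `F / K`. -/
theorem S36CU_mem_U_B {f : S.fixF} :
    f ∈ (S36CU_U S k j x₁ x₂ x₃ n hn).B ↔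
      ∀ v : Place K F, 0 ≤ v.ord (j : F) → (f : F) ∈ v.toValuationSubring := Iff.rfl

/-- membership in `B_U'` in terms of the places of `F / K`. -/
theorem S36CU_mem_U'_B {f : S.fixF} :
    f ∈ (S36CU_U' S k j c z₁ z₂ z₃ n hn).B ↔
      ∀ v : Place K F, v.ord ((j : F) - algebraMap K F (c : K)) ≤ 0 →
        (f : F) ∈ v.toValuationSubring := Iff.rfl

end charts

/-! ### integral elements are regular -/

section integral

variable {k Fk : Type*} [Field k] [Field Fk] [Algebra k Fk]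

/-- a subalgebra generated by elements of a valuation ring of a place lies in it. -/
theorem S36CU_adjoin_le (Q : Place k Fk) (s : Set Fk) (hs : ∀ y ∈ s, y ∈ Q.toValuationSubring)
    {y : Fk} (hy : y ∈ Algebra.adjoin k s) : y ∈ Q.toValuationSubring := by
  induction hy using Algebra.adjoin_induction with
  | mem y hy => exact hs y hy
  | algebraMap a => exact Q.algebraMap_mem' a
  | add a b _ _ ha hb => exact Q.toValuationSubring.add_mem _ _ ha hb
  | mul a b _ _ ha hb => exact Q.toValuationSubring.mul_mem _ _ ha hb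

/-- an element integral over a subalgebra generated by elements regular at `Q` is regular at
`Q`. -/
theorem S36CU_integral_mem (Q : Place k Fk) (s : Set Fk)
    (hs : ∀ y ∈ s, y ∈ Q.toValuationSubring) {f : Fk}
    (hf : IsIntegral (Algebra.adjoin k s) f) : f ∈ Q.toValuationSubring := by
  obtain ⟨p, hp, hpf⟩ := hf
  let φ : ↥(Algebra.adjoin k s) →+* ↥Q.toValuationSubring :=
    { toFun := fun y => ⟨(y : Fk), S36CU_adjoin_le Q s hs y.2⟩
      map_one' := rfl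
      map_mul' := fun _ _ => rfl
      map_zero' := rfl
      map_add' := fun _ _ => rfl }
  have hfint : IsIntegral ↥Q.toValuationSubring f := by
    refine ⟨p.map φ, hp.map _, ?_⟩
    rw [Polynomial.eval₂_map]
    exact hpf
  obtain ⟨y, hy⟩ := IsIntegrallyClosed.algebraMap_eq_of_integral
    (R := ↥Q.toValuationSubring) (K := Fk) hfint
  rw [← hy]
  exact y.2

/-- elements integral over `k[x]` are regular off the poles of `x`. -/
theorem S36CU_integral_le_reg (x : Fk) {f : Fk} (hf : IsIntegral (Algebra.adjoin k {x}) f) :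
    f ∈ S34SB_reg k x := by
  rw [S34SB_mem_reg]
  intro Q hQ
  refine S36CU_integral_mem Q {x} (fun y hy => ?_) hf
  rw [Set.mem_singleton_iff] at hy
  rw [hy]
  exact (S36I3_mem_iff_ord Q x).2 hQ

/-- elements integral over `k[1/z]` are regular off the zeros of `z`. -/
theorem S36CU_integral_le_regZ (z : Fk) {f : Fk} (hf : IsIntegral (Algebra.adjoin k {z⁻¹}) f) :
    f ∈ S34SB_regZ k z := by
  unfold S34SB_regZ
  rw [S34SB_mem_regOff]
  intro Q hQ
  rw [S34SB_mem_zeros, not_lt] at hQ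
  refine S36CU_integral_mem Q {z⁻¹} (fun y hy => ?_) hf
  rw [Set.mem_singleton_iff] at hy
  rw [hy, S36I3_mem_iff_ord, Place.ord_inv]
  omega

/-- elements integral over `k[x, 1/z]` are regular off the poles of `x` and the zeros of `z`. -/
theorem S36CU_integral_le_reg2 (x z : Fk) {f : Fk}
    (hf : IsIntegral (Algebra.adjoin k {x, z⁻¹}) f) : f ∈ S34SB_reg2 k x z := by
  unfold S34SB_reg2
  rw [S34SB_mem_regOff]
  intro Q hQ
  rw [Set.mem_union, not_or, S34SB_mem_poles, S34SB_mem_zeros, not_lt, not_lt] at hQ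
  refine S36CU_integral_mem Q {x, z⁻¹} (fun y hy => ?_) hf
  rcases hy with rfl | hy
  · exact (S36I3_mem_iff_ord Q y).2 hQ.1
  · rw [Set.mem_singleton_iff] at hy
    rw [hy, S36I3_mem_iff_ord, Place.ord_inv]
    omega

end integral

section adic

variable {k Fk : Type*} [Field k] [Field Fk] [Algebra k Fk]

/-- `Q.adicValuation y ≤ 1 ↔ 0 ≤ Q.ord y` (no hypothesis on `y`). -/
theorem S36CU_adic_iff_ord (Q : Place k Fk) (y : Fk) : Q.adicValuation y ≤ 1 ↔ 0 ≤ Q.ord y :=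
  (S24.BL_adicValuation_le_one_iff Q y).trans (S36I3_mem_iff_ord Q y)

/-- chart `U`, in the `adicValuation` form of EVAL-INST (`hR` and `hfull` of `S36SE_`): the
coordinate ring is exactly the ring of the functions regular where `x` is regular. -/
theorem S36CU_mem_reg_adic {x f : Fk} :
    f ∈ S34SB_reg k x ↔ ∀ Q : Place k Fk, Q.adicValuation x ≤ 1 → Q.adicValuation f ≤ 1 := by
  rw [S34SB_mem_reg]
  exact forall_congr' fun Q => by rw [S36CU_adic_iff_ord, S24.BL_adicValuation_le_one_iff]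

/-- chart `U'`: the coordinate ring is exactly the ring of the functions regular where `1/z` is
regular. -/
theorem S36CU_mem_regZ_adic {z f : Fk} :
    f ∈ S34SB_regZ k z ↔ ∀ Q : Place k Fk, Q.adicValuation z⁻¹ ≤ 1 → Q.adicValuation f ≤ 1 := by
  unfold S34SB_regZ
  rw [S34SB_mem_regOff]
  refine forall_congr' fun Q => ?_
  rw [S34SB_mem_zeros, not_lt, S36CU_adic_iff_ord, Place.ord_inv, neg_nonneg,
    S24.BL_adicValuation_le_one_iff]

/-- chart `U''`: the coordinate ring is exactly the ring of the functions regular where `x` and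
`1/z` are regular. -/
theorem S36CU_mem_reg2_adic {x z f : Fk} :
    f ∈ S34SB_reg2 k x z ↔ ∀ Q : Place k Fk, Q.adicValuation x ≤ 1 → Q.adicValuation z⁻¹ ≤ 1 →
      Q.adicValuation f ≤ 1 := by
  unfold S34SB_reg2
  rw [S34SB_mem_regOff]
  refine forall_congr' fun Q => ?_
  rw [Set.mem_union, not_or, S34SB_mem_poles, S34SB_mem_zeros, not_lt, not_lt,
    S36CU_adic_iff_ord, S36CU_adic_iff_ord, Place.ord_inv, neg_nonneg,
    S24.BL_adicValuation_le_one_iff, and_imp]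

/-- `hfull` of EVAL-INST for the chart `U''` with the single coordinate `x`. -/
theorem S36CU_reg2_full (x z : Fk) (f : Fk)
    (hf : ∀ Q : Place k Fk, Q.adicValuation x ≤ 1 → Q.adicValuation f ≤ 1) :
    f ∈ S34SB_reg2 k x z :=
  S34SB_reg_le_reg2 x z (S36CU_mem_reg_adic.2 hf)

/-- `x ∈ reg x`, `1/z ∈ regZ z`, `x, 1/z ∈ reg2 x z`. -/
theorem S36CU_inv_mem_regZ (z : Fk) : z⁻¹ ∈ S34SB_regZ k z :=
  S36CU_mem_regZ_adic.2 fun _ h => h

theorem S36CU_self_mem_reg2 (x z : Fk) : x ∈ S34SB_reg2 k x z :=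
  S34SB_reg_le_reg2 x z (S34SB_self_mem_reg x)

theorem S36CU_inv_mem_reg2 (x z : Fk) : z⁻¹ ∈ S34SB_reg2 k x z :=
  S34SB_regZ_le_reg2 x z (S36CU_inv_mem_regZ z)

end adic

end Fermat.Agent.S36
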