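import Mathlib

/-!
# TRACK 10 (S36), abstract local lemma (helper19), prefix `S36LP_`  — Mathlib only

"A Cartier branch with DVR quotient ⇒ saturated modules of rank one are principal."

Setting: `R` a local ring inside a field `K`, `s ∈ 𝔪_R` such that
* (`hsep`) `⋂ sʲ R = 0`;
* (`hval`) `R / (s)` is a valuation ring, in the elementary form
  `∀ a b, ∃ c, s ∣ a * c - b ∨ s ∣ b * c - a`;
and `M ⊂ K` a finitely generated `R`-submodule such that
* (`hrank`) any two elements of `M` are `R`-linearly dependent (automatic if `K = Frac R`);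
* (`hsat`) `M / s M` is torsion free over `R / (s)`:
  `r • m = s • m'`, `s ∤ r`, `m, m' ∈ M` ⇒ `m ∈ s M`.
Then `M = R m₀` (`S36LP_principal`).

Helpers to discharge the hypotheses:
* `S36LP_hval_of_valuationRing` : `hval` from `[ValuationRing (R ⧸ span {s})]`;
* `S36LP_dvr_max` : a DVR is a maximal proper subring of its fraction field;
* `S36LP_hval_of_red` : `hval` from a ring hom `ρ : R → κ` with kernel `(s)` whose image contains
  a DVR `O` with fraction field `κ` and is not a field (`ρ t ≠ 0` for some `t ∈ 𝔪_R`);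
* `S36LP_hrank` : `hrank` from `IsFractionRing R K`;
* `S36LP_hsep_of_ord` : `hsep` from an order function;
* `S36LP_fg_of_le` : `M ≤ R e`, `R` noetherian ⇒ `M` finitely generated;
* `S36LP_unit` : if `R = {x | ∀ i, 0 ≤ v i x}` and every `v i` vanishes on `fⁿ u` for some
  `f ∈ M`, `M = R m₀`, then `m₀ⁿ u` is a unit of `R`.
-/

set_option autoImplicit false

namespace Fermat.Agent.S36

open IsLocalRing

section core

variable {R K : Type*} [CommRing R] [Field K] [Algebra R K] [FaithfulSMul R K]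

/-- a relation `a m₁ = a' m₂`, `(a, a') ≠ 0`, can be divided by `s` until `s` does not divide
both coefficients. -/
theorem S36LP_reduce (s : R) (hsep : ∀ r : R, (∀ j : ℕ, s ^ j ∣ r) → r = 0) (m₁ m₂ : K)
    (a a' : R) (h : a ≠ 0 ∨ a' ≠ 0) (heq : a • m₁ = a' • m₂) :
    ∃ b b' : R, ¬ (s ∣ b ∧ s ∣ b') ∧ b • m₁ = b' • m₂ := by
  have key : ∀ j : ℕ, ∀ a a' : R, (¬ s ^ j ∣ a ∨ ¬ s ^ j ∣ a') → a • m₁ = a' • m₂ →
      ∃ b b' : R, ¬ (s ∣ b ∧ s ∣ b') ∧ b • m₁ = b' • m₂ := by
    intro j
    induction j with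
    | zero =>
      intro a a' h0 _
      rcases h0 with h0 | h0 <;> exact absurd (by rw [pow_zero]; exact one_dvd _) h0
    | succ j ih =>
      intro a a' hj heq
      by_cases hd : s ∣ a ∧ s ∣ a'
      · obtain ⟨⟨b, rfl⟩, ⟨b', rfl⟩⟩ := hd
        have hs0 : s ≠ 0 := by
          rintro rfl
          rcases hj with hj | hj
          · exact hj (by rw [zero_mul]; exact dvd_zero _)
          · exact hj (by rw [zero_mul]; exact dvd_zero _)
        have hsK : algebraMap R K s ≠ 0 := by
          rw [Ne, ← map_zero (algebraMap R K)]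
          exact fun h => hs0 (FaithfulSMul.algebraMap_injective R K h)
        apply ih b b'
        · rcases hj with hj | hj
          · left
            intro hb
            exact hj (by rw [pow_succ']; exact mul_dvd_mul_left s hb)
          · right
            intro hb
            exact hj (by rw [pow_succ']; exact mul_dvd_mul_left s hb)
        · rw [mul_smul, mul_smul, Algebra.smul_def s, Algebra.smul_def s] at heq
          exact mul_left_cancel₀ hsK heq
      · exact ⟨a, a', hd, heq⟩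
  rcases h with h | h
  · have : ∃ j, ¬ s ^ j ∣ a := by
      by_contra hcon
      push Not at hcon
      exact h (hsep a hcon)
    obtain ⟨j, hj⟩ := this
    exact key j a a' (Or.inl hj) heq
  · have : ∃ j, ¬ s ^ j ∣ a' := by
      by_contra hcon
      push Not at hcon
      exact h (hsep a' hcon)
    obtain ⟨j, hj⟩ := this
    exact key j a a' (Or.inr hj) heq

/-- the elimination step: of two elements of `M`, one is a multiple of the other modulo `s M`. -/
theorem S36LP_step (s : R) (hsep : ∀ r : R, (∀ j : ℕ, s ^ j ∣ r) → r = 0)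
    (hval : ∀ a b : R, ∃ c : R, s ∣ a * c - b ∨ s ∣ b * c - a)
    (M : Submodule R K)
    (hrank : ∀ m ∈ M, ∀ m' ∈ M, ∃ a a' : R, (a ≠ 0 ∨ a' ≠ 0) ∧ a • m = a' • m')
    (hsat : ∀ m ∈ M, ∀ m' ∈ M, ∀ r : R, ¬ s ∣ r → r • m = s • m' → ∃ m'' ∈ M, m = s • m'')
    (m₁ m₂ : K) (h₁ : m₁ ∈ M) (h₂ : m₂ ∈ M) :
    (∃ c : R, ∃ m'' ∈ M, m₁ = c • m₂ + s • m'') ∨ (∃ c : R, ∃ m'' ∈ M, m₂ = c • m₁ + s • m'') := by
  obtain ⟨a, a', ha, heq⟩ := hrank m₁ h₁ m₂ h₂
  obtain ⟨b, b', hbb, hb⟩ := S36LP_reduce s hsep m₁ m₂ a a' ha heq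
  -- first form: `s ∤ b`, `b' ≡ b c`
  have case1 : ∀ c d : R, ¬ s ∣ b → b * c - b' = s * d →
      ∃ c : R, ∃ m'' ∈ M, m₁ = c • m₂ + s • m'' := by
    intro c d hsb hd
    have hb' : b' = b * c - s * d := by rw [← hd]; ring
    have h3 : b • (m₁ - c • m₂) = s • ((-d) • m₂) := by
      calc b • (m₁ - c • m₂) = b • m₁ - (b * c) • m₂ := by rw [smul_sub, smul_smul]
        _ = b' • m₂ - (b * c) • m₂ := by rw [hb]
        _ = (b * c - s * d) • m₂ - (b * c) • m₂ := by rw [← hb']
        _ = s • ((-d) • m₂) := by module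
    obtain ⟨m'', hm'', h4⟩ := hsat (m₁ - c • m₂) (M.sub_mem h₁ (M.smul_mem c h₂))
      ((-d) • m₂) (M.smul_mem _ h₂) b hsb h3
    exact ⟨c, m'', hm'', by rw [← h4]; abel⟩
  have case2 : ∀ c d : R, ¬ s ∣ b' → b' * c - b = s * d →
      ∃ c : R, ∃ m'' ∈ M, m₂ = c • m₁ + s • m'' := by
    intro c d hsb hd
    have hb' : b = b' * c - s * d := by rw [← hd]; ring
    have h3 : b' • (m₂ - c • m₁) = s • ((-d) • m₁) := by
      calc b' • (m₂ - c • m₁) = b' • m₂ - (b' * c) • m₁ := by rw [smul_sub, smul_smul]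
        _ = b • m₁ - (b' * c) • m₁ := by rw [hb]
        _ = (b' * c - s * d) • m₁ - (b' * c) • m₁ := by rw [← hb']
        _ = s • ((-d) • m₁) := by module
    obtain ⟨m'', hm'', h4⟩ := hsat (m₂ - c • m₁) (M.sub_mem h₂ (M.smul_mem c h₁))
      ((-d) • m₁) (M.smul_mem _ h₁) b' hsb h3
    exact ⟨c, m'', hm'', by rw [← h4]; abel⟩
  obtain ⟨c, hc | hc⟩ := hval b b'
  · obtain ⟨d, hd⟩ := hc
    by_cases hsb : s ∣ b
    · -- then `s ∣ b'`: contradiction
      exfalso
      apply hbb
      refine ⟨hsb, ?_⟩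
      have : b' = b * c - s * d := by rw [← hd]; ring
      rw [this]
      exact dvd_sub (Dvd.dvd.mul_right hsb c) (dvd_mul_right s d)
    · exact Or.inl (case1 c d hsb hd)
  · obtain ⟨d, hd⟩ := hc
    by_cases hsb : s ∣ b'
    · exfalso
      apply hbb
      refine ⟨?_, hsb⟩
      have : b = b' * c - s * d := by rw [← hd]; ring
      rw [this]
      exact dvd_sub (Dvd.dvd.mul_right hsb c) (dvd_mul_right s d)
    · exact Or.inr (case2 c d hsb hd)

variable [IsLocalRing R]

/-- **principal**: induction on the number of generators. -/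
theorem S36LP_principal_of_span (s : R) (hs : s ∈ maximalIdeal R)
    (hsep : ∀ r : R, (∀ j : ℕ, s ^ j ∣ r) → r = 0)
    (hval : ∀ a b : R, ∃ c : R, s ∣ a * c - b ∨ s ∣ b * c - a)
    (M : Submodule R K)
    (hrank : ∀ m ∈ M, ∀ m' ∈ M, ∃ a a' : R, (a ≠ 0 ∨ a' ≠ 0) ∧ a • m = a' • m')
    (hsat : ∀ m ∈ M, ∀ m' ∈ M, ∀ r : R, ¬ s ∣ r → r • m = s • m' → ∃ m'' ∈ M, m = s • m'') :
    ∀ (j : ℕ) (t : Finset K), t.card = j → M = Submodule.span R (t : Set K) →
      ∃ m₀ ∈ M, M = Submodule.span R {m₀} := by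
  classical
  intro j
  induction j using Nat.strong_induction_on with
  | _ j ih =>
    intro t htj ht
    by_cases hcard : t.card ≤ 1
    · rcases Nat.le_one_iff_eq_zero_or_eq_one.1 hcard with h0 | h1
      · rw [Finset.card_eq_zero] at h0
        refine ⟨0, M.zero_mem, ?_⟩
        rw [ht, h0]
        simp
      · obtain ⟨m₀, hm₀⟩ := Finset.card_eq_one.1 h1
        refine ⟨m₀, ?_, ?_⟩
        · rw [ht, hm₀]
          exact Submodule.subset_span (by simp)
        · rw [ht, hm₀]
          simp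
    · push Not at hcard
      obtain ⟨m₁, hm₁, m₂, hm₂, hne⟩ := Finset.one_lt_card.1 hcard
      have hMfg : M.FG := ⟨t, ht.symm⟩
      have hmem : ∀ x ∈ t, x ∈ M := fun x hx => by
        rw [ht]
        exact Submodule.subset_span hx
      -- removing a generator `x₁` which is a multiple of another one `x₂` modulo `s M`
      have remove : ∀ x₁ ∈ t, ∀ x₂ ∈ t, x₁ ≠ x₂ →
          (∃ c : R, ∃ m'' ∈ M, x₁ = c • x₂ + s • m'') →
          M = Submodule.span R ((t.erase x₁ : Finset K) : Set K) := by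
        intro x₁ hx₁ x₂ hx₂ hx ⟨c, m'', hm'', hc⟩
        apply le_antisymm
        · apply Submodule.le_of_le_smul_of_le_jacobson_bot (I := maximalIdeal R) hMfg
            (by rw [IsLocalRing.jacobson_eq_maximalIdeal ⊥ bot_ne_top])
          conv_lhs => rw [ht]
          rw [Submodule.span_le]
          intro x hxt
          by_cases hxx : x = x₁
          · have hxc : x = c • x₂ + s • m'' := hxx.trans hc
            rw [hxc]
            refine Submodule.add_mem _ (Submodule.mem_sup_left ?_) (Submodule.mem_sup_right ?_)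
            · refine Submodule.smul_mem _ c (Submodule.subset_span ?_)
              exact Finset.mem_erase.2 ⟨fun h => hx h.symm, hx₂⟩
            · exact Submodule.smul_mem_smul hs hm''
          · exact Submodule.mem_sup_left (Submodule.subset_span
              (Finset.mem_erase.2 ⟨hxx, hxt⟩))
        · rw [Submodule.span_le]
          intro x hxt
          exact hmem x (Finset.mem_of_mem_erase hxt)
      rcases S36LP_step s hsep hval M hrank hsat m₁ m₂ (hmem m₁ hm₁) (hmem m₂ hm₂) with h | h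
      · have h5 := remove m₁ hm₁ m₂ hm₂ hne h
        exact ih (t.erase m₁).card (by rw [Finset.card_erase_of_mem hm₁]; omega) (t.erase m₁)
          rfl h5
      · have h5 := remove m₂ hm₂ m₁ hm₁ (Ne.symm hne) h
        exact ih (t.erase m₂).card (by rw [Finset.card_erase_of_mem hm₂]; omega) (t.erase m₂)
          rfl h5

/-- **Cartier branch with valuation-ring quotient ⇒ finitely generated saturated modules of rank
one are principal.** -/
theorem S36LP_principal (s : R) (hs : s ∈ maximalIdeal R)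
    (hsep : ∀ r : R, (∀ j : ℕ, s ^ j ∣ r) → r = 0)
    (hval : ∀ a b : R, ∃ c : R, s ∣ a * c - b ∨ s ∣ b * c - a)
    (M : Submodule R K) (hfg : M.FG)
    (hrank : ∀ m ∈ M, ∀ m' ∈ M, ∃ a a' : R, (a ≠ 0 ∨ a' ≠ 0) ∧ a • m = a' • m')
    (hsat : ∀ m ∈ M, ∀ m' ∈ M, ∀ r : R, ¬ s ∣ r → r • m = s • m' → ∃ m'' ∈ M, m = s • m'') :
    ∃ m₀ ∈ M, M = Submodule.span R {m₀} := by
  obtain ⟨t, ht⟩ := hfg
  exact S36LP_principal_of_span s hs hsep hval M hrank hsat t.card t rfl ht.symm

end core

end Fermat.Agent.S36
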