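import Mathlib
import Fermat.Agent.S36.LocPrin
import Fermat.Agent.S36.Int3

/-!
# TRACK 10 (S36), package F6 CART (R14) (helper5), prefix `S36CA_` — abstract part
# (imports only Mathlib + the Mathlib-only files `S36/LocPrin.lean`, `S36/Int3.lean`)

"At every closed point `y` of the special fibre there is a vertical component `v` through `y`
which is CARTIER at `y` (cut out by one equation `s_y`) with DVR quotient."

## Part A: the local ring `Λ_y` inside the field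
`Λ : Subring K`, `y : Λ →+* k` (a closed point).
* `Λ_y` := helper17's `S36IT_loc Λ y : Subring K` (`S36/Int3.lean`) = `{a / d : a, d ∈ Λ, y d ≠ 0}`;
  `S36CA_mem_loc` (numerator/denominator form), `S36CA_incl : Λ →+* Λ_y`;
* `S36CA_isLocalRing`, `S36CA_isUnit_iff`, `S36CA_mem_maximalIdeal_iff`.

## Part B: (C1) + (C2) ⇒ the hypotheses of `S36LP_principal` for `R = Λ_y`
`ρ : Λ →+* κ` the reduction along `v` (kernel = `{f ∈ Λ : v(f) > 0}`), `v` through `y`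
(`hthr : ρ f = 0 → y f = 0`), `s : Λ` and
* (C1) `∀ f, ρ f = 0 → ∃ d e, y d ≠ 0 ∧ d * f = s * e`;
* (C2) a valuation ring `Oȳ ⊂ κ` of rank one (`harch`) whose elements are `ρ a / ρ d`, `y d ≠ 0`,
  and some `t : Λ` with `y t = 0`, `ρ t ≠ 0`.
Then
* `.c2`, `.c2'` : `ρ a / ρ d ∈ Oȳ` for all `a, d ∈ Λ`, `y d ≠ 0`  (`red_v(Λ_y) = Oȳ`);
* `.hs`, `.hsep`, `.hval` : the three hypotheses of `S36LP_principal`;
* `.prime`, `.prime'`, `.pow_dvd` : `(s)` is a prime ideal of `Λ_y`; `sⁿ ∣ a b`, `s ∤ b` ⇒ `sⁿ ∣ a`;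
* `.principal` : finitely generated `s`-saturated `Λ_y`-submodules of `K` are principal.
All of these are fields/theorems of `structure S36CA_Branch Λ y ρ s O` (= (R14) at `y`).

## Part C: (C1) in the four cases, for `Λ = ⋂ O i ⊓ B` (family of valuation rings + horizontal)
* `S36CA_c1_gen`  : `c * s = d`, `c • (Λ ∩ 𝔪_v) ⊆ Λ` ⇒ (C1);
* `S36CA_c1_unr`  : `v` unramified (`q` a uniformiser), `s = q`, `d = g` with `V_w(g) ≥ V_w(q)`
                    for `w ≠ v`      [ordinary points / cusps of FF, VV];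
* `S36CA_c1_ram`  : `v = FV`, `s = ϖ`, `d = g * ϖ^(q-1) / q`     [ordinary points, cusps of FV];
* `S36CA_c1_ss`   : supersingular, `v = VV`, `s = t₂`, `d = ε = t₁ * t₂ * ϖ^(q-1) / q`.

## Part D: helpers for (C2) and `hsep`
* `S36CA_harch_of_dvr`, `S36CA_hVarch_of_dvr` : rank one from `IsDiscreteValuationRing`;
* `S36CA_hsub_of_chart` : `hsub` from a chart `R₀ ⊆ ρ(Λ)` of which `Oȳ` is a localisation.
-/

set_option autoImplicit false

namespace Fermat.Agent.S36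

open IsLocalRing

/-! ## Part A -/

section loc

variable {K : Type*} [Field K] {k : Type*} [Field k]

theorem S36CA_ne_zero (Λ : Subring K) (y : Λ →+* k) {d : Λ} (hd : y d ≠ 0) : (d : K) ≠ 0 := by
  intro h
  apply hd
  have : d = 0 := Subtype.ext h
  rw [this, map_zero]

/-- membership in helper17's `S36IT_loc Λ y` (`S36/Int3.lean`), numerator/denominator form. -/
theorem S36CA_mem_loc (Λ : Subring K) (y : Λ →+* k) (x : K) :
    x ∈ S36IT_loc Λ y ↔ ∃ a d : Λ, y d ≠ 0 ∧ x * d = a := by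
  constructor
  · rintro ⟨d, hd, h⟩
    exact ⟨⟨(d : K) * x, h⟩, d, hd, mul_comm _ _⟩
  · rintro ⟨a, d, hd, h⟩
    exact ⟨d, hd, by rw [mul_comm, h]; exact a.2⟩

theorem S36CA_div_mem (Λ : Subring K) (y : Λ →+* k) (a d : Λ) (hd : y d ≠ 0) :
    (a : K) / d ∈ S36IT_loc Λ y :=
  (S36CA_mem_loc Λ y _).2 ⟨a, d, hd, div_mul_cancel₀ _ (S36CA_ne_zero Λ y hd)⟩


/-- the inclusion `Λ → Λ_y`. -/
def S36CA_incl (Λ : Subring K) (y : Λ →+* k) : Λ →+* S36IT_loc Λ y :=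
  Subring.inclusion (S36IT_le_loc Λ y)

@[simp] theorem S36CA_coe_incl (Λ : Subring K) (y : Λ →+* k) (a : Λ) :
    ((S36CA_incl Λ y a : S36IT_loc Λ y) : K) = a := rfl

/-- numerators are well defined modulo `ker y`. -/
theorem S36CA_num_wd (Λ : Subring K) (y : Λ →+* k) {x : K} {a d a' d' : Λ}
    (h : x * d = a) (h' : x * d' = a') : y a * y d' = y a' * y d := by
  rw [← map_mul, ← map_mul]
  congr 1
  apply Subtype.ext
  push_cast
  rw [← h, ← h']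
  ring

theorem S36CA_isUnit_of (Λ : Subring K) (y : Λ →+* k) (x : S36IT_loc Λ y) (a d : Λ)
    (ha : y a ≠ 0) (hd : y d ≠ 0) (h : (x : K) * d = a) : IsUnit x := by
  have ha0 := S36CA_ne_zero Λ y ha
  have hd0 := S36CA_ne_zero Λ y hd
  have hx : (x : K) = a / d := by rw [eq_div_iff hd0]; exact h
  refine IsUnit.of_mul_eq_one ⟨(d : K) / a, S36CA_div_mem Λ y d a ha⟩ ?_
  apply Subtype.ext
  show (x : K) * ((d : K) / a) = 1
  rw [hx]
  field_simp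

theorem S36CA_isUnit_iff (Λ : Subring K) (y : Λ →+* k) (x : S36IT_loc Λ y) :
    IsUnit x ↔ ∃ a d : Λ, y a ≠ 0 ∧ y d ≠ 0 ∧ (x : K) * d = a := by
  constructor
  · intro hx
    obtain ⟨x', hx'⟩ := hx.exists_right_inv
    obtain ⟨a, d, hd, h⟩ := (S36CA_mem_loc Λ y _).1 x.2
    obtain ⟨a', d', hd', h'⟩ := (S36CA_mem_loc Λ y _).1 x'.2
    refine ⟨a, d, ?_, hd, h⟩
    intro ha
    have h1 : (a : K) * a' = d * d' := by
      have e : (x : K) * (x' : K) = 1 := congrArg Subtype.val hx'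
      rw [← h, ← h']
      calc (x : K) * d * ((x' : K) * d') = ((x : K) * (x' : K)) * (d * d') := by ring
        _ = d * d' := by rw [e, one_mul]
    have h2 : a * a' = d * d' := Subtype.ext (by push_cast; exact h1)
    have h3 : y a * y a' = y d * y d' := by rw [← map_mul, ← map_mul, h2]
    rw [ha, zero_mul] at h3
    exact mul_ne_zero hd hd' h3.symm
  · rintro ⟨a, d, ha, hd, h⟩
    exact S36CA_isUnit_of Λ y x a d ha hd h

instance S36CA_isLocalRing (Λ : Subring K) (y : Λ →+* k) : IsLocalRing (S36IT_loc Λ y) := by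
  apply IsLocalRing.of_isUnit_or_isUnit_one_sub_self
  intro x
  obtain ⟨a, d, hd, h⟩ := (S36CA_mem_loc Λ y _).1 x.2
  by_cases ha : y a = 0
  · right
    refine S36CA_isUnit_of Λ y (1 - x) (d - a) d ?_ hd ?_
    · rw [map_sub, ha, sub_zero]
      exact hd
    · push_cast
      rw [← h]
      ring
  · left
    exact S36CA_isUnit_of Λ y x a d ha hd h

theorem S36CA_mem_maximalIdeal_iff (Λ : Subring K) (y : Λ →+* k) (x : S36IT_loc Λ y) :
    x ∈ maximalIdeal (S36IT_loc Λ y) ↔ ∃ a d : Λ, y a = 0 ∧ y d ≠ 0 ∧ (x : K) * d = a := by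
  rw [IsLocalRing.mem_maximalIdeal, mem_nonunits_iff, S36CA_isUnit_iff]
  constructor
  · intro hx
    obtain ⟨a, d, hd, h⟩ := (S36CA_mem_loc Λ y _).1 x.2
    refine ⟨a, d, ?_, hd, h⟩
    by_contra ha
    exact hx ⟨a, d, ha, hd, h⟩
  · rintro ⟨a, d, ha, hd, h⟩ ⟨a', d', ha', hd', h'⟩
    have := S36CA_num_wd Λ y h h'
    rw [ha, zero_mul] at this
    exact mul_ne_zero ha' hd this.symm

theorem S36CA_incl_mem_maximalIdeal (Λ : Subring K) (y : Λ →+* k) (s : Λ) (hs : y s = 0) :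
    S36CA_incl Λ y s ∈ maximalIdeal (S36IT_loc Λ y) :=
  (S36CA_mem_maximalIdeal_iff Λ y _).2 ⟨s, 1, hs, by rw [map_one]; exact one_ne_zero, by simp⟩

theorem S36CA_incl_isUnit (Λ : Subring K) (y : Λ →+* k) (d : Λ) (hd : y d ≠ 0) :
    IsUnit (S36CA_incl Λ y d) :=
  S36CA_isUnit_of Λ y _ d 1 hd (by rw [map_one]; exact one_ne_zero) (by simp)

end loc

/-! ## Part B -/

section dvr

variable {κ : Type*} [Field κ]

/-- a valuation ring of rank one is a maximal proper subring of its field. -/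
theorem S36CA_dvr_max (O : ValuationSubring κ)
    (harch : ∀ x : κ, x ≠ 0 → x ∈ O → x⁻¹ ∉ O → ∀ z : κ, ∃ n : ℕ, z * x ^ n ∈ O)
    (S : Subring κ) (hOS : ∀ x ∈ O, x ∈ S) (u : κ) (huS : u ∈ S) (huO : u ∉ O) (z : κ) :
    z ∈ S := by
  have hu0 : u ≠ 0 := fun h => huO (h ▸ O.zero_mem)
  have hui : u⁻¹ ∈ O := (O.mem_or_inv_mem u).resolve_left huO
  obtain ⟨n, hn⟩ := harch u⁻¹ (inv_ne_zero hu0) hui (by rw [inv_inv]; exact huO) z
  have : z = (z * u⁻¹ ^ n) * u ^ n := by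
    rw [inv_pow, mul_assoc, inv_mul_cancel₀ (pow_ne_zero n hu0), mul_one]
  rw [this]
  exact S.mul_mem (hOS _ hn) (S.pow_mem huS n)

end dvr

section cart

variable {K : Type*} [Field K] {k : Type*} [Field k] {κ : Type*} [Field κ]

/-- the hypotheses (R14) at one closed point `y`: a vertical branch `ρ` through `y` which is
Cartier (`hC1`, equation `s`) with rank-one valuation ring quotient (`hsub`, `harch`, `t`). -/
structure S36CA_Branch (Λ : Subring K) (y : Λ →+* k) (ρ : Λ →+* κ) (s : Λ)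
    (O : ValuationSubring κ) : Prop where
  /-- the branch passes through `y` -/
  hthr : ∀ f : Λ, ρ f = 0 → y f = 0
  /-- `s` vanishes on the branch -/
  hρs : ρ s = 0
  /-- (C1) the branch is cut out by `s` near `y` -/
  hC1 : ∀ f : Λ, ρ f = 0 → ∃ d e : Λ, y d ≠ 0 ∧ d * f = s * e
  /-- (C2), easy half: the local ring of `ȳ` is reached -/
  hsub : ∀ x : κ, x ∈ O → ∃ a d : Λ, y d ≠ 0 ∧ ρ a = x * ρ d
  /-- the local ring of `ȳ` has rank one -/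
  harch : ∀ x : κ, x ≠ 0 → x ∈ O → x⁻¹ ∉ O → ∀ z : κ, ∃ n : ℕ, z * x ^ n ∈ O
  /-- the reduction of `Λ_y` is not a field -/
  hne : ∃ t : Λ, y t = 0 ∧ ρ t ≠ 0

namespace S36CA_Branch

variable {Λ : Subring K} {y : Λ →+* k} {ρ : Λ →+* κ} {s : Λ} {O : ValuationSubring κ}

theorem ρ_ne_zero (H : S36CA_Branch Λ y ρ s O) {d : Λ} (hd : y d ≠ 0) : ρ d ≠ 0 :=
  fun h => hd (H.hthr d h)

theorem ys (H : S36CA_Branch Λ y ρ s O) : y s = 0 := H.hthr s H.hρs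

/-- the subring `ρ(Λ_y)` of `κ`. -/
def redSub (_H : S36CA_Branch Λ y ρ s O) : Subring κ where
  carrier := {z | ∃ a d : Λ, y d ≠ 0 ∧ z * ρ d = ρ a}
  mul_mem' := by
    rintro x x' ⟨a, d, hd, h⟩ ⟨a', d', hd', h'⟩
    refine ⟨a * a', d * d', by rw [map_mul]; exact mul_ne_zero hd hd', ?_⟩
    rw [map_mul, map_mul, ← h, ← h']
    ring
  one_mem' := ⟨1, 1, by rw [map_one]; exact one_ne_zero, by simp⟩
  add_mem' := by
    rintro x x' ⟨a, d, hd, h⟩ ⟨a', d', hd', h'⟩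
    refine ⟨a * d' + a' * d, d * d', by rw [map_mul]; exact mul_ne_zero hd hd', ?_⟩
    rw [map_add, map_mul, map_mul, map_mul, ← h, ← h']
    ring
  zero_mem' := ⟨0, 1, by rw [map_one]; exact one_ne_zero, by simp⟩
  neg_mem' := by
    rintro x ⟨a, d, hd, h⟩
    refine ⟨-a, d, hd, ?_⟩
    rw [map_neg, ← h]
    ring

/-- **(C2)**: `ρ(Λ_y) = Oȳ`. -/
theorem c2 (H : S36CA_Branch Λ y ρ s O) (a d : Λ) (hd : y d ≠ 0) : ρ a / ρ d ∈ O := by
  by_contra hcon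
  have hmem : ρ a / ρ d ∈ H.redSub := ⟨a, d, hd, div_mul_cancel₀ _ (H.ρ_ne_zero hd)⟩
  have hOS : ∀ x ∈ O, x ∈ H.redSub := by
    intro x hx
    obtain ⟨a', d', hd', h'⟩ := H.hsub x hx
    exact ⟨a', d', hd', h'.symm⟩
  obtain ⟨t, hyt, hρt⟩ := H.hne
  obtain ⟨a', d', hd', h'⟩ := S36CA_dvr_max O H.harch H.redSub hOS _ hmem hcon (ρ t)⁻¹
  -- `ρ d' = ρ t * ρ a'`
  have h1 : ρ (d' - t * a') = 0 := by
    rw [map_sub, map_mul, ← h']
    field_simp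
    ring
  have h2 := H.hthr _ h1
  rw [map_sub, map_mul, hyt, zero_mul, sub_zero] at h2
  exact hd' h2

theorem c2' (H : S36CA_Branch Λ y ρ s O) (z : κ) : z ∈ O ↔ ∃ a d : Λ, y d ≠ 0 ∧ z * ρ d = ρ a := by
  constructor
  · intro hz
    obtain ⟨a, d, hd, h⟩ := H.hsub z hz
    exact ⟨a, d, hd, h.symm⟩
  · rintro ⟨a, d, hd, h⟩
    have := H.c2 a d hd
    rwa [← h, mul_div_cancel_right₀ _ (H.ρ_ne_zero hd)] at this

/-- an element of `Λ_y` whose numerator reduces to `0` is divisible by `s`. -/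
theorem dvd_of_red (H : S36CA_Branch Λ y ρ s O) (x : S36IT_loc Λ y) (a d : Λ) (hd : y d ≠ 0)
    (h : (x : K) * d = a) (ha : ρ a = 0) : S36CA_incl Λ y s ∣ x := by
  obtain ⟨d₁, e, hd₁, he⟩ := H.hC1 a ha
  have hd0 := S36CA_ne_zero Λ y hd
  have hd₁0 := S36CA_ne_zero Λ y hd₁
  have hdd : y (d₁ * d) ≠ 0 := by rw [map_mul]; exact mul_ne_zero hd₁ hd
  refine ⟨⟨(e : K) / (d₁ * d : Λ), S36CA_div_mem Λ y e (d₁ * d) hdd⟩, ?_⟩
  apply Subtype.ext
  show (x : K) = (s : K) * ((e : K) / ((d₁ * d : Λ) : K))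
  have he' : (d₁ : K) * a = s * e := by
    have := congrArg Subtype.val he
    simpa using this
  push_cast
  rw [← mul_div_assoc, ← he', ← h]
  field_simp

/-- conversely. -/
theorem red_of_dvd (H : S36CA_Branch Λ y ρ s O) (x : S36IT_loc Λ y) (a d : Λ)
    (h : (x : K) * d = a) (hx : S36CA_incl Λ y s ∣ x) : ρ a = 0 := by
  obtain ⟨x', rfl⟩ := hx
  obtain ⟨a', d', hd', h'⟩ := (S36CA_mem_loc Λ y _).1 x'.2
  -- `a * d' = s * a' * d`
  have h1 : a * d' = s * a' * d := by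
    apply Subtype.ext
    push_cast
    rw [← h, ← h']
    show ((s : K) * (x' : K)) * d * d' = s * ((x' : K) * d') * d
    ring
  have h2 : ρ a * ρ d' = 0 := by
    rw [← map_mul, h1, map_mul, map_mul, H.hρs, zero_mul, zero_mul]
  rcases mul_eq_zero.1 h2 with h3 | h3
  · exact h3
  · exact absurd h3 (H.ρ_ne_zero hd')

/-- `hs` of `S36LP_principal`. -/
theorem hs (H : S36CA_Branch Λ y ρ s O) : S36CA_incl Λ y s ∈ maximalIdeal (S36IT_loc Λ y) :=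
  S36CA_incl_mem_maximalIdeal Λ y s H.ys

/-- `hval` of `S36LP_principal`: `Λ_y ⧸ (s)` is a valuation ring. -/
theorem hval (H : S36CA_Branch Λ y ρ s O) (a b : S36IT_loc Λ y) :
    ∃ c : S36IT_loc Λ y, S36CA_incl Λ y s ∣ a * c - b ∨ S36CA_incl Λ y s ∣ b * c - a := by
  -- it suffices to treat one ordered pair
  have key : ∀ a b : S36IT_loc Λ y, ∀ a₁ d₁ b₁ d₂ : Λ, y d₁ ≠ 0 → y d₂ ≠ 0 →
      (a : K) * d₁ = a₁ → (b : K) * d₂ = b₁ → ∀ z : κ, z ∈ O →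
      (ρ a₁ / ρ d₁) * z = ρ b₁ / ρ d₂ →
      ∃ c : S36IT_loc Λ y, S36CA_incl Λ y s ∣ a * c - b := by
    intro a b a₁ d₁ b₁ d₂ hd₁ hd₂ ha hb z hz hzz
    obtain ⟨c₁, d₃, hd₃, hc⟩ := H.hsub z hz
    have hd₁0 := S36CA_ne_zero Λ y hd₁
    have hd₂0 := S36CA_ne_zero Λ y hd₂
    have hd₃0 := S36CA_ne_zero Λ y hd₃
    refine ⟨⟨(c₁ : K) / d₃, S36CA_div_mem Λ y c₁ d₃ hd₃⟩, ?_⟩
    refine H.dvd_of_red _ (a₁ * c₁ * d₂ - b₁ * d₁ * d₃) (d₁ * d₂ * d₃) ?_ ?_ ?_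
    · rw [map_mul, map_mul]
      exact mul_ne_zero (mul_ne_zero hd₁ hd₂) hd₃
    · push_cast
      rw [← ha, ← hb]
      field_simp
    · have e1 := H.ρ_ne_zero hd₁
      have e2 := H.ρ_ne_zero hd₂
      rw [map_sub, map_mul, map_mul, map_mul, map_mul, hc]
      field_simp at hzz
      linear_combination (ρ d₃) * hzz
  obtain ⟨a₁, d₁, hd₁, ha⟩ := (S36CA_mem_loc Λ y _).1 a.2
  obtain ⟨b₁, d₂, hd₂, hb⟩ := (S36CA_mem_loc Λ y _).1 b.2
  have hA := H.c2 a₁ d₁ hd₁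
  have hB := H.c2 b₁ d₂ hd₂
  by_cases hA0 : ρ a₁ / ρ d₁ = 0
  · -- then `b * 0 ≡ a`
    obtain ⟨c, hc⟩ := key b a b₁ d₂ a₁ d₁ hd₂ hd₁ hb ha 0 O.zero_mem (by rw [mul_zero, hA0])
    exact ⟨c, Or.inr hc⟩
  · rcases O.mem_or_inv_mem ((ρ b₁ / ρ d₂) / (ρ a₁ / ρ d₁)) with h | h
    · obtain ⟨c, hc⟩ := key a b a₁ d₁ b₁ d₂ hd₁ hd₂ ha hb _ h (mul_div_cancel₀ _ hA0)
      exact ⟨c, Or.inl hc⟩
    · by_cases hB0 : ρ b₁ / ρ d₂ = 0
      · obtain ⟨c, hc⟩ := key a b a₁ d₁ b₁ d₂ hd₁ hd₂ ha hb 0 O.zero_mem (by rw [mul_zero, hB0])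
        exact ⟨c, Or.inl hc⟩
      · rw [inv_div] at h
        obtain ⟨c, hc⟩ := key b a b₁ d₂ a₁ d₁ hd₂ hd₁ hb ha _ h (mul_div_cancel₀ _ hB0)
        exact ⟨c, Or.inr hc⟩

/-- `(s)` is a prime ideal of `Λ_y` (elementary form). -/
theorem prime (H : S36CA_Branch Λ y ρ s O) (a b : S36IT_loc Λ y)
    (hab : S36CA_incl Λ y s ∣ a * b) : S36CA_incl Λ y s ∣ a ∨ S36CA_incl Λ y s ∣ b := by
  obtain ⟨a₁, d₁, hd₁, ha⟩ := (S36CA_mem_loc Λ y _).1 a.2
  obtain ⟨b₁, d₂, hd₂, hb⟩ := (S36CA_mem_loc Λ y _).1 b.2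
  have h1 : ρ (a₁ * b₁) = 0 := by
    refine H.red_of_dvd (a * b) (a₁ * b₁) (d₁ * d₂) ?_ hab
    push_cast
    rw [← ha, ← hb]
    ring
  rw [map_mul] at h1
  rcases mul_eq_zero.1 h1 with h | h
  · exact Or.inl (H.dvd_of_red a a₁ d₁ hd₁ ha h)
  · exact Or.inr (H.dvd_of_red b b₁ d₂ hd₂ hb h)

theorem not_dvd_one (H : S36CA_Branch Λ y ρ s O) : ¬ S36CA_incl Λ y s ∣ 1 := by
  intro h
  have := H.red_of_dvd 1 1 1 (by simp) h
  rw [map_one] at this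
  exact one_ne_zero this

/-- `hsep` of `S36LP_principal`, from a valuation ring `V ⊇ Λ_y` of `K` in which `s` is a
non-unit of rank one. -/
theorem hsep (_H : S36CA_Branch Λ y ρ s O) (V : ValuationSubring K)
    (hΛV : ∀ f : Λ, (f : K) ∈ V) (hdV : ∀ d : Λ, y d ≠ 0 → (d : K)⁻¹ ∈ V)
    (hVarch : ∀ r : K, r ≠ 0 → ∃ j : ℕ, r / (s : K) ^ j ∉ V)
    (r : S36IT_loc Λ y) (hr : ∀ j : ℕ, S36CA_incl Λ y s ^ j ∣ r) : r = 0 := by
  by_contra hr0
  have hrK : (r : K) ≠ 0 := fun h => hr0 (Subtype.ext h)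
  obtain ⟨j, hj⟩ := hVarch r hrK
  obtain ⟨x', hx'⟩ := hr j
  apply hj
  have hs0 : (s : K) ≠ 0 := by
    intro h
    obtain ⟨j', hj'⟩ := hVarch 1 one_ne_zero
    apply hj'
    rcases Nat.eq_zero_or_pos j' with h0 | h0
    · rw [h0, pow_zero, div_one]; exact V.one_mem
    · rw [h, zero_pow (by omega), div_zero]; exact V.zero_mem
  have e : (r : K) / (s : K) ^ j = x' := by
    have := congrArg Subtype.val hx'
    rw [div_eq_iff (pow_ne_zero j hs0), this]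
    show ((S36CA_incl Λ y s ^ j * x' : S36IT_loc Λ y) : K) = (x' : K) * (s : K) ^ j
    push_cast
    rw [S36CA_coe_incl]
    ring
  rw [e]
  obtain ⟨a, d, hd, h⟩ := (S36CA_mem_loc Λ y _).1 x'.2
  have hd0 := S36CA_ne_zero Λ y hd
  have : (x' : K) = a * (d : K)⁻¹ := by
    rw [← h]
    field_simp
  rw [this]
  exact V.mul_mem _ _ (hΛV a) (hdV d hd)

/-- **(R14) ⇒ principal**: a finitely generated `s`-saturated `Λ_y`-submodule of `K` in which
any two elements are dependent is principal. -/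
theorem principal (H : S36CA_Branch Λ y ρ s O) (V : ValuationSubring K)
    (hΛV : ∀ f : Λ, (f : K) ∈ V) (hdV : ∀ d : Λ, y d ≠ 0 → (d : K)⁻¹ ∈ V)
    (hVarch : ∀ r : K, r ≠ 0 → ∃ j : ℕ, r / (s : K) ^ j ∉ V)
    (M : Submodule (S36IT_loc Λ y) K) (hfg : M.FG)
    (hrank : ∀ m ∈ M, ∀ m' ∈ M, ∃ a a' : S36IT_loc Λ y, (a ≠ 0 ∨ a' ≠ 0) ∧ a • m = a' • m')
    (hsat : ∀ m ∈ M, ∀ m' ∈ M, ∀ r : S36IT_loc Λ y, ¬ S36CA_incl Λ y s ∣ r →
      r • m = S36CA_incl Λ y s • m' → ∃ m'' ∈ M, m = S36CA_incl Λ y s • m'') :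
    ∃ m₀ ∈ M, M = Submodule.span (S36IT_loc Λ y) {m₀} :=
  S36LP_principal (S36CA_incl Λ y s) H.hs (H.hsep V hΛV hdV hVarch) H.hval M hfg hrank hsat

end S36CA_Branch

end cart

/-! ## Part C: (C1) from valuation bookkeeping -/

section c1

variable {K : Type*} [Field K] {k : Type*} [Field k]

/-- (C1) from a multiplier `c = d / s` with `c • (Λ ∩ 𝔪_v) ⊆ Λ`. -/
theorem S36CA_c1_gen (Λ : Subring K) (y : Λ →+* k) (P : Λ → Prop) (s d : Λ) (hd : y d ≠ 0)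
    (c : K) (hcs : c * s = d) (hmul : ∀ f : Λ, P f → c * f ∈ Λ) :
    ∀ f : Λ, P f → ∃ d e : Λ, y d ≠ 0 ∧ d * f = s * e := by
  intro f hf
  refine ⟨d, ⟨c * f, hmul f hf⟩, hd, ?_⟩
  apply Subtype.ext
  push_cast
  rw [← hcs]
  ring

variable {ι : Type*} (O : ι → ValuationSubring K) (B : Subring K) (Λ : Subring K)

/-- (C1), valuation form: `Λ = ⋂ O i ⊓ B`; the branch is `i₀`; `d / s` is horizontal-integral,
`V_i(d) ≥ V_i(s)` for `i ≠ i₀` and `V_{i₀}(d) + V_{i₀}(f) ≥ V_{i₀}(s)` on the centre of `i₀`. -/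
theorem S36CA_c1_val (hΛ : ∀ x : K, x ∈ Λ ↔ (∀ i, x ∈ O i) ∧ x ∈ B) (y : Λ →+* k) (i₀ : ι)
    (s d : Λ) (hs0 : (s : K) ≠ 0) (hd : y d ≠ 0) (hB : (d : K) / s ∈ B)
    (h₀ : ∀ f : Λ, (O i₀).valuation (f : K) < 1 →
      (O i₀).valuation (d : K) * (O i₀).valuation (f : K) ≤ (O i₀).valuation (s : K))
    (hi : ∀ i, i ≠ i₀ → (O i).valuation (d : K) ≤ (O i).valuation (s : K)) :
    ∀ f : Λ, (O i₀).valuation (f : K) < 1 → ∃ d e : Λ, y d ≠ 0 ∧ d * f = s * e := by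
  refine S36CA_c1_gen Λ y _ s d hd ((d : K) / s) (div_mul_cancel₀ _ hs0) ?_
  intro f hf
  have hfΛ := (hΛ _).1 f.2
  rw [hΛ]
  refine ⟨fun i => ?_, B.mul_mem hB hfΛ.2⟩
  rw [← ValuationSubring.valuation_le_one_iff, map_mul, map_div₀]
  have hvs : (O i).valuation (s : K) ≠ 0 := (Valuation.ne_zero_iff _).2 hs0
  rw [div_mul_eq_mul_div, div_le_one₀ (zero_lt_iff.2 hvs)]
  by_cases hii : i = i₀
  · subst hii
    exact h₀ f hf
  · calc (O i).valuation (d : K) * (O i).valuation (f : K)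
        ≤ (O i).valuation (s : K) * 1 :=
          mul_le_mul' (hi i hii) ((ValuationSubring.valuation_le_one_iff _ _).2 (hfΛ.1 i))
      _ = (O i).valuation (s : K) := mul_one _

/-- **Case 1** (ordinary points and cusps of an unramified component `i₀` = FF or VV):
`s = q`, `d = g` with `V_i(g) ≥ V_i(q)` on the other components. -/
theorem S36CA_c1_unr (hΛ : ∀ x : K, x ∈ Λ ↔ (∀ i, x ∈ O i) ∧ x ∈ B) (y : Λ →+* k) (i₀ : ι)
    (q : Λ) (hq0 : (q : K) ≠ 0) (hqB : (q : K)⁻¹ ∈ B)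
    (huni : ∀ f : Λ, (O i₀).valuation (f : K) < 1 →
      (O i₀).valuation (f : K) ≤ (O i₀).valuation (q : K))
    (g : Λ) (hg : y g ≠ 0)
    (hgi : ∀ i, i ≠ i₀ → (O i).valuation (g : K) ≤ (O i).valuation (q : K)) :
    ∀ f : Λ, (O i₀).valuation (f : K) < 1 → ∃ d e : Λ, y d ≠ 0 ∧ d * f = q * e := by
  refine S36CA_c1_val O B Λ hΛ y i₀ q g hq0 hg ?_ ?_ hgi
  · rw [div_eq_mul_inv]
    exact B.mul_mem ((hΛ _).1 g.2).2 hqB
  · intro f hf
    calc (O i₀).valuation (g : K) * (O i₀).valuation (f : K)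
        ≤ 1 * (O i₀).valuation (q : K) :=
          mul_le_mul' ((ValuationSubring.valuation_le_one_iff _ _).2 (((hΛ _).1 g.2).1 i₀))
            (huni f hf)
      _ = (O i₀).valuation (q : K) := one_mul _

/-- **Cases 2 and 4** (ordinary points and cusps of the ramified component `i₀` = FV):
`s = ϖ`, `d = g * ϖ ^ (m + 1) / q` (`m + 1 = q - 1` the ramification index), where
`V(f) + m V(ϖ) ≥ V(q)` on the centre of `i₀` and `V_i(g) ≥ V_i(q)` on the other components. -/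
theorem S36CA_c1_ram (hΛ : ∀ x : K, x ∈ Λ ↔ (∀ i, x ∈ O i) ∧ x ∈ B) (y : Λ →+* k) (i₀ : ι)
    (q : Λ) (hq0 : (q : K) ≠ 0) (hqB : (q : K)⁻¹ ∈ B) (ϖ : Λ) (hϖ0 : (ϖ : K) ≠ 0) (m : ℕ)
    (hram : ∀ f : Λ, (O i₀).valuation (f : K) < 1 →
      (O i₀).valuation (f : K) * (O i₀).valuation (ϖ : K) ^ m ≤ (O i₀).valuation (q : K))
    (g : Λ) (hgi : ∀ i, i ≠ i₀ → (O i).valuation (g : K) ≤ (O i).valuation (q : K))
    (d : Λ) (hdK : (d : K) = g * (ϖ : K) ^ (m + 1) / q) (hd : y d ≠ 0) :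
    ∀ f : Λ, (O i₀).valuation (f : K) < 1 → ∃ d e : Λ, y d ≠ 0 ∧ d * f = ϖ * e := by
  have hgΛ := (hΛ _).1 g.2
  have hϖΛ := (hΛ _).1 ϖ.2
  have hvq : ∀ i, (O i).valuation (q : K) ≠ 0 := fun i => (Valuation.ne_zero_iff _).2 hq0
  have hvϖ : ∀ i, (O i).valuation (ϖ : K) ≠ 0 := fun i => (Valuation.ne_zero_iff _).2 hϖ0
  have hle1 : ∀ (i : ι) (x : Λ), (O i).valuation (x : K) ≤ 1 := fun i x =>
    (ValuationSubring.valuation_le_one_iff _ _).2 (((hΛ _).1 x.2).1 i)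
  refine S36CA_c1_val O B Λ hΛ y i₀ ϖ d hϖ0 hd ?_ ?_ ?_
  · have : (d : K) / ϖ = g * (ϖ : K) ^ m * (q : K)⁻¹ := by
      rw [hdK]
      field_simp
      ring
    rw [this]
    exact B.mul_mem (B.mul_mem hgΛ.2 (B.pow_mem hϖΛ.2 m)) hqB
  · intro f hf
    rw [hdK, map_div₀, map_mul, map_pow, div_mul_eq_mul_div,
      div_le_iff₀ (zero_lt_iff.2 (hvq i₀))]
    calc (O i₀).valuation (g : K) * (O i₀).valuation (ϖ : K) ^ (m + 1) * (O i₀).valuation (f : K)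
        = (O i₀).valuation (g : K) * ((O i₀).valuation (f : K) * (O i₀).valuation (ϖ : K) ^ m)
            * (O i₀).valuation (ϖ : K) := by rw [pow_succ]; ac_rfl
      _ ≤ 1 * (O i₀).valuation (q : K) * (O i₀).valuation (ϖ : K) :=
          mul_le_mul' (mul_le_mul' (hle1 i₀ g) (hram f hf)) le_rfl
      _ = (O i₀).valuation (ϖ : K) * (O i₀).valuation (q : K) := by rw [one_mul, mul_comm]
  · intro i hii
    rw [hdK, map_div₀, map_mul, map_pow, div_le_iff₀ (zero_lt_iff.2 (hvq i))]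
    calc (O i).valuation (g : K) * (O i).valuation (ϖ : K) ^ (m + 1)
        = (O i).valuation (g : K) * (O i).valuation (ϖ : K) ^ m * (O i).valuation (ϖ : K) := by
          rw [pow_succ]; ac_rfl
      _ ≤ (O i).valuation (q : K) * 1 * (O i).valuation (ϖ : K) :=
          mul_le_mul' (mul_le_mul' (hgi i hii) (pow_le_one₀ zero_le (hle1 i ϖ))) le_rfl
      _ = (O i).valuation (ϖ : K) * (O i).valuation (q : K) := by rw [mul_one, mul_comm]

/-- **Case 3** (supersingular points): branch `i₀` (= VV) unramified, `s = t₂`,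
`d = ε = t₁ * t₂ * ϖ ^ (m + 1) / q`, where `V_{i₁}(t₁) ≥ V_{i₁}(q)` (`i₁` = FF) and
`(m + 1) V_i(ϖ) ≥ V_i(q)` on the remaining components (`i` = FV). -/
theorem S36CA_c1_ss (hΛ : ∀ x : K, x ∈ Λ ↔ (∀ i, x ∈ O i) ∧ x ∈ B) (y : Λ →+* k) (i₀ i₁ : ι)
    (q : Λ) (hq0 : (q : K) ≠ 0) (hqB : (q : K)⁻¹ ∈ B) (ϖ t₁ t₂ : Λ) (ht₂0 : (t₂ : K) ≠ 0)
    (m : ℕ)
    (huni : ∀ f : Λ, (O i₀).valuation (f : K) < 1 →
      (O i₀).valuation (f : K) ≤ (O i₀).valuation (q : K))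
    (ht₁ : (O i₁).valuation (t₁ : K) ≤ (O i₁).valuation (q : K))
    (hϖ : ∀ i, i ≠ i₀ → i ≠ i₁ →
      (O i).valuation (ϖ : K) ^ (m + 1) ≤ (O i).valuation (q : K))
    (ε : Λ) (hεK : (ε : K) = t₁ * t₂ * (ϖ : K) ^ (m + 1) / q) (hε : y ε ≠ 0) :
    ∀ f : Λ, (O i₀).valuation (f : K) < 1 → ∃ d e : Λ, y d ≠ 0 ∧ d * f = t₂ * e := by
  have hϖΛ := (hΛ _).1 ϖ.2
  have ht₁Λ := (hΛ _).1 t₁.2
  have hvq : ∀ i, (O i).valuation (q : K) ≠ 0 := fun i => (Valuation.ne_zero_iff _).2 hq0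
  have hle1 : ∀ (i : ι) (x : Λ), (O i).valuation (x : K) ≤ 1 := fun i x =>
    (ValuationSubring.valuation_le_one_iff _ _).2 (((hΛ _).1 x.2).1 i)
  refine S36CA_c1_val O B Λ hΛ y i₀ t₂ ε ht₂0 hε ?_ ?_ ?_
  · have : (ε : K) / t₂ = t₁ * (ϖ : K) ^ (m + 1) * (q : K)⁻¹ := by
      rw [hεK]
      field_simp
    rw [this]
    exact B.mul_mem (B.mul_mem ht₁Λ.2 (B.pow_mem hϖΛ.2 _)) hqB
  · intro f hf
    rw [hεK, map_div₀, map_mul, map_mul, map_pow, div_mul_eq_mul_div,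
      div_le_iff₀ (zero_lt_iff.2 (hvq i₀))]
    calc (O i₀).valuation (t₁ : K) * (O i₀).valuation (t₂ : K) *
          (O i₀).valuation (ϖ : K) ^ (m + 1) * (O i₀).valuation (f : K)
        = (O i₀).valuation (t₁ : K) * (O i₀).valuation (ϖ : K) ^ (m + 1) *
            (O i₀).valuation (f : K) * (O i₀).valuation (t₂ : K) := by ac_rfl
      _ ≤ 1 * 1 * (O i₀).valuation (q : K) * (O i₀).valuation (t₂ : K) :=
          mul_le_mul' (mul_le_mul' (mul_le_mul' (hle1 i₀ t₁)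
            (pow_le_one₀ zero_le (hle1 i₀ ϖ))) (huni f hf)) le_rfl
      _ = (O i₀).valuation (t₂ : K) * (O i₀).valuation (q : K) := by
          rw [one_mul, one_mul, mul_comm]
  · intro i hii
    rw [hεK, map_div₀, map_mul, map_mul, map_pow, div_le_iff₀ (zero_lt_iff.2 (hvq i))]
    by_cases hi1 : i = i₁
    · subst hi1
      calc (O i).valuation (t₁ : K) * (O i).valuation (t₂ : K) * (O i).valuation (ϖ : K) ^ (m + 1)
          = (O i).valuation (t₁ : K) * (O i).valuation (ϖ : K) ^ (m + 1) *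
              (O i).valuation (t₂ : K) := by ac_rfl
        _ ≤ (O i).valuation (q : K) * 1 * (O i).valuation (t₂ : K) :=
            mul_le_mul' (mul_le_mul' ht₁ (pow_le_one₀ zero_le (hle1 i ϖ))) le_rfl
        _ = (O i).valuation (t₂ : K) * (O i).valuation (q : K) := by rw [mul_one, mul_comm]
    · calc (O i).valuation (t₁ : K) * (O i).valuation (t₂ : K) * (O i).valuation (ϖ : K) ^ (m + 1)
          = (O i).valuation (t₁ : K) * (O i).valuation (ϖ : K) ^ (m + 1) *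
              (O i).valuation (t₂ : K) := by ac_rfl
        _ ≤ 1 * (O i).valuation (q : K) * (O i).valuation (t₂ : K) :=
            mul_le_mul' (mul_le_mul' (hle1 i t₁) (hϖ i hii hi1)) le_rfl
        _ = (O i).valuation (t₂ : K) * (O i).valuation (q : K) := by rw [one_mul, mul_comm]

end c1

/-! ## Part D: helpers for (C2) -/

section c2help

variable {κ : Type*} [Field κ]

/-- a discrete valuation ring has rank one (`harch` of `S36CA_Branch`). -/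
theorem S36CA_harch_of_dvr (O : ValuationSubring κ) [IsDiscreteValuationRing O]
    (x : κ) (_hx0 : x ≠ 0) (hx : x ∈ O) (hxi : x⁻¹ ∉ O) (z : κ) : ∃ n : ℕ, z * x ^ n ∈ O := by
  rcases O.mem_or_inv_mem z with hz | hz
  · exact ⟨0, by rw [pow_zero, mul_one]; exact hz⟩
  · by_cases hz0 : z = 0
    · exact ⟨0, by rw [hz0, zero_mul]; exact O.zero_mem⟩
    obtain ⟨π, hπ⟩ := IsDiscreteValuationRing.exists_irreducible O
    have hw0 : (⟨z⁻¹, hz⟩ : O) ≠ 0 := fun h => inv_ne_zero hz0 (congrArg Subtype.val h)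
    obtain ⟨n, hn⟩ := IsDiscreteValuationRing.associated_pow_irreducible hw0 hπ
    -- `π ∣ x`
    have hxnu : ¬ IsUnit (⟨x, hx⟩ : O) := by
      intro hu
      obtain ⟨b, hb⟩ := hu.exists_right_inv
      apply hxi
      have hb' : x * (b : κ) = 1 := congrArg Subtype.val hb
      have : x⁻¹ = b := inv_eq_of_mul_eq_one_right hb'
      rw [this]
      exact b.2
    have hπx : π ∣ (⟨x, hx⟩ : O) := by
      have h1 : (⟨x, hx⟩ : O) ∈ IsLocalRing.maximalIdeal O := hxnu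
      rw [(IsDiscreteValuationRing.irreducible_iff_uniformizer π).1 hπ,
        Ideal.mem_span_singleton] at h1
      exact h1
    have h2 : (⟨z⁻¹, hz⟩ : O) ∣ (⟨x, hx⟩ : O) ^ n :=
      hn.dvd.trans (pow_dvd_pow_of_dvd hπx n)
    obtain ⟨c, hc⟩ := h2
    refine ⟨n, ?_⟩
    have hc' : x ^ n = z⁻¹ * (c : κ) := by
      have := congrArg Subtype.val hc
      simpa using this
    rw [hc', ← mul_assoc, mul_inv_cancel₀ hz0, one_mul]
    exact c.2

/-- `hVarch` of `S36CA_Branch.hsep` for a discrete valuation ring `V` and a non-unit `s ≠ 0`. -/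
theorem S36CA_hVarch_of_dvr (V : ValuationSubring κ) [IsDiscreteValuationRing V]
    (s : κ) (hs0 : s ≠ 0) (hs : s ∈ V) (hsi : s⁻¹ ∉ V) (r : κ) (hr : r ≠ 0) :
    ∃ j : ℕ, r / s ^ j ∉ V := by
  obtain ⟨n, hn⟩ := S36CA_harch_of_dvr V s hs0 hs hsi r⁻¹
  refine ⟨n + 1, fun h => hsi ?_⟩
  have : s⁻¹ = (r / s ^ (n + 1)) * (r⁻¹ * s ^ n) := by
    rw [pow_succ]
    field_simp
  rw [this]
  exact V.mul_mem _ _ h hn

variable {K : Type*} [Field K] {k : Type*} [Field k]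

/-- `(s)` is a prime element of `Λ_y`. -/
theorem S36CA_Branch.prime' {Λ : Subring K} {y : Λ →+* k} {ρ : Λ →+* κ} {s : Λ}
    {O : ValuationSubring κ} (H : S36CA_Branch Λ y ρ s O) (hs0 : (s : K) ≠ 0) :
    Prime (S36CA_incl Λ y s) := by
  refine ⟨fun h => hs0 (congrArg Subtype.val h), fun h => ?_, fun a b hab => H.prime a b hab⟩
  exact H.not_dvd_one (isUnit_iff_dvd_one.1 h)

/-- saturation: `sⁿ ∣ a * b`, `s ∤ b` ⇒ `sⁿ ∣ a`. -/
theorem S36CA_Branch.pow_dvd {Λ : Subring K} {y : Λ →+* k} {ρ : Λ →+* κ} {s : Λ}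
    {O : ValuationSubring κ} (H : S36CA_Branch Λ y ρ s O) (hs0 : (s : K) ≠ 0) (n : ℕ)
    (a b : S36IT_loc Λ y) (hb : ¬ S36CA_incl Λ y s ∣ b) (hab : S36CA_incl Λ y s ^ n ∣ a * b) :
    S36CA_incl Λ y s ^ n ∣ a :=
  (H.prime' hs0).pow_dvd_of_dvd_mul_right n hb hab

/-- `hsub` of `S36CA_Branch` from a chart: a subring `R₀ ⊆ ρ(Λ)` of which `O` is a localisation,
`y` being the evaluation at the centre of `O`. -/
theorem S36CA_hsub_of_chart (Λ : Subring K) (y : Λ →+* k) (ρ : Λ →+* κ) (O : ValuationSubring κ)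
    (R₀ : Set κ) (hloc : ∀ x : κ, x ∈ O → ∃ a ∈ R₀, ∃ d ∈ R₀, d ∈ O ∧ d⁻¹ ∈ O ∧ x * d = a)
    (hlift : ∀ a ∈ R₀, ∃ f : Λ, ρ f = a)
    (hunit : ∀ f : Λ, ρ f ∈ O → (ρ f)⁻¹ ∈ O → y f ≠ 0)
    (x : κ) (hx : x ∈ O) : ∃ a d : Λ, y d ≠ 0 ∧ ρ a = x * ρ d := by
  obtain ⟨a, ha, d, hd, hdO, hdi, h⟩ := hloc x hx
  obtain ⟨fa, hfa⟩ := hlift a ha
  obtain ⟨fd, hfd⟩ := hlift d hd
  refine ⟨fa, fd, hunit fd (by rw [hfd]; exact hdO) (by rw [hfd]; exact hdi), ?_⟩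
  rw [hfa, hfd, h]

end c2help

end Fermat.Agent.S36
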