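import Mathlib
import Fermat.Agent.S36.Int3VS
import Fermat.Agent.S36.Cart3

/-!
# TRACK 10 (S36), package F7 = LI, value form (R15), VALUATION-SUBRING form (helper19).
Prefix `S36LW_`.

The statements of `S36/LiVal.lean`, `S36/LiExact.lean` for a family of valuation RINGS
`O : ι → ValuationSubring K` (different value groups allowed), in the language of
`S36/Int3VS.lean` (helper17) and `S36/Cart3.lean` (helper5).

`Λ = {x ∈ K₀ | ∀ i, x ∈ O i}`, `y : Λ →+* k`, `T = S36IT_thruVS O Λ y`,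
`M^u = {f ∈ K₀ | ∀ i, fⁿ u ∈ O i}`.  "`x` is a unit at `i`" is `S36LW_IsU (O i) x`
(`x ∈ O i ∧ x⁻¹ ∈ O i`).

* `S36LW_main`  : CART + FIN + EXACT ⇒ `∃ f ∈ M^u, ∀ i ∈ T, (fⁿ u)⁻¹ ∈ O i`;
* `S36LW_main'` : … `⇒ ∃ f ∈ M^u, y (fⁿ u) ≠ 0`;
* `S36LW_exact` : EXACT from vertical generators and horizontal separation (SEP-H);
* `S36LW_li`    : the assembled statement.
-/

set_option autoImplicit false

namespace Fermat.Agent.S36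

section units

variable {K : Type*} [Field K]

/-- `x` is a unit of the valuation ring `O` (or `x = 0`). -/
def S36LW_IsU (O : ValuationSubring K) (x : K) : Prop := x ∈ O ∧ x⁻¹ ∈ O

theorem S36LW_IsU.one (O : ValuationSubring K) : S36LW_IsU O 1 :=
  ⟨O.one_mem, by rw [inv_one]; exact O.one_mem⟩

theorem S36LW_IsU.mul {O : ValuationSubring K} {x y : K} (hx : S36LW_IsU O x)
    (hy : S36LW_IsU O y) : S36LW_IsU O (x * y) :=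
  ⟨O.mul_mem _ _ hx.1 hy.1, by rw [mul_inv]; exact O.mul_mem _ _ hx.2 hy.2⟩

theorem S36LW_IsU.inv {O : ValuationSubring K} {x : K} (hx : S36LW_IsU O x) :
    S36LW_IsU O x⁻¹ :=
  ⟨hx.2, by rw [inv_inv]; exact hx.1⟩

theorem S36LW_IsU.pow {O : ValuationSubring K} {x : K} (hx : S36LW_IsU O x) (n : ℕ) :
    S36LW_IsU O (x ^ n) :=
  ⟨O.pow_mem hx.1 n, by rw [← inv_pow]; exact O.pow_mem hx.2 n⟩

theorem S36LW_IsU.zpow {O : ValuationSubring K} {x : K} (hx : S36LW_IsU O x) (a : ℤ) :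
    S36LW_IsU O (x ^ a) := by
  cases a with
  | ofNat m =>
    rw [Int.ofNat_eq_natCast, zpow_natCast]
    exact hx.pow m
  | negSucc m =>
    rw [zpow_negSucc]
    exact (hx.pow _).inv

theorem S36LW_IsU.prod {O : ValuationSubring K} {α : Type*} (s : Finset α) (f : α → K)
    (h : ∀ a ∈ s, S36LW_IsU O (f a)) : S36LW_IsU O (∏ a ∈ s, f a) := by
  classical
  induction s using Finset.induction_on with
  | empty =>
    rw [Finset.prod_empty]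
    exact S36LW_IsU.one O
  | insert a s ha ih =>
    rw [Finset.prod_insert ha]
    exact (h a (Finset.mem_insert_self a s)).mul
      (ih fun b hb => h b (Finset.mem_insert_of_mem hb))

/-- `xⁿ u ∈ O`, `yⁿ u ∈ O` ⇒ `(x + y)ⁿ u ∈ O`. -/
theorem S36LW_add_mem (O : ValuationSubring K) (u : K) (n : ℕ) {x y : K}
    (hx : x ^ n * u ∈ O) (hy : y ^ n * u ∈ O) : (x + y) ^ n * u ∈ O := by
  rw [← ValuationSubring.valuation_le_one_iff] at hx hy ⊢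
  rw [map_mul, map_pow] at hx hy ⊢
  rcases le_max_iff.1 (Valuation.map_add O.valuation x y) with h | h
  · exact le_trans (mul_le_mul_left (pow_le_pow_left₀ zero_le h n) _) hx
  · exact le_trans (mul_le_mul_left (pow_le_pow_left₀ zero_le h n) _) hy

/-- `c ∈ O`, `xⁿ u ∈ O` ⇒ `(c x)ⁿ u ∈ O`. -/
theorem S36LW_smul_mem (O : ValuationSubring K) (u : K) (n : ℕ) {c x : K}
    (hc : c ∈ O) (hx : x ^ n * u ∈ O) : (c * x) ^ n * u ∈ O := by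
  have : (c * x) ^ n * u = c ^ n * (x ^ n * u) := by ring
  rw [this]
  exact O.mul_mem _ _ (O.pow_mem hc n) hx

end units

section LiValVS

variable {K : Type*} [Field K] {ι : Type*} {k : Type*} [Field k]

/-- the `R`-submodule `{x ∈ K₀ | ∀ i ∈ T, xⁿ u ∈ O i}` of `K`. -/
def S36LW_mod (O : ι → ValuationSubring K) (K₀ : Subfield K) (R : Subring K) (T : Set ι)
    (hR₀ : ∀ x : K, x ∈ R → x ∈ K₀) (hR : ∀ x : K, x ∈ R → ∀ i ∈ T, x ∈ O i)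
    (u : K) (n : ℕ) (hn : n ≠ 0) : Submodule R K where
  carrier := {x | x ∈ K₀ ∧ ∀ i ∈ T, x ^ n * u ∈ O i}
  add_mem' := by
    intro a b ha hb
    exact ⟨K₀.add_mem ha.1 hb.1, fun i hi => S36LW_add_mem (O i) u n (ha.2 i hi) (hb.2 i hi)⟩
  zero_mem' := by
    refine ⟨K₀.zero_mem, fun i _ => ?_⟩
    rw [zero_pow hn, zero_mul]
    exact (O i).zero_mem
  smul_mem' := by
    intro c x hx
    exact ⟨K₀.mul_mem (hR₀ _ c.2) hx.1, fun i hi =>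
      S36LW_smul_mem (O i) u n (hR _ c.2 i hi) (hx.2 i hi)⟩

theorem S36LW_mem_mod {O : ι → ValuationSubring K} {K₀ : Subfield K} {R : Subring K}
    {T : Set ι} {hR₀ : ∀ x : K, x ∈ R → x ∈ K₀} {hR : ∀ x : K, x ∈ R → ∀ i ∈ T, x ∈ O i}
    {u : K} {n : ℕ} {hn : n ≠ 0} {x : K} :
    x ∈ S36LW_mod O K₀ R T hR₀ hR u n hn ↔ x ∈ K₀ ∧ ∀ i ∈ T, x ^ n * u ∈ O i := Iff.rfl

/-- globalisation: a local section of `M^u` at `y` becomes a global one after multiplication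
by a denominator not vanishing at `y`. -/
theorem S36LW_globalise (O : ι → ValuationSubring K) (K₀ : Subfield K) (Λ : Subring K)
    (hΛ : ∀ x : K, x ∈ Λ ↔ x ∈ K₀ ∧ ∀ i, x ∈ O i)
    (hfin : ∀ x : K, x ∈ K₀ → x ≠ 0 → {i | x ∉ O i}.Finite)
    (harch : ∀ (i : ι) (x : K), x ≠ 0 → x ∈ O i → x⁻¹ ∉ O i → ∀ z : K, ∃ n : ℕ, z * x ^ n ∈ O i)
    (y : Λ →+* k) (u : K) (hu₀ : u ∈ K₀) (n : ℕ) (hn : n ≠ 0) (x : K) (hx₀ : x ∈ K₀)
    (hx : ∀ i ∈ S36IT_thruVS O Λ y, x ^ n * u ∈ O i) :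
    ∃ e : Λ, y e ≠ 0 ∧ ∀ i, ((e : K) * x) ^ n * u ∈ O i := by
  obtain ⟨e, he, hex⟩ := S36IT_exists_den_vs O K₀ Λ hΛ hfin harch y (x ^ n * u)
    (K₀.mul_mem (K₀.pow_mem hx₀ n) hu₀) hx
  refine ⟨e, he, fun i => ?_⟩
  have h1 := ((hΛ _).1 hex).2 i
  have h2 := ((hΛ _).1 e.2).2 i
  obtain ⟨m, rfl⟩ := Nat.exists_eq_succ_of_ne_zero hn
  have : ((e : K) * x) ^ (m + 1) * u = (e : K) ^ m * ((e : K) * (x ^ (m + 1) * u)) := by ring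
  rw [this]
  exact (O i).mul_mem _ _ ((O i).pow_mem h2 m) h1

/-- **LI, value form (R15)**, valuation-subring form: at a closed point `y` with a Cartier
branch (R14), the module `M^u` has a section `f` with `fⁿ u` a unit at every valuation ring
through `y`. -/
theorem S36LW_main {κ : Type*} [Field κ] (O : ι → ValuationSubring K) (K₀ : Subfield K)
    (Λ : Subring K) (hΛ : ∀ x : K, x ∈ Λ ↔ x ∈ K₀ ∧ ∀ i, x ∈ O i)
    (hfin : ∀ x : K, x ∈ K₀ → x ≠ 0 → {i | x ∉ O i}.Finite)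
    (harch : ∀ (i : ι) (x : K), x ≠ 0 → x ∈ O i → x⁻¹ ∉ O i → ∀ z : K, ∃ n : ℕ, z * x ^ n ∈ O i)
    (hfrac : ∀ x : K, x ∈ K₀ → ∃ b : Λ, (b : K) ≠ 0 ∧ (b : K) * x ∈ Λ)
    (y : Λ →+* k) (ρ : Λ →+* κ) (s : Λ) (Oy : ValuationSubring κ)
    (H : S36CA_Branch Λ y ρ s Oy) (hs0 : (s : K) ≠ 0)
    (i₀ : ι) (hker : ∀ f : Λ, (f : K)⁻¹ ∉ O i₀ → ρ f = 0) (hsi₀ : (s : K)⁻¹ ∉ O i₀)
    (hs1 : ∀ i ∈ S36IT_thruVS O Λ y, i ≠ i₀ → (s : K)⁻¹ ∈ O i)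
    (u : K) (hu₀ : u ∈ K₀) (hu : u ≠ 0) (n : ℕ) (hn : n ≠ 0)
    (MU : Submodule Λ K) (hMU : ∀ f : K, f ∈ MU ↔ f ∈ K₀ ∧ ∀ i, f ^ n * u ∈ O i)
    (hfg : MU.FG)
    (hex : ∀ i ∈ S36IT_thruVS O Λ y, ∃ f : K, f ∈ K₀ ∧ f ≠ 0 ∧
      (∀ j ∈ S36IT_thruVS O Λ y, f ^ n * u ∈ O j) ∧ (f ^ n * u)⁻¹ ∈ O i) :
    ∃ f ∈ MU, f ≠ 0 ∧ ∀ i ∈ S36IT_thruVS O Λ y, (f ^ n * u)⁻¹ ∈ O i := by
  classical
  have hi₀ : i₀ ∈ S36IT_thruVS O Λ y := fun x hx => H.hthr x (hker x hx)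
  have hloc := S36IT_mem_loc_iff_vs O K₀ Λ hΛ hfin harch y
  have hΛO : ∀ (x : Λ) (i : ι), (x : K) ∈ O i := fun x i => ((hΛ _).1 x.2).2 i
  have hR₀ : ∀ x : K, x ∈ S36IT_loc Λ y → x ∈ K₀ := fun x hx => ((hloc x).1 hx).1
  have hR : ∀ x : K, x ∈ S36IT_loc Λ y → ∀ i ∈ S36IT_thruVS O Λ y, x ∈ O i :=
    fun x hx i hi => ((hloc x).1 hx).2 i hi
  set M : Submodule (S36IT_loc Λ y) K :=
    S36LW_mod O K₀ (S36IT_loc Λ y) (S36IT_thruVS O Λ y) hR₀ hR u n hn with hM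
  have hmemM : ∀ x : K, x ∈ M ↔ x ∈ K₀ ∧ ∀ i ∈ S36IT_thruVS O Λ y, x ^ n * u ∈ O i :=
    fun x => Iff.rfl
  -- finite generation of the local module
  have hfgM : M.FG := by
    obtain ⟨S, hS⟩ := hfg
    refine ⟨S, le_antisymm ?_ ?_⟩
    · rw [Submodule.span_le]
      intro x hx
      have hxMU : x ∈ MU := hS ▸ Submodule.subset_span hx
      rw [hMU] at hxMU
      exact (hmemM x).2 ⟨hxMU.1, fun i _ => hxMU.2 i⟩
    · intro x hx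
      obtain ⟨hx0, hxT⟩ := (hmemM x).1 hx
      obtain ⟨e, he, hee⟩ := S36LW_globalise O K₀ Λ hΛ hfin harch y u hu₀ n hn x hx0 hxT
      have hexMU : (e : K) * x ∈ MU := (hMU _).2 ⟨K₀.mul_mem ((hΛ _).1 e.2).1 hx0, hee⟩
      rw [← hS] at hexMU
      have key : ∀ z ∈ Submodule.span Λ (S : Set K),
          z ∈ Submodule.span (S36IT_loc Λ y) (S : Set K) := by
        intro z hz
        refine Submodule.span_induction ?_ ?_ ?_ ?_ hz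
        · intro a ha
          exact Submodule.subset_span ha
        · exact Submodule.zero_mem _
        · intro a b _ _ ha hb
          exact Submodule.add_mem _ ha hb
        · intro c a _ ha
          have : c • a = (S36CA_incl Λ y c) • a := rfl
          rw [this]
          exact Submodule.smul_mem _ _ ha
      have h1 := key _ hexMU
      have he0 : (e : K) ≠ 0 := S36IT_den_ne_zero he
      have h2 := Submodule.smul_mem _ (⟨(e : K)⁻¹, S36IT_inv_mem_loc he⟩ : S36IT_loc Λ y) h1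
      have h3 : (⟨(e : K)⁻¹, S36IT_inv_mem_loc he⟩ : S36IT_loc Λ y) • ((e : K) * x) = x := by
        show (e : K)⁻¹ * ((e : K) * x) = x
        rw [← mul_assoc, inv_mul_cancel₀ he0, one_mul]
      rwa [h3] at h2
  -- rank one
  have hrank : ∀ m ∈ M, ∀ m' ∈ M, ∃ a a' : S36IT_loc Λ y,
      (a ≠ 0 ∨ a' ≠ 0) ∧ a • m = a' • m' := by
    intro m hm m' hm'
    rcases eq_or_ne m' 0 with rfl | h0
    · exact ⟨0, 1, Or.inr one_ne_zero, by simp⟩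
    · obtain ⟨b, hb0, hb⟩ := hfrac (m / m')
        (K₀.div_mem ((hmemM m).1 hm).1 ((hmemM m').1 hm').1)
      refine ⟨S36CA_incl Λ y b, ⟨_, S36IT_le_loc Λ y hb⟩, Or.inl ?_, ?_⟩
      · intro h
        exact hb0 (congrArg Subtype.val h)
      · show (b : K) * m = (b : K) * (m / m') * m'
        field_simp
  -- saturation
  have hsat : ∀ m ∈ M, ∀ m' ∈ M, ∀ r : S36IT_loc Λ y, ¬ S36CA_incl Λ y s ∣ r →
      r • m = S36CA_incl Λ y s • m' → ∃ m'' ∈ M, m = S36CA_incl Λ y s • m'' := by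
    intro m hm m' hm' r hr hrm
    have hr1 : ((r : K))⁻¹ ∈ O i₀ := by
      by_contra hcon
      apply hr
      obtain ⟨a, d0, hd0, hra⟩ := (S36CA_mem_loc Λ y _).1 r.2
      have hd00 : (d0 : K) ≠ 0 := S36IT_den_ne_zero hd0
      have hva : ((a : K))⁻¹ ∉ O i₀ := by
        intro ha
        apply hcon
        have e : ((r : K))⁻¹ = ((a : K))⁻¹ * (d0 : K) := by
          rw [← hra, mul_inv, mul_assoc, inv_mul_cancel₀ hd00, mul_one]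
        rw [e]
        exact (O i₀).mul_mem _ _ ha (hΛO d0 i₀)
      exact H.dvd_of_red r a d0 hd0 hra (hker a hva)
    have hrm' : (r : K) * m = (s : K) * m' := hrm
    have hr0 : (r : K) ≠ 0 := by
      intro h0
      apply hr
      have : r = 0 := Subtype.ext h0
      rw [this]
      exact dvd_zero _
    have e : m / (s : K) = m' / (r : K) := by
      field_simp
      linear_combination hrm'
    have hmm := (hmemM m).1 hm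
    have hmm' := (hmemM m').1 hm'
    refine ⟨m / (s : K), ?_, ?_⟩
    · rw [hmemM]
      refine ⟨K₀.div_mem hmm.1 ((hΛ _).1 s.2).1, fun i hi => ?_⟩
      by_cases hii : i = i₀
      · rw [e]
        have e2 : (m' / (r : K)) ^ n * u = ((r : K))⁻¹ ^ n * (m' ^ n * u) := by
          rw [div_eq_mul_inv]; ring
        rw [e2, hii]
        exact (O i₀).mul_mem _ _ ((O i₀).pow_mem hr1 n) (hmm'.2 i₀ hi₀)
      · have e2 : (m / (s : K)) ^ n * u = ((s : K))⁻¹ ^ n * (m ^ n * u) := by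
          rw [div_eq_mul_inv]; ring
        rw [e2]
        exact (O i).mul_mem _ _ ((O i).pow_mem (hs1 i hi hii) n) (hmm.2 i hi)
    · show m = (s : K) * (m / (s : K))
      rw [mul_div_cancel₀ _ hs0]
  -- `hsep` data
  have hVarch : ∀ r : K, r ≠ 0 → ∃ j : ℕ, r / (s : K) ^ j ∉ O i₀ := by
    intro r hr
    obtain ⟨j, hj⟩ := harch i₀ s hs0 (hΛO s i₀) hsi₀ r⁻¹
    refine ⟨j + 1, fun hmem => hsi₀ ?_⟩
    have e : ((s : K))⁻¹ = (r⁻¹ * (s : K) ^ j) * (r / (s : K) ^ (j + 1)) := by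
      field_simp
      ring
    rw [e]
    exact (O i₀).mul_mem _ _ hj hmem
  obtain ⟨m₀, hm₀, hMm₀⟩ := H.principal (O i₀)
    (fun f => hΛO f i₀) (fun d hd => S36IT_inv_mem_of_thru hi₀ hd) hVarch M hfgM hrank hsat
  -- the generator is exact at every valuation ring through `y`
  have hm₀' := (hmemM m₀).1 hm₀
  have hexact : m₀ ≠ 0 ∧ ∀ i ∈ S36IT_thruVS O Λ y, (m₀ ^ n * u)⁻¹ ∈ O i := by
    have hgen : ∀ i ∈ S36IT_thruVS O Λ y, m₀ ≠ 0 ∧ (m₀ ^ n * u)⁻¹ ∈ O i := by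
      intro i hi
      obtain ⟨F, hF₀, hF0, hFle, hFi⟩ := hex i hi
      have hFM : F ∈ M := (hmemM F).2 ⟨hF₀, hFle⟩
      rw [hMm₀] at hFM
      obtain ⟨r, hr⟩ := Submodule.mem_span_singleton.1 hFM
      have hr' : (r : K) * m₀ = F := hr
      have hm0 : m₀ ≠ 0 := by
        rintro rfl
        rw [mul_zero] at hr'
        exact hF0 hr'.symm
      have hr0 : (r : K) ≠ 0 := by
        intro h
        rw [h, zero_mul] at hr'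
        exact hF0 hr'.symm
      refine ⟨hm0, ?_⟩
      have e : (m₀ ^ n * u)⁻¹ = (r : K) ^ n * (F ^ n * u)⁻¹ := by
        rw [← hr']
        field_simp
        ring
      rw [e]
      exact (O i).mul_mem _ _ ((O i).pow_mem (hR _ r.2 i hi) n) hFi
    exact ⟨(hgen i₀ hi₀).1, fun i hi => (hgen i hi).2⟩
  -- globalise
  obtain ⟨e, he, hee⟩ := S36LW_globalise O K₀ Λ hΛ hfin harch y u hu₀ n hn m₀ hm₀'.1 hm₀'.2
  have he0 : (e : K) ≠ 0 := S36IT_den_ne_zero he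
  refine ⟨(e : K) * m₀, (hMU _).2 ⟨K₀.mul_mem ((hΛ _).1 e.2).1 hm₀'.1, hee⟩,
    mul_ne_zero he0 hexact.1, fun i hi => ?_⟩
  have e2 : (((e : K) * m₀) ^ n * u)⁻¹ = ((e : K))⁻¹ ^ n * (m₀ ^ n * u)⁻¹ := by
    rw [mul_pow, mul_assoc, mul_inv, inv_pow]
  rw [e2]
  exact (O i).mul_mem _ _ ((O i).pow_mem (S36IT_inv_mem_of_thru hi he) n) (hexact.2 i hi)

/-- a non-zero element of `Λ` which is a unit of every valuation ring through `y` does not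
vanish at `y`. -/
theorem S36LW_y_ne_zero (O : ι → ValuationSubring K) (K₀ : Subfield K)
    (Λ : Subring K) (hΛ : ∀ x : K, x ∈ Λ ↔ x ∈ K₀ ∧ ∀ i, x ∈ O i)
    (hfin : ∀ x : K, x ∈ K₀ → x ≠ 0 → {i | x ∉ O i}.Finite)
    (harch : ∀ (i : ι) (x : K), x ≠ 0 → x ∈ O i → x⁻¹ ∉ O i → ∀ z : K, ∃ n : ℕ, z * x ^ n ∈ O i)
    (y : Λ →+* k) (z : Λ) (hz0 : (z : K) ≠ 0)
    (hz : ∀ i ∈ S36IT_thruVS O Λ y, ((z : K))⁻¹ ∈ O i) : y z ≠ 0 := by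
  obtain ⟨d, hd, hdz⟩ := S36IT_exists_den_vs O K₀ Λ hΛ hfin harch y (z : K)⁻¹
    (K₀.inv_mem ((hΛ _).1 z.2).1) hz
  intro h0
  apply hd
  have e : d = ⟨(d : K) * (z : K)⁻¹, hdz⟩ * z := by
    apply Subtype.ext
    show (d : K) = (d : K) * (z : K)⁻¹ * (z : K)
    rw [mul_assoc, inv_mul_cancel₀ hz0, mul_one]
  rw [e, map_mul, h0, mul_zero]

/-- **LI, value form (R15)**, valuation-subring form, with the value at `y`. -/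
theorem S36LW_main' {κ : Type*} [Field κ] (O : ι → ValuationSubring K) (K₀ : Subfield K)
    (Λ : Subring K) (hΛ : ∀ x : K, x ∈ Λ ↔ x ∈ K₀ ∧ ∀ i, x ∈ O i)
    (hfin : ∀ x : K, x ∈ K₀ → x ≠ 0 → {i | x ∉ O i}.Finite)
    (harch : ∀ (i : ι) (x : K), x ≠ 0 → x ∈ O i → x⁻¹ ∉ O i → ∀ z : K, ∃ n : ℕ, z * x ^ n ∈ O i)
    (hfrac : ∀ x : K, x ∈ K₀ → ∃ b : Λ, (b : K) ≠ 0 ∧ (b : K) * x ∈ Λ)
    (y : Λ →+* k) (ρ : Λ →+* κ) (s : Λ) (Oy : ValuationSubring κ)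
    (H : S36CA_Branch Λ y ρ s Oy) (hs0 : (s : K) ≠ 0)
    (i₀ : ι) (hker : ∀ f : Λ, (f : K)⁻¹ ∉ O i₀ → ρ f = 0) (hsi₀ : (s : K)⁻¹ ∉ O i₀)
    (hs1 : ∀ i ∈ S36IT_thruVS O Λ y, i ≠ i₀ → (s : K)⁻¹ ∈ O i)
    (u : K) (hu₀ : u ∈ K₀) (hu : u ≠ 0) (n : ℕ) (hn : n ≠ 0)
    (MU : Submodule Λ K) (hMU : ∀ f : K, f ∈ MU ↔ f ∈ K₀ ∧ ∀ i, f ^ n * u ∈ O i)
    (hfg : MU.FG)
    (hex : ∀ i ∈ S36IT_thruVS O Λ y, ∃ f : K, f ∈ K₀ ∧ f ≠ 0 ∧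
      (∀ j ∈ S36IT_thruVS O Λ y, f ^ n * u ∈ O j) ∧ (f ^ n * u)⁻¹ ∈ O i) :
    ∃ f ∈ MU, ∃ hf : f ^ n * u ∈ Λ, y ⟨f ^ n * u, hf⟩ ≠ 0 := by
  obtain ⟨f, hf, hf0, hfv⟩ := S36LW_main O K₀ Λ hΛ hfin harch hfrac y ρ s Oy H hs0 i₀ hker
    hsi₀ hs1 u hu₀ hu n hn MU hMU hfg hex
  have hfM := (hMU f).1 hf
  have hmem : f ^ n * u ∈ Λ := (hΛ _).2 ⟨K₀.mul_mem (K₀.pow_mem hfM.1 n) hu₀, hfM.2⟩
  exact ⟨f, hf, hmem, S36LW_y_ne_zero O K₀ Λ hΛ hfin harch y ⟨f ^ n * u, hmem⟩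
    (mul_ne_zero (pow_ne_zero _ hf0) hu) hfv⟩

/-! ### EXACT from vertical generators and horizontal separation -/

/-- vertical normalisation: a function can be corrected by a product of vertical generators
(units at all horizontal valuation rings through `y`) so that `fⁿ u` becomes a unit at all
vertical valuation rings through `y`. -/
theorem S36LW_vert (O : ι → ValuationSubring K) (K₀ : Subfield K) (T : Set ι)
    (u : K) (n : ℕ)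
    (Vt : Finset ι) (hVt : ∀ i ∈ Vt, i ∈ T)
    (t : ι → K) (ht₀ : ∀ i ∈ Vt, t i ∈ K₀) (ht0 : ∀ i ∈ Vt, t i ≠ 0)
    (ht1 : ∀ i ∈ Vt, ∀ j ∈ T, j ≠ i → S36LW_IsU (O j) (t i))
    (htgen : ∀ i ∈ Vt, ∀ x ∈ K₀, x ≠ 0 → ∃ a : ℤ, S36LW_IsU (O i) (x * t i ^ a))
    (hun : ∀ i ∈ Vt, ∃ c : ℤ, S36LW_IsU (O i) (u * (t i ^ c) ^ n))
    (g : K) (hg₀ : g ∈ K₀) (hg0 : g ≠ 0) :
    ∃ w ∈ K₀, w ≠ 0 ∧ (∀ j ∈ T, j ∉ Vt → S36LW_IsU (O j) w) ∧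
      ∀ i ∈ Vt, S36LW_IsU (O i) ((g * w) ^ n * u) := by
  classical
  have hA : ∀ i : ι, ∃ a : ℤ, i ∈ Vt → S36LW_IsU (O i) (g * t i ^ a) := by
    intro i
    by_cases hi : i ∈ Vt
    · obtain ⟨a, ha⟩ := htgen i hi g hg₀ hg0
      exact ⟨a, fun _ => ha⟩
    · exact ⟨0, fun h => absurd h hi⟩
  have hC : ∀ i : ι, ∃ c : ℤ, i ∈ Vt → S36LW_IsU (O i) (u * (t i ^ c) ^ n) := by
    intro i
    by_cases hi : i ∈ Vt
    · obtain ⟨c, hc⟩ := hun i hi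
      exact ⟨c, fun _ => hc⟩
    · exact ⟨0, fun h => absurd h hi⟩
  choose a ha using hA
  choose c hc using hC
  refine ⟨∏ i ∈ Vt, t i ^ (a i + c i), ?_, ?_, ?_, ?_⟩
  · exact K₀.prod_mem fun i hi => K₀.zpow_mem (ht₀ i hi) _
  · exact Finset.prod_ne_zero_iff.2 fun i hi => zpow_ne_zero _ (ht0 i hi)
  · intro j hj hjV
    refine S36LW_IsU.prod _ _ fun i hi => ?_
    have hji : j ≠ i := fun h => hjV (h ▸ hi)
    exact (ht1 i hi j hj hji).zpow _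
  · intro i hi
    have hti := ht0 i hi
    have hsplit : ∏ i' ∈ Vt, t i' ^ (a i' + c i') =
        t i ^ (a i + c i) * ∏ i' ∈ Vt.erase i, t i' ^ (a i' + c i') :=
      (Finset.mul_prod_erase Vt (fun i' => t i' ^ (a i' + c i')) hi).symm
    have hrest : S36LW_IsU (O i) (∏ i' ∈ Vt.erase i, t i' ^ (a i' + c i')) := by
      refine S36LW_IsU.prod _ _ fun i' hi' => ?_
      exact (ht1 i' (Finset.mem_of_mem_erase hi') i (hVt i hi)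
        (Ne.symm (Finset.ne_of_mem_erase hi'))).zpow _
    have e : (g * ∏ i' ∈ Vt, t i' ^ (a i' + c i')) ^ n * u =
        (g * t i ^ a i) ^ n * (u * (t i ^ c i) ^ n) *
          (∏ i' ∈ Vt.erase i, t i' ^ (a i' + c i')) ^ n := by
      rw [hsplit, zpow_add₀ hti]
      ring
    rw [e]
    exact (((ha i hi).pow n).mul (hc i hi)).mul (hrest.pow n)

/-- **EXACT** (hypothesis `hex` of `S36LW_main`) from vertical generators and horizontal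
separation. -/
theorem S36LW_exact (O : ι → ValuationSubring K) (K₀ : Subfield K) (T : Set ι)
    (u : K) (n : ℕ)
    (Vt : Finset ι) (hVt : ∀ i ∈ Vt, i ∈ T)
    (t : ι → K) (ht₀ : ∀ i ∈ Vt, t i ∈ K₀) (ht0 : ∀ i ∈ Vt, t i ≠ 0)
    (ht1 : ∀ i ∈ Vt, ∀ j ∈ T, j ≠ i → S36LW_IsU (O j) (t i))
    (htgen : ∀ i ∈ Vt, ∀ x ∈ K₀, x ≠ 0 → ∃ a : ℤ, S36LW_IsU (O i) (x * t i ^ a))
    (hun : ∀ i ∈ Vt, ∃ c : ℤ, S36LW_IsU (O i) (u * (t i ^ c) ^ n))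
    (hgen : ∀ i ∈ T, i ∉ Vt → ∃ g ∈ K₀, g ≠ 0 ∧ (g ^ n * u)⁻¹ ∈ O i ∧
      ∀ j ∈ T, j ∉ Vt → g ^ n * u ∈ O j)
    (hgen0 : ∃ g ∈ K₀, g ≠ 0 ∧ ∀ j ∈ T, j ∉ Vt → g ^ n * u ∈ O j) :
    ∀ i ∈ T, ∃ f : K, f ∈ K₀ ∧ f ≠ 0 ∧ (∀ j ∈ T, f ^ n * u ∈ O j) ∧ (f ^ n * u)⁻¹ ∈ O i := by
  classical
  have key : ∀ g ∈ K₀, g ≠ 0 → (∀ j ∈ T, j ∉ Vt → g ^ n * u ∈ O j) →
      ∃ f ∈ K₀, f ≠ 0 ∧ (∀ j ∈ T, f ^ n * u ∈ O j) ∧ (∀ i ∈ Vt, (f ^ n * u)⁻¹ ∈ O i) ∧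
        ∀ j ∈ T, j ∉ Vt → (g ^ n * u)⁻¹ ∈ O j → (f ^ n * u)⁻¹ ∈ O j := by
    intro g hg₀ hg0 hg
    obtain ⟨w, hw₀, hw0, hw1, hwV⟩ :=
      S36LW_vert O K₀ T u n Vt hVt t ht₀ ht0 ht1 htgen hun g hg₀ hg0
    have e : (g * w) ^ n * u = w ^ n * (g ^ n * u) := by ring
    refine ⟨g * w, K₀.mul_mem hg₀ hw₀, mul_ne_zero hg0 hw0, fun j hj => ?_,
      fun i hi => (hwV i hi).2, fun j hj hjV hgj => ?_⟩
    · by_cases hjV : j ∈ Vt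
      · exact (hwV j hjV).1
      · rw [e]
        exact (O j).mul_mem _ _ ((O j).pow_mem (hw1 j hj hjV).1 n) (hg j hj hjV)
    · rw [e, mul_inv, ← inv_pow]
      exact (O j).mul_mem _ _ ((O j).pow_mem (hw1 j hj hjV).2 n) hgj
  intro i hi
  by_cases hiV : i ∈ Vt
  · obtain ⟨g, hg₀, hg0, hg⟩ := hgen0
    obtain ⟨f, hf₀, hf0, hfle, hfV, -⟩ := key g hg₀ hg0 hg
    exact ⟨f, hf₀, hf0, hfle, hfV i hiV⟩
  · obtain ⟨g, hg₀, hg0, hgi, hg⟩ := hgen i hi hiV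
    obtain ⟨f, hf₀, hf0, hfle, -, hfg⟩ := key g hg₀ hg0 hg
    exact ⟨f, hf₀, hf0, hfle, hfg i hi hiV hgi⟩

/-- **LI, value form (R15), assembled**, valuation-subring form: CART (R14) at `y` with Cartier
generator `s = t i₀`, vertical generators `t i` (`i ∈ Vt`), `u` normalised vertically, FIN, and
horizontal separation (SEP-H) give `f ∈ M^u` with `y (fⁿ u) ≠ 0`. -/
theorem S36LW_li {κ : Type*} [Field κ] (O : ι → ValuationSubring K) (K₀ : Subfield K)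
    (Λ : Subring K) (hΛ : ∀ x : K, x ∈ Λ ↔ x ∈ K₀ ∧ ∀ i, x ∈ O i)
    (hfin : ∀ x : K, x ∈ K₀ → x ≠ 0 → {i | x ∉ O i}.Finite)
    (harch : ∀ (i : ι) (x : K), x ≠ 0 → x ∈ O i → x⁻¹ ∉ O i → ∀ z : K, ∃ n : ℕ, z * x ^ n ∈ O i)
    (hfrac : ∀ x : K, x ∈ K₀ → ∃ b : Λ, (b : K) ≠ 0 ∧ (b : K) * x ∈ Λ)
    (y : Λ →+* k) (ρ : Λ →+* κ) (s : Λ) (Oy : ValuationSubring κ)
    (H : S36CA_Branch Λ y ρ s Oy)
    (i₀ : ι) (hker : ∀ f : Λ, (f : K)⁻¹ ∉ O i₀ → ρ f = 0) (hsi₀ : (s : K)⁻¹ ∉ O i₀)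
    (u : K) (hu₀ : u ∈ K₀) (hu : u ≠ 0) (n : ℕ) (hn : n ≠ 0)
    (MU : Submodule Λ K) (hMU : ∀ f : K, f ∈ MU ↔ f ∈ K₀ ∧ ∀ i, f ^ n * u ∈ O i)
    (hfg : MU.FG)
    (Vt : Finset ι) (hVt : ∀ i ∈ Vt, i ∈ S36IT_thruVS O Λ y) (hi₀ : i₀ ∈ Vt)
    (t : ι → K) (hst : (s : K) = t i₀) (ht₀ : ∀ i ∈ Vt, t i ∈ K₀) (ht0 : ∀ i ∈ Vt, t i ≠ 0)
    (ht1 : ∀ i ∈ Vt, ∀ j ∈ S36IT_thruVS O Λ y, j ≠ i → S36LW_IsU (O j) (t i))
    (htgen : ∀ i ∈ Vt, ∀ x ∈ K₀, x ≠ 0 → ∃ a : ℤ, S36LW_IsU (O i) (x * t i ^ a))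
    (hun : ∀ i ∈ Vt, ∃ c : ℤ, S36LW_IsU (O i) (u * (t i ^ c) ^ n))
    (hgen : ∀ i ∈ S36IT_thruVS O Λ y, i ∉ Vt → ∃ g ∈ K₀, g ≠ 0 ∧ (g ^ n * u)⁻¹ ∈ O i ∧
      ∀ j ∈ S36IT_thruVS O Λ y, j ∉ Vt → g ^ n * u ∈ O j)
    (hgen0 : ∃ g ∈ K₀, g ≠ 0 ∧ ∀ j ∈ S36IT_thruVS O Λ y, j ∉ Vt → g ^ n * u ∈ O j) :
    ∃ f ∈ MU, ∃ hf : f ^ n * u ∈ Λ, y ⟨f ^ n * u, hf⟩ ≠ 0 :=
  S36LW_main' O K₀ Λ hΛ hfin harch hfrac y ρ s Oy H (by rw [hst]; exact ht0 i₀ hi₀) i₀ hker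
    hsi₀ (fun i hi hne => by rw [hst]; exact (ht1 i₀ hi₀ i hi hne).2)
    u hu₀ hu n hn MU hMU hfg
    (S36LW_exact O K₀ (S36IT_thruVS O Λ y) u n Vt hVt t ht₀ ht0 ht1 htgen hun hgen hgen0)

end LiValVS

end Fermat.Agent.S36
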