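import Fermat.Agent.S36.Lat3
import Fermat.Agent.S36.LiValVS

/-!
# TRACK 10 (S36), C2.8 LI-INST (helper19): from (LI) in value form to the fields `li`, `h₁`, `h₂`,
`h₃` of `S36TL_Chart` on a LAT3 chart.  Prefix `S36LJ_`.

Setting of `S36/Lat3.lean`: `S₁ S₂ S₃ : S18_Val L F k Fk_j` (the components `FF`, `FV`, `VV`),
a chart `C : S36L3_Chart` (`C.B` = functions regular on the chart, `C.Rb_j` coordinate rings),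
and a family `OH : J → ValuationSubring F` of horizontal valuation rings with `C.B = ⋂ OH j`.

* `S36LJ_Idx J`, `S36LJ_O` : the family `O : S36LJ_Idx J → ValuationSubring F` of all valuation
  rings (three vertical ones, then the horizontal ones) — the `O` of `S36LW_li`;
* `S36LJ_Lam` : `Λ = O₃ ∩ B`, `S36LJ_mem_Lam` (= `hΛ` of `S36LW_li`, with `K₀ = ⊤`);
* `S36LJ_red₁, ₂, ₃ : Λ →+* C.Rb_j` : the reductions of the lattice (given `hred_j`, FIN-INST);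
* `S36LJ_val` : the translation: `fⁿ u ∈ Λ` ⇒ `red f ∈ W^u`, and
  `(red_j f)ⁿ = red_j (fⁿ u)`;
* `S36LJ_h₁, ₂, ₃`, `S36LJ_li` : the fields of `S36TL_Chart`.
-/

set_option autoImplicit false
set_option linter.unusedSectionVars false

namespace Fermat.Agent.S36

open Fermat.Agent.S18 Fermat.Agent.S34

/-- index of the valuation rings: three vertical ones and the horizontal ones. -/
inductive S36LJ_Idx (J : Type*) where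
  | ff : S36LJ_Idx J
  | fv : S36LJ_Idx J
  | vv : S36LJ_Idx J
  | hor (j : J) : S36LJ_Idx J

variable {L F k Fk₁ Fk₂ Fk₃ : Type*} [Field L] [Field F] [Algebra L F] [Field k]
  [Field Fk₁] [Field Fk₂] [Field Fk₃] [Algebra k Fk₁] [Algebra k Fk₂] [Algebra k Fk₃]

section single

variable {Fk : Type*} [Field Fk] [Algebra k Fk] (S : S18_Val L F k Fk)

/-- a valuation ring is root closed. -/
theorem S36LJ_mem_of_pow_mem (O : ValuationSubring F) {n : ℕ} (hn : n ≠ 0) {f : F}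
    (h : f ^ n ∈ O) : f ∈ O := by
  rw [← ValuationSubring.valuation_le_one_iff] at h ⊢
  rw [map_pow] at h
  exact (pow_le_one_iff_of_nonneg zero_le hn).1 h

/-- `fⁿ u ∈ O`, `u` a normalised unit ⇒ `f ∈ O`. -/
theorem S36LJ_mem_of_pow {n : ℕ} (hn : n ≠ 0) {f u : F} (hu : u ∈ S.O)
    (hu1 : S.red ⟨u, hu⟩ = 1) (h : f ^ n * u ∈ S.O) : f ∈ S.O := by
  have hunit : IsUnit (⟨u, hu⟩ : S.O) := (S.red_ne_zero_iff _).1 (by rw [hu1]; exact one_ne_zero)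
  obtain ⟨w, hw⟩ := hunit
  have hu0 : u ≠ 0 := by
    rintro rfl
    have : (⟨0, hu⟩ : S.O) = 0 := rfl
    rw [this, map_zero] at hu1
    exact zero_ne_one hu1
  have hinv : u⁻¹ ∈ S.O := by
    have h1 : ((w : S.O) : F) * (((w⁻¹ : S.Oˣ) : S.O) : F) = 1 := by
      exact_mod_cast congrArg (fun z : S.O => (z : F)) w.mul_inv
    have h2 : ((w : S.O) : F) = u := congrArg Subtype.val hw
    rw [h2] at h1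
    have h3 : (((w⁻¹ : S.Oˣ) : S.O) : F) = u⁻¹ := (eq_inv_of_mul_eq_one_right h1)
    rw [← h3]
    exact ((w⁻¹ : S.Oˣ) : S.O).2
  apply S36LJ_mem_of_pow_mem S.O hn
  have e : f ^ n = f ^ n * u * u⁻¹ := by
    rw [mul_assoc, mul_inv_cancel₀ hu0, mul_one]
  rw [e]
  exact S.O.mul_mem _ _ h hinv

/-- `red (fⁿ u) = (red f)ⁿ` for a normalised unit `u`. -/
theorem S36LJ_red_pow {n : ℕ} {f u : F} (hu : u ∈ S.O)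
    (hu1 : S.red ⟨u, hu⟩ = 1) (hf : f ∈ S.O) (h : f ^ n * u ∈ S.O) :
    S.red ⟨f ^ n * u, h⟩ = S.red ⟨f, hf⟩ ^ n := by
  have e : (⟨f ^ n * u, h⟩ : S.O) = ⟨f, hf⟩ ^ n * ⟨u, hu⟩ := rfl
  rw [e, map_mul, map_pow, hu1, mul_one]

end single

section fin

variable {K : Type*} [Field K] {ι : Type*}

/-- **FIN for `M^u`**, valuation-subring form: over a Noetherian lattice `Λ` the module
`M^u = {f ∈ K₀ | ∀ i, fⁿ u ∈ O i}` is finitely generated. -/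
theorem S36LJ_MU_fg (O : ι → ValuationSubring K) (K₀ : Subfield K) (Λ : Subring K)
    (hΛ : ∀ x : K, x ∈ Λ ↔ x ∈ K₀ ∧ ∀ i, x ∈ O i) [IsNoetherianRing Λ]
    (hfrac : ∀ x : K, x ∈ K₀ → ∃ b : Λ, (b : K) ≠ 0 ∧ (b : K) * x ∈ Λ)
    (u : K) (hu₀ : u ∈ K₀) (hu : u ≠ 0) (n : ℕ) (hn : n ≠ 0)
    (MU : Submodule Λ K) (hMU : ∀ f : K, f ∈ MU ↔ f ∈ K₀ ∧ ∀ i, f ^ n * u ∈ O i) :
    MU.FG := by
  obtain ⟨b, hb0, hb⟩ := hfrac u⁻¹ (K₀.inv_mem hu₀)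
  have hbΛ := (hΛ _).1 b.2
  have hbu := (hΛ _).1 hb
  have hmem : ∀ f : K, f ∈ MU → (b : K) * f ∈ Λ := by
    intro f hf
    obtain ⟨hf0, hfO⟩ := (hMU f).1 hf
    rw [hΛ]
    refine ⟨K₀.mul_mem hbΛ.1 hf0, fun i => ?_⟩
    apply S36LJ_mem_of_pow_mem (O i) hn
    obtain ⟨m, rfl⟩ := Nat.exists_eq_succ_of_ne_zero hn
    have e : ((b : K) * f) ^ (m + 1) = (b : K) ^ m * ((b : K) * u⁻¹) * (f ^ (m + 1) * u) := by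
      field_simp
      ring
    rw [e]
    exact (O i).mul_mem _ _ ((O i).mul_mem _ _ ((O i).pow_mem (hbΛ.2 i) m) (hbu.2 i)) (hfO i)
  let φ : MU →ₗ[Λ] Λ :=
    { toFun := fun f => ⟨(b : K) * (f : K), hmem f f.2⟩
      map_add' := fun f g => Subtype.ext (mul_add _ _ _)
      map_smul' := fun c f => Subtype.ext (by
        show (b : K) * ((c : K) * (f : K)) = (c : K) * ((b : K) * (f : K))
        ring) }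
  have hinj : Function.Injective φ := by
    intro f g hfg
    have h1 : (b : K) * (f : K) = (b : K) * (g : K) := congrArg Subtype.val hfg
    exact Subtype.ext (mul_left_cancel₀ hb0 h1)
  have hfin : Module.Finite Λ MU := Module.Finite.of_injective φ hinj
  exact Module.Finite.iff_fg.1 hfin

end fin

section family

variable (S₁ : S18_Val L F k Fk₁) (S₂ : S18_Val L F k Fk₂) (S₃ : S18_Val L F k Fk₃)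
  {J : Type*} (OH : J → ValuationSubring F)

/-- the family of all valuation rings: `FF`, `FV`, `VV`, then the horizontal ones. -/
def S36LJ_O : S36LJ_Idx J → ValuationSubring F
  | .ff => S₁.O
  | .fv => S₂.O
  | .vv => S₃.O
  | .hor j => OH j

@[simp] theorem S36LJ_O_ff : S36LJ_O S₁ S₂ S₃ OH .ff = S₁.O := rfl
@[simp] theorem S36LJ_O_fv : S36LJ_O S₁ S₂ S₃ OH .fv = S₂.O := rfl
@[simp] theorem S36LJ_O_vv : S36LJ_O S₁ S₂ S₃ OH .vv = S₃.O := rfl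
@[simp] theorem S36LJ_O_hor (j : J) : S36LJ_O S₁ S₂ S₃ OH (.hor j) = OH j := rfl

/-- the lattice `Λ = O₃ ∩ B`. -/
def S36LJ_Lam (B : Subring F) : Subring F := S36L3_O3 S₁ S₂ S₃ ⊓ B

theorem S36LJ_mem_Lam' {B : Subring F} {x : F} :
    x ∈ S36LJ_Lam S₁ S₂ S₃ B ↔ (x ∈ S₁.O ∧ x ∈ S₂.O ∧ x ∈ S₃.O) ∧ x ∈ B := Iff.rfl

/-- `hΛ` of `S36LW_li` (with `K₀ = ⊤`). -/
theorem S36LJ_mem_Lam (B : Subring F) (hB : ∀ f : F, f ∈ B ↔ ∀ j, f ∈ OH j) (x : F) :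
    x ∈ S36LJ_Lam S₁ S₂ S₃ B ↔
      x ∈ (⊤ : Subfield F) ∧ ∀ i, x ∈ S36LJ_O S₁ S₂ S₃ OH i := by
  rw [S36LJ_mem_Lam', hB]
  constructor
  · rintro ⟨⟨h1, h2, h3⟩, h4⟩
    refine ⟨Subfield.mem_top x, fun i => ?_⟩
    cases i with
    | ff => exact h1
    | fv => exact h2
    | vv => exact h3
    | hor j => exact h4 j
  · rintro ⟨-, h⟩
    exact ⟨⟨h .ff, h .fv, h .vv⟩, fun j => h (.hor j)⟩

theorem S36LJ_Lam_le_O3 (B : Subring F) : S36LJ_Lam S₁ S₂ S₃ B ≤ S36L3_O3 S₁ S₂ S₃ :=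
  inf_le_left

/-- `fⁿ u ∈ Λ ↔ f ∈ M^u` (the global module of `S36LW_li`). -/
theorem S36LJ_pow_mem_Lam (B : Subring F) (hB : ∀ f : F, f ∈ B ↔ ∀ j, f ∈ OH j) (n : ℕ)
    (u f : F) :
    f ^ n * u ∈ S36LJ_Lam S₁ S₂ S₃ B ↔
      f ∈ (⊤ : Subfield F) ∧ ∀ i, f ^ n * u ∈ S36LJ_O S₁ S₂ S₃ OH i := by
  rw [S36LJ_mem_Lam S₁ S₂ S₃ OH B hB]
  exact ⟨fun h => ⟨Subfield.mem_top f, h.2⟩, fun h => ⟨Subfield.mem_top _, h.2⟩⟩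

end family

section bridge

variable {S₁ : S18_Val L F k Fk₁} {S₂ : S18_Val L F k Fk₂} {S₃ : S18_Val L F k Fk₃}
  (hS : S36L3_Same S₁ S₂ S₃) {n : ℕ} (C : S36L3_Chart L F k Fk₁ Fk₂ Fk₃ n)

/-- the lattice of the chart. -/
abbrev S36LJ_LamC : Subring F := S36LJ_Lam S₁ S₂ S₃ C.B.toSubring

/-- the hypothesis "the reductions of `Λ` are regular on the chart" (FIN-INST). -/
structure S36LJ_Red : Prop where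
  red₁ : ∀ f : F, ∀ hf : f ∈ S36LJ_Lam S₁ S₂ S₃ C.B.toSubring, S₁.red ⟨f, hf.1.1⟩ ∈ C.Rb₁
  red₂ : ∀ f : F, ∀ hf : f ∈ S36LJ_Lam S₁ S₂ S₃ C.B.toSubring, S₂.red ⟨f, hf.1.2.1⟩ ∈ C.Rb₂
  red₃ : ∀ f : F, ∀ hf : f ∈ S36LJ_Lam S₁ S₂ S₃ C.B.toSubring, S₃.red ⟨f, hf.1.2.2⟩ ∈ C.Rb₃
  /-- the coordinate rings are root closed (integrally closed) -/
  root₁ : ∀ x : Fk₁, x ^ n ∈ C.Rb₁ → x ∈ C.Rb₁
  root₂ : ∀ x : Fk₂, x ^ n ∈ C.Rb₂ → x ∈ C.Rb₂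
  root₃ : ∀ x : Fk₃, x ^ n ∈ C.Rb₃ → x ∈ C.Rb₃

variable {C}

/-- the reduction `Λ → Rb₁`. -/
def S36LJ_red₁ (R : S36LJ_Red (S₁ := S₁) (S₂ := S₂) (S₃ := S₃) C) :
    S36LJ_Lam S₁ S₂ S₃ C.B.toSubring →+* C.Rb₁ where
  toFun f := ⟨S₁.red ⟨f, f.2.1.1⟩, R.red₁ f f.2⟩
  map_one' := Subtype.ext (map_one S₁.red)
  map_mul' a b := Subtype.ext (map_mul S₁.red ⟨a, a.2.1.1⟩ ⟨b, b.2.1.1⟩)
  map_zero' := Subtype.ext (map_zero S₁.red)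
  map_add' a b := Subtype.ext (map_add S₁.red ⟨a, a.2.1.1⟩ ⟨b, b.2.1.1⟩)

/-- the reduction `Λ → Rb₂`. -/
def S36LJ_red₂ (R : S36LJ_Red (S₁ := S₁) (S₂ := S₂) (S₃ := S₃) C) :
    S36LJ_Lam S₁ S₂ S₃ C.B.toSubring →+* C.Rb₂ where
  toFun f := ⟨S₂.red ⟨f, f.2.1.2.1⟩, R.red₂ f f.2⟩
  map_one' := Subtype.ext (map_one S₂.red)
  map_mul' a b := Subtype.ext (map_mul S₂.red ⟨a, a.2.1.2.1⟩ ⟨b, b.2.1.2.1⟩)
  map_zero' := Subtype.ext (map_zero S₂.red)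
  map_add' a b := Subtype.ext (map_add S₂.red ⟨a, a.2.1.2.1⟩ ⟨b, b.2.1.2.1⟩)

/-- the reduction `Λ → Rb₃`. -/
def S36LJ_red₃ (R : S36LJ_Red (S₁ := S₁) (S₂ := S₂) (S₃ := S₃) C) :
    S36LJ_Lam S₁ S₂ S₃ C.B.toSubring →+* C.Rb₃ where
  toFun f := ⟨S₃.red ⟨f, f.2.1.2.2⟩, R.red₃ f f.2⟩
  map_one' := Subtype.ext (map_one S₃.red)
  map_mul' a b := Subtype.ext (map_mul S₃.red ⟨a, a.2.1.2.2⟩ ⟨b, b.2.1.2.2⟩)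
  map_zero' := Subtype.ext (map_zero S₃.red)
  map_add' a b := Subtype.ext (map_add S₃.red ⟨a, a.2.1.2.2⟩ ⟨b, b.2.1.2.2⟩)

/-- **the translation**: a section `f` of `M^u` (`fⁿ u ∈ Λ`), `u` normalised, gives an element
`m = red f` of `W^u` with `m_jⁿ = red_j (fⁿ u)`. -/
theorem S36LJ_val (R : S36LJ_Red (S₁ := S₁) (S₂ := S₂) (S₃ := S₃) C) {u : F}
    (hu : u ∈ S36L3_Norm S₁ S₂ S₃) (f : F)
    (hf : f ^ n * u ∈ S36LJ_Lam S₁ S₂ S₃ C.B.toSubring) :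
    ∃ m ∈ S36L3_W hS C u, m.1 ^ n = S36LJ_red₁ R ⟨f ^ n * u, hf⟩ ∧
      m.2.1 ^ n = S36LJ_red₂ R ⟨f ^ n * u, hf⟩ ∧ m.2.2 ^ n = S36LJ_red₃ R ⟨f ^ n * u, hf⟩ := by
  obtain ⟨hu3, hured⟩ := hu
  have hn : n ≠ 0 := C.hn.ne'
  have hu1 : S₁.red ⟨u, hu3.1⟩ = 1 := congrArg Prod.fst hured
  have hu2 : S₂.red ⟨u, hu3.2.1⟩ = 1 := congrArg (fun z => z.2.1) hured
  have hu3' : S₃.red ⟨u, hu3.2.2⟩ = 1 := congrArg (fun z => z.2.2) hured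
  have hf1 : f ∈ S₁.O := S36LJ_mem_of_pow S₁ hn hu3.1 hu1 hf.1.1
  have hf2 : f ∈ S₂.O := S36LJ_mem_of_pow S₂ hn hu3.2.1 hu2 hf.1.2.1
  have hf3 : f ∈ S₃.O := S36LJ_mem_of_pow S₃ hn hu3.2.2 hu3' hf.1.2.2
  have e1 := S36LJ_red_pow S₁ hu3.1 hu1 hf1 hf.1.1
  have e2 := S36LJ_red_pow S₂ hu3.2.1 hu2 hf2 hf.1.2.1
  have e3 := S36LJ_red_pow S₃ hu3.2.2 hu3' hf3 hf.1.2.2
  have m1 : S₁.red ⟨f, hf1⟩ ∈ C.Rb₁ := R.root₁ _ (by rw [← e1]; exact R.red₁ _ hf)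
  have m2 : S₂.red ⟨f, hf2⟩ ∈ C.Rb₂ := R.root₂ _ (by rw [← e2]; exact R.red₂ _ hf)
  have m3 : S₃.red ⟨f, hf3⟩ ∈ C.Rb₃ := R.root₃ _ (by rw [← e3]; exact R.red₃ _ hf)
  refine ⟨(⟨_, m1⟩, ⟨_, m2⟩, ⟨_, m3⟩), ?_, ?_, ?_, ?_⟩
  · rw [S36L3_mem_W]
    exact ⟨⟨f, hf1, hf2, hf3⟩, hf.2, rfl⟩
  · exact Subtype.ext e1.symm
  · exact Subtype.ext e2.symm
  · exact Subtype.ext e3.symm

/-- the reductions of an element of `Λ` form an element of `W^1`. -/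
theorem S36LJ_red_mem_W_one (R : S36LJ_Red (S₁ := S₁) (S₂ := S₂) (S₃ := S₃) C)
    (g : S36LJ_Lam S₁ S₂ S₃ C.B.toSubring) :
    (S36LJ_red₁ R g, S36LJ_red₂ R g, S36LJ_red₃ R g) ∈ S36L3_W hS C 1 := by
  rw [S36L3_mem_W]
  refine ⟨⟨g, g.2.1⟩, ?_, rfl⟩
  rw [mul_one]
  exact C.B.pow_mem g.2.2 n

/-- **field `h₁` of `S36TL_Chart`** from (LI) in value form at the closed points of the first
component. -/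
theorem S36LJ_h₁ (R : S36LJ_Red (S₁ := S₁) (S₂ := S₂) (S₃ := S₃) C) {u : F}
    (hu : u ∈ S36L3_Norm S₁ S₂ S₃)
    (hLI : ∀ 𝔫 : Ideal C.Rb₁, 𝔫.IsMaximal → ∃ f : F,
      ∃ hf : f ^ n * u ∈ S36LJ_Lam S₁ S₂ S₃ C.B.toSubring,
        (Ideal.Quotient.mk 𝔫) (S36LJ_red₁ R ⟨f ^ n * u, hf⟩) ≠ 0) :
    ∀ 𝔫 : Ideal C.Rb₁, 𝔫.IsMaximal → ∃ m ∈ S36L3_W hS C u, m.1 ∉ 𝔫 := by
  intro 𝔫 h𝔫
  obtain ⟨f, hf, hne⟩ := hLI 𝔫 h𝔫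
  obtain ⟨m, hm, h1, -, -⟩ := S36LJ_val hS R hu f hf
  refine ⟨m, hm, fun hmem => hne ?_⟩
  rw [← h1, Ideal.Quotient.eq_zero_iff_mem]
  exact 𝔫.pow_mem_of_mem hmem n C.hn

/-- **field `h₂` of `S36TL_Chart`**. -/
theorem S36LJ_h₂ (R : S36LJ_Red (S₁ := S₁) (S₂ := S₂) (S₃ := S₃) C) {u : F}
    (hu : u ∈ S36L3_Norm S₁ S₂ S₃)
    (hLI : ∀ 𝔫 : Ideal C.Rb₂, 𝔫.IsMaximal → ∃ f : F,
      ∃ hf : f ^ n * u ∈ S36LJ_Lam S₁ S₂ S₃ C.B.toSubring,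
        (Ideal.Quotient.mk 𝔫) (S36LJ_red₂ R ⟨f ^ n * u, hf⟩) ≠ 0) :
    ∀ 𝔫 : Ideal C.Rb₂, 𝔫.IsMaximal → ∃ m ∈ S36L3_W hS C u, m.2.1 ∉ 𝔫 := by
  intro 𝔫 h𝔫
  obtain ⟨f, hf, hne⟩ := hLI 𝔫 h𝔫
  obtain ⟨m, hm, -, h2, -⟩ := S36LJ_val hS R hu f hf
  refine ⟨m, hm, fun hmem => hne ?_⟩
  rw [← h2, Ideal.Quotient.eq_zero_iff_mem]
  exact 𝔫.pow_mem_of_mem hmem n C.hn

/-- **field `h₃` of `S36TL_Chart`**. -/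
theorem S36LJ_h₃ (R : S36LJ_Red (S₁ := S₁) (S₂ := S₂) (S₃ := S₃) C) {u : F}
    (hu : u ∈ S36L3_Norm S₁ S₂ S₃)
    (hLI : ∀ 𝔫 : Ideal C.Rb₃, 𝔫.IsMaximal → ∃ f : F,
      ∃ hf : f ^ n * u ∈ S36LJ_Lam S₁ S₂ S₃ C.B.toSubring,
        (Ideal.Quotient.mk 𝔫) (S36LJ_red₃ R ⟨f ^ n * u, hf⟩) ≠ 0) :
    ∀ 𝔫 : Ideal C.Rb₃, 𝔫.IsMaximal → ∃ m ∈ S36L3_W hS C u, m.2.2 ∉ 𝔫 := by
  intro 𝔫 h𝔫
  obtain ⟨f, hf, hne⟩ := hLI 𝔫 h𝔫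
  obtain ⟨m, hm, -, -, h3⟩ := S36LJ_val hS R hu f hf
  refine ⟨m, hm, fun hmem => hne ?_⟩
  rw [← h3, Ideal.Quotient.eq_zero_iff_mem]
  exact 𝔫.pow_mem_of_mem hmem n C.hn

/-- **field `li` of `S36TL_Chart`** (the witness at the triple points) from (LI) in value form
at the triple points and `hW1`. -/
theorem S36LJ_li (R : S36LJ_Red (S₁ := S₁) (S₂ := S₂) (S₃ := S₃) C) {ι : Type*}
    (e₁ : ι → ↥C.Rb₁ →ₐ[k] k) (e₂ : ι → ↥C.Rb₂ →ₐ[k] k) (e₃ : ι → ↥C.Rb₃ →ₐ[k] k)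
    (hW1 : ∀ m ∈ S36L3_W hS C 1, ∀ y, e₁ y m.1 = e₂ y m.2.1 ∧ e₁ y m.1 = e₃ y m.2.2)
    {u : F} (hu : u ∈ S36L3_Norm S₁ S₂ S₃)
    (hLI : ∀ y : ι, ∃ f : F, ∃ hf : f ^ n * u ∈ S36LJ_Lam S₁ S₂ S₃ C.B.toSubring,
      e₁ y (S36LJ_red₁ R ⟨f ^ n * u, hf⟩) ≠ 0) :
    ∀ y : ι, ∃ m ∈ S36L3_W hS C u, e₁ y m.1 ≠ 0 ∧ e₂ y m.2.1 ≠ 0 ∧ e₃ y m.2.2 ≠ 0 := by
  intro y
  obtain ⟨f, hf, hne⟩ := hLI y
  obtain ⟨m, hm, h1, h2, h3⟩ := S36LJ_val hS R hu f hf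
  have hW := hW1 _ (S36LJ_red_mem_W_one hS R ⟨f ^ n * u, hf⟩) y
  refine ⟨m, hm, fun h0 => hne ?_, fun h0 => hne ?_, fun h0 => hne ?_⟩
  · rw [← h1, map_pow, h0, zero_pow C.hn.ne']
  · rw [hW.1, ← h2, map_pow, h0, zero_pow C.hn.ne']
  · rw [hW.2, ← h3, map_pow, h0, zero_pow C.hn.ne']

/-- **(LI) in value form on a LAT3 chart** (`S36LW_li` for the family `S36LJ_O`, with FIN
discharged by noetherianity of `Λ` and `hun` by the normalisation of `u`): at a closed point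
`y : Λ →+* k'` with a Cartier branch, there is a section `f` of `M^u` with `y (fⁿ u) ≠ 0`. -/
theorem S36LJ_exists_section {J : Type*} (OH : J → ValuationSubring F)
    (hB : ∀ f : F, f ∈ C.B.toSubring ↔ ∀ j, f ∈ OH j)
    [IsNoetherianRing (S36LJ_Lam S₁ S₂ S₃ C.B.toSubring)]
    (hfin : ∀ x : F, x ≠ 0 → {i | x ∉ S36LJ_O S₁ S₂ S₃ OH i}.Finite)
    (harch : ∀ (i : S36LJ_Idx J) (x : F), x ≠ 0 → x ∈ S36LJ_O S₁ S₂ S₃ OH i →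
      x⁻¹ ∉ S36LJ_O S₁ S₂ S₃ OH i → ∀ z : F, ∃ m : ℕ, z * x ^ m ∈ S36LJ_O S₁ S₂ S₃ OH i)
    (hfrac : ∀ x : F, ∃ b : S36LJ_Lam S₁ S₂ S₃ C.B.toSubring,
      (b : F) ≠ 0 ∧ (b : F) * x ∈ S36LJ_Lam S₁ S₂ S₃ C.B.toSubring)
    {k' : Type*} [Field k'] (y : S36LJ_Lam S₁ S₂ S₃ C.B.toSubring →+* k')
    {κ : Type*} [Field κ] (ρ : S36LJ_Lam S₁ S₂ S₃ C.B.toSubring →+* κ)
    (s : S36LJ_Lam S₁ S₂ S₃ C.B.toSubring) (Oy : ValuationSubring κ)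
    (H : S36CA_Branch (S36LJ_Lam S₁ S₂ S₃ C.B.toSubring) y ρ s Oy)
    (i₀ : S36LJ_Idx J)
    (hker : ∀ f : S36LJ_Lam S₁ S₂ S₃ C.B.toSubring,
      (f : F)⁻¹ ∉ S36LJ_O S₁ S₂ S₃ OH i₀ → ρ f = 0)
    (hsi₀ : (s : F)⁻¹ ∉ S36LJ_O S₁ S₂ S₃ OH i₀)
    {u : F} (hu : u ∈ S36L3_Norm S₁ S₂ S₃)
    (Vt : Finset (S36LJ_Idx J))
    (hVt : ∀ i ∈ Vt, i ∈ S36IT_thruVS (S36LJ_O S₁ S₂ S₃ OH) (S36LJ_Lam S₁ S₂ S₃ C.B.toSubring) y)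
    (hVtv : ∀ i ∈ Vt, ∀ j : J, i ≠ .hor j) (hi₀ : i₀ ∈ Vt)
    (t : S36LJ_Idx J → F) (hst : (s : F) = t i₀) (ht0 : ∀ i ∈ Vt, t i ≠ 0)
    (ht1 : ∀ i ∈ Vt, ∀ j ∈ S36IT_thruVS (S36LJ_O S₁ S₂ S₃ OH)
      (S36LJ_Lam S₁ S₂ S₃ C.B.toSubring) y, j ≠ i → S36LW_IsU (S36LJ_O S₁ S₂ S₃ OH j) (t i))
    (htgen : ∀ i ∈ Vt, ∀ x : F, x ≠ 0 →
      ∃ a : ℤ, S36LW_IsU (S36LJ_O S₁ S₂ S₃ OH i) (x * t i ^ a))
    (hgen : ∀ i ∈ S36IT_thruVS (S36LJ_O S₁ S₂ S₃ OH) (S36LJ_Lam S₁ S₂ S₃ C.B.toSubring) y,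
      i ∉ Vt → ∃ g : F, g ≠ 0 ∧ (g ^ n * u)⁻¹ ∈ S36LJ_O S₁ S₂ S₃ OH i ∧
        ∀ j ∈ S36IT_thruVS (S36LJ_O S₁ S₂ S₃ OH) (S36LJ_Lam S₁ S₂ S₃ C.B.toSubring) y,
          j ∉ Vt → g ^ n * u ∈ S36LJ_O S₁ S₂ S₃ OH j)
    (hgen0 : ∃ g : F, g ≠ 0 ∧
      ∀ j ∈ S36IT_thruVS (S36LJ_O S₁ S₂ S₃ OH) (S36LJ_Lam S₁ S₂ S₃ C.B.toSubring) y,
        j ∉ Vt → g ^ n * u ∈ S36LJ_O S₁ S₂ S₃ OH j) :
    ∃ f : F, ∃ hf : f ^ n * u ∈ S36LJ_Lam S₁ S₂ S₃ C.B.toSubring, y ⟨f ^ n * u, hf⟩ ≠ 0 := by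
  have hn : n ≠ 0 := C.hn.ne'
  have hu0 : u ≠ 0 := S36L3_ne_zero_of_Norm hu
  have hΛ := S36LJ_mem_Lam S₁ S₂ S₃ OH C.B.toSubring hB
  have hRle : ∀ x : F, x ∈ S36LJ_Lam S₁ S₂ S₃ C.B.toSubring →
      x ∈ (⊤ : Subfield F) := fun x _ => Subfield.mem_top x
  have hRO : ∀ x : F, x ∈ S36LJ_Lam S₁ S₂ S₃ C.B.toSubring →
      ∀ i ∈ (Set.univ : Set (S36LJ_Idx J)), x ∈ S36LJ_O S₁ S₂ S₃ OH i :=
    fun x hx i _ => ((hΛ x).1 hx).2 i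
  set MU : Submodule (S36LJ_Lam S₁ S₂ S₃ C.B.toSubring) F :=
    S36LW_mod (S36LJ_O S₁ S₂ S₃ OH) ⊤ (S36LJ_Lam S₁ S₂ S₃ C.B.toSubring) Set.univ hRle hRO
      u n hn with hMUdef
  have hMU : ∀ f : F, f ∈ MU ↔ f ∈ (⊤ : Subfield F) ∧
      ∀ i, f ^ n * u ∈ S36LJ_O S₁ S₂ S₃ OH i := by
    intro f
    rw [hMUdef, S36LW_mem_mod]
    exact ⟨fun h => ⟨h.1, fun i => h.2 i (Set.mem_univ i)⟩, fun h => ⟨h.1, fun i _ => h.2 i⟩⟩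
  have hfrac' : ∀ x : F, x ∈ (⊤ : Subfield F) → ∃ b : S36LJ_Lam S₁ S₂ S₃ C.B.toSubring,
      (b : F) ≠ 0 ∧ (b : F) * x ∈ S36LJ_Lam S₁ S₂ S₃ C.B.toSubring := fun x _ => hfrac x
  have hfg : MU.FG := S36LJ_MU_fg (S36LJ_O S₁ S₂ S₃ OH) ⊤ _ hΛ hfrac' u (Subfield.mem_top u)
    hu0 n hn MU hMU
  have huinv := S36L3_inv_mem_Norm hu
  obtain ⟨hu3, -⟩ := hu
  obtain ⟨hui3, -⟩ := huinv
  have hun : ∀ i ∈ Vt, ∃ c : ℤ, S36LW_IsU (S36LJ_O S₁ S₂ S₃ OH i) (u * (t i ^ c) ^ n) := by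
    intro i hi
    refine ⟨0, ?_⟩
    rw [zpow_zero, one_pow, mul_one]
    cases i with
    | ff => exact ⟨hu3.1, hui3.1⟩
    | fv => exact ⟨hu3.2.1, hui3.2.1⟩
    | vv => exact ⟨hu3.2.2, hui3.2.2⟩
    | hor j => exact absurd rfl (hVtv _ hi j)
  obtain ⟨f, -, hf, hne⟩ := S36LW_li (S36LJ_O S₁ S₂ S₃ OH) ⊤ _ hΛ
    (fun x _ hx => hfin x hx) harch hfrac' y ρ s Oy H i₀ hker hsi₀ u (Subfield.mem_top u) hu0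
    n hn MU hMU hfg Vt hVt hi₀ t hst (fun i _ => Subfield.mem_top _) ht0 ht1
    (fun i hi x _ hx => htgen i hi x hx) hun
    (fun i hi hiV => by
      obtain ⟨g, hg0, h1, h2⟩ := hgen i hi hiV
      exact ⟨g, Subfield.mem_top g, hg0, h1, h2⟩)
    (by
      obtain ⟨g, hg0, h2⟩ := hgen0
      exact ⟨g, Subfield.mem_top g, hg0, h2⟩)
  exact ⟨f, hf, hne⟩

end bridge

end Fermat.Agent.S36
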