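import Fermat.Agent.S36.Fin3Cart
import Fermat.Agent.S36.LiInst
import Fermat.Agent.S36.Charts

/-!
# TRACK 10 (S36), package F1 = FIN-INST (helper7), part 6: the reductions of the lattice are
regular on the chart — `S36LJ_Red C`

`S₁ S₂ S₃ : S18_Val L F k Fk_j` (`FF`, `FV`, `VV`), `C` a chart, `Λ = O₃ ∩ C.B`.

* `S36F3R_red_isIntegral` : `g ∈ O₃` integral over `A[j]` ⇒ `red_i g` integral over `k[red_i j]`;
* `S36F3R_red` : `S36LJ_Red C` from `hint` (FIN: the elements of `Λ` are integral over `A[j]`),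
  `hRb_i` (elements of `Fk_i` integral over `k[red_i j]` lie in `C.Rb_i`) and root closedness;
* `S36F3R_red_U` : `S36LJ_Red (S36CU_U S k j x₁ x₂ x₃ n hn)` from `hint` (chart `U = {j ≠ ∞}`).
-/

set_option autoImplicit false
set_option linter.unusedSectionVars false

open AlgebraicCurve IntermediateField

namespace Fermat.Agent.S36

open Fermat.Agent.Lib Fermat.Agent.S18 Fermat.Agent.S24 Fermat.Agent.S34

section abs

variable {L F k Fk₁ Fk₂ Fk₃ : Type*} [Field L] [Field F] [Algebra L F] [Field k]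
  [Field Fk₁] [Field Fk₂] [Field Fk₃] [Algebra k Fk₁] [Algebra k Fk₂] [Algebra k Fk₃]

/-- reduction along one valuation datum preserves integrality over `R[j]` for any subring `R` of
constants of `A`. -/
theorem S36F3R_red_isIntegral {Fk : Type*} [Field Fk] [Algebra k Fk] (S : S18_Val L F k Fk)
    (A₀ : ValuationSubring L) (hA₀ : ∀ a : L, a ∈ A₀ → a ∈ S.A)
    (j g : F) (hj : j ∈ S.O) (hg : g ∈ S.O)
    (hint : IsIntegral (Algebra.adjoin A₀ {j}) g) :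
    IsIntegral (Algebra.adjoin k {S.red ⟨j, hj⟩}) (S.red ⟨g, hg⟩) := by
  have hR : ∀ r : A₀, algebraMap A₀ F r ∈ S.O.toSubring := fun r =>
    (S.algebraMap_mem_iff (r : L)).2 (hA₀ _ r.2)
  exact S36FC_red_isIntegral (R := A₀) (k := k) S.O.toSubring hR ⟨j, hj⟩ S.red
    (fun r => ⟨S.res ⟨(r : L), hA₀ _ r.2⟩, S.red_algebraMap (r : L) (hA₀ _ r.2) _⟩)
    ⟨g, hg⟩ hint

variable {S₁ : S18_Val L F k Fk₁} {S₂ : S18_Val L F k Fk₂} {S₃ : S18_Val L F k Fk₃} {n : ℕ}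

/-- **`S36LJ_Red C` from FIN.** -/
theorem S36F3R_red (hS : S36L3_Same S₁ S₂ S₃) (C : S36L3_Chart L F k Fk₁ Fk₂ Fk₃ n) (j : F)
    (hj : j ∈ S36L3_O3 S₁ S₂ S₃)
    (hint : ∀ g : F, g ∈ S36L3_O3 S₁ S₂ S₃ → g ∈ C.B → IsIntegral (Algebra.adjoin S₁.A {j}) g)
    (hRb₁ : ∀ y : Fk₁, IsIntegral (Algebra.adjoin k {S₁.red ⟨j, hj.1⟩}) y → y ∈ C.Rb₁)
    (hRb₂ : ∀ y : Fk₂, IsIntegral (Algebra.adjoin k {S₂.red ⟨j, hj.2.1⟩}) y → y ∈ C.Rb₂)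
    (hRb₃ : ∀ y : Fk₃, IsIntegral (Algebra.adjoin k {S₃.red ⟨j, hj.2.2⟩}) y → y ∈ C.Rb₃)
    (hroot₁ : ∀ x : Fk₁, x ^ n ∈ C.Rb₁ → x ∈ C.Rb₁)
    (hroot₂ : ∀ x : Fk₂, x ^ n ∈ C.Rb₂ → x ∈ C.Rb₂)
    (hroot₃ : ∀ x : Fk₃, x ^ n ∈ C.Rb₃ → x ∈ C.Rb₃) :
    S36LJ_Red (S₁ := S₁) (S₂ := S₂) (S₃ := S₃) C where
  red₁ f hf := hRb₁ _ (S36F3R_red_isIntegral S₁ S₁.A (fun _ h => h) j f hj.1 hf.1.1
    (hint f hf.1 hf.2))
  red₂ f hf := hRb₂ _ (S36F3R_red_isIntegral S₂ S₁.A (fun _ h => hS.same₂.A_eq ▸ h) j f hj.2.1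
    hf.1.2.1 (hint f hf.1 hf.2))
  red₃ f hf := hRb₃ _ (S36F3R_red_isIntegral S₃ S₁.A (fun _ h => hS.same₃.A_eq ▸ h) j f hj.2.2
    hf.1.2.2 (hint f hf.1 hf.2))
  root₁ := hroot₁
  root₂ := hroot₂
  root₃ := hroot₃

end abs

section chartU

variable {K F H : Type*} [Field K] [Field F] [Algebra K F] (S : S36FL_Act K F H)
  {k Fk₁ Fk₂ Fk₃ : Type*} [Field k]
  [Field Fk₁] [Field Fk₂] [Field Fk₃] [Algebra k Fk₁] [Algebra k Fk₂] [Algebra k Fk₃]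
  {S₁ : S18_Val S.fixK S.fixF k Fk₁} {S₂ : S18_Val S.fixK S.fixF k Fk₂}
  {S₃ : S18_Val S.fixK S.fixF k Fk₃}

/-- **`S36LJ_Red` on the chart `U = {j ≠ ∞}`**: the reductions of `Λ_U` are regular off the
poles of the reductions of `j`. -/
theorem S36F3R_red_U (hS : S36L3_Same S₁ S₂ S₃) (j : S.fixF) (hj : j ∈ S36L3_O3 S₁ S₂ S₃)
    (n : ℕ) (hn : 0 < n)
    (hint : ∀ g : S.fixF, g ∈ S36L3_O3 S₁ S₂ S₃ →
      g ∈ S36I3_reg S (S34IX_TU (K := K) (j : F)) → IsIntegral (Algebra.adjoin S₁.A {j}) g) :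
    S36LJ_Red (S₁ := S₁) (S₂ := S₂) (S₃ := S₃)
      (S36CU_U S k j (S₁.red ⟨j, hj.1⟩) (S₂.red ⟨j, hj.2.1⟩) (S₃.red ⟨j, hj.2.2⟩) n hn) :=
  S36F3R_red hS _ j hj hint (fun _ h => S36CU_integral_le_reg _ h)
    (fun _ h => S36CU_integral_le_reg _ h) (fun _ h => S36CU_integral_le_reg _ h)
    (fun x hx => S34SB_reg_root _ hn x hx) (fun x hx => S34SB_reg_root _ hn x hx)
    (fun x hx => S34SB_reg_root _ hn x hx)

end chartU

end Fermat.Agent.S36
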