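import Fermat.Agent.S36.Fin3Fix
import Fermat.Agent.S34.PoleInt

/-!
# TRACK 10 (S36), package F1 = FIN-INST (helper7), part 7: FIN on the chart `U' = {B ≠ c}`

Chart coordinate `x' = 1/(B − c)`, `B = β j = j(q z)`, `c ∈ A` (ruling D9).

* `S36FZ_isCart_sub`, `S36FZ_isCart_inv_sub` : (abstract, `S34L_Lat`) a cartesian chart `x` gives
  the cartesian charts `x − c` and `1/(x − c)`, `c ∈ A`;
* `S36FZ_adjoin_eq`, `S36FZ_transc`, `S36FZ_fd` : `E(1/(j − c)) = E(j)`;
* `S36FZ_hA_gen`, `S36FZ_hA`, `S36FZ_hA_reg` : the trace input `hA` of `S36FB_htr` for `x'`;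
* `S36FZ_main` : FIN over the inertia field for `x'` (the analogue of `S36FK_main`).
-/

set_option autoImplicit false
set_option synthInstance.maxHeartbeats 400000
set_option maxHeartbeats 1000000
set_option linter.style.haveILetI false
set_option linter.unusedSectionVars false

open Polynomial IntermediateField AlgebraicCurve ModularCurve

noncomputable section

namespace Fermat.Agent.S36

open Fermat.Agent.S18 Fermat.Agent.S24 Fermat.Agent.S34 Fermat.Agent.S35 Fermat.Agent.S37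
  Fermat.Agent.GalRep Fermat.Agent.Lib

section cart

variable {L F k R : Type*} [Field L] [Field F] [Algebra L F] [Field k] [CommRing R]
  [Algebra k R] (S : S34L_Lat L F k R)

theorem S36FZ_comp_ne_zero {K : Type*} [Field K] (a : K) {p : K[X]} (hp : p ≠ 0) :
    p.comp (X - C a) ≠ 0 := by
  intro h
  rcases (Polynomial.comp_eq_zero_iff).1 h with h1 | ⟨_, h2⟩
  · exact hp h1
  · have := congrArg Polynomial.natDegree h2
    rw [natDegree_X_sub_C, natDegree_C] at this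
    exact one_ne_zero this

theorem S36FZ_comp_ne_zero' {K : Type*} [Field K] (a : K) {p : K[X]} (hp : p ≠ 0) :
    p.comp (X + C a) ≠ 0 := by
  have := S36FZ_comp_ne_zero (-a) hp
  rwa [map_neg, sub_neg_eq_add] at this

/-- **cartesian chart for `x − c`**, `c ∈ A`. -/
theorem S36FZ_isCart_sub {x : S.O} {n : ℕ} {y : Fin n → S.O} (hC : S.IsCart x y) (c : S.A) :
    S.IsCart (x - S.const c) y := by
  have hred : S.red (x - S.const c) = S.red x - algebraMap k R (S.res c) := by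
    rw [map_sub, S.red_const]
  have key : ∀ p : k[X], aeval (S.red (x - S.const c)) p =
      aeval (S.red x) (p.comp (X - C (S.res c))) := by
    intro p
    rw [Polynomial.aeval_comp, hred]
    congr 2
    rw [map_sub, aeval_X, aeval_C]
  refine ⟨?_, ?_, ?_⟩
  · intro p hp
    rw [key]
    exact hC.unit _ (S36FZ_comp_ne_zero _ hp)
  · intro f
    obtain ⟨d, p, hd0, hdp⟩ := hC.span f
    have keyF : ∀ r : L[X], aeval (((x - S.const c : S.O)) : F) (r.comp (X + C (c : L))) =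
        aeval (x : F) r := by
      intro r
      rw [Polynomial.aeval_comp, map_add, aeval_X, aeval_C]
      congr 1
      simp
    refine ⟨d.comp (X + C (c : L)), fun i => (p i).comp (X + C (c : L)),
      S36FZ_comp_ne_zero' _ hd0, ?_⟩
    rw [keyF, hdp]
    refine Finset.sum_congr rfl fun i _ => ?_
    rw [keyF]
  · intro p hp
    have h2 := hC.indep (fun i => (p i).comp (X - C (S.res c))) (by
      rw [← hp]
      refine Finset.sum_congr rfl fun i _ => ?_
      rw [key])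
    intro i
    by_contra hne
    exact S36FZ_comp_ne_zero _ hne (h2 i)

/-- **cartesian chart for `1/(x − c)`**, `c ∈ A`. -/
theorem S36FZ_isCart_inv_sub {x : S.O} {n : ℕ} {y : Fin n → S.O} (hC : S.IsCart x y) (c : S.A) :
    ∃ x' : S.O, (x' : F) = ((x : F) - algebraMap L F (c : L))⁻¹ ∧ S.IsCart x' y := by
  have hC' := S36FZ_isCart_sub S hC c
  have hu : IsUnit (x - S.const c) := by
    apply S.isUnit_of_red
    have := hC'.unit X X_ne_zero
    rwa [aeval_X] at this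
  obtain ⟨u, hu⟩ := hu
  have h1 : ((↑(u⁻¹) : S.O)) * (x - S.const c) = 1 := by
    rw [← hu]; exact u.inv_mul
  refine ⟨↑(u⁻¹), ?_, S34P_isCart_inv hC' _ h1⟩
  have h2 : (((↑(u⁻¹) : S.O)) : F) * ((x : F) - algebraMap L F (c : L)) = 1 := by
    have := congrArg (fun z : S.O => (z : F)) h1
    simpa using this
  exact eq_inv_of_mul_eq_one_left h2

end cart

section fld

variable {E F : Type*} [Field E] [Field F] [Algebra E F]

theorem S36FZ_adjoin_sub (j : F) (c : E) : E⟮j - algebraMap E F c⟯ = E⟮j⟯ := by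
  apply le_antisymm
  · rw [IntermediateField.adjoin_simple_le_iff]
    exact sub_mem (IntermediateField.mem_adjoin_simple_self E j) (IntermediateField.algebraMap_mem _ c)
  · rw [IntermediateField.adjoin_simple_le_iff]
    have := add_mem (IntermediateField.mem_adjoin_simple_self E (j - algebraMap E F c))
      (IntermediateField.algebraMap_mem E⟮j - algebraMap E F c⟯ c)
    rwa [sub_add_cancel] at this

theorem S36FZ_adjoin_eq (j : F) (c : E) : E⟮(j - algebraMap E F c)⁻¹⟯ = E⟮j⟯ :=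
  (BG_adjoin_inv _).trans (S36FZ_adjoin_sub j c)

theorem S36FZ_transc_sub {j : F} (hj : Transcendental E j) (c : E) :
    Transcendental E (j - algebraMap E F c) := by
  intro h
  apply hj
  have := h.add (isAlgebraic_algebraMap (R := E) (A := F) c)
  rwa [sub_add_cancel] at this

theorem S36FZ_transc {j : F} (hj : Transcendental E j) (c : E) :
    Transcendental E (j - algebraMap E F c)⁻¹ :=
  BG_transcendental_inv (S36FZ_transc_sub hj c)

theorem S36FZ_fd_sub (j : F) (c : E) [FiniteDimensional E⟮j⟯ F] :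
    FiniteDimensional E⟮j - algebraMap E F c⟯ F :=
  (S36FZ_adjoin_sub j c).symm ▸ (inferInstance : FiniteDimensional E⟮j⟯ F)

theorem S36FZ_fd (j : F) (c : E) [FiniteDimensional E⟮j⟯ F] :
    FiniteDimensional E⟮(j - algebraMap E F c)⁻¹⟯ F :=
  (S36FZ_adjoin_eq j c).symm ▸ (inferInstance : FiniteDimensional E⟮j⟯ F)

end fld

local notation "ℚbar" => AlgebraicClosure ℚ

variable (M q : ℕ) [NeZero M] [NeZero q] (hq : q.Prime) (hqM : ¬ q ∣ M)
  (A : ValuationSubring ℚbar) (hA : A.LiesOverPrime q)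

include hA in
/-- **`htr` over `ℚ̄`, general cartesian chart coordinate `x₁` of level `M q`.** -/
theorem S36FZ_trace_mem {x₁ : (S34DF_lat M q hq hqM A).O} {n : ℕ}
    {y : Fin n → (S34DF_lat M q hq hqM A).O} (hC : (S34DF_lat M q hq hqM A).IsCart x₁ y)
    [FiniteDimensional ℚbar⟮(x₁ : ↥(modularFunctionFieldBar (M * q)))⟯
      ↥(modularFunctionFieldBar (M * q))]
    {m : ↥(modularFunctionFieldBar (M * q * q))}
    (h0 : m ∈ S36V_G A (S36V_emFF M q))
    (hζ : ∀ ζ : S36NR_Z q, m ∈ S36V_G A (S36V_emFV M q hq hqM ζ.1 ζ.2.1 ζ.2.2))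
    (h2 : m ∈ S36V_G A (S36V_emVV M q hq hqM))
    (hint : IsIntegral (Algebra.adjoin ℚbar {(x₁ : ↥(modularFunctionFieldBar (M * q)))})
      (S36NR_TB M q m)) :
    letI : Algebra ↥(modularFunctionFieldBar (M * q)) ↥(modularFunctionFieldBar (M * q * q)) :=
      (heckeBetaBar ℚbar (M * q) q).toRingHom.toAlgebra
    Algebra.trace ℚbar⟮(x₁ : ↥(modularFunctionFieldBar (M * q)))⟯
        ↥(modularFunctionFieldBar (M * q * q)) m ∈
      S36FN_S₀ A ℚbar (x₁ : ↥(modularFunctionFieldBar (M * q))) := by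
  letI : Algebra ↥(modularFunctionFieldBar (M * q)) ↥(modularFunctionFieldBar (M * q * q)) :=
    (heckeBetaBar ℚbar (M * q) q).toRingHom.toAlgebra
  haveI : FiniteDimensional ↥(modularFunctionFieldBar (M * q))
      ↥(modularFunctionFieldBar (M * q * q)) := GRHK_finiteDimensional hq
  exact S36FC_trace_mem (S34DF_lat M q hq hqM A) hC m
    (S36NR_TB_mem_lat M q hq hqM A hA h0 hζ h2) hint

include hA in
/-- **`hA` of `S36FB_htr`, general cartesian chart coordinate `x₁`** (chart `β x₁`). -/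
theorem S36FZ_hA_gen {x₁ : (S34DF_lat M q hq hqM A).O} {n : ℕ}
    {y : Fin n → (S34DF_lat M q hq hqM A).O} (hC : (S34DF_lat M q hq hqM A).IsCart x₁ y)
    [FiniteDimensional ℚbar⟮(x₁ : ↥(modularFunctionFieldBar (M * q)))⟯
      ↥(modularFunctionFieldBar (M * q))]
    {m : ↥(modularFunctionFieldBar (M * q * q))}
    (h0 : m ∈ S36V_G A (S36V_emFF M q))
    (hζ : ∀ ζ : S36NR_Z q, m ∈ S36V_G A (S36V_emFV M q hq hqM ζ.1 ζ.2.1 ζ.2.2))
    (h2 : m ∈ S36V_G A (S36V_emVV M q hq hqM))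
    (hint : IsIntegral (Algebra.adjoin ℚbar
      {heckeBetaBar ℚbar (M * q) q (x₁ : ↥(modularFunctionFieldBar (M * q)))}) m) :
    ((Algebra.trace ℚbar⟮heckeBetaBar ℚbar (M * q) q (x₁ : ↥(modularFunctionFieldBar (M * q)))⟯
        ↥(modularFunctionFieldBar (M * q * q)) m :
          ℚbar⟮heckeBetaBar ℚbar (M * q) q (x₁ : ↥(modularFunctionFieldBar (M * q)))⟯) :
        ↥(modularFunctionFieldBar (M * q * q))) ∈
      Algebra.adjoin A {heckeBetaBar ℚbar (M * q) q (x₁ : ↥(modularFunctionFieldBar (M * q)))} := by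
  have h1 := S36FT_isIntegral_trace_hom (heckeBetaBar ℚbar (M * q) q)
    (GRHK_finiteDimensional hq) (x₁ : ↥(modularFunctionFieldBar (M * q))) hint
  have h3 := S36FZ_trace_mem M q hq hqM A hA hC h0 hζ h2 h1
  rw [S36FJ_trace_transfer (heckeBetaBar ℚbar (M * q) q)
    (x₁ : ↥(modularFunctionFieldBar (M * q))) m]
  exact S36FJ_map_adjoin (heckeBetaBar ℚbar (M * q) q)
    (x₁ : ↥(modularFunctionFieldBar (M * q))) h3

include hA in
/-- **`hA` of `S36FB_htr` on the chart `U' = {B ≠ c}`**, `x' = 1/(B − c)`, `c ∈ A`: for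
`m ∈ G(FF) ∩ ⋂_ζ G(FV_ζ) ∩ G(VV)` integral over `ℚ̄[x']`:  `Tr_{F_{N₂}/ℚ̄(x')} m ∈ A[x']`. -/
theorem S36FZ_hA (c : A) {m : ↥(modularFunctionFieldBar (M * q * q))}
    (h0 : m ∈ S36V_G A (S36V_emFF M q))
    (hζ : ∀ ζ : S36NR_Z q, m ∈ S36V_G A (S36V_emFV M q hq hqM ζ.1 ζ.2.1 ζ.2.2))
    (h2 : m ∈ S36V_G A (S36V_emVV M q hq hqM))
    (x' : ↥(modularFunctionFieldBar (M * q * q)))
    (hx' : x' = (heckeBetaBar ℚbar (M * q) q (jB (M * q)) -
      algebraMap ℚbar ↥(modularFunctionFieldBar (M * q * q)) (c : ℚbar))⁻¹)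
    (hint : IsIntegral (Algebra.adjoin ℚbar {x'}) m) :
    ((Algebra.trace ℚbar⟮x'⟯ ↥(modularFunctionFieldBar (M * q * q)) m : ℚbar⟮x'⟯) :
        ↥(modularFunctionFieldBar (M * q * q))) ∈ Algebra.adjoin A {x'} := by
  obtain ⟨y, hy⟩ := S34CB_isCart_X0 M q hq hqM A hA (S34VH_hgen M q hq hqM A hA)
  obtain ⟨x₁, hx₁, hC⟩ := S36FZ_isCart_inv_sub (S34DF_lat M q hq hqM A) hy c
  have e : x' = heckeBetaBar ℚbar (M * q) q (x₁ : ↥(modularFunctionFieldBar (M * q))) := by
    rw [hx', hx₁, map_inv₀, map_sub]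
    congr 2
    exact ((heckeBetaBar ℚbar (M * q) q).commutes _).symm
  subst e
  haveI := finiteDimensional_jB (M * q)
  haveI : FiniteDimensional ℚbar⟮(x₁ : ↥(modularFunctionFieldBar (M * q)))⟯
      ↥(modularFunctionFieldBar (M * q)) := by
    rw [hx₁]
    exact S36FZ_fd (jB (M * q) : ↥(modularFunctionFieldBar (M * q))) (c : ℚbar)
  exact S36FZ_hA_gen M q hq hqM A hA hC h0 hζ h2 hint

include hq in
/-- regular on `U' = {P | ord_P (B − c) ≤ 0}` ⇒ integral over `ℚ̄[1/(B − c)]`. -/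
theorem S36FZ_isIntegral_of_reg (c : ℚbar) (m : ↥(modularFunctionFieldBar (M * q * q)))
    (hreg : ∀ P : Place ℚbar ↥(modularFunctionFieldBar (M * q * q)),
      P.ord (heckeBetaBar ℚbar (M * q) q (jB (M * q)) -
        algebraMap ℚbar ↥(modularFunctionFieldBar (M * q * q)) c) ≤ 0 → 0 ≤ P.ord m) :
    IsIntegral (Algebra.adjoin ℚbar {(heckeBetaBar ℚbar (M * q) q (jB (M * q)) -
      algebraMap ℚbar ↥(modularFunctionFieldBar (M * q * q)) c)⁻¹}) m := by
  haveI := S36FD_fd_B M q hq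
  haveI := S36FZ_fd_sub (heckeBetaBar ℚbar (M * q) q (jB (M * q))) c
  exact S18_semi_isIntegral_of_regular_inv (S36FZ_transc_sub (S36FD_transc_B M q) c) m hreg

include hA in
/-- **`hA` from regularity on the chart `U'`.** -/
theorem S36FZ_hA_reg (c : A) {m : ↥(modularFunctionFieldBar (M * q * q))}
    (h0 : m ∈ S36V_G A (S36V_emFF M q))
    (hζ : ∀ ζ : S36NR_Z q, m ∈ S36V_G A (S36V_emFV M q hq hqM ζ.1 ζ.2.1 ζ.2.2))
    (h2 : m ∈ S36V_G A (S36V_emVV M q hq hqM))
    (x' : ↥(modularFunctionFieldBar (M * q * q)))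
    (hx' : x' = (heckeBetaBar ℚbar (M * q) q (jB (M * q)) -
      algebraMap ℚbar ↥(modularFunctionFieldBar (M * q * q)) (c : ℚbar))⁻¹)
    (hreg : ∀ P : Place ℚbar ↥(modularFunctionFieldBar (M * q * q)),
      P.ord (heckeBetaBar ℚbar (M * q) q (jB (M * q)) -
        algebraMap ℚbar ↥(modularFunctionFieldBar (M * q * q)) (c : ℚbar)) ≤ 0 → 0 ≤ P.ord m) :
    ((Algebra.trace ℚbar⟮x'⟯ ↥(modularFunctionFieldBar (M * q * q)) m : ℚbar⟮x'⟯) :
        ↥(modularFunctionFieldBar (M * q * q))) ∈ Algebra.adjoin A {x'} :=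
  S36FZ_hA M q hq hqM A hA c h0 hζ h2 x' hx'
    (hx' ▸ S36FZ_isIntegral_of_reg M q hq (c : ℚbar) m hreg)

variable (ζ₀ : ℚbarˣ) (hζ₀ : ζ₀ ^ q = 1) (hζ₀1 : ζ₀ ≠ 1)

include hA in
/-- **FIN-INST on the chart `U' = {B ≠ c}`** (`x = 1/(B − c)`, `c ∈ A`): every subring
`Λ ⊂ F_{2,L}` of functions which are integral for `FF`, `FV ζ₀`, `VV` and regular off the zeros
of `B − c`, containing `R` (`= O_L`), `x` and an `L(x)`-basis, is integral over `R[x]` and
Noetherian. -/
theorem S36FZ_main {R : Type*} [CommRing R] [IsNoetherianRing R]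
    [Algebra R (S36FI_act (M * q * q) (A.inertiaSubgroupIn ℚ)).fixK]
    [Algebra R (S36FI_act (M * q * q) (A.inertiaSubgroupIn ℚ)).fixF]
    [IsScalarTower R (S36FI_act (M * q * q) (A.inertiaSubgroupIn ℚ)).fixK
      (S36FI_act (M * q * q) (A.inertiaSubgroupIn ℚ)).fixF]
    (hR : ∀ a : A, algebraMap A ℚbar a ∈ (S36FI_act (M * q * q) (A.inertiaSubgroupIn ℚ)).fixK →
      ∃ r : R, ((algebraMap R (S36FI_act (M * q * q) (A.inertiaSubgroupIn ℚ)).fixK r :
        (S36FI_act (M * q * q) (A.inertiaSubgroupIn ℚ)).fixK) : ℚbar) = algebraMap A ℚbar a)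
    (c : A)
    (x : (S36FI_act (M * q * q) (A.inertiaSubgroupIn ℚ)).fixF)
    (hx : (x : ↥(modularFunctionFieldBar (M * q * q))) =
      (heckeBetaBar ℚbar (M * q) q (jB (M * q)) -
        algebraMap ℚbar ↥(modularFunctionFieldBar (M * q * q)) (c : ℚbar))⁻¹)
    (hgen : ∀ f : ↥(modularFunctionFieldBar (M * q * q)),
      f ∈ Submodule.span ℚbar⟮(x : ↥(modularFunctionFieldBar (M * q * q)))⟯
        ((S36FI_act (M * q * q) (A.inertiaSubgroupIn ℚ)).fixF :
          Set ↥(modularFunctionFieldBar (M * q * q))))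
    (Λ : Subring (S36FI_act (M * q * q) (A.inertiaSubgroupIn ℚ)).fixF)
    (hRΛ : ∀ r : R, algebraMap R (S36FI_act (M * q * q) (A.inertiaSubgroupIn ℚ)).fixF r ∈ Λ)
    (hxΛ : x ∈ Λ)
    (hbas : ∃ (n : ℕ) (b : Module.Basis (Fin n)
      ((S36FI_act (M * q * q) (A.inertiaSubgroupIn ℚ)).fixK)⟮x⟯
      (S36FI_act (M * q * q) (A.inertiaSubgroupIn ℚ)).fixF), ∀ i, b i ∈ Λ)
    (hFF : ∀ g ∈ Λ, (g : ↥(modularFunctionFieldBar (M * q * q))) ∈ S36V_G A (S36V_emFF M q))
    (hFV : ∀ g ∈ Λ, (g : ↥(modularFunctionFieldBar (M * q * q))) ∈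
      S36V_G A (S36V_emFV M q hq hqM ζ₀ hζ₀ hζ₀1))
    (hVV : ∀ g ∈ Λ, (g : ↥(modularFunctionFieldBar (M * q * q))) ∈
      S36V_G A (S36V_emVV M q hq hqM))
    (hreg : ∀ g ∈ Λ, ∀ P : Place ℚbar ↥(modularFunctionFieldBar (M * q * q)),
      P.ord (heckeBetaBar ℚbar (M * q) q (jB (M * q)) -
        algebraMap ℚbar ↥(modularFunctionFieldBar (M * q * q)) (c : ℚbar)) ≤ 0 →
      0 ≤ P.ord (g : ↥(modularFunctionFieldBar (M * q * q)))) :
    (∀ g ∈ Λ, IsIntegral (Algebra.adjoin R {x}) g) ∧ IsNoetherianRing Λ := by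
  have hxt : Transcendental ℚbar (x : ↥(modularFunctionFieldBar (M * q * q))) := by
    rw [hx]; exact S36FZ_transc (S36FD_transc_B M q) _
  haveI : FiniteDimensional ℚbar⟮(x : ↥(modularFunctionFieldBar (M * q * q)))⟯
      ↥(modularFunctionFieldBar (M * q * q)) := by
    rw [hx]
    haveI := S36FD_fd_B M q hq
    exact S36FZ_fd _ _
  refine S36FK_abs (S36FI_act (M * q * q) (A.inertiaSubgroupIn ℚ)) (R' := A) hR x hxt hgen Λ
    hRΛ hxΛ hbas fun g hg => ?_
  have hfix : ∀ τ ∈ A.inertiaSubgroupIn ℚ,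
      GR_gal (M * q * q) τ (g : ↥(modularFunctionFieldBar (M * q * q))) =
        (g : ↥(modularFunctionFieldBar (M * q * q))) :=
    (S36FI_mem_fixF (M * q * q) (A.inertiaSubgroupIn ℚ)).1 g.2
  exact S36FZ_hA_reg M q hq hqM A hA c (hFF g hg)
    (fun ζ => S36NR_fix_mem_all M q hq hqM A hA ζ₀ hζ₀ hζ₀1 hfix (hFV g hg) ζ) (hVV g hg)
    (x : ↥(modularFunctionFieldBar (M * q * q))) hx (hreg g hg)

end Fermat.Agent.S36
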