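import Fermat.Agent.S36.Fin3Chart
import Fermat.Agent.S36.Fin3Z
import Fermat.Agent.S36.Fin3Red

/-!
# TRACK 10 (S36), package F1 = FIN (R9) on the chart `U' = {B ≠ c}`, CLOSED, and the consumer
forms on the concrete charts `C = S36CZ_C`, `C' = S36CZ_C' c` (helper17).  Prefix `S36FG_`.

`S₁ = S36FI_SFF`, `S₂ = S36FI_SFV ζ`, `S₃ = S36FI_SVV` (helper1), `B = S36CO_BL M q I`,
`c ∈ S₁.A = O_L`, `x' = (B − c)⁻¹` (`S36FG_xZ`), `U' = S34IX_TU' B c`,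
`Λ' = (S36IT_fam3 … dvr U').Λ` (`S36FG_ΛZ`).

* `S36FG_xZ_coe`, `S36FG_xZ_eq_tL`, `S36FG_xZ_mem_Λ` : the coordinate `x'`;
* `S36FG_hfracZ` : `hfrac` on `U'` (from helper8's `S36FQ_hfrac_U'`), both shapes;
* **`S36FG_mainZ`** : `Λ'` is integral over `O_L[x']` and NOETHERIAN — no hypothesis left
  (`S36FZ_main`, helper7); `S36FG_hintZ`, `S36FG_noethZ` (= the instance `[IsNoetherianRing D.Λ]`
  of `S36CL_hcusp₁/₃` for `D = S36IT_fam3 … dvr U'`), `S36FG_noeth_latZ` (for `S36IT_lat`);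
* `S36FG_hleZ`, `S36FG_hgeZ` : `hle`, `hge` of `S36CL_hcusp₁/₃` on `C'`; `S36FG_hge` on `C`;
* `S36FG_hint_CZ`, `S36FG_noeth_CZ` : `hint`, Noetherian on the chart `C'`;
* **`S36FG_red_C`, `S36FG_red_CZ`** : `S36LJ_Red` on the concrete charts `C` and `C'`.
-/

set_option autoImplicit false
set_option linter.style.haveILetI false
set_option linter.unusedSectionVars false
set_option linter.unusedVariables false
set_option synthInstance.maxHeartbeats 400000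
set_option maxHeartbeats 1000000

open AlgebraicCurve ModularCurve IntermediateField Module

noncomputable section

namespace Fermat.Agent.S36

open Fermat.Agent.S18 Fermat.Agent.S24 Fermat.Agent.S34 Fermat.Agent.GalRep

local notation "Ω" => AlgebraicClosure ℚ

variable (M q : ℕ) [NeZero M] [NeZero q] (hq : q.Prime) (hqM : ¬ q ∣ M)
  (A : ValuationSubring Ω) (hA : A.LiesOverPrime q)
  (ζ : Ωˣ) (hζ : ζ ^ q = 1) (hζ1 : ζ ≠ 1)
  (c : (S36FI_SFF M q hq hqM A hA).A)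

/-- the coordinate `x' = (B − c)⁻¹` of the chart `U'`. -/
def S36FG_xZ : ↥(S36FI_act (M * q * q) (A.inertiaSubgroupIn ℚ)).fixF :=
  (S36CO_BL M q (A.inertiaSubgroupIn ℚ) -
    algebraMap (S36FI_SFF M q hq hqM A hA).A
      ↥(S36FI_act (M * q * q) (A.inertiaSubgroupIn ℚ)).fixF c)⁻¹

/-- `c ∈ A`. -/
theorem S36FG_c_mem : (((c : ↥(S36FI_act (M * q * q) (A.inertiaSubgroupIn ℚ)).fixK)) : Ω) ∈ A :=
  c.2

theorem S36FG_xZ_coe :
    ((S36FG_xZ M q hq hqM A hA c : ↥(S36FI_act (M * q * q) (A.inertiaSubgroupIn ℚ)).fixF) :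
        ↥(modularFunctionFieldBar (M * q * q))) =
      (heckeBetaBar Ω (M * q) q (jB (M * q)) -
        algebraMap Ω ↥(modularFunctionFieldBar (M * q * q))
          (((c : ↥(S36FI_act (M * q * q) (A.inertiaSubgroupIn ℚ)).fixK)) : Ω))⁻¹ := by
  rw [← S36FG_BL_coe_beta M q (A.inertiaSubgroupIn ℚ)]
  rfl

theorem S36FG_xZ_eq_tL :
    S36FG_xZ M q hq hqM A hA c =
      S36FQ_tL M q (A.inertiaSubgroupIn ℚ)
        (c : ↥(S36FI_act (M * q * q) (A.inertiaSubgroupIn ℚ)).fixK) :=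
  Subtype.ext (S36FG_xZ_coe M q hq hqM A hA c)

/-- the chart `U' = {B ≠ c}` for the two names of `B`. -/
theorem S36FG_TUZ_eq (H : Subgroup (Ω ≃ₐ[ℚ] Ω)) (c : Ω) :
    S34IX_TU' ((S36CO_BL M q H : (S36FI_act (M * q * q) H).fixF) :
      ↥(modularFunctionFieldBar (M * q * q))) c =
      S34IX_TU' (heckeBetaBar Ω (M * q) q (jB (M * q))) c := by
  rw [S36FG_BL_coe_beta]

section fam

variable
    (dvr : ∀ i, IsDiscreteValuationRing
      (S36FL_OL (S36FI_act (M * q * q) (A.inertiaSubgroupIn ℚ))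
        (S36IT_Ov3 M q hq hqM A hA ζ hζ hζ1 i)))

/-- the lattice `Λ'` of the chart `U' = {B ≠ c}`. -/
abbrev S36FG_ΛZ : Subring ↥(S36FI_act (M * q * q) (A.inertiaSubgroupIn ℚ)).fixF :=
  (S36IT_fam3 M q hq hqM A hA ζ hζ hζ1 dvr
    (S34IX_TU' ((S36CO_BL M q (A.inertiaSubgroupIn ℚ) :
      (S36FI_act (M * q * q) (A.inertiaSubgroupIn ℚ)).fixF) :
        ↥(modularFunctionFieldBar (M * q * q)))
      (((c : ↥(S36FI_act (M * q * q) (A.inertiaSubgroupIn ℚ)).fixK)) : Ω))).Λ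

/-- `x' ∈ Λ'`. -/
theorem S36FG_xZ_mem_Λ :
    S36FG_xZ M q hq hqM A hA c ∈ S36FG_ΛZ M q hq hqM A hA ζ hζ hζ1 c dvr := by
  rw [S36FG_xZ_eq_tL]
  exact S36FQ_Bc_inv_mem_Λ M q hq hqM A hA ζ hζ hζ1 dvr _ _ (S36FG_c_mem M q hq hqM A hA c)
    (fun Q hQ => (S36FG_TUZ_eq M q (A.inertiaSubgroupIn ℚ) _).le hQ)

include hq in
/-- `hfrac` on the chart `U'` (the shape of `S36CL_hcusp₁/₃`, `S36LK_*`). -/
theorem S36FG_hfracZ' (f : ↥(S36FI_act (M * q * q) (A.inertiaSubgroupIn ℚ)).fixF) :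
    ∃ b : S36FG_ΛZ M q hq hqM A hA ζ hζ hζ1 c dvr,
      (b : ↥(S36FI_act (M * q * q) (A.inertiaSubgroupIn ℚ)).fixF) ≠ 0 ∧
        (b : ↥(S36FI_act (M * q * q) (A.inertiaSubgroupIn ℚ)).fixF) * f ∈
          S36FG_ΛZ M q hq hqM A hA ζ hζ hζ1 c dvr :=
  S36FQ_hfrac_U' M q hq hqM A hA ζ hζ hζ1 dvr _ _ (S36FG_c_mem M q hq hqM A hA c)
    (S36FG_TUZ_eq M q (A.inertiaSubgroupIn ℚ) _).le f

include hq in
/-- `hfrac` on the chart `U'` (the shape of FIN). -/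
theorem S36FG_hfracZ (f : ↥(S36FI_act (M * q * q) (A.inertiaSubgroupIn ℚ)).fixF) :
    ∃ b ∈ S36FG_ΛZ M q hq hqM A hA ζ hζ hζ1 c dvr, b ≠ 0 ∧
      b * f ∈ S36FG_ΛZ M q hq hqM A hA ζ hζ hζ1 c dvr := by
  obtain ⟨b, hb0, hb⟩ := S36FG_hfracZ' M q hq hqM A hA ζ hζ hζ1 c dvr f
  exact ⟨b, b.2, hb0, hb⟩

/-- elements of `Λ'` are regular on `U'`. -/
theorem S36FG_hregZ (g : ↥(S36FI_act (M * q * q) (A.inertiaSubgroupIn ℚ)).fixF)
    (hg : g ∈ S36FG_ΛZ M q hq hqM A hA ζ hζ hζ1 c dvr)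
    (P : Place Ω ↥(modularFunctionFieldBar (M * q * q)))
    (hP : P.ord (heckeBetaBar Ω (M * q) q (jB (M * q)) -
      algebraMap Ω ↥(modularFunctionFieldBar (M * q * q))
        (((c : ↥(S36FI_act (M * q * q) (A.inertiaSubgroupIn ℚ)).fixK)) : Ω)) ≤ 0) :
    0 ≤ P.ord (g : ↥(modularFunctionFieldBar (M * q * q))) := by
  have h := ((S36IT_fam3_mem_Λ M q hq hqM A hA ζ hζ hζ1 dvr _ g).1 hg).2.2.2 P
    ((S36FG_TUZ_eq M q (A.inertiaSubgroupIn ℚ) _).ge hP)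
  rw [S36IT_place_mem_iff, Place.adicValuation_le_one_iff] at h
  rcases h with h | h
  · rw [h, Place.ord_zero]
  · exact h

include hq in
/-- **FIN on the chart `U' = {B ≠ c}`, closed**: `Λ'` is integral over `O_L[x']` and
Noetherian. -/
theorem S36FG_mainZ :
    (∀ g ∈ S36FG_ΛZ M q hq hqM A hA ζ hζ hζ1 c dvr,
      IsIntegral (Algebra.adjoin
        (S36FL_AL (S36FI_act (M * q * q) (A.inertiaSubgroupIn ℚ)) A)
        {S36FG_xZ M q hq hqM A hA c}) g) ∧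
      IsNoetherianRing (S36FG_ΛZ M q hq hqM A hA ζ hζ hζ1 c dvr) := by
  set S := S36FI_act (M * q * q) (A.inertiaSubgroupIn ℚ) with hS
  set x : S.fixF := S36FG_xZ M q hq hqM A hA c with hxdef
  have hx : ((x : S.fixF) : ↥(modularFunctionFieldBar (M * q * q))) =
      (heckeBetaBar Ω (M * q) q (jB (M * q)) -
        algebraMap Ω ↥(modularFunctionFieldBar (M * q * q))
          (((c : S.fixK)) : Ω))⁻¹ := S36FG_xZ_coe M q hq hqM A hA c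
  haveI := S36FG_isDVR_OL M q hq A hA
  haveI := S36FG_noeth_OL M q hq A hA
  haveI hfd : FiniteDimensional Ω⟮((x : S.fixF) : ↥(modularFunctionFieldBar (M * q * q)))⟯
      ↥(modularFunctionFieldBar (M * q * q)) := by
    rw [hx]
    haveI := S36FD_fd_B M q hq
    exact S36FZ_fd _ _
  have hxt : Transcendental Ω ((x : S.fixF) : ↥(modularFunctionFieldBar (M * q * q))) := by
    rw [hx]
    exact S36FZ_transc (S36FD_transc_B M q) _
  haveI := S36FX_finite S x hxt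
  haveI : CharZero S.fixK := S36FX_charZero S
  haveI : CharZero S.fixF := charZero_of_injective_algebraMap (algebraMap S.fixK S.fixF).injective
  haveI : CharZero (S.fixK)⟮x⟯ :=
    charZero_of_injective_algebraMap (algebraMap S.fixK (S.fixK)⟮x⟯).injective
  have hR := S36FG_const_mem_Λ M q hq hqM A hA ζ hζ hζ1 dvr
    (S34IX_TU' ((S36CO_BL M q (A.inertiaSubgroupIn ℚ) :
      (S36FI_act (M * q * q) (A.inertiaSubgroupIn ℚ)).fixF) :
        ↥(modularFunctionFieldBar (M * q * q))) (((c : S.fixK)) : Ω))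
  have hxΛ := S36FG_xZ_mem_Λ M q hq hqM A hA ζ hζ hζ1 c dvr
  have hbas := S36FS_hbas (R := S36FL_AL S A) (L := S.fixK) x
    (S36FG_ΛZ M q hq hqM A hA ζ hζ hζ1 c dvr) hR hxΛ
    (S36FG_hfracZ M q hq hqM A hA ζ hζ hζ1 c dvr)
  refine S36FZ_main M q hq hqM A hA ζ hζ hζ1 (R := S36FL_AL S A) (S36FG_hR S A)
    ⟨((c : S.fixK) : Ω), S36FG_c_mem M q hq hqM A hA c⟩ x hx
    (fun f => S36FH_hgen (M * q * q) (A.inertiaSubgroupIn ℚ) _ f)
    (S36FG_ΛZ M q hq hqM A hA ζ hζ hζ1 c dvr) hR hxΛ hbas ?_ ?_ ?_ ?_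
  · intro g hg
    exact ((S36IT_fam3_mem_Λ_G M q hq hqM A hA ζ hζ hζ1 dvr _ g).1 hg).1
  · intro g hg
    exact ((S36IT_fam3_mem_Λ_G M q hq hqM A hA ζ hζ hζ1 dvr _ g).1 hg).2.1
  · intro g hg
    exact ((S36IT_fam3_mem_Λ_G M q hq hqM A hA ζ hζ hζ1 dvr _ g).1 hg).2.2.1
  · intro g hg P hP
    exact S36FG_hregZ M q hq hqM A hA ζ hζ hζ1 c dvr g hg P hP

include hq in
/-- `hint` on `U'`: the lattice is integral over `O_L[x']`. -/
theorem S36FG_hintZ (g : ↥(S36FI_act (M * q * q) (A.inertiaSubgroupIn ℚ)).fixF)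
    (hg : g ∈ S36FG_ΛZ M q hq hqM A hA ζ hζ hζ1 c dvr) :
    IsIntegral (Algebra.adjoin
        (S36FL_AL (S36FI_act (M * q * q) (A.inertiaSubgroupIn ℚ)) A)
        {S36FG_xZ M q hq hqM A hA c}) g :=
  (S36FG_mainZ M q hq hqM A hA ζ hζ hζ1 c dvr).1 g hg

include hq in
/-- **the lattice `Λ'` of the chart `U'` is a Noetherian ring** (family form, every `dvr`). -/
theorem S36FG_noethZ : IsNoetherianRing (S36FG_ΛZ M q hq hqM A hA ζ hζ hζ1 c dvr) :=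
  (S36FG_mainZ M q hq hqM A hA ζ hζ hζ1 c dvr).2

end fam

/-- the same for the closed family `S36IT_lat`. -/
theorem S36FG_noeth_latZ :
    IsNoetherianRing (S36IT_lat M q hq hqM A hA ζ hζ hζ1
      (S34IX_TU' ((S36CO_BL M q (A.inertiaSubgroupIn ℚ) :
        (S36FI_act (M * q * q) (A.inertiaSubgroupIn ℚ)).fixF) :
          ↥(modularFunctionFieldBar (M * q * q)))
        (((c : ↥(S36FI_act (M * q * q) (A.inertiaSubgroupIn ℚ)).fixK)) : Ω))).Λ :=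
  S36FG_noethZ M q hq hqM A hA ζ hζ hζ1 c (S36IT_dvr3_inst M q hq hqM A hA ζ hζ hζ1)

/-! ### the consumer forms on the charts `C`, `C'` -/

variable (n : ℕ) (hn : 0 < n)

section fam2

variable
    (dvr : ∀ i, IsDiscreteValuationRing
      (S36FL_OL (S36FI_act (M * q * q) (A.inertiaSubgroupIn ℚ))
        (S36IT_Ov3 M q hq hqM A hA ζ hζ hζ1 i)))

/-- **`hge`** of `S36CL_hcusp₁/₃`, `S36LK_*` on the chart `U`. -/
theorem S36FG_hge :
    S36LJ_Lam (S36FI_SFF M q hq hqM A hA) (S36FI_SFV M q hq hqM A hA ζ hζ hζ1)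
        (S36FI_SVV M q hq hqM A hA) (S36CZ_C M q hq hqM A hA n hn).B.toSubring ≤
      (S36IT_fam3 M q hq hqM A hA ζ hζ hζ1 dvr
        (S34IX_TU ((S36CO_BL M q (A.inertiaSubgroupIn ℚ) :
          ↥(S36FI_act (M * q * q) (A.inertiaSubgroupIn ℚ)).fixF) :
            ↥(modularFunctionFieldBar (M * q * q))))).Λ :=
  (S36CZ_Lam_eq M q hq hqM A hA ζ hζ hζ1 dvr _).ge

/-- **`hle`** of `S36CL_hcusp₁/₃` on the chart `U'` (= `S36CZ_hleΛ'`). -/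
theorem S36FG_hleZ :
    S36FG_ΛZ M q hq hqM A hA ζ hζ hζ1 c dvr ≤
      S36LJ_Lam (S36FI_SFF M q hq hqM A hA) (S36FI_SFV M q hq hqM A hA ζ hζ hζ1)
        (S36FI_SVV M q hq hqM A hA) (S36CZ_C' M q hq hqM A hA c n hn).B.toSubring :=
  (S36CZ_Lam_eq M q hq hqM A hA ζ hζ hζ1 dvr _).le

/-- **`hge`** of `S36CL_hcusp₁/₃` on the chart `U'`. -/
theorem S36FG_hgeZ :
    S36LJ_Lam (S36FI_SFF M q hq hqM A hA) (S36FI_SFV M q hq hqM A hA ζ hζ hζ1)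
        (S36FI_SVV M q hq hqM A hA) (S36CZ_C' M q hq hqM A hA c n hn).B.toSubring ≤
      S36FG_ΛZ M q hq hqM A hA ζ hζ hζ1 c dvr :=
  (S36CZ_Lam_eq M q hq hqM A hA ζ hζ hζ1 dvr _).ge

end fam2

/-- **`hint`** on the chart `C' = S36CZ_C' c`: the elements of `O₃ ∩ C'.B` are integral over
`S₁.A[x']`, `x' = (B − c)⁻¹`. -/
theorem S36FG_hint_CZ (g : ↥(S36FI_act (M * q * q) (A.inertiaSubgroupIn ℚ)).fixF)
    (hg : g ∈ S36L3_O3 (S36FI_SFF M q hq hqM A hA) (S36FI_SFV M q hq hqM A hA ζ hζ hζ1)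
      (S36FI_SVV M q hq hqM A hA))
    (hgB : g ∈ (S36CZ_C' M q hq hqM A hA c n hn).B) :
    IsIntegral (Algebra.adjoin (S36FI_SFF M q hq hqM A hA).A
      {S36FG_xZ M q hq hqM A hA c}) g := by
  have hmem : g ∈ S36FG_ΛZ M q hq hqM A hA ζ hζ hζ1 c
      (S36IT_dvr3_inst M q hq hqM A hA ζ hζ hζ1) := by
    show g ∈ (S36IT_fam3 M q hq hqM A hA ζ hζ hζ1 _ _).Λ
    rw [S36CZ_Lam_eq]
    exact ⟨hg, hgB⟩
  exact S36FG_hintZ M q hq hqM A hA ζ hζ hζ1 c _ g hmem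

/-- **the lattice `O₃ ∩ C'.B` of the chart `C' = S36CZ_C' c` is Noetherian.** -/
theorem S36FG_noeth_CZ :
    IsNoetherianRing (S36LJ_Lam (S36FI_SFF M q hq hqM A hA)
      (S36FI_SFV M q hq hqM A hA ζ hζ hζ1) (S36FI_SVV M q hq hqM A hA)
      (S36CZ_C' M q hq hqM A hA c n hn).B.toSubring) := by
  have h := S36FG_noethZ M q hq hqM A hA ζ hζ hζ1 c (S36IT_dvr3_inst M q hq hqM A hA ζ hζ hζ1)
  have e := S36CZ_Lam_eq M q hq hqM A hA ζ hζ hζ1 (S36IT_dvr3_inst M q hq hqM A hA ζ hζ hζ1)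
    (S34IX_TU' ((S36CO_BL M q (A.inertiaSubgroupIn ℚ) :
        (S36FI_act (M * q * q) (A.inertiaSubgroupIn ℚ)).fixF) :
          ↥(modularFunctionFieldBar (M * q * q)))
        (((c : ↥(S36FI_act (M * q * q) (A.inertiaSubgroupIn ℚ)).fixK)) : Ω))
  unfold S36FG_ΛZ at h
  rw [e] at h
  exact h

/-! ### `S36LJ_Red` on the concrete charts -/

/-- **`S36LJ_Red` on the chart `C = S36CZ_C`** (`U = {B ≠ ∞}`). -/
theorem S36FG_red_C :
    S36LJ_Red (S₁ := S36FI_SFF M q hq hqM A hA) (S₂ := S36FI_SFV M q hq hqM A hA ζ hζ hζ1)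
      (S₃ := S36FI_SVV M q hq hqM A hA) (S36CZ_C M q hq hqM A hA n hn) := by
  have h := S36F3R_red_U (S36FI_act (M * q * q) (A.inertiaSubgroupIn ℚ))
    (S36FI_same3 M q hq hqM A hA ζ hζ hζ1) (S36CO_BL M q (A.inertiaSubgroupIn ℚ))
    (S36CZ_hjO M q hq hqM A hA ζ hζ hζ1) n hn
    (fun g hg hgB => S36FG_hint_C M q hq hqM A hA ζ hζ hζ1 n hn g hg hgB)
  rw [S36CZ_red₂, S36CZ_red₃] at h
  exact h

/-- `x' ∈ O₃`. -/
theorem S36FG_xZ_mem_O3 :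
    S36FG_xZ M q hq hqM A hA c ∈
      S36L3_O3 (S36FI_SFF M q hq hqM A hA) (S36FI_SFV M q hq hqM A hA ζ hζ hζ1)
        (S36FI_SVV M q hq hqM A hA) :=
  S36CZ_hsO M q hq hqM A hA ζ hζ hζ1 c

/-- the reduction of `x'` along `FF` is `1/z̄`. -/
theorem S36FG_red_xZ₁ (h : S36FG_xZ M q hq hqM A hA c ∈ (S36FI_SFF M q hq hqM A hA).O) :
    (S36FI_SFF M q hq hqM A hA).red ⟨_, h⟩ = (S36CZ_zb M q hq hqM A hA c)⁻¹ :=
  S36CO_red_inv (S36FI_SFF M q hq hqM A hA) (S36CZ_B_mem₁ M q hq hqM A hA) c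
    (S36CO_ne_const_of_transc (S36CZ_xb_transc M q hq hqM A hA) _)

/-- the reduction of `x'` along `FV` is `1/z̄`. -/
theorem S36FG_red_xZ₂
    (h : S36FG_xZ M q hq hqM A hA c ∈ (S36FI_SFV M q hq hqM A hA ζ hζ hζ1).O) :
    (S36FI_SFV M q hq hqM A hA ζ hζ hζ1).red ⟨_, h⟩ = (S36CZ_zb M q hq hqM A hA c)⁻¹ := by
  have hS := S36FI_same3 M q hq hqM A hA ζ hζ hζ1
  have hc : ((c : ↥(S36FI_act (M * q * q) (A.inertiaSubgroupIn ℚ)).fixK)) ∈
      (S36FI_SFV M q hq hqM A hA ζ hζ hζ1).A := by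
    rw [← hS.same₂.A_eq]
    exact c.2
  have hB := S36CZ_B_mem₂ M q hq hqM A hA ζ hζ hζ1
  have hne : (S36FI_SFV M q hq hqM A hA ζ hζ hζ1).red ⟨_, hB⟩ ≠
      algebraMap (IsLocalRing.ResidueField A) ↥(S36FI_kappa M A)
        ((S36FI_SFV M q hq hqM A hA ζ hζ hζ1).res ⟨_, hc⟩) := by
    rw [S36CZ_red₂]
    exact S36CO_ne_const_of_transc (S36CZ_xb_transc M q hq hqM A hA) _
  have h1 := S36CO_red_inv (S36FI_SFV M q hq hqM A hA ζ hζ hζ1) hB ⟨_, hc⟩ hne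
  rw [S36CZ_red₂, ← hS.same₂.res_eq _ c.2 hc] at h1
  exact h1

/-- the reduction of `x'` along `VV` is `1/z̄`. -/
theorem S36FG_red_xZ₃ (h : S36FG_xZ M q hq hqM A hA c ∈ (S36FI_SVV M q hq hqM A hA).O) :
    (S36FI_SVV M q hq hqM A hA).red ⟨_, h⟩ = (S36CZ_zb M q hq hqM A hA c)⁻¹ := by
  have hS : S34P_Same (S36FI_SFF M q hq hqM A hA) (S36FI_SVV M q hq hqM A hA) :=
    S36FI_gaussSelf_same _ _ _ _ _ _ _ _ _ _ _ _ _ _ _ _
  have hc : ((c : ↥(S36FI_act (M * q * q) (A.inertiaSubgroupIn ℚ)).fixK)) ∈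
      (S36FI_SVV M q hq hqM A hA).A := by
    rw [← hS.A_eq]
    exact c.2
  have hB := S36CZ_B_mem₃ M q hq hqM A hA
  have hne : (S36FI_SVV M q hq hqM A hA).red ⟨_, hB⟩ ≠
      algebraMap (IsLocalRing.ResidueField A) ↥(S36FI_kappa M A)
        ((S36FI_SVV M q hq hqM A hA).res ⟨_, hc⟩) := by
    rw [S36CZ_red₃]
    exact S36CO_ne_const_of_transc (S36CZ_xb_transc M q hq hqM A hA) _
  have h1 := S36CO_red_inv (S36FI_SVV M q hq hqM A hA) hB ⟨_, hc⟩ hne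
  rw [S36CZ_red₃, ← hS.res_eq _ c.2 hc] at h1
  exact h1

/-- **`S36LJ_Red` on the chart `C' = S36CZ_C' c`** (`U' = {B ≠ c}`). -/
theorem S36FG_red_CZ :
    S36LJ_Red (S₁ := S36FI_SFF M q hq hqM A hA) (S₂ := S36FI_SFV M q hq hqM A hA ζ hζ hζ1)
      (S₃ := S36FI_SVV M q hq hqM A hA) (S36CZ_C' M q hq hqM A hA c n hn) := by
  have hO := S36FG_xZ_mem_O3 M q hq hqM A hA ζ hζ hζ1 c
  refine S36F3R_red (S36FI_same3 M q hq hqM A hA ζ hζ hζ1) _ (S36FG_xZ M q hq hqM A hA c) hO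
    (fun g hg hgB => S36FG_hint_CZ M q hq hqM A hA ζ hζ hζ1 c n hn g hg hgB) ?_ ?_ ?_ ?_ ?_ ?_
  · intro y hy
    rw [S36FG_red_xZ₁] at hy
    exact S36CU_integral_le_regZ _ hy
  · intro y hy
    rw [S36FG_red_xZ₂] at hy
    exact S36CU_integral_le_regZ _ hy
  · intro y hy
    rw [S36FG_red_xZ₃] at hy
    exact S36CU_integral_le_regZ _ hy
  · exact fun x hx => S34SB_regOff_root _ hn x hx
  · exact fun x hx => S34SB_regOff_root _ hn x hx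
  · exact fun x hx => S34SB_regOff_root _ hn x hx

end Fermat.Agent.S36
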