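import Mathlib
import Fermat.Agent.S34.InjAbs

/-!
# TRACK 10 (S36), package INJ3-NEWTON (helper27): `S34I_false` with a trivialisation modulo the
radical of `c·Λ`

At level `q²` the special fibre of the model is not reduced (the middle component has multiplicity
`q − 1`), so the trivialisations `f₁`, `f₁'` of `O(D)` on the two charts are only known modulo
`𝔯 = rad(c·Λ)` (`c = q`): `(f₁ⁿ u − 1)^k ∈ c·Λ` for some `k`, and on the intersection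
`((f₁ − f₁')ⁿ u)^k ∈ c·Λ''`.

Since `n` is a unit, `1 + 𝔯/cΛ` is uniquely `n`-divisible (Newton), so the trivialisations can be
corrected by factors `1 + y`, `y ∈ 𝔯`, to trivialisations modulo `c·Λ`, which are then automatically
compatible on the intersection.  Hence `S34I_false` applies.

* `S36IN_root_exists`, `S36IN_pow_inj` : the two ring lemmas (existence and uniqueness of the
  `n`-th root in `1 + nil`), from `Polynomial.existsUnique_nilpotent_sub_and_aeval_eq_zero`;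
* `S36IN_newton` : the correction on one chart;
* `S36IN_compare` : the corrected trivialisations agree modulo `c·M''`;
* `S36IN_triv` : the hypotheses `ht`, `ht'`, `htt` of `S34I_false` from the radical versions;
* `S36IN_false` : `S34I_false` with the radical hypotheses.
-/

set_option autoImplicit false

namespace Fermat.Agent.S36

open Polynomial

section ring

variable {Q : Type*} [CommRing Q]

/-- existence of the `n`-th root of `(1 + e)⁻¹` in `1 + nil`. -/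
theorem S36IN_root_exists (n : ℕ) (s : Q) (hs : (n : Q) * s = 1) (e : Q) (he : IsNilpotent e) :
    ∃ y : Q, IsNilpotent y ∧ (1 + y) ^ n * (1 + e) = 1 := by
  have hnu : IsUnit (n : Q) := IsUnit.of_mul_eq_one _ hs
  set P : Q[X] := C (1 + e) * X ^ n - 1 with hP
  have h1 : aeval (1 : Q) P = e := by
    simp [hP]
  have h2 : aeval (1 : Q) (derivative P) = (1 + e) * n := by
    simp [hP, derivative_X_pow]
  obtain ⟨r, ⟨hr1, hr2⟩, -⟩ := existsUnique_nilpotent_sub_and_aeval_eq_zero (P := P) (x := (1 : Q))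
    (by rw [h1]; exact he) (by rw [h2]; exact he.isUnit_one_add.mul hnu)
  refine ⟨r - 1, ?_, ?_⟩
  · have : r - 1 = -(1 - r) := by ring
    rw [this]
    exact hr1.neg
  · have h3 : aeval r P = (1 + e) * r ^ n - 1 := by
      simp [hP]
    rw [h3] at hr2
    have : (1 + (r - 1)) ^ n * (1 + e) = ((1 + e) * r ^ n - 1) + 1 := by ring
    rw [this, hr2, zero_add]

/-- uniqueness of `n`-th roots in `1 + nil`. -/
theorem S36IN_pow_inj (n : ℕ) (s : Q) (hs : (n : Q) * s = 1) (x y : Q)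
    (hx : IsNilpotent (x - 1)) (hy : IsNilpotent (y - 1)) (h : x ^ n = y ^ n) : x = y := by
  have hnu : IsUnit (n : Q) := IsUnit.of_mul_eq_one _ hs
  have hxu : IsUnit x := by
    have := hx.isUnit_add_one
    simpa using this
  set P : Q[X] := X ^ n - C (x ^ n) with hP
  have h1 : aeval x P = 0 := by
    simp [hP]
  have h2 : aeval x (derivative P) = (n : Q) * x ^ (n - 1) := by
    rw [hP, derivative_sub, derivative_C, sub_zero, derivative_X_pow]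
    simp
  obtain ⟨r, -, hr⟩ := existsUnique_nilpotent_sub_and_aeval_eq_zero (P := P) (x := x)
    (by rw [h1]; exact IsNilpotent.zero) (by rw [h2]; exact hnu.mul (hxu.pow _))
  have hxr : x = r := hr x ⟨by simp, h1⟩
  have hyr : y = r := by
    refine hr y ⟨?_, ?_⟩
    · have : x - y = (x - 1) - (y - 1) := by ring
      rw [this]
      exact (Commute.all _ _).isNilpotent_sub hx hy
    · simp [hP, h]
  rw [hxr, hyr]

end ring

section chart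

variable {A F : Type*} [CommRing A] [Field F] [Algebra A F]

/-- the ideal `c·Λ` of the ring `Λ`. -/
def S36IN_I (c : A) (Λ : Subalgebra A F) : Ideal Λ := Ideal.span {algebraMap A Λ c}

theorem S36IN_mem_I (c : A) (Λ : Subalgebra A F) (x : Λ) :
    x ∈ S36IN_I c Λ ↔ ∃ l ∈ Λ, (x : F) = c • l := by
  rw [S36IN_I, Ideal.mem_span_singleton']
  constructor
  · rintro ⟨a, ha⟩
    refine ⟨a, a.2, ?_⟩
    have := congrArg (fun z : Λ => (z : F)) ha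
    simp only [MulMemClass.coe_mul, Subalgebra.coe_algebraMap] at this
    rw [← this, Algebra.smul_def, mul_comm]
  · rintro ⟨l, hl, h⟩
    refine ⟨⟨l, hl⟩, Subtype.ext ?_⟩
    simp only [MulMemClass.coe_mul, Subalgebra.coe_algebraMap]
    rw [h, Algebra.smul_def, mul_comm]

/-- `x ∈ c·Λ` read in the quotient `Λ/cΛ`. -/
theorem S36IN_mk_eq_zero (c : A) (Λ : Subalgebra A F) (x : F) (hx : x ∈ Λ) :
    Ideal.Quotient.mk (S36IN_I c Λ) ⟨x, hx⟩ = 0 ↔ ∃ l ∈ Λ, x = c • l := by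
  rw [Ideal.Quotient.eq_zero_iff_mem, S36IN_mem_I]

/-- `x ∈ rad(c·Λ)` read in the quotient `Λ/cΛ`. -/
theorem S36IN_mk_nil (c : A) (Λ : Subalgebra A F) (x : F) (hx : x ∈ Λ) :
    IsNilpotent (Ideal.Quotient.mk (S36IN_I c Λ) ⟨x, hx⟩) ↔
      ∃ k : ℕ, ∃ l ∈ Λ, x ^ k = c • l := by
  constructor
  · rintro ⟨k, hk⟩
    refine ⟨k, ?_⟩
    rw [← map_pow] at hk
    have := (S36IN_mk_eq_zero c Λ (x ^ k) (Λ.pow_mem hx k)).1 (by
      rw [← hk]
      rfl)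
    exact this
  · rintro ⟨k, hk⟩
    refine ⟨k, ?_⟩
    rw [← map_pow]
    have := (S36IN_mk_eq_zero c Λ (x ^ k) (Λ.pow_mem hx k)).2 hk
    rw [← this]
    rfl

/-- `n` is a unit of `Λ/cΛ`. -/
theorem S36IN_n_unit (n : ℕ) (s : A) (hs : (n : A) * s = 1) (c : A) (Λ : Subalgebra A F) :
    ((n : ℕ) : Λ ⧸ S36IN_I c Λ) * Ideal.Quotient.mk (S36IN_I c Λ) (algebraMap A Λ s) = 1 := by
  have h1 : ((n : ℕ) : Λ) * algebraMap A Λ s = 1 := by
    rw [← map_natCast (algebraMap A Λ), ← map_mul, hs, map_one]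
  rw [← map_natCast (Ideal.Quotient.mk (S36IN_I c Λ)), ← map_mul, h1, map_one]

/-- the radical of `c·Λ` grows with the chart. -/
theorem S36IN_nil_mono (c : A) (Λ Λ'' : Subalgebra A F) (hΛ : Λ ≤ Λ'') (x : F)
    (h : ∃ k : ℕ, ∃ l ∈ Λ, x ^ k = c • l) : ∃ k : ℕ, ∃ l ∈ Λ'', x ^ k = c • l := by
  obtain ⟨k, l, hl, h⟩ := h
  exact ⟨k, l, hΛ hl, h⟩

/-- **Newton on one chart**: a trivialisation modulo `rad(c·Λ)` is corrected by a factor `1 + y`,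
`y ∈ rad(c·Λ)`, to a trivialisation modulo `c·Λ`. -/
theorem S36IN_newton (n : ℕ) (s : A) (hs : (n : A) * s = 1) (u : F) (c : A)
    (Λ : Subalgebra A F) (f : F) (hfu : f ^ n * u ∈ Λ)
    (ht : ∃ k : ℕ, ∃ l ∈ Λ, (f ^ n * u - 1) ^ k = c • l) :
    ∃ y ∈ Λ, (∃ k : ℕ, ∃ l ∈ Λ, y ^ k = c • l) ∧
      ∃ l ∈ Λ, ((1 + y) * f) ^ n * u - 1 = c • l := by
  have hE : f ^ n * u - 1 ∈ Λ := Λ.sub_mem hfu Λ.one_mem
  have hEnil := (S36IN_mk_nil c Λ _ hE).2 ht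
  obtain ⟨ybar, hy1, hy2⟩ := S36IN_root_exists n _ (S36IN_n_unit n s hs c Λ) _ hEnil
  obtain ⟨y, rfl⟩ := Ideal.Quotient.mk_surjective ybar
  refine ⟨(y : F), y.2, (S36IN_mk_nil c Λ _ y.2).1 hy1, ?_⟩
  have hmem : ((1 + (y : F)) * f) ^ n * u - 1 ∈ Λ := by
    have : ((1 + (y : F)) * f) ^ n * u - 1 = (1 + (y : F)) ^ n * (f ^ n * u) - 1 := by
      rw [mul_pow]
      ring
    rw [this]
    exact Λ.sub_mem (Λ.mul_mem (Λ.pow_mem (Λ.add_mem Λ.one_mem y.2) n) hfu) Λ.one_mem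
  refine (S36IN_mk_eq_zero c Λ _ hmem).1 ?_
  have hsub : (⟨((1 + (y : F)) * f) ^ n * u - 1, hmem⟩ : Λ)
      = (1 + y) ^ n * (1 + ⟨f ^ n * u - 1, hE⟩) - 1 := by
    apply Subtype.ext
    simp only [Subalgebra.coe_sub, Subalgebra.coe_mul, Subalgebra.coe_pow, Subalgebra.coe_add,
      Subalgebra.coe_one]
    rw [mul_pow]
    ring
  rw [hsub, map_sub, map_mul, map_pow, map_add, map_add, map_one, hy2, sub_self]

/-- **comparison**: two corrected trivialisations agree modulo `c·M''` on the intersection of the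
charts, as soon as the original ones agree modulo `rad(c·Λ'')`. -/
theorem S36IN_compare (n : ℕ) (s : A) (hs : (n : A) * s = 1) (u : F) (c : A)
    (Λ'' : Subalgebra A F) (M'' : Submodule A F)
    (hΛM'' : ∀ a ∈ Λ'', ∀ f ∈ M'', a * f ∈ M'')
    (hpow'' : ∀ t : Multiset F, Multiset.card t = n → (∀ f ∈ t, f ∈ M'') → t.prod * u ∈ Λ'')
    (f f' : F) (hf : f ∈ M'') (hf' : f' ∈ M'')
    (hE : ∃ k : ℕ, ∃ l ∈ Λ'', (f ^ n * u - 1) ^ k = c • l)
    (hd : ∃ k : ℕ, ∃ l ∈ Λ'', ((f - f') ^ n * u) ^ k = c • l)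
    (y y' : F) (hy : y ∈ Λ'') (hy' : y' ∈ Λ'')
    (hynil : ∃ k : ℕ, ∃ l ∈ Λ'', y ^ k = c • l) (hy'nil : ∃ k : ℕ, ∃ l ∈ Λ'', y' ^ k = c • l)
    (hφ : ∃ l ∈ Λ'', ((1 + y) * f) ^ n * u - 1 = c • l)
    (hφ' : ∃ l ∈ Λ'', ((1 + y') * f') ^ n * u - 1 = c • l) :
    ∃ m ∈ M'', (1 + y) * f - (1 + y') * f' = c • m := by
  have hn0 : n ≠ 0 := by
    rintro rfl
    rw [Nat.cast_zero, zero_mul] at hs
    have := congrArg (algebraMap A F) hs
    rw [map_zero, map_one] at this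
    exact zero_ne_one this
  obtain ⟨n', rfl⟩ : ∃ n', n = n' + 1 := ⟨n - 1, by omega⟩
  set mk := Ideal.Quotient.mk (S36IN_I c Λ'') with hmk
  -- memberships
  have hpowrep : ∀ g ∈ M'', g ^ (n' + 1) * u ∈ Λ'' := by
    intro g hg
    have := hpow'' (Multiset.replicate (n' + 1) g) (by simp) (fun x hx => by
      rw [Multiset.eq_of_mem_replicate hx]; exact hg)
    rwa [Multiset.prod_replicate] at this
  have hdM : f - f' ∈ M'' := M''.sub_mem hf hf'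
  have hfu : f ^ (n' + 1) * u ∈ Λ'' := hpowrep f hf
  have hEm : f ^ (n' + 1) * u - 1 ∈ Λ'' := Λ''.sub_mem hfu Λ''.one_mem
  have hDm : (f - f') ^ (n' + 1) * u ∈ Λ'' := hpowrep _ hdM
  have ha₀ : (f - f') * f ^ n' * u ∈ Λ'' := by
    have := hpow'' ((f - f') ::ₘ Multiset.replicate n' f) (by simp) (fun x hx => by
      rcases Multiset.mem_cons.mp hx with rfl | hx
      · exact hdM
      · rw [Multiset.eq_of_mem_replicate hx]; exact hf)
    simpa [Multiset.prod_replicate] using this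
  have hφM : (1 + y) * f ∈ M'' := hΛM'' _ (Λ''.add_mem Λ''.one_mem hy) _ hf
  have hφ'M : (1 + y') * f' ∈ M'' := hΛM'' _ (Λ''.add_mem Λ''.one_mem hy') _ hf'
  have hΦm : ((1 + y) * f) ^ (n' + 1) * u ∈ Λ'' := hpowrep _ hφM
  have hΦ'm : ((1 + y') * f') ^ (n' + 1) * u ∈ Λ'' := hpowrep _ hφ'M
  -- the elements of the ring `Λ''`
  set Es : Λ'' := ⟨_, hEm⟩ with hEs
  set Ds : Λ'' := ⟨_, hDm⟩ with hDs
  set as : Λ'' := ⟨_, ha₀⟩ with has
  set ys : Λ'' := ⟨y, hy⟩ with hys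
  set ys' : Λ'' := ⟨y', hy'⟩ with hys'
  set Φs : Λ'' := ⟨_, hΦm⟩ with hΦs
  set Φs' : Λ'' := ⟨_, hΦ'm⟩ with hΦs'
  -- nilpotent elements of the quotient
  have hEnil : IsNilpotent (mk Es) := (S36IN_mk_nil c Λ'' _ hEm).2 hE
  have hDnil : IsNilpotent (mk Ds) := (S36IN_mk_nil c Λ'' _ hDm).2 hd
  have hynil' : IsNilpotent (mk ys) := (S36IN_mk_nil c Λ'' _ hy).2 hynil
  have hy'nil' : IsNilpotent (mk ys') := (S36IN_mk_nil c Λ'' _ hy').2 hy'nil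
  have hanil : IsNilpotent (mk as) := by
    have h1 : as ^ (n' + 1) = Ds * (1 + Es) ^ n' := by
      apply Subtype.ext
      simp only [hEs, hDs, has, Subalgebra.coe_mul, Subalgebra.coe_pow, Subalgebra.coe_add,
        Subalgebra.coe_one]
      have : (1 : F) + (f ^ (n' + 1) * u - 1) = f ^ (n' + 1) * u := by ring
      rw [this, mul_pow, mul_pow, mul_pow, ← pow_mul, ← pow_mul, mul_comm n' (n' + 1),
        pow_succ u n']
      ring
    have h2 : mk as ^ (n' + 1) = mk Ds * (1 + mk Es) ^ n' := by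
      rw [← map_pow, h1, map_mul, map_pow, map_add, map_one]
    exact IsNilpotent.of_pow (m := n' + 1)
      (by rw [h2]; exact (Commute.all _ _).isNilpotent_mul_right hDnil)
  have hΦ1 : mk Φs = 1 := by
    have h1 : mk (Φs - 1) = 0 := by
      have := (S36IN_mk_eq_zero c Λ'' _ (Λ''.sub_mem hΦm Λ''.one_mem)).2 hφ
      rw [← this]
      rfl
    rw [map_sub, map_one] at h1
    exact sub_eq_zero.mp h1
  have hΦ'1 : mk Φs' = 1 := by
    have h1 : mk (Φs' - 1) = 0 := by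
      have := (S36IN_mk_eq_zero c Λ'' _ (Λ''.sub_mem hΦ'm Λ''.one_mem)).2 hφ'
      rw [← this]
      rfl
    rw [map_sub, map_one] at h1
    exact sub_eq_zero.mp h1
  -- the two units
  set U₁ : Λ'' := (1 + Es) * (1 + ys) with hU₁
  set U₂ : Λ'' := (1 + ys') * (1 + Es - as) with hU₂
  -- `U₁ φ' = U₂ φ`
  have hK2 : (U₁ : F) * ((1 + y') * f') = (U₂ : F) * ((1 + y) * f) := by
    simp only [hU₁, hU₂, hEs, has, hys, hys', Subalgebra.coe_mul, Subalgebra.coe_add,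
      Subalgebra.coe_sub, Subalgebra.coe_one]
    rw [pow_succ]
    ring
  have hK3 : U₁ ^ (n' + 1) * Φs' = U₂ ^ (n' + 1) * Φs := by
    apply Subtype.ext
    simp only [hΦs, hΦs', Subalgebra.coe_mul, Subalgebra.coe_pow]
    rw [← mul_assoc, ← mul_pow, hK2, mul_pow, mul_assoc]
  have hpoweq : mk U₁ ^ (n' + 1) = mk U₂ ^ (n' + 1) := by
    have := congrArg mk hK3
    rwa [map_mul, map_mul, map_pow, map_pow, hΦ1, hΦ'1, mul_one, mul_one] at this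
  have hU₁nil : IsNilpotent (mk U₁ - 1) := by
    have : mk U₁ - 1 = mk Es + (1 + mk Es) * mk ys := by
      rw [hU₁, map_mul, map_add, map_add, map_one]
      ring
    rw [this]
    exact (Commute.all _ _).isNilpotent_add hEnil ((Commute.all _ _).isNilpotent_mul_left hynil')
  have hU₂nil : IsNilpotent (mk U₂ - 1) := by
    have : mk U₂ - 1 = mk ys' + (1 + mk ys') * (mk Es - mk as) := by
      rw [hU₂, map_mul, map_add, map_sub, map_add, map_one]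
      ring
    rw [this]
    exact (Commute.all _ _).isNilpotent_add hy'nil' ((Commute.all _ _).isNilpotent_mul_left
      ((Commute.all _ _).isNilpotent_sub hEnil hanil))
  have hUeq : mk U₁ = mk U₂ :=
    S36IN_pow_inj (n' + 1) _ (S36IN_n_unit (n' + 1) s hs c Λ'') _ _ hU₁nil hU₂nil hpoweq
  -- `U₂ - U₁ ∈ c·Λ''`
  obtain ⟨l₂, hl₂, hl₂eq⟩ : ∃ l ∈ Λ'', ((U₂ : F) - U₁) = c • l := by
    refine (S36IN_mk_eq_zero c Λ'' _ (Λ''.sub_mem U₂.2 U₁.2)).1 ?_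
    have : mk (U₂ - U₁) = 0 := by rw [map_sub, hUeq, sub_self]
    rw [← this]
    rfl
  -- an inverse of `U₁` modulo `c`
  have hU₁unit : IsUnit (mk U₁) := by
    have := hU₁nil.isUnit_add_one
    simpa using this
  obtain ⟨wbar, hw⟩ := hU₁unit.exists_right_inv
  obtain ⟨W, rfl⟩ := Ideal.Quotient.mk_surjective wbar
  obtain ⟨l₀, hl₀, hl₀eq⟩ : ∃ l ∈ Λ'', ((U₁ : F) * W - 1) = c • l := by
    refine (S36IN_mk_eq_zero c Λ'' _
      (Λ''.sub_mem (Λ''.mul_mem U₁.2 W.2) Λ''.one_mem)).1 ?_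
    have : mk (U₁ * W - 1) = 0 := by rw [map_sub, map_mul, hw, map_one, sub_self]
    rw [← this]
    rfl
  -- conclusion
  refine ⟨l₀ * ((1 + y') * f' - (1 + y) * f) - (W : F) * l₂ * ((1 + y) * f), ?_, ?_⟩
  · refine M''.sub_mem (hΛM'' _ hl₀ _ (M''.sub_mem hφ'M hφM)) ?_
    exact hΛM'' _ (Λ''.mul_mem W.2 hl₂) _ hφM
  · rw [Algebra.smul_def] at hl₂eq hl₀eq
    rw [Algebra.smul_def]
    have hU₂ : (U₂ : F) = U₁ + algebraMap A F c * l₂ := by rw [← hl₂eq]; ring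
    have hUW : (U₁ : F) * W = 1 + algebraMap A F c * l₀ := by rw [← hl₀eq]; ring
    rw [hU₂] at hK2
    linear_combination (-(W : F)) * hK2 + ((1 + y') * f' - (1 + y) * f) * hUW

/-- **INJ3-NEWTON, data form**: trivialisations `f₁`, `f₁'` modulo the radicals of `c·Λ`, `c·Λ'`,
compatible modulo the radical of `c·Λ''`, can be replaced by trivialisations `φ`, `φ'` satisfying
the hypotheses `ht`, `ht'`, `htt` of `S34I_false` literally. -/
theorem S36IN_triv (n : ℕ) (hn : IsUnit (n : A)) (u : F) (c : A)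
    (Λ Λ'' : Subalgebra A F) (hΛ : Λ ≤ Λ'') (Λ' : Subalgebra A F) (hΛ' : Λ' ≤ Λ'')
    (M M' M'' : Submodule A F) (hM : M ≤ M'') (hM' : M' ≤ M'')
    (hΛM : ∀ a ∈ Λ, ∀ f ∈ M, a * f ∈ M) (hΛM' : ∀ a ∈ Λ', ∀ f ∈ M', a * f ∈ M')
    (hΛM'' : ∀ a ∈ Λ'', ∀ f ∈ M'', a * f ∈ M'')
    (hpow'' : ∀ t : Multiset F, Multiset.card t = n → (∀ f ∈ t, f ∈ M'') → t.prod * u ∈ Λ'')
    (f₁ f₁' : F) (hf₁ : f₁ ∈ M) (hf₁' : f₁' ∈ M')
    (hfu : f₁ ^ n * u ∈ Λ) (hfu' : f₁' ^ n * u ∈ Λ')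
    (ht : ∃ k : ℕ, ∃ l ∈ Λ, (f₁ ^ n * u - 1) ^ k = c • l)
    (ht' : ∃ k : ℕ, ∃ l ∈ Λ', (f₁' ^ n * u - 1) ^ k = c • l)
    (htt : ∃ k : ℕ, ∃ l ∈ Λ'', ((f₁ - f₁') ^ n * u) ^ k = c • l) :
    ∃ φ ∈ M, ∃ φ' ∈ M', (∃ l ∈ Λ, φ ^ n * u - 1 = c • l) ∧
      (∃ l ∈ Λ', φ' ^ n * u - 1 = c • l) ∧ (∃ m ∈ M'', φ - φ' = c • m) ∧
      (∃ y ∈ Λ, (∃ k : ℕ, ∃ l ∈ Λ, y ^ k = c • l) ∧ φ = (1 + y) * f₁) ∧
      (∃ y' ∈ Λ', (∃ k : ℕ, ∃ l ∈ Λ', y' ^ k = c • l) ∧ φ' = (1 + y') * f₁') := by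
  obtain ⟨s, hs⟩ := hn.exists_right_inv
  obtain ⟨y, hy, hynil, hφ⟩ := S36IN_newton n s hs u c Λ f₁ hfu ht
  obtain ⟨y', hy', hy'nil, hφ'⟩ := S36IN_newton n s hs u c Λ' f₁' hfu' ht'
  refine ⟨(1 + y) * f₁, hΛM _ (Λ.add_mem Λ.one_mem hy) _ hf₁,
    (1 + y') * f₁', hΛM' _ (Λ'.add_mem Λ'.one_mem hy') _ hf₁', hφ, hφ', ?_,
    ⟨y, hy, hynil, rfl⟩, ⟨y', hy', hy'nil, rfl⟩⟩
  obtain ⟨l, hl, hle⟩ := hφ
  obtain ⟨l', hl', hle'⟩ := hφ'
  exact S36IN_compare n s hs u c Λ'' M'' hΛM'' hpow'' f₁ f₁' (hM hf₁) (hM' hf₁')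
    (S36IN_nil_mono c Λ Λ'' hΛ _ ht) htt y y' (hΛ hy) (hΛ' hy')
    (S36IN_nil_mono c Λ Λ'' hΛ _ hynil) (S36IN_nil_mono c Λ' Λ'' hΛ' _ hy'nil)
    ⟨l, hΛ hl, hle⟩ ⟨l', hΛ' hl', hle'⟩

/-- **INJ3-NEWTON**: `S34I_false` with trivialisations which are only given modulo the radical of
`c·Λ` (resp. `c·Λ'`, `c·Λ''`).  All other hypotheses are those of `S34I_false`
(`hfu'` is `hpow'` for the constant multiset `f₁'`). -/
theorem S36IN_false [FaithfulSMul A F] (n : ℕ) (hn : IsUnit (n : A)) (u : F) (c : A)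
    (hc0 : c ≠ 0) (hrank : ∀ a : A, a ≠ 0 → ∃ N : ℕ, a ∣ c ^ N)
    (Λ Λ'' : Subalgebra A F) (hΛ : Λ ≤ Λ'') (Λ' : Subalgebra A F) (hΛ' : Λ' ≤ Λ'')
    (M M' M'' : Submodule A F) (hM : M ≤ M'') (hM' : M' ≤ M'')
    (hΛM : ∀ a ∈ Λ, ∀ f ∈ M, a * f ∈ M) (hΛM' : ∀ a ∈ Λ', ∀ f ∈ M', a * f ∈ M')
    (hΛM'' : ∀ a ∈ Λ'', ∀ f ∈ M'', a * f ∈ M'')
    (hpow : ∀ t : Multiset F, Multiset.card t = n → (∀ f ∈ t, f ∈ M) → t.prod * u ∈ Λ)
    (hpow'' : ∀ t : Multiset F, Multiset.card t = n → (∀ f ∈ t, f ∈ M'') → t.prod * u ∈ Λ'')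
    (hglob : ∀ f, f ∈ M → f ∈ M' → f = 0)
    (htors : ∃ c₀ : A, c₀ ≠ 0 ∧ ∀ h ∈ M'', ∀ a : A, a ≠ 0 → a • h ∈ M ⊔ M' → c₀ • h ∈ M ⊔ M')
    (f₁ f₁' : F) (hf₁ : f₁ ∈ M) (hf₁' : f₁' ∈ M') (hfu' : f₁' ^ n * u ∈ Λ')
    (ht : ∃ k : ℕ, ∃ l ∈ Λ, (f₁ ^ n * u - 1) ^ k = c • l)
    (ht' : ∃ k : ℕ, ∃ l ∈ Λ', (f₁' ^ n * u - 1) ^ k = c • l)
    (htt : ∃ k : ℕ, ∃ l ∈ Λ'', ((f₁ - f₁') ^ n * u) ^ k = c • l)
    (hprim : ∀ l ∈ Λ, (1 : F) ≠ c • l) : False := by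
  have hfu : f₁ ^ n * u ∈ Λ := by
    have := hpow (Multiset.replicate n f₁) (by simp) (fun x hx => by
      rw [Multiset.eq_of_mem_replicate hx]; exact hf₁)
    rwa [Multiset.prod_replicate] at this
  obtain ⟨φ, hφ, φ', hφ', h1, h2, h3, -, -⟩ := S36IN_triv n hn u c Λ Λ'' hΛ Λ' hΛ' M M' M'' hM hM'
    hΛM hΛM' hΛM'' hpow'' f₁ f₁' hf₁ hf₁' hfu hfu' ht ht' htt
  exact Fermat.Agent.S34.S34I_false n hn u c hc0 hrank Λ Λ'' hΛ Λ' hΛ' M M' M'' hM hM' hΛM hΛM'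
    hΛM'' hpow hpow'' hglob htors φ φ' hφ hφ' h1 h2 h3 hprim

/-- the radical hypothesis from a bound `x^k ∈ c·Λ` on a multiplicatively closed set of
"topologically nilpotent" elements, e.g. `k = q − 1` for the three valuations at level `q²`:
if `x = y * z` with `y ^ k ∈ c·Λ` and `z ∈ Λ`, then `x ^ k ∈ c·Λ`. -/
theorem S36IN_nil_mul (c : A) (Λ : Subalgebra A F) (y z : F) (hz : z ∈ Λ)
    (h : ∃ k : ℕ, ∃ l ∈ Λ, y ^ k = c • l) : ∃ k : ℕ, ∃ l ∈ Λ, (y * z) ^ k = c • l := by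
  obtain ⟨k, l, hl, h⟩ := h
  refine ⟨k, l * z ^ k, Λ.mul_mem hl (Λ.pow_mem hz k), ?_⟩
  rw [mul_pow, h, Algebra.smul_def, Algebra.smul_def, mul_assoc]

/-- the radical of `c·Λ` is closed under addition. -/
theorem S36IN_nil_add (c : A) (Λ : Subalgebra A F) (x y : F) (hx : x ∈ Λ) (hy : y ∈ Λ)
    (h : ∃ k : ℕ, ∃ l ∈ Λ, x ^ k = c • l) (h' : ∃ k : ℕ, ∃ l ∈ Λ, y ^ k = c • l) :
    ∃ k : ℕ, ∃ l ∈ Λ, (x + y) ^ k = c • l := by
  have h1 := (S36IN_mk_nil c Λ x hx).2 h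
  have h2 := (S36IN_mk_nil c Λ y hy).2 h'
  refine (S36IN_mk_nil c Λ (x + y) (Λ.add_mem hx hy)).1 ?_
  have : Ideal.Quotient.mk (S36IN_I c Λ) ⟨x + y, Λ.add_mem hx hy⟩
      = Ideal.Quotient.mk (S36IN_I c Λ) ⟨x, hx⟩ + Ideal.Quotient.mk (S36IN_I c Λ) ⟨y, hy⟩ := by
    rw [← map_add]
    rfl
  rw [this]
  exact (Commute.all _ _).isNilpotent_add h1 h2

/-- the compatibility hypothesis `htt` of `S36IN_false` when `f₁ - f₁' = r * m` with
`r ∈ rad(c·Λ'')` and `m ∈ M''`. -/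
theorem S36IN_htt_of_mul (n : ℕ) (hn0 : n ≠ 0) (u : F) (c : A) (Λ'' : Subalgebra A F)
    (M'' : Submodule A F)
    (hpow'' : ∀ t : Multiset F, Multiset.card t = n → (∀ f ∈ t, f ∈ M'') → t.prod * u ∈ Λ'')
    (d r m : F) (hm : m ∈ M'') (hd : d = r * m)
    (hr : ∃ k : ℕ, ∃ l ∈ Λ'', r ^ k = c • l) :
    ∃ k : ℕ, ∃ l ∈ Λ'', (d ^ n * u) ^ k = c • l := by
  have hmu : m ^ n * u ∈ Λ'' := by
    have := hpow'' (Multiset.replicate n m) (by simp) (fun x hx => by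
      rw [Multiset.eq_of_mem_replicate hx]; exact hm)
    rwa [Multiset.prod_replicate] at this
  obtain ⟨k, l, hl, h⟩ := hr
  obtain ⟨n', rfl⟩ : ∃ n', n = n' + 1 := ⟨n - 1, by omega⟩
  refine ⟨k, l ^ (n' + 1) * c ^ n' • (m ^ (n' + 1) * u) ^ k, ?_, ?_⟩
  · exact Λ''.mul_mem (Λ''.pow_mem hl _) (Λ''.smul_mem (Λ''.pow_mem hmu k) _)
  · have h1 : (d ^ (n' + 1) * u) ^ k = (r ^ k) ^ (n' + 1) * (m ^ (n' + 1) * u) ^ k := by
      rw [hd, mul_pow, mul_pow, mul_pow, mul_pow, ← pow_mul, ← pow_mul, ← pow_mul,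
        mul_comm k (n' + 1)]
      ring
    rw [h1, h]
    simp only [Algebra.smul_def, map_pow]
    ring

end chart

end Fermat.Agent.S36
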