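import Mathlib

/-!
# TRACK 10 (S36), package GAMMA3 (helper11): gluing invariants at triple points, in VALUE form

Abstract setting (Mathlib only).  `k` a field, `R₁ R₂ R₃` three `k`-algebras (the residue rings
of the three components `FF`, `FV`, `VV` of the special fibre at level `q²`), `e_j y : R_j → k`
the evaluations at the supersingular points `y : ι` on the three branches, `Kp` a group of
(normalised Kummer) generators `u`, and `W u ⊂ R₁ × R₂ × R₃` the reduction of the module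
`M^u = {f | fⁿ·u ∈ Λ}`.  Hypotheses:

* `hW1` : the elements of `W 1 = red Λ` have equal branch values at every `y`;
* `li`  : (LI) every `W u` contains an element whose three branch values at `y` do not vanish
  (the value of a local generator);
* `mul_mem_W`, `one_mem_W`, `pow_one_mem`.

Then the ratios of the branch values define the gluing invariant
`D.gam : ↥D.Kp →* (ι → kˣ × kˣ)` with `gam u ^ n = 1` (`S36G_Datum.gam_pow`),
`W u ⊂ {m | e₂ y m = γ₁ u y * e₁ y m, e₃ y m = γ₂ u y * e₁ y m}` (`S36G_Datum.spec`), and if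
the invariant detects triviality (INJ3) up to renormalisation by constants, then
`#(Kp / Triv) ≤ n ^ (2 * (card ι - 1))` (`S36G_Datum.card_le`).
-/

set_option autoImplicit false

namespace Fermat.Agent.S36

/-- the datum of GAMMA3. -/
structure S36G_Datum (F k R₁ R₂ R₃ ι : Type*) [Field F] [Field k] [CommRing R₁] [CommRing R₂]
    [CommRing R₃] [Algebra k R₁] [Algebra k R₂] [Algebra k R₃] (n : ℕ) where
  /-- evaluation at the point `y` on the branch `FF` -/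
  e₁ : ι → R₁ →ₐ[k] k
  /-- evaluation at the point `y` on the branch `FV` -/
  e₂ : ι → R₂ →ₐ[k] k
  /-- evaluation at the point `y` on the branch `VV` -/
  e₃ : ι → R₃ →ₐ[k] k
  /-- the normalised generators -/
  Kp : Subgroup Fˣ
  /-- the reduction of `M^u` -/
  W : Fˣ → Submodule k (R₁ × R₂ × R₃)
  one_mem_W : (1 : R₁ × R₂ × R₃) ∈ W 1
  mul_mem_W : ∀ u ∈ Kp, ∀ v ∈ Kp, ∀ m ∈ W u, ∀ m' ∈ W v, m * m' ∈ W (u * v)
  pow_one_mem : ∀ u ∈ Kp, (1 : R₁ × R₂ × R₃) ∈ W (u ^ n)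
  hW1 : ∀ m ∈ W 1, ∀ y, e₁ y m.1 = e₂ y m.2.1 ∧ e₁ y m.1 = e₃ y m.2.2
  li : ∀ u ∈ Kp, ∀ y, ∃ m ∈ W u, e₁ y m.1 ≠ 0 ∧ e₂ y m.2.1 ≠ 0 ∧ e₃ y m.2.2 ≠ 0

namespace S36G_Datum

variable {F k R₁ R₂ R₃ ι : Type*} [Field F] [Field k] [CommRing R₁] [CommRing R₂]
  [CommRing R₃] [Algebra k R₁] [Algebra k R₂] [Algebra k R₃] {n : ℕ}
  (D : S36G_Datum F k R₁ R₂ R₃ ι n)

/-- the chosen local generator (its reduction). -/
noncomputable def gen (u : Fˣ) (y : ι) : R₁ × R₂ × R₃ :=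
  open Classical in if h : u ∈ D.Kp then (D.li u h y).choose else 1

theorem gen_mem {u : Fˣ} (hu : u ∈ D.Kp) (y : ι) : D.gen u y ∈ D.W u := by
  rw [gen, dif_pos hu]
  exact (D.li u hu y).choose_spec.1

theorem gen_ne {u : Fˣ} (hu : u ∈ D.Kp) (y : ι) :
    D.e₁ y (D.gen u y).1 ≠ 0 ∧ D.e₂ y (D.gen u y).2.1 ≠ 0 ∧ D.e₃ y (D.gen u y).2.2 ≠ 0 := by
  rw [gen, dif_pos hu]
  exact (D.li u hu y).choose_spec.2

/-- the first gluing invariant `m_FV(y) / m_FF(y)`. -/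
noncomputable def γ₁ (u : Fˣ) (y : ι) : k := D.e₂ y (D.gen u y).2.1 / D.e₁ y (D.gen u y).1

/-- the second gluing invariant `m_VV(y) / m_FF(y)`. -/
noncomputable def γ₂ (u : Fˣ) (y : ι) : k := D.e₃ y (D.gen u y).2.2 / D.e₁ y (D.gen u y).1

theorem γ₁_ne_zero {u : Fˣ} (hu : u ∈ D.Kp) (y : ι) : D.γ₁ u y ≠ 0 :=
  div_ne_zero (D.gen_ne hu y).2.1 (D.gen_ne hu y).1

theorem γ₂_ne_zero {u : Fˣ} (hu : u ∈ D.Kp) (y : ι) : D.γ₂ u y ≠ 0 :=
  div_ne_zero (D.gen_ne hu y).2.2 (D.gen_ne hu y).1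

/-- all elements of `W u` have branch values proportional to those of an element with non
vanishing values. -/
theorem prop {u : Fˣ} (hu : u ∈ D.Kp) {m m' : R₁ × R₂ × R₃} (hm : m ∈ D.W u)
    (hm' : m' ∈ D.W u) (y : ι) (_h1 : D.e₁ y m.1 ≠ 0) :
    D.e₂ y m'.2.1 * D.e₁ y m.1 = D.e₂ y m.2.1 * D.e₁ y m'.1 ∧
      D.e₃ y m'.2.2 * D.e₁ y m.1 = D.e₃ y m.2.2 * D.e₁ y m'.1 := by
  have hu' : u⁻¹ ∈ D.Kp := D.Kp.inv_mem hu
  obtain ⟨b, hb, hb1, hb2, hb3⟩ := D.li u⁻¹ hu' y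
  have hmb : m * b ∈ D.W 1 := by
    have := D.mul_mem_W u hu u⁻¹ hu' m hm b hb
    rwa [mul_inv_cancel] at this
  have hmb' : m' * b ∈ D.W 1 := by
    have := D.mul_mem_W u hu u⁻¹ hu' m' hm' b hb
    rwa [mul_inv_cancel] at this
  obtain ⟨p1, p2⟩ := D.hW1 _ hmb y
  obtain ⟨p1', p2'⟩ := D.hW1 _ hmb' y
  simp only [Prod.fst_mul, Prod.snd_mul, map_mul] at p1 p2 p1' p2'
  constructor
  · have : (D.e₂ y m'.2.1 * D.e₁ y m.1 - D.e₂ y m.2.1 * D.e₁ y m'.1) *
        (D.e₁ y b.1 * D.e₂ y b.2.1) = 0 := by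
      linear_combination (D.e₁ y m'.1 * D.e₁ y b.1) * p1 - (D.e₁ y m.1 * D.e₁ y b.1) * p1'
    rcases mul_eq_zero.1 this with h | h
    · exact sub_eq_zero.1 h
    · exact absurd h (mul_ne_zero hb1 hb2)
  · have : (D.e₃ y m'.2.2 * D.e₁ y m.1 - D.e₃ y m.2.2 * D.e₁ y m'.1) *
        (D.e₁ y b.1 * D.e₃ y b.2.2) = 0 := by
      linear_combination (D.e₁ y m'.1 * D.e₁ y b.1) * p2 - (D.e₁ y m.1 * D.e₁ y b.1) * p2'
    rcases mul_eq_zero.1 this with h | h
    · exact sub_eq_zero.1 h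
    · exact absurd h (mul_ne_zero hb1 hb3)

/-- **`W u` is contained in the module glued with the invariant `γ u`**. -/
theorem spec {u : Fˣ} (hu : u ∈ D.Kp) {m : R₁ × R₂ × R₃} (hm : m ∈ D.W u) (y : ι) :
    D.e₂ y m.2.1 = D.γ₁ u y * D.e₁ y m.1 ∧ D.e₃ y m.2.2 = D.γ₂ u y * D.e₁ y m.1 := by
  obtain ⟨g1, g2, g3⟩ := D.gen_ne hu y
  obtain ⟨p1, p2⟩ := D.prop hu (D.gen_mem hu y) hm y g1
  constructor
  · rw [γ₁, div_mul_eq_mul_div, eq_div_iff g1]
    exact p1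
  · rw [γ₂, div_mul_eq_mul_div, eq_div_iff g1]
    exact p2

/-- the invariant is determined by any element of `W u` with a non vanishing value. -/
theorem γ_eq {u : Fˣ} (hu : u ∈ D.Kp) {m : R₁ × R₂ × R₃} (hm : m ∈ D.W u) (y : ι)
    (h1 : D.e₁ y m.1 ≠ 0) :
    D.γ₁ u y = D.e₂ y m.2.1 / D.e₁ y m.1 ∧ D.γ₂ u y = D.e₃ y m.2.2 / D.e₁ y m.1 := by
  obtain ⟨p1, p2⟩ := D.spec hu hm y
  exact ⟨by rw [p1, mul_div_assoc, div_self h1, mul_one],
    by rw [p2, mul_div_assoc, div_self h1, mul_one]⟩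

theorem γ_one (y : ι) : D.γ₁ 1 y = 1 ∧ D.γ₂ 1 y = 1 := by
  have h := D.γ_eq D.Kp.one_mem D.one_mem_W y (by simp)
  simpa using h

theorem γ_mul {u v : Fˣ} (hu : u ∈ D.Kp) (hv : v ∈ D.Kp) (y : ι) :
    D.γ₁ (u * v) y = D.γ₁ u y * D.γ₁ v y ∧ D.γ₂ (u * v) y = D.γ₂ u y * D.γ₂ v y := by
  obtain ⟨g1, g2, g3⟩ := D.gen_ne hu y
  obtain ⟨g1', g2', g3'⟩ := D.gen_ne hv y
  have hm := D.mul_mem_W u hu v hv _ (D.gen_mem hu y) _ (D.gen_mem hv y)
  have h := D.γ_eq (D.Kp.mul_mem hu hv) hm y (by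
    simp only [Prod.fst_mul, map_mul]
    exact mul_ne_zero g1 g1')
  simp only [Prod.fst_mul, Prod.snd_mul, map_mul] at h
  rw [h.1, h.2, γ₁, γ₁, γ₂, γ₂]
  constructor <;> field_simp

/-- renormalisation by constants: if `W t` contains a constant triple `(a₁, a₂, a₃)` then
`γ t = (a₂ / a₁, a₃ / a₁)` at every point. -/
theorem γ_const {t : Fˣ} (ht : t ∈ D.Kp) {a₁ a₂ a₃ : k} (ha : a₁ ≠ 0)
    (hmem : (algebraMap k R₁ a₁, algebraMap k R₂ a₂, algebraMap k R₃ a₃) ∈ D.W t) (y : ι) :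
    D.γ₁ t y = a₂ / a₁ ∧ D.γ₂ t y = a₃ / a₁ := by
  have h := D.γ_eq ht hmem y (by simpa using ha)
  simpa using h

/-- the gluing invariant, as a homomorphism. -/
noncomputable def gam : ↥D.Kp →* (ι → kˣ × kˣ) where
  toFun u y := (Units.mk0 (D.γ₁ u y) (D.γ₁_ne_zero u.2 y), Units.mk0 (D.γ₂ u y) (D.γ₂_ne_zero u.2 y))
  map_one' := by
    funext y
    apply Prod.ext <;> apply Units.ext
    · exact (D.γ_one y).1
    · exact (D.γ_one y).2
  map_mul' u v := by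
    funext y
    apply Prod.ext <;> apply Units.ext
    · exact (D.γ_mul u.2 v.2 y).1
    · exact (D.γ_mul u.2 v.2 y).2

@[simp] theorem gam_fst (u : ↥D.Kp) (y : ι) : (((D.gam u y).1 : kˣ) : k) = D.γ₁ u y := rfl

@[simp] theorem gam_snd (u : ↥D.Kp) (y : ι) : (((D.gam u y).2 : kˣ) : k) = D.γ₂ u y := rfl

theorem gam_eq_one_iff (u : ↥D.Kp) :
    D.gam u = 1 ↔ ∀ y, D.γ₁ u y = 1 ∧ D.γ₂ u y = 1 := by
  constructor
  · intro h y
    have h1 := congrFun h y
    exact ⟨by rw [← gam_fst, h1]; rfl, by rw [← gam_snd, h1]; rfl⟩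
  · intro h
    funext y
    apply Prod.ext <;> apply Units.ext
    · exact (h y).1
    · exact (h y).2

/-- the invariant of `u ^ n` is trivial. -/
theorem γ_pow_self {u : Fˣ} (hu : u ∈ D.Kp) (y : ι) :
    D.γ₁ (u ^ n) y = 1 ∧ D.γ₂ (u ^ n) y = 1 := by
  have h := D.γ_eq (D.Kp.pow_mem hu n) (D.pow_one_mem u hu) y (by simp)
  simpa using h

/-- **the gluing invariant is killed by `n`**. -/
theorem gam_pow (u : ↥D.Kp) : D.gam u ^ n = 1 := by
  rw [← map_pow, gam_eq_one_iff]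
  intro y
  exact D.γ_pow_self u.2 y

theorem γ_pow {u : Fˣ} (hu : u ∈ D.Kp) (y : ι) : D.γ₁ u y ^ n = 1 ∧ D.γ₂ u y ^ n = 1 := by
  have h := congrFun (D.gam_pow ⟨u, hu⟩) y
  have h1 : ((D.gam ⟨u, hu⟩ y).1 : kˣ) ^ n = 1 := congrArg Prod.fst h
  have h2 : ((D.gam ⟨u, hu⟩ y).2 : kˣ) ^ n = 1 := congrArg Prod.snd h
  have h1' := congrArg (Units.val) h1
  have h2' := congrArg (Units.val) h2
  simp only [Units.val_pow_eq_pow_val, Units.val_one] at h1' h2'
  exact ⟨h1', h2'⟩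


/-! ### the count -/

section count

/-- the `n`-torsion of `X → kˣ × kˣ` has at most `n ^ (2 * card X)` elements. -/
theorem card_tors_le (X : Type*) [Fintype X] [NeZero n]
    (T : Subgroup (X → kˣ × kˣ)) (hT : ∀ c ∈ T, c ^ n = 1) :
    Finite T ∧ Nat.card T ≤ n ^ (2 * Fintype.card X) := by
  classical
  let f : T → (X → rootsOfUnity n k × rootsOfUnity n k) := fun c x =>
    (⟨(c.1 x).1, by
        rw [mem_rootsOfUnity]
        exact congrArg Prod.fst (congrFun (hT c.1 c.2) x)⟩,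
      ⟨(c.1 x).2, by
        rw [mem_rootsOfUnity]
        exact congrArg Prod.snd (congrFun (hT c.1 c.2) x)⟩)
  have hf : Function.Injective f := by
    intro c c' h
    apply Subtype.ext
    funext x
    have h1 := congrFun h x
    have h2 : (c.1 x).1 = (c'.1 x).1 := congrArg (fun z => (z.1 : kˣ)) h1
    have h3 : (c.1 x).2 = (c'.1 x).2 := congrArg (fun z => (z.2 : kˣ)) h1
    exact Prod.ext h2 h3
  have hfin : Finite T := Finite.of_injective f hf
  refine ⟨hfin, ?_⟩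
  calc Nat.card T ≤ Nat.card (X → rootsOfUnity n k × rootsOfUnity n k) :=
        Nat.card_le_card_of_injective f hf
    _ = (Nat.card (rootsOfUnity n k) * Nat.card (rootsOfUnity n k)) ^ Fintype.card X := by
        rw [Nat.card_fun, Nat.card_prod, Nat.card_eq_fintype_card (α := X)]
    _ ≤ (n * n) ^ Fintype.card X := by
        have h1 : Nat.card (rootsOfUnity n k) ≤ n := card_rootsOfUnity k n
        exact Nat.pow_le_pow_left (Nat.mul_le_mul h1 h1) _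
    _ = n ^ (2 * Fintype.card X) := by
        rw [← pow_two, ← pow_mul]

/-- **GAMMA3, the count**: if the gluing invariant detects triviality (INJ3) and every constant
invariant is the invariant of a trivial normalised generator (renormalisation), then
`Kp / Triv` has at most `n ^ (2 (s' - 1))` elements, `s' = card ι`. -/
theorem card_le [Fintype ι] [Nonempty ι] [NeZero n] (Triv : Subgroup Fˣ)
    (inj : ∀ u ∈ D.Kp, (∀ y, D.γ₁ u y = 1 ∧ D.γ₂ u y = 1) → u ∈ Triv)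
    (renorm : ∀ ζ₁ ζ₂ : k, ζ₁ ^ n = 1 → ζ₂ ^ n = 1 →
      ∃ t ∈ D.Kp, t ∈ Triv ∧ ∀ y, D.γ₁ t y = ζ₁ ∧ D.γ₂ t y = ζ₂) :
    Finite (↥D.Kp ⧸ (Triv.subgroupOf D.Kp)) ∧
      Nat.card (↥D.Kp ⧸ (Triv.subgroupOf D.Kp)) ≤ n ^ (2 * (Fintype.card ι - 1)) := by
  classical
  obtain ⟨y₀⟩ := ‹Nonempty ι›
  -- the relative invariant
  let φ : (ι → kˣ × kˣ) →* ({y : ι // y ≠ y₀} → kˣ × kˣ) :=
    { toFun := fun c y => c y.1 / c y₀
      map_one' := by funext y; simp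
      map_mul' := by
        intro c c'
        funext y
        simp only [Pi.mul_apply]
        exact mul_div_mul_comm _ _ _ _ }
  let ψ : ↥D.Kp →* ({y : ι // y ≠ y₀} → kˣ × kˣ) := φ.comp D.gam
  have hψn : ∀ c ∈ ψ.range, c ^ n = 1 := by
    rintro c ⟨u, rfl⟩
    have h1 : ψ u ^ n = φ (D.gam u ^ n) := (map_pow φ (D.gam u) n).symm
    rw [h1, D.gam_pow, map_one]
  obtain ⟨hfin, hcard⟩ := card_tors_le (k := k) (n := n) {y : ι // y ≠ y₀} ψ.range hψn
  -- the kernel consists of trivial generators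
  have hker : ψ.ker ≤ Triv.subgroupOf D.Kp := by
    intro u hu
    rw [MonoidHom.mem_ker] at hu
    rw [Subgroup.mem_subgroupOf]
    have hconst : ∀ y, D.gam u y = D.gam u y₀ := by
      intro y
      by_cases hy : y = y₀
      · rw [hy]
      · have h1 := congrFun hu ⟨y, hy⟩
        have h2 : D.gam u y / D.gam u y₀ = 1 := h1
        exact div_eq_one.1 h2
    obtain ⟨z1, z2⟩ := D.γ_pow u.2 y₀
    obtain ⟨t, htK, htT, ht⟩ := renorm _ _ z1 z2
    have h3 : (u : Fˣ) * t⁻¹ ∈ Triv := by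
      apply inj _ (D.Kp.mul_mem u.2 (D.Kp.inv_mem htK))
      intro y
      have hm := D.γ_mul u.2 (D.Kp.inv_mem htK) y
      have hm' := D.γ_mul htK (D.Kp.inv_mem htK) y
      rw [mul_inv_cancel] at hm'
      obtain ⟨o1, o2⟩ := D.γ_one y
      rw [o1, (ht y).1] at hm'
      rw [o2, (ht y).2] at hm'
      have e1 : D.γ₁ u y = D.γ₁ u y₀ := by
        have := congrArg (fun z => ((z.1 : kˣ) : k)) (hconst y)
        exact this
      have e2 : D.γ₂ u y = D.γ₂ u y₀ := by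
        have := congrArg (fun z => ((z.2 : kˣ) : k)) (hconst y)
        exact this
      rw [hm.1, hm.2, e1, e2]
      exact ⟨hm'.1.symm, hm'.2.symm⟩
    have h4 : (u : Fˣ) = (u : Fˣ) * t⁻¹ * t := by group
    rw [h4]
    exact Triv.mul_mem h3 htT
  -- comparison of the quotients
  have e := QuotientGroup.quotientKerEquivRange ψ
  have hfinq : Finite (↥D.Kp ⧸ ψ.ker) := Finite.of_equiv _ e.symm.toEquiv
  have hsurj : Function.Surjective
      (QuotientGroup.map ψ.ker (Triv.subgroupOf D.Kp) (MonoidHom.id ↥D.Kp) hker) := by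
    intro x
    obtain ⟨u, rfl⟩ := QuotientGroup.mk_surjective x
    exact ⟨QuotientGroup.mk u, rfl⟩
  have hfinT : Finite (↥D.Kp ⧸ (Triv.subgroupOf D.Kp)) := Finite.of_surjective _ hsurj
  refine ⟨hfinT, ?_⟩
  calc Nat.card (↥D.Kp ⧸ (Triv.subgroupOf D.Kp)) ≤ Nat.card (↥D.Kp ⧸ ψ.ker) :=
        Nat.card_le_card_of_surjective _ hsurj
    _ = Nat.card ψ.range := Nat.card_congr e.toEquiv
    _ ≤ n ^ (2 * Fintype.card {y : ι // y ≠ y₀}) := hcard
    _ = n ^ (2 * (Fintype.card ι - 1)) := by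
        have h1 : Fintype.card {y : ι // y ≠ y₀} = Fintype.card ι - 1 := by
          rw [Fintype.card_subtype_compl, Fintype.card_subtype_eq]
        rw [h1]

end count

end S36G_Datum

end Fermat.Agent.S36
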