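import Fermat.Agent.S34.KActRed
import Fermat.Agent.S36.Gamma3

/-!
# TRACK 10 (S36), package LAT3 (helper9): the lattice layer for THREE valuations

Semi-concrete layer between the valuations (P-VAL3) and the abstract gluing invariant
(`S36G_Datum`, GAMMA3): the analogue of `S34/Pole.lean` + `S34/KActRed.lean` for three valuation
data `S₁, S₂, S₃ : S18_Val L F k Fk_j` on the same field `F` (the components `FF`, `FV`, `VV` of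
the special fibre at level `q²`).  No hypothesis on ramification: the middle valuation may be
ramified over the base.

* `S36L3_O3`, `S36L3_red : O₃ →+* Fk₁ × Fk₂ × Fk₃`, `S36L3_Same`, `S36L3_redSub`;
* `S36L3_Chart n` : a chart (`B` = functions regular on the chart, root closed; `Rb_j` = the
  coordinate rings of the three components);
* `S36L3_W hS C u : Submodule k (Rb₁ × Rb₂ × Rb₃)` = the reduction of `{f ∈ O₃ | fⁿ u ∈ B}`;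
* `S36L3_Norm`, `S36L3_NormGrp : Subgroup Fˣ` : the normalised elements (`u ∈ O₃`, `red u = 1`);
* `S36L3_one_mem_W`, `S36L3_mul_mem_W`, `S36L3_pow_mem_W`, `S36L3_pow_one_mem`,
  `S36L3_mem_W_one`, `S36L3_W_mono`, `S36L3_map_W`;
* `S36L3_hW1_of_loc` : **the three branch values of an integral function agree** (`hW1`), from
  a subring with equal values that exhausts the first reduction and the local principality of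
  the first branch with explicit denominators (REG-q pulled back);
* `S36L3_li_of_gen` : the witness of (LI) in value form from a section of `M^u` with non
  vanishing branch values;
* `S36L3_mkDatum` : the `S36G_Datum` of GAMMA3.
-/

set_option autoImplicit false
set_option linter.unusedSectionVars false

namespace Fermat.Agent.S36

open Fermat.Agent.S18 Fermat.Agent.S34

variable {L F k Fk₁ Fk₂ Fk₃ : Type*} [Field L] [Field F] [Algebra L F] [Field k]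
  [Field Fk₁] [Field Fk₂] [Field Fk₃] [Algebra k Fk₁] [Algebra k Fk₂] [Algebra k Fk₃]

/-! ### The triple -/

section Triple

variable (S₁ : S18_Val L F k Fk₁) (S₂ : S18_Val L F k Fk₂) (S₃ : S18_Val L F k Fk₃)

/-- `O₃ = O_{FF} ∩ O_{FV} ∩ O_{VV}`. -/
def S36L3_O3 : Subring F := S₁.O.toSubring ⊓ (S₂.O.toSubring ⊓ S₃.O.toSubring)

theorem S36L3_mem_O3 {f : F} : f ∈ S36L3_O3 S₁ S₂ S₃ ↔ f ∈ S₁.O ∧ f ∈ S₂.O ∧ f ∈ S₃.O := Iff.rfl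

/-- the inclusion `O₃ → O₁`. -/
def S36L3_incl₁ : S36L3_O3 S₁ S₂ S₃ →+* S₁.O where
  toFun f := ⟨f, f.2.1⟩
  map_one' := rfl
  map_mul' _ _ := rfl
  map_zero' := rfl
  map_add' _ _ := rfl

/-- the inclusion `O₃ → O₂`. -/
def S36L3_incl₂ : S36L3_O3 S₁ S₂ S₃ →+* S₂.O where
  toFun f := ⟨f, f.2.2.1⟩
  map_one' := rfl
  map_mul' _ _ := rfl
  map_zero' := rfl
  map_add' _ _ := rfl

/-- the inclusion `O₃ → O₃` (third valuation ring). -/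
def S36L3_incl₃ : S36L3_O3 S₁ S₂ S₃ →+* S₃.O where
  toFun f := ⟨f, f.2.2.2⟩
  map_one' := rfl
  map_mul' _ _ := rfl
  map_zero' := rfl
  map_add' _ _ := rfl

/-- `red = (red₁, red₂, red₃) : O₃ → Fk₁ × Fk₂ × Fk₃`. -/
def S36L3_red : S36L3_O3 S₁ S₂ S₃ →+* Fk₁ × Fk₂ × Fk₃ :=
  (S₁.red.comp (S36L3_incl₁ S₁ S₂ S₃)).prod
    ((S₂.red.comp (S36L3_incl₂ S₁ S₂ S₃)).prod (S₃.red.comp (S36L3_incl₃ S₁ S₂ S₃)))

theorem S36L3_red_fst (f : S36L3_O3 S₁ S₂ S₃) :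
    (S36L3_red S₁ S₂ S₃ f).1 = S₁.red ⟨f, f.2.1⟩ := rfl

theorem S36L3_red_snd (f : S36L3_O3 S₁ S₂ S₃) :
    (S36L3_red S₁ S₂ S₃ f).2.1 = S₂.red ⟨f, f.2.2.1⟩ := rfl

theorem S36L3_red_trd (f : S36L3_O3 S₁ S₂ S₃) :
    (S36L3_red S₁ S₂ S₃ f).2.2 = S₃.red ⟨f, f.2.2.2⟩ := rfl

/-- the three data have the same base valuation ring and the same residue map on it. -/
structure S36L3_Same : Prop where
  same₂ : S34P_Same S₁ S₂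
  same₃ : S34P_Same S₁ S₃

variable {S₁ S₂ S₃}

/-- constants of `A` in `O₃`. -/
theorem S36L3_const_mem (hS : S36L3_Same S₁ S₂ S₃) (a : S₁.A) :
    algebraMap L F a ∈ S36L3_O3 S₁ S₂ S₃ :=
  ⟨(S₁.algebraMap_mem_iff a).2 a.2, (S₂.algebraMap_mem_iff a).2 (hS.same₂.A_eq ▸ a.2),
    (S₃.algebraMap_mem_iff a).2 (hS.same₃.A_eq ▸ a.2)⟩

theorem S36L3_red_const (hS : S36L3_Same S₁ S₂ S₃) (a : S₁.A) :
    S36L3_red S₁ S₂ S₃ ⟨algebraMap L F a, S36L3_const_mem hS a⟩ =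
      (algebraMap k Fk₁ (S₁.res a), algebraMap k Fk₂ (S₁.res a),
        algebraMap k Fk₃ (S₁.res a)) := by
  refine Prod.ext ?_ (Prod.ext ?_ ?_)
  · exact S₁.red_algebraMap a a.2 _
  · show S₂.red ⟨algebraMap L F a, _⟩ = algebraMap k Fk₂ (S₁.res a)
    rw [S₂.red_algebraMap a (hS.same₂.A_eq ▸ a.2) _,
      hS.same₂.res_eq a a.2 (hS.same₂.A_eq ▸ a.2)]
  · show S₃.red ⟨algebraMap L F a, _⟩ = algebraMap k Fk₃ (S₁.res a)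
    rw [S₃.red_algebraMap a (hS.same₃.A_eq ▸ a.2) _,
      hS.same₃.res_eq a a.2 (hS.same₃.A_eq ▸ a.2)]

variable (S₁ S₂ S₃)

/-- `W(V) := red (V ∩ O₃)`, a `k`-subspace of `Fk₁ × Fk₂ × Fk₃`. -/
def S36L3_redSub (hS : S36L3_Same S₁ S₂ S₃) (V : Submodule L F) :
    Submodule k (Fk₁ × Fk₂ × Fk₃) where
  carrier := {w | ∃ f : S36L3_O3 S₁ S₂ S₃, (f : F) ∈ V ∧ S36L3_red S₁ S₂ S₃ f = w}
  add_mem' := by
    rintro _ _ ⟨f, hf, rfl⟩ ⟨g, hg, rfl⟩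
    exact ⟨f + g, V.add_mem hf hg, map_add _ _ _⟩
  zero_mem' := ⟨0, V.zero_mem, map_zero _⟩
  smul_mem' := by
    rintro γ _ ⟨f, hf, rfl⟩
    obtain ⟨a, rfl⟩ := S₁.res_surjective γ
    refine ⟨⟨algebraMap L F a, S36L3_const_mem hS a⟩ * f, ?_, ?_⟩
    · have : ((⟨algebraMap L F a, S36L3_const_mem hS a⟩ * f : S36L3_O3 S₁ S₂ S₃) : F) =
          (a : L) • (f : F) := by
        rw [Algebra.smul_def]; rfl
      rw [this]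
      exact V.smul_mem _ hf
    · rw [map_mul, S36L3_red_const hS a]
      refine Prod.ext ?_ (Prod.ext ?_ ?_)
      · simp [Algebra.smul_def]
      · simp [Algebra.smul_def]
      · simp [Algebra.smul_def]

theorem S36L3_mem_redSub (hS : S36L3_Same S₁ S₂ S₃) {V : Submodule L F}
    {w : Fk₁ × Fk₂ × Fk₃} :
    w ∈ S36L3_redSub S₁ S₂ S₃ hS V ↔
      ∃ f : S36L3_O3 S₁ S₂ S₃, (f : F) ∈ V ∧ S36L3_red S₁ S₂ S₃ f = w :=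
  Iff.rfl

theorem S36L3_redSub_mono (hS : S36L3_Same S₁ S₂ S₃) {V V' : Submodule L F} (h : V ≤ V') :
    S36L3_redSub S₁ S₂ S₃ hS V ≤ S36L3_redSub S₁ S₂ S₃ hS V' := by
  rintro _ ⟨f, hf, rfl⟩
  exact ⟨f, h hf, rfl⟩

/-- an element of a valuation ring of `S18_Val` with non-zero reduction has its inverse in the
ring. -/
theorem S36L3_inv_mem_of_red_ne {Fk : Type*} [Field Fk] [Algebra k Fk] (S : S18_Val L F k Fk)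
    {f : F} (hf : f ∈ S.O) (h : S.red ⟨f, hf⟩ ≠ 0) : f⁻¹ ∈ S.O := by
  have hu : IsUnit (⟨f, hf⟩ : S.O) := (S.red_ne_zero_iff _).1 h
  obtain ⟨w, hw⟩ := hu
  have e : (((w⁻¹ : S.Oˣ) : S.O) : F) * f = 1 := by
    have := congrArg (fun z : S.O => (z : F)) w.inv_mul
    simp only [hw] at this
    simpa using this
  have : f⁻¹ = (((w⁻¹ : S.Oˣ) : S.O) : F) := (eq_inv_of_mul_eq_one_left e).symm
  rw [this]
  exact ((w⁻¹ : S.Oˣ) : S.O).2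

/-- an element of `O₃` whose three reductions are non-zero is a unit of `O₃`. -/
theorem S36L3_inv_mem_O3 {f : F} (hf : f ∈ S36L3_O3 S₁ S₂ S₃)
    (h1 : (S36L3_red S₁ S₂ S₃ ⟨f, hf⟩).1 ≠ 0) (h2 : (S36L3_red S₁ S₂ S₃ ⟨f, hf⟩).2.1 ≠ 0)
    (h3 : (S36L3_red S₁ S₂ S₃ ⟨f, hf⟩).2.2 ≠ 0) :
    f⁻¹ ∈ S36L3_O3 S₁ S₂ S₃ :=
  ⟨S36L3_inv_mem_of_red_ne S₁ hf.1 h1, S36L3_inv_mem_of_red_ne S₂ hf.2.1 h2,
    S36L3_inv_mem_of_red_ne S₃ hf.2.2 h3⟩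

/-! ### Normalised elements -/

/-- the normalised elements: `u ∈ O₃` with `red u = 1`. -/
def S36L3_Norm : Set F :=
  {u | ∃ h : u ∈ S36L3_O3 S₁ S₂ S₃, S36L3_red S₁ S₂ S₃ ⟨u, h⟩ = 1}

variable {S₁ S₂ S₃}

theorem S36L3_one_mem_Norm : (1 : F) ∈ S36L3_Norm S₁ S₂ S₃ :=
  ⟨(S36L3_O3 S₁ S₂ S₃).one_mem, map_one _⟩

theorem S36L3_mul_mem_Norm {u v : F} (hu : u ∈ S36L3_Norm S₁ S₂ S₃)
    (hv : v ∈ S36L3_Norm S₁ S₂ S₃) : u * v ∈ S36L3_Norm S₁ S₂ S₃ := by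
  obtain ⟨hu1, hu2⟩ := hu
  obtain ⟨hv1, hv2⟩ := hv
  refine ⟨(S36L3_O3 S₁ S₂ S₃).mul_mem hu1 hv1, ?_⟩
  have : (⟨u * v, (S36L3_O3 S₁ S₂ S₃).mul_mem hu1 hv1⟩ : S36L3_O3 S₁ S₂ S₃) =
      ⟨u, hu1⟩ * ⟨v, hv1⟩ := rfl
  rw [this, map_mul, hu2, hv2, one_mul]

theorem S36L3_ne_zero_of_Norm {u : F} (hu : u ∈ S36L3_Norm S₁ S₂ S₃) : u ≠ 0 := by
  obtain ⟨hu1, hu2⟩ := hu
  rintro rfl
  have : (⟨0, hu1⟩ : S36L3_O3 S₁ S₂ S₃) = 0 := rfl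
  rw [this, map_zero] at hu2
  exact zero_ne_one hu2

theorem S36L3_inv_mem_Norm {u : F} (hu : u ∈ S36L3_Norm S₁ S₂ S₃) :
    u⁻¹ ∈ S36L3_Norm S₁ S₂ S₃ := by
  have hu0 := S36L3_ne_zero_of_Norm hu
  obtain ⟨hu1, hu2⟩ := hu
  have hinv : u⁻¹ ∈ S36L3_O3 S₁ S₂ S₃ := by
    apply S36L3_inv_mem_O3 S₁ S₂ S₃ hu1
    · rw [hu2]; exact one_ne_zero
    · rw [hu2]; exact one_ne_zero
    · rw [hu2]; exact one_ne_zero
  refine ⟨hinv, ?_⟩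
  have e : (⟨u⁻¹, hinv⟩ : S36L3_O3 S₁ S₂ S₃) * ⟨u, hu1⟩ = 1 :=
    Subtype.ext (inv_mul_cancel₀ hu0)
  have := congrArg (S36L3_red S₁ S₂ S₃) e
  rw [map_mul, hu2, mul_one, map_one] at this
  exact this

theorem S36L3_pow_mem_Norm {u : F} (hu : u ∈ S36L3_Norm S₁ S₂ S₃) (j : ℕ) :
    u ^ j ∈ S36L3_Norm S₁ S₂ S₃ := by
  induction j with
  | zero => rw [pow_zero]; exact S36L3_one_mem_Norm
  | succ j ih => rw [pow_succ]; exact S36L3_mul_mem_Norm ih hu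

variable (S₁ S₂ S₃)

/-- the group of normalised elements. -/
def S36L3_NormGrp : Subgroup Fˣ where
  carrier := {u | (u : F) ∈ S36L3_Norm S₁ S₂ S₃}
  mul_mem' := by
    intro u v hu hv
    show ((u * v : Fˣ) : F) ∈ S36L3_Norm S₁ S₂ S₃
    rw [Units.val_mul]
    exact S36L3_mul_mem_Norm hu hv
  one_mem' := by
    show ((1 : Fˣ) : F) ∈ S36L3_Norm S₁ S₂ S₃
    rw [Units.val_one]
    exact S36L3_one_mem_Norm
  inv_mem' := by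
    intro u hu
    show ((u⁻¹ : Fˣ) : F) ∈ S36L3_Norm S₁ S₂ S₃
    rw [Units.val_inv_eq_inv_val]
    exact S36L3_inv_mem_Norm hu

theorem S36L3_mem_NormGrp {u : Fˣ} :
    u ∈ S36L3_NormGrp S₁ S₂ S₃ ↔ (u : F) ∈ S36L3_Norm S₁ S₂ S₃ := Iff.rfl

end Triple

/-! ### Charts and the reduction `W^u` -/

section Chart

variable {S₁ : S18_Val L F k Fk₁} {S₂ : S18_Val L F k Fk₂} {S₃ : S18_Val L F k Fk₃}
  (hS : S36L3_Same S₁ S₂ S₃)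

/-- a chart of the triple: `B` = the functions of `F` regular on the chart (root closed),
`Rb₁, Rb₂, Rb₃` = the coordinate rings of the three components of the special fibre. -/
structure S36L3_Chart (L F k Fk₁ Fk₂ Fk₃ : Type*) [Field L] [Field F] [Algebra L F] [Field k]
    [Field Fk₁] [Field Fk₂] [Field Fk₃] [Algebra k Fk₁] [Algebra k Fk₂] [Algebra k Fk₃]
    (n : ℕ) where
  /-- the functions regular on the chart -/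
  B : Subalgebra L F
  hn : 0 < n
  root : ∀ f : F, f ^ n ∈ B → f ∈ B
  /-- coordinate ring of the first component -/
  Rb₁ : Subalgebra k Fk₁
  /-- coordinate ring of the second component -/
  Rb₂ : Subalgebra k Fk₂
  /-- coordinate ring of the third component -/
  Rb₃ : Subalgebra k Fk₃

/-- the inclusion `Rb₁ × Rb₂ × Rb₃ → Fk₁ × Fk₂ × Fk₃`. -/
def S36L3_incl (Rb₁ : Subalgebra k Fk₁) (Rb₂ : Subalgebra k Fk₂) (Rb₃ : Subalgebra k Fk₃) :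
    (↥Rb₁ × ↥Rb₂ × ↥Rb₃) →ₗ[k] (Fk₁ × Fk₂ × Fk₃) :=
  LinearMap.prodMap Rb₁.val.toLinearMap
    (LinearMap.prodMap Rb₂.val.toLinearMap Rb₃.val.toLinearMap)

@[simp] theorem S36L3_incl_apply (Rb₁ : Subalgebra k Fk₁) (Rb₂ : Subalgebra k Fk₂)
    (Rb₃ : Subalgebra k Fk₃) (m : ↥Rb₁ × ↥Rb₂ × ↥Rb₃) :
    S36L3_incl Rb₁ Rb₂ Rb₃ m = ((m.1 : Fk₁), (m.2.1 : Fk₂), (m.2.2 : Fk₃)) := rfl

theorem S36L3_incl_injective (Rb₁ : Subalgebra k Fk₁) (Rb₂ : Subalgebra k Fk₂)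
    (Rb₃ : Subalgebra k Fk₃) : Function.Injective (S36L3_incl Rb₁ Rb₂ Rb₃) := by
  intro m m' h
  have h1 := congrArg Prod.fst h
  have h2 := congrArg (fun z => z.2.1) h
  have h3 := congrArg (fun z => z.2.2) h
  simp only [S36L3_incl_apply] at h1 h2 h3
  exact Prod.ext (Subtype.ext h1) (Prod.ext (Subtype.ext h2) (Subtype.ext h3))

/-- `W^u = red (V^u ∩ O₃) ∩ (Rb₁ × Rb₂ × Rb₃)`, as a `k`-subspace of `Rb₁ × Rb₂ × Rb₃`. -/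
def S36L3_W {n : ℕ} (C : S36L3_Chart L F k Fk₁ Fk₂ Fk₃ n) (u : F) :
    Submodule k (↥C.Rb₁ × ↥C.Rb₂ × ↥C.Rb₃) :=
  Submodule.comap (S36L3_incl C.Rb₁ C.Rb₂ C.Rb₃)
    (S36L3_redSub S₁ S₂ S₃ hS (S34K_V C.B n C.hn C.root u))

theorem S36L3_mem_W {n : ℕ} (C : S36L3_Chart L F k Fk₁ Fk₂ Fk₃ n) (u : F)
    (m : ↥C.Rb₁ × ↥C.Rb₂ × ↥C.Rb₃) :
    m ∈ S36L3_W hS C u ↔ ∃ f : S36L3_O3 S₁ S₂ S₃, (f : F) ^ n * u ∈ C.B ∧
      S36L3_red S₁ S₂ S₃ f = ((m.1 : Fk₁), (m.2.1 : Fk₂), (m.2.2 : Fk₃)) := Iff.rfl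

/-- `1 ∈ W^1`. -/
theorem S36L3_one_mem_W {n : ℕ} (C : S36L3_Chart L F k Fk₁ Fk₂ Fk₃ n) :
    (1 : ↥C.Rb₁ × ↥C.Rb₂ × ↥C.Rb₃) ∈ S36L3_W hS C 1 := by
  rw [S36L3_mem_W]
  refine ⟨1, ?_, ?_⟩
  · simp only [OneMemClass.coe_one, one_pow, mul_one]
    exact C.B.one_mem
  · rw [map_one]; rfl

/-- `W^u · W^v ⊂ W^{uv}`. -/
theorem S36L3_mul_mem_W {n : ℕ} (C : S36L3_Chart L F k Fk₁ Fk₂ Fk₃ n) {u v : F}
    {m m' : ↥C.Rb₁ × ↥C.Rb₂ × ↥C.Rb₃} (hm : m ∈ S36L3_W hS C u)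
    (hm' : m' ∈ S36L3_W hS C v) : m * m' ∈ S36L3_W hS C (u * v) := by
  rw [S36L3_mem_W] at hm hm' ⊢
  obtain ⟨f, hf, hfm⟩ := hm
  obtain ⟨f', hf', hfm'⟩ := hm'
  refine ⟨f * f', ?_, ?_⟩
  · have e : ((f * f' : S36L3_O3 S₁ S₂ S₃) : F) ^ n * (u * v) =
        ((f : F) ^ n * u) * ((f' : F) ^ n * v) := by
      push_cast; ring
    rw [e]
    exact C.B.mul_mem hf hf'
  · rw [map_mul, hfm, hfm']
    rfl

/-- **the `n`-th power condition**: for `u` normalised, the `n`-th power of a member of `W^u`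
lies in `W^1 = red (B ∩ O₃)`. -/
theorem S36L3_pow_mem_W {n : ℕ} (C : S36L3_Chart L F k Fk₁ Fk₂ Fk₃ n) {u : F}
    (hu : u ∈ S36L3_Norm S₁ S₂ S₃) {m : ↥C.Rb₁ × ↥C.Rb₂ × ↥C.Rb₃}
    (hm : m ∈ S36L3_W hS C u) : m ^ n ∈ S36L3_W hS C 1 := by
  rw [S36L3_mem_W] at hm ⊢
  obtain ⟨f, hf, hfm⟩ := hm
  obtain ⟨hu1, hu2⟩ := hu
  refine ⟨f ^ n * ⟨u, hu1⟩, ?_, ?_⟩
  · simp only [mul_one]
    push_cast
    exact C.B.pow_mem hf n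
  · rw [map_mul, map_pow, hu2, mul_one, hfm]
    rfl

/-- `1 ∈ W^{uⁿ}` for `u` normalised (`u⁻¹` is a section of `M^{uⁿ}` with reduction `1`). -/
theorem S36L3_pow_one_mem {n : ℕ} (C : S36L3_Chart L F k Fk₁ Fk₂ Fk₃ n) {u : F}
    (hu : u ∈ S36L3_Norm S₁ S₂ S₃) :
    (1 : ↥C.Rb₁ × ↥C.Rb₂ × ↥C.Rb₃) ∈ S36L3_W hS C (u ^ n) := by
  have hu0 := S36L3_ne_zero_of_Norm hu
  obtain ⟨hi1, hi2⟩ := S36L3_inv_mem_Norm hu
  rw [S36L3_mem_W]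
  refine ⟨⟨u⁻¹, hi1⟩, ?_, ?_⟩
  · have e : ((⟨u⁻¹, hi1⟩ : S36L3_O3 S₁ S₂ S₃) : F) ^ n * u ^ n = 1 := by
      show (u⁻¹) ^ n * u ^ n = 1
      rw [← mul_pow, inv_mul_cancel₀ hu0, one_pow]
    rw [e]
    exact C.B.one_mem
  · rw [hi2]; rfl

/-- `W^1` is the reduction of `Λ = B ∩ O₃`. -/
theorem S36L3_mem_W_one {n : ℕ} (C : S36L3_Chart L F k Fk₁ Fk₂ Fk₃ n)
    (m : ↥C.Rb₁ × ↥C.Rb₂ × ↥C.Rb₃) :
    m ∈ S36L3_W hS C 1 ↔ ∃ f : S36L3_O3 S₁ S₂ S₃, (f : F) ∈ C.B ∧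
      S36L3_red S₁ S₂ S₃ f = ((m.1 : Fk₁), (m.2.1 : Fk₂), (m.2.2 : Fk₃)) := by
  rw [S36L3_mem_W]
  constructor
  · rintro ⟨f, hf, hfm⟩
    rw [mul_one] at hf
    exact ⟨f, C.root _ hf, hfm⟩
  · rintro ⟨f, hf, hfm⟩
    refine ⟨f, ?_, hfm⟩
    rw [mul_one]
    exact C.B.pow_mem hf n

/-- `W^u` is a module over `W^1`. -/
theorem S36L3_W_smul {n : ℕ} (C : S36L3_Chart L F k Fk₁ Fk₂ Fk₃ n) {u : F}
    {w m : ↥C.Rb₁ × ↥C.Rb₂ × ↥C.Rb₃} (hw : w ∈ S36L3_W hS C 1)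
    (hm : m ∈ S36L3_W hS C u) : w * m ∈ S36L3_W hS C u := by
  have := S36L3_mul_mem_W hS C hw hm
  rwa [one_mul] at this

/-- **equivariance**: a ring endomorphism `g` of `F` preserving `O₃` and `B`, acting on the
reductions through `ψ`, maps `W^u` into `W^{g u}`. -/
theorem S36L3_map_W {n : ℕ} (C : S36L3_Chart L F k Fk₁ Fk₂ Fk₃ n)
    (g : F →+* F) (hgO : ∀ f ∈ S36L3_O3 S₁ S₂ S₃, g f ∈ S36L3_O3 S₁ S₂ S₃)
    (hgB : ∀ f ∈ C.B, g f ∈ C.B)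
    (ψ : ↥C.Rb₁ × ↥C.Rb₂ × ↥C.Rb₃ → ↥C.Rb₁ × ↥C.Rb₂ × ↥C.Rb₃)
    (hred : ∀ (f : S36L3_O3 S₁ S₂ S₃) (m : ↥C.Rb₁ × ↥C.Rb₂ × ↥C.Rb₃),
      S36L3_red S₁ S₂ S₃ f = ((m.1 : Fk₁), (m.2.1 : Fk₂), (m.2.2 : Fk₃)) →
      S36L3_red S₁ S₂ S₃ ⟨g f, hgO f f.2⟩ =
        (((ψ m).1 : Fk₁), ((ψ m).2.1 : Fk₂), ((ψ m).2.2 : Fk₃)))
    {u : F} {m : ↥C.Rb₁ × ↥C.Rb₂ × ↥C.Rb₃} (hm : m ∈ S36L3_W hS C u) :
    ψ m ∈ S36L3_W hS C (g u) := by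
  rw [S36L3_mem_W] at hm ⊢
  obtain ⟨f, hf, hfm⟩ := hm
  refine ⟨⟨g f, hgO f f.2⟩, ?_, hred f m hfm⟩
  have e : (g (f : F)) ^ n * g u = g ((f : F) ^ n * u) := by
    rw [map_mul, map_pow]
  show (g (f : F)) ^ n * g u ∈ C.B
  rw [e]
  exact hgB _ hf

/-! ### Independence of the chart -/

/-- a chart `C` is contained in a chart `C'` (`U ⊇ U'` as open sets). -/
structure S36L3_ChartLE {n : ℕ} (C C' : S36L3_Chart L F k Fk₁ Fk₂ Fk₃ n) : Prop where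
  B_le : C.B ≤ C'.B
  Rb₁_le : C.Rb₁ ≤ C'.Rb₁
  Rb₂_le : C.Rb₂ ≤ C'.Rb₂
  Rb₃_le : C.Rb₃ ≤ C'.Rb₃

/-- the inclusion of the coordinate rings of two charts. -/
def S36L3_chartMap {n : ℕ} {C C' : S36L3_Chart L F k Fk₁ Fk₂ Fk₃ n}
    (h : S36L3_ChartLE C C') (m : ↥C.Rb₁ × ↥C.Rb₂ × ↥C.Rb₃) : ↥C'.Rb₁ × ↥C'.Rb₂ × ↥C'.Rb₃ :=
  (⟨m.1, h.Rb₁_le m.1.2⟩, ⟨m.2.1, h.Rb₂_le m.2.1.2⟩, ⟨m.2.2, h.Rb₃_le m.2.2.2⟩)

theorem S36L3_W_mono {n : ℕ} {C C' : S36L3_Chart L F k Fk₁ Fk₂ Fk₃ n}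
    (h : S36L3_ChartLE C C') {u : F} {m : ↥C.Rb₁ × ↥C.Rb₂ × ↥C.Rb₃}
    (hm : m ∈ S36L3_W hS C u) : S36L3_chartMap h m ∈ S36L3_W hS C' u := by
  rw [S36L3_mem_W] at hm ⊢
  obtain ⟨f, hf, hfm⟩ := hm
  exact ⟨f, h.B_le hf, hfm⟩

/-! ### `hW1`: the three branch values of an integral function agree -/

/-- **`hW1` from REG-q pulled back.**  `e₁ e₂ e₃` are the evaluations at a point `y` on the
three branches.  Assume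
* (`hT`) every first reduction of an integral function is the first reduction of an integral
  function `φ` with three EQUAL branch values (`φ = δ₁^* φ₀`, `φ₀` of level `M'`);
* (`hloc`) an integral function `g` with `red₁ g = 0` satisfies `g · a = s · h` with integral
  `a`, `h`, `s`, where the values of `a` on the branches `2, 3` do not vanish and those of `s`
  vanish (`s = p₂^* s₀`, the local equation of the first branch, `a = p₂^* a₀`).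
Then the three branch values of every element of `W^1` agree. -/
theorem S36L3_hW1_of_loc {n : ℕ} (C : S36L3_Chart L F k Fk₁ Fk₂ Fk₃ n)
    (e₁ : ↥C.Rb₁ →ₐ[k] k) (e₂ : ↥C.Rb₂ →ₐ[k] k) (e₃ : ↥C.Rb₃ →ₐ[k] k)
    (hT : ∀ m ∈ S36L3_W hS C 1, ∃ m' ∈ S36L3_W hS C 1, m'.1 = m.1 ∧
      e₁ m'.1 = e₂ m'.2.1 ∧ e₁ m'.1 = e₃ m'.2.2)
    (hloc : ∀ g ∈ S36L3_W hS C 1, g.1 = 0 →
      ∃ a ∈ S36L3_W hS C 1, ∃ s ∈ S36L3_W hS C 1, ∃ h ∈ S36L3_W hS C 1,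
        g * a = s * h ∧ e₂ a.2.1 ≠ 0 ∧ e₃ a.2.2 ≠ 0 ∧ e₂ s.2.1 = 0 ∧ e₃ s.2.2 = 0)
    {m : ↥C.Rb₁ × ↥C.Rb₂ × ↥C.Rb₃} (hm : m ∈ S36L3_W hS C 1) :
    e₁ m.1 = e₂ m.2.1 ∧ e₁ m.1 = e₃ m.2.2 := by
  obtain ⟨m', hm', h1, h2, h3⟩ := hT m hm
  have hg : m - m' ∈ S36L3_W hS C 1 := (S36L3_W hS C 1).sub_mem hm hm'
  have hg1 : (m - m').1 = 0 := by
    rw [Prod.fst_sub, h1, sub_self]
  obtain ⟨a, _, s, _, h, _, heq, ha2, ha3, hs2, hs3⟩ := hloc _ hg hg1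
  have q2 : e₂ (m - m').2.1 = 0 := by
    have := congrArg (fun z : ↥C.Rb₁ × ↥C.Rb₂ × ↥C.Rb₃ => e₂ z.2.1) heq
    simp only [Prod.snd_mul, Prod.fst_mul, map_mul, hs2, zero_mul] at this
    rcases mul_eq_zero.1 this with h0 | h0
    · exact h0
    · exact absurd h0 ha2
  have q3 : e₃ (m - m').2.2 = 0 := by
    have := congrArg (fun z : ↥C.Rb₁ × ↥C.Rb₂ × ↥C.Rb₃ => e₃ z.2.2) heq
    simp only [Prod.snd_mul, map_mul, hs3, zero_mul] at this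
    rcases mul_eq_zero.1 this with h0 | h0
    · exact h0
    · exact absurd h0 ha3
  simp only [Prod.snd_sub, Prod.fst_sub, map_sub, sub_eq_zero] at q2 q3
  rw [q2, q3, ← h1]
  exact ⟨h2, h3⟩

/-! ### (LI) in value form -/

/-- **(LI) in value form**, the trivial direction: a section `f ∈ O₃` of `M^u` (`fⁿ u ∈ B`)
whose three reductions lie in the coordinate rings and do not vanish at the point gives the
witness required by `S36G_Datum.li`. -/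
theorem S36L3_li_of_gen {n : ℕ} (C : S36L3_Chart L F k Fk₁ Fk₂ Fk₃ n)
    (e₁ : ↥C.Rb₁ →ₐ[k] k) (e₂ : ↥C.Rb₂ →ₐ[k] k) (e₃ : ↥C.Rb₃ →ₐ[k] k) {u : F}
    (f : S36L3_O3 S₁ S₂ S₃) (hf : (f : F) ^ n * u ∈ C.B)
    (m : ↥C.Rb₁ × ↥C.Rb₂ × ↥C.Rb₃)
    (hm : S36L3_red S₁ S₂ S₃ f = ((m.1 : Fk₁), (m.2.1 : Fk₂), (m.2.2 : Fk₃)))
    (h1 : e₁ m.1 ≠ 0) (h2 : e₂ m.2.1 ≠ 0) (h3 : e₃ m.2.2 ≠ 0) :
    ∃ m ∈ S36L3_W hS C u, e₁ m.1 ≠ 0 ∧ e₂ m.2.1 ≠ 0 ∧ e₃ m.2.2 ≠ 0 :=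
  ⟨m, (S36L3_mem_W hS C u m).2 ⟨f, hf, hm⟩, h1, h2, h3⟩

/-! ### The datum of GAMMA3 -/

/-- the datum of GAMMA3 from the chart, a subgroup `Kp` of normalised elements and the two
geometric inputs `hW1` (equal branch values of integral functions) and `li`. -/
def S36L3_mkDatum {n : ℕ} {ι : Type*} (C : S36L3_Chart L F k Fk₁ Fk₂ Fk₃ n)
    (e₁ : ι → ↥C.Rb₁ →ₐ[k] k) (e₂ : ι → ↥C.Rb₂ →ₐ[k] k) (e₃ : ι → ↥C.Rb₃ →ₐ[k] k)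
    (Kp : Subgroup Fˣ) (hKp : Kp ≤ S36L3_NormGrp S₁ S₂ S₃)
    (hW1 : ∀ m ∈ S36L3_W hS C 1, ∀ y, e₁ y m.1 = e₂ y m.2.1 ∧ e₁ y m.1 = e₃ y m.2.2)
    (li : ∀ u ∈ Kp, ∀ y, ∃ m ∈ S36L3_W hS C ((u : Fˣ) : F),
      e₁ y m.1 ≠ 0 ∧ e₂ y m.2.1 ≠ 0 ∧ e₃ y m.2.2 ≠ 0) :
    S36G_Datum F k ↥C.Rb₁ ↥C.Rb₂ ↥C.Rb₃ ι n where
  e₁ := e₁
  e₂ := e₂
  e₃ := e₃
  Kp := Kp
  W := fun u => S36L3_W hS C ((u : Fˣ) : F)
  one_mem_W := by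
    show (1 : ↥C.Rb₁ × ↥C.Rb₂ × ↥C.Rb₃) ∈ S36L3_W hS C (((1 : Fˣ) : Fˣ) : F)
    rw [Units.val_one]
    exact S36L3_one_mem_W hS C
  mul_mem_W := by
    intro u _ v _ m hm m' hm'
    show m * m' ∈ S36L3_W hS C (((u * v : Fˣ) : Fˣ) : F)
    rw [Units.val_mul]
    exact S36L3_mul_mem_W hS C hm hm'
  pow_one_mem := by
    intro u hu
    show (1 : ↥C.Rb₁ × ↥C.Rb₂ × ↥C.Rb₃) ∈ S36L3_W hS C (((u ^ n : Fˣ) : Fˣ) : F)
    rw [Units.val_pow_eq_pow_val]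
    exact S36L3_pow_one_mem hS C (hKp hu)
  hW1 := by
    intro m hm y
    have hm' : m ∈ S36L3_W hS C 1 := by
      have : m ∈ S36L3_W hS C (((1 : Fˣ) : Fˣ) : F) := hm
      rwa [Units.val_one] at this
    exact hW1 m hm' y
  li := li

end Chart

end Fermat.Agent.S36
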