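import Fermat.Agent.S34.InjInst
import Fermat.Agent.S36.InjNewton
import Fermat.Agent.S36.Lat3

/-!
# TRACK 10 (S36), package INJ3 on the lattice layer (helper9): `S36IN_false` instantiated

The analogue of `S34/InjInst.lean` (`S34IC_inj`) for a NON-REDUCED special fibre.

`S : S34L_Lat L F k R` a lattice datum (`A ⊂ L` valuation ring, `O ⊂ F` unit ball,
`red : O → R`), `c ∈ A` a non-unit `≠ 0` such that every `a ≠ 0` divides a power of `c`
(`A` a discrete valuation ring with uniformiser `c = q`), and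

* (`hrad`) the kernel of `red` is the RADICAL of `c·O`: `red f = 0 ⇒ f ^ K ∈ c·O`
  (at level `q²`: `K = q − 1`, the multiplicity of the middle component).

* `S36L3I_inj` : **INJ3 on a lattice datum**: a normalised Kummer generator `u` whose sections
  on the charts `U`, `U'` both contain a function with reduction `1`, with bounded torsion of
  `H¹` (`htors`, TORS3) and only constants regular on `U ∪ U'`, is a trivial Kummer generator
  `u = a·gⁿ`.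
* `S36L3_toLat hS` : the lattice datum of a triple of valuations (`O = O₃`, `red = S36L3_red`);
* `S36L3I_hrad` : `hrad` for the triple from the three valuations separately;
* `S36L3I_mem_M_iff` : `S34IC_M` in the form `fⁿ u ∈ Λ` used by TORS3 (`S36T_htors_kummer`);
* `S36L3I_inj_W` : **the form to use**: `1 ∈ W^u` on the two charts ⇒ `u` trivial.
-/

set_option autoImplicit false

namespace Fermat.Agent.S36

open Fermat.Agent.S18 Fermat.Agent.S34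

section Lat

variable {L F k R : Type*} [Field L] [Field F] [Algebra L F] [Field k] [CommRing R]
  [Algebra k R]

/-- **INJ3 on a lattice datum** (non-reduced special fibre). -/
theorem S36L3I_inj [Nontrivial R] (S : S34L_Lat L F k R)
    (c : S.A) (hc : ¬ IsUnit c) (hc0 : c ≠ 0)
    (hrank : ∀ a : S.A, a ≠ 0 → ∃ N : ℕ, a ∣ c ^ N)
    (hrad : ∃ K : ℕ, ∀ f : S.O, S.red f = 0 → ∃ g : S.O, f ^ K = S.const c * g)
    (n : ℕ) (hn : 0 < n) (hnk : (n : k) ≠ 0)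
    (B B' B'' : Subalgebra L F) (hB : B ≤ B'') (hB' : B' ≤ B'')
    (hroot : ∀ y : F, y ^ n ∈ B → y ∈ B) (hroot' : ∀ y : F, y ^ n ∈ B' → y ∈ B')
    (hroot'' : ∀ y : F, y ^ n ∈ B'' → y ∈ B'')
    (hconst : ∀ f : F, f ∈ B → f ∈ B' → ∃ a : L, f = algebraMap L F a)
    (u : S.O) (hu : S.red u = 1)
    (htors : ∃ c₀ : S.A, c₀ ≠ 0 ∧ ∀ h ∈ S34IC_M S B'' n hroot'' u, ∀ a : S.A, a ≠ 0 →
      a • h ∈ S34IC_M S B n hroot u ⊔ S34IC_M S B' n hroot' u →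
      c₀ • h ∈ S34IC_M S B n hroot u ⊔ S34IC_M S B' n hroot' u)
    (f₁ f₁' : S.O) (hf₁ : (f₁ : F) ^ n * u ∈ B) (hf₁' : (f₁' : F) ^ n * u ∈ B')
    (hr : S.red f₁ = 1) (hr' : S.red f₁' = 1) :
    ∃ (a : L) (g : F), a ≠ 0 ∧ g ≠ 0 ∧ (u : F) = algebraMap L F a * g ^ n := by
  classical
  by_contra hnt
  have hn0 : n ≠ 0 := by omega
  have hne_of_red : ∀ x : S.O, S.red x = 1 → (x : F) ≠ 0 := by
    intro x hx h0
    have : x = 0 := Subtype.ext h0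
    rw [this, map_zero] at hx
    exact zero_ne_one hx
  have hu0 : (u : F) ≠ 0 := hne_of_red u hu
  have htriv : ∀ f : F, f ≠ 0 → ∀ a : L, f ^ n * u = algebraMap L F a → False := by
    intro f hf a ha
    apply hnt
    have ha0 : a ≠ 0 := by
      rintro rfl
      rw [map_zero] at ha
      exact mul_ne_zero (pow_ne_zero _ hf) hu0 ha
    refine ⟨a, f⁻¹, ha0, inv_ne_zero hf, ?_⟩
    rw [← ha, inv_pow]
    field_simp
  set Λ := S34IC_Lam S B with hΛ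
  set Λ' := S34IC_Lam S B' with hΛ'
  set Λ'' := S34IC_Lam S B'' with hΛ''
  set M := S34IC_M S B n hroot u with hMdef
  set M' := S34IC_M S B' n hroot' u with hM'def
  set M'' := S34IC_M S B'' n hroot'' u with hM''def
  have hf₁M : (f₁ : F) ∈ M := ⟨f₁.2, hf₁⟩
  have hf₁'M : (f₁' : F) ∈ M' := ⟨f₁'.2, hf₁'⟩
  have hMle : M ≤ M'' := fun f hf => ⟨hf.1, hB hf.2⟩
  have hM'le : M' ≤ M'' := fun f hf => ⟨hf.1, hB' hf.2⟩
  have hnA : IsUnit ((n : ℕ) : S.A) := by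
    by_contra h
    have := (S.res_eq_zero_iff (n : S.A)).2 h
    rw [map_natCast] at this
    exact hnk this
  have hcL : (c : L) ≠ 0 := fun h => hc0 (Subtype.ext h)
  obtain ⟨K, hK⟩ := hrad
  -- kernel of `red`, with membership in the chart
  have hkerB : ∀ (C : Subalgebra L F) (e : S.O), (e : F) ∈ C → S.red e = 0 →
      ∃ l : F, l ∈ S.O ∧ l ∈ C ∧ (e : F) ^ K = c • l := by
    intro C e heC hred
    obtain ⟨g, hg⟩ := hK e hred
    have hg' : (e : F) ^ K = algebraMap L F (c : L) * (g : F) := by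
      have := congrArg (fun z : S.O => (z : F)) hg
      simpa using this
    refine ⟨g, g.2, ?_, ?_⟩
    · have : (g : F) = algebraMap L F ((c : L)⁻¹) * (e : F) ^ K := by
        rw [hg', ← mul_assoc, ← map_mul, inv_mul_cancel₀ hcL, map_one, one_mul]
      rw [this]
      exact C.mul_mem (C.algebraMap_mem _) (C.pow_mem heC K)
    · rw [hg', Algebra.smul_def]
      rfl
  -- the three congruences modulo the radical
  have h1 : ∃ k : ℕ, ∃ l ∈ Λ, ((f₁ : F) ^ n * u - 1) ^ k = c • l := by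
    have hmem : (f₁ : F) ^ n * u - 1 ∈ B := B.sub_mem hf₁ B.one_mem
    obtain ⟨l, hlO, hlB, he⟩ := hkerB B (f₁ ^ n * u - 1) (by simpa using hmem)
      (by rw [map_sub, map_mul, map_pow, hr, hu]; simp)
    exact ⟨K, l, ⟨hlO, hlB⟩, by simpa using he⟩
  have h2 : ∃ k : ℕ, ∃ l ∈ Λ', ((f₁' : F) ^ n * u - 1) ^ k = c • l := by
    have hmem : (f₁' : F) ^ n * u - 1 ∈ B' := B'.sub_mem hf₁' B'.one_mem
    obtain ⟨l, hlO, hlB, he⟩ := hkerB B' (f₁' ^ n * u - 1) (by simpa using hmem)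
      (by rw [map_sub, map_mul, map_pow, hr', hu]; simp)
    exact ⟨K, l, ⟨hlO, hlB⟩, by simpa using he⟩
  have h3 : ∃ k : ℕ, ∃ l ∈ Λ'', (((f₁ : F) - f₁') ^ n * u) ^ k = c • l := by
    have hsub : (f₁ : F) - f₁' ∈ M'' := M''.sub_mem (hMle hf₁M) (hM'le hf₁'M)
    obtain ⟨l, hlO, hlB, he⟩ := hkerB B'' ((f₁ - f₁') ^ n * u) (by simpa using hsub.2)
      (by rw [map_mul, map_pow, map_sub, hr, hr', sub_self, zero_pow hn0, zero_mul])
    exact ⟨K, l, ⟨hlO, hlB⟩, by simpa using he⟩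
  -- global sections vanish
  have hglob : ∀ f, f ∈ M → f ∈ M' → f = 0 := by
    intro f hf hf'
    by_contra hf0
    obtain ⟨a, ha⟩ := hconst _ hf.2 hf'.2
    exact htriv f hf0 a ha
  refine S36IN_false (A := S.A) (F := F) n hnA (u : F) c hc0 hrank Λ Λ''
    (fun f hf => ⟨hf.1, hB hf.2⟩) Λ' (fun f hf => ⟨hf.1, hB' hf.2⟩) M M' M'' hMle hM'le
    ?_ ?_ ?_ ?_ ?_ hglob htors f₁ f₁' hf₁M hf₁'M ?_ h1 h2 h3 ?_
  · rintro a ⟨haO, haB⟩ f ⟨hfO, hf⟩
    refine ⟨S.O.mul_mem haO hfO, ?_⟩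
    rw [mul_pow, mul_assoc]
    exact B.mul_mem (B.pow_mem haB n) hf
  · rintro a ⟨haO, haB⟩ f ⟨hfO, hf⟩
    refine ⟨S.O.mul_mem haO hfO, ?_⟩
    rw [mul_pow, mul_assoc]
    exact B'.mul_mem (B'.pow_mem haB n) hf
  · rintro a ⟨haO, haB⟩ f ⟨hfO, hf⟩
    refine ⟨S.O.mul_mem haO hfO, ?_⟩
    rw [mul_pow, mul_assoc]
    exact B''.mul_mem (B''.pow_mem haB n) hf
  · intro t ht h
    refine ⟨S.O.mul_mem (S.O.multiset_prod_mem t fun f hf => (h f hf).1) u.2, ?_⟩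
    exact S34IC_prod_mem B n hroot u t ht fun f hf => (h f hf).2
  · intro t ht h
    refine ⟨S.O.mul_mem (S.O.multiset_prod_mem t fun f hf => (h f hf).1) u.2, ?_⟩
    exact S34IC_prod_mem B'' n hroot'' u t ht fun f hf => (h f hf).2
  · exact ⟨S.O.mul_mem (S.O.pow_mem f₁'.2 n) u.2, hf₁'⟩
  · -- hprim
    rintro l ⟨hlO, -⟩ h1l
    have h : S.red (1 : S.O) = S.red (S.const c * ⟨l, hlO⟩) := by
      congr 1
      apply Subtype.ext
      show (1 : F) = algebraMap L F (c : L) * l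
      rw [h1l, Algebra.smul_def]
      rfl
    rw [map_one, map_mul, S.red_const, (S.res_eq_zero_iff c).2 hc, map_zero, zero_mul] at h
    exact one_ne_zero h

/-- `S34IC_M` in the form `fⁿ u ∈ Λ` (used by TORS3), for a unit `u` of a root closed `O`. -/
theorem S36L3I_mem_M_iff (S : S34L_Lat L F k R) (B : Subalgebra L F) (n : ℕ)
    (hroot : ∀ y : F, y ^ n ∈ B → y ∈ B) (hOroot : ∀ y : F, y ^ n ∈ S.O → y ∈ S.O)
    (u : F) (hu : u ∈ S.O) (hui : u⁻¹ ∈ S.O) (hu0 : u ≠ 0) (f : F) :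
    f ∈ S34IC_M S B n hroot u ↔ f ^ n * u ∈ S34IC_Lam S B := by
  rw [S34IC_mem_M, S34IC_mem_Lam]
  constructor
  · rintro ⟨hfO, hfB⟩
    exact ⟨S.O.mul_mem (S.O.pow_mem hfO n) hu, hfB⟩
  · rintro ⟨hO, hfB⟩
    refine ⟨hOroot f ?_, hfB⟩
    have : f ^ n = f ^ n * u * u⁻¹ := by
      rw [mul_assoc, mul_inv_cancel₀ hu0, mul_one]
    rw [this]
    exact S.O.mul_mem hO hui

end Lat

/-! ### The triple of valuations -/

section Triple

variable {L F k Fk₁ Fk₂ Fk₃ : Type*} [Field L] [Field F] [Algebra L F] [Field k]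
  [Field Fk₁] [Field Fk₂] [Field Fk₃] [Algebra k Fk₁] [Algebra k Fk₂] [Algebra k Fk₃]
  {S₁ : S18_Val L F k Fk₁} {S₂ : S18_Val L F k Fk₂} {S₃ : S18_Val L F k Fk₃}

/-- the lattice datum of a triple of valuations. -/
def S36L3_toLat (hS : S36L3_Same S₁ S₂ S₃) : S34L_Lat L F k (Fk₁ × Fk₂ × Fk₃) where
  A := S₁.A
  res := S₁.res
  res_surjective := S₁.res_surjective
  res_eq_zero_iff := S₁.res_eq_zero_iff
  O := S36L3_O3 S₁ S₂ S₃
  red := S36L3_red S₁ S₂ S₃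
  algebraMap_mem := fun a ha => S36L3_const_mem hS ⟨a, ha⟩
  red_algebraMap := by
    intro a ha haO
    have := S36L3_red_const hS ⟨a, ha⟩
    rw [show (⟨algebraMap L F a, haO⟩ : S36L3_O3 S₁ S₂ S₃) =
      ⟨algebraMap L F ((⟨a, ha⟩ : S₁.A) : L), S36L3_const_mem hS ⟨a, ha⟩⟩ from rfl, this]
    rfl
  isUnit_of_red := by
    intro x hx
    have h1 : (S36L3_red S₁ S₂ S₃ x).1 ≠ 0 := by
      have := (Prod.isUnit_iff.1 hx).1
      exact this.ne_zero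
    have h2 : (S36L3_red S₁ S₂ S₃ x).2.1 ≠ 0 := by
      have := (Prod.isUnit_iff.1 (Prod.isUnit_iff.1 hx).2).1
      exact this.ne_zero
    have h3 : (S36L3_red S₁ S₂ S₃ x).2.2 ≠ 0 := by
      have := (Prod.isUnit_iff.1 (Prod.isUnit_iff.1 hx).2).2
      exact this.ne_zero
    have hx0 : (x : F) ≠ 0 := by
      intro h0
      have : x = 0 := Subtype.ext h0
      rw [this, map_zero] at h1
      exact h1 rfl
    have hinv := S36L3_inv_mem_O3 S₁ S₂ S₃ x.2 h1 h2 h3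
    exact isUnit_iff_exists_inv.2 ⟨⟨(x : F)⁻¹, hinv⟩, Subtype.ext (mul_inv_cancel₀ hx0)⟩

@[simp] theorem S36L3_toLat_O (hS : S36L3_Same S₁ S₂ S₃) :
    (S36L3_toLat hS).O = S36L3_O3 S₁ S₂ S₃ := rfl

@[simp] theorem S36L3_toLat_A (hS : S36L3_Same S₁ S₂ S₃) : (S36L3_toLat hS).A = S₁.A := rfl

theorem S36L3_toLat_red (hS : S36L3_Same S₁ S₂ S₃) (f : S36L3_O3 S₁ S₂ S₃) :
    (S36L3_toLat hS).red f = S36L3_red S₁ S₂ S₃ f := rfl

/-- a valuation ring is root closed. -/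
theorem S36L3I_root_val (O : ValuationSubring F) {n : ℕ} (hn : 0 < n) (y : F)
    (hy : y ^ n ∈ O) : y ∈ O := by
  by_contra hyO
  have hy0 : y ≠ 0 := fun h => hyO (h ▸ O.zero_mem)
  have hinv : y⁻¹ ∈ O := (O.mem_or_inv_mem y).resolve_left hyO
  -- `y = y ^ n * (y⁻¹) ^ (n - 1)`
  have e : y = y ^ n * y⁻¹ ^ (n - 1) := by
    have h1 : y ^ n = y ^ (n - 1) * y := by
      rw [← pow_succ]; congr 1; omega
    rw [h1, mul_assoc, mul_comm y, ← mul_assoc, ← mul_pow, mul_inv_cancel₀ hy0, one_pow,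
      one_mul]
  apply hyO
  rw [e]
  exact mul_mem hy (pow_mem hinv _)

/-- `O₃` is root closed. -/
theorem S36L3I_root_O3 {n : ℕ} (hn : 0 < n) (y : F) (hy : y ^ n ∈ S36L3_O3 S₁ S₂ S₃) :
    y ∈ S36L3_O3 S₁ S₂ S₃ :=
  ⟨S36L3I_root_val S₁.O hn y hy.1, S36L3I_root_val S₂.O hn y hy.2.1,
    S36L3I_root_val S₃.O hn y hy.2.2⟩

/-- **`hrad` for the triple** from the three valuations separately: if on each valuation ring
an element with reduction `0` has its `K`-th power divisible by `c`, the same holds in `O₃`. -/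
theorem S36L3I_hrad (hS : S36L3_Same S₁ S₂ S₃) (c : S₁.A) (K : ℕ)
    (h₁ : ∀ f : S₁.O, S₁.red f = 0 → (algebraMap L F (c : L))⁻¹ * (f : F) ^ K ∈ S₁.O)
    (h₂ : ∀ f : S₂.O, S₂.red f = 0 → (algebraMap L F (c : L))⁻¹ * (f : F) ^ K ∈ S₂.O)
    (h₃ : ∀ f : S₃.O, S₃.red f = 0 → (algebraMap L F (c : L))⁻¹ * (f : F) ^ K ∈ S₃.O)
    (hc0 : c ≠ 0) :
    ∃ K : ℕ, ∀ f : (S36L3_toLat hS).O, (S36L3_toLat hS).red f = 0 →
      ∃ g : (S36L3_toLat hS).O, f ^ K = (S36L3_toLat hS).const c * g := by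
  refine ⟨K, ?_⟩
  intro f hf
  have hcL : algebraMap L F (c : L) ≠ 0 := by
    intro h
    apply hc0
    apply Subtype.ext
    have := (algebraMap L F).injective (h.trans (map_zero _).symm)
    exact this
  have e1 : S₁.red ⟨f, f.2.1⟩ = 0 := congrArg Prod.fst hf
  have e2 : S₂.red ⟨f, f.2.2.1⟩ = 0 := congrArg (fun z => z.2.1) hf
  have e3 : S₃.red ⟨f, f.2.2.2⟩ = 0 := congrArg (fun z => z.2.2) hf
  refine ⟨⟨(algebraMap L F (c : L))⁻¹ * (f : F) ^ K,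
    ⟨h₁ _ e1, h₂ _ e2, h₃ _ e3⟩⟩, ?_⟩
  apply Subtype.ext
  show ((f ^ K : (S36L3_toLat hS).O) : F) =
    algebraMap L F (c : L) * ((algebraMap L F (c : L))⁻¹ * (f : F) ^ K)
  rw [← mul_assoc, mul_inv_cancel₀ hcL, one_mul]
  rfl

/-- **INJ3, the form to use**: `1 ∈ W^u` on the charts `U` and `U'` ⇒ `u` is trivial. -/
theorem S36L3I_inj_W (hS : S36L3_Same S₁ S₂ S₃)
    (c : S₁.A) (hc : ¬ IsUnit c) (hc0 : c ≠ 0)
    (hrank : ∀ a : S₁.A, a ≠ 0 → ∃ N : ℕ, a ∣ c ^ N)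
    (hrad : ∃ K : ℕ, ∀ f : (S36L3_toLat hS).O, (S36L3_toLat hS).red f = 0 →
      ∃ g : (S36L3_toLat hS).O, f ^ K = (S36L3_toLat hS).const c * g)
    (n : ℕ) (hnk : (n : k) ≠ 0)
    (C C' C'' : S36L3_Chart L F k Fk₁ Fk₂ Fk₃ n) (hB : C.B ≤ C''.B) (hB' : C'.B ≤ C''.B)
    (hconst : ∀ f : F, f ∈ C.B → f ∈ C'.B → ∃ a : L, f = algebraMap L F a)
    (u : F) (hu : u ∈ S36L3_Norm S₁ S₂ S₃)
    (htors : ∃ c₀ : S₁.A, c₀ ≠ 0 ∧
      ∀ h ∈ S34IC_M (S36L3_toLat hS) C''.B n C''.root u, ∀ a : S₁.A, a ≠ 0 →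
      a • h ∈ S34IC_M (S36L3_toLat hS) C.B n C.root u ⊔
        S34IC_M (S36L3_toLat hS) C'.B n C'.root u →
      c₀ • h ∈ S34IC_M (S36L3_toLat hS) C.B n C.root u ⊔
        S34IC_M (S36L3_toLat hS) C'.B n C'.root u)
    (h1 : (1 : ↥C.Rb₁ × ↥C.Rb₂ × ↥C.Rb₃) ∈ S36L3_W hS C u)
    (h1' : (1 : ↥C'.Rb₁ × ↥C'.Rb₂ × ↥C'.Rb₃) ∈ S36L3_W hS C' u) :
    ∃ (a : L) (g : F), a ≠ 0 ∧ g ≠ 0 ∧ u = algebraMap L F a * g ^ n := by
  obtain ⟨hu1, hu2⟩ := hu
  rw [S36L3_mem_W] at h1 h1'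
  obtain ⟨f₁, hf₁, hr⟩ := h1
  obtain ⟨f₁', hf₁', hr'⟩ := h1'
  exact S36L3I_inj (S36L3_toLat hS) c hc hc0 hrank hrad n C.hn hnk C.B C'.B C''.B hB hB'
    C.root C'.root C''.root hconst ⟨u, hu1⟩ hu2 htors f₁ f₁' hf₁ hf₁' hr hr'

end Triple

end Fermat.Agent.S36
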