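import Fermat.Agent.S36.Gamma3

/-!
# TRACK 10 (S36), package NORMGLUE (helper11, after helper13's design note (A))

On top of `S36G_Datum` (GAMMA3).  If the gluing invariants `γ₁ u, γ₂ u` of a normalised
generator `u` satisfy the two norm relations (newness at level `q²`: the norms of `u` under the
two degeneracy maps are trivial at level `q`)

* `γ₁ u y ^ (q - 1) = ξ * γ₂ u y ^ q`,
* `ξ' * (γ₁ u y ^ (q - 1) * γ₂ u y) = 1`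

with constants `ξ ξ'` independent of the point `y`, then `γ (u ^ (q ^ 2 - 1))` is constant, hence
(`renorm` + `inj`) `u ^ (q ^ 2 - 1)` is trivial.

* `S36G_Datum.γ_npow`          : `γ (u ^ m) = γ u ^ m`;
* `S36G_Datum.mem_of_const`    : constant invariant ⇒ trivial (from `inj` and `renorm`);
* `S36G_Datum.normglue`        : the `γ`-form;
* `S36G_Datum.normglue_val`    : the value form (branch values `(a, b, c)` of a section at `y`: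
  `a * b ^ (q - 1) = ξ * c ^ q`, `a ^ q = ξ' * b ^ (q - 1) * c`).
-/

set_option autoImplicit false

namespace Fermat.Agent.S36

namespace S36G_Datum

variable {F k R₁ R₂ R₃ ι : Type*} [Field F] [Field k] [CommRing R₁] [CommRing R₂]
  [CommRing R₃] [Algebra k R₁] [Algebra k R₂] [Algebra k R₃] {n : ℕ}
  (D : S36G_Datum F k R₁ R₂ R₃ ι n)

/-- the invariant of a power. -/
theorem γ_npow {u : Fˣ} (hu : u ∈ D.Kp) (m : ℕ) (y : ι) :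
    D.γ₁ (u ^ m) y = D.γ₁ u y ^ m ∧ D.γ₂ (u ^ m) y = D.γ₂ u y ^ m := by
  induction m with
  | zero =>
    simp only [pow_zero]
    exact D.γ_one y
  | succ m ih =>
    have h := D.γ_mul (D.Kp.pow_mem hu m) hu y
    rw [pow_succ, pow_succ, pow_succ, h.1, h.2, ih.1, ih.2]
    exact ⟨rfl, rfl⟩

/-- the invariant of an inverse. -/
theorem γ_inv {u : Fˣ} (hu : u ∈ D.Kp) (y : ι) :
    D.γ₁ u⁻¹ y = (D.γ₁ u y)⁻¹ ∧ D.γ₂ u⁻¹ y = (D.γ₂ u y)⁻¹ := by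
  have h := D.γ_mul hu (D.Kp.inv_mem hu) y
  rw [mul_inv_cancel] at h
  obtain ⟨o1, o2⟩ := D.γ_one y
  rw [o1] at h
  rw [o2] at h
  exact ⟨eq_inv_of_mul_eq_one_right h.1.symm, eq_inv_of_mul_eq_one_right h.2.symm⟩

/-- **a generator with constant invariant is trivial** (`inj` = INJ3, `renorm` = the constants
are the invariants of trivial generators). -/
theorem mem_of_const (Triv : Subgroup Fˣ)
    (inj : ∀ u ∈ D.Kp, (∀ y, D.γ₁ u y = 1 ∧ D.γ₂ u y = 1) → u ∈ Triv)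
    (renorm : ∀ ζ₁ ζ₂ : k, ζ₁ ^ n = 1 → ζ₂ ^ n = 1 →
      ∃ t ∈ D.Kp, t ∈ Triv ∧ ∀ y, D.γ₁ t y = ζ₁ ∧ D.γ₂ t y = ζ₂)
    {v : Fˣ} (hv : v ∈ D.Kp)
    (hc : ∀ y y', D.γ₁ v y = D.γ₁ v y' ∧ D.γ₂ v y = D.γ₂ v y') : v ∈ Triv := by
  rcases isEmpty_or_nonempty ι with hι | ⟨⟨y₀⟩⟩
  · exact inj v hv (fun y => (hι.false y).elim)
  · obtain ⟨z1, z2⟩ := D.γ_pow hv y₀
    obtain ⟨t, htK, htT, ht⟩ := renorm _ _ z1 z2
    have h3 : v * t⁻¹ ∈ Triv := by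
      apply inj _ (D.Kp.mul_mem hv (D.Kp.inv_mem htK))
      intro y
      have hm := D.γ_mul hv (D.Kp.inv_mem htK) y
      have hi := D.γ_inv htK y
      rw [hm.1, hm.2, hi.1, hi.2, (ht y).1, (ht y).2, (hc y y₀).1, (hc y y₀).2]
      exact ⟨mul_inv_cancel₀ (D.γ₁_ne_zero hv y₀), mul_inv_cancel₀ (D.γ₂_ne_zero hv y₀)⟩
    have h4 : v = v * t⁻¹ * t := by group
    rw [h4]
    exact Triv.mul_mem h3 htT

/-- **NORMGLUE**, `γ`-form. -/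
theorem normglue (Triv : Subgroup Fˣ)
    (inj : ∀ u ∈ D.Kp, (∀ y, D.γ₁ u y = 1 ∧ D.γ₂ u y = 1) → u ∈ Triv)
    (renorm : ∀ ζ₁ ζ₂ : k, ζ₁ ^ n = 1 → ζ₂ ^ n = 1 →
      ∃ t ∈ D.Kp, t ∈ Triv ∧ ∀ y, D.γ₁ t y = ζ₁ ∧ D.γ₂ t y = ζ₂)
    (q : ℕ) (hq : 1 ≤ q) {u : Fˣ} (hu : u ∈ D.Kp) (ξ ξ' : k)
    (hN₁ : ∀ y, D.γ₁ u y ^ (q - 1) = ξ * D.γ₂ u y ^ q)
    (hN₂ : ∀ y, ξ' * (D.γ₁ u y ^ (q - 1) * D.γ₂ u y) = 1) :
    u ^ (q ^ 2 - 1) ∈ Triv := by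
  have hq2 : q ^ 2 - 1 = (q - 1) * (q + 1) := by
    obtain ⟨r, rfl⟩ : ∃ r, q = r + 1 := ⟨q - 1, by omega⟩
    have : (r + 1) ^ 2 = r * (r + 1 + 1) + 1 := by ring
    rw [this]
    simp
  -- the two constants
  have key : ∀ y, ξ' * ξ * D.γ₂ u y ^ (q + 1) = 1 ∧
      ξ' ^ (q + 1) * D.γ₁ u y ^ ((q - 1) * (q + 1)) * D.γ₂ u y ^ (q + 1) = 1 := by
    intro y
    constructor
    · have := hN₂ y
      rw [hN₁ y] at this
      rw [pow_succ]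
      linear_combination this
    · rw [pow_mul, ← mul_pow, ← mul_pow, mul_assoc, hN₂ y, one_pow]
  apply D.mem_of_const Triv inj renorm (D.Kp.pow_mem hu _)
  intro y y'
  rw [(D.γ_npow hu _ y).1, (D.γ_npow hu _ y).2, (D.γ_npow hu _ y').1, (D.γ_npow hu _ y').2]
  obtain ⟨a1, a2⟩ := key y
  obtain ⟨b1, b2⟩ := key y'
  have hξ : ξ' * ξ ≠ 0 := by
    intro h
    rw [h, zero_mul] at a1
    exact zero_ne_one a1
  have h2 : D.γ₂ u y ^ (q + 1) = D.γ₂ u y' ^ (q + 1) := by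
    apply mul_left_cancel₀ hξ
    rw [a1, b1]
  have hg2 : D.γ₂ u y' ^ (q + 1) ≠ 0 := pow_ne_zero _ (D.γ₂_ne_zero hu y')
  have hξ' : ξ' ^ (q + 1) ≠ 0 := by
    intro h
    rw [h, zero_mul, zero_mul] at a2
    exact zero_ne_one a2
  have h1 : D.γ₁ u y ^ ((q - 1) * (q + 1)) = D.γ₁ u y' ^ ((q - 1) * (q + 1)) := by
    apply mul_left_cancel₀ hξ'
    apply mul_right_cancel₀ hg2
    rw [b2, ← h2, a2]
  rw [hq2]
  refine ⟨h1, ?_⟩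
  rw [mul_comm (q - 1) (q + 1), pow_mul, pow_mul, h2]

/-- **NORMGLUE**, value form: at every point `y` there is a section `m ∈ W u` with branch values
`(a, b, c)`, `a ≠ 0`, such that `a * b ^ (q - 1) = ξ * c ^ q` and
`ξ' * (b ^ (q - 1) * c) = a ^ q`. -/
theorem normglue_val (Triv : Subgroup Fˣ)
    (inj : ∀ u ∈ D.Kp, (∀ y, D.γ₁ u y = 1 ∧ D.γ₂ u y = 1) → u ∈ Triv)
    (renorm : ∀ ζ₁ ζ₂ : k, ζ₁ ^ n = 1 → ζ₂ ^ n = 1 →
      ∃ t ∈ D.Kp, t ∈ Triv ∧ ∀ y, D.γ₁ t y = ζ₁ ∧ D.γ₂ t y = ζ₂)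
    (q : ℕ) (hq : 1 ≤ q) {u : Fˣ} (hu : u ∈ D.Kp) (ξ ξ' : k)
    (hV : ∀ y, ∃ m ∈ D.W u, D.e₁ y m.1 ≠ 0 ∧
      D.e₁ y m.1 * D.e₂ y m.2.1 ^ (q - 1) = ξ * D.e₃ y m.2.2 ^ q ∧
      ξ' * (D.e₂ y m.2.1 ^ (q - 1) * D.e₃ y m.2.2) = D.e₁ y m.1 ^ q) :
    u ^ (q ^ 2 - 1) ∈ Triv := by
  have hq' : q = (q - 1) + 1 := by omega
  apply D.normglue Triv inj renorm q hq hu ξ ξ'
  · intro y
    obtain ⟨m, hm, ha, r1, -⟩ := hV y
    obtain ⟨s1, s2⟩ := D.spec hu hm y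
    rw [s1, s2, mul_pow, mul_pow] at r1
    have haq : D.e₁ y m.1 ^ q ≠ 0 := pow_ne_zero _ ha
    apply mul_right_cancel₀ haq
    have e : D.e₁ y m.1 ^ q = D.e₁ y m.1 * D.e₁ y m.1 ^ (q - 1) := by
      conv_lhs => rw [hq', pow_succ']
    rw [mul_assoc, ← r1, e]
    ring
  · intro y
    obtain ⟨m, hm, ha, -, r2⟩ := hV y
    obtain ⟨s1, s2⟩ := D.spec hu hm y
    rw [s1, s2, mul_pow] at r2
    have haq : D.e₁ y m.1 ^ q ≠ 0 := pow_ne_zero _ ha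
    apply mul_right_cancel₀ haq
    have e : D.e₁ y m.1 ^ q = D.e₁ y m.1 ^ (q - 1) * D.e₁ y m.1 := by
      conv_lhs => rw [hq', pow_succ]
    rw [one_mul]
    conv_rhs => rw [← r2]
    rw [e]
    ring

end S36G_Datum

end Fermat.Agent.S36
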