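import Fermat.Agent.S36.Triv3
import Fermat.Agent.S36.NormGlue
import Fermat.Agent.S36.Inj3Lat

/-!
# TRACK 10 (S36), ASSEMBLY of GAMMA3 + TRIV + INJ3 + NORMGLUE on the lattice layer (helper11)

Three valuation data `S₁ S₂ S₃ : S18_Val L F k Fk_j` (`FF`, `FV`, `VV`), `hS : S36L3_Same`, three
charts `C` (`U`), `C'` (`U'`), `C''` (`U ∩ U'`) of LAT3, a group `Kp` of normalised generators.

* `S36TL_Chart hS C Kp ι` : the inputs of TRIV on one chart (evaluations at the triple points,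
  `hW1`, `li`, the ideal `c ⊂ W¹` of (R11b'), `hsep`, (LI) at all closed points);
* `S36TL_Chart.datum`      : the `S36G_Datum` of the chart;
* `S36TL_Chart.one_mem`    : **TRIV** on the chart: `γ u ≡ 1 ⇒ 1 ∈ W^u`;
* `S36TL_Triv`             : the trivial Kummer generators `a·gⁿ`, as a subgroup of `Fˣ`;
* `S36TL_gam_one'`         : `γ_U u ≡ 1 ⇒ γ_{U'} u ≡ 1` (through the chart `U ∩ U'`);
* `S36TL_inj`              : **INJ3**: `γ_U u ≡ 1 ⇒ u = a·gⁿ`;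
* `S36TL_renorm`           : `renorm` from the approximation theorem for the three valuations;
* `S36TL_core`             : **the local core**: the two norm relations (NORMGLUE) for a
  normalised generator `u` ⇒ `u ^ (q² − 1) = a·gⁿ`.
-/

set_option autoImplicit false
set_option linter.unusedSectionVars false
set_option linter.style.haveILetI false

namespace Fermat.Agent.S36

open Fermat.Agent.S18 Fermat.Agent.S34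

variable {L F k Fk₁ Fk₂ Fk₃ : Type*} [Field L] [Field F] [Algebra L F] [Field k]
  [Field Fk₁] [Field Fk₂] [Field Fk₃] [Algebra k Fk₁] [Algebra k Fk₂] [Algebra k Fk₃]

/-! ### trivial Kummer generators -/

/-- the trivial Kummer generators `a·gⁿ`. -/
def S36TL_Triv (L : Type*) {F : Type*} [Field L] [Field F] [Algebra L F] (n : ℕ) :
    Subgroup Fˣ where
  carrier := {u | ∃ (a : L) (g : F), a ≠ 0 ∧ g ≠ 0 ∧ (u : F) = algebraMap L F a * g ^ n}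
  mul_mem' := by
    rintro u v ⟨a, g, ha, hg, hu⟩ ⟨a', g', ha', hg', hv⟩
    refine ⟨a * a', g * g', mul_ne_zero ha ha', mul_ne_zero hg hg', ?_⟩
    rw [Units.val_mul, hu, hv, map_mul, mul_pow]
    ring
  one_mem' := ⟨1, 1, one_ne_zero, one_ne_zero, by simp⟩
  inv_mem' := by
    rintro u ⟨a, g, ha, hg, hu⟩
    refine ⟨a⁻¹, g⁻¹, inv_ne_zero ha, inv_ne_zero hg, ?_⟩
    rw [Units.val_inv_eq_inv_val, hu, map_inv₀, inv_pow, mul_inv]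

theorem S36TL_mem_Triv {n : ℕ} {u : Fˣ} :
    u ∈ S36TL_Triv L (F := F) n ↔
      ∃ (a : L) (g : F), a ≠ 0 ∧ g ≠ 0 ∧ (u : F) = algebraMap L F a * g ^ n := Iff.rfl

section Chart

variable {S₁ : S18_Val L F k Fk₁} {S₂ : S18_Val L F k Fk₂} {S₃ : S18_Val L F k Fk₃}
  (hS : S36L3_Same S₁ S₂ S₃)

/-- the inputs of TRIV on a chart `C`. -/
structure S36TL_Chart {n : ℕ} (C : S36L3_Chart L F k Fk₁ Fk₂ Fk₃ n) (Kp : Subgroup Fˣ)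
    (ι : Type*) where
  /-- evaluation at the triple point `y` on the branch `FF` -/
  e₁ : ι → ↥C.Rb₁ →ₐ[k] k
  /-- evaluation at the triple point `y` on the branch `FV` -/
  e₂ : ι → ↥C.Rb₂ →ₐ[k] k
  /-- evaluation at the triple point `y` on the branch `VV` -/
  e₃ : ι → ↥C.Rb₃ →ₐ[k] k
  hW1 : ∀ m ∈ S36L3_W hS C 1, ∀ y, e₁ y m.1 = e₂ y m.2.1 ∧ e₁ y m.1 = e₃ y m.2.2
  li : ∀ u ∈ Kp, ∀ y, ∃ m ∈ S36L3_W hS C ((u : Fˣ) : F),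
    e₁ y m.1 ≠ 0 ∧ e₂ y m.2.1 ≠ 0 ∧ e₃ y m.2.2 ≠ 0
  /-- the conductor-type ideal of (R11b') -/
  c : Ideal (↥C.Rb₁ × ↥C.Rb₂ × ↥C.Rb₃)
  hcW : ∀ x ∈ c, x ∈ S36L3_W hS C 1
  hnil : ∀ x : ↥C.Rb₁ × ↥C.Rb₂ × ↥C.Rb₃,
    (∀ y, e₁ y x.1 = 0 ∧ e₂ y x.2.1 = 0 ∧ e₃ y x.2.2 = 0) → x ^ 2 ∈ c
  hsep : ∀ y, ∃ w ∈ S36L3_W hS C 1, e₁ y w.1 = 1 ∧ ∀ y', y' ≠ y → e₁ y' w.1 = 0
  h₁ : ∀ u ∈ Kp, ∀ 𝔫 : Ideal ↥C.Rb₁, 𝔫.IsMaximal →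
    ∃ m ∈ S36L3_W hS C ((u : Fˣ) : F), m.1 ∉ 𝔫
  h₂ : ∀ u ∈ Kp, ∀ 𝔫 : Ideal ↥C.Rb₂, 𝔫.IsMaximal →
    ∃ m ∈ S36L3_W hS C ((u : Fˣ) : F), m.2.1 ∉ 𝔫
  h₃ : ∀ u ∈ Kp, ∀ 𝔫 : Ideal ↥C.Rb₃, 𝔫.IsMaximal →
    ∃ m ∈ S36L3_W hS C ((u : Fˣ) : F), m.2.2 ∉ 𝔫

namespace S36TL_Chart

variable {hS} {n : ℕ} {C : S36L3_Chart L F k Fk₁ Fk₂ Fk₃ n} {Kp : Subgroup Fˣ} {ι : Type*}

/-- the datum of GAMMA3 of the chart. -/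
noncomputable def datum (T : S36TL_Chart hS C Kp ι) (hKp : Kp ≤ S36L3_NormGrp S₁ S₂ S₃) :
    S36G_Datum F k ↥C.Rb₁ ↥C.Rb₂ ↥C.Rb₃ ι n :=
  S36L3_mkDatum hS C T.e₁ T.e₂ T.e₃ Kp hKp T.hW1 T.li

theorem datum_W (T : S36TL_Chart hS C Kp ι) (hKp : Kp ≤ S36L3_NormGrp S₁ S₂ S₃) (u : Fˣ) :
    (T.datum hKp).W u = S36L3_W hS C ((u : Fˣ) : F) := rfl

theorem datum_W_one (T : S36TL_Chart hS C Kp ι) (hKp : Kp ≤ S36L3_NormGrp S₁ S₂ S₃) :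
    (T.datum hKp).W 1 = S36L3_W hS C 1 := by
  rw [datum_W, Units.val_one]

theorem datum_Kp (T : S36TL_Chart hS C Kp ι) (hKp : Kp ≤ S36L3_NormGrp S₁ S₂ S₃) :
    (T.datum hKp).Kp = Kp := rfl

theorem datum_e₁ (T : S36TL_Chart hS C Kp ι) (hKp : Kp ≤ S36L3_NormGrp S₁ S₂ S₃) :
    (T.datum hKp).e₁ = T.e₁ := rfl

theorem datum_e₂ (T : S36TL_Chart hS C Kp ι) (hKp : Kp ≤ S36L3_NormGrp S₁ S₂ S₃) :
    (T.datum hKp).e₂ = T.e₂ := rfl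

theorem datum_e₃ (T : S36TL_Chart hS C Kp ι) (hKp : Kp ≤ S36L3_NormGrp S₁ S₂ S₃) :
    (T.datum hKp).e₃ = T.e₃ := rfl

/-- **TRIV on a chart**: trivial gluing invariant ⇒ `1 ∈ W^u`. -/
theorem one_mem (T : S36TL_Chart hS C Kp ι) (hKp : Kp ≤ S36L3_NormGrp S₁ S₂ S₃)
    (q : ℕ) [hq : Fact q.Prime] [CharP k q] (hnq : Nat.Coprime n q) [Finite ι]
    {u : Fˣ} (hu : u ∈ Kp)
    (hγ : ∀ y, (T.datum hKp).γ₁ u y = 1 ∧ (T.datum hKp).γ₂ u y = 1) :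
    (1 : ↥C.Rb₁ × ↥C.Rb₂ × ↥C.Rb₃) ∈ S36L3_W hS C ((u : Fˣ) : F) := by
  have h := (T.datum hKp).one_mem_W_of_max q hnq T.c
    (by
      intro x hx
      rw [datum_W_one]
      exact T.hcW x hx)
    T.hnil
    (by
      intro y
      obtain ⟨w, hw, h1, h0⟩ := T.hsep y
      refine ⟨w, ?_, h1, h0⟩
      rw [datum_W_one]
      exact hw)
    (u := u) hu
    (by
      intro m hm
      rw [datum_W_one]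
      exact S36L3_pow_mem_W hS C (hKp hu) hm)
    hγ (T.h₁ u hu) (T.h₂ u hu) (T.h₃ u hu)
  exact h

end S36TL_Chart

/-! ### from the chart `U` to the chart `U'` -/

/-- **the gluing invariant on `U'` is trivial if it is on `U`**, through the chart
`C'' = U ∩ U'`: one needs only the evaluations on `C''` (extending those of `C` and `C'`) and
`hW1` on `C''`. -/
theorem S36TL_gam_one' {n : ℕ} {ι : Type*} {C C' C'' : S36L3_Chart L F k Fk₁ Fk₂ Fk₃ n}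
    (hle : S36L3_ChartLE C C'') (hle' : S36L3_ChartLE C' C'')
    {Kp : Subgroup Fˣ} (hKp : Kp ≤ S36L3_NormGrp S₁ S₂ S₃)
    (T : S36TL_Chart hS C Kp ι) (T' : S36TL_Chart hS C' Kp ι)
    (e₁ : ι → ↥C''.Rb₁ →ₐ[k] k) (e₂ : ι → ↥C''.Rb₂ →ₐ[k] k) (e₃ : ι → ↥C''.Rb₃ →ₐ[k] k)
    (hW1 : ∀ m ∈ S36L3_W hS C'' 1, ∀ y, e₁ y m.1 = e₂ y m.2.1 ∧ e₁ y m.1 = e₃ y m.2.2)
    (c₁ : ∀ y (r : ↥C.Rb₁), e₁ y ⟨r, hle.Rb₁_le r.2⟩ = T.e₁ y r)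
    (c₂ : ∀ y (r : ↥C.Rb₂), e₂ y ⟨r, hle.Rb₂_le r.2⟩ = T.e₂ y r)
    (c₃ : ∀ y (r : ↥C.Rb₃), e₃ y ⟨r, hle.Rb₃_le r.2⟩ = T.e₃ y r)
    (c₁' : ∀ y (r : ↥C'.Rb₁), e₁ y ⟨r, hle'.Rb₁_le r.2⟩ = T'.e₁ y r)
    (c₂' : ∀ y (r : ↥C'.Rb₂), e₂ y ⟨r, hle'.Rb₂_le r.2⟩ = T'.e₂ y r)
    (c₃' : ∀ y (r : ↥C'.Rb₃), e₃ y ⟨r, hle'.Rb₃_le r.2⟩ = T'.e₃ y r)
    {u : Fˣ} (hu : u ∈ Kp)
    (hγ : ∀ y, (T.datum hKp).γ₁ u y = 1 ∧ (T.datum hKp).γ₂ u y = 1) :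
    ∀ y, (T'.datum hKp).γ₁ u y = 1 ∧ (T'.datum hKp).γ₂ u y = 1 := by
  -- the datum on `C''`
  have li'' : ∀ v ∈ Kp, ∀ y, ∃ m ∈ S36L3_W hS C'' ((v : Fˣ) : F),
      e₁ y m.1 ≠ 0 ∧ e₂ y m.2.1 ≠ 0 ∧ e₃ y m.2.2 ≠ 0 := by
    intro v hv y
    obtain ⟨m, hm, h1, h2, h3⟩ := T.li v hv y
    refine ⟨S36L3_chartMap hle m, S36L3_W_mono hS hle hm, ?_, ?_, ?_⟩
    · show e₁ y ⟨m.1, _⟩ ≠ 0
      rw [c₁]; exact h1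
    · show e₂ y ⟨m.2.1, _⟩ ≠ 0
      rw [c₂]; exact h2
    · show e₃ y ⟨m.2.2, _⟩ ≠ 0
      rw [c₃]; exact h3
  let D'' : S36G_Datum F k ↥C''.Rb₁ ↥C''.Rb₂ ↥C''.Rb₃ ι n :=
    S36L3_mkDatum hS C'' e₁ e₂ e₃ Kp hKp hW1 li''
  have hγ'' : ∀ y, D''.γ₁ u y = 1 ∧ D''.γ₂ u y = 1 :=
    ((T.datum hKp).γ_one_of_map D''
      (fun r => ⟨r, hle.Rb₁_le r.2⟩) (fun r => ⟨r, hle.Rb₂_le r.2⟩)
      (fun r => ⟨r, hle.Rb₃_le r.2⟩) c₁ c₂ c₃ hu hu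
      (fun m hm => S36L3_W_mono hS hle hm)).1 hγ
  exact ((T'.datum hKp).γ_one_of_map D''
      (fun r => ⟨r, hle'.Rb₁_le r.2⟩) (fun r => ⟨r, hle'.Rb₂_le r.2⟩)
      (fun r => ⟨r, hle'.Rb₃_le r.2⟩) c₁' c₂' c₃' hu hu
      (fun m hm => S36L3_W_mono hS hle' hm)).2 hγ''

/-! ### INJ3 -/

/-- `n` is invertible in `k`. -/
theorem S36TL_hnk (q : ℕ) [hq : Fact q.Prime] [CharP k q] {n : ℕ} (hnq : Nat.Coprime n q) :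
    (n : k) ≠ 0 := by
  intro h
  have hdvd : q ∣ n := (CharP.cast_eq_zero_iff k q n).1 h
  have : q ∣ Nat.gcd n q := Nat.dvd_gcd hdvd dvd_rfl
  rw [hnq] at this
  exact hq.out.one_lt.ne' (Nat.dvd_one.1 this)

/-- **INJ3 assembled**: a normalised generator with trivial gluing invariant on `U` is a trivial
Kummer generator. -/
theorem S36TL_inj {n : ℕ} {ι : Type*} [Finite ι]
    (q : ℕ) [hq : Fact q.Prime] [CharP k q] (hnq : Nat.Coprime n q)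
    (c : S₁.A) (hc : ¬ IsUnit c) (hc0 : c ≠ 0)
    (hrank : ∀ a : S₁.A, a ≠ 0 → ∃ N : ℕ, a ∣ c ^ N)
    (hrad : ∃ K : ℕ, ∀ f : (S36L3_toLat hS).O, (S36L3_toLat hS).red f = 0 →
      ∃ g : (S36L3_toLat hS).O, f ^ K = (S36L3_toLat hS).const c * g)
    {C C' C'' : S36L3_Chart L F k Fk₁ Fk₂ Fk₃ n}
    (hle : S36L3_ChartLE C C'') (hle' : S36L3_ChartLE C' C'')
    (hconst : ∀ f : F, f ∈ C.B → f ∈ C'.B → ∃ a : L, f = algebraMap L F a)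
    {Kp : Subgroup Fˣ} (hKp : Kp ≤ S36L3_NormGrp S₁ S₂ S₃)
    (T : S36TL_Chart hS C Kp ι) (T' : S36TL_Chart hS C' Kp ι)
    (e₁ : ι → ↥C''.Rb₁ →ₐ[k] k) (e₂ : ι → ↥C''.Rb₂ →ₐ[k] k) (e₃ : ι → ↥C''.Rb₃ →ₐ[k] k)
    (hW1 : ∀ m ∈ S36L3_W hS C'' 1, ∀ y, e₁ y m.1 = e₂ y m.2.1 ∧ e₁ y m.1 = e₃ y m.2.2)
    (c₁ : ∀ y (r : ↥C.Rb₁), e₁ y ⟨r, hle.Rb₁_le r.2⟩ = T.e₁ y r)
    (c₂ : ∀ y (r : ↥C.Rb₂), e₂ y ⟨r, hle.Rb₂_le r.2⟩ = T.e₂ y r)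
    (c₃ : ∀ y (r : ↥C.Rb₃), e₃ y ⟨r, hle.Rb₃_le r.2⟩ = T.e₃ y r)
    (c₁' : ∀ y (r : ↥C'.Rb₁), e₁ y ⟨r, hle'.Rb₁_le r.2⟩ = T'.e₁ y r)
    (c₂' : ∀ y (r : ↥C'.Rb₂), e₂ y ⟨r, hle'.Rb₂_le r.2⟩ = T'.e₂ y r)
    (c₃' : ∀ y (r : ↥C'.Rb₃), e₃ y ⟨r, hle'.Rb₃_le r.2⟩ = T'.e₃ y r)
    {u : Fˣ} (hu : u ∈ Kp)
    (htors : ∃ c₀ : S₁.A, c₀ ≠ 0 ∧
      ∀ h ∈ S34IC_M (S36L3_toLat hS) C''.B n C''.root (u : F), ∀ a : S₁.A, a ≠ 0 →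
      a • h ∈ S34IC_M (S36L3_toLat hS) C.B n C.root (u : F) ⊔
        S34IC_M (S36L3_toLat hS) C'.B n C'.root (u : F) →
      c₀ • h ∈ S34IC_M (S36L3_toLat hS) C.B n C.root (u : F) ⊔
        S34IC_M (S36L3_toLat hS) C'.B n C'.root (u : F))
    (hγ : ∀ y, (T.datum hKp).γ₁ u y = 1 ∧ (T.datum hKp).γ₂ u y = 1) :
    u ∈ S36TL_Triv L (F := F) n := by
  have hγ' := S36TL_gam_one' hS hle hle' hKp T T' e₁ e₂ e₃ hW1 c₁ c₂ c₃ c₁' c₂' c₃' hu hγ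
  have h1 := T.one_mem hKp q hnq hu hγ
  have h1' := T'.one_mem hKp q hnq hu hγ'
  exact S36L3I_inj_W hS c hc hc0 hrank hrad n (S36TL_hnk q hnq) C C' C'' hle.B_le hle'.B_le
    hconst (u : F) (hKp hu) htors h1 h1'

/-! ### renormalisation -/

/-- **renorm** from the approximation theorem for the three valuations: if every triple
`(1, b₂, b₃)` of non-zero constants is the reduction of an element of `O₃` and `Kp` contains the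
trivial normalised generators, then every constant invariant `(ζ₁, ζ₂)` (`n`-th roots of unity)
is the invariant of a trivial element of `Kp`. -/
theorem S36TL_renorm {n : ℕ} {ι : Type*} {C : S36L3_Chart L F k Fk₁ Fk₂ Fk₃ n}
    {Kp : Subgroup Fˣ} (hKp : Kp ≤ S36L3_NormGrp S₁ S₂ S₃)
    (T : S36TL_Chart hS C Kp ι)
    (hKtriv : ∀ t : Fˣ, t ∈ S36L3_NormGrp S₁ S₂ S₃ → t ∈ S36TL_Triv L (F := F) n → t ∈ Kp)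
    (happrox : ∀ b₂ b₃ : k, b₂ ≠ 0 → b₃ ≠ 0 → ∃ f : S36L3_O3 S₁ S₂ S₃,
      S36L3_red S₁ S₂ S₃ f = ((1 : Fk₁), algebraMap k Fk₂ b₂, algebraMap k Fk₃ b₃))
    (ζ₁ ζ₂ : k) (h₁ : ζ₁ ^ n = 1) (h₂ : ζ₂ ^ n = 1) :
    ∃ t ∈ Kp, t ∈ S36TL_Triv L (F := F) n ∧
      ∀ y, (T.datum hKp).γ₁ t y = ζ₁ ∧ (T.datum hKp).γ₂ t y = ζ₂ := by
  have hn0 : n ≠ 0 := C.hn.ne'
  have hz1 : ζ₁ ≠ 0 := by
    rintro rfl
    rw [zero_pow hn0] at h₁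
    exact zero_ne_one h₁
  have hz2 : ζ₂ ≠ 0 := by
    rintro rfl
    rw [zero_pow hn0] at h₂
    exact zero_ne_one h₂
  obtain ⟨f, hf⟩ := happrox ζ₁ ζ₂ hz1 hz2
  have hf0 : (f : F) ≠ 0 := by
    intro h0
    have : f = 0 := Subtype.ext h0
    rw [this, map_zero] at hf
    have := congrArg Prod.fst hf
    exact zero_ne_one this
  have hfi : (f : F)⁻¹ ∈ S36L3_O3 S₁ S₂ S₃ := by
    apply S36L3_inv_mem_O3 S₁ S₂ S₃ f.2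
    · show (S36L3_red S₁ S₂ S₃ f).1 ≠ 0
      rw [hf]; exact one_ne_zero
    · show (S36L3_red S₁ S₂ S₃ f).2.1 ≠ 0
      rw [hf]
      show algebraMap k Fk₂ ζ₁ ≠ 0
      rwa [Ne, map_eq_zero]
    · show (S36L3_red S₁ S₂ S₃ f).2.2 ≠ 0
      rw [hf]
      show algebraMap k Fk₃ ζ₂ ≠ 0
      rwa [Ne, map_eq_zero]
  -- the trivial generator `t = f⁻ⁿ`
  let t : Fˣ := (Units.mk0 (f : F) hf0)⁻¹ ^ n
  have ht : (t : F) = ((f : F)⁻¹) ^ n := by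
    show (((Units.mk0 (f : F) hf0)⁻¹ ^ n : Fˣ) : F) = _
    rw [Units.val_pow_eq_pow_val, Units.val_inv_eq_inv_val, Units.val_mk0]
  have hft : (f : F) ^ n * (t : F) = 1 := by
    rw [ht, ← mul_pow, mul_inv_cancel₀ hf0, one_pow]
  have htO : (t : F) ∈ S36L3_O3 S₁ S₂ S₃ := by
    rw [ht]
    exact (S36L3_O3 S₁ S₂ S₃).pow_mem hfi n
  have hredfn : S36L3_red S₁ S₂ S₃ (f ^ n) = 1 := by
    rw [map_pow, hf]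
    refine Prod.ext ?_ (Prod.ext ?_ ?_)
    · show (1 : Fk₁) ^ n = 1
      rw [one_pow]
    · show (algebraMap k Fk₂ ζ₁) ^ n = 1
      rw [← map_pow, h₁, map_one]
    · show (algebraMap k Fk₃ ζ₂) ^ n = 1
      rw [← map_pow, h₂, map_one]
  have htred : S36L3_red S₁ S₂ S₃ ⟨(t : F), htO⟩ = 1 := by
    have e : (f ^ n * ⟨(t : F), htO⟩ : S36L3_O3 S₁ S₂ S₃) = 1 := Subtype.ext hft
    have := congrArg (S36L3_red S₁ S₂ S₃) e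
    rwa [map_mul, hredfn, one_mul, map_one] at this
  have htN : t ∈ S36L3_NormGrp S₁ S₂ S₃ := ⟨htO, htred⟩
  have htT : t ∈ S36TL_Triv L (F := F) n :=
    ⟨1, (f : F)⁻¹, one_ne_zero, inv_ne_zero hf0, by rw [ht, map_one, one_mul]⟩
  have htK : t ∈ Kp := hKtriv t htN htT
  refine ⟨t, htK, htT, ?_⟩
  intro y
  have hmem : ((algebraMap k ↥C.Rb₁ 1, algebraMap k ↥C.Rb₂ ζ₁, algebraMap k ↥C.Rb₃ ζ₂) :
      ↥C.Rb₁ × ↥C.Rb₂ × ↥C.Rb₃) ∈ (T.datum hKp).W t := by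
    rw [S36TL_Chart.datum_W, S36L3_mem_W]
    refine ⟨f, ?_, ?_⟩
    · rw [hft]
      exact C.B.one_mem
    · rw [hf]
      refine Prod.ext ?_ (Prod.ext ?_ ?_)
      · show (1 : Fk₁) = ((algebraMap k ↥C.Rb₁ 1 : ↥C.Rb₁) : Fk₁)
        rw [map_one]
        rfl
      · rfl
      · rfl
  have h := (T.datum hKp).γ_const (t := t) htK (a₁ := 1) (a₂ := ζ₁) (a₃ := ζ₂) one_ne_zero
    hmem y
  simpa using h

/-! ### the local core -/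

/-- **the local core of (G36-K)**: for a normalised generator `u` whose sections satisfy the two
norm relations at the triple points (branch values `(a, b, c)` of a section at `y`:
`a * b ^ (q - 1) = ξ * c ^ q`, `ξ' * (b ^ (q - 1) * c) = a ^ q`, from NORMRES and the newness of the
class), `u ^ (q ^ 2 - 1)` is a trivial Kummer generator. -/
theorem S36TL_core {n : ℕ} {ι : Type*} [Finite ι]
    (q : ℕ) [hq : Fact q.Prime] [CharP k q] (hnq : Nat.Coprime n q)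
    (c : S₁.A) (hc : ¬ IsUnit c) (hc0 : c ≠ 0)
    (hrank : ∀ a : S₁.A, a ≠ 0 → ∃ N : ℕ, a ∣ c ^ N)
    (hrad : ∃ K : ℕ, ∀ f : (S36L3_toLat hS).O, (S36L3_toLat hS).red f = 0 →
      ∃ g : (S36L3_toLat hS).O, f ^ K = (S36L3_toLat hS).const c * g)
    {C C' C'' : S36L3_Chart L F k Fk₁ Fk₂ Fk₃ n}
    (hle : S36L3_ChartLE C C'') (hle' : S36L3_ChartLE C' C'')
    (hconst : ∀ f : F, f ∈ C.B → f ∈ C'.B → ∃ a : L, f = algebraMap L F a)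
    {Kp : Subgroup Fˣ} (hKp : Kp ≤ S36L3_NormGrp S₁ S₂ S₃)
    (T : S36TL_Chart hS C Kp ι) (T' : S36TL_Chart hS C' Kp ι)
    (e₁ : ι → ↥C''.Rb₁ →ₐ[k] k) (e₂ : ι → ↥C''.Rb₂ →ₐ[k] k) (e₃ : ι → ↥C''.Rb₃ →ₐ[k] k)
    (hW1 : ∀ m ∈ S36L3_W hS C'' 1, ∀ y, e₁ y m.1 = e₂ y m.2.1 ∧ e₁ y m.1 = e₃ y m.2.2)
    (c₁ : ∀ y (r : ↥C.Rb₁), e₁ y ⟨r, hle.Rb₁_le r.2⟩ = T.e₁ y r)
    (c₂ : ∀ y (r : ↥C.Rb₂), e₂ y ⟨r, hle.Rb₂_le r.2⟩ = T.e₂ y r)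
    (c₃ : ∀ y (r : ↥C.Rb₃), e₃ y ⟨r, hle.Rb₃_le r.2⟩ = T.e₃ y r)
    (c₁' : ∀ y (r : ↥C'.Rb₁), e₁ y ⟨r, hle'.Rb₁_le r.2⟩ = T'.e₁ y r)
    (c₂' : ∀ y (r : ↥C'.Rb₂), e₂ y ⟨r, hle'.Rb₂_le r.2⟩ = T'.e₂ y r)
    (c₃' : ∀ y (r : ↥C'.Rb₃), e₃ y ⟨r, hle'.Rb₃_le r.2⟩ = T'.e₃ y r)
    (htors : ∀ v ∈ Kp, ∃ c₀ : S₁.A, c₀ ≠ 0 ∧
      ∀ h ∈ S34IC_M (S36L3_toLat hS) C''.B n C''.root (v : F), ∀ a : S₁.A, a ≠ 0 →
      a • h ∈ S34IC_M (S36L3_toLat hS) C.B n C.root (v : F) ⊔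
        S34IC_M (S36L3_toLat hS) C'.B n C'.root (v : F) →
      c₀ • h ∈ S34IC_M (S36L3_toLat hS) C.B n C.root (v : F) ⊔
        S34IC_M (S36L3_toLat hS) C'.B n C'.root (v : F))
    (hKtriv : ∀ t : Fˣ, t ∈ S36L3_NormGrp S₁ S₂ S₃ → t ∈ S36TL_Triv L (F := F) n → t ∈ Kp)
    (happrox : ∀ b₂ b₃ : k, b₂ ≠ 0 → b₃ ≠ 0 → ∃ f : S36L3_O3 S₁ S₂ S₃,
      S36L3_red S₁ S₂ S₃ f = ((1 : Fk₁), algebraMap k Fk₂ b₂, algebraMap k Fk₃ b₃))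
    {u : Fˣ} (hu : u ∈ Kp) (ξ ξ' : k)
    (hV : ∀ y, ∃ m ∈ S36L3_W hS C ((u : Fˣ) : F), T.e₁ y m.1 ≠ 0 ∧
      T.e₁ y m.1 * T.e₂ y m.2.1 ^ (q - 1) = ξ * T.e₃ y m.2.2 ^ q ∧
      ξ' * (T.e₂ y m.2.1 ^ (q - 1) * T.e₃ y m.2.2) = T.e₁ y m.1 ^ q) :
    u ^ (q ^ 2 - 1) ∈ S36TL_Triv L (F := F) n := by
  refine (T.datum hKp).normglue_val (S36TL_Triv L (F := F) n) ?_ ?_ q hq.out.pos
    (u := u) hu ξ ξ' hV
  · intro v hv hγ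
    exact S36TL_inj hS q hnq c hc hc0 hrank hrad hle hle' hconst hKp T T' e₁ e₂ e₃ hW1
      c₁ c₂ c₃ c₁' c₂' c₃' hv (htors v hv) hγ
  · intro ζ₁ ζ₂ h₁ h₂
    exact S36TL_renorm hS hKp T hKtriv happrox ζ₁ ζ₂ h₁ h₂

end Chart

end Fermat.Agent.S36
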