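import Fermat.Agent.S36.Comp3S18
import Fermat.Agent.S36.Triv3Lat

/-!
# TRACK 10 (S36), package WIRE (helper2), layer 2b: COMP3 + the local core, abstractly

Setting: `L` the inertia field, `F₂ ⊇ L`, `F₁ ⊇ L` the function fields of level `q² M`, `q M` over
`L`; `H : S36CH_Hyp L F₂ F₁ k Ω n q` the hypotheses of COMP3 (helper13); `S₁ S₂ S₃` the three
valuations of `F₂` in the language of LAT3 (`S18_Val`), with the same valuation rings as
`H.FF`, `H.FV`, `H.VV`; `Kum ≤ F₂ˣ` the group of Kummer generators (it contains the constants and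
the `n`-th powers).

* `S36WC_units_iff` : `S36TL_Triv` in the language of units (`u = const c * g ^ n`);
* `S36WC_glob` : if every NORMALISED Kummer generator with trivial norms has a trivial
  `(q² − 1)`-th power (`hloc`: the local core `S36TL_core` with `hV` from NORMRES), then EVERY
  Kummer generator `u` with trivial norms has `u ^ ((q+1)(q−1)(q²−1))` trivial.
-/

set_option autoImplicit false

namespace Fermat.Agent.S36

open Fermat.Agent.S18 Fermat.Agent.S34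

section units

variable {L F : Type*} [Field L] [Field F] [Algebra L F]

/-- `S36TL_Triv` in the language of units. -/
theorem S36WC_units_iff {n : ℕ} {u : Fˣ} :
    u ∈ S36TL_Triv L (F := F) n ↔ ∃ (c : Lˣ) (g : Fˣ), u = S36CH_const L F c * g ^ n := by
  constructor
  · rintro ⟨a, g, ha, hg, e⟩
    refine ⟨Units.mk0 a ha, Units.mk0 g hg, Units.ext ?_⟩
    rw [e]
    simp [S36CH_const]
  · rintro ⟨c, g, rfl⟩
    refine ⟨(c : L), (g : F), c.ne_zero, g.ne_zero, ?_⟩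
    simp [S36CH_const]

theorem S36WC_const_mem (n : ℕ) (c : Lˣ) : S36CH_const L F c ∈ S36TL_Triv L (F := F) n :=
  S36WC_units_iff.2 ⟨c, 1, by simp⟩

theorem S36WC_pow_mem (n : ℕ) (g : Fˣ) : g ^ n ∈ S36TL_Triv L (F := F) n :=
  S36WC_units_iff.2 ⟨1, g, by simp⟩

end units

variable {L F₂ F₁ k Ω Fk₁ Fk₂ Fk₃ : Type*} [Field L] [Field F₂] [Field F₁] [Field k] [Field Ω]
  [Algebra L F₂] [Algebra L F₁] [Algebra k Ω]
  [Field Fk₁] [Field Fk₂] [Field Fk₃] [Algebra k Fk₁] [Algebra k Fk₂] [Algebra k Fk₃]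

/-- **WIRE, layer 2b**: COMP3 (`S36CH_main`) + the local core (`hloc`) ⇒ the global core over
the inertia field. -/
theorem S36WC_glob {n q : ℕ} (H : S36CH_Hyp L F₂ F₁ k Ω n q)
    (S₁ : S18_Val L F₂ k Fk₁) (S₂ : S18_Val L F₂ k Fk₂) (S₃ : S18_Val L F₂ k Fk₃)
    (hO₁ : S₁.O = H.FF.O) (hO₂ : S₂.O = H.FV.O) (hO₃ : S₃.O = H.VV.O)
    (Kum : Subgroup F₂ˣ) (hKpow : ∀ g : F₂ˣ, g ^ n ∈ Kum)
    (hKconst : ∀ c : Lˣ, S36CH_const L F₂ c ∈ Kum)
    (hloc : ∀ u ∈ Kum, u ∈ S36L3_NormGrp S₁ S₂ S₃ →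
      H.N₁ u ∈ S36TL_Triv L (F := F₁) n → H.N₂ u ∈ S36TL_Triv L (F := F₁) n →
      u ^ (q ^ 2 - 1) ∈ S36TL_Triv L (F := F₂) n)
    (u : F₂ˣ) (hu : u ∈ Kum)
    (h₁ : H.N₁ u ∈ S36TL_Triv L (F := F₁) n) (h₂ : H.N₂ u ∈ S36TL_Triv L (F := F₁) n) :
    u ^ ((q + 1) * (q - 1) * (q ^ 2 - 1)) ∈ S36TL_Triv L (F := F₂) n := by
  obtain ⟨c, g, s1, s2, s3⟩ := H.S36CH_main u (S36WC_units_iff.1 h₁) (S36WC_units_iff.1 h₂)
  set t : F₂ˣ := S36CH_const L F₂ c * g ^ n with ht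
  set u' : F₂ˣ := u ^ ((q + 1) * (q - 1)) * t with hu'
  have htT : t ∈ S36TL_Triv L (F := F₂) n := S36WC_units_iff.2 ⟨c, g, rfl⟩
  have htK : t ∈ Kum := Kum.mul_mem (hKconst c) (hKpow g)
  have hu'K : u' ∈ Kum := Kum.mul_mem (Kum.pow_mem hu _) htK
  have hu'N : u' ∈ S36L3_NormGrp S₁ S₂ S₃ := by
    rw [S36L3_mem_NormGrp]
    exact S36CS_mem_Norm S₁ S₂ S₃ (hO₁ ▸ s1) (hO₂ ▸ s2) (hO₃ ▸ s3)
  have hN : ∀ (N : F₂ˣ →* F₁ˣ), (∀ c : Lˣ, ∃ c' : Lˣ, N (S36CH_const L F₂ c) =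
      S36CH_const L F₁ c') → N u ∈ S36TL_Triv L (F := F₁) n →
      N u' ∈ S36TL_Triv L (F := F₁) n := by
    intro N hNc hNu
    rw [hu', map_mul, map_pow, ht, map_mul, map_pow]
    obtain ⟨c', hc'⟩ := hNc c
    rw [hc']
    exact (S36TL_Triv L (F := F₁) n).mul_mem ((S36TL_Triv L (F := F₁) n).pow_mem hNu _)
      ((S36TL_Triv L (F := F₁) n).mul_mem (S36WC_const_mem n c') (S36WC_pow_mem n _))
  have h3 := hloc u' hu'K hu'N (hN H.N₁ H.N₁_const h₁) (hN H.N₂ H.N₂_const h₂)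
  have e : u ^ ((q + 1) * (q - 1) * (q ^ 2 - 1)) = u' ^ (q ^ 2 - 1) * (t ^ (q ^ 2 - 1))⁻¹ := by
    rw [hu', mul_pow, ← pow_mul, mul_assoc (u ^ _), mul_inv_cancel, mul_one]
  rw [e]
  exact (S36TL_Triv L (F := F₂) n).mul_mem h3
    ((S36TL_Triv L (F := F₂) n).inv_mem ((S36TL_Triv L (F := F₂) n).pow_mem htT _))

end Fermat.Agent.S36
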