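import Mathlib
import Fermat.Agent.S36.Wire36
import Fermat.Agent.S36.WireDesc
import Fermat.Agent.S36.FixLInst

/-!
# TRACK 10 (S36), package WIRE (helper2), layer 2a: CORE from CORE over the inertia field

`S36WC_CoreL N q p` is the CORE statement (`S36W_Core`, S36/Wire36.lean) in which everything is
rational over the inertia field `L = ℚ̄^I` (`I` the inertia group of a place `P` of `ℚ̄` over `q`):

* the Kummer generator `f` lies in `F₂,L = (S36FI_act (N q) I).fixF` (helper1's FIX-L-INST);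
* its norms are trivial OVER `L`: `N_α f = a · gⁿ` with `a ∈ L`, `g ∈ F₁,L` (and `N_β f` alike).

`S36WC_core_of_coreL : S36WC_CoreL N q p → S36W_Core N q p` (the descent of the triviality of the
norms is `S36WD_norms_descent`, S36/WireDesc.lean).
-/

set_option autoImplicit false
set_option linter.style.haveILetI false
set_option linter.unusedSectionVars false

open ModularCurve AlgebraicCurve CongruenceSubgroup

namespace Fermat.Agent.S36

open Fermat.Agent.GalRep Fermat.Agent.S16 Fermat.Agent.S41 Fermat.Agent.S24 Fermat.Agent.S35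
open Fermat.Agent.Lib

local notation "ℚbar" => AlgebraicClosure ℚ

/-- triviality over the fixed field of `H` at level `N`: `x = a · gⁿ` with `a ∈ ℚ̄^H`, `g ∈ F^H`,
both non-zero. -/
def S36WC_TrivL (N n : ℕ) (H : Subgroup (ℚbar ≃ₐ[ℚ] ℚbar))
    (x : ↥(modularFunctionFieldBar N)) : Prop :=
  ∃ (a : ℚbar) (g : ↥(modularFunctionFieldBar N)), a ≠ 0 ∧ g ≠ 0 ∧
    a ∈ (S36FI_act N H).fixK ∧ g ∈ (S36FI_act N H).fixF ∧
    x = algebraMap ℚbar ↥(modularFunctionFieldBar N) a * g ^ n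

/-- **CORE over the inertia field** (element form).  See the module docstring. -/
def S36WC_CoreL (N q p : ℕ) [NeZero N] [NeZero (N * q)] [Fact q.Prime] : Prop :=
  ∃ c : ℕ, c ≠ 0 ∧ ∀ (k : ℕ),
    ∀ P : ValuationSubring ℚbar, P.LiesOverPrime q →
      ∀ f : ↥(modularFunctionFieldBar (N * q)),
        f ≠ 0 →
        f ∈ (S36FI_act (N * q) (P.inertiaSubgroupIn ℚ)).fixF →
        (∀ v : Place ℚbar ↥(modularFunctionFieldBar (N * q)), ((p ^ k : ℕ) : ℤ) ∣ v.ord f) →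
        S36WC_TrivL N (p ^ k) (P.inertiaSubgroupIn ℚ) (S35B_NA N q f) →
        S36WC_TrivL N (p ^ k) (P.inertiaSubgroupIn ℚ) (S35B_NB N q f) →
        ∃ (a : ℚbar) (g : ↥(modularFunctionFieldBar (N * q))), a ≠ 0 ∧ g ≠ 0 ∧
          f ^ c = algebraMap ℚbar ↥(modularFunctionFieldBar (N * q)) a * g ^ (p ^ k)

/-- **WIRE, layer 2a**: CORE over the inertia field ⇒ CORE. -/
theorem S36WC_core_of_coreL (N q p : ℕ) [NeZero N] [NeZero (N * q)] [Fact q.Prime]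
    [hp : Fact p.Prime] (h : S36WC_CoreL N q p) : S36W_Core N q p := by
  obtain ⟨c, hc, H⟩ := h
  refine ⟨c, hc, fun k P hP f hkum hfix _ _ hA hB => ?_⟩
  have hn : 0 < p ^ k := pow_pos hp.out.pos k
  obtain ⟨⟨a₁, g₁, ha₁, hg₁, e₁, fa₁, fg₁, -⟩, ⟨a₂, g₂, ha₂, hg₂, e₂, fa₂, fg₂, -⟩⟩ :=
    S36WD_norms_descent N q hn (P.inertiaSubgroupIn ℚ : Set (ℚbar ≃ₐ[ℚ] ℚbar)) f hfix hA hB
  have hfixF : f ∈ (S36FI_act (N * q) (P.inertiaSubgroupIn ℚ)).fixF :=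
    (S36FI_mem_fixF (N * q) (P.inertiaSubgroupIn ℚ)).2 hfix
  have hT₁ : S36WC_TrivL N (p ^ k) (P.inertiaSubgroupIn ℚ) (S35B_NA N q f) :=
    ⟨a₁, g₁, ha₁, hg₁, (S36FI_mem_fixK N (P.inertiaSubgroupIn ℚ)).2 fa₁,
      (S36FI_mem_fixF N (P.inertiaSubgroupIn ℚ)).2 fg₁, e₁⟩
  have hT₂ : S36WC_TrivL N (p ^ k) (P.inertiaSubgroupIn ℚ) (S35B_NB N q f) :=
    ⟨a₂, g₂, ha₂, hg₂, (S36FI_mem_fixK N (P.inertiaSubgroupIn ℚ)).2 fa₂,
      (S36FI_mem_fixF N (P.inertiaSubgroupIn ℚ)).2 fg₂, e₂⟩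
  obtain ⟨a, g, ha, hg, e⟩ := H k P hP f hkum.1 hfixF hkum.2 hT₁ hT₂
  exact ⟨a, g, ha, hg, e⟩

/-- CORE over the inertia field at the levels with an auxiliary prime. -/
def S36WC_CoreLAll : Prop :=
  ∀ (M q p : ℕ) [NeZero (M * q)] [NeZero (M * q * q)] [Fact q.Prime] [Fact p.Prime],
    ¬ q ∣ M → q ≠ p →
    (∃ r : ℕ, r.Prime ∧ r % 12 = 11 ∧ r ≠ p ∧ r ≠ q ∧ r ∣ M ∧ ¬ r ^ 2 ∣ M) →
    S36WC_CoreL (M * q) q p

theorem S36WC_coreAll (h : S36WC_CoreLAll) : S36W_CoreAll := by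
  intro M q p _ _ _ _ hqM hqp hr
  exact S36WC_core_of_coreL (M * q) q p (h M q p hqM hqp hr)

end Fermat.Agent.S36
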