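import Mathlib
import Fermat.Agent.S24.FFBasic
import Fermat.Agent.S36.WireTop
import Fermat.Agent.S36.WireCore
import Fermat.Agent.S36.FixLVal

/-!
# TRACK 10 (S36), package WIRE (helper2), layer 2c: CORE over the inertia field from the global
core on the FIXED FIELDS

Setting (FIX-L): `A₂ : S36FL_Act K F₂ H`, `A₁ : S36FL_Act K F₁ H` (levels `q² M`, `q M`),
`L = A₂.fixK`, fixed fields `A₂.fixF`, `A₁.fixF`; an `L`-algebra structure on `A₁.fixF` compatible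
with the constants (`halg`).

* `S36WC_Kum A₂ n` : the Kummer generators of `A₂.fixF` (all orders at the places of the BIG
  field `F₂ / K` are divisible by `n`), a subgroup containing the constants and the `n`-th powers;
* `S36WC_elem_of_fix` : a statement `u ^ c ∈ S36TL_Triv` on the fixed field, for every Kummer
  generator with trivial norms, gives the element form used by `S36WC_CoreL`;
* `S36WC_coreL_body` : the same with COMP3 (`S36WC_glob`) plugged in: the inputs are the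
  `S36CH_Hyp` instance `Hc` (helper13), the three `S18_Val` (helper1/helper12) and the local core
  `hloc` (helper11).
-/

set_option autoImplicit false
set_option linter.style.haveILetI false
set_option linter.unusedSectionVars false

open AlgebraicCurve

namespace Fermat.Agent.S36

open Fermat.Agent.S18 Fermat.Agent.S34 Fermat.Agent.S24

section abs

variable {K F₂ F₁ H : Type*} [Field K] [Field F₂] [Field F₁] [Algebra K F₂] [Algebra K F₁]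

/-- the Kummer generators in the fixed field. -/
def S36WC_Kum (A₂ : S36FL_Act K F₂ H) (n : ℕ) : Subgroup (↥A₂.fixF)ˣ where
  carrier := {u | ∀ v : Place K F₂, (n : ℤ) ∣ v.ord (((u : ↥A₂.fixF)) : F₂)}
  mul_mem' := by
    intro a b ha hb v
    have e : ((((a * b : (↥A₂.fixF)ˣ) : ↥A₂.fixF)) : F₂) =
        (((a : ↥A₂.fixF)) : F₂) * (((b : ↥A₂.fixF)) : F₂) := by
      rw [Units.val_mul]; rfl
    have ha0 : (((a : ↥A₂.fixF)) : F₂) ≠ 0 := fun h => a.ne_zero (Subtype.ext h)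
    have hb0 : (((b : ↥A₂.fixF)) : F₂) ≠ 0 := fun h => b.ne_zero (Subtype.ext h)
    rw [e, v.ord_mul ha0 hb0]
    exact dvd_add (ha v) (hb v)
  one_mem' := by
    intro v
    have e : ((((1 : (↥A₂.fixF)ˣ) : ↥A₂.fixF)) : F₂) = 1 := rfl
    rw [e, v.ord_one]
    exact dvd_zero _
  inv_mem' := by
    intro a ha v
    have e : ((((a⁻¹ : (↥A₂.fixF)ˣ) : ↥A₂.fixF)) : F₂) = ((((a : ↥A₂.fixF)) : F₂))⁻¹ := by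
      rw [Units.val_inv_eq_inv_val]; rfl
    rw [e, v.ord_inv]
    exact (dvd_neg).2 (ha v)

theorem S36WC_mem_Kum {A₂ : S36FL_Act K F₂ H} {n : ℕ} {u : (↥A₂.fixF)ˣ} :
    u ∈ S36WC_Kum A₂ n ↔ ∀ v : Place K F₂, (n : ℤ) ∣ v.ord (((u : ↥A₂.fixF)) : F₂) := Iff.rfl

theorem S36WC_pow_mem_Kum (A₂ : S36FL_Act K F₂ H) (n : ℕ) (g : (↥A₂.fixF)ˣ) :
    g ^ n ∈ S36WC_Kum A₂ n := by
  intro v
  have e : ((((g ^ n : (↥A₂.fixF)ˣ) : ↥A₂.fixF)) : F₂) = ((((g : ↥A₂.fixF)) : F₂)) ^ n := by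
    rw [Units.val_pow_eq_pow_val]; rfl
  rw [e, ← zpow_natCast, v.ord_zpow]
  exact dvd_mul_right _ _

theorem S36WC_const_mem_Kum (A₂ : S36FL_Act K F₂ H) (n : ℕ) (c : (↥A₂.fixK)ˣ) :
    S36CH_const ↥A₂.fixK ↥A₂.fixF c ∈ S36WC_Kum A₂ n := by
  intro v
  have e : ((((S36CH_const ↥A₂.fixK ↥A₂.fixF c : (↥A₂.fixF)ˣ) : ↥A₂.fixF)) : F₂) =
      algebraMap K F₂ ((c : ↥A₂.fixK) : K) := rfl
  rw [e, BL_ord_algebraMap]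
  exact dvd_zero _

/-- **element form from the fixed-field form.** -/
theorem S36WC_elem_of_fix (A₂ : S36FL_Act K F₂ H) (A₁ : S36FL_Act K F₁ H)
    [Algebra ↥A₂.fixK ↥A₁.fixF]
    (halg : ∀ c : ↥A₂.fixK,
      ((algebraMap ↥A₂.fixK ↥A₁.fixF c : ↥A₁.fixF) : F₁) = algebraMap K F₁ (c : K))
    (hfixK : ∀ a : K, a ∈ A₁.fixK → a ∈ A₂.fixK)
    (NA NB : F₂ → F₁)
    (N₁ N₂ : (↥A₂.fixF)ˣ →* (↥A₁.fixF)ˣ)
    (hN₁ : ∀ u : (↥A₂.fixF)ˣ, (((N₁ u : (↥A₁.fixF)ˣ) : ↥A₁.fixF) : F₁) =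
      NA (((u : ↥A₂.fixF)) : F₂))
    (hN₂ : ∀ u : (↥A₂.fixF)ˣ, (((N₂ u : (↥A₁.fixF)ˣ) : ↥A₁.fixF) : F₁) =
      NB (((u : ↥A₂.fixF)) : F₂))
    (n c : ℕ)
    (hglob : ∀ u ∈ S36WC_Kum A₂ n, N₁ u ∈ S36TL_Triv ↥A₂.fixK (F := ↥A₁.fixF) n →
      N₂ u ∈ S36TL_Triv ↥A₂.fixK (F := ↥A₁.fixF) n →
      u ^ c ∈ S36TL_Triv ↥A₂.fixK (F := ↥A₂.fixF) n)
    (f : F₂) (hf0 : f ≠ 0) (hfix : f ∈ A₂.fixF)
    (hkum : ∀ v : Place K F₂, (n : ℤ) ∣ v.ord f)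
    (hA : ∃ (a : K) (g : F₁), a ≠ 0 ∧ g ≠ 0 ∧ a ∈ A₁.fixK ∧ g ∈ A₁.fixF ∧
      NA f = algebraMap K F₁ a * g ^ n)
    (hB : ∃ (a : K) (g : F₁), a ≠ 0 ∧ g ≠ 0 ∧ a ∈ A₁.fixK ∧ g ∈ A₁.fixF ∧
      NB f = algebraMap K F₁ a * g ^ n) :
    ∃ (a : K) (g : F₂), a ≠ 0 ∧ g ≠ 0 ∧ f ^ c = algebraMap K F₂ a * g ^ n := by
  have hu0 : (⟨f, hfix⟩ : ↥A₂.fixF) ≠ 0 := fun h => hf0 (congrArg Subtype.val h)
  set u : (↥A₂.fixF)ˣ := Units.mk0 ⟨f, hfix⟩ hu0 with hu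
  have huK : u ∈ S36WC_Kum A₂ n := hkum
  have conv : ∀ (N : (↥A₂.fixF)ˣ →* (↥A₁.fixF)ˣ) (NN : F₂ → F₁),
      (∀ u : (↥A₂.fixF)ˣ, (((N u : (↥A₁.fixF)ˣ) : ↥A₁.fixF) : F₁) =
        NN (((u : ↥A₂.fixF)) : F₂)) →
      (∃ (a : K) (g : F₁), a ≠ 0 ∧ g ≠ 0 ∧ a ∈ A₁.fixK ∧ g ∈ A₁.fixF ∧
        NN f = algebraMap K F₁ a * g ^ n) →
      N u ∈ S36TL_Triv ↥A₂.fixK (F := ↥A₁.fixF) n := by
    rintro N NN hN ⟨a, g, ha, hg, haK, hgF, e⟩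
    refine ⟨⟨a, hfixK a haK⟩, ⟨g, hgF⟩, fun h => ha (congrArg Subtype.val h),
      fun h => hg (congrArg Subtype.val h), Subtype.ext ?_⟩
    have e1 : (((N u : (↥A₁.fixF)ˣ) : ↥A₁.fixF) : F₁) = NN f := hN u
    rw [e1, e]
    show algebraMap K F₁ a * g ^ n =
      ((algebraMap ↥A₂.fixK ↥A₁.fixF ⟨a, hfixK a haK⟩ : ↥A₁.fixF) : F₁) *
        (((⟨g, hgF⟩ : ↥A₁.fixF) ^ n : ↥A₁.fixF) : F₁)
    rw [halg]
    rfl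
  obtain ⟨a, g, ha, hg, e⟩ := hglob u huK (conv N₁ NA hN₁ hA) (conv N₂ NB hN₂ hB)
  refine ⟨(a : K), (g : F₂), fun h => ha (Subtype.ext h), fun h => hg (Subtype.ext h), ?_⟩
  have e2 : ((((u ^ c : (↥A₂.fixF)ˣ) : ↥A₂.fixF)) : F₂) =
      ((algebraMap ↥A₂.fixK ↥A₂.fixF a * g ^ n : ↥A₂.fixF) : F₂) :=
    congrArg (fun z : ↥A₂.fixF => (z : F₂)) e
  have e3 : ((((u ^ c : (↥A₂.fixF)ˣ) : ↥A₂.fixF)) : F₂) = f ^ c := by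
    rw [Units.val_pow_eq_pow_val]; rfl
  rw [e3] at e2
  rw [e2]
  rfl

/-- **WIRE, layer 2c**: COMP3 + the local core on the fixed fields ⇒ the element form of CORE
over the inertia field, with `c = (q + 1) (q - 1) (q² - 1)`. -/
theorem S36WC_coreL_body (A₂ : S36FL_Act K F₂ H) (A₁ : S36FL_Act K F₁ H)
    [Algebra ↥A₂.fixK ↥A₁.fixF]
    (halg : ∀ c : ↥A₂.fixK,
      ((algebraMap ↥A₂.fixK ↥A₁.fixF c : ↥A₁.fixF) : F₁) = algebraMap K F₁ (c : K))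
    (hfixK : ∀ a : K, a ∈ A₁.fixK → a ∈ A₂.fixK)
    (NA NB : F₂ → F₁)
    {k Ω Fk₁ Fk₂ Fk₃ : Type*} [Field k] [Field Ω] [Algebra k Ω]
    [Field Fk₁] [Field Fk₂] [Field Fk₃] [Algebra k Fk₁] [Algebra k Fk₂] [Algebra k Fk₃]
    {n q : ℕ} (Hc : S36CH_Hyp ↥A₂.fixK ↥A₂.fixF ↥A₁.fixF k Ω n q)
    (hN₁ : ∀ u : (↥A₂.fixF)ˣ, (((Hc.N₁ u : (↥A₁.fixF)ˣ) : ↥A₁.fixF) : F₁) =
      NA (((u : ↥A₂.fixF)) : F₂))
    (hN₂ : ∀ u : (↥A₂.fixF)ˣ, (((Hc.N₂ u : (↥A₁.fixF)ˣ) : ↥A₁.fixF) : F₁) =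
      NB (((u : ↥A₂.fixF)) : F₂))
    (S₁ : S18_Val ↥A₂.fixK ↥A₂.fixF k Fk₁) (S₂ : S18_Val ↥A₂.fixK ↥A₂.fixF k Fk₂)
    (S₃ : S18_Val ↥A₂.fixK ↥A₂.fixF k Fk₃)
    (hO₁ : S₁.O = Hc.FF.O) (hO₂ : S₂.O = Hc.FV.O) (hO₃ : S₃.O = Hc.VV.O)
    (hloc : ∀ u ∈ S36WC_Kum A₂ n, u ∈ S36L3_NormGrp S₁ S₂ S₃ →
      Hc.N₁ u ∈ S36TL_Triv ↥A₂.fixK (F := ↥A₁.fixF) n →
      Hc.N₂ u ∈ S36TL_Triv ↥A₂.fixK (F := ↥A₁.fixF) n →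
      u ^ (q ^ 2 - 1) ∈ S36TL_Triv ↥A₂.fixK (F := ↥A₂.fixF) n)
    (f : F₂) (hf0 : f ≠ 0) (hfix : f ∈ A₂.fixF)
    (hkum : ∀ v : Place K F₂, (n : ℤ) ∣ v.ord f)
    (hA : ∃ (a : K) (g : F₁), a ≠ 0 ∧ g ≠ 0 ∧ a ∈ A₁.fixK ∧ g ∈ A₁.fixF ∧
      NA f = algebraMap K F₁ a * g ^ n)
    (hB : ∃ (a : K) (g : F₁), a ≠ 0 ∧ g ≠ 0 ∧ a ∈ A₁.fixK ∧ g ∈ A₁.fixF ∧
      NB f = algebraMap K F₁ a * g ^ n) :
    ∃ (a : K) (g : F₂), a ≠ 0 ∧ g ≠ 0 ∧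
      f ^ ((q + 1) * (q - 1) * (q ^ 2 - 1)) = algebraMap K F₂ a * g ^ n :=
  S36WC_elem_of_fix A₂ A₁ halg hfixK NA NB Hc.N₁ Hc.N₂ hN₁ hN₂ n _
    (fun u hu h₁ h₂ => S36WC_glob Hc S₁ S₂ S₃ hO₁ hO₂ hO₃ (S36WC_Kum A₂ n)
      (S36WC_pow_mem_Kum A₂ n) (S36WC_const_mem_Kum A₂ n) hloc u hu h₁ h₂)
    f hf0 hfix hkum hA hB

end abs

end Fermat.Agent.S36
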