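import Fermat.Agent.S36.Triv3Core
import Fermat.Agent.S36.WireInst

/-!
# TRACK 10 (S36), the input `hloc` of helper2's `S36WC_coreL_body` (helper11)

Setting of WIRE 2 (FIX-L): `A₂ : S36FL_Act K F₂ H`, `L = A₂.fixK`, `F = A₂.fixF`, three valuations
`S₁ S₂ S₃ : S18_Val L F k Fk_j`, `Kp := S36WC_Kum A₂ n ⊓ S36L3_NormGrp S₁ S₂ S₃` (normalised Kummer
generators of the fixed field).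

* `S36LC_Kp`, `S36LC_Kp_le`, `S36LC_hKtriv` : the group `Kp` and the two properties asked by
  `S36TL_core`;
* `S36LC_hloc` : **the hypothesis `hloc` of `S36WC_coreL_body`**, from the inputs of TRIV on the
  charts `U`, `U'` (`S36TL_Chart`), the evaluations on `U ∩ U'`, INJ3 (`inj`, = `S36I3_inj_inst`),
  APPROX3 (`happrox`, = `S36IP_happrox`) and the norm relations (`hV`, C3.3).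
-/

set_option autoImplicit false
set_option linter.unusedSectionVars false
set_option linter.style.haveILetI false

open AlgebraicCurve

namespace Fermat.Agent.S36

open Fermat.Agent.S18 Fermat.Agent.S34 Fermat.Agent.S24

variable {K F₂ H : Type*} [Field K] [Field F₂] [Algebra K F₂]
  {k Fk₁ Fk₂ Fk₃ : Type*} [Field k] [Field Fk₁] [Field Fk₂] [Field Fk₃]
  [Algebra k Fk₁] [Algebra k Fk₂] [Algebra k Fk₃]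

/-- the normalised Kummer generators of the fixed field. -/
def S36LC_Kp (A₂ : S36FL_Act K F₂ H) (n : ℕ) (S₁ : S18_Val ↥A₂.fixK ↥A₂.fixF k Fk₁)
    (S₂ : S18_Val ↥A₂.fixK ↥A₂.fixF k Fk₂) (S₃ : S18_Val ↥A₂.fixK ↥A₂.fixF k Fk₃) :
    Subgroup (↥A₂.fixF)ˣ :=
  S36WC_Kum A₂ n ⊓ S36L3_NormGrp S₁ S₂ S₃

variable {A₂ : S36FL_Act K F₂ H} {n : ℕ} {S₁ : S18_Val ↥A₂.fixK ↥A₂.fixF k Fk₁}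
  {S₂ : S18_Val ↥A₂.fixK ↥A₂.fixF k Fk₂} {S₃ : S18_Val ↥A₂.fixK ↥A₂.fixF k Fk₃}

theorem S36LC_mem_Kp {u : (↥A₂.fixF)ˣ} :
    u ∈ S36LC_Kp A₂ n S₁ S₂ S₃ ↔ u ∈ S36WC_Kum A₂ n ∧ u ∈ S36L3_NormGrp S₁ S₂ S₃ := Iff.rfl

theorem S36LC_Kp_le : S36LC_Kp A₂ n S₁ S₂ S₃ ≤ S36L3_NormGrp S₁ S₂ S₃ := inf_le_right

/-- trivial generators are Kummer generators. -/
theorem S36LC_triv_le_Kum : S36TL_Triv ↥A₂.fixK (F := ↥A₂.fixF) n ≤ S36WC_Kum A₂ n := by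
  rintro t ⟨a, g, ha, hg, ht⟩
  have e : t = S36CH_const ↥A₂.fixK ↥A₂.fixF (Units.mk0 a ha) * (Units.mk0 g hg) ^ n := by
    apply Units.ext
    rw [Units.val_mul, Units.val_pow_eq_pow_val, Units.val_mk0, S36CH_const_val, Units.val_mk0]
    exact ht
  rw [e]
  exact (S36WC_Kum A₂ n).mul_mem (S36WC_const_mem_Kum A₂ n _) (S36WC_pow_mem_Kum A₂ n _)

theorem S36LC_hKtriv : ∀ t : (↥A₂.fixF)ˣ, t ∈ S36L3_NormGrp S₁ S₂ S₃ →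
    t ∈ S36TL_Triv ↥A₂.fixK (F := ↥A₂.fixF) n → t ∈ S36LC_Kp A₂ n S₁ S₂ S₃ :=
  fun t h1 h2 => ⟨S36LC_triv_le_Kum h2, h1⟩

/-- **`hloc` of `S36WC_coreL_body`** (with arbitrary predicates `P₁ P₂` in place of "the norms
of `u` are trivial"). -/
theorem S36LC_hloc (hS : S36L3_Same S₁ S₂ S₃) {ι : Type*} [Finite ι]
    (q : ℕ) [hq : Fact q.Prime] [CharP k q] (hnq : Nat.Coprime n q)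
    {C C' C'' : S36L3_Chart ↥A₂.fixK ↥A₂.fixF k Fk₁ Fk₂ Fk₃ n}
    (hle : S36L3_ChartLE C C'') (hle' : S36L3_ChartLE C' C'')
    (T : S36TL_Chart hS C (S36LC_Kp A₂ n S₁ S₂ S₃) ι)
    (T' : S36TL_Chart hS C' (S36LC_Kp A₂ n S₁ S₂ S₃) ι)
    (e₁ : ι → ↥C''.Rb₁ →ₐ[k] k) (e₂ : ι → ↥C''.Rb₂ →ₐ[k] k) (e₃ : ι → ↥C''.Rb₃ →ₐ[k] k)
    (hW1 : ∀ m ∈ S36L3_W hS C'' 1, ∀ y, e₁ y m.1 = e₂ y m.2.1 ∧ e₁ y m.1 = e₃ y m.2.2)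
    (c₁ : ∀ y (r : ↥C.Rb₁), e₁ y ⟨r, hle.Rb₁_le r.2⟩ = T.e₁ y r)
    (c₂ : ∀ y (r : ↥C.Rb₂), e₂ y ⟨r, hle.Rb₂_le r.2⟩ = T.e₂ y r)
    (c₃ : ∀ y (r : ↥C.Rb₃), e₃ y ⟨r, hle.Rb₃_le r.2⟩ = T.e₃ y r)
    (c₁' : ∀ y (r : ↥C'.Rb₁), e₁ y ⟨r, hle'.Rb₁_le r.2⟩ = T'.e₁ y r)
    (c₂' : ∀ y (r : ↥C'.Rb₂), e₂ y ⟨r, hle'.Rb₂_le r.2⟩ = T'.e₂ y r)
    (c₃' : ∀ y (r : ↥C'.Rb₃), e₃ y ⟨r, hle'.Rb₃_le r.2⟩ = T'.e₃ y r)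
    (inj : ∀ v : (↥A₂.fixF)ˣ, v ∈ S36L3_NormGrp S₁ S₂ S₃ →
      (1 : ↥C.Rb₁ × ↥C.Rb₂ × ↥C.Rb₃) ∈ S36L3_W hS C ((v : (↥A₂.fixF)ˣ) : ↥A₂.fixF) →
      (1 : ↥C'.Rb₁ × ↥C'.Rb₂ × ↥C'.Rb₃) ∈ S36L3_W hS C' ((v : (↥A₂.fixF)ˣ) : ↥A₂.fixF) →
      v ∈ S36TL_Triv ↥A₂.fixK (F := ↥A₂.fixF) n)
    (happrox : ∀ b₂ b₃ : k, b₂ ≠ 0 → b₃ ≠ 0 → ∃ f : S36L3_O3 S₁ S₂ S₃,
      S36L3_red S₁ S₂ S₃ f = ((1 : Fk₁), algebraMap k Fk₂ b₂, algebraMap k Fk₃ b₃))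
    (P₁ P₂ : (↥A₂.fixF)ˣ → Prop)
    (hV : ∀ u ∈ S36LC_Kp A₂ n S₁ S₂ S₃, P₁ u → P₂ u → ∃ ξ ξ' : k, ∀ y,
      ∃ m ∈ S36L3_W hS C ((u : (↥A₂.fixF)ˣ) : ↥A₂.fixF), T.e₁ y m.1 ≠ 0 ∧
        T.e₁ y m.1 * T.e₂ y m.2.1 ^ (q - 1) = ξ * T.e₃ y m.2.2 ^ q ∧
        ξ' * (T.e₂ y m.2.1 ^ (q - 1) * T.e₃ y m.2.2) = T.e₁ y m.1 ^ q) :
    ∀ u ∈ S36WC_Kum A₂ n, u ∈ S36L3_NormGrp S₁ S₂ S₃ → P₁ u → P₂ u →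
      u ^ (q ^ 2 - 1) ∈ S36TL_Triv ↥A₂.fixK (F := ↥A₂.fixF) n := by
  intro u hu hun h₁ h₂
  have huK : u ∈ S36LC_Kp A₂ n S₁ S₂ S₃ := ⟨hu, hun⟩
  obtain ⟨ξ, ξ', hξ⟩ := hV u huK h₁ h₂
  exact S36TL_core_of_inj hS q hnq hle hle' S36LC_Kp_le T T' e₁ e₂ e₃ hW1
    c₁ c₂ c₃ c₁' c₂' c₃' (fun v hv => inj v (S36LC_Kp_le hv)) S36LC_hKtriv happrox huK ξ ξ' hξ

end Fermat.Agent.S36
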