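import Fermat.Agent.S36.ChartsBPow
import Fermat.Agent.S18.Sep
import Fermat.Agent.Lib.DescExt

/-!
# TRACK 10 (S36), C2.2 RBAR, instance shape (helper26, audit item U2b) — prefix `S36RI_`

`A ⊂ ℚ̄` over `q ∤ M`, `k = IsLocalRing.ResidueField A`, `κ = S36FI_kappa M A`
(`= modularFunctionFieldFullC k M`), `j̄ = S18_jbar M k` THE separating coordinate of `κ`.

The RBAR inputs of `S36TX_geo_fin` (chart `U`) and `S36CX_geo_U'2` (chart `U'`) in exactly their
shape, for `Fk₁ = Fk₂ = Fk₃ = κ`, `w₁ = w₂ = w₃ = j̄`: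

* `S36RI_hk`     : `RR_Hyp k κ`                                   (`h₁ h₂ h₃`);
* `S36RI_pole`   : `∃ c : Place k κ, c.ord j̄ < 0`                  (`c_j`, `hc_j`);
* `S36RI_transc` : `Transcendental k j̄`                           (`hw_j`);
* `S36RI_fd`, `S36RI_sep` : `FiniteDimensional k⟮j̄⟯ κ`, `Algebra.IsSeparable k⟮j̄⟯ κ`;
* `S36RI_val`    : `Q.adicValuation x̄ ≤ 1 ↔ Q.adicValuation j̄ ≤ 1` (`x̄ = S36CZ_xb = j̄^q`);
* `S36RI_hR₁/₂/₃` : `hR_j` of `S36TX_geo_fin` for the chart `S36CZ_C`;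
* `S36RI_hxw`    : `hxw_j` of `S36CX_geo_U'2`: `x̄ − c̄ = (j̄ − d₀)^q` for `d₀^q = c̄`;
* `S36RI_exists` : everything in one existential statement.
-/

set_option autoImplicit false
set_option synthInstance.maxHeartbeats 400000
set_option maxHeartbeats 1000000
set_option linter.unusedSectionVars false
set_option linter.unusedVariables false
set_option linter.style.haveILetI false

open AlgebraicCurve ModularCurve HahnSeries IntermediateField

noncomputable section

namespace Fermat.Agent.S36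

open Fermat.Agent.Lib Fermat.Agent.S18 Fermat.Agent.S24 Fermat.Agent.S34

local notation "Ω" => AlgebraicClosure ℚ

variable (M q : ℕ) [NeZero M] [NeZero q] (hq : q.Prime) (hqM : ¬ q ∣ M)
  (A : ValuationSubring Ω) (hA : A.LiesOverPrime q)

include hq hqM hA in
/-- `RR_Hyp k κ`. -/
theorem S36RI_hk : RR_Hyp (IsLocalRing.ResidueField A) ↥(S36FI_kappa M A) :=
  S18_hk M A hq hA hqM

/-- `j̄` is transcendental over `k`. -/
theorem S36RI_transc :
    Transcendental (IsLocalRing.ResidueField A) (S18_jbar M (IsLocalRing.ResidueField A)) :=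
  haveI : IsAlgClosed (IsLocalRing.ResidueField A) := S18_residue_isAlgClosed A
  S18_transcendental_jbar M (k := IsLocalRing.ResidueField A)

include hq hqM hA in
/-- `κ` is finite over `k(j̄)`. -/
theorem S36RI_fd :
    FiniteDimensional (IsLocalRing.ResidueField A)⟮S18_jbar M (IsLocalRing.ResidueField A)⟯
      ↥(S36FI_kappa M A) :=
  S18_finite_jbar M hq hqM (S18_ψ A hq hA)

include hq hqM hA in
/-- `κ` is separable over `k(j̄)`. -/
theorem S36RI_sep :
    Algebra.IsSeparable (IsLocalRing.ResidueField A)⟮S18_jbar M (IsLocalRing.ResidueField A)⟯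
      ↥(S36FI_kappa M A) :=
  haveI : Fact q.Prime := ⟨hq⟩
  haveI : CharP (IsLocalRing.ResidueField A) q := S18_residue_charP A q hq hA
  haveI : IsAlgClosed (IsLocalRing.ResidueField A) := S18_residue_isAlgClosed A
  S18_isSeparable_jbar M hqM (S18_ψ A hq hA)

include hq hqM hA in
/-- `j̄` has a pole. -/
theorem S36RI_pole :
    ∃ c : Place (IsLocalRing.ResidueField A) ↥(S36FI_kappa M A),
      c.ord (S18_jbar M (IsLocalRing.ResidueField A)) < 0 := by
  refine DSC_exists_pole (S18_hk M A hq hA hqM) _ ?_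
  rintro ⟨c, hc⟩
  have htr := S36RI_transc M A
  rw [hc] at htr
  exact htr (isAlgebraic_algebraMap c)

include hq hA in
/-- the chart coordinate `x̄ = j̄^q` and `j̄` have the same regularity locus. -/
theorem S36RI_val (Q : Place (IsLocalRing.ResidueField A) ↥(S36FI_kappa M A)) :
    Q.adicValuation (S36CZ_xb M q hq hqM A hA) ≤ 1 ↔
      Q.adicValuation (S18_jbar M (IsLocalRing.ResidueField A)) ≤ 1 := by
  rw [S36CZ_xb_eq_pow M q hq hqM A hA, map_pow]
  exact pow_le_one_iff (NeZero.ne q)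

include hq hA in
/-- the coordinate ring of the chart `x̄ ≠ ∞` in terms of `j̄`. -/
theorem S36RI_mem_reg (y : ↥(S36FI_kappa M A)) :
    y ∈ S34SB_reg (IsLocalRing.ResidueField A) (S36CZ_xb M q hq hqM A hA) ↔
      ∀ Q : Place (IsLocalRing.ResidueField A) ↥(S36FI_kappa M A),
        Q.adicValuation (S18_jbar M (IsLocalRing.ResidueField A)) ≤ 1 →
          Q.adicValuation y ≤ 1 := by
  rw [S36CU_mem_reg_adic]
  exact forall_congr' fun Q => by rw [S36RI_val M q hq hqM A hA Q]

variable (n : ℕ) (hn : 0 < n)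

include hq hA in
/-- **`hR₁`** of `S36TX_geo_fin` for the chart `S36CZ_C`, `w₁ = j̄`. -/
theorem S36RI_hR₁ (y : ↥(S36FI_kappa M A)) :
    y ∈ (S36CZ_C M q hq hqM A hA n hn).Rb₁ ↔
      ∀ Q : Place (IsLocalRing.ResidueField A) ↥(S36FI_kappa M A),
        Q.adicValuation (S18_jbar M (IsLocalRing.ResidueField A)) ≤ 1 →
          Q.adicValuation y ≤ 1 :=
  S36RI_mem_reg M q hq hqM A hA y

include hq hA in
/-- **`hR₂`** of `S36TX_geo_fin` for the chart `S36CZ_C`, `w₂ = j̄`. -/
theorem S36RI_hR₂ (y : ↥(S36FI_kappa M A)) :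
    y ∈ (S36CZ_C M q hq hqM A hA n hn).Rb₂ ↔
      ∀ Q : Place (IsLocalRing.ResidueField A) ↥(S36FI_kappa M A),
        Q.adicValuation (S18_jbar M (IsLocalRing.ResidueField A)) ≤ 1 →
          Q.adicValuation y ≤ 1 :=
  S36RI_mem_reg M q hq hqM A hA y

include hq hA in
/-- **`hR₃`** of `S36TX_geo_fin` for the chart `S36CZ_C`, `w₃ = j̄`. -/
theorem S36RI_hR₃ (y : ↥(S36FI_kappa M A)) :
    y ∈ (S36CZ_C M q hq hqM A hA n hn).Rb₃ ↔
      ∀ Q : Place (IsLocalRing.ResidueField A) ↥(S36FI_kappa M A),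
        Q.adicValuation (S18_jbar M (IsLocalRing.ResidueField A)) ≤ 1 →
          Q.adicValuation y ≤ 1 :=
  S36RI_mem_reg M q hq hqM A hA y

include hq hA in
/-- **`hxw_j`** of `S36CX_geo_U'2` (`x_j = x̄`, `c₀ = c̄`, `w_j = j̄`, `e = q`). -/
theorem S36RI_hxw (c : (S36FI_SFF M q hq hqM A hA).A) (d₀ : IsLocalRing.ResidueField A)
    (hd₀ : d₀ ^ q = (S36FI_SFF M q hq hqM A hA).res c) :
    S36CZ_xb M q hq hqM A hA -
        algebraMap (IsLocalRing.ResidueField A) ↥(S36FI_kappa M A)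
          ((S36FI_SFF M q hq hqM A hA).res c) =
      (S18_jbar M (IsLocalRing.ResidueField A) -
        algebraMap (IsLocalRing.ResidueField A) ↥(S36FI_kappa M A) d₀) ^ q :=
  S36CZ_zb_eq_pow M q hq hqM A hA c d₀ hd₀

include hq hqM hA in
/-- **RBAR, bundled**: all RBAR inputs of `S36TX_geo_fin` / `S36CX_geo_U'2` for `w = j̄`. -/
theorem S36RI_exists :
    ∃ (h : RR_Hyp (IsLocalRing.ResidueField A) ↥(S36FI_kappa M A))
      (c₀ : Place (IsLocalRing.ResidueField A) ↥(S36FI_kappa M A))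
      (_ : FiniteDimensional
        (IsLocalRing.ResidueField A)⟮S18_jbar M (IsLocalRing.ResidueField A)⟯
        ↥(S36FI_kappa M A))
      (_ : Algebra.IsSeparable
        (IsLocalRing.ResidueField A)⟮S18_jbar M (IsLocalRing.ResidueField A)⟯
        ↥(S36FI_kappa M A)),
      c₀.ord (S18_jbar M (IsLocalRing.ResidueField A)) < 0 ∧
      Transcendental (IsLocalRing.ResidueField A) (S18_jbar M (IsLocalRing.ResidueField A)) := by
  obtain ⟨c₀, hc₀⟩ := S36RI_pole M q hq hqM A hA
  exact ⟨S36RI_hk M q hq hqM A hA, c₀, S36RI_fd M q hq hqM A hA, S36RI_sep M q hq hqM A hA, hc₀,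
    S36RI_transc M A⟩

end Fermat.Agent.S36
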