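import Fermat.Agent.S36.CuspLiUnrInst
import Fermat.Agent.S36.Fin3ChartZ
import Fermat.Agent.S36.RBarInst
import Fermat.Agent.S36.LDesc
import Fermat.Agent.S36.LocCore

/-!
# TRACK 10 (S36), audit item U5 (helper8), CLOSED form: `hcusp₁`, `hcusp₃` of `S36CX_geo_U'2`
on the chart `U′ = {B ≠ c}` with `Kp = S36LC_Kp S n S₁ S₂ S₃`.  Prefix `S36CLI_`.

Discharged here (w.r.t. `S36CLI_hcusp₁/₃` of `S36/CuspLiUnrInst.lean`):
`[IsNoetherianRing D′.Λ]` (`S36FG_noeth_latZ`, helper17), `R` (`S36FG_red_CZ`, helper17),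
`RR_Hyp k κ` (`S36RI_hk`), `hpole` (`B` is transcendental over `ℚ̄`), `hKp`, `hKum`
(`Kp = Kum ⊓ NormGrp`).

Hypotheses left: `hX` (the triple points are regular on `U″`), `hint₁` / `hint₃` (NODAL3 on `U′`).

* `S36CLI_hpole` : `B` has a pole;
* **`S36CLI_hcusp₁_fin`**, **`S36CLI_hcusp₃_fin`**.
-/

set_option autoImplicit false
set_option synthInstance.maxHeartbeats 400000
set_option maxHeartbeats 1000000
set_option linter.unusedSectionVars false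
set_option linter.unusedVariables false
set_option linter.style.haveILetI false

open AlgebraicCurve ModularCurve HahnSeries IntermediateField

noncomputable section

namespace Fermat.Agent.S36

open Fermat.Agent.Lib Fermat.Agent.S18 Fermat.Agent.S24 Fermat.Agent.S34

local notation "Ω" => AlgebraicClosure ℚ

variable (M q : ℕ) [NeZero M] [NeZero q] (hq : q.Prime) (hqM : ¬ q ∣ M)
  (A : ValuationSubring Ω) (hA : A.LiesOverPrime q)
  (ζ : Ωˣ) (hζ : ζ ^ q = 1) (hζ1 : ζ ≠ 1)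

/-- `B = j(t^q)` has a pole. -/
theorem S36CLI_hpole :
    ∃ v : Place Ω ↥(modularFunctionFieldBar (M * q * q)),
      v.ord ((S36CO_BL M q (A.inertiaSubgroupIn ℚ) :
        ↥(S36FI_act (M * q * q) (A.inertiaSubgroupIn ℚ)).fixF) :
          ↥(modularFunctionFieldBar (M * q * q))) < 0 :=
  S36CX_pole_of_transc (S36LD_hRR (M * q * q)) (S36CZ_B_transc M q)

variable (c : (S36FI_SFF M q hq hqM A hA).A) (n : ℕ) (hn : 0 < n)

/-- **the concrete `hcusp₁`** of `S36CX_geo_U'2`, closed form (hyps: `hX`, `hint₁`). -/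
theorem S36CLI_hcusp₁_fin {ι : Type*} [Finite ι]
    {X : S36SE_Pts (IsLocalRing.ResidueField A) ↥(S36FI_kappa M A) ↥(S36FI_kappa M A)
      ↥(S36FI_kappa M A) ι}
    (hX : S36SE_Reg (S36CZ_C'' M q hq hqM A hA c n hn) X)
    (hint₁ : ∀ g g' : ↥(S36CZ_C' M q hq hqM A hA c n hn).Rb₁,
      (∀ y, S36SE_e₁ (S36CZ_C' M q hq hqM A hA c n hn) X
        (hX.of_le (S36CZ_hle' M q hq hqM A hA c n hn)) y g = 0) →
      (∀ y, S36SE_e₁ (S36CZ_C' M q hq hqM A hA c n hn) X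
        (hX.of_le (S36CZ_hle' M q hq hqM A hA c n hn)) y g' = 0) →
      ((g * g', 0, 0) : ↥(S36CZ_C' M q hq hqM A hA c n hn).Rb₁ ×
          ↥(S36CZ_C' M q hq hqM A hA c n hn).Rb₂ × ↥(S36CZ_C' M q hq hqM A hA c n hn).Rb₃) ∈
        S36L3_W (S36FI_same3 M q hq hqM A hA ζ hζ hζ1) (S36CZ_C' M q hq hqM A hA c n hn) 1) :
    ∀ u ∈ S36LC_Kp (S36FI_act (M * q * q) (A.inertiaSubgroupIn ℚ)) n
        (S36FI_SFF M q hq hqM A hA) (S36FI_SFV M q hq hqM A hA ζ hζ hζ1)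
        (S36FI_SVV M q hq hqM A hA),
      ∀ P : Place (IsLocalRing.ResidueField A) ↥(S36FI_kappa M A),
      ¬ P.adicValuation (S36CZ_xb M q hq hqM A hA) ≤ 1 →
      P.adicValuation (S36CZ_zb M q hq hqM A hA c)⁻¹ ≤ 1 →
      ∃ m ∈ S36L3_W (S36FI_same3 M q hq hqM A hA ζ hζ hζ1) (S36CZ_C' M q hq hqM A hA c n hn)
          ((u : (↥(S36FI_act (M * q * q) (A.inertiaSubgroupIn ℚ)).fixF)ˣ) :
            ↥(S36FI_act (M * q * q) (A.inertiaSubgroupIn ℚ)).fixF),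
        FD_c0 P ((m.1 : ↥(S36CZ_C' M q hq hqM A hA c n hn).Rb₁) : ↥(S36FI_kappa M A)) ≠ 0 :=
  haveI := S36FG_noeth_latZ M q hq hqM A hA ζ hζ hζ1 c
  S36CLI_hcusp₁ M q hq hqM A hA ζ hζ hζ1 c n hn hX
    (S36FG_red_CZ M q hq hqM A hA ζ hζ hζ1 c n hn) (S36RI_hk M q hq hqM A hA) hint₁
    S36LC_Kp_le inf_le_left (S36CLI_hpole M q A)

/-- **the concrete `hcusp₃`** of `S36CX_geo_U'2`, closed form (hyps: `hX`, `hint₃`). -/
theorem S36CLI_hcusp₃_fin {ι : Type*} [Finite ι]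
    {X : S36SE_Pts (IsLocalRing.ResidueField A) ↥(S36FI_kappa M A) ↥(S36FI_kappa M A)
      ↥(S36FI_kappa M A) ι}
    (hX : S36SE_Reg (S36CZ_C'' M q hq hqM A hA c n hn) X)
    (hint₃ : ∀ g g' : ↥(S36CZ_C' M q hq hqM A hA c n hn).Rb₃,
      (∀ y, S36SE_e₃ (S36CZ_C' M q hq hqM A hA c n hn) X
        (hX.of_le (S36CZ_hle' M q hq hqM A hA c n hn)) y g = 0) →
      (∀ y, S36SE_e₃ (S36CZ_C' M q hq hqM A hA c n hn) X
        (hX.of_le (S36CZ_hle' M q hq hqM A hA c n hn)) y g' = 0) →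
      ((0, 0, g * g') : ↥(S36CZ_C' M q hq hqM A hA c n hn).Rb₁ ×
          ↥(S36CZ_C' M q hq hqM A hA c n hn).Rb₂ × ↥(S36CZ_C' M q hq hqM A hA c n hn).Rb₃) ∈
        S36L3_W (S36FI_same3 M q hq hqM A hA ζ hζ hζ1) (S36CZ_C' M q hq hqM A hA c n hn) 1) :
    ∀ u ∈ S36LC_Kp (S36FI_act (M * q * q) (A.inertiaSubgroupIn ℚ)) n
        (S36FI_SFF M q hq hqM A hA) (S36FI_SFV M q hq hqM A hA ζ hζ hζ1)
        (S36FI_SVV M q hq hqM A hA),
      ∀ P : Place (IsLocalRing.ResidueField A) ↥(S36FI_kappa M A),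
      ¬ P.adicValuation (S36CZ_xb M q hq hqM A hA) ≤ 1 →
      P.adicValuation (S36CZ_zb M q hq hqM A hA c)⁻¹ ≤ 1 →
      ∃ m ∈ S36L3_W (S36FI_same3 M q hq hqM A hA ζ hζ hζ1) (S36CZ_C' M q hq hqM A hA c n hn)
          ((u : (↥(S36FI_act (M * q * q) (A.inertiaSubgroupIn ℚ)).fixF)ˣ) :
            ↥(S36FI_act (M * q * q) (A.inertiaSubgroupIn ℚ)).fixF),
        FD_c0 P ((m.2.2 : ↥(S36CZ_C' M q hq hqM A hA c n hn).Rb₃) : ↥(S36FI_kappa M A)) ≠ 0 :=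
  haveI := S36FG_noeth_latZ M q hq hqM A hA ζ hζ hζ1 c
  S36CLI_hcusp₃ M q hq hqM A hA ζ hζ hζ1 c n hn hX
    (S36FG_red_CZ M q hq hqM A hA ζ hζ hζ1 c n hn) (S36RI_hk M q hq hqM A hA) hint₃
    S36LC_Kp_le inf_le_left (S36CLI_hpole M q A)

end Fermat.Agent.S36
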