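import Mathlib
import Fermat.Agent.S36.Cart3

/-!
# TRACK 10 (S36), package F6 CART (R14) (helper5), part 2: the quotient `Λ_y ⧸ (s) ≃ Oȳ`

For `H : S36CA_Branch Λ y ρ s O` (`S36/Cart3.lean`):
* `H.redLoc : S36IT_loc Λ y →+* O` : the reduction of the local ring, `a / d ↦ ρ a / ρ d`;
* `H.redLoc_eq`, `H.redLoc_incl`, `H.redLoc_surjective`, `H.ker_redLoc : ker = (s)`;
* `H.quotEquiv : (S36IT_loc Λ y ⧸ Ideal.span {S36CA_incl Λ y s}) ≃+* O`;
* `H.isDomain_quot`, `H.isPrincipalIdealRing_quot` (for `[IsPrincipalIdealRing O]`),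
  `H.hjac : s ∈ jacobson ⊥` : the instance hypotheses of helper27's `S36LI_val` / `S36LI_core`
  (`S36/LiAbs.lean`) for `R = Λ_y`;
* `H.hK` : `hK` of `S36LI_core` (from the hypotheses of `H.hsep`);
* `H.redLoc_unit_iff` : `x ∈ Λ_y` is a unit iff `redLoc x` is a unit of `Oȳ`
  (i.e. the point `y` is the closed point of the branch).
-/

set_option autoImplicit false

namespace Fermat.Agent.S36

open IsLocalRing

namespace S36CA_Branch

variable {K : Type*} [Field K] {k : Type*} [Field k] {κ : Type*} [Field κ]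
  {Λ : Subring K} {y : Λ →+* k} {ρ : Λ →+* κ} {s : Λ} {O : ValuationSubring κ}

/-- the value `ρ a / ρ d` does not depend on the representation `x = a / d`. -/
theorem red_wd (H : S36CA_Branch Λ y ρ s O) {x : K} {a d a' d' : Λ} (hd : y d ≠ 0)
    (hd' : y d' ≠ 0) (h : x * d = a) (h' : x * d' = a') : ρ a / ρ d = ρ a' / ρ d' := by
  have e : a * d' = a' * d := by
    apply Subtype.ext
    push_cast
    rw [← h, ← h']
    ring
  have e' : ρ a * ρ d' = ρ a' * ρ d := by rw [← map_mul, ← map_mul, e]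
  rw [div_eq_div_iff (H.ρ_ne_zero hd) (H.ρ_ne_zero hd')]
  exact e'

/-- the underlying function of `redLoc`. -/
noncomputable def redFun (H : S36CA_Branch Λ y ρ s O) (x : S36IT_loc Λ y) : O :=
  ⟨ρ ((S36CA_mem_loc Λ y _).1 x.2).choose / ρ ((S36CA_mem_loc Λ y _).1 x.2).choose_spec.choose,
    H.c2 _ _ ((S36CA_mem_loc Λ y _).1 x.2).choose_spec.choose_spec.1⟩

theorem redFun_eq (H : S36CA_Branch Λ y ρ s O) (x : S36IT_loc Λ y) (a d : Λ) (hd : y d ≠ 0)
    (h : (x : K) * d = a) : (H.redFun x : κ) = ρ a / ρ d :=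
  H.red_wd ((S36CA_mem_loc Λ y _).1 x.2).choose_spec.choose_spec.1 hd
    ((S36CA_mem_loc Λ y _).1 x.2).choose_spec.choose_spec.2 h

/-- the reduction `Λ_y → Oȳ`. -/
noncomputable def redLoc (H : S36CA_Branch Λ y ρ s O) : S36IT_loc Λ y →+* O where
  toFun := H.redFun
  map_one' := by
    apply Subtype.ext
    rw [H.redFun_eq 1 1 1 (by rw [map_one]; exact one_ne_zero) (by simp)]
    simp
  map_mul' x x' := by
    obtain ⟨a, d, hd, h⟩ := (S36CA_mem_loc Λ y _).1 x.2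
    obtain ⟨a', d', hd', h'⟩ := (S36CA_mem_loc Λ y _).1 x'.2
    apply Subtype.ext
    have hdd : y (d * d') ≠ 0 := by rw [map_mul]; exact mul_ne_zero hd hd'
    have e : ((x * x' : S36IT_loc Λ y) : K) * ((d * d' : Λ) : K) = ((a * a' : Λ) : K) := by
      push_cast
      rw [← h, ← h']
      ring
    rw [H.redFun_eq (x * x') (a * a') (d * d') hdd e]
    show _ = (H.redFun x : κ) * (H.redFun x' : κ)
    rw [H.redFun_eq x a d hd h, H.redFun_eq x' a' d' hd' h', map_mul, map_mul]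
    rw [div_mul_div_comm]
  map_zero' := by
    apply Subtype.ext
    rw [H.redFun_eq 0 0 1 (by rw [map_one]; exact one_ne_zero) (by simp)]
    simp
  map_add' x x' := by
    obtain ⟨a, d, hd, h⟩ := (S36CA_mem_loc Λ y _).1 x.2
    obtain ⟨a', d', hd', h'⟩ := (S36CA_mem_loc Λ y _).1 x'.2
    apply Subtype.ext
    have hdd : y (d * d') ≠ 0 := by rw [map_mul]; exact mul_ne_zero hd hd'
    have e : ((x + x' : S36IT_loc Λ y) : K) * ((d * d' : Λ) : K)
        = ((a * d' + a' * d : Λ) : K) := by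
      push_cast
      rw [← h, ← h']
      ring
    rw [H.redFun_eq (x + x') (a * d' + a' * d) (d * d') hdd e]
    show _ = (H.redFun x : κ) + (H.redFun x' : κ)
    rw [H.redFun_eq x a d hd h, H.redFun_eq x' a' d' hd' h', map_add, map_mul, map_mul, map_mul]
    rw [div_add_div _ _ (H.ρ_ne_zero hd) (H.ρ_ne_zero hd'), mul_comm (ρ d) (ρ a')]

theorem redLoc_eq (H : S36CA_Branch Λ y ρ s O) (x : S36IT_loc Λ y) (a d : Λ) (hd : y d ≠ 0)
    (h : (x : K) * d = a) : (H.redLoc x : κ) = ρ a / ρ d :=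
  H.redFun_eq x a d hd h

@[simp] theorem redLoc_incl (H : S36CA_Branch Λ y ρ s O) (a : Λ) :
    (H.redLoc (S36CA_incl Λ y a) : κ) = ρ a := by
  rw [H.redLoc_eq _ a 1 (by rw [map_one]; exact one_ne_zero) (by simp), map_one, div_one]

theorem redLoc_surjective (H : S36CA_Branch Λ y ρ s O) : Function.Surjective H.redLoc := by
  rintro ⟨z, hz⟩
  obtain ⟨a, d, hd, h⟩ := H.hsub z hz
  refine ⟨⟨(a : K) / d, S36CA_div_mem Λ y a d hd⟩, ?_⟩
  apply Subtype.ext
  rw [H.redLoc_eq _ a d hd (div_mul_cancel₀ _ (S36CA_ne_zero Λ y hd)), h,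
    mul_div_cancel_right₀ _ (H.ρ_ne_zero hd)]

theorem redLoc_eq_zero_iff (H : S36CA_Branch Λ y ρ s O) (x : S36IT_loc Λ y) :
    H.redLoc x = 0 ↔ S36CA_incl Λ y s ∣ x := by
  obtain ⟨a, d, hd, h⟩ := (S36CA_mem_loc Λ y _).1 x.2
  have e : H.redLoc x = 0 ↔ ρ a = 0 := by
    rw [← Subtype.coe_inj, H.redLoc_eq x a d hd h]
    show ρ a / ρ d = 0 ↔ _
    rw [div_eq_zero_iff]
    exact ⟨fun h' => h'.resolve_right (H.ρ_ne_zero hd), Or.inl⟩
  rw [e]
  exact ⟨H.dvd_of_red x a d hd h, H.red_of_dvd x a d h⟩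

/-- **`ker (Λ_y → Oȳ) = (s)`**. -/
theorem ker_redLoc (H : S36CA_Branch Λ y ρ s O) :
    RingHom.ker H.redLoc = Ideal.span {S36CA_incl Λ y s} := by
  ext x
  rw [RingHom.mem_ker, H.redLoc_eq_zero_iff, Ideal.mem_span_singleton]

/-- **`Λ_y ⧸ (s) ≃ Oȳ`**. -/
noncomputable def quotEquiv (H : S36CA_Branch Λ y ρ s O) :
    (S36IT_loc Λ y ⧸ Ideal.span {S36CA_incl Λ y s}) ≃+* O :=
  (Ideal.quotEquivOfEq H.ker_redLoc.symm).trans
    (RingHom.quotientKerEquivOfSurjective H.redLoc_surjective)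

theorem quotEquiv_mk (H : S36CA_Branch Λ y ρ s O) (x : S36IT_loc Λ y) :
    H.quotEquiv (Ideal.Quotient.mk _ x) = H.redLoc x := rfl

/-- `Λ_y ⧸ (s)` is a domain. -/
theorem isDomain_quot (H : S36CA_Branch Λ y ρ s O) :
    IsDomain (S36IT_loc Λ y ⧸ Ideal.span {S36CA_incl Λ y s}) :=
  H.quotEquiv.toMulEquiv.isDomain _

/-- `Λ_y ⧸ (s)` is a principal ideal ring if `Oȳ` is. -/
theorem isPrincipalIdealRing_quot (H : S36CA_Branch Λ y ρ s O) [IsPrincipalIdealRing O] :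
    IsPrincipalIdealRing (S36IT_loc Λ y ⧸ Ideal.span {S36CA_incl Λ y s}) :=
  IsPrincipalIdealRing.of_surjective H.quotEquiv.symm.toRingHom H.quotEquiv.symm.surjective

/-- `s` lies in the Jacobson radical of `Λ_y`. -/
theorem hjac (H : S36CA_Branch Λ y ρ s O) :
    S36CA_incl Λ y s ∈ (⊥ : Ideal (S36IT_loc Λ y)).jacobson := by
  rw [IsLocalRing.jacobson_eq_maximalIdeal ⊥ bot_ne_top]
  exact H.hs

/-- `hK` of `S36LI_core`. -/
theorem hK (H : S36CA_Branch Λ y ρ s O) (V : ValuationSubring K)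
    (hΛV : ∀ f : Λ, (f : K) ∈ V) (hdV : ∀ d : Λ, y d ≠ 0 → (d : K)⁻¹ ∈ V)
    (hVarch : ∀ r : K, r ≠ 0 → ∃ j : ℕ, r / (s : K) ^ j ∉ V)
    (a : S36IT_loc Λ y) (ha : a ≠ 0) : ∃ n : ℕ, a ∉ Ideal.span {S36CA_incl Λ y s ^ n} := by
  by_contra hcon
  push Not at hcon
  exact ha (H.hsep V hΛV hdV hVarch a fun j => Ideal.mem_span_singleton.1 (hcon j))

/-- units of `Λ_y` are detected on the branch. -/
theorem redLoc_unit_iff (H : S36CA_Branch Λ y ρ s O) (x : S36IT_loc Λ y) :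
    IsUnit x ↔ IsUnit (H.redLoc x) := by
  constructor
  · exact fun h => h.map H.redLoc
  · intro h
    by_contra hx
    -- `x ∈ 𝔪`, so `x = a / d` with `y a = 0`; then `1 - x * x'` is a unit for every `x'`
    obtain ⟨z, hz⟩ := h.exists_right_inv
    obtain ⟨x', rfl⟩ := H.redLoc_surjective z
    have h1 : H.redLoc (1 - x * x') = 0 := by rw [map_sub, map_one, map_mul, hz, sub_self]
    have h2 : S36CA_incl Λ y s ∣ 1 - x * x' := (H.redLoc_eq_zero_iff _).1 h1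
    have h3 : 1 - x * x' ∈ maximalIdeal (S36IT_loc Λ y) :=
      Ideal.mem_of_dvd _ h2 H.hs
    have h4 : x * x' ∈ maximalIdeal (S36IT_loc Λ y) :=
      Ideal.mul_mem_right _ _ hx
    have h5 : (1 : S36IT_loc Λ y) ∈ maximalIdeal (S36IT_loc Λ y) := by
      have := Ideal.add_mem _ h3 h4
      rwa [sub_add_cancel] at this
    exact (Ideal.ne_top_iff_one _).1 (IsLocalRing.maximalIdeal.isMaximal _).ne_top h5

end S36CA_Branch

end Fermat.Agent.S36
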