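import Mathlib
import Fermat.Agent.S36.Cart3Quot
import Fermat.Agent.S36.LiValVS

/-!
# TRACK 10 (S36), package F6 CART (R14) (helper5), part 6: CART in VALUATION-SUBRING form —
# the CART inputs of `S36LW_li` (helper19, `S36/LiValVS.lean`)

Setting of `S36/Int3VS.lean`: `O : ι → ValuationSubring K` (vertical and horizontal),
`Λ = {x ∈ K₀ | ∀ i, x ∈ O i}`, `y : Λ →+* k`, `T = S36IT_thruVS O Λ y`.

* `S36CA_IsU_of_mul` : in a valuation ring, if a product of elements of `O` is a unit then so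
  are the factors;
* `S36CA_hC1_of_vs` : **(C1) from the valuation rings through `y`**: `s` is a unit at every
  other valuation ring through `y` and generates the centre of `O i₀` on `Λ`;
* `S36CA_branch_of_vs` : the `S36CA_Branch Λ y ρ s Oy` of `S36LW_li`;
* `S36CA_eps_ss_vs` : **supersingular points**: `ε = t₁ t₂ ϖ^(m+1) / q ∈ Λ`, `y ε ≠ 0`; at every
  `i` through `y`: `t₁/q ∈ O i` (FF) ⇒ `t₁/q`, `t₂`, `ϖ` units; `t₂/q ∈ O i` (VV) ⇒ `t₂/q`, `t₁`,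
  `ϖ` units; `ϖ^(m+1)/q ∈ O i` (FV, horizontal) ⇒ `ϖ^(m+1)/q`, `t₁`, `t₂` units;
* `S36CA_eps_ram_vs` : the same for `d = g ϖ^(m+1) / q` (ordinary points and cusps of FV);
* `S36CA_IsUnif` : `t` is a uniformiser of `O` (`t ∈ 𝔪`, `𝔪 ⊆ t O`);
  `S36CA_IsUnif.of_isU` (`t' = t · unit`), `S36CA_IsUnif.of_pow` (`t'ⁿ = tⁿ · unit`),
  `S36CA_IsUnif.htgen` : `∀ x ≠ 0, ∃ a : ℤ, x * t ^ a` is a unit  (= `htgen` of `S36LW_li`),
  `S36CA_IsUnif.hloc`;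
* `S36CA_not_thru` : (R11a) ⇒ the other vertical valuation rings do NOT pass through `y`.
-/

set_option autoImplicit false

namespace Fermat.Agent.S36

section units

variable {K : Type*} [Field K]

/-- if `a, b ∈ O` and `a b` is a unit of `O`, then `a` is a unit of `O`. -/
theorem S36CA_IsU_of_mul (O : ValuationSubring K) {a b : K} (ha : a ∈ O) (hb : b ∈ O)
    (hab : S36LW_IsU O (a * b)) (hb0 : b ≠ 0) : S36LW_IsU O a := by
  refine ⟨ha, ?_⟩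
  rcases eq_or_ne a 0 with rfl | ha0
  · rw [inv_zero]; exact O.zero_mem
  have : a⁻¹ = b * (a * b)⁻¹ := by
    field_simp
  rw [this]
  exact O.mul_mem _ _ hb hab.2

theorem S36CA_IsU_of_mul' (O : ValuationSubring K) {a b : K} (ha : a ∈ O) (hb : b ∈ O)
    (hab : S36LW_IsU O (a * b)) (ha0 : a ≠ 0) : S36LW_IsU O b := by
  rw [mul_comm] at hab
  exact S36CA_IsU_of_mul O hb ha hab ha0

/-- `t` is a uniformiser of the valuation ring `O`. -/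
structure S36CA_IsUnif (O : ValuationSubring K) (t : K) : Prop where
  ne_zero : t ≠ 0
  mem : t ∈ O
  inv_not_mem : t⁻¹ ∉ O
  gen : ∀ f : K, f ∈ O → f⁻¹ ∉ O → f / t ∈ O

namespace S36CA_IsUnif

variable {O : ValuationSubring K} {t : K}

/-- a unit multiple of a uniformiser is a uniformiser. -/
theorem of_isU (h : S36CA_IsUnif O t) {t' : K} (ht' : t' ≠ 0) (hu : S36LW_IsU O (t' / t)) :
    S36CA_IsUnif O t' where
  ne_zero := ht'
  mem := by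
    have : t' = (t' / t) * t := by rw [div_mul_cancel₀ _ h.ne_zero]
    rw [this]
    exact O.mul_mem _ _ hu.1 h.mem
  inv_not_mem := by
    intro hmem
    apply h.inv_not_mem
    have : t⁻¹ = (t' / t) * t'⁻¹ := by
      field_simp
    rw [this]
    exact O.mul_mem _ _ hu.1 hmem
  gen := by
    intro f hf hfi
    have : f / t' = (f / t) * (t' / t)⁻¹ := by
      have := h.ne_zero
      field_simp
    rw [this]
    exact O.mul_mem _ _ (h.gen f hf hfi) hu.2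

/-- if `t' ∈ O` and `t' ^ n / t ^ n` is a unit (`n ≠ 0`), then `t'` is a uniformiser. -/
theorem of_pow (h : S36CA_IsUnif O t) {t' : K} (ht' : t' ≠ 0) (n : ℕ) (hn : n ≠ 0)
    (hu : S36LW_IsU O (t' ^ n / t ^ n)) : S36CA_IsUnif O t' := by
  apply h.of_isU ht'
  have hroot : ∀ x : K, x ^ n ∈ O → x ∈ O := by
    intro x hx
    rw [← O.valuation_le_one_iff] at hx ⊢
    rw [map_pow] at hx
    exact (pow_le_one_iff hn).1 hx
  constructor
  · apply hroot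
    rw [div_pow]
    exact hu.1
  · apply hroot
    rw [inv_pow, div_pow]
    exact hu.2

/-- every nonzero element is a unit times a power of the uniformiser, if `O` is archimedean
with respect to `t` (`harch`, e.g. `O` a discrete valuation ring). -/
theorem htgen (h : S36CA_IsUnif O t)
    (harch : ∀ z : K, ∃ n : ℕ, z * t ^ n ∈ O) (x : K) (hx : x ≠ 0) :
    ∃ a : ℤ, S36LW_IsU O (x * t ^ a) := by
  classical
  have ht0 := h.ne_zero
  -- the least `n` with `x⁻¹ * t ^ n ∈ O` … we use: for `z ∈ O`, `z ≠ 0`, the largest power of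
  -- `t` dividing `z`.
  have key : ∀ z : K, z ≠ 0 → z ∈ O → ∃ m : ℕ, S36LW_IsU O (z / t ^ m) := by
    intro z hz0 hzO
    obtain ⟨N, hN⟩ := harch z⁻¹
    -- induction on `N`: `z⁻¹ t^N ∈ O`
    have aux : ∀ N : ℕ, ∀ z : K, z ≠ 0 → z ∈ O → z⁻¹ * t ^ N ∈ O →
        ∃ m : ℕ, S36LW_IsU O (z / t ^ m) := by
      intro N
      induction N with
      | zero =>
        intro z hz0 hzO hN
        rw [pow_zero, mul_one] at hN
        exact ⟨0, by rw [pow_zero, div_one]; exact ⟨hzO, hN⟩⟩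
      | succ N ih =>
        intro z hz0 hzO hN
        by_cases hzi : z⁻¹ ∈ O
        · exact ⟨0, by rw [pow_zero, div_one]; exact ⟨hzO, hzi⟩⟩
        · have h1 := h.gen z hzO hzi
          have h2 : (z / t)⁻¹ * t ^ N ∈ O := by
            have : (z / t)⁻¹ * t ^ N = z⁻¹ * t ^ (N + 1) := by
              rw [pow_succ]
              field_simp
            rw [this]
            exact hN
          obtain ⟨m, hm⟩ := ih (z / t) (div_ne_zero hz0 ht0) h1 h2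
          refine ⟨m + 1, ?_⟩
          have : z / t ^ (m + 1) = z / t / t ^ m := by
            rw [pow_succ]
            field_simp
          rw [this]
          exact hm
    exact aux N z hz0 hzO hN
  rcases O.mem_or_inv_mem x with hxO | hxO
  · obtain ⟨m, hm⟩ := key x hx hxO
    refine ⟨-(m : ℤ), ?_⟩
    rw [zpow_neg, zpow_natCast, ← div_eq_mul_inv]
    exact hm
  · obtain ⟨m, hm⟩ := key x⁻¹ (inv_ne_zero hx) hxO
    refine ⟨(m : ℤ), ?_⟩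
    have : x * t ^ (m : ℤ) = (x⁻¹ / t ^ m)⁻¹ := by
      rw [zpow_natCast]
      field_simp
    rw [this]
    exact hm.inv

/-- `hloc` for a uniformiser. -/
theorem hloc (h : S36CA_IsUnif O t) (f : K) (hf : f ∈ O) (hfi : f⁻¹ ∉ O) : f / t ∈ O :=
  h.gen f hf hfi

end S36CA_IsUnif

end units

section cart

variable {K : Type*} [Field K] {k : Type*} [Field k] {ι : Type*}

/-- **(C1) from the valuation rings through `y`** (valuation-subring form). -/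
theorem S36CA_hC1_of_vs (O : ι → ValuationSubring K) (K₀ : Subfield K) (Λ : Subring K)
    (hΛ : ∀ x : K, x ∈ Λ ↔ x ∈ K₀ ∧ ∀ i, x ∈ O i)
    (hfin : ∀ x : K, x ∈ K₀ → x ≠ 0 → {i | x ∉ O i}.Finite)
    (harch : ∀ (i : ι) (x : K), x ≠ 0 → x ∈ O i → x⁻¹ ∉ O i → ∀ z : K, ∃ n : ℕ, z * x ^ n ∈ O i)
    (y : Λ →+* k) (i₀ : ι) (s : Λ) (hs0 : (s : K) ≠ 0)
    (hs1 : ∀ i ∈ S36IT_thruVS O Λ y, i ≠ i₀ → ((s : K))⁻¹ ∈ O i)
    (hloc : ∀ f : Λ, ((f : K))⁻¹ ∉ O i₀ → (f : K) / s ∈ O i₀) :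
    ∀ f : Λ, (f = 0 ∨ ((f : K))⁻¹ ∉ O i₀) → ∃ d e : Λ, y d ≠ 0 ∧ d * f = s * e := by
  rintro f (rfl | hf)
  · exact ⟨1, 0, by rw [map_one]; exact one_ne_zero, by rw [mul_zero, mul_zero]⟩
  have key : ∀ i ∈ S36IT_thruVS O Λ y, (f : K) / s ∈ O i := by
    intro i hi
    by_cases hii : i = i₀
    · subst hii
      exact hloc f hf
    · rw [div_eq_mul_inv]
      exact (O i).mul_mem _ _ (((hΛ _).1 f.2).2 i) (hs1 i hi hii)
  obtain ⟨d, hd, hdf⟩ := S36IT_exists_den_vs O K₀ Λ hΛ hfin harch y _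
    (K₀.div_mem ((hΛ _).1 f.2).1 ((hΛ _).1 s.2).1) key
  refine ⟨d, ⟨_, hdf⟩, hd, ?_⟩
  apply Subtype.ext
  push_cast
  field_simp

/-- **the `S36CA_Branch` from valuation rings** (input `H` of `S36LW_li`). -/
theorem S36CA_branch_of_vs {κ : Type*} [Field κ] (O : ι → ValuationSubring K)
    (K₀ : Subfield K) (Λ : Subring K)
    (hΛ : ∀ x : K, x ∈ Λ ↔ x ∈ K₀ ∧ ∀ i, x ∈ O i)
    (hfin : ∀ x : K, x ∈ K₀ → x ≠ 0 → {i | x ∉ O i}.Finite)
    (harch : ∀ (i : ι) (x : K), x ≠ 0 → x ∈ O i → x⁻¹ ∉ O i → ∀ z : K, ∃ n : ℕ, z * x ^ n ∈ O i)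
    (y : Λ →+* k) (i₀ : ι) (hi₀ : i₀ ∈ S36IT_thruVS O Λ y)
    (ρ : Λ →+* κ) (hker : ∀ f : Λ, ρ f = 0 ↔ (f = 0 ∨ ((f : K))⁻¹ ∉ O i₀))
    (s : Λ) (hs0 : (s : K) ≠ 0) (hs : ((s : K))⁻¹ ∉ O i₀)
    (hs1 : ∀ i ∈ S36IT_thruVS O Λ y, i ≠ i₀ → ((s : K))⁻¹ ∈ O i)
    (hloc : ∀ f : Λ, ((f : K))⁻¹ ∉ O i₀ → (f : K) / s ∈ O i₀)
    (Oy : ValuationSubring κ)
    (hsub : ∀ x : κ, x ∈ Oy → ∃ a d : Λ, y d ≠ 0 ∧ ρ a = x * ρ d)
    (hOarch : ∀ x : κ, x ≠ 0 → x ∈ Oy → x⁻¹ ∉ Oy → ∀ z : κ, ∃ n : ℕ, z * x ^ n ∈ Oy)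
    (hne : ∃ t : Λ, y t = 0 ∧ ρ t ≠ 0) : S36CA_Branch Λ y ρ s Oy where
  hthr f hf := by
    rcases (hker f).1 hf with rfl | h
    · exact map_zero y
    · exact hi₀ f h
  hρs := (hker s).2 (Or.inr hs)
  hC1 f hf :=
    S36CA_hC1_of_vs O K₀ Λ hΛ hfin harch y i₀ s hs0 hs1 hloc f ((hker f).1 hf)
  hsub := hsub
  harch := hOarch
  hne := hne

/-- **(R11a) ⇒ not through `y`**: if some `g ∈ Λ` is a non-unit of `O i` and `y g ≠ 0`, then
`O i` does not pass through `y`. -/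
theorem S36CA_not_thru (O : ι → ValuationSubring K) (Λ : Subring K) (y : Λ →+* k) (i : ι)
    (g : Λ) (hg : ((g : K))⁻¹ ∉ O i) (hyg : y g ≠ 0) : i ∉ S36IT_thruVS O Λ y :=
  fun hi => hyg (hi g hg)

/-- a denominator is a unit at every valuation ring through `y`. -/
theorem S36CA_IsU_of_thru (O : ι → ValuationSubring K) (Λ : Subring K)
    (hmem : ∀ x : Λ, ∀ i, (x : K) ∈ O i) (y : Λ →+* k) {i : ι}
    (hi : i ∈ S36IT_thruVS O Λ y) {d : Λ} (hd : y d ≠ 0) : S36LW_IsU (O i) (d : K) :=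
  ⟨hmem d i, S36IT_inv_mem_of_thru hi hd⟩

/-- **ordinary points and cusps of the ramified branch** (valuation-subring form):
`d = g ϖ^(m+1) / q ∈ Λ` a unit at `y`, `i` through `y` with `ϖ^(m+1) / q ∈ O i`
(`i` = FV or horizontal): then `g` and `ϖ^(m+1) / q` are units of `O i`. -/
theorem S36CA_eps_ram_vs (O : ι → ValuationSubring K) (Λ : Subring K)
    (hmem : ∀ x : Λ, ∀ i, (x : K) ∈ O i) (y : Λ →+* k)
    (q ϖ g d : Λ) (hq0 : (q : K) ≠ 0) (hϖ0 : (ϖ : K) ≠ 0) (m : ℕ)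
    (hdK : (d : K) = g * (ϖ : K) ^ (m + 1) / q) (hd : y d ≠ 0)
    (i : ι) (hi : i ∈ S36IT_thruVS O Λ y) (hϖq : (ϖ : K) ^ (m + 1) / q ∈ O i) :
    S36LW_IsU (O i) (g : K) ∧ S36LW_IsU (O i) ((ϖ : K) ^ (m + 1) / q) := by
  have hU := S36CA_IsU_of_thru O Λ hmem y hi hd
  have e : (d : K) = (g : K) * ((ϖ : K) ^ (m + 1) / q) := by rw [hdK, mul_div_assoc]
  rw [e] at hU
  have hd0 : (d : K) ≠ 0 := S36IT_den_ne_zero hd
  have hg0 : (g : K) ≠ 0 := by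
    intro h0
    rw [e, h0, zero_mul] at hd0
    exact hd0 rfl
  have hw0 : (ϖ : K) ^ (m + 1) / q ≠ 0 := div_ne_zero (pow_ne_zero _ hϖ0) hq0
  exact ⟨S36CA_IsU_of_mul (O i) (hmem g i) hϖq hU hw0,
    S36CA_IsU_of_mul' (O i) (hmem g i) hϖq hU hg0⟩

/-- **supersingular points: "ε is a unit at `y`"** (valuation-subring form).
`ε = t₁ t₂ ϖ^(m+1) / q ∈ Λ`, `y ε ≠ 0`, `i` through `y`:
(1) `t₁ / q ∈ O i` (`i` = FF) ⇒ `t₁ / q`, `t₂`, `ϖ` are units of `O i`;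
(2) `t₂ / q ∈ O i` (`i` = VV) ⇒ `t₂ / q`, `t₁`, `ϖ` are units of `O i`;
(3) `ϖ^(m+1) / q ∈ O i` (`i` = FV or horizontal) ⇒ `ϖ^(m+1) / q`, `t₁`, `t₂` are units. -/
theorem S36CA_eps_ss_vs (O : ι → ValuationSubring K) (Λ : Subring K)
    (hmem : ∀ x : Λ, ∀ i, (x : K) ∈ O i) (y : Λ →+* k)
    (q ϖ t₁ t₂ ε : Λ) (hq0 : (q : K) ≠ 0) (m : ℕ)
    (hεK : (ε : K) = t₁ * t₂ * (ϖ : K) ^ (m + 1) / q) (hε : y ε ≠ 0)
    (i : ι) (hi : i ∈ S36IT_thruVS O Λ y) :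
    ((t₁ : K) / q ∈ O i →
      S36LW_IsU (O i) ((t₁ : K) / q) ∧ S36LW_IsU (O i) (t₂ : K) ∧ S36LW_IsU (O i) (ϖ : K)) ∧
    ((t₂ : K) / q ∈ O i →
      S36LW_IsU (O i) ((t₂ : K) / q) ∧ S36LW_IsU (O i) (t₁ : K) ∧ S36LW_IsU (O i) (ϖ : K)) ∧
    ((ϖ : K) ^ (m + 1) / q ∈ O i →
      S36LW_IsU (O i) ((ϖ : K) ^ (m + 1) / q) ∧ S36LW_IsU (O i) (t₁ : K) ∧
        S36LW_IsU (O i) (t₂ : K)) := by
  have hU := S36CA_IsU_of_thru O Λ hmem y hi hε
  have hε0 : (ε : K) ≠ 0 := S36IT_den_ne_zero hε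
  have ht₁0 : (t₁ : K) ≠ 0 := by
    intro h0
    rw [hεK, h0] at hε0
    simp at hε0
  have ht₂0 : (t₂ : K) ≠ 0 := by
    intro h0
    rw [hεK, h0] at hε0
    simp at hε0
  have hϖ0 : (ϖ : K) ≠ 0 := by
    intro h0
    rw [hεK, h0] at hε0
    simp at hε0
  have hϖm0 : (ϖ : K) ^ (m + 1) ≠ 0 := pow_ne_zero _ hϖ0
  have hϖm : (ϖ : K) ^ (m + 1) ∈ O i := (O i).pow_mem (hmem ϖ i) _
  -- a unit power has a unit base
  have hroot : S36LW_IsU (O i) ((ϖ : K) ^ (m + 1)) → S36LW_IsU (O i) (ϖ : K) := by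
    intro h
    refine ⟨hmem ϖ i, ?_⟩
    have h2 := h.2
    rw [← inv_pow] at h2
    rw [← (O i).valuation_le_one_iff] at h2 ⊢
    rw [map_pow] at h2
    exact (pow_le_one_iff (Nat.succ_ne_zero m)).1 h2
  refine ⟨fun h => ?_, fun h => ?_, fun h => ?_⟩
  · have e : (ε : K) = ((t₁ : K) / q) * ((t₂ : K) * (ϖ : K) ^ (m + 1)) := by
      rw [hεK]; field_simp
    rw [e] at hU
    have h23 : (t₂ : K) * (ϖ : K) ^ (m + 1) ∈ O i := (O i).mul_mem _ _ (hmem t₂ i) hϖm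
    have hA := S36CA_IsU_of_mul (O i) h h23 hU (mul_ne_zero ht₂0 hϖm0)
    have hB := S36CA_IsU_of_mul' (O i) h h23 hU (div_ne_zero ht₁0 hq0)
    exact ⟨hA, S36CA_IsU_of_mul (O i) (hmem t₂ i) hϖm hB hϖm0,
      hroot (S36CA_IsU_of_mul' (O i) (hmem t₂ i) hϖm hB ht₂0)⟩
  · have e : (ε : K) = ((t₂ : K) / q) * ((t₁ : K) * (ϖ : K) ^ (m + 1)) := by
      rw [hεK]; field_simp
    rw [e] at hU
    have h13 : (t₁ : K) * (ϖ : K) ^ (m + 1) ∈ O i := (O i).mul_mem _ _ (hmem t₁ i) hϖm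
    have hA := S36CA_IsU_of_mul (O i) h h13 hU (mul_ne_zero ht₁0 hϖm0)
    have hB := S36CA_IsU_of_mul' (O i) h h13 hU (div_ne_zero ht₂0 hq0)
    exact ⟨hA, S36CA_IsU_of_mul (O i) (hmem t₁ i) hϖm hB hϖm0,
      hroot (S36CA_IsU_of_mul' (O i) (hmem t₁ i) hϖm hB ht₁0)⟩
  · have e : (ε : K) = ((ϖ : K) ^ (m + 1) / q) * ((t₁ : K) * (t₂ : K)) := by
      rw [hεK]; field_simp
    rw [e] at hU
    have h12 : (t₁ : K) * (t₂ : K) ∈ O i := (O i).mul_mem _ _ (hmem t₁ i) (hmem t₂ i)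
    have hA := S36CA_IsU_of_mul (O i) h h12 hU (mul_ne_zero ht₁0 ht₂0)
    have hB := S36CA_IsU_of_mul' (O i) h h12 hU (div_ne_zero hϖm0 hq0)
    exact ⟨hA, S36CA_IsU_of_mul (O i) (hmem t₁ i) (hmem t₂ i) hB ht₂0,
      S36CA_IsU_of_mul' (O i) (hmem t₁ i) (hmem t₂ i) hB ht₁0⟩

end cart

end Fermat.Agent.S36
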