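import Mathlib
import Fermat.Agent.S36.Cart3VS

/-!
# TRACK 10 (S36), package F6 CART (R14) (helper5), part 7: the CART bundle of `S36LW_li`

`S36LW_li` (helper19, `S36/LiValVS.lean`) needs at a closed point `y` the data
`ρ s Oy H i₀ hker hsi₀ Vt hVt hi₀ t hst ht₀ ht0 ht1 htgen`.  This file bundles them
(`S36CA_LiData`) and constructs the bundle in the two geometric situations:

* `S36CA_liData_one` : **a point of ONE vertical component** (ordinary points and cusps of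
  FF, FV, VV): `Vt = {i₀}`, `t = s` a uniformiser of `O i₀` which is a unit at the other
  valuation rings through `y`
  (FF, VV: `s = q`;  FV: `s = ϖ_τ` resp. `C/A − 1`, via `S36CA_eps_ram_vs`);
* `S36CA_liData_ss` : **a supersingular point** (`Vt = {FF, FV, VV}`, `t = (t₁, ϖ, t₂)`,
  branch `i₀ = VV`, `s = t₂`), from the unit `ε = t₁ t₂ ϖ^(m+1) / q` of (R13);
* `S36CA_LiData.li` : `S36LW_li` applied to a bundle.
-/

set_option autoImplicit false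

namespace Fermat.Agent.S36

section

variable {K : Type*} [Field K] {k : Type*} [Field k] {ι : Type*}

/-- the CART inputs of `S36LW_li` at a closed point `y`. -/
structure S36CA_LiData (O : ι → ValuationSubring K) (K₀ : Subfield K) (Λ : Subring K)
    (y : Λ →+* k) (κ : Type*) [Field κ] where
  /-- the reduction along the Cartier branch -/
  ρ : Λ →+* κ
  /-- the local equation of the branch -/
  s : Λ
  /-- the local ring of the point on the branch -/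
  Oy : ValuationSubring κ
  H : S36CA_Branch Λ y ρ s Oy
  /-- the index of the branch -/
  i₀ : ι
  hker : ∀ f : Λ, ((f : K))⁻¹ ∉ O i₀ → ρ f = 0
  hsi₀ : ((s : K))⁻¹ ∉ O i₀
  /-- the vertical valuation rings through `y` -/
  Vt : Finset ι
  hVt : ∀ i ∈ Vt, i ∈ S36IT_thruVS O Λ y
  hi₀ : i₀ ∈ Vt
  /-- the local equations of the vertical components through `y` -/
  t : ι → K
  hst : (s : K) = t i₀
  ht₀ : ∀ i ∈ Vt, t i ∈ K₀
  ht0 : ∀ i ∈ Vt, t i ≠ 0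
  ht1 : ∀ i ∈ Vt, ∀ j ∈ S36IT_thruVS O Λ y, j ≠ i → S36LW_IsU (O j) (t i)
  htgen : ∀ i ∈ Vt, ∀ x ∈ K₀, x ≠ 0 → ∃ a : ℤ, S36LW_IsU (O i) (x * t i ^ a)

/-- **LI at `y` from a CART bundle** (= `S36LW_li`). -/
theorem S36CA_LiData.li {κ : Type*} [Field κ] {O : ι → ValuationSubring K} {K₀ : Subfield K}
    {Λ : Subring K} {y : Λ →+* k} (D : S36CA_LiData O K₀ Λ y κ)
    (hΛ : ∀ x : K, x ∈ Λ ↔ x ∈ K₀ ∧ ∀ i, x ∈ O i)
    (hfin : ∀ x : K, x ∈ K₀ → x ≠ 0 → {i | x ∉ O i}.Finite)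
    (harch : ∀ (i : ι) (x : K), x ≠ 0 → x ∈ O i → x⁻¹ ∉ O i → ∀ z : K, ∃ n : ℕ, z * x ^ n ∈ O i)
    (hfrac : ∀ x : K, x ∈ K₀ → ∃ b : Λ, (b : K) ≠ 0 ∧ (b : K) * x ∈ Λ)
    (u : K) (hu₀ : u ∈ K₀) (hu : u ≠ 0) (n : ℕ) (hn : n ≠ 0)
    (MU : Submodule Λ K) (hMU : ∀ f : K, f ∈ MU ↔ f ∈ K₀ ∧ ∀ i, f ^ n * u ∈ O i)
    (hfg : MU.FG)
    (hun : ∀ i ∈ D.Vt, ∃ c : ℤ, S36LW_IsU (O i) (u * (D.t i ^ c) ^ n))
    (hgen : ∀ i ∈ S36IT_thruVS O Λ y, i ∉ D.Vt → ∃ g ∈ K₀, g ≠ 0 ∧ (g ^ n * u)⁻¹ ∈ O i ∧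
      ∀ j ∈ S36IT_thruVS O Λ y, j ∉ D.Vt → g ^ n * u ∈ O j)
    (hgen0 : ∃ g ∈ K₀, g ≠ 0 ∧ ∀ j ∈ S36IT_thruVS O Λ y, j ∉ D.Vt → g ^ n * u ∈ O j) :
    ∃ f ∈ MU, ∃ hf : f ^ n * u ∈ Λ, y ⟨f ^ n * u, hf⟩ ≠ 0 :=
  S36LW_li O K₀ Λ hΛ hfin harch hfrac y D.ρ D.s D.Oy D.H D.i₀ D.hker D.hsi₀ u hu₀ hu n hn MU hMU
    hfg D.Vt D.hVt D.hi₀ D.t D.hst D.ht₀ D.ht0 D.ht1 D.htgen hun hgen hgen0

/-- **the bundle at a point of ONE vertical component**. -/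
noncomputable def S36CA_liData_one {κ : Type*} [Field κ] (O : ι → ValuationSubring K)
    (K₀ : Subfield K) (Λ : Subring K)
    (hΛ : ∀ x : K, x ∈ Λ ↔ x ∈ K₀ ∧ ∀ i, x ∈ O i)
    (hfin : ∀ x : K, x ∈ K₀ → x ≠ 0 → {i | x ∉ O i}.Finite)
    (harch : ∀ (i : ι) (x : K), x ≠ 0 → x ∈ O i → x⁻¹ ∉ O i → ∀ z : K, ∃ n : ℕ, z * x ^ n ∈ O i)
    (y : Λ →+* k) (i₀ : ι) (hi₀ : i₀ ∈ S36IT_thruVS O Λ y)
    (ρ : Λ →+* κ) (hker : ∀ f : Λ, ρ f = 0 ↔ (f = 0 ∨ ((f : K))⁻¹ ∉ O i₀))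
    (s : Λ) (hunif : S36CA_IsUnif (O i₀) (s : K))
    (hs1 : ∀ i ∈ S36IT_thruVS O Λ y, i ≠ i₀ → ((s : K))⁻¹ ∈ O i)
    (Oy : ValuationSubring κ)
    (hsub : ∀ x : κ, x ∈ Oy → ∃ a d : Λ, y d ≠ 0 ∧ ρ a = x * ρ d)
    (hOarch : ∀ x : κ, x ≠ 0 → x ∈ Oy → x⁻¹ ∉ Oy → ∀ z : κ, ∃ n : ℕ, z * x ^ n ∈ Oy)
    (hne : ∃ t : Λ, y t = 0 ∧ ρ t ≠ 0) : S36CA_LiData O K₀ Λ y κ where
  ρ := ρ
  s := s
  Oy := Oy
  H := S36CA_branch_of_vs O K₀ Λ hΛ hfin harch y i₀ hi₀ ρ hker s hunif.ne_zero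
    hunif.inv_not_mem hs1 (fun f hf => hunif.gen _ (((hΛ _).1 f.2).2 i₀) hf) Oy hsub hOarch hne
  i₀ := i₀
  hker f hf := (hker f).2 (Or.inr hf)
  hsi₀ := hunif.inv_not_mem
  Vt := {i₀}
  hVt i hi := by
    rw [Finset.mem_singleton] at hi
    exact hi ▸ hi₀
  hi₀ := Finset.mem_singleton_self i₀
  t := fun _ => (s : K)
  hst := rfl
  ht₀ _ _ := ((hΛ _).1 s.2).1
  ht0 _ _ := hunif.ne_zero
  ht1 i hi j hj hji := by
    rw [Finset.mem_singleton] at hi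
    subst hi
    exact ⟨((hΛ _).1 s.2).2 j, hs1 j hj hji⟩
  htgen i hi x _ hx := by
    rw [Finset.mem_singleton] at hi
    subst hi
    exact hunif.htgen (harch i _ hunif.ne_zero hunif.mem hunif.inv_not_mem) x hx

/-- the generators at a supersingular point. -/
def S36CA_tss [DecidableEq ι] (iFF iFV : ι) (t₁ ϖ t₂ : K) (i : ι) : K :=
  if i = iFF then t₁ else if i = iFV then ϖ else t₂

/-- **the bundle at a supersingular point**: the three vertical components `FF`, `FV`, `VV`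
pass through `y`; `ε = t₁ t₂ ϖ^(m+1) / q ∈ Λ` with `y ε ≠ 0` (R13);
`t₁ / q ∈ O_FF`, `t₂ / q ∈ O_VV`, `ϖ^(m+1) / q ∈ O_FV`; `q` is a unit of every other valuation
ring through `y` (the horizontal ones); `q` is a uniformiser of `O_FF` and `O_VV`, and `O_FV`
has a uniformiser `π` with `π^(m+1) / q` a unit (ramification index `m + 1 = q − 1`).
The Cartier branch is `VV` with equation `t₂`. -/
noncomputable def S36CA_liData_ss [DecidableEq ι] {κ : Type*} [Field κ]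
    (O : ι → ValuationSubring K) (K₀ : Subfield K) (Λ : Subring K)
    (hΛ : ∀ x : K, x ∈ Λ ↔ x ∈ K₀ ∧ ∀ i, x ∈ O i)
    (hfin : ∀ x : K, x ∈ K₀ → x ≠ 0 → {i | x ∉ O i}.Finite)
    (harch : ∀ (i : ι) (x : K), x ≠ 0 → x ∈ O i → x⁻¹ ∉ O i → ∀ z : K, ∃ n : ℕ, z * x ^ n ∈ O i)
    (y : Λ →+* k) (iFF iFV iVV : ι) (h12 : iFF ≠ iFV) (h13 : iFF ≠ iVV) (h23 : iFV ≠ iVV)
    (hFF : iFF ∈ S36IT_thruVS O Λ y) (hFV : iFV ∈ S36IT_thruVS O Λ y)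
    (hVV : iVV ∈ S36IT_thruVS O Λ y)
    (ρ : Λ →+* κ) (hker : ∀ f : Λ, ρ f = 0 ↔ (f = 0 ∨ ((f : K))⁻¹ ∉ O iVV))
    (q ϖ t₁ t₂ ε : Λ) (hq0 : (q : K) ≠ 0) (m : ℕ)
    (hεK : (ε : K) = t₁ * t₂ * (ϖ : K) ^ (m + 1) / q) (hε : y ε ≠ 0)
    (ht₁ : (t₁ : K) / q ∈ O iFF) (ht₂ : (t₂ : K) / q ∈ O iVV)
    (hϖ : (ϖ : K) ^ (m + 1) / q ∈ O iFV)
    (hqH : ∀ i ∈ S36IT_thruVS O Λ y, i ≠ iFF → i ≠ iFV → i ≠ iVV → ((q : K))⁻¹ ∈ O i)
    (hqFF : S36CA_IsUnif (O iFF) (q : K)) (hqVV : S36CA_IsUnif (O iVV) (q : K))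
    (π : K) (hπ : S36CA_IsUnif (O iFV) π) (hπq : S36LW_IsU (O iFV) (π ^ (m + 1) / q))
    (Oy : ValuationSubring κ)
    (hsub : ∀ x : κ, x ∈ Oy → ∃ a d : Λ, y d ≠ 0 ∧ ρ a = x * ρ d)
    (hOarch : ∀ x : κ, x ≠ 0 → x ∈ Oy → x⁻¹ ∉ Oy → ∀ z : κ, ∃ n : ℕ, z * x ^ n ∈ Oy)
    (hne : ∃ t : Λ, y t = 0 ∧ ρ t ≠ 0) : S36CA_LiData O K₀ Λ y κ :=
  have hmem : ∀ x : Λ, ∀ i, (x : K) ∈ O i := fun x i => ((hΛ _).1 x.2).2 i
  have hε0 : (ε : K) ≠ 0 := S36IT_den_ne_zero hε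
  have ht₁0 : (t₁ : K) ≠ 0 := by
    intro h0
    rw [hεK, h0] at hε0
    simp at hε0
  have ht₂0 : (t₂ : K) ≠ 0 := by
    intro h0
    rw [hεK, h0] at hε0
    simp at hε0
  have hϖ0 : (ϖ : K) ≠ 0 := by
    intro h0
    rw [hεK, h0] at hε0
    simp at hε0
  have E := fun i hi => S36CA_eps_ss_vs O Λ hmem y q ϖ t₁ t₂ ε hq0 m hεK hε i hi
  -- the other valuation rings through `y`: `ϖ^(m+1) / q ∈ O i`
  have hoth : ∀ i ∈ S36IT_thruVS O Λ y, i ≠ iFF → i ≠ iVV → (ϖ : K) ^ (m + 1) / q ∈ O i := by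
    intro i hi h1 h3
    by_cases h2 : i = iFV
    · rw [h2]; exact hϖ
    · rw [div_eq_mul_inv]
      exact (O i).mul_mem _ _ ((O i).pow_mem (hmem ϖ i) _) (hqH i hi h1 h2 h3)
  -- units
  have U₁ : ∀ j ∈ S36IT_thruVS O Λ y, j ≠ iFF → S36LW_IsU (O j) (t₁ : K) := by
    intro j hj h1
    by_cases h3 : j = iVV
    · exact ((E j hj).2.1 (h3 ▸ ht₂)).2.1
    · exact ((E j hj).2.2 (hoth j hj h1 h3)).2.1
  have U₂ : ∀ j ∈ S36IT_thruVS O Λ y, j ≠ iVV → S36LW_IsU (O j) (t₂ : K) := by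
    intro j hj h3
    by_cases h1 : j = iFF
    · exact ((E j hj).1 (h1 ▸ ht₁)).2.1
    · exact ((E j hj).2.2 (hoth j hj h1 h3)).2.2
  have Uϖ : ∀ j ∈ S36IT_thruVS O Λ y, j ≠ iFV → S36LW_IsU (O j) (ϖ : K) := by
    intro j hj h2
    by_cases h1 : j = iFF
    · exact ((E j hj).1 (h1 ▸ ht₁)).2.2
    · by_cases h3 : j = iVV
      · exact ((E j hj).2.1 (h3 ▸ ht₂)).2.2
      · -- horizontal: `ϖ^(m+1) / q` and `q` are units
        have hA := ((E j hj).2.2 (hoth j hj h1 h3)).1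
        have hq : S36LW_IsU (O j) (q : K) := ⟨hmem q j, hqH j hj h1 h2 h3⟩
        have hB : S36LW_IsU (O j) ((ϖ : K) ^ (m + 1)) := by
          have := hA.mul hq
          rwa [div_mul_cancel₀ _ hq0] at this
        refine ⟨hmem ϖ j, ?_⟩
        have h2' := hB.2
        rw [← inv_pow] at h2'
        rw [← (O j).valuation_le_one_iff] at h2' ⊢
        rw [map_pow] at h2'
        exact (pow_le_one_iff (Nat.succ_ne_zero m)).1 h2'
  -- uniformisers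
  have G₁ : S36CA_IsUnif (O iFF) (t₁ : K) := hqFF.of_isU ht₁0 ((E iFF hFF).1 ht₁).1
  have G₂ : S36CA_IsUnif (O iVV) (t₂ : K) := hqVV.of_isU ht₂0 ((E iVV hVV).2.1 ht₂).1
  have Gϖ : S36CA_IsUnif (O iFV) (ϖ : K) := by
    refine hπ.of_pow hϖ0 (m + 1) (Nat.succ_ne_zero m) ?_
    have hA := ((E iFV hFV).2.2 hϖ).1
    have : (ϖ : K) ^ (m + 1) / π ^ (m + 1) = ((ϖ : K) ^ (m + 1) / q) * (π ^ (m + 1) / q)⁻¹ := by
      have := hπ.ne_zero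
      field_simp
    rw [this]
    exact hA.mul hπq.inv
  { ρ := ρ
    s := t₂
    Oy := Oy
    H := S36CA_branch_of_vs O K₀ Λ hΛ hfin harch y iVV hVV ρ hker t₂ ht₂0 G₂.inv_not_mem
      (fun i hi hne => (U₂ i hi hne).2) (fun f hf => G₂.gen _ (hmem f iVV) hf) Oy hsub hOarch hne
    i₀ := iVV
    hker := fun f hf => (hker f).2 (Or.inr hf)
    hsi₀ := G₂.inv_not_mem
    Vt := {iFF, iFV, iVV}
    hVt := by
      intro i hi
      simp only [Finset.mem_insert, Finset.mem_singleton] at hi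
      rcases hi with rfl | rfl | rfl
      · exact hFF
      · exact hFV
      · exact hVV
    hi₀ := by simp
    t := S36CA_tss iFF iFV (t₁ : K) (ϖ : K) (t₂ : K)
    hst := by
      unfold S36CA_tss
      rw [if_neg (Ne.symm h13), if_neg (Ne.symm h23)]
    ht₀ := by
      intro i _
      unfold S36CA_tss
      split_ifs
      · exact ((hΛ _).1 t₁.2).1
      · exact ((hΛ _).1 ϖ.2).1
      · exact ((hΛ _).1 t₂.2).1
    ht0 := by
      intro i _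
      unfold S36CA_tss
      split_ifs
      · exact ht₁0
      · exact hϖ0
      · exact ht₂0
    ht1 := by
      intro i hi j hj hji
      simp only [Finset.mem_insert, Finset.mem_singleton] at hi
      unfold S36CA_tss
      rcases hi with rfl | rfl | rfl
      · rw [if_pos rfl]
        exact U₁ j hj hji
      · rw [if_neg (Ne.symm h12), if_pos rfl]
        exact Uϖ j hj hji
      · rw [if_neg (Ne.symm h13), if_neg (Ne.symm h23)]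
        exact U₂ j hj hji
    htgen := by
      intro i hi x _ hx
      simp only [Finset.mem_insert, Finset.mem_singleton] at hi
      unfold S36CA_tss
      rcases hi with rfl | rfl | rfl
      · rw [if_pos rfl]
        exact G₁.htgen (harch _ _ G₁.ne_zero G₁.mem G₁.inv_not_mem) x hx
      · rw [if_neg (Ne.symm h12), if_pos rfl]
        exact Gϖ.htgen (harch _ _ Gϖ.ne_zero Gϖ.mem Gϖ.inv_not_mem) x hx
      · rw [if_neg (Ne.symm h13), if_neg (Ne.symm h23)]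
        exact G₂.htgen (harch _ _ G₂.ne_zero G₂.mem G₂.inv_not_mem) x hx }

end

end Fermat.Agent.S36
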