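import Mathlib
import Fermat.Prelude.Def_AlgebraicCurve_Repartitions
import Fermat.Agent.S36.Int3Dvr

/-!
# TRACK 10 (S36), package INT-INST (helper17), semi-concrete layer: THE family of valuation rings
of the lattice `Λ_U`.  Prefix `S36IT_`.

`K` = the field of `L`-rational functions (`F₂,L`, a TYPE), `φ : K →+* F` its inclusion into the
function field `F = F₂` over `Ω = ℚ̄`.

* `S36IT_isDVR_comap` : the restriction `V.comap φ` of a discrete valuation subring `V ⊂ F` to `K`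
  is a discrete valuation ring as soon as it is non-trivial (`∃ x, φ x ∉ V`);
* `S36IT_nt_of_algebraic` : non-triviality if `F` is algebraic over `K` and `V ≠ ⊤`;
* `S36IT_Fam Ω F K ιv` : the data — vertical discrete valuation rings `Ov : ιv → ValuationSubring K`
  (`ιv` finite: `FF`, `FV`, `VV`) and the set `U` of horizontal places of `F`;
  `D.O : ιv ⊕ U → ValuationSubring K`, `D.v : ιv ⊕ U → Valuation K ℤᵐ⁰`,
  `D.Λ = ⋂ O i` (the lattice `Λ_U`), with `D.hΛ`, `D.hfin`, `D.harch` = EXACTLY the hypotheses of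
  INT / CART / LI (`Int3.lean`, `Cart3Val.lean`, `LiVal.lean`);
* `D.mem_Λ_iff` : `x ∈ Λ ↔ (∀ i, x ∈ Ov i) ∧ ∀ Q ∈ U, φ x ∈ Q.toValuationSubring`;
* `D.exists_den`, `D.mem_loc_iff`, `D.thru_inl_iff`, `D.thru_inr_iff` : INT on this family.
-/

set_option autoImplicit false

open AlgebraicCurve WithZero

namespace Fermat.Agent.S36

section comap

variable {K F : Type*} [Field K] [Field F]

/-- the order function of a discrete valuation subring. -/
noncomputable def S36IT_dvrOrd (V : ValuationSubring F) [IsDiscreteValuationRing V] (f : F) : ℤ :=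
  -(WithZero.log (S36IT_dvrVal V f))

theorem S36IT_dvrOrd_mul (V : ValuationSubring F) [IsDiscreteValuationRing V] {f g : F}
    (hf : f ≠ 0) (hg : g ≠ 0) : S36IT_dvrOrd V (f * g) = S36IT_dvrOrd V f + S36IT_dvrOrd V g := by
  unfold S36IT_dvrOrd
  rw [map_mul, WithZero.log_mul ((Valuation.ne_zero_iff _).2 hf) ((Valuation.ne_zero_iff _).2 hg)]
  ring

theorem S36IT_dvrOrd_inv (V : ValuationSubring F) [IsDiscreteValuationRing V] (f : F) :
    S36IT_dvrOrd V f⁻¹ = -S36IT_dvrOrd V f := by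
  unfold S36IT_dvrOrd
  rw [map_inv₀, WithZero.log_inv]

theorem S36IT_dvrOrd_pow (V : ValuationSubring F) [IsDiscreteValuationRing V] (f : F) (n : ℕ) :
    S36IT_dvrOrd V (f ^ n) = n * S36IT_dvrOrd V f := by
  unfold S36IT_dvrOrd
  rw [map_pow, WithZero.log_pow]
  simp only [nsmul_eq_mul]
  ring

theorem S36IT_mem_iff_dvrOrd (V : ValuationSubring F) [IsDiscreteValuationRing V] {f : F}
    (hf : f ≠ 0) : f ∈ V ↔ 0 ≤ S36IT_dvrOrd V f := by
  rw [← S36IT_dvrVal_le_one_iff V f, S36IT_dvrOrd,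
    ← WithZero.log_le_log ((Valuation.ne_zero_iff _).2 hf) one_ne_zero, WithZero.log_one]
  constructor <;> intro h <;> linarith

/-- **the restriction of a discrete valuation ring to a subfield** on which it is non-trivial is
a discrete valuation ring. -/
theorem S36IT_isDVR_comap (V : ValuationSubring F) [IsDiscreteValuationRing V] (φ : K →+* F)
    (hnt : ∃ x : K, φ x ∉ V) : IsDiscreteValuationRing (V.comap φ) := by
  classical
  have hφ0 : ∀ {x : K}, x ≠ 0 → φ x ≠ 0 := fun {x} hx => (map_ne_zero φ).2 hx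
  -- positive orders on `K`
  have hex : ∃ m : ℕ, 0 < m ∧ ∃ x : K, x ≠ 0 ∧ S36IT_dvrOrd V (φ x) = m := by
    obtain ⟨x, hx⟩ := hnt
    have hx0 : x ≠ 0 := by
      rintro rfl
      rw [map_zero] at hx
      exact hx V.zero_mem
    have h1 : ¬ 0 ≤ S36IT_dvrOrd V (φ x) := fun h => hx ((S36IT_mem_iff_dvrOrd V (hφ0 hx0)).2 h)
    refine ⟨(S36IT_dvrOrd V (φ x⁻¹)).toNat, ?_, x⁻¹, inv_ne_zero hx0, ?_⟩
    · rw [map_inv₀, S36IT_dvrOrd_inv]
      omega
    · rw [map_inv₀, S36IT_dvrOrd_inv]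
      omega
  obtain ⟨hm₀, π, hπ0, hπ⟩ := Nat.find_spec hex
  have hmin : ∀ {m : ℕ}, 0 < m → (∃ x : K, x ≠ 0 ∧ S36IT_dvrOrd V (φ x) = m) → Nat.find hex ≤ m :=
    fun {m} h1 h2 => Nat.find_min' hex ⟨h1, h2⟩
  set m₀ := Nat.find hex with hm₀def
  have hmem : ∀ {x : K}, x ≠ 0 → (x ∈ V.comap φ ↔ 0 ≤ S36IT_dvrOrd V (φ x)) := fun {x} hx => by
    rw [ValuationSubring.mem_comap, S36IT_mem_iff_dvrOrd V (hφ0 hx)]
  refine S36IT_isDVR_of_unif (V.comap φ) π ?_ hπ0 ?_ ?_ ?_
  · rw [hmem hπ0, hπ]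
    exact Int.natCast_nonneg _
  · rw [hmem (inv_ne_zero hπ0), map_inv₀, S36IT_dvrOrd_inv, hπ]
    omega
  · intro x hx hxi
    have hx0 : x ≠ 0 := by
      rintro rfl
      rw [inv_zero] at hxi
      exact hxi (V.comap φ).zero_mem
    rw [hmem hx0] at hx
    rw [hmem (inv_ne_zero hx0), map_inv₀, S36IT_dvrOrd_inv] at hxi
    have hpos : 0 < S36IT_dvrOrd V (φ x) := by omega
    have hle : m₀ ≤ (S36IT_dvrOrd V (φ x)).toNat :=
      hmin (by omega) ⟨x, hx0, by omega⟩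
    rw [hmem (div_ne_zero hx0 hπ0), div_eq_mul_inv, map_mul,
      S36IT_dvrOrd_mul V (hφ0 hx0) (hφ0 (inv_ne_zero hπ0)), map_inv₀, S36IT_dvrOrd_inv, hπ]
    omega
  · intro x hx hx0
    rw [hmem hx0] at hx
    refine ⟨(S36IT_dvrOrd V (φ x)).toNat + 1, ?_⟩
    rw [hmem (div_ne_zero hx0 (pow_ne_zero _ hπ0)), div_eq_mul_inv, map_mul,
      S36IT_dvrOrd_mul V (hφ0 hx0) (hφ0 (inv_ne_zero (pow_ne_zero _ hπ0))), map_inv₀,
      S36IT_dvrOrd_inv, map_pow, S36IT_dvrOrd_pow, hπ]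
    have h1 : ((S36IT_dvrOrd V (φ x)).toNat : ℤ) = S36IT_dvrOrd V (φ x) := Int.toNat_of_nonneg hx
    have h2 : (1 : ℤ) ≤ m₀ := by exact_mod_cast hm₀
    push_cast
    nlinarith

/-- non-triviality of the restriction: `F` algebraic over `K`, `V ≠ ⊤`. -/
theorem S36IT_nt_of_algebraic [Algebra K F] [Algebra.IsAlgebraic K F] (V : ValuationSubring F)
    (hV : V ≠ ⊤) : ∃ x : K, algebraMap K F x ∉ V := by
  by_contra hcon
  push Not at hcon
  apply hV
  refine SetLike.ext fun f => ⟨fun _ => ValuationSubring.mem_top f, fun _ => ?_⟩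
  have hint : IsIntegral K f := (Algebra.IsAlgebraic.isAlgebraic f).isIntegral
  obtain ⟨p, hp, hpf⟩ := hint
  -- `f` is integral over `V`
  let ψ : K →+* V := (algebraMap K F).codRestrict V.toSubring hcon
  have hintV : IsIntegral V f := by
    refine ⟨p.map ψ, hp.map _, ?_⟩
    rw [Polynomial.eval₂_map]
    have hcomp : (algebraMap V F).comp ψ = algebraMap K F := RingHom.ext fun x => rfl
    rw [hcomp]
    exact hpf
  obtain ⟨w, hw⟩ := (IsIntegrallyClosed.isIntegral_iff (R := V) (K := F)).1 hintV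
  rw [← hw]
  exact w.2

end comap

/-! ### the family -/

/-- the valuation rings of the lattice `Λ_U`: finitely many vertical discrete valuation rings of
`K` and the horizontal places `Q ∈ U` of the big field `F`, restricted to `K`. -/
structure S36IT_Fam (Ω F K : Type*) [Field Ω] [Field F] [Algebra Ω F] [Field K] (ιv : Type*) where
  /-- the inclusion of the rational functions -/
  φ : K →+* F
  /-- the vertical valuation rings (`FF`, `FV`, `VV`) -/
  Ov : ιv → ValuationSubring K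
  dvr_v : ∀ i, IsDiscreteValuationRing (Ov i)
  /-- the horizontal places of the chart -/
  U : Set (Place Ω F)
  /-- every horizontal place is non-trivial on `K` -/
  nt : ∀ Q ∈ U, ∃ x : K, φ x ∉ Q.toValuationSubring
  /-- finitely many poles (`S17DA_poles_finite`) -/
  poles : ∀ f : F, {P : Place Ω F | ¬ P.adicValuation f ≤ 1}.Finite

namespace S36IT_Fam

variable {Ω F K : Type*} [Field Ω] [Field F] [Algebra Ω F] [Field K] {ιv : Type*}
  (D : S36IT_Fam Ω F K ιv)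

/-- the family of valuation rings. -/
def O : ιv ⊕ D.U → ValuationSubring K :=
  Sum.elim D.Ov fun Q => (Q : Place Ω F).toValuationSubring.comap D.φ

@[simp] theorem O_inl (i : ιv) : D.O (Sum.inl i) = D.Ov i := rfl

@[simp] theorem O_inr (Q : D.U) :
    D.O (Sum.inr Q) = (Q : Place Ω F).toValuationSubring.comap D.φ := rfl

theorem dvr (i : ιv ⊕ D.U) : IsDiscreteValuationRing (D.O i) := by
  rcases i with i | Q
  · exact D.dvr_v i
  · exact S36IT_isDVR_comap _ D.φ (D.nt Q Q.2)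

/-- the family of `ℤᵐ⁰`-valued valuations. -/
noncomputable def v (i : ιv ⊕ D.U) : Valuation K ℤᵐ⁰ :=
  @S36IT_dvrVal K _ (D.O i) (D.dvr i)

theorem v_le_one_iff (i : ιv ⊕ D.U) (x : K) : D.v i x ≤ 1 ↔ x ∈ D.O i :=
  @S36IT_dvrVal_le_one_iff K _ (D.O i) (D.dvr i) x

theorem v_lt_one_iff (i : ιv ⊕ D.U) {x : K} (hx : x ≠ 0) : D.v i x < 1 ↔ x⁻¹ ∉ D.O i :=
  @S36IT_dvrVal_lt_one_iff K _ (D.O i) (D.dvr i) x hx

theorem v_eq_one_iff (i : ιv ⊕ D.U) {x : K} (hx : x ≠ 0) :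
    D.v i x = 1 ↔ x ∈ D.O i ∧ x⁻¹ ∈ D.O i :=
  @S36IT_dvrVal_eq_one_iff K _ (D.O i) (D.dvr i) x hx

/-- **the lattice `Λ_U`**. -/
def Λ : Subring K where
  carrier := {x | ∀ i, x ∈ D.O i}
  one_mem' i := (D.O i).one_mem
  zero_mem' i := (D.O i).zero_mem
  mul_mem' ha hb i := (D.O i).mul_mem _ _ (ha i) (hb i)
  add_mem' ha hb i := (D.O i).add_mem _ _ (ha i) (hb i)
  neg_mem' ha i := (D.O i).neg_mem _ (ha i)

theorem mem_Λ {x : K} : x ∈ D.Λ ↔ ∀ i, x ∈ D.O i := Iff.rfl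

theorem mem_Λ_iff {x : K} :
    x ∈ D.Λ ↔ (∀ i, x ∈ D.Ov i) ∧ ∀ Q ∈ D.U, D.φ x ∈ Q.toValuationSubring := by
  rw [mem_Λ]
  constructor
  · intro h
    exact ⟨fun i => h (Sum.inl i), fun Q hQ => h (Sum.inr ⟨Q, hQ⟩)⟩
  · rintro ⟨h1, h2⟩ (i | Q)
    · exact h1 i
    · exact h2 Q Q.2

/-- `hΛ` of INT. -/
theorem hΛ (x : K) : x ∈ D.Λ ↔ ∀ i, D.v i x ≤ 1 := by
  rw [mem_Λ]
  exact forall_congr' fun i => (D.v_le_one_iff i x).symm

/-- membership in the valuation ring of a place. -/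
theorem _root_.Fermat.Agent.S36.S36IT_place_mem_iff (Q : Place Ω F) (f : F) :
    f ∈ Q.toValuationSubring ↔ Q.adicValuation f ≤ 1 := by
  refine ⟨Q.adicValuation_le_one_of_mem, fun hle => ?_⟩
  rcases eq_or_ne f 0 with h0 | h0
  · rw [h0]; exact Q.toValuationSubring.zero_mem
  · by_contra hcon
    have hinv : f⁻¹ ∈ Q.toValuationSubring :=
      (Q.toValuationSubring.mem_or_inv_mem _).resolve_left hcon
    have h2 := Q.adicValuation_le_one_of_mem hinv
    rw [map_inv₀] at h2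
    have hv0 : Q.adicValuation f ≠ 0 := Q.adicValuation_ne_zero h0
    have h3 : (1 : ℤᵐ⁰) ≤ Q.adicValuation f := (inv_le_one₀ (zero_lt_iff.2 hv0)).1 h2
    have h4 : Q.adicValuation f = 1 := le_antisymm hle h3
    apply hcon
    have hu : IsUnit (⟨f⁻¹, hinv⟩ : Q.toValuationSubring) :=
      (Q.adicValuation_coe_eq_one_iff ⟨_, hinv⟩).1 (by
        show Q.adicValuation f⁻¹ = 1
        rw [map_inv₀, h4, inv_one])
    have h5 := S36IT_inv_mem_of_isUnit _ hu
    simpa using h5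

/-- `hfin` of INT (valuation-subring form). -/
theorem hfin_vs [Finite ιv] (x : K) : {i | x ∉ D.O i}.Finite := by
  classical
  have h1 : {i : ιv ⊕ D.U | x ∉ D.O i} ⊆
      Set.range Sum.inl ∪ Sum.inr '' {Q : D.U | ¬ (Q : Place Ω F).adicValuation (D.φ x) ≤ 1} := by
    rintro (i | Q) hi
    · exact Or.inl ⟨i, rfl⟩
    · refine Or.inr ⟨Q, ?_, rfl⟩
      intro hle
      exact hi ((S36IT_place_mem_iff (Q : Place Ω F) (D.φ x)).2 hle)
  refine Set.Finite.subset (Set.Finite.union (Set.finite_range _) (Set.Finite.image _ ?_)) h1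
  exact (D.poles (D.φ x)).preimage Subtype.val_injective.injOn

/-- `hfin` of INT. -/
theorem hfin [Finite ιv] (x : K) (_hx : x ≠ 0) : {i | 1 < D.v i x}.Finite := by
  refine (D.hfin_vs x).subset fun i hi hmem => ?_
  exact absurd ((D.v_le_one_iff i x).2 hmem) (not_le.2 hi)

/-- `harch` of INT. -/
theorem harch (i : ιv ⊕ D.U) (d x : K) (hd : D.v i d < 1) :
    ∃ n : ℕ, D.v i d ^ n * D.v i x ≤ 1 :=
  S36IT_harch_int D.v i d x hd

/-- the places through a point `y` of the lattice. -/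
abbrev thru {κ : Type*} [Field κ] (y : D.Λ →+* κ) : Set (ιv ⊕ D.U) :=
  S36IT_thru D.v D.Λ y

/-- **INT (exactness of denominators) on the family.** -/
theorem exists_den [Finite ιv] {κ : Type*} [Field κ] (y : D.Λ →+* κ) (x : K)
    (hx : ∀ i ∈ D.thru y, D.v i x ≤ 1) : ∃ d : D.Λ, y d ≠ 0 ∧ (d : K) * x ∈ D.Λ :=
  S36IT_exists_den D.v D.Λ D.hΛ D.hfin D.harch y x hx

/-- **INT: the local ring of `Λ_U` at `y`** is the intersection of the valuation rings through
`y`. -/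
theorem mem_loc_iff [Finite ιv] {κ : Type*} [Field κ] (y : D.Λ →+* κ) (x : K) :
    x ∈ S36IT_loc D.Λ y ↔ ∀ i ∈ D.thru y, D.v i x ≤ 1 :=
  S36IT_mem_loc_iff D.v D.Λ D.hΛ D.hfin D.harch y x

/-- the vertical valuation ring `Ov i` passes through `y` iff `y` kills its centre. -/
theorem thru_inl_iff {κ : Type*} [Field κ] (y : D.Λ →+* κ) (i : ιv) :
    Sum.inl i ∈ D.thru y ↔ ∀ f : D.Λ, (f : K) ≠ 0 → (f : K)⁻¹ ∉ D.Ov i → y f = 0 := by
  constructor
  · intro h f hf0 hf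
    exact h f ((D.v_lt_one_iff (Sum.inl i) hf0).2 hf)
  · intro h f hf
    rcases eq_or_ne (f : K) 0 with h0 | h0
    · have : f = 0 := Subtype.ext h0
      rw [this, map_zero]
    · exact h f h0 ((D.v_lt_one_iff (Sum.inl i) h0).1 hf)

/-- the horizontal place `Q ∈ U` passes through `y` iff `y` kills the functions vanishing at
`Q`. -/
theorem thru_inr_iff {κ : Type*} [Field κ] (y : D.Λ →+* κ) (Q : D.U) :
    Sum.inr Q ∈ D.thru y ↔
      ∀ f : D.Λ, (f : K) ≠ 0 → 0 < (Q : Place Ω F).ord (D.φ f) → y f = 0 := by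
  have key : ∀ f : D.Λ, (f : K) ≠ 0 →
      (D.v (Sum.inr Q) f < 1 ↔ 0 < (Q : Place Ω F).ord (D.φ f)) := by
    intro f hf0
    have hφ0 : D.φ f ≠ 0 := (map_ne_zero D.φ).2 hf0
    rw [D.v_lt_one_iff (Sum.inr Q) hf0, O_inr, ValuationSubring.mem_comap, map_inv₀,
      S36IT_place_mem_iff, ← not_iff_not, not_not, not_lt, Place.adicValuation_le_one_iff,
      or_iff_right (inv_ne_zero hφ0), Place.ord_inv]
    constructor <;> intro h <;> linarith
  constructor
  · intro h f hf0 hf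
    exact h f ((key f hf0).2 hf)
  · intro h f hf
    rcases eq_or_ne (f : K) 0 with h0 | h0
    · have : f = 0 := Subtype.ext h0
      rw [this, map_zero]
    · exact h f h0 ((key f h0).1 hf)

end S36IT_Fam

end Fermat.Agent.S36
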