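import Mathlib
import Fermat.Agent.S36.Cart3Li
import Fermat.Agent.S36.Int3Fam

/-!
# TRACK 10 (S36), package F6 CART (R14) (helper5), part 9: CART on THE family of `Λ_U`
# (`S36IT_Fam`, helper17, `S36/Int3Fam.lean`)

`D : S36IT_Fam Ω F K ιv` (`K = F₂,L`, vertical discrete valuation rings `D.Ov : ιv → …`,
horizontal places `D.U`, `D.O : ιv ⊕ D.U → ValuationSubring K`, `D.Λ = Λ_U`), `y : D.Λ →+* k`.
All bundles are `S36CA_LiData D.O ⊤ D.Λ y κ` (`K₀ = ⊤`), ready for `S36CA_LiData.li`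
(= `S36LW_li`) with `D.ca_hΛ`, `D.ca_hfin`, `D.ca_harch`.

* `D.ca_hΛ`, `D.ca_hfin`, `D.ca_harch` : the hypotheses of INT / CART / LI in valuation-subring
  form with `K₀ = ⊤`;
* `D.ca_const_unit` : a nonzero constant is a unit at every horizontal place;
* `D.ca_liData_unr` : **ordinary points and cusps of an unramified component** (`FF`, `VV`):
  `s = q` (a constant uniformiser), the other vertical components do not pass through `y`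
  ((R11a), `S36CA_not_thru`);
* `D.ca_liData_ram` : **ordinary points and cusps of the ramified component** (`FV`):
  `s = ϖ`, with the unit `d = g ϖ^(m+1) / q` of (R13 ord);
* `D.ca_liData_ss`  : **supersingular points** (`ιv = {FF, FV, VV}`), from the unit
  `ε = t₁ t₂ ϖ^(m+1) / q` of (R13 ss); branch `VV`, `s = t₂`.
-/

set_option autoImplicit false

open AlgebraicCurve

namespace Fermat.Agent.S36

namespace S36IT_Fam

variable {Ω F K : Type*} [Field Ω] [Field F] [Algebra Ω F] [Field K] {ιv : Type*}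
  (D : S36IT_Fam Ω F K ιv) {k : Type*} [Field k]

theorem ca_hΛ (x : K) : x ∈ D.Λ ↔ x ∈ (⊤ : Subfield K) ∧ ∀ i, x ∈ D.O i :=
  ⟨fun h => ⟨Subfield.mem_top x, h⟩, fun h => h.2⟩

theorem ca_hfin [Finite ιv] (x : K) (_h : x ∈ (⊤ : Subfield K)) (_hx : x ≠ 0) :
    {i | x ∉ D.O i}.Finite :=
  D.hfin_vs x

theorem ca_harch (i : ιv ⊕ D.U) (x : K) (hx0 : x ≠ 0) (hx : x ∈ D.O i) (hxi : x⁻¹ ∉ D.O i)
    (z : K) : ∃ n : ℕ, z * x ^ n ∈ D.O i :=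
  @S36CA_harch_of_dvr K _ (D.O i) (D.dvr i) x hx0 hx hxi z

/-- a nonzero constant is a unit at every horizontal place. -/
theorem ca_const_unit (Q : D.U) (q : K) (c : Ω) (_hc : c ≠ 0)
    (hq : D.φ q = algebraMap Ω F c) : S36LW_IsU (D.O (Sum.inr Q)) q := by
  constructor
  · rw [O_inr, ValuationSubring.mem_comap, hq]
    exact (Q : Place Ω F).algebraMap_mem' c
  · rw [O_inr, ValuationSubring.mem_comap, map_inv₀, hq, ← map_inv₀]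
    exact (Q : Place Ω F).algebraMap_mem' c⁻¹

/-- a unit power has a unit base. -/
theorem _root_.Fermat.Agent.S36.S36CA_IsU_of_pow (O : ValuationSubring K) {x : K} (hx : x ∈ O)
    (n : ℕ) (hn : n ≠ 0) (h : S36LW_IsU O (x ^ n)) : S36LW_IsU O x := by
  refine ⟨hx, ?_⟩
  have h2 := h.2
  rw [← inv_pow] at h2
  rw [← O.valuation_le_one_iff] at h2 ⊢
  rw [map_pow] at h2
  exact (pow_le_one_iff hn).1 h2

/-- **ordinary points and cusps of an unramified vertical component `j₀`**: `s = q`. -/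
noncomputable def ca_liData_unr [Finite ιv] {κ : Type*} [Field κ] (y : D.Λ →+* k) (j₀ : ιv)
    (hj₀ : Sum.inl j₀ ∈ S36IT_thruVS D.O D.Λ y)
    (hnot : ∀ j : ιv, j ≠ j₀ → Sum.inl j ∉ S36IT_thruVS D.O D.Λ y)
    (ρ : D.Λ →+* κ) (hker : ∀ f : D.Λ, ρ f = 0 ↔ (f = 0 ∨ ((f : K))⁻¹ ∉ D.Ov j₀))
    (q : D.Λ) (c : Ω) (hc : c ≠ 0) (hqc : D.φ (q : K) = algebraMap Ω F c)
    (hunif : S36CA_IsUnif (D.Ov j₀) (q : K))
    (Oy : ValuationSubring κ)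
    (hsub : ∀ x : κ, x ∈ Oy → ∃ a d : D.Λ, y d ≠ 0 ∧ ρ a = x * ρ d)
    (hOarch : ∀ x : κ, x ≠ 0 → x ∈ Oy → x⁻¹ ∉ Oy → ∀ z : κ, ∃ n : ℕ, z * x ^ n ∈ Oy)
    (hne : ∃ t : D.Λ, y t = 0 ∧ ρ t ≠ 0) : S36CA_LiData D.O ⊤ D.Λ y κ :=
  S36CA_liData_one D.O ⊤ D.Λ D.ca_hΛ D.ca_hfin D.ca_harch y (Sum.inl j₀) hj₀ ρ hker q hunif
    (by
      rintro (j | Q) hi hne'
      · exact absurd hi (hnot j fun h => hne' (by rw [h]))
      · exact (D.ca_const_unit Q q c hc hqc).2)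
    Oy hsub hOarch hne

/-- **ordinary points and cusps of the ramified vertical component `j₀`** (`FV`): `s = ϖ`,
`d = g ϖ^(m+1) / q ∈ Λ` with `y d ≠ 0` (R13 ord), `π` a uniformiser of `Ov j₀` with
`π^(m+1) / q` a unit. -/
noncomputable def ca_liData_ram [Finite ιv] {κ : Type*} [Field κ] (y : D.Λ →+* k) (j₀ : ιv)
    (hj₀ : Sum.inl j₀ ∈ S36IT_thruVS D.O D.Λ y)
    (hnot : ∀ j : ιv, j ≠ j₀ → Sum.inl j ∉ S36IT_thruVS D.O D.Λ y)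
    (ρ : D.Λ →+* κ) (hker : ∀ f : D.Λ, ρ f = 0 ↔ (f = 0 ∨ ((f : K))⁻¹ ∉ D.Ov j₀))
    (q : D.Λ) (c : Ω) (hc : c ≠ 0) (hqc : D.φ (q : K) = algebraMap Ω F c)
    (ϖ g d : D.Λ) (m : ℕ) (hdK : (d : K) = g * (ϖ : K) ^ (m + 1) / q) (hd : y d ≠ 0)
    (hϖq : (ϖ : K) ^ (m + 1) / q ∈ D.Ov j₀)
    (π : K) (hπ : S36CA_IsUnif (D.Ov j₀) π) (hπq : S36LW_IsU (D.Ov j₀) (π ^ (m + 1) / q))
    (Oy : ValuationSubring κ)
    (hsub : ∀ x : κ, x ∈ Oy → ∃ a d : D.Λ, y d ≠ 0 ∧ ρ a = x * ρ d)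
    (hOarch : ∀ x : κ, x ≠ 0 → x ∈ Oy → x⁻¹ ∉ Oy → ∀ z : κ, ∃ n : ℕ, z * x ^ n ∈ Oy)
    (hne : ∃ t : D.Λ, y t = 0 ∧ ρ t ≠ 0) : S36CA_LiData D.O ⊤ D.Λ y κ :=
  have hmem : ∀ x : D.Λ, ∀ i, (x : K) ∈ D.O i := fun x i => x.2 i
  have hq0 : (q : K) ≠ 0 := by
    intro h0
    rw [h0, map_zero] at hqc
    exact hc ((map_eq_zero _).1 hqc.symm)
  have hd0 : (d : K) ≠ 0 := S36IT_den_ne_zero hd
  have hϖ0 : (ϖ : K) ≠ 0 := by
    intro h0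
    rw [hdK, h0] at hd0
    simp at hd0
  have E := fun i hi hi' =>
    S36CA_eps_ram_vs D.O D.Λ hmem y q ϖ g d hq0 hϖ0 m hdK hd i hi hi'
  have Gϖ : S36CA_IsUnif (D.Ov j₀) (ϖ : K) := by
    refine hπ.of_pow hϖ0 (m + 1) (Nat.succ_ne_zero m) ?_
    have hA := (E (Sum.inl j₀) hj₀ hϖq).2
    have : (ϖ : K) ^ (m + 1) / π ^ (m + 1) = ((ϖ : K) ^ (m + 1) / q) * (π ^ (m + 1) / q)⁻¹ := by
      have := hπ.ne_zero
      field_simp
    rw [this]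
    exact hA.mul hπq.inv
  S36CA_liData_one D.O ⊤ D.Λ D.ca_hΛ D.ca_hfin D.ca_harch y (Sum.inl j₀) hj₀ ρ hker ϖ Gϖ
    (by
      rintro (j | Q) hi hne'
      · exact absurd hi (hnot j fun h => hne' (by rw [h]))
      · have hqU := D.ca_const_unit Q q c hc hqc
        have h1 : (ϖ : K) ^ (m + 1) / q ∈ D.O (Sum.inr Q) := by
          rw [div_eq_mul_inv]
          exact (D.O _).mul_mem _ _ ((D.O _).pow_mem (hmem ϖ _) _) hqU.2
        have h2 := (E (Sum.inr Q) hi h1).2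
        have h3 : S36LW_IsU (D.O (Sum.inr Q)) ((ϖ : K) ^ (m + 1)) := by
          have := h2.mul hqU
          rwa [div_mul_cancel₀ _ hq0] at this
        exact (S36CA_IsU_of_pow _ (hmem ϖ _) (m + 1) (Nat.succ_ne_zero m) h3).2)
    Oy hsub hOarch hne

/-- **supersingular points** (`ιv = {FF, FV, VV}`): from the unit `ε` of (R13 ss). -/
noncomputable def ca_liData_ss [Finite ιv] {κ : Type*} [Field κ] (y : D.Λ →+* k)
    (iFF iFV iVV : ιv) (h12 : iFF ≠ iFV) (h13 : iFF ≠ iVV) (h23 : iFV ≠ iVV)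
    (hall : ∀ j : ιv, j = iFF ∨ j = iFV ∨ j = iVV)
    (hFF : Sum.inl iFF ∈ S36IT_thruVS D.O D.Λ y) (hFV : Sum.inl iFV ∈ S36IT_thruVS D.O D.Λ y)
    (hVV : Sum.inl iVV ∈ S36IT_thruVS D.O D.Λ y)
    (ρ : D.Λ →+* κ) (hker : ∀ f : D.Λ, ρ f = 0 ↔ (f = 0 ∨ ((f : K))⁻¹ ∉ D.Ov iVV))
    (q : D.Λ) (c : Ω) (hc : c ≠ 0) (hqc : D.φ (q : K) = algebraMap Ω F c)
    (ϖ t₁ t₂ ε : D.Λ) (m : ℕ)
    (hεK : (ε : K) = t₁ * t₂ * (ϖ : K) ^ (m + 1) / q) (hε : y ε ≠ 0)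
    (ht₁ : (t₁ : K) / q ∈ D.Ov iFF) (ht₂ : (t₂ : K) / q ∈ D.Ov iVV)
    (hϖ : (ϖ : K) ^ (m + 1) / q ∈ D.Ov iFV)
    (hqFF : S36CA_IsUnif (D.Ov iFF) (q : K)) (hqVV : S36CA_IsUnif (D.Ov iVV) (q : K))
    (π : K) (hπ : S36CA_IsUnif (D.Ov iFV) π) (hπq : S36LW_IsU (D.Ov iFV) (π ^ (m + 1) / q))
    (Oy : ValuationSubring κ)
    (hsub : ∀ x : κ, x ∈ Oy → ∃ a d : D.Λ, y d ≠ 0 ∧ ρ a = x * ρ d)
    (hOarch : ∀ x : κ, x ≠ 0 → x ∈ Oy → x⁻¹ ∉ Oy → ∀ z : κ, ∃ n : ℕ, z * x ^ n ∈ Oy)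
    (hne : ∃ t : D.Λ, y t = 0 ∧ ρ t ≠ 0) : S36CA_LiData D.O ⊤ D.Λ y κ :=
  haveI : DecidableEq (ιv ⊕ D.U) := Classical.decEq _
  have hq0 : (q : K) ≠ 0 := by
    intro h0
    rw [h0, map_zero] at hqc
    exact hc ((map_eq_zero _).1 hqc.symm)
  S36CA_liData_ss D.O ⊤ D.Λ D.ca_hΛ D.ca_hfin D.ca_harch y (Sum.inl iFF) (Sum.inl iFV)
    (Sum.inl iVV) (fun h => h12 (Sum.inl.inj h)) (fun h => h13 (Sum.inl.inj h))
    (fun h => h23 (Sum.inl.inj h)) hFF hFV hVV ρ hker q ϖ t₁ t₂ ε hq0 m hεK hε ht₁ ht₂ hϖ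
    (by
      rintro (j | Q) _ h1 h2 h3
      · exfalso
        rcases hall j with rfl | rfl | rfl
        · exact h1 rfl
        · exact h2 rfl
        · exact h3 rfl
      · exact (D.ca_const_unit Q q c hc hqc).2)
    hqFF hqVV π hπ hπq Oy hsub hOarch hne

/-- the two notions of "through `y`" agree. -/
theorem ca_thru_iff (y : D.Λ →+* k) (i : ιv ⊕ D.U) :
    i ∈ S36IT_thruVS D.O D.Λ y ↔ i ∈ D.thru y := by
  constructor
  · intro h f hf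
    rcases eq_or_ne (f : K) 0 with h0 | h0
    · have : f = 0 := Subtype.ext h0
      rw [this, map_zero]
    · exact h f ((D.v_lt_one_iff i h0).1 hf)
  · intro h f hf
    have h0 : (f : K) ≠ 0 := by
      intro h0
      rw [h0, inv_zero] at hf
      exact hf (D.O i).zero_mem
    exact h f ((D.v_lt_one_iff i h0).2 hf)

end S36IT_Fam

end Fermat.Agent.S36
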