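import Mathlib
import Fermat.Agent.Lib.RiemannNonspecial
import Fermat.Agent.S24.GlobalA
import Fermat.Agent.S36.Cart3

/-!
# TRACK 10 (S36), package F6 CART (R14) (helper5), part 5: (C2) from Riemann–Roch on the
# special fibre

`κ / k` a function field with `RR_Hyp k κ`, `T` a nonempty set of places ("the cusps"),
`Rb = {a ∈ κ | ∀ P ∉ T, 0 ≤ ord_P a}` the coordinate ring of the chart, `yb ∉ T` a place.

* `S36CA_exists_exact` : for `deg D ≥ c₀` there is `d ∈ L(D)`, `d ≠ 0`, with `ord_yb d = - D yb`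
  EXACTLY (Riemann's theorem: `L(D - yb) ⊊ L(D)`);
* `S36CA_loc_RR` : **`O_yb` is the localisation of `Rb` at `yb`**: `0 ≤ ord_yb x` ⇒
  `∃ d ∈ Rb, ord_yb d = 0, x d ∈ Rb`;
* `S36CA_param_RR` : there is `t ∈ Rb` with `ord_yb t = 1` (a local parameter in `Rb`);
* `S36CA_sep_RR` : for `yb' ∉ T`, `yb' ≠ yb` there is `g ∈ Rb` with `ord_yb g = 0`, `0 < ord_yb' g`;
* `S36CA_branch_RR` : **(C2) instantiated**: if `ρ : Λ → κ` reaches `Rb` (`hlift`: ONTO) and
  `y` is the evaluation at `yb` (`hy : y f = 0 ↔ ρ f = 0 ∨ 0 < ord_yb (ρ f)`), then (C1) for `s`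
  gives `S36CA_Branch Λ y ρ s yb.toValuationSubring`.
-/

set_option autoImplicit false

open AlgebraicCurve

namespace Fermat.Agent.S36

open Fermat.Agent.Lib Fermat.Agent.S24

section RR

variable {k κ : Type*} [Field k] [Field κ] [Algebra k κ]

/-- for `deg D` large there is `d ∈ L(D) ∖ L(D - yb)`: `ord_P d ≥ - D P` everywhere and
`ord_yb d = - D yb`. -/
theorem S36CA_exists_exact (h : RR_Hyp k κ) : ∃ c₀ : ℤ, ∀ (D : Divisor k κ) (yb : Place k κ),
    c₀ ≤ D.degree →
    ∃ d : κ, d ≠ 0 ∧ (∀ P : Place k κ, -D P ≤ P.ord d) ∧ yb.ord d = -D yb := by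
  classical
  obtain ⟨c, hc⟩ := RR_riemann_eq h
  refine ⟨c + 1, fun D yb hD => ?_⟩
  have hP := h.principal
  set D' : Divisor k κ := D - Finsupp.single yb 1 with hD'
  have hdeg' : D'.degree = D.degree - 1 := by
    rw [hD', map_sub, Divisor.degree_single, h.deg_one yb]
    simp
  have h1 := hc D (by linarith)
  have h2 := hc D' (by rw [hdeg']; linarith)
  have hlt : Module.finrank k (riemannRochSpace D') < Module.finrank k (riemannRochSpace D) := by
    have : (Module.finrank k (riemannRochSpace D') : ℤ) <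
        Module.finrank k (riemannRochSpace D) := by
      rw [h1, h2, hdeg']
      linarith
    exact_mod_cast this
  have hnot : ¬ riemannRochSpace D ≤ riemannRochSpace D' := by
    intro hle
    have := RR_finite h D'
    exact absurd (Submodule.finrank_mono hle) (not_le.2 hlt)
  obtain ⟨d, hdD, hdD'⟩ := SetLike.not_le_iff_exists.1 hnot
  have hd0 : d ≠ 0 := fun h0 => hdD' (h0 ▸ (riemannRochSpace D').zero_mem)
  have hmem := (RR_mem_iff_div hP hd0).1 hdD
  rw [Finsupp.le_def] at hmem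
  have hord : ∀ P : Place k κ, -D P ≤ P.ord d := by
    intro P
    have := hmem P
    rw [Finsupp.add_apply, RR_div_apply, Finsupp.zero_apply] at this
    linarith
  refine ⟨d, hd0, hord, ?_⟩
  apply le_antisymm _ (hord yb)
  by_contra hcon
  rw [not_le] at hcon
  apply hdD'
  rw [RR_mem_iff_div hP hd0, Finsupp.le_def]
  intro P
  rw [Finsupp.add_apply, RR_div_apply, Finsupp.zero_apply, hD', Finsupp.sub_apply,
    Finsupp.single_apply]
  by_cases hPy : yb = P
  · subst hPy
    rw [if_pos rfl]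
    linarith
  · rw [if_neg hPy]
    have := hord P
    linarith

/-- **`O_yb` is the localisation of the chart ring at `yb`**. -/
theorem S36CA_loc_RR (h : RR_Hyp k κ) (T : Set (Place k κ)) (c : Place k κ) (hc : c ∈ T)
    (yb : Place k κ) (hyb : yb ∉ T) (x : κ) (hx : 0 ≤ yb.ord x) :
    ∃ d : κ, d ≠ 0 ∧ (∀ P : Place k κ, P ∉ T → 0 ≤ P.ord d) ∧ yb.ord d = 0 ∧
      (∀ P : Place k κ, P ∉ T → 0 ≤ P.ord (x * d)) := by
  classical
  rcases eq_or_ne x 0 with rfl | hx0
  · exact ⟨1, one_ne_zero, fun P _ => by rw [Place.ord_one], Place.ord_one _,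
      fun P _ => by rw [zero_mul, Place.ord_zero]⟩
  have hP := h.principal
  obtain ⟨c₀, hc₀⟩ := S36CA_exists_exact h
  set E : Divisor k κ := RR_poleDiv hP x with hE
  set m : ℕ := (c₀ + E.degree).toNat with hm
  set D : Divisor k κ := Finsupp.single c (m : ℤ) - E with hD
  have hdeg : c₀ ≤ D.degree := by
    rw [hD, map_sub, Divisor.degree_single, h.deg_one c]
    have := Int.self_le_toNat (c₀ + E.degree)
    rw [← hm] at this
    push_cast
    linarith
  obtain ⟨d, hd0, hord, hybd⟩ := hc₀ D yb hdeg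
  have hcyb : c ≠ yb := fun h' => hyb (h' ▸ hc)
  have hDP : ∀ P : Place k κ, P ∉ T → -D P = max (-P.ord x) 0 := by
    intro P hPT
    have hcP : c ≠ P := fun h' => hPT (h' ▸ hc)
    rw [hD, Finsupp.sub_apply, Finsupp.single_apply, if_neg hcP, hE, RR_poleDiv_apply]
    ring
  refine ⟨d, hd0, fun P hPT => ?_, ?_, fun P hPT => ?_⟩
  · have := hord P
    rw [hDP P hPT] at this
    exact le_trans (le_max_right _ _) this
  · rw [hybd, hDP yb hyb]
    exact max_eq_right (by linarith)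
  · rw [Place.ord_mul _ hx0 hd0]
    have := hord P
    rw [hDP P hPT] at this
    have h2 := le_max_left (-P.ord x) 0
    linarith

/-- a local parameter at `yb` which is regular off `T`. -/
theorem S36CA_param_RR (h : RR_Hyp k κ) (T : Set (Place k κ)) (c : Place k κ) (hc : c ∈ T)
    (yb : Place k κ) (hyb : yb ∉ T) :
    ∃ t : κ, t ≠ 0 ∧ (∀ P : Place k κ, P ∉ T → 0 ≤ P.ord t) ∧ yb.ord t = 1 := by
  classical
  obtain ⟨c₀, hc₀⟩ := S36CA_exists_exact h
  set m : ℕ := (c₀ + 1).toNat with hm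
  set D : Divisor k κ := Finsupp.single c (m : ℤ) - Finsupp.single yb 1 with hD
  have hdeg : c₀ ≤ D.degree := by
    rw [hD, map_sub, Divisor.degree_single, Divisor.degree_single, h.deg_one c, h.deg_one yb]
    have := Int.self_le_toNat (c₀ + 1)
    rw [← hm] at this
    push_cast
    linarith
  obtain ⟨t, ht0, hord, hybt⟩ := hc₀ D yb hdeg
  have hcyb : c ≠ yb := fun h' => hyb (h' ▸ hc)
  have hDyb : D yb = -1 := by
    rw [hD, Finsupp.sub_apply, Finsupp.single_apply, if_neg hcyb, Finsupp.single_apply,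
      if_pos rfl]
    ring
  refine ⟨t, ht0, fun P hPT => ?_, ?_⟩
  · have hcP : c ≠ P := fun h' => hPT (h' ▸ hc)
    have := hord P
    rw [hD, Finsupp.sub_apply, Finsupp.single_apply, if_neg hcP, Finsupp.single_apply] at this
    split_ifs at this <;> linarith
  · rw [hybt, hDyb]
    ring

/-- separation of two points of the chart. -/
theorem S36CA_sep_RR (h : RR_Hyp k κ) (T : Set (Place k κ)) (c : Place k κ) (hc : c ∈ T)
    (yb yb' : Place k κ) (hyb : yb ∉ T) (hyb' : yb' ∉ T) (hne : yb' ≠ yb) :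
    ∃ g : κ, g ≠ 0 ∧ (∀ P : Place k κ, P ∉ T → 0 ≤ P.ord g) ∧ yb.ord g = 0 ∧ 0 < yb'.ord g := by
  classical
  obtain ⟨c₀, hc₀⟩ := S36CA_exists_exact h
  set m : ℕ := (c₀ + 1).toNat with hm
  set D : Divisor k κ := Finsupp.single c (m : ℤ) - Finsupp.single yb' 1 with hD
  have hdeg : c₀ ≤ D.degree := by
    rw [hD, map_sub, Divisor.degree_single, Divisor.degree_single, h.deg_one c, h.deg_one yb']
    have := Int.self_le_toNat (c₀ + 1)
    rw [← hm] at this
    push_cast
    linarith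
  obtain ⟨g, hg0, hord, hybg⟩ := hc₀ D yb hdeg
  have hcyb : c ≠ yb := fun h' => hyb (h' ▸ hc)
  have hcyb' : c ≠ yb' := fun h' => hyb' (h' ▸ hc)
  refine ⟨g, hg0, fun P hPT => ?_, ?_, ?_⟩
  · have hcP : c ≠ P := fun h' => hPT (h' ▸ hc)
    have := hord P
    rw [hD, Finsupp.sub_apply, Finsupp.single_apply, if_neg hcP, Finsupp.single_apply] at this
    split_ifs at this <;> linarith
  · rw [hybg, hD, Finsupp.sub_apply, Finsupp.single_apply, if_neg hcyb, Finsupp.single_apply,
      if_neg hne]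
    ring
  · have := hord yb'
    rw [hD, Finsupp.sub_apply, Finsupp.single_apply, if_neg hcyb', Finsupp.single_apply,
      if_pos rfl] at this
    linarith

end RR

section branch

variable {k κ : Type*} [Field k] [Field κ] [Algebra k κ]
  {K : Type*} [Field K] {k' : Type*} [Field k']

/-- **(C2) instantiated by Riemann–Roch**: the branch `ρ : Λ → κ` reaches the chart ring
(ONTO) and `y` is the evaluation at the place `yb` of the chart; then (C1) gives the
`S36CA_Branch` with `O = O_yb`. -/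
theorem S36CA_branch_RR (h : RR_Hyp k κ) (T : Set (Place k κ)) (c : Place k κ) (hc : c ∈ T)
    (yb : Place k κ) (hyb : yb ∉ T) (Λ : Subring K) (y : Λ →+* k') (ρ : Λ →+* κ) (s : Λ)
    (hlift : ∀ a : κ, (∀ P : Place k κ, P ∉ T → 0 ≤ P.ord a) → ∃ f : Λ, ρ f = a)
    (hy : ∀ f : Λ, y f = 0 ↔ (ρ f = 0 ∨ 0 < yb.ord (ρ f)))
    (hρs : ρ s = 0)
    (hC1 : ∀ f : Λ, ρ f = 0 → ∃ d e : Λ, y d ≠ 0 ∧ d * f = s * e) :
    S36CA_Branch Λ y ρ s yb.toValuationSubring where
  hthr f hf := (hy f).2 (Or.inl hf)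
  hρs := hρs
  hC1 := hC1
  hsub x hx := by
    rcases eq_or_ne x 0 with rfl | hx0
    · exact ⟨0, 1, by rw [map_one]; exact one_ne_zero, by rw [map_zero, zero_mul]⟩
    have hx' : 0 ≤ yb.ord x := (BG_mem_iff_ord_nonneg yb hx0).1 hx
    obtain ⟨d, hd0, hdT, hdyb, hxd⟩ := S36CA_loc_RR h T c hc yb hyb x hx'
    obtain ⟨fd, hfd⟩ := hlift d hdT
    obtain ⟨fa, hfa⟩ := hlift (x * d) hxd
    refine ⟨fa, fd, ?_, by rw [hfa, hfd]⟩
    intro h0
    rcases (hy fd).1 h0 with h1 | h1
    · exact hd0 (hfd ▸ h1)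
    · rw [hfd, hdyb] at h1
      exact lt_irrefl _ h1
  harch := S36CA_harch_of_dvr yb.toValuationSubring
  hne := by
    obtain ⟨t, ht0, htT, htyb⟩ := S36CA_param_RR h T c hc yb hyb
    obtain ⟨ft, hft⟩ := hlift t htT
    refine ⟨ft, (hy ft).2 (Or.inr ?_), by rw [hft]; exact ht0⟩
    rw [hft, htyb]
    exact one_pos

end branch

end Fermat.Agent.S36
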