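import Mathlib
import Fermat.Agent.Lib.DiffExpand
import Fermat.Agent.S17.RRAvoid

/-!
# TRACK 10 (S36), package SPEC3 (helper21), part 2: the closed points of a component of the
special fibre are the affine places.  Prefix `S36SP_`.

`K` an infinite field, `F / K` a function field with `h : RR_Hyp K F` (all places of degree one),
`x ∈ F` with a pole at `c₀` (`x = j̄`, `c₀` a cusp), `R ⊂ F` the ring of the functions regular
where `x` is regular (`hR`; the coordinate ring of the chart `x ≠ ∞`, e.g. `S34SB_reg K x`).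

* `S36SP_exists_zero` : a function with a pole has a zero;
* `S36SP_interp`      : interpolation in `R`: for a finite set `T` of affine places and `P ∈ T`
  there is `u ∈ R` with `u(P) ≠ 0` and `u(P') = 0` for the other `P' ∈ T`;
* `S36SP_pt P`        : the `K`-point `f ↦ f(P)` of `R` attached to an affine place `P`;
* `S36SP_pt_surjective` : **every `K`-point `e : R →ₐ[K] K` is the evaluation at an affine
  place** (`e f = FD_c0 P f`);
* `S36SP_pt_injective`  : the place is unique.
-/

set_option autoImplicit false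
set_option linter.unusedSectionVars false
set_option linter.style.haveILetI false
set_option maxHeartbeats 400000

open AlgebraicCurve WithZero

namespace Fermat.Agent.S36

open Fermat.Agent.Lib Fermat.Agent.S17

variable {K F : Type*} [Field K] [Field F] [Algebra K F]

/-! ### valuations and orders -/

theorem S36SP_val_lt_one_iff (Q : Place K F) {f : F} :
    Q.adicValuation f < 1 ↔ f = 0 ∨ 0 < Q.ord f := by
  rcases eq_or_ne f 0 with rfl | hf
  · simp
  · rw [Q.adicValuation_eq_exp_neg_ord hf, ← WithZero.exp_zero, WithZero.exp_lt_exp,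
      or_iff_right hf]
    omega

theorem S36SP_val_eq_one_iff (Q : Place K F) {f : F} (hf : f ≠ 0) :
    Q.adicValuation f = 1 ↔ Q.ord f = 0 := by
  rw [Q.adicValuation_eq_exp_neg_ord hf, ← WithZero.exp_zero, WithZero.exp_inj]
  omega

/-- a function with a pole has a zero. -/
theorem S36SP_exists_zero (h : RR_Hyp K F) {f : F} {v₀ : Place K F} (hpole : v₀.ord f < 0) :
    ∃ v : Place K F, 0 < v.ord f := by
  by_contra hcon
  simp only [not_exists, not_lt] at hcon
  have hP := h.principal
  have h1 : 0 ≤ - RR_div hP f := by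
    rw [Finsupp.le_def]
    intro v
    rw [Finsupp.neg_apply, RR_div_apply, Finsupp.zero_apply]
    have := hcon v
    omega
  have h2 := RR_eq_zero_of_degree_eq_zero h.deg_one h1 (by rw [map_neg, RR_div_degree, neg_zero])
  have h3 : v₀.ord f = 0 := by
    rw [← RR_div_apply hP, ← neg_eq_zero, ← Finsupp.neg_apply, h2]
    rfl
  omega

/-- the set of zeros of a non-zero function is finite. -/
theorem S36SP_zeros_finite (h : RR_Hyp K F) (f : F) :
    {v : Place K F | 0 < v.ord f}.Finite := by
  refine (RR_div h.principal f).support.finite_toSet.subset fun v hv => ?_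
  rw [Finset.mem_coe, Finsupp.mem_support_iff, RR_div_apply]
  exact (ne_of_gt hv)

/-! ### interpolation -/

/-- **interpolation with poles at one place**: for a finite set `T` of places `≠ c₀` and `P ∈ T`
there is `u ≠ 0`, regular off `c₀`, with `ord_P u = 0` and `ord_{P'} u > 0` for the other
`P' ∈ T`. -/
theorem S36SP_interp [Infinite K] (h : RR_Hyp K F) (c₀ : Place K F) (T : Finset (Place K F))
    (hT : c₀ ∉ T) (P : Place K F) (hP : P ∈ T) :
    ∃ u : F, u ≠ 0 ∧ (∀ v : Place K F, v ≠ c₀ → 0 ≤ v.ord u) ∧ P.ord u = 0 ∧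
      ∀ P' ∈ T, P' ≠ P → 0 < P'.ord u := by
  classical
  set E : Divisor K F := ∑ P' ∈ T.erase P, Finsupp.single P' (1 : ℤ) with hE
  have hEapp : ∀ v : Place K F, E v = if v ∈ T.erase P then 1 else 0 := by
    intro v
    rw [hE, Finsupp.finsetSum_apply]
    simp only [Finsupp.single_apply]
    rw [Finset.sum_ite_eq' (T.erase P) v (fun _ => (1 : ℤ))]
  set m : ℤ := 2 * (RR_genus K F : ℤ) + 1 + Divisor.degree E with hm
  have hdeg : Divisor.degree (Finsupp.single c₀ m - E : Divisor K F) =
      2 * (RR_genus K F : ℤ) + 1 := by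
    rw [map_sub, Divisor.degree_single, h.deg_one]
    simp [hm]
  obtain ⟨f, hf0, hf, hord⟩ :=
    S17RS_exists_ord_eq h (Finsupp.single c₀ m - E) (le_of_eq hdeg.symm) {P}
  have hPc : P ≠ c₀ := fun h0 => hT (h0 ▸ hP)
  have hge : ∀ v : Place K F, v ≠ c₀ → E v ≤ v.ord f := by
    intro v hv
    have := (S17RS_mem_iff_ord hf0).1 hf v
    rw [Finsupp.sub_apply, Finsupp.single_apply, if_neg (Ne.symm hv)] at this
    linarith
  refine ⟨f, hf0, fun v hv => ?_, ?_, fun P' hP' hne => ?_⟩
  · have h1 := hge v hv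
    have h2 : 0 ≤ E v := by
      rw [hEapp]
      split_ifs <;> norm_num
    linarith
  · have := hord P (Finset.mem_singleton_self P)
    rw [this, Finsupp.sub_apply, Finsupp.single_apply, if_neg (Ne.symm hPc), hEapp,
      if_neg (Finset.notMem_erase P T)]
    ring
  · have hP'c : P' ≠ c₀ := fun h0 => hT (h0 ▸ hP')
    have h1 := hge P' hP'c
    rw [hEapp, if_pos (Finset.mem_erase.2 ⟨hne, hP'⟩)] at h1
    omega

/-! ### the points of the coordinate ring -/

section Points

variable [Infinite K] (h : RR_Hyp K F) (x : F) (c₀ : Place K F) (hc₀ : c₀.ord x < 0)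
  (R : Subalgebra K F)
  (hR : ∀ y : F, y ∈ R ↔ ∀ Q : Place K F, Q.adicValuation x ≤ 1 → Q.adicValuation y ≤ 1)

/-- the value of a constant. -/
theorem S36SP_c0_const (Q : Place K F) (c : K) : FD_c0 Q (algebraMap K F c) = c :=
  FD_c0_unique Q (by rw [sub_self, map_zero]; exact zero_lt_one)

include h hR in
/-- the `K`-point of `R` attached to an affine place. -/
noncomputable def S36SP_pt (P : Place K F) (hP : P.adicValuation x ≤ 1) : R →ₐ[K] K where
  toFun f := FD_c0 P (f : F)
  map_one' := by
    have := S36SP_c0_const P (1 : K)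
    rwa [map_one] at this
  map_mul' f g := (FD_c0_mul P (h.deg_one P) ((hR _).1 f.2 P hP) ((hR _).1 g.2 P hP)).1
  map_zero' := by
    have := S36SP_c0_const P (0 : K)
    rwa [map_zero] at this
  map_add' f g := (FD_c0_add P (h.deg_one P) ((hR _).1 f.2 P hP) ((hR _).1 g.2 P hP)).1
  commutes' c := S36SP_c0_const P c

theorem S36SP_pt_apply (P : Place K F) (hP : P.adicValuation x ≤ 1) (f : R) :
    S36SP_pt h x R hR P hP f = FD_c0 P (f : F) := rfl

include hc₀ in
theorem S36SP_x_ne_zero : x ≠ 0 := by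
  rintro rfl
  simp at hc₀

include hc₀ in
/-- `c₀` is not an affine place. -/
theorem S36SP_not_affine : ¬ c₀.adicValuation x ≤ 1 := by
  intro h1
  rw [c₀.adicValuation_le_one_iff] at h1
  rcases h1 with h1 | h1
  · exact S36SP_x_ne_zero x c₀ hc₀ h1
  · omega

include hR in
theorem S36SP_x_mem : x ∈ R := (hR x).2 fun _ hQ => hQ

include hc₀ in
/-- `x - c` has a pole at `c₀`. -/
theorem S36SP_sub_pole (c : K) : c₀.ord (x - algebraMap K F c) < 0 := by
  have h1 : ¬ c₀.adicValuation (x - algebraMap K F c) ≤ 1 := by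
    intro hc
    apply S36SP_not_affine x c₀ hc₀
    have := Valuation.map_add c₀.adicValuation (x - algebraMap K F c) (algebraMap K F c)
    rw [sub_add_cancel] at this
    exact this.trans (max_le hc (c₀.adicValuation_algebraMap_le_one c))
  rw [c₀.adicValuation_le_one_iff] at h1
  push Not at h1
  exact h1.2

include h hc₀ hR in
/-- **every `K`-point of the coordinate ring is the evaluation at an affine place**. -/
theorem S36SP_pt_surjective (e : R →ₐ[K] K) :
    ∃ (P : Place K F) (_ : P.adicValuation x ≤ 1), ∀ f : R, e f = FD_c0 P (f : F) := by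
  classical
  have hxR : x ∈ R := S36SP_x_mem x R hR
  set c : K := e ⟨x, hxR⟩ with hc
  set g : F := x - algebraMap K F c with hg
  have hgpole : c₀.ord g < 0 := S36SP_sub_pole x c₀ hc₀ c
  have hg0 : g ≠ 0 := by
    intro h0
    rw [h0, Place.ord_zero] at hgpole
    exact lt_irrefl _ hgpole
  -- the fibre
  set T : Finset (Place K F) := (S36SP_zeros_finite h g).toFinset with hT
  have hmemT : ∀ P, P ∈ T ↔ 0 < P.ord g := fun P => by
    rw [hT, Set.Finite.mem_toFinset]
    rfl
  have hTne : T.Nonempty := by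
    obtain ⟨v, hv⟩ := S36SP_exists_zero h hgpole
    exact ⟨v, (hmemT v).2 hv⟩
  have hTreg : ∀ P ∈ T, P.adicValuation x ≤ 1 := by
    intro P hP
    have h1 : P.adicValuation g ≤ 1 :=
      P.adicValuation_le_one_iff.2 (Or.inr (le_of_lt ((hmemT P).1 hP)))
    have := Valuation.map_add P.adicValuation g (algebraMap K F c)
    rw [hg, sub_add_cancel] at this
    exact this.trans (max_le h1 (P.adicValuation_algebraMap_le_one c))
  have hc₀T : c₀ ∉ T := fun hmem => S36SP_not_affine x c₀ hc₀ (hTreg c₀ hmem)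
  by_contra hcon
  push Not at hcon
  -- the elements `b_P`
  have hb : ∀ P : Place K F, P ∈ T → ∃ b : R, e b = 0 ∧ P.adicValuation (b : F) = 1 := by
    intro P hP
    obtain ⟨b, hb⟩ := hcon P (hTreg P hP)
    refine ⟨b - algebraMap K R (e b), ?_, ?_⟩
    · rw [map_sub, AlgHom.commutes, Algebra.algebraMap_self, RingHom.id_apply, sub_self]
    · have hreg : P.adicValuation ((b - algebraMap K R (e b) : R) : F) ≤ 1 :=
        (hR _).1 (b - algebraMap K R (e b)).2 P (hTreg P hP)
      refine le_antisymm hreg (not_lt.1 fun hlt => hb ?_)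
      have h0 := (FD_c0_eq_zero_iff P (h.deg_one P) hreg).2 hlt
      have h1 := (FD_c0_add P (h.deg_one P) hreg
        (P.adicValuation_algebraMap_le_one (e b))).1
      have h2 : ((b - algebraMap K R (e b) : R) : F) + algebraMap K F (e b) = (b : F) := by
        push_cast
        ring
      rw [h2, h0, zero_add, S36SP_c0_const] at h1
      exact h1.symm
  -- the interpolation functions `u_P`
  have hu : ∀ P : Place K F, P ∈ T → ∃ u : R, P.adicValuation (u : F) = 1 ∧
      ∀ P' ∈ T, P' ≠ P → P'.adicValuation (u : F) < 1 := by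
    intro P hP
    obtain ⟨u, hu0, hureg, huP, huT⟩ := S36SP_interp h c₀ T hc₀T P hP
    have huR : u ∈ R := by
      rw [hR]
      intro Q hQ
      have hQc : Q ≠ c₀ := by
        rintro rfl
        exact S36SP_not_affine x Q hc₀ hQ
      exact Q.adicValuation_le_one_iff.2 (Or.inr (hureg Q hQc))
    exact ⟨⟨u, huR⟩, (S36SP_val_eq_one_iff P hu0).2 huP, fun P' hP' hne =>
      (S36SP_val_lt_one_iff P').2 (Or.inr (huT P' hP' hne))⟩
  choose! b hbe hbP using hb
  choose! u huP huT using hu
  set B : R := ∑ P ∈ T, b P * u P with hB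
  have hBe : e B = 0 := by
    rw [hB, map_sum]
    refine Finset.sum_eq_zero fun P hP => ?_
    rw [map_mul, hbe P hP, zero_mul]
  have hBT : ∀ P ∈ T, P.adicValuation (B : F) = 1 := by
    intro P hP
    have h1 : (B : F) = (b P : F) * (u P : F) + ∑ P' ∈ T.erase P, (b P' : F) * (u P' : F) := by
      rw [hB, ← Finset.add_sum_erase T _ hP]
      push_cast
      rfl
    have h2 : P.adicValuation ((b P : F) * (u P : F)) = 1 := by
      rw [map_mul, hbP P hP, huP P hP, one_mul]
    have h3 : P.adicValuation (∑ P' ∈ T.erase P, (b P' : F) * (u P' : F)) < 1 := by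
      apply Valuation.map_sum_lt _ one_ne_zero
      intro P' hP'
      rw [Finset.mem_erase] at hP'
      rw [map_mul]
      have h4 : P.adicValuation (b P' : F) ≤ 1 := (hR _).1 (b P').2 P (hTreg P hP)
      have h5 : P.adicValuation (u P' : F) < 1 := huT P' hP'.2 P hP (Ne.symm hP'.1)
      calc P.adicValuation (b P' : F) * P.adicValuation (u P' : F)
          ≤ 1 * P.adicValuation (u P' : F) := by gcongr
        _ < 1 := by rwa [one_mul]
    rw [h1, Valuation.map_add_eq_of_lt_left _ (by rw [h2]; exact h3), h2]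
  have hB0 : (B : F) ≠ 0 := by
    obtain ⟨P, hP⟩ := hTne
    intro h0
    have := hBT P hP
    rw [h0, map_zero] at this
    exact zero_ne_one this
  -- the affine zeros of `B`
  set Z : Finset (Place K F) :=
    (S36SP_zeros_finite h (B : F)).toFinset.filter (fun Q => Q.adicValuation x ≤ 1) with hZ
  have hmemZ : ∀ Q, Q ∈ Z ↔ 0 < Q.ord (B : F) ∧ Q.adicValuation x ≤ 1 := fun Q => by
    rw [hZ, Finset.mem_filter, Set.Finite.mem_toFinset]
    rfl
  set cc : Place K F → K := fun Q => FD_c0 Q x with hcc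
  have hccne : ∀ Q ∈ Z, c - cc Q ≠ 0 := by
    intro Q hQ h0
    obtain ⟨hQB, hQx⟩ := (hmemZ Q).1 hQ
    have h1 : Q.adicValuation (x - algebraMap K F (cc Q)) < 1 := FD_c0_spec Q (h.deg_one Q) hQx
    have h2 : cc Q = c := (sub_eq_zero.1 h0).symm
    rw [h2] at h1
    have h3 : Q ∈ T := (hmemT Q).2 (((S36SP_val_lt_one_iff Q).1 h1).resolve_left hg0)
    have h4 := hBT Q h3
    rw [S36SP_val_eq_one_iff Q hB0] at h4
    omega
  set xR : R := ⟨x, hxR⟩ with hxRdef
  set sR : R := ∏ Q ∈ Z, (xR - algebraMap K R (cc Q)) ^ (Q.ord (B : F)).toNat with hsR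
  have hse : e sR ≠ 0 := by
    rw [hsR, map_prod]
    refine Finset.prod_ne_zero_iff.2 fun Q hQ => ?_
    rw [map_pow, map_sub, AlgHom.commutes, Algebra.algebraMap_self, RingHom.id_apply]
    exact pow_ne_zero _ (hccne Q hQ)
  -- `s / B ∈ R`
  have hsF : (sR : F) = ∏ Q ∈ Z, (x - algebraMap K F (cc Q)) ^ (Q.ord (B : F)).toNat := by
    rw [hsR]
    push_cast
    rfl
  have hfac : ∀ (Q' : Place K F), Q'.adicValuation x ≤ 1 → ∀ Q : Place K F,
      Q'.adicValuation ((x - algebraMap K F (cc Q)) ^ (Q.ord (B : F)).toNat) ≤ 1 := by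
    intro Q' hQ' Q
    rw [map_pow]
    apply pow_le_one'
    exact (Valuation.map_sub _ _ _).trans (max_le hQ' (Q'.adicValuation_algebraMap_le_one _))
  have hrR : (sR : F) * (B : F)⁻¹ ∈ R := by
    rw [hR]
    intro Q' hQ'
    have hBreg : Q'.adicValuation (B : F) ≤ 1 := (hR _).1 B.2 Q' hQ'
    have hBord : 0 ≤ Q'.ord (B : F) :=
      (Q'.adicValuation_le_one_iff.1 hBreg).resolve_left hB0
    rw [map_mul, map_inv₀]
    rw [mul_inv_le_iff₀ (zero_lt_iff.2 (Q'.adicValuation_ne_zero hB0)), one_mul]
    by_cases hQZ : Q' ∈ Z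
    · -- a zero of `B`
      rw [hsF, ← Finset.mul_prod_erase Z _ hQZ, map_mul]
      have h1 : Q'.adicValuation (∏ Q ∈ Z.erase Q',
          (x - algebraMap K F (cc Q)) ^ (Q.ord (B : F)).toNat) ≤ 1 := by
        rw [map_prod]
        exact Finset.prod_le_one' fun Q _ => hfac Q' hQ' Q
      have h2 : Q'.adicValuation ((x - algebraMap K F (cc Q')) ^ (Q'.ord (B : F)).toNat) ≤
          Q'.adicValuation (B : F) := by
        rw [map_pow]
        have h3 : Q'.adicValuation (x - algebraMap K F (cc Q')) ≤ exp (-1 : ℤ) :=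
          (FD_val_lt_one_iff Q').1 (FD_c0_spec Q' (h.deg_one Q') hQ')
        calc Q'.adicValuation (x - algebraMap K F (cc Q')) ^ (Q'.ord (B : F)).toNat
            ≤ (exp (-1 : ℤ)) ^ (Q'.ord (B : F)).toNat := by gcongr
          _ = Q'.adicValuation (B : F) := by
            rw [Q'.adicValuation_eq_exp_neg_ord hB0, ← WithZero.exp_nsmul]
            congr 1
            rw [nsmul_eq_mul, Int.toNat_of_nonneg hBord]
            ring
      calc Q'.adicValuation ((x - algebraMap K F (cc Q')) ^ (Q'.ord (B : F)).toNat) *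
            Q'.adicValuation (∏ Q ∈ Z.erase Q',
              (x - algebraMap K F (cc Q)) ^ (Q.ord (B : F)).toNat)
          ≤ Q'.adicValuation (B : F) * 1 := by gcongr
        _ = Q'.adicValuation (B : F) := mul_one _
    · -- `B` is a unit at `Q'`
      have h1 : Q'.ord (B : F) = 0 := by
        by_contra hne
        exact hQZ ((hmemZ Q').2 ⟨lt_of_le_of_ne hBord (Ne.symm hne), hQ'⟩)
      rw [(S36SP_val_eq_one_iff Q' hB0).2 h1, hsF, map_prod]
      exact Finset.prod_le_one' fun Q _ => hfac Q' hQ' Q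
  have hprod : sR = B * ⟨(sR : F) * (B : F)⁻¹, hrR⟩ := by
    apply Subtype.ext
    push_cast
    rw [mul_comm (sR : F), ← mul_assoc, mul_inv_cancel₀ hB0, one_mul]
  apply hse
  rw [hprod, map_mul, hBe, zero_mul]

include h hc₀ hR in
/-- the place of a `K`-point is unique. -/
theorem S36SP_pt_injective (P P' : Place K F) (hP : P.adicValuation x ≤ 1)
    (hP' : P'.adicValuation x ≤ 1)
    (heq : ∀ f : R, FD_c0 P (f : F) = FD_c0 P' (f : F)) : P = P' := by
  classical
  by_contra hne
  have hPc : P ≠ c₀ := by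
    rintro rfl
    exact S36SP_not_affine x P hc₀ hP
  have hP'c : P' ≠ c₀ := by
    rintro rfl
    exact S36SP_not_affine x P' hc₀ hP'
  obtain ⟨u, hu0, hureg, huP, huT⟩ := S36SP_interp h c₀ {P, P'}
    (by
      intro hmem
      rw [Finset.mem_insert, Finset.mem_singleton] at hmem
      rcases hmem with h1 | h1
      · exact hPc h1.symm
      · exact hP'c h1.symm) P (Finset.mem_insert_self _ _)
  have huR : u ∈ R := by
    rw [hR]
    intro Q hQ
    have hQc : Q ≠ c₀ := by
      rintro rfl
      exact S36SP_not_affine x Q hc₀ hQ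
    exact Q.adicValuation_le_one_iff.2 (Or.inr (hureg Q hQc))
  have h1 := heq ⟨u, huR⟩
  have h2 : FD_c0 P' u = 0 :=
    (FD_c0_eq_zero_iff P' (h.deg_one P') ((hR _).1 huR P' hP')).2
      ((S36SP_val_lt_one_iff P').2 (Or.inr (huT P' (by simp) (Ne.symm hne))))
  have h3 : FD_c0 P u ≠ 0 := by
    intro h0
    have := (FD_c0_eq_zero_iff P (h.deg_one P) ((hR _).1 huR P hP)).1 h0
    rw [(S36SP_val_eq_one_iff P hu0).2 huP] at this
    exact lt_irrefl _ this
  exact h3 (h1.trans h2)

end Points

end Fermat.Agent.S36
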