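import Mathlib
import Fermat.Agent.S36.Spec3Pts

/-!
# TRACK 10 (S36), package SPEC3 (helper21), part 3: classification of the closed points of the
special fibre of a chart.  Prefix `S36SP_`.

`Λ` the lattice of a chart, `ρ j : Λ →+* κ j` the reductions along the vertical components
(`j = FF, FV, VV`), `ϖ ∈ Λ` (`ϖ = q`) with `rad (ϖ Λ) = ⋂ ker ρ j` (`hrad`), `y : Λ →+* k` a closed
point (`y ϖ = 0`).

* `S36SP_classify` : `y` lies on a component: `∃ j, ker ρ j ⊆ ker y`;
* `S36SP_factor`   : then `y` factors through `ρ j`: a `k`-point `e` of the coordinate ring `R`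
  of the component with `y = e ∘ ρ j` (if `ρ j` maps `Λ` onto `R`, compatibly with constants);
* `S36SP_point_of_thru` : hence `y f = (ρ j f)(ȳ)` for an affine place `ȳ` of the component
  (`S36SP_pt_surjective`);
* `S36SP_exists_point`  : **every closed point is `(j, ȳ)`**.
-/

set_option autoImplicit false
set_option linter.unusedSectionVars false
set_option linter.style.haveILetI false

open AlgebraicCurve

namespace Fermat.Agent.S36

open Fermat.Agent.Lib

/-- **a closed point lies on a component.** -/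
theorem S36SP_classify {Λ k ι : Type*} [CommRing Λ] [Field k] [Fintype ι] {κ : ι → Type*}
    [∀ j, CommRing (κ j)] (ρ : ∀ j, Λ →+* κ j) (y : Λ →+* k) (ϖ : Λ) (hϖ : y ϖ = 0)
    (hrad : ∀ f : Λ, (∀ j, ρ j f = 0) → ∃ (m : ℕ) (g : Λ), f ^ m = ϖ * g) :
    ∃ j, ∀ f : Λ, ρ j f = 0 → y f = 0 := by
  classical
  by_contra hcon
  push Not at hcon
  choose f hf hyf using hcon
  obtain ⟨m, g, hm⟩ := hrad (∏ j, f j) (fun j => by
    rw [map_prod]
    exact Finset.prod_eq_zero (Finset.mem_univ j) (hf j))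
  have h1 := congrArg y hm
  rw [map_pow, map_mul, hϖ, zero_mul, map_prod] at h1
  have h2 : ∏ j, y (f j) ≠ 0 := Finset.prod_ne_zero_iff.2 fun j _ => hyf j
  exact h2 (eq_zero_of_pow_eq_zero h1)

section Factor

variable {Λ k κ : Type*} [CommRing Λ] [Field k] [Field κ] [Algebra k κ]
  (ρ : Λ →+* κ) (y : Λ →+* k) (R : Subalgebra k κ)
  (hthru : ∀ f : Λ, ρ f = 0 → y f = 0)
  (hsurj : ∀ r : R, ∃ f : Λ, ρ f = (r : κ))
  (hlin : ∀ c : k, ∃ a : Λ, ρ a = algebraMap k κ c ∧ y a = c)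

include hthru in
theorem S36SP_factor_wd {f f' : Λ} (h : ρ f = ρ f') : y f = y f' := by
  have := hthru (f - f') (by rw [map_sub, h, sub_self])
  rwa [map_sub, sub_eq_zero] at this

/-- the `k`-point of the coordinate ring through which `y` factors. -/
noncomputable def S36SP_factor : R →ₐ[k] k where
  toFun r := y (hsurj r).choose
  map_one' := by
    rw [← map_one y]
    exact S36SP_factor_wd ρ y hthru (by rw [(hsurj 1).choose_spec, map_one]; rfl)
  map_mul' r s := by
    rw [← map_mul y]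
    exact S36SP_factor_wd ρ y hthru (by
      rw [(hsurj (r * s)).choose_spec, map_mul, (hsurj r).choose_spec, (hsurj s).choose_spec]
      rfl)
  map_zero' := by
    rw [← map_zero y]
    exact S36SP_factor_wd ρ y hthru (by rw [(hsurj 0).choose_spec, map_zero]; rfl)
  map_add' r s := by
    rw [← map_add y]
    exact S36SP_factor_wd ρ y hthru (by
      rw [(hsurj (r + s)).choose_spec, map_add, (hsurj r).choose_spec, (hsurj s).choose_spec]
      rfl)
  commutes' c := by
    obtain ⟨a, ha, hya⟩ := hlin c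
    have key : ∀ r : R, (r : κ) = algebraMap k κ c → y (hsurj r).choose = c := by
      intro r hr
      rw [← hya]
      exact S36SP_factor_wd ρ y hthru (((hsurj r).choose_spec).trans (hr.trans ha.symm))
    exact key _ rfl

theorem S36SP_factor_apply (f : Λ) (hf : ρ f ∈ R) :
    S36SP_factor ρ y R hthru hsurj hlin ⟨ρ f, hf⟩ = y f :=
  S36SP_factor_wd ρ y hthru (hsurj ⟨ρ f, hf⟩).choose_spec

variable [Infinite k] (h : RR_Hyp k κ) (x : κ) (c₀ : Place k κ) (hc₀ : c₀.ord x < 0)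
  (hR : ∀ z : κ, z ∈ R ↔ ∀ Q : Place k κ, Q.adicValuation x ≤ 1 → Q.adicValuation z ≤ 1)
  (hmem : ∀ f : Λ, ρ f ∈ R)

include hthru hsurj hlin h hc₀ hR hmem in
/-- **a closed point on the component `ρ` is an affine place of the component.** -/
theorem S36SP_point_of_thru :
    ∃ (P : Place k κ) (_ : P.adicValuation x ≤ 1), ∀ f : Λ, y f = FD_c0 P (ρ f) := by
  obtain ⟨P, hP, hPe⟩ := S36SP_pt_surjective h x c₀ hc₀ R hR
    (S36SP_factor ρ y R hthru hsurj hlin)
  refine ⟨P, hP, fun f => ?_⟩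
  rw [← S36SP_factor_apply ρ y R hthru hsurj hlin f (hmem f)]
  exact hPe ⟨ρ f, hmem f⟩

end Factor

/-- **every closed point of the special fibre of the chart is a pair `(j, ȳ)`**: a component `j`
and an affine place `ȳ` of that component, with `y f = (ρ j f)(ȳ)`. -/
theorem S36SP_exists_point {Λ k ι : Type*} [CommRing Λ] [Field k] [Infinite k] [Fintype ι]
    {κ : ι → Type*} [∀ j, Field (κ j)] [∀ j, Algebra k (κ j)]
    (ρ : ∀ j, Λ →+* κ j) (y : Λ →+* k) (ϖ : Λ) (hϖ : y ϖ = 0)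
    (hrad : ∀ f : Λ, (∀ j, ρ j f = 0) → ∃ (m : ℕ) (g : Λ), f ^ m = ϖ * g)
    (R : ∀ j, Subalgebra k (κ j))
    (hsurj : ∀ j (r : R j), ∃ f : Λ, ρ j f = (r : κ j))
    (hlin : ∀ j (c : k), ∃ a : Λ, ρ j a = algebraMap k (κ j) c ∧ y a = c)
    (h : ∀ j, RR_Hyp k (κ j)) (x : ∀ j, κ j) (c₀ : ∀ j, Place k (κ j))
    (hc₀ : ∀ j, (c₀ j).ord (x j) < 0)
    (hR : ∀ j (z : κ j), z ∈ R j ↔
      ∀ Q : Place k (κ j), Q.adicValuation (x j) ≤ 1 → Q.adicValuation z ≤ 1)
    (hmem : ∀ j (f : Λ), ρ j f ∈ R j) :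
    ∃ (j : ι) (P : Place k (κ j)) (_ : P.adicValuation (x j) ≤ 1),
      ∀ f : Λ, y f = FD_c0 P (ρ j f) := by
  obtain ⟨j, hj⟩ := S36SP_classify ρ y ϖ hϖ hrad
  obtain ⟨P, hP, hPy⟩ := S36SP_point_of_thru (ρ j) y (R j) hj (hsurj j) (hlin j) (h j) (x j)
    (c₀ j) (hc₀ j) (hR j) (hmem j)
  exact ⟨j, P, hP, hPy⟩

end Fermat.Agent.S36
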