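import Mathlib
import Fermat.Agent.S36.Cart3Loc
import Fermat.Agent.S36.Spec3Cls

/-!
# TRACK 10 (S36), package F6 CART (R14) (helper5), part 8: (C2) at the closed points of SPEC3

Glue between SPEC3 (helper21: a closed point of the chart is a pair (component `ρ`, affine
place `P` of the component), `y f = FD_c0 P (ρ f)`) and (C2) by Riemann–Roch
(`S36/Cart3Loc.lean`).

`κ / k` the function field of the component, `x ∈ κ` the coordinate of the chart
(`c₀` a pole of `x`), `R` = the functions regular where `x` is (shape `hR` of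
`S36SP_exists_point`), `ρ : Λ → κ` with `ρ(Λ) = R` (`hmem`, `hsurj`).

* `S36CA_hy_of_spec`  : `y f = 0 ↔ ρ f = 0 ∨ 0 < P.ord (ρ f)`;
* `S36CA_c2_of_spec`  : the three (C2) fields `hsub`, `harch`, `hne` of `S36CA_Branch`
  for `Oy = P.toValuationSubring` (inputs of `S36CA_liData_one`, `S36CA_liData_ss`,
  `S36CA_branch_of_vs`);
* `S36CA_branch_of_spec` : `S36CA_Branch Λ y ρ s P.toValuationSubring` from (C1).
-/

set_option autoImplicit false

open AlgebraicCurve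

namespace Fermat.Agent.S36

open Fermat.Agent.Lib Fermat.Agent.S24

section

variable {k κ : Type*} [Field k] [Field κ] [Algebra k κ] {K : Type*} [Field K]

/-- `y` is the evaluation at `P`: its kernel. -/
theorem S36CA_hy_of_spec (h : RR_Hyp k κ) (Λ : Subring K) (y : Λ →+* k) (ρ : Λ →+* κ)
    (P : Place k κ) (hreg : ∀ f : Λ, P.adicValuation (ρ f) ≤ 1)
    (hy : ∀ f : Λ, y f = FD_c0 P (ρ f)) (f : Λ) :
    y f = 0 ↔ (ρ f = 0 ∨ 0 < P.ord (ρ f)) := by
  rw [hy f, FD_c0_eq_zero_iff P (h.deg_one P) (hreg f), S36SP_val_lt_one_iff]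

/-- **(C2) at a closed point of SPEC3**. -/
theorem S36CA_c2_of_spec (h : RR_Hyp k κ) (x : κ) (c₀ : Place k κ) (hc₀ : c₀.ord x < 0)
    (R : Subalgebra k κ)
    (hR : ∀ z : κ, z ∈ R ↔ ∀ Q : Place k κ, Q.adicValuation x ≤ 1 → Q.adicValuation z ≤ 1)
    (Λ : Subring K) (y : Λ →+* k) (ρ : Λ →+* κ)
    (hsurj : ∀ r : R, ∃ f : Λ, ρ f = (r : κ)) (hmem : ∀ f : Λ, ρ f ∈ R)
    (P : Place k κ) (hP : P.adicValuation x ≤ 1) (hy : ∀ f : Λ, y f = FD_c0 P (ρ f)) :
    (∀ z : κ, z ∈ P.toValuationSubring → ∃ a d : Λ, y d ≠ 0 ∧ ρ a = z * ρ d) ∧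
    (∀ z : κ, z ≠ 0 → z ∈ P.toValuationSubring → z⁻¹ ∉ P.toValuationSubring →
      ∀ w : κ, ∃ n : ℕ, w * z ^ n ∈ P.toValuationSubring) ∧
    (∃ t : Λ, y t = 0 ∧ ρ t ≠ 0) := by
  set T : Set (Place k κ) := {Q | Q.ord x < 0} with hT
  have hc : c₀ ∈ T := hc₀
  have hPT : P ∉ T := by
    intro hmemT
    exact (Place.not_adicValuation_le_one_iff P).2 hmemT hP
  have hlift : ∀ a : κ, (∀ Q : Place k κ, Q ∉ T → 0 ≤ Q.ord a) → ∃ f : Λ, ρ f = a := by
    intro a ha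
    have haR : a ∈ R := by
      rw [hR]
      intro Q hQ
      rw [Place.adicValuation_le_one_iff]
      right
      apply ha
      intro hQT
      exact (Place.not_adicValuation_le_one_iff Q).2 hQT hQ
    exact hsurj ⟨a, haR⟩
  have hreg : ∀ f : Λ, P.adicValuation (ρ f) ≤ 1 := fun f => (hR _).1 (hmem f) P hP
  have hy' := S36CA_hy_of_spec h Λ y ρ P hreg hy
  -- a dummy (C1) with `s = 0` is not available: use the pieces of `S36CA_branch_RR` directly
  refine ⟨?_, S36CA_harch_of_dvr P.toValuationSubring, ?_⟩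
  · intro z hz
    rcases eq_or_ne z 0 with rfl | hz0
    · exact ⟨0, 1, by rw [map_one]; exact one_ne_zero, by rw [map_zero, zero_mul]⟩
    have hz' : 0 ≤ P.ord z := (BG_mem_iff_ord_nonneg P hz0).1 hz
    obtain ⟨d, hd0, hdT, hdP, hzd⟩ := S36CA_loc_RR h T c₀ hc P hPT z hz'
    obtain ⟨fd, hfd⟩ := hlift d hdT
    obtain ⟨fa, hfa⟩ := hlift (z * d) hzd
    refine ⟨fa, fd, ?_, by rw [hfa, hfd]⟩
    intro h0
    rcases (hy' fd).1 h0 with h1 | h1
    · exact hd0 (hfd ▸ h1)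
    · rw [hfd, hdP] at h1
      exact lt_irrefl _ h1
  · obtain ⟨t, ht0, htT, htP⟩ := S36CA_param_RR h T c₀ hc P hPT
    obtain ⟨ft, hft⟩ := hlift t htT
    refine ⟨ft, (hy' ft).2 (Or.inr ?_), by rw [hft]; exact ht0⟩
    rw [hft, htP]
    exact one_pos

/-- **the branch at a closed point of SPEC3**, from (C1). -/
theorem S36CA_branch_of_spec (h : RR_Hyp k κ) (x : κ) (c₀ : Place k κ) (hc₀ : c₀.ord x < 0)
    (R : Subalgebra k κ)
    (hR : ∀ z : κ, z ∈ R ↔ ∀ Q : Place k κ, Q.adicValuation x ≤ 1 → Q.adicValuation z ≤ 1)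
    (Λ : Subring K) (y : Λ →+* k) (ρ : Λ →+* κ)
    (hsurj : ∀ r : R, ∃ f : Λ, ρ f = (r : κ)) (hmem : ∀ f : Λ, ρ f ∈ R)
    (P : Place k κ) (hP : P.adicValuation x ≤ 1) (hy : ∀ f : Λ, y f = FD_c0 P (ρ f))
    (s : Λ) (hρs : ρ s = 0)
    (hC1 : ∀ f : Λ, ρ f = 0 → ∃ d e : Λ, y d ≠ 0 ∧ d * f = s * e) :
    S36CA_Branch Λ y ρ s P.toValuationSubring := by
  obtain ⟨h1, h2, h3⟩ := S36CA_c2_of_spec h x c₀ hc₀ R hR Λ y ρ hsurj hmem P hP hy
  exact
    { hthr := fun f hf => by rw [hy f, hf]; exact (FD_c0_eq_zero_iff P (h.deg_one P)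
        (by rw [map_zero]; exact zero_le)).2 (by rw [map_zero]; exact zero_lt_one)
      hρs := hρs
      hC1 := hC1
      hsub := h1
      harch := h2
      hne := h3 }

end

end Fermat.Agent.S36
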