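import Mathlib
import Fermat.Agent.S36.Cart3Fam
import Fermat.Agent.S36.Cart3Pt
import Fermat.Agent.S18.LiftVal

/-!
# TRACK 10 (S36), package F6 CART (R14) (helper5), part 10: the bundles on a component

Semi-concrete layer between the bundles on the family `S36IT_Fam` (`S36/Cart3Fam.lean`) and the
per-point wiring of (LI) (`S36/LiWire.lean`, helper19).

`S : S18_Val L K k Fk` a vertical component (`FF`, `FV` or `VV`), `D : S36IT_Fam Ω F K ιv` the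
family of the chart, `j₀ : ιv` with `D.Ov j₀ = S.O`, `P` a place of `Fk` (a closed point of the
component), `y : D.Λ →+* k` the evaluation at `P`: `y f = FD_c0 P (S.red f)`.

* `S36CA_c2_of_lift` : **(C2), general form**: `T` ANY set of places of the component (the
  complement of the chart), `P ∉ T`, lifts of pairs of functions regular off `T` up to a common
  multiplier `e` which is a unit at `P` (`e = 1`: surjectivity of the reduction);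
* `S36CA_lift_of_surj` : the hypothesis `hlift` from plain surjectivity;
* `S36CA_compRed`, `S36CA_compRed_eq_zero_iff` (= `hker`), `S36CA_comp_thru` (= `hj₀`),
  `S36CA_comp_not_thru` (= `hnot` from (R11a));
* `S36CA_comp_unr` : `∃ B, hVt ∧ hVtv` at an **ordinary point of an unramified component**;
* `S36CA_comp_ram` : the same at an **ordinary point of the ramified component**;
* `S36CA_comp_ss`  : the same at a **supersingular point**.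
-/

set_option autoImplicit false
set_option linter.unusedSectionVars false

open AlgebraicCurve

namespace Fermat.Agent.S36

open Fermat.Agent.Lib Fermat.Agent.S24 Fermat.Agent.S18

section c2

variable {k κ : Type*} [Field k] [Field κ] [Algebra k κ] {K : Type*} [Field K]

/-- **(C2), general form**: lifts of the functions regular off `T`, up to a common multiplier
which is a unit at `P`. -/
theorem S36CA_c2_of_lift (h : RR_Hyp k κ) (T : Set (Place k κ)) (c₀ : Place k κ) (hc : c₀ ∈ T)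
    (Λ : Subring K) (y : Λ →+* k) (ρ : Λ →+* κ)
    (P : Place k κ) (hPT : P ∉ T) (hreg : ∀ f : Λ, P.adicValuation (ρ f) ≤ 1)
    (hy : ∀ f : Λ, y f = FD_c0 P (ρ f))
    (hlift : ∀ a₁ a₂ : κ, (∀ Q : Place k κ, Q ∉ T → 0 ≤ Q.ord a₁) →
      (∀ Q : Place k κ, Q ∉ T → 0 ≤ Q.ord a₂) →
      ∃ (e : κ) (f₁ f₂ : Λ), e ≠ 0 ∧ P.ord e = 0 ∧ ρ f₁ = a₁ * e ∧ ρ f₂ = a₂ * e) :
    (∀ z : κ, z ∈ P.toValuationSubring → ∃ a d : Λ, y d ≠ 0 ∧ ρ a = z * ρ d) ∧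
    (∀ z : κ, z ≠ 0 → z ∈ P.toValuationSubring → z⁻¹ ∉ P.toValuationSubring →
      ∀ w : κ, ∃ n : ℕ, w * z ^ n ∈ P.toValuationSubring) ∧
    (∃ t : Λ, y t = 0 ∧ ρ t ≠ 0) := by
  have hy' := S36CA_hy_of_spec h Λ y ρ P hreg hy
  refine ⟨?_, S36CA_harch_of_dvr P.toValuationSubring, ?_⟩
  · intro z hz
    rcases eq_or_ne z 0 with rfl | hz0
    · exact ⟨0, 1, by rw [map_one]; exact one_ne_zero, by rw [map_zero, zero_mul]⟩
    have hz' : 0 ≤ P.ord z := (BG_mem_iff_ord_nonneg P hz0).1 hz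
    obtain ⟨d, hd0, hdT, hdP, hzd⟩ := S36CA_loc_RR h T c₀ hc P hPT z hz'
    obtain ⟨e, fa, fd, he0, heP, hfa, hfd⟩ := hlift (z * d) d hzd hdT
    refine ⟨fa, fd, ?_, by rw [hfa, hfd]; ring⟩
    intro h0
    rcases (hy' fd).1 h0 with h1 | h1
    · rw [hfd] at h1
      exact mul_ne_zero hd0 he0 h1
    · rw [hfd, P.ord_mul hd0 he0, hdP, heP] at h1
      exact lt_irrefl _ h1
  · obtain ⟨t, ht0, htT, htP⟩ := S36CA_param_RR h T c₀ hc P hPT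
    obtain ⟨e, ft, -, he0, heP, hft, -⟩ := hlift t t htT htT
    refine ⟨ft, (hy' ft).2 (Or.inr ?_), by rw [hft]; exact mul_ne_zero ht0 he0⟩
    rw [hft, P.ord_mul ht0 he0, htP, heP]
    exact one_pos

/-- the hypothesis `hlift` of `S36CA_c2_of_lift` from plain surjectivity (`e = 1`). -/
theorem S36CA_lift_of_surj (T : Set (Place k κ)) (Λ : Subring K) (ρ : Λ →+* κ) (P : Place k κ)
    (hsurj : ∀ a : κ, (∀ Q : Place k κ, Q ∉ T → 0 ≤ Q.ord a) → ∃ f : Λ, ρ f = a) :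
    ∀ a₁ a₂ : κ, (∀ Q : Place k κ, Q ∉ T → 0 ≤ Q.ord a₁) →
      (∀ Q : Place k κ, Q ∉ T → 0 ≤ Q.ord a₂) →
      ∃ (e : κ) (f₁ f₂ : Λ), e ≠ 0 ∧ P.ord e = 0 ∧ ρ f₁ = a₁ * e ∧ ρ f₂ = a₂ * e := by
  intro a₁ a₂ h₁ h₂
  obtain ⟨f₁, hf₁⟩ := hsurj a₁ h₁
  obtain ⟨f₂, hf₂⟩ := hsurj a₂ h₂
  exact ⟨1, f₁, f₂, one_ne_zero, Place.ord_one _, by rw [hf₁, mul_one], by rw [hf₂, mul_one]⟩

/-- the hypothesis `hlift` of `S36CA_c2_of_lift` from lifts in a smaller lattice `Λ₀` and a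
multiplier `w ∈ Λ` which is a unit at `P` and clears the poles: `f · w^N ∈ Λ` for `N ≫ 0`
(chart `U′` at the non-cusp points: `Λ₀ = Λ_U`, `w = 1 / (B − c)`). -/
theorem S36CA_lift_of_mul (T : Set (Place k κ)) (Λ : Subring K) (ρ : Λ →+* κ) (P : Place k κ)
    (w : Λ) (hw0 : ρ w ≠ 0) (hwP : P.ord (ρ w) = 0)
    (hsurj : ∀ a : κ, (∀ Q : Place k κ, Q ∉ T → 0 ≤ Q.ord a) →
      ∃ (N : ℕ) (f : Λ), ρ f = a * ρ w ^ N) :
    ∀ a₁ a₂ : κ, (∀ Q : Place k κ, Q ∉ T → 0 ≤ Q.ord a₁) →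
      (∀ Q : Place k κ, Q ∉ T → 0 ≤ Q.ord a₂) →
      ∃ (e : κ) (f₁ f₂ : Λ), e ≠ 0 ∧ P.ord e = 0 ∧ ρ f₁ = a₁ * e ∧ ρ f₂ = a₂ * e := by
  intro a₁ a₂ h₁ h₂
  obtain ⟨N₁, f₁, hf₁⟩ := hsurj a₁ h₁
  obtain ⟨N₂, f₂, hf₂⟩ := hsurj a₂ h₂
  refine ⟨ρ w ^ (N₁ + N₂), f₁ * w ^ N₂, f₂ * w ^ N₁, pow_ne_zero _ hw0, ?_, ?_, ?_⟩
  · rw [← zpow_natCast, P.ord_zpow, hwP, mul_zero]
  · rw [map_mul, map_pow, hf₁, pow_add, mul_assoc]
  · rw [map_mul, map_pow, hf₂, pow_add, mul_assoc, mul_comm (ρ w ^ N₂)]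

end c2

section comp

variable {L K k Fk : Type*} [Field L] [Field K] [Algebra L K] [Field k] [Field Fk]
  [Algebra k Fk] (S : S18_Val L K k Fk) {Ω F : Type*} [Field Ω] [Field F] [Algebra Ω F]
  {ιv : Type*} (D : S36IT_Fam Ω F K ιv)

/-- the lattice lies in the valuation ring of the component `j₀`. -/
theorem S36CA_comp_mem {j₀ : ιv} (hj₀ : D.Ov j₀ = S.O) (f : D.Λ) : (f : K) ∈ S.O := by
  rw [← hj₀]
  exact f.2 (Sum.inl j₀)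

/-- the reduction of the lattice along the component. -/
def S36CA_compRed (hO : ∀ f : D.Λ, (f : K) ∈ S.O) : D.Λ →+* Fk where
  toFun f := S.red ⟨f, hO f⟩
  map_one' := map_one S.red
  map_mul' a b := map_mul S.red ⟨a, hO a⟩ ⟨b, hO b⟩
  map_zero' := map_zero S.red
  map_add' a b := map_add S.red ⟨a, hO a⟩ ⟨b, hO b⟩

theorem S36CA_compRed_apply (hO : ∀ f : D.Λ, (f : K) ∈ S.O) (f : D.Λ) :
    S36CA_compRed S D hO f = S.red ⟨f, hO f⟩ := rfl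

/-- **`hker`**: the kernel of the reduction along the component. -/
theorem S36CA_compRed_eq_zero_iff {j₀ : ιv} (hj₀ : D.Ov j₀ = S.O)
    (hO : ∀ f : D.Λ, (f : K) ∈ S.O) (f : D.Λ) :
    S36CA_compRed S D hO f = 0 ↔ (f = 0 ∨ ((f : K))⁻¹ ∉ D.Ov j₀) := by
  rw [S36CA_compRed_apply, hj₀]
  constructor
  · intro h0
    by_contra hcon
    push Not at hcon
    obtain ⟨hf0, hinv⟩ := hcon
    have hfK : (f : K) ≠ 0 := fun h => hf0 (Subtype.ext h)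
    have hu : IsUnit (⟨f, hO f⟩ : S.O) := by
      refine isUnit_iff_exists_inv.2 ⟨⟨(f : K)⁻¹, hinv⟩, ?_⟩
      exact Subtype.ext (mul_inv_cancel₀ hfK)
    exact (S.red_ne_zero_iff _).2 hu h0
  · rintro (h | h)
    · have : (⟨(f : K), hO f⟩ : S.O) = 0 := Subtype.ext (by rw [h]; rfl)
      rw [this, map_zero]
    · by_contra hne
      obtain ⟨w, hw⟩ := (S.red_ne_zero_iff _).1 hne
      have e : (((w⁻¹ : S.Oˣ) : S.O) : K) * (f : K) = 1 := by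
        have := congrArg (fun z : S.O => (z : K)) w.inv_mul
        simp only [hw] at this
        simpa using this
      have hinv : ((f : K))⁻¹ = (((w⁻¹ : S.Oˣ) : S.O) : K) := (eq_inv_of_mul_eq_one_left e).symm
      exact h (hinv ▸ ((w⁻¹ : S.Oˣ) : S.O).2)

variable {S D}

/-- **`hj₀`**: the component passes through the point. -/
theorem S36CA_comp_thru (h : RR_Hyp k Fk) {j₀ : ιv} (hj₀ : D.Ov j₀ = S.O)
    (hO : ∀ f : D.Λ, (f : K) ∈ S.O) (y : D.Λ →+* k) (P : Place k Fk)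
    (hy : ∀ f : D.Λ, y f = FD_c0 P (S36CA_compRed S D hO f)) :
    Sum.inl j₀ ∈ S36IT_thruVS D.O D.Λ y := by
  intro f hf
  rw [S36IT_Fam.O_inl] at hf
  have h0 := (S36CA_compRed_eq_zero_iff S D hj₀ hO f).2 (Or.inr hf)
  rw [hy f, h0]
  exact (FD_c0_eq_zero_iff P (h.deg_one P) (by rw [map_zero]; exact zero_le)).2
    (by rw [map_zero]; exact zero_lt_one)

/-- **`hnot`** from (R11a): a function of the lattice vanishing along the component `j` and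
non-zero at the point. -/
theorem S36CA_comp_not_thru (y : D.Λ →+* k) (j : ιv) (g : D.Λ) (hg : ((g : K))⁻¹ ∉ D.Ov j)
    (hyg : y g ≠ 0) : Sum.inl j ∉ S36IT_thruVS D.O D.Λ y :=
  S36CA_not_thru D.O D.Λ y (Sum.inl j) g hg hyg

/-- **the bundle at an ordinary point of an unramified component** (`FF`, `VV`). -/
theorem S36CA_comp_unr [Finite ιv] (h : RR_Hyp k Fk) {j₀ : ιv} (hj₀ : D.Ov j₀ = S.O)
    (hO : ∀ f : D.Λ, (f : K) ∈ S.O) (y : D.Λ →+* k) (P : Place k Fk)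
    (hy : ∀ f : D.Λ, y f = FD_c0 P (S36CA_compRed S D hO f))
    (T : Set (Place k Fk)) (c₀ : Place k Fk) (hc₀ : c₀ ∈ T) (hPT : P ∉ T)
    (hreg : ∀ f : D.Λ, P.adicValuation (S36CA_compRed S D hO f) ≤ 1)
    (hlift : ∀ a₁ a₂ : Fk, (∀ Q : Place k Fk, Q ∉ T → 0 ≤ Q.ord a₁) →
      (∀ Q : Place k Fk, Q ∉ T → 0 ≤ Q.ord a₂) →
      ∃ (e : Fk) (f₁ f₂ : D.Λ), e ≠ 0 ∧ P.ord e = 0 ∧
        S36CA_compRed S D hO f₁ = a₁ * e ∧ S36CA_compRed S D hO f₂ = a₂ * e)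
    (hnot : ∀ j : ιv, j ≠ j₀ → ∃ g : D.Λ, ((g : K))⁻¹ ∉ D.Ov j ∧ y g ≠ 0)
    (q : D.Λ) (c : Ω) (hc : c ≠ 0) (hqc : D.φ (q : K) = algebraMap Ω F c)
    (hunif : S36CA_IsUnif (D.Ov j₀) (q : K)) :
    ∃ B : S36CA_LiData D.O ⊤ D.Λ y Fk,
      (∀ i : ιv, Sum.inl i ∈ S36IT_thruVS D.O D.Λ y → Sum.inl i ∈ B.Vt) ∧
        (∀ i ∈ B.Vt, ∃ j : ιv, i = Sum.inl j) := by
  obtain ⟨h1, h2, h3⟩ := S36CA_c2_of_lift h T c₀ hc₀ D.Λ y (S36CA_compRed S D hO) P hPT hreg hy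
    hlift
  have hnot' : ∀ j : ιv, j ≠ j₀ → Sum.inl j ∉ S36IT_thruVS D.O D.Λ y := by
    intro j hj
    obtain ⟨g, hg, hyg⟩ := hnot j hj
    exact S36CA_comp_not_thru y j g hg hyg
  refine ⟨D.ca_liData_unr y j₀ (S36CA_comp_thru h hj₀ hO y P hy) hnot' (S36CA_compRed S D hO)
    (S36CA_compRed_eq_zero_iff S D hj₀ hO) q c hc hqc hunif P.toValuationSubring h1 h2 h3, ?_, ?_⟩
  · intro i hi
    have : i = j₀ := by
      by_contra hne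
      exact hnot' i hne hi
    rw [this]
    exact Finset.mem_singleton_self _
  · intro i hi
    exact ⟨j₀, Finset.mem_singleton.1 hi⟩

/-- **the bundle at an ordinary point of the ramified component** (`FV`): `d = g ϖ^(m+1) / q`
a unit at the point (R13 ord), `π` a uniformiser of the component with `π^(m+1) / q` a unit. -/
theorem S36CA_comp_ram [Finite ιv] (h : RR_Hyp k Fk) {j₀ : ιv} (hj₀ : D.Ov j₀ = S.O)
    (hO : ∀ f : D.Λ, (f : K) ∈ S.O) (y : D.Λ →+* k) (P : Place k Fk)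
    (hy : ∀ f : D.Λ, y f = FD_c0 P (S36CA_compRed S D hO f))
    (T : Set (Place k Fk)) (c₀ : Place k Fk) (hc₀ : c₀ ∈ T) (hPT : P ∉ T)
    (hreg : ∀ f : D.Λ, P.adicValuation (S36CA_compRed S D hO f) ≤ 1)
    (hlift : ∀ a₁ a₂ : Fk, (∀ Q : Place k Fk, Q ∉ T → 0 ≤ Q.ord a₁) →
      (∀ Q : Place k Fk, Q ∉ T → 0 ≤ Q.ord a₂) →
      ∃ (e : Fk) (f₁ f₂ : D.Λ), e ≠ 0 ∧ P.ord e = 0 ∧
        S36CA_compRed S D hO f₁ = a₁ * e ∧ S36CA_compRed S D hO f₂ = a₂ * e)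
    (hnot : ∀ j : ιv, j ≠ j₀ → ∃ g : D.Λ, ((g : K))⁻¹ ∉ D.Ov j ∧ y g ≠ 0)
    (q : D.Λ) (c : Ω) (hc : c ≠ 0) (hqc : D.φ (q : K) = algebraMap Ω F c)
    (ϖ g d : D.Λ) (m : ℕ) (hdK : (d : K) = g * (ϖ : K) ^ (m + 1) / q) (hd : y d ≠ 0)
    (hϖq : (ϖ : K) ^ (m + 1) / q ∈ D.Ov j₀)
    (π : K) (hπ : S36CA_IsUnif (D.Ov j₀) π) (hπq : S36LW_IsU (D.Ov j₀) (π ^ (m + 1) / q)) :
    ∃ B : S36CA_LiData D.O ⊤ D.Λ y Fk,
      (∀ i : ιv, Sum.inl i ∈ S36IT_thruVS D.O D.Λ y → Sum.inl i ∈ B.Vt) ∧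
        (∀ i ∈ B.Vt, ∃ j : ιv, i = Sum.inl j) := by
  obtain ⟨h1, h2, h3⟩ := S36CA_c2_of_lift h T c₀ hc₀ D.Λ y (S36CA_compRed S D hO) P hPT hreg hy
    hlift
  have hnot' : ∀ j : ιv, j ≠ j₀ → Sum.inl j ∉ S36IT_thruVS D.O D.Λ y := by
    intro j hj
    obtain ⟨g, hg, hyg⟩ := hnot j hj
    exact S36CA_comp_not_thru y j g hg hyg
  refine ⟨D.ca_liData_ram y j₀ (S36CA_comp_thru h hj₀ hO y P hy) hnot' (S36CA_compRed S D hO)
    (S36CA_compRed_eq_zero_iff S D hj₀ hO) q c hc hqc ϖ g d m hdK hd hϖq π hπ hπq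
    P.toValuationSubring h1 h2 h3, ?_, ?_⟩
  · intro i hi
    have : i = j₀ := by
      by_contra hne
      exact hnot' i hne hi
    rw [this]
    exact Finset.mem_singleton_self _
  · intro i hi
    exact ⟨j₀, Finset.mem_singleton.1 hi⟩

end comp

section ss

variable {L K k Fk₁ Fk₂ Fk₃ : Type*} [Field L] [Field K] [Algebra L K] [Field k]
  [Field Fk₁] [Field Fk₂] [Field Fk₃] [Algebra k Fk₁] [Algebra k Fk₂] [Algebra k Fk₃]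
  {S₁ : S18_Val L K k Fk₁} {S₂ : S18_Val L K k Fk₂} {S₃ : S18_Val L K k Fk₃}
  {Ω F : Type*} [Field Ω] [Field F] [Algebra Ω F] {ιv : Type*} {D : S36IT_Fam Ω F K ιv}

/-- **the bundle at a supersingular point**: the point `y` is the evaluation at `P₁` on `FF`,
at `P₂` on `FV` and at `P₃` on `VV` (`hW1`); `ε = t₁ t₂ ϖ^(m+1) / q` a unit at the point
(R13 ss).  The Cartier branch is `VV`. -/
theorem S36CA_comp_ss [Finite ιv] (h₁ : RR_Hyp k Fk₁) (h₂ : RR_Hyp k Fk₂) (h₃ : RR_Hyp k Fk₃)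
    {iFF iFV iVV : ιv} (hFF : D.Ov iFF = S₁.O) (hFV : D.Ov iFV = S₂.O) (hVV : D.Ov iVV = S₃.O)
    (h12 : iFF ≠ iFV) (h13 : iFF ≠ iVV) (h23 : iFV ≠ iVV)
    (hall : ∀ j : ιv, j = iFF ∨ j = iFV ∨ j = iVV)
    (hO₁ : ∀ f : D.Λ, (f : K) ∈ S₁.O) (hO₂ : ∀ f : D.Λ, (f : K) ∈ S₂.O)
    (hO₃ : ∀ f : D.Λ, (f : K) ∈ S₃.O)
    (y : D.Λ →+* k) (P₁ : Place k Fk₁) (P₂ : Place k Fk₂) (P₃ : Place k Fk₃)
    (hy₁ : ∀ f : D.Λ, y f = FD_c0 P₁ (S36CA_compRed S₁ D hO₁ f))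
    (hy₂ : ∀ f : D.Λ, y f = FD_c0 P₂ (S36CA_compRed S₂ D hO₂ f))
    (hy₃ : ∀ f : D.Λ, y f = FD_c0 P₃ (S36CA_compRed S₃ D hO₃ f))
    (T : Set (Place k Fk₃)) (c₀ : Place k Fk₃) (hc₀ : c₀ ∈ T) (hPT : P₃ ∉ T)
    (hreg : ∀ f : D.Λ, P₃.adicValuation (S36CA_compRed S₃ D hO₃ f) ≤ 1)
    (hlift : ∀ a₁ a₂ : Fk₃, (∀ Q : Place k Fk₃, Q ∉ T → 0 ≤ Q.ord a₁) →
      (∀ Q : Place k Fk₃, Q ∉ T → 0 ≤ Q.ord a₂) →
      ∃ (e : Fk₃) (f₁ f₂ : D.Λ), e ≠ 0 ∧ P₃.ord e = 0 ∧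
        S36CA_compRed S₃ D hO₃ f₁ = a₁ * e ∧ S36CA_compRed S₃ D hO₃ f₂ = a₂ * e)
    (q : D.Λ) (c : Ω) (hc : c ≠ 0) (hqc : D.φ (q : K) = algebraMap Ω F c)
    (ϖ t₁ t₂ ε : D.Λ) (m : ℕ)
    (hεK : (ε : K) = t₁ * t₂ * (ϖ : K) ^ (m + 1) / q) (hε : y ε ≠ 0)
    (ht₁ : (t₁ : K) / q ∈ D.Ov iFF) (ht₂ : (t₂ : K) / q ∈ D.Ov iVV)
    (hϖ : (ϖ : K) ^ (m + 1) / q ∈ D.Ov iFV)
    (hqFF : S36CA_IsUnif (D.Ov iFF) (q : K)) (hqVV : S36CA_IsUnif (D.Ov iVV) (q : K))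
    (π : K) (hπ : S36CA_IsUnif (D.Ov iFV) π) (hπq : S36LW_IsU (D.Ov iFV) (π ^ (m + 1) / q)) :
    ∃ B : S36CA_LiData D.O ⊤ D.Λ y Fk₃,
      (∀ i : ιv, Sum.inl i ∈ S36IT_thruVS D.O D.Λ y → Sum.inl i ∈ B.Vt) ∧
        (∀ i ∈ B.Vt, ∃ j : ιv, i = Sum.inl j) := by
  obtain ⟨c1, c2, c3⟩ := S36CA_c2_of_lift h₃ T c₀ hc₀ D.Λ y (S36CA_compRed S₃ D hO₃) P₃ hPT
    hreg hy₃ hlift
  refine ⟨D.ca_liData_ss y iFF iFV iVV h12 h13 h23 hall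
    (S36CA_comp_thru h₁ hFF hO₁ y P₁ hy₁) (S36CA_comp_thru h₂ hFV hO₂ y P₂ hy₂)
    (S36CA_comp_thru h₃ hVV hO₃ y P₃ hy₃) (S36CA_compRed S₃ D hO₃)
    (S36CA_compRed_eq_zero_iff S₃ D hVV hO₃) q c hc hqc ϖ t₁ t₂ ε m hεK hε ht₁ ht₂ hϖ hqFF hqVV
    π hπ hπq P₃.toValuationSubring c1 c2 c3, ?_, ?_⟩
  · intro i _
    simp only [S36IT_Fam.ca_liData_ss, S36CA_liData_ss, Finset.mem_insert, Finset.mem_singleton]
    rcases hall i with rfl | rfl | rfl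
    · exact Or.inl rfl
    · exact Or.inr (Or.inl rfl)
    · exact Or.inr (Or.inr rfl)
  · intro i hi
    simp only [S36IT_Fam.ca_liData_ss, S36CA_liData_ss, Finset.mem_insert,
      Finset.mem_singleton] at hi
    rcases hi with rfl | rfl | rfl
    · exact ⟨iFF, rfl⟩
    · exact ⟨iFV, rfl⟩
    · exact ⟨iVV, rfl⟩

end ss

end Fermat.Agent.S36
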