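import Mathlib
import Fermat.Agent.S36.Int3Fam
import Fermat.Agent.S36.Cart3Li
import Fermat.Agent.S36.LiInst

/-!
# TRACK 10 (S36), C2.8 LI-INST, part 2 (helper19): (LI) on helper17's family `S36IT_Fam`.
Prefix `S36LF_`.

`D : S36IT_Fam Ω F K ιv` (`S36/Int3Fam.lean`): `K` = the `L`-rational functions, `φ : K →+* F`,
vertical discrete valuation rings `D.Ov`, horizontal places `D.U`, `D.Λ = ⋂ D.O i`.

* `S36LF_mem_inr`, `S36LF_inv_mem_inr` : membership in a horizontal valuation ring in terms of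
  `Place.ord`;
* `S36LF_hgen`, `S36LF_hgen0` : **SEP-H ⇒ `hgen`, `hgen0`** of `S36LW_li` / `S36CA_LiData.li`
  (SEP-H in the `ord` form of `S36SH_kummer`, helper29);
* `S36LF_li` : (LI) in value form at a closed point `y` of `D.Λ` from a CART bundle
  (`S36CA_LiData`, helper5), noetherianity of `D.Λ` (FIN-INST, helper7), SEP-H, and the vertical
  normalisation of `u`.
-/

set_option autoImplicit false

open AlgebraicCurve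

namespace Fermat.Agent.S36

namespace S36IT_Fam

variable {Ω F K : Type*} [Field Ω] [Field F] [Algebra Ω F] [Field K] {ιv : Type*}
  (D : S36IT_Fam Ω F K ιv)

/-- membership in a horizontal valuation ring. -/
theorem S36LF_mem_inr (Q : D.U) {x : K} (hx : x ≠ 0) :
    x ∈ D.O (Sum.inr Q) ↔ 0 ≤ (Q : Place Ω F).ord (D.φ x) := by
  have hφ0 : D.φ x ≠ 0 := (map_ne_zero D.φ).2 hx
  rw [O_inr, ValuationSubring.mem_comap, S36IT_place_mem_iff, Place.adicValuation_le_one_iff,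
    or_iff_right hφ0]

/-- membership of the inverse in a horizontal valuation ring. -/
theorem S36LF_inv_mem_inr (Q : D.U) {x : K} (hx : x ≠ 0) :
    x⁻¹ ∈ D.O (Sum.inr Q) ↔ (Q : Place Ω F).ord (D.φ x) ≤ 0 := by
  rw [D.S36LF_mem_inr Q (inv_ne_zero hx), map_inv₀, Place.ord_inv]
  constructor <;> intro h <;> linarith

/-- the order of `gⁿ u` at a place. -/
theorem S36LF_ord_pow_mul (Q : Place Ω F) {g u : K} (hg : g ≠ 0) (hu : u ≠ 0) (n : ℕ) :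
    Q.ord (D.φ (g ^ n * u)) = (n : ℤ) * Q.ord (D.φ g) + Q.ord (D.φ u) := by
  have hφg : D.φ g ≠ 0 := (map_ne_zero D.φ).2 hg
  have hφu : D.φ u ≠ 0 := (map_ne_zero D.φ).2 hu
  rw [map_mul, map_pow, Q.ord_mul (pow_ne_zero _ hφg) hφu, ← zpow_natCast, Q.ord_zpow]

/-- **SEP-H ⇒ `hgen`**: horizontal separation in `ord` form gives the hypothesis `hgen` of
`S36LW_li`, as soon as `Vt` contains the vertical valuation rings through `y`. -/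
theorem S36LF_hgen {k : Type*} [Field k] (y : D.Λ →+* k) (Vt : Finset (ιv ⊕ D.U))
    (hVt : ∀ i : ιv, Sum.inl i ∈ S36IT_thruVS D.O D.Λ y → Sum.inl i ∈ Vt)
    (u : K) (hu : u ≠ 0) (n : ℕ)
    (hsep : ∀ Q ∈ D.U, ∃ g : K, g ≠ 0 ∧ (n : ℤ) * Q.ord (D.φ g) + Q.ord (D.φ u) = 0 ∧
      ∀ Q' ∈ D.U, 0 ≤ (n : ℤ) * Q'.ord (D.φ g) + Q'.ord (D.φ u)) :
    ∀ i ∈ S36IT_thruVS D.O D.Λ y, i ∉ Vt → ∃ g ∈ (⊤ : Subfield K), g ≠ 0 ∧
      (g ^ n * u)⁻¹ ∈ D.O i ∧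
        ∀ j ∈ S36IT_thruVS D.O D.Λ y, j ∉ Vt → g ^ n * u ∈ D.O j := by
  intro i hi hiV
  rcases i with i | Q
  · exact absurd (hVt i hi) hiV
  · obtain ⟨g, hg0, hQ, hall⟩ := hsep Q Q.2
    have hne : g ^ n * u ≠ 0 := mul_ne_zero (pow_ne_zero _ hg0) hu
    refine ⟨g, Subfield.mem_top g, hg0, ?_, fun j hj hjV => ?_⟩
    · rw [D.S36LF_inv_mem_inr Q hne, D.S36LF_ord_pow_mul _ hg0 hu, hQ]
    · rcases j with j | Q'
      · exact absurd (hVt j hj) hjV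
      · rw [D.S36LF_mem_inr Q' hne, D.S36LF_ord_pow_mul _ hg0 hu]
        exact hall Q' Q'.2

/-- **SEP-H ⇒ `hgen0`**. -/
theorem S36LF_hgen0 {k : Type*} [Field k] (y : D.Λ →+* k) (Vt : Finset (ιv ⊕ D.U))
    (hVt : ∀ i : ιv, Sum.inl i ∈ S36IT_thruVS D.O D.Λ y → Sum.inl i ∈ Vt)
    (u : K) (hu : u ≠ 0) (n : ℕ)
    (hsep0 : ∃ g : K, g ≠ 0 ∧ ∀ Q' ∈ D.U, 0 ≤ (n : ℤ) * Q'.ord (D.φ g) + Q'.ord (D.φ u)) :
    ∃ g ∈ (⊤ : Subfield K), g ≠ 0 ∧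
      ∀ j ∈ S36IT_thruVS D.O D.Λ y, j ∉ Vt → g ^ n * u ∈ D.O j := by
  obtain ⟨g, hg0, hall⟩ := hsep0
  have hne : g ^ n * u ≠ 0 := mul_ne_zero (pow_ne_zero _ hg0) hu
  refine ⟨g, Subfield.mem_top g, hg0, fun j hj hjV => ?_⟩
  rcases j with j | Q'
  · exact absurd (hVt j hj) hjV
  · rw [D.S36LF_mem_inr Q' hne, D.S36LF_ord_pow_mul _ hg0 hu]
    exact hall Q' Q'.2

/-- `hΛ` in valuation-subring form. -/
theorem S36LF_hΛ (x : K) : x ∈ D.Λ ↔ x ∈ (⊤ : Subfield K) ∧ ∀ i, x ∈ D.O i :=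
  ⟨fun h => ⟨Subfield.mem_top x, h⟩, fun h => h.2⟩

/-- `harch` in valuation-subring form. -/
theorem S36LF_harch (i : ιv ⊕ D.U) (x : K) (hx0 : x ≠ 0) (_hx : x ∈ D.O i) (hxi : x⁻¹ ∉ D.O i)
    (z : K) : ∃ m : ℕ, z * x ^ m ∈ D.O i := by
  obtain ⟨m, hm⟩ := D.harch i x z ((D.v_lt_one_iff i hx0).2 hxi)
  refine ⟨m, ?_⟩
  rw [← D.v_le_one_iff, map_mul, map_pow, mul_comm]
  exact hm

/-- **(LI) in value form on the family `D`**: CART bundle + noetherian `Λ` + SEP-H + vertical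
normalisation of `u` ⇒ a section `f` of `M^u` with `y (fⁿ u) ≠ 0`. -/
theorem S36LF_li [Finite ιv] [IsNoetherianRing D.Λ] {k : Type*} [Field k] (y : D.Λ →+* k)
    {κ : Type*} [Field κ] (B : S36CA_LiData D.O ⊤ D.Λ y κ)
    (hVt : ∀ i : ιv, Sum.inl i ∈ S36IT_thruVS D.O D.Λ y → Sum.inl i ∈ B.Vt)
    (hfrac : ∀ x : K, ∃ b : D.Λ, (b : K) ≠ 0 ∧ (b : K) * x ∈ D.Λ)
    (u : K) (hu : u ≠ 0) (n : ℕ) (hn : n ≠ 0)
    (hun : ∀ i ∈ B.Vt, ∃ c : ℤ, S36LW_IsU (D.O i) (u * (B.t i ^ c) ^ n))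
    (hsep : ∀ Q ∈ D.U, ∃ g : K, g ≠ 0 ∧ (n : ℤ) * Q.ord (D.φ g) + Q.ord (D.φ u) = 0 ∧
      ∀ Q' ∈ D.U, 0 ≤ (n : ℤ) * Q'.ord (D.φ g) + Q'.ord (D.φ u))
    (hsep0 : ∃ g : K, g ≠ 0 ∧ ∀ Q' ∈ D.U, 0 ≤ (n : ℤ) * Q'.ord (D.φ g) + Q'.ord (D.φ u)) :
    ∃ f : K, ∃ hf : f ^ n * u ∈ D.Λ, y ⟨f ^ n * u, hf⟩ ≠ 0 := by
  have hRle : ∀ x : K, x ∈ D.Λ → x ∈ (⊤ : Subfield K) := fun x _ => Subfield.mem_top x
  have hRO : ∀ x : K, x ∈ D.Λ → ∀ i ∈ (Set.univ : Set (ιv ⊕ D.U)), x ∈ D.O i :=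
    fun x hx i _ => hx i
  set MU : Submodule D.Λ K := S36LW_mod D.O ⊤ D.Λ Set.univ hRle hRO u n hn with hMUdef
  have hMU : ∀ f : K, f ∈ MU ↔ f ∈ (⊤ : Subfield K) ∧ ∀ i, f ^ n * u ∈ D.O i := by
    intro f
    rw [hMUdef, S36LW_mem_mod]
    exact ⟨fun h => ⟨h.1, fun i => h.2 i (Set.mem_univ i)⟩, fun h => ⟨h.1, fun i _ => h.2 i⟩⟩
  have hfrac' : ∀ x : K, x ∈ (⊤ : Subfield K) → ∃ b : D.Λ,
      (b : K) ≠ 0 ∧ (b : K) * x ∈ D.Λ := fun x _ => hfrac x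
  have hfg : MU.FG := S36LJ_MU_fg D.O ⊤ D.Λ D.S36LF_hΛ hfrac' u (Subfield.mem_top u) hu n hn
    MU hMU
  obtain ⟨f, -, hf, hne⟩ := B.li D.S36LF_hΛ (fun x _ _ => D.hfin_vs x) D.S36LF_harch hfrac'
    u (Subfield.mem_top u) hu n hn MU hMU hfg hun
    (D.S36LF_hgen y B.Vt hVt u hu n hsep) (D.S36LF_hgen0 y B.Vt hVt u hu n hsep0)
  exact ⟨f, hf, hne⟩

end S36IT_Fam

end Fermat.Agent.S36
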