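import Mathlib
import Fermat.Agent.S36.LiFam

/-!
# TRACK 10 (S36), C2.8 LI-INST, part 3 (helper19): the per-point wiring
`CART bundle at y` + SEP-H ⇒ the witnesses `li`, `h₁`, `h₂`, `h₃` of `S36TL_Chart`.
Prefix `S36LK_`.

`S₁ S₂ S₃ : S18_Val L K k Fk_j`, `C : S36L3_Chart L K k Fk₁ Fk₂ Fk₃ n` (LAT3), and
`D : S36IT_Fam Ω F K ιv` (helper17) with `D.Λ ≤ O₃ ∩ C.B` (`hle`) and every vertical ring of `D`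
one of `S₁.O, S₂.O, S₃.O` (`hOv`).  `R : S36LJ_Red C` (the reductions of the lattice are regular
on the chart, FIN-INST).

For a closed point given by a ring homomorphism `e : C.Rb_j →+* k'` into a field, put
`y = e ∘ red_j : D.Λ →+* k'` (`S36LK_y₁`, `S36LK_y₂`, `S36LK_y₃`).  From a CART bundle
`B : S36CA_LiData D.O ⊤ D.Λ y κ` (helper5) whose `Vt` is the set of vertical rings through `y`,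
and SEP-H (helper29, `ord` form):

* `S36LK_point₁`, `₂`, `₃` : `∃ m ∈ W^u, e m_j ≠ 0`;
* `S36LK_max₁`, `₂`, `₃`   : the same for `e = Ideal.Quotient.mk 𝔫`: `∃ m ∈ W^u, m_j ∉ 𝔫`
  (= fields `h₁ h₂ h₃` of `S36TL_Chart`);
* `S36LK_li` : at a triple point (`hW1`): `∃ m ∈ W^u, e₁ m.1 ≠ 0 ∧ e₂ m.2.1 ≠ 0 ∧ e₃ m.2.2 ≠ 0`
  (= field `li`).
-/

set_option autoImplicit false
set_option linter.unusedSectionVars false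
set_option linter.style.haveILetI false

open AlgebraicCurve

namespace Fermat.Agent.S36

open Fermat.Agent.S18 Fermat.Agent.S34

variable {L K k Fk₁ Fk₂ Fk₃ : Type*} [Field L] [Field K] [Algebra L K] [Field k]
  [Field Fk₁] [Field Fk₂] [Field Fk₃] [Algebra k Fk₁] [Algebra k Fk₂] [Algebra k Fk₃]
  {S₁ : S18_Val L K k Fk₁} {S₂ : S18_Val L K k Fk₂} {S₃ : S18_Val L K k Fk₃}
  (hS : S36L3_Same S₁ S₂ S₃) {n : ℕ} {C : S36L3_Chart L K k Fk₁ Fk₂ Fk₃ n}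
  {Ω F : Type*} [Field Ω] [Field F] [Algebra Ω F] {ιv : Type*} (D : S36IT_Fam Ω F K ιv)

/-- the closed point of `D.Λ` on the first component attached to `e : Rb₁ → k'`. -/
def S36LK_y₁ (hle : D.Λ ≤ S36LJ_Lam S₁ S₂ S₃ C.B.toSubring)
    (R : S36LJ_Red (S₁ := S₁) (S₂ := S₂) (S₃ := S₃) C) {k' : Type*} [Field k']
    (e : C.Rb₁ →+* k') : D.Λ →+* k' :=
  e.comp ((S36LJ_red₁ R).comp (Subring.inclusion hle))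

/-- the closed point of `D.Λ` on the second component attached to `e : Rb₂ → k'`. -/
def S36LK_y₂ (hle : D.Λ ≤ S36LJ_Lam S₁ S₂ S₃ C.B.toSubring)
    (R : S36LJ_Red (S₁ := S₁) (S₂ := S₂) (S₃ := S₃) C) {k' : Type*} [Field k']
    (e : C.Rb₂ →+* k') : D.Λ →+* k' :=
  e.comp ((S36LJ_red₂ R).comp (Subring.inclusion hle))

/-- the closed point of `D.Λ` on the third component attached to `e : Rb₃ → k'`. -/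
def S36LK_y₃ (hle : D.Λ ≤ S36LJ_Lam S₁ S₂ S₃ C.B.toSubring)
    (R : S36LJ_Red (S₁ := S₁) (S₂ := S₂) (S₃ := S₃) C) {k' : Type*} [Field k']
    (e : C.Rb₃ →+* k') : D.Λ →+* k' :=
  e.comp ((S36LJ_red₃ R).comp (Subring.inclusion hle))

/-- `hun` of `S36LW_li` for a normalised `u`: `u` is a unit of every vertical ring. -/
theorem S36LK_hun (hOv : ∀ i : ιv, D.Ov i = S₁.O ∨ D.Ov i = S₂.O ∨ D.Ov i = S₃.O)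
    {u : K} (hu : u ∈ S36L3_Norm S₁ S₂ S₃) (Vt : Finset (ιv ⊕ D.U))
    (hVtv : ∀ i ∈ Vt, ∃ j : ιv, i = Sum.inl j) (t : ιv ⊕ D.U → K) :
    ∀ i ∈ Vt, ∃ c : ℤ, S36LW_IsU (D.O i) (u * (t i ^ c) ^ n) := by
  have huinv := S36L3_inv_mem_Norm hu
  obtain ⟨hu3, -⟩ := hu
  obtain ⟨hui3, -⟩ := huinv
  intro i hi
  obtain ⟨j, rfl⟩ := hVtv i hi
  refine ⟨0, ?_⟩
  rw [zpow_zero, one_pow, mul_one, S36IT_Fam.O_inl]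
  rcases hOv j with h | h | h
  · rw [h]; exact ⟨hu3.1, hui3.1⟩
  · rw [h]; exact ⟨hu3.2.1, hui3.2.1⟩
  · rw [h]; exact ⟨hu3.2.2, hui3.2.2⟩

/-- the section of `M^u` at a closed point `y` of `D.Λ`, in the lattice of the chart. -/
theorem S36LK_section [Finite ιv] [IsNoetherianRing D.Λ] (n : ℕ) (hn : n ≠ 0)
    (hOv : ∀ i : ιv, D.Ov i = S₁.O ∨ D.Ov i = S₂.O ∨ D.Ov i = S₃.O)
    (hfrac : ∀ x : K, ∃ b : D.Λ, (b : K) ≠ 0 ∧ (b : K) * x ∈ D.Λ)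
    {k' : Type*} [Field k'] (y : D.Λ →+* k') {κ : Type*} [Field κ]
    (B : S36CA_LiData D.O ⊤ D.Λ y κ)
    (hVt : ∀ i : ιv, Sum.inl i ∈ S36IT_thruVS D.O D.Λ y → Sum.inl i ∈ B.Vt)
    (hVtv : ∀ i ∈ B.Vt, ∃ j : ιv, i = Sum.inl j)
    {u : K} (hu : u ∈ S36L3_Norm S₁ S₂ S₃)
    (hsep : ∀ Q ∈ D.U, ∃ g : K, g ≠ 0 ∧ (n : ℤ) * Q.ord (D.φ g) + Q.ord (D.φ u) = 0 ∧
      ∀ Q' ∈ D.U, 0 ≤ (n : ℤ) * Q'.ord (D.φ g) + Q'.ord (D.φ u))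
    (hsep0 : ∃ g : K, g ≠ 0 ∧ ∀ Q' ∈ D.U, 0 ≤ (n : ℤ) * Q'.ord (D.φ g) + Q'.ord (D.φ u)) :
    ∃ f : K, ∃ hf : f ^ n * u ∈ D.Λ, y ⟨f ^ n * u, hf⟩ ≠ 0 :=
  D.S36LF_li y B hVt hfrac u (S36L3_ne_zero_of_Norm hu) n hn
    (S36LK_hun D hOv hu B.Vt hVtv B.t) hsep hsep0

/-- **(LI) at a closed point of the first component.** -/
theorem S36LK_point₁ [Finite ιv] [IsNoetherianRing D.Λ]
    (hle : D.Λ ≤ S36LJ_Lam S₁ S₂ S₃ C.B.toSubring)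
    (R : S36LJ_Red (S₁ := S₁) (S₂ := S₂) (S₃ := S₃) C)
    (hOv : ∀ i : ιv, D.Ov i = S₁.O ∨ D.Ov i = S₂.O ∨ D.Ov i = S₃.O)
    (hfrac : ∀ x : K, ∃ b : D.Λ, (b : K) ≠ 0 ∧ (b : K) * x ∈ D.Λ)
    {k' : Type*} [Field k'] (e : C.Rb₁ →+* k') {κ : Type*} [Field κ]
    (B : S36CA_LiData D.O ⊤ D.Λ (S36LK_y₁ D hle R e) κ)
    (hVt : ∀ i : ιv, Sum.inl i ∈ S36IT_thruVS D.O D.Λ (S36LK_y₁ D hle R e) → Sum.inl i ∈ B.Vt)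
    (hVtv : ∀ i ∈ B.Vt, ∃ j : ιv, i = Sum.inl j)
    {u : K} (hu : u ∈ S36L3_Norm S₁ S₂ S₃)
    (hsep : ∀ Q ∈ D.U, ∃ g : K, g ≠ 0 ∧ (n : ℤ) * Q.ord (D.φ g) + Q.ord (D.φ u) = 0 ∧
      ∀ Q' ∈ D.U, 0 ≤ (n : ℤ) * Q'.ord (D.φ g) + Q'.ord (D.φ u))
    (hsep0 : ∃ g : K, g ≠ 0 ∧ ∀ Q' ∈ D.U, 0 ≤ (n : ℤ) * Q'.ord (D.φ g) + Q'.ord (D.φ u)) :
    ∃ m ∈ S36L3_W hS C u, e m.1 ≠ 0 := by
  obtain ⟨f, hf, hne⟩ := S36LK_section D n C.hn.ne' hOv hfrac _ B hVt hVtv hu hsep hsep0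
  obtain ⟨m, hm, h1, -, -⟩ := S36LJ_val hS R hu f (hle hf)
  refine ⟨m, hm, fun h0 => hne ?_⟩
  show e (S36LJ_red₁ R ⟨f ^ n * u, hle hf⟩) = 0
  rw [← h1, map_pow, h0, zero_pow C.hn.ne']

/-- **(LI) at a closed point of the second component.** -/
theorem S36LK_point₂ [Finite ιv] [IsNoetherianRing D.Λ]
    (hle : D.Λ ≤ S36LJ_Lam S₁ S₂ S₃ C.B.toSubring)
    (R : S36LJ_Red (S₁ := S₁) (S₂ := S₂) (S₃ := S₃) C)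
    (hOv : ∀ i : ιv, D.Ov i = S₁.O ∨ D.Ov i = S₂.O ∨ D.Ov i = S₃.O)
    (hfrac : ∀ x : K, ∃ b : D.Λ, (b : K) ≠ 0 ∧ (b : K) * x ∈ D.Λ)
    {k' : Type*} [Field k'] (e : C.Rb₂ →+* k') {κ : Type*} [Field κ]
    (B : S36CA_LiData D.O ⊤ D.Λ (S36LK_y₂ D hle R e) κ)
    (hVt : ∀ i : ιv, Sum.inl i ∈ S36IT_thruVS D.O D.Λ (S36LK_y₂ D hle R e) → Sum.inl i ∈ B.Vt)
    (hVtv : ∀ i ∈ B.Vt, ∃ j : ιv, i = Sum.inl j)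
    {u : K} (hu : u ∈ S36L3_Norm S₁ S₂ S₃)
    (hsep : ∀ Q ∈ D.U, ∃ g : K, g ≠ 0 ∧ (n : ℤ) * Q.ord (D.φ g) + Q.ord (D.φ u) = 0 ∧
      ∀ Q' ∈ D.U, 0 ≤ (n : ℤ) * Q'.ord (D.φ g) + Q'.ord (D.φ u))
    (hsep0 : ∃ g : K, g ≠ 0 ∧ ∀ Q' ∈ D.U, 0 ≤ (n : ℤ) * Q'.ord (D.φ g) + Q'.ord (D.φ u)) :
    ∃ m ∈ S36L3_W hS C u, e m.2.1 ≠ 0 := by
  obtain ⟨f, hf, hne⟩ := S36LK_section D n C.hn.ne' hOv hfrac _ B hVt hVtv hu hsep hsep0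
  obtain ⟨m, hm, -, h2, -⟩ := S36LJ_val hS R hu f (hle hf)
  refine ⟨m, hm, fun h0 => hne ?_⟩
  show e (S36LJ_red₂ R ⟨f ^ n * u, hle hf⟩) = 0
  rw [← h2, map_pow, h0, zero_pow C.hn.ne']

/-- **(LI) at a closed point of the third component.** -/
theorem S36LK_point₃ [Finite ιv] [IsNoetherianRing D.Λ]
    (hle : D.Λ ≤ S36LJ_Lam S₁ S₂ S₃ C.B.toSubring)
    (R : S36LJ_Red (S₁ := S₁) (S₂ := S₂) (S₃ := S₃) C)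
    (hOv : ∀ i : ιv, D.Ov i = S₁.O ∨ D.Ov i = S₂.O ∨ D.Ov i = S₃.O)
    (hfrac : ∀ x : K, ∃ b : D.Λ, (b : K) ≠ 0 ∧ (b : K) * x ∈ D.Λ)
    {k' : Type*} [Field k'] (e : C.Rb₃ →+* k') {κ : Type*} [Field κ]
    (B : S36CA_LiData D.O ⊤ D.Λ (S36LK_y₃ D hle R e) κ)
    (hVt : ∀ i : ιv, Sum.inl i ∈ S36IT_thruVS D.O D.Λ (S36LK_y₃ D hle R e) → Sum.inl i ∈ B.Vt)
    (hVtv : ∀ i ∈ B.Vt, ∃ j : ιv, i = Sum.inl j)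
    {u : K} (hu : u ∈ S36L3_Norm S₁ S₂ S₃)
    (hsep : ∀ Q ∈ D.U, ∃ g : K, g ≠ 0 ∧ (n : ℤ) * Q.ord (D.φ g) + Q.ord (D.φ u) = 0 ∧
      ∀ Q' ∈ D.U, 0 ≤ (n : ℤ) * Q'.ord (D.φ g) + Q'.ord (D.φ u))
    (hsep0 : ∃ g : K, g ≠ 0 ∧ ∀ Q' ∈ D.U, 0 ≤ (n : ℤ) * Q'.ord (D.φ g) + Q'.ord (D.φ u)) :
    ∃ m ∈ S36L3_W hS C u, e m.2.2 ≠ 0 := by
  obtain ⟨f, hf, hne⟩ := S36LK_section D n C.hn.ne' hOv hfrac _ B hVt hVtv hu hsep hsep0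
  obtain ⟨m, hm, -, -, h3⟩ := S36LJ_val hS R hu f (hle hf)
  refine ⟨m, hm, fun h0 => hne ?_⟩
  show e (S36LJ_red₃ R ⟨f ^ n * u, hle hf⟩) = 0
  rw [← h3, map_pow, h0, zero_pow C.hn.ne']

/-- **(LI) at a triple point** (field `li` of `S36TL_Chart`): the three branch values of the
section are non-zero. -/
theorem S36LK_li [Finite ιv] [IsNoetherianRing D.Λ]
    (hle : D.Λ ≤ S36LJ_Lam S₁ S₂ S₃ C.B.toSubring)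
    (R : S36LJ_Red (S₁ := S₁) (S₂ := S₂) (S₃ := S₃) C)
    (hOv : ∀ i : ιv, D.Ov i = S₁.O ∨ D.Ov i = S₂.O ∨ D.Ov i = S₃.O)
    (hfrac : ∀ x : K, ∃ b : D.Λ, (b : K) ≠ 0 ∧ (b : K) * x ∈ D.Λ)
    (e₁ : ↥C.Rb₁ →ₐ[k] k) (e₂ : ↥C.Rb₂ →ₐ[k] k) (e₃ : ↥C.Rb₃ →ₐ[k] k)
    (hW1 : ∀ m ∈ S36L3_W hS C 1, e₁ m.1 = e₂ m.2.1 ∧ e₁ m.1 = e₃ m.2.2)
    {κ : Type*} [Field κ]
    (B : S36CA_LiData D.O ⊤ D.Λ (S36LK_y₁ D hle R (e₁ : ↥C.Rb₁ →+* k)) κ)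
    (hVt : ∀ i : ιv, Sum.inl i ∈ S36IT_thruVS D.O D.Λ
      (S36LK_y₁ D hle R (e₁ : ↥C.Rb₁ →+* k)) → Sum.inl i ∈ B.Vt)
    (hVtv : ∀ i ∈ B.Vt, ∃ j : ιv, i = Sum.inl j)
    {u : K} (hu : u ∈ S36L3_Norm S₁ S₂ S₃)
    (hsep : ∀ Q ∈ D.U, ∃ g : K, g ≠ 0 ∧ (n : ℤ) * Q.ord (D.φ g) + Q.ord (D.φ u) = 0 ∧
      ∀ Q' ∈ D.U, 0 ≤ (n : ℤ) * Q'.ord (D.φ g) + Q'.ord (D.φ u))
    (hsep0 : ∃ g : K, g ≠ 0 ∧ ∀ Q' ∈ D.U, 0 ≤ (n : ℤ) * Q'.ord (D.φ g) + Q'.ord (D.φ u)) :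
    ∃ m ∈ S36L3_W hS C u, e₁ m.1 ≠ 0 ∧ e₂ m.2.1 ≠ 0 ∧ e₃ m.2.2 ≠ 0 := by
  obtain ⟨f, hf, hne⟩ := S36LK_section D n C.hn.ne' hOv hfrac _ B hVt hVtv hu hsep hsep0
  obtain ⟨m, hm, h1, h2, h3⟩ := S36LJ_val hS R hu f (hle hf)
  have hne' : e₁ (S36LJ_red₁ R ⟨f ^ n * u, hle hf⟩) ≠ 0 := hne
  have hW := hW1 _ (S36LJ_red_mem_W_one hS R ⟨f ^ n * u, hle hf⟩)
  refine ⟨m, hm, fun h0 => hne' ?_, fun h0 => hne' ?_, fun h0 => hne' ?_⟩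
  · rw [← h1, map_pow, h0, zero_pow C.hn.ne']
  · rw [hW.1, ← h2, map_pow, h0, zero_pow C.hn.ne']
  · rw [hW.2, ← h3, map_pow, h0, zero_pow C.hn.ne']

/-- the form for maximal ideals (field `h₁` of `S36TL_Chart`). -/
theorem S36LK_max₁ [Finite ιv] [IsNoetherianRing D.Λ]
    (hle : D.Λ ≤ S36LJ_Lam S₁ S₂ S₃ C.B.toSubring)
    (R : S36LJ_Red (S₁ := S₁) (S₂ := S₂) (S₃ := S₃) C)
    (hOv : ∀ i : ιv, D.Ov i = S₁.O ∨ D.Ov i = S₂.O ∨ D.Ov i = S₃.O)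
    (hfrac : ∀ x : K, ∃ b : D.Λ, (b : K) ≠ 0 ∧ (b : K) * x ∈ D.Λ)
    (𝔫 : Ideal C.Rb₁) [h𝔫 : 𝔫.IsMaximal] {κ : Type*} [Field κ]
    (B : letI := Ideal.Quotient.field 𝔫
      S36CA_LiData D.O ⊤ D.Λ (S36LK_y₁ D hle R (Ideal.Quotient.mk 𝔫)) κ)
    (hVt : letI := Ideal.Quotient.field 𝔫
      ∀ i : ιv, Sum.inl i ∈ S36IT_thruVS D.O D.Λ (S36LK_y₁ D hle R (Ideal.Quotient.mk 𝔫)) →
        Sum.inl i ∈ B.Vt)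
    (hVtv : letI := Ideal.Quotient.field 𝔫
      ∀ i ∈ B.Vt, ∃ j : ιv, i = Sum.inl j)
    {u : K} (hu : u ∈ S36L3_Norm S₁ S₂ S₃)
    (hsep : ∀ Q ∈ D.U, ∃ g : K, g ≠ 0 ∧ (n : ℤ) * Q.ord (D.φ g) + Q.ord (D.φ u) = 0 ∧
      ∀ Q' ∈ D.U, 0 ≤ (n : ℤ) * Q'.ord (D.φ g) + Q'.ord (D.φ u))
    (hsep0 : ∃ g : K, g ≠ 0 ∧ ∀ Q' ∈ D.U, 0 ≤ (n : ℤ) * Q'.ord (D.φ g) + Q'.ord (D.φ u)) :
    ∃ m ∈ S36L3_W hS C u, m.1 ∉ 𝔫 := by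
  letI := Ideal.Quotient.field 𝔫
  obtain ⟨m, hm, hne⟩ := S36LK_point₁ hS D hle R hOv hfrac (Ideal.Quotient.mk 𝔫) B hVt hVtv hu
    hsep hsep0
  exact ⟨m, hm, fun hmem => hne (Ideal.Quotient.eq_zero_iff_mem.2 hmem)⟩

/-- the form for maximal ideals (field `h₂` of `S36TL_Chart`). -/
theorem S36LK_max₂ [Finite ιv] [IsNoetherianRing D.Λ]
    (hle : D.Λ ≤ S36LJ_Lam S₁ S₂ S₃ C.B.toSubring)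
    (R : S36LJ_Red (S₁ := S₁) (S₂ := S₂) (S₃ := S₃) C)
    (hOv : ∀ i : ιv, D.Ov i = S₁.O ∨ D.Ov i = S₂.O ∨ D.Ov i = S₃.O)
    (hfrac : ∀ x : K, ∃ b : D.Λ, (b : K) ≠ 0 ∧ (b : K) * x ∈ D.Λ)
    (𝔫 : Ideal C.Rb₂) [h𝔫 : 𝔫.IsMaximal] {κ : Type*} [Field κ]
    (B : letI := Ideal.Quotient.field 𝔫
      S36CA_LiData D.O ⊤ D.Λ (S36LK_y₂ D hle R (Ideal.Quotient.mk 𝔫)) κ)
    (hVt : letI := Ideal.Quotient.field 𝔫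
      ∀ i : ιv, Sum.inl i ∈ S36IT_thruVS D.O D.Λ (S36LK_y₂ D hle R (Ideal.Quotient.mk 𝔫)) →
        Sum.inl i ∈ B.Vt)
    (hVtv : letI := Ideal.Quotient.field 𝔫
      ∀ i ∈ B.Vt, ∃ j : ιv, i = Sum.inl j)
    {u : K} (hu : u ∈ S36L3_Norm S₁ S₂ S₃)
    (hsep : ∀ Q ∈ D.U, ∃ g : K, g ≠ 0 ∧ (n : ℤ) * Q.ord (D.φ g) + Q.ord (D.φ u) = 0 ∧
      ∀ Q' ∈ D.U, 0 ≤ (n : ℤ) * Q'.ord (D.φ g) + Q'.ord (D.φ u))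
    (hsep0 : ∃ g : K, g ≠ 0 ∧ ∀ Q' ∈ D.U, 0 ≤ (n : ℤ) * Q'.ord (D.φ g) + Q'.ord (D.φ u)) :
    ∃ m ∈ S36L3_W hS C u, m.2.1 ∉ 𝔫 := by
  letI := Ideal.Quotient.field 𝔫
  obtain ⟨m, hm, hne⟩ := S36LK_point₂ hS D hle R hOv hfrac (Ideal.Quotient.mk 𝔫) B hVt hVtv hu
    hsep hsep0
  exact ⟨m, hm, fun hmem => hne (Ideal.Quotient.eq_zero_iff_mem.2 hmem)⟩

/-- the form for maximal ideals (field `h₃` of `S36TL_Chart`). -/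
theorem S36LK_max₃ [Finite ιv] [IsNoetherianRing D.Λ]
    (hle : D.Λ ≤ S36LJ_Lam S₁ S₂ S₃ C.B.toSubring)
    (R : S36LJ_Red (S₁ := S₁) (S₂ := S₂) (S₃ := S₃) C)
    (hOv : ∀ i : ιv, D.Ov i = S₁.O ∨ D.Ov i = S₂.O ∨ D.Ov i = S₃.O)
    (hfrac : ∀ x : K, ∃ b : D.Λ, (b : K) ≠ 0 ∧ (b : K) * x ∈ D.Λ)
    (𝔫 : Ideal C.Rb₃) [h𝔫 : 𝔫.IsMaximal] {κ : Type*} [Field κ]
    (B : letI := Ideal.Quotient.field 𝔫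
      S36CA_LiData D.O ⊤ D.Λ (S36LK_y₃ D hle R (Ideal.Quotient.mk 𝔫)) κ)
    (hVt : letI := Ideal.Quotient.field 𝔫
      ∀ i : ιv, Sum.inl i ∈ S36IT_thruVS D.O D.Λ (S36LK_y₃ D hle R (Ideal.Quotient.mk 𝔫)) →
        Sum.inl i ∈ B.Vt)
    (hVtv : letI := Ideal.Quotient.field 𝔫
      ∀ i ∈ B.Vt, ∃ j : ιv, i = Sum.inl j)
    {u : K} (hu : u ∈ S36L3_Norm S₁ S₂ S₃)
    (hsep : ∀ Q ∈ D.U, ∃ g : K, g ≠ 0 ∧ (n : ℤ) * Q.ord (D.φ g) + Q.ord (D.φ u) = 0 ∧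
      ∀ Q' ∈ D.U, 0 ≤ (n : ℤ) * Q'.ord (D.φ g) + Q'.ord (D.φ u))
    (hsep0 : ∃ g : K, g ≠ 0 ∧ ∀ Q' ∈ D.U, 0 ≤ (n : ℤ) * Q'.ord (D.φ g) + Q'.ord (D.φ u)) :
    ∃ m ∈ S36L3_W hS C u, m.2.2 ∉ 𝔫 := by
  letI := Ideal.Quotient.field 𝔫
  obtain ⟨m, hm, hne⟩ := S36LK_point₃ hS D hle R hOv hfrac (Ideal.Quotient.mk 𝔫) B hVt hVtv hu
    hsep hsep0
  exact ⟨m, hm, fun hmem => hne (Ideal.Quotient.eq_zero_iff_mem.2 hmem)⟩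

end Fermat.Agent.S36
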