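import Mathlib
import Fermat.Agent.S36.Cart3Comp
import Fermat.Agent.S36.LiWire

/-!
# TRACK 10 (S36), package F6 CART (R14) (helper5), part 11: the bundles at the closed points
# of a LAT3 chart, in the setting of `S36/LiWire.lean` (helper19).  Prefix `S36CW_`.

`S₁ S₂ S₃ : S18_Val L K k Fk_j` (`FF`, `FV`, `VV`), `C` a chart of LAT3, `D : S36IT_Fam Ω F K ιv`
the family of the chart with `D.Λ = O₃ ∩ C.B` (`hle`, `hge`), `R : S36LJ_Red C` (FIN-INST),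
`jFF jFV jVV : ιv` the three vertical indices.  A closed point of the component `j` is
`e : C.Rb_j →+* k`, the evaluation at a place `P` of `Fk_j` (`he : e r = FD_c0 P r`), and
`y = S36LK_y_j D hle R e`.

The results are exactly the inputs `B`, `hVt`, `hVtv` of `S36LK_point₁/₂/₃`, `S36LK_li`:

* `S36CW_bundle₁`, `S36CW_bundle₃` : an ordinary point of `FF`, `VV`
  (inputs: (R11a) in the form of `S36N3I_ord₁/₃` (helper14), `q` a uniformiser (helper8), lifts);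
* `S36CW_bundle₂` : an ordinary point of `FV` (inputs: (R11a) `S36N3I_ord₂`, (R13 ord));
* `S36CW_bundle_ss` : a triple point (inputs: `hW1`, (R13 ss)).
-/

set_option autoImplicit false
set_option linter.unusedSectionVars false
set_option linter.style.haveILetI false

open AlgebraicCurve

namespace Fermat.Agent.S36

open Fermat.Agent.Lib Fermat.Agent.S24 Fermat.Agent.S18 Fermat.Agent.S34

variable {L K k Fk₁ Fk₂ Fk₃ : Type*} [Field L] [Field K] [Algebra L K] [Field k]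
  [Field Fk₁] [Field Fk₂] [Field Fk₃] [Algebra k Fk₁] [Algebra k Fk₂] [Algebra k Fk₃]
  {S₁ : S18_Val L K k Fk₁} {S₂ : S18_Val L K k Fk₂} {S₃ : S18_Val L K k Fk₃}
  (hS : S36L3_Same S₁ S₂ S₃) {n : ℕ} {C : S36L3_Chart L K k Fk₁ Fk₂ Fk₃ n}
  {Ω F : Type*} [Field Ω] [Field F] [Algebra Ω F] {ιv : Type*} (D : S36IT_Fam Ω F K ιv)

theorem S36CW_mem₁ (hle : D.Λ ≤ S36LJ_Lam S₁ S₂ S₃ C.B.toSubring) (f : D.Λ) :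
    (f : K) ∈ S₁.O := (hle f.2).1.1

theorem S36CW_mem₂ (hle : D.Λ ≤ S36LJ_Lam S₁ S₂ S₃ C.B.toSubring) (f : D.Λ) :
    (f : K) ∈ S₂.O := (hle f.2).1.2.1

theorem S36CW_mem₃ (hle : D.Λ ≤ S36LJ_Lam S₁ S₂ S₃ C.B.toSubring) (f : D.Λ) :
    (f : K) ∈ S₃.O := (hle f.2).1.2.2

variable (hle : D.Λ ≤ S36LJ_Lam S₁ S₂ S₃ C.B.toSubring)
  (R : S36LJ_Red (S₁ := S₁) (S₂ := S₂) (S₃ := S₃) C)

/-- the closed point `y₁` is the evaluation of the reduction along `FF`. -/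
theorem S36CW_y₁_apply {k' : Type*} [Field k'] (e : C.Rb₁ →+* k') (f : D.Λ) :
    S36LK_y₁ D hle R e f =
      e ⟨S36CA_compRed S₁ D (S36CW_mem₁ D hle) f, R.red₁ f (hle f.2)⟩ := rfl

/-- the closed point `y₂` is the evaluation of the reduction along `FV`. -/
theorem S36CW_y₂_apply {k' : Type*} [Field k'] (e : C.Rb₂ →+* k') (f : D.Λ) :
    S36LK_y₂ D hle R e f =
      e ⟨S36CA_compRed S₂ D (S36CW_mem₂ D hle) f, R.red₂ f (hle f.2)⟩ := rfl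

/-- the closed point `y₃` is the evaluation of the reduction along `VV`. -/
theorem S36CW_y₃_apply {k' : Type*} [Field k'] (e : C.Rb₃ →+* k') (f : D.Λ) :
    S36LK_y₃ D hle R e f =
      e ⟨S36CA_compRed S₃ D (S36CW_mem₃ D hle) f, R.red₃ f (hle f.2)⟩ := rfl

/-- an element of `W¹` is the reduction of an element of the lattice. -/
theorem S36CW_exists_of_W (hge : S36LJ_Lam S₁ S₂ S₃ C.B.toSubring ≤ D.Λ)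
    (g : ↥C.Rb₁ × ↥C.Rb₂ × ↥C.Rb₃) (hg : g ∈ S36L3_W hS C 1) :
    ∃ f : D.Λ, S36CA_compRed S₁ D (S36CW_mem₁ D hle) f = (g.1 : Fk₁) ∧
      S36CA_compRed S₂ D (S36CW_mem₂ D hle) f = (g.2.1 : Fk₂) ∧
      S36CA_compRed S₃ D (S36CW_mem₃ D hle) f = (g.2.2 : Fk₃) := by
  rw [S36L3_mem_W] at hg
  obtain ⟨f, hfB, hred⟩ := hg
  rw [mul_one] at hfB
  have hfB' : (f : K) ∈ C.B := C.root _ hfB
  have hfΛ : (f : K) ∈ D.Λ := hge ⟨f.2, hfB'⟩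
  refine ⟨⟨f, hfΛ⟩, ?_, ?_, ?_⟩
  · exact congrArg Prod.fst hred
  · exact congrArg (fun z => z.2.1) hred
  · exact congrArg (fun z => z.2.2) hred

/-- a function of the lattice with non-zero reduction along one component and zero reduction
along another one is a non-unit of the latter. -/
theorem S36CW_not_unit {Fk Fk' : Type*} [Field Fk] [Field Fk'] [Algebra k Fk] [Algebra k Fk']
    (S : S18_Val L K k Fk) (S' : S18_Val L K k Fk') {j : ιv} (hj : D.Ov j = S'.O)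
    (hO : ∀ f : D.Λ, (f : K) ∈ S.O) (hO' : ∀ f : D.Λ, (f : K) ∈ S'.O) (f : D.Λ)
    (h1 : S36CA_compRed S D hO f ≠ 0) (h2 : S36CA_compRed S' D hO' f = 0) :
    ((f : K))⁻¹ ∉ D.Ov j := by
  rcases (S36CA_compRed_eq_zero_iff S' D hj hO' f).1 h2 with h | h
  · rw [h, map_zero] at h1
    exact absurd rfl h1
  · exact h

/-- (R11a) on `FF` (shape of `S36N3I_ord₁`) ⇒ `hnot`. -/
theorem S36CW_hnot₁ (hge : S36LJ_Lam S₁ S₂ S₃ C.B.toSubring ≤ D.Λ)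
    {k' : Type*} [Field k'] (e : C.Rb₁ →+* k') {jFF jFV jVV : ιv}
    (hFV : D.Ov jFV = S₂.O) (hVV : D.Ov jVV = S₃.O)
    (hall : ∀ j : ιv, j = jFF ∨ j = jFV ∨ j = jVV)
    (hR11a : ∃ g ∈ S36L3_W hS C 1, e g.1 ≠ 0 ∧ g.2.1 = 0 ∧ g.2.2 = 0) :
    ∀ j : ιv, j ≠ jFF → ∃ f : D.Λ, ((f : K))⁻¹ ∉ D.Ov j ∧ S36LK_y₁ D hle R e f ≠ 0 := by
  obtain ⟨g, hg, h1, h2, h3⟩ := hR11a
  obtain ⟨f, e1, e2, e3⟩ := S36CW_exists_of_W hS D hle hge g hg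
  have hy : S36LK_y₁ D hle R e f ≠ 0 := by
    rw [S36CW_y₁_apply]
    have : (⟨S36CA_compRed S₁ D (S36CW_mem₁ D hle) f, R.red₁ f (hle f.2)⟩ : C.Rb₁) = g.1 :=
      Subtype.ext e1
    rw [this]
    exact h1
  have hne : S36CA_compRed S₁ D (S36CW_mem₁ D hle) f ≠ 0 := by
    rw [e1]
    intro h0
    have : g.1 = 0 := Subtype.ext h0
    rw [this, map_zero] at h1
    exact h1 rfl
  intro j hj
  refine ⟨f, ?_, hy⟩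
  rcases hall j with rfl | rfl | rfl
  · exact absurd rfl hj
  · exact S36CW_not_unit D S₁ S₂ hFV _ _ f hne (by rw [e2, h2]; rfl)
  · exact S36CW_not_unit D S₁ S₃ hVV _ _ f hne (by rw [e3, h3]; rfl)

/-- (R11a) on `FV` (shape of `S36N3I_ord₂`) ⇒ `hnot`. -/
theorem S36CW_hnot₂ (hge : S36LJ_Lam S₁ S₂ S₃ C.B.toSubring ≤ D.Λ)
    {k' : Type*} [Field k'] (e : C.Rb₂ →+* k') {jFF jFV jVV : ιv}
    (hFF : D.Ov jFF = S₁.O) (hVV : D.Ov jVV = S₃.O)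
    (hall : ∀ j : ιv, j = jFF ∨ j = jFV ∨ j = jVV)
    (hR11a : ∃ g ∈ S36L3_W hS C 1, e g.2.1 ≠ 0 ∧ g.1 = 0 ∧ g.2.2 = 0) :
    ∀ j : ιv, j ≠ jFV → ∃ f : D.Λ, ((f : K))⁻¹ ∉ D.Ov j ∧ S36LK_y₂ D hle R e f ≠ 0 := by
  obtain ⟨g, hg, h2, h1, h3⟩ := hR11a
  obtain ⟨f, e1, e2, e3⟩ := S36CW_exists_of_W hS D hle hge g hg
  have hy : S36LK_y₂ D hle R e f ≠ 0 := by
    rw [S36CW_y₂_apply]
    have : (⟨S36CA_compRed S₂ D (S36CW_mem₂ D hle) f, R.red₂ f (hle f.2)⟩ : C.Rb₂) = g.2.1 :=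
      Subtype.ext e2
    rw [this]
    exact h2
  have hne : S36CA_compRed S₂ D (S36CW_mem₂ D hle) f ≠ 0 := by
    rw [e2]
    intro h0
    have : g.2.1 = 0 := Subtype.ext h0
    rw [this, map_zero] at h2
    exact h2 rfl
  intro j hj
  refine ⟨f, ?_, hy⟩
  rcases hall j with rfl | rfl | rfl
  · exact S36CW_not_unit D S₂ S₁ hFF _ _ f hne (by rw [e1, h1]; rfl)
  · exact absurd rfl hj
  · exact S36CW_not_unit D S₂ S₃ hVV _ _ f hne (by rw [e3, h3]; rfl)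

/-- (R11a) on `VV` (shape of `S36N3I_ord₃`) ⇒ `hnot`. -/
theorem S36CW_hnot₃ (hge : S36LJ_Lam S₁ S₂ S₃ C.B.toSubring ≤ D.Λ)
    {k' : Type*} [Field k'] (e : C.Rb₃ →+* k') {jFF jFV jVV : ιv}
    (hFF : D.Ov jFF = S₁.O) (hFV : D.Ov jFV = S₂.O)
    (hall : ∀ j : ιv, j = jFF ∨ j = jFV ∨ j = jVV)
    (hR11a : ∃ g ∈ S36L3_W hS C 1, e g.2.2 ≠ 0 ∧ g.1 = 0 ∧ g.2.1 = 0) :
    ∀ j : ιv, j ≠ jVV → ∃ f : D.Λ, ((f : K))⁻¹ ∉ D.Ov j ∧ S36LK_y₃ D hle R e f ≠ 0 := by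
  obtain ⟨g, hg, h3, h1, h2⟩ := hR11a
  obtain ⟨f, e1, e2, e3⟩ := S36CW_exists_of_W hS D hle hge g hg
  have hy : S36LK_y₃ D hle R e f ≠ 0 := by
    rw [S36CW_y₃_apply]
    have : (⟨S36CA_compRed S₃ D (S36CW_mem₃ D hle) f, R.red₃ f (hle f.2)⟩ : C.Rb₃) = g.2.2 :=
      Subtype.ext e3
    rw [this]
    exact h3
  have hne : S36CA_compRed S₃ D (S36CW_mem₃ D hle) f ≠ 0 := by
    rw [e3]
    intro h0
    have : g.2.2 = 0 := Subtype.ext h0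
    rw [this, map_zero] at h3
    exact h3 rfl
  intro j hj
  refine ⟨f, ?_, hy⟩
  rcases hall j with rfl | rfl | rfl
  · exact S36CW_not_unit D S₃ S₁ hFF _ _ f hne (by rw [e1, h1]; rfl)
  · exact S36CW_not_unit D S₃ S₂ hFV _ _ f hne (by rw [e2, h2]; rfl)
  · exact absurd rfl hj

/-- **the bundle at an ordinary point of `FF`.** -/
theorem S36CW_bundle₁ [Finite ιv] (h₁ : RR_Hyp k Fk₁)
    (hge : S36LJ_Lam S₁ S₂ S₃ C.B.toSubring ≤ D.Λ) {jFF jFV jVV : ιv}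
    (hFF : D.Ov jFF = S₁.O) (hFV : D.Ov jFV = S₂.O) (hVV : D.Ov jVV = S₃.O)
    (hall : ∀ j : ιv, j = jFF ∨ j = jFV ∨ j = jVV)
    (e : C.Rb₁ →+* k) (P : Place k Fk₁) (he : ∀ r : C.Rb₁, e r = FD_c0 P (r : Fk₁))
    (hRb : ∀ r : C.Rb₁, P.adicValuation (r : Fk₁) ≤ 1)
    (T : Set (Place k Fk₁)) (c₀ : Place k Fk₁) (hc₀ : c₀ ∈ T) (hPT : P ∉ T)
    (hlift : ∀ a₁ a₂ : Fk₁, (∀ Q : Place k Fk₁, Q ∉ T → 0 ≤ Q.ord a₁) →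
      (∀ Q : Place k Fk₁, Q ∉ T → 0 ≤ Q.ord a₂) →
      ∃ (ε : Fk₁) (f₁ f₂ : D.Λ), ε ≠ 0 ∧ P.ord ε = 0 ∧
        S36CA_compRed S₁ D (S36CW_mem₁ D hle) f₁ = a₁ * ε ∧
        S36CA_compRed S₁ D (S36CW_mem₁ D hle) f₂ = a₂ * ε)
    (hR11a : ∃ g ∈ S36L3_W hS C 1, e g.1 ≠ 0 ∧ g.2.1 = 0 ∧ g.2.2 = 0)
    (q : D.Λ) (c : Ω) (hc : c ≠ 0) (hqc : D.φ (q : K) = algebraMap Ω F c)
    (hunif : S36CA_IsUnif (D.Ov jFF) (q : K)) :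
    ∃ B : S36CA_LiData D.O ⊤ D.Λ (S36LK_y₁ D hle R e) Fk₁,
      (∀ i : ιv, Sum.inl i ∈ S36IT_thruVS D.O D.Λ (S36LK_y₁ D hle R e) → Sum.inl i ∈ B.Vt) ∧
        (∀ i ∈ B.Vt, ∃ j : ιv, i = Sum.inl j) :=
  S36CA_comp_unr h₁ hFF (S36CW_mem₁ D hle) _ P (fun _ => he _) T c₀ hc₀ hPT
    (fun f => hRb ⟨_, R.red₁ f (hle f.2)⟩) hlift
    (S36CW_hnot₁ hS D hle R hge e hFV hVV hall hR11a) q c hc hqc hunif

/-- **the bundle at an ordinary point of `VV`.** -/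
theorem S36CW_bundle₃ [Finite ιv] (h₃ : RR_Hyp k Fk₃)
    (hge : S36LJ_Lam S₁ S₂ S₃ C.B.toSubring ≤ D.Λ) {jFF jFV jVV : ιv}
    (hFF : D.Ov jFF = S₁.O) (hFV : D.Ov jFV = S₂.O) (hVV : D.Ov jVV = S₃.O)
    (hall : ∀ j : ιv, j = jFF ∨ j = jFV ∨ j = jVV)
    (e : C.Rb₃ →+* k) (P : Place k Fk₃) (he : ∀ r : C.Rb₃, e r = FD_c0 P (r : Fk₃))
    (hRb : ∀ r : C.Rb₃, P.adicValuation (r : Fk₃) ≤ 1)
    (T : Set (Place k Fk₃)) (c₀ : Place k Fk₃) (hc₀ : c₀ ∈ T) (hPT : P ∉ T)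
    (hlift : ∀ a₁ a₂ : Fk₃, (∀ Q : Place k Fk₃, Q ∉ T → 0 ≤ Q.ord a₁) →
      (∀ Q : Place k Fk₃, Q ∉ T → 0 ≤ Q.ord a₂) →
      ∃ (ε : Fk₃) (f₁ f₂ : D.Λ), ε ≠ 0 ∧ P.ord ε = 0 ∧
        S36CA_compRed S₃ D (S36CW_mem₃ D hle) f₁ = a₁ * ε ∧
        S36CA_compRed S₃ D (S36CW_mem₃ D hle) f₂ = a₂ * ε)
    (hR11a : ∃ g ∈ S36L3_W hS C 1, e g.2.2 ≠ 0 ∧ g.1 = 0 ∧ g.2.1 = 0)
    (q : D.Λ) (c : Ω) (hc : c ≠ 0) (hqc : D.φ (q : K) = algebraMap Ω F c)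
    (hunif : S36CA_IsUnif (D.Ov jVV) (q : K)) :
    ∃ B : S36CA_LiData D.O ⊤ D.Λ (S36LK_y₃ D hle R e) Fk₃,
      (∀ i : ιv, Sum.inl i ∈ S36IT_thruVS D.O D.Λ (S36LK_y₃ D hle R e) → Sum.inl i ∈ B.Vt) ∧
        (∀ i ∈ B.Vt, ∃ j : ιv, i = Sum.inl j) :=
  S36CA_comp_unr h₃ hVV (S36CW_mem₃ D hle) _ P (fun _ => he _) T c₀ hc₀ hPT
    (fun f => hRb ⟨_, R.red₃ f (hle f.2)⟩) hlift
    (S36CW_hnot₃ hS D hle R hge e hFF hFV hall hR11a) q c hc hqc hunif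

/-- **the bundle at an ordinary point of `FV`**: `d = g ϖ^(m+1) / q ∈ Λ` with `y d ≠ 0`
(R13 ord), `π` a uniformiser of `FV` with `π^(m+1) / q` a unit. -/
theorem S36CW_bundle₂ [Finite ιv] (h₂ : RR_Hyp k Fk₂)
    (hge : S36LJ_Lam S₁ S₂ S₃ C.B.toSubring ≤ D.Λ) {jFF jFV jVV : ιv}
    (hFF : D.Ov jFF = S₁.O) (hFV : D.Ov jFV = S₂.O) (hVV : D.Ov jVV = S₃.O)
    (hall : ∀ j : ιv, j = jFF ∨ j = jFV ∨ j = jVV)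
    (e : C.Rb₂ →+* k) (P : Place k Fk₂) (he : ∀ r : C.Rb₂, e r = FD_c0 P (r : Fk₂))
    (hRb : ∀ r : C.Rb₂, P.adicValuation (r : Fk₂) ≤ 1)
    (T : Set (Place k Fk₂)) (c₀ : Place k Fk₂) (hc₀ : c₀ ∈ T) (hPT : P ∉ T)
    (hlift : ∀ a₁ a₂ : Fk₂, (∀ Q : Place k Fk₂, Q ∉ T → 0 ≤ Q.ord a₁) →
      (∀ Q : Place k Fk₂, Q ∉ T → 0 ≤ Q.ord a₂) →
      ∃ (ε : Fk₂) (f₁ f₂ : D.Λ), ε ≠ 0 ∧ P.ord ε = 0 ∧
        S36CA_compRed S₂ D (S36CW_mem₂ D hle) f₁ = a₁ * ε ∧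
        S36CA_compRed S₂ D (S36CW_mem₂ D hle) f₂ = a₂ * ε)
    (hR11a : ∃ g ∈ S36L3_W hS C 1, e g.2.1 ≠ 0 ∧ g.1 = 0 ∧ g.2.2 = 0)
    (q : D.Λ) (c : Ω) (hc : c ≠ 0) (hqc : D.φ (q : K) = algebraMap Ω F c)
    (ϖ g d : D.Λ) (m : ℕ) (hdK : (d : K) = g * (ϖ : K) ^ (m + 1) / q)
    (hd : S36LK_y₂ D hle R e d ≠ 0) (hϖq : (ϖ : K) ^ (m + 1) / q ∈ D.Ov jFV)
    (π : K) (hπ : S36CA_IsUnif (D.Ov jFV) π) (hπq : S36LW_IsU (D.Ov jFV) (π ^ (m + 1) / q)) :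
    ∃ B : S36CA_LiData D.O ⊤ D.Λ (S36LK_y₂ D hle R e) Fk₂,
      (∀ i : ιv, Sum.inl i ∈ S36IT_thruVS D.O D.Λ (S36LK_y₂ D hle R e) → Sum.inl i ∈ B.Vt) ∧
        (∀ i ∈ B.Vt, ∃ j : ιv, i = Sum.inl j) :=
  S36CA_comp_ram h₂ hFV (S36CW_mem₂ D hle) _ P (fun _ => he _) T c₀ hc₀ hPT
    (fun f => hRb ⟨_, R.red₂ f (hle f.2)⟩) hlift
    (S36CW_hnot₂ hS D hle R hge e hFF hVV hall hR11a) q c hc hqc ϖ g d m hdK hd hϖq π hπ hπq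

/-- **the bundle at a triple point** (for `y = y₁ = e₁ ∘ red_FF`, as in `S36LK_li`). -/
theorem S36CW_bundle_ss [Finite ιv] (h₁ : RR_Hyp k Fk₁) (h₂ : RR_Hyp k Fk₂)
    (h₃ : RR_Hyp k Fk₃) {jFF jFV jVV : ιv}
    (hFF : D.Ov jFF = S₁.O) (hFV : D.Ov jFV = S₂.O) (hVV : D.Ov jVV = S₃.O)
    (h12 : jFF ≠ jFV) (h13 : jFF ≠ jVV) (h23 : jFV ≠ jVV)
    (hall : ∀ j : ιv, j = jFF ∨ j = jFV ∨ j = jVV)
    (e₁ : C.Rb₁ →+* k) (e₂ : C.Rb₂ →+* k) (e₃ : C.Rb₃ →+* k)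
    (hW1 : ∀ m ∈ S36L3_W hS C 1, e₁ m.1 = e₂ m.2.1 ∧ e₁ m.1 = e₃ m.2.2)
    (P₁ : Place k Fk₁) (P₂ : Place k Fk₂) (P₃ : Place k Fk₃)
    (he₁ : ∀ r : C.Rb₁, e₁ r = FD_c0 P₁ (r : Fk₁))
    (he₂ : ∀ r : C.Rb₂, e₂ r = FD_c0 P₂ (r : Fk₂))
    (he₃ : ∀ r : C.Rb₃, e₃ r = FD_c0 P₃ (r : Fk₃))
    (hRb : ∀ r : C.Rb₃, P₃.adicValuation (r : Fk₃) ≤ 1)
    (T : Set (Place k Fk₃)) (c₀ : Place k Fk₃) (hc₀ : c₀ ∈ T) (hPT : P₃ ∉ T)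
    (hlift : ∀ a₁ a₂ : Fk₃, (∀ Q : Place k Fk₃, Q ∉ T → 0 ≤ Q.ord a₁) →
      (∀ Q : Place k Fk₃, Q ∉ T → 0 ≤ Q.ord a₂) →
      ∃ (ε : Fk₃) (f₁ f₂ : D.Λ), ε ≠ 0 ∧ P₃.ord ε = 0 ∧
        S36CA_compRed S₃ D (S36CW_mem₃ D hle) f₁ = a₁ * ε ∧
        S36CA_compRed S₃ D (S36CW_mem₃ D hle) f₂ = a₂ * ε)
    (q : D.Λ) (c : Ω) (hc : c ≠ 0) (hqc : D.φ (q : K) = algebraMap Ω F c)
    (ϖ t₁ t₂ ε : D.Λ) (m : ℕ)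
    (hεK : (ε : K) = t₁ * t₂ * (ϖ : K) ^ (m + 1) / q) (hε : S36LK_y₁ D hle R e₁ ε ≠ 0)
    (ht₁ : (t₁ : K) / q ∈ D.Ov jFF) (ht₂ : (t₂ : K) / q ∈ D.Ov jVV)
    (hϖ : (ϖ : K) ^ (m + 1) / q ∈ D.Ov jFV)
    (hqFF : S36CA_IsUnif (D.Ov jFF) (q : K)) (hqVV : S36CA_IsUnif (D.Ov jVV) (q : K))
    (π : K) (hπ : S36CA_IsUnif (D.Ov jFV) π) (hπq : S36LW_IsU (D.Ov jFV) (π ^ (m + 1) / q)) :
    ∃ B : S36CA_LiData D.O ⊤ D.Λ (S36LK_y₁ D hle R e₁) Fk₃,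
      (∀ i : ιv, Sum.inl i ∈ S36IT_thruVS D.O D.Λ (S36LK_y₁ D hle R e₁) → Sum.inl i ∈ B.Vt) ∧
        (∀ i ∈ B.Vt, ∃ j : ιv, i = Sum.inl j) := by
  have hW : ∀ f : D.Λ,
      e₁ ⟨S36CA_compRed S₁ D (S36CW_mem₁ D hle) f, R.red₁ f (hle f.2)⟩ =
        e₂ ⟨S36CA_compRed S₂ D (S36CW_mem₂ D hle) f, R.red₂ f (hle f.2)⟩ ∧
      e₁ ⟨S36CA_compRed S₁ D (S36CW_mem₁ D hle) f, R.red₁ f (hle f.2)⟩ =
        e₃ ⟨S36CA_compRed S₃ D (S36CW_mem₃ D hle) f, R.red₃ f (hle f.2)⟩ := fun f =>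
    hW1 _ (S36LJ_red_mem_W_one hS R ⟨f, hle f.2⟩)
  exact S36CA_comp_ss h₁ h₂ h₃ hFF hFV hVV h12 h13 h23 hall (S36CW_mem₁ D hle)
    (S36CW_mem₂ D hle) (S36CW_mem₃ D hle) _ P₁ P₂ P₃ (fun _ => he₁ _)
    (fun f => by rw [S36CW_y₁_apply, (hW f).1]; exact he₂ _)
    (fun f => by rw [S36CW_y₁_apply, (hW f).2]; exact he₃ _) T c₀ hc₀ hPT
    (fun f => hRb ⟨_, R.red₃ f (hle f.2)⟩) hlift q c hc hqc ϖ t₁ t₂ ε m hεK hε ht₁ ht₂ hϖ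
    hqFF hqVV π hπ hπq

end Fermat.Agent.S36
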