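import Fermat.Agent.S36.ChartsB
import Fermat.Agent.S18.ResField
import Fermat.Agent.S18.SepRel
import Fermat.Agent.Lib.LaurentTheta

/-!
# TRACK 10 (S36), C1.1 CHARTS, part 6 (helper23): the bridge to the separable coordinate `j̄`.
Prefix `S36CZ_`.

The chart coordinate of the concrete charts `S36CZ_C`, `S36CZ_C'`, `S36CZ_C''` is
`x̄ = red B = j̄(t^q)` (`S36CZ_xb`), which is the `q`-th power of the separable coordinate
`j̄ = S18_jbar M k` of `κ`:

* `S36CZ_charP`, `S36CZ_algClosed` : the residue field `k` of `A` has characteristic `q` and is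
  algebraically closed;
* `S36CZ_xb_eq_pow` : `x̄ = j̄ ^ q`;
* `S36CZ_exists_root c` : `∃ d₀ : k, d₀ ^ q = res c`;
* `S36CZ_zb_eq_pow c d₀ (hd₀ : d₀ ^ q = res c)` : `z̄ = x̄ − c̄ = (j̄ − d₀) ^ q`;
* `S36CZ_Rb_eq`, `S36CZ_Rb'_eq`, `S36CZ_Rb''_eq` : the coordinate rings of the three charts are the
  rings `reg j̄`, `regZ (j̄ − d₀)`, `reg2 j̄ (j̄ − d₀)` of the separable coordinate.
-/

set_option autoImplicit false
set_option linter.unusedSectionVars false
set_option linter.unusedVariables false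
set_option linter.style.haveILetI false

open AlgebraicCurve ModularCurve HahnSeries IntermediateField

noncomputable section

namespace Fermat.Agent.S36

open Fermat.Agent.Lib Fermat.Agent.S18 Fermat.Agent.S24 Fermat.Agent.S34

local notation "Ω" => AlgebraicClosure ℚ

variable (M q : ℕ) [NeZero M] [NeZero q] (hq : q.Prime) (hqM : ¬ q ∣ M)
  (A : ValuationSubring Ω) (hA : A.LiesOverPrime q)
  (ζ : Ωˣ) (hζ : ζ ^ q = 1) (hζ1 : ζ ≠ 1)

include hq hA in
/-- the residue field has characteristic `q`. -/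
theorem S36CZ_charP : CharP (IsLocalRing.ResidueField A) q := S18_residue_charP A q hq hA

/-- the residue field is algebraically closed. -/
theorem S36CZ_algClosed : IsAlgClosed (IsLocalRing.ResidueField A) := S18_residue_isAlgClosed A

/-- Frobenius: `j̄(t^q) = j̄ ^ q` as series. -/
theorem S36CZ_jqN_eq_pow (k : Type*) [Field k] (q : ℕ) [NeZero q] [Fact q.Prime] [CharP k q] :
    jqNModC k q = jqModC k ^ q := by
  rw [LT_pow_char q (jqModC k), coeffMap_jqModC]
  rfl

include hq hA in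
/-- **`x̄ = j̄ ^ q`**. -/
theorem S36CZ_xb_eq_pow :
    S36CZ_xb M q hq hqM A hA = S18_jbar M (IsLocalRing.ResidueField A) ^ q := by
  haveI : Fact q.Prime := ⟨hq⟩
  haveI := S36CZ_charP q hq A hA
  apply Subtype.ext
  rw [S36CZ_xb_coe, S36CZ_jqN_eq_pow]
  rfl

/-- every residue class has a `q`-th root. -/
theorem S36CZ_exists_root (c : (S36FI_SFF M q hq hqM A hA).A) :
    ∃ d₀ : IsLocalRing.ResidueField A, d₀ ^ q = (S36FI_SFF M q hq hqM A hA).res c := by
  haveI := S36CZ_algClosed A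
  exact IsAlgClosed.exists_pow_nat_eq _ (Nat.pos_of_ne_zero (NeZero.ne q))

include hq hA in
/-- **`z̄ = (j̄ − d₀) ^ q`**. -/
theorem S36CZ_zb_eq_pow (c : (S36FI_SFF M q hq hqM A hA).A) (d₀ : IsLocalRing.ResidueField A)
    (hd₀ : d₀ ^ q = (S36FI_SFF M q hq hqM A hA).res c) :
    S36CZ_zb M q hq hqM A hA c =
      (S18_jbar M (IsLocalRing.ResidueField A) -
        algebraMap (IsLocalRing.ResidueField A) ↥(S36FI_kappa M A) d₀) ^ q := by
  haveI : Fact q.Prime := ⟨hq⟩
  haveI := S36CZ_charP q hq A hA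
  haveI : CharP ↥(S36FI_kappa M A) q :=
    charP_of_injective_algebraMap
      (algebraMap (IsLocalRing.ResidueField A) ↥(S36FI_kappa M A)).injective q
  rw [sub_pow_char, ← map_pow, hd₀, ← S36CZ_xb_eq_pow M q hq hqM A hA]
  rfl

end Fermat.Agent.S36
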