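import Fermat.Agent.S36.Int3Inst
import Fermat.Agent.S36.Val3VS

/-!
# TRACK 10 (S36), package INT-INST (helper17), part 4: THE concrete family of valuation rings of
the lattice `Λ_U` at level `M q²`.  Prefix `S36IT_`.

`F₂ = modularFunctionFieldBar (M q q)`, `A ⊂ ℚ̄` over `q`, `I = A.inertiaSubgroupIn ℚ`,
`F_L = (S36FI_act (M q q) I).fixF` the field of `I`-fixed functions.

* `S36IT_Ov3 : Fin 3 → ValuationSubring F₂` : `0 ↦ FF`, `1 ↦ FV`, `2 ↦ VV` (`S36V_OFF`, `S36V_OFV`,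
  `S36V_OVV` of `S36/Val3VS.lean`);
* `S36IT_dvr3` : the three discreteness statements bundled;
* `S36IT_fam3 … dvr U : S36IT_Fam ℚ̄ F₂ F_L (Fin 3)` : the family of the chart `U`;
* `S36IT_fam3_mem_Λ` : `f ∈ Λ_U ↔ f ∈ FF ∧ f ∈ FV ∧ f ∈ VV ∧ ∀ Q ∈ U, f regular at Q`.
-/

set_option autoImplicit false
set_option linter.style.haveILetI false
set_option linter.unusedSectionVars false
set_option linter.unusedVariables false

open AlgebraicCurve ModularCurve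

noncomputable section

namespace Fermat.Agent.S36

local notation "Ω" => AlgebraicClosure ℚ

variable (M q : ℕ) [NeZero M] [NeZero q] (hq : q.Prime) (hqM : ¬ q ∣ M)
  (A : ValuationSubring Ω) (hA : A.LiesOverPrime q)
  (ζ : Ωˣ) (hζ : ζ ^ q = 1) (hζ1 : ζ ≠ 1)

/-- the three vertical valuation rings of `F₂`: `0 ↦ FF`, `1 ↦ FV`, `2 ↦ VV`. -/
def S36IT_Ov3 : Fin 3 → ValuationSubring ↥(modularFunctionFieldBar (M * q * q)) :=
  ![S36V_OFF M q hq A hA, S36V_OFV M q hq hqM A hA ζ hζ hζ1, S36V_OVV M q hq hqM A hA]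

@[simp] theorem S36IT_Ov3_zero :
    S36IT_Ov3 M q hq hqM A hA ζ hζ hζ1 0 = S36V_OFF M q hq A hA := rfl

@[simp] theorem S36IT_Ov3_one :
    S36IT_Ov3 M q hq hqM A hA ζ hζ hζ1 1 = S36V_OFV M q hq hqM A hA ζ hζ hζ1 := rfl

@[simp] theorem S36IT_Ov3_two :
    S36IT_Ov3 M q hq hqM A hA ζ hζ hζ1 2 = S36V_OVV M q hq hqM A hA := rfl

/-- the three discreteness statements, bundled. -/
theorem S36IT_dvr3
    (hFF : IsDiscreteValuationRing
      (S36FL_OL (S36FI_act (M * q * q) (A.inertiaSubgroupIn ℚ)) (S36V_OFF M q hq A hA)))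
    (hFV : IsDiscreteValuationRing
      (S36FL_OL (S36FI_act (M * q * q) (A.inertiaSubgroupIn ℚ))
        (S36V_OFV M q hq hqM A hA ζ hζ hζ1)))
    (hVV : IsDiscreteValuationRing
      (S36FL_OL (S36FI_act (M * q * q) (A.inertiaSubgroupIn ℚ)) (S36V_OVV M q hq hqM A hA)))
    (i : Fin 3) :
    IsDiscreteValuationRing
      (S36FL_OL (S36FI_act (M * q * q) (A.inertiaSubgroupIn ℚ))
        (S36IT_Ov3 M q hq hqM A hA ζ hζ hζ1 i)) := by
  fin_cases i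
  · exact hFF
  · exact hFV
  · exact hVV

/-- **THE family of valuation rings of the lattice `Λ_U`** (level `M q²`, chart `U`). -/
def S36IT_fam3
    (dvr : ∀ i, IsDiscreteValuationRing
      (S36FL_OL (S36FI_act (M * q * q) (A.inertiaSubgroupIn ℚ))
        (S36IT_Ov3 M q hq hqM A hA ζ hζ hζ1 i)))
    (U : Set (Place Ω ↥(modularFunctionFieldBar (M * q * q)))) :
    S36IT_Fam Ω ↥(modularFunctionFieldBar (M * q * q))
      ↥(S36FI_act (M * q * q) (A.inertiaSubgroupIn ℚ)).fixF (Fin 3) :=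
  S36IT_famX0 (M * q * q) (A.inertiaSubgroupIn ℚ) (S36IT_Ov3 M q hq hqM A hA ζ hζ hζ1) dvr U

section lemmas

variable
    (dvr : ∀ i, IsDiscreteValuationRing
      (S36FL_OL (S36FI_act (M * q * q) (A.inertiaSubgroupIn ℚ))
        (S36IT_Ov3 M q hq hqM A hA ζ hζ hζ1 i)))
    (U : Set (Place Ω ↥(modularFunctionFieldBar (M * q * q))))

@[simp] theorem S36IT_fam3_φ :
    (S36IT_fam3 M q hq hqM A hA ζ hζ hζ1 dvr U).φ =
      (S36FI_act (M * q * q) (A.inertiaSubgroupIn ℚ)).fixF.subtype := rfl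

@[simp] theorem S36IT_fam3_U : (S36IT_fam3 M q hq hqM A hA ζ hζ hζ1 dvr U).U = U := rfl

theorem S36IT_fam3_Ov (i : Fin 3) :
    (S36IT_fam3 M q hq hqM A hA ζ hζ hζ1 dvr U).Ov i =
      S36FL_OL (S36FI_act (M * q * q) (A.inertiaSubgroupIn ℚ))
        (S36IT_Ov3 M q hq hqM A hA ζ hζ hζ1 i) := rfl

/-- membership in the vertical rings. -/
theorem S36IT_fam3_mem_FF (f : ↥(S36FI_act (M * q * q) (A.inertiaSubgroupIn ℚ)).fixF) :
    f ∈ (S36IT_fam3 M q hq hqM A hA ζ hζ hζ1 dvr U).O (Sum.inl 0) ↔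
      (f : ↥(modularFunctionFieldBar (M * q * q))) ∈ S36V_OFF M q hq A hA := Iff.rfl

theorem S36IT_fam3_mem_FV (f : ↥(S36FI_act (M * q * q) (A.inertiaSubgroupIn ℚ)).fixF) :
    f ∈ (S36IT_fam3 M q hq hqM A hA ζ hζ hζ1 dvr U).O (Sum.inl 1) ↔
      (f : ↥(modularFunctionFieldBar (M * q * q))) ∈ S36V_OFV M q hq hqM A hA ζ hζ hζ1 :=
  Iff.rfl

theorem S36IT_fam3_mem_VV (f : ↥(S36FI_act (M * q * q) (A.inertiaSubgroupIn ℚ)).fixF) :
    f ∈ (S36IT_fam3 M q hq hqM A hA ζ hζ hζ1 dvr U).O (Sum.inl 2) ↔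
      (f : ↥(modularFunctionFieldBar (M * q * q))) ∈ S36V_OVV M q hq hqM A hA := Iff.rfl

theorem S36IT_fam3_mem_inr (Q : U) (f : ↥(S36FI_act (M * q * q) (A.inertiaSubgroupIn ℚ)).fixF) :
    f ∈ (S36IT_fam3 M q hq hqM A hA ζ hζ hζ1 dvr U).O (Sum.inr Q) ↔
      (f : ↥(modularFunctionFieldBar (M * q * q))) ∈
        (Q : Place Ω ↥(modularFunctionFieldBar (M * q * q))).toValuationSubring := Iff.rfl

/-- **membership in the lattice `Λ_U`.** -/
theorem S36IT_fam3_mem_Λ (f : ↥(S36FI_act (M * q * q) (A.inertiaSubgroupIn ℚ)).fixF) :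
    f ∈ (S36IT_fam3 M q hq hqM A hA ζ hζ hζ1 dvr U).Λ ↔
      (f : ↥(modularFunctionFieldBar (M * q * q))) ∈ S36V_OFF M q hq A hA ∧
      (f : ↥(modularFunctionFieldBar (M * q * q))) ∈ S36V_OFV M q hq hqM A hA ζ hζ hζ1 ∧
      (f : ↥(modularFunctionFieldBar (M * q * q))) ∈ S36V_OVV M q hq hqM A hA ∧
      ∀ Q ∈ U, (f : ↥(modularFunctionFieldBar (M * q * q))) ∈ Q.toValuationSubring := by
  rw [S36IT_fam3, S36IT_famX0_mem_Λ]
  constructor
  · rintro ⟨h1, h2⟩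
    exact ⟨h1 0, h1 1, h1 2, h2⟩
  · rintro ⟨h0, h1, h2, h3⟩
    refine ⟨fun i => ?_, h3⟩
    fin_cases i
    · exact h0
    · exact h1
    · exact h2

/-- membership in the Gauss rings, in terms of the subrings `S36V_G`. -/
theorem S36IT_fam3_mem_Λ_G (f : ↥(S36FI_act (M * q * q) (A.inertiaSubgroupIn ℚ)).fixF) :
    f ∈ (S36IT_fam3 M q hq hqM A hA ζ hζ hζ1 dvr U).Λ ↔
      (f : ↥(modularFunctionFieldBar (M * q * q))) ∈ S36V_G A (S36V_emFF M q) ∧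
      (f : ↥(modularFunctionFieldBar (M * q * q))) ∈ S36V_G A (S36V_emFV M q hq hqM ζ hζ hζ1) ∧
      (f : ↥(modularFunctionFieldBar (M * q * q))) ∈ S36V_G A (S36V_emVV M q hq hqM) ∧
      ∀ Q ∈ U, (f : ↥(modularFunctionFieldBar (M * q * q))) ∈ Q.toValuationSubring :=
  S36IT_fam3_mem_Λ M q hq hqM A hA ζ hζ hζ1 dvr U f

end lemmas

end Fermat.Agent.S36
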