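import Fermat.Agent.S36.ChartsO3
import Fermat.Agent.S36.Int3Three
import Fermat.Agent.S36.FixLFive

/-!
# TRACK 10 (S36), C1.1 CHARTS, part 4 (helper23): the coordinate `B = j(t^q)` at level `M q²`
and the instances of `hjO`, `hsO`, `hle`.  Prefix `S36CO_`.

Ruling D9: all charts of level `M q²` use the coordinate `x := B = j(t^q) = jBar (M q q) q`.

* `S36CO_emFF_B`, `S36CO_emFV_B`, `S36CO_emVV_B` : along the three embeddings `FF`, `FV`, `VV`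
  the function `B` is the integral series `j(t^q)`;
* `S36CO_B_mem_FF/FV/VV` (`B` lies in the three Gauss rings `S36V_G`, hence in `S36V_OFF`, …),
  `S36CO_B_red_FF/FV/VV` : the three reductions of `B` are `j̄(t^q) = jqNModC k q`;
* `S36CO_jqN_transc` : `j̄(t^q)` is transcendental over `k`;
* `S36CO_BL M q H : (S36FI_act (M q q) H).fixF` : `B` as an element of the fixed field;
* `S36CO_hjO_B`, `S36CO_hsO_B` : **`hjO`, `hsO`** of `S36I3_core_fix` for `j := B` and ANY three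
  valuation data `S_i : S18_Val L F_L k κ_i` (any base field `L` and algebra structure) whose
  rings contain the `I`-fixed elements of the Gauss rings and whose reductions are the Gauss
  reductions (`hO_i`, `hred_i`: for helper1's `S36FI_gauss` these are `Iff.rfl` and
  `S36FI_gauss_red`);
* `S36CO_hOv_fam3`, `S36CO_Lam_eq_fam3`, `S36CO_hle_U`, `S36CO_hle_U'`, `S36CO_hle_U''` :
  **`hOv`, `hle`** of `S36LK_*` (helper19) for helper17's family `S36IT_fam3` and the charts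
  `S36CU_U`, `S36CU_U'`, `S36CU_U''`.
-/

set_option autoImplicit false
set_option linter.unusedSectionVars false
set_option linter.unusedVariables false
set_option linter.style.haveILetI false

open AlgebraicCurve ModularCurve HahnSeries

noncomputable section

namespace Fermat.Agent.S36

open Fermat.Agent.Lib Fermat.Agent.S18 Fermat.Agent.S24 Fermat.Agent.S34

local notation "Ω" => AlgebraicClosure ℚ

variable (M q : ℕ) [NeZero M] [NeZero q] (hq : q.Prime) (hqM : ¬ q ∣ M)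
  (A : ValuationSubring Ω) (hA : A.LiesOverPrime q)
  (ζ : Ωˣ) (hζ : ζ ^ q = 1) (hζ1 : ζ ≠ 1)

theorem S36CO_q_dvd : q ∣ M * q * q := dvd_mul_left q (M * q)

theorem S36CO_q_dvd₁ : q ∣ M * q := dvd_mul_left q M

/-- `j(t^d)` over `ℚ̄` is the image of the integral series. -/
theorem S36CO_iota_jqN (d : ℕ) [NeZero d] : S18_ι A (jqNModC A d) = jqNModC Ω d :=
  coeffMap_jqNModC _ d

theorem S36CO_rho_jqN (d : ℕ) [NeZero d] :
    S18_ρ A (jqNModC A d) = jqNModC (IsLocalRing.ResidueField A) d :=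
  coeffMap_jqNModC _ d

/-- the index of `j_d` may be replaced by an equal one. -/
theorem S36CO_jqN_congr (R : Type*) [CommRing R] {d d' : ℕ} [NeZero d] [NeZero d'] (h : d = d') :
    jqNModC R d = jqNModC R d' := by
  subst h
  rfl

/-- `FF`: `B = j(t^q)` as a series. -/
theorem S36CO_emFF_B (hd : q ∣ M * q * q) :
    S36V_emFF M q (jBar (M * q * q) q hd) = S18_ι A (jqNModC A q) := by
  rw [S36V_emFF_apply, S36V_coe_jBar, S36CO_iota_jqN]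

/-- `FV`: `B = j(t^q)` as a series. -/
theorem S36CO_emFV_B (hd : q ∣ M * q * q) :
    S36V_emFV M q hq hqM ζ hζ hζ1 (jBar (M * q * q) q hd) = S18_ι A (jqNModC A q) := by
  rw [S36V_emFV_apply, S36V_iota_jBar_low M q hq hqM ζ hζ hζ1 q hd (S36CO_q_dvd₁ M q),
    S36CO_iota_jqN]

/-- `B = β (j)`. -/
theorem S36CO_B_eq_beta (hd : q ∣ M * q * q) :
    jBar (M * q * q) q hd = heckeBetaBar Ω (M * q) q (jBar (M * q) 1 (one_dvd _)) := by
  haveI : NeZero (q * 1) := ⟨by rw [mul_one]; exact NeZero.ne q⟩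
  have hq1 : q * 1 ∣ M * q * q := by rw [mul_one]; exact hd
  rw [S34WJ_beta_jBar]
  apply Subtype.ext
  rw [S36V_coe_jBar, S36V_coe_jBar]
  exact S36CO_jqN_congr Ω (mul_one q).symm

/-- `w_q j = j(t^q)` at level `M q`. -/
theorem S36CO_wq_j :
    ((S34DF_wq M q hq hqM (jBar (M * q) 1 (one_dvd _)) : ↥(modularFunctionFieldBar (M * q))) :
      LaurentSeries Ω) = jqNModC Ω q := by
  haveI : NeZero (q * 1) := ⟨by rw [mul_one]; exact NeZero.ne q⟩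
  have e := S34WQ_wqMq_jBar_old M q hq hqM 1 (one_dvd M)
  have e' : S34DF_wq M q hq hqM (jBar (M * q) 1 (one_dvd _)) = _ := e
  rw [e', S36V_coe_jBar]
  exact S36CO_jqN_congr Ω (mul_one q)

/-- `VV`: `B = j(t^q)` as a series. -/
theorem S36CO_emVV_B (hd : q ∣ M * q * q) :
    S36V_emVV M q hq hqM (jBar (M * q * q) q hd) = S18_ι A (jqNModC A q) := by
  rw [S36CO_B_eq_beta M q hd, S36V_emVV_beta, S36V_emV_apply, S36CO_wq_j, S36CO_iota_jqN]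


/-! ### membership and reductions -/

theorem S36CO_B_mem_FF (hd : q ∣ M * q * q) :
    jBar (M * q * q) q hd ∈ S36V_G A (S36V_emFF M q) :=
  S36V_G_of_int A _ (S36CO_emFF_B M q A hd)

theorem S36CO_B_mem_FV (hd : q ∣ M * q * q) :
    jBar (M * q * q) q hd ∈ S36V_G A (S36V_emFV M q hq hqM ζ hζ hζ1) :=
  S36V_G_of_int A _ (S36CO_emFV_B M q hq hqM A ζ hζ hζ1 hd)

theorem S36CO_B_mem_VV (hd : q ∣ M * q * q) :
    jBar (M * q * q) q hd ∈ S36V_G A (S36V_emVV M q hq hqM) :=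
  S36V_G_of_int A _ (S36CO_emVV_B M q hq hqM A hd)

theorem S36CO_B_mem_OFF (hd : q ∣ M * q * q) :
    jBar (M * q * q) q hd ∈ S36V_OFF M q hq A hA := S36CO_B_mem_FF M q A hd

theorem S36CO_B_mem_OFV (hd : q ∣ M * q * q) :
    jBar (M * q * q) q hd ∈ S36V_OFV M q hq hqM A hA ζ hζ hζ1 :=
  S36CO_B_mem_FV M q hq hqM A ζ hζ hζ1 hd

theorem S36CO_B_mem_OVV (hd : q ∣ M * q * q) :
    jBar (M * q * q) q hd ∈ S36V_OVV M q hq hqM A hA := S36CO_B_mem_VV M q hq hqM A hd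

theorem S36CO_B_red_FF (hd : q ∣ M * q * q)
    (h : jBar (M * q * q) q hd ∈ S36V_G A (S36V_emFF M q)) :
    S36V_Gred A (S36V_emFF M q) ⟨_, h⟩ = jqNModC (IsLocalRing.ResidueField A) q := by
  rw [S36V_Gred_of_int A _ (S36CO_emFF_B M q A hd) h, S36CO_rho_jqN]

theorem S36CO_B_red_FV (hd : q ∣ M * q * q)
    (h : jBar (M * q * q) q hd ∈ S36V_G A (S36V_emFV M q hq hqM ζ hζ hζ1)) :
    S36V_Gred A (S36V_emFV M q hq hqM ζ hζ hζ1) ⟨_, h⟩ =
      jqNModC (IsLocalRing.ResidueField A) q := by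
  rw [S36V_Gred_of_int A _ (S36CO_emFV_B M q hq hqM A ζ hζ hζ1 hd) h, S36CO_rho_jqN]

theorem S36CO_B_red_VV (hd : q ∣ M * q * q)
    (h : jBar (M * q * q) q hd ∈ S36V_G A (S36V_emVV M q hq hqM)) :
    S36V_Gred A (S36V_emVV M q hq hqM) ⟨_, h⟩ = jqNModC (IsLocalRing.ResidueField A) q := by
  rw [S36V_Gred_of_int A _ (S36CO_emVV_B M q hq hqM A hd) h, S36CO_rho_jqN]

/-- `j̄(t^d)` is transcendental over `k`. -/
theorem S36CO_jqN_transc (k : Type*) [Field k] (d : ℕ) [NeZero d] :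
    Transcendental k (jqNModC k d) := by
  have h1 : jqNModC k d = qExpandAlgHomC k d (jqModC k) := rfl
  rw [h1]
  intro halg
  exact AX_transcendental_jqModC k
    ((isAlgebraic_algHom_iff (qExpandAlgHomC k d) (qExpand_injective d)).1 halg)

/-- an element of an intermediate field is transcendental if it is so in the big field. -/
theorem S36CO_transc_of_coe {k E : Type*} [Field k] [Field E] [Algebra k E]
    (κ : IntermediateField k E) {y : ↥κ} (hy : Transcendental k ((y : ↥κ) : E)) :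
    Transcendental k y := by
  intro halg
  exact hy ((isAlgebraic_algHom_iff κ.val Subtype.val_injective).2 halg)

/-! ### `B` in the fixed field -/

variable (H : Subgroup (Ω ≃ₐ[ℚ] Ω))

/-- **the coordinate `B = j(t^q)`** as an element of `F_L = F₂^H`. -/
def S36CO_BL : (S36FI_act (M * q * q) H).fixF :=
  ⟨jBar (M * q * q) q (S36CO_q_dvd M q), fun h =>
    S36FI_jBar_fixed (M * q * q) (h : Ω ≃ₐ[ℚ] Ω) q (S36CO_q_dvd M q)⟩

@[simp] theorem S36CO_BL_coe :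
    ((S36CO_BL M q H : (S36FI_act (M * q * q) H).fixF) : ↥(modularFunctionFieldBar (M * q * q))) =
      jBar (M * q * q) q (S36CO_q_dvd M q) := rfl

/-! ### `hjO`, `hsO` for `j := B` -/

section hjO

variable {L : Type*} [Field L] [Algebra L ↥(S36FI_act (M * q * q) H).fixF]
  {κ₁ κ₂ κ₃ : IntermediateField (IsLocalRing.ResidueField A)
    (LaurentSeries (IsLocalRing.ResidueField A))}
  {S₁ : S18_Val L ↥(S36FI_act (M * q * q) H).fixF (IsLocalRing.ResidueField A) ↥κ₁}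
  {S₂ : S18_Val L ↥(S36FI_act (M * q * q) H).fixF (IsLocalRing.ResidueField A) ↥κ₂}
  {S₃ : S18_Val L ↥(S36FI_act (M * q * q) H).fixF (IsLocalRing.ResidueField A) ↥κ₃}

/-- **`hjO`** for `j := B`. -/
theorem S36CO_hjO_B
    (hO₁ : ∀ f : ↥(S36FI_act (M * q * q) H).fixF,
      (f : ↥(modularFunctionFieldBar (M * q * q))) ∈ S36V_G A (S36V_emFF M q) → f ∈ S₁.O)
    (hO₂ : ∀ f : ↥(S36FI_act (M * q * q) H).fixF,
      (f : ↥(modularFunctionFieldBar (M * q * q))) ∈ S36V_G A (S36V_emFV M q hq hqM ζ hζ hζ1) →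
        f ∈ S₂.O)
    (hO₃ : ∀ f : ↥(S36FI_act (M * q * q) H).fixF,
      (f : ↥(modularFunctionFieldBar (M * q * q))) ∈ S36V_G A (S36V_emVV M q hq hqM) →
        f ∈ S₃.O) :
    S36CO_BL M q H ∈ S36L3_O3 S₁ S₂ S₃ :=
  ⟨hO₁ _ (S36CO_B_mem_FF M q A (S36CO_q_dvd M q)),
    hO₂ _ (S36CO_B_mem_FV M q hq hqM A ζ hζ hζ1 (S36CO_q_dvd M q)),
    hO₃ _ (S36CO_B_mem_VV M q hq hqM A (S36CO_q_dvd M q))⟩

/-- the three reductions of `B` are transcendental. -/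
theorem S36CO_red_B_transc
    (hx : S36CO_BL M q H ∈ S36L3_O3 S₁ S₂ S₃)
    (hred₁ : ∀ (f : ↥(S36FI_act (M * q * q) H).fixF) (hf : f ∈ S₁.O)
      (hG : (f : ↥(modularFunctionFieldBar (M * q * q))) ∈ S36V_G A (S36V_emFF M q)),
      ((S₁.red ⟨f, hf⟩ : ↥κ₁) : LaurentSeries (IsLocalRing.ResidueField A)) =
        S36V_Gred A (S36V_emFF M q) ⟨_, hG⟩)
    (hred₂ : ∀ (f : ↥(S36FI_act (M * q * q) H).fixF) (hf : f ∈ S₂.O)
      (hG : (f : ↥(modularFunctionFieldBar (M * q * q))) ∈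
        S36V_G A (S36V_emFV M q hq hqM ζ hζ hζ1)),
      ((S₂.red ⟨f, hf⟩ : ↥κ₂) : LaurentSeries (IsLocalRing.ResidueField A)) =
        S36V_Gred A (S36V_emFV M q hq hqM ζ hζ hζ1) ⟨_, hG⟩)
    (hred₃ : ∀ (f : ↥(S36FI_act (M * q * q) H).fixF) (hf : f ∈ S₃.O)
      (hG : (f : ↥(modularFunctionFieldBar (M * q * q))) ∈ S36V_G A (S36V_emVV M q hq hqM)),
      ((S₃.red ⟨f, hf⟩ : ↥κ₃) : LaurentSeries (IsLocalRing.ResidueField A)) =
        S36V_Gred A (S36V_emVV M q hq hqM) ⟨_, hG⟩) :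
    Transcendental (IsLocalRing.ResidueField A) (S₁.red ⟨_, hx.1⟩) ∧
    Transcendental (IsLocalRing.ResidueField A) (S₂.red ⟨_, hx.2.1⟩) ∧
    Transcendental (IsLocalRing.ResidueField A) (S₃.red ⟨_, hx.2.2⟩) := by
  refine ⟨S36CO_transc_of_coe κ₁ ?_, S36CO_transc_of_coe κ₂ ?_, S36CO_transc_of_coe κ₃ ?_⟩
  · have e : ((S₁.red ⟨_, hx.1⟩ : ↥κ₁) : LaurentSeries (IsLocalRing.ResidueField A)) =
        jqNModC (IsLocalRing.ResidueField A) q :=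
      (hred₁ _ hx.1 (S36CO_B_mem_FF M q A (S36CO_q_dvd M q))).trans
        (S36CO_B_red_FF M q A (S36CO_q_dvd M q) _)
    rw [e]
    exact S36CO_jqN_transc _ q
  · have e : ((S₂.red ⟨_, hx.2.1⟩ : ↥κ₂) : LaurentSeries (IsLocalRing.ResidueField A)) =
        jqNModC (IsLocalRing.ResidueField A) q :=
      (hred₂ _ hx.2.1 (S36CO_B_mem_FV M q hq hqM A ζ hζ hζ1 (S36CO_q_dvd M q))).trans
        (S36CO_B_red_FV M q hq hqM A ζ hζ hζ1 (S36CO_q_dvd M q) _)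
    rw [e]
    exact S36CO_jqN_transc _ q
  · have e : ((S₃.red ⟨_, hx.2.2⟩ : ↥κ₃) : LaurentSeries (IsLocalRing.ResidueField A)) =
        jqNModC (IsLocalRing.ResidueField A) q :=
      (hred₃ _ hx.2.2 (S36CO_B_mem_VV M q hq hqM A (S36CO_q_dvd M q))).trans
        (S36CO_B_red_VV M q hq hqM A (S36CO_q_dvd M q) _)
    rw [e]
    exact S36CO_jqN_transc _ q

/-- **`hsO`** for `j := B`: `1/(B − c) ∈ O₃` for every `c ∈ A`. -/
theorem S36CO_hsO_B (hS : S36L3_Same S₁ S₂ S₃)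
    (hx : S36CO_BL M q H ∈ S36L3_O3 S₁ S₂ S₃)
    (hred₁ : ∀ (f : ↥(S36FI_act (M * q * q) H).fixF) (hf : f ∈ S₁.O)
      (hG : (f : ↥(modularFunctionFieldBar (M * q * q))) ∈ S36V_G A (S36V_emFF M q)),
      ((S₁.red ⟨f, hf⟩ : ↥κ₁) : LaurentSeries (IsLocalRing.ResidueField A)) =
        S36V_Gred A (S36V_emFF M q) ⟨_, hG⟩)
    (hred₂ : ∀ (f : ↥(S36FI_act (M * q * q) H).fixF) (hf : f ∈ S₂.O)
      (hG : (f : ↥(modularFunctionFieldBar (M * q * q))) ∈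
        S36V_G A (S36V_emFV M q hq hqM ζ hζ hζ1)),
      ((S₂.red ⟨f, hf⟩ : ↥κ₂) : LaurentSeries (IsLocalRing.ResidueField A)) =
        S36V_Gred A (S36V_emFV M q hq hqM ζ hζ hζ1) ⟨_, hG⟩)
    (hred₃ : ∀ (f : ↥(S36FI_act (M * q * q) H).fixF) (hf : f ∈ S₃.O)
      (hG : (f : ↥(modularFunctionFieldBar (M * q * q))) ∈ S36V_G A (S36V_emVV M q hq hqM)),
      ((S₃.red ⟨f, hf⟩ : ↥κ₃) : LaurentSeries (IsLocalRing.ResidueField A)) =
        S36V_Gred A (S36V_emVV M q hq hqM) ⟨_, hG⟩)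
    (c : S₁.A) :
    (S36CO_BL M q H - algebraMap S₁.A ↥(S36FI_act (M * q * q) H).fixF c)⁻¹ ∈
      S36L3_O3 S₁ S₂ S₃ := by
  obtain ⟨t₁, t₂, t₃⟩ := S36CO_red_B_transc M q hq hqM A ζ hζ hζ1 H hx hred₁ hred₂ hred₃
  exact S36CO_hsO_of_transc hS hx c t₁ t₂ t₃

end hjO

/-! ### `hOv`, `hle` for the family `S36IT_fam3` -/

section hle

variable {k Fk₁ Fk₂ Fk₃ : Type*} [Field k]
  [Field Fk₁] [Field Fk₂] [Field Fk₃] [Algebra k Fk₁] [Algebra k Fk₂] [Algebra k Fk₃]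
  (S₁ : S18_Val ↥(S36FI_act (M * q * q) (A.inertiaSubgroupIn ℚ)).fixK
    ↥(S36FI_act (M * q * q) (A.inertiaSubgroupIn ℚ)).fixF k Fk₁)
  (S₂ : S18_Val ↥(S36FI_act (M * q * q) (A.inertiaSubgroupIn ℚ)).fixK
    ↥(S36FI_act (M * q * q) (A.inertiaSubgroupIn ℚ)).fixF k Fk₂)
  (S₃ : S18_Val ↥(S36FI_act (M * q * q) (A.inertiaSubgroupIn ℚ)).fixK
    ↥(S36FI_act (M * q * q) (A.inertiaSubgroupIn ℚ)).fixF k Fk₃)
  (hO₁ : S₁.O = S36FL_OL (S36FI_act (M * q * q) (A.inertiaSubgroupIn ℚ)) (S36V_OFF M q hq A hA))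
  (hO₂ : S₂.O = S36FL_OL (S36FI_act (M * q * q) (A.inertiaSubgroupIn ℚ))
    (S36V_OFV M q hq hqM A hA ζ hζ hζ1))
  (hO₃ : S₃.O = S36FL_OL (S36FI_act (M * q * q) (A.inertiaSubgroupIn ℚ))
    (S36V_OVV M q hq hqM A hA))
  (dvr : ∀ i, IsDiscreteValuationRing
    (S36FL_OL (S36FI_act (M * q * q) (A.inertiaSubgroupIn ℚ))
      (S36IT_Ov3 M q hq hqM A hA ζ hζ hζ1 i)))
  (T : Set (Place Ω ↥(modularFunctionFieldBar (M * q * q))))

include hO₁ hO₂ hO₃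

/-- **`hOv`** of `S36LK_hun`: every vertical ring of the family is one of `S₁.O`, `S₂.O`,
`S₃.O`. -/
theorem S36CO_hOv_fam3 (i : Fin 3) :
    (S36IT_fam3 M q hq hqM A hA ζ hζ hζ1 dvr T).Ov i = S₁.O ∨
    (S36IT_fam3 M q hq hqM A hA ζ hζ hζ1 dvr T).Ov i = S₂.O ∨
    (S36IT_fam3 M q hq hqM A hA ζ hζ hζ1 dvr T).Ov i = S₃.O := by
  rw [S36IT_fam3_Ov, hO₁, hO₂, hO₃]
  fin_cases i
  · exact Or.inl rfl
  · exact Or.inr (Or.inl rfl)
  · exact Or.inr (Or.inr rfl)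

/-- **`D.Λ = O₃ ∩ B_T`** for the family `S36IT_fam3` of the chart `T`. -/
theorem S36CO_Lam_eq_fam3 :
    (S36IT_fam3 M q hq hqM A hA ζ hζ hζ1 dvr T).Λ =
      S36LJ_Lam S₁ S₂ S₃
        (S36I3_reg (S36FI_act (M * q * q) (A.inertiaSubgroupIn ℚ)) T).toSubring :=
  S36CO_Lam_eq (S36FI_act (M * q * q) (A.inertiaSubgroupIn ℚ)) S₁ S₂ S₃
    (S36IT_fam3 M q hq hqM A hA ζ hζ hζ1 dvr T) (fun _ => rfl)
    (S36CO_hOv_fam3 M q hq hqM A hA ζ hζ hζ1 S₁ S₂ S₃ hO₁ hO₂ hO₃ dvr T)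
    ⟨0, by rw [S36IT_fam3_Ov, hO₁]; rfl⟩ ⟨1, by rw [S36IT_fam3_Ov, hO₂]; rfl⟩
    ⟨2, by rw [S36IT_fam3_Ov, hO₃]; rfl⟩ T rfl

variable (j : ↥(S36FI_act (M * q * q) (A.inertiaSubgroupIn ℚ)).fixF)
  (c : ↥(S36FI_act (M * q * q) (A.inertiaSubgroupIn ℚ)).fixK)
  (x₁ : Fk₁) (x₂ : Fk₂) (x₃ : Fk₃) (z₁ : Fk₁) (z₂ : Fk₂) (z₃ : Fk₃) (n : ℕ) (hn : 0 < n)

/-- **`hle`** of `S36LK_*` for the chart `U` (in fact an equality: `S36CO_Lam_eq_fam3`). -/
theorem S36CO_hle_U :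
    (S36IT_fam3 M q hq hqM A hA ζ hζ hζ1 dvr
        (S34IX_TU (j : ↥(modularFunctionFieldBar (M * q * q))))).Λ ≤
      S36LJ_Lam S₁ S₂ S₃
        (S36CU_U (S36FI_act (M * q * q) (A.inertiaSubgroupIn ℚ)) k j x₁ x₂ x₃ n hn).B.toSubring :=
  (S36CO_Lam_eq_fam3 M q hq hqM A hA ζ hζ hζ1 S₁ S₂ S₃ hO₁ hO₂ hO₃ dvr _).le

/-- **`hle`** of `S36LK_*` for the chart `U'`. -/
theorem S36CO_hle_U' :
    (S36IT_fam3 M q hq hqM A hA ζ hζ hζ1 dvr
        (S34IX_TU' (j : ↥(modularFunctionFieldBar (M * q * q))) (c : Ω))).Λ ≤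
      S36LJ_Lam S₁ S₂ S₃
        (S36CU_U' (S36FI_act (M * q * q) (A.inertiaSubgroupIn ℚ)) k j c z₁ z₂ z₃ n
          hn).B.toSubring :=
  (S36CO_Lam_eq_fam3 M q hq hqM A hA ζ hζ hζ1 S₁ S₂ S₃ hO₁ hO₂ hO₃ dvr _).le

/-- **`hle`** of `S36LK_*` for the chart `U''`. -/
theorem S36CO_hle_U'' :
    (S36IT_fam3 M q hq hqM A hA ζ hζ hζ1 dvr
        (S34IX_TU'' (j : ↥(modularFunctionFieldBar (M * q * q))) (c : Ω))).Λ ≤
      S36LJ_Lam S₁ S₂ S₃
        (S36CU_U'' (S36FI_act (M * q * q) (A.inertiaSubgroupIn ℚ)) k j c x₁ x₂ x₃ z₁ z₂ z₃ n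
          hn).B.toSubring :=
  (S36CO_Lam_eq_fam3 M q hq hqM A hA ζ hζ hζ1 S₁ S₂ S₃ hO₁ hO₂ hO₃ dvr _).le

end hle

end Fermat.Agent.S36
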