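import Fermat.Agent.S36.OrdQInst
import Fermat.Agent.S36.Val3Three

/-!
# TRACK 10 (S36), package F5b ORD-FV-Q (helper24), part 6: the Gauss ring `FV` form

`M`, `q ∤ M` prime, `A ⊂ ℚ̄` a valuation subring of residue characteristic `q`, `ζ` a primitive
`q`-th root of unity, `FV = S36V_G A (S36V_emFV M q hq hqM ζ hζ hζ1)` the middle Gauss ring of
`F₂ = F_{M q²}` (helper12, `S36/Val3Three.lean`), `δ_A^* = α ∘ α`, `δ_C^* = β ∘ β : F_M → F₂`.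

For `τ ∈ S18_O A M` (Gauss-integral at level `M`):

* `S36OQ_dA_mem`, `S36OQ_dA_red` : `δ_A^* τ ∈ FV`, with reduction `τ̄`;
* `S36OQ_dC_mem`, `S36OQ_dC_red` : `δ_C^* τ ∈ FV`, with reduction `τ̄`;
* `S36OQ_varpi_mem`, `S36OQ_varpi_red` : `ϖ_τ = δ_C^* τ - δ_A^* τ ∈ FV`, with reduction `0`;
* `S36OQ_wProd_mem`, `S36OQ_wProd_red` : `q⁻¹ ∏_{i ∈ s} ϖ_{τ_i} ∈ FV` (`#s = q - 1`), with
  reduction `- ∏ θ τ̄_i`;
* `S36OQ_w_mem`, `S36OQ_w_red` : `w_τ = q⁻¹ ϖ_τ^{q-1} ∈ FV`, with reduction `-(θ τ̄)^{q-1}`;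
* `S36OQ_w_unit` : `w_τ` is a unit of `FV` as soon as `θ τ̄ ≠ 0`;
* `S36OQ_varpi_pow` : `ϖ_τ^{q-1} = q · w_τ` (so `ϖ_τ` is a uniformiser-like element of `FV`:
  its `(q-1)`-st power is `q` times a unit).
-/

set_option autoImplicit false
set_option synthInstance.maxHeartbeats 400000
set_option maxHeartbeats 1000000
set_option linter.style.haveILetI false
set_option linter.unusedSectionVars false

open HahnSeries IntermediateField AlgebraicCurve ModularCurve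

noncomputable section

namespace Fermat.Agent.S36

open Fermat.Agent.S18 Fermat.Agent.S24 Fermat.Agent.S34 Fermat.Agent.GalRep Fermat.Agent.Lib

local notation "ℚbar" => AlgebraicClosure ℚ

variable (M q : ℕ) [NeZero M] [NeZero q] (hq : q.Prime) (hqM : ¬ q ∣ M)
  (A : ValuationSubring ℚbar)
  (ζ : ℚbarˣ) (hζ : ζ ^ q = 1) (hζ1 : ζ ≠ 1)

/-- the inclusion `F_M ⊂ ℚ̄((t))` as a ring map (the embedding whose Gauss ring is `S18_O A M`). -/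
def S36OQ_coe0 : ↥(modularFunctionFieldBar M) →+* LaurentSeries ℚbar :=
  (laurentBaseChange ℚbar (modularFunctionFieldFull M)).val.toRingHom

theorem S36OQ_coe0_apply (τ : ↥(modularFunctionFieldBar M)) :
    S36OQ_coe0 M τ = (τ : LaurentSeries ℚbar) := rfl

theorem S36OQ_S18_le : S18_O A M ≤ S36V_G A (S36OQ_coe0 M) := S36V_S18_le A M

theorem S36OQ_Gred_S18 (τ : S18_O A M) :
    S36V_Gred A (S36OQ_coe0 M) ⟨τ.1, S36OQ_S18_le M A τ.2⟩ =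
      ((S18_red A M τ : ↥(modularFunctionFieldFullC (IsLocalRing.ResidueField A) M)) :
        LaurentSeries (IsLocalRing.ResidueField A)) :=
  S36V_Gred_S18 A M τ

/-! ### `δ_A^* τ` and `δ_C^* τ` -/

theorem S36OQ_emFV_dA (τ : ↥(modularFunctionFieldBar M)) :
    S36V_emFV M q hq hqM ζ hζ hζ1 (S36OQ_dA M q τ) = S36OQ_coe0 M τ :=
  S36OQ_iota_dA M q hq hqM ζ hζ hζ1 τ

theorem S36OQ_emFV_dC (τ : ↥(modularFunctionFieldBar M)) :
    S36V_emFV M q hq hqM ζ hζ hζ1 (S36OQ_dC M q τ) = ES_tw ζ (S36OQ_coe0 M τ) :=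
  S36OQ_iota_dC M q hq hqM ζ hζ hζ1 τ

/-- `δ_A^* τ ∈ FV` for `τ` Gauss-integral at level `M`. -/
theorem S36OQ_dA_mem (τ : S18_O A M) :
    S36OQ_dA M q (τ : ↥(modularFunctionFieldBar M)) ∈
      S36V_G A (S36V_emFV M q hq hqM ζ hζ hζ1) :=
  (S36V_mem_G_of_eq A _ (S36OQ_coe0 M) (S36OQ_emFV_dA M q hq hqM ζ hζ hζ1 τ.1)).2
    (S36OQ_S18_le M A τ.2)

theorem S36OQ_dA_red (τ : S18_O A M) :
    S36V_Gred A (S36V_emFV M q hq hqM ζ hζ hζ1)
        ⟨_, S36OQ_dA_mem M q hq hqM A ζ hζ hζ1 τ⟩ =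
      ((S18_red A M τ : ↥(modularFunctionFieldFullC (IsLocalRing.ResidueField A) M)) :
        LaurentSeries (IsLocalRing.ResidueField A)) := by
  rw [S36V_Gred_of_eq A _ (S36OQ_coe0 M) (S36OQ_emFV_dA M q hq hqM ζ hζ hζ1 τ.1) _
    (S36OQ_S18_le M A τ.2)]
  exact S36OQ_Gred_S18 M A τ

/-- `δ_C^* τ ∈ FV` for `τ` Gauss-integral at level `M`. -/
theorem S36OQ_dC_mem (τ : S18_O A M) :
    S36OQ_dC M q (τ : ↥(modularFunctionFieldBar M)) ∈
      S36V_G A (S36V_emFV M q hq hqM ζ hζ hζ1) :=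
  S36V_mem_G_of_eq_tw A _ (S36OQ_coe0 M) (S36V_zetaA q A ζ hζ)
    (by rw [S36V_zetaA_map]; exact S36OQ_emFV_dC M q hq hqM ζ hζ hζ1 τ.1)
    (S36OQ_S18_le M A τ.2)

theorem S36OQ_dC_red [Fact q.Prime] [CharP (IsLocalRing.ResidueField A) q] (τ : S18_O A M) :
    S36V_Gred A (S36V_emFV M q hq hqM ζ hζ hζ1)
        ⟨_, S36OQ_dC_mem M q hq hqM A ζ hζ hζ1 τ⟩ =
      ((S18_red A M τ : ↥(modularFunctionFieldFullC (IsLocalRing.ResidueField A) M)) :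
        LaurentSeries (IsLocalRing.ResidueField A)) := by
  have h1 := S36V_Gred_of_eq_tw A (S36V_emFV M q hq hqM ζ hζ hζ1) (S36OQ_coe0 M)
    (S36V_zetaA q A ζ hζ)
    (by rw [S36V_zetaA_map]; exact S36OQ_emFV_dC M q hq hqM ζ hζ hζ1 τ.1)
    (S36OQ_S18_le M A τ.2) (S36OQ_dC_mem M q hq hqM A ζ hζ hζ1 τ)
  rw [h1, S36V_zetaA_res, ES_tw_one]
  exact S36OQ_Gred_S18 M A τ

/-! ### `ϖ_τ` -/

/-- `ϖ_τ = δ_C^* τ - δ_A^* τ`. -/
def S36OQ_varpi (τ : ↥(modularFunctionFieldBar M)) : ↥(modularFunctionFieldBar (M * q * q)) :=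
  S36OQ_dC M q τ - S36OQ_dA M q τ

theorem S36OQ_varpi_mem (τ : S18_O A M) :
    S36OQ_varpi M q (τ : ↥(modularFunctionFieldBar M)) ∈
      S36V_G A (S36V_emFV M q hq hqM ζ hζ hζ1) :=
  Subring.sub_mem _ (S36OQ_dC_mem M q hq hqM A ζ hζ hζ1 τ)
    (S36OQ_dA_mem M q hq hqM A ζ hζ hζ1 τ)

/-- the reduction of `ϖ_τ` along `FV` vanishes. -/
theorem S36OQ_varpi_red [Fact q.Prime] [CharP (IsLocalRing.ResidueField A) q] (τ : S18_O A M) :
    S36V_Gred A (S36V_emFV M q hq hqM ζ hζ hζ1)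
        ⟨_, S36OQ_varpi_mem M q hq hqM A ζ hζ hζ1 τ⟩ = 0 := by
  have h : (⟨_, S36OQ_varpi_mem M q hq hqM A ζ hζ hζ1 τ⟩ :
      S36V_G A (S36V_emFV M q hq hqM ζ hζ hζ1)) =
      ⟨_, S36OQ_dC_mem M q hq hqM A ζ hζ hζ1 τ⟩ - ⟨_, S36OQ_dA_mem M q hq hqM A ζ hζ hζ1 τ⟩ :=
    Subtype.ext rfl
  rw [h, map_sub, S36OQ_dC_red, S36OQ_dA_red, sub_self]

/-! ### `w = q⁻¹ ∏ ϖ_{τ_i}` -/

/-- `q⁻¹ ∏_{i ∈ s} ϖ_{τ_i}`. -/
def S36OQ_wProd {ι : Type*} (s : Finset ι) (τ : ι → ↥(modularFunctionFieldBar M)) :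
    ↥(modularFunctionFieldBar (M * q * q)) :=
  (algebraMap ℚbar ↥(modularFunctionFieldBar (M * q * q)) (q : ℚbar))⁻¹ *
    ∏ i ∈ s, S36OQ_varpi M q (τ i)

/-- `w_τ = q⁻¹ ϖ_τ^{q-1}`. -/
def S36OQ_w (τ : ↥(modularFunctionFieldBar M)) : ↥(modularFunctionFieldBar (M * q * q)) :=
  (algebraMap ℚbar ↥(modularFunctionFieldBar (M * q * q)) (q : ℚbar))⁻¹ *
    S36OQ_varpi M q τ ^ (q - 1)

theorem S36OQ_w_eq_wProd (τ : ↥(modularFunctionFieldBar M)) :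
    S36OQ_w M q τ = S36OQ_wProd M q (Finset.univ : Finset (Fin (q - 1))) (fun _ => τ) := by
  rw [S36OQ_w, S36OQ_wProd, Finset.prod_const, Finset.card_univ, Fintype.card_fin]

include hq in
theorem S36OQ_q_ne_zero : (q : ℚbar) ≠ 0 := Nat.cast_ne_zero.2 hq.ne_zero

include hq in
/-- `∏ ϖ_{τ_i} = q · (q⁻¹ ∏ ϖ_{τ_i})`. -/
theorem S36OQ_prod_varpi {ι : Type*} (s : Finset ι) (τ : ι → ↥(modularFunctionFieldBar M)) :
    ∏ i ∈ s, S36OQ_varpi M q (τ i) =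
      algebraMap ℚbar ↥(modularFunctionFieldBar (M * q * q)) (q : ℚbar) *
        S36OQ_wProd M q s τ := by
  have h0 : algebraMap ℚbar ↥(modularFunctionFieldBar (M * q * q)) (q : ℚbar) ≠ 0 :=
    (map_ne_zero_iff _ (algebraMap ℚbar ↥(modularFunctionFieldBar (M * q * q))).injective).2
      (S36OQ_q_ne_zero q hq)
  rw [S36OQ_wProd, ← mul_assoc, mul_inv_cancel₀ h0, one_mul]

include hq in
/-- `ϖ_τ^{q-1} = q · w_τ`. -/
theorem S36OQ_varpi_pow (τ : ↥(modularFunctionFieldBar M)) :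
    S36OQ_varpi M q τ ^ (q - 1) =
      algebraMap ℚbar ↥(modularFunctionFieldBar (M * q * q)) (q : ℚbar) * S36OQ_w M q τ := by
  have h := S36OQ_prod_varpi M q hq (Finset.univ : Finset (Fin (q - 1))) (fun _ => τ)
  rw [Finset.prod_const, Finset.card_univ, Fintype.card_fin] at h
  rw [h, S36OQ_w_eq_wProd]

/-- the representation of `q⁻¹ ∏ ϖ_{τ_i}` as a Gauss fraction along `FV`. -/
theorem S36OQ_wProd_rep [Fact q.Prime] [CharP (IsLocalRing.ResidueField A) q]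
    {ι : Type*} (s : Finset ι) (hs : s.card = q - 1) (τ : ι → S18_O A M) :
    ∃ t₁ t₂ : LaurentSeries A,
      S18_ρ A t₂ ≠ 0 ∧
      S36V_emFV M q hq hqM ζ hζ hζ1
          (S36OQ_wProd M q s (fun i => (τ i : ↥(modularFunctionFieldBar M)))) *
        S18_ι A t₂ = S18_ι A t₁ ∧
      S18_ρ A t₁ =
        -(∏ i ∈ s, LT_theta ((S18_red A M (τ i) :
            ↥(modularFunctionFieldFullC (IsLocalRing.ResidueField A) M)) :
              LaurentSeries (IsLocalRing.ResidueField A))) * S18_ρ A t₂ := by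
  obtain ⟨t₁, t₂, h1, h2, h3⟩ := S36OQ_iota_prod M q hq hqM ζ hζ hζ1 A s hs τ
  refine ⟨t₁, t₂, h1, ?_, h3⟩
  have hq0 : (HahnSeries.C (q : ℚbar) : LaurentSeries ℚbar) ≠ 0 := by
    intro h
    have h' : (HahnSeries.C (q : ℚbar) : LaurentSeries ℚbar) = HahnSeries.C 0 := by
      rw [h, map_zero]
    exact S36OQ_q_ne_zero q hq (HahnSeries.C_injective h')
  have hc : S36V_emFV M q hq hqM ζ hζ hζ1
      (algebraMap ℚbar ↥(modularFunctionFieldBar (M * q * q)) (q : ℚbar)) =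
      HahnSeries.C (q : ℚbar) := by
    show S36V_iota M q hq hqM ζ hζ hζ1 (algebraMap ℚbar _ (q : ℚbar)) = _
    rw [AlgHom.commutes, algebraMap_laurentSeries_eq_single]
    rfl
  show S36V_emFV M q hq hqM ζ hζ hζ1
      ((algebraMap ℚbar ↥(modularFunctionFieldBar (M * q * q)) (q : ℚbar))⁻¹ *
        ∏ i ∈ s, S36OQ_varpi M q ((τ i : ↥(modularFunctionFieldBar M)))) *
        S18_ι A t₂ = S18_ι A t₁
  rw [map_mul, map_inv₀, hc, mul_assoc]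
  have h2' : S36V_emFV M q hq hqM ζ hζ hζ1
      (∏ i ∈ s, S36OQ_varpi M q ((τ i : ↥(modularFunctionFieldBar M)))) * S18_ι A t₂ =
      HahnSeries.C (q : ℚbar) * S18_ι A t₁ := h2
  rw [h2', ← mul_assoc, inv_mul_cancel₀ hq0, one_mul]

/-- **`q⁻¹ ∏ ϖ_{τ_i} ∈ FV`** (`#s = q - 1`, `τ_i` Gauss-integral at level `M`). -/
theorem S36OQ_wProd_mem [Fact q.Prime] [CharP (IsLocalRing.ResidueField A) q]
    {ι : Type*} (s : Finset ι) (hs : s.card = q - 1) (τ : ι → S18_O A M) :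
    S36OQ_wProd M q s (fun i => (τ i : ↥(modularFunctionFieldBar M))) ∈
      S36V_G A (S36V_emFV M q hq hqM ζ hζ hζ1) := by
  obtain ⟨t₁, t₂, h1, h2, -⟩ := S36OQ_wProd_rep M q hq hqM A ζ hζ hζ1 s hs τ
  exact ⟨t₁, t₂, h1, h2⟩

/-- **the reduction of `q⁻¹ ∏ ϖ_{τ_i}` along `FV` is `- ∏ θ τ̄_i`.** -/
theorem S36OQ_wProd_red [Fact q.Prime] [CharP (IsLocalRing.ResidueField A) q]
    {ι : Type*} (s : Finset ι) (hs : s.card = q - 1) (τ : ι → S18_O A M) :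
    S36V_Gred A (S36V_emFV M q hq hqM ζ hζ hζ1)
        ⟨_, S36OQ_wProd_mem M q hq hqM A ζ hζ hζ1 s hs τ⟩ =
      -(∏ i ∈ s, LT_theta ((S18_red A M (τ i) :
          ↥(modularFunctionFieldFullC (IsLocalRing.ResidueField A) M)) :
            LaurentSeries (IsLocalRing.ResidueField A))) := by
  obtain ⟨t₁, t₂, h1, h2, h3⟩ := S36OQ_wProd_rep M q hq hqM A ζ hζ hζ1 s hs τ
  rw [S36V_Gred_eq A _ _ h1 h2, h3, mul_div_assoc, div_self h1, mul_one]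

/-- **`w_τ = q⁻¹ ϖ_τ^{q-1} ∈ FV`.** -/
theorem S36OQ_w_mem [Fact q.Prime] [CharP (IsLocalRing.ResidueField A) q] (τ : S18_O A M) :
    S36OQ_w M q (τ : ↥(modularFunctionFieldBar M)) ∈
      S36V_G A (S36V_emFV M q hq hqM ζ hζ hζ1) := by
  rw [S36OQ_w_eq_wProd]
  exact S36OQ_wProd_mem M q hq hqM A ζ hζ hζ1 (Finset.univ : Finset (Fin (q - 1)))
    (by rw [Finset.card_univ, Fintype.card_fin]) (fun _ => τ)

/-- **the reduction of `w_τ` along `FV` is `-(θ τ̄)^{q-1}`.** -/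
theorem S36OQ_w_red [Fact q.Prime] [CharP (IsLocalRing.ResidueField A) q] (τ : S18_O A M) :
    S36V_Gred A (S36V_emFV M q hq hqM ζ hζ hζ1)
        ⟨_, S36OQ_w_mem M q hq hqM A ζ hζ hζ1 τ⟩ =
      -(LT_theta ((S18_red A M τ :
          ↥(modularFunctionFieldFullC (IsLocalRing.ResidueField A) M)) :
            LaurentSeries (IsLocalRing.ResidueField A))) ^ (q - 1) := by
  obtain ⟨t₁, t₂, h1, h2, h3⟩ := S36OQ_wProd_rep M q hq hqM A ζ hζ hζ1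
    (Finset.univ : Finset (Fin (q - 1))) (by rw [Finset.card_univ, Fintype.card_fin])
    (fun _ => τ)
  have h2' : S36V_emFV M q hq hqM ζ hζ hζ1 (S36OQ_w M q (τ : ↥(modularFunctionFieldBar M))) *
      S18_ι A t₂ = S18_ι A t₁ := by
    rw [S36OQ_w_eq_wProd]
    exact h2
  rw [S36V_Gred_eq A _ _ h1 h2', h3, Finset.prod_const, Finset.card_univ, Fintype.card_fin,
    mul_div_assoc, div_self h1, mul_one]

/-- `w_τ` is a unit of `FV` as soon as `θ τ̄ ≠ 0` (i.e. `τ̄` is not a `q`-th power). -/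
theorem S36OQ_w_unit [Fact q.Prime] [CharP (IsLocalRing.ResidueField A) q] (τ : S18_O A M)
    (hθ : LT_theta ((S18_red A M τ :
          ↥(modularFunctionFieldFullC (IsLocalRing.ResidueField A) M)) :
            LaurentSeries (IsLocalRing.ResidueField A)) ≠ 0) :
    (S36OQ_w M q (τ : ↥(modularFunctionFieldBar M)))⁻¹ ∈
      S36V_G A (S36V_emFV M q hq hqM ζ hζ hζ1) := by
  apply S36V_G_inv_mem A _ (S36OQ_w_mem M q hq hqM A ζ hζ hζ1 τ)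
  rw [S36OQ_w_red]
  exact neg_ne_zero.2 (pow_ne_zero _ hθ)

end Fermat.Agent.S36
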