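import Fermat.Agent.S36.FrobRatRep
import Fermat.Agent.S36.OrdQVal
import Fermat.Agent.S19.RatBCoef

/-!
# TRACK 10 (S36), package FROB-RAT (helper24), part 2: the functions `t₁`, `t₂`

`M`, `q ∤ M` prime, `A ⊂ ℚ̄` a valuation subring of residue characteristic `q`, `k` its residue
field, `F_M ⊂ ℚ̄((t))`, `F₂ = F_{M q²}`, the three Gauss rings `G_FF`, `G_FV`, `G_VV` of `F₂`
(helper12, `S36/Val3Three.lean`), `G₀ = S36V_G A (S36OQ_coe0 M) ⊇ S18_O A M` the Gauss ring of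
`F_M`, `τ̄ = S36V_Gred A (S36OQ_coe0 M) τ`.

`δ_A^* = α ∘ α`, `δ_B^* = α ∘ β = β ∘ α`, `δ_C^* = β ∘ β : F_M → F₂`
(`τ(z) ↦ τ(z), τ(qz), τ(q²z)`).

**The table** (`τ ∈ G₀`; `S36FR_dX_YY`, `S36FR_dX_YY_red`):

|            | `FF`         | `FV`     | `VV`         |
|------------|--------------|----------|--------------|
| `δ_A^* τ`  | `τ̄`          | `τ̄`      | `τ̄(t^{q²})`  |
| `δ_B^* τ`  | `τ̄(t^q)`     | `τ̄(t^q)` | `τ̄(t^q)`     |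
| `δ_C^* τ`  | `τ̄(t^{q²})`  | `τ̄`      | `τ̄`          |

**Rational `τ`** (`q`-expansion coefficients in `ℚ`, e.g. `τ` fixed by `Gal(ℚ̄/ℚ)`;
`S36FR_rat_of_fixed`):  `τ̄(t^q) = τ̄^q` (`S36FR_Gred_frob`), and for
`t₁ = δ_C^* τ - (δ_B^* τ)^q`, `t₂ = δ_A^* τ - (δ_B^* τ)^q`:

* `S36FR_t1_div_FF` : `t₁ / q ∈ G_FF`;  `S36FR_t2_div_VV` : `t₂ / q ∈ G_VV`;
* `S36FR_t1_FV_red`, `S36FR_t2_FV_red` : `red_FV t_i = τ̄ - τ̄^{q²}`;
* `S36FR_t1_VV_red`, `S36FR_t2_FF_red` : `red_VV t₁ = red_FF t₂ = τ̄ - τ̄^{q²}`;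
* `S36FR_t1_FF_red`, `S36FR_t2_VV_red` : `red_FF t₁ = red_VV t₂ = 0`.

`S36FR_main` : everything for `τ : S18_O A M` fixed by `Gal(ℚ̄/ℚ)` (helper16's shapes R1–R4).
-/

set_option autoImplicit false
set_option synthInstance.maxHeartbeats 400000
set_option maxHeartbeats 1000000
set_option linter.style.haveILetI false
set_option linter.unusedSectionVars false

open HahnSeries IntermediateField AlgebraicCurve ModularCurve

noncomputable section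

namespace Fermat.Agent.S36

open Fermat.Agent.S18 Fermat.Agent.S24 Fermat.Agent.S34 Fermat.Agent.GalRep Fermat.Agent.Lib
  Fermat.Agent.S19

local notation "ℚbar" => AlgebraicClosure ℚ

variable (M q : ℕ) [NeZero M] [NeZero q] (hq : q.Prime) (hqM : ¬ q ∣ M)
  (A : ValuationSubring ℚbar)
  (ζ : ℚbarˣ) (hζ : ζ ^ q = 1) (hζ1 : ζ ≠ 1)

/-! ### `δ_B^*` -/

/-- `δ_B^* = α ∘ β : F_M → F_{M q²}`, `τ(z) ↦ τ(q z)`. -/
def S36FR_dB : ↥(modularFunctionFieldBar M) →ₐ[ℚbar] ↥(modularFunctionFieldBar (M * q * q)) :=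
  (heckeAlphaBar ℚbar (M * q) q).comp (heckeBetaBar ℚbar M q)

theorem S36FR_dB_apply (τ : ↥(modularFunctionFieldBar M)) :
    S36FR_dB M q τ = heckeAlphaBar ℚbar (M * q) q (heckeBetaBar ℚbar M q τ) := rfl

/-- `α ∘ β = β ∘ α`. -/
theorem S36FR_dB_eq (τ : ↥(modularFunctionFieldBar M)) :
    S36FR_dB M q τ = heckeBetaBar ℚbar (M * q) q (heckeAlphaBar ℚbar M q τ) := by
  apply Subtype.ext
  rw [S36FR_dB_apply, coe_heckeAlphaBar, coe_heckeBetaBar, coe_heckeBetaBar, coe_heckeAlphaBar]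

/-! ### the series of `δ_A^* τ`, `δ_B^* τ`, `δ_C^* τ` along the three embeddings -/

theorem S36FR_emFF_dA (τ : ↥(modularFunctionFieldBar M)) :
    S36V_emFF M q (S36OQ_dA M q τ) = S36OQ_coe0 M τ := by
  show S36V_emFF M q (heckeAlphaBar ℚbar (M * q) q (heckeAlphaBar ℚbar M q τ)) = _
  rw [S36V_emFF_alpha, S36V_emF_apply, coe_heckeAlphaBar]
  rfl

theorem S36FR_emFF_dB (τ : ↥(modularFunctionFieldBar M)) :
    S36V_emFF M q (S36FR_dB M q τ) = qExpand ℚbar q (S36OQ_coe0 M τ) := by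
  show S36V_emFF M q (heckeAlphaBar ℚbar (M * q) q (heckeBetaBar ℚbar M q τ)) = _
  rw [S36V_emFF_alpha, S36V_emF_apply, coe_heckeBetaBar]
  rfl

theorem S36FR_emFF_dC (τ : ↥(modularFunctionFieldBar M)) :
    S36V_emFF M q (S36OQ_dC M q τ) = qExpand ℚbar q (qExpand ℚbar q (S36OQ_coe0 M τ)) := by
  show S36V_emFF M q (heckeBetaBar ℚbar (M * q) q (heckeBetaBar ℚbar M q τ)) = _
  rw [S36V_emFF_beta, S36V_emF_apply, coe_heckeBetaBar]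
  rfl

theorem S36FR_emFV_dB (τ : ↥(modularFunctionFieldBar M)) :
    S36V_emFV M q hq hqM ζ hζ hζ1 (S36FR_dB M q τ) = qExpand ℚbar q (S36OQ_coe0 M τ) := by
  show S36V_emFV M q hq hqM ζ hζ hζ1
    (heckeAlphaBar ℚbar (M * q) q (heckeBetaBar ℚbar M q τ)) = _
  rw [S36V_emFV_alpha, S36V_emF_apply, coe_heckeBetaBar]
  rfl

theorem S36FR_w2_dA (τ : ↥(modularFunctionFieldBar M)) :
    S36V_w2 M q hq hqM (S36OQ_dA M q τ) = S36OQ_dC M q τ := by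
  show S36V_w2 M q hq hqM (heckeAlphaBar ℚbar (M * q) q (heckeAlphaBar ℚbar M q τ)) =
    heckeBetaBar ℚbar (M * q) q (heckeBetaBar ℚbar M q τ)
  rw [S36V_w2_alpha, S34VW_wq_alpha]

theorem S36FR_w2_dC (τ : ↥(modularFunctionFieldBar M)) :
    S36V_w2 M q hq hqM (S36OQ_dC M q τ) = S36OQ_dA M q τ := by
  show S36V_w2 M q hq hqM (heckeBetaBar ℚbar (M * q) q (heckeBetaBar ℚbar M q τ)) =
    heckeAlphaBar ℚbar (M * q) q (heckeAlphaBar ℚbar M q τ)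
  rw [S36V_w2_beta, S34VW_wq_beta]

theorem S36FR_w2_dB (τ : ↥(modularFunctionFieldBar M)) :
    S36V_w2 M q hq hqM (S36FR_dB M q τ) = S36FR_dB M q τ := by
  rw [S36FR_dB_apply, S36V_w2_alpha, S34VW_wq_beta, ← S36FR_dB_eq, S36FR_dB_apply]

theorem S36FR_emVV_dA (τ : ↥(modularFunctionFieldBar M)) :
    S36V_emVV M q hq hqM (S36OQ_dA M q τ) =
      qExpand ℚbar q (qExpand ℚbar q (S36OQ_coe0 M τ)) := by
  rw [S36V_emVV_apply, S36FR_w2_dA]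
  exact S36FR_emFF_dC M q τ

theorem S36FR_emVV_dB (τ : ↥(modularFunctionFieldBar M)) :
    S36V_emVV M q hq hqM (S36FR_dB M q τ) = qExpand ℚbar q (S36OQ_coe0 M τ) := by
  rw [S36V_emVV_apply, S36FR_w2_dB]
  exact S36FR_emFF_dB M q τ

theorem S36FR_emVV_dC (τ : ↥(modularFunctionFieldBar M)) :
    S36V_emVV M q hq hqM (S36OQ_dC M q τ) = S36OQ_coe0 M τ := by
  rw [S36V_emVV_apply, S36FR_w2_dC]
  exact S36FR_emFF_dA M q τ

/-! ### pointwise transport along `t ↦ t^{q²}` -/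

section qq

variable {F F' : Type*} [Field F] [Field F'] (φ : F →+* LaurentSeries ℚbar)
  (φ' : F' →+* LaurentSeries ℚbar)

theorem S36FR_mem_G_qq {g : F} {f : F'}
    (h : φ g = qExpand ℚbar q (qExpand ℚbar q (φ' f))) (hf : f ∈ S36V_G A φ') :
    g ∈ S36V_G A φ :=
  S36V_mem_G_of_eq_post A φ φ' ((qExpand ℚbar q).comp (qExpand ℚbar q))
    ((qExpand A q).comp (qExpand A q))
    ((qExpand (IsLocalRing.ResidueField A) q).comp (qExpand (IsLocalRing.ResidueField A) q))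
    (fun s => by
      show coeffMap A.subtype (qExpand A q (qExpand A q s)) =
        qExpand ℚbar q (qExpand ℚbar q (coeffMap A.subtype s))
      rw [S36OQ_coeffMap_qExpand, S36OQ_coeffMap_qExpand])
    (fun s => by
      show coeffMap (IsLocalRing.residue A) (qExpand A q (qExpand A q s)) =
        qExpand _ q (qExpand _ q (coeffMap (IsLocalRing.residue A) s))
      rw [S36OQ_coeffMap_qExpand, S36OQ_coeffMap_qExpand])
    h hf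

theorem S36FR_Gred_qq {g : F} {f : F'}
    (h : φ g = qExpand ℚbar q (qExpand ℚbar q (φ' f))) (hf : f ∈ S36V_G A φ')
    (hg : g ∈ S36V_G A φ) :
    S36V_Gred A φ ⟨g, hg⟩ =
      qExpand (IsLocalRing.ResidueField A) q
        (qExpand (IsLocalRing.ResidueField A) q (S36V_Gred A φ' ⟨f, hf⟩)) :=
  S36V_Gred_of_eq_post A φ φ' ((qExpand ℚbar q).comp (qExpand ℚbar q))
    ((qExpand A q).comp (qExpand A q))
    ((qExpand (IsLocalRing.ResidueField A) q).comp (qExpand (IsLocalRing.ResidueField A) q))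
    (fun s => by
      show coeffMap A.subtype (qExpand A q (qExpand A q s)) =
        qExpand ℚbar q (qExpand ℚbar q (coeffMap A.subtype s))
      rw [S36OQ_coeffMap_qExpand, S36OQ_coeffMap_qExpand])
    (fun s => by
      show coeffMap (IsLocalRing.residue A) (qExpand A q (qExpand A q s)) =
        qExpand _ q (qExpand _ q (coeffMap (IsLocalRing.residue A) s))
      rw [S36OQ_coeffMap_qExpand, S36OQ_coeffMap_qExpand])
    h hf hg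

end qq

/-! ### the table: memberships -/

section table

variable {τ : ↥(modularFunctionFieldBar M)} (hτ : τ ∈ S36V_G A (S36OQ_coe0 M))

include hτ

theorem S36FR_dA_FF : S36OQ_dA M q τ ∈ S36V_G A (S36V_emFF M q) :=
  (S36V_mem_G_of_eq A _ (S36OQ_coe0 M) (S36FR_emFF_dA M q τ)).2 hτ

theorem S36FR_dB_FF : S36FR_dB M q τ ∈ S36V_G A (S36V_emFF M q) :=
  S36V_mem_G_of_eq_qExpand A _ (S36OQ_coe0 M) q (S36FR_emFF_dB M q τ) hτ

theorem S36FR_dC_FF : S36OQ_dC M q τ ∈ S36V_G A (S36V_emFF M q) :=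
  S36FR_mem_G_qq q A _ (S36OQ_coe0 M) (S36FR_emFF_dC M q τ) hτ

theorem S36FR_dA_FV : S36OQ_dA M q τ ∈ S36V_G A (S36V_emFV M q hq hqM ζ hζ hζ1) :=
  (S36V_mem_G_of_eq A _ (S36OQ_coe0 M) (S36OQ_emFV_dA M q hq hqM ζ hζ hζ1 τ)).2 hτ

theorem S36FR_dB_FV : S36FR_dB M q τ ∈ S36V_G A (S36V_emFV M q hq hqM ζ hζ hζ1) :=
  S36V_mem_G_of_eq_qExpand A _ (S36OQ_coe0 M) q (S36FR_emFV_dB M q hq hqM ζ hζ hζ1 τ) hτ

theorem S36FR_dC_FV : S36OQ_dC M q τ ∈ S36V_G A (S36V_emFV M q hq hqM ζ hζ hζ1) :=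
  S36V_mem_G_of_eq_tw A _ (S36OQ_coe0 M) (S36V_zetaA q A ζ hζ)
    (by rw [S36V_zetaA_map]; exact S36OQ_emFV_dC M q hq hqM ζ hζ hζ1 τ) hτ

theorem S36FR_dA_VV : S36OQ_dA M q τ ∈ S36V_G A (S36V_emVV M q hq hqM) :=
  S36FR_mem_G_qq q A _ (S36OQ_coe0 M) (S36FR_emVV_dA M q hq hqM τ) hτ

theorem S36FR_dB_VV : S36FR_dB M q τ ∈ S36V_G A (S36V_emVV M q hq hqM) :=
  S36V_mem_G_of_eq_qExpand A _ (S36OQ_coe0 M) q (S36FR_emVV_dB M q hq hqM τ) hτ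

theorem S36FR_dC_VV : S36OQ_dC M q τ ∈ S36V_G A (S36V_emVV M q hq hqM) :=
  (S36V_mem_G_of_eq A _ (S36OQ_coe0 M) (S36FR_emVV_dC M q hq hqM τ)).2 hτ

/-! ### the table: reductions -/

theorem S36FR_dA_FF_red (h : S36OQ_dA M q τ ∈ S36V_G A (S36V_emFF M q)) :
    S36V_Gred A (S36V_emFF M q) ⟨_, h⟩ = S36V_Gred A (S36OQ_coe0 M) ⟨τ, hτ⟩ :=
  S36V_Gred_of_eq A _ (S36OQ_coe0 M) (S36FR_emFF_dA M q τ) h hτ

theorem S36FR_dB_FF_red (h : S36FR_dB M q τ ∈ S36V_G A (S36V_emFF M q)) :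
    S36V_Gred A (S36V_emFF M q) ⟨_, h⟩ =
      qExpand (IsLocalRing.ResidueField A) q (S36V_Gred A (S36OQ_coe0 M) ⟨τ, hτ⟩) :=
  S36V_Gred_of_eq_qExpand A _ (S36OQ_coe0 M) q (S36FR_emFF_dB M q τ) hτ h

theorem S36FR_dC_FF_red (h : S36OQ_dC M q τ ∈ S36V_G A (S36V_emFF M q)) :
    S36V_Gred A (S36V_emFF M q) ⟨_, h⟩ =
      qExpand (IsLocalRing.ResidueField A) q
        (qExpand (IsLocalRing.ResidueField A) q (S36V_Gred A (S36OQ_coe0 M) ⟨τ, hτ⟩)) :=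
  S36FR_Gred_qq q A _ (S36OQ_coe0 M) (S36FR_emFF_dC M q τ) hτ h

theorem S36FR_dA_FV_red (h : S36OQ_dA M q τ ∈ S36V_G A (S36V_emFV M q hq hqM ζ hζ hζ1)) :
    S36V_Gred A (S36V_emFV M q hq hqM ζ hζ hζ1) ⟨_, h⟩ =
      S36V_Gred A (S36OQ_coe0 M) ⟨τ, hτ⟩ :=
  S36V_Gred_of_eq A _ (S36OQ_coe0 M) (S36OQ_emFV_dA M q hq hqM ζ hζ hζ1 τ) h hτ

theorem S36FR_dB_FV_red (h : S36FR_dB M q τ ∈ S36V_G A (S36V_emFV M q hq hqM ζ hζ hζ1)) :
    S36V_Gred A (S36V_emFV M q hq hqM ζ hζ hζ1) ⟨_, h⟩ =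
      qExpand (IsLocalRing.ResidueField A) q (S36V_Gred A (S36OQ_coe0 M) ⟨τ, hτ⟩) :=
  S36V_Gred_of_eq_qExpand A _ (S36OQ_coe0 M) q (S36FR_emFV_dB M q hq hqM ζ hζ hζ1 τ) hτ h

theorem S36FR_dC_FV_red [Fact q.Prime] [CharP (IsLocalRing.ResidueField A) q]
    (h : S36OQ_dC M q τ ∈ S36V_G A (S36V_emFV M q hq hqM ζ hζ hζ1)) :
    S36V_Gred A (S36V_emFV M q hq hqM ζ hζ hζ1) ⟨_, h⟩ =
      S36V_Gred A (S36OQ_coe0 M) ⟨τ, hτ⟩ := by
  have h1 := S36V_Gred_of_eq_tw A (S36V_emFV M q hq hqM ζ hζ hζ1) (S36OQ_coe0 M)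
    (S36V_zetaA q A ζ hζ)
    (by rw [S36V_zetaA_map]; exact S36OQ_emFV_dC M q hq hqM ζ hζ hζ1 τ) hτ h
  rw [h1, S36V_zetaA_res, ES_tw_one]

theorem S36FR_dA_VV_red (h : S36OQ_dA M q τ ∈ S36V_G A (S36V_emVV M q hq hqM)) :
    S36V_Gred A (S36V_emVV M q hq hqM) ⟨_, h⟩ =
      qExpand (IsLocalRing.ResidueField A) q
        (qExpand (IsLocalRing.ResidueField A) q (S36V_Gred A (S36OQ_coe0 M) ⟨τ, hτ⟩)) :=
  S36FR_Gred_qq q A _ (S36OQ_coe0 M) (S36FR_emVV_dA M q hq hqM τ) hτ h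

theorem S36FR_dB_VV_red (h : S36FR_dB M q τ ∈ S36V_G A (S36V_emVV M q hq hqM)) :
    S36V_Gred A (S36V_emVV M q hq hqM) ⟨_, h⟩ =
      qExpand (IsLocalRing.ResidueField A) q (S36V_Gred A (S36OQ_coe0 M) ⟨τ, hτ⟩) :=
  S36V_Gred_of_eq_qExpand A _ (S36OQ_coe0 M) q (S36FR_emVV_dB M q hq hqM τ) hτ h

theorem S36FR_dC_VV_red (h : S36OQ_dC M q τ ∈ S36V_G A (S36V_emVV M q hq hqM)) :
    S36V_Gred A (S36V_emVV M q hq hqM) ⟨_, h⟩ = S36V_Gred A (S36OQ_coe0 M) ⟨τ, hτ⟩ :=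
  S36V_Gred_of_eq A _ (S36OQ_coe0 M) (S36FR_emVV_dC M q hq hqM τ) h hτ

end table

/-! ### the functions `t₁`, `t₂` -/

/-- `t₁ = δ_C^* τ - (δ_B^* τ)^q`, `τ(q² z) - τ(q z)^q`. -/
def S36FR_t1 (τ : ↥(modularFunctionFieldBar M)) : ↥(modularFunctionFieldBar (M * q * q)) :=
  S36OQ_dC M q τ - S36FR_dB M q τ ^ q

/-- `t₂ = δ_A^* τ - (δ_B^* τ)^q`, `τ(z) - τ(q z)^q`. -/
def S36FR_t2 (τ : ↥(modularFunctionFieldBar M)) : ↥(modularFunctionFieldBar (M * q * q)) :=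
  S36OQ_dA M q τ - S36FR_dB M q τ ^ q

theorem S36FR_w2_t2 (τ : ↥(modularFunctionFieldBar M)) :
    S36V_w2 M q hq hqM (S36FR_t2 M q τ) = S36FR_t1 M q τ := by
  rw [S36FR_t2, S36FR_t1, map_sub, map_pow, S36FR_w2_dA, S36FR_w2_dB]

theorem S36FR_w2_t1 (τ : ↥(modularFunctionFieldBar M)) :
    S36V_w2 M q hq hqM (S36FR_t1 M q τ) = S36FR_t2 M q τ := by
  rw [S36FR_t2, S36FR_t1, map_sub, map_pow, S36FR_w2_dC, S36FR_w2_dB]

section tmem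

variable {τ : ↥(modularFunctionFieldBar M)} (hτ : τ ∈ S36V_G A (S36OQ_coe0 M))

include hτ

theorem S36FR_t1_FF : S36FR_t1 M q τ ∈ S36V_G A (S36V_emFF M q) :=
  Subring.sub_mem _ (S36FR_dC_FF M q A hτ) (Subring.pow_mem _ (S36FR_dB_FF M q A hτ) q)

theorem S36FR_t1_FV : S36FR_t1 M q τ ∈ S36V_G A (S36V_emFV M q hq hqM ζ hζ hζ1) :=
  Subring.sub_mem _ (S36FR_dC_FV M q hq hqM A ζ hζ hζ1 hτ)
    (Subring.pow_mem _ (S36FR_dB_FV M q hq hqM A ζ hζ hζ1 hτ) q)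

theorem S36FR_t1_VV : S36FR_t1 M q τ ∈ S36V_G A (S36V_emVV M q hq hqM) :=
  Subring.sub_mem _ (S36FR_dC_VV M q hq hqM A hτ)
    (Subring.pow_mem _ (S36FR_dB_VV M q hq hqM A hτ) q)

theorem S36FR_t2_FF : S36FR_t2 M q τ ∈ S36V_G A (S36V_emFF M q) :=
  Subring.sub_mem _ (S36FR_dA_FF M q A hτ) (Subring.pow_mem _ (S36FR_dB_FF M q A hτ) q)

theorem S36FR_t2_FV : S36FR_t2 M q τ ∈ S36V_G A (S36V_emFV M q hq hqM ζ hζ hζ1) :=
  Subring.sub_mem _ (S36FR_dA_FV M q hq hqM A ζ hζ hζ1 hτ)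
    (Subring.pow_mem _ (S36FR_dB_FV M q hq hqM A ζ hζ hζ1 hτ) q)

theorem S36FR_t2_VV : S36FR_t2 M q τ ∈ S36V_G A (S36V_emVV M q hq hqM) :=
  Subring.sub_mem _ (S36FR_dA_VV M q hq hqM A hτ)
    (Subring.pow_mem _ (S36FR_dB_VV M q hq hqM A hτ) q)

end tmem

/-! ### rational functions -/

/-- `τ` has rational `q`-expansion coefficients. -/
def S36FR_Rat (τ : ↥(modularFunctionFieldBar M)) : Prop :=
  ∀ n, (τ : LaurentSeries ℚbar).coeff n ∈ Set.range (algebraMap ℚ ℚbar)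

/-- functions fixed by `Gal(ℚ̄/ℚ)` are rational. -/
theorem S36FR_rat_of_fixed (τ : ↥(modularFunctionFieldBar M))
    (h : ∀ σ : ℚbar ≃ₐ[ℚ] ℚbar, arithmeticGalois (modularFunctionFieldFull M) σ • τ = τ) :
    S36FR_Rat M τ :=
  fun n => S19RC_rat M τ h n

/-- a general computation in a subring with a ring map. -/
theorem S36FR_sub_pow_red {F R : Type*} [Field F] [CommRing R] (G : Subring F) (r : G →+* R)
    {x y : F} (hx : x ∈ G) (hy : y ∈ G) (n : ℕ) (h : x - y ^ n ∈ G) :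
    r ⟨x - y ^ n, h⟩ = r ⟨x, hx⟩ - r ⟨y, hy⟩ ^ n := by
  have e : (⟨x - y ^ n, h⟩ : G) = ⟨x, hx⟩ - ⟨y, hy⟩ ^ n := Subtype.ext rfl
  rw [e, map_sub, map_pow]

section rational

variable [Fact q.Prime] [CharP (IsLocalRing.ResidueField A) q]

variable {τ : ↥(modularFunctionFieldBar M)} (hτ : τ ∈ S36V_G A (S36OQ_coe0 M))
  (hrat : S36FR_Rat M τ)

/-- the reduction of a fraction of integer series. -/
theorem S36FR_Gred_eq_int (a b : LaurentSeries ℤ)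
    (hb : coeffMap (Int.castRingHom (IsLocalRing.ResidueField A)) b ≠ 0)
    (h : S36OQ_coe0 M τ * coeffMap (Int.castRingHom ℚbar) b =
      coeffMap (Int.castRingHom ℚbar) a) :
    S36V_Gred A (S36OQ_coe0 M) ⟨τ, hτ⟩ =
      coeffMap (Int.castRingHom (IsLocalRing.ResidueField A)) a /
        coeffMap (Int.castRingHom (IsLocalRing.ResidueField A)) b := by
  have h1 := S36V_Gred_eq A (S36OQ_coe0 M) hτ (s₁ := coeffMap (Int.castRingHom A) a)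
    (s₂ := coeffMap (Int.castRingHom A) b) (by rw [S36FR_rho_int]; exact hb)
    (by rw [S36FR_iota_int, S36FR_iota_int]; exact h)
  rw [h1, S36FR_rho_int, S36FR_rho_int]

include hrat in
/-- **the reduction of a rational function has `𝔽_q`-coefficients**: `τ̄(t^q) = τ̄^q`. -/
theorem S36FR_Gred_frob :
    qExpand (IsLocalRing.ResidueField A) q (S36V_Gred A (S36OQ_coe0 M) ⟨τ, hτ⟩) =
      S36V_Gred A (S36OQ_coe0 M) ⟨τ, hτ⟩ ^ q := by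
  obtain ⟨a, b, hb, h⟩ := S36FR_rep A M q τ hrat hτ
  rw [S36FR_Gred_eq_int M A hτ a b hb h]
  exact S36FR_red_frob q _ a b

include hq hrat in
/-- **`t₁ / q ∈ G_FF`.** -/
theorem S36FR_t1_div_FF (hτ : τ ∈ S36V_G A (S36OQ_coe0 M)) :
    (algebraMap ℚbar ↥(modularFunctionFieldBar (M * q * q)) (q : ℚbar))⁻¹ * S36FR_t1 M q τ ∈
      S36V_G A (S36V_emFF M q) := by
  obtain ⟨a, b, hb, h⟩ := S36FR_rep A M q τ hrat hτ
  replace h : S36OQ_coe0 M τ * coeffMap (Int.castRingHom ℚbar) b =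
      coeffMap (Int.castRingHom ℚbar) a := h
  have hy : qExpand ℚbar q (S36OQ_coe0 M τ) * coeffMap (Int.castRingHom ℚbar) (qExpand ℤ q b) =
      coeffMap (Int.castRingHom ℚbar) (qExpand ℤ q a) := by
    rw [S36OQ_coeffMap_qExpand, S36OQ_coeffMap_qExpand, ← map_mul, h]
  have hyb : coeffMap (Int.castRingHom (IsLocalRing.ResidueField A)) (qExpand ℤ q b) ≠ 0 := by
    rw [S36OQ_coeffMap_qExpand]
    exact (map_ne_zero_iff _ (qExpand (IsLocalRing.ResidueField A) q).injective).2 hb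
  obtain ⟨c, d, hd, hcd⟩ := S36FR_frob_frac q (IsLocalRing.ResidueField A)
    (qExpand ℚbar q (S36OQ_coe0 M τ)) _ _ hyb hy
  refine ⟨coeffMap (Int.castRingHom A) c, coeffMap (Int.castRingHom A) d,
    by rw [S36FR_rho_int]; exact hd, ?_⟩
  rw [S36FR_iota_int, S36FR_iota_int]
  have hq0 : (HahnSeries.C (q : ℚbar) : LaurentSeries ℚbar) ≠ 0 := by
    intro h0
    have h' : (HahnSeries.C (q : ℚbar) : LaurentSeries ℚbar) = HahnSeries.C 0 := by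
      rw [h0, map_zero]
    exact S36OQ_q_ne_zero q hq (HahnSeries.C_injective h')
  have hc : S36V_emFF M q
      (algebraMap ℚbar ↥(modularFunctionFieldBar (M * q * q)) (q : ℚbar)) =
      HahnSeries.C (q : ℚbar) := by
    show (modularFunctionFieldBar (M * q * q)).val (algebraMap ℚbar _ (q : ℚbar)) = _
    rw [AlgHom.commutes, algebraMap_laurentSeries_eq_single]
    rfl
  have ht : S36V_emFF M q (S36FR_t1 M q τ) =
      qExpand ℚbar q (qExpand ℚbar q (S36OQ_coe0 M τ)) -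
        qExpand ℚbar q (S36OQ_coe0 M τ) ^ q := by
    rw [S36FR_t1, map_sub, map_pow, S36FR_emFF_dC, S36FR_emFF_dB]
  rw [map_mul, map_inv₀, hc, ht, mul_assoc, hcd, Int.cast_natCast, ← mul_assoc,
    inv_mul_cancel₀ hq0, one_mul]

include hq hrat in
/-- **`t₂ / q ∈ G_VV`.** -/
theorem S36FR_t2_div_VV (hτ : τ ∈ S36V_G A (S36OQ_coe0 M)) :
    (algebraMap ℚbar ↥(modularFunctionFieldBar (M * q * q)) (q : ℚbar))⁻¹ * S36FR_t2 M q τ ∈
      S36V_G A (S36V_emVV M q hq hqM) := by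
  have h : S36V_emVV M q hq hqM
      ((algebraMap ℚbar ↥(modularFunctionFieldBar (M * q * q)) (q : ℚbar))⁻¹ *
        S36FR_t2 M q τ) =
      S36V_emFF M q
        ((algebraMap ℚbar ↥(modularFunctionFieldBar (M * q * q)) (q : ℚbar))⁻¹ *
          S36FR_t1 M q τ) := by
    rw [S36V_emVV_apply, S36V_emFF_apply, map_mul, map_inv₀, AlgEquiv.commutes, S36FR_w2_t2]
  exact (S36V_mem_G_of_eq A _ (S36V_emFF M q) h).2 (S36FR_t1_div_FF M q hq A hrat hτ)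

include hrat

include hτ in
theorem S36FR_t1_FF_red (h : S36FR_t1 M q τ ∈ S36V_G A (S36V_emFF M q)) :
    S36V_Gred A (S36V_emFF M q) ⟨_, h⟩ = 0 := by
  refine (S36FR_sub_pow_red _ (S36V_Gred A (S36V_emFF M q)) (S36FR_dC_FF M q A hτ)
    (S36FR_dB_FF M q A hτ) q h).trans ?_
  rw [S36FR_dC_FF_red M q A hτ, S36FR_dB_FF_red M q A hτ,
    ← map_pow, S36FR_Gred_frob M q A hτ hrat, sub_self]

theorem S36FR_t1_FV_red (h : S36FR_t1 M q τ ∈ S36V_G A (S36V_emFV M q hq hqM ζ hζ hζ1)) :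
    S36V_Gred A (S36V_emFV M q hq hqM ζ hζ hζ1) ⟨_, h⟩ =
      S36V_Gred A (S36OQ_coe0 M) ⟨τ, hτ⟩ - S36V_Gred A (S36OQ_coe0 M) ⟨τ, hτ⟩ ^ (q ^ 2) := by
  refine (S36FR_sub_pow_red _ (S36V_Gred A (S36V_emFV M q hq hqM ζ hζ hζ1)) (S36FR_dC_FV M q hq hqM A ζ hζ hζ1 hτ)
    (S36FR_dB_FV M q hq hqM A ζ hζ hζ1 hτ) q h).trans ?_
  rw [S36FR_dC_FV_red M q hq hqM A ζ hζ hζ1 hτ, S36FR_dB_FV_red M q hq hqM A ζ hζ hζ1 hτ,
    S36FR_Gred_frob M q A hτ hrat, ← pow_mul, ← sq]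

theorem S36FR_t1_VV_red (h : S36FR_t1 M q τ ∈ S36V_G A (S36V_emVV M q hq hqM)) :
    S36V_Gred A (S36V_emVV M q hq hqM) ⟨_, h⟩ =
      S36V_Gred A (S36OQ_coe0 M) ⟨τ, hτ⟩ - S36V_Gred A (S36OQ_coe0 M) ⟨τ, hτ⟩ ^ (q ^ 2) := by
  refine (S36FR_sub_pow_red _ (S36V_Gred A (S36V_emVV M q hq hqM)) (S36FR_dC_VV M q hq hqM A hτ)
    (S36FR_dB_VV M q hq hqM A hτ) q h).trans ?_
  rw [S36FR_dC_VV_red M q hq hqM A hτ, S36FR_dB_VV_red M q hq hqM A hτ,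
    S36FR_Gred_frob M q A hτ hrat, ← pow_mul, ← sq]

theorem S36FR_t2_FF_red (h : S36FR_t2 M q τ ∈ S36V_G A (S36V_emFF M q)) :
    S36V_Gred A (S36V_emFF M q) ⟨_, h⟩ =
      S36V_Gred A (S36OQ_coe0 M) ⟨τ, hτ⟩ - S36V_Gred A (S36OQ_coe0 M) ⟨τ, hτ⟩ ^ (q ^ 2) := by
  refine (S36FR_sub_pow_red _ (S36V_Gred A (S36V_emFF M q)) (S36FR_dA_FF M q A hτ)
    (S36FR_dB_FF M q A hτ) q h).trans ?_
  rw [S36FR_dA_FF_red M q A hτ, S36FR_dB_FF_red M q A hτ,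
    S36FR_Gred_frob M q A hτ hrat, ← pow_mul, ← sq]

theorem S36FR_t2_FV_red (h : S36FR_t2 M q τ ∈ S36V_G A (S36V_emFV M q hq hqM ζ hζ hζ1)) :
    S36V_Gred A (S36V_emFV M q hq hqM ζ hζ hζ1) ⟨_, h⟩ =
      S36V_Gred A (S36OQ_coe0 M) ⟨τ, hτ⟩ - S36V_Gred A (S36OQ_coe0 M) ⟨τ, hτ⟩ ^ (q ^ 2) := by
  refine (S36FR_sub_pow_red _ (S36V_Gred A (S36V_emFV M q hq hqM ζ hζ hζ1)) (S36FR_dA_FV M q hq hqM A ζ hζ hζ1 hτ)
    (S36FR_dB_FV M q hq hqM A ζ hζ hζ1 hτ) q h).trans ?_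
  rw [S36FR_dA_FV_red M q hq hqM A ζ hζ hζ1 hτ, S36FR_dB_FV_red M q hq hqM A ζ hζ hζ1 hτ,
    S36FR_Gred_frob M q A hτ hrat, ← pow_mul, ← sq]

include hτ in
theorem S36FR_t2_VV_red (h : S36FR_t2 M q τ ∈ S36V_G A (S36V_emVV M q hq hqM)) :
    S36V_Gred A (S36V_emVV M q hq hqM) ⟨_, h⟩ = 0 := by
  refine (S36FR_sub_pow_red _ (S36V_Gred A (S36V_emVV M q hq hqM)) (S36FR_dA_VV M q hq hqM A hτ)
    (S36FR_dB_VV M q hq hqM A hτ) q h).trans ?_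
  rw [S36FR_dA_VV_red M q hq hqM A hτ, S36FR_dB_VV_red M q hq hqM A hτ,
    ← map_pow, S36FR_Gred_frob M q A hτ hrat, sub_self]

end rational

/-! ### the package for `τ : S18_O A M` fixed by `Gal(ℚ̄/ℚ)` (helper16's shapes R1–R5) -/

section main

variable [Fact q.Prime] [CharP (IsLocalRing.ResidueField A) q] (τ : S18_O A M)

/-- **(R4)** `δ_A^* τ, δ_B^* τ, δ_C^* τ ∈ G_FF ∩ G_FV ∩ G_VV` (no rationality needed). -/
theorem S36FR_R4 :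
    (S36OQ_dA M q (τ : ↥(modularFunctionFieldBar M)) ∈ S36V_G A (S36V_emFF M q) ∧
      S36FR_dB M q (τ : ↥(modularFunctionFieldBar M)) ∈ S36V_G A (S36V_emFF M q) ∧
      S36OQ_dC M q (τ : ↥(modularFunctionFieldBar M)) ∈ S36V_G A (S36V_emFF M q)) ∧
    (S36OQ_dA M q (τ : ↥(modularFunctionFieldBar M)) ∈
        S36V_G A (S36V_emFV M q hq hqM ζ hζ hζ1) ∧
      S36FR_dB M q (τ : ↥(modularFunctionFieldBar M)) ∈
        S36V_G A (S36V_emFV M q hq hqM ζ hζ hζ1) ∧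
      S36OQ_dC M q (τ : ↥(modularFunctionFieldBar M)) ∈
        S36V_G A (S36V_emFV M q hq hqM ζ hζ hζ1)) ∧
    (S36OQ_dA M q (τ : ↥(modularFunctionFieldBar M)) ∈ S36V_G A (S36V_emVV M q hq hqM) ∧
      S36FR_dB M q (τ : ↥(modularFunctionFieldBar M)) ∈ S36V_G A (S36V_emVV M q hq hqM) ∧
      S36OQ_dC M q (τ : ↥(modularFunctionFieldBar M)) ∈ S36V_G A (S36V_emVV M q hq hqM)) :=
  have hτ := S36OQ_S18_le M A τ.2
  ⟨⟨S36FR_dA_FF M q A hτ, S36FR_dB_FF M q A hτ, S36FR_dC_FF M q A hτ⟩,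
    ⟨S36FR_dA_FV M q hq hqM A ζ hζ hζ1 hτ, S36FR_dB_FV M q hq hqM A ζ hζ hζ1 hτ,
      S36FR_dC_FV M q hq hqM A ζ hζ hζ1 hτ⟩,
    ⟨S36FR_dA_VV M q hq hqM A hτ, S36FR_dB_VV M q hq hqM A hτ, S36FR_dC_VV M q hq hqM A hτ⟩⟩

/-- `t₁, t₂ ∈ G_FF ∩ G_FV ∩ G_VV` (no rationality needed). -/
theorem S36FR_t_mem :
    (S36FR_t1 M q (τ : ↥(modularFunctionFieldBar M)) ∈ S36V_G A (S36V_emFF M q) ∧
      S36FR_t2 M q (τ : ↥(modularFunctionFieldBar M)) ∈ S36V_G A (S36V_emFF M q)) ∧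
    (S36FR_t1 M q (τ : ↥(modularFunctionFieldBar M)) ∈
        S36V_G A (S36V_emFV M q hq hqM ζ hζ hζ1) ∧
      S36FR_t2 M q (τ : ↥(modularFunctionFieldBar M)) ∈
        S36V_G A (S36V_emFV M q hq hqM ζ hζ hζ1)) ∧
    (S36FR_t1 M q (τ : ↥(modularFunctionFieldBar M)) ∈ S36V_G A (S36V_emVV M q hq hqM) ∧
      S36FR_t2 M q (τ : ↥(modularFunctionFieldBar M)) ∈ S36V_G A (S36V_emVV M q hq hqM)) :=
  have hτ := S36OQ_S18_le M A τ.2
  ⟨⟨S36FR_t1_FF M q A hτ, S36FR_t2_FF M q A hτ⟩,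
    ⟨S36FR_t1_FV M q hq hqM A ζ hζ hζ1 hτ, S36FR_t2_FV M q hq hqM A ζ hζ hζ1 hτ⟩,
    ⟨S36FR_t1_VV M q hq hqM A hτ, S36FR_t2_VV M q hq hqM A hτ⟩⟩

variable (hfix : ∀ σ : ℚbar ≃ₐ[ℚ] ℚbar,
  arithmeticGalois (modularFunctionFieldFull M) σ • (τ : ↥(modularFunctionFieldBar M)) =
    (τ : ↥(modularFunctionFieldBar M)))

include hfix

/-- **(R5)** the reduction of a `Gal(ℚ̄/ℚ)`-fixed function has `𝔽_q`-coefficients:
`τ̄(t^q) = τ̄^q`. -/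
theorem S36FR_R5 :
    qExpand (IsLocalRing.ResidueField A) q
        ((S18_red A M τ : ↥(modularFunctionFieldFullC (IsLocalRing.ResidueField A) M)) :
          LaurentSeries (IsLocalRing.ResidueField A)) =
      ((S18_red A M τ : ↥(modularFunctionFieldFullC (IsLocalRing.ResidueField A) M)) :
          LaurentSeries (IsLocalRing.ResidueField A)) ^ q := by
  rw [← S36OQ_Gred_S18 M A τ]
  exact S36FR_Gred_frob M q A (S36OQ_S18_le M A τ.2) (S36FR_rat_of_fixed M _ hfix)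

include hq in
/-- **(R1)** `t₁ / q ∈ G_FF`. -/
theorem S36FR_R1 :
    (algebraMap ℚbar ↥(modularFunctionFieldBar (M * q * q)) (q : ℚbar))⁻¹ *
        S36FR_t1 M q (τ : ↥(modularFunctionFieldBar M)) ∈ S36V_G A (S36V_emFF M q) :=
  S36FR_t1_div_FF M q hq A (S36FR_rat_of_fixed M _ hfix) (S36OQ_S18_le M A τ.2)

/-- **(R2)** `t₂ / q ∈ G_VV`. -/
theorem S36FR_R2 :
    (algebraMap ℚbar ↥(modularFunctionFieldBar (M * q * q)) (q : ℚbar))⁻¹ *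
        S36FR_t2 M q (τ : ↥(modularFunctionFieldBar M)) ∈ S36V_G A (S36V_emVV M q hq hqM) :=
  S36FR_t2_div_VV M q hq hqM A (S36FR_rat_of_fixed M _ hfix) (S36OQ_S18_le M A τ.2)

/-- **(R3)** `red_FV t₁ = τ̄ - τ̄^{q²}`. -/
theorem S36FR_R3_t1
    (h : S36FR_t1 M q (τ : ↥(modularFunctionFieldBar M)) ∈
      S36V_G A (S36V_emFV M q hq hqM ζ hζ hζ1)) :
    S36V_Gred A (S36V_emFV M q hq hqM ζ hζ hζ1) ⟨_, h⟩ =
      ((S18_red A M τ : ↥(modularFunctionFieldFullC (IsLocalRing.ResidueField A) M)) :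
          LaurentSeries (IsLocalRing.ResidueField A)) -
        ((S18_red A M τ : ↥(modularFunctionFieldFullC (IsLocalRing.ResidueField A) M)) :
          LaurentSeries (IsLocalRing.ResidueField A)) ^ (q ^ 2) := by
  rw [← S36OQ_Gred_S18 M A τ]
  exact S36FR_t1_FV_red M q hq hqM A ζ hζ hζ1 (S36OQ_S18_le M A τ.2)
    (S36FR_rat_of_fixed M _ hfix) h

/-- **(R3)** `red_FV t₂ = τ̄ - τ̄^{q²}`. -/
theorem S36FR_R3_t2
    (h : S36FR_t2 M q (τ : ↥(modularFunctionFieldBar M)) ∈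
      S36V_G A (S36V_emFV M q hq hqM ζ hζ hζ1)) :
    S36V_Gred A (S36V_emFV M q hq hqM ζ hζ hζ1) ⟨_, h⟩ =
      ((S18_red A M τ : ↥(modularFunctionFieldFullC (IsLocalRing.ResidueField A) M)) :
          LaurentSeries (IsLocalRing.ResidueField A)) -
        ((S18_red A M τ : ↥(modularFunctionFieldFullC (IsLocalRing.ResidueField A) M)) :
          LaurentSeries (IsLocalRing.ResidueField A)) ^ (q ^ 2) := by
  rw [← S36OQ_Gred_S18 M A τ]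
  exact S36FR_t2_FV_red M q hq hqM A ζ hζ hζ1 (S36OQ_S18_le M A τ.2)
    (S36FR_rat_of_fixed M _ hfix) h

/-- `red_VV t₁ = τ̄ - τ̄^{q²}`. -/
theorem S36FR_t1_VV_red_S18
    (h : S36FR_t1 M q (τ : ↥(modularFunctionFieldBar M)) ∈ S36V_G A (S36V_emVV M q hq hqM)) :
    S36V_Gred A (S36V_emVV M q hq hqM) ⟨_, h⟩ =
      ((S18_red A M τ : ↥(modularFunctionFieldFullC (IsLocalRing.ResidueField A) M)) :
          LaurentSeries (IsLocalRing.ResidueField A)) -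
        ((S18_red A M τ : ↥(modularFunctionFieldFullC (IsLocalRing.ResidueField A) M)) :
          LaurentSeries (IsLocalRing.ResidueField A)) ^ (q ^ 2) := by
  rw [← S36OQ_Gred_S18 M A τ]
  exact S36FR_t1_VV_red M q hq hqM A (S36OQ_S18_le M A τ.2) (S36FR_rat_of_fixed M _ hfix) h

/-- `red_FF t₂ = τ̄ - τ̄^{q²}`. -/
theorem S36FR_t2_FF_red_S18
    (h : S36FR_t2 M q (τ : ↥(modularFunctionFieldBar M)) ∈ S36V_G A (S36V_emFF M q)) :
    S36V_Gred A (S36V_emFF M q) ⟨_, h⟩ =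
      ((S18_red A M τ : ↥(modularFunctionFieldFullC (IsLocalRing.ResidueField A) M)) :
          LaurentSeries (IsLocalRing.ResidueField A)) -
        ((S18_red A M τ : ↥(modularFunctionFieldFullC (IsLocalRing.ResidueField A) M)) :
          LaurentSeries (IsLocalRing.ResidueField A)) ^ (q ^ 2) := by
  rw [← S36OQ_Gred_S18 M A τ]
  exact S36FR_t2_FF_red M q A (S36OQ_S18_le M A τ.2) (S36FR_rat_of_fixed M _ hfix) h

/-- `red_FF t₁ = 0`. -/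
theorem S36FR_t1_FF_red_S18
    (h : S36FR_t1 M q (τ : ↥(modularFunctionFieldBar M)) ∈ S36V_G A (S36V_emFF M q)) :
    S36V_Gred A (S36V_emFF M q) ⟨_, h⟩ = 0 :=
  S36FR_t1_FF_red M q A (S36OQ_S18_le M A τ.2) (S36FR_rat_of_fixed M _ hfix) h

/-- `red_VV t₂ = 0`. -/
theorem S36FR_t2_VV_red_S18
    (h : S36FR_t2 M q (τ : ↥(modularFunctionFieldBar M)) ∈ S36V_G A (S36V_emVV M q hq hqM)) :
    S36V_Gred A (S36V_emVV M q hq hqM) ⟨_, h⟩ = 0 :=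
  S36FR_t2_VV_red M q hq hqM A (S36OQ_S18_le M A τ.2) (S36FR_rat_of_fixed M _ hfix) h

end main

end Fermat.Agent.S36
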