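import Fermat.Agent.S36.Comp3Tie
import Fermat.Agent.S36.FrobRat
import Fermat.Agent.S34.ValWire
import Fermat.Agent.S34.StraightInst
import Fermat.Agent.S18.AsmX0
import Fermat.Agent.S36.Val3Eq

/-!
# TRACK 10 (S36), package COMP3-INST (P3, helper9): independence of the three valuations from
the ties — prefix `S36CY_`

Setting of helper13's `S36/Comp3Tie.lean`: `N₂ = M q q`, `A ⊂ ℚ̄` over `q`, `H ≤ Gal(ℚ̄/ℚ)`,
`F₂^H = (S36FI_act N₂ H).fixF`, three valuation data `D_FF, D_FV, D_VV` on `F₂^H` tied to the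
Gauss rings along `S36V_emFF`, `S36V_emFV ζ₀`, `S36V_emVV`.

Witnesses (helper24's FROB-RAT with `τ = j`):
`t₁ = j(q²z) − j(qz)^q` has reductions `(0, j̄ − j̄^{q²}, j̄ − j̄^{q²})`,
`t₂ = j(z) − j(qz)^q` has reductions `(j̄ − j̄^{q²}, j̄ − j̄^{q²}, 0)` at `(FF, FV, VV)`, both are
fixed by the whole Galois group, and `j̄ − j̄^{q²} ≠ 0`.

* `S36CY_U_of_red_ne`, `S36CY_not_U_of_red_zero` : Gauss units by reductions;
* `S36CY_t1L`, `S36CY_t2L` : `t₁`, `t₂` as units of the fixed field;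
* `S36CY_t1_FF/_FV/_VV`, `S36CY_t2_FF/_FV/_VV` : the unit table;
* **`S36CY_indep`** : `S36CV_Indep D_FF.O D_FV.O D_VV.O` from the three ties.
-/

set_option autoImplicit false
set_option synthInstance.maxHeartbeats 400000
set_option maxHeartbeats 1000000
set_option linter.style.haveILetI false
set_option linter.unusedSectionVars false
set_option linter.unusedVariables false

open HahnSeries IntermediateField AlgebraicCurve ModularCurve

noncomputable section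

namespace Fermat.Agent.S36

open Fermat.Agent.S18 Fermat.Agent.S24 Fermat.Agent.S34 Fermat.Agent.GalRep Fermat.Agent.Lib
  Fermat.Agent.S19

local notation "ℚbar" => AlgebraicClosure ℚ

/-! ### Gauss units by reductions -/

section Gen

variable {L : Type*} [Field L] [Algebra ℚ L] (A : ValuationSubring L) {F : Type*} [Field F]
  (φ : F →+* LaurentSeries L)

/-- non-zero reduction ⟹ Gauss unit. -/
theorem S36CY_U_of_red_ne {f : F} (hf : f ∈ S36V_G A φ) (h : S36V_Gred A φ ⟨f, hf⟩ ≠ 0) :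
    S36NR_U A φ f :=
  ⟨hf, S36V_G_inv_mem A φ hf h⟩

/-- zero reduction (and `f ≠ 0`) ⟹ not a Gauss unit. -/
theorem S36CY_not_U_of_red_zero {f : F} (hf0 : f ≠ 0) (hf : f ∈ S36V_G A φ)
    (h : S36V_Gred A φ ⟨f, hf⟩ = 0) : ¬ S36NR_U A φ f := by
  rintro ⟨-, h2⟩
  have h3 : S36V_Gred A φ (⟨f, hf⟩ * ⟨f⁻¹, h2⟩) = 1 := by
    have : (⟨f, hf⟩ * ⟨f⁻¹, h2⟩ : S36V_G A φ) = 1 := Subtype.ext (mul_inv_cancel₀ hf0)
    rw [this, map_one]
  rw [map_mul, h, zero_mul] at h3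
  exact zero_ne_one h3

/-- non-zero reduction ⟹ non-zero. -/
theorem S36CY_ne_zero_of_red_ne {f : F} (hf : f ∈ S36V_G A φ)
    (h : S36V_Gred A φ ⟨f, hf⟩ ≠ 0) : f ≠ 0 := by
  rintro rfl
  apply h
  exact map_zero (S36V_Gred A φ)

end Gen

variable (M q : ℕ) [NeZero M] [NeZero q] (hq : q.Prime) (hqM : ¬ q ∣ M)
  (A : ValuationSubring ℚbar)
  (ζ : ℚbarˣ) (hζ : ζ ^ q = 1) (hζ1 : ζ ≠ 1)

/-! ### `τ = j` -/

theorem S36CY_jB_mem : jB M ∈ S18_O A M := by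
  rw [← S18_Bι_jBel M A]
  exact S18_Bι_mem_O A M _

/-- `j` as an element of `S18_O A M`. -/
def S36CY_j : S18_O A M := ⟨jB M, S36CY_jB_mem M A⟩

theorem S36CY_red_j :
    ((S18_red A M (S36CY_j M A) :
        ↥(modularFunctionFieldFullC (IsLocalRing.ResidueField A) M)) :
      LaurentSeries (IsLocalRing.ResidueField A)) = jqModC (IsLocalRing.ResidueField A) := by
  have h1 : S36CY_j M A = ⟨S18_Bι A M (S18_jBel M A), S18_Bι_mem_O A M _⟩ := by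
    apply Subtype.ext
    exact (S18_Bι_jBel M A).symm
  rw [h1, S18_red_Bι, S18_Bρ_jBel]
  rfl

theorem S36CY_fix_j (σ : ℚbar ≃ₐ[ℚ] ℚbar) :
    arithmeticGalois (modularFunctionFieldFull M) σ •
        ((S36CY_j M A : S18_O A M) : ↥(modularFunctionFieldBar M)) =
      ((S36CY_j M A : S18_O A M) : ↥(modularFunctionFieldBar M)) :=
  S34SW_gal_jB M σ

include hq in
/-- `j̄ − j̄^{q²} ≠ 0`. -/
theorem S36CY_red_ne :
    ((S18_red A M (S36CY_j M A) :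
        ↥(modularFunctionFieldFullC (IsLocalRing.ResidueField A) M)) :
      LaurentSeries (IsLocalRing.ResidueField A)) -
      ((S18_red A M (S36CY_j M A) :
        ↥(modularFunctionFieldFullC (IsLocalRing.ResidueField A) M)) :
      LaurentSeries (IsLocalRing.ResidueField A)) ^ (q ^ 2) ≠ 0 := by
  rw [S36CY_red_j]
  intro h
  have hq1 : 1 < q := hq.one_lt
  have hqq : 1 < q ^ 2 := by nlinarith
  apply S34VW_jq_pow_ne (IsLocalRing.ResidueField A) (q ^ 2) hqq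
  rw [← neg_sub, h, neg_zero]

/-! ### the witnesses -/

/-- `t₁ = j(q²z) − j(qz)^q`. -/
def S36CY_t1 : ↥(modularFunctionFieldBar (M * q * q)) := S36FR_t1 M q (jB M)

/-- `t₂ = j(z) − j(qz)^q`. -/
def S36CY_t2 : ↥(modularFunctionFieldBar (M * q * q)) := S36FR_t2 M q (jB M)

theorem S36CY_gal_t1 (σ : ℚbar ≃ₐ[ℚ] ℚbar) :
    GR_gal (M * q * q) σ (S36CY_t1 M q) = S36CY_t1 M q := by
  have hB : GR_gal (M * q * q) σ (S36FR_dB M q (jB M)) = S36FR_dB M q (jB M) := by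
    rw [S36FR_dB_apply, S36VE_gal_alpha, S36VE_gal_beta, S34SW_gal_jB]
  have hC : GR_gal (M * q * q) σ (S36OQ_dC M q (jB M)) = S36OQ_dC M q (jB M) := by
    show GR_gal (M * q * q) σ
      (heckeBetaBar ℚbar (M * q) q (heckeBetaBar ℚbar M q (jB M))) = _
    rw [S36VE_gal_beta, S36VE_gal_beta, S34SW_gal_jB]
    rfl
  rw [S36CY_t1, S36FR_t1, map_sub, map_pow, hB, hC]

theorem S36CY_gal_t2 (σ : ℚbar ≃ₐ[ℚ] ℚbar) :
    GR_gal (M * q * q) σ (S36CY_t2 M q) = S36CY_t2 M q := by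
  have hB : GR_gal (M * q * q) σ (S36FR_dB M q (jB M)) = S36FR_dB M q (jB M) := by
    rw [S36FR_dB_apply, S36VE_gal_alpha, S36VE_gal_beta, S34SW_gal_jB]
  have hA : GR_gal (M * q * q) σ (S36OQ_dA M q (jB M)) = S36OQ_dA M q (jB M) := by
    show GR_gal (M * q * q) σ
      (heckeAlphaBar ℚbar (M * q) q (heckeAlphaBar ℚbar M q (jB M))) = _
    rw [S36VE_gal_alpha, S36VE_gal_alpha, S34SW_gal_jB]
    rfl
  rw [S36CY_t2, S36FR_t2, map_sub, map_pow, hB, hA]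

theorem S36CY_t1_fixed (H : Subgroup (ℚbar ≃ₐ[ℚ] ℚbar)) :
    S36CY_t1 M q ∈ (S36FI_act (M * q * q) H).fixF :=
  (S36FI_mem_fixF (M * q * q) H).2 fun σ _ => S36CY_gal_t1 M q σ

theorem S36CY_t2_fixed (H : Subgroup (ℚbar ≃ₐ[ℚ] ℚbar)) :
    S36CY_t2 M q ∈ (S36FI_act (M * q * q) H).fixF :=
  (S36FI_mem_fixF (M * q * q) H).2 fun σ _ => S36CY_gal_t2 M q σ

/-! ### the unit table -/

section table

variable [Fact q.Prime] [CharP (IsLocalRing.ResidueField A) q]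

include hq hqM A ζ hζ hζ1

theorem S36CY_t1_FV :
    S36NR_U A (S36V_emFV M q hq hqM ζ hζ hζ1) (S36CY_t1 M q) := by
  have hm := (S36FR_t_mem M q hq hqM A ζ hζ hζ1 (S36CY_j M A)).2.1.1
  refine S36CY_U_of_red_ne A _ hm ?_
  have h := S36FR_R3_t1 M q hq hqM A ζ hζ hζ1 (S36CY_j M A) (S36CY_fix_j M A) hm
  exact fun h0 => S36CY_red_ne M q hq A (h.symm.trans h0)

theorem S36CY_t2_FV :
    S36NR_U A (S36V_emFV M q hq hqM ζ hζ hζ1) (S36CY_t2 M q) := by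
  have hm := (S36FR_t_mem M q hq hqM A ζ hζ hζ1 (S36CY_j M A)).2.1.2
  refine S36CY_U_of_red_ne A _ hm ?_
  have h := S36FR_R3_t2 M q hq hqM A ζ hζ hζ1 (S36CY_j M A) (S36CY_fix_j M A) hm
  exact fun h0 => S36CY_red_ne M q hq A (h.symm.trans h0)

theorem S36CY_t1_VV :
    S36NR_U A (S36V_emVV M q hq hqM) (S36CY_t1 M q) := by
  have hm := (S36FR_t_mem M q hq hqM A ζ hζ hζ1 (S36CY_j M A)).2.2.1
  refine S36CY_U_of_red_ne A _ hm ?_
  have h := S36FR_t1_VV_red_S18 M q hq hqM A (S36CY_j M A) (S36CY_fix_j M A) hm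
  exact fun h0 => S36CY_red_ne M q hq A (h.symm.trans h0)

theorem S36CY_t2_FF :
    S36NR_U A (S36V_emFF M q) (S36CY_t2 M q) := by
  have hm := (S36FR_t_mem M q hq hqM A ζ hζ hζ1 (S36CY_j M A)).1.2
  refine S36CY_U_of_red_ne A _ hm ?_
  have h := S36FR_t2_FF_red_S18 M q A (S36CY_j M A) (S36CY_fix_j M A) hm
  exact fun h0 => S36CY_red_ne M q hq A (h.symm.trans h0)

theorem S36CY_t1_ne_zero : S36CY_t1 M q ≠ 0 := by
  have hm := (S36FR_t_mem M q hq hqM A ζ hζ hζ1 (S36CY_j M A)).2.1.1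
  refine S36CY_ne_zero_of_red_ne A (S36V_emFV M q hq hqM ζ hζ hζ1) hm ?_
  have h := S36FR_R3_t1 M q hq hqM A ζ hζ hζ1 (S36CY_j M A) (S36CY_fix_j M A) hm
  exact fun h0 => S36CY_red_ne M q hq A (h.symm.trans h0)

theorem S36CY_t2_ne_zero : S36CY_t2 M q ≠ 0 := by
  have hm := (S36FR_t_mem M q hq hqM A ζ hζ hζ1 (S36CY_j M A)).2.1.2
  refine S36CY_ne_zero_of_red_ne A (S36V_emFV M q hq hqM ζ hζ hζ1) hm ?_
  have h := S36FR_R3_t2 M q hq hqM A ζ hζ hζ1 (S36CY_j M A) (S36CY_fix_j M A) hm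
  exact fun h0 => S36CY_red_ne M q hq A (h.symm.trans h0)

theorem S36CY_t1_FF :
    ¬ S36NR_U A (S36V_emFF M q) (S36CY_t1 M q) := by
  have hm := (S36FR_t_mem M q hq hqM A ζ hζ hζ1 (S36CY_j M A)).1.1
  exact S36CY_not_U_of_red_zero A _ (S36CY_t1_ne_zero M q hq hqM A ζ hζ hζ1) hm
    (S36FR_t1_FF_red_S18 M q A (S36CY_j M A) (S36CY_fix_j M A) hm)

theorem S36CY_t2_VV :
    ¬ S36NR_U A (S36V_emVV M q hq hqM) (S36CY_t2 M q) := by
  have hm := (S36FR_t_mem M q hq hqM A ζ hζ hζ1 (S36CY_j M A)).2.2.2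
  exact S36CY_not_U_of_red_zero A _ (S36CY_t2_ne_zero M q hq hqM A ζ hζ hζ1) hm
    (S36FR_t2_VV_red_S18 M q hq hqM A (S36CY_j M A) (S36CY_fix_j M A) hm)

end table

/-! ### the witnesses as units of the fixed field -/

section main

variable (H : Subgroup (ℚbar ≃ₐ[ℚ] ℚbar)) (hA : A.LiesOverPrime q)

include hq hqM hA ζ hζ hζ1 in
theorem S36CY_t1L_ne :
    (⟨S36CY_t1 M q, S36CY_t1_fixed M q H⟩ : ↥(S36FI_act (M * q * q) H).fixF) ≠ 0 := by
  haveI : Fact q.Prime := ⟨hq⟩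
  haveI : CharP (IsLocalRing.ResidueField A) q := S18_residue_charP A q hq hA
  intro h
  exact S36CY_t1_ne_zero M q hq hqM A ζ hζ hζ1 (congrArg Subtype.val h)

include hq hqM hA ζ hζ hζ1 in
theorem S36CY_t2L_ne :
    (⟨S36CY_t2 M q, S36CY_t2_fixed M q H⟩ : ↥(S36FI_act (M * q * q) H).fixF) ≠ 0 := by
  haveI : Fact q.Prime := ⟨hq⟩
  haveI : CharP (IsLocalRing.ResidueField A) q := S18_residue_charP A q hq hA
  intro h
  exact S36CY_t2_ne_zero M q hq hqM A ζ hζ hζ1 (congrArg Subtype.val h)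

/-- `t₁` as a unit of the fixed field. -/
def S36CY_t1L : (↥(S36FI_act (M * q * q) H).fixF)ˣ :=
  Units.mk0 ⟨S36CY_t1 M q, S36CY_t1_fixed M q H⟩
    (S36CY_t1L_ne M q hq hqM A ζ hζ hζ1 H hA)

/-- `t₂` as a unit of the fixed field. -/
def S36CY_t2L : (↥(S36FI_act (M * q * q) H).fixF)ˣ :=
  Units.mk0 ⟨S36CY_t2 M q, S36CY_t2_fixed M q H⟩
    (S36CY_t2L_ne M q hq hqM A ζ hζ hζ1 H hA)

theorem S36CY_t1L_coe :
    (((S36CY_t1L M q hq hqM A ζ hζ hζ1 H hA : (↥(S36FI_act (M * q * q) H).fixF)ˣ) :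
      ↥(S36FI_act (M * q * q) H).fixF) : ↥(modularFunctionFieldBar (M * q * q))) =
      S36CY_t1 M q := rfl

theorem S36CY_t2L_coe :
    (((S36CY_t2L M q hq hqM A ζ hζ hζ1 H hA : (↥(S36FI_act (M * q * q) H).fixF)ˣ) :
      ↥(S36FI_act (M * q * q) H).fixF) : ↥(modularFunctionFieldBar (M * q * q))) =
      S36CY_t2 M q := rfl

variable {π₁ π₂ π₃ : ↥(modularFunctionFieldBar (M * q * q))}
  {D_FF D_FV D_VV : S36CV_Val ↥(S36FI_act (M * q * q) H).fixF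
    (LaurentSeries (IsLocalRing.ResidueField A))}

include hA in
/-- **independence from the ties**: the three valuation rings are pairwise distinct, hence
pairwise incomparable. -/
theorem S36CY_ne
    (T_FF : S36CG_Tie (M * q * q) H A (S36V_emFF M q) π₁ D_FF)
    (T_FV : S36CG_Tie (M * q * q) H A (S36V_emFV M q hq hqM ζ hζ hζ1) π₂ D_FV)
    (T_VV : S36CG_Tie (M * q * q) H A (S36V_emVV M q hq hqM) π₃ D_VV) :
    D_FF.O ≠ D_FV.O ∧ D_FF.O ≠ D_VV.O ∧ D_FV.O ≠ D_VV.O := by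
  haveI : Fact q.Prime := ⟨hq⟩
  haveI : CharP (IsLocalRing.ResidueField A) q := S18_residue_charP A q hq hA
  have h1FF : S36CY_t1L M q hq hqM A ζ hζ hζ1 H hA ∉ S36CV_UG D_FF.O := by
    rw [T_FF.mem_UG, S36CY_t1L_coe]
    exact S36CY_t1_FF M q hq hqM A ζ hζ hζ1
  have h1FV : S36CY_t1L M q hq hqM A ζ hζ hζ1 H hA ∈ S36CV_UG D_FV.O := by
    rw [T_FV.mem_UG, S36CY_t1L_coe]
    exact S36CY_t1_FV M q hq hqM A ζ hζ hζ1
  have h1VV : S36CY_t1L M q hq hqM A ζ hζ hζ1 H hA ∈ S36CV_UG D_VV.O := by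
    rw [T_VV.mem_UG, S36CY_t1L_coe]
    exact S36CY_t1_VV M q hq hqM A ζ hζ hζ1
  have h2FV : S36CY_t2L M q hq hqM A ζ hζ hζ1 H hA ∈ S36CV_UG D_FV.O := by
    rw [T_FV.mem_UG, S36CY_t2L_coe]
    exact S36CY_t2_FV M q hq hqM A ζ hζ hζ1
  have h2VV : S36CY_t2L M q hq hqM A ζ hζ hζ1 H hA ∉ S36CV_UG D_VV.O := by
    rw [T_VV.mem_UG, S36CY_t2L_coe]
    exact S36CY_t2_VV M q hq hqM A ζ hζ hζ1
  exact ⟨(S36CV_ne_of_unit _ h1FV h1FF).symm, (S36CV_ne_of_unit _ h1VV h1FF).symm,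
    S36CV_ne_of_unit _ h2FV h2VV⟩

include hA in
/-- **(P3)** `indep` of `S36CH_Hyp` from the ties. -/
theorem S36CY_indep
    (T_FF : S36CG_Tie (M * q * q) H A (S36V_emFF M q) π₁ D_FF)
    (T_FV : S36CG_Tie (M * q * q) H A (S36V_emFV M q hq hqM ζ hζ hζ1) π₂ D_FV)
    (T_VV : S36CG_Tie (M * q * q) H A (S36V_emVV M q hq hqM) π₃ D_VV) :
    S36CV_Indep D_FF.O D_FV.O D_VV.O := by
  obtain ⟨h12, h13, h23⟩ := S36CY_ne M q hq hqM A ζ hζ hζ1 H hA T_FF T_FV T_VV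
  exact S36CV_Indep.of_ne D_FF.toS36CV_DV D_FV.toS36CV_DV D_VV.toS36CV_DV h12 h13 h23

end main

end Fermat.Agent.S36
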