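import Mathlib
import Fermat.Agent.S34.SatXB2

/-!
# TRACK 10 (S36), CART at the cusps of `FV`, generic fibre input (helper27): the THREE types
# of cusps of `X₀(N)`, `q² ∣ N`.  Prefix `S36KT_`.

`F = modularFunctionFieldBar N` over `ℚ̄`, `A = jB N = j(τ)`, `B = jBar N q = j(qτ)`,
`C = jBar N (q * q) = j(q²τ)`.  At every place `v` of `F` with `ord_v A < 0` (a cusp) exactly one
of the following holds (Hermite normal forms of `ut q 0 1 · g`, `ut q² 0 1 · g` for the coset `g`
of the cusp; `c = |g₁₀|`):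

* (`q² ∣ c`, "∞-type") `ord C = q · ord B` and the leading terms of `B^q` and `C` cancel:
  `q · ord B < ord (B^q − C)`;
* (`q ∥ c`, "middle") `q · ord C = ord B` and `ord B = q · ord A` (so `ord C = ord A`);
* (`q ∤ c`, "0-type") `q · ord B = ord A` and the leading terms of `B^q` and `A` cancel:
  `q · ord B < ord (B^q − A)`.

This is hypothesis (h2) of the FV-cusp THRU statement (`S36/CuspThru.lean`, helper25): the
functions `(B^q − C) w^q`, `(B^q − A) w^q` (`w = (B − c)⁻¹`) of the lattice of the chart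
`U′ = {B ≠ c}` vanish at the cusps of ∞-type resp. 0-type and have the value `1` at the cusps of
the component `FV` of the special fibre; so only the middle cusps pass through those, and there
`(C − A) A^(q-1) w` is regular.

* `S36KT_rootU_pow` : `rootU b d ^ d = 1`;
* `S36KT_cuspFrac` : the conjugate `τ ↦ j(d · gτ)`: order `− a N / d'`, `a = gcd(d, |g₁₀|)`,
  leading coefficient `rootU b d' ⁻¹` (`S24.cuspFrac_merComp_jHol` + `S34SX_cuspFrac_lc`);
* `S36KT_lt_of_cancel` : cancellation of leading terms in terms of `ord_v`;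
* `S36KT_tri` : the trichotomy.
-/

set_option autoImplicit false
set_option maxHeartbeats 400000

open UpperHalfPlane hiding I
open scoped MatrixGroups Manifold ModularForm Real Topology
open CongruenceSubgroup ModularCurve IntermediateField AlgebraicCurve Complex Filter
open Fermat.Agent.S20 Fermat.Agent.S24 Fermat.Agent.S18 Fermat.Agent.S28 Fermat.Agent.S34

noncomputable section

namespace Fermat.Agent.S36

/-- `rootU b d` is a `d`-th root of unity. -/
theorem S36KT_rootU_pow (b d : ℕ) (hd : 0 < d) : rootU b d ^ d = 1 := by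
  unfold rootU
  rw [← Complex.exp_nat_mul]
  have hd0 : (d : ℂ) ≠ 0 := by exact_mod_cast hd.ne'
  have : (d : ℂ) * (2 * π * I * (b : ℂ) / (d : ℂ)) = (b : ℂ) * (2 * π * I) := by
    field_simp
  rw [this]
  exact Complex.exp_nat_mul_two_pi_mul_I b

variable (N : ℕ) [NeZero N]

/-- the conjugate `τ ↦ j(d · gτ)`: order `− a N / d'` with `a = gcd (d, |g₁₀|)`, `a d' = d`,
leading coefficient `rootU b d' ⁻¹`, `b < d'`. -/
theorem S36KT_cuspFrac (g : SL(2, ℤ)) {d : ℕ} (hd : 0 < d) (hdN : d ∣ N) :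
    ∃ (a b d' : ℕ), 0 < a ∧ 0 < d' ∧ a * d' = d ∧ a = Nat.gcd d (g 1 0).natAbs ∧ b < d' ∧
      CuspFrac N (merComp g (algebraMap Hol Mer (jHol d))) (-((a * (N / d') : ℕ) : ℤ))
        (rootU b d')⁻¹ := by
  obtain ⟨a, d', c, ha, hd', hadd, hag, h⟩ := cuspFrac_merComp_jHol N g hd hdN
  obtain ⟨a', b, d'', ha', hd'', hadd', hb, h'⟩ := S34SX_cuspFrac_lc N g hd hdN
  obtain ⟨hn, -⟩ := h.unique h'
  obtain ⟨m, hm⟩ := hdN
  have hN : 0 < N := Nat.pos_of_ne_zero (NeZero.ne N)
  have hm0 : 0 < m := by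
    rcases Nat.eq_zero_or_pos m with h0 | h0
    · rw [h0, mul_zero] at hm; omega
    · exact h0
  have e1 : N / d' = a * m := by
    apply Nat.div_eq_of_eq_mul_right hd'
    rw [hm, ← hadd]; ring
  have e2 : N / d'' = a' * m := by
    apply Nat.div_eq_of_eq_mul_right hd''
    rw [hm, ← hadd']; ring
  have hn' : a * (N / d') = a' * (N / d'') := by
    have := neg_injective hn
    exact_mod_cast this
  rw [e1, e2] at hn'
  have h3 : a * a = a' * a' := by
    have : (a * a) * m = (a' * a') * m := by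
      calc (a * a) * m = a * (a * m) := by ring
        _ = a' * (a' * m) := hn'
        _ = (a' * a') * m := by ring
    exact Nat.eq_of_mul_eq_mul_right hm0 this
  have haa : a = a' := Nat.mul_self_inj.mp h3
  subst haa
  have hdd : d' = d'' := Nat.eq_of_mul_eq_mul_left ha (hadd.trans hadd'.symm)
  subst hdd
  exact ⟨a, b, d', ha, hd', hadd, hag, hb, h'⟩

/-- cancellation of the leading terms at a cusp, in terms of the place. -/
theorem S36KT_lt_of_cancel
    (v : Place (AlgebraicClosure ℚ) ↥(modularFunctionFieldBar N)) (hv : v.ord (jB N) < 0)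
    (γ : S20_Q N)
    (hγ : ∀ f : ↥(modularFunctionFieldBar N), f ≠ 0 →
      (N : ℤ) * v.ord f = (- v.ord (jB N)) * cuspW N (ev N) γ f)
    {f g : ↥(modularFunctionFieldBar N)} {n : ℤ} {c : ℂ}
    (hf : CuspFrac N (S24_sig N (ev N) γ f) n c) (hg : CuspFrac N (S24_sig N (ev N) γ g) n c)
    (hfg : f - g ≠ 0) : (- v.ord (jB N)) * n < (N : ℤ) * v.ord (f - g) := by
  have hsub : S24_sig N (ev N) γ f - S24_sig N (ev N) γ g ≠ 0 := by
    rw [← map_sub]
    exact (map_ne_zero (S24_sig N (ev N) γ)).mpr hfg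
  obtain ⟨k, e, hk, hlt⟩ := S34SX_cancel hf hg hsub
  rw [← map_sub] at hk
  rw [hγ _ hfg, cuspW_eq hk]
  have h5 : 0 < - v.ord (jB N) := by omega
  exact mul_lt_mul_of_pos_left hlt h5

/-- **the three types of cusps** of `X₀(N)`, `q² ∣ N`. -/
theorem S36KT_tri
    (v : Place (AlgebraicClosure ℚ) ↥(modularFunctionFieldBar N)) (hv : v.ord (jB N) < 0)
    (q : ℕ) [NeZero q] [NeZero (q * q)] (hq : q.Prime) (hd : q ∣ N) (hd2 : q * q ∣ N) :
    (v.ord (jBar N (q * q) hd2) = (q : ℤ) * v.ord (jBar N q hd) ∧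
        (q : ℤ) * v.ord (jBar N q hd) < v.ord ((jBar N q hd) ^ q - jBar N (q * q) hd2)) ∨
    ((q : ℤ) * v.ord (jBar N (q * q) hd2) = v.ord (jBar N q hd) ∧
        v.ord (jBar N q hd) = (q : ℤ) * v.ord (jB N)) ∨
    ((q : ℤ) * v.ord (jBar N q hd) = v.ord (jB N) ∧
        (q : ℤ) * v.ord (jBar N q hd) < v.ord ((jBar N q hd) ^ q - jB N)) := by
  have he := isEv_ev N
  have hN0 : (0 : ℤ) < (N : ℤ) := by exact_mod_cast Nat.pos_of_ne_zero (NeZero.ne N)
  have hq0 : (0 : ℤ) < (q : ℤ) := by exact_mod_cast hq.pos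
  have hqq : 0 < q * q := Nat.mul_pos hq.pos hq.pos
  obtain ⟨γ, hγ⟩ := S34SX_cusp_rel N v hv
  have hneB := S34SX_jBar_ne_zero N q hd
  have hneC := S34SX_jBar_ne_zero N (q * q) hd2
  have h1 : S24_sig N (ev N) γ (jBar N q hd) =
      merComp (Quotient.out γ)⁻¹ (algebraMap Hol Mer (jHol q)) := by
    show merComp _ (ev N (jBar N q hd)) = _
    rw [he.gen q hd]
  have h2 : S24_sig N (ev N) γ (jBar N (q * q) hd2) =
      merComp (Quotient.out γ)⁻¹ (algebraMap Hol Mer (jHol (q * q))) := by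
    show merComp _ (ev N (jBar N (q * q) hd2)) = _
    rw [he.gen (q * q) hd2]
  have hA : CuspFrac N (S24_sig N (ev N) γ (jB N)) (-(N : ℤ)) 1 := by
    rw [S24_sig_jB he γ]
    exact S34SX_cuspFrac_j N
  obtain ⟨a₁, b₁, d₁, ha₁, hd₁, hadd₁, hag₁, hb₁, hB⟩ :=
    S36KT_cuspFrac N (Quotient.out γ)⁻¹ hq.pos hd
  obtain ⟨a₂, b₂, d₂, ha₂, hd₂, hadd₂, hag₂, hb₂, hC⟩ :=
    S36KT_cuspFrac N (Quotient.out γ)⁻¹ hqq hd2
  rw [← h1] at hB
  rw [← h2] at hC
  have hrelB := hγ _ hneB
  rw [cuspW_eq hB] at hrelB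
  have hrelC := hγ _ hneC
  rw [cuspW_eq hC] at hrelC
  set c : ℕ := (((Quotient.out γ)⁻¹ : SL(2, ℤ)) 1 0).natAbs with hc
  have hqN : q * (N / q) = N := Nat.mul_div_cancel' hd
  have ho : 0 < - v.ord (jB N) := by omega
  by_cases hdc : q ∣ c
  · -- a₁ = q, d₁ = 1, b₁ = 0
    have e1 : a₁ = q := by rw [hag₁]; exact Nat.gcd_eq_left hdc
    subst e1
    have e2 : d₁ = 1 := Nat.eq_of_mul_eq_mul_left ha₁ (hadd₁.trans (mul_one a₁).symm)
    subst e2
    have e3 : b₁ = 0 := by omega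
    subst e3
    rw [S34SX_rootU_zero, inv_one, Nat.div_one] at hB
    rw [Nat.div_one] at hrelB
    push_cast at hrelB
    have hordB : v.ord (jBar N a₁ hd) = (a₁ : ℤ) * v.ord (jB N) := by
      have h3 : (N : ℤ) * v.ord (jBar N a₁ hd) = (N : ℤ) * ((a₁ : ℤ) * v.ord (jB N)) := by
        linear_combination hrelB
      exact mul_left_cancel₀ hN0.ne' h3
    by_cases hdc2 : a₁ * a₁ ∣ c
    · -- ∞-type: a₂ = q², d₂ = 1, b₂ = 0
      left
      have f1 : a₂ = a₁ * a₁ := by rw [hag₂]; exact Nat.gcd_eq_left hdc2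
      subst f1
      have f2 : d₂ = 1 := Nat.eq_of_mul_eq_mul_left ha₂ (hadd₂.trans (mul_one _).symm)
      subst f2
      have f3 : b₂ = 0 := by omega
      subst f3
      rw [S34SX_rootU_zero, inv_one, Nat.div_one] at hC
      rw [Nat.div_one] at hrelC
      push_cast at hrelC
      have hordC : v.ord (jBar N (a₁ * a₁) hd2) = (a₁ : ℤ) * ((a₁ : ℤ) * v.ord (jB N)) := by
        have h3 : (N : ℤ) * v.ord (jBar N (a₁ * a₁) hd2) =
            (N : ℤ) * ((a₁ : ℤ) * ((a₁ : ℤ) * v.ord (jB N))) := by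
          linear_combination hrelC
        exact mul_left_cancel₀ hN0.ne' h3
      refine ⟨by rw [hordC, hordB], ?_⟩
      rw [hordB]
      by_cases hX : (jBar N a₁ hd) ^ a₁ - jBar N (a₁ * a₁) hd2 = 0
      · rw [hX]
        have h0 : v.ord (0 : ↥(modularFunctionFieldBar N)) = 0 := by simp
        rw [h0]
        have : (a₁ : ℤ) * v.ord (jB N) < 0 := mul_neg_of_pos_of_neg hq0 hv
        exact mul_neg_of_pos_of_neg hq0 this
      · have hBq := S34SX_cuspFrac_pow hB a₁
        rw [one_pow, ← map_pow] at hBq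
        have hC' : CuspFrac N (S24_sig N (ev N) γ (jBar N (a₁ * a₁) hd2))
            ((a₁ : ℤ) * -(((a₁ * N : ℕ)) : ℤ)) 1 := by
          convert hC using 1
          push_cast
          ring
        have hlt := S36KT_lt_of_cancel N v hv γ hγ hBq hC' hX
        push_cast at hlt
        have h4 : (N : ℤ) * ((a₁ : ℤ) * ((a₁ : ℤ) * v.ord (jB N))) <
            (N : ℤ) * v.ord ((jBar N a₁ hd) ^ a₁ - jBar N (a₁ * a₁) hd2) := by
          calc (N : ℤ) * ((a₁ : ℤ) * ((a₁ : ℤ) * v.ord (jB N)))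
              = -v.ord (jB N) * ((a₁ : ℤ) * -((a₁ : ℤ) * (N : ℤ))) := by ring
            _ < _ := hlt
        exact lt_of_mul_lt_mul_left h4 hN0.le
    · -- middle: a₂ = q, d₂ = q
      right; left
      obtain ⟨c', hc'⟩ := hdc
      have hnd : ¬ a₁ ∣ c' := by
        intro h
        apply hdc2
        rw [hc']
        exact Nat.mul_dvd_mul_left a₁ h
      have hcop : Nat.gcd a₁ c' = 1 := (Nat.Prime.coprime_iff_not_dvd hq).2 hnd
      have f1 : a₂ = a₁ := by
        rw [hag₂, hc', Nat.gcd_mul_left, hcop, mul_one]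
      subst f1
      have f2 : d₂ = a₂ := Nat.eq_of_mul_eq_mul_left ha₂ hadd₂
      subst f2
      rw [hqN] at hrelC
      have hordC : v.ord (jBar N (d₂ * d₂) hd2) = v.ord (jB N) := by
        have h3 : (N : ℤ) * v.ord (jBar N (d₂ * d₂) hd2) = (N : ℤ) * v.ord (jB N) := by
          linear_combination hrelC
        exact mul_left_cancel₀ hN0.ne' h3
      exact ⟨by rw [hordC, hordB], hordB⟩
  · -- 0-type: a₁ = 1, d₁ = q
    right; right
    have hcop : Nat.gcd q c = 1 := (Nat.Prime.coprime_iff_not_dvd hq).2 hdc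
    have e1 : a₁ = 1 := by rw [hag₁]; exact hcop
    subst e1
    rw [one_mul] at hadd₁
    subst hadd₁
    rw [one_mul] at hrelB hB
    obtain ⟨m, hm⟩ := hd
    have hdiv : N / d₁ = m := by
      rw [hm]; exact Nat.mul_div_cancel_left m hd₁
    have hNm : (N : ℤ) = (d₁ : ℤ) * (m : ℤ) := by exact_mod_cast hm
    have hm0 : (m : ℤ) ≠ 0 := by
      intro h0
      rw [h0, mul_zero] at hNm
      omega
    have hordB : (d₁ : ℤ) * v.ord (jBar N d₁ ⟨m, hm⟩) = v.ord (jB N) := by
      rw [hdiv] at hrelB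
      rw [hNm] at hrelB
      have h3 : (m : ℤ) * ((d₁ : ℤ) * v.ord (jBar N d₁ ⟨m, hm⟩)) = (m : ℤ) * v.ord (jB N) := by
        linear_combination hrelB
      exact mul_left_cancel₀ hm0 h3
    refine ⟨hordB, ?_⟩
    rw [hordB]
    by_cases hX : (jBar N d₁ ⟨m, hm⟩) ^ d₁ - jB N = 0
    · rw [hX]
      have h0 : v.ord (0 : ↥(modularFunctionFieldBar N)) = 0 := by simp
      rw [h0]
      exact hv
    · have hBq := S34SX_cuspFrac_pow hB d₁
      rw [inv_pow, S36KT_rootU_pow b₁ d₁ hd₁, inv_one, ← map_pow] at hBq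
      have hBq' : CuspFrac N (S24_sig N (ev N) γ ((jBar N d₁ ⟨m, hm⟩) ^ d₁)) (-(N : ℤ)) 1 := by
        convert hBq using 1
        rw [hdiv, hNm]
        ring
      have hlt := S36KT_lt_of_cancel N v hv γ hγ hBq' hA hX
      have h4 : (N : ℤ) * v.ord (jB N) <
          (N : ℤ) * v.ord ((jBar N d₁ ⟨m, hm⟩) ^ d₁ - jB N) := by
        calc (N : ℤ) * v.ord (jB N) = -v.ord (jB N) * -(N : ℤ) := by ring
          _ < _ := hlt
      exact lt_of_mul_lt_mul_left h4 hN0.le

end Fermat.Agent.S36
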