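import Mathlib
import Fermat.Agent.S36.OrdQ

/-!
# TRACK 10 (S36), package F5b = ORD-FV-Q (helper24), part 2: the Gauss-fraction form

`A ⊂ L` a valuation subring with residue field of characteristic `q`, `ζ ∈ L` a `q`-th root of
unity, `ζ ≠ 1`; `ι = coeffMap A.subtype : A((t)) → L((t))`, `ρ = coeffMap (residue A)`.
An element `x ∈ L((t))` is *Gauss-integral* if `x · ι b = ι a` with `ρ b ≠ 0` (this is the shape
of membership in `S18_O`); its reduction is `x̄ = ρ a / ρ b`.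

* `S36OQ_zetaA` — `ζ` as a unit of `A`;
* `S36OQ_frac_one` — one factor: `(x(ζt) - x(t)) · ι (b · b(ζt)) = ι (π · (Da · b - a · Db))` and
  `ρ (Da · b - a · Db) = θ x̄ · ρ (b · b(ζt))`;
* `S36OQ_frac_prod` — **(R6), polarised**: for Gauss-integral `x_i`, `i ∈ s`, `#s = q - 1`,
  `∏ (x_i(ζt) - x_i(t)) / q` is Gauss-integral with reduction `- ∏ θ x̄_i`;
* `S36OQ_frac` — `(x(ζt) - x(t))^{q-1} / q` is Gauss-integral with reduction `-(θ x̄)^{q-1}`.
-/

set_option autoImplicit false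
set_option linter.unusedSectionVars false

open HahnSeries ModularCurve

noncomputable section

namespace Fermat.Agent.S36

open Fermat.Agent.Lib Fermat.Agent.GalRep

variable {L : Type*} [Field L] (A : ValuationSubring L)

/-- a root of unity of `L` as a unit of the valuation ring `A`. -/
def S36OQ_zetaA (n : ℕ) (hn : 0 < n) (ζ : Lˣ) (hζ : ζ ^ n = 1) : (↥A)ˣ where
  val := ⟨(ζ : L), S36OQ_zeta_mem A n hn (ζ : L) (by
    rw [← Units.val_pow_eq_pow_val, hζ, Units.val_one])⟩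
  inv := ⟨((ζ⁻¹ : Lˣ) : L), S36OQ_zeta_mem A n hn ((ζ⁻¹ : Lˣ) : L) (by
    rw [← Units.val_pow_eq_pow_val, inv_pow, hζ, inv_one, Units.val_one])⟩
  val_inv := Subtype.ext (by simp)
  inv_val := Subtype.ext (by simp)

theorem S36OQ_zetaA_val (n : ℕ) (hn : 0 < n) (ζ : Lˣ) (hζ : ζ ^ n = 1) :
    (((S36OQ_zetaA A n hn ζ hζ : (↥A)ˣ) : ↥A) : L) = (ζ : L) := rfl

theorem S36OQ_map_zetaA (n : ℕ) (hn : 0 < n) (ζ : Lˣ) (hζ : ζ ^ n = 1) :
    Units.map ((A.subtype : ↥A →+* L) : ↥A →* L) (S36OQ_zetaA A n hn ζ hζ) = ζ :=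
  Units.ext rfl

/-- `ι (y(ζ t)) = (ι y)(ζ t)`. -/
theorem S36OQ_iota_tw (n : ℕ) (hn : 0 < n) (ζ : Lˣ) (hζ : ζ ^ n = 1) (y : LaurentSeries A) :
    coeffMap A.subtype (ES_tw (S36OQ_zetaA A n hn ζ hζ) y) = ES_tw ζ (coeffMap A.subtype y) := by
  rw [ES_coeffMap_tw, S36OQ_map_zetaA]

section char

variable (q : ℕ) [Fact q.Prime] [CharP (IsLocalRing.ResidueField A) q]
  (ζ : Lˣ) (hζ : ζ ^ q = 1)

/-- the residue of `ζ` is `1`. -/
theorem S36OQ_res_zetaA :
    IsLocalRing.residue A ((S36OQ_zetaA A q (Nat.Prime.pos Fact.out) ζ hζ : (↥A)ˣ) : ↥A) = 1 := by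
  apply S36OQ_map_eq_one q (IsLocalRing.residue A)
  apply Subtype.ext
  show (ζ : L) ^ q = 1
  rw [← Units.val_pow_eq_pow_val, hζ, Units.val_one]

/-- `ρ (y(ζ t)) = ρ y`. -/
theorem S36OQ_rho_tw (y : LaurentSeries A) :
    coeffMap (IsLocalRing.residue A)
        (ES_tw (S36OQ_zetaA A q (Nat.Prime.pos Fact.out) ζ hζ) y) =
      coeffMap (IsLocalRing.residue A) y := by
  rw [ES_coeffMap_tw]
  have h1 : Units.map ((IsLocalRing.residue A : ↥A →+* IsLocalRing.ResidueField A) :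
      ↥A →* IsLocalRing.ResidueField A) (S36OQ_zetaA A q (Nat.Prime.pos Fact.out) ζ hζ) = 1 :=
    Units.ext (S36OQ_res_zetaA A q ζ hζ)
  rw [h1, ES_tw_one]

include hζ in
/-- `1 + ζ + ⋯ + ζ^{q-1} = 0` in `A`. -/
theorem S36OQ_geom_zetaA (hζ1 : ζ ≠ 1) :
    ∑ i ∈ Finset.range q,
      (((S36OQ_zetaA A q (Nat.Prime.pos Fact.out) ζ hζ : (↥A)ˣ) : ↥A)) ^ i = 0 := by
  apply S36OQ_geom_zero q
  · apply Subtype.ext
    show (ζ : L) ^ q = 1
    rw [← Units.val_pow_eq_pow_val, hζ, Units.val_one]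
  · intro h
    apply hζ1
    apply Units.ext
    have := congrArg (Subtype.val : ↥A → L) h
    exact this

/-- **one factor.**  For `x · ι b = ι a`:
`(x(ζt) - x(t)) · ι (b · b(ζt)) = ι (π · (Da · b - a · Db))`. -/
theorem S36OQ_frac_one (x : LaurentSeries L) (a b : LaurentSeries A)
    (hx : x * coeffMap A.subtype b = coeffMap A.subtype a) :
    (ES_tw ζ x - x) * coeffMap A.subtype
        (b * ES_tw (S36OQ_zetaA A q (Nat.Prime.pos Fact.out) ζ hζ) b) =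
      coeffMap A.subtype
        (HahnSeries.C ((((S36OQ_zetaA A q (Nat.Prime.pos Fact.out) ζ hζ : (↥A)ˣ) : ↥A)) - 1) *
          (S36OQ_D (S36OQ_zetaA A q (Nat.Prime.pos Fact.out) ζ hζ) a * b -
            a * S36OQ_D (S36OQ_zetaA A q (Nat.Prime.pos Fact.out) ζ hζ) b)) := by
  set ζA := S36OQ_zetaA A q (Nat.Prime.pos Fact.out) ζ hζ with hζA
  have h1 : ES_tw ζ x * coeffMap A.subtype (ES_tw ζA b) = coeffMap A.subtype (ES_tw ζA a) := by
    rw [S36OQ_iota_tw, S36OQ_iota_tw, ← map_mul, hx]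
  have h2 : HahnSeries.C ((ζA : ↥A) - 1) * (S36OQ_D ζA a * b - a * S36OQ_D ζA b) =
      (ES_tw ζA a - a) * b - a * (ES_tw ζA b - b) := by
    rw [S36OQ_tw_sub, S36OQ_tw_sub]
    ring
  rw [h2, map_sub, map_mul, map_mul, map_mul, map_sub, map_sub, ← h1, ← hx]
  ring

/-- the reduction of the numerator of `S36OQ_frac_one`. -/
theorem S36OQ_frac_one_red (a b : LaurentSeries A)
    (hb : coeffMap (IsLocalRing.residue A) b ≠ 0) :
    coeffMap (IsLocalRing.residue A)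
        (S36OQ_D (S36OQ_zetaA A q (Nat.Prime.pos Fact.out) ζ hζ) a * b -
          a * S36OQ_D (S36OQ_zetaA A q (Nat.Prime.pos Fact.out) ζ hζ) b) =
      LT_theta (coeffMap (IsLocalRing.residue A) a / coeffMap (IsLocalRing.residue A) b) *
        coeffMap (IsLocalRing.residue A)
          (b * ES_tw (S36OQ_zetaA A q (Nat.Prime.pos Fact.out) ζ hζ) b) := by
  set ζA := S36OQ_zetaA A q (Nat.Prime.pos Fact.out) ζ hζ with hζA
  have hres := S36OQ_res_zetaA A q ζ hζ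
  rw [map_sub, map_mul, map_mul, map_mul, S36OQ_rho_tw, S36OQ_D_red _ ζA hres,
    S36OQ_D_red _ ζA hres]
  obtain ⟨ra, hra⟩ : ∃ ra, ra = coeffMap (IsLocalRing.residue A) a := ⟨_, rfl⟩
  obtain ⟨rb, hrb⟩ : ∃ rb, rb = coeffMap (IsLocalRing.residue A) b := ⟨_, rfl⟩
  rw [← hra, ← hrb]
  rw [← hrb] at hb
  -- `θ ra = θ (ra/rb · rb)`
  have h1 : LT_theta ra = (ra / rb) * LT_theta rb + rb * LT_theta (ra / rb) := by
    have := LT_thetaFun_mul (ra / rb) rb
    rw [div_mul_cancel₀ _ hb] at this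
    exact this
  rw [h1]
  field_simp
  ring

end char

section main

variable (q : ℕ) [Fact q.Prime] [CharP (IsLocalRing.ResidueField A) q]
  (ζ : Lˣ) (hζ : ζ ^ q = 1) (hζ1 : ζ ≠ 1)

include hζ hζ1 in
/-- **ORD-FV-Q, Gauss-fraction form, polarised.**  If `x_i · ι b_i = ι a_i` with `ρ b_i ≠ 0`
(`i ∈ s`, `#s = q - 1`), then `∏ (x_i(ζ t) - x_i(t)) · ι t₂ = q · ι t₁` with `ρ t₂ ≠ 0` and
`ρ t₁ = - ∏ θ (ρ a_i / ρ b_i) · ρ t₂`:  the reduction of `∏ (x_i(ζ t) - x_i(t)) / q` is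
`- ∏ θ x̄_i`. -/
theorem S36OQ_frac_prod {ι : Type*} (s : Finset ι) (hs : s.card = q - 1)
    (x : ι → LaurentSeries L) (a b : ι → LaurentSeries A)
    (hb : ∀ i ∈ s, coeffMap (IsLocalRing.residue A) (b i) ≠ 0)
    (hx : ∀ i ∈ s, x i * coeffMap A.subtype (b i) = coeffMap A.subtype (a i)) :
    ∃ t₁ t₂ : LaurentSeries A,
      coeffMap (IsLocalRing.residue A) t₂ ≠ 0 ∧
      (∏ i ∈ s, (ES_tw ζ (x i) - x i)) * coeffMap A.subtype t₂ =
        HahnSeries.C (q : L) * coeffMap A.subtype t₁ ∧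
      coeffMap (IsLocalRing.residue A) t₁ =
        -(∏ i ∈ s, LT_theta (coeffMap (IsLocalRing.residue A) (a i) /
            coeffMap (IsLocalRing.residue A) (b i))) *
          coeffMap (IsLocalRing.residue A) t₂ := by
  classical
  set ζA := S36OQ_zetaA A q (Nat.Prime.pos Fact.out) ζ hζ with hζA
  have hq : q.Prime := Fact.out
  obtain ⟨c, hc⟩ := S36OQ_pi_pow q hq ((ζA : ↥A)) (S36OQ_geom_zetaA A q ζ hζ hζ1)
  have hres := S36OQ_res_zetaA A q ζ hζ
  refine ⟨HahnSeries.C (-1 + ((ζA : ↥A) - 1) * c) *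
      ∏ i ∈ s, (S36OQ_D ζA (a i) * b i - a i * S36OQ_D ζA (b i)),
    ∏ i ∈ s, (b i * ES_tw ζA (b i)), ?_, ?_, ?_⟩
  · rw [map_prod]
    refine Finset.prod_ne_zero_iff.mpr (fun i hi => ?_)
    rw [map_mul, S36OQ_rho_tw]
    exact mul_ne_zero (hb i hi) (hb i hi)
  · rw [map_prod, ← Finset.prod_mul_distrib,
      Finset.prod_congr rfl (fun i hi => S36OQ_frac_one A q ζ hζ (x i) (a i) (b i) (hx i hi)),
      ← map_prod, Finset.prod_mul_distrib, Finset.prod_const, hs, ← map_pow, hc]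
    simp only [map_mul, map_natCast, S36OQ_coeffMap_C, mul_assoc]
    rfl
  · have h0 : IsLocalRing.residue A (-1 + ((ζA : ↥A) - 1) * c) = -1 := by
      rw [map_add, map_neg, map_one, map_mul, map_sub, hres, map_one, sub_self, zero_mul,
        add_zero]
    rw [map_mul, S36OQ_coeffMap_C, h0, map_neg, map_one, neg_one_mul, map_prod, map_prod,
      Finset.prod_congr rfl (fun i hi => S36OQ_frac_one_red A q ζ hζ (a i) (b i) (hb i hi)),
      Finset.prod_mul_distrib, neg_mul]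

include hζ hζ1 in
/-- **ORD-FV-Q, Gauss-fraction form.**  If `x · ι b = ι a` with `ρ b ≠ 0`, then
`(x(ζ t) - x(t))^{q-1} · ι t₂ = q · ι t₁` with `ρ t₂ ≠ 0` and `ρ t₁ = -(θ x̄)^{q-1} · ρ t₂`,
`x̄ = ρ a / ρ b`. -/
theorem S36OQ_frac (x : LaurentSeries L) (a b : LaurentSeries A)
    (hb : coeffMap (IsLocalRing.residue A) b ≠ 0)
    (hx : x * coeffMap A.subtype b = coeffMap A.subtype a) :
    ∃ t₁ t₂ : LaurentSeries A,
      coeffMap (IsLocalRing.residue A) t₂ ≠ 0 ∧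
      (ES_tw ζ x - x) ^ (q - 1) * coeffMap A.subtype t₂ =
        HahnSeries.C (q : L) * coeffMap A.subtype t₁ ∧
      coeffMap (IsLocalRing.residue A) t₁ =
        -(LT_theta (coeffMap (IsLocalRing.residue A) a /
            coeffMap (IsLocalRing.residue A) b)) ^ (q - 1) *
          coeffMap (IsLocalRing.residue A) t₂ := by
  obtain ⟨t₁, t₂, h1, h2, h3⟩ := S36OQ_frac_prod A q ζ hζ hζ1
    (Finset.univ : Finset (Fin (q - 1))) (by rw [Finset.card_univ, Fintype.card_fin])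
    (fun _ => x) (fun _ => a) (fun _ => b) (fun _ _ => hb) (fun _ _ => hx)
  refine ⟨t₁, t₂, h1, ?_, ?_⟩
  · rw [← h2, Finset.prod_const, Finset.card_univ, Fintype.card_fin]
  · rw [h3, Finset.prod_const, Finset.card_univ, Fintype.card_fin]

end main

end Fermat.Agent.S36
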