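import Fermat.Agent.S36.Glue
import Fermat.Agent.GalRep.ESSeries
import Fermat.Agent.S24.EvDeg

/-!
# TRACK 10 (S36), package P-VAL3 (helper12), part 3: `w_{q²}` and the MIDDLE embedding of `F_{M q²}`

Levels `M`, `N₁ = M q`, `N₂ = M q q` (`q ∤ M` prime); `α, β : F_{N₁} → F_{N₂}`; `w` = Atkin–Lehner
`w_q` of `F_{N₁}`.  From GLUE (`S36V_glue`):

* `S36V_w2 : F_{N₂} ≃ₐ[ℚ̄] F_{N₂}` — the Atkin–Lehner involution `w_{q²}`:
  `w₂ (α f) = β (w f)`, `w₂ (β f) = α (w f)`, `w₂ ∘ w₂ = 1`.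
  (`V_VV := V_FF ∘ w₂`.)
* `S36V_iota ζ : F_{N₂} →ₐ[ℚ̄] ℚ̄((t))` for a `q`-th root of unity `ζ ≠ 1` — the `q`-expansion at the
  MIDDLE cusp: `ι (α f) = f`, `ι (β f) = (w f)(ζ t)`; so `A = j(t) ↦ j(t)`, `B = j(t^q) ↦ j(t^q)`,
  `C = j(t^{q²}) ↦ j(ζ t)`.  (`V_FV := Gauss ∘ ι`; the `q − 1` embeddings `ι_ζ` together with the
  inclusion are the `q` embeddings of `F_{N₂}` over `α F_{N₁}`.)
-/

set_option autoImplicit false
set_option synthInstance.maxHeartbeats 400000
set_option maxHeartbeats 1000000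
set_option linter.style.haveILetI false
set_option linter.unusedSectionVars false

open HahnSeries IntermediateField AlgebraicCurve ModularCurve

noncomputable section

namespace Fermat.Agent.S36

open Fermat.Agent.S18 Fermat.Agent.S24 Fermat.Agent.S34 Fermat.Agent.S37 Fermat.Agent.GalRep

/-- the twist `t ↦ u t` fixes the series in `t^N` if `u^N = 1`. -/
theorem S36V_tw_qExpand {R : Type*} [CommRing R] (N : ℕ) [NeZero N] (u : Rˣ) (hu : u ^ N = 1)
    (f : LaurentSeries R) : ES_tw u (qExpand R N f) = qExpand R N f := by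
  ext k
  rw [ES_tw_coeff]
  by_cases hk : (N : ℤ) ∣ k
  · obtain ⟨m, rfl⟩ := hk
    have : u ^ ((N : ℤ) * m) = 1 := by
      rw [zpow_mul, zpow_natCast, hu, one_zpow]
    rw [this, Units.val_one, one_mul]
  · rw [qExpand_coeff_of_not_dvd N f hk, mul_zero]

variable (M q : ℕ) [NeZero M] [NeZero q] (hq : q.Prime) (hqM : ¬ q ∣ M)

/-- `t₀ = w_q j = j(t^q) ∈ F_{N₁}`, the element separating the glued maps from the diagonal. -/
def S36V_t0 : ↥(modularFunctionFieldBar (M * q)) := S34DF_wq M q hq hqM (jB (M * q))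

theorem S36V_w_t0 : S34DF_wq M q hq hqM (S36V_t0 M q hq hqM) = jB (M * q) :=
  S34DF_wq_wq M q hq hqM _

include hq in
theorem S36V_qExpand_coeff_neg_one (f : LaurentSeries (AlgebraicClosure ℚ)) :
    (qExpand (AlgebraicClosure ℚ) q f).coeff (-1 : ℤ) = 0 := by
  apply qExpand_coeff_of_not_dvd
  intro h
  have h1 : (q : ℤ) ∣ 1 := (Int.dvd_neg).mp h
  have h2 : q ∣ 1 := Int.natCast_dvd_natCast.mp (by simpa using h1)
  exact hq.one_lt.ne' (Nat.dvd_one.mp h2)

/-! ### the involution `w_{q²}` -/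

theorem S36V_w2_exists :
    ∃ ι : ↥(modularFunctionFieldBar (M * q * q)) →+* ↥(modularFunctionFieldBar (M * q * q)),
      (∀ s, ι (heckeAlphaBar (AlgebraicClosure ℚ) (M * q) q s) =
        heckeBetaBar (AlgebraicClosure ℚ) (M * q) q (S34DF_wq M q hq hqM s)) ∧
      (∀ t, ι (heckeBetaBar (AlgebraicClosure ℚ) (M * q) q t) =
        heckeAlphaBar (AlgebraicClosure ℚ) (M * q) q (S34DF_wq M q hq hqM t)) := by
  refine S36V_glue M q hq hqM
    ((heckeBetaBar (AlgebraicClosure ℚ) (M * q) q).toRingHom.comp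
      ((S34DF_wq M q hq hqM : ↥(modularFunctionFieldBar (M * q)) ≃ₐ[AlgebraicClosure ℚ]
        ↥(modularFunctionFieldBar (M * q))) : ↥(modularFunctionFieldBar (M * q)) →+*
          ↥(modularFunctionFieldBar (M * q))))
    ((heckeAlphaBar (AlgebraicClosure ℚ) (M * q) q).toRingHom.comp
      ((S34DF_wq M q hq hqM : ↥(modularFunctionFieldBar (M * q)) ≃ₐ[AlgebraicClosure ℚ]
        ↥(modularFunctionFieldBar (M * q))) : ↥(modularFunctionFieldBar (M * q)) →+*
          ↥(modularFunctionFieldBar (M * q)))) ?_ ?_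
  · intro g
    show heckeBetaBar (AlgebraicClosure ℚ) (M * q) q
        (S34DF_wq M q hq hqM (heckeBetaBar (AlgebraicClosure ℚ) M q g)) =
      heckeAlphaBar (AlgebraicClosure ℚ) (M * q) q
        (S34DF_wq M q hq hqM (heckeAlphaBar (AlgebraicClosure ℚ) M q g))
    rw [S34VW_wq_beta, S34VW_wq_alpha, S36V_alpha_beta']
  · refine ⟨S36V_t0 M q hq hqM, ?_⟩
    show heckeAlphaBar (AlgebraicClosure ℚ) (M * q) q
        (S34DF_wq M q hq hqM (S36V_t0 M q hq hqM)) ≠
      heckeBetaBar (AlgebraicClosure ℚ) (M * q) q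
        (S34DF_wq M q hq hqM (S34DF_wq M q hq hqM (S36V_t0 M q hq hqM)))
    rw [S34DF_wq_wq, S36V_w_t0]
    intro h
    have h1 := congrArg (fun x : ↥(modularFunctionFieldBar (M * q * q)) =>
      (x : LaurentSeries (AlgebraicClosure ℚ)).coeff (-1 : ℤ)) h
    simp only [coe_heckeAlphaBar, coe_heckeBetaBar] at h1
    rw [S24_deg_jB_val, ModularCurve.coeff_jqModC_neg_one, S36V_qExpand_coeff_neg_one q hq _] at h1
    exact one_ne_zero h1

/-- `w_{q²}` as a ring endomorphism. -/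
def S36V_w2Hom : ↥(modularFunctionFieldBar (M * q * q)) →+*
    ↥(modularFunctionFieldBar (M * q * q)) :=
  (S36V_w2_exists M q hq hqM).choose

theorem S36V_w2Hom_alpha (s : ↥(modularFunctionFieldBar (M * q))) :
    S36V_w2Hom M q hq hqM (heckeAlphaBar (AlgebraicClosure ℚ) (M * q) q s) =
      heckeBetaBar (AlgebraicClosure ℚ) (M * q) q (S34DF_wq M q hq hqM s) :=
  (S36V_w2_exists M q hq hqM).choose_spec.1 s

theorem S36V_w2Hom_beta (t : ↥(modularFunctionFieldBar (M * q))) :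
    S36V_w2Hom M q hq hqM (heckeBetaBar (AlgebraicClosure ℚ) (M * q) q t) =
      heckeAlphaBar (AlgebraicClosure ℚ) (M * q) q (S34DF_wq M q hq hqM t) :=
  (S36V_w2_exists M q hq hqM).choose_spec.2 t

theorem S36V_w2Hom_w2Hom (f : ↥(modularFunctionFieldBar (M * q * q))) :
    S36V_w2Hom M q hq hqM (S36V_w2Hom M q hq hqM f) = f := by
  have h := S36V_glue_unique M q hq
    ((S36V_w2Hom M q hq hqM).comp (S36V_w2Hom M q hq hqM))
    (RingHom.id ↥(modularFunctionFieldBar (M * q * q)))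
    (fun s => by
      show S36V_w2Hom M q hq hqM (S36V_w2Hom M q hq hqM _) = _
      rw [S36V_w2Hom_alpha, S36V_w2Hom_beta, S34DF_wq_wq]
      rfl)
    (fun t => by
      show S36V_w2Hom M q hq hqM (S36V_w2Hom M q hq hqM _) = _
      rw [S36V_w2Hom_beta, S36V_w2Hom_alpha, S34DF_wq_wq]
      rfl)
  exact congrArg (fun φ : ↥(modularFunctionFieldBar (M * q * q)) →+*
    ↥(modularFunctionFieldBar (M * q * q)) => φ f) h

theorem S36V_w2Hom_const (c : AlgebraicClosure ℚ) :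
    S36V_w2Hom M q hq hqM
        (algebraMap (AlgebraicClosure ℚ) ↥(modularFunctionFieldBar (M * q * q)) c) =
      algebraMap (AlgebraicClosure ℚ) ↥(modularFunctionFieldBar (M * q * q)) c := by
  have h1 : algebraMap (AlgebraicClosure ℚ) ↥(modularFunctionFieldBar (M * q * q)) c =
      heckeAlphaBar (AlgebraicClosure ℚ) (M * q) q
        (algebraMap (AlgebraicClosure ℚ) ↥(modularFunctionFieldBar (M * q)) c) :=
    (AlgHom.commutes _ c).symm
  rw [h1, S36V_w2Hom_alpha, AlgEquiv.commutes, AlgHom.commutes, AlgHom.commutes]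

/-- **the Atkin–Lehner involution `w_{q²}`** of `F_{M q²}`. -/
def S36V_w2 : ↥(modularFunctionFieldBar (M * q * q)) ≃ₐ[AlgebraicClosure ℚ]
    ↥(modularFunctionFieldBar (M * q * q)) :=
  AlgEquiv.ofAlgHom
    { S36V_w2Hom M q hq hqM with commutes' := S36V_w2Hom_const M q hq hqM }
    { S36V_w2Hom M q hq hqM with commutes' := S36V_w2Hom_const M q hq hqM }
    (AlgHom.ext fun f => S36V_w2Hom_w2Hom M q hq hqM f)
    (AlgHom.ext fun f => S36V_w2Hom_w2Hom M q hq hqM f)

theorem S36V_w2_apply (f : ↥(modularFunctionFieldBar (M * q * q))) :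
    S36V_w2 M q hq hqM f = S36V_w2Hom M q hq hqM f := rfl

theorem S36V_w2_alpha (s : ↥(modularFunctionFieldBar (M * q))) :
    S36V_w2 M q hq hqM (heckeAlphaBar (AlgebraicClosure ℚ) (M * q) q s) =
      heckeBetaBar (AlgebraicClosure ℚ) (M * q) q (S34DF_wq M q hq hqM s) :=
  S36V_w2Hom_alpha M q hq hqM s

theorem S36V_w2_beta (t : ↥(modularFunctionFieldBar (M * q))) :
    S36V_w2 M q hq hqM (heckeBetaBar (AlgebraicClosure ℚ) (M * q) q t) =
      heckeAlphaBar (AlgebraicClosure ℚ) (M * q) q (S34DF_wq M q hq hqM t) :=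
  S36V_w2Hom_beta M q hq hqM t

theorem S36V_w2_w2 (f : ↥(modularFunctionFieldBar (M * q * q))) :
    S36V_w2 M q hq hqM (S36V_w2 M q hq hqM f) = f :=
  S36V_w2Hom_w2Hom M q hq hqM f

/-! ### the middle embedding -/

variable (ζ : (AlgebraicClosure ℚ)ˣ) (hζ : ζ ^ q = 1) (hζ1 : ζ ≠ 1)

/-- the inclusion `F_{N₁} ⊂ ℚ̄((t))` as a ring map. -/
def S36V_coe1 : ↥(modularFunctionFieldBar (M * q)) →+* LaurentSeries (AlgebraicClosure ℚ) :=
  (modularFunctionFieldBar (M * q)).val.toRingHom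

theorem S36V_coe1_apply (f : ↥(modularFunctionFieldBar (M * q))) :
    S36V_coe1 M q f = (f : LaurentSeries (AlgebraicClosure ℚ)) := rfl

include hζ hζ1 in
theorem S36V_iota_exists :
    ∃ ι : ↥(modularFunctionFieldBar (M * q * q)) →+* LaurentSeries (AlgebraicClosure ℚ),
      (∀ s, ι (heckeAlphaBar (AlgebraicClosure ℚ) (M * q) q s) =
        (s : LaurentSeries (AlgebraicClosure ℚ))) ∧
      (∀ t, ι (heckeBetaBar (AlgebraicClosure ℚ) (M * q) q t) =
        ES_tw ζ ((S34DF_wq M q hq hqM t : ↥(modularFunctionFieldBar (M * q))) :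
          LaurentSeries (AlgebraicClosure ℚ))) := by
  refine S36V_glue M q hq hqM (S36V_coe1 M q)
    ((ES_tw ζ).comp ((S36V_coe1 M q).comp
      ((S34DF_wq M q hq hqM : ↥(modularFunctionFieldBar (M * q)) ≃ₐ[AlgebraicClosure ℚ]
        ↥(modularFunctionFieldBar (M * q))) : ↥(modularFunctionFieldBar (M * q)) →+*
          ↥(modularFunctionFieldBar (M * q))))) ?_ ?_
  · intro g
    show ((heckeBetaBar (AlgebraicClosure ℚ) M q g : ↥(modularFunctionFieldBar (M * q))) :
        LaurentSeries (AlgebraicClosure ℚ)) =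
      ES_tw ζ ((S34DF_wq M q hq hqM (heckeAlphaBar (AlgebraicClosure ℚ) M q g) :
        ↥(modularFunctionFieldBar (M * q))) : LaurentSeries (AlgebraicClosure ℚ))
    rw [S34VW_wq_alpha, coe_heckeBetaBar, S36V_tw_qExpand q ζ hζ]
  · refine ⟨S36V_t0 M q hq hqM, ?_⟩
    show ES_tw ζ ((S34DF_wq M q hq hqM (S36V_t0 M q hq hqM) :
        ↥(modularFunctionFieldBar (M * q))) : LaurentSeries (AlgebraicClosure ℚ)) ≠
      ((S34DF_wq M q hq hqM (S36V_t0 M q hq hqM) : ↥(modularFunctionFieldBar (M * q))) :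
        LaurentSeries (AlgebraicClosure ℚ))
    rw [S36V_w_t0, S24_deg_jB_val]
    intro h
    have h1 := congrArg (fun x : LaurentSeries (AlgebraicClosure ℚ) => x.coeff (-1 : ℤ)) h
    simp only [ES_tw_coeff] at h1
    rw [ModularCurve.coeff_jqModC_neg_one, mul_one] at h1
    apply hζ1
    have h2 : ζ ^ (-1 : ℤ) = 1 := Units.ext h1
    rw [zpow_neg_one, inv_eq_one] at h2
    exact h2

/-- the middle embedding as a ring map (junk `0`-independent: defined for every `ζ` with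
`ζ^q = 1`, `ζ ≠ 1`). -/
def S36V_iotaHom : ↥(modularFunctionFieldBar (M * q * q)) →+*
    LaurentSeries (AlgebraicClosure ℚ) :=
  (S36V_iota_exists M q hq hqM ζ hζ hζ1).choose

theorem S36V_iotaHom_alpha (s : ↥(modularFunctionFieldBar (M * q))) :
    S36V_iotaHom M q hq hqM ζ hζ hζ1 (heckeAlphaBar (AlgebraicClosure ℚ) (M * q) q s) =
      (s : LaurentSeries (AlgebraicClosure ℚ)) :=
  (S36V_iota_exists M q hq hqM ζ hζ hζ1).choose_spec.1 s

theorem S36V_iotaHom_beta (t : ↥(modularFunctionFieldBar (M * q))) :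
    S36V_iotaHom M q hq hqM ζ hζ hζ1 (heckeBetaBar (AlgebraicClosure ℚ) (M * q) q t) =
      ES_tw ζ ((S34DF_wq M q hq hqM t : ↥(modularFunctionFieldBar (M * q))) :
        LaurentSeries (AlgebraicClosure ℚ)) :=
  (S36V_iota_exists M q hq hqM ζ hζ hζ1).choose_spec.2 t

theorem S36V_iotaHom_const (c : AlgebraicClosure ℚ) :
    S36V_iotaHom M q hq hqM ζ hζ hζ1
        (algebraMap (AlgebraicClosure ℚ) ↥(modularFunctionFieldBar (M * q * q)) c) =
      algebraMap (AlgebraicClosure ℚ) (LaurentSeries (AlgebraicClosure ℚ)) c := by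
  have h1 : algebraMap (AlgebraicClosure ℚ) ↥(modularFunctionFieldBar (M * q * q)) c =
      heckeAlphaBar (AlgebraicClosure ℚ) (M * q) q
        (algebraMap (AlgebraicClosure ℚ) ↥(modularFunctionFieldBar (M * q)) c) :=
    (AlgHom.commutes _ c).symm
  rw [h1, S36V_iotaHom_alpha]
  rfl

/-- **the middle embedding** `ι_ζ : F_{M q²} → ℚ̄((t))`. -/
def S36V_iota : ↥(modularFunctionFieldBar (M * q * q)) →ₐ[AlgebraicClosure ℚ]
    LaurentSeries (AlgebraicClosure ℚ) :=
  { S36V_iotaHom M q hq hqM ζ hζ hζ1 with commutes' := S36V_iotaHom_const M q hq hqM ζ hζ hζ1 }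

theorem S36V_iota_alpha (s : ↥(modularFunctionFieldBar (M * q))) :
    S36V_iota M q hq hqM ζ hζ hζ1 (heckeAlphaBar (AlgebraicClosure ℚ) (M * q) q s) =
      (s : LaurentSeries (AlgebraicClosure ℚ)) :=
  S36V_iotaHom_alpha M q hq hqM ζ hζ hζ1 s

theorem S36V_iota_beta (t : ↥(modularFunctionFieldBar (M * q))) :
    S36V_iota M q hq hqM ζ hζ hζ1 (heckeBetaBar (AlgebraicClosure ℚ) (M * q) q t) =
      ES_tw ζ ((S34DF_wq M q hq hqM t : ↥(modularFunctionFieldBar (M * q))) :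
        LaurentSeries (AlgebraicClosure ℚ)) :=
  S36V_iotaHom_beta M q hq hqM ζ hζ hζ1 t

end Fermat.Agent.S36
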