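import Mathlib
import Fermat.Agent.S36.OrdQFrac
import Fermat.Agent.S36.Val3
import Fermat.Agent.S18.ValDefs

/-!
# TRACK 10 (S36), package F5b = ORD-FV-Q (helper24), part 3: the middle embedding `ι_ζ`

Levels `M`, `M q`, `M q q` (`q ∤ M` prime), `ι_ζ = S36V_iota : F_{M q²} → ℚ̄((t))` the
`q`-expansion at the middle cusp (helper12, `S36/Val3.lean`), `δ_A^* = α ∘ α`, `δ_C^* = β ∘ β`.

* `S36OQ_iota_dA`, `S36OQ_iota_dC` — `ι_ζ (δ_A^* τ) = τ(t)`, `ι_ζ (δ_C^* τ) = τ(ζ t)` for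
  `τ ∈ F_M`;
* `S36OQ_iota_varpi` — `ι_ζ (δ_C^* τ - δ_A^* τ) = τ(ζ t) - τ(t)`;
* `S36OQ_iota_main` — **(R6) at `ι_ζ`**: for `τ ∈ S18_O A M` (Gauss-integral at level `M`,
  `A` over `q`), `ι_ζ ((δ_C^* τ - δ_A^* τ)^{q-1}) · ι t₂ = q · ι t₁` with `ρ t₂ ≠ 0` and
  `ρ t₁ = -(θ (red τ))^{q-1} · ρ t₂`;
* `S36OQ_iota_prod` — the polarised form (mixed products of `q - 1` differences).
-/

set_option autoImplicit false
set_option synthInstance.maxHeartbeats 400000
set_option maxHeartbeats 1000000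
set_option linter.unusedSectionVars false

open HahnSeries IntermediateField AlgebraicCurve ModularCurve

noncomputable section

namespace Fermat.Agent.S36

open Fermat.Agent.S18 Fermat.Agent.S24 Fermat.Agent.S34 Fermat.Agent.GalRep Fermat.Agent.Lib

variable (M q : ℕ) [NeZero M] [NeZero q] (hq : q.Prime) (hqM : ¬ q ∣ M)
  (ζ : (AlgebraicClosure ℚ)ˣ) (hζ : ζ ^ q = 1) (hζ1 : ζ ≠ 1)

/-- `δ_A^* = α ∘ α : F_M → F_{M q²}`. -/
def S36OQ_dA : ↥(modularFunctionFieldBar M) →ₐ[AlgebraicClosure ℚ]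
    ↥(modularFunctionFieldBar (M * q * q)) :=
  (heckeAlphaBar (AlgebraicClosure ℚ) (M * q) q).comp (heckeAlphaBar (AlgebraicClosure ℚ) M q)

/-- `δ_C^* = β ∘ β : F_M → F_{M q²}`. -/
def S36OQ_dC : ↥(modularFunctionFieldBar M) →ₐ[AlgebraicClosure ℚ]
    ↥(modularFunctionFieldBar (M * q * q)) :=
  (heckeBetaBar (AlgebraicClosure ℚ) (M * q) q).comp (heckeBetaBar (AlgebraicClosure ℚ) M q)

theorem S36OQ_iota_dA (τ : ↥(modularFunctionFieldBar M)) :
    S36V_iota M q hq hqM ζ hζ hζ1 (S36OQ_dA M q τ) = (τ : LaurentSeries (AlgebraicClosure ℚ)) := by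
  show S36V_iota M q hq hqM ζ hζ hζ1
    (heckeAlphaBar (AlgebraicClosure ℚ) (M * q) q (heckeAlphaBar (AlgebraicClosure ℚ) M q τ)) = _
  rw [S36V_iota_alpha, coe_heckeAlphaBar]

theorem S36OQ_iota_dC (τ : ↥(modularFunctionFieldBar M)) :
    S36V_iota M q hq hqM ζ hζ hζ1 (S36OQ_dC M q τ) =
      ES_tw ζ (τ : LaurentSeries (AlgebraicClosure ℚ)) := by
  show S36V_iota M q hq hqM ζ hζ hζ1
    (heckeBetaBar (AlgebraicClosure ℚ) (M * q) q (heckeBetaBar (AlgebraicClosure ℚ) M q τ)) = _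
  rw [S36V_iota_beta, S34VW_wq_beta, coe_heckeAlphaBar]

/-- `ι_ζ (δ_C^* τ - δ_A^* τ) = τ(ζ t) - τ(t)`. -/
theorem S36OQ_iota_varpi (τ : ↥(modularFunctionFieldBar M)) :
    S36V_iota M q hq hqM ζ hζ hζ1 (S36OQ_dC M q τ - S36OQ_dA M q τ) =
      ES_tw ζ (τ : LaurentSeries (AlgebraicClosure ℚ)) -
        (τ : LaurentSeries (AlgebraicClosure ℚ)) := by
  rw [map_sub, S36OQ_iota_dA, S36OQ_iota_dC]

variable (A : ValuationSubring (AlgebraicClosure ℚ))

/-- **(R6) at `ι_ζ`, polarised.**  For Gauss-integral `τ_i ∈ S18_O A M` (`i ∈ s`, `#s = q - 1`):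
`ι_ζ (∏ (δ_C^* τ_i - δ_A^* τ_i)) / q` is Gauss-integral with reduction `- ∏ θ (red τ_i)`. -/
theorem S36OQ_iota_prod [Fact q.Prime] [CharP (IsLocalRing.ResidueField A) q]
    {ι : Type*} (s : Finset ι) (hs : s.card = q - 1) (τ : ι → S18_O A M) :
    ∃ t₁ t₂ : LaurentSeries A,
      coeffMap (IsLocalRing.residue A) t₂ ≠ 0 ∧
      S36V_iota M q hq hqM ζ hζ hζ1
          (∏ i ∈ s, (S36OQ_dC M q (τ i : ↥(modularFunctionFieldBar M)) -
            S36OQ_dA M q (τ i : ↥(modularFunctionFieldBar M)))) *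
          coeffMap A.subtype t₂ =
        HahnSeries.C (q : AlgebraicClosure ℚ) * coeffMap A.subtype t₁ ∧
      coeffMap (IsLocalRing.residue A) t₁ =
        -(∏ i ∈ s, LT_theta ((S18_red A M (τ i) :
            ↥(modularFunctionFieldFullC (IsLocalRing.ResidueField A) M)) :
              LaurentSeries (IsLocalRing.ResidueField A))) *
          coeffMap (IsLocalRing.residue A) t₂ := by
  classical
  -- choose the fractions
  have hfr : ∀ i, ∃ a b : LaurentSeries A, a ∈ S18_B A M ∧ b ∈ S18_B A M ∧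
      coeffMap (IsLocalRing.residue A) b ≠ 0 ∧
      ((τ i : ↥(modularFunctionFieldBar M)) : LaurentSeries (AlgebraicClosure ℚ)) *
        coeffMap A.subtype b = coeffMap A.subtype a := by
    intro i
    obtain ⟨a, ha, b, hb, hne, hf⟩ := (τ i).2
    exact ⟨a, b, ha, hb, hne, hf⟩
  choose a b ha hb hne hf using hfr
  obtain ⟨t₁, t₂, h1, h2, h3⟩ := S36OQ_frac_prod A q ζ hζ hζ1 s hs
    (fun i => ((τ i : ↥(modularFunctionFieldBar M)) : LaurentSeries (AlgebraicClosure ℚ)))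
    a b (fun i _ => hne i) (fun i _ => hf i)
  refine ⟨t₁, t₂, h1, ?_, ?_⟩
  · rw [map_prod, Finset.prod_congr rfl (fun i _ => S36OQ_iota_varpi M q hq hqM ζ hζ hζ1 _)]
    exact h2
  · rw [h3]
    congr 2
    refine Finset.prod_congr rfl (fun i _ => ?_)
    congr 1
    have := S18_red_eq A M (ha i) (hb i) (hne i) (hf i)
    exact this.symm

/-- **(R6) at `ι_ζ`.**  For Gauss-integral `τ ∈ S18_O A M`:
`ι_ζ ((δ_C^* τ - δ_A^* τ)^{q-1}) / q` is Gauss-integral with reduction `-(θ (red τ))^{q-1}`. -/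
theorem S36OQ_iota_main [Fact q.Prime] [CharP (IsLocalRing.ResidueField A) q]
    (τ : S18_O A M) :
    ∃ t₁ t₂ : LaurentSeries A,
      coeffMap (IsLocalRing.residue A) t₂ ≠ 0 ∧
      S36V_iota M q hq hqM ζ hζ hζ1
          ((S36OQ_dC M q (τ : ↥(modularFunctionFieldBar M)) -
            S36OQ_dA M q (τ : ↥(modularFunctionFieldBar M))) ^ (q - 1)) *
          coeffMap A.subtype t₂ =
        HahnSeries.C (q : AlgebraicClosure ℚ) * coeffMap A.subtype t₁ ∧
      coeffMap (IsLocalRing.residue A) t₁ =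
        -(LT_theta ((S18_red A M τ :
            ↥(modularFunctionFieldFullC (IsLocalRing.ResidueField A) M)) :
              LaurentSeries (IsLocalRing.ResidueField A))) ^ (q - 1) *
          coeffMap (IsLocalRing.residue A) t₂ := by
  obtain ⟨t₁, t₂, h1, h2, h3⟩ := S36OQ_iota_prod M q hq hqM ζ hζ hζ1 A
    (Finset.univ : Finset (Fin (q - 1))) (by rw [Finset.card_univ, Fintype.card_fin])
    (fun _ => τ)
  refine ⟨t₁, t₂, h1, ?_, ?_⟩
  · rw [← h2, Finset.prod_const, Finset.card_univ, Fintype.card_fin]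
  · rw [h3, Finset.prod_const, Finset.card_univ, Fintype.card_fin]

end Fermat.Agent.S36
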