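import Fermat.Agent.S36.Val3Dv
import Fermat.Agent.S36.FixLFive
import Fermat.Agent.S36.OrdQInst
import Fermat.Agent.S36.Cart3VS
import Fermat.Agent.S18.Sep
import Fermat.Agent.S36.BaseLCyc
import Fermat.Agent.S36.FixLVal

/-!
# TRACK 10 (S36), package VAL3-DV (helper8), part 2: the middle valuation and the uniformisers
— prefix `S36VDV_`

`N₂ = M q q`, `A ⊂ ℚ̄` over `q`, `I = A.inertiaSubgroupIn ℚ`, `ζ` a `q`-th root of unity `≠ 1`,
`ι_ζ = S36V_emFV` the middle embedding.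

* `S36VDV_varpi M q = δ_C^* j − δ_A^* j` (`= j(t^{q²}) − j(t)`), rational (`S36VDV_varpi_fixed`),
  `≠ 0`, `ι_ζ ϖ = (ζ − 1) · ι (D_ζ j)` (`S36VDV_emFV_varpi'`);
* `S36VDV_varpi_unit` : `ϖ / (ζ − 1)` is a unit of the Gauss ring along `ι_ζ`;
* **`S36VDV_FV`** : for `f ≠ 0` fixed by `I` there is `k : ℤ` with `f · ϖ^k` a Gauss unit along
  `ι_ζ`  (strong form of helper1's `S36FI_dv_FV`; = `dv_FV` of COMP3-INST with `π_FV = ϖ`);
* **`S36VDV_FV_pow`** : `ϖ^(q−1) / q` is a Gauss unit along `ι_ζ`;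
* `S36VDV_isUnif_of_dv`, `S36VDV_isUnif_inc`, `S36VDV_isUnif_const` : `S36CA_IsUnif` from
  discrete values;
* **`S36VDV_isUnif_F/_V/_FF/_VV`** : `q` is a uniformiser of `S36FL_OL S O` (the restriction to
  the `I`-fixed field) for every valuation ring `O` with `f ∈ O ↔ f ∈ S36V_G A (em X)`;
  **`S36VDV_isUnif_FV`**, **`S36VDV_isU_FV`** : `ϖ` is a uniformiser of the restricted middle
  valuation ring and `ϖ^(q−1)/q` is a unit of it  (CART-INST item 2: `hqFF`, `hqVV`, `hπ`, `hπq`).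
-/

set_option autoImplicit false
set_option synthInstance.maxHeartbeats 400000
set_option maxHeartbeats 1000000
set_option linter.style.haveILetI false
set_option linter.unusedSectionVars false
set_option linter.unusedVariables false

open HahnSeries IntermediateField AlgebraicCurve ModularCurve

noncomputable section

namespace Fermat.Agent.S36

open Fermat.Agent.S18 Fermat.Agent.S24 Fermat.Agent.S34 Fermat.Agent.S37 Fermat.Agent.GalRep
  Fermat.Agent.Lib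

local notation "Ω" => AlgebraicClosure ℚ

variable (M q : ℕ) [NeZero M] [NeZero q] (hq : q.Prime) (hqM : ¬ q ∣ M)
  (A : ValuationSubring Ω) (ζ : Ωˣ) (hζ : ζ ^ q = 1) (hζ1 : ζ ≠ 1)

/-- the uniformiser of the middle valuation: `ϖ = δ_C^* j − δ_A^* j = j(t^{q²}) − j(t)`. -/
def S36VDV_varpi : ↥(modularFunctionFieldBar (M * q * q)) :=
  S36OQ_dC M q (jB M) - S36OQ_dA M q (jB M)

/-- `ι_ζ ϖ = j(ζ t) − j(t)`. -/
theorem S36VDV_emFV_varpi :
    S36V_emFV M q hq hqM ζ hζ hζ1 (S36VDV_varpi M q) =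
      ES_tw ζ ((jB M : ↥(modularFunctionFieldBar M)) : LaurentSeries Ω) -
        ((jB M : ↥(modularFunctionFieldBar M)) : LaurentSeries Ω) :=
  S36OQ_iota_varpi M q hq hqM ζ hζ hζ1 (jB M)

/-- the expansion of `j` is the integral series `j`. -/
theorem S36VDV_jB_coe :
    ((jB M : ↥(modularFunctionFieldBar M)) : LaurentSeries Ω) = S18_ι A (jqModC A) := by
  show coeffEmb Ω (qExpand ℚ 1 jq) = coeffMap A.subtype (jqModC A)
  rw [coeffMap_jqModC]
  have h1 : jqModC Ω = coeffEmb Ω (jqModC ℚ) := by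
    rw [coeffEmb, coeffMap_jqModC]
  rw [h1, qExpand_one_apply]
  rfl

/-- `ι_ζ ϖ = (ζ − 1) · ι (D_ζ j)`. -/
theorem S36VDV_emFV_varpi' :
    S36V_emFV M q hq hqM ζ hζ hζ1 (S36VDV_varpi M q) =
      HahnSeries.C ((ζ : Ω) - 1) *
        S18_ι A (S36OQ_D (S36OQ_zetaA A q hq.pos ζ hζ) (jqModC A)) := by
  rw [S36VDV_emFV_varpi, S36VDV_jB_coe M A]
  have h1 := S36OQ_tw_sub (S36OQ_zetaA A q hq.pos ζ hζ) (jqModC A)
  have h2 := congrArg (S18_ι A) h1
  rw [map_sub, map_mul] at h2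
  have h3 : S18_ι A (ES_tw (S36OQ_zetaA A q hq.pos ζ hζ) (jqModC A)) =
      ES_tw ζ (S18_ι A (jqModC A)) := S36OQ_iota_tw A q hq.pos ζ hζ (jqModC A)
  rw [h3] at h2
  rw [h2]
  congr 1
  rw [S36OQ_coeffMap_C]
  rfl


include hζ1 in
/-- `ζ − 1 ≠ 0`. -/
theorem S36VDV_zeta_sub_ne : ((ζ : Ω) - 1) ≠ 0 := by
  intro h
  apply hζ1
  apply Units.ext
  rw [Units.val_one]
  exact sub_eq_zero.mp h

/-- **`ϖ / (ζ − 1)` is a unit of the middle Gauss ring** (its reduction is `θ j̄ ≠ 0`). -/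
theorem S36VDV_varpi_unit (hA : A.LiesOverPrime q) :
    S36VDV_UG A (S36V_emFV M q hq hqM ζ hζ hζ1)
      (S36VDV_varpi M q * (algebraMap Ω ↥(modularFunctionFieldBar (M * q * q))
        ((ζ : Ω) - 1))⁻¹) := by
  haveI : Fact q.Prime := ⟨hq⟩
  haveI : CharP (IsLocalRing.ResidueField A) q := S18_residue_charP A q hq hA
  have hne := S36VDV_zeta_sub_ne ζ hζ1
  have hρ : S18_ρ A (S36OQ_D (S36OQ_zetaA A q hq.pos ζ hζ) (jqModC A)) ≠ 0 := by
    have h1 := S36OQ_D_red (IsLocalRing.residue A) (S36OQ_zetaA A q hq.pos ζ hζ)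
      (S36OQ_res_zetaA A q ζ hζ) (jqModC A)
    show coeffMap (IsLocalRing.residue A) _ ≠ 0
    rw [h1, coeffMap_jqModC]
    exact S18_theta_jq_ne_zero _
  refine S36VDV_UG_of_rep A _ (c := 1) (map_one _) hρ (s₂ := 1) (by rw [map_one]; exact one_ne_zero) ?_
  rw [map_mul, map_inv₀, S36FI_emFV_const, S36VDV_emFV_varpi' M q hq hqM A ζ hζ hζ1, map_one,
    mul_one, map_one, one_mul]
  have hC : (HahnSeries.C ((ζ : Ω) - 1) : LaurentSeries Ω) ≠ 0 := by
    intro h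
    apply hne
    have := congrArg (fun z => z.coeff 0) h
    simpa using this
  field_simp

include hq hqM hζ hζ1 in
/-- `ϖ ≠ 0`. -/
theorem S36VDV_varpi_ne_zero (hA : A.LiesOverPrime q) : S36VDV_varpi M q ≠ 0 := by
  haveI : Fact q.Prime := ⟨hq⟩
  haveI : CharP (IsLocalRing.ResidueField A) q := S18_residue_charP A q hq hA
  intro h0
  have h1 := S36VDV_emFV_varpi' M q hq hqM A ζ hζ hζ1
  rw [h0, map_zero] at h1
  have hne := S36VDV_zeta_sub_ne ζ hζ1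
  have hC : (HahnSeries.C ((ζ : Ω) - 1) : LaurentSeries Ω) ≠ 0 := by
    intro h
    apply hne
    have := congrArg (fun z => z.coeff 0) h
    simpa using this
  have h2 : S18_ι A (S36OQ_D (S36OQ_zetaA A q hq.pos ζ hζ) (jqModC A)) = 0 := by
    rcases mul_eq_zero.mp h1.symm with h | h
    · exact absurd h hC
    · exact h
  have h3 : S36OQ_D (S36OQ_zetaA A q hq.pos ζ hζ) (jqModC A) = 0 :=
    S18_ι_injective A (by rw [h2, map_zero])
  have h4 := S36OQ_D_red (IsLocalRing.residue A) (S36OQ_zetaA A q hq.pos ζ hζ)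
    (S36OQ_res_zetaA A q ζ hζ) (jqModC A)
  rw [h3, map_zero, coeffMap_jqModC] at h4
  exact S18_theta_jq_ne_zero _ h4.symm

/-- `ϖ` has rational coefficients: it is fixed by the Galois group. -/
theorem S36VDV_varpi_fixed (H : Subgroup (Ω ≃ₐ[ℚ] Ω)) :
    S36VDV_varpi M q ∈ (S36FI_act (M * q * q) H).fixF := by
  rw [S36FI_mem_fixF_iff_coeff]
  intro k
  rw [S36FI_mem_fixK]
  intro σ _
  have h1 : ((S36VDV_varpi M q : ↥(modularFunctionFieldBar (M * q * q))) : LaurentSeries Ω) =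
      qExpand Ω q (qExpand Ω q ((jB M : ↥(modularFunctionFieldBar M)) : LaurentSeries Ω)) -
        ((jB M : ↥(modularFunctionFieldBar M)) : LaurentSeries Ω) := by
    show ((S36OQ_dC M q (jB M) - S36OQ_dA M q (jB M) :
      ↥(modularFunctionFieldBar (M * q * q))) : LaurentSeries Ω) = _
    rw [AddSubgroupClass.coe_sub]
    congr 1
  have hj : ∀ n : ℤ, σ (((jB M : ↥(modularFunctionFieldBar M)) : LaurentSeries Ω).coeff n) =
      ((jB M : ↥(modularFunctionFieldBar M)) : LaurentSeries Ω).coeff n := by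
    intro n
    show σ ((coeffEmb Ω (qExpand ℚ 1 jq)).coeff n) = _
    rw [coeffEmb_coeff, AlgEquiv.commutes]
    rfl
  have hqe : ∀ (x : LaurentSeries Ω), (∀ n, σ (x.coeff n) = x.coeff n) →
      ∀ n, σ ((qExpand Ω q x).coeff n) = (qExpand Ω q x).coeff n := by
    intro x hx n
    by_cases hn : (q : ℤ) ∣ n
    · obtain ⟨m, rfl⟩ := hn
      rw [qExpand_coeff_mul]
      exact hx m
    · rw [qExpand_coeff_of_not_dvd q _ hn, map_zero]
  rw [h1, HahnSeries.coeff_sub, map_sub, hqe _ (hqe _ hj) k, hj k]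


include hq hζ hζ1 in
/-- `v(ζ − 1)^(q−1) = v(q)`. -/
theorem S36VDV_val_zeta_sub :
    A.valuation ((ζ : Ω) - 1) ^ (q - 1) = A.valuation (q : Ω) := by
  haveI : Fact q.Prime := ⟨hq⟩
  have hζ' : (ζ : Ω) ^ q = 1 := by rw [← Units.val_pow_eq_pow_val, hζ, Units.val_one]
  have h1 : (ζ : Ω) ≠ 1 := fun h => hζ1 (Units.ext (by rw [h, Units.val_one]))
  have hprim : IsPrimitiveRoot (ζ : Ω) q := by
    have := orderOf_eq_prime hζ' h1
    rw [← this]
    exact IsPrimitiveRoot.orderOf _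
  rw [Valuation.map_sub_swap]
  exact S36BL_val_one_sub_zeta A hprim

include hq hζ hζ1 in
/-- `ζ − 1` is a non-unit of `A`. -/
theorem S36VDV_zeta_sub_nonunit (hA : A.LiesOverPrime q) :
    A.valuation ((ζ : Ω) - 1) < 1 := by
  have h1 := S36VDV_val_zeta_sub q hq A ζ hζ hζ1
  have h2 : A.valuation (q : Ω) < 1 := (ValuationSubring.mem_nonunits_iff A).mp hA
  by_contra hcon
  push Not at hcon
  have h3 : 1 ≤ A.valuation ((ζ : Ω) - 1) ^ (q - 1) := one_le_pow₀ hcon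
  rw [h1] at h3
  exact absurd h2 (not_lt.mpr h3)

/-- **(DV2) for the middle valuation, strong form**: for `f ≠ 0` fixed by the inertia group,
`f · ϖ^k` is a unit of the Gauss ring along `ι_ζ` for some `k : ℤ`. -/
theorem S36VDV_FV (hA : A.LiesOverPrime q) (f : ↥(modularFunctionFieldBar (M * q * q)))
    (hf : f ∈ (S36FI_act (M * q * q) (A.inertiaSubgroupIn ℚ)).fixF) (hf0 : f ≠ 0) :
    ∃ k : ℤ, S36VDV_UG A (S36V_emFV M q hq hqM ζ hζ hζ1) (f * S36VDV_varpi M q ^ k) := by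
  haveI : Fact q.Prime := ⟨hq⟩
  have hq1 : q - 1 ≠ 0 := Nat.sub_ne_zero_of_lt hq.one_lt
  have hζ' : (ζ : Ω) ^ q = 1 := by rw [← Units.val_pow_eq_pow_val, hζ, Units.val_one]
  have hdisc : ∀ x : Ω, (∀ σ ∈ S36FI_Hz A (ζ : Ω), σ x = x) → x ≠ 0 →
      ∃ k : ℤ, A.valuation (x ^ (q - 1) * (q : Ω) ^ k) = 1 :=
    fun x hx hx0 => S36BL_val_zeta A hA hζ' hx0 fun τ hτ hτζ => hx τ ⟨hτ, hτζ⟩
  obtain ⟨c, hc0, hcfix, s₁, s₂, hs₁, hs₂, hrep⟩ :=
    S36FI_val (M * q * q) A (S36FI_Hz A (ζ : Ω)) hA (q - 1) hq1 hdisc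
      (S36V_emFV M q hq hqM ζ hζ hζ1) (S36FI_emFV_const M q hq hqM ζ hζ hζ1)
      (fun d _ hd n => S36FI_hgen_of (M * q * q) A (S36FI_Hz A (ζ : Ω))
        (S36V_emFV M q hq hqM ζ hζ hζ1)
        (fun d _ hd => S36FI_emFV_int M q hq hqM A ζ hζ hζ1 d hd)
        (fun σ hσ g => S36FI_emFV_eq M q hq hqM ζ hζ hζ1 σ ((S36FI_mem_Hz A).mp hσ).2 g) d hd n)
      f (S36FI_fixF_mono (M * q * q) (S36FI_Hz_le A (ζ : Ω)) hf) hf0
  obtain ⟨k, hk⟩ := hdisc c hcfix hc0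
  have hvq : A.valuation (q : Ω) ≠ 0 := by
    rw [Valuation.ne_zero_iff]
    exact_mod_cast hq.ne_zero
  have hπ0 := S36VDV_zeta_sub_ne ζ hζ1
  have hvπ : A.valuation ((ζ : Ω) - 1) ≠ 0 := (Valuation.ne_zero_iff _).mpr hπ0
  have hval : A.valuation c = A.valuation ((ζ : Ω) - 1) ^ (-k) := by
    apply S36VDV_root_unique (Nat.pos_of_ne_zero hq1)
    rw [map_mul, map_pow, map_zpow₀] at hk
    have h1 : A.valuation c ^ (q - 1) = A.valuation (q : Ω) ^ (-k) := by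
      rw [zpow_neg]
      exact eq_inv_of_mul_eq_one_left hk
    rw [h1, ← S36VDV_val_zeta_sub q hq A ζ hζ hζ1, ← zpow_natCast, ← zpow_natCast, ← zpow_mul,
      ← zpow_mul, mul_comm]
  have h := S36VDV_dv' A (S36V_emFV M q hq hqM ζ hζ hζ1) (S36FI_emFV_const M q hq hqM ζ hζ hζ1)
    ((ζ : Ω) - 1) hπ0 (S36VDV_varpi M q) (S36VDV_varpi_unit M q hq hqM A ζ hζ hζ1 hA) (-k) hval
    hs₁ hs₂ hrep
  rw [neg_neg] at h
  exact ⟨k, h⟩

/-- constants of valuation `1` are Gauss units. -/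
theorem S36VDV_UG_const {F : Type*} [Field F] [Algebra Ω F] (φ : F →+* LaurentSeries Ω)
    (hφ : ∀ c : Ω, φ (algebraMap Ω F c) = HahnSeries.C c) {c : Ω} (hc : A.valuation c = 1) :
    S36VDV_UG A φ (algebraMap Ω F c) :=
  S36VDV_UG_of_rep A φ hc (s₁ := 1) (s₂ := 1) (by rw [map_one]; exact one_ne_zero)
    (by rw [map_one]; exact one_ne_zero) (by rw [hφ, map_one])

/-- constants of `A` lie in the Gauss ring. -/
theorem S36VDV_G_const {F : Type*} [Field F] [Algebra Ω F] (φ : F →+* LaurentSeries Ω)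
    (hφ : ∀ c : Ω, φ (algebraMap Ω F c) = HahnSeries.C c) {c : Ω} (hc : c ∈ A) :
    algebraMap Ω F c ∈ S36V_G A φ := by
  refine S36V_G_of_int A φ (s := HahnSeries.C (⟨c, hc⟩ : A)) ?_
  rw [hφ, S36OQ_coeffMap_C]
  rfl

/-- the inverse of a non-unit constant is not in the Gauss ring. -/
theorem S36VDV_const_inv_not_mem {F : Type*} [Field F] [Algebra Ω F]
    (φ : F →+* LaurentSeries Ω) (hφ : ∀ c : Ω, φ (algebraMap Ω F c) = HahnSeries.C c) {c : Ω}
    (hc0 : c ≠ 0) (hc : A.valuation c < 1) : (algebraMap Ω F c)⁻¹ ∉ S36V_G A φ := by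
  rintro ⟨s₁, s₂, hne, h⟩
  have hcA : c ∈ A := (A.valuation_le_one_iff c).mp hc.le
  have hres : IsLocalRing.residue A ⟨c, hcA⟩ = 0 := by
    rw [IsLocalRing.residue_eq_zero_iff]
    exact (A.valuation_lt_one_iff ⟨c, hcA⟩).mpr hc
  have hC : (HahnSeries.C c : LaurentSeries Ω) ≠ 0 := by
    intro h
    apply hc0
    have := congrArg (fun z => z.coeff 0) h
    simpa using this
  rw [map_inv₀, hφ] at h
  have h2 : S18_ι A s₂ = S18_ι A (HahnSeries.C (⟨c, hcA⟩ : A) * s₁) := by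
    rw [map_mul, ← h, S36OQ_coeffMap_C]
    show _ = HahnSeries.C c * _
    field_simp
  have h3 : s₂ = HahnSeries.C (⟨c, hcA⟩ : A) * s₁ := S18_ι_injective A h2
  apply hne
  rw [h3, map_mul, S36OQ_coeffMap_C, hres, map_zero, zero_mul]

/-- **`ϖ^(q−1) / q` is a unit of the middle Gauss ring.** -/
theorem S36VDV_FV_pow (hA : A.LiesOverPrime q) :
    S36VDV_UG A (S36V_emFV M q hq hqM ζ hζ hζ1)
      (S36VDV_varpi M q ^ (q - 1) *
        (algebraMap Ω ↥(modularFunctionFieldBar (M * q * q)) (q : Ω))⁻¹) := by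
  have hq0 : (q : Ω) ≠ 0 := by exact_mod_cast hq.ne_zero
  have hπ0 := S36VDV_zeta_sub_ne ζ hζ1
  have hu : A.valuation (((ζ : Ω) - 1) ^ (q - 1) * (q : Ω)⁻¹) = 1 := by
    rw [map_mul, map_pow, map_inv₀, S36VDV_val_zeta_sub q hq A ζ hζ hζ1]
    exact mul_inv_cancel₀ ((Valuation.ne_zero_iff _).mpr hq0)
  have h1 := S36VDV_UG_mul A _
    (S36VDV_UG_pow A _ (S36VDV_varpi_unit M q hq hqM A ζ hζ hζ1 hA) (q - 1))
    (S36VDV_UG_const A (S36V_emFV M q hq hqM ζ hζ hζ1)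
      (S36FI_emFV_const M q hq hqM ζ hζ hζ1) hu)
  have hπF : algebraMap Ω ↥(modularFunctionFieldBar (M * q * q)) ((ζ : Ω) - 1) ≠ 0 := by
    rw [Ne, map_eq_zero]
    exact hπ0
  have e : (S36VDV_varpi M q * (algebraMap Ω ↥(modularFunctionFieldBar (M * q * q))
        ((ζ : Ω) - 1))⁻¹) ^ (q - 1) *
      algebraMap Ω ↥(modularFunctionFieldBar (M * q * q)) (((ζ : Ω) - 1) ^ (q - 1) * (q : Ω)⁻¹) =
      S36VDV_varpi M q ^ (q - 1) *
        (algebraMap Ω ↥(modularFunctionFieldBar (M * q * q)) (q : Ω))⁻¹ := by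
    rw [map_mul, map_pow, map_inv₀, mul_pow, inv_pow]
    field_simp
  rwa [e] at h1


/-! ### uniformisers (`S36CA_IsUnif`, CART-INST item 2) -/

section unif

/-- a uniformiser from discrete values. -/
theorem S36VDV_isUnif_of_dv {K' : Type*} [Field K'] (O : ValuationSubring K') (t : K')
    (ht0 : t ≠ 0) (htO : t ∈ O) (htinv : t⁻¹ ∉ O)
    (hdv : ∀ f : K', f ≠ 0 → ∃ k : ℤ, S36LW_IsU O (f * t ^ k)) : S36CA_IsUnif O t where
  ne_zero := ht0
  mem := htO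
  inv_not_mem := htinv
  gen := by
    intro f hf hfi
    have hf0 : f ≠ 0 := by
      rintro rfl
      apply hfi
      rw [inv_zero]
      exact O.zero_mem
    obtain ⟨k, hk1, hk2⟩ := hdv f hf0
    rcases le_or_gt 0 k with hk | hk
    · exfalso
      apply hfi
      obtain ⟨n, rfl⟩ := Int.eq_ofNat_of_zero_le hk
      have : f⁻¹ = (f * t ^ (n : ℤ))⁻¹ * t ^ n := by
        rw [zpow_natCast]
        field_simp
      rw [this]
      exact O.mul_mem _ _ hk2 (O.pow_mem htO n)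
    · obtain ⟨n, hn⟩ := Int.eq_ofNat_of_zero_le (by omega : (0 : ℤ) ≤ -k - 1)
      have hk' : k = -((n : ℤ) + 1) := by omega
      have : f / t = (f * t ^ k) * t ^ n := by
        rw [hk', zpow_neg, zpow_add₀ ht0, zpow_natCast, zpow_one]
        field_simp
      rw [this]
      exact O.mul_mem _ _ hk1 (O.pow_mem htO n)

variable {K' : Type*} [Field K'] {F : Type*} [Field F] [Algebra Ω F]
  (φ : F →+* LaurentSeries Ω)
  (hφ : ∀ c : Ω, φ (algebraMap Ω F c) = HahnSeries.C c)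
  (inc : K' →+* F) (O : ValuationSubring K')
  (hO : ∀ x : K', x ∈ O ↔ inc x ∈ S36V_G A φ)

include hO in
/-- uniformiser of a valuation ring cut out by a Gauss ring, from discrete values. -/
theorem S36VDV_isUnif_inc (t : K') (ht0 : t ≠ 0) (htG : inc t ∈ S36V_G A φ)
    (htinv : (inc t)⁻¹ ∉ S36V_G A φ)
    (hdv : ∀ x : K', x ≠ 0 → ∃ k : ℤ, S36VDV_UG A φ (inc x * inc t ^ k)) :
    S36CA_IsUnif O t := by
  refine S36VDV_isUnif_of_dv O t ht0 ((hO t).mpr htG) ?_ ?_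
  · rw [hO, map_inv₀]
    exact htinv
  · intro x hx
    obtain ⟨k, h1, h2⟩ := hdv x hx
    refine ⟨k, ?_, ?_⟩
    · rw [hO, map_mul, map_zpow₀]
      exact h1
    · rw [hO, map_inv₀, map_mul, map_zpow₀]
      exact h2

include hφ hO in
/-- **a constant `π` is a uniformiser** of a valuation ring `O` of a subfield `K' ⊂ F` cut out
by the Gauss ring along `φ`, if the elements of `K'` have discrete values `π^ℤ` (helper1's
`S36FI_dv_*`). -/
theorem S36VDV_isUnif_const (π : Ω) (hπ0 : π ≠ 0) (hπ : A.valuation π < 1)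
    (hdv : ∀ x : K', x ≠ 0 → ∃ k : ℤ,
      inc x * algebraMap Ω F (π ^ k) ∈ S36V_G A φ ∧
        (inc x * algebraMap Ω F (π ^ k))⁻¹ ∈ S36V_G A φ)
    (t : K') (ht : inc t = algebraMap Ω F π) : S36CA_IsUnif O t := by
  have ht0 : t ≠ 0 := by
    rintro rfl
    rw [map_zero] at ht
    exact hπ0 ((map_eq_zero _).mp ht.symm)
  refine S36VDV_isUnif_inc A φ inc O hO t ht0 ?_ ?_ ?_
  · rw [ht]
    exact S36VDV_G_const A φ hφ ((A.valuation_le_one_iff π).mp hπ.le)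
  · rw [ht]
    exact S36VDV_const_inv_not_mem A φ hφ hπ0 hπ
  · intro x hx
    obtain ⟨k, h1, h2⟩ := hdv x hx
    refine ⟨k, ?_⟩
    rw [ht, ← map_zpow₀]
    exact ⟨h1, h2⟩

end unif

section five

variable (O₁ : ValuationSubring ↥(modularFunctionFieldBar (M * q)))
  (O₂ : ValuationSubring ↥(modularFunctionFieldBar (M * q * q)))

include hq in
/-- `q` is a uniformiser of `F` over the inertia field. -/
theorem S36VDV_isUnif_F (hA : A.LiesOverPrime q)
    (hO : ∀ f, f ∈ O₁ ↔ f ∈ S36V_G A (S36V_emF M q)) :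
    S36CA_IsUnif (S36FL_OL (S36FI_act (M * q) (A.inertiaSubgroupIn ℚ)) O₁)
      ((q : ℕ) : ↥((S36FI_act (M * q) (A.inertiaSubgroupIn ℚ)).fixF)) :=
  S36VDV_isUnif_const A (S36V_emF M q) (S36FI_emF_const M q)
    ((S36FI_act (M * q) (A.inertiaSubgroupIn ℚ)).fixF.subtype) _ (fun x => hO x)
    (q : Ω) (by exact_mod_cast hq.ne_zero) ((ValuationSubring.mem_nonunits_iff A).mp hA)
    (fun x hx => S36FI_dv_F M q hq A hA x.1 x.2 (fun h => hx (Subtype.ext h)))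
    _ (by simp)

/-- `q` is a uniformiser of `V` over the inertia field. -/
theorem S36VDV_isUnif_V (hA : A.LiesOverPrime q)
    (hO : ∀ f, f ∈ O₁ ↔ f ∈ S36V_G A (S36V_emV M q hq hqM)) :
    S36CA_IsUnif (S36FL_OL (S36FI_act (M * q) (A.inertiaSubgroupIn ℚ)) O₁)
      ((q : ℕ) : ↥((S36FI_act (M * q) (A.inertiaSubgroupIn ℚ)).fixF)) :=
  S36VDV_isUnif_const A (S36V_emV M q hq hqM) (S36FI_emV_const M q hq hqM)
    ((S36FI_act (M * q) (A.inertiaSubgroupIn ℚ)).fixF.subtype) _ (fun x => hO x)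
    (q : Ω) (by exact_mod_cast hq.ne_zero) ((ValuationSubring.mem_nonunits_iff A).mp hA)
    (fun x hx => S36FI_dv_V M q hq hqM A hA x.1 x.2 (fun h => hx (Subtype.ext h)))
    _ (by simp)

include hq in
/-- `q` is a uniformiser of `FF` over the inertia field. -/
theorem S36VDV_isUnif_FF (hA : A.LiesOverPrime q)
    (hO : ∀ f, f ∈ O₂ ↔ f ∈ S36V_G A (S36V_emFF M q)) :
    S36CA_IsUnif (S36FL_OL (S36FI_act (M * q * q) (A.inertiaSubgroupIn ℚ)) O₂)
      ((q : ℕ) : ↥((S36FI_act (M * q * q) (A.inertiaSubgroupIn ℚ)).fixF)) :=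
  S36VDV_isUnif_const A (S36V_emFF M q) (S36FI_emFF_const M q)
    ((S36FI_act (M * q * q) (A.inertiaSubgroupIn ℚ)).fixF.subtype) _ (fun x => hO x)
    (q : Ω) (by exact_mod_cast hq.ne_zero) ((ValuationSubring.mem_nonunits_iff A).mp hA)
    (fun x hx => S36FI_dv_FF M q hq A hA x.1 x.2 (fun h => hx (Subtype.ext h)))
    _ (by simp)

/-- `q` is a uniformiser of `VV` over the inertia field. -/
theorem S36VDV_isUnif_VV (hA : A.LiesOverPrime q)
    (hO : ∀ f, f ∈ O₂ ↔ f ∈ S36V_G A (S36V_emVV M q hq hqM)) :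
    S36CA_IsUnif (S36FL_OL (S36FI_act (M * q * q) (A.inertiaSubgroupIn ℚ)) O₂)
      ((q : ℕ) : ↥((S36FI_act (M * q * q) (A.inertiaSubgroupIn ℚ)).fixF)) :=
  S36VDV_isUnif_const A (S36V_emVV M q hq hqM) (S36FI_emVV_const M q hq hqM)
    ((S36FI_act (M * q * q) (A.inertiaSubgroupIn ℚ)).fixF.subtype) _ (fun x => hO x)
    (q : Ω) (by exact_mod_cast hq.ne_zero) ((ValuationSubring.mem_nonunits_iff A).mp hA)
    (fun x hx => S36FI_dv_VV M q hq hqM A hA x.1 x.2 (fun h => hx (Subtype.ext h)))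
    _ (by simp)

/-- `ϖ` as an element of the fixed field `F₂,L`. -/
def S36VDV_varpiL (H : Subgroup (Ω ≃ₐ[ℚ] Ω)) : ↥((S36FI_act (M * q * q) H).fixF) :=
  ⟨S36VDV_varpi M q, S36VDV_varpi_fixed M q H⟩

/-- **`ϖ` is a uniformiser of `FV` over the inertia field.** -/
theorem S36VDV_isUnif_FV (hA : A.LiesOverPrime q)
    (hO : ∀ f, f ∈ O₂ ↔ f ∈ S36V_G A (S36V_emFV M q hq hqM ζ hζ hζ1)) :
    S36CA_IsUnif (S36FL_OL (S36FI_act (M * q * q) (A.inertiaSubgroupIn ℚ)) O₂)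
      (S36VDV_varpiL M q (A.inertiaSubgroupIn ℚ)) := by
  have hπ0 := S36VDV_zeta_sub_ne ζ hζ1
  have hπ := S36VDV_zeta_sub_nonunit q hq A ζ hζ hζ1 hA
  have hϖ0 := S36VDV_varpi_ne_zero M q hq hqM A ζ hζ hζ1 hA
  have hu := S36VDV_varpi_unit M q hq hqM A ζ hζ hζ1 hA
  have hπF : algebraMap Ω ↥(modularFunctionFieldBar (M * q * q)) ((ζ : Ω) - 1) ≠ 0 := by
    rw [Ne, map_eq_zero]
    exact hπ0
  refine S36VDV_isUnif_inc A (S36V_emFV M q hq hqM ζ hζ hζ1)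
    ((S36FI_act (M * q * q) (A.inertiaSubgroupIn ℚ)).fixF.subtype) _ (fun x => hO x) _
    (fun h => hϖ0 (congrArg Subtype.val h)) ?_ ?_ ?_
  · show S36VDV_varpi M q ∈ _
    have e : S36VDV_varpi M q = S36VDV_varpi M q *
        (algebraMap Ω ↥(modularFunctionFieldBar (M * q * q)) ((ζ : Ω) - 1))⁻¹ *
          algebraMap Ω ↥(modularFunctionFieldBar (M * q * q)) ((ζ : Ω) - 1) := by
      field_simp
    rw [e]
    exact mul_mem hu.1 (S36VDV_G_const A _ (S36FI_emFV_const M q hq hqM ζ hζ hζ1)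
      ((A.valuation_le_one_iff _).mp hπ.le))
  · show (S36VDV_varpi M q)⁻¹ ∉ _
    intro hmem
    apply S36VDV_const_inv_not_mem A (S36V_emFV M q hq hqM ζ hζ hζ1)
      (S36FI_emFV_const M q hq hqM ζ hζ hζ1) hπ0 hπ
    have e : (algebraMap Ω ↥(modularFunctionFieldBar (M * q * q)) ((ζ : Ω) - 1))⁻¹ =
        (S36VDV_varpi M q)⁻¹ * (S36VDV_varpi M q *
          (algebraMap Ω ↥(modularFunctionFieldBar (M * q * q)) ((ζ : Ω) - 1))⁻¹) := by
      field_simp
    rw [e]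
    exact mul_mem hmem hu.1
  · intro x hx
    exact S36VDV_FV M q hq hqM A ζ hζ hζ1 hA x.1 x.2 (fun h => hx (Subtype.ext h))

/-- **`ϖ^(q−1) / q` is a unit of `FV` over the inertia field** (`hπq` of CART). -/
theorem S36VDV_isU_FV (hA : A.LiesOverPrime q)
    (hO : ∀ f, f ∈ O₂ ↔ f ∈ S36V_G A (S36V_emFV M q hq hqM ζ hζ hζ1)) :
    S36LW_IsU (S36FL_OL (S36FI_act (M * q * q) (A.inertiaSubgroupIn ℚ)) O₂)
      (S36VDV_varpiL M q (A.inertiaSubgroupIn ℚ) ^ (q - 1) /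
        ((q : ℕ) : ↥((S36FI_act (M * q * q) (A.inertiaSubgroupIn ℚ)).fixF))) := by
  obtain ⟨h1, h2⟩ := S36VDV_FV_pow M q hq hqM A ζ hζ hζ1 hA
  set S := S36FI_act (M * q * q) (A.inertiaSubgroupIn ℚ) with hS
  have e : S.fixF.subtype (S36VDV_varpiL M q (A.inertiaSubgroupIn ℚ) ^ (q - 1) /
        ((q : ℕ) : ↥S.fixF)) =
      S36VDV_varpi M q ^ (q - 1) *
        (algebraMap Ω ↥(modularFunctionFieldBar (M * q * q)) (q : Ω))⁻¹ := by
    rw [map_div₀, map_pow, map_natCast, map_natCast, div_eq_mul_inv]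
    rfl
  constructor
  · show S.fixF.subtype _ ∈ O₂
    rw [hO, e]
    exact h1
  · show S.fixF.subtype _ ∈ O₂
    rw [hO, map_inv₀, e]
    exact h2

end five

end Fermat.Agent.S36
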