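import Fermat.Agent.S36.FixLFive
import Fermat.Agent.S36.Val3DvInst
import Fermat.Agent.S36.Comp3VS

/-!
# TRACK 10 (S36), package FIX-L-INST (helper1), part 5: discreteness in the shape of COMP3 —
prefix `S36FI_`

For a valuation ring `O` of `F_L = (S36FI_act N I).fixF` with `f ∈ O ↔ f ∈ S36V_G A (em X)`
(e.g. `(S36FI_gauss …).O`, by `S36FI_gauss_mem_O`) and the uniformiser `π` (`= q` for
`X = F, V, FF, VV`; `= ϖ = δ_C j - δ_A j` for `X = FV`, helper8):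

  `dv : ∀ f : (F_L)ˣ, ∃ m : ℤ, f * π ^ (-m) ∈ S36CV_UG O`   (the field `dv` of `S36CS_ofS18`).

* `S36FI_cvdv` : the generic wrapper (Gauss-unit form ⇒ `S36CV_UG` form);
* `S36FI_piq N H q` : the constant `q` as a unit of `F_L`; `S36FI_piq_coe`;
* `S36FI_cvdv_F`, `_V`, `_FF`, `_VV` (uniformiser `S36FI_piq`), `S36FI_cvdv_FV` (uniformiser
  `S36FI_piFV` = `S36VDV_varpiL`).
-/

set_option autoImplicit false
set_option linter.unusedSectionVars false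
set_option linter.unusedVariables false
set_option linter.style.haveILetI false
set_option synthInstance.maxHeartbeats 400000
set_option maxHeartbeats 1000000

open HahnSeries ModularCurve IntermediateField

noncomputable section

namespace Fermat.Agent.S36

open Fermat.Agent.S18 Fermat.Agent.S24 Fermat.Agent.S34 Fermat.Agent.GalRep

local notation "Ω" => AlgebraicClosure ℚ

/-- **the generic wrapper**: Gauss-unit form of discreteness ⇒ the `dv` of COMP3. -/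
theorem S36FI_cvdv {F : Type*} [Field F] (FL : Subfield F) (G : Subring F)
    (O : ValuationSubring ↥FL) (hO : ∀ f : ↥FL, f ∈ O ↔ (f : F) ∈ G) (π : (↥FL)ˣ)
    (hdv : ∀ f : F, f ∈ FL → f ≠ 0 →
      ∃ k : ℤ, f * (((π : (↥FL)ˣ) : ↥FL) : F) ^ k ∈ G ∧
        (f * (((π : (↥FL)ˣ) : ↥FL) : F) ^ k)⁻¹ ∈ G)
    (f : (↥FL)ˣ) : ∃ m : ℤ, f * π ^ (-m) ∈ S36CV_UG O := by
  have hf0 : (((f : (↥FL)ˣ) : ↥FL) : F) ≠ 0 := by
    intro h0
    exact f.ne_zero (Subtype.ext h0)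
  obtain ⟨k, h1, h2⟩ := hdv _ ((f : (↥FL)ˣ) : ↥FL).2 hf0
  refine ⟨-k, ?_, ?_⟩
  · rw [neg_neg, hO, Units.val_mul, Units.val_zpow_eq_zpow_val]
    have e : (((((f : (↥FL)ˣ) : ↥FL)) * ((π : (↥FL)ˣ) : ↥FL) ^ k : ↥FL) : F) =
        (((f : (↥FL)ˣ) : ↥FL) : F) * (((π : (↥FL)ˣ) : ↥FL) : F) ^ k := by
      push_cast
      rfl
    rw [e]
    exact h1
  · rw [neg_neg, hO, Units.val_inv_eq_inv_val, Units.val_mul, Units.val_zpow_eq_zpow_val]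
    have e : ((((((f : (↥FL)ˣ) : ↥FL)) * ((π : (↥FL)ˣ) : ↥FL) ^ k)⁻¹ : ↥FL) : F) =
        ((((f : (↥FL)ˣ) : ↥FL) : F) * (((π : (↥FL)ˣ) : ↥FL) : F) ^ k)⁻¹ := by
      push_cast
      rfl
    rw [e]
    exact h2

section piq

variable (N : ℕ) (H : Subgroup (Ω ≃ₐ[ℚ] Ω)) (q : ℕ)

/-- the constant `q`, as an element of `F_L`. -/
theorem S36FI_natCast_coe :
    ((((q : ℕ) : ↥(S36FI_act N H).fixF) : ↥(S36FI_act N H).fixF) :
      ↥(modularFunctionFieldBar N)) =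
      algebraMap Ω ↥(modularFunctionFieldBar N) ((q : ℕ) : Ω) := by
  rw [map_natCast]
  rfl

theorem S36FI_natCast_ne_zero (hq : q ≠ 0) : ((q : ℕ) : ↥(S36FI_act N H).fixF) ≠ 0 := by
  intro h0
  have h1 := congrArg (fun x : ↥(S36FI_act N H).fixF => (x : ↥(modularFunctionFieldBar N))) h0
  simp only [S36FI_natCast_coe] at h1
  have h2 : algebraMap Ω ↥(modularFunctionFieldBar N) ((q : ℕ) : Ω) = 0 := h1
  rw [map_eq_zero] at h2
  exact hq (by exact_mod_cast h2)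

/-- the constant `q` as a unit of `F_L`. -/
def S36FI_piq (hq : q ≠ 0) : (↥(S36FI_act N H).fixF)ˣ :=
  Units.mk0 ((q : ℕ) : ↥(S36FI_act N H).fixF) (S36FI_natCast_ne_zero N H q hq)

theorem S36FI_piq_val (hq : q ≠ 0) :
    ((S36FI_piq N H q hq : (↥(S36FI_act N H).fixF)ˣ) : ↥(S36FI_act N H).fixF) =
      ((q : ℕ) : ↥(S36FI_act N H).fixF) := rfl

theorem S36FI_piq_coe (hq : q ≠ 0) :
    (((S36FI_piq N H q hq : (↥(S36FI_act N H).fixF)ˣ) : ↥(S36FI_act N H).fixF) :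
      ↥(modularFunctionFieldBar N)) =
      algebraMap Ω ↥(modularFunctionFieldBar N) ((q : ℕ) : Ω) :=
  S36FI_natCast_coe N H q

/-- Gauss-unit form with `algebraMap (q ^ k)` ⇒ with `(π_q) ^ k`. -/
theorem S36FI_cvdv_q (A : ValuationSubring Ω)
    (φ : ↥(modularFunctionFieldBar N) →+* LaurentSeries Ω) (hq : q ≠ 0)
    (O : ValuationSubring ↥(S36FI_act N H).fixF)
    (hO : ∀ f : ↥(S36FI_act N H).fixF, f ∈ O ↔ (f : ↥(modularFunctionFieldBar N)) ∈ S36V_G A φ)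
    (hdv : ∀ f : ↥(modularFunctionFieldBar N), f ∈ (S36FI_act N H).fixF → f ≠ 0 →
      ∃ k : ℤ, f * algebraMap Ω ↥(modularFunctionFieldBar N) ((q : Ω) ^ k) ∈ S36V_G A φ ∧
        (f * algebraMap Ω ↥(modularFunctionFieldBar N) ((q : Ω) ^ k))⁻¹ ∈ S36V_G A φ)
    (f : (↥(S36FI_act N H).fixF)ˣ) : ∃ m : ℤ, f * S36FI_piq N H q hq ^ (-m) ∈ S36CV_UG O := by
  refine S36FI_cvdv (S36FI_act N H).fixF (S36V_G A φ) O hO (S36FI_piq N H q hq) ?_ f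
  intro g hg hg0
  obtain ⟨k, hk⟩ := hdv g hg hg0
  refine ⟨k, ?_⟩
  rw [S36FI_piq_coe, ← map_zpow₀]
  exact hk

end piq

section five

variable (M q : ℕ) [NeZero M] [NeZero q] (hq : q.Prime) (hqM : ¬ q ∣ M)
  (A : ValuationSubring Ω)
  (ζ : Ωˣ) (hζ : ζ ^ q = 1) (hζ1 : ζ ≠ 1)
  (O₁ : ValuationSubring ↥(S36FI_act (M * q) (A.inertiaSubgroupIn ℚ)).fixF)
  (O₂ : ValuationSubring ↥(S36FI_act (M * q * q) (A.inertiaSubgroupIn ℚ)).fixF)

/-- **`dv_F` in the shape of COMP3.** -/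
theorem S36FI_cvdv_F (hA : A.LiesOverPrime q)
    (hO : ∀ f, f ∈ O₁ ↔ (f : ↥(modularFunctionFieldBar (M * q))) ∈ S36V_G A (S36V_emF M q))
    (f : (↥(S36FI_act (M * q) (A.inertiaSubgroupIn ℚ)).fixF)ˣ) :
    ∃ m : ℤ, f * S36FI_piq (M * q) (A.inertiaSubgroupIn ℚ) q hq.ne_zero ^ (-m) ∈
      S36CV_UG O₁ :=
  S36FI_cvdv_q (M * q) _ q A (S36V_emF M q) hq.ne_zero O₁ hO
    (fun g hg hg0 => S36FI_dv_F M q hq A hA g hg hg0) f

/-- **`dv_V` in the shape of COMP3.** -/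
theorem S36FI_cvdv_V (hA : A.LiesOverPrime q)
    (hO : ∀ f, f ∈ O₁ ↔
      (f : ↥(modularFunctionFieldBar (M * q))) ∈ S36V_G A (S36V_emV M q hq hqM))
    (f : (↥(S36FI_act (M * q) (A.inertiaSubgroupIn ℚ)).fixF)ˣ) :
    ∃ m : ℤ, f * S36FI_piq (M * q) (A.inertiaSubgroupIn ℚ) q hq.ne_zero ^ (-m) ∈
      S36CV_UG O₁ :=
  S36FI_cvdv_q (M * q) _ q A (S36V_emV M q hq hqM) hq.ne_zero O₁ hO
    (fun g hg hg0 => S36FI_dv_V M q hq hqM A hA g hg hg0) f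

/-- **`dv_FF` in the shape of COMP3.** -/
theorem S36FI_cvdv_FF (hA : A.LiesOverPrime q)
    (hO : ∀ f, f ∈ O₂ ↔
      (f : ↥(modularFunctionFieldBar (M * q * q))) ∈ S36V_G A (S36V_emFF M q))
    (f : (↥(S36FI_act (M * q * q) (A.inertiaSubgroupIn ℚ)).fixF)ˣ) :
    ∃ m : ℤ, f * S36FI_piq (M * q * q) (A.inertiaSubgroupIn ℚ) q hq.ne_zero ^ (-m) ∈
      S36CV_UG O₂ :=
  S36FI_cvdv_q (M * q * q) _ q A (S36V_emFF M q) hq.ne_zero O₂ hO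
    (fun g hg hg0 => S36FI_dv_FF M q hq A hA g hg hg0) f

/-- **`dv_VV` in the shape of COMP3.** -/
theorem S36FI_cvdv_VV (hA : A.LiesOverPrime q)
    (hO : ∀ f, f ∈ O₂ ↔
      (f : ↥(modularFunctionFieldBar (M * q * q))) ∈ S36V_G A (S36V_emVV M q hq hqM))
    (f : (↥(S36FI_act (M * q * q) (A.inertiaSubgroupIn ℚ)).fixF)ˣ) :
    ∃ m : ℤ, f * S36FI_piq (M * q * q) (A.inertiaSubgroupIn ℚ) q hq.ne_zero ^ (-m) ∈
      S36CV_UG O₂ :=
  S36FI_cvdv_q (M * q * q) _ q A (S36V_emVV M q hq hqM) hq.ne_zero O₂ hO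
    (fun g hg hg0 => S36FI_dv_VV M q hq hqM A hA g hg hg0) f

/-- the uniformiser `ϖ = δ_C j - δ_A j` of `FV`, as a unit of `F₂,L`. -/
def S36FI_piFV (hA : A.LiesOverPrime q) :
    (↥(S36FI_act (M * q * q) (A.inertiaSubgroupIn ℚ)).fixF)ˣ :=
  Units.mk0 (S36VDV_varpiL M q (A.inertiaSubgroupIn ℚ)) (fun h0 =>
    S36VDV_varpi_ne_zero M q hq hqM A ζ hζ hζ1 hA (congrArg Subtype.val h0))

theorem S36FI_piFV_coe (hA : A.LiesOverPrime q) :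
    (((S36FI_piFV M q hq hqM A ζ hζ hζ1 hA :
      (↥(S36FI_act (M * q * q) (A.inertiaSubgroupIn ℚ)).fixF)ˣ) :
        ↥(S36FI_act (M * q * q) (A.inertiaSubgroupIn ℚ)).fixF) :
          ↥(modularFunctionFieldBar (M * q * q))) = S36VDV_varpi M q := rfl

/-- **`dv_FV` in the shape of COMP3** (uniformiser `ϖ`). -/
theorem S36FI_cvdv_FV (hA : A.LiesOverPrime q)
    (hO : ∀ f, f ∈ O₂ ↔ (f : ↥(modularFunctionFieldBar (M * q * q))) ∈
      S36V_G A (S36V_emFV M q hq hqM ζ hζ hζ1))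
    (f : (↥(S36FI_act (M * q * q) (A.inertiaSubgroupIn ℚ)).fixF)ˣ) :
    ∃ m : ℤ, f * S36FI_piFV M q hq hqM A ζ hζ hζ1 hA ^ (-m) ∈ S36CV_UG O₂ :=
  S36FI_cvdv _ (S36V_G A (S36V_emFV M q hq hqM ζ hζ hζ1)) O₂ hO
    (S36FI_piFV M q hq hqM A ζ hζ hζ1 hA)
    (fun g hg hg0 => by
      obtain ⟨k, hk⟩ := S36VDV_FV M q hq hqM A ζ hζ hζ1 hA g hg hg0
      exact ⟨k, hk.1, hk.2⟩) f

end five

end Fermat.Agent.S36
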