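import Fermat.Agent.S36.Val3VS
import Fermat.Agent.S34.ValHgenAsm
import Fermat.Agent.S34.ValFk

/-!
# TRACK 10 (S36), package VAL3 (helper12), part 5: the residue field at level `M q`

* `S36V_Gred_of_rep` (generic): if `φ f · ι s₂ = c · ι s₁` with `ρ s₁, ρ s₂ ≠ 0` and `f` lies in the
  Gauss ring along `φ`, then `c ∈ A` and `red f = res(c) · ρ s₁ / ρ s₂`;
* `S36V_F_mem`, `S36V_V_mem` : the reductions along `F` and `V` (level `M q`) of ANY element of
  the Gauss ring lie in `κ = modularFunctionFieldFullC k M ⊂ k((t))`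
  (`F_ρ_mem`, `V_ρ_mem` of `S36CH_Hyp`).
-/

set_option autoImplicit false
set_option synthInstance.maxHeartbeats 400000
set_option maxHeartbeats 1000000
set_option linter.style.haveILetI false
set_option linter.unusedSectionVars false

open HahnSeries IntermediateField AlgebraicCurve ModularCurve

noncomputable section

namespace Fermat.Agent.S36

open Fermat.Agent.S18 Fermat.Agent.S24 Fermat.Agent.S34 Fermat.Agent.S37 Fermat.Agent.GalRep
  Fermat.Agent.Lib

section Generic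

variable {L : Type*} [Field L] [Algebra ℚ L] (A : ValuationSubring L)
variable {F : Type*} [Field F] (φ : F →+* LaurentSeries L)

/-- a non-unit of `A` has residue `0`. -/
theorem S36V_res_inv_eq_zero {c : L} (hc : c ∉ A) (hci : c⁻¹ ∈ A) :
    IsLocalRing.residue A ⟨c⁻¹, hci⟩ = 0 := by
  rw [IsLocalRing.residue_eq_zero_iff, IsLocalRing.mem_maximalIdeal, mem_nonunits_iff]
  rintro ⟨u, hu⟩
  apply hc
  have h2 : ((u : A) : L) * ((u⁻¹ : Aˣ) : L) = 1 := by
    rw [← A.coe_mul, ← Units.val_mul, mul_inv_cancel, Units.val_one, A.coe_one]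
  rw [hu] at h2
  have hc0 : c ≠ 0 := fun h0 => hc (h0 ▸ A.zero_mem)
  have h1 : ((u⁻¹ : Aˣ) : L) = c := by
    have h3 : c⁻¹ * ((u⁻¹ : Aˣ) : L) = 1 := h2
    field_simp at h3
    exact h3
  rw [← h1]
  exact ((u⁻¹ : Aˣ) : A).2

/-- **the constant of a representation of an integral element is integral**, and the
reduction is computed by the representation. -/
theorem S36V_Gred_of_rep {f : F} (hf : f ∈ S36V_G A φ) {c : L} {s₁ s₂ : LaurentSeries A}
    (h1 : S18_ρ A s₁ ≠ 0) (h2 : S18_ρ A s₂ ≠ 0)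
    (h : φ f * S18_ι A s₂ = HahnSeries.C c * S18_ι A s₁) :
    ∃ hc : c ∈ A, S36V_Gred A φ ⟨f, hf⟩ =
      HahnSeries.C (IsLocalRing.residue A ⟨c, hc⟩) * S18_ρ A s₁ / S18_ρ A s₂ := by
  have hcA : c ∈ A := by
    by_contra hc
    have hci : c⁻¹ ∈ A := (A.mem_or_inv_mem c).resolve_left hc
    have hc0 : c ≠ 0 := fun h0 => hc (h0 ▸ A.zero_mem)
    obtain ⟨t₁, t₂, hne, e⟩ := hf
    have hs2 : S18_ι A s₂ ≠ 0 := by
      intro h0
      apply h2
      have : s₂ = 0 := S18_ι_injective A (by rw [h0, map_zero])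
      rw [this, map_zero]
    have key : s₁ * t₂ = HahnSeries.C ⟨c⁻¹, hci⟩ * (t₁ * s₂) := by
      apply S18_ι_injective A
      rw [map_mul, map_mul, map_mul, S36V_ι_C, ← e]
      have e1 : (HahnSeries.C c⁻¹ : LaurentSeries L) * (φ f * S18_ι A t₂ * S18_ι A s₂) =
          (HahnSeries.C c⁻¹ : LaurentSeries L) * (φ f * S18_ι A s₂) * S18_ι A t₂ := by ring
      have e2 : (HahnSeries.C c⁻¹ : LaurentSeries L) * HahnSeries.C c = 1 := by
        rw [← map_mul, inv_mul_cancel₀ hc0, map_one]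
      rw [e1, h, ← mul_assoc, e2, one_mul]
    have key' := congrArg (S18_ρ A) key
    rw [map_mul, map_mul, S36V_ρ_C, S36V_res_inv_eq_zero A hc hci, map_zero, zero_mul] at key'
    exact (mul_ne_zero h1 hne) key'
  refine ⟨hcA, ?_⟩
  have h' : φ f * S18_ι A s₂ = S18_ι A (HahnSeries.C ⟨c, hcA⟩ * s₁) := by
    rw [h, map_mul, S36V_ι_C]
  rw [S36V_Gred_eq A φ hf h2 h', map_mul, S36V_ρ_C]

end Generic

local notation "ℚbar" => AlgebraicClosure ℚ

variable (M q : ℕ) [NeZero M] [NeZero q] (hq : q.Prime) (hqM : ¬ q ∣ M)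
  (A : ValuationSubring ℚbar) (hA : A.LiesOverPrime q)

include hq hqM hA in
/-- **the residue field of `F`** (level `M q`, cusp `∞`) is `κ = F̄_M`. -/
theorem S36V_F_mem (f : ↥(modularFunctionFieldBar (M * q)))
    (hf : f ∈ S36V_G A (S36V_emF M q)) :
    S36V_Gred A (S36V_emF M q) ⟨f, hf⟩ ∈
      modularFunctionFieldFullC (IsLocalRing.ResidueField A) M := by
  by_cases hf0 : f = 0
  · subst hf0
    have : (⟨0, hf⟩ : S36V_G A (S36V_emF M q)) = 0 := rfl
    rw [this, map_zero]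
    exact zero_mem _
  obtain ⟨c, s₁, s₂, hc, h1, h2, hrep⟩ := S34VH_exists_rep M q hq hqM A hA f hf0
  have h1' : S18_ρ A s₁.1 ≠ 0 := fun h0 => h1 (Subtype.ext h0)
  have h2' : S18_ρ A s₂.1 ≠ 0 := fun h0 => h2 (Subtype.ext h0)
  have hrep' : S36V_emF M q f * S18_ι A s₂.1 = HahnSeries.C c * S18_ι A s₁.1 := by
    have := congrArg (fun x : ↥(modularFunctionFieldBar (M * q)) =>
      (x : LaurentSeries ℚbar)) hrep
    simp only [MulMemClass.coe_mul, S18_Bι_coe] at this
    rw [S36V_emF_apply, this, ← LaurentSeries.algebraMap_apply]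
    rfl
  obtain ⟨hcA, hred⟩ := S36V_Gred_of_rep A (S36V_emF M q) hf h1' h2' hrep'
  rw [hred, ← S34VF_FkN_res M A hq hA]
  refine div_mem (mul_mem ?_ s₁.2.2) s₂.2.2
  rw [← LaurentSeries.algebraMap_apply]
  exact (modularFunctionFieldFullC (IsLocalRing.ResidueField A) (M * q)).algebraMap_mem _

include hq hqM hA in
/-- **the residue field of `V`** (level `M q`, cusp `0`) is `κ = F̄_M`. -/
theorem S36V_V_mem (f : ↥(modularFunctionFieldBar (M * q)))
    (hf : f ∈ S36V_G A (S36V_emV M q hq hqM)) :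
    S36V_Gred A (S36V_emV M q hq hqM) ⟨f, hf⟩ ∈
      modularFunctionFieldFullC (IsLocalRing.ResidueField A) M := by
  have h1 : S36V_emV M q hq hqM f = S36V_emF M q (S34DF_wq M q hq hqM f) := rfl
  have hf' : S34DF_wq M q hq hqM f ∈ S36V_G A (S36V_emF M q) :=
    (S36V_mem_G_of_eq A _ _ h1).1 hf
  rw [S36V_Gred_of_eq A _ _ h1 hf hf']
  exact S36V_F_mem M q hq hqM A hA _ hf'

end Fermat.Agent.S36
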