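import Fermat.Agent.S34.ValHgenAsm
import Fermat.Agent.S34.ValAB
import Fermat.Agent.S18.DegCaseA
import Fermat.Agent.S18.AsmX0
import Fermat.Agent.S37.H1Inj
import Fermat.Agent.GalRep.HeckeDeg

/-!
# TRACK 10 (S36), package VAL3, piece VAL3-FF (helper28): `hgen` at level `M q²`

`q ∤ M` prime, `A ⊂ ℚ̄` a valuation ring over `q`, `F₁ = F_{Mq}`, `F₂ = F_{Mq²}`,
`β : F₁ → F₂`, `f ↦ f(t^q)`, `Aj = j(t) ∈ F₂`.

* `S36VF_sum_distinct_order`, `S36VF_ind` : `1, J, …, J^{q−1}` are linearly independent over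
  `R((t^q))` if `ord J = −1` (the orders of the terms are pairwise distinct modulo `q`);
* `S36VF_expand` : for `q ∣ N` every `f ∈ F_{Nq}` is `∑_{i<q} β(y_i) · Aj^i`, `y_i ∈ F_N`
  (`[F_{Nq} : β F_N] = q` and the INERT basis `1, Aj, …, Aj^{q−1}`);
* `S36VF_Bβ` : `β` on the rings `B` of integral series;
* `S36VF_exists_rep` : every `f ∈ F₂^×` is `c · ι s₁ / ι s₂`, `c ∈ ℚ̄^×`, `s_i ∈ B₂`, `ρ s_i ≠ 0`
  (from `S34VH_exists_rep` at level `M q`; NO Newton polygon, NO new polynomial);
* `S36VF_hgen` : `PrincipalGeneratedByIntegral A (residue A) (M q q)`.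
-/

set_option autoImplicit false
set_option synthInstance.maxHeartbeats 400000
set_option maxHeartbeats 1000000
set_option linter.style.haveILetI false
set_option linter.unusedSectionVars false
set_option linter.unusedVariables false
set_option linter.style.longLine false

open HahnSeries IntermediateField AlgebraicCurve ModularCurve

namespace Fermat.Agent.S36

open Fermat.Agent.S18 Fermat.Agent.S24 Fermat.Agent.S34 Fermat.Agent.S37 Fermat.Agent.GalRep
  Fermat.Agent.Lib

section Ind

variable {R : Type*} [Field R]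

/-- a finite family of Laurent series whose nonzero members have pairwise distinct orders and
which sums to zero consists of zeros. -/
theorem S36VF_sum_distinct_order {ι : Type*} [Fintype ι] (T : ι → LaurentSeries R)
    (hT : ∀ i j, T i ≠ 0 → T j ≠ 0 → (T i).order = (T j).order → i = j)
    (h : ∑ i, T i = 0) : ∀ i, T i = 0 := by
  classical
  by_contra hne
  obtain ⟨i₁, hi₁⟩ := not_forall.mp hne
  let S : Finset ι := Finset.univ.filter (fun i => T i ≠ 0)
  have hS : S.Nonempty := ⟨i₁, Finset.mem_filter.mpr ⟨Finset.mem_univ _, hi₁⟩⟩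
  obtain ⟨i₀, hi₀S, hmin⟩ := S.exists_min_image (fun i => (T i).order) hS
  have hi₀ : T i₀ ≠ 0 := (Finset.mem_filter.mp hi₀S).2
  have hc : (∑ i, T i).coeff (T i₀).order = 0 := by rw [h]; rfl
  rw [HahnSeries.coeff_sum, Finset.sum_eq_single i₀] at hc
  · exact hi₀ (HahnSeries.coeff_order_eq_zero.mp hc)
  · intro j _ hj
    by_cases hTj : T j = 0
    · rw [hTj]; rfl
    · have hjS : j ∈ S := Finset.mem_filter.mpr ⟨Finset.mem_univ _, hTj⟩
      have hle := hmin j hjS
      have hne : (T i₀).order ≠ (T j).order := fun he => hj (hT i₀ j hi₀ hTj he).symm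
      exact HahnSeries.coeff_eq_zero_of_lt_order (lt_of_le_of_ne hle hne)
  · intro h; exact absurd (Finset.mem_univ _) h

/-- **IND**: `1, J, …, J^{q−1}` are linearly independent over `R((t^q))` if `ord J = −1`. -/
theorem S36VF_ind (q : ℕ) [NeZero q] (J : LaurentSeries R) (hJ : J.order = -1)
    (a : Fin q → LaurentSeries R)
    (h : ∑ i, qExpand R q (a i) * J ^ (i : ℕ) = 0) : ∀ i, a i = 0 := by
  have hJ0 : J ≠ 0 := by
    rintro rfl
    rw [HahnSeries.order_zero] at hJ
    omega
  have hT : ∀ i, a i ≠ 0 → qExpand R q (a i) * J ^ (i : ℕ) ≠ 0 ∧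
      (qExpand R q (a i) * J ^ (i : ℕ)).order = (q : ℤ) * (a i).order - (i : ℕ) := by
    intro i hi
    have h1 : qExpand R q (a i) ≠ 0 := fun h0 => hi (qExpand_injective q (by rw [h0, map_zero]))
    have h2 : J ^ (i : ℕ) ≠ 0 := pow_ne_zero _ hJ0
    refine ⟨mul_ne_zero h1 h2, ?_⟩
    rw [HahnSeries.order_mul h1 h2, DG_A_order_qExpand, HahnSeries.order_pow, hJ]
    simp only [nsmul_eq_mul, mul_neg, mul_one]
    ring
  have hzero : ∀ i, a i = 0 → qExpand R q (a i) * J ^ (i : ℕ) = 0 := by
    intro i hi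
    rw [hi, map_zero, zero_mul]
  have key := S36VF_sum_distinct_order (fun i => qExpand R q (a i) * J ^ (i : ℕ)) ?_ h
  · intro i
    by_contra hi
    exact (hT i hi).1 (key i)
  · intro i j hi hj he
    have hai : a i ≠ 0 := fun h0 => hi (hzero i h0)
    have haj : a j ≠ 0 := fun h0 => hj (hzero j h0)
    have he' : (qExpand R q (a i) * J ^ (i : ℕ)).order =
        (qExpand R q (a j) * J ^ (j : ℕ)).order := he
    rw [(hT i hai).2, (hT j haj).2] at he'
    have hi' := i.2
    have hj' := j.2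
    have hd : (q : ℤ) ∣ ((i : ℕ) : ℤ) - ((j : ℕ) : ℤ) :=
      ⟨(a i).order - (a j).order, by linarith⟩
    have habs : |((i : ℕ) : ℤ) - ((j : ℕ) : ℤ)| < (q : ℤ) := by
      rw [abs_lt]
      constructor <;> omega
    have := Int.eq_zero_of_abs_lt_dvd hd habs
    apply Fin.ext
    omega

end Ind

section Expand

variable (N q : ℕ) [NeZero N] [NeZero q]

/-- **the inert basis**: for `q ∣ N` prime every `f ∈ F_{Nq}` is `∑_{i<q} β(y_i) · j^i`. -/
theorem S36VF_expand (hq : q.Prime) (hqN : q ∣ N) (f : ↥(modularFunctionFieldBar (N * q))) :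
    ∃ y : Fin q → ↥(modularFunctionFieldBar N),
      f = ∑ i, heckeBetaBar (AlgebraicClosure ℚ) N q (y i) * jB (N * q) ^ (i : ℕ) := by
  classical
  have hfin : Module.finrank ↥(heckeBetaBar (AlgebraicClosure ℚ) N q).fieldRange
      ↥(modularFunctionFieldBar (N * q)) = q := by
    have := GRHF_finrank_betaRange N q hq
    rwa [if_pos hqN] at this
  haveI : Nonempty (Fin q) := ⟨⟨0, hq.pos⟩⟩
  have hli : LinearIndependent ↥(heckeBetaBar (AlgebraicClosure ℚ) N q).fieldRange
      (fun i : Fin q => jB (N * q) ^ (i : ℕ)) := by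
    rw [Fintype.linearIndependent_iff]
    intro g hg
    have hy : ∀ i, ∃ y : ↥(modularFunctionFieldBar N),
        heckeBetaBar (AlgebraicClosure ℚ) N q y =
          (g i : ↥(modularFunctionFieldBar (N * q))) := fun i => (g i).2
    choose y hy using hy
    have h0 : ∑ i, qExpand (AlgebraicClosure ℚ) q
        ((y i : ↥(modularFunctionFieldBar N)) : LaurentSeries (AlgebraicClosure ℚ)) *
          (jqModC (AlgebraicClosure ℚ)) ^ (i : ℕ) = 0 := by
      have h1 := congrArg (modularFunctionFieldBar (N * q)).val hg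
      rw [map_sum, map_zero] at h1
      rw [← h1]
      refine Finset.sum_congr rfl fun i _ => ?_
      rw [Algebra.smul_def, map_mul, map_pow]
      congr 1
      · show _ = ((g i : ↥(modularFunctionFieldBar (N * q))) :
          LaurentSeries (AlgebraicClosure ℚ))
        rw [← hy i]
        rfl
      · congr 1
        exact (S37H_coe_jB (N * q)).symm
    have h1 := S36VF_ind q (jqModC (AlgebraicClosure ℚ)) (DG_A_order_jq _) _ h0
    intro i
    have h2 : y i = 0 := Subtype.ext (h1 i)
    apply Subtype.ext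
    rw [← hy i, h2, map_zero]
    rfl
  have hspan := hli.span_eq_top_of_card_eq_finrank (by rw [Fintype.card_fin, hfin])
  have hf : f ∈ Submodule.span ↥(heckeBetaBar (AlgebraicClosure ℚ) N q).fieldRange
      (Set.range fun i : Fin q => jB (N * q) ^ (i : ℕ)) := by
    rw [hspan]; trivial
  obtain ⟨g, hg⟩ := (Submodule.mem_span_range_iff_exists_fun _).mp hf
  have hy : ∀ i, ∃ y : ↥(modularFunctionFieldBar N),
      heckeBetaBar (AlgebraicClosure ℚ) N q y =
        (g i : ↥(modularFunctionFieldBar (N * q))) := fun i => (g i).2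
  choose y hy using hy
  refine ⟨y, ?_⟩
  rw [← hg]
  refine Finset.sum_congr rfl fun i _ => ?_
  rw [hy i, Algebra.smul_def]
  rfl

end Expand

section Beta

variable (q : ℕ) [NeZero q] (A : ValuationSubring (AlgebraicClosure ℚ)) (N : ℕ) [NeZero N]

/-- `β : s ↦ s(t^q)` on the rings of integral series. -/
noncomputable def S36VF_Bβ : S18_B A N →+* S18_B A (N * q) where
  toFun s := ⟨qExpand A q s.1, S34VW_B_beta N q A s.2⟩
  map_zero' := Subtype.ext (map_zero _)
  map_one' := Subtype.ext (map_one _)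
  map_add' _ _ := Subtype.ext (map_add _ _ _)
  map_mul' _ _ := Subtype.ext (map_mul _ _ _)

theorem S36VF_Bι_Bβ (s : S18_B A N) :
    S18_Bι A (N * q) (S36VF_Bβ q A N s) =
      heckeBetaBar (AlgebraicClosure ℚ) N q (S18_Bι A N s) := by
  apply Subtype.ext
  show coeffMap A.subtype (qExpand A q s.1) = qExpand (AlgebraicClosure ℚ) q (coeffMap A.subtype s.1)
  rw [ModularCurve.coeffMap_qExpand]

theorem S36VF_Bρ_Bβ (s : S18_B A N) :
    ((S18_Bρ A (N * q) (S36VF_Bβ q A N s) :
        ↥(modularFunctionFieldFullC (IsLocalRing.ResidueField A) (N * q))) :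
      LaurentSeries (IsLocalRing.ResidueField A)) =
    qExpand (IsLocalRing.ResidueField A) q
      ((S18_Bρ A N s : ↥(modularFunctionFieldFullC (IsLocalRing.ResidueField A) N)) :
        LaurentSeries (IsLocalRing.ResidueField A)) := by
  show coeffMap (IsLocalRing.residue A) (qExpand A q s.1) =
    qExpand (IsLocalRing.ResidueField A) q (coeffMap (IsLocalRing.residue A) s.1)
  rw [ModularCurve.coeffMap_qExpand]

theorem S36VF_Bρ_Bβ_ne_zero {s : S18_B A N} (hs : S18_Bρ A N s ≠ 0) :
    S18_Bρ A (N * q) (S36VF_Bβ q A N s) ≠ 0 := by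
  intro h0
  apply hs
  apply Subtype.ext
  apply qExpand_injective (R := IsLocalRing.ResidueField A) q
  have h1 := S36VF_Bρ_Bβ q A N s
  rw [h0] at h1
  rw [← h1]
  show (0 : LaurentSeries (IsLocalRing.ResidueField A)) =
    qExpand (IsLocalRing.ResidueField A) q 0
  rw [map_zero]

end Beta

section Main

variable (M q : ℕ) [NeZero M] [NeZero q] (hq : q.Prime) (hqM : ¬ q ∣ M)
  (A : ValuationSubring (AlgebraicClosure ℚ)) (hA : A.LiesOverPrime q)

/-- the underlying series of `ρ j` is `j̄`. -/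
theorem S36VF_Bρ_jBel_coe (N : ℕ) [NeZero N] :
    ((S18_Bρ A N (S18_jBel N A) :
        ↥(modularFunctionFieldFullC (IsLocalRing.ResidueField A) N)) :
      LaurentSeries (IsLocalRing.ResidueField A)) = jqModC (IsLocalRing.ResidueField A) := by
  rw [S18_Bρ_jBel]
  rfl

include hq hqM hA in
/-- **VAL3-FF, function form**: every `f ∈ F_{Mq²}^×` is `c · ι s₁ / ι s₂` with `c ∈ ℚ̄^×`,
`s_i ∈ B_{Mq²}`, `ρ s_i ≠ 0`. -/
theorem S36VF_exists_rep (f : ↥(modularFunctionFieldBar (M * q * q))) (hf : f ≠ 0) :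
    ∃ (c : AlgebraicClosure ℚ) (s₁ s₂ : S18_B A (M * q * q)), c ≠ 0 ∧
      S18_Bρ A (M * q * q) s₁ ≠ 0 ∧ S18_Bρ A (M * q * q) s₂ ≠ 0 ∧
      f * S18_Bι A (M * q * q) s₂ =
        algebraMap (AlgebraicClosure ℚ) ↥(modularFunctionFieldBar (M * q * q)) c *
          S18_Bι A (M * q * q) s₁ := by
  classical
  obtain ⟨y, hy⟩ := S36VF_expand (M * q) q hq (dvd_mul_left q M) f
  -- representations of the coordinates at level `M q`
  have hrep : ∀ i, ∃ (c : AlgebraicClosure ℚ) (s s' : S18_B A (M * q)), c ≠ 0 ∧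
      (y i ≠ 0 → S18_Bρ A (M * q) s ≠ 0) ∧ S18_Bρ A (M * q) s' ≠ 0 ∧
      y i * S18_Bι A (M * q) s' =
        algebraMap (AlgebraicClosure ℚ) ↥(modularFunctionFieldBar (M * q)) c *
          S18_Bι A (M * q) s := by
    intro i
    by_cases hi : y i = 0
    · refine ⟨1, 0, 1, one_ne_zero, fun h => absurd hi h, ?_, ?_⟩
      · rw [map_one]; exact one_ne_zero
      · rw [hi, map_zero, mul_zero, zero_mul]
    · obtain ⟨c, s₁, s₂, hc, h1, h2, h⟩ := S34VH_exists_rep M q hq hqM A hA (y i) hi
      exact ⟨c, s₁, s₂, hc, fun _ => h1, h2, h⟩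
  choose c s s' hc hs hs' hys using hrep
  -- the index of least valuation
  let I₀ : Finset (Fin q) := Finset.univ.filter (fun i => y i ≠ 0)
  have hmemI₀ : ∀ i, y i ≠ 0 → i ∈ I₀ := fun i hi =>
    Finset.mem_filter.mpr ⟨Finset.mem_univ _, hi⟩
  have hI₀ : I₀.Nonempty := by
    by_contra hemp
    rw [Finset.not_nonempty_iff_eq_empty] at hemp
    apply hf
    rw [hy]
    apply Finset.sum_eq_zero
    intro i _
    have h0 : y i = 0 := by
      by_contra hne
      have := hmemI₀ i hne
      rw [hemp] at this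
      exact absurd this (Finset.notMem_empty _)
    rw [h0, map_zero, zero_mul]
  obtain ⟨i₀, hi₀, hmax⟩ := I₀.exists_max_image (fun i => A.valuation (c i)) hI₀
  have hyi₀ : y i₀ ≠ 0 := (Finset.mem_filter.mp hi₀).2
  -- the coefficients `d i = c i / c i₀ ∈ A`
  have hd : ∀ i, ∃ d : A, (y i ≠ 0 → (d : AlgebraicClosure ℚ) = c i / c i₀) ∧
      (y i = 0 → d = 0) := by
    intro i
    by_cases hi : y i = 0
    · exact ⟨0, fun h => absurd hi h, fun _ => rfl⟩
    · have hle := hmax i (hmemI₀ i hi)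
      have hmem : c i / c i₀ ∈ A := by
        rw [← A.valuation_le_one_iff, map_div₀]
        have hpos : 0 < A.valuation (c i₀) :=
          zero_lt_iff.mpr ((Valuation.ne_zero_iff _).mpr (hc i₀))
        exact (div_le_one₀ hpos).mpr hle
      exact ⟨⟨_, hmem⟩, fun _ => rfl, fun h => absurd h hi⟩
  choose d hd1 hd0 using hd
  have hdi₀ : d i₀ = 1 := by
    apply Subtype.ext
    rw [hd1 i₀ hyi₀, div_self (hc i₀)]
    rfl
  -- the products of the denominators
  let P : S18_B A (M * q) := ∏ l, s' l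
  let Pi : Fin q → S18_B A (M * q) := fun i => ∏ l ∈ Finset.univ.erase i, s' l
  have hP : ∀ i, P = s' i * Pi i := fun i =>
    (Finset.mul_prod_erase Finset.univ s' (Finset.mem_univ i)).symm
  have hρP : S18_Bρ A (M * q) P ≠ 0 := by
    show S18_Bρ A (M * q) (∏ l, s' l) ≠ 0
    rw [map_prod]
    exact Finset.prod_ne_zero_iff.mpr (fun l _ => hs' l)
  have hρPi : ∀ i, S18_Bρ A (M * q) (Pi i) ≠ 0 := by
    intro i
    show S18_Bρ A (M * q) (∏ l ∈ Finset.univ.erase i, s' l) ≠ 0
    rw [map_prod]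
    exact Finset.prod_ne_zero_iff.mpr (fun l _ => hs' l)
  -- the coordinates with the common denominator
  have hterm : ∀ i, y i * S18_Bι A (M * q) P =
      algebraMap (AlgebraicClosure ℚ) ↥(modularFunctionFieldBar (M * q)) (c i₀) *
        (S18_Bι A (M * q) (S18_BC A (M * q) (d i)) * S18_Bι A (M * q) (s i * Pi i)) := by
    intro i
    rw [hP i, map_mul, ← mul_assoc, hys i, S18_Bι_BC, map_mul]
    by_cases hi : y i = 0
    · have h1 : algebraMap (AlgebraicClosure ℚ) ↥(modularFunctionFieldBar (M * q)) (c i) *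
          S18_Bι A (M * q) (s i) = 0 := by
        rw [← hys i, hi, zero_mul]
      rw [h1, hd0 i hi]
      simp
    · rw [hd1 i hi]
      have hc0 := hc i₀
      rw [← mul_assoc, ← mul_assoc, ← map_mul, mul_div_cancel₀ _ hc0]
  -- numerator and denominator
  refine ⟨c i₀,
    ∑ i, S18_BC A (M * q * q) (d i) * S36VF_Bβ q A (M * q) (s i * Pi i) *
      S18_jBel (M * q * q) A ^ (i : ℕ),
    S36VF_Bβ q A (M * q) P, hc i₀, ?_, S36VF_Bρ_Bβ_ne_zero q A (M * q) hρP, ?_⟩
  · -- the reduction of the numerator does not vanish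
    intro h0
    have h1 : ∑ i, qExpand (IsLocalRing.ResidueField A) q
        (algebraMap (IsLocalRing.ResidueField A) (LaurentSeries (IsLocalRing.ResidueField A))
            (IsLocalRing.residue A (d i)) *
          ((S18_Bρ A (M * q) (s i * Pi i) :
            ↥(modularFunctionFieldFullC (IsLocalRing.ResidueField A) (M * q))) :
              LaurentSeries (IsLocalRing.ResidueField A))) *
        jqModC (IsLocalRing.ResidueField A) ^ (i : ℕ) = 0 := by
      have h2 := congrArg
        (modularFunctionFieldFullC (IsLocalRing.ResidueField A) (M * q * q)).val h0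
      rw [map_sum, map_zero, map_sum] at h2
      rw [← h2]
      refine Finset.sum_congr rfl fun i _ => ?_
      rw [map_mul (S18_Bρ A (M * q * q)), map_mul (S18_Bρ A (M * q * q)),
        map_pow (S18_Bρ A (M * q * q))]
      show _ = ((S18_Bρ A (M * q * q) (S18_BC A (M * q * q) (d i)) :
            ↥(modularFunctionFieldFullC (IsLocalRing.ResidueField A) (M * q * q))) :
              LaurentSeries (IsLocalRing.ResidueField A)) *
          ((S18_Bρ A (M * q * q) (S36VF_Bβ q A (M * q) (s i * Pi i)) :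
            ↥(modularFunctionFieldFullC (IsLocalRing.ResidueField A) (M * q * q))) :
              LaurentSeries (IsLocalRing.ResidueField A)) *
          ((S18_Bρ A (M * q * q) (S18_jBel (M * q * q) A) :
            ↥(modularFunctionFieldFullC (IsLocalRing.ResidueField A) (M * q * q))) :
              LaurentSeries (IsLocalRing.ResidueField A)) ^ (i : ℕ)
      rw [S36VF_Bρ_Bβ, S36VF_Bρ_jBel_coe, S18_Bρ_BC, map_mul (qExpand _ q)]
      congr 2
      rw [algebraMap_laurentSeries_eq_single, qExpand_single, mul_zero]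
      show _ = algebraMap (IsLocalRing.ResidueField A)
        (LaurentSeries (IsLocalRing.ResidueField A)) (IsLocalRing.residue A (d i))
      rw [algebraMap_laurentSeries_eq_single]
    have h3 := S36VF_ind q (jqModC (IsLocalRing.ResidueField A)) (DG_A_order_jq _) _ h1 i₀
    rw [hdi₀, map_one, map_one, one_mul] at h3
    have h4 : S18_Bρ A (M * q) (s i₀ * Pi i₀) = 0 := Subtype.ext h3
    rw [map_mul] at h4
    exact mul_ne_zero (hs i₀ hyi₀) (hρPi i₀) h4
  · -- the identity
    rw [hy, Finset.sum_mul, map_sum, Finset.mul_sum]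
    refine Finset.sum_congr rfl fun i _ => ?_
    have h1 := congrArg (heckeBetaBar (AlgebraicClosure ℚ) (M * q) q) (hterm i)
    rw [map_mul, map_mul, map_mul, AlgHom.commutes, ← S36VF_Bι_Bβ, ← S36VF_Bι_Bβ,
      ← S36VF_Bι_Bβ] at h1
    have h2 : S18_Bι A (M * q * q) (S36VF_Bβ q A (M * q) (S18_BC A (M * q) (d i))) =
        S18_Bι A (M * q * q) (S18_BC A (M * q * q) (d i)) := by
      apply Subtype.ext
      show coeffMap A.subtype (qExpand A q (HahnSeries.C (d i))) =
        coeffMap A.subtype (HahnSeries.C (d i))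
      rw [qExpand_C]
    rw [h2] at h1
    calc heckeBetaBar (AlgebraicClosure ℚ) (M * q) q (y i) * jB (M * q * q) ^ (i : ℕ) *
          S18_Bι A (M * q * q) (S36VF_Bβ q A (M * q) P)
        = heckeBetaBar (AlgebraicClosure ℚ) (M * q) q (y i) *
            S18_Bι A (M * q * q) (S36VF_Bβ q A (M * q) P) * jB (M * q * q) ^ (i : ℕ) := by
          ring
      _ = algebraMap (AlgebraicClosure ℚ) ↥(modularFunctionFieldBar (M * q * q)) (c i₀) *
            (S18_Bι A (M * q * q) (S18_BC A (M * q * q) (d i)) *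
              S18_Bι A (M * q * q) (S36VF_Bβ q A (M * q) (s i * Pi i))) *
            jB (M * q * q) ^ (i : ℕ) := by rw [h1]
      _ = _ := by
          rw [map_mul (S18_Bι A (M * q * q)), map_mul (S18_Bι A (M * q * q)),
            map_pow (S18_Bι A (M * q * q)), S18_Bι_jBel]
          ring

include hq hqM hA in
/-- **VAL3-FF**: `PrincipalGeneratedByIntegral` at level `M q²`, `q ∤ M`, for `A` over `q`. -/
theorem S36VF_hgen : PrincipalGeneratedByIntegral A (IsLocalRing.residue A) (M * q * q) := by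
  intro D hD
  obtain ⟨f, hf, hDf⟩ := hD
  obtain ⟨c, s₁, s₂, hc, h1, h2, hrep⟩ := S36VF_exists_rep M q hq hqM A hA f hf
  have hs1 := S18_Bι_ne_zero A (M * q * q) h1
  have hs2 := S18_Bι_ne_zero A (M * q * q) h2
  obtain ⟨D₁, hD₁, -⟩ := (S18_hPD (M * q * q)).exists_divisor _ hs1
  obtain ⟨D₂, hD₂, -⟩ := (S18_hPD (M * q * q)).exists_divisor _ hs2
  have hmem : ∀ (s : S18_B A (M * q * q))
      (E : Divisor (AlgebraicClosure ℚ) ↥(modularFunctionFieldBar (M * q * q))),
      S18_Bρ A (M * q * q) s ≠ 0 → (∀ P, E P = P.ord (S18_Bι A (M * q * q) s)) →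
      E ∈ integralPrincipalDivisors A (IsLocalRing.residue A) (M * q * q) := fun s E hs hE =>
    ⟨s.1, s.2.1, s.2.2, fun h => hs (Subtype.ext h), hE⟩
  have hDeq : D = D₁ - D₂ := by
    ext P
    rw [Finsupp.sub_apply, hDf P, hD₁ P, hD₂ P]
    have hcF : algebraMap (AlgebraicClosure ℚ) ↥(modularFunctionFieldBar (M * q * q)) c ≠ 0 := by
      rwa [Ne, map_eq_zero]
    have h3 := congrArg P.ord hrep
    rw [P.ord_mul hf hs2, P.ord_mul hcF hs1, S18_Spec.ord_algebraMap] at h3
    omega
  rw [hDeq]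
  exact AddSubgroup.sub_mem _ (AddSubgroup.subset_closure (hmem s₁ D₁ h1 hD₁))
    (AddSubgroup.subset_closure (hmem s₂ D₂ h2 hD₂))

end Main

end Fermat.Agent.S36
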