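import Fermat.Agent.S36.Val3Three
import Fermat.Agent.S36.Val3FF
import Fermat.Agent.S36.FixLInst
import Fermat.Agent.S34.ValFk
import Fermat.Agent.S18.CuspKQ

/-!
# TRACK 10 (S36), package VAL3, piece VAL3-RES (helper28): the residue field `κ` of `FF`, `VV`
and surjectivity of the three reductions with `H`-fixed lifts

`q ∤ M` prime, `A ⊂ ℚ̄` over `q`, `k` its residue field, `κ = modularFunctionFieldFullC k M`,
`F₂ = F_{M q²}`, `H ≤ Gal(ℚ̄/ℚ)` a subgroup such that every element of `k` has an `H`-fixed lift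
in `A` (BASE-L (3) for the inertia group).  Consumer: `S36FL_val` (`hred_mem`, `hred_surj`).

* `S36VR_mem_of_rep` : if `f = c · ι s₁ / ι s₂` (`s_i ∈ B_N`, `ρ s_i ≠ 0`) lies in the Gauss ring
  along the inclusion `F_N ⊂ ℚ̄((t))`, then `c ∈ A`, `f ∈ S18_O A N` and the reduction of `f` lies
  in `F_k(N)`;
* `S36VR_FF_mem`, `S36VR_VV_mem` : the reductions along `FF` and `VV` take values in `κ`;
* `S36VR_FF_le_S18` : the Gauss ring `FF` is `S18_O A (M q²)`;
* `S36VR_surj` : every `y ∈ F_k(N)` is the reduction of an `H`-fixed element of the Gauss ring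
  of `F_N` (any level `N`);
* `S36VR_FF_surj`, `S36VR_FV_surj`, `S36VR_VV_surj` : the same for the three valuations of `F₂`
  and `y ∈ κ` (lifts `α₂ α₁ x`, `α₂ α₁ x`, `β₂ β₁ x`).
-/

set_option autoImplicit false
set_option synthInstance.maxHeartbeats 400000
set_option maxHeartbeats 1000000
set_option linter.style.haveILetI false
set_option linter.unusedSectionVars false
set_option linter.unusedVariables false
set_option linter.style.longLine false

open HahnSeries IntermediateField AlgebraicCurve ModularCurve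

namespace Fermat.Agent.S36

open Fermat.Agent.S18 Fermat.Agent.S24 Fermat.Agent.S34 Fermat.Agent.S37 Fermat.Agent.GalRep
  Fermat.Agent.Lib

local notation "ℚbar" => AlgebraicClosure ℚ

section Rep

variable (A : ValuationSubring ℚbar)

/-- the residue of the inverse of a non-integral element vanishes. -/
theorem S36VR_res_inv {c : ℚbar} (hc : c ∉ A) (hci : c⁻¹ ∈ A) :
    IsLocalRing.residue A ⟨c⁻¹, hci⟩ = 0 := by
  have hc0 : c ≠ 0 := fun h0 => hc (h0 ▸ A.zero_mem)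
  have hnu : ¬ IsUnit (⟨c⁻¹, hci⟩ : A) := by
    rintro ⟨u, hu⟩
    apply hc
    have h2 : ((u : A) : ℚbar) * ((u⁻¹ : Aˣ) : ℚbar) = 1 := by
      rw [← A.coe_mul, ← Units.val_mul, mul_inv_cancel, Units.val_one, A.coe_one]
    rw [hu] at h2
    have h1 : ((u⁻¹ : Aˣ) : ℚbar) = c := by
      have h3 : c⁻¹ * ((u⁻¹ : Aˣ) : ℚbar) = 1 := h2
      field_simp at h3
      exact h3
    rw [← h1]
    exact ((u⁻¹ : Aˣ) : A).2
  rwa [IsLocalRing.residue_eq_zero_iff, IsLocalRing.mem_maximalIdeal, mem_nonunits_iff]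

variable (N : ℕ) [NeZero N]
  (φ : ↥(modularFunctionFieldBar N) →+* LaurentSeries ℚbar)
  (hφ : ∀ f : ↥(modularFunctionFieldBar N), φ f = (f : LaurentSeries ℚbar))

include hφ in
/-- **the constant of a representation of an integral element is integral.** -/
theorem S36VR_const_mem_of_rep {f : ↥(modularFunctionFieldBar N)} (hf : f ∈ S36V_G A φ)
    {c : ℚbar} {s₁ s₂ : S18_B A N} (h1 : S18_Bρ A N s₁ ≠ 0)
    (hrep : f * S18_Bι A N s₂ =
      algebraMap ℚbar ↥(modularFunctionFieldBar N) c * S18_Bι A N s₁) : c ∈ A := by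
  by_contra hc
  have hci : c⁻¹ ∈ A := (A.mem_or_inv_mem c).resolve_left hc
  have hc0 : c ≠ 0 := fun h0 => hc (h0 ▸ A.zero_mem)
  obtain ⟨t₁, t₂, hne, ht⟩ := hf
  rw [hφ] at ht
  have hrep' : (f : LaurentSeries ℚbar) * S18_ι A s₂.1 =
      algebraMap ℚbar (LaurentSeries ℚbar) c * S18_ι A s₁.1 :=
    congrArg Subtype.val hrep
  have hkey : s₁.1 * t₂ = HahnSeries.C ⟨c⁻¹, hci⟩ * t₁ * s₂.1 := by
    apply S18_ι_injective A
    rw [map_mul, map_mul, map_mul, S18_ι_C, ← ht]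
    have h3 : algebraMap ℚbar (LaurentSeries ℚbar) c⁻¹ *
        algebraMap ℚbar (LaurentSeries ℚbar) c = 1 := by
      rw [← map_mul, inv_mul_cancel₀ hc0, map_one]
    calc S18_ι A s₁.1 * S18_ι A t₂
        = (algebraMap ℚbar (LaurentSeries ℚbar) c⁻¹ *
            algebraMap ℚbar (LaurentSeries ℚbar) c) * S18_ι A s₁.1 * S18_ι A t₂ := by
          rw [h3, one_mul]
      _ = algebraMap ℚbar (LaurentSeries ℚbar) c⁻¹ *
            (algebraMap ℚbar (LaurentSeries ℚbar) c * S18_ι A s₁.1) * S18_ι A t₂ := by ring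
      _ = algebraMap ℚbar (LaurentSeries ℚbar) c⁻¹ *
            ((f : LaurentSeries ℚbar) * S18_ι A s₂.1) * S18_ι A t₂ := by rw [hrep']
      _ = _ := by ring
  have h4 := congrArg (S18_ρ A) hkey
  rw [map_mul, map_mul, map_mul, S18_ρ_C, S36VR_res_inv A hc hci, map_zero, zero_mul,
    zero_mul] at h4
  have h5 : S18_ρ A s₁.1 ≠ 0 := fun h0 => h1 (Subtype.ext h0)
  exact mul_ne_zero h5 hne h4

include hφ in
/-- **the reduction of a represented integral element lies in `F_k(N)`.** -/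
theorem S36VR_mem_of_rep {f : ↥(modularFunctionFieldBar N)} (hf : f ∈ S36V_G A φ)
    {c : ℚbar} {s₁ s₂ : S18_B A N} (h1 : S18_Bρ A N s₁ ≠ 0) (h2 : S18_Bρ A N s₂ ≠ 0)
    (hrep : f * S18_Bι A N s₂ =
      algebraMap ℚbar ↥(modularFunctionFieldBar N) c * S18_Bι A N s₁) :
    S36V_Gred A φ ⟨f, hf⟩ ∈ modularFunctionFieldFullC (IsLocalRing.ResidueField A) N := by
  have hcA : c ∈ A := S36VR_const_mem_of_rep A N φ hφ hf h1 hrep
  have hrep' : (f : LaurentSeries ℚbar) * S18_ι A s₂.1 =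
      algebraMap ℚbar (LaurentSeries ℚbar) c * S18_ι A s₁.1 :=
    congrArg Subtype.val hrep
  have h3 : φ f * S18_ι A s₂.1 = S18_ι A (HahnSeries.C ⟨c, hcA⟩ * s₁.1) := by
    rw [hφ, hrep', map_mul, S18_ι_C]
  rw [S36V_Gred_eq A φ hf (fun h0 => h2 (Subtype.ext h0)) h3, map_mul, S18_ρ_C]
  exact div_mem (mul_mem (IntermediateField.algebraMap_mem _ _) s₁.2.2) s₂.2.2

include hφ in
/-- a represented integral element lies in `S18_O`. -/
theorem S36VR_mem_S18_of_rep {f : ↥(modularFunctionFieldBar N)} (hf : f ∈ S36V_G A φ)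
    {c : ℚbar} {s₁ s₂ : S18_B A N} (h1 : S18_Bρ A N s₁ ≠ 0) (h2 : S18_Bρ A N s₂ ≠ 0)
    (hrep : f * S18_Bι A N s₂ =
      algebraMap ℚbar ↥(modularFunctionFieldBar N) c * S18_Bι A N s₁) :
    f ∈ S18_O A N := by
  have hcA : c ∈ A := S36VR_const_mem_of_rep A N φ hφ hf h1 hrep
  refine (S18_mem_O' A N).mpr ⟨S18_BC A N ⟨c, hcA⟩ * s₁, s₂, h2, ?_⟩
  rw [hrep, map_mul, S18_Bι_BC]

end Rep

section FFVV

variable (M q : ℕ) [NeZero M] [NeZero q] (hq : q.Prime) (hqM : ¬ q ∣ M)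
  (A : ValuationSubring ℚbar) (hA : A.LiesOverPrime q)

include hq hA in
/-- `F_k(M q q) = F_k(M)` inside `k((t))`. -/
theorem S36VR_Fk_eq :
    modularFunctionFieldFullC (IsLocalRing.ResidueField A) (M * q * q) =
      modularFunctionFieldFullC (IsLocalRing.ResidueField A) M := by
  haveI : CharP (IsLocalRing.ResidueField A) q := S18_residue_charP A q hq hA
  haveI : Fact q.Prime := ⟨hq⟩
  rw [S34VF_FkN (IsLocalRing.ResidueField A) q (M * q),
    S34VF_FkN (IsLocalRing.ResidueField A) q M]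

include hq hqM hA in
/-- **(S1)**: the reduction along `FF` takes values in `κ = F_k(M)`. -/
theorem S36VR_FF_mem (f : ↥(modularFunctionFieldBar (M * q * q)))
    (hf : f ∈ S36V_G A (S36V_emFF M q)) :
    S36V_Gred A (S36V_emFF M q) ⟨f, hf⟩ ∈
      modularFunctionFieldFullC (IsLocalRing.ResidueField A) M := by
  by_cases hf0 : f = 0
  · subst hf0
    have h0 : (⟨0, hf⟩ : S36V_G A (S36V_emFF M q)) = 0 := rfl
    rw [h0, map_zero]
    exact zero_mem _
  · obtain ⟨c, s₁, s₂, hc, h1, h2, hrep⟩ := S36VF_exists_rep M q hq hqM A hA f hf0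
    rw [← S36VR_Fk_eq M q hq A hA]
    exact S36VR_mem_of_rep A (M * q * q) (S36V_emFF M q) (fun _ => rfl) hf h1 h2 hrep

include hq hqM hA in
/-- the Gauss ring `FF` is contained in (hence equal to) `S18_O A (M q²)`. -/
theorem S36VR_FF_le_S18 : S36V_G A (S36V_emFF M q) ≤ S18_O A (M * q * q) := by
  intro f hf
  by_cases hf0 : f = 0
  · subst hf0
    exact zero_mem _
  · obtain ⟨c, s₁, s₂, hc, h1, h2, hrep⟩ := S36VF_exists_rep M q hq hqM A hA f hf0
    exact S36VR_mem_S18_of_rep A (M * q * q) (S36V_emFF M q) (fun _ => rfl) hf h1 h2 hrep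

include hq hqM hA in
theorem S36VR_FF_eq_S18 : S36V_G A (S36V_emFF M q) = S18_O A (M * q * q) :=
  le_antisymm (S36VR_FF_le_S18 M q hq hqM A hA) (S36V_S18_le A (M * q * q))

include hq hqM hA in
/-- **(S2)**: the reduction along `VV` takes values in `κ = F_k(M)`. -/
theorem S36VR_VV_mem (f : ↥(modularFunctionFieldBar (M * q * q)))
    (hf : f ∈ S36V_G A (S36V_emVV M q hq hqM)) :
    S36V_Gred A (S36V_emVV M q hq hqM) ⟨f, hf⟩ ∈
      modularFunctionFieldFullC (IsLocalRing.ResidueField A) M := by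
  have hf' : S36V_w2 M q hq hqM f ∈ S36V_G A (S36V_emFF M q) :=
    (S36V_mem_G_of_eq A (S36V_emVV M q hq hqM) (S36V_emFF M q)
      (g := f) (f := S36V_w2 M q hq hqM f) rfl).mp hf
  rw [S36V_Gred_of_eq A (S36V_emVV M q hq hqM) (S36V_emFF M q)
    (g := f) (f := S36V_w2 M q hq hqM f) rfl hf hf']
  exact S36VR_FF_mem M q hq hqM A hA _ hf'

end FFVV

section Surj

variable (A : ValuationSubring ℚbar) (N : ℕ) [NeZero N]
  (H : Subgroup (ℚbar ≃ₐ[ℚ] ℚbar))
  (hH : ∀ y : IsLocalRing.ResidueField A, ∃ a : A, (∀ σ ∈ H, σ (a : ℚbar) = a) ∧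
    IsLocalRing.residue A a = y)

include hH in
/-- **(S3)**: every element of `F_k(N)` is the reduction of an `H`-fixed element of the Gauss
ring of `F_N`. -/
theorem S36VR_surj (y : LaurentSeries (IsLocalRing.ResidueField A))
    (hy : y ∈ modularFunctionFieldFullC (IsLocalRing.ResidueField A) N) :
    ∃ x : ↥(modularFunctionFieldBar N), x ∈ (S36FI_act N H).fixF ∧
      ∃ hx : x ∈ S36V_G A (modularFunctionFieldBar N).val.toRingHom,
        S36V_Gred A (modularFunctionFieldBar N).val.toRingHom ⟨x, hx⟩ = y := by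
  have hy' : y ∈ IntermediateField.adjoin (IsLocalRing.ResidueField A)
      (divisorExpansionsC (IsLocalRing.ResidueField A) N) := hy
  clear hy
  induction hy' using IntermediateField.adjoin_induction with
  | mem y hy =>
    obtain ⟨d, hne, hd, rfl⟩ := hy
    have hcoe : (modularFunctionFieldBar N).val.toRingHom (jBar N d hd) =
        S18_ι A (jqNModC A d) := by
      show ((jBar N d hd : ↥(modularFunctionFieldBar N)) : LaurentSeries ℚbar) = _
      rw [KE_jBar_coe]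
      show _ = coeffMap A.subtype (jqNModC A d)
      rw [coeffMap_jqNModC]
      rfl
    refine ⟨jBar N d hd, ?_, S36V_G_of_int A _ hcoe, ?_⟩
    · rw [S36FI_mem_fixF]
      intro σ _
      exact S36FI_jBar_fixed N σ d hd
    · rw [S36V_Gred_of_int A _ hcoe]
      show coeffMap (IsLocalRing.residue A) (jqNModC A d) = _
      rw [coeffMap_jqNModC]
      rfl
  | algebraMap c =>
    obtain ⟨a, ha, hac⟩ := hH c
    have hcoe : (modularFunctionFieldBar N).val.toRingHom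
        (algebraMap ℚbar ↥(modularFunctionFieldBar N) (a : ℚbar)) =
        algebraMap ℚbar (LaurentSeries ℚbar) (a : ℚbar) := rfl
    refine ⟨algebraMap ℚbar ↥(modularFunctionFieldBar N) (a : ℚbar), ?_,
      S36V_G_const A _ a hcoe, ?_⟩
    · rw [S36FI_mem_fixF]
      intro σ hσ
      rw [arithmeticRingAut_algebraMap, ha σ hσ]
    · rw [S36V_Gred_const A _ a hcoe, hac]
  | add y z _ _ hy hz =>
    obtain ⟨x, hxf, hx, hxy⟩ := hy
    obtain ⟨x', hxf', hx', hxz⟩ := hz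
    refine ⟨x + x', add_mem hxf hxf', add_mem hx hx', ?_⟩
    have h1 : (⟨x + x', add_mem hx hx'⟩ : S36V_G A (modularFunctionFieldBar N).val.toRingHom) =
        ⟨x, hx⟩ + ⟨x', hx'⟩ := rfl
    rw [h1, map_add, hxy, hxz]
  | inv y _ hy =>
    obtain ⟨x, hxf, hx, hxy⟩ := hy
    by_cases hy0 : y = 0
    · refine ⟨0, zero_mem _, zero_mem _, ?_⟩
      have h0 : (⟨0, zero_mem _⟩ : S36V_G A (modularFunctionFieldBar N).val.toRingHom) = 0 := rfl
      rw [h0, map_zero, hy0, inv_zero]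
    · have hred : S36V_Gred A (modularFunctionFieldBar N).val.toRingHom ⟨x, hx⟩ ≠ 0 := by
        rw [hxy]; exact hy0
      refine ⟨x⁻¹, inv_mem hxf, S36V_G_inv_mem A _ hx hred, ?_⟩
      rw [S36V_Gred_inv A _ hx hred, hxy]
  | mul y z _ _ hy hz =>
    obtain ⟨x, hxf, hx, hxy⟩ := hy
    obtain ⟨x', hxf', hx', hxz⟩ := hz
    refine ⟨x * x', mul_mem hxf hxf', mul_mem hx hx', ?_⟩
    have h1 : (⟨x * x', mul_mem hx hx'⟩ : S36V_G A (modularFunctionFieldBar N).val.toRingHom) =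
        ⟨x, hx⟩ * ⟨x', hx'⟩ := rfl
    rw [h1, map_mul, hxy, hxz]

end Surj

section Fix

variable (N q : ℕ) [NeZero N] [NeZero q] (H : Subgroup (ℚbar ≃ₐ[ℚ] ℚbar))

/-- `α` preserves `H`-fixed elements. -/
theorem S36VR_fix_alpha {x : ↥(modularFunctionFieldBar N)} (hx : x ∈ (S36FI_act N H).fixF) :
    heckeAlphaBar ℚbar N q x ∈ (S36FI_act (N * q) H).fixF := by
  rw [S36FI_mem_fixF_iff_coeff] at hx ⊢
  intro k
  rw [S36FI_mem_fixK]
  intro σ hσ
  rw [coe_heckeAlphaBar]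
  exact (S36FI_mem_fixK N H).mp (hx k) σ hσ

/-- `β` preserves `H`-fixed elements. -/
theorem S36VR_fix_beta {x : ↥(modularFunctionFieldBar N)} (hx : x ∈ (S36FI_act N H).fixF) :
    heckeBetaBar ℚbar N q x ∈ (S36FI_act (N * q) H).fixF := by
  rw [S36FI_mem_fixF_iff_coeff] at hx ⊢
  intro k
  rw [S36FI_mem_fixK]
  intro σ hσ
  rw [coe_heckeBetaBar]
  by_cases hk : (q : ℤ) ∣ k
  · obtain ⟨m, rfl⟩ := hk
    rw [qExpand_coeff_mul]
    exact (S36FI_mem_fixK N H).mp (hx m) σ hσ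
  · rw [qExpand_coeff_of_not_dvd q _ hk, map_zero]

end Fix

section Surj3

variable (M q : ℕ) [NeZero M] [NeZero q] (hq : q.Prime) (hqM : ¬ q ∣ M)
  (A : ValuationSubring ℚbar)
  (H : Subgroup (ℚbar ≃ₐ[ℚ] ℚbar))
  (hH : ∀ y : IsLocalRing.ResidueField A, ∃ a : A, (∀ σ ∈ H, σ (a : ℚbar) = a) ∧
    IsLocalRing.residue A a = y)
  (ζ : ℚbarˣ) (hζ : ζ ^ q = 1) (hζ1 : ζ ≠ 1)

include hH in
/-- **surjectivity of `red_FF` with `H`-fixed lifts** (lift `α₂ α₁ x`). -/
theorem S36VR_FF_surj (y : LaurentSeries (IsLocalRing.ResidueField A))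
    (hy : y ∈ modularFunctionFieldFullC (IsLocalRing.ResidueField A) M) :
    ∃ x : ↥(modularFunctionFieldBar (M * q * q)), x ∈ (S36FI_act (M * q * q) H).fixF ∧
      ∃ hx : x ∈ S36V_G A (S36V_emFF M q), S36V_Gred A (S36V_emFF M q) ⟨x, hx⟩ = y := by
  obtain ⟨x, hxf, hx, hxy⟩ := S36VR_surj A M H hH y hy
  have heq : S36V_emFF M q (heckeAlphaBar ℚbar (M * q) q (heckeAlphaBar ℚbar M q x)) =
      (modularFunctionFieldBar M).val.toRingHom x := by
    rw [S36V_emFF_alpha, S36V_emF_apply, coe_heckeAlphaBar]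
    rfl
  have hmem := (S36V_mem_G_of_eq A _ _ heq).mpr hx
  refine ⟨_, S36VR_fix_alpha (M * q) q H (S36VR_fix_alpha M q H hxf), hmem, ?_⟩
  rw [S36V_Gred_of_eq A _ _ heq hmem hx, hxy]

include hH in
/-- **surjectivity of `red_FV` with `H`-fixed lifts** (lift `α₂ α₁ x`). -/
theorem S36VR_FV_surj (y : LaurentSeries (IsLocalRing.ResidueField A))
    (hy : y ∈ modularFunctionFieldFullC (IsLocalRing.ResidueField A) M) :
    ∃ x : ↥(modularFunctionFieldBar (M * q * q)), x ∈ (S36FI_act (M * q * q) H).fixF ∧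
      ∃ hx : x ∈ S36V_G A (S36V_emFV M q hq hqM ζ hζ hζ1),
        S36V_Gred A (S36V_emFV M q hq hqM ζ hζ hζ1) ⟨x, hx⟩ = y := by
  obtain ⟨x, hxf, hx, hxy⟩ := S36VR_surj A M H hH y hy
  have heq : S36V_emFV M q hq hqM ζ hζ hζ1
      (heckeAlphaBar ℚbar (M * q) q (heckeAlphaBar ℚbar M q x)) =
      (modularFunctionFieldBar M).val.toRingHom x := by
    rw [S36V_emFV_alpha, S36V_emF_apply, coe_heckeAlphaBar]
    rfl
  have hmem := (S36V_mem_G_of_eq A _ _ heq).mpr hx
  refine ⟨_, S36VR_fix_alpha (M * q) q H (S36VR_fix_alpha M q H hxf), hmem, ?_⟩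
  rw [S36V_Gred_of_eq A _ _ heq hmem hx, hxy]

include hH in
/-- **surjectivity of `red_VV` with `H`-fixed lifts** (lift `β₂ β₁ x`). -/
theorem S36VR_VV_surj (y : LaurentSeries (IsLocalRing.ResidueField A))
    (hy : y ∈ modularFunctionFieldFullC (IsLocalRing.ResidueField A) M) :
    ∃ x : ↥(modularFunctionFieldBar (M * q * q)), x ∈ (S36FI_act (M * q * q) H).fixF ∧
      ∃ hx : x ∈ S36V_G A (S36V_emVV M q hq hqM),
        S36V_Gred A (S36V_emVV M q hq hqM) ⟨x, hx⟩ = y := by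
  obtain ⟨x, hxf, hx, hxy⟩ := S36VR_surj A M H hH y hy
  have heq : S36V_emVV M q hq hqM
      (heckeBetaBar ℚbar (M * q) q (heckeBetaBar ℚbar M q x)) =
      (modularFunctionFieldBar M).val.toRingHom x := by
    rw [S36V_emVV_beta, S36V_emV_apply, S34VW_wq_beta, coe_heckeAlphaBar]
    rfl
  have hmem := (S36V_mem_G_of_eq A _ _ heq).mpr hx
  refine ⟨_, S36VR_fix_beta (M * q) q H (S36VR_fix_beta M q H hxf), hmem, ?_⟩
  rw [S36V_Gred_of_eq A _ _ heq hmem hx, hxy]

end Surj3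

end Fermat.Agent.S36
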