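import Fermat.Agent.S36.Val3FVRes
import Fermat.Agent.S36.Val3Res
import Fermat.Agent.S36.Val3Mem

/-!
# TRACK 10 (S36), package VAL3-FVRES (helper9), part 2: the hypothesis-free forms

* `S36VQ_FV_mem` : for `f ∈ F_{M q²}` fixed by the inertia group `I` of `A` and Gauss-integral
  along `ι_ζ`, the reduction `red_FV f` lies in `κ = modularFunctionFieldFullC k M`
  (`S36VQ_main` with `hFF := S36VR_FF_mem` (helper28), `hF := S36V_F_mem` (helper12));
* `S36VQ_hred_mem` : the same in the shape `hred_mem` of `S36FL_val` for the valuation subring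
  `S36V_OFV` and the action `S36FI_act (M q²) H`, for every subgroup `H ⊇ I`... precisely for
  every `H` with `I ≤ H`.
-/

set_option autoImplicit false
set_option synthInstance.maxHeartbeats 400000
set_option maxHeartbeats 1000000
set_option linter.style.haveILetI false
set_option linter.unusedSectionVars false
set_option linter.unusedVariables false

open HahnSeries IntermediateField AlgebraicCurve ModularCurve

noncomputable section

namespace Fermat.Agent.S36

open Fermat.Agent.S18 Fermat.Agent.S24 Fermat.Agent.S34 Fermat.Agent.S35 Fermat.Agent.S37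
open Fermat.Agent.GalRep Fermat.Agent.Lib Fermat.Agent.S19

local notation "ℚbar" => AlgebraicClosure ℚ

variable (M q : ℕ) [NeZero M] [NeZero q] (hq : q.Prime) (hqM : ¬ q ∣ M)
  (A : ValuationSubring ℚbar) (hA : A.LiesOverPrime q)
  (ζ : ℚbarˣ) (hζ : ζ ^ q = 1) (hζ1 : ζ ≠ 1)

include hA in
/-- **VAL3-FVRES, final form**: the reduction along `FV` of an inertia-fixed function lies in
`κ`. -/
theorem S36VQ_FV_mem (f : ↥(modularFunctionFieldBar (M * q * q)))
    (hfix : ∀ τ ∈ A.inertiaSubgroupIn ℚ, GR_gal (M * q * q) τ f = f)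
    (hf : f ∈ S36V_G A (S36V_emFV M q hq hqM ζ hζ hζ1)) :
    S36V_Gred A (S36V_emFV M q hq hqM ζ hζ hζ1) ⟨f, hf⟩ ∈
      modularFunctionFieldFullC (IsLocalRing.ResidueField A) M := by
  haveI : Fact q.Prime := ⟨hq⟩
  haveI : CharP (IsLocalRing.ResidueField A) q := S18_residue_charP A q hq hA
  exact S36VQ_main M q hq hqM A hA (S36VR_FF_mem M q hq hqM A hA) (S36V_F_mem M q hq hqM A hA)
    ζ hζ hζ1 f hfix hf

/-- **`hred_mem` of `S36FL_val` for `FV`**, for the action of any subgroup `H` containing the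
inertia group. -/
theorem S36VQ_hred_mem (H : Subgroup (ℚbar ≃ₐ[ℚ] ℚbar)) (hH : A.inertiaSubgroupIn ℚ ≤ H)
    (x : ↥(S36V_OFV M q hq hqM A hA ζ hζ hζ1))
    (hx : (x : ↥(modularFunctionFieldBar (M * q * q))) ∈ (S36FI_act (M * q * q) H).fixF) :
    ∃ y : ↥(modularFunctionFieldFullC (IsLocalRing.ResidueField A) M),
      S36V_VSred A (S36V_emFV M q hq hqM ζ hζ hζ1)
        (S36V_rep_emFV M q hq hqM A hA ζ hζ hζ1) x =
        (y : LaurentSeries (IsLocalRing.ResidueField A)) := by
  have hfix : ∀ τ ∈ A.inertiaSubgroupIn ℚ,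
      GR_gal (M * q * q) τ (x : ↥(modularFunctionFieldBar (M * q * q))) = x :=
    fun τ hτ => (S36FI_mem_fixF (M * q * q) H).1 hx τ (hH hτ)
  exact ⟨⟨_, S36VQ_FV_mem M q hq hqM A hA ζ hζ hζ1 x hfix x.2⟩, rfl⟩

end Fermat.Agent.S36
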