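import Fermat.Agent.S36.Val3Res

/-!
# TRACK 10 (S36), package VAL3, piece VAL3-RES (helper28), part 2: level `M q`

Surjectivity of the reductions along `F` and `V` (level `M q`) onto `κ = F_k(M)` with `H`-fixed
lifts (`hred_surj` of `S36FL_val` at level `M q`; the membership statements are helper12's
`S36V_F_mem`, `S36V_V_mem`):

* `S36VR_F_surj` (lift `α₁ x`), `S36VR_V_surj` (lift `β₁ x`).
-/

set_option autoImplicit false
set_option synthInstance.maxHeartbeats 400000
set_option maxHeartbeats 1000000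
set_option linter.style.haveILetI false
set_option linter.unusedSectionVars false
set_option linter.unusedVariables false
set_option linter.style.longLine false

open HahnSeries IntermediateField AlgebraicCurve ModularCurve

namespace Fermat.Agent.S36

open Fermat.Agent.S18 Fermat.Agent.S24 Fermat.Agent.S34 Fermat.Agent.S37 Fermat.Agent.GalRep
  Fermat.Agent.Lib

local notation "ℚbar" => AlgebraicClosure ℚ

variable (M q : ℕ) [NeZero M] [NeZero q] (hq : q.Prime) (hqM : ¬ q ∣ M)
  (A : ValuationSubring ℚbar)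
  (H : Subgroup (ℚbar ≃ₐ[ℚ] ℚbar))
  (hH : ∀ y : IsLocalRing.ResidueField A, ∃ a : A, (∀ σ ∈ H, σ (a : ℚbar) = a) ∧
    IsLocalRing.residue A a = y)

include hH in
/-- **surjectivity of `red_F` with `H`-fixed lifts** (level `M q`, lift `α₁ x`). -/
theorem S36VR_F_surj (y : LaurentSeries (IsLocalRing.ResidueField A))
    (hy : y ∈ modularFunctionFieldFullC (IsLocalRing.ResidueField A) M) :
    ∃ x : ↥(modularFunctionFieldBar (M * q)), x ∈ (S36FI_act (M * q) H).fixF ∧
      ∃ hx : x ∈ S36V_G A (S36V_emF M q), S36V_Gred A (S36V_emF M q) ⟨x, hx⟩ = y := by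
  obtain ⟨x, hxf, hx, hxy⟩ := S36VR_surj A M H hH y hy
  have heq : S36V_emF M q (heckeAlphaBar ℚbar M q x) =
      (modularFunctionFieldBar M).val.toRingHom x := by
    rw [S36V_emF_apply, coe_heckeAlphaBar]
    rfl
  have hmem := (S36V_mem_G_of_eq A _ _ heq).mpr hx
  refine ⟨_, S36VR_fix_alpha M q H hxf, hmem, ?_⟩
  rw [S36V_Gred_of_eq A _ _ heq hmem hx, hxy]

include hH in
/-- **surjectivity of `red_V` with `H`-fixed lifts** (level `M q`, lift `β₁ x`). -/
theorem S36VR_V_surj (y : LaurentSeries (IsLocalRing.ResidueField A))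
    (hy : y ∈ modularFunctionFieldFullC (IsLocalRing.ResidueField A) M) :
    ∃ x : ↥(modularFunctionFieldBar (M * q)), x ∈ (S36FI_act (M * q) H).fixF ∧
      ∃ hx : x ∈ S36V_G A (S36V_emV M q hq hqM),
        S36V_Gred A (S36V_emV M q hq hqM) ⟨x, hx⟩ = y := by
  obtain ⟨x, hxf, hx, hxy⟩ := S36VR_surj A M H hH y hy
  have heq : S36V_emV M q hq hqM (heckeBetaBar ℚbar M q x) =
      (modularFunctionFieldBar M).val.toRingHom x := by
    rw [S36V_emV_apply, S34VW_wq_beta, coe_heckeAlphaBar]
    rfl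
  have hmem := (S36V_mem_G_of_eq A _ _ heq).mpr hx
  refine ⟨_, S36VR_fix_beta M q H hxf, hmem, ?_⟩
  rw [S36V_Gred_of_eq A _ _ heq hmem hx, hxy]

end Fermat.Agent.S36
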