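import Fermat.Agent.S36.FixLAsm
import Fermat.Agent.S36.FixLDv
import Fermat.Agent.S36.Val3Res
import Fermat.Agent.S36.Val3ResQ
import Fermat.Agent.S36.Val3Mem
import Fermat.Agent.S36.Val3FVResInst
import Fermat.Agent.S19.Teich
import Fermat.Agent.S36.Lat3

/-!
# TRACK 10 (S36), package FIX-L-INST (helper1), part 6: THE FIVE valuation data over the inertia
field — prefix `S36FI_`

`A ⊂ ℚ̄` over `q`, `I = A.inertiaSubgroupIn ℚ`, `k` the residue field of `A`,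
`κ = modularFunctionFieldFullC k M ⊂ k((t))`,
`L = (S36FI_act (M q q) I).fixK`, `F₂,L = (S36FI_act (M q q) I).fixF`,
`F₁,L = (S36FI_act (M q) I).fixF` (an `L`-algebra by `S36CT_alg (M q q) (M q) I`).

* `S36FI_SFF`, `S36FI_SFV ζ`, `S36FI_SVV : S18_Val L F₂,L k κ` (global instance
  `S36FL_Act.algebraFix`);
* `S36FI_SF`, `S36FI_SV : S18_Val L F₁,L k κ` (instance `S36CT_alg (M q q) (M q) I`);
* all five have `A = S36FL_AL (S36FI_act (M q q) I) A` and `res = residue ∘ incl` (`rfl`);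
  `S36FI_same3 : S36L3_Same SFF SFV SVV`, `S36FI_same1 : S34P_Same SF SV`;
* `S36FI_SX_mem_O`, `S36FI_SX_red` : membership / reduction = Gauss ring / Gauss reduction.
-/

set_option autoImplicit false
set_option linter.unusedSectionVars false
set_option linter.unusedVariables false
set_option linter.style.haveILetI false
set_option synthInstance.maxHeartbeats 400000
set_option maxHeartbeats 1000000

open HahnSeries ModularCurve IntermediateField

noncomputable section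

namespace Fermat.Agent.S36

open Fermat.Agent.S18 Fermat.Agent.S24 Fermat.Agent.S34 Fermat.Agent.GalRep Fermat.Agent.S19

local notation "Ω" => AlgebraicClosure ℚ

/-! ### the self (same level) form of the Gauss datum, with the global algebra instance -/

section self

variable (N : ℕ) (H : Subgroup (Ω ≃ₐ[ℚ] Ω)) (A : ValuationSubring Ω)
  (φ : ↥(modularFunctionFieldBar N) →+* LaurentSeries Ω) (hrep : S36V_Rep A φ)
  (hφ : ∀ c : Ω, φ (algebraMap Ω ↥(modularFunctionFieldBar N) c) =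
    algebraMap Ω (LaurentSeries Ω) c)
  (κ : IntermediateField (IsLocalRing.ResidueField A) (LaurentSeries (IsLocalRing.ResidueField A)))
  (hH : ∀ y : IsLocalRing.ResidueField A, ∃ a : A, (∀ σ ∈ H, σ (a : Ω) = a) ∧
    IsLocalRing.residue A a = y)
  (hmemκ : ∀ (f : ↥(modularFunctionFieldBar N)) (hf : f ∈ S36V_G A φ),
    f ∈ (S36FI_act N H).fixF → S36V_Gred A φ ⟨f, hf⟩ ∈ κ)
  (hsurjκ : ∀ y ∈ κ, ∃ x : ↥(modularFunctionFieldBar N), x ∈ (S36FI_act N H).fixF ∧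
    ∃ hx : x ∈ S36V_G A φ, S36V_Gred A φ ⟨x, hx⟩ = y)

/-- the Gauss datum along `φ` over the fixed field, same level, global instance
`S36FL_Act.algebraFix`. -/
def S36FI_gaussSelf :
    S18_Val ↥(S36FI_act N H).fixK ↥(S36FI_act N H).fixF (IsLocalRing.ResidueField A) ↥κ :=
  S36FI_valX (S' := S36FI_act N H) (S := S36FI_act N H) (A := A)
    (res := IsLocalRing.residue A) (O := S36V_VS A φ hrep) (red := S36V_VSred A φ hrep)
    (incl := κ.val.toRingHom)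
    (fun _ => rfl)
    (fun y => by
      obtain ⟨a, ha, hay⟩ := hH y
      exact ⟨a, (S36FI_mem_fixK N H).mpr ha, hay⟩)
    (fun a => by
      rw [IsLocalRing.residue_eq_zero_iff, IsLocalRing.mem_maximalIdeal, mem_nonunits_iff])
    (fun x y h => Subtype.ext h)
    (fun x hx => ⟨⟨_, hmemκ x.1 x.2 hx⟩, rfl⟩)
    (fun y => by
      obtain ⟨x, hxf, hx, hxy⟩ := hsurjκ y.1 y.2
      exact ⟨⟨x, hx⟩, hxf, hxy⟩)
    (S36V_VSred_ne_zero_iff A φ hrep)
    (S36V_VS_algebraMap_mem_iff A φ hφ hrep)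
    (fun a ha haO => S36V_VSred_algebraMap A φ hφ hrep a ha haO)

theorem S36FI_gaussSelf_A :
    (S36FI_gaussSelf N H A φ hrep hφ κ hH hmemκ hsurjκ).A = S36FL_AL (S36FI_act N H) A := rfl

theorem S36FI_gaussSelf_O :
    (S36FI_gaussSelf N H A φ hrep hφ κ hH hmemκ hsurjκ).O =
      S36FL_OL (S36FI_act N H) (S36V_VS A φ hrep) := rfl

theorem S36FI_gaussSelf_mem_O {f : ↥(S36FI_act N H).fixF} :
    f ∈ (S36FI_gaussSelf N H A φ hrep hφ κ hH hmemκ hsurjκ).O ↔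
      (f : ↥(modularFunctionFieldBar N)) ∈ S36V_G A φ := Iff.rfl

theorem S36FI_gaussSelf_red (f : ↥(S36FI_act N H).fixF)
    (hf : f ∈ (S36FI_gaussSelf N H A φ hrep hφ κ hH hmemκ hsurjκ).O) :
    (((S36FI_gaussSelf N H A φ hrep hφ κ hH hmemκ hsurjκ).red ⟨f, hf⟩ : ↥κ) :
      LaurentSeries (IsLocalRing.ResidueField A)) =
      S36V_Gred A φ ⟨(f : ↥(modularFunctionFieldBar N)), hf⟩ :=
  S36FL_incl_redL (S := S36FI_act N H) (O := S36V_VS A φ hrep) (red := S36V_VSred A φ hrep)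
    (incl := κ.val.toRingHom) (fun x y h => Subtype.ext h)
    (fun x hx => ⟨⟨_, hmemκ x.1 x.2 hx⟩, rfl⟩) ⟨f, hf⟩

theorem S36FI_gaussSelf_same
    (φ₁ : ↥(modularFunctionFieldBar N) →+* LaurentSeries Ω) (hrep₁ : S36V_Rep A φ₁)
    (hφ₁ : ∀ c : Ω, φ₁ (algebraMap Ω ↥(modularFunctionFieldBar N) c) =
      algebraMap Ω (LaurentSeries Ω) c)
    (κ₁ : IntermediateField (IsLocalRing.ResidueField A)
      (LaurentSeries (IsLocalRing.ResidueField A)))
    (hmemκ₁ : ∀ (f : ↥(modularFunctionFieldBar N)) (hf : f ∈ S36V_G A φ₁),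
      f ∈ (S36FI_act N H).fixF → S36V_Gred A φ₁ ⟨f, hf⟩ ∈ κ₁)
    (hsurjκ₁ : ∀ y ∈ κ₁, ∃ x : ↥(modularFunctionFieldBar N), x ∈ (S36FI_act N H).fixF ∧
      ∃ hx : x ∈ S36V_G A φ₁, S36V_Gred A φ₁ ⟨x, hx⟩ = y) :
    S34P_Same (S36FI_gaussSelf N H A φ hrep hφ κ hH hmemκ hsurjκ)
      (S36FI_gaussSelf N H A φ₁ hrep₁ hφ₁ κ₁ hH hmemκ₁ hsurjκ₁) :=
  S36FI_valX_same _ _ _ _ _ _ _ _ _ _ _ _ _ _ _

end self

/-! ### the five -/

section five

variable (M q : ℕ) [NeZero M] [NeZero q] (hq : q.Prime) (hqM : ¬ q ∣ M)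
  (A : ValuationSubring Ω) (hA : A.LiesOverPrime q)
  (ζ : Ωˣ) (hζ : ζ ^ q = 1) (hζ1 : ζ ≠ 1)

include hq hA in
/-- BASE-L (3): residue classes have inertia-fixed lifts. -/
theorem S36FI_hH (y : IsLocalRing.ResidueField A) :
    ∃ a : A, (∀ σ ∈ A.inertiaSubgroupIn ℚ, σ (a : Ω) = a) ∧ IsLocalRing.residue A a = y := by
  haveI : Algebra.IsAlgebraic ℚ Ω := AlgebraicClosure.isAlgebraic ℚ
  obtain ⟨a, h1, h2⟩ := S19TE_exists_lift A hq hA y
  exact ⟨a, h2, h1⟩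

/-- the residue field `κ = F̄_M`. -/
abbrev S36FI_kappa : IntermediateField (IsLocalRing.ResidueField A)
    (LaurentSeries (IsLocalRing.ResidueField A)) :=
  modularFunctionFieldFullC (IsLocalRing.ResidueField A) M

/-- **the valuation datum `FF` over the inertia field.** -/
def S36FI_SFF : S18_Val ↥(S36FI_act (M * q * q) (A.inertiaSubgroupIn ℚ)).fixK
    ↥(S36FI_act (M * q * q) (A.inertiaSubgroupIn ℚ)).fixF (IsLocalRing.ResidueField A)
    ↥(S36FI_kappa M A) :=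
  S36FI_gaussSelf (M * q * q) (A.inertiaSubgroupIn ℚ) A (S36V_emFF M q)
    (S36V_rep_emFF M q hq A hA) (S36V_emFF_const M q) (S36FI_kappa M A)
    (S36FI_hH q hq A hA)
    (fun f hf _ => S36VR_FF_mem M q hq hqM A hA f hf)
    (fun y hy => S36VR_FF_surj M q A (A.inertiaSubgroupIn ℚ) (S36FI_hH q hq A hA) y hy)

/-- **the valuation datum `FV` over the inertia field.** -/
def S36FI_SFV : S18_Val ↥(S36FI_act (M * q * q) (A.inertiaSubgroupIn ℚ)).fixK
    ↥(S36FI_act (M * q * q) (A.inertiaSubgroupIn ℚ)).fixF (IsLocalRing.ResidueField A)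
    ↥(S36FI_kappa M A) :=
  S36FI_gaussSelf (M * q * q) (A.inertiaSubgroupIn ℚ) A (S36V_emFV M q hq hqM ζ hζ hζ1)
    (S36V_rep_emFV M q hq hqM A hA ζ hζ hζ1) (S36V_emFV_const M q hq hqM ζ hζ hζ1)
    (S36FI_kappa M A) (S36FI_hH q hq A hA)
    (fun f hf hfix => S36VQ_FV_mem M q hq hqM A hA ζ hζ hζ1 f
      ((S36FI_mem_fixF (M * q * q) (A.inertiaSubgroupIn ℚ)).mp hfix) hf)
    (fun y hy => S36VR_FV_surj M q hq hqM A (A.inertiaSubgroupIn ℚ) (S36FI_hH q hq A hA)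
      ζ hζ hζ1 y hy)

/-- **the valuation datum `VV` over the inertia field.** -/
def S36FI_SVV : S18_Val ↥(S36FI_act (M * q * q) (A.inertiaSubgroupIn ℚ)).fixK
    ↥(S36FI_act (M * q * q) (A.inertiaSubgroupIn ℚ)).fixF (IsLocalRing.ResidueField A)
    ↥(S36FI_kappa M A) :=
  S36FI_gaussSelf (M * q * q) (A.inertiaSubgroupIn ℚ) A (S36V_emVV M q hq hqM)
    (S36V_rep_emVV M q hq hqM A hA) (S36V_emVV_const M q hq hqM) (S36FI_kappa M A)
    (S36FI_hH q hq A hA)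
    (fun f hf _ => S36VR_VV_mem M q hq hqM A hA f hf)
    (fun y hy => S36VR_VV_surj M q hq hqM A (A.inertiaSubgroupIn ℚ) (S36FI_hH q hq A hA) y hy)

/-- **the valuation datum `F` (level `M q`) over the inertia field** (base field written at
level `M q q`). -/
def S36FI_SF : @S18_Val ↥(S36FI_act (M * q * q) (A.inertiaSubgroupIn ℚ)).fixK
    ↥(S36FI_act (M * q) (A.inertiaSubgroupIn ℚ)).fixF (IsLocalRing.ResidueField A)
    ↥(S36FI_kappa M A) _ _ (S36CT_alg (M * q * q) (M * q) (A.inertiaSubgroupIn ℚ)) _ _ _ :=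
  S36FI_gauss (M * q * q) (M * q) (A.inertiaSubgroupIn ℚ) A (S36V_emF M q)
    (S36V_rep_emF M q hq A hA) (S36V_emF_const M q) (S36FI_kappa M A)
    (S36FI_hH q hq A hA)
    (fun f hf _ => S36V_F_mem M q hq hqM A hA f hf)
    (fun y hy => S36VR_F_surj M q A (A.inertiaSubgroupIn ℚ) (S36FI_hH q hq A hA) y hy)

/-- **the valuation datum `V` (level `M q`) over the inertia field.** -/
def S36FI_SV : @S18_Val ↥(S36FI_act (M * q * q) (A.inertiaSubgroupIn ℚ)).fixK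
    ↥(S36FI_act (M * q) (A.inertiaSubgroupIn ℚ)).fixF (IsLocalRing.ResidueField A)
    ↥(S36FI_kappa M A) _ _ (S36CT_alg (M * q * q) (M * q) (A.inertiaSubgroupIn ℚ)) _ _ _ :=
  S36FI_gauss (M * q * q) (M * q) (A.inertiaSubgroupIn ℚ) A (S36V_emV M q hq hqM)
    (S36V_rep_emV M q hq hqM A hA) (S36V_emV_const M q hq hqM) (S36FI_kappa M A)
    (S36FI_hH q hq A hA)
    (fun f hf _ => S36V_V_mem M q hq hqM A hA f hf)
    (fun y hy => S36VR_V_surj M q hq hqM A (A.inertiaSubgroupIn ℚ) (S36FI_hH q hq A hA) y hy)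

/-! ### the rings of integers -/

theorem S36FI_SFF_O : (S36FI_SFF M q hq hqM A hA).O =
    S36FL_OL (S36FI_act (M * q * q) (A.inertiaSubgroupIn ℚ)) (S36V_OFF M q hq A hA) := rfl

theorem S36FI_SFV_O : (S36FI_SFV M q hq hqM A hA ζ hζ hζ1).O =
    S36FL_OL (S36FI_act (M * q * q) (A.inertiaSubgroupIn ℚ))
      (S36V_OFV M q hq hqM A hA ζ hζ hζ1) := rfl

theorem S36FI_SVV_O : (S36FI_SVV M q hq hqM A hA).O =
    S36FL_OL (S36FI_act (M * q * q) (A.inertiaSubgroupIn ℚ)) (S36V_OVV M q hq hqM A hA) := rfl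

theorem S36FI_SFF_mem_O {f : ↥(S36FI_act (M * q * q) (A.inertiaSubgroupIn ℚ)).fixF} :
    f ∈ (S36FI_SFF M q hq hqM A hA).O ↔
      (f : ↥(modularFunctionFieldBar (M * q * q))) ∈ S36V_G A (S36V_emFF M q) := Iff.rfl

theorem S36FI_SFV_mem_O {f : ↥(S36FI_act (M * q * q) (A.inertiaSubgroupIn ℚ)).fixF} :
    f ∈ (S36FI_SFV M q hq hqM A hA ζ hζ hζ1).O ↔
      (f : ↥(modularFunctionFieldBar (M * q * q))) ∈
        S36V_G A (S36V_emFV M q hq hqM ζ hζ hζ1) := Iff.rfl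

theorem S36FI_SVV_mem_O {f : ↥(S36FI_act (M * q * q) (A.inertiaSubgroupIn ℚ)).fixF} :
    f ∈ (S36FI_SVV M q hq hqM A hA).O ↔
      (f : ↥(modularFunctionFieldBar (M * q * q))) ∈ S36V_G A (S36V_emVV M q hq hqM) := Iff.rfl

theorem S36FI_SF_mem_O {f : ↥(S36FI_act (M * q) (A.inertiaSubgroupIn ℚ)).fixF} :
    letI := S36CT_alg (M * q * q) (M * q) (A.inertiaSubgroupIn ℚ)
    f ∈ (S36FI_SF M q hq hqM A hA).O ↔
      (f : ↥(modularFunctionFieldBar (M * q))) ∈ S36V_G A (S36V_emF M q) := Iff.rfl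

theorem S36FI_SV_mem_O {f : ↥(S36FI_act (M * q) (A.inertiaSubgroupIn ℚ)).fixF} :
    letI := S36CT_alg (M * q * q) (M * q) (A.inertiaSubgroupIn ℚ)
    f ∈ (S36FI_SV M q hq hqM A hA).O ↔
      (f : ↥(modularFunctionFieldBar (M * q))) ∈ S36V_G A (S36V_emV M q hq hqM) := Iff.rfl

/-! ### the reductions -/

theorem S36FI_SFF_red (f : ↥(S36FI_act (M * q * q) (A.inertiaSubgroupIn ℚ)).fixF)
    (hf : f ∈ (S36FI_SFF M q hq hqM A hA).O) :
    ((((S36FI_SFF M q hq hqM A hA).red ⟨f, hf⟩ : ↥(S36FI_kappa M A)) :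
      LaurentSeries (IsLocalRing.ResidueField A))) =
      S36V_Gred A (S36V_emFF M q) ⟨(f : ↥(modularFunctionFieldBar (M * q * q))), hf⟩ :=
  S36FI_gaussSelf_red _ _ _ _ _ _ _ _ _ _ f hf

theorem S36FI_SFV_red (f : ↥(S36FI_act (M * q * q) (A.inertiaSubgroupIn ℚ)).fixF)
    (hf : f ∈ (S36FI_SFV M q hq hqM A hA ζ hζ hζ1).O) :
    ((((S36FI_SFV M q hq hqM A hA ζ hζ hζ1).red ⟨f, hf⟩ : ↥(S36FI_kappa M A)) :
      LaurentSeries (IsLocalRing.ResidueField A))) =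
      S36V_Gred A (S36V_emFV M q hq hqM ζ hζ hζ1)
        ⟨(f : ↥(modularFunctionFieldBar (M * q * q))), hf⟩ :=
  S36FI_gaussSelf_red _ _ _ _ _ _ _ _ _ _ f hf

theorem S36FI_SVV_red (f : ↥(S36FI_act (M * q * q) (A.inertiaSubgroupIn ℚ)).fixF)
    (hf : f ∈ (S36FI_SVV M q hq hqM A hA).O) :
    ((((S36FI_SVV M q hq hqM A hA).red ⟨f, hf⟩ : ↥(S36FI_kappa M A)) :
      LaurentSeries (IsLocalRing.ResidueField A))) =
      S36V_Gred A (S36V_emVV M q hq hqM) ⟨(f : ↥(modularFunctionFieldBar (M * q * q))), hf⟩ :=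
  S36FI_gaussSelf_red _ _ _ _ _ _ _ _ _ _ f hf

theorem S36FI_SF_red (f : ↥(S36FI_act (M * q) (A.inertiaSubgroupIn ℚ)).fixF)
    (hf : letI := S36CT_alg (M * q * q) (M * q) (A.inertiaSubgroupIn ℚ)
      f ∈ (S36FI_SF M q hq hqM A hA).O) :
    letI := S36CT_alg (M * q * q) (M * q) (A.inertiaSubgroupIn ℚ)
    ((((S36FI_SF M q hq hqM A hA).red ⟨f, hf⟩ : ↥(S36FI_kappa M A)) :
      LaurentSeries (IsLocalRing.ResidueField A))) =
      S36V_Gred A (S36V_emF M q) ⟨(f : ↥(modularFunctionFieldBar (M * q))), hf⟩ :=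
  S36FI_gauss_red _ _ _ _ _ _ _ _ _ _ _ f hf

theorem S36FI_SV_red (f : ↥(S36FI_act (M * q) (A.inertiaSubgroupIn ℚ)).fixF)
    (hf : letI := S36CT_alg (M * q * q) (M * q) (A.inertiaSubgroupIn ℚ)
      f ∈ (S36FI_SV M q hq hqM A hA).O) :
    letI := S36CT_alg (M * q * q) (M * q) (A.inertiaSubgroupIn ℚ)
    ((((S36FI_SV M q hq hqM A hA).red ⟨f, hf⟩ : ↥(S36FI_kappa M A)) :
      LaurentSeries (IsLocalRing.ResidueField A))) =
      S36V_Gred A (S36V_emV M q hq hqM) ⟨(f : ↥(modularFunctionFieldBar (M * q))), hf⟩ :=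
  S36FI_gauss_red _ _ _ _ _ _ _ _ _ _ _ f hf

/-! ### same base -/

/-- **`S36L3_Same`** for `FF`, `FV`, `VV`. -/
theorem S36FI_same3 :
    S36L3_Same (S36FI_SFF M q hq hqM A hA) (S36FI_SFV M q hq hqM A hA ζ hζ hζ1)
      (S36FI_SVV M q hq hqM A hA) :=
  ⟨S36FI_gaussSelf_same _ _ _ _ _ _ _ _ _ _ _ _ _ _ _ _,
    S36FI_gaussSelf_same _ _ _ _ _ _ _ _ _ _ _ _ _ _ _ _⟩

/-- **`S34P_Same`** for `F`, `V`. -/
theorem S36FI_same1 :
    letI := S36CT_alg (M * q * q) (M * q) (A.inertiaSubgroupIn ℚ)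
    S34P_Same (S36FI_SF M q hq hqM A hA) (S36FI_SV M q hq hqM A hA) :=
  S36FI_gauss_same _ _ _ _ _ _ _ _ _ _ _ _ _ _ _ _ _

/-- the base valuation ring and residue map of all five are the same (`rfl`). -/
theorem S36FI_SFF_A : (S36FI_SFF M q hq hqM A hA).A =
    S36FL_AL (S36FI_act (M * q * q) (A.inertiaSubgroupIn ℚ)) A := rfl

theorem S36FI_SF_A :
    letI := S36CT_alg (M * q * q) (M * q) (A.inertiaSubgroupIn ℚ)
    (S36FI_SF M q hq hqM A hA).A =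
      S36FL_AL (S36FI_act (M * q * q) (A.inertiaSubgroupIn ℚ)) A := rfl

theorem S36FI_SFF_res (a : S36FL_AL (S36FI_act (M * q * q) (A.inertiaSubgroupIn ℚ)) A) :
    (S36FI_SFF M q hq hqM A hA).res a =
      IsLocalRing.residue A (S36FL_ALincl (S36FI_act (M * q * q) (A.inertiaSubgroupIn ℚ)) A a) :=
  rfl

theorem S36FI_SF_res (a : S36FL_AL (S36FI_act (M * q * q) (A.inertiaSubgroupIn ℚ)) A) :
    letI := S36CT_alg (M * q * q) (M * q) (A.inertiaSubgroupIn ℚ)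
    (S36FI_SF M q hq hqM A hA).res a =
      IsLocalRing.residue A (S36FL_ALincl (S36FI_act (M * q * q) (A.inertiaSubgroupIn ℚ)) A a) :=
  rfl

end five

end Fermat.Agent.S36
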