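import Fermat.Agent.S36.Fin3Inst
import Fermat.Agent.S18.SemiReg

/-!
# TRACK 10 (S36), package F1 = FIN-INST (helper7), part 4: the chart coordinate `x = B` (resp. `A`)
of level `q² M`: transcendence, finiteness of `F_{N₂} / ℚ̄(x)`, and `hA` from regularity

* `S36FD_transcendental`, `S36FD_finiteDimensional` (abstract: transport along `β : F₁ → F₂`);
* `S36FD_transc_B`, `S36FD_fd_B` (and `_A`): the instances for `B = β j`, `A = α j`;
* `S36FD_hA_reg` : `hA` of `S36FB_htr` with the integrality hypothesis replaced by regularity on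
  `U = {P | 0 ≤ P.ord x}`.
-/

set_option autoImplicit false
set_option synthInstance.maxHeartbeats 400000
set_option maxHeartbeats 1000000
set_option linter.style.haveILetI false
set_option linter.unusedSectionVars false

open HahnSeries IntermediateField AlgebraicCurve ModularCurve

noncomputable section

namespace Fermat.Agent.S36

open Fermat.Agent.S18 Fermat.Agent.S24 Fermat.Agent.S34 Fermat.Agent.S35 Fermat.Agent.S37
  Fermat.Agent.GalRep Fermat.Agent.Lib

section abs

variable {E F₁ F₂ : Type*} [Field E] [Field F₁] [Field F₂] [Algebra E F₁] [Algebra E F₂]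

theorem S36FD_transcendental (β : F₁ →ₐ[E] F₂) {j : F₁} (hj : Transcendental E j) :
    Transcendental E (β j) := fun h =>
  hj ((isAlgebraic_algHom_iff β β.toRingHom.injective).1 h)

/-- `F₂ / E(β j)` is finite if `F₁ / E(j)` and `F₂ / β F₁` are. -/
theorem S36FD_finiteDimensional (β : F₁ →ₐ[E] F₂) (j : F₁) [FiniteDimensional E⟮j⟯ F₁]
    (hfin : @FiniteDimensional F₁ F₂ _ _ β.toRingHom.toAlgebra.toModule) :
    FiniteDimensional E⟮β j⟯ F₂ := by
  letI : Algebra F₁ F₂ := β.toRingHom.toAlgebra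
  haveI : FiniteDimensional F₁ F₂ := hfin
  haveI : FiniteDimensional E⟮j⟯ F₂ := Module.Finite.trans F₁ F₂
  have he : RingHom.comp (algebraMap E⟮β j⟯ F₂) ((S36FJ_e β j).toRingEquiv : E⟮j⟯ →+* E⟮β j⟯) =
      RingHom.comp ((RingEquiv.refl F₂ : F₂ ≃+* F₂) : F₂ →+* F₂) (algebraMap E⟮j⟯ F₂) := by
    ext a
    rfl
  exact Module.Finite.of_equiv_equiv (S36FJ_e β j).toRingEquiv (RingEquiv.refl F₂) he

end abs

local notation "ℚbar" => AlgebraicClosure ℚ

variable (M q : ℕ) [NeZero M] [NeZero q] (hq : q.Prime) (hqM : ¬ q ∣ M)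
  (A : ValuationSubring ℚbar) (hA : A.LiesOverPrime q)

theorem S36FD_transc_B :
    Transcendental ℚbar (heckeBetaBar ℚbar (M * q) q (jB (M * q))) :=
  S36FD_transcendental _ (transcendental_jB (M * q))

theorem S36FD_transc_A :
    Transcendental ℚbar (heckeAlphaBar ℚbar (M * q) q (jB (M * q))) :=
  S36FD_transcendental _ (transcendental_jB (M * q))

include hq in
theorem S36FD_fd_B :
    FiniteDimensional ℚbar⟮heckeBetaBar ℚbar (M * q) q (jB (M * q))⟯
      ↥(modularFunctionFieldBar (M * q * q)) :=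
  haveI := finiteDimensional_jB (M * q)
  S36FD_finiteDimensional (heckeBetaBar ℚbar (M * q) q) (jB (M * q)) (GRHK_finiteDimensional hq)

include hq in
theorem S36FD_fd_A :
    FiniteDimensional ℚbar⟮heckeAlphaBar ℚbar (M * q) q (jB (M * q))⟯
      ↥(modularFunctionFieldBar (M * q * q)) :=
  haveI := finiteDimensional_jB (M * q)
  S36FD_finiteDimensional (heckeAlphaBar ℚbar (M * q) q) (jB (M * q))
    (S36B_finiteDimensional_alpha hq (Dvd.intro_left M rfl))

include hA in
/-- **`hA` from regularity (chart `x = B`)**: `m` integral for `FF`, all `FV_ζ`, `VV` and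
regular at every place where `B` is regular ⇒ `Tr_{F_{N₂}/ℚ̄(B)} m ∈ A[B]`. -/
theorem S36FD_hA_reg {m : ↥(modularFunctionFieldBar (M * q * q))}
    (h0 : m ∈ S36V_G A (S36V_emFF M q))
    (hζ : ∀ ζ : S36NR_Z q, m ∈ S36V_G A (S36V_emFV M q hq hqM ζ.1 ζ.2.1 ζ.2.2))
    (h2 : m ∈ S36V_G A (S36V_emVV M q hq hqM))
    (hreg : ∀ P : Place ℚbar ↥(modularFunctionFieldBar (M * q * q)),
      0 ≤ P.ord (heckeBetaBar ℚbar (M * q) q (jB (M * q))) → 0 ≤ P.ord m) :
    ((Algebra.trace ℚbar⟮heckeBetaBar ℚbar (M * q) q (jB (M * q))⟯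
        ↥(modularFunctionFieldBar (M * q * q)) m :
          ℚbar⟮heckeBetaBar ℚbar (M * q) q (jB (M * q))⟯) :
        ↥(modularFunctionFieldBar (M * q * q))) ∈
      Algebra.adjoin A {heckeBetaBar ℚbar (M * q) q (jB (M * q))} := by
  haveI := S36FD_fd_B M q hq
  exact S36FJ_hA M q hq hqM A hA h0 hζ h2
    (S18_semi_isIntegral_of_regular (S36FD_transc_B M q) m hreg)

include hA in
/-- **`hA` from regularity (chart `x = A`).** -/
theorem S36FD_hA_reg_alpha {m : ↥(modularFunctionFieldBar (M * q * q))}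
    (h0 : m ∈ S36V_G A (S36V_emFF M q))
    (hζ : ∀ ζ : S36NR_Z q, m ∈ S36V_G A (S36V_emFV M q hq hqM ζ.1 ζ.2.1 ζ.2.2))
    (h2 : m ∈ S36V_G A (S36V_emVV M q hq hqM))
    (hreg : ∀ P : Place ℚbar ↥(modularFunctionFieldBar (M * q * q)),
      0 ≤ P.ord (heckeAlphaBar ℚbar (M * q) q (jB (M * q))) → 0 ≤ P.ord m) :
    ((Algebra.trace ℚbar⟮heckeAlphaBar ℚbar (M * q) q (jB (M * q))⟯
        ↥(modularFunctionFieldBar (M * q * q)) m :
          ℚbar⟮heckeAlphaBar ℚbar (M * q) q (jB (M * q))⟯) :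
        ↥(modularFunctionFieldBar (M * q * q))) ∈
      Algebra.adjoin A {heckeAlphaBar ℚbar (M * q) q (jB (M * q))} := by
  haveI := S36FD_fd_A M q hq
  exact S36FJ_hA_alpha M q hq hqM A hA h0 hζ h2
    (S18_semi_isIntegral_of_regular (S36FD_transc_A M q) m hreg)

end Fermat.Agent.S36
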