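import Fermat.Agent.S36.LiFrac
import Fermat.Agent.S36.Int3Three
import Fermat.Agent.S36.Fin3Fd
import Fermat.Agent.S36.FrobRat
import Fermat.Agent.S36.Val3DvInst
import Fermat.Agent.S34.InjConc

/-!
# TRACK 10 (S36), instantiation `hfrac-INST` (helper8): the lattice `Λ_U` of helper17's concrete
family `S36IT_fam3` has the whole field `F₂,L` as its fraction field.  Prefix `S36FQ_`.

`hfrac : ∀ x : F₂,L, ∃ b ∈ Λ_U, b ≠ 0 ∧ b · x ∈ Λ_U` is an input of `S36LK_point_j`, `S36LK_li`,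
`S36LK_max_j` (helper19, `S36/LiWire.lean`).

Method (no scaling of numerators and denominators is needed): `Λ_U` is an intersection of
valuation rings, hence integrally closed (`S36LQ_hfrac_fam`, helper19); so it is enough that
`F₂,L` is ALGEBRAIC over `Λ_U`.  Now `F₂ / ℚ̄(B)` is finite (`S36FD_fd_B`, helper7), `ℚ̄ / ℤ` is
algebraic, so `F₂` is algebraic over any subring containing a coordinate `t` with `B ∈ ℚ̄(t)`:
`t = B` on the chart `U = {B ≠ ∞}`, `t = (B − c)⁻¹` on the chart `U′ = {B ≠ c}` (`c ∈ A ∩ L`).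

* `S36FQ_alg` : the abstract algebraicity statement;
* `S36FQ_hfrac_abs` : `hfrac` for any family `D : S36IT_Fam` with a coordinate `t ∈ D.Λ`;
* `S36FQ_B_FF`, `_FV`, `_VV`, `S36FQ_B_fixed` : `B = j(q z)` is Gauss-integral and Galois-fixed;
* `S36FQ_Bc_unit` : `B − c` is a unit of the three Gauss rings (`c ∈ A`);
* `S36FQ_B_mem_Λ`, `S36FQ_Bc_inv_mem_Λ` : `B ∈ Λ_U` (`U ⊆ {B ≠ ∞}`), `(B − c)⁻¹ ∈ Λ_U`
  (`U ⊆ {B ≠ c}`);
* `S36FQ_hfrac_of` : `hfrac` for `S36IT_fam3` on any chart with a coordinate;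
* **`S36FQ_hfrac_U`**, **`S36FQ_hfrac_U'`** : `hfrac` on the charts `U`, `U′`.
-/

set_option autoImplicit false
set_option synthInstance.maxHeartbeats 400000
set_option maxHeartbeats 1000000
set_option linter.style.haveILetI false
set_option linter.unusedSectionVars false
set_option linter.unusedVariables false

open IntermediateField AlgebraicCurve ModularCurve

noncomputable section

namespace Fermat.Agent.S36

open Fermat.Agent.S18 Fermat.Agent.S24 Fermat.Agent.S34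

/-! ### the abstract statement -/

section abs

variable {Ω F K : Type*} [Field Ω] [Field F] [Algebra Ω F] [Field K] [CharZero K]

/-- **algebraicity over a subring containing a coordinate**: if the constants `Ω` are algebraic
over `ℤ`, `t ∈ R ⊂ K`, `s ∈ Ω(φ t)` and `F` is algebraic over `Ω(s)`, then every element of `K`
is algebraic over `R`. -/
theorem S36FQ_alg (hΩ : ∀ c : Ω, IsAlgebraic ℤ c) (φ : K →+* F) (R : Subring K) (t : K)
    (ht : t ∈ R) (s : F) (hs : s ∈ Ω⟮φ t⟯) (halg : ∀ f : F, IsAlgebraic Ω⟮s⟯ f) :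
    ∀ x : K, IsAlgebraic R x := by
  letI : Algebra K F := φ.toAlgebra
  letI : Algebra ↥R F := (φ.comp R.subtype).toAlgebra
  haveI : IsScalarTower ↥R K F := IsScalarTower.of_algebraMap_eq fun _ => rfl
  have hinjZ : Function.Injective (algebraMap ℤ ↥R) := by
    intro a b hab
    have h1 : ((algebraMap ℤ ↥R a : ↥R) : K) = ((algebraMap ℤ ↥R b : ↥R) : K) := by rw [hab]
    simpa using h1
  -- constants
  have hc : ∀ c : Ω, IsAlgebraic ↥R (algebraMap Ω F c) := fun c =>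
    ((hΩ c).algebraMap (A := F)).extendScalars hinjZ
  -- the coordinate
  have ht' : IsAlgebraic ↥R (φ t) := isAlgebraic_algebraMap (⟨t, ht⟩ : ↥R)
  -- the field `Ω(φ t)`
  have hE : ∀ e ∈ Ω⟮φ t⟯, IsAlgebraic ↥R e := by
    intro e he
    induction he using IntermediateField.adjoin_induction with
    | mem x hx =>
      rw [Set.mem_singleton_iff] at hx
      rw [hx]
      exact ht'
    | algebraMap c => exact hc c
    | add x y _ _ hx hy => exact hx.add hy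
    | inv x _ hx => exact hx.inv
    | mul x y _ _ hx hy => exact hx.mul hy
  have hle : Ω⟮s⟯ ≤ Ω⟮φ t⟯ := by
    rw [IntermediateField.adjoin_simple_le_iff]
    exact hs
  intro x
  rw [← isAlgebraic_algebraMap_iff (A := F) φ.injective]
  have hf := halg (φ x)
  let ι : ↥Ω⟮s⟯ →+* ↥(Subalgebra.algebraicClosure ↥R F) :=
    { toFun := fun e => ⟨(e : F), hE _ (hle e.2)⟩
      map_one' := rfl
      map_mul' := fun _ _ => rfl
      map_zero' := rfl
      map_add' := fun _ _ => rfl }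
  letI : Algebra ↥Ω⟮s⟯ ↥(Subalgebra.algebraicClosure ↥R F) := ι.toAlgebra
  haveI : IsScalarTower ↥Ω⟮s⟯ ↥(Subalgebra.algebraicClosure ↥R F) F :=
    IsScalarTower.of_algebraMap_eq fun _ => rfl
  have h2 : IsAlgebraic ↥(Subalgebra.algebraicClosure ↥R F) (φ x) :=
    hf.extendScalars ι.injective
  exact h2.restrictScalars ↥R

/-- **`hfrac` for a family with a coordinate in the lattice.** -/
theorem S36FQ_hfrac_abs {ιv : Type*} (D : S36IT_Fam Ω F K ιv) (hΩ : ∀ c : Ω, IsAlgebraic ℤ c)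
    (t : K) (ht : t ∈ D.Λ) (s : F) (hs : s ∈ Ω⟮D.φ t⟯) (halg : ∀ f : F, IsAlgebraic Ω⟮s⟯ f) :
    ∀ x : K, ∃ b : D.Λ, (b : K) ≠ 0 ∧ (b : K) * x ∈ D.Λ :=
  D.S36LQ_hfrac_fam D.Λ (fun _ hr => hr) (S36FQ_alg hΩ D.φ D.Λ t ht s hs halg)

end abs

/-! ### the coordinate `B` -/

local notation "Ω" => AlgebraicClosure ℚ

/-- the constants `ℚ̄` are algebraic over `ℤ`. -/
theorem S36FQ_alg_int (c : Ω) : IsAlgebraic ℤ c :=
  (IsFractionRing.isAlgebraic_iff ℤ ℚ Ω).2 ((AlgebraicClosure.isAlgebraic ℚ).isAlgebraic c)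

section coord

variable (M q : ℕ) [NeZero M] [NeZero q] (hq : q.Prime) (hqM : ¬ q ∣ M)
  (A : ValuationSubring Ω)
  (ζ : Ωˣ) (hζ : ζ ^ q = 1) (hζ1 : ζ ≠ 1)

/-- `B = β (j) = δ_B^* j`. -/
theorem S36FQ_B_eq :
    heckeBetaBar Ω (M * q) q (jB (M * q)) = S36FR_dB M q (jB M) := by
  rw [S36FR_dB_eq]
  have h1 : heckeAlphaBar Ω M q (jB M) = jB (M * q) := Subtype.ext rfl
  rw [h1]

/-- `j` has integral expansion. -/
theorem S36FQ_jB_mem : jB M ∈ S36V_G A (S36OQ_coe0 M) :=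
  S36V_G_of_int A (S36OQ_coe0 M) (s := jqModC A) (S36VDV_jB_coe M A)

theorem S36FQ_B_FF : heckeBetaBar Ω (M * q) q (jB (M * q)) ∈ S36V_G A (S36V_emFF M q) := by
  rw [S36FQ_B_eq]
  exact S36FR_dB_FF M q A (S36FQ_jB_mem M A)

theorem S36FQ_B_FV :
    heckeBetaBar Ω (M * q) q (jB (M * q)) ∈ S36V_G A (S36V_emFV M q hq hqM ζ hζ hζ1) := by
  rw [S36FQ_B_eq]
  exact S36FR_dB_FV M q hq hqM A ζ hζ hζ1 (S36FQ_jB_mem M A)

theorem S36FQ_B_VV :
    heckeBetaBar Ω (M * q) q (jB (M * q)) ∈ S36V_G A (S36V_emVV M q hq hqM) := by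
  rw [S36FQ_B_eq]
  exact S36FR_dB_VV M q hq hqM A (S36FQ_jB_mem M A)

/-- `B` is fixed by the Galois group. -/
theorem S36FQ_B_fixed (H : Subgroup (Ω ≃ₐ[ℚ] Ω)) :
    heckeBetaBar Ω (M * q) q (jB (M * q)) ∈ (S36FI_act (M * q * q) H).fixF := by
  have hx : jB (M * q) ∈ (S36FI_act (M * q) H).fixF :=
    (S36FI_mem_fixF (M * q) H).2 fun σ _ => S36FI_jBar_fixed (M * q) σ 1 (one_dvd _)
  rw [S36FI_mem_fixF_iff_coeff] at hx ⊢
  intro k
  rw [S36FI_mem_fixK]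
  intro σ hσ
  rw [coe_heckeBetaBar]
  by_cases hk : (q : ℤ) ∣ k
  · obtain ⟨m, rfl⟩ := hk
    rw [qExpand_coeff_mul]
    exact (S36FI_mem_fixK (M * q) H).mp (hx m) σ hσ
  · rw [qExpand_coeff_of_not_dvd q _ hk, map_zero]

/-- the three expansions of `B` are `j(t^q)`. -/
theorem S36FQ_B_series {F : Type*} [Field F] (φ : F →+* LaurentSeries Ω) {b : F}
    (hb : φ b = qExpand Ω q (S36OQ_coe0 M (jB M))) :
    φ b = S18_ι A (qExpand A q (jqModC A)) := by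
  rw [hb, S36OQ_coe0_apply, S36VDV_jB_coe M A]
  exact (S36OQ_coeffMap_qExpand A.subtype q (jqModC A)).symm

/-- an element with expansion `j(t^q)` minus an integral constant is a Gauss unit. -/
theorem S36FQ_unit_of_series {F : Type*} [Field F] [Algebra Ω F] (φ : F →+* LaurentSeries Ω)
    (hφ : ∀ c : Ω, φ (algebraMap Ω F c) = HahnSeries.C c) {b : F}
    (hb : φ b = S18_ι A (qExpand A q (jqModC A))) {c : Ω} (hc : c ∈ A) :
    S36VDV_UG A φ (b - algebraMap Ω F c) := by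
  have hρ : S18_ρ A (qExpand A q (jqModC A) - HahnSeries.C (⟨c, hc⟩ : A)) ≠ 0 := by
    intro h0
    have h1 := congrArg (fun z : LaurentSeries (IsLocalRing.ResidueField A) =>
      z.coeff ((q : ℤ) * (-1))) h0
    simp only [map_sub, HahnSeries.coeff_sub, HahnSeries.coeff_zero] at h1
    rw [coeffMap_coeff, qExpand_coeff_mul, ModularCurve.coeff_jqModC_neg_one, map_one,
      S36OQ_coeffMap_C, HahnSeries.C_apply, HahnSeries.coeff_single_of_ne (by
        intro h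
        have : (q : ℤ) * (-1) = 0 := h
        simp at this
        exact NeZero.ne q this), sub_zero] at h1
    exact one_ne_zero h1
  refine S36VDV_UG_of_rep A φ (c := 1) (map_one _) hρ (s₂ := 1)
    (by rw [map_one]; exact one_ne_zero) ?_
  rw [map_sub, hφ, hb, map_one, mul_one, map_one, one_mul, map_sub, S36OQ_coeffMap_C]
  rfl

end coord

/-! ### the concrete family -/

section fam

variable (M q : ℕ) [NeZero M] [NeZero q] (hq : q.Prime) (hqM : ¬ q ∣ M)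
  (A : ValuationSubring Ω) (hA : A.LiesOverPrime q)
  (ζ : Ωˣ) (hζ : ζ ^ q = 1) (hζ1 : ζ ≠ 1)
  (dvr : ∀ i, IsDiscreteValuationRing
      (S36FL_OL (S36FI_act (M * q * q) (A.inertiaSubgroupIn ℚ))
        (S36IT_Ov3 M q hq hqM A hA ζ hζ hζ1 i)))
  (U : Set (Place Ω ↥(modularFunctionFieldBar (M * q * q))))

/-- the coordinate `B` as an element of the fixed field. -/
def S36FQ_BL (H : Subgroup (Ω ≃ₐ[ℚ] Ω)) : ↥(S36FI_act (M * q * q) H).fixF :=
  ⟨heckeBetaBar Ω (M * q) q (jB (M * q)), S36FQ_B_fixed M q H⟩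

@[simp] theorem S36FQ_BL_coe (H : Subgroup (Ω ≃ₐ[ℚ] Ω)) :
    ((S36FQ_BL M q H : ↥(S36FI_act (M * q * q) H).fixF) : ↥(modularFunctionFieldBar (M * q * q))) =
      heckeBetaBar Ω (M * q) q (jB (M * q)) := rfl

/-- the coordinate `(B − c)⁻¹` of the chart `U′` as an element of the fixed field. -/
def S36FQ_tL (H : Subgroup (Ω ≃ₐ[ℚ] Ω)) (c : (S36FI_act (M * q * q) H).fixK) :
    ↥(S36FI_act (M * q * q) H).fixF :=
  ⟨(heckeBetaBar Ω (M * q) q (jB (M * q)) -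
      algebraMap Ω ↥(modularFunctionFieldBar (M * q * q)) (c : Ω))⁻¹,
    inv_mem (sub_mem (S36FQ_B_fixed M q H)
      ((S36FI_act (M * q * q) H).algebraMap_mem_fixF c.2))⟩

@[simp] theorem S36FQ_tL_coe (H : Subgroup (Ω ≃ₐ[ℚ] Ω)) (c : (S36FI_act (M * q * q) H).fixK) :
    ((S36FQ_tL M q H c : ↥(S36FI_act (M * q * q) H).fixF) :
        ↥(modularFunctionFieldBar (M * q * q))) =
      (heckeBetaBar Ω (M * q) q (jB (M * q)) -
        algebraMap Ω ↥(modularFunctionFieldBar (M * q * q)) (c : Ω))⁻¹ := rfl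

/-- `B − c` is a unit of the three Gauss rings (`c ∈ A`). -/
theorem S36FQ_Bc_unit {c : Ω} (hc : c ∈ A) :
    S36VDV_UG A (S36V_emFF M q) (heckeBetaBar Ω (M * q) q (jB (M * q)) -
        algebraMap Ω ↥(modularFunctionFieldBar (M * q * q)) c) ∧
    S36VDV_UG A (S36V_emFV M q hq hqM ζ hζ hζ1) (heckeBetaBar Ω (M * q) q (jB (M * q)) -
        algebraMap Ω ↥(modularFunctionFieldBar (M * q * q)) c) ∧
    S36VDV_UG A (S36V_emVV M q hq hqM) (heckeBetaBar Ω (M * q) q (jB (M * q)) -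
        algebraMap Ω ↥(modularFunctionFieldBar (M * q * q)) c) := by
  refine ⟨?_, ?_, ?_⟩
  · refine S36FQ_unit_of_series q A _ (S36FI_emFF_const M q) ?_ hc
    refine S36FQ_B_series M q A _ ?_
    rw [S36FQ_B_eq]
    exact S36FR_emFF_dB M q (jB M)
  · refine S36FQ_unit_of_series q A _ (S36FI_emFV_const M q hq hqM ζ hζ hζ1) ?_ hc
    refine S36FQ_B_series M q A _ ?_
    rw [S36FQ_B_eq]
    exact S36FR_emFV_dB M q hq hqM ζ hζ hζ1 (jB M)
  · refine S36FQ_unit_of_series q A _ (S36FI_emVV_const M q hq hqM) ?_ hc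
    refine S36FQ_B_series M q A _ ?_
    rw [S36FQ_B_eq]
    exact S36FR_emVV_dB M q hq hqM (jB M)

/-- **`B ∈ Λ_U`** on any chart where `B` is regular. -/
theorem S36FQ_B_mem_Λ
    (hU : ∀ Q ∈ U, 0 ≤ Q.ord (heckeBetaBar Ω (M * q) q (jB (M * q)))) :
    S36FQ_BL M q (A.inertiaSubgroupIn ℚ) ∈ (S36IT_fam3 M q hq hqM A hA ζ hζ hζ1 dvr U).Λ := by
  rw [S36IT_fam3_mem_Λ_G]
  refine ⟨S36FQ_B_FF M q A, S36FQ_B_FV M q hq hqM A ζ hζ hζ1, S36FQ_B_VV M q hq hqM A,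
    fun Q hQ => ?_⟩
  rw [S36IT_place_mem_iff, Place.adicValuation_le_one_iff]
  exact Or.inr (hU Q hQ)

/-- **`(B − c)⁻¹ ∈ Λ_U`** on any chart where `B ≠ c` (`c ∈ A ∩ L`). -/
theorem S36FQ_Bc_inv_mem_Λ (c : (S36FI_act (M * q * q) (A.inertiaSubgroupIn ℚ)).fixK)
    (hc : (c : Ω) ∈ A)
    (hU : ∀ Q ∈ U, Q.ord (heckeBetaBar Ω (M * q) q (jB (M * q)) -
      algebraMap Ω ↥(modularFunctionFieldBar (M * q * q)) (c : Ω)) ≤ 0) :
    S36FQ_tL M q (A.inertiaSubgroupIn ℚ) c ∈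
      (S36IT_fam3 M q hq hqM A hA ζ hζ hζ1 dvr U).Λ := by
  obtain ⟨h1, h2, h3⟩ := S36FQ_Bc_unit M q hq hqM A ζ hζ hζ1 hc
  rw [S36IT_fam3_mem_Λ_G]
  refine ⟨h1.2, h2.2, h3.2, fun Q hQ => ?_⟩
  rw [S36IT_place_mem_iff, Place.adicValuation_le_one_iff]
  right
  rw [S36FQ_tL_coe, Place.ord_inv]
  have := hU Q hQ
  omega

include hq in
/-- **`hfrac` for the concrete family on a chart with a coordinate `t ∈ Λ_U`, `B ∈ ℚ̄(t)`.** -/
theorem S36FQ_hfrac_of (t : ↥(S36FI_act (M * q * q) (A.inertiaSubgroupIn ℚ)).fixF)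
    (ht : t ∈ (S36IT_fam3 M q hq hqM A hA ζ hζ hζ1 dvr U).Λ)
    (hB : heckeBetaBar Ω (M * q) q (jB (M * q)) ∈
      Ω⟮(t : ↥(modularFunctionFieldBar (M * q * q)))⟯) :
    ∀ x : ↥(S36FI_act (M * q * q) (A.inertiaSubgroupIn ℚ)).fixF,
      ∃ b : (S36IT_fam3 M q hq hqM A hA ζ hζ hζ1 dvr U).Λ,
        (b : ↥(S36FI_act (M * q * q) (A.inertiaSubgroupIn ℚ)).fixF) ≠ 0 ∧
          (b : ↥(S36FI_act (M * q * q) (A.inertiaSubgroupIn ℚ)).fixF) * x ∈
            (S36IT_fam3 M q hq hqM A hA ζ hζ hζ1 dvr U).Λ := by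
  haveI : CharZero ↥(modularFunctionFieldBar (M * q * q)) :=
    charZero_of_injective_algebraMap
      (algebraMap Ω ↥(modularFunctionFieldBar (M * q * q))).injective
  haveI : CharZero ↥(S36FI_act (M * q * q) (A.inertiaSubgroupIn ℚ)).fixF :=
    RingHom.charZero (S36FI_act (M * q * q) (A.inertiaSubgroupIn ℚ)).fixF.subtype
  haveI := S36FD_fd_B M q hq
  exact S36FQ_hfrac_abs (S36IT_fam3 M q hq hqM A hA ζ hζ hζ1 dvr U) S36FQ_alg_int t ht
    (heckeBetaBar Ω (M * q) q (jB (M * q))) hB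
    (fun f => IsAlgebraic.of_finite _ f)

include hq in
/-- **`hfrac` on the chart `U = {B ≠ ∞}`** (and on every smaller chart). -/
theorem S36FQ_hfrac_U
    (hU : U ⊆ S34IX_TU (K := Ω) (heckeBetaBar Ω (M * q) q (jB (M * q)))) :
    ∀ x : ↥(S36FI_act (M * q * q) (A.inertiaSubgroupIn ℚ)).fixF,
      ∃ b : (S36IT_fam3 M q hq hqM A hA ζ hζ hζ1 dvr U).Λ,
        (b : ↥(S36FI_act (M * q * q) (A.inertiaSubgroupIn ℚ)).fixF) ≠ 0 ∧
          (b : ↥(S36FI_act (M * q * q) (A.inertiaSubgroupIn ℚ)).fixF) * x ∈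
            (S36IT_fam3 M q hq hqM A hA ζ hζ hζ1 dvr U).Λ :=
  S36FQ_hfrac_of M q hq hqM A hA ζ hζ hζ1 dvr U (S36FQ_BL M q (A.inertiaSubgroupIn ℚ))
    (S36FQ_B_mem_Λ M q hq hqM A hA ζ hζ hζ1 dvr U fun Q hQ => hU hQ)
    (IntermediateField.mem_adjoin_simple_self Ω _)

include hq in
/-- **`hfrac` on the chart `U′ = {B ≠ c}`** (and on every smaller chart), `c ∈ A ∩ L`. -/
theorem S36FQ_hfrac_U' (c : (S36FI_act (M * q * q) (A.inertiaSubgroupIn ℚ)).fixK)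
    (hc : (c : Ω) ∈ A)
    (hU : U ⊆ S34IX_TU' (heckeBetaBar Ω (M * q) q (jB (M * q))) (c : Ω)) :
    ∀ x : ↥(S36FI_act (M * q * q) (A.inertiaSubgroupIn ℚ)).fixF,
      ∃ b : (S36IT_fam3 M q hq hqM A hA ζ hζ hζ1 dvr U).Λ,
        (b : ↥(S36FI_act (M * q * q) (A.inertiaSubgroupIn ℚ)).fixF) ≠ 0 ∧
          (b : ↥(S36FI_act (M * q * q) (A.inertiaSubgroupIn ℚ)).fixF) * x ∈
            (S36IT_fam3 M q hq hqM A hA ζ hζ hζ1 dvr U).Λ := by
  refine S36FQ_hfrac_of M q hq hqM A hA ζ hζ hζ1 dvr U (S36FQ_tL M q (A.inertiaSubgroupIn ℚ) c)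
    (S36FQ_Bc_inv_mem_Λ M q hq hqM A hA ζ hζ hζ1 dvr U c hc fun Q hQ => hU hQ) ?_
  rw [S36FQ_tL_coe]
  set E := Ω⟮(heckeBetaBar Ω (M * q) q (jB (M * q)) -
    algebraMap Ω ↥(modularFunctionFieldBar (M * q * q)) (c : Ω))⁻¹⟯ with hE
  have h1 : (heckeBetaBar Ω (M * q) q (jB (M * q)) -
      algebraMap Ω ↥(modularFunctionFieldBar (M * q * q)) (c : Ω))⁻¹ ∈ E :=
    IntermediateField.mem_adjoin_simple_self Ω _
  have h2 : heckeBetaBar Ω (M * q) q (jB (M * q)) -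
      algebraMap Ω ↥(modularFunctionFieldBar (M * q * q)) (c : Ω) ∈ E := by
    have := E.inv_mem h1
    rwa [inv_inv] at this
  have h3 := E.add_mem h2 (E.algebraMap_mem (c : Ω))
  rwa [sub_add_cancel] at h3

end fam

end Fermat.Agent.S36
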