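import Mathlib

/-!
# TRACK 10 (S36), package FIX-L, parts (a) ARTIN and (b) FINITE (helper6)

Pure algebra over Mathlib.  Prefix `S36FX_`.

`K ⊂ F` fields, `(φ h, ψ h)`, `h : H`, a family of semilinear endomorphisms: `φ h : F →+* F`,
`ψ h : K →+* K`, `φ h (c • f) = ψ h c • φ h f`.  (In the application `H` is the inertia group,
`K = ℚ̄`, `F` the function field of `X₀(q² M)` over `ℚ̄`.)  No group structure on `H` is used.

* `S36FX_artin` : **(a)** a family of `H`-fixed elements of `F` which is linearly independent
  over the `H`-fixed elements of `K` is linearly independent over `K`;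
* `S36FX_indep_adjoin` : **(b)** for an `H`-fixed transcendental `x`: a family of `H`-fixed
  elements which is linearly independent over the polynomials in `x` with `H`-fixed coefficients
  is linearly independent over `K(x)`;
* `S36FX_card_le` : hence it has at most `[F : K(x)]` elements.
-/

set_option autoImplicit false
set_option linter.style.haveILetI false

open Polynomial IntermediateField

open scoped IntermediateField.algebraAdjoinAdjoin

namespace Fermat.Agent.S36

section artin

variable {K F H ι : Type*} [Field K] [Field F] [Algebra K F]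

/-- **(a) ARTIN**, element form. -/
theorem S36FX_artin (φ : H → F →+* F) (ψ : H → K →+* K)
    (hsemi : ∀ h c, φ h (algebraMap K F c) = algebraMap K F (ψ h c))
    (f : ι → F) (hf : ∀ i h, φ h (f i) = f i)
    (hL : ∀ c : ι →₀ K, (∀ i h, ψ h (c i) = c i) → (c.sum fun i a => a • f i) = 0 → c = 0) :
    LinearIndependent K f := by
  classical
  rw [linearIndependent_iff]
  -- induction on the size of the support
  suffices hmain : ∀ n : ℕ, ∀ c : ι →₀ K, c.support.card = n →
      (c.sum fun i a => a • f i) = 0 → c = 0 by
    intro c hc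
    rw [Finsupp.linearCombination_apply] at hc
    exact hmain _ c rfl hc
  intro n
  induction n using Nat.strong_induction_on with
  | _ n ih =>
    intro c hcard hsum
    by_contra hc0
    obtain ⟨i₀, hi₀⟩ : ∃ i₀, i₀ ∈ c.support :=
      Finset.nonempty_iff_ne_empty.mpr (fun h => hc0 (Finsupp.support_eq_empty.mp h))
    have hci₀ : c i₀ ≠ 0 := Finsupp.mem_support_iff.mp hi₀
    -- normalise
    set c' : ι →₀ K := (c i₀)⁻¹ • c with hc'
    have hc'i₀ : c' i₀ = 1 := by
      rw [hc', Finsupp.smul_apply, smul_eq_mul, inv_mul_cancel₀ hci₀]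
    have hsupp' : c'.support = c.support := by
      rw [hc']
      exact Finsupp.support_smul_eq (inv_ne_zero hci₀)
    have hsum' : (c'.sum fun i a => a • f i) = 0 := by
      have h1 : (c'.sum fun i a => a • f i) = (c i₀)⁻¹ • (c.sum fun i a => a • f i) := by
        rw [hc', Finsupp.sum_smul_index (fun i => zero_smul K (f i)), Finsupp.smul_sum]
        refine Finsupp.sum_congr fun i _ => ?_
        rw [mul_smul]
      rw [h1, hsum, smul_zero]
    -- the coefficients of `c'` are fixed
    have hfix : ∀ i h, ψ h (c' i) = c' i := by
      intro i h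
      set d : ι →₀ K := c'.mapRange (ψ h) (map_zero _) - c' with hd
      have hdi : ∀ i, d i = ψ h (c' i) - c' i := fun i => by
        rw [hd, Finsupp.sub_apply, Finsupp.mapRange_apply]
      have hdsupp : d.support ⊆ c.support.erase i₀ := by
        intro i hi
        rw [Finsupp.mem_support_iff, hdi] at hi
        rw [Finset.mem_erase]
        refine ⟨?_, ?_⟩
        · rintro rfl
          apply hi
          rw [hc'i₀, map_one, sub_self]
        · rw [← hsupp', Finsupp.mem_support_iff]
          intro h0
          apply hi
          rw [h0, map_zero, sub_self]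
      have hdcard : d.support.card < n := by
        have h1 := Finset.card_le_card hdsupp
        have h2 := Finset.card_erase_lt_of_mem hi₀
        omega
      have hdsum : (d.sum fun i a => a • f i) = 0 := by
        have h1 : (d.sum fun i a => a • f i) = ∑ i ∈ c.support, (ψ h (c' i) - c' i) • f i := by
          rw [Finsupp.sum]
          refine Finset.sum_subset_zero_on_sdiff (hdsupp.trans (Finset.erase_subset _ _)) ?_ ?_
          · intro i hi
            rw [Finset.mem_sdiff, Finsupp.notMem_support_iff, hdi] at hi
            rw [hi.2, zero_smul]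
          · intro i _
            rw [hdi]
        have h2 : ∑ i ∈ c.support, c' i • f i = 0 := by
          rw [← hsupp']
          exact hsum'
        have h3 : ∑ i ∈ c.support, ψ h (c' i) • f i = 0 := by
          have h4 := congrArg (φ h) h2
          rw [map_sum, map_zero] at h4
          rw [← h4]
          refine Finset.sum_congr rfl fun i _ => ?_
          rw [Algebra.smul_def, Algebra.smul_def, map_mul, hsemi, hf]
        rw [h1]
        simp only [sub_smul, Finset.sum_sub_distrib, h2, h3, sub_self]
      have hd0 := ih _ hdcard d rfl hdsum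
      have := hdi i
      rw [hd0, Finsupp.zero_apply] at this
      exact (sub_eq_zero.mp this.symm)
    have hc'0 := hL c' hfix hsum'
    rw [hc'0, Finsupp.zero_apply] at hc'i₀
    exact zero_ne_one hc'i₀

/-- **(a) ARTIN**, `Finset` form of the hypothesis. -/
theorem S36FX_artin' (φ : H → F →+* F) (ψ : H → K →+* K)
    (hsemi : ∀ h c, φ h (algebraMap K F c) = algebraMap K F (ψ h c))
    (f : ι → F) (hf : ∀ i h, φ h (f i) = f i)
    (hL : ∀ (s : Finset ι) (c : ι → K), (∀ i h, ψ h (c i) = c i) →
      ∑ i ∈ s, c i • f i = 0 → ∀ i ∈ s, c i = 0) :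
    LinearIndependent K f := by
  refine S36FX_artin φ ψ hsemi f hf ?_
  intro c hc hsum
  ext i
  by_cases hi : i ∈ c.support
  · exact hL c.support c hc hsum i hi
  · exact Finsupp.notMem_support_iff.mp hi

/-- **(b) FINITE**, linear independence: `H`-fixed elements which are independent over the
polynomials in `x` with `H`-fixed coefficients are independent over `K(x)`. -/
theorem S36FX_indep_adjoin (φ : H → F →+* F) (ψ : H → K →+* K)
    (hsemi : ∀ h c, φ h (algebraMap K F c) = algebraMap K F (ψ h c))
    (x : F) (hx : ∀ h, φ h x = x)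
    (y : ι → F) (hy : ∀ i h, φ h (y i) = y i)
    (hLx : ∀ (s : Finset ι) (p : ι → K[X]), (∀ i k h, ψ h ((p i).coeff k) = (p i).coeff k) →
      ∑ i ∈ s, aeval x (p i) * y i = 0 → ∀ i ∈ s, p i = 0) :
    LinearIndependent K⟮x⟯ y := by
  classical
  -- the monomial family
  have hg : LinearIndependent K (fun ik : ι × ℕ => x ^ ik.2 * y ik.1) := by
    refine S36FX_artin' φ ψ hsemi _ (fun ik h => by rw [map_mul, map_pow, hx, hy]) ?_
    intro t c hc hsum
    set p : ι → K[X] := fun i => ∑ ik ∈ t with ik.1 = i, monomial ik.2 (c ik) with hp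
    have hcoeff : ∀ i k, (p i).coeff k = if (i, k) ∈ t then c (i, k) else 0 := by
      intro i k
      rw [hp, finsetSum_coeff, Finset.sum_filter]
      have h1 : ∀ ik : ι × ℕ, (if ik.1 = i then (monomial ik.2 (c ik)).coeff k else 0) =
          if ik = (i, k) then c ik else 0 := by
        rintro ⟨a, b⟩
        simp only [coeff_monomial, Prod.mk.injEq]
        by_cases h1 : a = i <;> by_cases h2 : b = k <;> simp [h1, h2]
      simp_rw [h1]
      rw [Finset.sum_ite_eq']
    have hpfix : ∀ i k h, ψ h ((p i).coeff k) = (p i).coeff k := by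
      intro i k h
      rw [hcoeff]
      split_ifs
      · exact hc _ h
      · exact map_zero _
    have hpsum : ∑ i ∈ t.image Prod.fst, aeval x (p i) * y i = 0 := by
      rw [← hsum, ← Finset.sum_fiberwise_of_maps_to (g := Prod.fst) (t := t.image Prod.fst)
        (fun ik hik => Finset.mem_image_of_mem _ hik)]
      refine Finset.sum_congr rfl fun i _ => ?_
      rw [hp, map_sum, Finset.sum_mul]
      refine Finset.sum_congr rfl fun ik hik => ?_
      rw [Finset.mem_filter] at hik
      rw [aeval_monomial, hik.2, Algebra.smul_def, mul_assoc]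
    have hp0 := hLx (t.image Prod.fst) p hpfix hpsum
    intro ik hik
    have h2 := hcoeff ik.1 ik.2
    rw [hp0 ik.1 (Finset.mem_image_of_mem _ hik), coeff_zero, if_pos hik] at h2
    exact h2.symm
  -- independence over `K[x]`
  have hA : LinearIndependent (Algebra.adjoin K {x}) y := by
    rw [linearIndependent_iff']
    intro s a hsum i hi
    have hP : ∀ i, ∃ P : K[X], aeval x P = (a i : F) := by
      intro i
      have h1 : (a i : F) ∈ Algebra.adjoin K {x} := (a i).2
      have h0 : ∀ z : F, z ∈ Algebra.adjoin K {x} → ∃ q : K[X], aeval x q = z := by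
        intro z hz
        rw [Algebra.adjoin_singleton_eq_range_aeval] at hz
        exact hz
      exact h0 _ h1
    choose P hP using hP
    set N : ℕ := (s.sup fun i => (P i).natDegree) + 1 with hN
    have hlt : ∀ i ∈ s, (P i).natDegree < N := fun i hi =>
      Nat.lt_succ_of_le (Finset.le_sup (f := fun i => (P i).natDegree) hi)
    rw [linearIndependent_iff'] at hg
    have hsum' : ∑ ik ∈ s ×ˢ Finset.range N, (P ik.1).coeff ik.2 • (x ^ ik.2 * y ik.1) = 0 := by
      rw [Finset.sum_product, ← hsum]
      refine Finset.sum_congr rfl fun i hi => ?_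
      have h1 : (a i) • y i = aeval x (P i) * y i := by
        rw [hP]
        rfl
      rw [h1, aeval_eq_sum_range' (hlt i hi), Finset.sum_mul]
      refine Finset.sum_congr rfl fun k _ => ?_
      rw [smul_mul_assoc]
    have h0 := hg (s ×ˢ Finset.range N) (fun ik => (P ik.1).coeff ik.2) hsum'
    have hPi : P i = 0 := by
      ext k
      rw [coeff_zero]
      by_cases hk : k < N
      · exact h0 (i, k) (Finset.mem_product.mpr ⟨hi, Finset.mem_range.mpr hk⟩)
      · exact coeff_eq_zero_of_natDegree_lt (lt_of_lt_of_le (hlt i hi) (not_lt.mp hk))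
    apply Subtype.ext
    rw [← hP, hPi, map_zero]
    rfl
  exact (LinearIndependent.iff_fractionRing (Algebra.adjoin K {x}) K⟮x⟯).mp hA

/-- **(b) FINITE**, the bound: at most `[F : K(x)]` elements. -/
theorem S36FX_card_le (φ : H → F →+* F) (ψ : H → K →+* K)
    (hsemi : ∀ h c, φ h (algebraMap K F c) = algebraMap K F (ψ h c))
    (x : F) (hx : ∀ h, φ h x = x) [FiniteDimensional K⟮x⟯ F]
    {m : ℕ} (y : Fin m → F) (hy : ∀ i h, φ h (y i) = y i)
    (hLx : ∀ p : Fin m → K[X], (∀ i k h, ψ h ((p i).coeff k) = (p i).coeff k) →
      ∑ i, aeval x (p i) * y i = 0 → ∀ i, p i = 0) :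
    m ≤ Module.finrank K⟮x⟯ F := by
  classical
  have hli : LinearIndependent K⟮x⟯ y := by
    refine S36FX_indep_adjoin φ ψ hsemi x hx y hy ?_
    intro s p hp hsum i hi
    -- extend by zero outside `s`
    set p' : Fin m → K[X] := fun i => if i ∈ s then p i else 0 with hp'
    have h1 : ∀ i, p' i = 0 := by
      refine hLx p' ?_ ?_
      · intro i k h
        rw [hp']
        dsimp only
        split_ifs
        · exact hp i k h
        · rw [coeff_zero, map_zero]
      · rw [← hsum, ← Finset.sum_subset (Finset.subset_univ s)]
        · refine Finset.sum_congr rfl fun i hi => ?_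
          rw [hp']
          dsimp only
          rw [if_pos hi]
        · intro i _ hi
          rw [hp']
          dsimp only
          rw [if_neg hi, map_zero, zero_mul]
    have h2 := h1 i
    rw [hp'] at h2
    dsimp only at h2
    rwa [if_pos hi] at h2
  have := hli.fintype_card_le_finrank
  simpa using this

end artin

end Fermat.Agent.S36
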