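import Fermat.Agent.S36.FixLVal
import Fermat.Agent.S36.FixLFin

/-!
# TRACK 10 (S36), package FIX-L, part (b) FINITE on the types of `S36FL_Act` (helper6)

`S : S36FL_Act K F H`, `L = S.fixK`, `F_L = S.fixF`, `x ∈ F_L` transcendental over `K`.

* `S36FX_coe_aeval` : `aeval x P` in `F_L` and in `F`;
* `S36FX_transc` : `x` is transcendental over `L`;
* `S36FX_rank_le`, `S36FX_finite`, `S36FX_finrank_le` : `[F_L : L(x)] ≤ [F : K(x)]`;
* `S36FX_charZero` : `L` has characteristic `0` if `K` has.
-/

set_option autoImplicit false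
set_option linter.style.haveILetI false

open Polynomial IntermediateField

namespace Fermat.Agent.S36

variable {K F H : Type*} [Field K] [Field F] [Algebra K F] (S : S36FL_Act K F H)

/-- `aeval x P` computed in `F_L` and in `F`. -/
theorem S36FX_coe_aeval (x : S.fixF) (P : (S.fixK)[X]) :
    ((aeval x P : S.fixF) : F) = aeval (x : F) (P.map (algebraMap S.fixK K)) := by
  rw [aeval_def, aeval_def, eval₂_map]
  exact Polynomial.hom_eval₂ P (algebraMap S.fixK S.fixF) S.fixF.subtype x

/-- `x` is transcendental over `L`. -/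
theorem S36FX_transc (x : S.fixF) (hxt : Transcendental K (x : F)) :
    Transcendental S.fixK x := by
  rw [transcendental_iff]
  intro P hP
  have h1 : aeval (x : F) (P.map (algebraMap S.fixK K)) = 0 := by
    rw [← S36FX_coe_aeval, hP]
    rfl
  have h2 := (transcendental_iff.mp hxt) _ h1
  exact Polynomial.map_injective _ (algebraMap S.fixK K).injective (by rw [h2, Polynomial.map_zero])

/-- **(b) FINITE**: `rank_{L(x)} F_L ≤ [F : K(x)]`. -/
theorem S36FX_rank_le (x : S.fixF) (hxt : Transcendental K (x : F))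
    [FiniteDimensional K⟮(x : F)⟯ F] :
    Module.rank (S.fixK)⟮x⟯ S.fixF ≤ (Module.finrank K⟮(x : F)⟯ F : ℕ) := by
  classical
  refine rank_le fun s hli => ?_
  set e : Fin s.card ≃ s := s.equivFin.symm with he
  have hli' : LinearIndependent (S.fixK)⟮x⟯ (fun i : Fin s.card => ((e i : s) : S.fixF)) :=
    hli.comp e e.injective
  refine S36FX_card_le (fun h => (S.onF h : F →+* F)) (fun h => (S.onK h : K →+* K))
    (fun h c => S.semi h c) (x : F) (fun h => x.2 h)
    (fun i : Fin s.card => (((e i : s) : S.fixF) : F)) (fun i h => ((e i : s) : S.fixF).2 h) ?_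
  intro p hp hsum i
  -- lift the polynomials to `L[X]`
  have hlift : ∀ i, ∃ P : (S.fixK)[X], P.map (algebraMap S.fixK K) = p i := by
    intro i
    have h1 : p i ∈ Polynomial.lifts (algebraMap S.fixK K) := by
      rw [Polynomial.lifts_iff_coeff_lifts]
      intro n
      exact ⟨⟨(p i).coeff n, fun h => hp i n h⟩, rfl⟩
    exact h1
  choose P hP using hlift
  have hmem : ∀ i, aeval x (P i) ∈ (S.fixK)⟮x⟯ := by
    intro i
    have h1 : aeval x (P i) ∈ Algebra.adjoin S.fixK {x} := by
      rw [Algebra.adjoin_singleton_eq_range_aeval]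
      exact ⟨P i, rfl⟩
    exact algebra_adjoin_le_adjoin _ _ h1
  have hsum' : ∑ i, (⟨aeval x (P i), hmem i⟩ : (S.fixK)⟮x⟯) • ((e i : s) : S.fixF) = 0 := by
    apply Subtype.ext
    have h1 : ((∑ i, (⟨aeval x (P i), hmem i⟩ : (S.fixK)⟮x⟯) • ((e i : s) : S.fixF) :
        S.fixF) : F) = ∑ i, aeval (x : F) (p i) * (((e i : s) : S.fixF) : F) := by
      rw [AddSubmonoidClass.coe_finsetSum]
      refine Finset.sum_congr rfl fun i _ => ?_
      rw [IntermediateField.smul_def, smul_eq_mul]
      show ((aeval x (P i) : S.fixF) : F) * _ = _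
      rw [S36FX_coe_aeval, hP]
    rw [h1, hsum]
    rfl
  have h0 := (Fintype.linearIndependent_iff.mp hli') _ hsum' i
  have h1 : aeval x (P i) = 0 := congrArg Subtype.val h0
  have h2 := (transcendental_iff.mp (S36FX_transc S x hxt)) _ h1
  rw [← hP, h2, Polynomial.map_zero]

/-- **(b) FINITE**: `F_L` is finite over `L(x)`. -/
theorem S36FX_finite (x : S.fixF) (hxt : Transcendental K (x : F))
    [FiniteDimensional K⟮(x : F)⟯ F] : FiniteDimensional (S.fixK)⟮x⟯ S.fixF := by
  rw [FiniteDimensional, ← Module.rank_lt_aleph0_iff]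
  exact lt_of_le_of_lt (S36FX_rank_le S x hxt) Cardinal.natCast_lt_aleph0

/-- **(b) FINITE**: `[F_L : L(x)] ≤ [F : K(x)]`. -/
theorem S36FX_finrank_le (x : S.fixF) (hxt : Transcendental K (x : F))
    [FiniteDimensional K⟮(x : F)⟯ F] :
    Module.finrank (S.fixK)⟮x⟯ S.fixF ≤ Module.finrank K⟮(x : F)⟯ F :=
  Module.finrank_le_of_rank_le (S36FX_rank_le S x hxt)

/-- `L` has characteristic `0`. -/
theorem S36FX_charZero [CharZero K] : CharZero S.fixK :=
  (algebraMap S.fixK K).charZero

end Fermat.Agent.S36
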