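import Fermat.Agent.S36.Inj3Den
import Fermat.Agent.S36.FixLInst
import Fermat.Agent.S36.FixLFinT
import Fermat.Agent.Lib.RiemannCharZero
import Fermat.Agent.S24.EvDeg

/-!
# TRACK 10 (S36), package C3.5 + C3.7 INJ3-INST (helper27): INJ3 / TORS3 / HGLOB on the modular
function field

`F = modularFunctionFieldBar N` over `ℚ̄`, `H ≤ Gal(ℚ̄/ℚ)` (the inertia group),
`S = S36FI_act N H` (helper1), `L = S.fixK`, `F_L = S.fixF`, `j = jB N ∈ F_L`.

All inputs of `S36I3_htors_fix`, `S36I3_hconst_fix`, `S36I3_inj_fix'` which do not depend on the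
three valuations are discharged:
`RR_Hyp ℚ̄ F`, `j` transcendental over `L`, `F_L / L(j)` finite, `char L = 0`.

* `S36I3_jL N H : F_L` : the function `j`;
* `S36I3_htors_inst` : `htors` of `S36L3I_inj_W` / `S36TL_core` for every normalised `u`;
* `S36I3_hconst_inst` : `hconst`;
* `S36I3_inj_inst` : INJ3 (`1 ∈ W^u` on `U`, `U'` ⇒ `u = a·gⁿ`).
-/

set_option autoImplicit false
set_option linter.unusedSectionVars false

open AlgebraicCurve IntermediateField ModularCurve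

namespace Fermat.Agent.S36

open Fermat.Agent.Lib Fermat.Agent.S18 Fermat.Agent.S24 Fermat.Agent.S34

variable (N : ℕ) [NeZero N] (H : Subgroup (AlgebraicClosure ℚ ≃ₐ[ℚ] AlgebraicClosure ℚ))

/-- the function `j` as an element of `F_L = F^H`. -/
noncomputable def S36I3_jL : (S36FI_act N H).fixF :=
  ⟨jB N, fun h => S36FI_jBar_fixed N (h : AlgebraicClosure ℚ ≃ₐ[ℚ] AlgebraicClosure ℚ) 1
    (one_dvd N)⟩

@[simp] theorem S36I3_jL_coe : ((S36I3_jL N H : (S36FI_act N H).fixF) :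
    ↥(modularFunctionFieldBar N)) = jB N := rfl

/-- Riemann's theorem for `F = ℚ̄(X₀(N))`. -/
theorem S36I3_hRR : RR_Hyp (AlgebraicClosure ℚ) ↥(modularFunctionFieldBar N) := by
  have := finiteDimensional_jB N
  exact RR_hyp_of_charZero (transcendental_jB N)

/-- `j` is transcendental over `L`. -/
theorem S36I3_jL_transc : Transcendental (S36FI_act N H).fixK (S36I3_jL N H) :=
  S36FX_transc (S36FI_act N H) (S36I3_jL N H) (transcendental_jB N)

/-- `F_L / L(j)` is finite. -/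
theorem S36I3_jL_finite :
    FiniteDimensional ((S36FI_act N H).fixK)⟮S36I3_jL N H⟯ (S36FI_act N H).fixF := by
  have : FiniteDimensional (AlgebraicClosure ℚ)⟮((S36I3_jL N H : (S36FI_act N H).fixF) :
      ↥(modularFunctionFieldBar N))⟯ ↥(modularFunctionFieldBar N) := finiteDimensional_jB N
  exact S36FX_finite (S36FI_act N H) (S36I3_jL N H) (transcendental_jB N)

/-- `L` has characteristic zero. -/
theorem S36I3_charZero : CharZero (S36FI_act N H).fixK := S36FX_charZero (S36FI_act N H)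

variable {k Fk₁ Fk₂ Fk₃ : Type*} [Field k]
  [Field Fk₁] [Field Fk₂] [Field Fk₃] [Algebra k Fk₁] [Algebra k Fk₂] [Algebra k Fk₃]
  {S₁ : S18_Val (S36FI_act N H).fixK (S36FI_act N H).fixF k Fk₁}
  {S₂ : S18_Val (S36FI_act N H).fixK (S36FI_act N H).fixF k Fk₂}
  {S₃ : S18_Val (S36FI_act N H).fixK (S36FI_act N H).fixF k Fk₃}

/-- **HGLOB** (C3.6): only the constants of `L` are regular on `U = {j ≠ ∞}` and on
`U' = {j ≠ c}`. -/
theorem S36I3_hconst_inst (c : (S36FI_act N H).fixK) (f : (S36FI_act N H).fixF)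
    (hf : f ∈ S36I3_reg (S36FI_act N H) (S34IX_TU (K := AlgebraicClosure ℚ) (jB N)))
    (hf' : f ∈ S36I3_reg (S36FI_act N H) (S34IX_TU' (jB N) (c : AlgebraicClosure ℚ))) :
    ∃ a : (S36FI_act N H).fixK, f = algebraMap (S36FI_act N H).fixK (S36FI_act N H).fixF a :=
  S36I3_hconst_fix (S36FI_act N H) (S36I3_hRR N) (S36I3_jL N H) c f hf hf'

/-- **TORS3-INST** (C3.5): `htors` for every normalised `u`, on the standard charts of `j`. -/
theorem S36I3_htors_inst (hS : S36L3_Same S₁ S₂ S₃) [IsNoetherianRing S₁.A]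
    (n : ℕ) (C C' C'' : S36L3_Chart (S36FI_act N H).fixK (S36FI_act N H).fixF k Fk₁ Fk₂ Fk₃ n)
    (c : S₁.A)
    (hC : C.B = S36I3_reg (S36FI_act N H) (S34IX_TU (K := AlgebraicClosure ℚ) (jB N)))
    (hC' : C'.B = S36I3_reg (S36FI_act N H)
      (S34IX_TU' (jB N) (((c : (S36FI_act N H).fixK)) : AlgebraicClosure ℚ)))
    (hC'' : C''.B = S36I3_reg (S36FI_act N H)
      (S34IX_TU'' (jB N) (((c : (S36FI_act N H).fixK)) : AlgebraicClosure ℚ)))
    (hjO : S36I3_jL N H ∈ S36L3_O3 S₁ S₂ S₃)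
    (hsO : (S36I3_jL N H - algebraMap S₁.A (S36FI_act N H).fixF c)⁻¹ ∈ S36L3_O3 S₁ S₂ S₃)
    (hint : ∀ g : (S36FI_act N H).fixF, g ∈ S36L3_O3 S₁ S₂ S₃ → g ∈ C.B →
      IsIntegral (Algebra.adjoin S₁.A {S36I3_jL N H}) g)
    (u : (S36FI_act N H).fixF) (hu : u ∈ S36L3_Norm S₁ S₂ S₃) :
    ∃ c₀ : S₁.A, c₀ ≠ 0 ∧
      ∀ h ∈ S34IC_M (S36L3_toLat hS) C''.B n C''.root u, ∀ a : S₁.A, a ≠ 0 →
      a • h ∈ S34IC_M (S36L3_toLat hS) C.B n C.root u ⊔
        S34IC_M (S36L3_toLat hS) C'.B n C'.root u →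
      c₀ • h ∈ S34IC_M (S36L3_toLat hS) C.B n C.root u ⊔
        S34IC_M (S36L3_toLat hS) C'.B n C'.root u := by
  have := S36I3_charZero N H
  have := S36I3_jL_finite N H
  exact S36I3_htors_fix (S36FI_act N H) (S36I3_hRR N) hS n C C' C'' (S36I3_jL N H) c hC hC' hC''
    (S36I3_jL_transc N H) hjO hsO hint u hu

/-- **INJ3-INST** (C3.7): a normalised Kummer generator `u ∈ F_L` with `1 ∈ W^u` on the charts
`U` and `U'` is trivial. -/
theorem S36I3_inj_inst (hS : S36L3_Same S₁ S₂ S₃) [IsDiscreteValuationRing S₁.A]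
    (q : S₁.A) (hq : Irreducible q)
    (hrad : ∃ K : ℕ, ∀ f : (S36L3_toLat hS).O, (S36L3_toLat hS).red f = 0 →
      ∃ g : (S36L3_toLat hS).O, f ^ K = (S36L3_toLat hS).const q * g)
    (n : ℕ) (hnk : (n : k) ≠ 0)
    (C C' C'' : S36L3_Chart (S36FI_act N H).fixK (S36FI_act N H).fixF k Fk₁ Fk₂ Fk₃ n)
    (c : S₁.A)
    (hC : C.B = S36I3_reg (S36FI_act N H) (S34IX_TU (K := AlgebraicClosure ℚ) (jB N)))
    (hC' : C'.B = S36I3_reg (S36FI_act N H)
      (S34IX_TU' (jB N) (((c : (S36FI_act N H).fixK)) : AlgebraicClosure ℚ)))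
    (hC'' : C''.B = S36I3_reg (S36FI_act N H)
      (S34IX_TU'' (jB N) (((c : (S36FI_act N H).fixK)) : AlgebraicClosure ℚ)))
    (hjO : S36I3_jL N H ∈ S36L3_O3 S₁ S₂ S₃)
    (hsO : (S36I3_jL N H - algebraMap S₁.A (S36FI_act N H).fixF c)⁻¹ ∈ S36L3_O3 S₁ S₂ S₃)
    (hint : ∀ g : (S36FI_act N H).fixF, g ∈ S36L3_O3 S₁ S₂ S₃ → g ∈ C.B →
      IsIntegral (Algebra.adjoin S₁.A {S36I3_jL N H}) g)
    (u : (S36FI_act N H).fixF) (hu : u ∈ S36L3_Norm S₁ S₂ S₃)
    (h1 : (1 : ↥C.Rb₁ × ↥C.Rb₂ × ↥C.Rb₃) ∈ S36L3_W hS C u)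
    (h1' : (1 : ↥C'.Rb₁ × ↥C'.Rb₂ × ↥C'.Rb₃) ∈ S36L3_W hS C' u) :
    ∃ (a : (S36FI_act N H).fixK) (g : (S36FI_act N H).fixF), a ≠ 0 ∧ g ≠ 0 ∧
      u = algebraMap (S36FI_act N H).fixK (S36FI_act N H).fixF a * g ^ n := by
  have := S36I3_charZero N H
  have := S36I3_jL_finite N H
  exact S36I3_inj_fix' (S36FI_act N H) (S36I3_hRR N) hS q hq hrad n hnk C C' C''
    (S36I3_jL N H) c hC hC' hC'' (S36I3_jL_transc N H) hjO hsO u hu hint h1 h1'

end Fermat.Agent.S36
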