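import Fermat.Agent.S36.Param
import Fermat.Agent.S36.Val3ResQ
import Fermat.Agent.S34.SatPoleX0

/-!
# TRACK 10 (S36), package PARAM, the `δ`-step of RULING D10 (helper25): lifts at level `M q²` on
the chart `U` (off the cusps), coming from LEVEL `M`.  Prefix `S36PA_`.

`q ∤ M` prime, `A ⊂ ℚ̄` over `q`, `k` its residue field, `κ = F_k(M)`, `F₂ = F_{M q²}`,
`α_i, β_i` the two degeneracy embeddings (`heckeAlphaBar`, `heckeBetaBar`), `Ψ = qExpand k q`
(`t ↦ t^q`), `I = A.inertiaSubgroupIn ℚ`.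

For `ā ∈ κ` regular off the cusps let `f₀` be the lift of `S36PA_lift` (level `M`). Then

* `δ_A^* f₀ = α₂ α₁ f₀` is `I`-fixed, regular off the cusps of `X₀(M q²)`, lies in the three Gauss
  rings `FF`, `FV`, `VV` and has reductions `(ā, ā, Ψ² ā)`   (`S36PA_lift_A`);
* `δ_C^* f₀ = β₂ β₁ f₀` the same with reductions `(Ψ² ā, ā, ā)`   (`S36PA_lift_C`).

Pieces:
* `S36PA_F_alpha`, `S36PA_F_beta`, `S36PA_V_alpha`, `S36PA_V_beta` : the table at level `M q`
  for elements coming from level `M`;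
* `S36PA_AA_FF/_FV/_VV`, `S36PA_BB_FF/_FV/_VV` : the table at level `M q²`;
* `S36PA_reg_alpha`, `S36PA_reg_beta`, `S36PA_reg_AA`, `S36PA_reg_BB` : horizontal regularity;
* `S36PA_fix_of_smul` : the bridge between the two forms of "`I`-fixed".
-/

set_option autoImplicit false
set_option synthInstance.maxHeartbeats 400000
set_option maxHeartbeats 1000000
set_option linter.style.haveILetI false
set_option linter.unusedSectionVars false
set_option linter.unusedVariables false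
set_option linter.style.longLine false

open HahnSeries IntermediateField AlgebraicCurve ModularCurve

namespace Fermat.Agent.S36

open Fermat.Agent.S18 Fermat.Agent.S24 Fermat.Agent.S34 Fermat.Agent.S37 Fermat.Agent.GalRep
  Fermat.Agent.Lib Fermat.Agent.S17 Fermat.Agent.S19

local notation "ℚbar" => AlgebraicClosure ℚ

section table

variable (M q : ℕ) [NeZero M] [NeZero q] (hq : q.Prime) (hqM : ¬ q ∣ M)
  (A : ValuationSubring ℚbar)
  (ζ : ℚbarˣ) (hζ : ζ ^ q = 1) (hζ1 : ζ ≠ 1)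

/-! ### level `M q` -/

/-- `α₁ x ∈ F`, with the same reduction. -/
theorem S36PA_F_alpha {x : ↥(modularFunctionFieldBar M)}
    (hx : x ∈ S36V_G A (modularFunctionFieldBar M).val.toRingHom) :
    ∃ h : heckeAlphaBar ℚbar M q x ∈ S36V_G A (S36V_emF M q),
      S36V_Gred A (S36V_emF M q) ⟨_, h⟩ =
        S36V_Gred A (modularFunctionFieldBar M).val.toRingHom ⟨x, hx⟩ := by
  have heq : S36V_emF M q (heckeAlphaBar ℚbar M q x) =
      (modularFunctionFieldBar M).val.toRingHom x := by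
    rw [S36V_emF_apply, coe_heckeAlphaBar]
    rfl
  have hmem := (S36V_mem_G_of_eq A _ _ heq).mpr hx
  exact ⟨hmem, S36V_Gred_of_eq A _ _ heq hmem hx⟩

/-- `β₁ x ∈ V`, with the same reduction. -/
theorem S36PA_V_beta {x : ↥(modularFunctionFieldBar M)}
    (hx : x ∈ S36V_G A (modularFunctionFieldBar M).val.toRingHom) :
    ∃ h : heckeBetaBar ℚbar M q x ∈ S36V_G A (S36V_emV M q hq hqM),
      S36V_Gred A (S36V_emV M q hq hqM) ⟨_, h⟩ =
        S36V_Gred A (modularFunctionFieldBar M).val.toRingHom ⟨x, hx⟩ := by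
  have heq : S36V_emV M q hq hqM (heckeBetaBar ℚbar M q x) =
      (modularFunctionFieldBar M).val.toRingHom x := by
    rw [S36V_emV_apply, S34VW_wq_beta, coe_heckeAlphaBar]
    rfl
  have hmem := (S36V_mem_G_of_eq A _ _ heq).mpr hx
  exact ⟨hmem, S36V_Gred_of_eq A _ _ heq hmem hx⟩

/-- `β₁ x ∈ F`, with reduction `x̄(t^q)`. -/
theorem S36PA_F_beta {x : ↥(modularFunctionFieldBar M)}
    (hx : x ∈ S36V_G A (modularFunctionFieldBar M).val.toRingHom) :
    ∃ h : heckeBetaBar ℚbar M q x ∈ S36V_G A (S36V_emF M q),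
      S36V_Gred A (S36V_emF M q) ⟨_, h⟩ =
        qExpand (IsLocalRing.ResidueField A) q
          (S36V_Gred A (modularFunctionFieldBar M).val.toRingHom ⟨x, hx⟩) := by
  have heq : S36V_emF M q (heckeBetaBar ℚbar M q x) =
      qExpand ℚbar q ((modularFunctionFieldBar M).val.toRingHom x) := by
    rw [S36V_emF_apply, coe_heckeBetaBar]
    rfl
  have hmem := S36V_mem_G_of_eq_qExpand A _ _ q heq hx
  exact ⟨hmem, S36V_Gred_of_eq_qExpand A _ _ q heq hx hmem⟩

/-- `α₁ x ∈ V`, with reduction `x̄(t^q)`. -/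
theorem S36PA_V_alpha {x : ↥(modularFunctionFieldBar M)}
    (hx : x ∈ S36V_G A (modularFunctionFieldBar M).val.toRingHom) :
    ∃ h : heckeAlphaBar ℚbar M q x ∈ S36V_G A (S36V_emV M q hq hqM),
      S36V_Gred A (S36V_emV M q hq hqM) ⟨_, h⟩ =
        qExpand (IsLocalRing.ResidueField A) q
          (S36V_Gred A (modularFunctionFieldBar M).val.toRingHom ⟨x, hx⟩) := by
  have heq : S36V_emV M q hq hqM (heckeAlphaBar ℚbar M q x) =
      qExpand ℚbar q ((modularFunctionFieldBar M).val.toRingHom x) := by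
    rw [S36V_emV_apply, S34VW_wq_alpha, coe_heckeBetaBar]
    rfl
  have hmem := S36V_mem_G_of_eq_qExpand A _ _ q heq hx
  exact ⟨hmem, S36V_Gred_of_eq_qExpand A _ _ q heq hx hmem⟩

/-! ### level `M q²`, `δ_A^* = α₂ α₁` -/

/-- `α₂ α₁ x ∈ FF`, with the same reduction. -/
theorem S36PA_AA_FF {x : ↥(modularFunctionFieldBar M)}
    (hx : x ∈ S36V_G A (modularFunctionFieldBar M).val.toRingHom) :
    ∃ h : heckeAlphaBar ℚbar (M * q) q (heckeAlphaBar ℚbar M q x) ∈ S36V_G A (S36V_emFF M q),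
      S36V_Gred A (S36V_emFF M q) ⟨_, h⟩ =
        S36V_Gred A (modularFunctionFieldBar M).val.toRingHom ⟨x, hx⟩ := by
  obtain ⟨h1, e1⟩ := S36PA_F_alpha M q A hx
  have h2 := (S36V_FF_alpha M q A).mpr h1
  exact ⟨h2, (S36V_FF_alpha_red M q A h1 h2).trans e1⟩

/-- `α₂ α₁ x ∈ FV`, with the same reduction. -/
theorem S36PA_AA_FV {x : ↥(modularFunctionFieldBar M)}
    (hx : x ∈ S36V_G A (modularFunctionFieldBar M).val.toRingHom) :
    ∃ h : heckeAlphaBar ℚbar (M * q) q (heckeAlphaBar ℚbar M q x) ∈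
        S36V_G A (S36V_emFV M q hq hqM ζ hζ hζ1),
      S36V_Gred A (S36V_emFV M q hq hqM ζ hζ hζ1) ⟨_, h⟩ =
        S36V_Gred A (modularFunctionFieldBar M).val.toRingHom ⟨x, hx⟩ := by
  obtain ⟨h1, e1⟩ := S36PA_F_alpha M q A hx
  have h2 := (S36V_FV_alpha M q hq hqM A ζ hζ hζ1).mpr h1
  exact ⟨h2, (S36V_FV_alpha_red M q hq hqM A ζ hζ hζ1 h1 h2).trans e1⟩

/-- `α₂ α₁ x ∈ VV`, with reduction `x̄(t^{q²})`. -/
theorem S36PA_AA_VV {x : ↥(modularFunctionFieldBar M)}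
    (hx : x ∈ S36V_G A (modularFunctionFieldBar M).val.toRingHom) :
    ∃ h : heckeAlphaBar ℚbar (M * q) q (heckeAlphaBar ℚbar M q x) ∈
        S36V_G A (S36V_emVV M q hq hqM),
      S36V_Gred A (S36V_emVV M q hq hqM) ⟨_, h⟩ =
        qExpand (IsLocalRing.ResidueField A) q (qExpand (IsLocalRing.ResidueField A) q
          (S36V_Gred A (modularFunctionFieldBar M).val.toRingHom ⟨x, hx⟩)) := by
  obtain ⟨h1, e1⟩ := S36PA_V_alpha M q hq hqM A hx
  have h2 := S36V_VV_alpha M q hq hqM A h1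
  refine ⟨h2, ?_⟩
  rw [S36V_VV_alpha_red M q hq hqM A h1 h2, e1]

/-! ### level `M q²`, `δ_C^* = β₂ β₁` -/

/-- `β₂ β₁ x ∈ FF`, with reduction `x̄(t^{q²})`. -/
theorem S36PA_BB_FF {x : ↥(modularFunctionFieldBar M)}
    (hx : x ∈ S36V_G A (modularFunctionFieldBar M).val.toRingHom) :
    ∃ h : heckeBetaBar ℚbar (M * q) q (heckeBetaBar ℚbar M q x) ∈ S36V_G A (S36V_emFF M q),
      S36V_Gred A (S36V_emFF M q) ⟨_, h⟩ =
        qExpand (IsLocalRing.ResidueField A) q (qExpand (IsLocalRing.ResidueField A) q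
          (S36V_Gred A (modularFunctionFieldBar M).val.toRingHom ⟨x, hx⟩)) := by
  obtain ⟨h1, e1⟩ := S36PA_F_beta M q A hx
  have h2 := S36V_FF_beta M q A h1
  refine ⟨h2, ?_⟩
  rw [S36V_FF_beta_red M q A h1 h2, e1]

/-- `β₂ β₁ x ∈ FV`, with the same reduction (residue characteristic `q`). -/
theorem S36PA_BB_FV [Fact q.Prime] [CharP (IsLocalRing.ResidueField A) q]
    {x : ↥(modularFunctionFieldBar M)}
    (hx : x ∈ S36V_G A (modularFunctionFieldBar M).val.toRingHom) :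
    ∃ h : heckeBetaBar ℚbar (M * q) q (heckeBetaBar ℚbar M q x) ∈
        S36V_G A (S36V_emFV M q hq hqM ζ hζ hζ1),
      S36V_Gred A (S36V_emFV M q hq hqM ζ hζ hζ1) ⟨_, h⟩ =
        S36V_Gred A (modularFunctionFieldBar M).val.toRingHom ⟨x, hx⟩ := by
  obtain ⟨h1, e1⟩ := S36PA_V_beta M q hq hqM A hx
  have h2 := S36V_FV_beta M q hq hqM A ζ hζ hζ1 h1
  exact ⟨h2, (S36V_FV_beta_red M q hq hqM A ζ hζ hζ1 h1 h2).trans e1⟩

/-- `β₂ β₁ x ∈ VV`, with the same reduction. -/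
theorem S36PA_BB_VV {x : ↥(modularFunctionFieldBar M)}
    (hx : x ∈ S36V_G A (modularFunctionFieldBar M).val.toRingHom) :
    ∃ h : heckeBetaBar ℚbar (M * q) q (heckeBetaBar ℚbar M q x) ∈
        S36V_G A (S36V_emVV M q hq hqM),
      S36V_Gred A (S36V_emVV M q hq hqM) ⟨_, h⟩ =
        S36V_Gred A (modularFunctionFieldBar M).val.toRingHom ⟨x, hx⟩ := by
  obtain ⟨h1, e1⟩ := S36PA_V_beta M q hq hqM A hx
  have h2 := (S36V_VV_beta M q hq hqM A).mpr h1
  exact ⟨h2, (S36V_VV_beta_red M q hq hqM A h1 h2).trans e1⟩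

end table

section reg

variable (M q : ℕ) [NeZero M] [NeZero q]

/-- `α^*` of a function regular off the cusps is regular off the cusps. -/
theorem S36PA_reg_alpha {f : ↥(modularFunctionFieldBar M)}
    (hf : ∀ P : Place ℚbar ↥(modularFunctionFieldBar M), 0 ≤ P.ord (jB M) → 0 ≤ P.ord f)
    (Q : Place ℚbar ↥(modularFunctionFieldBar (M * q))) (hQ : 0 ≤ Q.ord (jB (M * q))) :
    0 ≤ Q.ord (heckeAlphaBar ℚbar M q f) := by
  have hint := S34S_tp_isIntegral_map (heckeAlphaBar ℚbar M q) (S34SP_reg M f hf)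
  rw [S34SP_alpha_jB] at hint
  by_cases h0 : heckeAlphaBar ℚbar M q f = 0
  · rw [h0, Place.ord_zero]
  · have hjne : jB (M * q) ≠ 0 := fun h => (transcendental_jB (M * q)) (h ▸ isAlgebraic_zero)
    exact (BG_mem_iff_ord_nonneg Q h0).mp
      (BL_mem_of_isIntegral Q ((BG_mem_iff_ord_nonneg Q hjne).mpr hQ) hint)

/-- `β^*` of a function regular off the cusps is regular off the cusps. -/
theorem S36PA_reg_beta {f : ↥(modularFunctionFieldBar M)}
    (hf : ∀ P : Place ℚbar ↥(modularFunctionFieldBar M), 0 ≤ P.ord (jB M) → 0 ≤ P.ord f)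
    (Q : Place ℚbar ↥(modularFunctionFieldBar (M * q))) (hQ : 0 ≤ Q.ord (jB (M * q))) :
    0 ≤ Q.ord (heckeBetaBar ℚbar M q f) := by
  have hint := S34S_tp_isIntegral_map (heckeBetaBar ℚbar M q) (S34SP_reg M f hf)
  rw [S34SP_beta_jB] at hint
  have hreg : 0 ≤ Q.ord (S34SP_jq M q) := S34SX_reg_jBar (M * q) Q hQ q (Dvd.intro_left M rfl)
  by_cases h0 : heckeBetaBar ℚbar M q f = 0
  · rw [h0, Place.ord_zero]
  · by_cases hj0 : S34SP_jq M q = 0
    · have hmem : S34SP_jq M q ∈ Q.toValuationSubring := by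
        rw [hj0]; exact Q.toValuationSubring.zero_mem
      exact (BG_mem_iff_ord_nonneg Q h0).mp (BL_mem_of_isIntegral Q hmem hint)
    · exact (BG_mem_iff_ord_nonneg Q h0).mp
        (BL_mem_of_isIntegral Q ((BG_mem_iff_ord_nonneg Q hj0).mpr hreg) hint)

/-- `δ_A^* = α₂ α₁`. -/
theorem S36PA_reg_AA {f : ↥(modularFunctionFieldBar M)}
    (hf : ∀ P : Place ℚbar ↥(modularFunctionFieldBar M), 0 ≤ P.ord (jB M) → 0 ≤ P.ord f)
    (Q : Place ℚbar ↥(modularFunctionFieldBar (M * q * q))) (hQ : 0 ≤ Q.ord (jB (M * q * q))) :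
    0 ≤ Q.ord (heckeAlphaBar ℚbar (M * q) q (heckeAlphaBar ℚbar M q f)) :=
  S36PA_reg_alpha (M * q) q (fun P hP => S36PA_reg_alpha M q hf P hP) Q hQ

/-- `δ_C^* = β₂ β₁`. -/
theorem S36PA_reg_BB {f : ↥(modularFunctionFieldBar M)}
    (hf : ∀ P : Place ℚbar ↥(modularFunctionFieldBar M), 0 ≤ P.ord (jB M) → 0 ≤ P.ord f)
    (Q : Place ℚbar ↥(modularFunctionFieldBar (M * q * q))) (hQ : 0 ≤ Q.ord (jB (M * q * q))) :
    0 ≤ Q.ord (heckeBetaBar ℚbar (M * q) q (heckeBetaBar ℚbar M q f)) :=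
  S36PA_reg_beta (M * q) q (fun P hP => S36PA_reg_beta M q hf P hP) Q hQ

end reg

section lift

variable (M q : ℕ) [NeZero M] [NeZero q] (hq : q.Prime) (hqM : ¬ q ∣ M)
  (A : ValuationSubring ℚbar) (hA : A.LiesOverPrime q)
  (ζ : ℚbarˣ) (hζ : ζ ^ q = 1) (hζ1 : ζ ≠ 1)

/-- the bridge between the two forms of "`H`-fixed". -/
theorem S36PA_fix_of_smul (N : ℕ) [NeZero N] (H : Subgroup (ℚbar ≃ₐ[ℚ] ℚbar))
    {f : ↥(modularFunctionFieldBar N)}
    (hf : ∀ τ ∈ H, arithmeticGalois (modularFunctionFieldFull N) τ • f = f) :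
    f ∈ (S36FI_act N H).fixF := by
  rw [S36FI_mem_fixF]
  intro σ hσ
  exact hf σ hσ

include hq hqM hA in
/-- **the level-`M` lift in the Gauss ring of `F_M ⊂ ℚ̄((t))`** (`S36PA_lift`, reformulated):
for `ā ∈ κ` regular off the cusps there is `f₀ ∈ F_M`, `I`-fixed, regular off the cusps, in the
Gauss ring, with reduction `ā`. -/
theorem S36PA_lift_G
    (a : ↥(modularFunctionFieldFullC (IsLocalRing.ResidueField A) M))
    (ha : ∀ Q : Place (IsLocalRing.ResidueField A)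
        ↥(modularFunctionFieldFullC (IsLocalRing.ResidueField A) M),
      0 ≤ Q.ord (S18_jbar M (IsLocalRing.ResidueField A)) → 0 ≤ Q.ord a) :
    ∃ f₀ : ↥(modularFunctionFieldBar M),
      f₀ ∈ (S36FI_act M (A.inertiaSubgroupIn ℚ)).fixF ∧
      (∀ P : Place ℚbar ↥(modularFunctionFieldBar M), 0 ≤ P.ord (jB M) → 0 ≤ P.ord f₀) ∧
      ∃ h : f₀ ∈ S36V_G A (modularFunctionFieldBar M).val.toRingHom,
        S36V_Gred A (modularFunctionFieldBar M).val.toRingHom ⟨f₀, h⟩ =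
          (a : LaurentSeries (IsLocalRing.ResidueField A)) := by
  haveI : Fact q.Prime := ⟨hq⟩
  have h : ReductionInputsModL A M := RI_main M A hq hA hqM
  obtain ⟨f₀, hf₀, hfix, hreg, hred⟩ := S36PA_lift M A h hA hqM a ha
  have hO : f₀ ∈ S18_O A M := hf₀
  refine ⟨f₀, S36PA_fix_of_smul M _ hfix, hreg, S36V_S18_le A M hO, ?_⟩
  have h1 := S36V_Gred_S18 A M ⟨f₀, hO⟩
  have h2 : S18_red A M ⟨f₀, hO⟩ = a := hred
  rw [h2] at h1
  exact h1

include hq hqM hA in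
/-- **the `δ_A`-lift at level `M q²`** (RULING D10, chart `U`): for `ā ∈ κ = F_k(M)` regular off
the cusps, `f = α₂ α₁ f₀ ∈ F_{M q²}` is `I`-fixed, regular off the cusps, lies in the three Gauss
rings, with reductions `(FF, FV, VV) = (ā, ā, ā(t^{q²}))`. -/
theorem S36PA_lift_A
    (a : ↥(modularFunctionFieldFullC (IsLocalRing.ResidueField A) M))
    (ha : ∀ Q : Place (IsLocalRing.ResidueField A)
        ↥(modularFunctionFieldFullC (IsLocalRing.ResidueField A) M),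
      0 ≤ Q.ord (S18_jbar M (IsLocalRing.ResidueField A)) → 0 ≤ Q.ord a) :
    ∃ f : ↥(modularFunctionFieldBar (M * q * q)),
      f ∈ (S36FI_act (M * q * q) (A.inertiaSubgroupIn ℚ)).fixF ∧
      (∀ Q : Place ℚbar ↥(modularFunctionFieldBar (M * q * q)),
        0 ≤ Q.ord (jB (M * q * q)) → 0 ≤ Q.ord f) ∧
      (∃ h : f ∈ S36V_G A (S36V_emFF M q),
        S36V_Gred A (S36V_emFF M q) ⟨f, h⟩ = (a : LaurentSeries (IsLocalRing.ResidueField A))) ∧
      (∃ h : f ∈ S36V_G A (S36V_emFV M q hq hqM ζ hζ hζ1),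
        S36V_Gred A (S36V_emFV M q hq hqM ζ hζ hζ1) ⟨f, h⟩ =
          (a : LaurentSeries (IsLocalRing.ResidueField A))) ∧
      (∃ h : f ∈ S36V_G A (S36V_emVV M q hq hqM),
        S36V_Gred A (S36V_emVV M q hq hqM) ⟨f, h⟩ =
          qExpand (IsLocalRing.ResidueField A) q (qExpand (IsLocalRing.ResidueField A) q
            (a : LaurentSeries (IsLocalRing.ResidueField A)))) := by
  obtain ⟨f₀, hfix, hreg, hG, hred⟩ := S36PA_lift_G M q hq hqM A hA a ha
  refine ⟨heckeAlphaBar ℚbar (M * q) q (heckeAlphaBar ℚbar M q f₀),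
    S36VR_fix_alpha (M * q) q _ (S36VR_fix_alpha M q _ hfix),
    fun Q hQ => S36PA_reg_AA M q hreg Q hQ, ?_, ?_, ?_⟩
  · obtain ⟨h, e⟩ := S36PA_AA_FF M q A hG
    exact ⟨h, e.trans hred⟩
  · obtain ⟨h, e⟩ := S36PA_AA_FV M q hq hqM A ζ hζ hζ1 hG
    exact ⟨h, e.trans hred⟩
  · obtain ⟨h, e⟩ := S36PA_AA_VV M q hq hqM A hG
    exact ⟨h, by rw [e, hred]⟩

include hq hqM hA in
/-- **the `δ_C`-lift at level `M q²`** (RULING D10, chart `U`): for `ā ∈ κ = F_k(M)` regular off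
the cusps, `f = β₂ β₁ f₀ ∈ F_{M q²}` is `I`-fixed, regular off the cusps, lies in the three Gauss
rings, with reductions `(FF, FV, VV) = (ā(t^{q²}), ā, ā)`. -/
theorem S36PA_lift_C
    (a : ↥(modularFunctionFieldFullC (IsLocalRing.ResidueField A) M))
    (ha : ∀ Q : Place (IsLocalRing.ResidueField A)
        ↥(modularFunctionFieldFullC (IsLocalRing.ResidueField A) M),
      0 ≤ Q.ord (S18_jbar M (IsLocalRing.ResidueField A)) → 0 ≤ Q.ord a) :
    ∃ f : ↥(modularFunctionFieldBar (M * q * q)),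
      f ∈ (S36FI_act (M * q * q) (A.inertiaSubgroupIn ℚ)).fixF ∧
      (∀ Q : Place ℚbar ↥(modularFunctionFieldBar (M * q * q)),
        0 ≤ Q.ord (jB (M * q * q)) → 0 ≤ Q.ord f) ∧
      (∃ h : f ∈ S36V_G A (S36V_emFF M q),
        S36V_Gred A (S36V_emFF M q) ⟨f, h⟩ =
          qExpand (IsLocalRing.ResidueField A) q (qExpand (IsLocalRing.ResidueField A) q
            (a : LaurentSeries (IsLocalRing.ResidueField A)))) ∧
      (∃ h : f ∈ S36V_G A (S36V_emFV M q hq hqM ζ hζ hζ1),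
        S36V_Gred A (S36V_emFV M q hq hqM ζ hζ hζ1) ⟨f, h⟩ =
          (a : LaurentSeries (IsLocalRing.ResidueField A))) ∧
      (∃ h : f ∈ S36V_G A (S36V_emVV M q hq hqM),
        S36V_Gred A (S36V_emVV M q hq hqM) ⟨f, h⟩ =
          (a : LaurentSeries (IsLocalRing.ResidueField A))) := by
  haveI : Fact q.Prime := ⟨hq⟩
  haveI : CharP (IsLocalRing.ResidueField A) q := S18_residue_charP A q hq hA
  obtain ⟨f₀, hfix, hreg, hG, hred⟩ := S36PA_lift_G M q hq hqM A hA a ha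
  refine ⟨heckeBetaBar ℚbar (M * q) q (heckeBetaBar ℚbar M q f₀),
    S36VR_fix_beta (M * q) q _ (S36VR_fix_beta M q _ hfix),
    fun Q hQ => S36PA_reg_BB M q hreg Q hQ, ?_, ?_, ?_⟩
  · obtain ⟨h, e⟩ := S36PA_BB_FF M q A hG
    exact ⟨h, by rw [e, hred]⟩
  · obtain ⟨h, e⟩ := S36PA_BB_FV M q hq hqM A ζ hζ hζ1 hG
    exact ⟨h, e.trans hred⟩
  · obtain ⟨h, e⟩ := S36PA_BB_VV M q hq hqM A hG
    exact ⟨h, e.trans hred⟩

end lift

end Fermat.Agent.S36
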