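import Mathlib

/-!
# TRACK 10 (S36), package F3 = NODAL3 (R11) (helper14), abstract part.  Prefix `S36N3_`.

Pure algebra over Mathlib.  `R₁, R₂, R₃` are the coordinate rings of the three components
`FF`, `FV`, `VV` of the special fibre at level `q²`, `W ⊂ R₁ × R₂ × R₃` is the reduction of the
integral functions (a subring).  The reduced special fibre has PLANAR TRIPLE POINTS at the
supersingular points (`δ = 3`), so `W` does NOT contain `I × I × I` (`I` = the functions vanishing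
at the supersingular points); the correct statement (R11b') is `I² × I² × I² ⊂ W`.

## Part 1: the conductor (R11b')
* `S36N3_mid`, `S36N3_fst`, `S36N3_trd` : from the two families `(x₁, x₂, 0) ∈ W`,
  `(0, x₂, x₃) ∈ W` (the reductions of the pull backs `p₁^*`, `p₂^*` of the level-`q` functions
  vanishing at the nodes) the elements `(x x', 0, 0)`, `(0, x x', 0)`, `(0, 0, x x')` of `W`;
* `S36N3_c I₁ I₂ I₃ = I₁² × I₂² × I₃²`, an ideal of `R₁ × R₂ × R₃`;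
* `S36N3_cond` : `S36N3_c I₁ I₂ I₃ ⊂ W`;  `S36N3_sq_mem_c` : `x ∈ I₁ × I₂ × I₃ ⇒ x² ∈ c`;
* `S36N3_cond_param`, `S36N3_mul_param` : the same in "level-`M` coordinates"
  (`u_j : R₀ → R_j` onto, `(u₁ a, u₂ a, 0), (0, u₂ a, u₃ a) ∈ W` for `a ∈ I ⊂ R₀`).

## Part 2: ordinary points (R11a) and separation
* `S36N3_exists_ne` : finitely many `k`-points `z y` and a `k`-point `e ≠ z y` ⇒ a function
  vanishing at all `z y` and not at `e`;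
* `S36N3_sep` : Lagrange interpolation (`ε(z y) = 1`, `ε(z y') = 0` for `y' ≠ y`);
* `S36N3_ord₁`, `S36N3_ord₂`, `S36N3_ord₃` : (R11a) a point on exactly one component has a
  function `g ∈ W` not vanishing at it and vanishing identically on the two other components.

## Part 3: equal branch values (R11c = `hW1`) BY NORMS
* `S36N3_eq_of_norm` : `k` infinite, `2 ≤ q`; if `(a − t)(b − t)^(q−1) = (c − t)^q` for all but
  finitely many `t : k` then `a = c` and `b = c`.  (Apply the norm–residue formulas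
  `red_F(N_{p₁} g) = ḡ_FF · ḡ_FV^(q−1)`, `red_V(N_{p₁} g) = twist of ḡ_VV^q` to `g − t` and use the
  level-`q` statement "the two branch values of an integral function agree at a node".)
* `S36N3_hW1_of_norm` : the packaged form (`hW1` of `S36G_Datum` for a set `W` with three
  branch values satisfying the norm relation).
-/

set_option autoImplicit false

namespace Fermat.Agent.S36

section Cond

variable {R₁ R₂ R₃ : Type*} [CommRing R₁] [CommRing R₂] [CommRing R₃]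

/-- the middle component: `(0, x x', 0) ∈ W`. -/
theorem S36N3_mid_mul (W : Subring (R₁ × R₂ × R₃)) {x x' : R₂}
    (hx : ∃ x₁ : R₁, (x₁, x, (0 : R₃)) ∈ W) (hx' : ∃ x₃ : R₃, ((0 : R₁), x', x₃) ∈ W) :
    ((0 : R₁), x * x', (0 : R₃)) ∈ W := by
  obtain ⟨x₁, h1⟩ := hx
  obtain ⟨x₃, h3⟩ := hx'
  have e : (((0 : R₁), x * x', (0 : R₃)) : R₁ × R₂ × R₃) = (x₁, x, 0) * (0, x', x₃) := by
    refine Prod.ext ?_ (Prod.ext ?_ ?_) <;> simp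
  rw [e]
  exact W.mul_mem h1 h3

/-- the middle component: `(0, z, 0) ∈ W` for `z ∈ I₂²`. -/
theorem S36N3_mid (W : Subring (R₁ × R₂ × R₃)) (I₂ : Ideal R₂)
    (h21 : ∀ x₂ ∈ I₂, ∃ x₁ : R₁, (x₁, x₂, (0 : R₃)) ∈ W)
    (h23 : ∀ x₂ ∈ I₂, ∃ x₃ : R₃, ((0 : R₁), x₂, x₃) ∈ W) :
    ∀ z ∈ I₂ ^ 2, ((0 : R₁), z, (0 : R₃)) ∈ W := by
  intro z hz
  rw [pow_two] at hz
  refine Submodule.mul_induction_on hz ?_ ?_
  · intro x hx x' hx'
    exact S36N3_mid_mul W (h21 x hx) (h23 x' hx')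
  · intro z z' hz hz'
    have e : (((0 : R₁), z + z', (0 : R₃)) : R₁ × R₂ × R₃) = (0, z, 0) + (0, z', 0) := by
      refine Prod.ext ?_ (Prod.ext ?_ ?_) <;> simp
    rw [e]
    exact W.add_mem hz hz'

/-- the first component: `(x x', 0, 0) ∈ W`. -/
theorem S36N3_fst_mul (W : Subring (R₁ × R₂ × R₃)) (I₂ : Ideal R₂)
    (h21 : ∀ x₂ ∈ I₂, ∃ x₁ : R₁, (x₁, x₂, (0 : R₃)) ∈ W)
    (h23 : ∀ x₂ ∈ I₂, ∃ x₃ : R₃, ((0 : R₁), x₂, x₃) ∈ W) {x x' : R₁}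
    (hx : ∃ x₂ ∈ I₂, (x, x₂, (0 : R₃)) ∈ W) (hx' : ∃ x₂ ∈ I₂, (x', x₂, (0 : R₃)) ∈ W) :
    (x * x', (0 : R₂), (0 : R₃)) ∈ W := by
  obtain ⟨y, hy, h1⟩ := hx
  obtain ⟨y', hy', h1'⟩ := hx'
  have hm := S36N3_mid_mul W (h21 y hy) (h23 y' hy')
  have e : ((x * x', (0 : R₂), (0 : R₃)) : R₁ × R₂ × R₃) =
      (x, y, 0) * (x', y', 0) - (0, y * y', 0) := by
    refine Prod.ext ?_ (Prod.ext ?_ ?_) <;> simp
  rw [e]
  exact W.sub_mem (W.mul_mem h1 h1') hm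

/-- the first component: `(z, 0, 0) ∈ W` for `z ∈ I₁²`. -/
theorem S36N3_fst (W : Subring (R₁ × R₂ × R₃)) (I₁ : Ideal R₁) (I₂ : Ideal R₂)
    (h12 : ∀ x₁ ∈ I₁, ∃ x₂ ∈ I₂, (x₁, x₂, (0 : R₃)) ∈ W)
    (h21 : ∀ x₂ ∈ I₂, ∃ x₁ : R₁, (x₁, x₂, (0 : R₃)) ∈ W)
    (h23 : ∀ x₂ ∈ I₂, ∃ x₃ : R₃, ((0 : R₁), x₂, x₃) ∈ W) :
    ∀ z ∈ I₁ ^ 2, (z, (0 : R₂), (0 : R₃)) ∈ W := by
  intro z hz
  rw [pow_two] at hz
  refine Submodule.mul_induction_on hz ?_ ?_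
  · intro x hx x' hx'
    exact S36N3_fst_mul W I₂ h21 h23 (h12 x hx) (h12 x' hx')
  · intro z z' hz hz'
    have e : ((z + z', (0 : R₂), (0 : R₃)) : R₁ × R₂ × R₃) = (z, 0, 0) + (z', 0, 0) := by
      refine Prod.ext ?_ (Prod.ext ?_ ?_) <;> simp
    rw [e]
    exact W.add_mem hz hz'

/-- the third component: `(0, 0, x x') ∈ W`. -/
theorem S36N3_trd_mul (W : Subring (R₁ × R₂ × R₃)) (I₂ : Ideal R₂)
    (h21 : ∀ x₂ ∈ I₂, ∃ x₁ : R₁, (x₁, x₂, (0 : R₃)) ∈ W)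
    (h23 : ∀ x₂ ∈ I₂, ∃ x₃ : R₃, ((0 : R₁), x₂, x₃) ∈ W) {x x' : R₃}
    (hx : ∃ x₂ ∈ I₂, ((0 : R₁), x₂, x) ∈ W) (hx' : ∃ x₂ ∈ I₂, ((0 : R₁), x₂, x') ∈ W) :
    ((0 : R₁), (0 : R₂), x * x') ∈ W := by
  obtain ⟨y, hy, h1⟩ := hx
  obtain ⟨y', hy', h1'⟩ := hx'
  have hm := S36N3_mid_mul W (h21 y hy) (h23 y' hy')
  have e : (((0 : R₁), (0 : R₂), x * x') : R₁ × R₂ × R₃) =
      (0, y, x) * (0, y', x') - (0, y * y', 0) := by
    refine Prod.ext ?_ (Prod.ext ?_ ?_) <;> simp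
  rw [e]
  exact W.sub_mem (W.mul_mem h1 h1') hm

/-- the third component: `(0, 0, z) ∈ W` for `z ∈ I₃²`. -/
theorem S36N3_trd (W : Subring (R₁ × R₂ × R₃)) (I₂ : Ideal R₂) (I₃ : Ideal R₃)
    (h21 : ∀ x₂ ∈ I₂, ∃ x₁ : R₁, (x₁, x₂, (0 : R₃)) ∈ W)
    (h23 : ∀ x₂ ∈ I₂, ∃ x₃ : R₃, ((0 : R₁), x₂, x₃) ∈ W)
    (h32 : ∀ x₃ ∈ I₃, ∃ x₂ ∈ I₂, ((0 : R₁), x₂, x₃) ∈ W) :
    ∀ z ∈ I₃ ^ 2, ((0 : R₁), (0 : R₂), z) ∈ W := by
  intro z hz
  rw [pow_two] at hz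
  refine Submodule.mul_induction_on hz ?_ ?_
  · intro x hx x' hx'
    exact S36N3_trd_mul W I₂ h21 h23 (h32 x hx) (h32 x' hx')
  · intro z z' hz hz'
    have e : (((0 : R₁), (0 : R₂), z + z') : R₁ × R₂ × R₃) = (0, 0, z) + (0, 0, z') := by
      refine Prod.ext ?_ (Prod.ext ?_ ?_) <;> simp
    rw [e]
    exact W.add_mem hz hz'

/-- the conductor-type ideal `I₁² × I₂² × I₃²` of `R₁ × R₂ × R₃`. -/
def S36N3_c (I₁ : Ideal R₁) (I₂ : Ideal R₂) (I₃ : Ideal R₃) : Ideal (R₁ × R₂ × R₃) :=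
  Ideal.prod (I₁ ^ 2) (Ideal.prod (I₂ ^ 2) (I₃ ^ 2))

theorem S36N3_mem_c {I₁ : Ideal R₁} {I₂ : Ideal R₂} {I₃ : Ideal R₃} {x : R₁ × R₂ × R₃} :
    x ∈ S36N3_c I₁ I₂ I₃ ↔ x.1 ∈ I₁ ^ 2 ∧ x.2.1 ∈ I₂ ^ 2 ∧ x.2.2 ∈ I₃ ^ 2 := by
  rw [S36N3_c, Ideal.mem_prod, Ideal.mem_prod]

/-- **(R11b')**: the conductor `I₁² × I₂² × I₃²` is contained in `W`. -/
theorem S36N3_cond (W : Subring (R₁ × R₂ × R₃)) (I₁ : Ideal R₁) (I₂ : Ideal R₂) (I₃ : Ideal R₃)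
    (h12 : ∀ x₁ ∈ I₁, ∃ x₂ ∈ I₂, (x₁, x₂, (0 : R₃)) ∈ W)
    (h21 : ∀ x₂ ∈ I₂, ∃ x₁ : R₁, (x₁, x₂, (0 : R₃)) ∈ W)
    (h23 : ∀ x₂ ∈ I₂, ∃ x₃ : R₃, ((0 : R₁), x₂, x₃) ∈ W)
    (h32 : ∀ x₃ ∈ I₃, ∃ x₂ ∈ I₂, ((0 : R₁), x₂, x₃) ∈ W) :
    ∀ x ∈ S36N3_c I₁ I₂ I₃, x ∈ W := by
  rintro ⟨x₁, x₂, x₃⟩ hx
  rw [S36N3_mem_c] at hx
  obtain ⟨hx1, hx2, hx3⟩ := hx
  have e : ((x₁, x₂, x₃) : R₁ × R₂ × R₃) = (x₁, 0, 0) + (0, x₂, 0) + (0, 0, x₃) := by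
    refine Prod.ext ?_ (Prod.ext ?_ ?_) <;> simp
  rw [e]
  exact W.add_mem (W.add_mem (S36N3_fst W I₁ I₂ h12 h21 h23 x₁ hx1)
    (S36N3_mid W I₂ h21 h23 x₂ hx2)) (S36N3_trd W I₂ I₃ h21 h23 h32 x₃ hx3)

/-- (nil): an element of `I₁ × I₂ × I₃` has its square in the conductor. -/
theorem S36N3_sq_mem_c {I₁ : Ideal R₁} {I₂ : Ideal R₂} {I₃ : Ideal R₃} {x : R₁ × R₂ × R₃}
    (h1 : x.1 ∈ I₁) (h2 : x.2.1 ∈ I₂) (h3 : x.2.2 ∈ I₃) : x ^ 2 ∈ S36N3_c I₁ I₂ I₃ := by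
  rw [S36N3_mem_c]
  refine ⟨?_, ?_, ?_⟩
  · rw [Prod.pow_fst]; exact Ideal.pow_mem_pow h1 2
  · rw [Prod.pow_snd, Prod.pow_fst]; exact Ideal.pow_mem_pow h2 2
  · rw [Prod.pow_snd, Prod.pow_snd]; exact Ideal.pow_mem_pow h3 2

/-! ### The same in level-`M` coordinates -/

variable {R₀ : Type*} [CommRing R₀]

/-- products, in level-`M` coordinates: `(u₁ (a a'), 0, 0)`, `(0, u₂ (a a'), 0)`,
`(0, 0, u₃ (a a'))` are in `W` for `a, a' ∈ I`. -/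
theorem S36N3_mul_param (W : Subring (R₁ × R₂ × R₃)) (I : Ideal R₀)
    (u₁ : R₀ →+* R₁) (u₂ : R₀ →+* R₂) (u₃ : R₀ →+* R₃)
    (hA : ∀ a ∈ I, (u₁ a, u₂ a, (0 : R₃)) ∈ W)
    (hB : ∀ a ∈ I, ((0 : R₁), u₂ a, u₃ a) ∈ W) {a a' : R₀} (ha : a ∈ I) (ha' : a' ∈ I) :
    (u₁ (a * a'), (0 : R₂), (0 : R₃)) ∈ W ∧ ((0 : R₁), u₂ (a * a'), (0 : R₃)) ∈ W ∧
      ((0 : R₁), (0 : R₂), u₃ (a * a')) ∈ W := by
  have hm : ((0 : R₁), u₂ (a * a'), (0 : R₃)) ∈ W := by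
    rw [map_mul]
    exact S36N3_mid_mul W ⟨_, hA a ha⟩ ⟨_, hB a' ha'⟩
  refine ⟨?_, hm, ?_⟩
  · have e : ((u₁ (a * a'), (0 : R₂), (0 : R₃)) : R₁ × R₂ × R₃) =
        (u₁ a, u₂ a, 0) * (u₁ a', u₂ a', 0) - (0, u₂ (a * a'), 0) := by
      refine Prod.ext ?_ (Prod.ext ?_ ?_) <;> simp
    rw [e]
    exact W.sub_mem (W.mul_mem (hA a ha) (hA a' ha')) hm
  · have e : (((0 : R₁), (0 : R₂), u₃ (a * a')) : R₁ × R₂ × R₃) =
        (0, u₂ a, u₃ a) * (0, u₂ a', u₃ a') - (0, u₂ (a * a'), 0) := by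
      refine Prod.ext ?_ (Prod.ext ?_ ?_) <;> simp
    rw [e]
    exact W.sub_mem (W.mul_mem (hB a ha) (hB a' ha')) hm

/-- **(R11b') in level-`M` coordinates**: `u_j : R₀ → R_j` onto, `I ⊂ R₀` an ideal with
`(u₁ a, u₂ a, 0) ∈ W` and `(0, u₂ a, u₃ a) ∈ W` for `a ∈ I`.  Then
`(u₁ I)² × (u₂ I)² × (u₃ I)² ⊂ W`. -/
theorem S36N3_cond_param (W : Subring (R₁ × R₂ × R₃)) (I : Ideal R₀)
    (u₁ : R₀ →+* R₁) (u₂ : R₀ →+* R₂) (u₃ : R₀ →+* R₃)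
    (h₁ : Function.Surjective u₁) (h₂ : Function.Surjective u₂) (h₃ : Function.Surjective u₃)
    (hA : ∀ a ∈ I, (u₁ a, u₂ a, (0 : R₃)) ∈ W)
    (hB : ∀ a ∈ I, ((0 : R₁), u₂ a, u₃ a) ∈ W) :
    ∀ x ∈ S36N3_c (I.map u₁) (I.map u₂) (I.map u₃), x ∈ W := by
  have m₁ : ∀ x ∈ I.map u₁, ∃ a ∈ I, u₁ a = x := fun x hx =>
    (Ideal.mem_map_iff_of_surjective u₁ h₁).1 hx
  have m₂ : ∀ x ∈ I.map u₂, ∃ a ∈ I, u₂ a = x := fun x hx =>
    (Ideal.mem_map_iff_of_surjective u₂ h₂).1 hx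
  have m₃ : ∀ x ∈ I.map u₃, ∃ a ∈ I, u₃ a = x := fun x hx =>
    (Ideal.mem_map_iff_of_surjective u₃ h₃).1 hx
  refine S36N3_cond W _ _ _ ?_ ?_ ?_ ?_
  · intro x hx
    obtain ⟨a, ha, rfl⟩ := m₁ x hx
    exact ⟨u₂ a, Ideal.mem_map_of_mem u₂ ha, hA a ha⟩
  · intro x hx
    obtain ⟨a, ha, rfl⟩ := m₂ x hx
    exact ⟨u₁ a, hA a ha⟩
  · intro x hx
    obtain ⟨a, ha, rfl⟩ := m₂ x hx
    exact ⟨u₃ a, hB a ha⟩
  · intro x hx
    obtain ⟨a, ha, rfl⟩ := m₃ x hx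
    exact ⟨u₂ a, Ideal.mem_map_of_mem u₂ ha, hB a ha⟩

end Cond

/-! ### Part 2: points -/

section Points

variable {k R : Type*} [Field k] [CommRing R] [Algebra k R]

/-- two different `k`-points are separated by a function vanishing at the first one. -/
theorem S36N3_exists_ne_one {z e : R →ₐ[k] k} (h : e ≠ z) : ∃ x : R, z x = 0 ∧ e x ≠ 0 := by
  have : ∃ x : R, e x ≠ z x := by
    by_contra hcon
    exact h (AlgHom.ext fun x => not_not.1 fun hx => hcon ⟨x, hx⟩)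
  obtain ⟨x, hx⟩ := this
  refine ⟨x - algebraMap k R (z x), ?_, ?_⟩
  · rw [map_sub, AlgHom.commutes, Algebra.algebraMap_self_apply, sub_self]
  · rw [map_sub, AlgHom.commutes, Algebra.algebraMap_self_apply]
    exact sub_ne_zero.2 hx

/-- finitely many `k`-points `z y` and a `k`-point `e` different from all of them: there is a
function vanishing at all `z y` and not at `e`. -/
theorem S36N3_exists_ne {ι : Type*} [Finite ι] (z : ι → R →ₐ[k] k) (e : R →ₐ[k] k)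
    (hne : ∀ y, e ≠ z y) : ∃ x : R, (∀ y, z y x = 0) ∧ e x ≠ 0 := by
  classical
  cases nonempty_fintype ι
  choose f hf0 hfe using fun y => S36N3_exists_ne_one (hne y)
  refine ⟨∏ y, f y, ?_, ?_⟩
  · intro y
    rw [map_prod]
    exact Finset.prod_eq_zero (Finset.mem_univ y) (hf0 y)
  · rw [map_prod]
    exact Finset.prod_ne_zero_iff.2 fun y _ => hfe y

/-- the same for a finite set of points indexed by a `Finset`. -/
theorem S36N3_exists_ne_finset {ι : Type*} (s : Finset ι) (z : ι → R →ₐ[k] k) (e : R →ₐ[k] k)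
    (hne : ∀ y ∈ s, e ≠ z y) : ∃ x : R, (∀ y ∈ s, z y x = 0) ∧ e x ≠ 0 := by
  classical
  obtain ⟨x, hx0, hxe⟩ := S36N3_exists_ne (fun y : s => z y) e (fun y => hne y y.2)
  exact ⟨x, fun y hy => hx0 ⟨y, hy⟩, hxe⟩

/-- Lagrange interpolation: for finitely many pairwise different `k`-points there is a
function with value `1` at `z y` and `0` at the `z y'`, `y' ≠ y`. -/
theorem S36N3_sep {ι : Type*} [Finite ι] (z : ι → R →ₐ[k] k) (hz : Function.Injective z)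
    (y : ι) : ∃ ε : R, z y ε = 1 ∧ ∀ y', y' ≠ y → z y' ε = 0 := by
  classical
  obtain ⟨x, hx0, hxe⟩ := S36N3_exists_ne (fun y' : {y' : ι // y' ≠ y} => z y') (z y)
    (fun y' h => y'.2 (hz h).symm)
  refine ⟨algebraMap k R (z y x)⁻¹ * x, ?_, ?_⟩
  · rw [map_mul, AlgHom.commutes, Algebra.algebraMap_self_apply, inv_mul_cancel₀ hxe]
  · intro y' hy'
    rw [map_mul, hx0 ⟨y', hy'⟩, mul_zero]

end Points

section Ord

variable {k R₁ R₂ R₃ : Type*} [Field k] [CommRing R₁] [CommRing R₂] [CommRing R₃]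

/-- **(R11a)**, first component: a point `e` of the first component at which some `x ∈ I₁²`
does not vanish has a function `g ∈ W`, `e g₁ ≠ 0`, vanishing on the two other components. -/
theorem S36N3_ord₁ (W : Subring (R₁ × R₂ × R₃)) (I₁ : Ideal R₁)
    (hW : ∀ z ∈ I₁ ^ 2, (z, (0 : R₂), (0 : R₃)) ∈ W) (e : R₁ →+* k)
    (he : ∃ x ∈ I₁, e x ≠ 0) : ∃ g ∈ W, e g.1 ≠ 0 ∧ g.2.1 = 0 ∧ g.2.2 = 0 := by
  obtain ⟨x, hx, hex⟩ := he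
  refine ⟨(x ^ 2, 0, 0), hW _ (Ideal.pow_mem_pow hx 2), ?_, rfl, rfl⟩
  show e (x ^ 2) ≠ 0
  rw [map_pow]
  exact pow_ne_zero 2 hex

/-- **(R11a)**, second component. -/
theorem S36N3_ord₂ (W : Subring (R₁ × R₂ × R₃)) (I₂ : Ideal R₂)
    (hW : ∀ z ∈ I₂ ^ 2, ((0 : R₁), z, (0 : R₃)) ∈ W) (e : R₂ →+* k)
    (he : ∃ x ∈ I₂, e x ≠ 0) : ∃ g ∈ W, e g.2.1 ≠ 0 ∧ g.1 = 0 ∧ g.2.2 = 0 := by
  obtain ⟨x, hx, hex⟩ := he
  refine ⟨(0, x ^ 2, 0), hW _ (Ideal.pow_mem_pow hx 2), ?_, rfl, rfl⟩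
  show e (x ^ 2) ≠ 0
  rw [map_pow]
  exact pow_ne_zero 2 hex

/-- **(R11a)**, third component. -/
theorem S36N3_ord₃ (W : Subring (R₁ × R₂ × R₃)) (I₃ : Ideal R₃)
    (hW : ∀ z ∈ I₃ ^ 2, ((0 : R₁), (0 : R₂), z) ∈ W) (e : R₃ →+* k)
    (he : ∃ x ∈ I₃, e x ≠ 0) : ∃ g ∈ W, e g.2.2 ≠ 0 ∧ g.1 = 0 ∧ g.2.1 = 0 := by
  obtain ⟨x, hx, hex⟩ := he
  refine ⟨(0, 0, x ^ 2), hW _ (Ideal.pow_mem_pow hx 2), ?_, rfl, rfl⟩
  show e (x ^ 2) ≠ 0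
  rw [map_pow]
  exact pow_ne_zero 2 hex

end Ord

/-! ### Part 3: equal branch values by norms -/

section Norm

open Polynomial

variable {k : Type*} [Field k]

/-- if `(a − t)(b − t)^(q−1) = (c − t)^q` for all but finitely many `t` of an infinite field,
`2 ≤ q`, then `a = c` and `b = c`. -/
theorem S36N3_eq_of_norm [Infinite k] (q : ℕ) (hq : 2 ≤ q) (a b c : k)
    (h : {t : k | (a - t) * (b - t) ^ (q - 1) ≠ (c - t) ^ q}.Finite) : a = c ∧ b = c := by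
  have hP : (C a - X) * (C b - X) ^ (q - 1) = (C c - X : k[X]) ^ q := by
    apply Polynomial.eq_of_infinite_eval_eq
    have hsub : {t : k | (a - t) * (b - t) ^ (q - 1) ≠ (c - t) ^ q}ᶜ ⊆
        {x | eval x ((C a - X) * (C b - X) ^ (q - 1)) = eval x ((C c - X : k[X]) ^ q)} := by
      intro t ht
      rw [Set.mem_compl_iff] at ht
      have ht' : (a - t) * (b - t) ^ (q - 1) = (c - t) ^ q := not_not.1 ht
      show eval t ((C a - X) * (C b - X) ^ (q - 1)) = eval t ((C c - X : k[X]) ^ q)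
      simpa using ht'
    exact (Set.Finite.infinite_compl h).mono hsub
  have ha := congrArg (eval a) hP
  have hb := congrArg (eval b) hP
  simp only [eval_mul, eval_sub, eval_C, eval_X, eval_pow, sub_self, zero_mul] at ha hb
  have hq1 : q - 1 ≠ 0 := by omega
  rw [zero_pow hq1, mul_zero] at hb
  have h1 : c - a = 0 := pow_eq_zero_iff (by omega) |>.1 ha.symm
  have h2 : c - b = 0 := pow_eq_zero_iff (by omega) |>.1 hb.symm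
  exact ⟨(sub_eq_zero.1 h1).symm, (sub_eq_zero.1 h2).symm⟩

/-- the symmetric version: `(a − t)^q = (b − t)^(q−1) (c − t)` for all but finitely many `t`. -/
theorem S36N3_eq_of_norm' [Infinite k] (q : ℕ) (hq : 2 ≤ q) (a b c : k)
    (h : {t : k | (a - t) ^ q ≠ (b - t) ^ (q - 1) * (c - t)}.Finite) : a = c ∧ b = c := by
  have h' : {t : k | (c - t) * (b - t) ^ (q - 1) ≠ (a - t) ^ q}.Finite := by
    refine h.subset ?_
    intro t ht hcon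
    exact ht (by rw [hcon, mul_comm])
  obtain ⟨h1, h2⟩ := S36N3_eq_of_norm q hq c b a h'
  exact ⟨h1.symm, h2.trans h1.symm⟩

/-- **`hW1` by norms**, packaged: three branch values `v₁, v₂, v₃` on a set `W` such that for
every `m ∈ W` the norm relation `(v₁ m − t)(v₂ m − t)^(q−1) = (v₃ m − t)^q` holds for all but
finitely many `t` are equal. -/
theorem S36N3_hW1_of_norm [Infinite k] (q : ℕ) (hq : 2 ≤ q) {R : Type*} (W : Set R)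
    (v₁ v₂ v₃ : R → k)
    (hN : ∀ m ∈ W, {t : k | (v₁ m - t) * (v₂ m - t) ^ (q - 1) ≠ (v₃ m - t) ^ q}.Finite) :
    ∀ m ∈ W, v₁ m = v₂ m ∧ v₁ m = v₃ m := by
  intro m hm
  obtain ⟨h1, h2⟩ := S36N3_eq_of_norm q hq _ _ _ (hN m hm)
  exact ⟨h1.trans h2.symm, h1⟩

end Norm

end Fermat.Agent.S36
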