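import Fermat.Agent.S36.Triv3Lat

/-!
# TRACK 10 (S36), the local core with an ABSTRACT injectivity input (helper11)

Variant of `S36TL_core` (S36/Triv3Lat.lean) for the final wiring: the injectivity step is a
hypothesis `inj` in the shape of the conclusion of helper27's `S36I3_inj_fix`
(`1 ∈ W^v` on `U` and on `U'` ⇒ `v` trivial), so that `htors`, `hrank`, `hconst`, … are discharged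
there.

* `S36TL_inj_of`      : `γ_U v ≡ 1 ⇒ v` trivial, from `inj`;
* `S36TL_core_of_inj` : the two norm relations for a normalised generator `u` ⇒
  `u ^ (q² − 1) = a·gⁿ`.
-/

set_option autoImplicit false
set_option linter.unusedSectionVars false

namespace Fermat.Agent.S36

open Fermat.Agent.S18 Fermat.Agent.S34

variable {L F k Fk₁ Fk₂ Fk₃ : Type*} [Field L] [Field F] [Algebra L F] [Field k]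
  [Field Fk₁] [Field Fk₂] [Field Fk₃] [Algebra k Fk₁] [Algebra k Fk₂] [Algebra k Fk₃]

variable {S₁ : S18_Val L F k Fk₁} {S₂ : S18_Val L F k Fk₂} {S₃ : S18_Val L F k Fk₃}
  (hS : S36L3_Same S₁ S₂ S₃)

/-- `γ_U v ≡ 1 ⇒ v` trivial, with the injectivity step as a hypothesis. -/
theorem S36TL_inj_of {n : ℕ} {ι : Type*} [Finite ι]
    (q : ℕ) [hq : Fact q.Prime] [CharP k q] (hnq : Nat.Coprime n q)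
    {C C' C'' : S36L3_Chart L F k Fk₁ Fk₂ Fk₃ n}
    (hle : S36L3_ChartLE C C'') (hle' : S36L3_ChartLE C' C'')
    {Kp : Subgroup Fˣ} (hKp : Kp ≤ S36L3_NormGrp S₁ S₂ S₃)
    (T : S36TL_Chart hS C Kp ι) (T' : S36TL_Chart hS C' Kp ι)
    (e₁ : ι → ↥C''.Rb₁ →ₐ[k] k) (e₂ : ι → ↥C''.Rb₂ →ₐ[k] k) (e₃ : ι → ↥C''.Rb₃ →ₐ[k] k)
    (hW1 : ∀ m ∈ S36L3_W hS C'' 1, ∀ y, e₁ y m.1 = e₂ y m.2.1 ∧ e₁ y m.1 = e₃ y m.2.2)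
    (c₁ : ∀ y (r : ↥C.Rb₁), e₁ y ⟨r, hle.Rb₁_le r.2⟩ = T.e₁ y r)
    (c₂ : ∀ y (r : ↥C.Rb₂), e₂ y ⟨r, hle.Rb₂_le r.2⟩ = T.e₂ y r)
    (c₃ : ∀ y (r : ↥C.Rb₃), e₃ y ⟨r, hle.Rb₃_le r.2⟩ = T.e₃ y r)
    (c₁' : ∀ y (r : ↥C'.Rb₁), e₁ y ⟨r, hle'.Rb₁_le r.2⟩ = T'.e₁ y r)
    (c₂' : ∀ y (r : ↥C'.Rb₂), e₂ y ⟨r, hle'.Rb₂_le r.2⟩ = T'.e₂ y r)
    (c₃' : ∀ y (r : ↥C'.Rb₃), e₃ y ⟨r, hle'.Rb₃_le r.2⟩ = T'.e₃ y r)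
    (inj : ∀ v ∈ Kp, (1 : ↥C.Rb₁ × ↥C.Rb₂ × ↥C.Rb₃) ∈ S36L3_W hS C ((v : Fˣ) : F) →
      (1 : ↥C'.Rb₁ × ↥C'.Rb₂ × ↥C'.Rb₃) ∈ S36L3_W hS C' ((v : Fˣ) : F) →
      v ∈ S36TL_Triv L (F := F) n)
    {v : Fˣ} (hv : v ∈ Kp)
    (hγ : ∀ y, (T.datum hKp).γ₁ v y = 1 ∧ (T.datum hKp).γ₂ v y = 1) :
    v ∈ S36TL_Triv L (F := F) n := by
  have hγ' := S36TL_gam_one' hS hle hle' hKp T T' e₁ e₂ e₃ hW1 c₁ c₂ c₃ c₁' c₂' c₃' hv hγ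
  exact inj v hv (T.one_mem hKp q hnq hv hγ) (T'.one_mem hKp q hnq hv hγ')

/-- **the local core of (G36-K)**, with the injectivity step as a hypothesis. -/
theorem S36TL_core_of_inj {n : ℕ} {ι : Type*} [Finite ι]
    (q : ℕ) [hq : Fact q.Prime] [CharP k q] (hnq : Nat.Coprime n q)
    {C C' C'' : S36L3_Chart L F k Fk₁ Fk₂ Fk₃ n}
    (hle : S36L3_ChartLE C C'') (hle' : S36L3_ChartLE C' C'')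
    {Kp : Subgroup Fˣ} (hKp : Kp ≤ S36L3_NormGrp S₁ S₂ S₃)
    (T : S36TL_Chart hS C Kp ι) (T' : S36TL_Chart hS C' Kp ι)
    (e₁ : ι → ↥C''.Rb₁ →ₐ[k] k) (e₂ : ι → ↥C''.Rb₂ →ₐ[k] k) (e₃ : ι → ↥C''.Rb₃ →ₐ[k] k)
    (hW1 : ∀ m ∈ S36L3_W hS C'' 1, ∀ y, e₁ y m.1 = e₂ y m.2.1 ∧ e₁ y m.1 = e₃ y m.2.2)
    (c₁ : ∀ y (r : ↥C.Rb₁), e₁ y ⟨r, hle.Rb₁_le r.2⟩ = T.e₁ y r)
    (c₂ : ∀ y (r : ↥C.Rb₂), e₂ y ⟨r, hle.Rb₂_le r.2⟩ = T.e₂ y r)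
    (c₃ : ∀ y (r : ↥C.Rb₃), e₃ y ⟨r, hle.Rb₃_le r.2⟩ = T.e₃ y r)
    (c₁' : ∀ y (r : ↥C'.Rb₁), e₁ y ⟨r, hle'.Rb₁_le r.2⟩ = T'.e₁ y r)
    (c₂' : ∀ y (r : ↥C'.Rb₂), e₂ y ⟨r, hle'.Rb₂_le r.2⟩ = T'.e₂ y r)
    (c₃' : ∀ y (r : ↥C'.Rb₃), e₃ y ⟨r, hle'.Rb₃_le r.2⟩ = T'.e₃ y r)
    (inj : ∀ v ∈ Kp, (1 : ↥C.Rb₁ × ↥C.Rb₂ × ↥C.Rb₃) ∈ S36L3_W hS C ((v : Fˣ) : F) →
      (1 : ↥C'.Rb₁ × ↥C'.Rb₂ × ↥C'.Rb₃) ∈ S36L3_W hS C' ((v : Fˣ) : F) →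
      v ∈ S36TL_Triv L (F := F) n)
    (hKtriv : ∀ t : Fˣ, t ∈ S36L3_NormGrp S₁ S₂ S₃ → t ∈ S36TL_Triv L (F := F) n → t ∈ Kp)
    (happrox : ∀ b₂ b₃ : k, b₂ ≠ 0 → b₃ ≠ 0 → ∃ f : S36L3_O3 S₁ S₂ S₃,
      S36L3_red S₁ S₂ S₃ f = ((1 : Fk₁), algebraMap k Fk₂ b₂, algebraMap k Fk₃ b₃))
    {u : Fˣ} (hu : u ∈ Kp) (ξ ξ' : k)
    (hV : ∀ y, ∃ m ∈ S36L3_W hS C ((u : Fˣ) : F), T.e₁ y m.1 ≠ 0 ∧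
      T.e₁ y m.1 * T.e₂ y m.2.1 ^ (q - 1) = ξ * T.e₃ y m.2.2 ^ q ∧
      ξ' * (T.e₂ y m.2.1 ^ (q - 1) * T.e₃ y m.2.2) = T.e₁ y m.1 ^ q) :
    u ^ (q ^ 2 - 1) ∈ S36TL_Triv L (F := F) n := by
  refine (T.datum hKp).normglue_val (S36TL_Triv L (F := F) n) ?_ ?_ q hq.out.pos
    (u := u) hu ξ ξ' hV
  · intro v hv hγ
    exact S36TL_inj_of hS q hnq hle hle' hKp T T' e₁ e₂ e₃ hW1 c₁ c₂ c₃ c₁' c₂' c₃' inj hv hγ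
  · intro ζ₁ ζ₂ h₁ h₂
    exact S36TL_renorm hS hKp T hKtriv happrox ζ₁ ζ₂ h₁ h₂

end Fermat.Agent.S36
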