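import Mathlib
import Fermat.Agent.S36.Spec3Pts
import Fermat.Agent.S36.Nodal3
import Fermat.Agent.S36.Triv3Core

/-!
# TRACK 10 (S36), C1.7 = EVAL-INST (helper21): the evaluations at the triple points.
Prefix `S36SE_`.

The three components `FF`, `FV`, `VV` of the special fibre have function fields `Fk₁ Fk₂ Fk₃`
over `k`; a triple point `y : ι` has a centre `P_j y : Place k Fk_j` on each of them
(`S36SE_Pts`).  A chart `C : S36L3_Chart …` is REGULAR at the triple points (`S36SE_Reg C X`) if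
the functions of its three coordinate rings `C.Rb_j` are regular at the `P_j y`.

* `S36SE_ev Rb P hdeg hP : Rb →ₐ[k] k` : evaluation `f ↦ f(P)` on a subalgebra of functions
  regular at `P` (`S36SE_ev_apply`, `S36SE_ev_eq_zero_iff`, `S36SE_ev_le` (restriction to a
  smaller subalgebra, by `rfl`), `S36SE_ev_ne` / `S36SE_ev_injective` (different affine places
  give different evaluations));
* `S36SE_e₁ C X hC`, `S36SE_e₂`, `S36SE_e₃ : ι → ↥C.Rb_j →ₐ[k] k` : the evaluations at the triple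
  points on the chart `C`;
* `S36SE_Reg.of_le` : a chart contained in a regular chart is regular;
* `S36SE_c₁`, `S36SE_c₂`, `S36SE_c₃` : the compatibilities `c₁ … c₃'` of `S36TL_core_of_inj`
  (`e_j` on `C''` restricted to `C` is `e_j` on `C`);
* `S36SE_e₁_injective` : `y ↦ e₁ y` is injective;
* `S36SE_hsep` : the hypothesis `hsep` of `S36TL_Chart` from the lifting property `hfst`
  (every `a ∈ Rb₁` is the first reduction of an element of `W¹`; HLIFT).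
-/

set_option autoImplicit false
set_option linter.unusedSectionVars false
set_option linter.style.haveILetI false

open AlgebraicCurve WithZero

namespace Fermat.Agent.S36

open Fermat.Agent.Lib Fermat.Agent.S17 Fermat.Agent.S18 Fermat.Agent.S34

/-! ### evaluation at a place on a subalgebra -/

section Ev

variable {k κ : Type*} [Field k] [Field κ] [Algebra k κ]

/-- the value of a constant. -/
theorem S36SE_c0_const (Q : Place k κ) (c : k) : FD_c0 Q (algebraMap k κ c) = c :=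
  FD_c0_unique Q (by rw [sub_self, map_zero]; exact zero_lt_one)

/-- evaluation at the place `P` on a subalgebra of functions regular at `P`. -/
noncomputable def S36SE_ev (Rb : Subalgebra k κ) (P : Place k κ) (hdeg : P.deg = 1)
    (hP : ∀ f ∈ Rb, P.adicValuation f ≤ 1) : ↥Rb →ₐ[k] k where
  toFun f := FD_c0 P (f : κ)
  map_one' := by
    have := S36SE_c0_const P (1 : k)
    rwa [map_one] at this
  map_mul' f g := (FD_c0_mul P hdeg (hP _ f.2) (hP _ g.2)).1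
  map_zero' := by
    have := S36SE_c0_const P (0 : k)
    rwa [map_zero] at this
  map_add' f g := (FD_c0_add P hdeg (hP _ f.2) (hP _ g.2)).1
  commutes' c := S36SE_c0_const P c

theorem S36SE_ev_apply (Rb : Subalgebra k κ) (P : Place k κ) (hdeg : P.deg = 1)
    (hP : ∀ f ∈ Rb, P.adicValuation f ≤ 1) (f : ↥Rb) :
    S36SE_ev Rb P hdeg hP f = FD_c0 P (f : κ) := rfl

theorem S36SE_ev_eq_zero_iff (Rb : Subalgebra k κ) (P : Place k κ) (hdeg : P.deg = 1)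
    (hP : ∀ f ∈ Rb, P.adicValuation f ≤ 1) (f : ↥Rb) :
    S36SE_ev Rb P hdeg hP f = 0 ↔ P.adicValuation (f : κ) < 1 :=
  FD_c0_eq_zero_iff P hdeg (hP _ f.2)

/-- the value is characterised by `f − f(P)` vanishing at `P`. -/
theorem S36SE_ev_spec (Rb : Subalgebra k κ) (P : Place k κ) (hdeg : P.deg = 1)
    (hP : ∀ f ∈ Rb, P.adicValuation f ≤ 1) (f : ↥Rb) :
    P.adicValuation ((f : κ) - algebraMap k κ (S36SE_ev Rb P hdeg hP f)) < 1 :=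
  FD_c0_spec P hdeg (hP _ f.2)

theorem S36SE_ev_eq_of (Rb : Subalgebra k κ) (P : Place k κ) (hdeg : P.deg = 1)
    (hP : ∀ f ∈ Rb, P.adicValuation f ≤ 1) (f : ↥Rb) {c : k}
    (hc : P.adicValuation ((f : κ) - algebraMap k κ c) < 1) :
    S36SE_ev Rb P hdeg hP f = c :=
  FD_c0_unique P hc

/-- restriction to a smaller subalgebra. -/
theorem S36SE_ev_le {Rb Rb' : Subalgebra k κ} (hle : Rb ≤ Rb') (P : Place k κ)
    (hdeg : P.deg = 1) (hP' : ∀ f ∈ Rb', P.adicValuation f ≤ 1)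
    (hP : ∀ f ∈ Rb, P.adicValuation f ≤ 1) (r : ↥Rb) :
    S36SE_ev Rb' P hdeg hP' ⟨r, hle r.2⟩ = S36SE_ev Rb P hdeg hP r := rfl

/-- two different affine places give different evaluations, as soon as the subalgebra contains
the functions regular on the chart `x ≠ ∞`. -/
theorem S36SE_ev_ne [Infinite k] (h : RR_Hyp k κ) (x : κ) (c₀ : Place k κ) (hc₀ : c₀.ord x < 0)
    (Rb : Subalgebra k κ)
    (hfull : ∀ f : κ, (∀ Q : Place k κ, Q.adicValuation x ≤ 1 → Q.adicValuation f ≤ 1) → f ∈ Rb)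
    (P P' : Place k κ) (hx : P.adicValuation x ≤ 1) (hx' : P'.adicValuation x ≤ 1)
    (hP : ∀ f ∈ Rb, P.adicValuation f ≤ 1) (hP' : ∀ f ∈ Rb, P'.adicValuation f ≤ 1)
    (hne : P ≠ P') :
    S36SE_ev Rb P (h.deg_one P) hP ≠ S36SE_ev Rb P' (h.deg_one P') hP' := by
  classical
  intro heq
  apply hne
  -- the coordinate ring of the chart
  let R : Subalgebra k κ :=
    { carrier := {f | ∀ Q : Place k κ, Q.adicValuation x ≤ 1 → Q.adicValuation f ≤ 1}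
      mul_mem' := fun {a b} ha hb Q hQ => by
        rw [map_mul]
        exact mul_le_one' (ha Q hQ) (hb Q hQ)
      add_mem' := fun {a b} ha hb Q hQ =>
        (Valuation.map_add _ _ _).trans (max_le (ha Q hQ) (hb Q hQ))
      algebraMap_mem' := fun c Q _ => Q.adicValuation_algebraMap_le_one c }
  have hR : ∀ y : κ, y ∈ R ↔ ∀ Q : Place k κ, Q.adicValuation x ≤ 1 → Q.adicValuation y ≤ 1 :=
    fun _ => Iff.rfl
  refine S36SP_pt_injective h x c₀ hc₀ R hR P P' hx hx' fun f => ?_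
  have := congrArg (fun e : ↥Rb →ₐ[k] k => e ⟨(f : κ), hfull _ ((hR _).1 f.2)⟩) heq
  exact this

end Ev

/-! ### the evaluations at the triple points on a chart -/

section Chart

variable {L F k Fk₁ Fk₂ Fk₃ : Type*} [Field L] [Field F] [Algebra L F] [Field k]
  [Field Fk₁] [Field Fk₂] [Field Fk₃] [Algebra k Fk₁] [Algebra k Fk₂] [Algebra k Fk₃]

/-- the centres of the triple points `y : ι` on the three components. -/
structure S36SE_Pts (k Fk₁ Fk₂ Fk₃ : Type*) [Field k]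
    [Field Fk₁] [Field Fk₂] [Field Fk₃] [Algebra k Fk₁] [Algebra k Fk₂] [Algebra k Fk₃]
    (ι : Type*) where
  /-- the centre on `FF` -/
  P₁ : ι → Place k Fk₁
  /-- the centre on `FV` -/
  P₂ : ι → Place k Fk₂
  /-- the centre on `VV` -/
  P₃ : ι → Place k Fk₃
  deg₁ : ∀ y, (P₁ y).deg = 1
  deg₂ : ∀ y, (P₂ y).deg = 1
  deg₃ : ∀ y, (P₃ y).deg = 1

/-- the points from three families of places when all places have degree one. -/
def S36SE_Pts.ofRR {ι : Type*} (h₁ : RR_Hyp k Fk₁) (h₂ : RR_Hyp k Fk₂) (h₃ : RR_Hyp k Fk₃)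
    (P₁ : ι → Place k Fk₁) (P₂ : ι → Place k Fk₂) (P₃ : ι → Place k Fk₃) :
    S36SE_Pts k Fk₁ Fk₂ Fk₃ ι where
  P₁ := P₁
  P₂ := P₂
  P₃ := P₃
  deg₁ y := h₁.deg_one (P₁ y)
  deg₂ y := h₂.deg_one (P₂ y)
  deg₃ y := h₃.deg_one (P₃ y)

variable {n : ℕ} {ι : Type*}

/-- the chart `C` is regular at the triple points. -/
structure S36SE_Reg (C : S36L3_Chart L F k Fk₁ Fk₂ Fk₃ n) (X : S36SE_Pts k Fk₁ Fk₂ Fk₃ ι) :
    Prop where
  reg₁ : ∀ y, ∀ f ∈ C.Rb₁, (X.P₁ y).adicValuation f ≤ 1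
  reg₂ : ∀ y, ∀ f ∈ C.Rb₂, (X.P₂ y).adicValuation f ≤ 1
  reg₃ : ∀ y, ∀ f ∈ C.Rb₃, (X.P₃ y).adicValuation f ≤ 1

/-- a chart contained in a regular chart is regular. -/
theorem S36SE_Reg.of_le {C C'' : S36L3_Chart L F k Fk₁ Fk₂ Fk₃ n}
    {X : S36SE_Pts k Fk₁ Fk₂ Fk₃ ι} (hle : S36L3_ChartLE C C'') (h : S36SE_Reg C'' X) :
    S36SE_Reg C X where
  reg₁ y f hf := h.reg₁ y f (hle.Rb₁_le hf)
  reg₂ y f hf := h.reg₂ y f (hle.Rb₂_le hf)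
  reg₃ y f hf := h.reg₃ y f (hle.Rb₃_le hf)

/-- regularity of a chart whose coordinate rings are the rings of the functions regular where
`x_j` is regular, at points where the `x_j` are regular. -/
theorem S36SE_Reg.of_chart {C : S36L3_Chart L F k Fk₁ Fk₂ Fk₃ n}
    {X : S36SE_Pts k Fk₁ Fk₂ Fk₃ ι} (x₁ : Fk₁) (x₂ : Fk₂) (x₃ : Fk₃)
    (hR₁ : ∀ f ∈ C.Rb₁, ∀ Q : Place k Fk₁, Q.adicValuation x₁ ≤ 1 → Q.adicValuation f ≤ 1)
    (hR₂ : ∀ f ∈ C.Rb₂, ∀ Q : Place k Fk₂, Q.adicValuation x₂ ≤ 1 → Q.adicValuation f ≤ 1)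
    (hR₃ : ∀ f ∈ C.Rb₃, ∀ Q : Place k Fk₃, Q.adicValuation x₃ ≤ 1 → Q.adicValuation f ≤ 1)
    (hx₁ : ∀ y, (X.P₁ y).adicValuation x₁ ≤ 1) (hx₂ : ∀ y, (X.P₂ y).adicValuation x₂ ≤ 1)
    (hx₃ : ∀ y, (X.P₃ y).adicValuation x₃ ≤ 1) : S36SE_Reg C X where
  reg₁ y f hf := hR₁ f hf _ (hx₁ y)
  reg₂ y f hf := hR₂ f hf _ (hx₂ y)
  reg₃ y f hf := hR₃ f hf _ (hx₃ y)

/-- evaluation at the triple points on `FF`. -/
noncomputable def S36SE_e₁ (C : S36L3_Chart L F k Fk₁ Fk₂ Fk₃ n)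
    (X : S36SE_Pts k Fk₁ Fk₂ Fk₃ ι) (hC : S36SE_Reg C X) : ι → ↥C.Rb₁ →ₐ[k] k :=
  fun y => S36SE_ev C.Rb₁ (X.P₁ y) (X.deg₁ y) (hC.reg₁ y)

/-- evaluation at the triple points on `FV`. -/
noncomputable def S36SE_e₂ (C : S36L3_Chart L F k Fk₁ Fk₂ Fk₃ n)
    (X : S36SE_Pts k Fk₁ Fk₂ Fk₃ ι) (hC : S36SE_Reg C X) : ι → ↥C.Rb₂ →ₐ[k] k :=
  fun y => S36SE_ev C.Rb₂ (X.P₂ y) (X.deg₂ y) (hC.reg₂ y)

/-- evaluation at the triple points on `VV`. -/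
noncomputable def S36SE_e₃ (C : S36L3_Chart L F k Fk₁ Fk₂ Fk₃ n)
    (X : S36SE_Pts k Fk₁ Fk₂ Fk₃ ι) (hC : S36SE_Reg C X) : ι → ↥C.Rb₃ →ₐ[k] k :=
  fun y => S36SE_ev C.Rb₃ (X.P₃ y) (X.deg₃ y) (hC.reg₃ y)

theorem S36SE_e₁_apply (C : S36L3_Chart L F k Fk₁ Fk₂ Fk₃ n)
    (X : S36SE_Pts k Fk₁ Fk₂ Fk₃ ι) (hC : S36SE_Reg C X) (y : ι) (r : ↥C.Rb₁) :
    S36SE_e₁ C X hC y r = FD_c0 (X.P₁ y) (r : Fk₁) := rfl

theorem S36SE_e₂_apply (C : S36L3_Chart L F k Fk₁ Fk₂ Fk₃ n)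
    (X : S36SE_Pts k Fk₁ Fk₂ Fk₃ ι) (hC : S36SE_Reg C X) (y : ι) (r : ↥C.Rb₂) :
    S36SE_e₂ C X hC y r = FD_c0 (X.P₂ y) (r : Fk₂) := rfl

theorem S36SE_e₃_apply (C : S36L3_Chart L F k Fk₁ Fk₂ Fk₃ n)
    (X : S36SE_Pts k Fk₁ Fk₂ Fk₃ ι) (hC : S36SE_Reg C X) (y : ι) (r : ↥C.Rb₃) :
    S36SE_e₃ C X hC y r = FD_c0 (X.P₃ y) (r : Fk₃) := rfl

/-! ### the compatibilities `c₁ … c₃'` of `S36TL_core_of_inj` -/

theorem S36SE_c₁ {C C'' : S36L3_Chart L F k Fk₁ Fk₂ Fk₃ n} (X : S36SE_Pts k Fk₁ Fk₂ Fk₃ ι)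
    (hle : S36L3_ChartLE C C'') (hC'' : S36SE_Reg C'' X) (hC : S36SE_Reg C X)
    (y : ι) (r : ↥C.Rb₁) :
    S36SE_e₁ C'' X hC'' y ⟨r, hle.Rb₁_le r.2⟩ = S36SE_e₁ C X hC y r := rfl

theorem S36SE_c₂ {C C'' : S36L3_Chart L F k Fk₁ Fk₂ Fk₃ n} (X : S36SE_Pts k Fk₁ Fk₂ Fk₃ ι)
    (hle : S36L3_ChartLE C C'') (hC'' : S36SE_Reg C'' X) (hC : S36SE_Reg C X)
    (y : ι) (r : ↥C.Rb₂) :
    S36SE_e₂ C'' X hC'' y ⟨r, hle.Rb₂_le r.2⟩ = S36SE_e₂ C X hC y r := rfl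

theorem S36SE_c₃ {C C'' : S36L3_Chart L F k Fk₁ Fk₂ Fk₃ n} (X : S36SE_Pts k Fk₁ Fk₂ Fk₃ ι)
    (hle : S36L3_ChartLE C C'') (hC'' : S36SE_Reg C'' X) (hC : S36SE_Reg C X)
    (y : ι) (r : ↥C.Rb₃) :
    S36SE_e₃ C'' X hC'' y ⟨r, hle.Rb₃_le r.2⟩ = S36SE_e₃ C X hC y r := rfl

/-! ### injectivity and separation -/

/-- `y ↦ e₁ y` is injective. -/
theorem S36SE_e₁_injective [Infinite k] (C : S36L3_Chart L F k Fk₁ Fk₂ Fk₃ n)
    (X : S36SE_Pts k Fk₁ Fk₂ Fk₃ ι) (hC : S36SE_Reg C X)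
    (h : RR_Hyp k Fk₁) (x : Fk₁) (c₀ : Place k Fk₁) (hc₀ : c₀.ord x < 0)
    (hfull : ∀ f : Fk₁, (∀ Q : Place k Fk₁, Q.adicValuation x ≤ 1 → Q.adicValuation f ≤ 1) →
      f ∈ C.Rb₁)
    (hx : ∀ y, (X.P₁ y).adicValuation x ≤ 1) (hinj : Function.Injective X.P₁) :
    Function.Injective (S36SE_e₁ C X hC) := by
  intro y y' heq
  by_contra hne
  exact S36SE_ev_ne h x c₀ hc₀ C.Rb₁ hfull (X.P₁ y) (X.P₁ y') (hx y) (hx y') (hC.reg₁ y)
    (hC.reg₁ y') (fun hP => hne (hinj hP)) heq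

/-- `y ↦ e₂ y` is injective. -/
theorem S36SE_e₂_injective [Infinite k] (C : S36L3_Chart L F k Fk₁ Fk₂ Fk₃ n)
    (X : S36SE_Pts k Fk₁ Fk₂ Fk₃ ι) (hC : S36SE_Reg C X)
    (h : RR_Hyp k Fk₂) (x : Fk₂) (c₀ : Place k Fk₂) (hc₀ : c₀.ord x < 0)
    (hfull : ∀ f : Fk₂, (∀ Q : Place k Fk₂, Q.adicValuation x ≤ 1 → Q.adicValuation f ≤ 1) →
      f ∈ C.Rb₂)
    (hx : ∀ y, (X.P₂ y).adicValuation x ≤ 1) (hinj : Function.Injective X.P₂) :
    Function.Injective (S36SE_e₂ C X hC) := by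
  intro y y' heq
  by_contra hne
  exact S36SE_ev_ne h x c₀ hc₀ C.Rb₂ hfull (X.P₂ y) (X.P₂ y') (hx y) (hx y') (hC.reg₂ y)
    (hC.reg₂ y') (fun hP => hne (hinj hP)) heq

/-- `y ↦ e₃ y` is injective. -/
theorem S36SE_e₃_injective [Infinite k] (C : S36L3_Chart L F k Fk₁ Fk₂ Fk₃ n)
    (X : S36SE_Pts k Fk₁ Fk₂ Fk₃ ι) (hC : S36SE_Reg C X)
    (h : RR_Hyp k Fk₃) (x : Fk₃) (c₀ : Place k Fk₃) (hc₀ : c₀.ord x < 0)
    (hfull : ∀ f : Fk₃, (∀ Q : Place k Fk₃, Q.adicValuation x ≤ 1 → Q.adicValuation f ≤ 1) →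
      f ∈ C.Rb₃)
    (hx : ∀ y, (X.P₃ y).adicValuation x ≤ 1) (hinj : Function.Injective X.P₃) :
    Function.Injective (S36SE_e₃ C X hC) := by
  intro y y' heq
  by_contra hne
  exact S36SE_ev_ne h x c₀ hc₀ C.Rb₃ hfull (X.P₃ y) (X.P₃ y') (hx y) (hx y') (hC.reg₃ y)
    (hC.reg₃ y') (fun hP => hne (hinj hP)) heq

variable {S₁ : S18_Val L F k Fk₁} {S₂ : S18_Val L F k Fk₂} {S₃ : S18_Val L F k Fk₃}
  (hS : S36L3_Same S₁ S₂ S₃)

/-- **`hsep` of `S36TL_Chart`**, from the injectivity of `y ↦ e₁ y` and the lifting property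
`hfst` (every function of `Rb₁` is the first reduction of an element of `W¹`). -/
theorem S36SE_hsep_of_inj [Finite ι] (C : S36L3_Chart L F k Fk₁ Fk₂ Fk₃ n)
    (e₁ : ι → ↥C.Rb₁ →ₐ[k] k) (hinj : Function.Injective e₁)
    (hfst : ∀ a : ↥C.Rb₁, ∃ w ∈ S36L3_W hS C 1, w.1 = a) (y : ι) :
    ∃ w ∈ S36L3_W hS C 1, e₁ y w.1 = 1 ∧ ∀ y', y' ≠ y → e₁ y' w.1 = 0 := by
  obtain ⟨ε, h1, h0⟩ := S36N3_sep e₁ hinj y
  obtain ⟨w, hw, hw1⟩ := hfst ε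
  refine ⟨w, hw, ?_, fun y' hy' => ?_⟩
  · rw [hw1, h1]
  · rw [hw1, h0 y' hy']

/-- **`hsep` of `S36TL_Chart`** for the evaluations at the triple points. -/
theorem S36SE_hsep [Finite ι] [Infinite k] (C : S36L3_Chart L F k Fk₁ Fk₂ Fk₃ n)
    (X : S36SE_Pts k Fk₁ Fk₂ Fk₃ ι) (hC : S36SE_Reg C X)
    (h : RR_Hyp k Fk₁) (x : Fk₁) (c₀ : Place k Fk₁) (hc₀ : c₀.ord x < 0)
    (hfull : ∀ f : Fk₁, (∀ Q : Place k Fk₁, Q.adicValuation x ≤ 1 → Q.adicValuation f ≤ 1) →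
      f ∈ C.Rb₁)
    (hx : ∀ y, (X.P₁ y).adicValuation x ≤ 1) (hinj : Function.Injective X.P₁)
    (hfst : ∀ a : ↥C.Rb₁, ∃ w ∈ S36L3_W hS C 1, w.1 = a) (y : ι) :
    ∃ w ∈ S36L3_W hS C 1, S36SE_e₁ C X hC y w.1 = 1 ∧
      ∀ y', y' ≠ y → S36SE_e₁ C X hC y' w.1 = 0 :=
  S36SE_hsep_of_inj hS C (S36SE_e₁ C X hC)
    (S36SE_e₁_injective C X hC h x c₀ hc₀ hfull hx hinj) hfst y

end Chart

end Fermat.Agent.S36
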