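import Fermat.Agent.S36.CuspThru
import Fermat.Agent.S36.CuspTri
import Fermat.Agent.S36.ParamQ2
import Fermat.Agent.S36.ChartsO3Inst
import Fermat.Agent.S36.FixLFiveVal
import Fermat.Agent.S36.FrobRat
import Fermat.Agent.S36.Comp3Indep
import Fermat.Agent.S36.FracInst
import Fermat.Agent.S36.ChartsBPow
import Fermat.Agent.S36.Cart3Comp
import Fermat.Agent.S36.Int3Three
import Fermat.Agent.S36.Cart3Wire
import Fermat.Agent.S36.Spec3Ev
import Fermat.Agent.S36.Val3DvInst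
import Fermat.Agent.S36.Inj3Inst

/-!
# TRACK 10 (S36), FV-CUSP THRU (helper25): the concrete instance at level `M q²`.
Prefix `S36CQ_`.

`A = jB (M q²) = j(τ)`, `B = jBar (M q²) q = j(qτ)`, `C = jBar (M q²) (q q) = j(q²τ)`,
`w = (B − c)⁻¹` (`c ∈ 𝔸 ∩ L` a constant), `D = S36IT_fam3 … dvr U` the family of a chart
`U ⊆ U′ = {B ≠ c}`,

* `s₀ = (C − A) A^(q−1) w`, `f_∞ = (B^q − C) w^q`, `f₀ = (B^q − A) w^q`.

Results:
* `S36CQ_val_one` : in characteristic `q`, `(x^(q²) − x) / (x^q − c)^q` has the value `1` at every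
  pole of `x`;
* `S36CQ_h1` : `A`, `C` are regular where `B` is regular; `S36CQ_ordC_ge`, `S36CQ_ordA_ge` :
  `q · ord B ≤ ord C, ord A` at the cusps; `S36CQ_h2` : (h2) of `S36CQ_core` (helper27's
  `S36KT_tri`);
* `S36CQ_dA_eq`, `S36CQ_dB_eq`, `S36CQ_dC_eq`, `S36CQ_varpi_eq` : the bridges
  `δ_A^* j = jB`, `δ_B^* j = jBar q`, `δ_C^* j = jBar (q q)`, `ϖ = C − A`;
* `S36CQ_jBar_mem`, `S36CQ_w_mem3` : the generators and `w` lie in the three Gauss rings;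
  `S36CQ_A_red_FV`, `S36CQ_C_red_FV`, `S36CQ_f_red_FV` : the reductions along `FV`;
* `S36CQ_f_val` : the value of `red_FV ((B^q − X) w^q)` at a cusp is `1`;
* `S36CQ_main` : **every valuation ring of the family through the cusp `(FV, P)` contains
  `s₀`** (the hypothesis of INT, `D.exists_den`);
* `S36CQ_s0`, `S36CQ_s0_coe` : the generator as an element of `F_L`;
* `S36CQ_hthru` : `hthru` of helper27's `S36CC_hcusp₂`.
-/

set_option autoImplicit false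
set_option synthInstance.maxHeartbeats 400000
set_option maxHeartbeats 1000000
set_option linter.style.haveILetI false
set_option linter.unusedSectionVars false
set_option linter.unusedVariables false
set_option linter.style.longLine false

open HahnSeries IntermediateField AlgebraicCurve ModularCurve

namespace Fermat.Agent.S36

open Fermat.Agent.S18 Fermat.Agent.S24 Fermat.Agent.S34 Fermat.Agent.S37 Fermat.Agent.GalRep
  Fermat.Agent.Lib Fermat.Agent.S17 Fermat.Agent.S19 Fermat.Agent.S20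

local notation "ℚbar" => AlgebraicClosure ℚ

section gen

variable {k κ : Type*} [Field k] [Field κ] [Algebra k κ]

/-- `0 < ord` gives `adicValuation < 1`. -/
theorem S36CQ_adic_lt_one (P : Place k κ) {f : κ} (h : 0 < P.ord f) : P.adicValuation f < 1 := by
  have h0 : f ≠ 0 := by
    rintro rfl
    rw [Place.ord_zero] at h
    exact lt_irrefl _ h
  rw [P.adicValuation_eq_exp_neg_ord h0, ← WithZero.exp_zero, WithZero.exp_lt_exp]
  omega

/-- **the value at a pole**: in characteristic `q`, `(x^(q²) − x) · ((x^q − c)⁻¹)^q` has the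
value `1` at every pole of `x`. -/
theorem S36CQ_val_one (q : ℕ) [Fact q.Prime] [CharP κ q] (P : Place k κ) (x : κ) (c : k)
    (hx : P.ord x < 0) :
    P.adicValuation ((x ^ (q * q) - x) * ((x ^ q - algebraMap k κ c)⁻¹) ^ q - 1) < 1 := by
  have hq : q.Prime := Fact.out
  have hq2 : (2 : ℤ) ≤ (q : ℤ) := by exact_mod_cast hq.two_le
  have hx0 : x ≠ 0 := by
    rintro rfl
    rw [Place.ord_zero] at hx
    exact lt_irrefl _ hx
  have hxq : P.ord (x ^ q) < 0 := by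
    rw [S18_ord_pow]
    nlinarith
  have hD : P.ord (x ^ q - algebraMap k κ c) = (q : ℤ) * P.ord x := by
    rw [LC_ord_sub_const_of_neg P hxq c, S18_ord_pow]
  have hD0 : x ^ q - algebraMap k κ c ≠ 0 := by
    intro h0
    rw [h0, Place.ord_zero] at hD
    have : (q : ℤ) * P.ord x < 0 := by nlinarith
    omega
  have hDq : (x ^ q - algebraMap k κ c) ^ q = x ^ (q * q) - algebraMap k κ (c ^ q) := by
    rw [sub_pow_char, ← pow_mul, map_pow]
  have hnum : P.ord (x - algebraMap k κ (c ^ q)) = P.ord x := LC_ord_sub_const_of_neg P hx _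
  have hnum0 : x - algebraMap k κ (c ^ q) ≠ 0 := by
    intro h0
    rw [h0, Place.ord_zero] at hnum
    omega
  have e : (x ^ (q * q) - x) * ((x ^ q - algebraMap k κ c)⁻¹) ^ q - 1 =
      ((x - algebraMap k κ (c ^ q)) * ((x ^ q - algebraMap k κ c) ^ q)⁻¹) * (-1) := by
    rw [inv_pow]
    have hne : (x ^ q - algebraMap k κ c) ^ q ≠ 0 := pow_ne_zero _ hD0
    field_simp
    rw [hDq]
    ring
  apply S36CQ_adic_lt_one
  rw [e, P.ord_mul (mul_ne_zero hnum0 (inv_ne_zero (pow_ne_zero _ hD0)))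
    (neg_ne_zero.2 one_ne_zero), P.ord_mul hnum0 (inv_ne_zero (pow_ne_zero _ hD0)),
    P.ord_inv, S18_ord_pow, hD, hnum, S18_Spec.ord_neg_one]
  have h1 : (0 : ℤ) < ((q : ℤ) * q - 1) * (-(P.ord x)) := mul_pos (by nlinarith) (by omega)
  linarith [h1]

end gen

section cusps

open scoped MatrixGroups
open Fermat.Agent.S28

variable (N : ℕ) [NeZero N] (q : ℕ) [NeZero q] (hq : q.Prime) (hd : q ∣ N) (hd2 : q * q ∣ N)

/-- **(h1)**: `A`, `C` are regular where `B` is regular. -/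
theorem S36CQ_h1 (v : Place ℚbar ↥(modularFunctionFieldBar N))
    (hB : 0 ≤ v.ord (jBar N q hd)) :
    0 ≤ v.ord (jB N) ∧ 0 ≤ v.ord (jBar N (q * q) hd2) := by
  have hA : 0 ≤ v.ord (jB N) := by
    by_contra h
    push Not at h
    have := (S34SX_ord_jBar_ge N v h q hd).2
    omega
  exact ⟨hA, S34SX_reg_jBar N v hA (q * q) hd2⟩

/-- the poles of `B` are the poles of `A`. -/
theorem S36CQ_ordA_neg (v : Place ℚbar ↥(modularFunctionFieldBar N))
    (hB : v.ord (jBar N q hd) < 0) : v.ord (jB N) < 0 := by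
  by_contra h
  push Not at h
  have := S34SX_reg_jBar N v h q hd
  omega

include hq in
/-- at a cusp: `q · ord B ≤ ord A`. -/
theorem S36CQ_ordA_ge (v : Place ℚbar ↥(modularFunctionFieldBar N))
    (hv : v.ord (jB N) < 0) : (q : ℤ) * v.ord (jBar N q hd) ≤ v.ord (jB N) := by
  have hq1 : (1 : ℤ) ≤ (q : ℤ) := by exact_mod_cast hq.one_le
  rcases S34SX_hcusp N v hv q hq hd with ⟨h1, -⟩ | h1
  · rw [h1]
    have h : 0 ≤ ((q : ℤ) * q - 1) * (-(v.ord (jB N))) := mul_nonneg (by nlinarith) (by omega)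
    linarith [h]
  · exact le_of_eq h1

include hq in
/-- at a cusp: `q · ord B ≤ ord C` (joint Hermite normal forms, helper27's `S36KT_cuspFrac`). -/
theorem S36CQ_ordC_ge (v : Place ℚbar ↥(modularFunctionFieldBar N))
    (hv : v.ord (jB N) < 0) :
    (q : ℤ) * v.ord (jBar N q hd) ≤ v.ord (jBar N (q * q) hd2) := by
  have he := isEv_ev N
  have hN0 : (0 : ℤ) < (N : ℤ) := by exact_mod_cast Nat.pos_of_ne_zero (NeZero.ne N)
  have hqq : 0 < q * q := Nat.mul_pos hq.pos hq.pos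
  obtain ⟨γ, hγ⟩ := S34SX_cusp_rel N v hv
  have hneB := S34SX_jBar_ne_zero N q hd
  have hneC := S34SX_jBar_ne_zero N (q * q) hd2
  have h1 : S24_sig N (ev N) γ (jBar N q hd) =
      merComp (Quotient.out γ)⁻¹ (algebraMap Hol Mer (jHol q)) := by
    show merComp _ (ev N (jBar N q hd)) = _
    rw [he.gen q hd]
  have h2 : S24_sig N (ev N) γ (jBar N (q * q) hd2) =
      merComp (Quotient.out γ)⁻¹ (algebraMap Hol Mer (jHol (q * q))) := by
    show merComp _ (ev N (jBar N (q * q) hd2)) = _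
    rw [he.gen (q * q) hd2]
  obtain ⟨a₁, b₁, d₁, ha₁, hd₁, hadd₁, hag₁, hb₁, hB⟩ :=
    S36KT_cuspFrac N (Quotient.out γ)⁻¹ hq.pos hd
  obtain ⟨a₂, b₂, d₂, ha₂, hd₂, hadd₂, hag₂, hb₂, hC⟩ :=
    S36KT_cuspFrac N (Quotient.out γ)⁻¹ hqq hd2
  rw [← h1] at hB
  rw [← h2] at hC
  have hrelB := hγ _ hneB
  rw [cuspW_eq hB] at hrelB
  have hrelC := hγ _ hneC
  rw [cuspW_eq hC] at hrelC
  -- the arithmetic
  have hd2' := hd2
  obtain ⟨m, hm⟩ := hd2'
  have e1 : N / d₁ = a₁ * (q * m) := by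
    apply Nat.div_eq_of_eq_mul_right hd₁
    rw [hm, ← hadd₁]
    ring
  have e2 : N / d₂ = a₂ * m := by
    apply Nat.div_eq_of_eq_mul_right hd₂
    rw [hm, ← hadd₂]
    ring
  have hdvd : a₂ ∣ q * a₁ := by
    rw [hag₂, hag₁, ← Nat.gcd_mul_left]
    exact Nat.gcd_dvd_gcd_of_dvd_right _ (Dvd.intro_left q rfl)
  have hle : a₂ ≤ q * a₁ := Nat.le_of_dvd (Nat.mul_pos hq.pos ha₁) hdvd
  have hnat : a₂ * (N / d₂) ≤ q * (a₁ * (N / d₁)) := by
    rw [e1, e2]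
    calc a₂ * (a₂ * m) = (a₂ * a₂) * m := by ring
      _ ≤ ((q * a₁) * (q * a₁)) * m := Nat.mul_le_mul_right _ (Nat.mul_le_mul hle hle)
      _ = q * (a₁ * (a₁ * (q * m))) := by ring
  have hz : ((a₂ * (N / d₂) : ℕ) : ℤ) ≤ (q : ℤ) * ((a₁ * (N / d₁) : ℕ) : ℤ) := by
    exact_mod_cast hnat
  have key : (N : ℤ) * ((q : ℤ) * v.ord (jBar N q hd)) ≤
      (N : ℤ) * v.ord (jBar N (q * q) hd2) := by
    have hBq : (N : ℤ) * ((q : ℤ) * v.ord (jBar N q hd)) =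
        (q : ℤ) * ((N : ℤ) * v.ord (jBar N q hd)) := by ring
    rw [hBq, hrelB, hrelC]
    have ho : 0 < - v.ord (jB N) := by omega
    nlinarith
  exact le_of_mul_le_mul_left key hN0

include hq in
/-- **(h2)** of `S36CQ_core` at level `N`, `q² ∣ N` (from helper27's `S36KT_tri`). -/
theorem S36CQ_h2 (v : Place ℚbar ↥(modularFunctionFieldBar N))
    (hB : v.ord (jBar N q hd) < 0) :
    (v.ord (jBar N (q * q) hd2) = (q : ℤ) * v.ord (jBar N q hd) ∧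
        (q : ℤ) * v.ord (jBar N q hd) < v.ord ((jBar N q hd) ^ q - jBar N (q * q) hd2)) ∨
    (v.ord (jB N) = v.ord (jBar N (q * q) hd2) ∧
        v.ord (jBar N q hd) = (q : ℤ) * v.ord (jB N)) ∨
    (v.ord (jB N) = (q : ℤ) * v.ord (jBar N q hd) ∧
        (q : ℤ) * v.ord (jBar N q hd) < v.ord ((jBar N q hd) ^ q - jB N)) := by
  have hv := S36CQ_ordA_neg N q hd v hB
  have hq0 : (q : ℤ) ≠ 0 := by exact_mod_cast hq.ne_zero
  rcases S36KT_tri N v hv q hq hd hd2 with h | ⟨h1, h2⟩ | ⟨h1, h2⟩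
  · exact Or.inl h
  · refine Or.inr (Or.inl ⟨?_, h2⟩)
    have : (q : ℤ) * v.ord (jBar N (q * q) hd2) = (q : ℤ) * v.ord (jB N) := by rw [h1, h2]
    exact (mul_left_cancel₀ hq0 this).symm
  · exact Or.inr (Or.inr ⟨h1.symm, h2⟩)

end cusps

section gauss

variable (A : ValuationSubring ℚbar) {F : Type*} [Field F] [Algebra ℚbar F]
  (φ : F →+* LaurentSeries ℚbar)
  (hconst : ∀ c : ℚbar, φ (algebraMap ℚbar F c) = algebraMap ℚbar (LaurentSeries ℚbar) c)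

include hconst in
/-- `w = (b − c)⁻¹` lies in the Gauss ring if the reduction of `b` is not the constant `c̄`. -/
theorem S36CQ_w_G {b : F} (hb : b ∈ S36V_G A φ) (cst : A)
    (hne : S36V_Gred A φ ⟨b, hb⟩ ≠ algebraMap (IsLocalRing.ResidueField A)
      (LaurentSeries (IsLocalRing.ResidueField A)) (IsLocalRing.residue A cst)) :
    ∃ hw : (b - algebraMap ℚbar F (cst : ℚbar))⁻¹ ∈ S36V_G A φ,
      S36V_Gred A φ ⟨_, hw⟩ = (S36V_Gred A φ ⟨b, hb⟩ - algebraMap (IsLocalRing.ResidueField A)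
        (LaurentSeries (IsLocalRing.ResidueField A)) (IsLocalRing.residue A cst))⁻¹ := by
  have hc : algebraMap ℚbar F (cst : ℚbar) ∈ S36V_G A φ := S36V_G_const A φ cst (hconst _)
  have hcr := S36V_Gred_const A φ cst (hconst _) hc
  have hbc : b - algebraMap ℚbar F (cst : ℚbar) ∈ S36V_G A φ := sub_mem hb hc
  have hred : S36V_Gred A φ ⟨_, hbc⟩ = S36V_Gred A φ ⟨b, hb⟩ -
      algebraMap (IsLocalRing.ResidueField A) (LaurentSeries (IsLocalRing.ResidueField A))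
        (IsLocalRing.residue A cst) := by
    have e : (⟨b - algebraMap ℚbar F (cst : ℚbar), hbc⟩ : S36V_G A φ) = ⟨b, hb⟩ - ⟨_, hc⟩ := rfl
    rw [e, map_sub, hcr]
  have hred0 : S36V_Gred A φ ⟨_, hbc⟩ ≠ 0 := by
    rw [hred]
    exact sub_ne_zero.2 hne
  exact ⟨S36V_G_inv_mem A φ hbc hred0, by rw [S36V_Gred_inv A φ hbc hred0, hred]⟩

/-- `f = (b^q − X) w^q` lies in the Gauss ring, with the expected reduction. -/
theorem S36CQ_f_G {b X w : F} (q : ℕ) (hb : b ∈ S36V_G A φ) (hX : X ∈ S36V_G A φ)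
    (hw : w ∈ S36V_G A φ) :
    ∃ hf : (b ^ q - X) * w ^ q ∈ S36V_G A φ,
      S36V_Gred A φ ⟨_, hf⟩ = (S36V_Gred A φ ⟨b, hb⟩ ^ q - S36V_Gred A φ ⟨X, hX⟩) *
        S36V_Gred A φ ⟨w, hw⟩ ^ q := by
  have hf : (b ^ q - X) * w ^ q ∈ S36V_G A φ := mul_mem (sub_mem (pow_mem hb q) hX) (pow_mem hw q)
  refine ⟨hf, ?_⟩
  have e : (⟨(b ^ q - X) * w ^ q, hf⟩ : S36V_G A φ) = (⟨b, hb⟩ ^ q - ⟨X, hX⟩) * ⟨w, hw⟩ ^ q := rfl
  rw [e, map_mul, map_sub, map_pow, map_pow]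

/-- `s₀ = (c' − a) a^(q−1) w` lies in the Gauss ring. -/
theorem S36CQ_s0_G {a c' w : F} (q : ℕ) (ha : a ∈ S36V_G A φ) (hc : c' ∈ S36V_G A φ)
    (hw : w ∈ S36V_G A φ) : (c' - a) * a ^ (q - 1) * w ∈ S36V_G A φ :=
  mul_mem (mul_mem (sub_mem hc ha) (pow_mem ha _)) hw

end gauss

section reg

variable {Ω F : Type*} [Field Ω] [Field F] [Algebra Ω F]

/-- `(B^q − X) w^q` is regular at every place of `U′ = {B ≠ c}` if `X` is regular where `B` is
and `q · ord B ≤ ord X` at the poles of `B`. -/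
theorem S36CQ_f_reg (P : Place Ω F) (B X : F) (c : Ω) (q : ℕ)
    (hU : P.ord (B - algebraMap Ω F c) ≤ 0)
    (hX : 0 ≤ P.ord B → 0 ≤ P.ord X) (hXc : P.ord B < 0 → (q : ℤ) * P.ord B ≤ P.ord X) :
    (B ^ q - X) * ((B - algebraMap Ω F c)⁻¹) ^ q ∈ P.toValuationSubring := by
  rcases lt_or_ge (P.ord B) 0 with hB | hB
  · rcases eq_or_ne (B ^ q - X) 0 with h0 | h0
    · rw [h0, zero_mul]
      exact P.toValuationSubring.zero_mem
    have hBc := LC_ord_sub_const_of_neg P hB c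
    have hw0 : (B - algebraMap Ω F c)⁻¹ ≠ 0 := by
      apply inv_ne_zero
      intro h0'
      rw [h0', Place.ord_zero] at hBc
      omega
    apply S36CQ_mem_of_ord
    have h1 : (q : ℤ) * P.ord B ≤ P.ord (B ^ q - X) := by
      refine S18_ord_sub_ge P h0 (Or.inr ?_) (Or.inr (hXc hB))
      rw [S18_ord_pow]
    rw [P.ord_mul h0 (pow_ne_zero _ hw0), S18_ord_pow, P.ord_inv, hBc]
    linarith
  · exact mul_mem (sub_mem (pow_mem (S36CQ_mem_of_ord P hB) q) (S36CQ_mem_of_ord P (hX hB)))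
      (pow_mem (S36CQ_w_mem P c hB hU) q)

end reg

section inst

variable (M q : ℕ) [NeZero M] [NeZero q] (hq : q.Prime) (hqM : ¬ q ∣ M)
  (A : ValuationSubring ℚbar) (hA : A.LiesOverPrime q)
  (ζ : ℚbarˣ) (hζ : ζ ^ q = 1) (hζ1 : ζ ≠ 1)

theorem S36CQ_qq_dvd : q * q ∣ M * q * q := ⟨M, by ring⟩

/-! ### bridges: `δ_A^* j = j`, `δ_B^* j = j(qz)`, `δ_C^* j = j(q²z)` -/

theorem S36CQ_dA_eq : S36OQ_dA M q (jB M) = jB (M * q * q) := Subtype.ext rfl

theorem S36CQ_dB_eq : S36FR_dB M q (jB M) = jBar (M * q * q) q (S36CO_q_dvd M q) :=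
  ((S36CO_B_eq_beta M q (S36CO_q_dvd M q)).trans (S36FQ_B_eq M q)).symm

theorem S36CQ_dC_eq :
    S36OQ_dC M q (jB M) = jBar (M * q * q) (q * q) (S36CQ_qq_dvd M q) := by
  have h1 := S34WJ_beta_jBar (M := M) (q := q) 1 (one_dvd M)
  have h2 := S34WJ_beta_jBar (M := M * q) (q := q) (q * 1)
    ((Nat.mul_dvd_mul_left q (one_dvd M)).trans (dvd_of_eq (mul_comm q M)))
  show heckeBetaBar ℚbar (M * q) q (heckeBetaBar ℚbar M q (jB M)) = _
  rw [show jB M = jBar M 1 (one_dvd M) from rfl, h1, h2]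
  exact S34WJ_jBar_congr (M * q * q) (by rw [mul_one]) _ _

/-! ### the Gauss rings -/

/-- the generators lie in the three Gauss rings. -/
theorem S36CQ_jBar_mem (d : ℕ) [NeZero d] (hd : d ∣ M * q * q) :
    jBar (M * q * q) d hd ∈ S36V_G A (S36V_emFF M q) ∧
    jBar (M * q * q) d hd ∈ S36V_G A (S36V_emFV M q hq hqM ζ hζ hζ1) ∧
    jBar (M * q * q) d hd ∈ S36V_G A (S36V_emVV M q hq hqM) := by
  obtain ⟨s₁, h₁⟩ := S36FI_emFF_int M q A d hd
  obtain ⟨s₂, h₂⟩ := S36FI_emFV_int M q hq hqM A ζ hζ hζ1 d hd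
  obtain ⟨s₃, h₃⟩ := S36FI_emVV_int M q hq hqM A d hd
  exact ⟨S36V_G_of_int A _ h₁, S36V_G_of_int A _ h₂, S36V_G_of_int A _ h₃⟩

include hA in
/-- the reduction of `A = j` along `FV` is `j̄`. -/
theorem S36CQ_A_red_FV (h : jB (M * q * q) ∈ S36V_G A (S36V_emFV M q hq hqM ζ hζ hζ1)) :
    S36V_Gred A (S36V_emFV M q hq hqM ζ hζ hζ1) ⟨_, h⟩ =
      jqModC (IsLocalRing.ResidueField A) := by
  have key : ∀ (x : ↥(modularFunctionFieldBar (M * q * q))) (hx : x = S36OQ_dA M q (jB M))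
      (h : x ∈ S36V_G A (S36V_emFV M q hq hqM ζ hζ hζ1)),
      S36V_Gred A (S36V_emFV M q hq hqM ζ hζ hζ1) ⟨x, h⟩ =
        jqModC (IsLocalRing.ResidueField A) := by
    rintro x rfl h
    rw [S36FR_dA_FV_red M q hq hqM A ζ hζ hζ1 (S36OQ_S18_le M A (S36CY_jB_mem M A)) h]
    exact (S36OQ_Gred_S18 M A (S36CY_j M A)).trans (S36CY_red_j M A)
  exact key _ (S36CQ_dA_eq M q).symm h

include hA in
/-- the reduction of `C = j(q²z)` along `FV` is `j̄`. -/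
theorem S36CQ_C_red_FV
    (h : jBar (M * q * q) (q * q) (S36CQ_qq_dvd M q) ∈
      S36V_G A (S36V_emFV M q hq hqM ζ hζ hζ1)) :
    S36V_Gred A (S36V_emFV M q hq hqM ζ hζ hζ1) ⟨_, h⟩ =
      jqModC (IsLocalRing.ResidueField A) := by
  haveI : Fact q.Prime := ⟨hq⟩
  haveI : CharP (IsLocalRing.ResidueField A) q := S18_residue_charP A q hq hA
  have key : ∀ (x : ↥(modularFunctionFieldBar (M * q * q))) (hx : x = S36OQ_dC M q (jB M))
      (h : x ∈ S36V_G A (S36V_emFV M q hq hqM ζ hζ hζ1)),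
      S36V_Gred A (S36V_emFV M q hq hqM ζ hζ hζ1) ⟨x, h⟩ =
        jqModC (IsLocalRing.ResidueField A) := by
    rintro x rfl h
    rw [S36FR_dC_FV_red M q hq hqM A ζ hζ hζ1 (S36OQ_S18_le M A (S36CY_jB_mem M A)) h]
    exact (S36OQ_Gred_S18 M A (S36CY_j M A)).trans (S36CY_red_j M A)
  exact key _ (S36CQ_dC_eq M q).symm h

/-- `w = (B − c)⁻¹` lies in the three Gauss rings. -/
theorem S36CQ_w_mem3 (cst : A) :
    (jBar (M * q * q) q (S36CO_q_dvd M q) -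
        algebraMap ℚbar ↥(modularFunctionFieldBar (M * q * q)) (cst : ℚbar))⁻¹ ∈
      S36V_G A (S36V_emFF M q) ∧
    (jBar (M * q * q) q (S36CO_q_dvd M q) -
        algebraMap ℚbar ↥(modularFunctionFieldBar (M * q * q)) (cst : ℚbar))⁻¹ ∈
      S36V_G A (S36V_emFV M q hq hqM ζ hζ hζ1) ∧
    (jBar (M * q * q) q (S36CO_q_dvd M q) -
        algebraMap ℚbar ↥(modularFunctionFieldBar (M * q * q)) (cst : ℚbar))⁻¹ ∈
      S36V_G A (S36V_emVV M q hq hqM) := by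
  have hne := S36CO_ne_const_of_transc
    (S36CO_jqN_transc (IsLocalRing.ResidueField A) q) (IsLocalRing.residue A cst)
  refine ⟨?_, ?_, ?_⟩
  · obtain ⟨hw, -⟩ := S36CQ_w_G A (S36V_emFF M q) (S36V_emFF_const M q)
      (S36CO_B_mem_FF M q A (S36CO_q_dvd M q)) cst (by rw [S36CO_B_red_FF]; exact hne)
    exact hw
  · obtain ⟨hw, -⟩ := S36CQ_w_G A (S36V_emFV M q hq hqM ζ hζ hζ1)
      (S36V_emFV_const M q hq hqM ζ hζ hζ1)
      (S36CO_B_mem_FV M q hq hqM A ζ hζ hζ1 (S36CO_q_dvd M q)) cst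
      (by rw [S36CO_B_red_FV]; exact hne)
    exact hw
  · obtain ⟨hw, -⟩ := S36CQ_w_G A (S36V_emVV M q hq hqM) (S36V_emVV_const M q hq hqM)
      (S36CO_B_mem_VV M q hq hqM A (S36CO_q_dvd M q)) cst (by rw [S36CO_B_red_VV]; exact hne)
    exact hw

include hA in
/-- **the reduction along `FV` of `f = (B^q − X) w^q`**, `X` of reduction `j̄`, is
`(j̄^(q²) − j̄) / (j̄^q − c̄)^q`. -/
theorem S36CQ_f_red_FV (cst : A) (X : ↥(modularFunctionFieldBar (M * q * q)))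
    (hX : X ∈ S36V_G A (S36V_emFV M q hq hqM ζ hζ hζ1))
    (hXred : S36V_Gred A (S36V_emFV M q hq hqM ζ hζ hζ1) ⟨X, hX⟩ =
      jqModC (IsLocalRing.ResidueField A))
    (g : ↥(modularFunctionFieldBar (M * q * q)))
    (hg : g = (jBar (M * q * q) q (S36CO_q_dvd M q) ^ q - X) *
      ((jBar (M * q * q) q (S36CO_q_dvd M q) -
        algebraMap ℚbar ↥(modularFunctionFieldBar (M * q * q)) (cst : ℚbar))⁻¹) ^ q)
    (hgO : g ∈ S36V_G A (S36V_emFV M q hq hqM ζ hζ hζ1)) :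
    S36V_Gred A (S36V_emFV M q hq hqM ζ hζ hζ1) ⟨g, hgO⟩ =
      (jqModC (IsLocalRing.ResidueField A) ^ (q * q) - jqModC (IsLocalRing.ResidueField A)) *
        ((jqModC (IsLocalRing.ResidueField A) ^ q -
          algebraMap (IsLocalRing.ResidueField A) (LaurentSeries (IsLocalRing.ResidueField A))
            (IsLocalRing.residue A cst))⁻¹) ^ q := by
  haveI : Fact q.Prime := ⟨hq⟩
  haveI : CharP (IsLocalRing.ResidueField A) q := S18_residue_charP A q hq hA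
  subst hg
  have hb := S36CO_B_mem_FV M q hq hqM A ζ hζ hζ1 (S36CO_q_dvd M q)
  have hbred := S36CO_B_red_FV M q hq hqM A ζ hζ hζ1 (S36CO_q_dvd M q) hb
  have hne := S36CO_ne_const_of_transc
    (S36CO_jqN_transc (IsLocalRing.ResidueField A) q) (IsLocalRing.residue A cst)
  obtain ⟨hw, hwred⟩ := S36CQ_w_G A (S36V_emFV M q hq hqM ζ hζ hζ1)
    (S36V_emFV_const M q hq hqM ζ hζ hζ1) hb cst (by rw [hbred]; exact hne)
  obtain ⟨hf, hfred⟩ := S36CQ_f_G A (S36V_emFV M q hq hqM ζ hζ hζ1) q hb hX hw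
  rw [hfred, hwred, hXred, hbred, S36CZ_jqN_eq_pow, ← pow_mul]

end inst

section main

variable (M q : ℕ) [NeZero M] [NeZero q] (hq : q.Prime) (hqM : ¬ q ∣ M)
  (A : ValuationSubring ℚbar) (hA : A.LiesOverPrime q)
  (ζ : ℚbarˣ) (hζ : ζ ^ q = 1) (hζ1 : ζ ≠ 1)

/-- **the value `1` at a cusp**: for `f = (B^q − X) w^q ∈ O_FV`, `X` of reduction `j̄`, the
reduction of `f` along `FV` has the value `1` at every pole of `j̄`. -/
theorem S36CQ_f_val
    (cst : ↥(S36FL_AL (S36FI_act (M * q * q) (A.inertiaSubgroupIn ℚ)) A))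
    (X : ↥(modularFunctionFieldBar (M * q * q)))
    (hX : X ∈ S36V_G A (S36V_emFV M q hq hqM ζ hζ hζ1))
    (hXred : S36V_Gred A (S36V_emFV M q hq hqM ζ hζ hζ1) ⟨X, hX⟩ =
      jqModC (IsLocalRing.ResidueField A))
    (f : ↥(S36FI_act (M * q * q) (A.inertiaSubgroupIn ℚ)).fixF)
    (hf : (f : ↥(modularFunctionFieldBar (M * q * q))) =
      (jBar (M * q * q) q (S36CO_q_dvd M q) ^ q - X) *
      ((jBar (M * q * q) q (S36CO_q_dvd M q) -
        algebraMap ℚbar ↥(modularFunctionFieldBar (M * q * q))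
          ((cst : ↥(S36FI_act (M * q * q) (A.inertiaSubgroupIn ℚ)).fixK) : ℚbar))⁻¹) ^ q)
    (hfO : f ∈ (S36FI_SFV M q hq hqM A hA ζ hζ hζ1).O)
    (P : Place (IsLocalRing.ResidueField A) ↥(S36FI_kappa M A))
    (hP : P.ord (S18_jbar M (IsLocalRing.ResidueField A)) < 0) :
    FD_c0 P ((S36FI_SFV M q hq hqM A hA ζ hζ hζ1).red ⟨f, hfO⟩) = 1 := by
  haveI : Fact q.Prime := ⟨hq⟩
  haveI : CharP (IsLocalRing.ResidueField A) q := S18_residue_charP A q hq hA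
  haveI : CharP ↥(S36FI_kappa M A) q :=
    charP_of_injective_algebraMap
      (algebraMap (IsLocalRing.ResidueField A) ↥(S36FI_kappa M A)).injective q
  have hred : (S36FI_SFV M q hq hqM A hA ζ hζ hζ1).red ⟨f, hfO⟩ =
      (S18_jbar M (IsLocalRing.ResidueField A) ^ (q * q) -
          S18_jbar M (IsLocalRing.ResidueField A)) *
        ((S18_jbar M (IsLocalRing.ResidueField A) ^ q -
          algebraMap (IsLocalRing.ResidueField A) ↥(S36FI_kappa M A)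
            (IsLocalRing.residue A
              (S36FL_ALincl (S36FI_act (M * q * q) (A.inertiaSubgroupIn ℚ)) A cst)))⁻¹) ^ q := by
    apply Subtype.ext
    have hfO' : (f : ↥(modularFunctionFieldBar (M * q * q))) ∈
        S36V_G A (S36V_emFV M q hq hqM ζ hζ hζ1) := hfO
    refine (S36FI_SFV_red M q hq hqM A hA ζ hζ hζ1 f hfO).trans ?_
    refine (S36CQ_f_red_FV M q hq hqM A hA ζ hζ hζ1
      (S36FL_ALincl (S36FI_act (M * q * q) (A.inertiaSubgroupIn ℚ)) A cst) X hX hXred _ hf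
      hfO').trans ?_
    rfl
  apply FD_c0_unique
  rw [hred, map_one]
  exact S36CQ_val_one q P _ _ hP

/-- **FV-CUSP THRU, the concrete instance** (level `M q²`, a chart `U ⊆ U′ = {B ≠ c}`, a cusp
`P` of the component `FV`): every valuation ring of the family through the closed point `y`
of `P` contains `s₀ = (C − A) A^(q−1) (B − c)⁻¹`. -/
theorem S36CQ_main
    (dvr : ∀ i, IsDiscreteValuationRing
      (S36FL_OL (S36FI_act (M * q * q) (A.inertiaSubgroupIn ℚ))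
        (S36IT_Ov3 M q hq hqM A hA ζ hζ hζ1 i)))
    (cst : ↥(S36FL_AL (S36FI_act (M * q * q) (A.inertiaSubgroupIn ℚ)) A))
    (U : Set (Place ℚbar ↥(modularFunctionFieldBar (M * q * q))))
    (hU : U ⊆ S34IX_TU' (jBar (M * q * q) q (S36CO_q_dvd M q))
      ((cst : ↥(S36FI_act (M * q * q) (A.inertiaSubgroupIn ℚ)).fixK) : ℚbar))
    (P : Place (IsLocalRing.ResidueField A) ↥(S36FI_kappa M A))
    (hP : P.ord (S18_jbar M (IsLocalRing.ResidueField A)) < 0)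
    (y : (S36IT_fam3 M q hq hqM A hA ζ hζ hζ1 dvr U).Λ →+* IsLocalRing.ResidueField A)
    (hO : ∀ f : (S36IT_fam3 M q hq hqM A hA ζ hζ hζ1 dvr U).Λ,
      (f : ↥(S36FI_act (M * q * q) (A.inertiaSubgroupIn ℚ)).fixF) ∈
        (S36FI_SFV M q hq hqM A hA ζ hζ hζ1).O)
    (hy : ∀ f : (S36IT_fam3 M q hq hqM A hA ζ hζ hζ1 dvr U).Λ,
      y f = FD_c0 P (S36CA_compRed (S36FI_SFV M q hq hqM A hA ζ hζ hζ1)
        (S36IT_fam3 M q hq hqM A hA ζ hζ hζ1 dvr U) hO f))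
    (s₀ : ↥(S36FI_act (M * q * q) (A.inertiaSubgroupIn ℚ)).fixF)
    (hs₀ : (s₀ : ↥(modularFunctionFieldBar (M * q * q))) =
      (jBar (M * q * q) (q * q) (S36CQ_qq_dvd M q) - jB (M * q * q)) *
        jB (M * q * q) ^ (q - 1) *
        (jBar (M * q * q) q (S36CO_q_dvd M q) -
          algebraMap ℚbar ↥(modularFunctionFieldBar (M * q * q))
            ((cst : ↥(S36FI_act (M * q * q) (A.inertiaSubgroupIn ℚ)).fixK) : ℚbar))⁻¹) :
    ∀ i ∈ (S36IT_fam3 M q hq hqM A hA ζ hζ hζ1 dvr U).thru y,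
      (S36IT_fam3 M q hq hqM A hA ζ hζ hζ1 dvr U).v i s₀ ≤ 1 := by
  -- the Gauss rings
  obtain ⟨ha1, ha2, ha3⟩ := S36CQ_jBar_mem M q hq hqM A ζ hζ hζ1 1 (one_dvd _)
  obtain ⟨hb1, hb2, hb3⟩ := S36CQ_jBar_mem M q hq hqM A ζ hζ hζ1 q (S36CO_q_dvd M q)
  obtain ⟨hc1, hc2, hc3⟩ := S36CQ_jBar_mem M q hq hqM A ζ hζ hζ1 (q * q) (S36CQ_qq_dvd M q)
  obtain ⟨hw1, hw2, hw3⟩ := S36CQ_w_mem3 M q hq hqM A ζ hζ hζ1
    (S36FL_ALincl (S36FI_act (M * q * q) (A.inertiaSubgroupIn ℚ)) A cst)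
  -- the fixed field
  have hafix : jB (M * q * q) ∈ (S36FI_act (M * q * q) (A.inertiaSubgroupIn ℚ)).fixF := fun h =>
    S36FI_jBar_fixed (M * q * q) (h : ℚbar ≃ₐ[ℚ] ℚbar) 1 (one_dvd _)
  have hbfix : jBar (M * q * q) q (S36CO_q_dvd M q) ∈
      (S36FI_act (M * q * q) (A.inertiaSubgroupIn ℚ)).fixF := fun h =>
    S36FI_jBar_fixed (M * q * q) (h : ℚbar ≃ₐ[ℚ] ℚbar) q (S36CO_q_dvd M q)
  have hcfix : jBar (M * q * q) (q * q) (S36CQ_qq_dvd M q) ∈
      (S36FI_act (M * q * q) (A.inertiaSubgroupIn ℚ)).fixF := fun h =>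
    S36FI_jBar_fixed (M * q * q) (h : ℚbar ≃ₐ[ℚ] ℚbar) (q * q) (S36CQ_qq_dvd M q)
  have hwfix : (jBar (M * q * q) q (S36CO_q_dvd M q) -
      algebraMap ℚbar ↥(modularFunctionFieldBar (M * q * q))
        ((cst : ↥(S36FI_act (M * q * q) (A.inertiaSubgroupIn ℚ)).fixK) : ℚbar))⁻¹ ∈
      (S36FI_act (M * q * q) (A.inertiaSubgroupIn ℚ)).fixF :=
    inv_mem (sub_mem hbfix ((S36FI_act (M * q * q) (A.inertiaSubgroupIn ℚ)).algebraMap_mem_fixF
      (cst : ↥(S36FI_act (M * q * q) (A.inertiaSubgroupIn ℚ)).fixK).2))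
  -- the orders
  have h1 : ∀ Q : Place ℚbar ↥(modularFunctionFieldBar (M * q * q)),
      0 ≤ Q.ord (jBar (M * q * q) q (S36CO_q_dvd M q)) →
        0 ≤ Q.ord (jB (M * q * q)) ∧
          0 ≤ Q.ord (jBar (M * q * q) (q * q) (S36CQ_qq_dvd M q)) := fun Q hQ =>
    S36CQ_h1 (M * q * q) q (S36CO_q_dvd M q) (S36CQ_qq_dvd M q) Q hQ
  have h2 := fun (Q : Place ℚbar ↥(modularFunctionFieldBar (M * q * q)))
      (hQ : Q.ord (jBar (M * q * q) q (S36CO_q_dvd M q)) < 0) =>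
    S36CQ_h2 (M * q * q) q hq (S36CO_q_dvd M q) (S36CQ_qq_dvd M q) Q hQ
  have hUQ : ∀ Q ∈ U, Q.ord (jBar (M * q * q) q (S36CO_q_dvd M q) -
      algebraMap ℚbar ↥(modularFunctionFieldBar (M * q * q))
        ((cst : ↥(S36FI_act (M * q * q) (A.inertiaSubgroupIn ℚ)).fixK) : ℚbar)) ≤ 0 :=
    fun Q hQ => hU hQ
  -- the two test functions
  have hfinf_fix := mul_mem (sub_mem (pow_mem hbfix q) hcfix) (pow_mem hwfix q)
  have hf0_fix := mul_mem (sub_mem (pow_mem hbfix q) hafix) (pow_mem hwfix q)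
  have hfinfΛ : (⟨_, hfinf_fix⟩ : ↥(S36FI_act (M * q * q) (A.inertiaSubgroupIn ℚ)).fixF) ∈
      (S36IT_fam3 M q hq hqM A hA ζ hζ hζ1 dvr U).Λ := by
    refine (S36IT_fam3_mem_Λ_G M q hq hqM A hA ζ hζ hζ1 dvr U _).2
      ⟨mul_mem (sub_mem (pow_mem hb1 q) hc1) (pow_mem hw1 q),
      mul_mem (sub_mem (pow_mem hb2 q) hc2) (pow_mem hw2 q),
      mul_mem (sub_mem (pow_mem hb3 q) hc3) (pow_mem hw3 q), fun Q hQ => ?_⟩
    exact S36CQ_f_reg Q _ _ _ q (hUQ Q hQ) (fun hB => (h1 Q hB).2) (fun hB =>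
      S36CQ_ordC_ge (M * q * q) q hq (S36CO_q_dvd M q) (S36CQ_qq_dvd M q) Q
        (S36CQ_ordA_neg (M * q * q) q (S36CO_q_dvd M q) Q hB))
  have hf0Λ : (⟨_, hf0_fix⟩ : ↥(S36FI_act (M * q * q) (A.inertiaSubgroupIn ℚ)).fixF) ∈
      (S36IT_fam3 M q hq hqM A hA ζ hζ hζ1 dvr U).Λ := by
    refine (S36IT_fam3_mem_Λ_G M q hq hqM A hA ζ hζ hζ1 dvr U _).2
      ⟨mul_mem (sub_mem (pow_mem hb1 q) ha1) (pow_mem hw1 q),
      mul_mem (sub_mem (pow_mem hb2 q) ha2) (pow_mem hw2 q),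
      mul_mem (sub_mem (pow_mem hb3 q) ha3) (pow_mem hw3 q), fun Q hQ => ?_⟩
    exact S36CQ_f_reg Q _ _ _ q (hUQ Q hQ) (fun hB => (h1 Q hB).1) (fun hB =>
      S36CQ_ordA_ge (M * q * q) q hq (S36CO_q_dvd M q) Q
        (S36CQ_ordA_neg (M * q * q) q (S36CO_q_dvd M q) Q hB))
  -- the values
  have hyinf : y ⟨_, hfinfΛ⟩ ≠ 0 := by
    rw [hy, S36CA_compRed_apply,
      S36CQ_f_val M q hq hqM A hA ζ hζ hζ1 cst _ hc2
        (S36CQ_C_red_FV M q hq hqM A hA ζ hζ hζ1 hc2) _ rfl _ P hP]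
    exact one_ne_zero
  have hy0 : y ⟨_, hf0Λ⟩ ≠ 0 := by
    rw [hy, S36CA_compRed_apply,
      S36CQ_f_val M q hq hqM A hA ζ hζ hζ1 cst _ ha2
        (S36CQ_A_red_FV M q hq hqM A hA ζ hζ hζ1 ha2) _ rfl _ P hP]
    exact one_ne_zero
  -- `s₀` lies in the three vertical rings
  have hv : ∀ i : Fin 3, s₀ ∈ (S36IT_fam3 M q hq hqM A hA ζ hζ hζ1 dvr U).Ov i := by
    intro i
    fin_cases i
    · show (s₀ : ↥(modularFunctionFieldBar (M * q * q))) ∈ S36V_G A (S36V_emFF M q)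
      rw [hs₀]
      exact S36CQ_s0_G A _ q ha1 hc1 hw1
    · show (s₀ : ↥(modularFunctionFieldBar (M * q * q))) ∈
        S36V_G A (S36V_emFV M q hq hqM ζ hζ hζ1)
      rw [hs₀]
      exact S36CQ_s0_G A _ q ha2 hc2 hw2
    · show (s₀ : ↥(modularFunctionFieldBar (M * q * q))) ∈ S36V_G A (S36V_emVV M q hq hqM)
      rw [hs₀]
      exact S36CQ_s0_G A _ q ha3 hc3 hw3
  exact S36CQ_core (S36IT_fam3 M q hq hqM A hA ζ hζ hζ1 dvr U) y (jB (M * q * q))
    (jBar (M * q * q) q (S36CO_q_dvd M q)) (jBar (M * q * q) (q * q) (S36CQ_qq_dvd M q))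
    ((cst : ↥(S36FI_act (M * q * q) (A.inertiaSubgroupIn ℚ)).fixK) : ℚbar) q hq.one_le hUQ h1 h2
    ⟨_, hfinfΛ⟩ ⟨_, hf0Λ⟩ rfl rfl hyinf hy0 s₀ hs₀ hv

end main

section generator

variable (M q : ℕ) [NeZero M] [NeZero q] (A : ValuationSubring ℚbar)

/-- `ϖ = C − A`. -/
theorem S36CQ_varpi_eq :
    S36VDV_varpi M q = jBar (M * q * q) (q * q) (S36CQ_qq_dvd M q) - jB (M * q * q) := by
  rw [S36VDV_varpi, S36CQ_dC_eq, S36CQ_dA_eq]

/-- **the generator** `s₀ = ϖ · j^(q−1) · (B − c)⁻¹` of the vertical prime of `FV` at the cusps,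
as an element of `F_L`. -/
noncomputable def S36CQ_s0 (H : Subgroup (ℚbar ≃ₐ[ℚ] ℚbar)) (c : ↥(S36FI_act (M * q * q) H).fixK) :
    ↥(S36FI_act (M * q * q) H).fixF :=
  S36VDV_varpiL M q H * S36I3_jL (M * q * q) H ^ (q - 1) *
    (S36CO_BL M q H - algebraMap ↥(S36FI_act (M * q * q) H).fixK
      ↥(S36FI_act (M * q * q) H).fixF c)⁻¹

/-- `s₀ = (C − A) A^(q−1) (B − c)⁻¹` in `F₂` (= `hs₀` of `S36CQ_main`, `S36CQ_hthru`). -/
theorem S36CQ_s0_coe (H : Subgroup (ℚbar ≃ₐ[ℚ] ℚbar)) (c : ↥(S36FI_act (M * q * q) H).fixK) :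
    ((S36CQ_s0 M q H c : ↥(S36FI_act (M * q * q) H).fixF) :
        ↥(modularFunctionFieldBar (M * q * q))) =
      (jBar (M * q * q) (q * q) (S36CQ_qq_dvd M q) - jB (M * q * q)) *
        jB (M * q * q) ^ (q - 1) *
        (jBar (M * q * q) q (S36CO_q_dvd M q) -
          algebraMap ℚbar ↥(modularFunctionFieldBar (M * q * q)) (c : ℚbar))⁻¹ := by
  rw [← S36CQ_varpi_eq]
  rfl

end generator

section wire

variable (M q : ℕ) [NeZero M] [NeZero q] (hq : q.Prime) (hqM : ¬ q ∣ M)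
  (A : ValuationSubring ℚbar) (hA : A.LiesOverPrime q)
  (ζ : ℚbarˣ) (hζ : ζ ^ q = 1) (hζ1 : ζ ≠ 1)

include hq hA in
/-- the poles of the chart coordinate `x̄ = j̄^q` are the poles of `j̄`. -/
theorem S36CQ_pole_of_xb (P : Place (IsLocalRing.ResidueField A) ↥(S36FI_kappa M A))
    (hPx : ¬ P.adicValuation (S36CZ_xb M q hq hqM A hA) ≤ 1) :
    P.ord (S18_jbar M (IsLocalRing.ResidueField A)) < 0 := by
  by_contra h
  push Not at h
  apply hPx
  rw [S36CZ_xb_eq_pow M q hq hqM A hA]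
  exact P.adicValuation_le_one_of_mem (pow_mem (S36CQ_mem_of_ord P h) q)

/-- **`hthru`** of helper27's `S36CC_hcusp₂` (any chart `C` whose lattice contains `Λ_U`,
`U ⊆ U′`; `x₂ = x̄ = j̄^q`). -/
theorem S36CQ_hthru
    (dvr : ∀ i, IsDiscreteValuationRing
      (S36FL_OL (S36FI_act (M * q * q) (A.inertiaSubgroupIn ℚ))
        (S36IT_Ov3 M q hq hqM A hA ζ hζ hζ1 i)))
    (cst : ↥(S36FL_AL (S36FI_act (M * q * q) (A.inertiaSubgroupIn ℚ)) A))
    (U : Set (Place ℚbar ↥(modularFunctionFieldBar (M * q * q))))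
    (hU : U ⊆ S34IX_TU' (jBar (M * q * q) q (S36CO_q_dvd M q))
      ((cst : ↥(S36FI_act (M * q * q) (A.inertiaSubgroupIn ℚ)).fixK) : ℚbar))
    {n : ℕ} {C : S36L3_Chart ↥(S36FI_act (M * q * q) (A.inertiaSubgroupIn ℚ)).fixK
      ↥(S36FI_act (M * q * q) (A.inertiaSubgroupIn ℚ)).fixF (IsLocalRing.ResidueField A)
      ↥(S36FI_kappa M A) ↥(S36FI_kappa M A) ↥(S36FI_kappa M A) n}
    (hle : (S36IT_fam3 M q hq hqM A hA ζ hζ hζ1 dvr U).Λ ≤
      S36LJ_Lam (S36FI_SFF M q hq hqM A hA) (S36FI_SFV M q hq hqM A hA ζ hζ hζ1)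
        (S36FI_SVV M q hq hqM A hA) C.B.toSubring)
    (R : S36LJ_Red (S₁ := S36FI_SFF M q hq hqM A hA)
      (S₂ := S36FI_SFV M q hq hqM A hA ζ hζ hζ1) (S₃ := S36FI_SVV M q hq hqM A hA) C)
    (h₂ : RR_Hyp (IsLocalRing.ResidueField A) ↥(S36FI_kappa M A))
    (s₀ : ↥(S36FI_act (M * q * q) (A.inertiaSubgroupIn ℚ)).fixF)
    (hs₀ : (s₀ : ↥(modularFunctionFieldBar (M * q * q))) =
      (jBar (M * q * q) (q * q) (S36CQ_qq_dvd M q) - jB (M * q * q)) *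
        jB (M * q * q) ^ (q - 1) *
        (jBar (M * q * q) q (S36CO_q_dvd M q) -
          algebraMap ℚbar ↥(modularFunctionFieldBar (M * q * q))
            ((cst : ↥(S36FI_act (M * q * q) (A.inertiaSubgroupIn ℚ)).fixK) : ℚbar))⁻¹)
    (P : Place (IsLocalRing.ResidueField A) ↥(S36FI_kappa M A))
    (hP : ∀ f ∈ C.Rb₂, P.adicValuation f ≤ 1)
    (hPx : ¬ P.adicValuation (S36CZ_xb M q hq hqM A hA) ≤ 1) :
    ∀ i ∈ (S36IT_fam3 M q hq hqM A hA ζ hζ hζ1 dvr U).thru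
        (S36LK_y₂ (S36IT_fam3 M q hq hqM A hA ζ hζ hζ1 dvr U) hle R
          ((S36SE_ev C.Rb₂ P (h₂.deg_one P) hP :
            ↥C.Rb₂ →ₐ[IsLocalRing.ResidueField A] IsLocalRing.ResidueField A) :
              ↥C.Rb₂ →+* IsLocalRing.ResidueField A)),
      (S36IT_fam3 M q hq hqM A hA ζ hζ hζ1 dvr U).v i s₀ ≤ 1 :=
  S36CQ_main M q hq hqM A hA ζ hζ hζ1 dvr cst U hU P
    (S36CQ_pole_of_xb M q hq hqM A hA P hPx) _
    (S36CW_mem₂ (S36IT_fam3 M q hq hqM A hA ζ hζ hζ1 dvr U) hle) (fun _ => rfl) s₀ hs₀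

end wire

end Fermat.Agent.S36
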