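import Fermat.Agent.S36.CuspRamUnit
import Fermat.Agent.S36.CuspThruInst
import Fermat.Agent.S36.CuspLiUnrFin

/-!
# TRACK 10 (S36), audit item U4 (helper27): the concrete `hcusp₂` of `S36CX_geo_U'2`
= `S36CC_hcusp₂` (`S36/CuspLiRam.lean`) instantiated on the lattice `D′ = Λ_{U′}` of the chart
`U′ = {B ≠ c}`.  Prefix `S36KR_`.  Companion of helper8's `S36/CuspLiUnrInst.lean`,
`S36/CuspLiUnrFin.lean` (`hcusp₁`, `hcusp₃`).

Concrete objects: `S = S36FI_act (M q q) I`, `S₁ S₂ S₃ = S36FI_SFF, S36FI_SFV, S36FI_SVV`,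
`j = S36CO_BL`, charts `S36CZ_C'`, `S36CZ_C''`, `D′ = S36IT_lat … (S34IX_TU' B c)`.

Supplied here: everything of `S36CLI_hcusp₁` plus the uniformiser `ϖ = C − A` of `FV`
(`S36VDV_isUnif_FV`, `S36VDV_isU_FV`, helper8), the generator `s₀ = ϖ A^(q−1) (B − c)⁻¹` with the
unit count (`S36KR_s₀_mem`, `S36KR_s₀_red_ne`, `S36KR_unit`) and THRU (`S36CQ_hthru`, helper25).

* `S36KR_s₀_coe` : `s₀ = (C − A) A^(q−1) (B − c)⁻¹` in `F₂`;
* `S36KR_hxy₂` : the triple points are not zeros of `1/(x̄ − c̄)` (component `FV`);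
* **`S36KR_hcusp₂`** (general `Kp`), **`S36KR_hcusp₂_fin`** (`Kp = S36LC_Kp`, hyps: `hX`, `hint₂`).
-/

set_option autoImplicit false
set_option synthInstance.maxHeartbeats 400000
set_option maxHeartbeats 1000000
set_option linter.unusedSectionVars false
set_option linter.unusedVariables false
set_option linter.style.haveILetI false

open AlgebraicCurve ModularCurve HahnSeries IntermediateField

noncomputable section

namespace Fermat.Agent.S36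

open Fermat.Agent.Lib Fermat.Agent.S18 Fermat.Agent.S24 Fermat.Agent.S34

local notation "Ω" => AlgebraicClosure ℚ

variable (M q : ℕ) [NeZero M] [NeZero q] (hq : q.Prime) (hqM : ¬ q ∣ M)
  (A : ValuationSubring Ω) (hA : A.LiesOverPrime q)
  (ζ : Ωˣ) (hζ : ζ ^ q = 1) (hζ1 : ζ ≠ 1)

variable (c : (S36FI_SFF M q hq hqM A hA).A)

/-- `s₀ = (C − A) A^(q−1) (B − c)⁻¹` in `F₂` (= `hs₀` of `S36CQ_hthru`). -/
theorem S36KR_s₀_coe :
    ((S36KR_s₀ M q hq hqM A hA c : ↥(S36FI_act (M * q * q) (A.inertiaSubgroupIn ℚ)).fixF) :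
        ↥(modularFunctionFieldBar (M * q * q))) =
      (jBar (M * q * q) (q * q) (S36CQ_qq_dvd M q) - jB (M * q * q)) *
        jB (M * q * q) ^ (q - 1) *
        (jBar (M * q * q) q (S36CO_q_dvd M q) -
          algebraMap Ω ↥(modularFunctionFieldBar (M * q * q))
            ((c : ↥(S36FI_act (M * q * q) (A.inertiaSubgroupIn ℚ)).fixK) : Ω))⁻¹ := by
  rw [← S36CQ_varpi_eq, ← S36CQ_dA_eq M q]
  rfl

variable (n : ℕ) (hn : 0 < n)

/-- the triple points are not zeros of `1/(x̄ − c̄)` (component `FV`). -/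
theorem S36KR_hxy₂ {ι : Type*}
    {X : S36SE_Pts (IsLocalRing.ResidueField A) ↥(S36FI_kappa M A) ↥(S36FI_kappa M A)
      ↥(S36FI_kappa M A) ι}
    (hX : S36SE_Reg (S36CZ_C'' M q hq hqM A hA c n hn) X) :
    ∀ y, ¬ (X.P₂ y).adicValuation (S36CZ_zb M q hq hqM A hA c)⁻¹ < 1 := by
  have hz := S36CZ_zb_ne_zero M q hq hqM A hA c
  intro y hlt
  have h1 := hX.reg₂ y (S36CZ_xb M q hq hqM A hA) (S36CU_self_mem_reg2 _ _)
  have h2 := hX.reg₂ y (S36CZ_zb M q hq hqM A hA c)⁻¹ (S36CU_inv_mem_reg2 _ _)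
  have h3 := S36CX_hunit (S36CZ_xb M q hq hqM A hA) _ hz (X.P₂ y) h1 h2
  exact absurd h3 hlt.ne

/-- **the concrete `hcusp₂`** of `S36CX_geo_U'2`: (LI) at the cusps of `FV` on the chart `U′`. -/
theorem S36KR_hcusp₂ {ι : Type*} [Finite ι]
    {X : S36SE_Pts (IsLocalRing.ResidueField A) ↥(S36FI_kappa M A) ↥(S36FI_kappa M A)
      ↥(S36FI_kappa M A) ι}
    (hX : S36SE_Reg (S36CZ_C'' M q hq hqM A hA c n hn) X)
    [IsNoetherianRing (S36IT_lat M q hq hqM A hA ζ hζ hζ1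
      (S34IX_TU' ((S36CO_BL M q (A.inertiaSubgroupIn ℚ) :
        ↥(S36FI_act (M * q * q) (A.inertiaSubgroupIn ℚ)).fixF) :
          ↥(modularFunctionFieldBar (M * q * q)))
        (((c : ↥(S36FI_act (M * q * q) (A.inertiaSubgroupIn ℚ)).fixK)) : Ω))).Λ]
    (R : S36LJ_Red (S₁ := S36FI_SFF M q hq hqM A hA)
      (S₂ := S36FI_SFV M q hq hqM A hA ζ hζ hζ1) (S₃ := S36FI_SVV M q hq hqM A hA)
      (S36CZ_C' M q hq hqM A hA c n hn))
    (h : RR_Hyp (IsLocalRing.ResidueField A) ↥(S36FI_kappa M A))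
    (hint₂ : ∀ g g' : ↥(S36CZ_C' M q hq hqM A hA c n hn).Rb₂,
      (∀ y, S36SE_e₂ (S36CZ_C' M q hq hqM A hA c n hn) X
        (hX.of_le (S36CZ_hle' M q hq hqM A hA c n hn)) y g = 0) →
      (∀ y, S36SE_e₂ (S36CZ_C' M q hq hqM A hA c n hn) X
        (hX.of_le (S36CZ_hle' M q hq hqM A hA c n hn)) y g' = 0) →
      ((0, g * g', 0) : ↥(S36CZ_C' M q hq hqM A hA c n hn).Rb₁ ×
          ↥(S36CZ_C' M q hq hqM A hA c n hn).Rb₂ × ↥(S36CZ_C' M q hq hqM A hA c n hn).Rb₃) ∈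
        S36L3_W (S36FI_same3 M q hq hqM A hA ζ hζ hζ1) (S36CZ_C' M q hq hqM A hA c n hn) 1)
    {Kp : Subgroup (↥(S36FI_act (M * q * q) (A.inertiaSubgroupIn ℚ)).fixF)ˣ}
    (hKp : Kp ≤ S36L3_NormGrp (S36FI_SFF M q hq hqM A hA)
      (S36FI_SFV M q hq hqM A hA ζ hζ hζ1) (S36FI_SVV M q hq hqM A hA))
    (hKum : Kp ≤ S36WC_Kum (S36FI_act (M * q * q) (A.inertiaSubgroupIn ℚ)) n)
    (hpole : ∃ v : Place Ω ↥(modularFunctionFieldBar (M * q * q)),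
      v.ord ((S36CO_BL M q (A.inertiaSubgroupIn ℚ) :
        ↥(S36FI_act (M * q * q) (A.inertiaSubgroupIn ℚ)).fixF) :
          ↥(modularFunctionFieldBar (M * q * q))) < 0) :
    ∀ u ∈ Kp, ∀ P : Place (IsLocalRing.ResidueField A) ↥(S36FI_kappa M A),
      ¬ P.adicValuation (S36CZ_xb M q hq hqM A hA) ≤ 1 →
      P.adicValuation (S36CZ_zb M q hq hqM A hA c)⁻¹ ≤ 1 →
      ∃ m ∈ S36L3_W (S36FI_same3 M q hq hqM A hA ζ hζ hζ1) (S36CZ_C' M q hq hqM A hA c n hn)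
          ((u : (↥(S36FI_act (M * q * q) (A.inertiaSubgroupIn ℚ)).fixF)ˣ) :
            ↥(S36FI_act (M * q * q) (A.inertiaSubgroupIn ℚ)).fixF),
        FD_c0 P ((m.2.1 : ↥(S36CZ_C' M q hq hqM A hA c n hn).Rb₂) : ↥(S36FI_kappa M A)) ≠ 0 := by
  haveI : IsAlgClosed (IsLocalRing.ResidueField A) := S36CZ_algClosed A
  obtain ⟨c₀, hc₀⟩ := S36CX_pole_of_transc h
    (S36CX_transc_inv_sub (S36CZ_xb_transc M q hq hqM A hA)
      ((S36FI_SFF M q hq hqM A hA).res c))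
  have hm : q - 2 + 1 = q - 1 := by
    have := hq.two_le
    omega
  have hπq : S36LW_IsU (S36FL_OL (S36FI_act (M * q * q) (A.inertiaSubgroupIn ℚ))
        (S36V_OFV M q hq hqM A hA ζ hζ hζ1))
      (S36VDV_varpiL M q (A.inertiaSubgroupIn ℚ) ^ (q - 2 + 1) /
        ((q : ℕ) : ↥((S36FI_act (M * q * q) (A.inertiaSubgroupIn ℚ)).fixF))) := by
    rw [hm]
    exact S36VDV_isU_FV M q hq hqM A ζ hζ hζ1 (S36V_OFV M q hq hqM A hA ζ hζ hζ1) hA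
      (fun _ => Iff.rfl)
  exact S36CC_hcusp₂ (S36FI_same3 M q hq hqM A hA ζ hζ hζ1)
    (S36IT_lat M q hq hqM A hA ζ hζ hζ1
      (S34IX_TU' ((S36CO_BL M q (A.inertiaSubgroupIn ℚ) :
        ↥(S36FI_act (M * q * q) (A.inertiaSubgroupIn ℚ)).fixF) :
          ↥(modularFunctionFieldBar (M * q * q)))
        (((c : ↥(S36FI_act (M * q * q) (A.inertiaSubgroupIn ℚ)).fixK)) : Ω)))
    (S36CZ_hleΛ' M q hq hqM A hA ζ hζ hζ1 c n hn _)
    (S36CZ_Lam_eq M q hq hqM A hA ζ hζ hζ1 _ _).ge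
    R (S36CZ_hOv M q hq hqM A hA ζ hζ hζ1 _ _)
    (S36CLI_hfrac' M q hq hqM A hA ζ hζ hζ1 c)
    (jFF := 0) (jFV := 1) (jVV := 2) rfl rfl rfl (by decide)
    (S36CLI_q M q hq hqM A hA ζ hζ hζ1 _) ((q : ℕ) : Ω)
    (by exact_mod_cast hq.ne_zero) (S36CLI_q_phi M q hq hqM A hA ζ hζ hζ1 _)
    (S36VDV_isUnif_FF M q hq A (S36V_OFF M q hq A hA) hA (fun _ => Iff.rfl))
    (S36VDV_isUnif_VV M q hq hqM A (S36V_OVV M q hq hqM A hA) hA (fun _ => Iff.rfl))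
    (q - 2) (S36VDV_varpiL M q (A.inertiaSubgroupIn ℚ))
    (S36VDV_isUnif_FV M q hq hqM A ζ hζ hζ1 (S36V_OFV M q hq hqM A hA ζ hζ hζ1) hA
      (fun _ => Iff.rfl))
    hπq
    h (S36CZ_xb M q hq hqM A hA) (S36CZ_zb M q hq hqM A hA c)⁻¹ c₀ hc₀
    (fun y => S36CU_mem_regZ_adic)
    (fun Q hQ => S36CL_cusp_zero (S36CZ_xb M q hq hqM A hA) _ Q hQ)
    X (hX.of_le (S36CZ_hle' M q hq hqM A hA c n hn))
    (S36KR_hxy₂ M q hq hqM A hA c n hn hX) hint₂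
    (S36KR_s₀ M q hq hqM A hA c)
    (S36KR_s₀_mem M q hq hqM A hA ζ hζ hζ1 c (q - 2) hm)
    (S36KR_s₀_red_ne M q hq hqM A hA ζ hζ hζ1 c (q - 2) hm _)
    (fun P hP => S36KR_unit M q hq hqM A hA ζ hζ hζ1 c (q - 2) hm _ P hP)
    (fun P hP hPx => S36CQ_hthru M q hq hqM A hA ζ hζ hζ1
      (S36IT_dvr3_inst M q hq hqM A hA ζ hζ hζ1) c _ (fun _ hQ => hQ)
      (S36CZ_hleΛ' M q hq hqM A hA ζ hζ hζ1 c n hn _) R h
      (S36KR_s₀ M q hq hqM A hA c) (S36KR_s₀_coe M q hq hqM A hA c) P hP hPx)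
    hKp
    (S36SJ_hsepH_U' M q hq hqM A hA ζ hζ hζ1 _ _ _ n Kp hpole hn.ne' hKum)
    (S36SJ_hsepH0_U' M q hq hqM A hA ζ hζ hζ1 _ _ _ n Kp hpole hn.ne' hKum)

/-- **the concrete `hcusp₂`** of `S36CX_geo_U'2`, closed form (hyps: `hX`, `hint₂`). -/
theorem S36KR_hcusp₂_fin {ι : Type*} [Finite ι]
    {X : S36SE_Pts (IsLocalRing.ResidueField A) ↥(S36FI_kappa M A) ↥(S36FI_kappa M A)
      ↥(S36FI_kappa M A) ι}
    (hX : S36SE_Reg (S36CZ_C'' M q hq hqM A hA c n hn) X)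
    (hint₂ : ∀ g g' : ↥(S36CZ_C' M q hq hqM A hA c n hn).Rb₂,
      (∀ y, S36SE_e₂ (S36CZ_C' M q hq hqM A hA c n hn) X
        (hX.of_le (S36CZ_hle' M q hq hqM A hA c n hn)) y g = 0) →
      (∀ y, S36SE_e₂ (S36CZ_C' M q hq hqM A hA c n hn) X
        (hX.of_le (S36CZ_hle' M q hq hqM A hA c n hn)) y g' = 0) →
      ((0, g * g', 0) : ↥(S36CZ_C' M q hq hqM A hA c n hn).Rb₁ ×
          ↥(S36CZ_C' M q hq hqM A hA c n hn).Rb₂ × ↥(S36CZ_C' M q hq hqM A hA c n hn).Rb₃) ∈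
        S36L3_W (S36FI_same3 M q hq hqM A hA ζ hζ hζ1) (S36CZ_C' M q hq hqM A hA c n hn) 1) :
    ∀ u ∈ S36LC_Kp (S36FI_act (M * q * q) (A.inertiaSubgroupIn ℚ)) n
        (S36FI_SFF M q hq hqM A hA) (S36FI_SFV M q hq hqM A hA ζ hζ hζ1)
        (S36FI_SVV M q hq hqM A hA),
      ∀ P : Place (IsLocalRing.ResidueField A) ↥(S36FI_kappa M A),
      ¬ P.adicValuation (S36CZ_xb M q hq hqM A hA) ≤ 1 →
      P.adicValuation (S36CZ_zb M q hq hqM A hA c)⁻¹ ≤ 1 →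
      ∃ m ∈ S36L3_W (S36FI_same3 M q hq hqM A hA ζ hζ hζ1) (S36CZ_C' M q hq hqM A hA c n hn)
          ((u : (↥(S36FI_act (M * q * q) (A.inertiaSubgroupIn ℚ)).fixF)ˣ) :
            ↥(S36FI_act (M * q * q) (A.inertiaSubgroupIn ℚ)).fixF),
        FD_c0 P ((m.2.1 : ↥(S36CZ_C' M q hq hqM A hA c n hn).Rb₂) : ↥(S36FI_kappa M A)) ≠ 0 :=
  haveI := S36FG_noeth_latZ M q hq hqM A hA ζ hζ hζ1 c
  S36KR_hcusp₂ M q hq hqM A hA ζ hζ hζ1 c n hn hX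
    (S36FG_red_CZ M q hq hqM A hA ζ hζ hζ1 c n hn) (S36RI_hk M q hq hqM A hA) hint₂
    S36LC_Kp_le inf_le_left (S36CLI_hpole M q A)

end Fermat.Agent.S36
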