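import Fermat.Agent.S36.HVInstF

/-!
# TRACK 10 (S36), C3.3 = HVInst, part E, CONCRETE, final form (helper4) — prefix `S36HG_`

The E-block `E1F … E2V` of `S36HV_main` for an ARBITRARY chart `C` of level `q²` over
`κ, κ, κ` (`κ = modularFunctionFieldFullC k M`) which is regular at the supersingular points
(`hC : S36SE_Reg C (S36SE_XSS M q hq hqM A hA D)`): no condition on the coordinate rings of `C`
(so it applies to `S36CZ_C`, `S36CZ_C'`, `S36CZ_C''`).

* `S36HG_E1F`, `S36HG_E1V`, `S36HG_E2F`, `S36HG_E2V`;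
* **`S36HG_Eblock hA D C hC emb₁ emb₂ emb₃ hemb₁ hemb₂ hemb₃ Ψ hΨ`** :
  `∃ π₁ π₂ : ↥D.SS → Fin D.s, E1F ∧ E1V ∧ E2F ∧ E2V` (HOLE 5 of helper2's WireConc; there
  `emb_j := (S36FI_kappa M A).val`, `hemb_j := fun _ => rfl`, `Ψ := Hc.Ψ`, `hΨ := fun _ => rfl`).
-/

set_option autoImplicit false
set_option synthInstance.maxHeartbeats 400000
set_option maxHeartbeats 1000000
set_option linter.style.haveILetI false
set_option linter.unusedSectionVars false
set_option linter.unusedVariables false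

open HahnSeries IntermediateField AlgebraicCurve ModularCurve

noncomputable section

namespace Fermat.Agent.S36

open Fermat.Agent.S18 Fermat.Agent.S24 Fermat.Agent.S34 Fermat.Agent.Lib Fermat.Agent.S17

variable {M q : ℕ} [NeZero M] [NeZero q] [NeZero (M * q)] {hq : q.Prime} {hqM : ¬ q ∣ M}
  {A : ValuationSubring (AlgebraicClosure ℚ)} (hA : A.LiesOverPrime q)
  {hgen : PrincipalGeneratedByIntegral A (IsLocalRing.residue A) (M * q)}
  {n : ℕ} {hn : 0 < n}

/-- `Ψ (x) = c ^ q` gives `τ x = c`, for `c ∈ κ`. -/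
theorem S36HG_tau_coe (hq : q.Prime) (hqM : ¬ q ∣ M) (hA : A.LiesOverPrime q)
    (x : ↥(S34SB_reg (IsLocalRing.ResidueField A) (S18_jbar M (IsLocalRing.ResidueField A))))
    (c : ↥(modularFunctionFieldFullC (IsLocalRing.ResidueField A) M))
    (h : qExpand (IsLocalRing.ResidueField A) q
        ((x : ↥(modularFunctionFieldFullC (IsLocalRing.ResidueField A) M)) :
          LaurentSeries (IsLocalRing.ResidueField A)) =
      (c : LaurentSeries (IsLocalRing.ResidueField A)) ^ q) :
    ((S36HF_tau hq hqM hA x :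
      ↥(S34SB_reg (IsLocalRing.ResidueField A) (S18_jbar M (IsLocalRing.ResidueField A)))) :
        ↥(modularFunctionFieldFullC (IsLocalRing.ResidueField A) M)) = c := by
  haveI : Fact q.Prime := ⟨hq⟩
  haveI : CharP (IsLocalRing.ResidueField A) q := S18_residue_charP A q hq hA
  haveI : CharP (LaurentSeries (IsLocalRing.ResidueField A)) q :=
    charP_of_injective_algebraMap
      (algebraMap (IsLocalRing.ResidueField A)
        (LaurentSeries (IsLocalRing.ResidueField A))).injective q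
  haveI : ExpChar (LaurentSeries (IsLocalRing.ResidueField A)) q := ExpChar.prime hq
  have h1 : (((S36HF_tau hq hqM hA x ^ q :
      ↥(S34SB_reg (IsLocalRing.ResidueField A) (S18_jbar M (IsLocalRing.ResidueField A)))) :
        ↥(modularFunctionFieldFullC (IsLocalRing.ResidueField A) M)) :
          LaurentSeries (IsLocalRing.ResidueField A)) =
      (c : LaurentSeries (IsLocalRing.ResidueField A)) ^ q := by
    rw [← S36HF_Fr_eq, S36HF_Fr_coe]
    exact h
  have h2 : frobenius (LaurentSeries (IsLocalRing.ResidueField A)) q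
      (((S36HF_tau hq hqM hA x :
      ↥(S34SB_reg (IsLocalRing.ResidueField A) (S18_jbar M (IsLocalRing.ResidueField A)))) :
        ↥(modularFunctionFieldFullC (IsLocalRing.ResidueField A) M)) :
          LaurentSeries (IsLocalRing.ResidueField A)) =
      frobenius (LaurentSeries (IsLocalRing.ResidueField A)) q
        (c : LaurentSeries (IsLocalRing.ResidueField A)) := by
    rw [frobenius_def, frobenius_def]
    exact h1
  exact Subtype.ext (frobenius_inj _ q h2)

section main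

variable {L F : Type*} [Field L] [Field F] [Algebra L F] {m : ℕ}
  (D : S36SS_Data M q hq hqM A hgen n hn)
  (C : S36L3_Chart L F (IsLocalRing.ResidueField A)
    ↥(modularFunctionFieldFullC (IsLocalRing.ResidueField A) M)
    ↥(modularFunctionFieldFullC (IsLocalRing.ResidueField A) M)
    ↥(modularFunctionFieldFullC (IsLocalRing.ResidueField A) M) m)
  (hC : S36SE_Reg C (S36SE_XSS M q hq hqM A hA D))
  (emb₁ emb₂ emb₃ : ↥(modularFunctionFieldFullC (IsLocalRing.ResidueField A) M)
    →ₐ[IsLocalRing.ResidueField A] LaurentSeries (IsLocalRing.ResidueField A))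
  (hemb₁ : ∀ x, emb₁ x = (x : LaurentSeries (IsLocalRing.ResidueField A)))
  (hemb₂ : ∀ x, emb₂ x = (x : LaurentSeries (IsLocalRing.ResidueField A)))
  (hemb₃ : ∀ x, emb₃ x = (x : LaurentSeries (IsLocalRing.ResidueField A)))
  (Ψ : LaurentSeries (IsLocalRing.ResidueField A) →+* LaurentSeries (IsLocalRing.ResidueField A))
  (hΨ : ∀ x, Ψ x = qExpand (IsLocalRing.ResidueField A) q x)

include hemb₁ hemb₂ in
/-- **E1F** of `S36HV_main`, any chart. -/
theorem S36HG_E1F (y : ↥D.SS)
    (z : ↥((S34M_chart M q A n hn).Rb₁.map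
      (modularFunctionFieldFullC (IsLocalRing.ResidueField A) (M * q)).val))
    (a : ↥C.Rb₁) (b : ↥C.Rb₂)
    (h : (z : LaurentSeries (IsLocalRing.ResidueField A)) =
      emb₁ (a : ↥(modularFunctionFieldFullC (IsLocalRing.ResidueField A) M)) *
        emb₂ (b : ↥(modularFunctionFieldFullC (IsLocalRing.ResidueField A) M)) ^ (q - 1)) :
    S36HV_ev (modularFunctionFieldFullC (IsLocalRing.ResidueField A) (M * q)).val
        (S34M_chart M q A n hn).Rb₁ (D.e₁ (S36HF_pi₁ D y)) z =
      S36SE_e₁ C (S36SE_XSS M q hq hqM A hA D) hC y a *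
        S36SE_e₂ C (S36SE_XSS M q hq hqM A hA D) hC y b ^ (q - 1) := by
  obtain ⟨x, hxz⟩ := S36HF_exists₁ M q hq A hA n hn z
  have hx : S36HV_ev (modularFunctionFieldFullC (IsLocalRing.ResidueField A) (M * q)).val
      (S34M_chart M q A n hn).Rb₁ (D.e₁ (S36HF_pi₁ D y)) z =
      D.e₁ (S36HF_pi₁ D y) (S36HF_toRb₁ M q hq A hA n hn x) := by
    apply S36HV_ev_of_eq
    rw [← hxz]
    exact S36HF_toRb₁_coe M q hq A hA n hn x
  have hxk : (x : ↥(modularFunctionFieldFullC (IsLocalRing.ResidueField A) M)) =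
      (a : ↥(modularFunctionFieldFullC (IsLocalRing.ResidueField A) M)) *
        ((b ^ (q - 1) : ↥C.Rb₂) :
          ↥(modularFunctionFieldFullC (IsLocalRing.ResidueField A) M)) := by
    apply Subtype.ext
    rw [hxz, h, hemb₁, hemb₂, IntermediateField.coe_mul, Subalgebra.coe_pow,
      IntermediateField.coe_pow]
  rw [hx, ← S36HF_val_pi₁ hA D y x, hxk, ← map_pow, S36SE_e₁_apply, S36SE_e₂_apply]
  exact (FD_c0_mul _ ((S18_hk M A hq hA hqM).deg_one y.1) (hC.reg₁ y a a.2)
    (hC.reg₂ y _ (b ^ (q - 1)).2)).1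

include hemb₂ hemb₃ in
/-- **E2V** of `S36HV_main`, any chart. -/
theorem S36HG_E2V (y : ↥D.SS)
    (z : ↥((S34M_chart M q A n hn).Rb₂.map
      (modularFunctionFieldFullC (IsLocalRing.ResidueField A) (M * q)).val))
    (b : ↥C.Rb₂) (c : ↥C.Rb₃)
    (h : (z : LaurentSeries (IsLocalRing.ResidueField A)) =
      emb₂ (b : ↥(modularFunctionFieldFullC (IsLocalRing.ResidueField A) M)) ^ (q - 1) *
        emb₃ (c : ↥(modularFunctionFieldFullC (IsLocalRing.ResidueField A) M))) :
    S36HV_ev (modularFunctionFieldFullC (IsLocalRing.ResidueField A) (M * q)).val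
        (S34M_chart M q A n hn).Rb₂ (D.e₂ (S36HF_pi₂ hA D (S36HF_swap hA D) y)) z =
      S36SE_e₂ C (S36SE_XSS M q hq hqM A hA D) hC y b ^ (q - 1) *
        S36SE_e₃ C (S36SE_XSS M q hq hqM A hA D) hC y c := by
  obtain ⟨x, hxz⟩ := S36HF_exists₂ M q hq A hA n hn z
  have hx : S36HV_ev (modularFunctionFieldFullC (IsLocalRing.ResidueField A) (M * q)).val
      (S34M_chart M q A n hn).Rb₂ (D.e₂ (S36HF_pi₂ hA D (S36HF_swap hA D) y)) z =
      D.e₂ (S36HF_pi₂ hA D (S36HF_swap hA D) y) (S36HF_toRb₂ M q hq A hA n hn x) := by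
    apply S36HV_ev_of_eq
    rw [← hxz]
    exact S36HF_toRb₂_coe M q hq A hA n hn x
  have hxk : (x : ↥(modularFunctionFieldFullC (IsLocalRing.ResidueField A) M)) =
      ((b ^ (q - 1) : ↥C.Rb₂) : ↥(modularFunctionFieldFullC (IsLocalRing.ResidueField A) M)) *
        (c : ↥(modularFunctionFieldFullC (IsLocalRing.ResidueField A) M)) := by
    apply Subtype.ext
    rw [hxz, h, hemb₂, hemb₃, IntermediateField.coe_mul, Subalgebra.coe_pow,
      IntermediateField.coe_pow]
  rw [hx, ← S36HF_val_pi₂ hA D (S36HF_swap hA D) y x, hxk, ← map_pow, S36SE_e₂_apply,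
    S36SE_e₃_apply]
  exact (FD_c0_mul _ ((S18_hk M A hq hA hqM).deg_one y.1) (hC.reg₂ y _ (b ^ (q - 1)).2)
    (hC.reg₃ y c c.2)).1

include hemb₃ hΨ in
/-- **E1V** of `S36HV_main`, any chart. -/
theorem S36HG_E1V (y : ↥D.SS)
    (z : ↥((S34M_chart M q A n hn).Rb₂.map
      (modularFunctionFieldFullC (IsLocalRing.ResidueField A) (M * q)).val))
    (c : ↥C.Rb₃)
    (h : Ψ (z : LaurentSeries (IsLocalRing.ResidueField A)) =
      emb₃ (c : ↥(modularFunctionFieldFullC (IsLocalRing.ResidueField A) M)) ^ q) :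
    S36HV_ev (modularFunctionFieldFullC (IsLocalRing.ResidueField A) (M * q)).val
        (S34M_chart M q A n hn).Rb₂ (D.e₂ (S36HF_pi₁ D y)) z =
      S36SE_e₃ C (S36SE_XSS M q hq hqM A hA D) hC y c ^ q := by
  obtain ⟨x, hxz⟩ := S36HF_exists₂ M q hq A hA n hn z
  have hx : S36HV_ev (modularFunctionFieldFullC (IsLocalRing.ResidueField A) (M * q)).val
      (S34M_chart M q A n hn).Rb₂ (D.e₂ (S36HF_pi₁ D y)) z =
      D.e₂ (S36HF_pi₁ D y) (S36HF_toRb₂ M q hq A hA n hn x) := by
    apply S36HV_ev_of_eq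
    rw [← hxz]
    exact S36HF_toRb₂_coe M q hq A hA n hn x
  have hτ : ((S36HF_tau hq hqM hA x :
      ↥(S34SB_reg (IsLocalRing.ResidueField A) (S18_jbar M (IsLocalRing.ResidueField A)))) :
        ↥(modularFunctionFieldFullC (IsLocalRing.ResidueField A) M)) =
      (c : ↥(modularFunctionFieldFullC (IsLocalRing.ResidueField A) M)) := by
    apply S36HG_tau_coe
    rw [hxz, ← hΨ, h, hemb₃]
  rw [hx, ← S36HF_cross_beta hA D, ← S36HF_val_pi₁ hA D y, ← S36HF_z_apply hA D y,
    S36HF_z_Fr, S36HF_z_apply, hτ, S36SE_e₃_apply]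
  rfl

include hemb₁ hΨ in
/-- **E2F** of `S36HV_main`, any chart. -/
theorem S36HG_E2F (y : ↥D.SS)
    (z : ↥((S34M_chart M q A n hn).Rb₁.map
      (modularFunctionFieldFullC (IsLocalRing.ResidueField A) (M * q)).val))
    (a : ↥C.Rb₁)
    (h : Ψ (z : LaurentSeries (IsLocalRing.ResidueField A)) =
      emb₁ (a : ↥(modularFunctionFieldFullC (IsLocalRing.ResidueField A) M)) ^ q) :
    S36HV_ev (modularFunctionFieldFullC (IsLocalRing.ResidueField A) (M * q)).val
        (S34M_chart M q A n hn).Rb₁ (D.e₁ (S36HF_pi₂ hA D (S36HF_swap hA D) y)) z =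
      S36SE_e₁ C (S36SE_XSS M q hq hqM A hA D) hC y a ^ q := by
  obtain ⟨x, hxz⟩ := S36HF_exists₁ M q hq A hA n hn z
  have hx : S36HV_ev (modularFunctionFieldFullC (IsLocalRing.ResidueField A) (M * q)).val
      (S34M_chart M q A n hn).Rb₁ (D.e₁ (S36HF_pi₂ hA D (S36HF_swap hA D) y)) z =
      D.e₁ (S36HF_pi₂ hA D (S36HF_swap hA D) y) (S36HF_toRb₁ M q hq A hA n hn x) := by
    apply S36HV_ev_of_eq
    rw [← hxz]
    exact S36HF_toRb₁_coe M q hq A hA n hn x
  have hτ : ((S36HF_tau hq hqM hA x :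
      ↥(S34SB_reg (IsLocalRing.ResidueField A) (S18_jbar M (IsLocalRing.ResidueField A)))) :
        ↥(modularFunctionFieldFullC (IsLocalRing.ResidueField A) M)) =
      (a : ↥(modularFunctionFieldFullC (IsLocalRing.ResidueField A) M)) := by
    apply S36HG_tau_coe
    rw [hxz, ← hΨ, h, hemb₁]
  rw [hx, S36HF_cross_alpha hA D, ← S36HF_val_pi₂ hA D (S36HF_swap hA D) y,
    ← S36HF_z_apply hA D y, S36HF_z_Fr, S36HF_z_apply, hτ, S36SE_e₁_apply]
  rfl

include hemb₁ hemb₂ hemb₃ hΨ in
/-- **the E-block of `S36HV_main`** (HOLE 5 of helper2's WireConc), for ANY chart `C` regular at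
the supersingular points. -/
theorem S36HG_Eblock :
    ∃ (π₁ π₂ : ↥D.SS → Fin D.s),
      (∀ y (z : ↥((S34M_chart M q A n hn).Rb₁.map
          (modularFunctionFieldFullC (IsLocalRing.ResidueField A) (M * q)).val))
        (a : ↥C.Rb₁) (b : ↥C.Rb₂),
        (z : LaurentSeries (IsLocalRing.ResidueField A)) =
          emb₁ (a : ↥(modularFunctionFieldFullC (IsLocalRing.ResidueField A) M)) *
            emb₂ (b : ↥(modularFunctionFieldFullC (IsLocalRing.ResidueField A) M)) ^ (q - 1) →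
        S36HV_ev (modularFunctionFieldFullC (IsLocalRing.ResidueField A) (M * q)).val
          (S34M_chart M q A n hn).Rb₁ (D.e₁ (π₁ y)) z =
            S36SE_e₁ C (S36SE_XSS M q hq hqM A hA D) hC y a *
              S36SE_e₂ C (S36SE_XSS M q hq hqM A hA D) hC y b ^ (q - 1)) ∧
      (∀ y (z : ↥((S34M_chart M q A n hn).Rb₂.map
          (modularFunctionFieldFullC (IsLocalRing.ResidueField A) (M * q)).val))
        (c : ↥C.Rb₃),
        Ψ (z : LaurentSeries (IsLocalRing.ResidueField A)) =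
          emb₃ (c : ↥(modularFunctionFieldFullC (IsLocalRing.ResidueField A) M)) ^ q →
        S36HV_ev (modularFunctionFieldFullC (IsLocalRing.ResidueField A) (M * q)).val
          (S34M_chart M q A n hn).Rb₂ (D.e₂ (π₁ y)) z =
            S36SE_e₃ C (S36SE_XSS M q hq hqM A hA D) hC y c ^ q) ∧
      (∀ y (z : ↥((S34M_chart M q A n hn).Rb₁.map
          (modularFunctionFieldFullC (IsLocalRing.ResidueField A) (M * q)).val))
        (a : ↥C.Rb₁),
        Ψ (z : LaurentSeries (IsLocalRing.ResidueField A)) =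
          emb₁ (a : ↥(modularFunctionFieldFullC (IsLocalRing.ResidueField A) M)) ^ q →
        S36HV_ev (modularFunctionFieldFullC (IsLocalRing.ResidueField A) (M * q)).val
          (S34M_chart M q A n hn).Rb₁ (D.e₁ (π₂ y)) z =
            S36SE_e₁ C (S36SE_XSS M q hq hqM A hA D) hC y a ^ q) ∧
      (∀ y (z : ↥((S34M_chart M q A n hn).Rb₂.map
          (modularFunctionFieldFullC (IsLocalRing.ResidueField A) (M * q)).val))
        (b : ↥C.Rb₂) (c : ↥C.Rb₃),
        (z : LaurentSeries (IsLocalRing.ResidueField A)) =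
          emb₂ (b : ↥(modularFunctionFieldFullC (IsLocalRing.ResidueField A) M)) ^ (q - 1) *
            emb₃ (c : ↥(modularFunctionFieldFullC (IsLocalRing.ResidueField A) M)) →
        S36HV_ev (modularFunctionFieldFullC (IsLocalRing.ResidueField A) (M * q)).val
          (S34M_chart M q A n hn).Rb₂ (D.e₂ (π₂ y)) z =
            S36SE_e₂ C (S36SE_XSS M q hq hqM A hA D) hC y b ^ (q - 1) *
              S36SE_e₃ C (S36SE_XSS M q hq hqM A hA D) hC y c) :=
  ⟨S36HF_pi₁ D, S36HF_pi₂ hA D (S36HF_swap hA D),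
    fun y z a b h => S36HG_E1F hA D C hC emb₁ emb₂ hemb₁ hemb₂ y z a b h,
    fun y z c h => S36HG_E1V hA D C hC emb₃ hemb₃ Ψ hΨ y z c h,
    fun y z a h => S36HG_E2F hA D C hC emb₁ hemb₁ Ψ hΨ y z a h,
    fun y z b c h => S36HG_E2V hA D C hC emb₂ emb₃ hemb₂ hemb₃ y z b c h⟩

end main

end Fermat.Agent.S36
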