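import Fermat.Agent.S36.Nodal3Inst
import Fermat.Agent.S36.Spec3Ev

/-!
# TRACK 10 (S36), C1.3 = NODAL3-INST (helper14), part 3: `hint_j` of `S36TI_Geo` on ANY chart

Prefix `S36N3C_`.  Three valuation data with the same residue field `Fk = κ`, a chart `C` with
`Rb₁ = Rb₂ = Rb₃` (as subalgebras of `κ`), and the evaluations `S36SE_e_j C X hC` (helper21) at
points `X` whose three centres agree (`X.P₁ y = X.P₂ y = X.P₃ y`: the same supersingular place).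

* `S36N3C_sameEv` : `S36N3I_SameEv` for helper21's evaluations;
* `S36N3C_hint` : **`hint₁`, `hint₂`, `hint₃`** of `S36TI_Geo` (literally) from
    (HA) `a` regular on the chart, vanishing at the places `X.P₂ y` ⇒ `(a, a, 0) = red f`,
    (HB) `a` regular on the chart, vanishing at the places `X.P₂ y` ⇒ `(0, a, a) = red f`,
  `f ∈ O₃ ∩ C.B`;
* `S36N3C_hcW`, `S36N3C_ord₁/₂/₃` : the conductor and (R11a) in the same setting.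
-/

set_option autoImplicit false
set_option linter.unusedSectionVars false
set_option linter.unusedVariables false

open AlgebraicCurve

namespace Fermat.Agent.S36

open Fermat.Agent.Lib Fermat.Agent.S18 Fermat.Agent.S34

variable {L F k Fk : Type*} [Field L] [Field F] [Algebra L F] [Field k] [Field Fk]
  [Algebra k Fk] {S₁ S₂ S₃ : S18_Val L F k Fk} (hS : S36L3_Same S₁ S₂ S₃)
  {n : ℕ} (C : S36L3_Chart L F k Fk Fk Fk n) {ι : Type*} (X : S36SE_Pts k Fk Fk Fk ι)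
  (hC : S36SE_Reg C X)

/-- helper21's evaluations at a point with the same centre on the three components are the same
function on `κ`. -/
theorem S36N3C_sameEv (hR₁₂ : C.Rb₁ = C.Rb₂) (hR₂₃ : C.Rb₂ = C.Rb₃)
    (hP₁₂ : ∀ y, X.P₁ y = X.P₂ y) (hP₂₃ : ∀ y, X.P₂ y = X.P₃ y) :
    S36N3I_SameEv C (S36SE_e₁ C X hC) (S36SE_e₂ C X hC) (S36SE_e₃ C X hC) where
  R₁₂ a := by rw [hR₁₂]
  R₂₃ a := by rw [hR₂₃]
  e₁₂ y a h₁ h₂ := by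
    rw [S36SE_e₁_apply, S36SE_e₂_apply, hP₁₂]
  e₂₃ y a h₂ h₃ := by
    rw [S36SE_e₂_apply, S36SE_e₃_apply, hP₂₃]

/-- (HA), (HB) in the form with the evaluations from the form with the places. -/
theorem S36N3C_of_places {t : Fk → Fk × Fk × Fk}
    (H : ∀ a ∈ C.Rb₂, (∀ y, (X.P₂ y).adicValuation a < 1) →
      ∃ f : S36L3_O3 S₁ S₂ S₃, (f : F) ∈ C.B ∧ S36L3_red S₁ S₂ S₃ f = t a) :
    ∀ (a : Fk) (h₂ : a ∈ C.Rb₂), (∀ y, S36SE_e₂ C X hC y ⟨a, h₂⟩ = 0) →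
      ∃ f : S36L3_O3 S₁ S₂ S₃, (f : F) ∈ C.B ∧ S36L3_red S₁ S₂ S₃ f = t a := by
  intro a h₂ ha
  refine H a h₂ fun y => ?_
  exact (S36SE_ev_eq_zero_iff C.Rb₂ (X.P₂ y) (X.deg₂ y) (hC.reg₂ y) ⟨a, h₂⟩).1 (ha y)

/-- **the conductor** `I₁² × I₂² × I₃² ⊂ W¹` for helper21's evaluations. -/
theorem S36N3C_hcW (hR₁₂ : C.Rb₁ = C.Rb₂) (hR₂₃ : C.Rb₂ = C.Rb₃)
    (hP₁₂ : ∀ y, X.P₁ y = X.P₂ y) (hP₂₃ : ∀ y, X.P₂ y = X.P₃ y)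
    (HA : ∀ a ∈ C.Rb₂, (∀ y, (X.P₂ y).adicValuation a < 1) →
      ∃ f : S36L3_O3 S₁ S₂ S₃, (f : F) ∈ C.B ∧ S36L3_red S₁ S₂ S₃ f = (a, a, 0))
    (HB : ∀ a ∈ C.Rb₂, (∀ y, (X.P₂ y).adicValuation a < 1) →
      ∃ f : S36L3_O3 S₁ S₂ S₃, (f : F) ∈ C.B ∧ S36L3_red S₁ S₂ S₃ f = (0, a, a)) :
    ∀ x ∈ S36N3I_c C (S36SE_e₁ C X hC) (S36SE_e₂ C X hC) (S36SE_e₃ C X hC),
      x ∈ S36L3_W hS C 1 :=
  S36N3I_hcW hS C _ _ _ (S36N3C_sameEv C X hC hR₁₂ hR₂₃ hP₁₂ hP₂₃)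
    (S36N3C_of_places C X hC (t := fun a => (a, a, 0)) HA)
    (S36N3C_of_places C X hC (t := fun a => (0, a, a)) HB)

/-- **`hint₁`, `hint₂`, `hint₃` of `S36TI_Geo`** from (HA), (HB). -/
theorem S36N3C_hint (hR₁₂ : C.Rb₁ = C.Rb₂) (hR₂₃ : C.Rb₂ = C.Rb₃)
    (hP₁₂ : ∀ y, X.P₁ y = X.P₂ y) (hP₂₃ : ∀ y, X.P₂ y = X.P₃ y)
    (HA : ∀ a ∈ C.Rb₂, (∀ y, (X.P₂ y).adicValuation a < 1) →
      ∃ f : S36L3_O3 S₁ S₂ S₃, (f : F) ∈ C.B ∧ S36L3_red S₁ S₂ S₃ f = (a, a, 0))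
    (HB : ∀ a ∈ C.Rb₂, (∀ y, (X.P₂ y).adicValuation a < 1) →
      ∃ f : S36L3_O3 S₁ S₂ S₃, (f : F) ∈ C.B ∧ S36L3_red S₁ S₂ S₃ f = (0, a, a)) :
    (∀ g g' : ↥C.Rb₁, (∀ y, S36SE_e₁ C X hC y g = 0) → (∀ y, S36SE_e₁ C X hC y g' = 0) →
      ((g * g', 0, 0) : ↥C.Rb₁ × ↥C.Rb₂ × ↥C.Rb₃) ∈ S36L3_W hS C 1) ∧
    (∀ g g' : ↥C.Rb₂, (∀ y, S36SE_e₂ C X hC y g = 0) → (∀ y, S36SE_e₂ C X hC y g' = 0) →
      ((0, g * g', 0) : ↥C.Rb₁ × ↥C.Rb₂ × ↥C.Rb₃) ∈ S36L3_W hS C 1) ∧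
    (∀ g g' : ↥C.Rb₃, (∀ y, S36SE_e₃ C X hC y g = 0) → (∀ y, S36SE_e₃ C X hC y g' = 0) →
      ((0, 0, g * g') : ↥C.Rb₁ × ↥C.Rb₂ × ↥C.Rb₃) ∈ S36L3_W hS C 1) := by
  obtain ⟨h1, h2, h3⟩ := S36N3I_hcW_comp hS C _ _ _
    (S36N3C_sameEv C X hC hR₁₂ hR₂₃ hP₁₂ hP₂₃)
    (S36N3C_of_places C X hC (t := fun a => (a, a, 0)) HA)
    (S36N3C_of_places C X hC (t := fun a => (0, a, a)) HB)
  refine ⟨fun g g' hg hg' => h1 _ ?_, fun g g' hg hg' => h2 _ ?_, fun g g' hg hg' => h3 _ ?_⟩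
  · rw [pow_two]
    exact Ideal.mul_mem_mul ((S36N3I_mem_IZ₁ C _).2 hg) ((S36N3I_mem_IZ₁ C _).2 hg')
  · rw [pow_two]
    exact Ideal.mul_mem_mul ((S36N3I_mem_IZ₂ C _).2 hg) ((S36N3I_mem_IZ₂ C _).2 hg')
  · rw [pow_two]
    exact Ideal.mul_mem_mul ((S36N3I_mem_IZ₃ C _).2 hg) ((S36N3I_mem_IZ₃ C _).2 hg')

end Fermat.Agent.S36
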