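import Mathlib

/-!
# TRACK 10 (S36), abstract core of TRIV (helper9): trivial gluing invariant ⇒ `1 ∈ W^u`

Pure algebra over Mathlib.  Prefix `S36TA_`.

`k` a field of characteristic `q`, `R` a commutative `k`-algebra (in the application
`R = Rb₁ × Rb₂ × Rb₃`, the coordinate rings of the three components `FF`, `FV`, `VV` of the
special fibre at level `q²`), `W ⊂ R` a subalgebra (the reduction of the integral functions),
`Wu ⊂ R` a `k`-subspace (the reduction of `M^u = {f | fⁿ u ∈ Λ}`), `n` prime to `q`, and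
`χ y j : R → k` the value at the supersingular point `y` on the branch `j`.

The reduced special fibre has PLANAR triple points at the supersingular points, so `W` has
codimension `3` (not `2`) at such a point: equal branch values of a local generator do NOT
formally give `1 ∈ W^u` (the Picard group of the planar triple point has an additive part).
The additive part dies on `n`-torsion because `q ∤ n`; `S36TA_main` proves this globally with
Frobenius powers:

* (`hmod`) `W · Wu ⊂ Wu`;   (`hpow`) `m ∈ Wu ⇒ mⁿ ∈ W`;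
* (`hcW`) an ideal `c` of `R` contained in `W` (in the application `c = I² × I² × I²`);
* (`hnil`) `x` with all branch values `0` ⇒ `x² ∈ c`;
* (`hgen`) `Wu` generates the unit ideal of `R` ((LI) in value form at every closed point);
* (`hone`) for every `y` a section `m_y ∈ Wu` with the three branch values `1` (`γ_y = 1`);
* (`hsep`) for every `y` a function `ε_y ∈ W` with branch values `1` at `y`, `0` at `y' ≠ y`.

Then `1 ∈ Wu`.
-/

set_option autoImplicit false

namespace Fermat.Agent.S36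

section TrivAbs

variable {k R : Type*} [Field k] [CommRing R] [Algebra k R]

/-- the conductor-type ideal is contained in `Wu` as soon as `Wu` generates the unit ideal. -/
theorem S36TA_c_le (W : Subalgebra k R) (Wu : Submodule k R)
    (hmod : ∀ w ∈ W, ∀ m ∈ Wu, w * m ∈ Wu)
    (c : Ideal R) (hcW : ∀ x ∈ c, x ∈ W)
    (hgen : Ideal.span (Wu : Set R) = ⊤) : ∀ x ∈ c, x ∈ Wu := by
  have key : ∀ z ∈ Ideal.span (Wu : Set R), ∀ x ∈ c, x * z ∈ Wu := by
    intro z hz
    refine Submodule.span_induction (p := fun z _ => ∀ x ∈ c, x * z ∈ Wu) ?_ ?_ ?_ ?_ hz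
    · intro m hm x hx
      exact hmod x (hcW x hx) m hm
    · intro x _
      rw [mul_zero]
      exact Wu.zero_mem
    · intro z z' _ _ hz hz' x hx
      rw [mul_add]
      exact Wu.add_mem (hz x hx) (hz' x hx)
    · intro r z _ hz x hx
      have e : x * (r • z) = (x * r) * z := by
        rw [smul_eq_mul]; ring
      rw [e]
      exact hz (x * r) (c.mul_mem_right r hx)
  intro x hx
  have h1 : (1 : R) ∈ Ideal.span (Wu : Set R) := by
    rw [hgen]; exact Submodule.mem_top
  have := key 1 h1 x hx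
  rwa [mul_one] at this

/-- a power `N = q ^ a`, `a ≥ 1`, of `q` with `n ∣ N - 1`. -/
theorem S36TA_exists_pow (q n : ℕ) (hq : q.Prime) (hnq : Nat.Coprime n q) :
    ∃ a : ℕ, 1 ≤ a ∧ n ∣ q ^ a - 1 := by
  have hn0 : n ≠ 0 := by
    rintro rfl
    rw [Nat.coprime_zero_left] at hnq
    exact hq.one_lt.ne' hnq
  refine ⟨Nat.totient n, Nat.totient_pos.2 (Nat.pos_of_ne_zero hn0), ?_⟩
  have h := Nat.ModEq.pow_totient hnq.symm
  have h1 : 1 ≤ q ^ Nat.totient n := Nat.one_le_pow _ _ hq.pos
  exact (Nat.modEq_iff_dvd' h1).1 h.symm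

/-- **TRIV, abstract core**: see the module docstring. -/
theorem S36TA_main (q : ℕ) [hq : Fact q.Prime] [CharP R q] (n : ℕ) (hnq : Nat.Coprime n q)
    {ι J : Type*} [Fintype ι] [DecidableEq ι] (χ : ι → J → R →+* k)
    (W : Subalgebra k R) (Wu : Submodule k R)
    (hmod : ∀ w ∈ W, ∀ m ∈ Wu, w * m ∈ Wu)
    (hpow : ∀ m ∈ Wu, m ^ n ∈ W)
    (c : Ideal R) (hcW : ∀ x ∈ c, x ∈ W)
    (hnil : ∀ x : R, (∀ y j, χ y j x = 0) → x ^ 2 ∈ c)
    (hgen : Ideal.span (Wu : Set R) = ⊤)
    (hone : ∀ y, ∃ m ∈ Wu, ∀ j, χ y j m = 1)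
    (hsep : ∀ y, ∃ ε ∈ W, (∀ j, χ y j ε = 1) ∧ ∀ y', y' ≠ y → ∀ j, χ y' j ε = 0) :
    (1 : R) ∈ Wu := by
  classical
  have hcWu := S36TA_c_le W Wu hmod c hcW hgen
  obtain ⟨a, ha, hdvd⟩ := S36TA_exists_pow q n hq.out hnq
  set N : ℕ := q ^ a with hN
  have hN2 : 2 ≤ N := by
    calc 2 ≤ q := hq.out.two_le
      _ = q ^ 1 := (pow_one q).symm
      _ ≤ q ^ a := Nat.pow_le_pow_right hq.out.pos ha
  -- all branch values zero ⇒ the `N`-th power is in `c`
  have hnilN : ∀ x : R, (∀ y j, χ y j x = 0) → x ^ N ∈ c := by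
    intro x hx
    have e : x ^ N = x ^ 2 * x ^ (N - 2) := by
      rw [← pow_add]; congr 1; omega
    rw [e]
    exact c.mul_mem_right _ (hnil x hx)
  choose m hmWu hm1 using hone
  choose ε hεW hε1 hε0 using hsep
  -- the approximate idempotents
  have hE : ∀ y, ε y ^ N ∈ Wu := by
    intro y
    obtain ⟨d, hd⟩ := hdvd
    -- `v = m ^ (N - 1) * ε ^ N ∈ W`
    have hv : m y ^ (N - 1) * ε y ^ N ∈ W := by
      have e : m y ^ (N - 1) = (m y ^ n) ^ d := by
        rw [← pow_mul, ← hd]
      rw [e]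
      exact W.mul_mem (W.pow_mem (hpow _ (hmWu y)) d) (W.pow_mem (hεW y) N)
    have hmv : m y * (m y ^ (N - 1) * ε y ^ N) ∈ Wu := by
      have := hmod _ hv _ (hmWu y)
      rwa [mul_comm] at this
    -- `m * v = (m ε)^N = ε^N + ((m - 1) ε)^N`
    have e1 : m y * (m y ^ (N - 1) * ε y ^ N) = ε y ^ N + ((m y - 1) * ε y) ^ N := by
      have e2 : m y * (m y ^ (N - 1) * ε y ^ N) = (m y * ε y) ^ N := by
        rw [mul_pow, ← mul_assoc, ← pow_succ']
        congr 2
        omega
      have e3 : m y * ε y = ε y + (m y - 1) * ε y := by ring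
      rw [e2, e3, hN, add_pow_char_pow]
    have hx : ((m y - 1) * ε y) ^ N ∈ c := by
      apply hnilN
      intro y' j
      rw [map_mul, map_sub, map_one]
      by_cases hy : y' = y
      · subst hy
        rw [hm1, sub_self, zero_mul]
      · rw [hε0 y y' hy, mul_zero]
    have e4 : ε y ^ N = m y * (m y ^ (N - 1) * ε y ^ N) - ((m y - 1) * ε y) ^ N := by
      rw [e1]; ring
    rw [e4]
    exact Wu.sub_mem hmv (hcWu _ hx)
  -- `∑ E_y - 1 ∈ c`
  have hsum : (∑ y, ε y) ^ N - 1 ∈ c := by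
    have e : (∑ y, ε y) ^ N - 1 = (∑ y, ε y - 1) ^ N := by
      rw [hN, sub_pow_char_pow, one_pow]
    rw [e]
    apply hnilN
    intro y j
    rw [map_sub, map_one, map_sum]
    rw [Finset.sum_eq_single y]
    · rw [hε1, sub_self]
    · intro y' _ hy'
      exact hε0 y' y (Ne.symm hy') j
    · intro h
      exact absurd (Finset.mem_univ y) h
  have hsumE : (∑ y, ε y) ^ N = ∑ y, ε y ^ N := by
    rw [hN, sum_pow_char_pow]
  have h1 : (1 : R) = (∑ y, ε y ^ N) - ((∑ y, ε y) ^ N - 1) := by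
    rw [hsumE]; ring
  rw [h1]
  exact Wu.sub_mem (Wu.sum_mem fun y _ => hE y) (hcWu _ hsum)

end TrivAbs

end Fermat.Agent.S36
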