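import Fermat.Agent.S36.Gamma3
import Fermat.Agent.S36.TrivAbs

/-!
# TRACK 10 (S36), package F8 = TRIV gluing (helper11), step (R18) of the route note

Bridge from GAMMA3 (`S36G_Datum`) to helper9's abstract core `S36TA_main` (S36/TrivAbs.lean).
`D : S36G_Datum F k R₁ R₂ R₃ ι n` (three components `R₁ R₂ R₃` of the special fibre of a chart,
triple points `y : ι`, `W u = red M^u`), `char k = q`, `n` prime to `q`.  If the gluing invariant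
of the normalised generator `u` is trivial, `γ u ≡ 1`, and `M^u` is locally generated by one
element at EVERY closed point of the special fibre of the chart ((LI) in value form, step (R15)),
then `1 ∈ W u`: there is a section `f₁ ∈ M^u` with `red f₁ = 1`.  Inputs on the special fibre
(NODAL3, (R11b'), the triple points are PLANAR, see helper9's note in TrivAbs.lean):

* `c`, `hcW`, `hnil`: an ideal `c` of `R₁ × R₂ × R₃` contained in `W 1` which contains the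
  squares of the elements vanishing at all branch points; or (`S36G_Datum.one_mem_W_of_prod`)
  `hint_j`: the products `g * g'` of two functions on the component `j` vanishing at the triple
  points, extended by `0`, lie in `W 1`;
* `hsep` (separation): for every triple point `y` there is `w ∈ W 1` with value `1` at `y` and `0`
  at the other triple points;
* `hpow`: `m ∈ W u ⇒ m ^ n ∈ W 1` (`S36L3_pow_mem_W`).

Results:

* `S36TV_core`, `S36TV_core_int` : an ideal which is contained in no maximal ideal contains `1`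
                            (subring form `Wu ⊂ W1 ⊂ P`, and lying-over form);
* `S36TV_exists_point`    : Nullstellensatz: `k` algebraically closed, `R` integral over a
                            `k`-algebra of finite type ⇒ every maximal ideal of `R` is the kernel
                            of a `k`-point;
* `S36G_Datum.span_W_eq_top` : (LI) at the maximal ideals of `R₁, R₂, R₃` ⇒ `W u` generates the
                            unit ideal (`hgen` of `S36TA_main`);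
* `S36G_Datum.one_mem_W_of_max` : **TRIV**, LI stated at the maximal ideals of the `R_j`;
* `S36G_Datum.one_mem_W_of_points` : **TRIV**, LI stated at the `k`-points of the `R_j`;
* `S36G_Datum.one_mem_W_of_prod` : **TRIV** with `hint_j` instead of `c`;
* `S36G_Datum.γ_eq_of_map`, `S36G_Datum.γ_one_of_map`: the invariant does not depend on the
                            chart (apply twice, through the chart `U ∩ U'`).
-/

set_option autoImplicit false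
set_option linter.style.haveILetI false

namespace Fermat.Agent.S36

/-! ### the core -/

/-- **core**: `W1 ⊂ P` a subring, `W1 · Wu ⊂ Wu`, and at every maximal ideal `𝔪` of `W1` there is
an element of `Wu ∩ W1` outside `𝔪`; then `1 ∈ Wu`. -/
theorem S36TV_core {P : Type*} [CommRing P] (W1 : Subring P) (Wu : AddSubgroup P)
    (hmod : ∀ a ∈ W1, ∀ m ∈ Wu, a * m ∈ Wu)
    (hloc : ∀ 𝔪 : Ideal W1, 𝔪.IsMaximal → ∃ m : W1, (m : P) ∈ Wu ∧ m ∉ 𝔪) :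
    (1 : P) ∈ Wu := by
  let I : Ideal W1 :=
    { carrier := {m | (m : P) ∈ Wu}
      add_mem' := fun {a b} ha hb => Wu.add_mem ha hb
      zero_mem' := Wu.zero_mem
      smul_mem' := fun c x hx => hmod c c.2 x hx }
  by_contra h1
  have hI : I ≠ ⊤ := by
    intro h
    apply h1
    have : (1 : W1) ∈ I := by rw [h]; trivial
    exact this
  obtain ⟨𝔪, h𝔪, hle⟩ := Ideal.exists_le_maximal I hI
  obtain ⟨m, hm, hm'⟩ := hloc 𝔪 h𝔪
  exact hm' (hle hm)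

/-- **core, lying over form**: `P` integral over `W1`, LI at the maximal ideals of `P`. -/
theorem S36TV_core_int {P : Type*} [CommRing P] (W1 : Subring P) (Wu : AddSubgroup P)
    (hmod : ∀ a ∈ W1, ∀ m ∈ Wu, a * m ∈ Wu) (hsub : ∀ m ∈ Wu, m ∈ W1)
    (hint : Algebra.IsIntegral W1 P)
    (hloc : ∀ 𝔔 : Ideal P, 𝔔.IsMaximal → ∃ m ∈ Wu, m ∉ 𝔔) :
    (1 : P) ∈ Wu := by
  apply S36TV_core W1 Wu hmod
  intro 𝔪 h𝔪
  have hker : RingHom.ker (algebraMap W1 P) ≤ 𝔪 := by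
    intro x hx
    rw [RingHom.mem_ker] at hx
    have : x = 0 := Subtype.ext hx
    rw [this]
    exact 𝔪.zero_mem
  obtain ⟨𝔔, h𝔔, hc⟩ := Ideal.exists_ideal_over_maximal_of_isIntegral (S := P) 𝔪 hker
  obtain ⟨m, hm, hm'⟩ := hloc 𝔔 h𝔔
  refine ⟨⟨m, hsub m hm⟩, hm, ?_⟩
  intro h
  rw [← hc] at h
  exact hm' h

/-! ### Nullstellensatz -/

/-- `k` algebraically closed, `R` integral over a `k`-algebra `A` of finite type: every maximal
ideal of `R` is the kernel of a `k`-point. -/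
theorem S36TV_exists_point {k : Type*} (A : Type*) {R : Type*} [Field k] [IsAlgClosed k]
    [CommRing A] [CommRing R] [Algebra k A] [Algebra k R] [Algebra A R] [IsScalarTower k A R]
    [Algebra.FiniteType k A] [Algebra.IsIntegral A R] (𝔫 : Ideal R) (h𝔫 : 𝔫.IsMaximal) :
    ∃ y : R →ₐ[k] k, ∀ r, y r = 0 ↔ r ∈ 𝔫 := by
  haveI := h𝔫
  let 𝔭 : Ideal A := 𝔫.under A
  haveI : 𝔫.LiesOver 𝔭 := ⟨rfl⟩
  haveI h𝔭 : 𝔭.IsMaximal := Ideal.isMaximal_comap_of_isIntegral_of_isMaximal 𝔫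
  letI : Field (A ⧸ 𝔭) := Ideal.Quotient.field 𝔭
  letI : Field (R ⧸ 𝔫) := Ideal.Quotient.field 𝔫
  haveI : Algebra.FiniteType k (A ⧸ 𝔭) :=
    Algebra.FiniteType.of_surjective (Ideal.Quotient.mkₐ k 𝔭) Ideal.Quotient.mk_surjective
  haveI : Module.Finite k (A ⧸ 𝔭) := finite_of_finite_type_of_isJacobsonRing k (A ⧸ 𝔭)
  haveI : Algebra.IsIntegral k (A ⧸ 𝔭) := inferInstance
  haveI : Algebra.IsIntegral (A ⧸ 𝔭) (R ⧸ 𝔫) := Ideal.Quotient.algebra_isIntegral_of_liesOver 𝔫 𝔭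
  haveI : IsScalarTower k (A ⧸ 𝔭) (R ⧸ 𝔫) := Ideal.Quotient.isScalarTower_of_liesOver k 𝔫 𝔭
  haveI : Algebra.IsIntegral k (R ⧸ 𝔫) := Algebra.IsIntegral.trans (A ⧸ 𝔭)
  have hbij : Function.Bijective (algebraMap k (R ⧸ 𝔫)) :=
    IsAlgClosed.algebraMap_bijective_of_isIntegral
  let e : k ≃ₐ[k] (R ⧸ 𝔫) := AlgEquiv.ofBijective (Algebra.ofId k (R ⧸ 𝔫)) hbij
  refine ⟨(e.symm : (R ⧸ 𝔫) →ₐ[k] k).comp (Ideal.Quotient.mkₐ k 𝔫), ?_⟩
  intro r
  rw [AlgHom.comp_apply]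
  constructor
  · intro h
    have h1 : (Ideal.Quotient.mkₐ k 𝔫) r = 0 := by
      have := congrArg e h
      simpa using this
    exact Ideal.Quotient.eq_zero_iff_mem.1 h1
  · intro h
    have h1 : (Ideal.Quotient.mkₐ k 𝔫) r = 0 := Ideal.Quotient.eq_zero_iff_mem.2 h
    rw [h1, map_zero]

namespace S36G_Datum

variable {F k R₁ R₂ R₃ ι : Type*} [Field F] [Field k] [CommRing R₁] [CommRing R₂]
  [CommRing R₃] [Algebra k R₁] [Algebra k R₂] [Algebra k R₃] {n : ℕ}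
  (D : S36G_Datum F k R₁ R₂ R₃ ι n)

/-- `W u` is a module over `W 1`. -/
theorem W_one_mul_mem {u : Fˣ} (hu : u ∈ D.Kp) {a m : R₁ × R₂ × R₃} (ha : a ∈ D.W 1)
    (hm : m ∈ D.W u) : a * m ∈ D.W u := by
  have := D.mul_mem_W 1 D.Kp.one_mem u hu a ha m hm
  rwa [one_mul] at this

/-- `W 1` as a subalgebra. -/
def W1alg : Subalgebra k (R₁ × R₂ × R₃) where
  carrier := D.W 1
  mul_mem' := fun {a b} ha hb => D.W_one_mul_mem D.Kp.one_mem ha hb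
  add_mem' := fun {a b} ha hb => (D.W 1).add_mem ha hb
  algebraMap_mem' := fun r => by
    have : algebraMap k (R₁ × R₂ × R₃) r = r • (1 : R₁ × R₂ × R₃) := by
      rw [Algebra.smul_def, mul_one]
    show algebraMap k (R₁ × R₂ × R₃) r ∈ D.W 1
    rw [this]
    exact (D.W 1).smul_mem r D.one_mem_W

theorem mem_W1alg {m : R₁ × R₂ × R₃} : m ∈ D.W1alg ↔ m ∈ D.W 1 := Iff.rfl

/-- the value at the triple point `y` on the branch `j`. -/
def chi (y : ι) (j : Fin 3) : (R₁ × R₂ × R₃) →+* k :=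
  match j with
  | 0 => ((D.e₁ y : R₁ →+* k)).comp (RingHom.fst R₁ (R₂ × R₃))
  | 1 => ((D.e₂ y : R₂ →+* k)).comp ((RingHom.fst R₂ R₃).comp (RingHom.snd R₁ (R₂ × R₃)))
  | 2 => ((D.e₃ y : R₃ →+* k)).comp ((RingHom.snd R₂ R₃).comp (RingHom.snd R₁ (R₂ × R₃)))

@[simp] theorem chi_zero (y : ι) (x : R₁ × R₂ × R₃) : D.chi y 0 x = D.e₁ y x.1 := rfl

@[simp] theorem chi_one (y : ι) (x : R₁ × R₂ × R₃) : D.chi y 1 x = D.e₂ y x.2.1 := rfl

@[simp] theorem chi_two (y : ι) (x : R₁ × R₂ × R₃) : D.chi y 2 x = D.e₃ y x.2.2 := rfl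

theorem chi_forall {p : k → Prop} (y : ι) (x : R₁ × R₂ × R₃) :
    (∀ j, p (D.chi y j x)) ↔ p (D.e₁ y x.1) ∧ p (D.e₂ y x.2.1) ∧ p (D.e₃ y x.2.2) := by
  constructor
  · intro h
    exact ⟨h 0, h 1, h 2⟩
  · rintro ⟨h0, h1, h2⟩ j
    fin_cases j
    · exact h0
    · exact h1
    · exact h2

/-! ### (LI) at all closed points ⇒ `W u` generates the unit ideal -/

/-- (LI) at the maximal ideals of the three components ⇒ `W u` generates the unit ideal of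
`R₁ × R₂ × R₃`. -/
theorem span_W_eq_top {u : Fˣ}
    (h₁ : ∀ 𝔫 : Ideal R₁, 𝔫.IsMaximal → ∃ m ∈ D.W u, m.1 ∉ 𝔫)
    (h₂ : ∀ 𝔫 : Ideal R₂, 𝔫.IsMaximal → ∃ m ∈ D.W u, m.2.1 ∉ 𝔫)
    (h₃ : ∀ 𝔫 : Ideal R₃, 𝔫.IsMaximal → ∃ m ∈ D.W u, m.2.2 ∉ 𝔫) :
    Ideal.span (D.W u : Set (R₁ × R₂ × R₃)) = ⊤ := by
  set J : Ideal (R₁ × R₂ × R₃) := Ideal.span (D.W u : Set (R₁ × R₂ × R₃)) with hJ
  -- first component
  have k₁ : ((1, 0, 0) : R₁ × R₂ × R₃) ∈ J := by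
    have htop : Ideal.span ((fun m : R₁ × R₂ × R₃ => m.1) '' (D.W u : Set (R₁ × R₂ × R₃))) = ⊤ := by
      by_contra h
      obtain ⟨𝔫, h𝔫, hle⟩ := Ideal.exists_le_maximal _ h
      obtain ⟨m, hm, hm'⟩ := h₁ 𝔫 h𝔫
      exact hm' (hle (Ideal.subset_span ⟨m, hm, rfl⟩))
    have key : ∀ x ∈ Ideal.span ((fun m : R₁ × R₂ × R₃ => m.1) '' (D.W u : Set (R₁ × R₂ × R₃))),
        ((x, 0, 0) : R₁ × R₂ × R₃) ∈ J := by
      intro x hx
      induction hx using Submodule.span_induction with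
      | mem x hx =>
        obtain ⟨m, hm, rfl⟩ := hx
        have e : ((m.1, 0, 0) : R₁ × R₂ × R₃) = (1, 0, 0) * m := by ext <;> simp
        rw [e]
        exact J.mul_mem_left _ (Ideal.subset_span hm)
      | zero => exact J.zero_mem
      | add x x' _ _ ih ih' =>
        have e : ((x + x', 0, 0) : R₁ × R₂ × R₃) = (x, 0, 0) + (x', 0, 0) := by ext <;> simp
        rw [e]
        exact J.add_mem ih ih'
      | smul a x _ ih =>
        have e : ((a • x, 0, 0) : R₁ × R₂ × R₃) = (a, 0, 0) * (x, 0, 0) := by ext <;> simp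
        rw [e]
        exact J.mul_mem_left _ ih
    exact key 1 (by rw [htop]; trivial)
  -- second component
  have k₂ : ((0, 1, 0) : R₁ × R₂ × R₃) ∈ J := by
    have htop : Ideal.span ((fun m : R₁ × R₂ × R₃ => m.2.1) '' (D.W u : Set (R₁ × R₂ × R₃))) = ⊤ := by
      by_contra h
      obtain ⟨𝔫, h𝔫, hle⟩ := Ideal.exists_le_maximal _ h
      obtain ⟨m, hm, hm'⟩ := h₂ 𝔫 h𝔫
      exact hm' (hle (Ideal.subset_span ⟨m, hm, rfl⟩))
    have key : ∀ x ∈ Ideal.span ((fun m : R₁ × R₂ × R₃ => m.2.1) '' (D.W u : Set (R₁ × R₂ × R₃))),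
        ((0, x, 0) : R₁ × R₂ × R₃) ∈ J := by
      intro x hx
      induction hx using Submodule.span_induction with
      | mem x hx =>
        obtain ⟨m, hm, rfl⟩ := hx
        have e : ((0, m.2.1, 0) : R₁ × R₂ × R₃) = (0, 1, 0) * m := by ext <;> simp
        rw [e]
        exact J.mul_mem_left _ (Ideal.subset_span hm)
      | zero => exact J.zero_mem
      | add x x' _ _ ih ih' =>
        have e : ((0, x + x', 0) : R₁ × R₂ × R₃) = (0, x, 0) + (0, x', 0) := by ext <;> simp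
        rw [e]
        exact J.add_mem ih ih'
      | smul a x _ ih =>
        have e : ((0, a • x, 0) : R₁ × R₂ × R₃) = (0, a, 0) * (0, x, 0) := by ext <;> simp
        rw [e]
        exact J.mul_mem_left _ ih
    exact key 1 (by rw [htop]; trivial)
  -- third component
  have k₃ : ((0, 0, 1) : R₁ × R₂ × R₃) ∈ J := by
    have htop : Ideal.span ((fun m : R₁ × R₂ × R₃ => m.2.2) '' (D.W u : Set (R₁ × R₂ × R₃))) = ⊤ := by
      by_contra h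
      obtain ⟨𝔫, h𝔫, hle⟩ := Ideal.exists_le_maximal _ h
      obtain ⟨m, hm, hm'⟩ := h₃ 𝔫 h𝔫
      exact hm' (hle (Ideal.subset_span ⟨m, hm, rfl⟩))
    have key : ∀ x ∈ Ideal.span ((fun m : R₁ × R₂ × R₃ => m.2.2) '' (D.W u : Set (R₁ × R₂ × R₃))),
        ((0, 0, x) : R₁ × R₂ × R₃) ∈ J := by
      intro x hx
      induction hx using Submodule.span_induction with
      | mem x hx =>
        obtain ⟨m, hm, rfl⟩ := hx
        have e : ((0, 0, m.2.2) : R₁ × R₂ × R₃) = (0, 0, 1) * m := by ext <;> simp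
        rw [e]
        exact J.mul_mem_left _ (Ideal.subset_span hm)
      | zero => exact J.zero_mem
      | add x x' _ _ ih ih' =>
        have e : ((0, 0, x + x') : R₁ × R₂ × R₃) = (0, 0, x) + (0, 0, x') := by ext <;> simp
        rw [e]
        exact J.add_mem ih ih'
      | smul a x _ ih =>
        have e : ((0, 0, a • x) : R₁ × R₂ × R₃) = (0, 0, a) * (0, 0, x) := by ext <;> simp
        rw [e]
        exact J.mul_mem_left _ ih
    exact key 1 (by rw [htop]; trivial)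
  rw [Ideal.eq_top_iff_one]
  have e : (1 : R₁ × R₂ × R₃) = (1, 0, 0) + (0, 1, 0) + (0, 0, 1) := by ext <;> simp
  rw [e]
  exact J.add_mem (J.add_mem k₁ k₂) k₃

/-! ### sections with branch values `1` -/

/-- trivial invariant ⇒ at every triple point there is a section with the three branch values
`1`. -/
theorem exists_val_one {u : Fˣ} (hu : u ∈ D.Kp) (hγ : ∀ y, D.γ₁ u y = 1 ∧ D.γ₂ u y = 1) (y : ι) :
    ∃ m ∈ D.W u, D.e₁ y m.1 = 1 ∧ D.e₂ y m.2.1 = 1 ∧ D.e₃ y m.2.2 = 1 := by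
  obtain ⟨g, hg, hg1, -, -⟩ := D.li u hu y
  have hm : (D.e₁ y g.1)⁻¹ • g ∈ D.W u := (D.W u).smul_mem _ hg
  obtain ⟨s1, s2⟩ := D.spec hu hm y
  rw [(hγ y).1, one_mul] at s1
  rw [(hγ y).2, one_mul] at s2
  have v1 : D.e₁ y ((D.e₁ y g.1)⁻¹ • g).1 = 1 := by
    rw [Prod.smul_fst, map_smul, smul_eq_mul, inv_mul_cancel₀ hg1]
  exact ⟨_, hm, v1, by rw [s1, v1], by rw [s2, v1]⟩

/-! ### TRIV -/

/-- **TRIV** (LI stated at the maximal ideals of the three components): trivial gluing invariant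
⇒ `1 ∈ W u`. -/
theorem one_mem_W_of_max (q : ℕ) [hq : Fact q.Prime] [CharP k q] (hnq : Nat.Coprime n q)
    [Finite ι] (c : Ideal (R₁ × R₂ × R₃)) (hcW : ∀ x ∈ c, x ∈ D.W 1)
    (hnil : ∀ x : R₁ × R₂ × R₃,
      (∀ y, D.e₁ y x.1 = 0 ∧ D.e₂ y x.2.1 = 0 ∧ D.e₃ y x.2.2 = 0) → x ^ 2 ∈ c)
    (hsep : ∀ y, ∃ w ∈ D.W 1, D.e₁ y w.1 = 1 ∧ ∀ y', y' ≠ y → D.e₁ y' w.1 = 0)
    {u : Fˣ} (hu : u ∈ D.Kp) (hpow : ∀ m ∈ D.W u, m ^ n ∈ D.W 1)
    (hγ : ∀ y, D.γ₁ u y = 1 ∧ D.γ₂ u y = 1)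
    (h₁ : ∀ 𝔫 : Ideal R₁, 𝔫.IsMaximal → ∃ m ∈ D.W u, m.1 ∉ 𝔫)
    (h₂ : ∀ 𝔫 : Ideal R₂, 𝔫.IsMaximal → ∃ m ∈ D.W u, m.2.1 ∉ 𝔫)
    (h₃ : ∀ 𝔫 : Ideal R₃, 𝔫.IsMaximal → ∃ m ∈ D.W u, m.2.2 ∉ 𝔫) :
    (1 : R₁ × R₂ × R₃) ∈ D.W u := by
  classical
  rcases subsingleton_or_nontrivial (R₁ × R₂ × R₃) with hs | hnt
  · have : (1 : R₁ × R₂ × R₃) = 0 := Subsingleton.elim _ _
    rw [this]
    exact (D.W u).zero_mem
  haveI : CharP (R₁ × R₂ × R₃) q :=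
    charP_of_injective_algebraMap (algebraMap k (R₁ × R₂ × R₃)).injective q
  haveI : Fintype ι := Fintype.ofFinite ι
  refine S36TA_main q n hnq D.chi D.W1alg (D.W u) ?_ hpow c hcW ?_
    (D.span_W_eq_top h₁ h₂ h₃) ?_ ?_
  · intro w hw m hm
    exact D.W_one_mul_mem hu hw hm
  · intro x hx
    apply hnil x
    intro y
    exact (D.chi_forall (p := fun z => z = 0) y x).1 (hx y)
  · intro y
    obtain ⟨m, hm, hv⟩ := D.exists_val_one hu hγ y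
    exact ⟨m, hm, (D.chi_forall (p := fun z => z = 1) y m).2 hv⟩
  · intro y
    obtain ⟨w, hw, hw1, hw0⟩ := hsep y
    refine ⟨w, hw, ?_, ?_⟩
    · obtain ⟨p1, p2⟩ := D.hW1 w hw y
      exact (D.chi_forall (p := fun z => z = 1) y w).2 ⟨hw1, by rw [← p1, hw1], by rw [← p2, hw1]⟩
    · intro y' hy'
      obtain ⟨p1, p2⟩ := D.hW1 w hw y'
      have h0 := hw0 y' hy'
      exact (D.chi_forall (p := fun z => z = 0) y' w).2 ⟨h0, by rw [← p1, h0], by rw [← p2, h0]⟩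

/-- **TRIV** (LI stated at the `k`-points of the three components; `k` algebraically closed and
each `R_j` integral over a `k`-algebra of finite type, e.g. over `k[j̄]`). -/
theorem one_mem_W_of_points (q : ℕ) [hq : Fact q.Prime] [CharP k q] (hnq : Nat.Coprime n q)
    [Finite ι] [IsAlgClosed k] (A₁ A₂ A₃ : Type*)
    [CommRing A₁] [Algebra k A₁] [Algebra A₁ R₁] [IsScalarTower k A₁ R₁]
    [Algebra.FiniteType k A₁] [Algebra.IsIntegral A₁ R₁]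
    [CommRing A₂] [Algebra k A₂] [Algebra A₂ R₂] [IsScalarTower k A₂ R₂]
    [Algebra.FiniteType k A₂] [Algebra.IsIntegral A₂ R₂]
    [CommRing A₃] [Algebra k A₃] [Algebra A₃ R₃] [IsScalarTower k A₃ R₃]
    [Algebra.FiniteType k A₃] [Algebra.IsIntegral A₃ R₃]
    (c : Ideal (R₁ × R₂ × R₃)) (hcW : ∀ x ∈ c, x ∈ D.W 1)
    (hnil : ∀ x : R₁ × R₂ × R₃,
      (∀ y, D.e₁ y x.1 = 0 ∧ D.e₂ y x.2.1 = 0 ∧ D.e₃ y x.2.2 = 0) → x ^ 2 ∈ c)
    (hsep : ∀ y, ∃ w ∈ D.W 1, D.e₁ y w.1 = 1 ∧ ∀ y', y' ≠ y → D.e₁ y' w.1 = 0)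
    {u : Fˣ} (hu : u ∈ D.Kp) (hpow : ∀ m ∈ D.W u, m ^ n ∈ D.W 1)
    (hγ : ∀ y, D.γ₁ u y = 1 ∧ D.γ₂ u y = 1)
    (h₁ : ∀ ev : R₁ →ₐ[k] k, ∃ m ∈ D.W u, ev m.1 ≠ 0)
    (h₂ : ∀ ev : R₂ →ₐ[k] k, ∃ m ∈ D.W u, ev m.2.1 ≠ 0)
    (h₃ : ∀ ev : R₃ →ₐ[k] k, ∃ m ∈ D.W u, ev m.2.2 ≠ 0) :
    (1 : R₁ × R₂ × R₃) ∈ D.W u := by
  apply D.one_mem_W_of_max q hnq c hcW hnil hsep hu hpow hγ
  · intro 𝔫 h𝔫
    obtain ⟨ev, hev⟩ := S36TV_exists_point (k := k) A₁ 𝔫 h𝔫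
    obtain ⟨m, hm, hm'⟩ := h₁ ev
    exact ⟨m, hm, fun h => hm' ((hev _).2 h)⟩
  · intro 𝔫 h𝔫
    obtain ⟨ev, hev⟩ := S36TV_exists_point (k := k) A₂ 𝔫 h𝔫
    obtain ⟨m, hm, hm'⟩ := h₂ ev
    exact ⟨m, hm, fun h => hm' ((hev _).2 h)⟩
  · intro 𝔫 h𝔫
    obtain ⟨ev, hev⟩ := S36TV_exists_point (k := k) A₃ 𝔫 h𝔫
    obtain ⟨m, hm, hm'⟩ := h₃ ev
    exact ⟨m, hm, fun h => hm' ((hev _).2 h)⟩

/-! ### the ideal `I² × I² × I²` -/

/-- the elements vanishing at all branch points. -/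
def IZ : Ideal (R₁ × R₂ × R₃) where
  carrier := {x | ∀ y, D.e₁ y x.1 = 0 ∧ D.e₂ y x.2.1 = 0 ∧ D.e₃ y x.2.2 = 0}
  add_mem' := fun {a b} ha hb y => by
    obtain ⟨a1, a2, a3⟩ := ha y
    obtain ⟨b1, b2, b3⟩ := hb y
    refine ⟨?_, ?_, ?_⟩
    · rw [Prod.fst_add, map_add, a1, b1, add_zero]
    · rw [Prod.snd_add, Prod.fst_add, map_add, a2, b2, add_zero]
    · rw [Prod.snd_add, Prod.snd_add, map_add, a3, b3, add_zero]
  zero_mem' := fun y => by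
    refine ⟨?_, ?_, ?_⟩
    · rw [Prod.fst_zero, map_zero]
    · rw [Prod.snd_zero, Prod.fst_zero, map_zero]
    · rw [Prod.snd_zero, Prod.snd_zero, map_zero]
  smul_mem' := fun r x hx y => by
    obtain ⟨a1, a2, a3⟩ := hx y
    refine ⟨?_, ?_, ?_⟩
    · rw [smul_eq_mul, Prod.fst_mul, map_mul, a1, mul_zero]
    · rw [smul_eq_mul, Prod.snd_mul, Prod.fst_mul, map_mul, a2, mul_zero]
    · rw [smul_eq_mul, Prod.snd_mul, Prod.snd_mul, map_mul, a3, mul_zero]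

theorem mem_IZ {x : R₁ × R₂ × R₃} :
    x ∈ D.IZ ↔ ∀ y, D.e₁ y x.1 = 0 ∧ D.e₂ y x.2.1 = 0 ∧ D.e₃ y x.2.2 = 0 := Iff.rfl

/-- (R11b'): `I_Z * I_Z ⊂ W 1` from the three componentwise statements. -/
theorem IZ_mul_le
    (hint₁ : ∀ g g' : R₁, (∀ y, D.e₁ y g = 0) → (∀ y, D.e₁ y g' = 0) →
      ((g * g', 0, 0) : R₁ × R₂ × R₃) ∈ D.W 1)
    (hint₂ : ∀ g g' : R₂, (∀ y, D.e₂ y g = 0) → (∀ y, D.e₂ y g' = 0) →
      ((0, g * g', 0) : R₁ × R₂ × R₃) ∈ D.W 1)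
    (hint₃ : ∀ g g' : R₃, (∀ y, D.e₃ y g = 0) → (∀ y, D.e₃ y g' = 0) →
      ((0, 0, g * g') : R₁ × R₂ × R₃) ∈ D.W 1) :
    ∀ x ∈ D.IZ * D.IZ, x ∈ D.W 1 := by
  intro x hx
  refine Submodule.mul_induction_on hx ?_ ?_
  · intro a ha b hb
    have e : a * b = (a.1 * b.1, 0, 0) + (0, a.2.1 * b.2.1, 0) + (0, 0, a.2.2 * b.2.2) := by
      ext <;> simp
    rw [e]
    exact (D.W 1).add_mem ((D.W 1).add_mem
      (hint₁ _ _ (fun y => (ha y).1) (fun y => (hb y).1))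
      (hint₂ _ _ (fun y => (ha y).2.1) (fun y => (hb y).2.1)))
      (hint₃ _ _ (fun y => (ha y).2.2) (fun y => (hb y).2.2))
  · intro a b ha hb
    exact (D.W 1).add_mem ha hb

/-- **TRIV** with the interpolation hypothesis (R11b') stated componentwise. -/
theorem one_mem_W_of_prod (q : ℕ) [hq : Fact q.Prime] [CharP k q] (hnq : Nat.Coprime n q)
    [Finite ι]
    (hint₁ : ∀ g g' : R₁, (∀ y, D.e₁ y g = 0) → (∀ y, D.e₁ y g' = 0) →
      ((g * g', 0, 0) : R₁ × R₂ × R₃) ∈ D.W 1)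
    (hint₂ : ∀ g g' : R₂, (∀ y, D.e₂ y g = 0) → (∀ y, D.e₂ y g' = 0) →
      ((0, g * g', 0) : R₁ × R₂ × R₃) ∈ D.W 1)
    (hint₃ : ∀ g g' : R₃, (∀ y, D.e₃ y g = 0) → (∀ y, D.e₃ y g' = 0) →
      ((0, 0, g * g') : R₁ × R₂ × R₃) ∈ D.W 1)
    (hsep : ∀ y, ∃ w ∈ D.W 1, D.e₁ y w.1 = 1 ∧ ∀ y', y' ≠ y → D.e₁ y' w.1 = 0)
    {u : Fˣ} (hu : u ∈ D.Kp) (hpow : ∀ m ∈ D.W u, m ^ n ∈ D.W 1)
    (hγ : ∀ y, D.γ₁ u y = 1 ∧ D.γ₂ u y = 1)
    (h₁ : ∀ 𝔫 : Ideal R₁, 𝔫.IsMaximal → ∃ m ∈ D.W u, m.1 ∉ 𝔫)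
    (h₂ : ∀ 𝔫 : Ideal R₂, 𝔫.IsMaximal → ∃ m ∈ D.W u, m.2.1 ∉ 𝔫)
    (h₃ : ∀ 𝔫 : Ideal R₃, 𝔫.IsMaximal → ∃ m ∈ D.W u, m.2.2 ∉ 𝔫) :
    (1 : R₁ × R₂ × R₃) ∈ D.W u := by
  apply D.one_mem_W_of_max q hnq (D.IZ * D.IZ) (D.IZ_mul_le hint₁ hint₂ hint₃) ?_ hsep hu hpow hγ
    h₁ h₂ h₃
  intro x hx
  rw [pow_two]
  exact Ideal.mul_mem_mul hx hx

/-! ### independence of the chart -/

/-- **the gluing invariant does not depend on the chart**: a morphism of data (restriction of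
functions to a smaller chart which still contains the triple points) preserves `γ`. -/
theorem γ_eq_of_map {R₁' R₂' R₃' : Type*} [CommRing R₁'] [CommRing R₂'] [CommRing R₃']
    [Algebra k R₁'] [Algebra k R₂'] [Algebra k R₃']
    (D' : S36G_Datum F k R₁' R₂' R₃' ι n)
    (φ₁ : R₁ → R₁') (φ₂ : R₂ → R₂') (φ₃ : R₃ → R₃')
    (he₁ : ∀ y r, D'.e₁ y (φ₁ r) = D.e₁ y r) (he₂ : ∀ y r, D'.e₂ y (φ₂ r) = D.e₂ y r)
    (he₃ : ∀ y r, D'.e₃ y (φ₃ r) = D.e₃ y r)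
    {u : Fˣ} (hu : u ∈ D.Kp) (hu' : u ∈ D'.Kp)
    (hW : ∀ m ∈ D.W u, ((φ₁ m.1, φ₂ m.2.1, φ₃ m.2.2) : R₁' × R₂' × R₃') ∈ D'.W u) (y : ι) :
    D'.γ₁ u y = D.γ₁ u y ∧ D'.γ₂ u y = D.γ₂ u y := by
  obtain ⟨g1, -, -⟩ := D.gen_ne hu y
  have hm := hW _ (D.gen_mem hu y)
  have h := D'.γ_eq hu' hm y (by
    show D'.e₁ y (φ₁ (D.gen u y).1) ≠ 0
    rw [he₁]
    exact g1)
  simp only [he₁, he₂, he₃] at h
  exact h

/-- trivial invariant in one chart ⇒ trivial invariant in every chart related to it by a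
morphism of data (in either direction). -/
theorem γ_one_of_map {R₁' R₂' R₃' : Type*} [CommRing R₁'] [CommRing R₂'] [CommRing R₃']
    [Algebra k R₁'] [Algebra k R₂'] [Algebra k R₃']
    (D' : S36G_Datum F k R₁' R₂' R₃' ι n)
    (φ₁ : R₁ → R₁') (φ₂ : R₂ → R₂') (φ₃ : R₃ → R₃')
    (he₁ : ∀ y r, D'.e₁ y (φ₁ r) = D.e₁ y r) (he₂ : ∀ y r, D'.e₂ y (φ₂ r) = D.e₂ y r)
    (he₃ : ∀ y r, D'.e₃ y (φ₃ r) = D.e₃ y r)
    {u : Fˣ} (hu : u ∈ D.Kp) (hu' : u ∈ D'.Kp)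
    (hW : ∀ m ∈ D.W u, ((φ₁ m.1, φ₂ m.2.1, φ₃ m.2.2) : R₁' × R₂' × R₃') ∈ D'.W u) :
    (∀ y, D.γ₁ u y = 1 ∧ D.γ₂ u y = 1) ↔ (∀ y, D'.γ₁ u y = 1 ∧ D'.γ₂ u y = 1) := by
  constructor
  · intro h y
    obtain ⟨a, b⟩ := D.γ_eq_of_map D' φ₁ φ₂ φ₃ he₁ he₂ he₃ hu hu' hW y
    rw [a, b]
    exact h y
  · intro h y
    obtain ⟨a, b⟩ := D.γ_eq_of_map D' φ₁ φ₂ φ₃ he₁ he₂ he₃ hu hu' hW y
    rw [← a, ← b]
    exact h y

end S36G_Datum

end Fermat.Agent.S36
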