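import Fermat.Agent.S36.Nodal3
import Fermat.Agent.S36.Triv3

/-!
# TRACK 10 (S36), package F3 = NODAL3 (R11) (helper14), part 2: the package for GAMMA3 / TRIV

Prefix `S36N3_`.  Imports only `Nodal3` (Mathlib) and `Triv3` (helper11: Gamma3 + TrivAbs).

## Node symmetry
* `S36N3_nodes_symm` : a nodal ring `W' = {(a, b) | a(P_i) = b(Q_i)}` (level `q`, in level-`M`
  coordinates) which is stable under the swap `(a, b) ↦ (b, a)` (Atkin–Lehner `w_q`) has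
  `{P_i} = {Q_i}` as sets: the set of supersingular points is Frobenius stable.
* `S36N3_nodes_frob` : `P_i = Q_i ∘ Fr`, `Q_i = P_i ∘ Fr` from the reductions
  `(f̄, Fr f̄)`, `(Fr f̄, f̄)` of the two pull backs of level `M`.
* `S36N3_hAB` : the hypotheses `hA`, `hB` of `S36N3_Coord` from the level-`q` nodal ring and
  the reductions `(a, a, Fr b)`, `(Fr a, b, b)` of the pull backs `p₁^*`, `p₂^*`.

## The package, for a datum `D : S36G_Datum F k R₁ R₂ R₃ ι n` of GAMMA3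
`S36N3_Coord D R₀` : level-`M` coordinates `u_j : R₀ → R_j` (onto), the supersingular points
`z y : R₀ → k` with `D.e_j y ∘ u_j = z y`, and the two families
`hA : (u₁ a, u₂ a, 0) ∈ W 1`, `hB : (0, u₂ a, u₃ a) ∈ W 1` for `a` vanishing on `Z`.
* `S36N3_Coord.hint₁/₂/₃` : the interpolation hypotheses (R11b') of `one_mem_W_of_prod`;
* `S36N3_Coord.hsep` : the separation hypothesis of `one_mem_W_of_max` / `_of_prod`;
* `S36N3_Coord.one_mem_W` : **TRIV with NODAL3 plugged in**;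
* `S36N3_Coord.ord₁/₂/₃` : **(R11a)** at every `k`-point of one component which is not a branch
  point: a function `g ∈ W 1` not vanishing at the point and vanishing identically on the two
  other components.
-/

set_option autoImplicit false

namespace Fermat.Agent.S36

/-! ### Node symmetry -/

section Sym

variable {k R₀ : Type*} [Field k] [CommRing R₀] [Algebra k R₀]

/-- one inclusion of the node symmetry. -/
theorem S36N3_nodes_sub {I : Type*} [Finite I] (P Q : I → R₀ →ₐ[k] k) (W' : Set (R₀ × R₀))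
    (hW' : ∀ a b, (a, b) ∈ W' ↔ ∀ i, P i a = Q i b)
    (hswap : ∀ a b, (a, b) ∈ W' → (b, a) ∈ W') (j : I) : ∃ i, P j = Q i := by
  by_contra hcon
  have hne : ∀ i, P j ≠ Q i := fun i h => hcon ⟨i, h⟩
  obtain ⟨x, hx0, hxe⟩ := S36N3_exists_ne Q (P j) hne
  have h1 : ((0 : R₀), x) ∈ W' := (hW' 0 x).2 fun i => by rw [map_zero, hx0 i]
  have h2 := (hW' x 0).1 (hswap 0 x h1) j
  rw [map_zero] at h2
  exact hxe h2

/-- **node symmetry**: a swap-stable nodal ring has `{P_i} = {Q_i}`. -/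
theorem S36N3_nodes_symm {I : Type*} [Finite I] (P Q : I → R₀ →ₐ[k] k) (W' : Set (R₀ × R₀))
    (hW' : ∀ a b, (a, b) ∈ W' ↔ ∀ i, P i a = Q i b)
    (hswap : ∀ a b, (a, b) ∈ W' → (b, a) ∈ W') : Set.range P = Set.range Q := by
  apply Set.Subset.antisymm
  · rintro _ ⟨j, rfl⟩
    obtain ⟨i, hi⟩ := S36N3_nodes_sub P Q W' hW' hswap j
    exact ⟨i, hi.symm⟩
  · rintro _ ⟨j, rfl⟩
    have hW'' : ∀ a b, (a, b) ∈ Prod.swap ⁻¹' W' ↔ ∀ i, Q i a = P i b := by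
      intro a b
      show (b, a) ∈ W' ↔ _
      rw [hW']
      exact ⟨fun h i => (h i).symm, fun h i => (h i).symm⟩
    obtain ⟨i, hi⟩ := S36N3_nodes_sub Q P (Prod.swap ⁻¹' W') hW''
      (fun a b h => hswap b a h) j
    exact ⟨i, hi.symm⟩

/-- the two branches of a node are Frobenius conjugate: `P_i = Q_i ∘ Fr`, `Q_i = P_i ∘ Fr`. -/
theorem S36N3_nodes_frob {I : Type*} (P Q : I → R₀ →ₐ[k] k) (W' : Set (R₀ × R₀))
    (hW' : ∀ a b, (a, b) ∈ W' → ∀ i, P i a = Q i b) (Fr : R₀ → R₀)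
    (hα : ∀ a, (a, Fr a) ∈ W') (hβ : ∀ a, (Fr a, a) ∈ W') (i : I) (a : R₀) :
    P i a = Q i (Fr a) ∧ Q i a = P i (Fr a) :=
  ⟨hW' _ _ (hα a) i, (hW' _ _ (hβ a) i).symm⟩

/-- the nodes are fixed by `Fr²`. -/
theorem S36N3_nodes_frob_sq {I : Type*} (P Q : I → R₀ →ₐ[k] k) (W' : Set (R₀ × R₀))
    (hW' : ∀ a b, (a, b) ∈ W' → ∀ i, P i a = Q i b) (Fr : R₀ → R₀)
    (hα : ∀ a, (a, Fr a) ∈ W') (hβ : ∀ a, (Fr a, a) ∈ W') (i : I) (a : R₀) :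
    P i (Fr (Fr a)) = P i a ∧ Q i (Fr (Fr a)) = Q i a := by
  have h := S36N3_nodes_frob P Q W' hW' Fr hα hβ i
  exact ⟨by rw [← (h (Fr a)).2, ← (h a).1], by rw [← (h (Fr a)).1, ← (h a).2]⟩

variable {R₁ R₂ R₃ : Type*} [CommRing R₁] [CommRing R₂] [CommRing R₃]

/-- the two families `hA`, `hB` from the level-`q` nodal ring and the reductions
`red (p₁^* f) = (a, a, Fr b)`, `red (p₂^* f) = (Fr a, b, b)` (`red' f = (a, b)`), in level-`M`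
coordinates; `z` = the nodes, with `{P_i} = {Q_i} = {z y}`. -/
theorem S36N3_hAB {I ι : Type*} (P Q : I → R₀ →ₐ[k] k) (z : ι → R₀ →ₐ[k] k)
    (hP : ∀ i, ∃ y, P i = z y) (hQ : ∀ i, ∃ y, Q i = z y)
    (W' : Set (R₀ × R₀)) (hW' : ∀ a b, (∀ i, P i a = Q i b) → (a, b) ∈ W')
    (W : Set (R₁ × R₂ × R₃)) (u₁ : R₀ →+* R₁) (u₂ : R₀ →+* R₂) (u₃ : R₀ →+* R₃)
    (Fr : R₀ →+* R₀)
    (hp₁ : ∀ a b, (a, b) ∈ W' → (u₁ a, u₂ a, u₃ (Fr b)) ∈ W)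
    (hp₂ : ∀ a b, (a, b) ∈ W' → (u₁ (Fr a), u₂ b, u₃ b) ∈ W) (a : R₀)
    (ha : ∀ y, z y a = 0) :
    (u₁ a, u₂ a, (0 : R₃)) ∈ W ∧ ((0 : R₁), u₂ a, u₃ a) ∈ W := by
  have hPa : ∀ i, P i a = 0 := fun i => by
    obtain ⟨y, hy⟩ := hP i
    rw [hy, ha y]
  have hQa : ∀ i, Q i a = 0 := fun i => by
    obtain ⟨y, hy⟩ := hQ i
    rw [hy, ha y]
  constructor
  · have h := hp₁ a 0 (hW' a 0 fun i => by rw [hPa i, map_zero])
    rwa [map_zero, map_zero] at h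
  · have h := hp₂ 0 a (hW' 0 a fun i => by rw [hQa i, map_zero])
    rwa [map_zero, map_zero] at h

end Sym

/-! ### The package for a datum of GAMMA3 -/

section Pkg

variable {F k R₁ R₂ R₃ ι : Type*} [Field F] [Field k] [CommRing R₁] [CommRing R₂]
  [CommRing R₃] [Algebra k R₁] [Algebra k R₂] [Algebra k R₃] {n : ℕ}

/-- level-`M` coordinates on the three components of the special fibre at level `q²`, the
supersingular points and the two families of integral functions `(a, a, 0)`, `(0, a, a)`. -/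
structure S36N3_Coord (D : S36G_Datum F k R₁ R₂ R₃ ι n) (R₀ : Type*) [CommRing R₀]
    [Algebra k R₀] where
  /-- the coordinate on `FF` -/
  u₁ : R₀ →ₐ[k] R₁
  /-- the coordinate on `FV` -/
  u₂ : R₀ →ₐ[k] R₂
  /-- the coordinate on `VV` -/
  u₃ : R₀ →ₐ[k] R₃
  h₁ : Function.Surjective u₁
  h₂ : Function.Surjective u₂
  h₃ : Function.Surjective u₃
  /-- the supersingular points -/
  z : ι → R₀ →ₐ[k] k
  hz : Function.Injective z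
  he₁ : ∀ y a, D.e₁ y (u₁ a) = z y a
  he₂ : ∀ y a, D.e₂ y (u₂ a) = z y a
  he₃ : ∀ y a, D.e₃ y (u₃ a) = z y a
  hA : ∀ a, (∀ y, z y a = 0) → ((u₁ a, u₂ a, 0) : R₁ × R₂ × R₃) ∈ D.W 1
  hB : ∀ a, (∀ y, z y a = 0) → ((0, u₂ a, u₃ a) : R₁ × R₂ × R₃) ∈ D.W 1
  /-- the first projection of `W 1` is onto (pull backs `δ_A^*` of level `M`) -/
  hfst : ∀ a, ∃ w ∈ D.W 1, w.1 = u₁ a

namespace S36N3_Coord

variable {D : S36G_Datum F k R₁ R₂ R₃ ι n} {R₀ : Type*} [CommRing R₀] [Algebra k R₀]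

/-- the ideal of the supersingular points. -/
def IZ₀ (N : S36N3_Coord D R₀) : Ideal R₀ := ⨅ y, RingHom.ker (N.z y : R₀ →+* k)

theorem mem_IZ₀ (N : S36N3_Coord D R₀) {a : R₀} : a ∈ N.IZ₀ ↔ ∀ y, N.z y a = 0 := by
  rw [IZ₀, Ideal.mem_iInf]
  exact Iff.rfl

theorem hmul (N : S36N3_Coord D R₀) {a a' : R₀} (ha : ∀ y, N.z y a = 0) (ha' : ∀ y, N.z y a' = 0) :
    ((N.u₁ (a * a'), 0, 0) : R₁ × R₂ × R₃) ∈ D.W 1 ∧
      ((0, N.u₂ (a * a'), 0) : R₁ × R₂ × R₃) ∈ D.W 1 ∧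
      ((0, 0, N.u₃ (a * a')) : R₁ × R₂ × R₃) ∈ D.W 1 :=
  S36N3_mul_param D.W1alg.toSubring N.IZ₀ (N.u₁ : R₀ →+* R₁) (N.u₂ : R₀ →+* R₂)
    (N.u₃ : R₀ →+* R₃) (fun a ha => N.hA a (N.mem_IZ₀.1 ha))
    (fun a ha => N.hB a (N.mem_IZ₀.1 ha)) (N.mem_IZ₀.2 ha) (N.mem_IZ₀.2 ha')

/-- (R11b'), first component. -/
theorem hint₁ (N : S36N3_Coord D R₀) (g g' : R₁) (hg : ∀ y, D.e₁ y g = 0) (hg' : ∀ y, D.e₁ y g' = 0) :
    ((g * g', 0, 0) : R₁ × R₂ × R₃) ∈ D.W 1 := by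
  obtain ⟨a, rfl⟩ := N.h₁ g
  obtain ⟨a', rfl⟩ := N.h₁ g'
  have := (N.hmul (fun y => by rw [← N.he₁ y a, hg y])
    (fun y => by rw [← N.he₁ y a', hg' y])).1
  rwa [map_mul] at this

/-- (R11b'), second component. -/
theorem hint₂ (N : S36N3_Coord D R₀) (g g' : R₂) (hg : ∀ y, D.e₂ y g = 0) (hg' : ∀ y, D.e₂ y g' = 0) :
    ((0, g * g', 0) : R₁ × R₂ × R₃) ∈ D.W 1 := by
  obtain ⟨a, rfl⟩ := N.h₂ g
  obtain ⟨a', rfl⟩ := N.h₂ g'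
  have := (N.hmul (fun y => by rw [← N.he₂ y a, hg y])
    (fun y => by rw [← N.he₂ y a', hg' y])).2.1
  rwa [map_mul] at this

/-- (R11b'), third component. -/
theorem hint₃ (N : S36N3_Coord D R₀) (g g' : R₃) (hg : ∀ y, D.e₃ y g = 0) (hg' : ∀ y, D.e₃ y g' = 0) :
    ((0, 0, g * g') : R₁ × R₂ × R₃) ∈ D.W 1 := by
  obtain ⟨a, rfl⟩ := N.h₃ g
  obtain ⟨a', rfl⟩ := N.h₃ g'
  have := (N.hmul (fun y => by rw [← N.he₃ y a, hg y])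
    (fun y => by rw [← N.he₃ y a', hg' y])).2.2
  rwa [map_mul] at this

/-- the separation hypothesis of TRIV. -/
theorem hsep (N : S36N3_Coord D R₀) [Finite ι] (y : ι) :
    ∃ w ∈ D.W 1, D.e₁ y w.1 = 1 ∧ ∀ y', y' ≠ y → D.e₁ y' w.1 = 0 := by
  obtain ⟨ε, h1, h0⟩ := S36N3_sep N.z N.hz y
  obtain ⟨w, hw, hw1⟩ := N.hfst ε
  refine ⟨w, hw, ?_, ?_⟩
  · rw [hw1, N.he₁, h1]
  · intro y' hy'
    rw [hw1, N.he₁, h0 y' hy']

/-- **TRIV with NODAL3 plugged in**: trivial gluing invariant and (LI) at every closed point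
of the three components ⇒ `1 ∈ W u`. -/
theorem one_mem_W (N : S36N3_Coord D R₀) (q : ℕ) [Fact q.Prime] [CharP k q] (hnq : Nat.Coprime n q) [Finite ι]
    {u : Fˣ} (hu : u ∈ D.Kp) (hpow : ∀ m ∈ D.W u, m ^ n ∈ D.W 1)
    (hγ : ∀ y, D.γ₁ u y = 1 ∧ D.γ₂ u y = 1)
    (h₁ : ∀ 𝔫 : Ideal R₁, 𝔫.IsMaximal → ∃ m ∈ D.W u, m.1 ∉ 𝔫)
    (h₂ : ∀ 𝔫 : Ideal R₂, 𝔫.IsMaximal → ∃ m ∈ D.W u, m.2.1 ∉ 𝔫)
    (h₃ : ∀ 𝔫 : Ideal R₃, 𝔫.IsMaximal → ∃ m ∈ D.W u, m.2.2 ∉ 𝔫) :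
    (1 : R₁ × R₂ × R₃) ∈ D.W u :=
  D.one_mem_W_of_prod q hnq N.hint₁ N.hint₂ N.hint₃ N.hsep hu hpow hγ h₁ h₂ h₃

/-- **(R11a)**, component `FF`: a `k`-point of `FF` which is not supersingular. -/
theorem ord₁ (N : S36N3_Coord D R₀) [Finite ι] (e : R₁ →ₐ[k] k) (hne : ∀ y, e ≠ D.e₁ y) :
    ∃ g ∈ D.W 1, e g.1 ≠ 0 ∧ g.2.1 = 0 ∧ g.2.2 = 0 := by
  obtain ⟨x, hx0, hxe⟩ := S36N3_exists_ne D.e₁ e hne
  refine ⟨(x * x, 0, 0), N.hint₁ x x hx0 hx0, ?_, rfl, rfl⟩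
  show e (x * x) ≠ 0
  rw [map_mul]
  exact mul_ne_zero hxe hxe

/-- **(R11a)**, component `FV`. -/
theorem ord₂ (N : S36N3_Coord D R₀) [Finite ι] (e : R₂ →ₐ[k] k) (hne : ∀ y, e ≠ D.e₂ y) :
    ∃ g ∈ D.W 1, e g.2.1 ≠ 0 ∧ g.1 = 0 ∧ g.2.2 = 0 := by
  obtain ⟨x, hx0, hxe⟩ := S36N3_exists_ne D.e₂ e hne
  refine ⟨(0, x * x, 0), N.hint₂ x x hx0 hx0, ?_, rfl, rfl⟩
  show e (x * x) ≠ 0
  rw [map_mul]
  exact mul_ne_zero hxe hxe

/-- **(R11a)**, component `VV`. -/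
theorem ord₃ (N : S36N3_Coord D R₀) [Finite ι] (e : R₃ →ₐ[k] k) (hne : ∀ y, e ≠ D.e₃ y) :
    ∃ g ∈ D.W 1, e g.2.2 ≠ 0 ∧ g.1 = 0 ∧ g.2.1 = 0 := by
  obtain ⟨x, hx0, hxe⟩ := S36N3_exists_ne D.e₃ e hne
  refine ⟨(0, 0, x * x), N.hint₃ x x hx0 hx0, ?_, rfl, rfl⟩
  show e (x * x) ≠ 0
  rw [map_mul]
  exact mul_ne_zero hxe hxe

end S36N3_Coord

end Pkg

end Fermat.Agent.S36
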