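import Mathlib
import Fermat.Agent.S24.LocalDiff
import Fermat.Agent.S24.PrincipalDiv
import Fermat.Agent.S18.FinalA
import Fermat.Agent.S34.NodalX0Main
import Fermat.Agent.S34.ValFk

/-!
# TRACK 10 (S36), package SS-CARD (helper3), prefix `S36SS_`: the supersingular places

`k` = residue field of `A ∣ q`, `κ₁ = F̄_{Mq}`, `κ = F̄_M` (equal as subfields of `k((t))`),
`x̄ = j̄`, `Rb₁` = functions regular off the poles of `j̄` (TRACK 7's chart).

* `S36SS_exists_place` — **node → place** (abstract): a `k`-point `e : R →ₐ[k] k` of the coordinate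
  ring `R` of the chart `x ≠ ∞` of a function field is the evaluation at a place `P`
  (no Dedekind theory: if `e` were no evaluation, a product `h` of functions vanishing at the
  zeros of `x − e(x)` with `e(h) ≠ 0` would satisfy `h^N = (x − e x)·w`, `w ∈ R`);
* `S36SS_ker_iff` — for such `P`: `e f = 0 ↔ f = 0 ∨ 0 < ord_P f`;
* `S36SS_const_of_pos` — `y ≡ c` at `v` and `y − y ^ N` vanishing at `v` give `c ^ N = c`;
* `S36SS_transport` — places of `↥E₁` and `↥E₂` for equal intermediate fields `E₁ = E₂`;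
* `S36SS_Data`, `S36SS_data` — **SS-CARD**: TRACK 7's nodes `e₁ i`, `e₂ i` (`S34NX_nodes_of`) with
  their places `P i` on `κ₁` (injective, off the cusps, `P_ker`), the identification `φ` of the
  places of `κ₁` and `κ`, and the finset `SS = {φ (P i)}` of places of `κ = F̄_M`, off the cusps,
  with `#SS = g(F_{Mq}) + 1 − 2 g(κ)` (the hypotheses `hSSc`, `hSS` of helper26's `S36RB_count`);
* `S36SS_cross_alpha`, `S36SS_cross_beta` — `e₁ i (ι y) = e₂ i (ι (Fr y))`,
  `e₁ i (ι (Fr y)) = e₂ i (ι y)` for `y` regular off the cusps (`Fr` = `t ↦ t^q`);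
* `S36SS_node_e`, `S36SS_node` — **the node equation**: `y − Fr (Fr y)` vanishes at every `v ∈ SS`;
* `S36SS_node_rat`, `S36SS_const` — for rational `y` (`Fr y = y ^ q`): `y − y ^ (q²)` vanishes at
  every `v ∈ SS`, and the value `c` of `y` at `v` satisfies `c ^ (q²) = c`.
-/

set_option autoImplicit false
set_option synthInstance.maxHeartbeats 400000
set_option maxHeartbeats 1000000
set_option linter.unusedSectionVars false
set_option linter.style.haveILetI false

open AlgebraicCurve IntermediateField ModularCurve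

noncomputable section

namespace Fermat.Agent.S36

open Fermat.Agent.S24 Fermat.Agent.S18 Fermat.Agent.S34 Fermat.Agent.Lib

section bridge

variable {k F : Type*} [Field k] [Field F] [Algebra k F] [IsAlgClosed k]

omit [IsAlgClosed k] in
theorem S36SS_ord_nonneg_of_mem (Q : Place k F) {f : F} (hf : f ∈ Q.toValuationSubring) :
    0 ≤ Q.ord f := by
  by_cases h0 : f = 0
  · rw [h0, Place.ord_zero]
  · exact (BG_mem_iff_ord_nonneg Q h0).mp hf

/-- **node → place**: a `k`-point `e` of the coordinate ring `R` of the chart `x ≠ ∞` is the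
evaluation at a place `P` (with `x` regular at `P`): every nonzero `f ∈ ker e` vanishes at `P`. -/
theorem S36SS_exists_place (hP : HasPrincipalDivisors k F) (x : F) [FiniteDimensional k⟮x⟯ F]
    (hx : Transcendental k x) (R : Subalgebra k F)
    (hR : ∀ y : F, y ∈ R ↔ ∀ Q : Place k F, 0 ≤ Q.ord x → y ∈ Q.toValuationSubring)
    (e : ↥R →ₐ[k] k) :
    ∃ P : Place k F, 0 ≤ P.ord x ∧
      ∀ f : ↥R, e f = 0 → (f : F) ≠ 0 → 0 < P.ord (f : F) := by
  classical
  by_contra hcon
  push Not at hcon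
  have hxR : x ∈ R := (hR x).mpr fun Q hQ => by
    have hx0 : x ≠ 0 := fun h => hx (h ▸ isAlgebraic_zero)
    exact (BG_mem_iff_ord_nonneg Q hx0).mpr hQ
  set c : k := e ⟨x, hxR⟩ with hc
  set z : F := x - algebraMap k F c with hz
  have hzR : z ∈ R := R.sub_mem hxR (R.algebraMap_mem c)
  have hz0 : z ≠ 0 := by
    intro h
    apply hx
    have : x = algebraMap k F c := sub_eq_zero.mp h
    rw [this]
    exact isAlgebraic_algebraMap c
  have hez : e ⟨z, hzR⟩ = 0 := by
    have : (⟨z, hzR⟩ : ↥R) = ⟨x, hxR⟩ - algebraMap k ↥R c := Subtype.ext rfl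
    rw [this, map_sub, AlgHom.commutes, ← hc]
    simp
  obtain ⟨D, hD, -⟩ := hP.exists_divisor z hz0
  -- for every zero `P` of `z` an element of `R` vanishing at `P` with `e ≠ 0`
  have key : ∀ P : Place k F, 0 < P.ord z →
      ∃ h : ↥R, e h ≠ 0 ∧ 0 < P.ord (h : F) := by
    intro P hP
    have hPx : 0 ≤ P.ord x := by
      have h1 : z ∈ P.toValuationSubring := (BG_mem_iff_ord_nonneg P hz0).mpr hP.le
      have h2 : x ∈ P.toValuationSubring := by
        have : x = z + algebraMap k F c := by rw [hz]; ring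
        rw [this]
        exact P.toValuationSubring.add_mem _ _ h1 (P.algebraMap_mem' c)
      exact S36SS_ord_nonneg_of_mem P h2
    obtain ⟨g, hg, hg0, hgP⟩ := hcon P hPx
    have hgmem : (g : F) ∈ P.toValuationSubring := (hR g).mp g.2 P hPx
    obtain ⟨a, ha | ha⟩ := BL_exists_const x P hgmem
    · exfalso
      have h1 : g = algebraMap k ↥R a := Subtype.ext ha
      rw [h1, AlgHom.commutes] at hg
      have h2 : a = 0 := by simpa using hg
      rw [ha, h2, map_zero] at hg0
      exact hg0 rfl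
    · have ha0 : a ≠ 0 := by
        rintro rfl
        rw [map_zero, sub_zero] at ha
        omega
      refine ⟨g - algebraMap k ↥R a, ?_, ha⟩
      rw [map_sub, hg, AlgHom.commutes, zero_sub]
      simpa using ha0
  choose! hfun hfun_e hfun_ord using key
  -- the finite set of zeros of `z`
  set Z : Finset (Place k F) := D.support.filter (fun P => 0 < P.ord z) with hZ
  have hmemZ : ∀ P : Place k F, P ∈ Z ↔ 0 < P.ord z := by
    intro P
    rw [hZ, Finset.mem_filter, Finsupp.mem_support_iff, hD]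
    constructor
    · exact fun h => h.2
    · exact fun h => ⟨by omega, h⟩
  set h : ↥R := ∏ P ∈ Z, hfun P with hh
  have heh : e h ≠ 0 := by
    rw [hh, map_prod]
    exact Finset.prod_ne_zero_iff.mpr fun P hP => hfun_e P ((hmemZ P).mp hP)
  have hh0 : (h : F) ≠ 0 := by
    intro h0
    apply heh
    have : h = 0 := Subtype.ext h0
    rw [this, map_zero]
  set N : ℕ := ∑ P ∈ Z, (P.ord z).toNat with hN
  have hNle : ∀ P ∈ Z, P.ord z ≤ (N : ℤ) := by
    intro P hP
    have h1 : (P.ord z).toNat ≤ N := Finset.single_le_sum (f := fun P => (P.ord z).toNat)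
      (fun _ _ => Nat.zero_le _) hP
    have h2 : P.ord z = ((P.ord z).toNat : ℤ) := (Int.toNat_of_nonneg ((hmemZ P).mp hP).le).symm
    rw [h2]
    exact_mod_cast h1
  -- `w = h ^ N / z ∈ R`
  have hwR : (h : F) ^ N * z⁻¹ ∈ R := by
    rw [hR]
    intro Q hQ
    have hhQ : (h : F) ∈ Q.toValuationSubring := (hR h).mp h.2 Q hQ
    have hzQ : z ∈ Q.toValuationSubring := (hR z).mp hzR Q hQ
    by_cases hQZ : Q ∈ Z
    · have hw0 : (h : F) ^ N * z⁻¹ ≠ 0 := mul_ne_zero (pow_ne_zero _ hh0) (inv_ne_zero hz0)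
      rw [BG_mem_iff_ord_nonneg Q hw0, Place.ord_mul _ (pow_ne_zero _ hh0) (inv_ne_zero hz0),
        Place.ord_inv, ← zpow_natCast, Place.ord_zpow]
      have h1 : 1 ≤ Q.ord (h : F) := by
        have e1 : h = hfun Q * ∏ P ∈ Z.erase Q, hfun P := by
          rw [hh, Finset.mul_prod_erase Z hfun hQZ]
        have e2 : (h : F) = (hfun Q : F) * ((∏ P ∈ Z.erase Q, hfun P : ↥R) : F) := by
          rw [e1]; rfl
        have hne1 : (hfun Q : F) ≠ 0 := by
          intro h0
          rw [e2, h0, zero_mul] at hh0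
          exact hh0 rfl
        have hne2 : ((∏ P ∈ Z.erase Q, hfun P : ↥R) : F) ≠ 0 := by
          intro h0
          rw [e2, h0, mul_zero] at hh0
          exact hh0 rfl
        rw [e2, Place.ord_mul _ hne1 hne2]
        have h3 := hfun_ord Q ((hmemZ Q).mp hQZ)
        have h4 : 0 ≤ Q.ord ((∏ P ∈ Z.erase Q, hfun P : ↥R) : F) :=
          S36SS_ord_nonneg_of_mem Q ((hR _).mp (∏ P ∈ Z.erase Q, hfun P : ↥R).2 Q hQ)
        omega
      have h2 := hNle Q hQZ
      nlinarith
    · have hz1 : Q.ord z = 0 := by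
        have h1 := S36SS_ord_nonneg_of_mem Q hzQ
        have h2 : ¬ 0 < Q.ord z := fun h => hQZ ((hmemZ Q).mpr h)
        omega
      have hzinv : z⁻¹ ∈ Q.toValuationSubring := by
        rw [BG_mem_iff_ord_nonneg Q (inv_ne_zero hz0), Place.ord_inv, hz1]
        simp
      exact Q.toValuationSubring.mul_mem _ _ (Q.toValuationSubring.pow_mem hhQ N) hzinv
  have hprod : h ^ N = ⟨z, hzR⟩ * ⟨(h : F) ^ N * z⁻¹, hwR⟩ := by
    apply Subtype.ext
    show (h : F) ^ N = z * ((h : F) ^ N * z⁻¹)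
    field_simp
  have := congrArg e hprod
  rw [map_pow, map_mul, hez, zero_mul] at this
  rcases Nat.eq_zero_or_pos N with hN0 | hN0
  · rw [hN0, pow_zero] at this
    exact one_ne_zero this
  · exact heh ((pow_eq_zero_iff hN0.ne').mp this)

omit [IsAlgClosed k] in
/-- the kernel of `e` is exactly the set of functions vanishing at `P`. -/
theorem S36SS_ker_iff (R : Subalgebra k F) (e : ↥R →ₐ[k] k) (P : Place k F)
    (hPe : ∀ f : ↥R, e f = 0 → (f : F) ≠ 0 → 0 < P.ord (f : F)) (f : ↥R) :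
    e f = 0 ↔ (f : F) = 0 ∨ 0 < P.ord (f : F) := by
  constructor
  · intro h
    by_cases h0 : (f : F) = 0
    · exact Or.inl h0
    · exact Or.inr (hPe f h h0)
  · rintro (h | h)
    · have : f = 0 := Subtype.ext h
      rw [this, map_zero]
    · by_contra hne
      set a : k := e f with ha
      have hg : e (f - algebraMap k ↥R a) = 0 := by
        rw [map_sub, AlgHom.commutes, ← ha]
        simp
      have hle := S18_ord_sub_const_le P h hne
      by_cases hg0 : ((f - algebraMap k ↥R a : ↥R) : F) = 0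
      · have h1 : (f : F) = algebraMap k F a := sub_eq_zero.mp hg0
        rw [h1, S18_Spec.ord_algebraMap] at h
        exact lt_irrefl _ h
      · have := hPe _ hg hg0
        have e1 : ((f - algebraMap k ↥R a : ↥R) : F) = (f : F) - algebraMap k F a := rfl
        rw [e1] at this
        omega

omit [IsAlgClosed k] in
/-- **the value at a node lies in `𝔽_N`**: if `y ≡ c` at `v` and `y − y ^ N` vanishes at `v`
then `c ^ N = c`. -/
theorem S36SS_const_of_pos (v : Place k F) {y : F} {c : k} (N : ℕ)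
    (hc : 0 < v.ord (y - algebraMap k F c))
    (hy : y = y ^ N ∨ 0 < v.ord (y - y ^ N)) : c ^ N = c := by
  have h1 : v.adicValuation (y - algebraMap k F c) ≤ WithZero.exp (-(1 : ℤ)) :=
    (S18_ord_ge_iff v _ 1).mpr (Or.inr (by omega))
  have h2 : v.adicValuation (y - y ^ N) ≤ WithZero.exp (-(1 : ℤ)) := by
    refine (S18_ord_ge_iff v _ 1).mpr ?_
    rcases hy with h | h
    · left; exact sub_eq_zero.mpr h
    · right; omega
  have hlt : (WithZero.exp (-(1 : ℤ)) : WithZero (Multiplicative ℤ)) ≤ 1 := by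
    rw [← WithZero.exp_zero]
    exact WithZero.exp_le_exp.mpr (by norm_num)
  have hcO : ∀ a : k, v.adicValuation (algebraMap k F a) ≤ 1 := by
    intro a
    have := (S18_ord_ge_iff v (algebraMap k F a) 0).mpr
      (Or.inr (by rw [S18_Spec.ord_algebraMap]))
    simpa using this
  have hyO : v.adicValuation y ≤ 1 := by
    have : y = (y - algebraMap k F c) + algebraMap k F c := by ring
    rw [this]
    exact (Valuation.map_add _ _ _).trans (max_le (h1.trans hlt) (hcO c))
  have hpow : ∀ n : ℕ,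
      v.adicValuation (y ^ n - algebraMap k F (c ^ n)) ≤ WithZero.exp (-(1 : ℤ)) := by
    intro n
    induction n with
    | zero => simp
    | succ n ih =>
      have : y ^ (n + 1) - algebraMap k F (c ^ (n + 1)) =
          y * (y ^ n - algebraMap k F (c ^ n)) +
            algebraMap k F (c ^ n) * (y - algebraMap k F c) := by
        rw [map_pow, map_pow]; ring
      rw [this]
      refine (Valuation.map_add _ _ _).trans (max_le ?_ ?_)
      · rw [map_mul]
        calc v.adicValuation y * v.adicValuation (y ^ n - algebraMap k F (c ^ n))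
            ≤ 1 * WithZero.exp (-(1 : ℤ)) := mul_le_mul' hyO ih
          _ = WithZero.exp (-(1 : ℤ)) := one_mul _
      · rw [map_mul]
        calc v.adicValuation (algebraMap k F (c ^ n)) * v.adicValuation (y - algebraMap k F c)
            ≤ 1 * WithZero.exp (-(1 : ℤ)) := mul_le_mul' (hcO _) h1
          _ = WithZero.exp (-(1 : ℤ)) := one_mul _
  by_contra hne
  have hd : c - c ^ N ≠ 0 := fun h => hne (sub_eq_zero.mp h).symm
  have hsum : algebraMap k F (c - c ^ N) =
      -(y - algebraMap k F c) + ((y - y ^ N) + (y ^ N - algebraMap k F (c ^ N))) := by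
    rw [map_sub]; ring
  have h3 : v.adicValuation (algebraMap k F (c - c ^ N)) ≤ WithZero.exp (-(1 : ℤ)) := by
    rw [hsum]
    refine (Valuation.map_add _ _ _).trans (max_le ?_
      ((Valuation.map_add _ _ _).trans (max_le h2 (hpow N))))
    rw [Valuation.map_neg]
    exact h1
  rcases (S18_ord_ge_iff v _ 1).mp h3 with h | h
  · exact hd ((map_eq_zero _).mp h)
  · rw [S18_Spec.ord_algebraMap] at h
    omega

end bridge

section transport

variable {k Ω : Type*} [Field k] [Field Ω] [Algebra k Ω]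

/-- places of `↥E₁` and of `↥E₂` for equal intermediate fields. -/
theorem S36SS_transport {E₁ E₂ : IntermediateField k Ω} (h : E₁ = E₂) :
    ∃ φ : Place k ↥E₁ ≃ Place k ↥E₂,
      ∀ (P : Place k ↥E₁) (y₁ : ↥E₁) (y₂ : ↥E₂), (y₁ : Ω) = (y₂ : Ω) →
        (φ P).ord y₂ = P.ord y₁ := by
  subst h
  exact ⟨Equiv.refl _, fun P y₁ y₂ hy => by rw [Subtype.ext hy]; rfl⟩

theorem S36SS_genus_congr {E₁ E₂ : IntermediateField k Ω} (h : E₁ = E₂) :
    RR_genus k ↥E₁ = RR_genus k ↥E₂ := by
  subst h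
  rfl

end transport

section nodes

variable (M q : ℕ) [NeZero (M * q)] (hq : q.Prime) (hqM : ¬ q ∣ M)
  (A : ValuationSubring (AlgebraicClosure ℚ)) (hA : A.LiesOverPrime q)
  (hgen : PrincipalGeneratedByIntegral A (IsLocalRing.residue A) (M * q))

/-- **the supersingular points**: TRACK 7's nodes of the chart `U` at level `M q` with their
places on `κ₁ = F̄_{Mq}` and on `κ = F̄_M`. -/
structure S36SS_Data (n : ℕ) (hn : 0 < n) where
  /-- the number of nodes -/
  s : ℕ
  /-- the nodes on the first component -/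
  e₁ : Fin s → ↥(S34M_chart M q A n hn).Rb₁ →ₐ[IsLocalRing.ResidueField A]
    IsLocalRing.ResidueField A
  /-- the nodes on the second component -/
  e₂ : Fin s → ↥(S34M_chart M q A n hn).Rb₂ →ₐ[IsLocalRing.ResidueField A]
    IsLocalRing.ResidueField A
  hE : Function.Surjective (S34B_E e₁ e₂)
  hW1 : S34K_W (S34M_same M q hq hqM A hgen) (S34M_chart M q A n hn) 1 = S34B_W e₁ e₂
  /-- the places of the nodes on `κ₁ = F̄_{Mq}` -/
  P : Fin s → Place (IsLocalRing.ResidueField A)
    ↥(modularFunctionFieldFullC (IsLocalRing.ResidueField A) (M * q))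
  P_inj : Function.Injective P
  P_reg : ∀ i, 0 ≤ (P i).ord (S18_jbar (M * q) (IsLocalRing.ResidueField A))
  P_ker : ∀ (i : Fin s) (f : ↥(S34M_chart M q A n hn).Rb₁), e₁ i f = 0 ↔
    (f : ↥(modularFunctionFieldFullC (IsLocalRing.ResidueField A) (M * q))) = 0 ∨
      0 < (P i).ord (f : ↥(modularFunctionFieldFullC (IsLocalRing.ResidueField A) (M * q)))
  hs₁ : (s : ℤ) = (RR_genus (AlgebraicClosure ℚ) ↥(modularFunctionFieldBar (M * q)) : ℤ) + 1 -
    2 * RR_genus (IsLocalRing.ResidueField A)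
      ↥(modularFunctionFieldFullC (IsLocalRing.ResidueField A) (M * q))
  /-- the identification of the places of `κ₁ = F̄_{Mq}` and `κ = F̄_M` -/
  φ : Place (IsLocalRing.ResidueField A)
      ↥(modularFunctionFieldFullC (IsLocalRing.ResidueField A) (M * q)) ≃
    Place (IsLocalRing.ResidueField A)
      ↥(modularFunctionFieldFullC (IsLocalRing.ResidueField A) M)
  φ_ord : ∀ (v : Place (IsLocalRing.ResidueField A)
      ↥(modularFunctionFieldFullC (IsLocalRing.ResidueField A) (M * q)))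
    (y₁ : ↥(modularFunctionFieldFullC (IsLocalRing.ResidueField A) (M * q)))
    (y₂ : ↥(modularFunctionFieldFullC (IsLocalRing.ResidueField A) M)),
    (y₁ : LaurentSeries (IsLocalRing.ResidueField A)) = y₂ → (φ v).ord y₂ = v.ord y₁
  /-- the supersingular places of `κ = F̄_M` -/
  SS : Finset (Place (IsLocalRing.ResidueField A)
    ↥(modularFunctionFieldFullC (IsLocalRing.ResidueField A) M))
  mem_SS : ∀ v, v ∈ SS ↔ ∃ i, v = φ (P i)
  /-- `hSSc` of `S36RB_count` -/
  SS_reg : ∀ v ∈ SS, 0 ≤ v.ord (S18_jbar M (IsLocalRing.ResidueField A))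
  SS_card : SS.card = s
  /-- `hSS` of `S36RB_count` (with equality) -/
  hs : (SS.card : ℤ) =
    (RR_genus (AlgebraicClosure ℚ) ↥(modularFunctionFieldBar (M * q)) : ℤ) + 1 -
      2 * RR_genus (IsLocalRing.ResidueField A)
        ↥(modularFunctionFieldFullC (IsLocalRing.ResidueField A) M)

include hA in
/-- **SS-CARD**: the supersingular places exist, with `#SS = g(F_{Mq}) + 1 − 2 g(F̄_M)`. -/
theorem S36SS_data (n : ℕ) (hn : 0 < n) : Nonempty (S36SS_Data M q hq hqM A hgen n hn) := by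
  classical
  haveI : NeZero M := ⟨fun h => NeZero.ne (M * q) (by rw [h, zero_mul])⟩
  haveI : NeZero q := ⟨hq.ne_zero⟩
  haveI : IsAlgClosed (IsLocalRing.ResidueField A) := S18_residue_isAlgClosed A
  obtain ⟨s, e₁, e₂, hs, hE, hW⟩ := S34NX_nodes_of M q A hq hqM hA hgen n hn
    (S34NX_halpha M q A hq hqM hA hgen n hn) (S34NX_hbeta M q A hq hqM hA hgen n hn)
    (S34NXR_RbSpec M q hq A hA n hn) (S34NXF_finite M q hq hqM A hgen hA n hn)
  obtain ⟨s', hs', -, hfr⟩ := S34NXF_codim M q hq hqM A hgen hA n hn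
  have hss' : s = s' := hs.trans hfr
  have hk := S34VF_hk M A hq hA hqM
  haveI hfd := S34VF_finite M A hq hA hqM
  have htr := S34VF_transcendental M A (q := q)
  have hxb : S34M_xb M q A = S18_jbar (M * q) (IsLocalRing.ResidueField A) :=
    S34NXF_xb M q A
  -- the places of the nodes
  have hpl : ∀ i : Fin s, ∃ P : Place (IsLocalRing.ResidueField A)
      ↥(modularFunctionFieldFullC (IsLocalRing.ResidueField A) (M * q)),
      0 ≤ P.ord (S18_jbar (M * q) (IsLocalRing.ResidueField A)) ∧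
      ∀ f : ↥(S34M_chart M q A n hn).Rb₁, e₁ i f = 0 →
        (f : ↥(modularFunctionFieldFullC (IsLocalRing.ResidueField A) (M * q))) ≠ 0 →
        0 < P.ord (f : ↥(modularFunctionFieldFullC (IsLocalRing.ResidueField A) (M * q))) := by
    intro i
    refine S36SS_exists_place hk.principal (S18_jbar (M * q) (IsLocalRing.ResidueField A)) htr
      (S34M_chart M q A n hn).Rb₁ (fun y => ?_) (e₁ i)
    show y ∈ S34SB_reg (IsLocalRing.ResidueField A) (S34M_xb M q A) ↔ _
    rw [hxb]
    exact S34SB_mem_reg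
  choose P hPreg hPker using hpl
  have hPiff : ∀ (i : Fin s) (f : ↥(S34M_chart M q A n hn).Rb₁), e₁ i f = 0 ↔
      (f : ↥(modularFunctionFieldFullC (IsLocalRing.ResidueField A) (M * q))) = 0 ∨
        0 < (P i).ord (f : ↥(modularFunctionFieldFullC (IsLocalRing.ResidueField A) (M * q))) :=
    fun i f => S36SS_ker_iff _ (e₁ i) (P i) (hPker i) f
  have hPinj : Function.Injective P := by
    intro i j hij
    by_contra hne
    obtain ⟨p, hp⟩ := hE (fun l => if l = i then 1 else 0, 0)
    have h1 : e₁ i p.1 = 1 := by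
      have := congrFun (congrArg Prod.fst hp) i
      simpa using this
    have h2 : e₁ j p.1 = 0 := by
      have := congrFun (congrArg Prod.fst hp) j
      simpa [Ne.symm hne] using this
    have h3 := (hPiff j p.1).mp h2
    rw [← hij] at h3
    have h4 := (hPiff i p.1).mpr h3
    rw [h1] at h4
    exact one_ne_zero h4
  have hgs : (s : ℤ) =
      (RR_genus (AlgebraicClosure ℚ) ↥(modularFunctionFieldBar (M * q)) : ℤ) + 1 -
        2 * RR_genus (IsLocalRing.ResidueField A)
          ↥(modularFunctionFieldFullC (IsLocalRing.ResidueField A) (M * q)) := by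
    rw [hss', hs']
  obtain ⟨φ, hφ⟩ := S36SS_transport (S34VF_FkN_res M A hq hA)
  have hinj' : Function.Injective (fun i => φ (P i)) := fun a b h => hPinj (φ.injective h)
  have hcard : (Finset.univ.image (fun i => φ (P i))).card = s := by
    rw [Finset.card_image_of_injective _ hinj', Finset.card_univ, Fintype.card_fin]
  refine ⟨{
    s := s
    e₁ := e₁
    e₂ := e₂
    hE := hE
    hW1 := hW
    P := P
    P_inj := hPinj
    P_reg := hPreg
    P_ker := hPiff
    hs₁ := hgs
    φ := φ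
    φ_ord := hφ
    SS := Finset.univ.image (fun i => φ (P i))
    mem_SS := ?_
    SS_reg := ?_
    SS_card := hcard
    hs := ?_ }⟩
  · intro v
    rw [Finset.mem_image]
    constructor
    · rintro ⟨i, -, rfl⟩
      exact ⟨i, rfl⟩
    · rintro ⟨i, rfl⟩
      exact ⟨i, Finset.mem_univ i, rfl⟩
  · intro v hv
    rw [Finset.mem_image] at hv
    obtain ⟨i, -, rfl⟩ := hv
    rw [hφ (P i) (S18_jbar (M * q) (IsLocalRing.ResidueField A))
      (S18_jbar M (IsLocalRing.ResidueField A)) rfl]
    exact hPreg i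
  · rw [hcard, hgs, S34VF_genus M A hq hA]

end nodes

section node

variable {M q : ℕ} [NeZero M] [NeZero q] [NeZero (M * q)] {hq : q.Prime} {hqM : ¬ q ∣ M}
  {A : ValuationSubring (AlgebraicClosure ℚ)} (hA : A.LiesOverPrime q)
  {hgen : PrincipalGeneratedByIntegral A (IsLocalRing.residue A) (M * q)}
  {n : ℕ} {hn : 0 < n}

/-- `Fr` (`t ↦ t^q`) preserves the functions regular off the cusps. -/
theorem S36SS_Fr_reg (hq : q.Prime) (hqM : ¬ q ∣ M)
    {y : ↥(modularFunctionFieldFullC (IsLocalRing.ResidueField A) M)}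
    (hy : y ∈ S34SB_reg (IsLocalRing.ResidueField A)
      (S18_jbar M (IsLocalRing.ResidueField A))) :
    S34NX_Fr M q A hq hA y ∈
      S34SB_reg (IsLocalRing.ResidueField A) (S18_jbar M (IsLocalRing.ResidueField A)) := by
  rw [S34NX_Fr_eq]
  exact Subalgebra.pow_mem _ (S34NX_tau_reg M q A hq hqM hA hy) q

/-- **the crossing at the nodes, via `α`**: `e₁ i (ι y) = e₂ i (ι (Fr y))`. -/
theorem S36SS_cross_alpha (D : S36SS_Data M q hq hqM A hgen n hn) (i : Fin D.s)
    (y : ↥(modularFunctionFieldFullC (IsLocalRing.ResidueField A) M))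
    (hy : y ∈ S34SB_reg (IsLocalRing.ResidueField A)
      (S18_jbar M (IsLocalRing.ResidueField A))) :
    ∃ (h₁ : S34NX_iota M q A hq hA y ∈ (S34M_chart M q A n hn).Rb₁)
      (h₂ : S34NX_iota M q A hq hA (S34NX_Fr M q A hq hA y) ∈ (S34M_chart M q A n hn).Rb₂),
      D.e₁ i ⟨_, h₁⟩ = D.e₂ i ⟨_, h₂⟩ := by
  obtain ⟨hR₁, hR₁', hR₂, hR₂'⟩ := S34NXR_RbSpec M q hq A hA n hn
  obtain ⟨f, hfB, hfy⟩ := S34NX_honto M q A hq hqM hA y hy
  obtain ⟨h, hB, hred⟩ := S34NX_halpha M q A hq hqM hA hgen n hn f hfB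
  rw [hfy] at hred
  have m₁ := hR₁' _ hy
  have m₂ := hR₂' _ (S36SS_Fr_reg hA hq hqM hy)
  refine ⟨m₁, m₂, ?_⟩
  have hW : ((⟨_, m₁⟩, ⟨_, m₂⟩) :
      ↥(S34M_chart M q A n hn).Rb₁ × ↥(S34M_chart M q A n hn).Rb₂) ∈
      S34K_W (S34M_same M q hq hqM A hgen) (S34M_chart M q A n hn) 1 := by
    rw [S34K_mem_W_one]
    exact ⟨⟨_, h⟩, hB, hred⟩
  rw [D.hW1, S34B_mem_W] at hW
  exact hW i

/-- **the crossing at the nodes, via `β`**: `e₁ i (ι (Fr y)) = e₂ i (ι y)`. -/
theorem S36SS_cross_beta (D : S36SS_Data M q hq hqM A hgen n hn) (i : Fin D.s)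
    (y : ↥(modularFunctionFieldFullC (IsLocalRing.ResidueField A) M))
    (hy : y ∈ S34SB_reg (IsLocalRing.ResidueField A)
      (S18_jbar M (IsLocalRing.ResidueField A))) :
    ∃ (h₁ : S34NX_iota M q A hq hA (S34NX_Fr M q A hq hA y) ∈ (S34M_chart M q A n hn).Rb₁)
      (h₂ : S34NX_iota M q A hq hA y ∈ (S34M_chart M q A n hn).Rb₂),
      D.e₁ i ⟨_, h₁⟩ = D.e₂ i ⟨_, h₂⟩ := by
  obtain ⟨hR₁, hR₁', hR₂, hR₂'⟩ := S34NXR_RbSpec M q hq A hA n hn
  obtain ⟨f, hfB, hfy⟩ := S34NX_honto M q A hq hqM hA y hy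
  obtain ⟨h, hB, hred⟩ := S34NX_hbeta M q A hq hqM hA hgen n hn f hfB
  rw [hfy] at hred
  have m₁ := hR₁' _ (S36SS_Fr_reg hA hq hqM hy)
  have m₂ := hR₂' _ hy
  refine ⟨m₁, m₂, ?_⟩
  have hW : ((⟨_, m₁⟩, ⟨_, m₂⟩) :
      ↥(S34M_chart M q A n hn).Rb₁ × ↥(S34M_chart M q A n hn).Rb₂) ∈
      S34K_W (S34M_same M q hq hqM A hgen) (S34M_chart M q A n hn) 1 := by
    rw [S34K_mem_W_one]
    exact ⟨⟨_, h⟩, hB, hred⟩
  rw [D.hW1, S34B_mem_W] at hW
  exact hW i

/-- **the node equation on the first component**: `e₁ i (ι (y − Fr (Fr y))) = 0`. -/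
theorem S36SS_node_e (D : S36SS_Data M q hq hqM A hgen n hn) (i : Fin D.s)
    (y : ↥(modularFunctionFieldFullC (IsLocalRing.ResidueField A) M))
    (hy : y ∈ S34SB_reg (IsLocalRing.ResidueField A)
      (S18_jbar M (IsLocalRing.ResidueField A))) :
    ∃ h : S34NX_iota M q A hq hA (y - S34NX_Fr M q A hq hA (S34NX_Fr M q A hq hA y)) ∈
        (S34M_chart M q A n hn).Rb₁,
      D.e₁ i ⟨_, h⟩ = 0 := by
  obtain ⟨hR₁, hR₁', hR₂, hR₂'⟩ := S34NXR_RbSpec M q hq A hA n hn
  have hFy := S36SS_Fr_reg hA hq hqM hy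
  have hFFy := S36SS_Fr_reg hA hq hqM hFy
  obtain ⟨a₁, a₂, ha⟩ := S36SS_cross_alpha hA D i y hy
  obtain ⟨b₁, b₂, hb⟩ := S36SS_cross_beta hA D i _ hFy
  have m₀ := hR₁' _ (Subalgebra.sub_mem _ hy hFFy)
  refine ⟨m₀, ?_⟩
  have e : (⟨_, m₀⟩ : ↥(S34M_chart M q A n hn).Rb₁) =
      ⟨_, a₁⟩ - ⟨_, b₁⟩ := by
    apply Subtype.ext
    show S34NX_iota M q A hq hA (y - S34NX_Fr M q A hq hA (S34NX_Fr M q A hq hA y)) =
      S34NX_iota M q A hq hA y - S34NX_iota M q A hq hA
        (S34NX_Fr M q A hq hA (S34NX_Fr M q A hq hA y))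
    rw [map_sub]
  rw [e, map_sub, ha, hb, sub_self]

/-- **the node equation at the supersingular places**: for `y` regular off the cusps,
`y − Fr (Fr y)` vanishes at every `v ∈ SS` (`Fr` = the substitution `t ↦ t^q`). -/
theorem S36SS_node (D : S36SS_Data M q hq hqM A hgen n hn)
    (v : Place (IsLocalRing.ResidueField A)
      ↥(modularFunctionFieldFullC (IsLocalRing.ResidueField A) M)) (hv : v ∈ D.SS)
    (y : ↥(modularFunctionFieldFullC (IsLocalRing.ResidueField A) M))
    (hy : y ∈ S34SB_reg (IsLocalRing.ResidueField A)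
      (S18_jbar M (IsLocalRing.ResidueField A))) :
    y = S34NX_Fr M q A hq hA (S34NX_Fr M q A hq hA y) ∨
      0 < v.ord (y - S34NX_Fr M q A hq hA (S34NX_Fr M q A hq hA y)) := by
  obtain ⟨i, rfl⟩ := (D.mem_SS v).mp hv
  obtain ⟨h, he⟩ := S36SS_node_e hA D i y hy
  rcases (D.P_ker i ⟨_, h⟩).mp he with h0 | h0
  · left
    have h1 : S34NX_iota M q A hq hA
        (y - S34NX_Fr M q A hq hA (S34NX_Fr M q A hq hA y)) = 0 := h0
    have h2 := S34NX_iota_injective M q A hq hA (h1.trans (map_zero _).symm)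
    exact sub_eq_zero.mp h2
  · right
    rw [D.φ_ord (D.P i) (S34NX_iota M q A hq hA
      (y - S34NX_Fr M q A hq hA (S34NX_Fr M q A hq hA y))) _ (S34NX_iota_coe M q A hq hA _)]
    exact h0

/-- the node equation for a **rational** function (`Fr y = y ^ q`, i.e. `𝔽_q`-coefficients):
`y − y ^ (q²)` vanishes at every `v ∈ SS`. -/
theorem S36SS_node_rat (D : S36SS_Data M q hq hqM A hgen n hn)
    (v : Place (IsLocalRing.ResidueField A)
      ↥(modularFunctionFieldFullC (IsLocalRing.ResidueField A) M)) (hv : v ∈ D.SS)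
    (y : ↥(modularFunctionFieldFullC (IsLocalRing.ResidueField A) M))
    (hy : y ∈ S34SB_reg (IsLocalRing.ResidueField A)
      (S18_jbar M (IsLocalRing.ResidueField A)))
    (hFr : S34NX_Fr M q A hq hA y = y ^ q) :
    y = y ^ (q ^ 2) ∨ 0 < v.ord (y - y ^ (q ^ 2)) := by
  have h := S36SS_node hA D v hv y hy
  have e : S34NX_Fr M q A hq hA (S34NX_Fr M q A hq hA y) = y ^ (q ^ 2) := by
    rw [hFr, map_pow, hFr, ← pow_mul, sq]
  rwa [e] at h

/-- **the supersingular values lie in `𝔽_{q²}`**: if `y` is rational (`Fr y = y ^ q`), regular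
off the cusps, and `y ≡ c` at `v ∈ SS`, then `c ^ (q²) = c` (the hypothesis `hc` of
`S36OC_simple_zero`). -/
theorem S36SS_const (D : S36SS_Data M q hq hqM A hgen n hn)
    (v : Place (IsLocalRing.ResidueField A)
      ↥(modularFunctionFieldFullC (IsLocalRing.ResidueField A) M)) (hv : v ∈ D.SS)
    (y : ↥(modularFunctionFieldFullC (IsLocalRing.ResidueField A) M))
    (hy : y ∈ S34SB_reg (IsLocalRing.ResidueField A)
      (S18_jbar M (IsLocalRing.ResidueField A)))
    (hFr : S34NX_Fr M q A hq hA y = y ^ q) (c : IsLocalRing.ResidueField A)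
    (hc : 0 < v.ord (y - algebraMap (IsLocalRing.ResidueField A)
      ↥(modularFunctionFieldFullC (IsLocalRing.ResidueField A) M) c)) :
    c ^ (q ^ 2) = c :=
  S36SS_const_of_pos v (q ^ 2) hc (S36SS_node_rat hA D v hv y hy hFr)

end node

end Fermat.Agent.S36
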