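import Mathlib
import Fermat.Agent.S36.SSCard
import Fermat.Agent.S36.Nodal3Pkg
import Fermat.Agent.S34.NodalChart
import Fermat.Agent.S34.ValWire
import Fermat.Agent.S34.ValTwo

/-!
# TRACK 10 (S36), package NODE-SYM (helper3 for helper14), prefix `S36N3S_`

The fibre ring `W' = W¹` of the chart `U` at level `M q` is stable under the swap
`(a, b) ↦ (b, a)` (Atkin–Lehner `w_q`: `O₂ = w_q⁻¹ O₁`, `red₂ f = red₁ (w_q f)`, `w_q ∘ w_q = id`,
and `w_q` preserves the functions regular off the cusps, as `w_q j = j(qz)` is regular wherever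
`j` is).  Hence the second-branch nodes `e₂ i` are the first-branch nodes `e₁ j` in another
order (`S36N3_nodes_symm`).

* `S36N3S_reg_stable` — a semilinear automorphism `g` with `g • x` regular off the poles of `x`
  preserves `S34SB_reg K x`;
* `S36N3S_swap_gen` — the swap on `red (O₁ ∩ O₂)` for the pair `(G, G ∘ w)`, `w ∘ w = id`;
* `S36N3S_wq_reg` — `w_q` preserves the chart `{j ≠ ∞}` of level `M q`;
* `S36N3S_Rb` — `Rb₁ = Rb₂` for the canonical chart;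
* `S36N3S_swap` — **the swap** on `W¹ = S34K_W … 1`;
* `S36N3S_Q_mem`, `S36N3S_P_mem` — every `e₂ i` is some `e₁ j` and conversely;
* `S36N3S_zero_snd`, `S36N3S_zero_fst` — `a` vanishing at all `e₁ i` ⇒ `(0, a) ∈ W¹`,
  `(a, 0) ∈ W¹`.
-/

set_option autoImplicit false
set_option synthInstance.maxHeartbeats 400000
set_option maxHeartbeats 1000000
set_option linter.unusedSectionVars false
set_option linter.style.haveILetI false

open AlgebraicCurve IntermediateField ModularCurve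

noncomputable section

namespace Fermat.Agent.S36

open Fermat.Agent.S24 Fermat.Agent.S18 Fermat.Agent.S34

section generic

variable {K F : Type*} [Field K] [Field F] [Algebra K F]

/-- a semilinear automorphism `g` with `g • x` regular off the poles of `x` preserves the
functions regular off the poles of `x`. -/
theorem S36N3S_reg_stable (g : SemilinearAut K F) {x : F} (hx : g • x ∈ S34SB_reg K x) {y : F}
    (hy : y ∈ S34SB_reg K x) : g • y ∈ S34SB_reg K x := by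
  rw [S34SB_mem_reg] at hx hy ⊢
  intro Q hQ
  have h1 : (g⁻¹ • Q).ord x = Q.ord (g • x) := by
    have := SemilinearAut.ord_smul g (g⁻¹ • Q) x
    rw [smul_inv_smul] at this
    exact this.symm
  have hgx : 0 ≤ Q.ord (g • x) := S36SS_ord_nonneg_of_mem Q (hx Q hQ)
  have h2 := hy (g⁻¹ • Q) (by rw [h1]; exact hgx)
  rw [SemilinearAut.smul_toValuationSubring,
    ValuationSubring.mem_pointwise_smul_iff_inv_smul_mem, inv_inv] at h2
  exact h2

variable {L E k Fk : Type*} [Field L] [Field E] [Algebra L E] [Field k] [Field Fk]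
  [Algebra k Fk]

/-- **the swap, generic form**: for the pair `(G, G ∘ w)` with `w ∘ w = id`, `w` maps
`O₁ ∩ O₂` to itself and swaps the two reductions. -/
theorem S36N3S_swap_gen (G : S18_Gauss L E k Fk) (w : E ≃ₐ[L] E) (hww : ∀ f, w (w f) = f)
    (f : S34P_O2 G.toVal (S34V_comap G w).toVal) :
    ∃ h : w (f : E) ∈ S34P_O2 G.toVal (S34V_comap G w).toVal,
      S34P_red G.toVal (S34V_comap G w).toVal ⟨w (f : E), h⟩ =
        ((S34P_red G.toVal (S34V_comap G w).toVal f).2,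
          (S34P_red G.toVal (S34V_comap G w).toVal f).1) := by
  have hf1 : (f : E) ∈ G.O := f.2.1
  have hf2 : w (f : E) ∈ G.O := (S34V_mem_comap_O G w).1 f.2.2
  have hf3 : w (f : E) ∈ (S34V_comap G w).O :=
    (S34V_mem_comap_O G w).2 (by rw [hww]; exact hf1)
  refine ⟨⟨hf2, hf3⟩, Prod.ext rfl ?_⟩
  show G.red ⟨w (w (f : E)), _⟩ = G.red ⟨(f : E), hf1⟩
  exact congrArg G.red (Subtype.ext (hww f))

end generic

section canon

variable (M q : ℕ) [NeZero (M * q)] (hq : q.Prime) (hqM : ¬ q ∣ M)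
  (A : ValuationSubring (AlgebraicClosure ℚ))
  (hgen : PrincipalGeneratedByIntegral A (IsLocalRing.residue A) (M * q))

/-- `w_q` preserves the functions of level `M q` regular off the cusps. -/
theorem S36N3S_wq_reg {f : ↥(modularFunctionFieldBar (M * q))}
    (hf : f ∈ S34SB_reg (AlgebraicClosure ℚ) (jB (M * q))) :
    S34DF_wq M q hq hqM f ∈ S34SB_reg (AlgebraicClosure ℚ) (jB (M * q)) := by
  haveI : NeZero (q * 1) := ⟨by rw [mul_one]; exact hq.ne_zero⟩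
  have hx : (SemilinearAut.ofAlgAut (S34DF_wq M q hq hqM) :
      SemilinearAut (AlgebraicClosure ℚ) ↥(modularFunctionFieldBar (M * q))) • jB (M * q) ∈
      S34SB_reg (AlgebraicClosure ℚ) (jB (M * q)) := by
    rw [SemilinearAut.ofAlgAut_smul, S34VW_wq_jB M q hq hqM]
    exact S34NC_jBar_mem_reg (M * q) (q * 1) _
  have := S36N3S_reg_stable _ hx hf
  rwa [SemilinearAut.ofAlgAut_smul] at this

include hq in
/-- the two coordinate rings of the canonical chart coincide. -/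
theorem S36N3S_Rb (n : ℕ) (hn : 0 < n) :
    (S34M_chart M q A n hn).Rb₂ = (S34M_chart M q A n hn).Rb₁ :=
  S34SB_reg_pow (S34M_xb M q A) hq.pos

/-- **the swap** on the fibre ring `W¹` of the canonical chart at level `M q`. -/
theorem S36N3S_swap (n : ℕ) (hn : 0 < n)
    (m : ↥(S34M_chart M q A n hn).Rb₁ × ↥(S34M_chart M q A n hn).Rb₂)
    (hm : m ∈ S34K_W (S34M_same M q hq hqM A hgen) (S34M_chart M q A n hn) 1) :
    ∃ (h₁ : (m.2 : ↥(modularFunctionFieldFullC (IsLocalRing.ResidueField A) (M * q))) ∈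
        (S34M_chart M q A n hn).Rb₁)
      (h₂ : (m.1 : ↥(modularFunctionFieldFullC (IsLocalRing.ResidueField A) (M * q))) ∈
        (S34M_chart M q A n hn).Rb₂),
      ((⟨_, h₁⟩, ⟨_, h₂⟩) :
        ↥(S34M_chart M q A n hn).Rb₁ × ↥(S34M_chart M q A n hn).Rb₂) ∈
        S34K_W (S34M_same M q hq hqM A hgen) (S34M_chart M q A n hn) 1 := by
  have hRb := S36N3S_Rb M q hq A n hn
  have h₁ : (m.2 : ↥(modularFunctionFieldFullC (IsLocalRing.ResidueField A) (M * q))) ∈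
      (S34M_chart M q A n hn).Rb₁ := (SetLike.ext_iff.mp hRb _).mp m.2.2
  have h₂ : (m.1 : ↥(modularFunctionFieldFullC (IsLocalRing.ResidueField A) (M * q))) ∈
      (S34M_chart M q A n hn).Rb₂ := (SetLike.ext_iff.mp hRb _).mpr m.1.2
  refine ⟨h₁, h₂, ?_⟩
  rw [S34K_mem_W_one] at hm ⊢
  obtain ⟨f, hfB, hfm⟩ := hm
  obtain ⟨h, hred⟩ := S36N3S_swap_gen (S18_gaussModL (M * q) A hgen) (S34DF_wq M q hq hqM)
    (S34DF_wq_wq M q hq hqM) f
  refine ⟨⟨_, h⟩, S36N3S_wq_reg M q hq hqM hfB, ?_⟩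
  have hred' : S34P_red (S34M_T1 M q A hgen) (S34M_T2 M q hq hqM A hgen)
      ⟨S34DF_wq M q hq hqM (f : ↥(modularFunctionFieldBar (M * q))), h⟩ =
      ((S34P_red (S34M_T1 M q A hgen) (S34M_T2 M q hq hqM A hgen) f).2,
        (S34P_red (S34M_T1 M q A hgen) (S34M_T2 M q hq hqM A hgen) f).1) := hred
  rw [hred', hfm]

variable {M q hq hqM A hgen}

/-- the inclusion `Rb₁ → Rb₂` (they are equal). -/
def S36N3S_cast (n : ℕ) (hn : 0 < n) (hq : q.Prime) :
    ↥(S34M_chart M q A n hn).Rb₁ →ₐ[IsLocalRing.ResidueField A]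
      ↥(S34M_chart M q A n hn).Rb₂ :=
  Subalgebra.inclusion (le_of_eq (S36N3S_Rb M q hq A n hn).symm)

theorem S36N3S_cast_coe (n : ℕ) (hn : 0 < n) (hq : q.Prime)
    (b : ↥(S34M_chart M q A n hn).Rb₁) :
    ((S36N3S_cast n hn hq b : ↥(S34M_chart M q A n hn).Rb₂) :
      ↥(modularFunctionFieldFullC (IsLocalRing.ResidueField A) (M * q))) = b :=
  Subalgebra.coe_inclusion _ b

theorem S36N3S_cast_mk (n : ℕ) (hn : 0 < n) (hq : q.Prime)
    (f : ↥(modularFunctionFieldFullC (IsLocalRing.ResidueField A) (M * q)))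
    (h₁ : f ∈ (S34M_chart M q A n hn).Rb₁) (h₂ : f ∈ (S34M_chart M q A n hn).Rb₂) :
    S36N3S_cast n hn hq ⟨f, h₁⟩ = ⟨f, h₂⟩ :=
  Subtype.ext (S36N3S_cast_coe n hn hq ⟨f, h₁⟩)

/-- the second-branch nodes in the coordinates of the first branch. -/
def S36N3S_Q {n : ℕ} {hn : 0 < n} (D : S36SS_Data M q hq hqM A hgen n hn) (i : Fin D.s) :
    ↥(S34M_chart M q A n hn).Rb₁ →ₐ[IsLocalRing.ResidueField A] IsLocalRing.ResidueField A :=
  (D.e₂ i).comp (S36N3S_cast n hn hq)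

theorem S36N3S_Q_apply {n : ℕ} {hn : 0 < n} (D : S36SS_Data M q hq hqM A hgen n hn)
    (i : Fin D.s) (b : ↥(S34M_chart M q A n hn).Rb₁) :
    S36N3S_Q D i b = D.e₂ i (S36N3S_cast n hn hq b) :=
  AlgHom.comp_apply _ _ _

theorem S36N3S_Q_mk {n : ℕ} {hn : 0 < n} (D : S36SS_Data M q hq hqM A hgen n hn)
    (i : Fin D.s) (f : ↥(modularFunctionFieldFullC (IsLocalRing.ResidueField A) (M * q)))
    (h₁ : f ∈ (S34M_chart M q A n hn).Rb₁) (h₂ : f ∈ (S34M_chart M q A n hn).Rb₂) :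
    S36N3S_Q D i ⟨f, h₁⟩ = D.e₂ i ⟨f, h₂⟩ := by
  rw [S36N3S_Q_apply, S36N3S_cast_mk n hn hq f h₁ h₂]

/-- the swap in node form. -/
theorem S36N3S_swap_nodes {n : ℕ} {hn : 0 < n} (D : S36SS_Data M q hq hqM A hgen n hn)
    (a b : ↥(S34M_chart M q A n hn).Rb₁) (hab : ∀ i, D.e₁ i a = S36N3S_Q D i b) (i : Fin D.s) :
    D.e₁ i b = S36N3S_Q D i a := by
  have hmem : ((a, S36N3S_cast n hn hq b) :
      ↥(S34M_chart M q A n hn).Rb₁ × ↥(S34M_chart M q A n hn).Rb₂) ∈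
      S34K_W (S34M_same M q hq hqM A hgen) (S34M_chart M q A n hn) 1 := by
    rw [D.hW1, S34B_mem_W]
    intro l
    have := hab l
    rw [S36N3S_Q_apply] at this
    exact this
  obtain ⟨h₁, h₂, h⟩ := S36N3S_swap M q hq hqM A hgen n hn _ hmem
  rw [D.hW1, S34B_mem_W] at h
  have h3 := h i
  have eb : (⟨((S36N3S_cast n hn hq b : ↥(S34M_chart M q A n hn).Rb₂) :
      ↥(modularFunctionFieldFullC (IsLocalRing.ResidueField A) (M * q))), h₁⟩ :
      ↥(S34M_chart M q A n hn).Rb₁) = b := Subtype.ext (S36N3S_cast_coe n hn hq b)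
  have ea : (⟨(a : ↥(modularFunctionFieldFullC (IsLocalRing.ResidueField A) (M * q))), h₂⟩ :
      ↥(S34M_chart M q A n hn).Rb₂) = S36N3S_cast n hn hq a :=
    (S36N3S_cast_mk n hn hq _ a.2 h₂).symm
  have h4 : D.e₁ i ⟨((S36N3S_cast n hn hq b : ↥(S34M_chart M q A n hn).Rb₂) :
      ↥(modularFunctionFieldFullC (IsLocalRing.ResidueField A) (M * q))), h₁⟩ =
      D.e₂ i ⟨(a : ↥(modularFunctionFieldFullC (IsLocalRing.ResidueField A) (M * q))), h₂⟩ := h3
  rw [eb, ea] at h4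
  rw [S36N3S_Q_apply]
  exact h4

theorem S36N3S_nodes_range {n : ℕ} {hn : 0 < n} (D : S36SS_Data M q hq hqM A hgen n hn) :
    Set.range D.e₁ = Set.range (S36N3S_Q D) :=
  S36N3_nodes_symm D.e₁ (S36N3S_Q D) {p | ∀ i, D.e₁ i p.1 = S36N3S_Q D i p.2}
    (fun _ _ => Iff.rfl) (fun a b hab => S36N3S_swap_nodes D a b hab)

/-- **every second-branch node is a first-branch node.** -/
theorem S36N3S_Q_mem {n : ℕ} {hn : 0 < n} (D : S36SS_Data M q hq hqM A hgen n hn)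
    (i : Fin D.s) :
    ∃ j, ∀ (f : ↥(modularFunctionFieldFullC (IsLocalRing.ResidueField A) (M * q)))
      (h₁ : f ∈ (S34M_chart M q A n hn).Rb₁) (h₂ : f ∈ (S34M_chart M q A n hn).Rb₂),
      D.e₂ i ⟨f, h₂⟩ = D.e₁ j ⟨f, h₁⟩ := by
  have h : S36N3S_Q D i ∈ Set.range D.e₁ := by
    rw [S36N3S_nodes_range D]
    exact ⟨i, rfl⟩
  obtain ⟨j, hj⟩ := h
  refine ⟨j, fun f h₁ h₂ => ?_⟩
  rw [← S36N3S_Q_mk D i f h₁ h₂, ← hj]

/-- **every first-branch node is a second-branch node.** -/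
theorem S36N3S_P_mem {n : ℕ} {hn : 0 < n} (D : S36SS_Data M q hq hqM A hgen n hn)
    (i : Fin D.s) :
    ∃ j, ∀ (f : ↥(modularFunctionFieldFullC (IsLocalRing.ResidueField A) (M * q)))
      (h₁ : f ∈ (S34M_chart M q A n hn).Rb₁) (h₂ : f ∈ (S34M_chart M q A n hn).Rb₂),
      D.e₁ i ⟨f, h₁⟩ = D.e₂ j ⟨f, h₂⟩ := by
  have h : D.e₁ i ∈ Set.range (S36N3S_Q D) := by
    rw [← S36N3S_nodes_range D]
    exact ⟨i, rfl⟩
  obtain ⟨j, hj⟩ := h
  refine ⟨j, fun f h₁ h₂ => ?_⟩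
  rw [← S36N3S_Q_mk D j f h₁ h₂, hj]

/-- `a` vanishing at all first-branch nodes ⇒ `(a, 0) ∈ W¹`. -/
theorem S36N3S_zero_fst {n : ℕ} {hn : 0 < n} (D : S36SS_Data M q hq hqM A hgen n hn)
    (a : ↥(modularFunctionFieldFullC (IsLocalRing.ResidueField A) (M * q)))
    (h₁ : a ∈ (S34M_chart M q A n hn).Rb₁) (ha : ∀ i, D.e₁ i ⟨a, h₁⟩ = 0) :
    ((⟨a, h₁⟩, 0) : ↥(S34M_chart M q A n hn).Rb₁ × ↥(S34M_chart M q A n hn).Rb₂) ∈
      S34K_W (S34M_same M q hq hqM A hgen) (S34M_chart M q A n hn) 1 := by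
  rw [D.hW1, S34B_mem_W]
  intro i
  have h0 : D.e₂ i 0 = 0 := map_zero _
  exact (ha i).trans h0.symm

/-- `a` vanishing at all first-branch nodes ⇒ `(0, a) ∈ W¹` (node symmetry). -/
theorem S36N3S_zero_snd {n : ℕ} {hn : 0 < n} (D : S36SS_Data M q hq hqM A hgen n hn)
    (a : ↥(modularFunctionFieldFullC (IsLocalRing.ResidueField A) (M * q)))
    (h₁ : a ∈ (S34M_chart M q A n hn).Rb₁) (h₂ : a ∈ (S34M_chart M q A n hn).Rb₂)
    (ha : ∀ i, D.e₁ i ⟨a, h₁⟩ = 0) :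
    ((0, ⟨a, h₂⟩) : ↥(S34M_chart M q A n hn).Rb₁ × ↥(S34M_chart M q A n hn).Rb₂) ∈
      S34K_W (S34M_same M q hq hqM A hgen) (S34M_chart M q A n hn) 1 := by
  rw [D.hW1, S34B_mem_W]
  intro i
  obtain ⟨j, hj⟩ := S36N3S_Q_mem D i
  have h0 : D.e₁ i 0 = 0 := map_zero _
  exact h0.trans ((hj a h₁ h₂).trans (ha j)).symm

end canon

end Fermat.Agent.S36
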