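import Mathlib
import Fermat.Agent.S36.Nodal3Sym
import Fermat.Agent.S34.Chart
import Fermat.Agent.S34.SatBridge
import Fermat.Agent.S34.NodalX0Fin

/-!
# TRACK 10 (S36), package NODE-EV (helper3 for helper12), prefix `S36N3E_`

The extended evaluations `S34CH_ev` (values at the nodes of functions of the chart
`U' = {x ≠ γ}`) vanish on the functions vanishing at the supersingular places:

* `S36N3E_ev_zero_gen` — generic: `e` = evaluation at a place `P` of the coordinate ring `R`,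
  `ρ ^ m * a ∈ R`, `a` vanishing at `P` ⇒ `S34CH_ev R ρ hρ e a = 0`;
* `S36N3E_P_reg` — the functions of `Rb₁` are regular at the places `D.P i`;
* `S36N3E_e₂_ker` — node symmetry: every `D.e₂ i` is the evaluation at some `D.P j`;
* `S36N3E_ev₁_zero`, `S36N3E_ev₂_zero` — the vanishing for the two branches;
* `S36N3E_hev`, `S36N3E_main` — the hypotheses `ha`, `hev` of `S36NU_lift_q` (helper12) for a
  function `a` regular off the zeros of `x₂ − γ` and vanishing at the supersingular places;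
* `S36N3E_vanish_of_SS` — the vanishing at the `D.P i` from the vanishing on `D.SS` (level `M`).
-/

set_option autoImplicit false
set_option synthInstance.maxHeartbeats 400000
set_option maxHeartbeats 1000000
set_option linter.unusedSectionVars false
set_option linter.style.haveILetI false

open AlgebraicCurve IntermediateField ModularCurve

noncomputable section

namespace Fermat.Agent.S36

open Fermat.Agent.S24 Fermat.Agent.S18 Fermat.Agent.S34

section generic

variable {k F : Type*} [Field k] [Field F] [Algebra k F]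

/-- the extended evaluation at a node vanishes on the functions vanishing at its place. -/
theorem S36N3E_ev_zero_gen (R : Subalgebra k F) (ρ : F) (hρ : ρ ∈ R) (e : ↥R →ₐ[k] k)
    (he : e ⟨ρ, hρ⟩ ≠ 0) (P : Place k F)
    (hP : ∀ f : ↥R, e f = 0 ↔ (f : F) = 0 ∨ 0 < P.ord (f : F))
    (hreg : ∀ f ∈ R, f ∈ P.toValuationSubring)
    {a : F} {m : ℕ} (hm : ρ ^ m * a ∈ R) (ha : a = 0 ∨ 0 < P.ord a) :
    S34CH_ev R ρ hρ e a = 0 := by
  rw [S34CH_ev_eq R ρ hρ e he hm]
  have h0 : e ⟨ρ ^ m * a, hm⟩ = 0 := by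
    rw [hP]
    rcases ha with h | h
    · left
      show ρ ^ m * a = 0
      rw [h, mul_zero]
    · by_cases h0 : ρ ^ m * a = 0
      · exact Or.inl h0
      · right
        show 0 < P.ord (ρ ^ m * a)
        have hρ0 : ρ ^ m ≠ 0 := left_ne_zero_of_mul h0
        have ha0 : a ≠ 0 := right_ne_zero_of_mul h0
        rw [P.ord_mul hρ0 ha0]
        have := S36SS_ord_nonneg_of_mem P (hreg _ (R.pow_mem hρ m))
        omega
  rw [h0, zero_div]

end generic

section canon

variable {M q : ℕ} [NeZero M] [NeZero q] [NeZero (M * q)] {hq : q.Prime} {hqM : ¬ q ∣ M}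
  {A : ValuationSubring (AlgebraicClosure ℚ)} (hA : A.LiesOverPrime q)
  {hgen : PrincipalGeneratedByIntegral A (IsLocalRing.residue A) (M * q)}
  {n : ℕ} {hn : 0 < n}

/-- the functions of `Rb₁ = reg x̄` are regular at the places of the nodes. -/
theorem S36N3E_P_reg (D : S36SS_Data M q hq hqM A hgen n hn) (i : Fin D.s)
    (f : ↥(modularFunctionFieldFullC (IsLocalRing.ResidueField A) (M * q)))
    (hf : f ∈ S34SB_reg (IsLocalRing.ResidueField A) (S34M_xb M q A)) :
    f ∈ (D.P i).toValuationSubring := by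
  rw [S34SB_mem_reg] at hf
  refine hf (D.P i) ?_
  rw [S34NXF_xb]
  exact D.P_reg i

/-- `reg (x̄ ^ q) = reg x̄`, membership form. -/
theorem S36N3E_reg_pow (hq : q.Prime)
    {f : ↥(modularFunctionFieldFullC (IsLocalRing.ResidueField A) (M * q))}
    (hf : f ∈ S34SB_reg (IsLocalRing.ResidueField A) (S34M_xb M q A ^ q)) :
    f ∈ S34SB_reg (IsLocalRing.ResidueField A) (S34M_xb M q A) := by
  rw [S34SB_reg_pow (S34M_xb M q A) hq.pos] at hf
  exact hf

/-- the first-branch nodes are the evaluations at the places `D.P i` (`= D.P_ker`, on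
`reg x̄`). -/
theorem S36N3E_e₁_ker (D : S36SS_Data M q hq hqM A hgen n hn) (i : Fin D.s)
    (f : ↥(S34SB_reg (IsLocalRing.ResidueField A) (S34M_xb M q A))) :
    D.e₁ i f = 0 ↔
      (f : ↥(modularFunctionFieldFullC (IsLocalRing.ResidueField A) (M * q))) = 0 ∨
        0 < (D.P i).ord
          (f : ↥(modularFunctionFieldFullC (IsLocalRing.ResidueField A) (M * q))) :=
  D.P_ker i f

/-- **node symmetry, place form**: every second-branch node `D.e₂ i` is the evaluation at a
place `D.P j` of a first-branch node. -/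
theorem S36N3E_e₂_ker (D : S36SS_Data M q hq hqM A hgen n hn) (i : Fin D.s) :
    ∃ j, ∀ f : ↥(S34SB_reg (IsLocalRing.ResidueField A) (S34M_xb M q A ^ q)),
      D.e₂ i f = 0 ↔
        (f : ↥(modularFunctionFieldFullC (IsLocalRing.ResidueField A) (M * q))) = 0 ∨
          0 < (D.P j).ord
            (f : ↥(modularFunctionFieldFullC (IsLocalRing.ResidueField A) (M * q))) := by
  obtain ⟨j, hj⟩ := S36N3S_Q_mem D i
  refine ⟨j, fun f => ?_⟩
  have h₁ : (f : ↥(modularFunctionFieldFullC (IsLocalRing.ResidueField A) (M * q))) ∈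
      (S34M_chart M q A n hn).Rb₁ := S36N3E_reg_pow hq f.2
  have e : D.e₂ i f = D.e₁ j ⟨f, h₁⟩ := hj f h₁ f.2
  rw [e]
  exact D.P_ker j ⟨f, h₁⟩

/-- the extended evaluations at the first branches vanish on the functions vanishing at the
supersingular places. -/
theorem S36N3E_ev₁_zero (D : S36SS_Data M q hq hqM A hgen n hn)
    (γ : IsLocalRing.ResidueField A)
    (he : ∀ i, D.e₁ i ⟨S34M_xb M q A - algebraMap _ _ γ,
      S34SB_sub_const_mem_reg (S34M_xb M q A) γ⟩ ≠ 0)
    {a : ↥(modularFunctionFieldFullC (IsLocalRing.ResidueField A) (M * q))} {m : ℕ}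
    (hm : (S34M_xb M q A - algebraMap _ _ γ) ^ m * a ∈
      S34SB_reg (IsLocalRing.ResidueField A) (S34M_xb M q A))
    (hv : ∀ i, a = 0 ∨ 0 < (D.P i).ord a) (i : Fin D.s) :
    S34CH_ev (S34SB_reg (IsLocalRing.ResidueField A) (S34M_xb M q A))
      (S34M_xb M q A - algebraMap _ _ γ) (S34SB_sub_const_mem_reg (S34M_xb M q A) γ)
      (D.e₁ i) a = 0 :=
  S36N3E_ev_zero_gen _ _ _ (D.e₁ i) (he i) (D.P i) (S36N3E_e₁_ker D i)
    (fun f hf => S36N3E_P_reg D i f hf) hm (hv i)

/-- the extended evaluations at the second branches vanish on the functions vanishing at the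
supersingular places (node symmetry). -/
theorem S36N3E_ev₂_zero (D : S36SS_Data M q hq hqM A hgen n hn)
    (γ : IsLocalRing.ResidueField A)
    (he : ∀ i, D.e₂ i ⟨S34M_xb M q A ^ q - algebraMap _ _ γ,
      S34SB_sub_const_mem_reg (S34M_xb M q A ^ q) γ⟩ ≠ 0)
    {a : ↥(modularFunctionFieldFullC (IsLocalRing.ResidueField A) (M * q))} {m : ℕ}
    (hm : (S34M_xb M q A ^ q - algebraMap _ _ γ) ^ m * a ∈
      S34SB_reg (IsLocalRing.ResidueField A) (S34M_xb M q A ^ q))
    (hv : ∀ i, a = 0 ∨ 0 < (D.P i).ord a) (i : Fin D.s) :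
    S34CH_ev (S34SB_reg (IsLocalRing.ResidueField A) (S34M_xb M q A ^ q))
      (S34M_xb M q A ^ q - algebraMap _ _ γ)
      (S34SB_sub_const_mem_reg (S34M_xb M q A ^ q) γ) (D.e₂ i) a = 0 := by
  obtain ⟨j, hj⟩ := S36N3E_e₂_ker D i
  exact S36N3E_ev_zero_gen _ _ _ (D.e₂ i) (he i) (D.P j) hj
    (fun f hf => S36N3E_P_reg D j f (S36N3E_reg_pow hq hf)) hm (hv j)

/-- **`hev` of `S36NU_lift_q`** for `a ∈ L(b·(x₂ − γ)₀)` vanishing at the supersingular
places. -/
theorem S36N3E_hev (D : S36SS_Data M q hq hqM A hgen n hn)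
    (γ : IsLocalRing.ResidueField A)
    (he : ∀ i, D.e₂ i ⟨S34M_xb M q A ^ q - algebraMap _ _ γ,
      S34SB_sub_const_mem_reg (S34M_xb M q A ^ q) γ⟩ ≠ 0)
    (b : ℕ) (a : ↥(modularFunctionFieldFullC (IsLocalRing.ResidueField A) (M * q)))
    (ha : a ∈ riemannRochSpace (S34P_E (S34VF_hk M A hq hA hqM).principal (S34M_xb M q A ^ q)
      (S34M_xb M q A ^ q - algebraMap _ _ γ) 0 b))
    (hv : ∀ i, a = 0 ∨ 0 < (D.P i).ord a) (i : Fin D.s) :
    S34CH_ev (S34SB_reg (IsLocalRing.ResidueField A) (S34M_xb M q A ^ q))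
      (S34M_xb M q A ^ q - algebraMap _ _ γ)
      (S34SB_sub_const_mem_reg (S34M_xb M q A ^ q) γ) (D.e₂ i) a = 0 :=
  S36N3E_ev₂_zero D γ he
    (S34SB_clear (S34VF_hk M A hq hA hqM).principal (S34M_xb M q A ^ q) γ 0 b ha) hv i

/-- **REQUEST 2 (helper12)**: a function `a` regular off the zeros of `x₂ − γ` and vanishing at
the supersingular places satisfies the hypotheses `ha`, `hev` of `S36NU_lift_q` for all large
`b`. -/
theorem S36N3E_main (D : S36SS_Data M q hq hqM A hgen n hn)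
    (γ : IsLocalRing.ResidueField A)
    (he : ∀ i, D.e₂ i ⟨S34M_xb M q A ^ q - algebraMap _ _ γ,
      S34SB_sub_const_mem_reg (S34M_xb M q A ^ q) γ⟩ ≠ 0)
    (a : ↥(modularFunctionFieldFullC (IsLocalRing.ResidueField A) (M * q)))
    (ha : a ∈ S34SB_regZ (IsLocalRing.ResidueField A)
      (S34M_xb M q A ^ q - algebraMap _ _ γ))
    (hv : ∀ i, a = 0 ∨ 0 < (D.P i).ord a) :
    ∃ b₀ : ℕ, ∀ b, b₀ ≤ b →
      a ∈ riemannRochSpace (S34P_E (S34VF_hk M A hq hA hqM).principal (S34M_xb M q A ^ q)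
        (S34M_xb M q A ^ q - algebraMap _ _ γ) 0 b) ∧
      ∀ i, S34CH_ev (S34SB_reg (IsLocalRing.ResidueField A) (S34M_xb M q A ^ q))
        (S34M_xb M q A ^ q - algebraMap _ _ γ)
        (S34SB_sub_const_mem_reg (S34M_xb M q A ^ q) γ) (D.e₂ i) a = 0 := by
  obtain ⟨b₀, hb₀⟩ := S34SB_regZ_ex (S34VF_hk M A hq hA hqM).principal (S34M_xb M q A ^ q) γ ha
  exact ⟨b₀, fun b hb => ⟨hb₀ b hb, fun i => S36N3E_hev hA D γ he b a (hb₀ b hb) hv i⟩⟩

/-- the vanishing at the places `D.P i` of `κ₁ = F̄_{Mq}` from the vanishing on `D.SS`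
(places of `κ = F̄_M`). -/
theorem S36N3E_vanish_of_SS (D : S36SS_Data M q hq hqM A hgen n hn)
    (a : ↥(modularFunctionFieldFullC (IsLocalRing.ResidueField A) (M * q)))
    (a' : ↥(modularFunctionFieldFullC (IsLocalRing.ResidueField A) M))
    (haa' : (a : LaurentSeries (IsLocalRing.ResidueField A)) = a')
    (hv : ∀ v ∈ D.SS, a' = 0 ∨ 0 < v.ord a') (i : Fin D.s) :
    a = 0 ∨ 0 < (D.P i).ord a := by
  rcases hv (D.φ (D.P i)) ((D.mem_SS _).mpr ⟨i, rfl⟩) with h | h
  · left
    apply Subtype.ext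
    rw [haa', h]
    rfl
  · right
    rw [D.φ_ord (D.P i) a a' haa'] at h
    exact h

end canon

end Fermat.Agent.S36
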