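import Fermat.Agent.S36.Charts
import Fermat.Agent.S36.Spec3Ev

/-!
# TRACK 10 (S36), C1.1 CHARTS ↔ C1.7 EVAL-INST (helper23), prefix `S36CU_`

The three charts `S36CU_U`, `S36CU_U'`, `S36CU_U''` of `Charts.lean` are regular at the triple
points (`S36SE_Reg` of `Spec3Ev.lean`) as soon as the coordinates `x_j` are regular and the
`z_j` do not vanish at the centres `P_j y`; `hfull` of `S36SE_e_j_injective` for the three charts;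
the injectivity of the evaluations on the three charts.

* `S36CU_Reg_U`, `S36CU_Reg_U'`, `S36CU_Reg_U''` : `S36SE_Reg C X`;
* `S36CU_inv_adic_of_c0` : `x(P) ≠ c` ⇒ `1/(x − c)` is regular at `P`;
* `S36CU_full_U₁ … S36CU_full_U''₃` : `hfull`;
* `S36CU_e₁_inj_U''`, … : `y ↦ e_j y` is injective on `U''` (on `U` use the same statements for
  the chart `U`: `S36CU_e₁_inj_U`).
-/

set_option autoImplicit false
set_option linter.unusedSectionVars false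
set_option linter.unusedVariables false

open AlgebraicCurve WithZero

namespace Fermat.Agent.S36

open Fermat.Agent.Lib Fermat.Agent.S17 Fermat.Agent.S18 Fermat.Agent.S34

section pt

variable {k κ : Type*} [Field k] [Field κ] [Algebra k κ]

/-- `1/z` is regular at `Q` iff `z` does not vanish at `Q`. -/
theorem S36CU_inv_adic_iff (Q : Place k κ) (z : κ) :
    Q.adicValuation z⁻¹ ≤ 1 ↔ ¬ 0 < Q.ord z := by
  rw [S36CU_adic_iff_ord, Place.ord_inv, neg_nonneg, not_lt]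

/-- if the value of `x` at `P` is not `c`, then `1/(x − c)` is regular at `P`. -/
theorem S36CU_inv_adic_of_c0 (P : Place k κ) (hdeg : P.deg = 1) (x : κ)
    (hx : P.adicValuation x ≤ 1) (c : k) (hne : FD_c0 P x ≠ c) :
    P.adicValuation (x - algebraMap k κ c)⁻¹ ≤ 1 := by
  by_cases h0 : x - algebraMap k κ c = 0
  · rw [h0, inv_zero, map_zero]; exact zero_le_one
  rw [map_inv₀]
  by_contra hcon
  rw [not_le] at hcon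
  have hlt : P.adicValuation (x - algebraMap k κ c) < 1 := by
    by_contra h1
    rw [not_lt] at h1
    have h2 : (P.adicValuation (x - algebraMap k κ c))⁻¹ ≤ 1 := inv_le_one_of_one_le₀ h1
    exact absurd hcon (not_lt.2 h2)
  exact hne (FD_c0_unique P hlt)

end pt

section charts

variable {K F H : Type*} [Field K] [Field F] [Algebra K F] (S : S36FL_Act K F H)
variable (k : Type*) {Fk₁ Fk₂ Fk₃ : Type*} [Field k]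
  [Field Fk₁] [Field Fk₂] [Field Fk₃] [Algebra k Fk₁] [Algebra k Fk₂] [Algebra k Fk₃]
  {ι : Type*}
variable (j : S.fixF) (c : S.fixK) (x₁ : Fk₁) (x₂ : Fk₂) (x₃ : Fk₃)
  (z₁ : Fk₁) (z₂ : Fk₂) (z₃ : Fk₃) (n : ℕ) (hn : 0 < n)

/-- the chart `U''` is regular at the triple points where the `x_j` and the `1/z_j` are
regular. -/
theorem S36CU_Reg_U'' (X : S36SE_Pts k Fk₁ Fk₂ Fk₃ ι)
    (hx₁ : ∀ y, (X.P₁ y).adicValuation x₁ ≤ 1) (hx₂ : ∀ y, (X.P₂ y).adicValuation x₂ ≤ 1)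
    (hx₃ : ∀ y, (X.P₃ y).adicValuation x₃ ≤ 1)
    (hz₁ : ∀ y, (X.P₁ y).adicValuation z₁⁻¹ ≤ 1) (hz₂ : ∀ y, (X.P₂ y).adicValuation z₂⁻¹ ≤ 1)
    (hz₃ : ∀ y, (X.P₃ y).adicValuation z₃⁻¹ ≤ 1) :
    S36SE_Reg (S36CU_U'' S k j c x₁ x₂ x₃ z₁ z₂ z₃ n hn) X where
  reg₁ y _ hf := S36CU_mem_reg2_adic.1 hf _ (hx₁ y) (hz₁ y)
  reg₂ y _ hf := S36CU_mem_reg2_adic.1 hf _ (hx₂ y) (hz₂ y)
  reg₃ y _ hf := S36CU_mem_reg2_adic.1 hf _ (hx₃ y) (hz₃ y)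

/-- the chart `U` is regular at the triple points where the `x_j` are regular. -/
theorem S36CU_Reg_U (X : S36SE_Pts k Fk₁ Fk₂ Fk₃ ι)
    (hx₁ : ∀ y, (X.P₁ y).adicValuation x₁ ≤ 1) (hx₂ : ∀ y, (X.P₂ y).adicValuation x₂ ≤ 1)
    (hx₃ : ∀ y, (X.P₃ y).adicValuation x₃ ≤ 1) :
    S36SE_Reg (S36CU_U S k j x₁ x₂ x₃ n hn) X where
  reg₁ y _ hf := S36CU_mem_reg_adic.1 hf _ (hx₁ y)
  reg₂ y _ hf := S36CU_mem_reg_adic.1 hf _ (hx₂ y)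
  reg₃ y _ hf := S36CU_mem_reg_adic.1 hf _ (hx₃ y)

/-- the chart `U'` is regular at the triple points where the `1/z_j` are regular. -/
theorem S36CU_Reg_U' (X : S36SE_Pts k Fk₁ Fk₂ Fk₃ ι)
    (hz₁ : ∀ y, (X.P₁ y).adicValuation z₁⁻¹ ≤ 1) (hz₂ : ∀ y, (X.P₂ y).adicValuation z₂⁻¹ ≤ 1)
    (hz₃ : ∀ y, (X.P₃ y).adicValuation z₃⁻¹ ≤ 1) :
    S36SE_Reg (S36CU_U' S k j c z₁ z₂ z₃ n hn) X where
  reg₁ y _ hf := S36CU_mem_regZ_adic.1 hf _ (hz₁ y)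
  reg₂ y _ hf := S36CU_mem_regZ_adic.1 hf _ (hz₂ y)
  reg₃ y _ hf := S36CU_mem_regZ_adic.1 hf _ (hz₃ y)

/-! ### `hfull` -/

theorem S36CU_full_U₁ (f : Fk₁)
    (hf : ∀ Q : Place k Fk₁, Q.adicValuation x₁ ≤ 1 → Q.adicValuation f ≤ 1) :
    f ∈ (S36CU_U S k j x₁ x₂ x₃ n hn).Rb₁ := S36CU_mem_reg_adic.2 hf

theorem S36CU_full_U₂ (f : Fk₂)
    (hf : ∀ Q : Place k Fk₂, Q.adicValuation x₂ ≤ 1 → Q.adicValuation f ≤ 1) :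
    f ∈ (S36CU_U S k j x₁ x₂ x₃ n hn).Rb₂ := S36CU_mem_reg_adic.2 hf

theorem S36CU_full_U₃ (f : Fk₃)
    (hf : ∀ Q : Place k Fk₃, Q.adicValuation x₃ ≤ 1 → Q.adicValuation f ≤ 1) :
    f ∈ (S36CU_U S k j x₁ x₂ x₃ n hn).Rb₃ := S36CU_mem_reg_adic.2 hf

theorem S36CU_full_U'₁ (f : Fk₁)
    (hf : ∀ Q : Place k Fk₁, Q.adicValuation z₁⁻¹ ≤ 1 → Q.adicValuation f ≤ 1) :
    f ∈ (S36CU_U' S k j c z₁ z₂ z₃ n hn).Rb₁ := S36CU_mem_regZ_adic.2 hf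

theorem S36CU_full_U'₂ (f : Fk₂)
    (hf : ∀ Q : Place k Fk₂, Q.adicValuation z₂⁻¹ ≤ 1 → Q.adicValuation f ≤ 1) :
    f ∈ (S36CU_U' S k j c z₁ z₂ z₃ n hn).Rb₂ := S36CU_mem_regZ_adic.2 hf

theorem S36CU_full_U'₃ (f : Fk₃)
    (hf : ∀ Q : Place k Fk₃, Q.adicValuation z₃⁻¹ ≤ 1 → Q.adicValuation f ≤ 1) :
    f ∈ (S36CU_U' S k j c z₁ z₂ z₃ n hn).Rb₃ := S36CU_mem_regZ_adic.2 hf

theorem S36CU_full_U''₁ (f : Fk₁)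
    (hf : ∀ Q : Place k Fk₁, Q.adicValuation x₁ ≤ 1 → Q.adicValuation f ≤ 1) :
    f ∈ (S36CU_U'' S k j c x₁ x₂ x₃ z₁ z₂ z₃ n hn).Rb₁ := S36CU_reg2_full x₁ z₁ f hf

theorem S36CU_full_U''₂ (f : Fk₂)
    (hf : ∀ Q : Place k Fk₂, Q.adicValuation x₂ ≤ 1 → Q.adicValuation f ≤ 1) :
    f ∈ (S36CU_U'' S k j c x₁ x₂ x₃ z₁ z₂ z₃ n hn).Rb₂ := S36CU_reg2_full x₂ z₂ f hf

theorem S36CU_full_U''₃ (f : Fk₃)
    (hf : ∀ Q : Place k Fk₃, Q.adicValuation x₃ ≤ 1 → Q.adicValuation f ≤ 1) :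
    f ∈ (S36CU_U'' S k j c x₁ x₂ x₃ z₁ z₂ z₃ n hn).Rb₃ := S36CU_reg2_full x₃ z₃ f hf

/-! ### injectivity of the evaluations -/

/-- `y ↦ e₁ y` is injective on `U''`. -/
theorem S36CU_e₁_inj_U'' [Infinite k] (X : S36SE_Pts k Fk₁ Fk₂ Fk₃ ι)
    (hC : S36SE_Reg (S36CU_U'' S k j c x₁ x₂ x₃ z₁ z₂ z₃ n hn) X)
    (h : RR_Hyp k Fk₁) (c₀ : Place k Fk₁) (hc₀ : c₀.ord x₁ < 0)
    (hx : ∀ y, (X.P₁ y).adicValuation x₁ ≤ 1) (hinj : Function.Injective X.P₁) :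
    Function.Injective (S36SE_e₁ (S36CU_U'' S k j c x₁ x₂ x₃ z₁ z₂ z₃ n hn) X hC) :=
  S36SE_e₁_injective _ X hC h x₁ c₀ hc₀ (S36CU_full_U''₁ S k j c x₁ x₂ x₃ z₁ z₂ z₃ n hn) hx hinj

/-- `y ↦ e₂ y` is injective on `U''`. -/
theorem S36CU_e₂_inj_U'' [Infinite k] (X : S36SE_Pts k Fk₁ Fk₂ Fk₃ ι)
    (hC : S36SE_Reg (S36CU_U'' S k j c x₁ x₂ x₃ z₁ z₂ z₃ n hn) X)
    (h : RR_Hyp k Fk₂) (c₀ : Place k Fk₂) (hc₀ : c₀.ord x₂ < 0)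
    (hx : ∀ y, (X.P₂ y).adicValuation x₂ ≤ 1) (hinj : Function.Injective X.P₂) :
    Function.Injective (S36SE_e₂ (S36CU_U'' S k j c x₁ x₂ x₃ z₁ z₂ z₃ n hn) X hC) :=
  S36SE_e₂_injective _ X hC h x₂ c₀ hc₀ (S36CU_full_U''₂ S k j c x₁ x₂ x₃ z₁ z₂ z₃ n hn) hx hinj

/-- `y ↦ e₃ y` is injective on `U''`. -/
theorem S36CU_e₃_inj_U'' [Infinite k] (X : S36SE_Pts k Fk₁ Fk₂ Fk₃ ι)
    (hC : S36SE_Reg (S36CU_U'' S k j c x₁ x₂ x₃ z₁ z₂ z₃ n hn) X)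
    (h : RR_Hyp k Fk₃) (c₀ : Place k Fk₃) (hc₀ : c₀.ord x₃ < 0)
    (hx : ∀ y, (X.P₃ y).adicValuation x₃ ≤ 1) (hinj : Function.Injective X.P₃) :
    Function.Injective (S36SE_e₃ (S36CU_U'' S k j c x₁ x₂ x₃ z₁ z₂ z₃ n hn) X hC) :=
  S36SE_e₃_injective _ X hC h x₃ c₀ hc₀ (S36CU_full_U''₃ S k j c x₁ x₂ x₃ z₁ z₂ z₃ n hn) hx hinj

/-- `y ↦ e₁ y` is injective on `U`. -/
theorem S36CU_e₁_inj_U [Infinite k] (X : S36SE_Pts k Fk₁ Fk₂ Fk₃ ι)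
    (hC : S36SE_Reg (S36CU_U S k j x₁ x₂ x₃ n hn) X)
    (h : RR_Hyp k Fk₁) (c₀ : Place k Fk₁) (hc₀ : c₀.ord x₁ < 0)
    (hx : ∀ y, (X.P₁ y).adicValuation x₁ ≤ 1) (hinj : Function.Injective X.P₁) :
    Function.Injective (S36SE_e₁ (S36CU_U S k j x₁ x₂ x₃ n hn) X hC) :=
  S36SE_e₁_injective _ X hC h x₁ c₀ hc₀ (S36CU_full_U₁ S k j x₁ x₂ x₃ n hn) hx hinj

/-- `y ↦ e₁ y` is injective on `U'` (`c₀` a zero of `z₁`). -/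
theorem S36CU_e₁_inj_U' [Infinite k] (X : S36SE_Pts k Fk₁ Fk₂ Fk₃ ι)
    (hC : S36SE_Reg (S36CU_U' S k j c z₁ z₂ z₃ n hn) X)
    (h : RR_Hyp k Fk₁) (c₀ : Place k Fk₁) (hc₀ : 0 < c₀.ord z₁)
    (hz : ∀ y, (X.P₁ y).adicValuation z₁⁻¹ ≤ 1) (hinj : Function.Injective X.P₁) :
    Function.Injective (S36SE_e₁ (S36CU_U' S k j c z₁ z₂ z₃ n hn) X hC) :=
  S36SE_e₁_injective _ X hC h z₁⁻¹ c₀ (by rw [Place.ord_inv]; omega)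
    (S36CU_full_U'₁ S k j c z₁ z₂ z₃ n hn) hz hinj

end charts

end Fermat.Agent.S36
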