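import Mathlib
import Fermat.Agent.S36.Spec3Ev

/-!
# TRACK 10 (S36), C1.7 = EVAL-INST (helper21), part 2: `hsep` on the chart `U'`.
Prefix `S36SE_`.

`hsep` of `S36TL_Chart` on the chart `U = {x ≠ ∞}` comes from the lifting property `hfst`
(`S36SE_hsep`).  On the chart `U' = {x ≠ c}` no second lifting statement is needed:

* `S36SE_mem_W_one` : the elements of `W¹` (unfolded);
* `S36SE_hsep_transfer` : **`hsep` on `U'` from `hsep` on `U`**: if `w = red f` separates the triple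
  points on `U`, then `a · f · g ^ N` (`g = (x − c)⁻¹ ∈ O₃`, `N ≫ 0` killing the poles of `f` at
  the cusps (`hkill`), `a ∈ A` a constant normalising the value) separates them on `U'`.
-/

set_option autoImplicit false
set_option linter.unusedSectionVars false
set_option linter.style.haveILetI false

open AlgebraicCurve

namespace Fermat.Agent.S36

open Fermat.Agent.Lib Fermat.Agent.S18 Fermat.Agent.S34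

variable {L F k Fk₁ Fk₂ Fk₃ : Type*} [Field L] [Field F] [Algebra L F] [Field k]
  [Field Fk₁] [Field Fk₂] [Field Fk₃] [Algebra k Fk₁] [Algebra k Fk₂] [Algebra k Fk₃]
  {S₁ : S18_Val L F k Fk₁} {S₂ : S18_Val L F k Fk₂} {S₃ : S18_Val L F k Fk₃}
  (hS : S36L3_Same S₁ S₂ S₃) {n : ℕ} {ι : Type*}

/-- the elements of `W¹`: reductions of integral functions regular on the chart, with the three
reductions in the coordinate rings. -/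
theorem S36SE_mem_W_one (C : S36L3_Chart L F k Fk₁ Fk₂ Fk₃ n)
    (m : ↥C.Rb₁ × ↥C.Rb₂ × ↥C.Rb₃) :
    m ∈ S36L3_W hS C 1 ↔ ∃ f : S36L3_O3 S₁ S₂ S₃, (f : F) ∈ C.B ∧
      S36L3_red S₁ S₂ S₃ f = ((m.1 : Fk₁), (m.2.1 : Fk₂), (m.2.2 : Fk₃)) := by
  rw [S36L3_mem_W]
  constructor
  · rintro ⟨f, hf, hred⟩
    rw [mul_one] at hf
    exact ⟨f, C.root _ hf, hred⟩
  · rintro ⟨f, hf, hred⟩
    refine ⟨f, ?_, hred⟩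
    rw [mul_one]
    exact C.B.pow_mem hf n

/-- an element of `W¹` from an integral function regular on the chart whose three reductions lie
in the coordinate rings. -/
theorem S36SE_mk_mem_W_one (C : S36L3_Chart L F k Fk₁ Fk₂ Fk₃ n)
    (f : S36L3_O3 S₁ S₂ S₃) (hf : (f : F) ∈ C.B)
    (h₁ : (S36L3_red S₁ S₂ S₃ f).1 ∈ C.Rb₁) (h₂ : (S36L3_red S₁ S₂ S₃ f).2.1 ∈ C.Rb₂)
    (h₃ : (S36L3_red S₁ S₂ S₃ f).2.2 ∈ C.Rb₃) :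
    ((⟨_, h₁⟩, ⟨_, h₂⟩, ⟨_, h₃⟩) : ↥C.Rb₁ × ↥C.Rb₂ × ↥C.Rb₃) ∈ S36L3_W hS C 1 :=
  (S36SE_mem_W_one hS C _).2 ⟨f, hf, rfl⟩

/-- **`hsep` on `U'` from `hsep` on `U`.** -/
theorem S36SE_hsep_transfer {C C' C'' : S36L3_Chart L F k Fk₁ Fk₂ Fk₃ n}
    (hle : S36L3_ChartLE C C'') (hle' : S36L3_ChartLE C' C'')
    (e₁ : ι → ↥C.Rb₁ →ₐ[k] k) (e₁' : ι → ↥C'.Rb₁ →ₐ[k] k) (e₁'' : ι → ↥C''.Rb₁ →ₐ[k] k)
    (c₁ : ∀ y (r : ↥C.Rb₁), e₁'' y ⟨r, hle.Rb₁_le r.2⟩ = e₁ y r)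
    (c₁' : ∀ y (r : ↥C'.Rb₁), e₁'' y ⟨r, hle'.Rb₁_le r.2⟩ = e₁' y r)
    (hsep : ∀ y, ∃ w ∈ S36L3_W hS C 1, e₁ y w.1 = 1 ∧ ∀ y', y' ≠ y → e₁ y' w.1 = 0)
    (g : S36L3_O3 S₁ S₂ S₃) (hgR : (S36L3_red S₁ S₂ S₃ g).1 ∈ C'.Rb₁)
    (hgy : ∀ y, e₁' y ⟨(S36L3_red S₁ S₂ S₃ g).1, hgR⟩ ≠ 0)
    (hkill : ∀ f : S36L3_O3 S₁ S₂ S₃, (f : F) ∈ C.B →
      (S36L3_red S₁ S₂ S₃ f).1 ∈ C.Rb₁ → (S36L3_red S₁ S₂ S₃ f).2.1 ∈ C.Rb₂ →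
      (S36L3_red S₁ S₂ S₃ f).2.2 ∈ C.Rb₃ →
      ∃ N : ℕ, (f : F) * (g : F) ^ N ∈ C'.B ∧
        (S36L3_red S₁ S₂ S₃ (f * g ^ N)).1 ∈ C'.Rb₁ ∧
        (S36L3_red S₁ S₂ S₃ (f * g ^ N)).2.1 ∈ C'.Rb₂ ∧
        (S36L3_red S₁ S₂ S₃ (f * g ^ N)).2.2 ∈ C'.Rb₃)
    (y : ι) :
    ∃ w ∈ S36L3_W hS C' 1, e₁' y w.1 = 1 ∧ ∀ y', y' ≠ y → e₁' y' w.1 = 0 := by
  obtain ⟨w, hw, hw1, hw0⟩ := hsep y
  obtain ⟨f, hfB, hfred⟩ := (S36SE_mem_W_one hS C w).1 hw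
  have hr₁ : (S36L3_red S₁ S₂ S₃ f).1 = (w.1 : Fk₁) := by rw [hfred]
  have hr₂ : (S36L3_red S₁ S₂ S₃ f).2.1 = (w.2.1 : Fk₂) := by rw [hfred]
  have hr₃ : (S36L3_red S₁ S₂ S₃ f).2.2 = (w.2.2 : Fk₃) := by rw [hfred]
  obtain ⟨N, hNB, hN₁, hN₂, hN₃⟩ := hkill f hfB (hr₁ ▸ w.1.2) (hr₂ ▸ w.2.1.2) (hr₃ ▸ w.2.2.2)
  -- the value of `g` at `y` and the normalising constant
  set v : k := e₁' y ⟨(S36L3_red S₁ S₂ S₃ g).1, hgR⟩ with hv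
  have hv0 : v ≠ 0 := hgy y
  obtain ⟨a, ha⟩ := S₁.res_surjective ((v ^ N)⁻¹)
  -- the corrected function
  let c : S36L3_O3 S₁ S₂ S₃ := ⟨algebraMap L F a, S36L3_const_mem hS a⟩
  have hcred : S36L3_red S₁ S₂ S₃ c =
      (algebraMap k Fk₁ (S₁.res a), algebraMap k Fk₂ (S₁.res a), algebraMap k Fk₃ (S₁.res a)) :=
    S36L3_red_const hS a
  have hFB : ((c * (f * g ^ N) : S36L3_O3 S₁ S₂ S₃) : F) ∈ C'.B := by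
    have h1 : ((c * (f * g ^ N) : S36L3_O3 S₁ S₂ S₃) : F) =
        (a : L) • ((f : F) * (g : F) ^ N) := by
      rw [Algebra.smul_def]
      rfl
    rw [h1]
    exact C'.B.smul_mem hNB _
  have hF₁ : (S36L3_red S₁ S₂ S₃ (c * (f * g ^ N))).1 ∈ C'.Rb₁ := by
    rw [map_mul, Prod.fst_mul, hcred]
    exact C'.Rb₁.mul_mem (C'.Rb₁.algebraMap_mem _) hN₁
  have hF₂ : (S36L3_red S₁ S₂ S₃ (c * (f * g ^ N))).2.1 ∈ C'.Rb₂ := by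
    rw [map_mul, Prod.snd_mul, Prod.fst_mul, hcred]
    exact C'.Rb₂.mul_mem (C'.Rb₂.algebraMap_mem _) hN₂
  have hF₃ : (S36L3_red S₁ S₂ S₃ (c * (f * g ^ N))).2.2 ∈ C'.Rb₃ := by
    rw [map_mul, Prod.snd_mul, Prod.snd_mul, hcred]
    exact C'.Rb₃.mul_mem (C'.Rb₃.algebraMap_mem _) hN₃
  refine ⟨(⟨_, hF₁⟩, ⟨_, hF₂⟩, ⟨_, hF₃⟩),
    S36SE_mk_mem_W_one hS C' (c * (f * g ^ N)) hFB hF₁ hF₂ hF₃, ?_⟩
  -- the values at the triple points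
  have key : ∀ y', e₁' y' ⟨(S36L3_red S₁ S₂ S₃ (c * (f * g ^ N))).1, hF₁⟩ =
      (v ^ N)⁻¹ * (e₁ y' w.1 * e₁' y' ⟨(S36L3_red S₁ S₂ S₃ g).1, hgR⟩ ^ N) := by
    intro y'
    have e1 : (⟨(S36L3_red S₁ S₂ S₃ (c * (f * g ^ N))).1, hF₁⟩ : ↥C'.Rb₁) =
        algebraMap k ↥C'.Rb₁ (S₁.res a) * ⟨(S36L3_red S₁ S₂ S₃ (f * g ^ N)).1, hN₁⟩ := by
      apply Subtype.ext
      show (S36L3_red S₁ S₂ S₃ (c * (f * g ^ N))).1 = _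
      rw [map_mul, Prod.fst_mul, hcred]
      rfl
    rw [e1, map_mul, AlgHom.commutes, Algebra.algebraMap_self_apply, ha]
    congr 1
    rw [← c₁' y' ⟨_, hN₁⟩, ← c₁ y' w.1, ← c₁' y' ⟨_, hgR⟩, ← map_pow, ← map_mul]
    congr 1
    apply Subtype.ext
    show (S36L3_red S₁ S₂ S₃ (f * g ^ N)).1 = (w.1 : Fk₁) * (S36L3_red S₁ S₂ S₃ g).1 ^ N
    rw [map_mul, map_pow, Prod.fst_mul, Prod.pow_fst, hr₁]
  constructor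
  · show e₁' y ⟨(S36L3_red S₁ S₂ S₃ (c * (f * g ^ N))).1, hF₁⟩ = 1
    rw [key y, hw1, one_mul, ← hv]
    exact inv_mul_cancel₀ (pow_ne_zero _ hv0)
  · intro y' hy'
    show e₁' y' ⟨(S36L3_red S₁ S₂ S₃ (c * (f * g ^ N))).1, hF₁⟩ = 0
    rw [key y', hw0 y' hy', zero_mul, mul_zero]

end Fermat.Agent.S36
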