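import Mathlib
import Fermat.Agent.S36.ParamQ2
import Fermat.Agent.S36.ChartsEv
import Fermat.Agent.S36.Spec3Ev2
import Fermat.Agent.S36.SSCard

/-!
# TRACK 10 (S36), C1.7 = EVAL-INST (helper21), part 3: `hfst` and `hsep` on the chart `U`, and the
points `X` of the supersingular places.  Prefix `S36SE_`.

Levels `M`, `M q`, `M q q` (`q ∤ M`), `A ⊂ ℚ̄` over `q`, `I = A.inertiaSubgroupIn ℚ`, `k` the
residue field, `κ = modularFunctionFieldFullC k M`, `S = S36FI_act (M q q) I`.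
The three valuation data `S₁ S₂ S₃ : S18_Val S.fixK S.fixF k κ` enter through `S36SE_Gauss3`
(they are the Gauss data along `emFF`, `emFV ζ`, `emVV`; for `S36FI_gauss` these are
`S36FI_gauss_mem_O` (`Iff.rfl`) and `S36FI_gauss_red`).

* `S36SE_Gauss3` : `S_j.O = G(em_j) ∩ F_L`, `S_j.red = Gred(em_j)`;
* `S36SE_hfst_U` : **`hfst` on helper23's chart `S36CU_U S k j x₁ x₂ x₃ n hn`**: every `a ∈ Rb₁` is
  the first reduction of an element of `W¹` (`δ_A`-lift `S36PA_lift_A`, reductions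
  `(ā, ā, Ψ² ā)`);
* `S36SE_hsep_U` : **`hsep` of `S36TI_Geo` / `S36TX_geo_U`** on that chart, for any points `X`
  with `P₁` injective and `x₁` regular at the `P₁ y`;
* `S36SE_XSS D` : the points of the supersingular places `D.SS` (helper3's `S36SS_Data`):
  `P₁ y = P₂ y = P₃ y = y`; `S36SE_XSS_inj`, `S36SE_XSS_reg`;
* `S36SE_ord_pow_nonneg_iff` : `0 ≤ ord (x ^ m) ↔ 0 ≤ ord x` (for `x_j = j̄ ^ q`).
-/

set_option autoImplicit false
set_option synthInstance.maxHeartbeats 400000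
set_option maxHeartbeats 1000000
set_option linter.style.haveILetI false
set_option linter.unusedSectionVars false
set_option linter.unusedVariables false

open HahnSeries IntermediateField AlgebraicCurve ModularCurve

namespace Fermat.Agent.S36

open Fermat.Agent.S18 Fermat.Agent.S24 Fermat.Agent.S34 Fermat.Agent.S37 Fermat.Agent.GalRep
  Fermat.Agent.Lib Fermat.Agent.S17

local notation "ℚbar" => AlgebraicClosure ℚ

/-! ### orders of powers -/

theorem S36SE_ord_pow_nonneg_iff {K F : Type*} [Field K] [Field F] [Algebra K F]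
    (Q : Place K F) (x : F) {m : ℕ} (hm : 0 < m) : 0 ≤ Q.ord (x ^ m) ↔ 0 ≤ Q.ord x := by
  rcases eq_or_ne x 0 with rfl | hx
  · rw [zero_pow hm.ne']
  · rw [← zpow_natCast, Q.ord_zpow]
    have hm' : (0 : ℤ) < (m : ℤ) := by exact_mod_cast hm
    constructor
    · intro h
      by_contra hneg
      push Not at hneg
      nlinarith
    · intro h
      positivity

/-- membership in a place ring from the order. -/
theorem S36SE_mem_of_ord {K F : Type*} [Field K] [Field F] [Algebra K F]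
    (Q : Place K F) {f : F} (h : 0 ≤ Q.ord f) : f ∈ Q.toValuationSubring := by
  rcases eq_or_ne f 0 with rfl | hf
  · exact zero_mem _
  · exact (BG_mem_iff_ord_nonneg Q hf).2 h

/-- the order from the membership in a place ring. -/
theorem S36SE_ord_of_mem {K F : Type*} [Field K] [Field F] [Algebra K F]
    (Q : Place K F) {f : F} (h : f ∈ Q.toValuationSubring) : 0 ≤ Q.ord f := by
  rcases eq_or_ne f 0 with rfl | hf
  · rw [Place.ord_zero]
  · exact (BG_mem_iff_ord_nonneg Q hf).1 h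

/-! ### the abstract form of `hfst` -/

section abs

variable {L F k Fk₁ Fk₂ Fk₃ : Type*} [Field L] [Field F] [Algebra L F] [Field k]
  [Field Fk₁] [Field Fk₂] [Field Fk₃] [Algebra k Fk₁] [Algebra k Fk₂] [Algebra k Fk₃]
  {S₁ : S18_Val L F k Fk₁} {S₂ : S18_Val L F k Fk₂} {S₃ : S18_Val L F k Fk₃}
  (hS : S36L3_Same S₁ S₂ S₃) {n : ℕ}

/-- an element of `W¹` with prescribed first component from an integral function regular on the
chart. -/
theorem S36SE_hfst_abs (C : S36L3_Chart L F k Fk₁ Fk₂ Fk₃ n) (a : ↥C.Rb₁)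
    (f : F) (m1 : f ∈ S₁.O) (m2 : f ∈ S₂.O) (m3 : f ∈ S₃.O) (hB : f ∈ C.B)
    (r1 : S₁.red ⟨f, m1⟩ = (a : Fk₁)) (r2 : S₂.red ⟨f, m2⟩ ∈ C.Rb₂)
    (r3 : S₃.red ⟨f, m3⟩ ∈ C.Rb₃) :
    ∃ w ∈ S36L3_W hS C 1, w.1 = a := by
  refine ⟨(a, ⟨_, r2⟩, ⟨_, r3⟩), ?_, rfl⟩
  rw [S36SE_mem_W_one]
  exact ⟨⟨f, m1, m2, m3⟩, hB, Prod.ext r1 (Prod.ext rfl rfl)⟩

end abs

section conc

variable (M q : ℕ) [NeZero M] [NeZero q] [NeZero (M * q)] (hq : q.Prime) (hqM : ¬ q ∣ M)
  (A : ValuationSubring ℚbar) (hA : A.LiesOverPrime q)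
  (ζ : ℚbarˣ) (hζ : ζ ^ q = 1) (hζ1 : ζ ≠ 1)

/-- the three valuation data over the inertia field are the Gauss data along `emFF`, `emFV ζ`,
`emVV`. -/
structure S36SE_Gauss3
    (S₁ S₂ S₃ : S18_Val ↥(S36FI_act (M * q * q) (A.inertiaSubgroupIn ℚ)).fixK
      ↥(S36FI_act (M * q * q) (A.inertiaSubgroupIn ℚ)).fixF (IsLocalRing.ResidueField A)
      ↥(modularFunctionFieldFullC (IsLocalRing.ResidueField A) M)) : Prop where
  O₁ : ∀ f : ↥(S36FI_act (M * q * q) (A.inertiaSubgroupIn ℚ)).fixF,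
    f ∈ S₁.O ↔ (f : ↥(modularFunctionFieldBar (M * q * q))) ∈ S36V_G A (S36V_emFF M q)
  O₂ : ∀ f : ↥(S36FI_act (M * q * q) (A.inertiaSubgroupIn ℚ)).fixF,
    f ∈ S₂.O ↔ (f : ↥(modularFunctionFieldBar (M * q * q))) ∈
      S36V_G A (S36V_emFV M q hq hqM ζ hζ hζ1)
  O₃ : ∀ f : ↥(S36FI_act (M * q * q) (A.inertiaSubgroupIn ℚ)).fixF,
    f ∈ S₃.O ↔ (f : ↥(modularFunctionFieldBar (M * q * q))) ∈ S36V_G A (S36V_emVV M q hq hqM)
  r₁ : ∀ (f : ↥(S36FI_act (M * q * q) (A.inertiaSubgroupIn ℚ)).fixF) (hf : f ∈ S₁.O)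
    (hf' : (f : ↥(modularFunctionFieldBar (M * q * q))) ∈ S36V_G A (S36V_emFF M q)),
    ((S₁.red ⟨f, hf⟩ : ↥(modularFunctionFieldFullC (IsLocalRing.ResidueField A) M)) :
      LaurentSeries (IsLocalRing.ResidueField A)) = S36V_Gred A (S36V_emFF M q) ⟨_, hf'⟩
  r₂ : ∀ (f : ↥(S36FI_act (M * q * q) (A.inertiaSubgroupIn ℚ)).fixF) (hf : f ∈ S₂.O)
    (hf' : (f : ↥(modularFunctionFieldBar (M * q * q))) ∈
      S36V_G A (S36V_emFV M q hq hqM ζ hζ hζ1)),
    ((S₂.red ⟨f, hf⟩ : ↥(modularFunctionFieldFullC (IsLocalRing.ResidueField A) M)) :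
      LaurentSeries (IsLocalRing.ResidueField A)) =
      S36V_Gred A (S36V_emFV M q hq hqM ζ hζ hζ1) ⟨_, hf'⟩
  r₃ : ∀ (f : ↥(S36FI_act (M * q * q) (A.inertiaSubgroupIn ℚ)).fixF) (hf : f ∈ S₃.O)
    (hf' : (f : ↥(modularFunctionFieldBar (M * q * q))) ∈ S36V_G A (S36V_emVV M q hq hqM)),
    ((S₃.red ⟨f, hf⟩ : ↥(modularFunctionFieldFullC (IsLocalRing.ResidueField A) M)) :
      LaurentSeries (IsLocalRing.ResidueField A)) =
      S36V_Gred A (S36V_emVV M q hq hqM) ⟨_, hf'⟩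

variable {S₁ S₂ S₃ : S18_Val ↥(S36FI_act (M * q * q) (A.inertiaSubgroupIn ℚ)).fixK
      ↥(S36FI_act (M * q * q) (A.inertiaSubgroupIn ℚ)).fixF (IsLocalRing.ResidueField A)
      ↥(modularFunctionFieldFullC (IsLocalRing.ResidueField A) M)}
  (hS : S36L3_Same S₁ S₂ S₃)
  (G : S36SE_Gauss3 M q hq hqM A ζ hζ hζ1 S₁ S₂ S₃)
  (j : ↥(S36FI_act (M * q * q) (A.inertiaSubgroupIn ℚ)).fixF)
  (x₁ x₂ x₃ : ↥(modularFunctionFieldFullC (IsLocalRing.ResidueField A) M))
  (n : ℕ) (hn : 0 < n)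

include hA G in
/-- **`hfst` on the chart `U`**: every function of `Rb₁` is the first reduction of an element of
`W¹`. -/
theorem S36SE_hfst_U
    (hj : ∀ Q : Place ℚbar ↥(modularFunctionFieldBar (M * q * q)),
      0 ≤ Q.ord (j : ↥(modularFunctionFieldBar (M * q * q))) → 0 ≤ Q.ord (jB (M * q * q)))
    (hx₁ : ∀ Q : Place (IsLocalRing.ResidueField A)
        ↥(modularFunctionFieldFullC (IsLocalRing.ResidueField A) M),
      0 ≤ Q.ord (S18_jbar M (IsLocalRing.ResidueField A)) → 0 ≤ Q.ord x₁)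
    (hx₂ : ∀ Q : Place (IsLocalRing.ResidueField A)
        ↥(modularFunctionFieldFullC (IsLocalRing.ResidueField A) M),
      0 ≤ Q.ord x₂ → 0 ≤ Q.ord (S18_jbar M (IsLocalRing.ResidueField A)))
    (hx₃ : ∀ Q : Place (IsLocalRing.ResidueField A)
        ↥(modularFunctionFieldFullC (IsLocalRing.ResidueField A) M),
      0 ≤ Q.ord x₃ → 0 ≤ Q.ord (S18_jbar M (IsLocalRing.ResidueField A)))
    (a : ↥(S36CU_U (S36FI_act (M * q * q) (A.inertiaSubgroupIn ℚ))
      (IsLocalRing.ResidueField A) j x₁ x₂ x₃ n hn).Rb₁) :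
    ∃ w ∈ S36L3_W hS (S36CU_U (S36FI_act (M * q * q) (A.inertiaSubgroupIn ℚ))
      (IsLocalRing.ResidueField A) j x₁ x₂ x₃ n hn) 1, w.1 = a := by
  -- `a` is regular off the cusps
  have haR : (a : ↥(modularFunctionFieldFullC (IsLocalRing.ResidueField A) M)) ∈
      S34SB_reg (IsLocalRing.ResidueField A) (S18_jbar M (IsLocalRing.ResidueField A)) := by
    rw [S34SB_mem_reg]
    intro Q hQ
    exact S34SB_mem_reg.1 a.2 Q (hx₁ Q hQ)
  have ha : ∀ Q : Place (IsLocalRing.ResidueField A)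
      ↥(modularFunctionFieldFullC (IsLocalRing.ResidueField A) M),
      0 ≤ Q.ord (S18_jbar M (IsLocalRing.ResidueField A)) →
      0 ≤ Q.ord (a : ↥(modularFunctionFieldFullC (IsLocalRing.ResidueField A) M)) :=
    fun Q hQ => S36SE_ord_of_mem Q (S34SB_mem_reg.1 haR Q hQ)
  obtain ⟨f, hfix, hreg, ⟨h1, e1⟩, ⟨h2, e2⟩, ⟨h3, e3⟩⟩ :=
    S36PA_lift_A M q hq hqM A hA ζ hζ hζ1
      (a : ↥(modularFunctionFieldFullC (IsLocalRing.ResidueField A) M)) ha
  -- the three memberships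
  have m1 : (⟨f, hfix⟩ : ↥(S36FI_act (M * q * q) (A.inertiaSubgroupIn ℚ)).fixF) ∈ S₁.O :=
    (G.O₁ _).2 h1
  have m2 : (⟨f, hfix⟩ : ↥(S36FI_act (M * q * q) (A.inertiaSubgroupIn ℚ)).fixF) ∈ S₂.O :=
    (G.O₂ _).2 h2
  have m3 : (⟨f, hfix⟩ : ↥(S36FI_act (M * q * q) (A.inertiaSubgroupIn ℚ)).fixF) ∈ S₃.O :=
    (G.O₃ _).2 h3
  -- regular on the chart
  have hB : (⟨f, hfix⟩ : ↥(S36FI_act (M * q * q) (A.inertiaSubgroupIn ℚ)).fixF) ∈
      (S36CU_U (S36FI_act (M * q * q) (A.inertiaSubgroupIn ℚ))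
        (IsLocalRing.ResidueField A) j x₁ x₂ x₃ n hn).B := by
    rw [S36CU_mem_U_B]
    intro v hv
    exact S36SE_mem_of_ord v (hreg v (hj v hv))
  -- the three reductions
  have r1 : S₁.red ⟨⟨f, hfix⟩, m1⟩ =
      (a : ↥(modularFunctionFieldFullC (IsLocalRing.ResidueField A) M)) := by
    apply Subtype.ext
    rw [G.r₁ _ m1 h1, e1]
  have r2 : S₂.red ⟨⟨f, hfix⟩, m2⟩ =
      (a : ↥(modularFunctionFieldFullC (IsLocalRing.ResidueField A) M)) := by
    apply Subtype.ext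
    rw [G.r₂ _ m2 h2, e2]
  have r3 : S₃.red ⟨⟨f, hfix⟩, m3⟩ = S34NX_Fr M q A hq hA (S34NX_Fr M q A hq hA
      (a : ↥(modularFunctionFieldFullC (IsLocalRing.ResidueField A) M))) := by
    apply Subtype.ext
    rw [G.r₃ _ m3 h3, e3, S34NX_Fr_coe, S34NX_Fr_coe]
  -- membership in the coordinate rings
  have ha2 : S₂.red ⟨⟨f, hfix⟩, m2⟩ ∈
      (S36CU_U (S36FI_act (M * q * q) (A.inertiaSubgroupIn ℚ))
        (IsLocalRing.ResidueField A) j x₁ x₂ x₃ n hn).Rb₂ := by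
    rw [r2, S36CU_U_Rb₂, S34SB_mem_reg]
    intro Q hQ
    exact S34SB_mem_reg.1 haR Q (hx₂ Q hQ)
  have ha3 : S₃.red ⟨⟨f, hfix⟩, m3⟩ ∈
      (S36CU_U (S36FI_act (M * q * q) (A.inertiaSubgroupIn ℚ))
        (IsLocalRing.ResidueField A) j x₁ x₂ x₃ n hn).Rb₃ := by
    rw [r3, S36CU_U_Rb₃, S34SB_mem_reg]
    intro Q hQ
    exact S34SB_mem_reg.1 (S36SS_Fr_reg hA hq hqM (S36SS_Fr_reg hA hq hqM haR)) Q (hx₃ Q hQ)
  exact S36SE_hfst_abs hS _ a _ m1 m2 m3 hB r1 ha2 ha3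

include hA G in
/-- **`hsep` on the chart `U`** (the hypothesis `hsep` of `S36TI_Geo` / `S36TX_geo_U`), for any
points `X` with `P₁` injective and `x₁` regular at the `P₁ y`. -/
theorem S36SE_hsep_U {ι : Type*} [Finite ι]
    (hj : ∀ Q : Place ℚbar ↥(modularFunctionFieldBar (M * q * q)),
      0 ≤ Q.ord (j : ↥(modularFunctionFieldBar (M * q * q))) → 0 ≤ Q.ord (jB (M * q * q)))
    (hx₁ : ∀ Q : Place (IsLocalRing.ResidueField A)
        ↥(modularFunctionFieldFullC (IsLocalRing.ResidueField A) M),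
      0 ≤ Q.ord (S18_jbar M (IsLocalRing.ResidueField A)) → 0 ≤ Q.ord x₁)
    (hx₂ : ∀ Q : Place (IsLocalRing.ResidueField A)
        ↥(modularFunctionFieldFullC (IsLocalRing.ResidueField A) M),
      0 ≤ Q.ord x₂ → 0 ≤ Q.ord (S18_jbar M (IsLocalRing.ResidueField A)))
    (hx₃ : ∀ Q : Place (IsLocalRing.ResidueField A)
        ↥(modularFunctionFieldFullC (IsLocalRing.ResidueField A) M),
      0 ≤ Q.ord x₃ → 0 ≤ Q.ord (S18_jbar M (IsLocalRing.ResidueField A)))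
    (c₀ : Place (IsLocalRing.ResidueField A)
      ↥(modularFunctionFieldFullC (IsLocalRing.ResidueField A) M)) (hc₀ : c₀.ord x₁ < 0)
    (X : S36SE_Pts (IsLocalRing.ResidueField A)
      ↥(modularFunctionFieldFullC (IsLocalRing.ResidueField A) M)
      ↥(modularFunctionFieldFullC (IsLocalRing.ResidueField A) M)
      ↥(modularFunctionFieldFullC (IsLocalRing.ResidueField A) M) ι)
    (hC : S36SE_Reg (S36CU_U (S36FI_act (M * q * q) (A.inertiaSubgroupIn ℚ))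
      (IsLocalRing.ResidueField A) j x₁ x₂ x₃ n hn) X)
    (hinj : Function.Injective X.P₁)
    (hxP : ∀ y, (X.P₁ y).adicValuation x₁ ≤ 1) (y : ι) :
    ∃ w ∈ S36L3_W hS (S36CU_U (S36FI_act (M * q * q) (A.inertiaSubgroupIn ℚ))
        (IsLocalRing.ResidueField A) j x₁ x₂ x₃ n hn) 1,
      S36SE_e₁ (S36CU_U (S36FI_act (M * q * q) (A.inertiaSubgroupIn ℚ))
        (IsLocalRing.ResidueField A) j x₁ x₂ x₃ n hn) X hC y w.1 = 1 ∧
      ∀ y', y' ≠ y → S36SE_e₁ (S36CU_U (S36FI_act (M * q * q) (A.inertiaSubgroupIn ℚ))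
        (IsLocalRing.ResidueField A) j x₁ x₂ x₃ n hn) X hC y' w.1 = 0 := by
  haveI : IsAlgClosed (IsLocalRing.ResidueField A) := S18_residue_isAlgClosed A
  haveI : Infinite (IsLocalRing.ResidueField A) := IsAlgClosed.instInfinite
  exact S36SE_hsep hS _ X hC (S18_hk M A hq hA hqM) x₁ c₀ hc₀
    (S36CU_full_U₁ (S36FI_act (M * q * q) (A.inertiaSubgroupIn ℚ))
      (IsLocalRing.ResidueField A) j x₁ x₂ x₃ n hn) hxP hinj
    (S36SE_hfst_U M q hq hqM A hA ζ hζ hζ1 hS G j x₁ x₂ x₃ n hn hj hx₁ hx₂ hx₃) y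

/-! ### the points of the supersingular places -/

variable {hgen : PrincipalGeneratedByIntegral A (IsLocalRing.residue A) (M * q)}
  {n' : ℕ} {hn' : 0 < n'}

include hA in
/-- the points of the supersingular places: the three centres of a triple point are the same
place of `κ`. -/
noncomputable def S36SE_XSS (D : S36SS_Data M q hq hqM A hgen n' hn') :
    S36SE_Pts (IsLocalRing.ResidueField A)
      ↥(modularFunctionFieldFullC (IsLocalRing.ResidueField A) M)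
      ↥(modularFunctionFieldFullC (IsLocalRing.ResidueField A) M)
      ↥(modularFunctionFieldFullC (IsLocalRing.ResidueField A) M) ↥D.SS :=
  S36SE_Pts.ofRR (S18_hk M A hq hA hqM) (S18_hk M A hq hA hqM) (S18_hk M A hq hA hqM)
    (fun y => y.1) (fun y => y.1) (fun y => y.1)

theorem S36SE_XSS_P₁ (D : S36SS_Data M q hq hqM A hgen n' hn') (y : ↥D.SS) :
    (S36SE_XSS M q hq hqM A hA D).P₁ y = y.1 := rfl

theorem S36SE_XSS_P₂ (D : S36SS_Data M q hq hqM A hgen n' hn') (y : ↥D.SS) :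
    (S36SE_XSS M q hq hqM A hA D).P₂ y = y.1 := rfl

theorem S36SE_XSS_P₃ (D : S36SS_Data M q hq hqM A hgen n' hn') (y : ↥D.SS) :
    (S36SE_XSS M q hq hqM A hA D).P₃ y = y.1 := rfl

theorem S36SE_XSS_inj (D : S36SS_Data M q hq hqM A hgen n' hn') :
    Function.Injective (S36SE_XSS M q hq hqM A hA D).P₁ :=
  fun _ _ h => Subtype.ext h

/-- a function regular off the cusps is regular at the supersingular places. -/
theorem S36SE_XSS_reg (D : S36SS_Data M q hq hqM A hgen n' hn')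
    (x : ↥(modularFunctionFieldFullC (IsLocalRing.ResidueField A) M))
    (hx : ∀ Q : Place (IsLocalRing.ResidueField A)
        ↥(modularFunctionFieldFullC (IsLocalRing.ResidueField A) M),
      0 ≤ Q.ord (S18_jbar M (IsLocalRing.ResidueField A)) → 0 ≤ Q.ord x) (y : ↥D.SS) :
    (y.1 : Place (IsLocalRing.ResidueField A)
      ↥(modularFunctionFieldFullC (IsLocalRing.ResidueField A) M)).adicValuation x ≤ 1 :=
  (S36CU_adic_iff_ord _ _).2 (hx _ (D.SS_reg y.1 y.2))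

end conc

end Fermat.Agent.S36
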