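import Fermat.Agent.S36.ChartsO3Inst
import Fermat.Agent.S36.FixLFiveVal
import Fermat.Agent.S36.FixLFinT

/-!
# TRACK 10 (S36), C1.1 CHARTS, part 5 (helper23): THE three concrete charts of level `M q²`.
Prefix `S36CZ_`.  No free structure hypotheses.

Setting (helper1, `S36/FixLFiveVal.lean`): `A ⊂ ℚ̄` over `q`, `I = A.inertiaSubgroupIn ℚ`,
`S = S36FI_act (M q q) I`, `L = S.fixK`, `F_L = S.fixF`, `k = IsLocalRing.ResidueField A`,
`κ = S36FI_kappa M A`, `S₁ = S36FI_SFF`, `S₂ = S36FI_SFV`, `S₃ = S36FI_SVV`.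
Ruling D9: the coordinate is `x := B = j(t^q)` (`S36CO_BL`).

* `S36CZ_hjO` : `B ∈ O₃`;  `S36CZ_xb : κ` the common reduction `j̄(t^q)` of `B`
  (`S36CZ_red₁`, `S36CZ_red₂`, `S36CZ_red₃`, `S36CZ_xb_coe`, `S36CZ_xb_transc`);
* `S36CZ_hsO c` : `1/(B − c) ∈ O₃`, with reduction `1/(x̄ − c̄)` (`S36CZ_zb c = x̄ − c̄`);
* `S36CZ_C n hn`, `S36CZ_C' c n hn`, `S36CZ_C'' c n hn` : **the three charts** `U = {B ≠ ∞}`,
  `U' = {B ≠ c}`, `U'' = U ∩ U'`; `S36CZ_hle`, `S36CZ_hle'`; `S36CZ_hC`, `S36CZ_hC'`, `S36CZ_hC''`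
  (the hypotheses `hC hC' hC''` of `S36I3_core_fix`, by `rfl`);
* `S36CZ_hj` (`B` is transcendental over `L`), `S36CZ_finite` (`F_L / L(B)` is finite);
* `S36CZ_hOv`, `S36CZ_Lam_eq`, `S36CZ_hleΛ`, `S36CZ_hleΛ'`, `S36CZ_hleΛ''` : `hOv`, `hle` of LI-INST for
  the family `S36IT_fam3` of the chart.
-/

set_option autoImplicit false
set_option linter.unusedSectionVars false
set_option linter.unusedVariables false
set_option linter.style.haveILetI false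

open AlgebraicCurve ModularCurve HahnSeries IntermediateField

noncomputable section

namespace Fermat.Agent.S36

open Fermat.Agent.Lib Fermat.Agent.S18 Fermat.Agent.S24 Fermat.Agent.S34

local notation "Ω" => AlgebraicClosure ℚ

variable (M q : ℕ) [NeZero M] [NeZero q] (hq : q.Prime) (hqM : ¬ q ∣ M)
  (A : ValuationSubring Ω) (hA : A.LiesOverPrime q)
  (ζ : Ωˣ) (hζ : ζ ^ q = 1) (hζ1 : ζ ≠ 1)

/-! ### the coordinate `B` and its reduction -/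

/-- `B ∈ O_FF`. -/
theorem S36CZ_B_mem₁ :
    S36CO_BL M q (A.inertiaSubgroupIn ℚ) ∈ (S36FI_SFF M q hq hqM A hA).O :=
  S36CO_B_mem_FF M q A (S36CO_q_dvd M q)

/-- `B ∈ O_FV`. -/
theorem S36CZ_B_mem₂ :
    S36CO_BL M q (A.inertiaSubgroupIn ℚ) ∈ (S36FI_SFV M q hq hqM A hA ζ hζ hζ1).O :=
  S36CO_B_mem_FV M q hq hqM A ζ hζ hζ1 (S36CO_q_dvd M q)

/-- `B ∈ O_VV`. -/
theorem S36CZ_B_mem₃ :
    S36CO_BL M q (A.inertiaSubgroupIn ℚ) ∈ (S36FI_SVV M q hq hqM A hA).O :=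
  S36CO_B_mem_VV M q hq hqM A (S36CO_q_dvd M q)

/-- **`hjO`**: `B ∈ O₃`. -/
theorem S36CZ_hjO :
    S36CO_BL M q (A.inertiaSubgroupIn ℚ) ∈
      S36L3_O3 (S36FI_SFF M q hq hqM A hA) (S36FI_SFV M q hq hqM A hA ζ hζ hζ1)
        (S36FI_SVV M q hq hqM A hA) :=
  ⟨S36CZ_B_mem₁ M q hq hqM A hA, S36CZ_B_mem₂ M q hq hqM A hA ζ hζ hζ1,
    S36CZ_B_mem₃ M q hq hqM A hA⟩

/-- the reduction `x̄ = j̄(t^q) ∈ κ` of `B`. -/
def S36CZ_xb : ↥(S36FI_kappa M A) :=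
  (S36FI_SFF M q hq hqM A hA).red ⟨_, S36CZ_B_mem₁ M q hq hqM A hA⟩

/-- `x̄ = j̄(t^q)` as a series. -/
theorem S36CZ_xb_coe :
    ((S36CZ_xb M q hq hqM A hA : ↥(S36FI_kappa M A)) :
      LaurentSeries (IsLocalRing.ResidueField A)) = jqNModC (IsLocalRing.ResidueField A) q :=
  (S36FI_SFF_red M q hq hqM A hA _ _).trans (S36CO_B_red_FF M q A (S36CO_q_dvd M q) _)

/-- the reduction of `B` along `FF`. -/
theorem S36CZ_red₁ (h : S36CO_BL M q (A.inertiaSubgroupIn ℚ) ∈ (S36FI_SFF M q hq hqM A hA).O) :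
    (S36FI_SFF M q hq hqM A hA).red ⟨_, h⟩ = S36CZ_xb M q hq hqM A hA := rfl

/-- the reduction of `B` along `FV`. -/
theorem S36CZ_red₂
    (h : S36CO_BL M q (A.inertiaSubgroupIn ℚ) ∈ (S36FI_SFV M q hq hqM A hA ζ hζ hζ1).O) :
    (S36FI_SFV M q hq hqM A hA ζ hζ hζ1).red ⟨_, h⟩ = S36CZ_xb M q hq hqM A hA := by
  apply Subtype.ext
  rw [S36CZ_xb_coe]
  exact (S36FI_SFV_red M q hq hqM A hA ζ hζ hζ1 _ h).trans
    (S36CO_B_red_FV M q hq hqM A ζ hζ hζ1 (S36CO_q_dvd M q) _)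

/-- the reduction of `B` along `VV`. -/
theorem S36CZ_red₃ (h : S36CO_BL M q (A.inertiaSubgroupIn ℚ) ∈ (S36FI_SVV M q hq hqM A hA).O) :
    (S36FI_SVV M q hq hqM A hA).red ⟨_, h⟩ = S36CZ_xb M q hq hqM A hA := by
  apply Subtype.ext
  rw [S36CZ_xb_coe]
  exact (S36FI_SVV_red M q hq hqM A hA _ h).trans
    (S36CO_B_red_VV M q hq hqM A (S36CO_q_dvd M q) _)

/-- `x̄` is transcendental over `k`. -/
theorem S36CZ_xb_transc :
    Transcendental (IsLocalRing.ResidueField A) (S36CZ_xb M q hq hqM A hA) := by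
  apply S36CO_transc_of_coe
  rw [S36CZ_xb_coe]
  exact S36CO_jqN_transc _ q

/-! ### the constant `c` -/

/-- `z̄ = x̄ − c̄`. -/
def S36CZ_zb (c : (S36FI_SFF M q hq hqM A hA).A) : ↥(S36FI_kappa M A) :=
  S36CZ_xb M q hq hqM A hA -
    algebraMap (IsLocalRing.ResidueField A) ↥(S36FI_kappa M A) ((S36FI_SFF M q hq hqM A hA).res c)

theorem S36CZ_zb_ne_zero (c : (S36FI_SFF M q hq hqM A hA).A) :
    S36CZ_zb M q hq hqM A hA c ≠ 0 :=
  sub_ne_zero.2 (S36CO_ne_const_of_transc (S36CZ_xb_transc M q hq hqM A hA) _)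

/-- **`hsO`**: `1/(B − c) ∈ O₃`. -/
theorem S36CZ_hsO (c : (S36FI_SFF M q hq hqM A hA).A) :
    (S36CO_BL M q (A.inertiaSubgroupIn ℚ) -
        algebraMap (S36FI_SFF M q hq hqM A hA).A
          ↥(S36FI_act (M * q * q) (A.inertiaSubgroupIn ℚ)).fixF c)⁻¹ ∈
      S36L3_O3 (S36FI_SFF M q hq hqM A hA) (S36FI_SFV M q hq hqM A hA ζ hζ hζ1)
        (S36FI_SVV M q hq hqM A hA) := by
  refine S36CO_hsO_of_transc (S36FI_same3 M q hq hqM A hA ζ hζ hζ1)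
    (S36CZ_hjO M q hq hqM A hA ζ hζ hζ1) c ?_ ?_ ?_
  · exact S36CZ_xb_transc M q hq hqM A hA
  · rw [S36CZ_red₂]
    exact S36CZ_xb_transc M q hq hqM A hA
  · rw [S36CZ_red₃]
    exact S36CZ_xb_transc M q hq hqM A hA

/-! ### the three charts -/

/-- **the chart `U = {B ≠ ∞}`.** -/
def S36CZ_C (n : ℕ) (hn : 0 < n) :
    S36L3_Chart ↥(S36FI_act (M * q * q) (A.inertiaSubgroupIn ℚ)).fixK
      ↥(S36FI_act (M * q * q) (A.inertiaSubgroupIn ℚ)).fixF (IsLocalRing.ResidueField A)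
      ↥(S36FI_kappa M A) ↥(S36FI_kappa M A) ↥(S36FI_kappa M A) n :=
  S36CU_U (S36FI_act (M * q * q) (A.inertiaSubgroupIn ℚ)) (IsLocalRing.ResidueField A)
    (S36CO_BL M q (A.inertiaSubgroupIn ℚ)) (S36CZ_xb M q hq hqM A hA) (S36CZ_xb M q hq hqM A hA)
    (S36CZ_xb M q hq hqM A hA) n hn

/-- **the chart `U' = {B ≠ c}`.** -/
def S36CZ_C' (c : (S36FI_SFF M q hq hqM A hA).A) (n : ℕ) (hn : 0 < n) :
    S36L3_Chart ↥(S36FI_act (M * q * q) (A.inertiaSubgroupIn ℚ)).fixK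
      ↥(S36FI_act (M * q * q) (A.inertiaSubgroupIn ℚ)).fixF (IsLocalRing.ResidueField A)
      ↥(S36FI_kappa M A) ↥(S36FI_kappa M A) ↥(S36FI_kappa M A) n :=
  S36CU_U' (S36FI_act (M * q * q) (A.inertiaSubgroupIn ℚ)) (IsLocalRing.ResidueField A)
    (S36CO_BL M q (A.inertiaSubgroupIn ℚ))
    (c : ↥(S36FI_act (M * q * q) (A.inertiaSubgroupIn ℚ)).fixK)
    (S36CZ_zb M q hq hqM A hA c) (S36CZ_zb M q hq hqM A hA c) (S36CZ_zb M q hq hqM A hA c) n hn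

/-- **the chart `U'' = U ∩ U'`.** -/
def S36CZ_C'' (c : (S36FI_SFF M q hq hqM A hA).A) (n : ℕ) (hn : 0 < n) :
    S36L3_Chart ↥(S36FI_act (M * q * q) (A.inertiaSubgroupIn ℚ)).fixK
      ↥(S36FI_act (M * q * q) (A.inertiaSubgroupIn ℚ)).fixF (IsLocalRing.ResidueField A)
      ↥(S36FI_kappa M A) ↥(S36FI_kappa M A) ↥(S36FI_kappa M A) n :=
  S36CU_U'' (S36FI_act (M * q * q) (A.inertiaSubgroupIn ℚ)) (IsLocalRing.ResidueField A)
    (S36CO_BL M q (A.inertiaSubgroupIn ℚ))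
    (c : ↥(S36FI_act (M * q * q) (A.inertiaSubgroupIn ℚ)).fixK)
    (S36CZ_xb M q hq hqM A hA) (S36CZ_xb M q hq hqM A hA) (S36CZ_xb M q hq hqM A hA)
    (S36CZ_zb M q hq hqM A hA c) (S36CZ_zb M q hq hqM A hA c) (S36CZ_zb M q hq hqM A hA c) n hn

variable (c : (S36FI_SFF M q hq hqM A hA).A) (n : ℕ) (hn : 0 < n)

/-- `U ⊇ U''`. -/
theorem S36CZ_hle :
    S36L3_ChartLE (S36CZ_C M q hq hqM A hA n hn) (S36CZ_C'' M q hq hqM A hA c n hn) :=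
  S36CU_le _ _ _ _ _ _ _ _ _ _ _ _

/-- `U' ⊇ U''`. -/
theorem S36CZ_hle' :
    S36L3_ChartLE (S36CZ_C' M q hq hqM A hA c n hn) (S36CZ_C'' M q hq hqM A hA c n hn) :=
  S36CU_le' _ _ _ _ _ _ _ _ _ _ _ _

/-- `hC` of `S36I3_core_fix`. -/
theorem S36CZ_hC :
    (S36CZ_C M q hq hqM A hA n hn).B =
      S36I3_reg (S36FI_act (M * q * q) (A.inertiaSubgroupIn ℚ))
        (S34IX_TU (K := Ω) ((S36CO_BL M q (A.inertiaSubgroupIn ℚ) :
          ↥(S36FI_act (M * q * q) (A.inertiaSubgroupIn ℚ)).fixF) :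
            ↥(modularFunctionFieldBar (M * q * q)))) := rfl

/-- `hC'` of `S36I3_core_fix`. -/
theorem S36CZ_hC' :
    (S36CZ_C' M q hq hqM A hA c n hn).B =
      S36I3_reg (S36FI_act (M * q * q) (A.inertiaSubgroupIn ℚ))
        (S34IX_TU' ((S36CO_BL M q (A.inertiaSubgroupIn ℚ) :
          ↥(S36FI_act (M * q * q) (A.inertiaSubgroupIn ℚ)).fixF) :
            ↥(modularFunctionFieldBar (M * q * q)))
          (((c : ↥(S36FI_act (M * q * q) (A.inertiaSubgroupIn ℚ)).fixK)) : Ω)) := rfl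

/-- `hC''` of `S36I3_core_fix`. -/
theorem S36CZ_hC'' :
    (S36CZ_C'' M q hq hqM A hA c n hn).B =
      S36I3_reg (S36FI_act (M * q * q) (A.inertiaSubgroupIn ℚ))
        (S34IX_TU'' ((S36CO_BL M q (A.inertiaSubgroupIn ℚ) :
          ↥(S36FI_act (M * q * q) (A.inertiaSubgroupIn ℚ)).fixF) :
            ↥(modularFunctionFieldBar (M * q * q)))
          (((c : ↥(S36FI_act (M * q * q) (A.inertiaSubgroupIn ℚ)).fixK)) : Ω)) := rfl

@[simp] theorem S36CZ_C_Rb₁ :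
    (S36CZ_C M q hq hqM A hA n hn).Rb₁ =
      S34SB_reg (IsLocalRing.ResidueField A) (S36CZ_xb M q hq hqM A hA) := rfl
@[simp] theorem S36CZ_C_Rb₂ :
    (S36CZ_C M q hq hqM A hA n hn).Rb₂ =
      S34SB_reg (IsLocalRing.ResidueField A) (S36CZ_xb M q hq hqM A hA) := rfl
@[simp] theorem S36CZ_C_Rb₃ :
    (S36CZ_C M q hq hqM A hA n hn).Rb₃ =
      S34SB_reg (IsLocalRing.ResidueField A) (S36CZ_xb M q hq hqM A hA) := rfl
@[simp] theorem S36CZ_C'_Rb₁ :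
    (S36CZ_C' M q hq hqM A hA c n hn).Rb₁ =
      S34SB_regZ (IsLocalRing.ResidueField A) (S36CZ_zb M q hq hqM A hA c) := rfl
@[simp] theorem S36CZ_C'_Rb₂ :
    (S36CZ_C' M q hq hqM A hA c n hn).Rb₂ =
      S34SB_regZ (IsLocalRing.ResidueField A) (S36CZ_zb M q hq hqM A hA c) := rfl
@[simp] theorem S36CZ_C'_Rb₃ :
    (S36CZ_C' M q hq hqM A hA c n hn).Rb₃ =
      S34SB_regZ (IsLocalRing.ResidueField A) (S36CZ_zb M q hq hqM A hA c) := rfl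
@[simp] theorem S36CZ_C''_Rb₁ :
    (S36CZ_C'' M q hq hqM A hA c n hn).Rb₁ =
      S34SB_reg2 (IsLocalRing.ResidueField A) (S36CZ_xb M q hq hqM A hA)
        (S36CZ_zb M q hq hqM A hA c) := rfl
@[simp] theorem S36CZ_C''_Rb₂ :
    (S36CZ_C'' M q hq hqM A hA c n hn).Rb₂ =
      S34SB_reg2 (IsLocalRing.ResidueField A) (S36CZ_xb M q hq hqM A hA)
        (S36CZ_zb M q hq hqM A hA c) := rfl
@[simp] theorem S36CZ_C''_Rb₃ :
    (S36CZ_C'' M q hq hqM A hA c n hn).Rb₃ =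
      S34SB_reg2 (IsLocalRing.ResidueField A) (S36CZ_xb M q hq hqM A hA)
        (S36CZ_zb M q hq hqM A hA c) := rfl

/-! ### `B` is a separating coordinate of `F_L / L` -/

/-- `B` is transcendental over `ℚ̄`. -/
theorem S36CZ_B_transc :
    Transcendental Ω (jBar (M * q * q) q (S36CO_q_dvd M q)) := by
  apply S36CO_transc_of_coe (modularFunctionFieldBar (M * q * q))
  rw [S36V_coe_jBar]
  exact S36CO_jqN_transc Ω q

/-- `F₂ / ℚ̄(B)` is finite. -/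
theorem S36CZ_B_finite :
    FiniteDimensional Ω⟮jBar (M * q * q) q (S36CO_q_dvd M q)⟯
      ↥(modularFunctionFieldBar (M * q * q)) :=
  BL_finite_of_transcendental (finiteDimensional_jB (M * q * q)) (S36CZ_B_transc M q)

/-- **`hj`**: `B` is transcendental over `L`. -/
theorem S36CZ_hj :
    Transcendental ↥(S36FI_act (M * q * q) (A.inertiaSubgroupIn ℚ)).fixK
      (S36CO_BL M q (A.inertiaSubgroupIn ℚ)) :=
  S36FX_transc (S36FI_act (M * q * q) (A.inertiaSubgroupIn ℚ)) _ (S36CZ_B_transc M q)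

/-- `F_L / L(B)` is finite. -/
theorem S36CZ_finite :
    FiniteDimensional
      (↥(S36FI_act (M * q * q) (A.inertiaSubgroupIn ℚ)).fixK)⟮S36CO_BL M q
        (A.inertiaSubgroupIn ℚ)⟯
      ↥(S36FI_act (M * q * q) (A.inertiaSubgroupIn ℚ)).fixF := by
  haveI : FiniteDimensional
      Ω⟮((S36CO_BL M q (A.inertiaSubgroupIn ℚ) :
        ↥(S36FI_act (M * q * q) (A.inertiaSubgroupIn ℚ)).fixF) :
          ↥(modularFunctionFieldBar (M * q * q)))⟯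
      ↥(modularFunctionFieldBar (M * q * q)) := S36CZ_B_finite M q
  exact S36FX_finite (S36FI_act (M * q * q) (A.inertiaSubgroupIn ℚ)) _ (S36CZ_B_transc M q)

/-! ### `hOv`, `hle` of LI-INST -/

section fam

variable (dvr : ∀ i, IsDiscreteValuationRing
    (S36FL_OL (S36FI_act (M * q * q) (A.inertiaSubgroupIn ℚ))
      (S36IT_Ov3 M q hq hqM A hA ζ hζ hζ1 i)))
  (T : Set (Place Ω ↥(modularFunctionFieldBar (M * q * q))))

/-- **`hOv`** of `S36LK_hun`. -/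
theorem S36CZ_hOv (i : Fin 3) :
    (S36IT_fam3 M q hq hqM A hA ζ hζ hζ1 dvr T).Ov i = (S36FI_SFF M q hq hqM A hA).O ∨
    (S36IT_fam3 M q hq hqM A hA ζ hζ hζ1 dvr T).Ov i =
      (S36FI_SFV M q hq hqM A hA ζ hζ hζ1).O ∨
    (S36IT_fam3 M q hq hqM A hA ζ hζ hζ1 dvr T).Ov i = (S36FI_SVV M q hq hqM A hA).O :=
  S36CO_hOv_fam3 M q hq hqM A hA ζ hζ hζ1 _ _ _ rfl rfl rfl dvr T i

/-- **`Λ_T = O₃ ∩ B_T`** for every chart `T`. -/
theorem S36CZ_Lam_eq :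
    (S36IT_fam3 M q hq hqM A hA ζ hζ hζ1 dvr T).Λ =
      S36LJ_Lam (S36FI_SFF M q hq hqM A hA) (S36FI_SFV M q hq hqM A hA ζ hζ hζ1)
        (S36FI_SVV M q hq hqM A hA)
        (S36I3_reg (S36FI_act (M * q * q) (A.inertiaSubgroupIn ℚ)) T).toSubring :=
  S36CO_Lam_eq_fam3 M q hq hqM A hA ζ hζ hζ1 _ _ _ rfl rfl rfl dvr T

/-- **`hle`** of `S36LK_*` on the chart `U`. -/
theorem S36CZ_hleΛ :
    (S36IT_fam3 M q hq hqM A hA ζ hζ hζ1 dvr
        (S34IX_TU ((S36CO_BL M q (A.inertiaSubgroupIn ℚ) :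
          ↥(S36FI_act (M * q * q) (A.inertiaSubgroupIn ℚ)).fixF) :
            ↥(modularFunctionFieldBar (M * q * q))))).Λ ≤
      S36LJ_Lam (S36FI_SFF M q hq hqM A hA) (S36FI_SFV M q hq hqM A hA ζ hζ hζ1)
        (S36FI_SVV M q hq hqM A hA) (S36CZ_C M q hq hqM A hA n hn).B.toSubring :=
  (S36CZ_Lam_eq M q hq hqM A hA ζ hζ hζ1 dvr _).le

/-- **`hle`** of `S36LK_*` on the chart `U'`. -/
theorem S36CZ_hleΛ' :
    (S36IT_fam3 M q hq hqM A hA ζ hζ hζ1 dvr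
        (S34IX_TU' ((S36CO_BL M q (A.inertiaSubgroupIn ℚ) :
          ↥(S36FI_act (M * q * q) (A.inertiaSubgroupIn ℚ)).fixF) :
            ↥(modularFunctionFieldBar (M * q * q)))
          (((c : ↥(S36FI_act (M * q * q) (A.inertiaSubgroupIn ℚ)).fixK)) : Ω))).Λ ≤
      S36LJ_Lam (S36FI_SFF M q hq hqM A hA) (S36FI_SFV M q hq hqM A hA ζ hζ hζ1)
        (S36FI_SVV M q hq hqM A hA) (S36CZ_C' M q hq hqM A hA c n hn).B.toSubring :=
  (S36CZ_Lam_eq M q hq hqM A hA ζ hζ hζ1 dvr _).le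

/-- **`hle`** of `S36LK_*` on the chart `U''`. -/
theorem S36CZ_hleΛ'' :
    (S36IT_fam3 M q hq hqM A hA ζ hζ hζ1 dvr
        (S34IX_TU'' ((S36CO_BL M q (A.inertiaSubgroupIn ℚ) :
          ↥(S36FI_act (M * q * q) (A.inertiaSubgroupIn ℚ)).fixF) :
            ↥(modularFunctionFieldBar (M * q * q)))
          (((c : ↥(S36FI_act (M * q * q) (A.inertiaSubgroupIn ℚ)).fixK)) : Ω))).Λ ≤
      S36LJ_Lam (S36FI_SFF M q hq hqM A hA) (S36FI_SFV M q hq hqM A hA ζ hζ hζ1)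
        (S36FI_SVV M q hq hqM A hA) (S36CZ_C'' M q hq hqM A hA c n hn).B.toSubring :=
  (S36CZ_Lam_eq M q hq hqM A hA ζ hζ hζ1 dvr _).le

end fam

end Fermat.Agent.S36
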