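import Mathlib
import Fermat.Agent.S36.Spec3Sep
import Fermat.Agent.S36.FixLFiveVal
import Fermat.Agent.S36.ChartsO3Inst
import Fermat.Agent.S34.ValWire
import Fermat.Agent.S34.SatXB2
import Fermat.Agent.Lib.DescExt

/-!
# TRACK 10 (S36), C1.7 = EVAL-INST (helper21), part 4: `hsep` on the chart `U = {B ≠ ∞}` with NO
free hypotheses.  Prefix `S36SE_`.

Ruling D9: the coordinate of all level-`M q²` charts is `B = j(t^q) = S36CO_BL M q I`, whose three
reductions are `x = j̄(t^q) = j̄^q ∈ κ`.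

* `S36SE_gauss3` : `S36SE_Gauss3` for helper1's `S36FI_SFF`, `S36FI_SFV ζ`, `S36FI_SVV`;
* `S36SE_j_integral_jq`, `S36SE_A_integral_B` : `A = j` is integral over `ℚ̄[B]`
  (Atkin–Lehner `w_q` at level `M q`, then `α₂`);
* `S36SE_hj_B` : **`hj`** : `B` regular at `Q`  ⇒  `A = jB (M q q)` regular at `Q`;
* `S36SE_jqN_eq_pow`, `S36SE_x_eq_pow` : `j̄(t^q) = j̄^q` in characteristic `q`;
* `S36SE_hx_of_reg`, `S36SE_reg_of_hx` : `x` regular ⇔ `j̄` regular; `S36SE_x_pole` : `x` has a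
  pole;
* `S36SE_reg_J`, `S36SE_reg_B` : the chart (`x = j̄`, RULING D12) is regular at the points;
* `S36SE_hsep_J` (`x_j = j̄`), `S36SE_hsep_Q` (`x_j = j̄^q`), `S36SE_hsep_B` (`x_j = j̄`, `X := S36SE_XSS D`):
  **`hsep`** of `S36TX_geo_U` for `j := B`.
-/

set_option autoImplicit false
set_option synthInstance.maxHeartbeats 400000
set_option maxHeartbeats 1000000
set_option linter.style.haveILetI false
set_option linter.unusedSectionVars false
set_option linter.unusedVariables false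

open HahnSeries IntermediateField AlgebraicCurve ModularCurve

namespace Fermat.Agent.S36

open Fermat.Agent.S18 Fermat.Agent.S24 Fermat.Agent.S34 Fermat.Agent.S37 Fermat.Agent.GalRep
  Fermat.Agent.Lib Fermat.Agent.S17

local notation "ℚbar" => AlgebraicClosure ℚ

/-! ### `A` is integral over `ℚ̄[B]` -/

section integral

variable (M q : ℕ) [NeZero M] [NeZero q] [NeZero (M * q)] (hq : q.Prime) (hqM : ¬ q ∣ M)

include hq hqM in
/-- `j` is integral over `ℚ̄[j_q]` at level `M q` (Atkin–Lehner). -/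
theorem S36SE_j_integral_jq :
    IsIntegral (Algebra.adjoin ℚbar ({S34SP_jq M q} : Set ↥(modularFunctionFieldBar (M * q))))
      (jB (M * q)) := by
  have h1 : IsIntegral
      (Algebra.adjoin ℚbar ({jB (M * q)} : Set ↥(modularFunctionFieldBar (M * q))))
      (S34SP_jq M q) :=
    S34SP_reg (M * q) _ (fun P hP => S34SX_reg_jBar (M * q) P hP q (Dvd.intro_left M rfl))
  have e1 : (S34DF_wq M q hq hqM) (jB (M * q)) = S34SP_jq M q := by
    haveI : NeZero (q * 1) := ⟨by rw [mul_one]; exact NeZero.ne q⟩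
    rw [S34VW_wq_jB M q hq hqM]
    exact S34WJ_jBar_congr (M * q) (mul_one q) _ _
  have e2 : (S34DF_wq M q hq hqM) (S34SP_jq M q) = jB (M * q) := by
    rw [← e1, S34DF_wq_wq]
  have h2 : IsIntegral (Algebra.adjoin ℚbar
      ({(S34DF_wq M q hq hqM : ↥(modularFunctionFieldBar (M * q)) →ₐ[ℚbar]
        ↥(modularFunctionFieldBar (M * q))) (jB (M * q))} :
        Set ↥(modularFunctionFieldBar (M * q))))
      ((S34DF_wq M q hq hqM : ↥(modularFunctionFieldBar (M * q)) →ₐ[ℚbar]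
        ↥(modularFunctionFieldBar (M * q))) (S34SP_jq M q)) :=
    S34S_tp_isIntegral_map _ h1
  rw [AlgEquiv.coe_toAlgHom, e1, e2] at h2
  exact h2

include hq hqM in
/-- **`A = j` is integral over `ℚ̄[B]`** at level `M q²`. -/
theorem S36SE_A_integral_B :
    IsIntegral (Algebra.adjoin ℚbar
      ({jBar (M * q * q) q (S36CO_q_dvd M q)} : Set ↥(modularFunctionFieldBar (M * q * q))))
      (jB (M * q * q)) := by
  have h := S34S_tp_isIntegral_map (heckeAlphaBar ℚbar (M * q) q)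
    (S36SE_j_integral_jq M q hq hqM)
  have e1 : heckeAlphaBar ℚbar (M * q) q (S34SP_jq M q) =
      jBar (M * q * q) q (S36CO_q_dvd M q) :=
    S34WJ_alpha_jBar (M := M * q) (q := q) q (Dvd.intro_left M rfl)
  have e2 : heckeAlphaBar ℚbar (M * q) q (jB (M * q)) = jB (M * q * q) :=
    S34SP_alpha_jB (M * q) q
  rw [e1, e2] at h
  exact h

include hq hqM in
/-- **`hj`**: where `B` is regular, `A = j` is regular. -/
theorem S36SE_hj_B (H : Subgroup (ℚbar ≃ₐ[ℚ] ℚbar))
    (Q : Place ℚbar ↥(modularFunctionFieldBar (M * q * q)))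
    (hQ : 0 ≤ Q.ord ((S36CO_BL M q H : ↥(S36FI_act (M * q * q) H).fixF) :
      ↥(modularFunctionFieldBar (M * q * q)))) :
    0 ≤ Q.ord (jB (M * q * q)) := by
  have hmem : jBar (M * q * q) q (S36CO_q_dvd M q) ∈ Q.toValuationSubring :=
    S36SE_mem_of_ord Q hQ
  exact S36SE_ord_of_mem Q (BL_mem_of_isIntegral Q hmem (S36SE_A_integral_B M q hq hqM))

end integral

/-! ### `x = j̄(t^q) = j̄^q` -/

section xfacts

variable (k : Type*) [Field k] (q : ℕ) [NeZero q]

/-- `j̄(t^q) = j̄^q` in characteristic `q`. -/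
theorem S36SE_jqN_eq_pow [Fact q.Prime] [CharP k q] : jqNModC k q = jqModC k ^ q := by
  haveI : NeZero (q * 1) := ⟨by rw [mul_one]; exact NeZero.ne q⟩
  have h := S34VW_frob k q 1
  rw [qExpand_one_apply] at h
  rw [← h]
  exact S36CO_jqN_congr k (mul_one q).symm

end xfacts

section conc

variable (M q : ℕ) [NeZero M] [NeZero q] [NeZero (M * q)] (hq : q.Prime) (hqM : ¬ q ∣ M)
  (A : ValuationSubring ℚbar) (hA : A.LiesOverPrime q)
  (ζ : ℚbarˣ) (hζ : ζ ^ q = 1) (hζ1 : ζ ≠ 1)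

/-- **the Gauss data** `S36FI_SFF`, `S36FI_SFV ζ`, `S36FI_SVV`. -/
theorem S36SE_gauss3 : S36SE_Gauss3 M q hq hqM A ζ hζ hζ1 (S36FI_SFF M q hq hqM A hA)
    (S36FI_SFV M q hq hqM A hA ζ hζ hζ1) (S36FI_SVV M q hq hqM A hA) where
  O₁ _ := Iff.rfl
  O₂ _ := Iff.rfl
  O₃ _ := Iff.rfl
  r₁ f hf _ := S36FI_SFF_red M q hq hqM A hA f hf
  r₂ f hf _ := S36FI_SFV_red M q hq hqM A hA ζ hζ hζ1 f hf
  r₃ f hf _ := S36FI_SVV_red M q hq hqM A hA f hf

include hq hA in
/-- `x = j̄^q` for every `x ∈ κ` with series `j̄(t^q)`. -/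
theorem S36SE_x_eq_pow (x : ↥(modularFunctionFieldFullC (IsLocalRing.ResidueField A) M))
    (hx : (x : LaurentSeries (IsLocalRing.ResidueField A)) =
      jqNModC (IsLocalRing.ResidueField A) q) :
    x = S18_jbar M (IsLocalRing.ResidueField A) ^ q := by
  haveI : Fact q.Prime := ⟨hq⟩
  haveI : CharP (IsLocalRing.ResidueField A) q := S18_residue_charP A q hq hA
  apply Subtype.ext
  rw [hx, S36SE_jqN_eq_pow]
  rfl

include hq hA in
/-- `j̄` regular ⇒ `x` regular. -/
theorem S36SE_hx_of_reg (x : ↥(modularFunctionFieldFullC (IsLocalRing.ResidueField A) M))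
    (hx : (x : LaurentSeries (IsLocalRing.ResidueField A)) =
      jqNModC (IsLocalRing.ResidueField A) q)
    (Q : Place (IsLocalRing.ResidueField A)
      ↥(modularFunctionFieldFullC (IsLocalRing.ResidueField A) M))
    (hQ : 0 ≤ Q.ord (S18_jbar M (IsLocalRing.ResidueField A))) : 0 ≤ Q.ord x := by
  rw [S36SE_x_eq_pow M q hq A hA x hx]
  exact (S36SE_ord_pow_nonneg_iff Q _ hq.pos).2 hQ

include hq hA in
/-- `x` regular ⇒ `j̄` regular. -/
theorem S36SE_reg_of_hx (x : ↥(modularFunctionFieldFullC (IsLocalRing.ResidueField A) M))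
    (hx : (x : LaurentSeries (IsLocalRing.ResidueField A)) =
      jqNModC (IsLocalRing.ResidueField A) q)
    (Q : Place (IsLocalRing.ResidueField A)
      ↥(modularFunctionFieldFullC (IsLocalRing.ResidueField A) M))
    (hQ : 0 ≤ Q.ord x) : 0 ≤ Q.ord (S18_jbar M (IsLocalRing.ResidueField A)) := by
  rw [S36SE_x_eq_pow M q hq A hA x hx] at hQ
  exact (S36SE_ord_pow_nonneg_iff Q _ hq.pos).1 hQ

include hq hqM hA in
/-- `x` has a pole. -/
theorem S36SE_x_pole (x : ↥(modularFunctionFieldFullC (IsLocalRing.ResidueField A) M))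
    (hx : (x : LaurentSeries (IsLocalRing.ResidueField A)) =
      jqNModC (IsLocalRing.ResidueField A) q) :
    ∃ c₀ : Place (IsLocalRing.ResidueField A)
      ↥(modularFunctionFieldFullC (IsLocalRing.ResidueField A) M), c₀.ord x < 0 := by
  refine DSC_exists_pole (S18_hk M A hq hA hqM) x ?_
  rintro ⟨c, hc⟩
  have htr : Transcendental (IsLocalRing.ResidueField A) x :=
    S36CO_transc_of_coe _ (by rw [hx]; exact S36CO_jqN_transc _ q)
  exact htr (hc ▸ isAlgebraic_algebraMap c)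

/-! ### `hsep` on the concrete chart `U = {B ≠ ∞}` -/

variable {hgen : PrincipalGeneratedByIntegral A (IsLocalRing.residue A) (M * q)}
  {n' : ℕ} {hn' : 0 < n'} (n : ℕ) (hn : 0 < n)

include hq hqM hA in
/-- `j̄` has a pole. -/
theorem S36SE_jbar_pole :
    ∃ c₀ : Place (IsLocalRing.ResidueField A)
      ↥(modularFunctionFieldFullC (IsLocalRing.ResidueField A) M),
      c₀.ord (S18_jbar M (IsLocalRing.ResidueField A)) < 0 := by
  refine DSC_exists_pole (S18_hk M A hq hA hqM) _ ?_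
  rintro ⟨c, hc⟩
  have htr : Transcendental (IsLocalRing.ResidueField A)
      (S18_jbar M (IsLocalRing.ResidueField A)) :=
    S36CO_transc_of_coe _ (AX_transcendental_jqModC _)
  exact htr (hc ▸ isAlgebraic_algebraMap c)

/-- the chart `U = {B ≠ ∞}` written with `x = j̄` (RULING D12) is regular at points where `j̄`
is regular. -/
theorem S36SE_reg_J {ι : Type*}
    (X : S36SE_Pts (IsLocalRing.ResidueField A)
      ↥(modularFunctionFieldFullC (IsLocalRing.ResidueField A) M)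
      ↥(modularFunctionFieldFullC (IsLocalRing.ResidueField A) M)
      ↥(modularFunctionFieldFullC (IsLocalRing.ResidueField A) M) ι)
    (h₁ : ∀ y, 0 ≤ (X.P₁ y).ord (S18_jbar M (IsLocalRing.ResidueField A)))
    (h₂ : ∀ y, 0 ≤ (X.P₂ y).ord (S18_jbar M (IsLocalRing.ResidueField A)))
    (h₃ : ∀ y, 0 ≤ (X.P₃ y).ord (S18_jbar M (IsLocalRing.ResidueField A))) :
    S36SE_Reg (S36CU_U (S36FI_act (M * q * q) (A.inertiaSubgroupIn ℚ))
      (IsLocalRing.ResidueField A) (S36CO_BL M q (A.inertiaSubgroupIn ℚ))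
      (S18_jbar M (IsLocalRing.ResidueField A)) (S18_jbar M (IsLocalRing.ResidueField A))
      (S18_jbar M (IsLocalRing.ResidueField A)) n hn) X :=
  S36CU_Reg_U _ _ _ _ _ _ _ _ X
    (fun y => (S36CU_adic_iff_ord _ _).2 (h₁ y))
    (fun y => (S36CU_adic_iff_ord _ _).2 (h₂ y))
    (fun y => (S36CU_adic_iff_ord _ _).2 (h₃ y))

include hq hqM hA in
/-- **`hsep` on the chart `U = {B ≠ ∞}` written with `x = j̄`** (RULING D12), for any points `X`
with `P₁` injective and `j̄` regular at the `P₁ y`. -/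
theorem S36SE_hsep_J {ι : Type*} [Finite ι]
    (X : S36SE_Pts (IsLocalRing.ResidueField A)
      ↥(modularFunctionFieldFullC (IsLocalRing.ResidueField A) M)
      ↥(modularFunctionFieldFullC (IsLocalRing.ResidueField A) M)
      ↥(modularFunctionFieldFullC (IsLocalRing.ResidueField A) M) ι)
    (hC : S36SE_Reg (S36CU_U (S36FI_act (M * q * q) (A.inertiaSubgroupIn ℚ))
      (IsLocalRing.ResidueField A) (S36CO_BL M q (A.inertiaSubgroupIn ℚ))
      (S18_jbar M (IsLocalRing.ResidueField A)) (S18_jbar M (IsLocalRing.ResidueField A))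
      (S18_jbar M (IsLocalRing.ResidueField A)) n hn) X)
    (hinj : Function.Injective X.P₁)
    (h₁ : ∀ y, 0 ≤ (X.P₁ y).ord (S18_jbar M (IsLocalRing.ResidueField A))) (y : ι) :
    ∃ w ∈ S36L3_W (S36FI_same3 M q hq hqM A hA ζ hζ hζ1)
        (S36CU_U (S36FI_act (M * q * q) (A.inertiaSubgroupIn ℚ))
          (IsLocalRing.ResidueField A) (S36CO_BL M q (A.inertiaSubgroupIn ℚ))
          (S18_jbar M (IsLocalRing.ResidueField A)) (S18_jbar M (IsLocalRing.ResidueField A))
          (S18_jbar M (IsLocalRing.ResidueField A)) n hn) 1,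
      S36SE_e₁ (S36CU_U (S36FI_act (M * q * q) (A.inertiaSubgroupIn ℚ))
          (IsLocalRing.ResidueField A) (S36CO_BL M q (A.inertiaSubgroupIn ℚ))
          (S18_jbar M (IsLocalRing.ResidueField A)) (S18_jbar M (IsLocalRing.ResidueField A))
          (S18_jbar M (IsLocalRing.ResidueField A)) n hn) X hC y w.1 = 1 ∧
      ∀ y', y' ≠ y → S36SE_e₁ (S36CU_U (S36FI_act (M * q * q) (A.inertiaSubgroupIn ℚ))
          (IsLocalRing.ResidueField A) (S36CO_BL M q (A.inertiaSubgroupIn ℚ))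
          (S18_jbar M (IsLocalRing.ResidueField A)) (S18_jbar M (IsLocalRing.ResidueField A))
          (S18_jbar M (IsLocalRing.ResidueField A)) n hn) X hC y' w.1 = 0 := by
  obtain ⟨c₀, hc₀⟩ := S36SE_jbar_pole M q hq hqM A hA
  exact S36SE_hsep_U M q hq hqM A hA ζ hζ hζ1 (S36FI_same3 M q hq hqM A hA ζ hζ hζ1)
    (S36SE_gauss3 M q hq hqM A hA ζ hζ hζ1) (S36CO_BL M q (A.inertiaSubgroupIn ℚ))
    _ _ _ n hn
    (S36SE_hj_B M q hq hqM (A.inertiaSubgroupIn ℚ))
    (fun _ h => h) (fun _ h => h) (fun _ h => h)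
    c₀ hc₀ X hC hinj (fun y => (S36CU_adic_iff_ord _ _).2 (h₁ y)) y

include hq hqM hA in
/-- **`hsep` on the chart `U = {B ≠ ∞}` written with `x_j = j̄(t^q) = j̄^q`** (any `x_j ∈ κ` with
series `j̄(t^q)`, e.g. `S_j.red B`), for any points `X` with `P₁` injective and `j̄` regular at
the `P₁ y`. -/
theorem S36SE_hsep_Q {ι : Type*} [Finite ι]
    (x₁ x₂ x₃ : ↥(modularFunctionFieldFullC (IsLocalRing.ResidueField A) M))
    (hx₁ : (x₁ : LaurentSeries (IsLocalRing.ResidueField A)) =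
      jqNModC (IsLocalRing.ResidueField A) q)
    (hx₂ : (x₂ : LaurentSeries (IsLocalRing.ResidueField A)) =
      jqNModC (IsLocalRing.ResidueField A) q)
    (hx₃ : (x₃ : LaurentSeries (IsLocalRing.ResidueField A)) =
      jqNModC (IsLocalRing.ResidueField A) q)
    (X : S36SE_Pts (IsLocalRing.ResidueField A)
      ↥(modularFunctionFieldFullC (IsLocalRing.ResidueField A) M)
      ↥(modularFunctionFieldFullC (IsLocalRing.ResidueField A) M)
      ↥(modularFunctionFieldFullC (IsLocalRing.ResidueField A) M) ι)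
    (hC : S36SE_Reg (S36CU_U (S36FI_act (M * q * q) (A.inertiaSubgroupIn ℚ))
      (IsLocalRing.ResidueField A) (S36CO_BL M q (A.inertiaSubgroupIn ℚ)) x₁ x₂ x₃ n hn) X)
    (hinj : Function.Injective X.P₁)
    (h₁ : ∀ y, 0 ≤ (X.P₁ y).ord (S18_jbar M (IsLocalRing.ResidueField A))) (y : ι) :
    ∃ w ∈ S36L3_W (S36FI_same3 M q hq hqM A hA ζ hζ hζ1)
        (S36CU_U (S36FI_act (M * q * q) (A.inertiaSubgroupIn ℚ))
          (IsLocalRing.ResidueField A) (S36CO_BL M q (A.inertiaSubgroupIn ℚ)) x₁ x₂ x₃ n hn) 1,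
      S36SE_e₁ (S36CU_U (S36FI_act (M * q * q) (A.inertiaSubgroupIn ℚ))
          (IsLocalRing.ResidueField A) (S36CO_BL M q (A.inertiaSubgroupIn ℚ)) x₁ x₂ x₃ n hn)
          X hC y w.1 = 1 ∧
      ∀ y', y' ≠ y → S36SE_e₁ (S36CU_U (S36FI_act (M * q * q) (A.inertiaSubgroupIn ℚ))
          (IsLocalRing.ResidueField A) (S36CO_BL M q (A.inertiaSubgroupIn ℚ)) x₁ x₂ x₃ n hn)
          X hC y' w.1 = 0 := by
  obtain ⟨c₀, hc₀⟩ := S36SE_x_pole M q hq hqM A hA x₁ hx₁
  exact S36SE_hsep_U M q hq hqM A hA ζ hζ hζ1 (S36FI_same3 M q hq hqM A hA ζ hζ hζ1)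
    (S36SE_gauss3 M q hq hqM A hA ζ hζ hζ1) (S36CO_BL M q (A.inertiaSubgroupIn ℚ))
    x₁ x₂ x₃ n hn
    (S36SE_hj_B M q hq hqM (A.inertiaSubgroupIn ℚ))
    (S36SE_hx_of_reg M q hq A hA x₁ hx₁)
    (S36SE_reg_of_hx M q hq A hA x₂ hx₂)
    (S36SE_reg_of_hx M q hq A hA x₃ hx₃)
    c₀ hc₀ X hC hinj
    (fun y => (S36CU_adic_iff_ord _ _).2 (S36SE_hx_of_reg M q hq A hA x₁ hx₁ _ (h₁ y))) y

/-! ### at the supersingular points -/

include hA in
/-- the chart `U = {B ≠ ∞}` (`x = j̄`) is regular at the supersingular points. -/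
theorem S36SE_reg_B (D : S36SS_Data M q hq hqM A hgen n' hn') :
    S36SE_Reg (S36CU_U (S36FI_act (M * q * q) (A.inertiaSubgroupIn ℚ))
      (IsLocalRing.ResidueField A) (S36CO_BL M q (A.inertiaSubgroupIn ℚ))
      (S18_jbar M (IsLocalRing.ResidueField A)) (S18_jbar M (IsLocalRing.ResidueField A))
      (S18_jbar M (IsLocalRing.ResidueField A)) n hn) (S36SE_XSS M q hq hqM A hA D) :=
  S36SE_reg_J M q A n hn _ (fun y => D.SS_reg y.1 y.2) (fun y => D.SS_reg y.1 y.2)
    (fun y => D.SS_reg y.1 y.2)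

include hq hqM hA in
/-- **`hsep` on the chart `U = {B ≠ ∞}` (`x = j̄`) at the supersingular points** — no free
hypotheses. -/
theorem S36SE_hsep_B (D : S36SS_Data M q hq hqM A hgen n' hn')
    (hC : S36SE_Reg (S36CU_U (S36FI_act (M * q * q) (A.inertiaSubgroupIn ℚ))
      (IsLocalRing.ResidueField A) (S36CO_BL M q (A.inertiaSubgroupIn ℚ))
      (S18_jbar M (IsLocalRing.ResidueField A)) (S18_jbar M (IsLocalRing.ResidueField A))
      (S18_jbar M (IsLocalRing.ResidueField A)) n hn) (S36SE_XSS M q hq hqM A hA D))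
    (y : ↥D.SS) :
    ∃ w ∈ S36L3_W (S36FI_same3 M q hq hqM A hA ζ hζ hζ1)
        (S36CU_U (S36FI_act (M * q * q) (A.inertiaSubgroupIn ℚ))
          (IsLocalRing.ResidueField A) (S36CO_BL M q (A.inertiaSubgroupIn ℚ))
          (S18_jbar M (IsLocalRing.ResidueField A)) (S18_jbar M (IsLocalRing.ResidueField A))
          (S18_jbar M (IsLocalRing.ResidueField A)) n hn) 1,
      S36SE_e₁ (S36CU_U (S36FI_act (M * q * q) (A.inertiaSubgroupIn ℚ))
          (IsLocalRing.ResidueField A) (S36CO_BL M q (A.inertiaSubgroupIn ℚ))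
          (S18_jbar M (IsLocalRing.ResidueField A)) (S18_jbar M (IsLocalRing.ResidueField A))
          (S18_jbar M (IsLocalRing.ResidueField A)) n hn) (S36SE_XSS M q hq hqM A hA D) hC y
          w.1 = 1 ∧
      ∀ y', y' ≠ y → S36SE_e₁ (S36CU_U (S36FI_act (M * q * q) (A.inertiaSubgroupIn ℚ))
          (IsLocalRing.ResidueField A) (S36CO_BL M q (A.inertiaSubgroupIn ℚ))
          (S18_jbar M (IsLocalRing.ResidueField A)) (S18_jbar M (IsLocalRing.ResidueField A))
          (S18_jbar M (IsLocalRing.ResidueField A)) n hn) (S36SE_XSS M q hq hqM A hA D) hC y'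
          w.1 = 0 :=
  S36SE_hsep_J M q hq hqM A hA ζ hζ hζ1 n hn _ hC (S36SE_XSS_inj M q hq hqM A hA D)
    (fun y => D.SS_reg y.1 y.2) y

end conc

end Fermat.Agent.S36
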