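import Mathlib
import Fermat.Agent.S36.Spec3SepB
import Fermat.Agent.S36.ChartsB

/-!
# TRACK 10 (S36), C1.7 = EVAL-INST (helper21), part 5: the points `X` and `hsep` on helper23's
concrete charts `S36CZ_C`, `S36CZ_C'`, `S36CZ_C''`.  Prefix `S36SE_`.

`X := S36SE_XSS D` (the supersingular places of `κ`, the same on the three branches).

* `S36SE_Cok D c` : the constant `c` is admissible: `x̄(y) ≠ c̄` at all supersingular `y`
  (so that the supersingular points lie on `U' = {B ≠ c}`);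
* `S36SE_exists_c D T` : there is an admissible `c` with `c̄ ∉ T`, for every finite `T ⊂ k`;
* `S36SE_reg_Z`, `S36SE_reg_Z'`, `S36SE_reg_Z''` : **`hX`** : the three charts are regular at `X`;
* `S36SE_hsep_Z` : **`hsep`** on `S36CZ_C` (for `S36TX_geo_fin`), any proof `hC` of regularity.
-/

set_option autoImplicit false
set_option synthInstance.maxHeartbeats 400000
set_option maxHeartbeats 1000000
set_option linter.style.haveILetI false
set_option linter.unusedSectionVars false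
set_option linter.unusedVariables false

open HahnSeries IntermediateField AlgebraicCurve ModularCurve

namespace Fermat.Agent.S36

open Fermat.Agent.S18 Fermat.Agent.S24 Fermat.Agent.S34 Fermat.Agent.S37 Fermat.Agent.GalRep
  Fermat.Agent.Lib Fermat.Agent.S17

local notation "ℚbar" => AlgebraicClosure ℚ

variable (M q : ℕ) [NeZero M] [NeZero q] [NeZero (M * q)] (hq : q.Prime) (hqM : ¬ q ∣ M)
  (A : ValuationSubring ℚbar) (hA : A.LiesOverPrime q)
  (ζ : ℚbarˣ) (hζ : ζ ^ q = 1) (hζ1 : ζ ≠ 1)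
  {hgen : PrincipalGeneratedByIntegral A (IsLocalRing.residue A) (M * q)}
  {n' : ℕ} {hn' : 0 < n'} (n : ℕ) (hn : 0 < n)

/-- the constant `c` is admissible for the supersingular points: `x̄(y) ≠ c̄`. -/
def S36SE_Cok (D : S36SS_Data M q hq hqM A hgen n' hn')
    (c : (S36FI_SFF M q hq hqM A hA).A) : Prop :=
  ∀ y : ↥D.SS, FD_c0 (y.1 : Place (IsLocalRing.ResidueField A)
    ↥(modularFunctionFieldFullC (IsLocalRing.ResidueField A) M)) (S36CZ_xb M q hq hqM A hA) ≠
      (S36FI_SFF M q hq hqM A hA).res c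

/-- there is an admissible constant whose residue avoids a given finite set. -/
theorem S36SE_exists_c (D : S36SS_Data M q hq hqM A hgen n' hn')
    (T : Finset (IsLocalRing.ResidueField A)) :
    ∃ c : (S36FI_SFF M q hq hqM A hA).A, (S36FI_SFF M q hq hqM A hA).res c ∉ T ∧
      S36SE_Cok M q hq hqM A hA D c := by
  classical
  haveI : IsAlgClosed (IsLocalRing.ResidueField A) := S18_residue_isAlgClosed A
  haveI : Infinite (IsLocalRing.ResidueField A) := IsAlgClosed.instInfinite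
  obtain ⟨cb, hcb⟩ := Infinite.exists_notMem_finset
    (T ∪ D.SS.image (fun P => FD_c0 P (S36CZ_xb M q hq hqM A hA)))
  obtain ⟨c, rfl⟩ := (S36FI_SFF M q hq hqM A hA).res_surjective cb
  rw [Finset.mem_union, not_or] at hcb
  refine ⟨c, hcb.1, fun y h => hcb.2 ?_⟩
  rw [Finset.mem_image]
  exact ⟨y.1, y.2, h⟩

include hq hqM hA in
/-- `x̄` is regular at the supersingular places. -/
theorem S36SE_xb_reg (D : S36SS_Data M q hq hqM A hgen n' hn') (y : ↥D.SS) :
    (y.1 : Place (IsLocalRing.ResidueField A)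
      ↥(modularFunctionFieldFullC (IsLocalRing.ResidueField A) M)).adicValuation
        (S36CZ_xb M q hq hqM A hA) ≤ 1 :=
  (S36CU_adic_iff_ord _ _).2
    (S36SE_hx_of_reg M q hq A hA _ (S36CZ_xb_coe M q hq hqM A hA) _ (D.SS_reg y.1 y.2))

include hq hqM hA in
/-- `1/z̄` is regular at the supersingular places, for an admissible `c`. -/
theorem S36SE_zb_reg (D : S36SS_Data M q hq hqM A hgen n' hn')
    (c : (S36FI_SFF M q hq hqM A hA).A) (hc : S36SE_Cok M q hq hqM A hA D c) (y : ↥D.SS) :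
    (y.1 : Place (IsLocalRing.ResidueField A)
      ↥(modularFunctionFieldFullC (IsLocalRing.ResidueField A) M)).adicValuation
        (S36CZ_zb M q hq hqM A hA c)⁻¹ ≤ 1 :=
  S36CU_inv_adic_of_c0 _ ((S18_hk M A hq hA hqM).deg_one _) _
    (S36SE_xb_reg M q hq hqM A hA D y) _ (hc y)

include hq hqM hA in
/-- **`hX`** on `U = {B ≠ ∞}`. -/
theorem S36SE_reg_Z (D : S36SS_Data M q hq hqM A hgen n' hn') :
    S36SE_Reg (S36CZ_C M q hq hqM A hA n hn) (S36SE_XSS M q hq hqM A hA D) :=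
  S36CU_Reg_U _ _ _ _ _ _ _ _ _ (S36SE_xb_reg M q hq hqM A hA D)
    (S36SE_xb_reg M q hq hqM A hA D) (S36SE_xb_reg M q hq hqM A hA D)

include hq hqM hA in
/-- **`hX`** on `U' = {B ≠ c}`. -/
theorem S36SE_reg_Z' (D : S36SS_Data M q hq hqM A hgen n' hn')
    (c : (S36FI_SFF M q hq hqM A hA).A) (hc : S36SE_Cok M q hq hqM A hA D c) :
    S36SE_Reg (S36CZ_C' M q hq hqM A hA c n hn) (S36SE_XSS M q hq hqM A hA D) :=
  S36CU_Reg_U' _ _ _ _ _ _ _ _ _ _ (S36SE_zb_reg M q hq hqM A hA D c hc)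
    (S36SE_zb_reg M q hq hqM A hA D c hc) (S36SE_zb_reg M q hq hqM A hA D c hc)

include hq hqM hA in
/-- **`hX`** on `U'' = U ∩ U'`. -/
theorem S36SE_reg_Z'' (D : S36SS_Data M q hq hqM A hgen n' hn')
    (c : (S36FI_SFF M q hq hqM A hA).A) (hc : S36SE_Cok M q hq hqM A hA D c) :
    S36SE_Reg (S36CZ_C'' M q hq hqM A hA c n hn) (S36SE_XSS M q hq hqM A hA D) :=
  S36CU_Reg_U'' _ _ _ _ _ _ _ _ _ _ _ _ _ (S36SE_xb_reg M q hq hqM A hA D)
    (S36SE_xb_reg M q hq hqM A hA D) (S36SE_xb_reg M q hq hqM A hA D)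
    (S36SE_zb_reg M q hq hqM A hA D c hc)
    (S36SE_zb_reg M q hq hqM A hA D c hc) (S36SE_zb_reg M q hq hqM A hA D c hc)

include hq hqM hA in
/-- **`hsep` on `S36CZ_C`** (chart `U = {B ≠ ∞}`) at the supersingular points, for any proof
`hC` of the regularity — no free hypotheses. -/
theorem S36SE_hsep_Z (D : S36SS_Data M q hq hqM A hgen n' hn')
    (hC : S36SE_Reg (S36CZ_C M q hq hqM A hA n hn) (S36SE_XSS M q hq hqM A hA D))
    (y : ↥D.SS) :
    ∃ w ∈ S36L3_W (S36FI_same3 M q hq hqM A hA ζ hζ hζ1) (S36CZ_C M q hq hqM A hA n hn) 1,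
      S36SE_e₁ (S36CZ_C M q hq hqM A hA n hn) (S36SE_XSS M q hq hqM A hA D) hC y w.1 = 1 ∧
      ∀ y', y' ≠ y →
        S36SE_e₁ (S36CZ_C M q hq hqM A hA n hn) (S36SE_XSS M q hq hqM A hA D) hC y' w.1 = 0 :=
  S36SE_hsep_Q M q hq hqM A hA ζ hζ hζ1 n hn _ _ _ (S36CZ_xb_coe M q hq hqM A hA)
    (S36CZ_xb_coe M q hq hqM A hA) (S36CZ_xb_coe M q hq hqM A hA) _ hC
    (S36SE_XSS_inj M q hq hqM A hA D) (fun y => D.SS_reg y.1 y.2) y

include hq hqM hA in
/-- **`hsep` on `S36CZ_C`** for any points `X` with `P₁` injective and `j̄` regular at the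
`P₁ y`. -/
theorem S36SE_hsep_ZX {ι : Type*} [Finite ι]
    (X : S36SE_Pts (IsLocalRing.ResidueField A)
      ↥(modularFunctionFieldFullC (IsLocalRing.ResidueField A) M)
      ↥(modularFunctionFieldFullC (IsLocalRing.ResidueField A) M)
      ↥(modularFunctionFieldFullC (IsLocalRing.ResidueField A) M) ι)
    (hC : S36SE_Reg (S36CZ_C M q hq hqM A hA n hn) X)
    (hinj : Function.Injective X.P₁)
    (h₁ : ∀ y, 0 ≤ (X.P₁ y).ord (S18_jbar M (IsLocalRing.ResidueField A))) (y : ι) :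
    ∃ w ∈ S36L3_W (S36FI_same3 M q hq hqM A hA ζ hζ hζ1) (S36CZ_C M q hq hqM A hA n hn) 1,
      S36SE_e₁ (S36CZ_C M q hq hqM A hA n hn) X hC y w.1 = 1 ∧
      ∀ y', y' ≠ y → S36SE_e₁ (S36CZ_C M q hq hqM A hA n hn) X hC y' w.1 = 0 :=
  S36SE_hsep_Q M q hq hqM A hA ζ hζ hζ1 n hn _ _ _ (S36CZ_xb_coe M q hq hqM A hA)
    (S36CZ_xb_coe M q hq hqM A hA) (S36CZ_xb_coe M q hq hqM A hA) X hC hinj h₁ y

end Fermat.Agent.S36
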