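import Fermat.Agent.S36.Nodal3UBr
import Fermat.Agent.S36.Nodal3C
import Fermat.Agent.S36.Spec3Sep
import Fermat.Agent.S36.Spec3SepZ
import Fermat.Agent.S36.Nodal3Ev

/-!
# TRACK 10 (S36), hint_j on the chart `U'` (helper12), part 6: `hint₁`, `hint₂`, `hint₃` of
`S36TI_Geo` on helper23's chart `S36CZ_C'` at the supersingular points `S36SE_XSS D`

* `S36NU_hint_of` : `hint₁ ∧ hint₂ ∧ hint₃` (the output of helper14's `S36N3C_hint`, = the
  inputs `hint_j` of helper2's `S36CX_geo_U'2`) for `C = S36CZ_C' … c n hn`, `X = S36SE_XSS D`,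
  from the level description on `κ₁` (`hNE`, REQUEST 2);
* `S36NU_he₂`, `S36NU_hNE` : `hNE` from helper3's `S36N3E_main` (NODE-EV + NODE-SYM);
* **`S36NU_HAB`** : (HA), (HB) on `S36CZ_C'`, NO hypothesis left except `hc` (`c̄` is not the
  `j`-invariant of a node);
* **`S36NU_hint`** : `hint₁ ∧ hint₂ ∧ hint₃` on `S36CZ_C'` at `S36SE_XSS D`, from `hc` and
  helper21's `S36SE_Cok` (regularity of the chart at the supersingular points).
Prefix `S36NU_`.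
-/

set_option autoImplicit false
set_option synthInstance.maxHeartbeats 400000
set_option maxHeartbeats 1000000
set_option linter.unusedSectionVars false
set_option linter.unusedVariables false
set_option linter.style.haveILetI false

open HahnSeries IntermediateField AlgebraicCurve ModularCurve

noncomputable section

namespace Fermat.Agent.S36

open Fermat.Agent.Lib Fermat.Agent.S18 Fermat.Agent.S24 Fermat.Agent.GalRep Fermat.Agent.S34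

local notation "ℚbar" => AlgebraicClosure ℚ

variable (M q : ℕ) [NeZero M] [NeZero q] [NeZero (M * q)] (hq : q.Prime) (hqM : ¬ q ∣ M)
  (A : ValuationSubring ℚbar) (hA : A.LiesOverPrime q)
  (ζ : ℚbarˣ) (hζ : ζ ^ q = 1) (hζ1 : ζ ≠ 1)
  (hgen : PrincipalGeneratedByIntegral A (IsLocalRing.residue A) (M * q))
  {n' : ℕ} {hn' : 0 < n'}

include hA in
/-- **`hint₁`, `hint₂`, `hint₃` on the chart `U' = {B ≠ c}`** at the supersingular points, from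
the level description on `κ₁` (`hNE`). -/
theorem S36NU_hint_of (D : S36SS_Data M q hq hqM A hgen n' hn')
    (c : (S36FI_SFF M q hq hqM A hA).A)
    (hc : ∀ i, D.e₁ i ⟨S34M_xb M q A, S34SB_self_mem_reg _⟩ ≠ (S36FI_SFF M q hq hqM A hA).res c)
    (hNE : ∀ a₁ : ↥(modularFunctionFieldFullC (IsLocalRing.ResidueField A) (M * q)),
      a₁ ∈ S34SB_regZ (IsLocalRing.ResidueField A) (S34M_xb M q A ^ q -
        algebraMap (IsLocalRing.ResidueField A)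
          ↥(modularFunctionFieldFullC (IsLocalRing.ResidueField A) (M * q))
          ((S36FI_SFF M q hq hqM A hA).res c)) →
      (∀ i, (D.P i).adicValuation a₁ < 1) → ∀ m₀ : ℕ, ∃ b, m₀ ≤ b ∧
        a₁ ∈ riemannRochSpace (S34P_E (S34VF_hk M A hq hA hqM).principal (S34M_xb M q A ^ q)
          (S34M_xb M q A ^ q - algebraMap _ _ ((S36FI_SFF M q hq hqM A hA).res c)) 0 b) ∧
        ∀ i, S34CH_ev (S34SB_reg (IsLocalRing.ResidueField A) (S34M_xb M q A ^ q))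
          (S34M_xb M q A ^ q - algebraMap _ _ ((S36FI_SFF M q hq hqM A hA).res c))
          (S34SB_sub_const_mem_reg (S34M_xb M q A ^ q) _) (D.e₂ i) a₁ = 0)
    (n : ℕ) (hn : 0 < n)
    (hC : S36SE_Reg (S36CZ_C' M q hq hqM A hA c n hn) (S36SE_XSS M q hq hqM A hA D)) :
    (∀ g g' : ↥(S36CZ_C' M q hq hqM A hA c n hn).Rb₁,
      (∀ y, S36SE_e₁ _ (S36SE_XSS M q hq hqM A hA D) hC y g = 0) →
      (∀ y, S36SE_e₁ _ (S36SE_XSS M q hq hqM A hA D) hC y g' = 0) →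
      ((g * g', 0, 0) : ↥(S36CZ_C' M q hq hqM A hA c n hn).Rb₁ ×
          ↥(S36CZ_C' M q hq hqM A hA c n hn).Rb₂ × ↥(S36CZ_C' M q hq hqM A hA c n hn).Rb₃) ∈
        S36L3_W (S36FI_same3 M q hq hqM A hA ζ hζ hζ1) (S36CZ_C' M q hq hqM A hA c n hn) 1) ∧
    (∀ g g' : ↥(S36CZ_C' M q hq hqM A hA c n hn).Rb₂,
      (∀ y, S36SE_e₂ _ (S36SE_XSS M q hq hqM A hA D) hC y g = 0) →
      (∀ y, S36SE_e₂ _ (S36SE_XSS M q hq hqM A hA D) hC y g' = 0) →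
      ((0, g * g', 0) : ↥(S36CZ_C' M q hq hqM A hA c n hn).Rb₁ ×
          ↥(S36CZ_C' M q hq hqM A hA c n hn).Rb₂ × ↥(S36CZ_C' M q hq hqM A hA c n hn).Rb₃) ∈
        S36L3_W (S36FI_same3 M q hq hqM A hA ζ hζ hζ1) (S36CZ_C' M q hq hqM A hA c n hn) 1) ∧
    (∀ g g' : ↥(S36CZ_C' M q hq hqM A hA c n hn).Rb₃,
      (∀ y, S36SE_e₃ _ (S36SE_XSS M q hq hqM A hA D) hC y g = 0) →
      (∀ y, S36SE_e₃ _ (S36SE_XSS M q hq hqM A hA D) hC y g' = 0) →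
      ((0, 0, g * g') : ↥(S36CZ_C' M q hq hqM A hA c n hn).Rb₁ ×
          ↥(S36CZ_C' M q hq hqM A hA c n hn).Rb₂ × ↥(S36CZ_C' M q hq hqM A hA c n hn).Rb₃) ∈
        S36L3_W (S36FI_same3 M q hq hqM A hA ζ hζ hζ1) (S36CZ_C' M q hq hqM A hA c n hn) 1) := by
  have hAB := S36NU_HAB_of M q hq hqM A hA ζ hζ hζ1 hgen D c hc hNE n hn
  exact S36N3C_hint (S36FI_same3 M q hq hqM A hA ζ hζ hζ1) (S36CZ_C' M q hq hqM A hA c n hn)
    (S36SE_XSS M q hq hqM A hA D) hC rfl rfl (fun _ => rfl) (fun _ => rfl)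
    (fun a ha hv => hAB.1 a ha fun v hv' => hv ⟨v, hv'⟩)
    (fun a ha hv => hAB.2 a ha fun v hv' => hv ⟨v, hv'⟩)

include hA in
/-- the second-branch nodes do not lie on `{j̄^q = γ}`. -/
theorem S36NU_he₂ (D : S36SS_Data M q hq hqM A hgen n' hn')
    (c₁ : (S34M_T1 M q A hgen).A) (γ : IsLocalRing.ResidueField A)
    (hγ : γ = (S34M_T1 M q A hgen).res c₁)
    (hc : ∀ i, D.e₁ i ⟨S34M_xb M q A, S34SB_self_mem_reg _⟩ ≠ γ) :
    ∀ i, D.e₂ i ⟨S34M_xb M q A ^ q - algebraMap _ _ γ,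
      S34SB_sub_const_mem_reg (S34M_xb M q A ^ q) γ⟩ ≠ 0 := by
  subst hγ
  obtain ⟨he₁, he₁₂, -⟩ := S36NU_lev_aux M q hq hqM A hgen hA (S34M_xb M q A)
    (S34NXF_xb M q A) hn' D.e₁ D.e₂ D.hE D.hW1 c₁ hc
  intro i h
  exact he₁ i ((he₁₂ i).trans h)

include hA in
/-- **`hNE`** (REQUEST 2) from helper3's `S36N3E_main`. -/
theorem S36NU_hNE (D : S36SS_Data M q hq hqM A hgen n' hn')
    (c : (S36FI_SFF M q hq hqM A hA).A)
    (hc : ∀ i, D.e₁ i ⟨S34M_xb M q A, S34SB_self_mem_reg _⟩ ≠ (S36FI_SFF M q hq hqM A hA).res c)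
    (a₁ : ↥(modularFunctionFieldFullC (IsLocalRing.ResidueField A) (M * q)))
    (ha₁ : a₁ ∈ S34SB_regZ (IsLocalRing.ResidueField A) (S34M_xb M q A ^ q -
      algebraMap (IsLocalRing.ResidueField A)
        ↥(modularFunctionFieldFullC (IsLocalRing.ResidueField A) (M * q))
        ((S36FI_SFF M q hq hqM A hA).res c)))
    (hv : ∀ i, (D.P i).adicValuation a₁ < 1) (m₀ : ℕ) :
    ∃ b, m₀ ≤ b ∧
      a₁ ∈ riemannRochSpace (S34P_E (S34VF_hk M A hq hA hqM).principal (S34M_xb M q A ^ q)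
        (S34M_xb M q A ^ q - algebraMap _ _ ((S36FI_SFF M q hq hqM A hA).res c)) 0 b) ∧
      ∀ i, S34CH_ev (S34SB_reg (IsLocalRing.ResidueField A) (S34M_xb M q A ^ q))
        (S34M_xb M q A ^ q - algebraMap _ _ ((S36FI_SFF M q hq hqM A hA).res c))
        (S34SB_sub_const_mem_reg (S34M_xb M q A ^ q) _) (D.e₂ i) a₁ = 0 := by
  have hcA : ((c : ↥(S36FI_act (M * q * q) (A.inertiaSubgroupIn ℚ)).fixK) : ℚbar) ∈ A := c.2
  have he := S36NU_he₂ M q hq hqM A hA hgen D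
    (⟨((c : ↥(S36FI_act (M * q * q) (A.inertiaSubgroupIn ℚ)).fixK) : ℚbar), hcA⟩ :
      (S34M_T1 M q A hgen).A) ((S36FI_SFF M q hq hqM A hA).res c) rfl hc
  obtain ⟨b₀, h⟩ := S36N3E_main hA D _ he a₁ ha₁
    (fun i => (S36SP_val_lt_one_iff (D.P i)).1 (hv i))
  exact ⟨max b₀ m₀, le_max_right _ _, h _ (le_max_left _ _)⟩

include hA in
/-- **(HA), (HB) on the chart `U' = {B ≠ c}`** (`C = S36CZ_C' … c n hn`, `X = S36SE_XSS D`):
every `a` regular on the chart and vanishing at the supersingular places is the reduction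
`(a, a, 0)` resp. `(0, a, a)` of a function of `O₃ ∩ B`. -/
theorem S36NU_HAB (D : S36SS_Data M q hq hqM A hgen n' hn')
    (c : (S36FI_SFF M q hq hqM A hA).A)
    (hc : ∀ i, D.e₁ i ⟨S34M_xb M q A, S34SB_self_mem_reg _⟩ ≠ (S36FI_SFF M q hq hqM A hA).res c)
    (n : ℕ) (hn : 0 < n) :
    (∀ a ∈ (S36CZ_C' M q hq hqM A hA c n hn).Rb₂, (∀ v ∈ D.SS, v.adicValuation a < 1) →
      ∃ f : S36L3_O3 (S36FI_SFF M q hq hqM A hA) (S36FI_SFV M q hq hqM A hA ζ hζ hζ1)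
          (S36FI_SVV M q hq hqM A hA),
        (f : ↥(S36FI_act (M * q * q) (A.inertiaSubgroupIn ℚ)).fixF) ∈
          (S36CZ_C' M q hq hqM A hA c n hn).B ∧ S36L3_red _ _ _ f = (a, a, 0)) ∧
    (∀ a ∈ (S36CZ_C' M q hq hqM A hA c n hn).Rb₂, (∀ v ∈ D.SS, v.adicValuation a < 1) →
      ∃ f : S36L3_O3 (S36FI_SFF M q hq hqM A hA) (S36FI_SFV M q hq hqM A hA ζ hζ hζ1)
          (S36FI_SVV M q hq hqM A hA),
        (f : ↥(S36FI_act (M * q * q) (A.inertiaSubgroupIn ℚ)).fixF) ∈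
          (S36CZ_C' M q hq hqM A hA c n hn).B ∧ S36L3_red _ _ _ f = (0, a, a)) :=
  S36NU_HAB_of M q hq hqM A hA ζ hζ hζ1 hgen D c hc
    (fun a₁ ha₁ hv m₀ => S36NU_hNE M q hq hqM A hA hgen D c hc a₁ ha₁ hv m₀) n hn

include hA in
/-- **`hint₁`, `hint₂`, `hint₃` on the chart `U' = {B ≠ c}`** at the supersingular points
(`C = S36CZ_C' … c n hn`, `X = S36SE_XSS D`, regularity `S36SE_reg_Z'`). -/
theorem S36NU_hint (D : S36SS_Data M q hq hqM A hgen n' hn')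
    (c : (S36FI_SFF M q hq hqM A hA).A)
    (hc : ∀ i, D.e₁ i ⟨S34M_xb M q A, S34SB_self_mem_reg _⟩ ≠ (S36FI_SFF M q hq hqM A hA).res c)
    (n : ℕ) (hn : 0 < n)
    (hC : S36SE_Reg (S36CZ_C' M q hq hqM A hA c n hn) (S36SE_XSS M q hq hqM A hA D)) :
    (∀ g g' : ↥(S36CZ_C' M q hq hqM A hA c n hn).Rb₁,
      (∀ y, S36SE_e₁ _ (S36SE_XSS M q hq hqM A hA D) hC y g = 0) →
      (∀ y, S36SE_e₁ _ (S36SE_XSS M q hq hqM A hA D) hC y g' = 0) →
      ((g * g', 0, 0) : ↥(S36CZ_C' M q hq hqM A hA c n hn).Rb₁ ×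
          ↥(S36CZ_C' M q hq hqM A hA c n hn).Rb₂ × ↥(S36CZ_C' M q hq hqM A hA c n hn).Rb₃) ∈
        S36L3_W (S36FI_same3 M q hq hqM A hA ζ hζ hζ1) (S36CZ_C' M q hq hqM A hA c n hn) 1) ∧
    (∀ g g' : ↥(S36CZ_C' M q hq hqM A hA c n hn).Rb₂,
      (∀ y, S36SE_e₂ _ (S36SE_XSS M q hq hqM A hA D) hC y g = 0) →
      (∀ y, S36SE_e₂ _ (S36SE_XSS M q hq hqM A hA D) hC y g' = 0) →
      ((0, g * g', 0) : ↥(S36CZ_C' M q hq hqM A hA c n hn).Rb₁ ×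
          ↥(S36CZ_C' M q hq hqM A hA c n hn).Rb₂ × ↥(S36CZ_C' M q hq hqM A hA c n hn).Rb₃) ∈
        S36L3_W (S36FI_same3 M q hq hqM A hA ζ hζ hζ1) (S36CZ_C' M q hq hqM A hA c n hn) 1) ∧
    (∀ g g' : ↥(S36CZ_C' M q hq hqM A hA c n hn).Rb₃,
      (∀ y, S36SE_e₃ _ (S36SE_XSS M q hq hqM A hA D) hC y g = 0) →
      (∀ y, S36SE_e₃ _ (S36SE_XSS M q hq hqM A hA D) hC y g' = 0) →
      ((0, 0, g * g') : ↥(S36CZ_C' M q hq hqM A hA c n hn).Rb₁ ×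
          ↥(S36CZ_C' M q hq hqM A hA c n hn).Rb₂ × ↥(S36CZ_C' M q hq hqM A hA c n hn).Rb₃) ∈
        S36L3_W (S36FI_same3 M q hq hqM A hA ζ hζ hζ1) (S36CZ_C' M q hq hqM A hA c n hn) 1) :=
  S36NU_hint_of M q hq hqM A hA ζ hζ hζ1 hgen D c hc
    (fun a₁ ha₁ hv m₀ => S36NU_hNE M q hq hqM A hA hgen D c hc a₁ ha₁ hv m₀) n hn hC

end Fermat.Agent.S36
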