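import Mathlib
import Fermat.Prelude.Def_ModularCurve_GenusNumerics

/-!
# TRACK 10 (S36), package ARITH, part 1 (helper25), prefix `S36AR_`: the numerics

Pure arithmetic (Mathlib + the Prelude definitions `nuTwo`, `nuThree`, `cuspCount`):

* `S36AR_nuTwo_eq_zero`   : a prime `r ≡ 3 mod 4` dividing `N` kills `ν₂(N)`;
* `S36AR_nuThree_eq_zero` : a prime `r ≡ 2 mod 3` dividing `N` kills `ν₃(N)`;
* `S36AR_no_elliptic`     : `r ≡ 11 mod 12`, `r ∣ N` ⇒ `ν₂(N) = ν₃(N) = 0`;
* `S36AR_cuspCount_prime_mul` : `cuspCount (q * M) = 2 * cuspCount M` for a prime `q ∤ M`.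
-/

set_option autoImplicit false
set_option linter.style.haveILetI false

namespace Fermat.Agent.S36

open ModularCurve

/-- a prime `r ≡ 3 mod 4` dividing `N` kills `ν₂(N)`. -/
theorem S36AR_nuTwo_eq_zero {r N : ℕ} (hr : r.Prime) (hr4 : r % 4 = 3) (hrN : r ∣ N) :
    nuTwo N = 0 := by
  haveI : Fact r.Prime := ⟨hr⟩
  unfold nuTwo
  haveI : IsEmpty {x : ZMod N // x ^ 2 + 1 = 0} := by
    refine ⟨fun ⟨x, hx⟩ => ?_⟩
    have h1 := congrArg (ZMod.castHom hrN (ZMod r)) hx
    rw [map_add, map_pow, map_one, map_zero] at h1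
    have h2 : IsSquare (-1 : ZMod r) := by
      refine ⟨ZMod.castHom hrN (ZMod r) x, ?_⟩
      rw [← sq]
      exact (eq_neg_of_add_eq_zero_left h1).symm
    exact (ZMod.exists_sq_eq_neg_one_iff.mp h2) hr4
  exact Nat.card_of_isEmpty

/-- a prime `r ≡ 2 mod 3` dividing `N` kills `ν₃(N)`. -/
theorem S36AR_nuThree_eq_zero {r N : ℕ} (hr : r.Prime) (hr3 : r % 3 = 2) (hrN : r ∣ N) :
    nuThree N = 0 := by
  haveI : Fact r.Prime := ⟨hr⟩
  unfold nuThree
  haveI : IsEmpty {x : ZMod N // x ^ 2 + x + 1 = 0} := by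
    refine ⟨fun ⟨x, hx⟩ => ?_⟩
    have h1 := congrArg (ZMod.castHom hrN (ZMod r)) hx
    rw [map_add, map_add, map_pow, map_one, map_zero] at h1
    set y : ZMod r := ZMod.castHom hrN (ZMod r) x with hy
    have hy3 : y ^ 3 = 1 := by
      have : y ^ 3 - 1 = (y - 1) * (y ^ 2 + y + 1) := by ring
      rw [h1, mul_zero, sub_eq_zero] at this
      exact this
    have hy1 : y ≠ 1 := by
      intro h
      rw [h] at h1
      have h3 : ((3 : ℕ) : ZMod r) = 0 := by
        push_cast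
        have : (1 : ZMod r) ^ 2 + 1 + 1 = 3 := by norm_num
        rw [← this]
        exact h1
      have h4 : r ∣ 3 := (ZMod.natCast_eq_zero_iff 3 r).mp h3
      have h5 : r = 3 := (Nat.prime_dvd_prime_iff_eq hr Nat.prime_three).mp h4
      omega
    have hy0 : y ≠ 0 := by
      intro h
      rw [h] at hy3
      norm_num at hy3
    have hord : orderOf y = 3 := orderOf_eq_prime hy3 hy1
    have h6 : y ^ (r - 1) = 1 := ZMod.pow_card_sub_one_eq_one hy0
    have h7 : 3 ∣ r - 1 := by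
      rw [← hord]
      exact orderOf_dvd_of_pow_eq_one h6
    have := hr.two_le
    omega
  exact Nat.card_of_isEmpty

/-- **no elliptic points**: a prime `r ≡ 11 mod 12` dividing `N` kills `ν₂(N)` and `ν₃(N)`. -/
theorem S36AR_no_elliptic {r N : ℕ} (hr : r.Prime) (hr12 : r % 12 = 11) (hrN : r ∣ N) :
    nuTwo N = 0 ∧ nuThree N = 0 :=
  ⟨S36AR_nuTwo_eq_zero hr (by omega) hrN, S36AR_nuThree_eq_zero hr (by omega) hrN⟩

/-- `ν₂` vanishes at every multiple of a level where it vanishes. -/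
theorem S36AR_nuTwo_of_dvd {M N : ℕ} [NeZero M] (hMN : M ∣ N) (h : nuTwo M = 0) : nuTwo N = 0 := by
  unfold nuTwo at h ⊢
  haveI : Finite {x : ZMod M // x ^ 2 + 1 = 0} := inferInstance
  have hE : IsEmpty {x : ZMod M // x ^ 2 + 1 = 0} := (Nat.card_eq_zero.mp h).resolve_right
    (fun hinf => hinf.false)
  haveI : IsEmpty {x : ZMod N // x ^ 2 + 1 = 0} := by
    refine ⟨fun ⟨x, hx⟩ => hE.false ⟨ZMod.castHom hMN (ZMod M) x, ?_⟩⟩
    have h1 := congrArg (ZMod.castHom hMN (ZMod M)) hx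
    rwa [map_add, map_pow, map_one, map_zero] at h1
  exact Nat.card_of_isEmpty

/-- `ν₃` vanishes at every multiple of a level where it vanishes. -/
theorem S36AR_nuThree_of_dvd {M N : ℕ} [NeZero M] (hMN : M ∣ N) (h : nuThree M = 0) :
    nuThree N = 0 := by
  unfold nuThree at h ⊢
  haveI : Finite {x : ZMod M // x ^ 2 + x + 1 = 0} := inferInstance
  have hE : IsEmpty {x : ZMod M // x ^ 2 + x + 1 = 0} := (Nat.card_eq_zero.mp h).resolve_right
    (fun hinf => hinf.false)
  haveI : IsEmpty {x : ZMod N // x ^ 2 + x + 1 = 0} := by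
    refine ⟨fun ⟨x, hx⟩ => hE.false ⟨ZMod.castHom hMN (ZMod M) x, ?_⟩⟩
    have h1 := congrArg (ZMod.castHom hMN (ZMod M)) hx
    rwa [map_add, map_add, map_pow, map_one, map_zero] at h1
  exact Nat.card_of_isEmpty

/-- `cuspCount (q * M) = 2 * cuspCount M` for a prime `q ∤ M`. -/
theorem S36AR_cuspCount_prime_mul {q M : ℕ} (hq : q.Prime) (hM : M ≠ 0) (hqM : ¬ q ∣ M) :
    cuspCount (q * M) = 2 * cuspCount M := by
  classical
  unfold cuspCount
  set A := M.divisors with hA
  have hAmem : ∀ d, d ∈ A ↔ d ∣ M := by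
    intro d
    simp [hA, hM]
  have hnotdvd : ∀ d ∈ A, ¬ q ∣ d := fun d hd h => hqM (h.trans ((hAmem d).mp hd))
  have hinj : Function.Injective (fun d : ℕ => q * d) := fun a b h =>
    Nat.eq_of_mul_eq_mul_left hq.pos h
  have hdisj : Disjoint A (A.image (fun d => q * d)) := by
    rw [Finset.disjoint_left]
    intro d hd hd'
    rw [Finset.mem_image] at hd'
    obtain ⟨e, -, rfl⟩ := hd'
    exact hnotdvd _ hd (dvd_mul_right q e)
  have hset : (q * M).divisors = A ∪ A.image (fun d => q * d) := by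
    ext d
    simp only [Nat.mem_divisors, Finset.mem_union, Finset.mem_image, hAmem]
    constructor
    · rintro ⟨hd, -⟩
      by_cases hqd : q ∣ d
      · right
        obtain ⟨d', rfl⟩ := hqd
        exact ⟨d', Nat.dvd_of_mul_dvd_mul_left hq.pos hd, rfl⟩
      · left
        have hcop : Nat.Coprime d q := ((Nat.Prime.coprime_iff_not_dvd hq).mpr hqd).symm
        exact hcop.dvd_of_dvd_mul_left hd
    · rintro (hd | ⟨e, he, rfl⟩)
      · exact ⟨hd.mul_left q, mul_ne_zero hq.ne_zero hM⟩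
      · exact ⟨Nat.mul_dvd_mul_left q he, mul_ne_zero hq.ne_zero hM⟩
  rw [hset, Finset.sum_union hdisj, Finset.sum_image (fun a _ b _ h => hinj h), two_mul]
  congr 1
  · refine Finset.sum_congr rfl fun d hd => ?_
    have hdM := (hAmem d).mp hd
    have hdpos : 0 < d := Nat.pos_of_dvd_of_pos hdM (Nat.pos_of_ne_zero hM)
    rw [Nat.mul_div_assoc q hdM]
    congr 1
    have hcop : Nat.Coprime d q := ((Nat.Prime.coprime_iff_not_dvd hq).mpr (hnotdvd d hd)).symm
    exact Nat.Coprime.gcd_mul_left_cancel_right (M / d) hcop.symm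
  · refine Finset.sum_congr rfl fun d hd => ?_
    have hdM := (hAmem d).mp hd
    rw [Nat.mul_div_mul_left M d hq.pos]
    congr 1
    have hcop : Nat.Coprime q (M / d) := by
      rw [Nat.Prime.coprime_iff_not_dvd hq]
      exact fun h => hqM (h.trans (Nat.div_dvd_of_dvd hdM))
    exact Nat.Coprime.gcd_mul_left_cancel d hcop

end Fermat.Agent.S36
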