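import Mathlib
import Fermat.Agent.S36.Int3Dvr

/-!
# TRACK 10 (S36), package INT-INST (helper17), part 3: discreteness criteria.  Prefix `S36IT_`.

* `S36IT_isDVR_of_ord` : a valuation subring `O ≠ K` with an additive order function
  `ord : K → ℤ` such that `x ∈ O ↔ 0 ≤ ord x` is a discrete valuation ring;
* `S36IT_isDVR_of_pow` : a valuation subring `O` such that for some `m > 0` and some non-unit
  `c ∈ O` every `f ≠ 0` satisfies `f ^ m · c ^ k ∈ O^×` for some `k : ℤ`, is a discrete valuation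
  ring (value group `⊂ (1/m) ℤ · v(c)`);
* `S36IT_isDVR_comap_of_pow` : the same for the restriction `O.comap φ` to a subfield.
-/

set_option autoImplicit false
set_option linter.deprecated false

namespace Fermat.Agent.S36

variable {K : Type*} [Field K]

/-- a valuation subring with an integer-valued order function is discrete. -/
theorem S36IT_isDVR_of_ord (O : ValuationSubring K) (ord : K → ℤ)
    (hmul : ∀ x y : K, x ≠ 0 → y ≠ 0 → ord (x * y) = ord x + ord y)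
    (hmem : ∀ x : K, x ≠ 0 → (x ∈ O ↔ 0 ≤ ord x))
    (hnt : ∃ x : K, x ∉ O) : IsDiscreteValuationRing O := by
  classical
  have h1 : ord 1 = 0 := by
    have := hmul 1 1 one_ne_zero one_ne_zero
    rw [mul_one] at this
    omega
  have hinv : ∀ x : K, x ≠ 0 → ord x⁻¹ = - ord x := by
    intro x hx
    have := hmul x x⁻¹ hx (inv_ne_zero hx)
    rw [mul_inv_cancel₀ hx, h1] at this
    omega
  have hpow : ∀ (x : K) (n : ℕ), x ≠ 0 → ord (x ^ n) = n * ord x := by
    intro x n hx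
    induction n with
    | zero => simp [h1]
    | succ n ih =>
      rw [pow_succ, hmul _ _ (pow_ne_zero _ hx) hx, ih]
      push_cast
      ring
  -- positive orders
  have hex : ∃ m : ℕ, 0 < m ∧ ∃ x : K, x ≠ 0 ∧ ord x = m := by
    obtain ⟨x, hx⟩ := hnt
    have hx0 : x ≠ 0 := by
      rintro rfl
      exact hx O.zero_mem
    have h2 : ¬ 0 ≤ ord x := fun h => hx ((hmem x hx0).2 h)
    refine ⟨(ord x⁻¹).toNat, ?_, x⁻¹, inv_ne_zero hx0, ?_⟩
    · rw [hinv x hx0]
      omega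
    · rw [hinv x hx0]
      omega
  obtain ⟨hm₀, π, hπ0, hπ⟩ := Nat.find_spec hex
  have hmin : ∀ {m : ℕ}, 0 < m → (∃ x : K, x ≠ 0 ∧ ord x = m) → Nat.find hex ≤ m :=
    fun {m} h1 h2 => Nat.find_min' hex ⟨h1, h2⟩
  set m₀ := Nat.find hex with hm₀def
  refine S36IT_isDVR_of_unif O π ?_ hπ0 ?_ ?_ ?_
  · rw [hmem π hπ0, hπ]
    exact Int.natCast_nonneg _
  · rw [hmem _ (inv_ne_zero hπ0), hinv π hπ0, hπ]
    omega
  · intro x hx hxi
    have hx0 : x ≠ 0 := by
      rintro rfl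
      rw [inv_zero] at hxi
      exact hxi O.zero_mem
    rw [hmem x hx0] at hx
    rw [hmem _ (inv_ne_zero hx0), hinv x hx0] at hxi
    have hle : m₀ ≤ (ord x).toNat := hmin (by omega) ⟨x, hx0, by omega⟩
    rw [hmem _ (div_ne_zero hx0 hπ0), div_eq_mul_inv, hmul _ _ hx0 (inv_ne_zero hπ0),
      hinv π hπ0, hπ]
    omega
  · intro x hx hx0
    rw [hmem x hx0] at hx
    refine ⟨(ord x).toNat + 1, ?_⟩
    rw [hmem _ (div_ne_zero hx0 (pow_ne_zero _ hπ0)), div_eq_mul_inv,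
      hmul _ _ hx0 (inv_ne_zero (pow_ne_zero _ hπ0)), hinv _ (pow_ne_zero _ hπ0),
      hpow π _ hπ0, hπ]
    have h2 : ((ord x).toNat : ℤ) = ord x := Int.toNat_of_nonneg hx
    have h3 : (1 : ℤ) ≤ m₀ := by exact_mod_cast hm₀
    push_cast
    nlinarith

section pow

variable {Γ₀ : Type*} [LinearOrderedCommGroupWithZero Γ₀]

/-- powers of an element `< 1`. -/
theorem S36IT_one_le_zpow_iff {γ : Γ₀} (hγ0 : γ ≠ 0) (hγ : γ < 1) (k : ℤ) :
    1 ≤ γ ^ k ↔ k ≤ 0 := by
  constructor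
  · intro h
    by_contra hk
    push Not at hk
    have h2 : γ ^ k = γ ^ k.toNat := by
      conv_lhs => rw [← Int.toNat_of_nonneg hk.le]
      rw [zpow_natCast]
    rw [h2] at h
    have h3 : γ ^ k.toNat < 1 := pow_lt_one₀ zero_le' hγ (by omega)
    exact absurd h (not_le.2 h3)
  · intro hk
    have h2 : γ ^ k = (γ ^ (-k).toNat)⁻¹ := by
      rw [← zpow_natCast, Int.toNat_of_nonneg (by omega), zpow_neg, inv_inv]
    rw [h2]
    exact (one_le_inv₀ (zero_lt_iff.2 (pow_ne_zero _ hγ0))).2 (pow_le_one₀ zero_le' hγ.le)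

theorem S36IT_zpow_eq_one_iff {γ : Γ₀} (hγ0 : γ ≠ 0) (hγ : γ < 1) (k : ℤ) :
    γ ^ k = 1 ↔ k = 0 := by
  constructor
  · intro h
    have h1 : k ≤ 0 := (S36IT_one_le_zpow_iff hγ0 hγ k).1 h.ge
    have h2 : -k ≤ 0 := (S36IT_one_le_zpow_iff hγ0 hγ (-k)).1 (by rw [zpow_neg, h, inv_one])
    omega
  · rintro rfl
    exact zpow_zero _

end pow

/-- **discreteness from a power**: if `f ^ m · c ^ k` is a unit of `O` for some `k` (every
`f ≠ 0`), `c` a non-unit, then `O` is a discrete valuation ring. -/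
theorem S36IT_isDVR_of_pow (O : ValuationSubring K) (m : ℕ) (hm : 0 < m) (c : K)
    (hc : c ∈ O) (hci : c⁻¹ ∉ O)
    (h : ∀ f : K, f ≠ 0 → ∃ k : ℤ, f ^ m * c ^ k ∈ O ∧ (f ^ m * c ^ k)⁻¹ ∈ O) :
    IsDiscreteValuationRing O := by
  classical
  have hc0 : c ≠ 0 := by
    rintro rfl
    rw [inv_zero] at hci
    exact hci O.zero_mem
  set v := O.valuation with hv
  have hvle : ∀ x : K, v x ≤ 1 ↔ x ∈ O := fun x => O.valuation_le_one_iff x
  have hv1 : ∀ x : K, x ≠ 0 → x ∈ O → x⁻¹ ∈ O → v x = 1 := by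
    intro x hx0 hx hxi
    refine le_antisymm ((hvle x).2 hx) ?_
    have h2 := (hvle x⁻¹).2 hxi
    rw [map_inv₀] at h2
    exact (inv_le_one₀ (zero_lt_iff.2 ((Valuation.ne_zero_iff _).2 hx0))).1 h2
  have hγ0 : v c ≠ 0 := (Valuation.ne_zero_iff _).2 hc0
  have hγ : v c < 1 := by
    refine lt_of_le_of_ne ((hvle c).2 hc) fun h1 => hci ?_
    rw [← hvle, map_inv₀, h1, inv_one]
  -- the exponent
  have hk : ∀ f : K, f ≠ 0 → ∃ k : ℤ, v f ^ m * v c ^ k = 1 := by
    intro f hf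
    obtain ⟨k, h1, h2⟩ := h f hf
    refine ⟨k, ?_⟩
    have := hv1 _ (mul_ne_zero (pow_ne_zero _ hf) (zpow_ne_zero _ hc0)) h1 h2
    rwa [map_mul, map_pow, map_zpow₀] at this
  let ord : K → ℤ := fun f => if hf : f = 0 then 0 else -(Classical.choose (hk f hf))
  have hord : ∀ f : K, f ≠ 0 → v f ^ m = v c ^ ord f := by
    intro f hf
    have h1 := Classical.choose_spec (hk f hf)
    have h2 : ord f = -(Classical.choose (hk f hf)) := dif_neg hf
    rw [h2, zpow_neg]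
    exact eq_inv_of_mul_eq_one_left h1
  have hinj : ∀ a b : ℤ, v c ^ a = v c ^ b → a = b := by
    intro a b hab
    have h1 : v c ^ (a - b) = 1 := by
      rw [zpow_sub₀ hγ0, hab, div_self (zpow_ne_zero _ hγ0)]
    have := (S36IT_zpow_eq_one_iff hγ0 hγ _).1 h1
    omega
  refine S36IT_isDVR_of_ord O ord ?_ ?_ ⟨c⁻¹, hci⟩
  · intro x y hx hy
    apply hinj
    rw [← hord _ (mul_ne_zero hx hy), map_mul, mul_pow, hord x hx, hord y hy, zpow_add₀ hγ0]
  · intro x hx
    rw [← hvle]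
    have hvx0 : v x ≠ 0 := (Valuation.ne_zero_iff _).2 hx
    have h1 : v x ≤ 1 ↔ v x ^ m ≤ 1 := by
      constructor
      · intro h2
        exact pow_le_one₀ zero_le' h2
      · intro h2
        by_contra h3
        push Not at h3
        exact absurd h2 (not_le.2 (one_lt_pow₀ h3 hm.ne'))
    rw [h1, hord x hx]
    have h2 : v c ^ ord x ≤ 1 ↔ 1 ≤ v c ^ (-ord x) := by
      rw [zpow_neg, one_le_inv₀ (zero_lt_iff.2 (zpow_ne_zero _ hγ0))]
    rw [h2, S36IT_one_le_zpow_iff hγ0 hγ]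
    omega

/-- **discreteness of a restriction from a power.** -/
theorem S36IT_isDVR_comap_of_pow {F : Type*} [Field F] (O : ValuationSubring F) (φ : K →+* F)
    (m : ℕ) (hm : 0 < m) (c : K) (hc : φ c ∈ O) (hci : (φ c)⁻¹ ∉ O)
    (h : ∀ f : K, f ≠ 0 → ∃ k : ℤ, φ f ^ m * φ c ^ k ∈ O ∧ (φ f ^ m * φ c ^ k)⁻¹ ∈ O) :
    IsDiscreteValuationRing (O.comap φ) := by
  refine S36IT_isDVR_of_pow (O.comap φ) m hm c hc ?_ ?_
  · rw [ValuationSubring.mem_comap, map_inv₀]
    exact hci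
  · intro f hf
    obtain ⟨k, h1, h2⟩ := h f hf
    refine ⟨k, ?_, ?_⟩
    · rw [ValuationSubring.mem_comap, map_mul, map_pow, map_zpow₀]
      exact h1
    · rw [ValuationSubring.mem_comap, map_inv₀, map_mul, map_pow, map_zpow₀]
      exact h2

end Fermat.Agent.S36
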