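import Fermat.Agent.S36.Val3VS
import Fermat.Agent.S36.FixLFive
import Fermat.Agent.S36.FixLVal
import Fermat.Agent.S36.Int3Disc

/-!
# TRACK 10 (S36), package VAL3 (helper12), part 6: the five valuations are discrete on `F_L`

* `S36VK_dvr_gen` (Mathlib only): a valuation subring `O` of a field `K`, `a ≠ 0` with `v(a) < 1`,
  `m ≠ 0`, such that every `f ≠ 0` has `v(f ^ m * a ^ k) = 1` for some `k : ℤ`, is a discrete
  valuation ring;
* `S36VK_dvr_F`, `S36VK_dvr_V`, `S36VK_dvr_FF`, `S36VK_dvr_VV`, `S36VK_dvr_FV` :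
  `IsDiscreteValuationRing (S36FL_OL (S36FI_act N I) O_X)` for the five valuation subrings of
  `S36/Val3VS.lean`, `I = A.inertiaSubgroupIn ℚ` (from helper1's `S36FI_dv_X`).
-/

set_option autoImplicit false
set_option synthInstance.maxHeartbeats 400000
set_option maxHeartbeats 1000000
set_option linter.style.haveILetI false
set_option linter.unusedSectionVars false
set_option linter.unusedVariables false

open ModularCurve

noncomputable section

namespace Fermat.Agent.S36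

open Fermat.Agent.S18 Fermat.Agent.S24 Fermat.Agent.S34

section Generic

variable {K : Type*} [Field K] (O : ValuationSubring K)

/-- in a linearly ordered group with zero, `x ^ m ≤ 1 → x ≤ 1`. -/
theorem S36VK_le_one_of_pow {Γ : Type*} [LinearOrderedCommGroupWithZero Γ] {x : Γ} {m : ℕ}
    (hm : m ≠ 0) (h : x ^ m ≤ 1) : x ≤ 1 := by
  by_contra hx
  rw [not_le] at hx
  exact absurd h (not_le.mpr (one_lt_pow₀ hx hm))

theorem S36VK_eq_one_of_pow {Γ : Type*} [LinearOrderedCommGroupWithZero Γ] {x : Γ} {m : ℕ}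
    (hm : m ≠ 0) (h : x ^ m = 1) : x = 1 := by
  rcases lt_trichotomy x 1 with hx | hx | hx
  · exact absurd h (ne_of_lt (pow_lt_one₀ zero_le' hx hm))
  · exact hx
  · exact absurd h (ne_of_gt (one_lt_pow₀ hx hm))

/-- **generic discreteness**. -/
theorem S36VK_dvr_gen (a : K) (ha0 : a ≠ 0) (ha : O.valuation a < 1) (m : ℕ) (hm : m ≠ 0)
    (h : ∀ f : K, f ≠ 0 → ∃ k : ℤ, O.valuation (f ^ m * a ^ k) = 1) :
    IsDiscreteValuationRing O := by
  classical
  set v := O.valuation with hv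
  have hva0 : v a ≠ 0 := (Valuation.ne_zero_iff v).mpr ha0
  have hva_pos : 0 < v a := zero_lt_iff.mpr hva0
  -- (L1) integral elements have natural exponent
  have L1 : ∀ g : K, g ≠ 0 → v g ≤ 1 → ∃ n : ℕ, v g ^ m = v a ^ n := by
    intro g hg hg1
    obtain ⟨k, hk⟩ := h g hg
    rw [map_mul, map_pow, map_zpow₀] at hk
    have e : v g ^ m = v a ^ (-k) := by
      rw [zpow_neg]
      exact eq_inv_of_mul_eq_one_left hk
    have hle : v a ^ (-k) ≤ 1 := by
      rw [← e]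
      exact pow_le_one₀ zero_le' hg1
    have hk0 : 0 ≤ -k := by
      by_contra hneg
      rw [not_le] at hneg
      have : (1 : O.ValueGroup) < v a ^ (-k) := by
        have h2 := zpow_right_strictAnti₀ hva_pos ha hneg
        simpa using h2
      exact absurd hle (not_le.mpr this)
    refine ⟨(-k).toNat, ?_⟩
    rw [e, ← zpow_natCast, Int.toNat_of_nonneg hk0]
  -- the minimal positive exponent
  let P : ℕ → Prop := fun n => 0 < n ∧ ∃ f : K, f ≠ 0 ∧ v f ^ m = v a ^ n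
  have hP : ∃ n, P n := ⟨m, Nat.pos_of_ne_zero hm, a, ha0, rfl⟩
  set e₀ := Nat.find hP with he₀
  obtain ⟨he₀pos, f₀, hf₀0, hf₀⟩ := Nat.find_spec hP
  have hmin : ∀ n, P n → e₀ ≤ n := fun n hn => Nat.find_min' hP hn
  have hvf₀0 : v f₀ ≠ 0 := (Valuation.ne_zero_iff v).mpr hf₀0
  have hvf₀lt : v f₀ < 1 := by
    have h1 : v f₀ ^ m < 1 := by
      rw [hf₀]
      exact pow_lt_one₀ zero_le' ha he₀pos.ne'
    by_contra hge
    rw [not_lt] at hge
    exact absurd h1 (not_lt.mpr (one_le_pow₀ hge))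
  -- (L2) every integral element is a power of `f₀` up to a unit
  have L2 : ∀ n : ℕ, ∀ g : K, g ≠ 0 → v g ^ m = v a ^ n → ∃ j : ℕ, v g = v f₀ ^ j := by
    intro n
    induction n using Nat.strong_induction_on with
    | _ n ih =>
      intro g hg hgn
      rcases Nat.eq_zero_or_pos n with h0 | hpos
      · subst h0
        rw [pow_zero] at hgn
        exact ⟨0, by rw [pow_zero]; exact S36VK_eq_one_of_pow hm hgn⟩
      · have hle : e₀ ≤ n := hmin n ⟨hpos, g, hg, hgn⟩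
        have hg' : g / f₀ ≠ 0 := div_ne_zero hg hf₀0
        have e1 : v (g / f₀) ^ m = v a ^ (n - e₀) := by
          rw [map_div₀, div_pow, hgn, hf₀]
          rw [div_eq_iff (pow_ne_zero _ hva0), ← pow_add, Nat.sub_add_cancel hle]
        obtain ⟨j, hj⟩ := ih (n - e₀) (Nat.sub_lt hpos he₀pos) (g / f₀) hg' e1
        refine ⟨j + 1, ?_⟩
        rw [pow_succ, ← hj, map_div₀, div_mul_cancel₀ _ hvf₀0]
  have L3 : ∀ g : K, g ≠ 0 → v g ≤ 1 → ∃ j : ℕ, v g = v f₀ ^ j := by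
    intro g hg hg1
    obtain ⟨n, hn⟩ := L1 g hg hg1
    exact L2 n g hg hn
  have hf₀O : f₀ ∈ O := (O.valuation_le_one_iff f₀).mp hvf₀lt.le
  have hunit : ∀ x : O, v (x : K) = 1 → IsUnit x := fun x hx =>
    (O.valuation_eq_one_iff x).mpr hx
  have hinj : ∀ i j : ℕ, v f₀ ^ i = v f₀ ^ j → i = j := fun i j hij =>
    (pow_right_strictAnti₀ (zero_lt_iff.mpr hvf₀0) hvf₀lt).injective hij
  refine IsDiscreteValuationRing.ofHasUnitMulPowIrreducibleFactorization
    ⟨⟨f₀, hf₀O⟩, ⟨?_, ?_⟩, ?_⟩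
  · -- not a unit
    intro hu
    have := (O.valuation_eq_one_iff ⟨f₀, hf₀O⟩).mp hu
    exact absurd this (ne_of_lt hvf₀lt)
  · -- irreducible
    intro x y hxy
    have hxy' : f₀ = (x : K) * (y : K) := congrArg Subtype.val hxy
    have hx0 : (x : K) ≠ 0 := fun h0 => hf₀0 (by rw [hxy', h0, zero_mul])
    have hy0 : (y : K) ≠ 0 := fun h0 => hf₀0 (by rw [hxy', h0, mul_zero])
    obtain ⟨i, hi⟩ := L3 x hx0 ((O.valuation_le_one_iff _).mpr x.2)
    obtain ⟨j, hj⟩ := L3 y hy0 ((O.valuation_le_one_iff _).mpr y.2)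
    have e : v f₀ ^ 1 = v f₀ ^ (i + j) := by
      rw [pow_one, pow_add, ← hi, ← hj, ← map_mul, ← hxy']
    have hij := hinj _ _ e
    rcases Nat.eq_zero_or_pos i with h0 | hpos
    · left
      apply hunit
      rw [hi, h0, pow_zero]
    · right
      have hj0 : j = 0 := by omega
      apply hunit
      rw [hj, hj0, pow_zero]
  · -- factorisation
    intro x hx
    have hx0 : (x : K) ≠ 0 := fun h0 => hx (Subtype.ext h0)
    obtain ⟨j, hj⟩ := L3 x hx0 ((O.valuation_le_one_iff _).mpr x.2)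
    refine ⟨j, ?_⟩
    have hu0 : (x : K) / f₀ ^ j ≠ 0 := div_ne_zero hx0 (pow_ne_zero _ hf₀0)
    have hu1 : v ((x : K) / f₀ ^ j) = 1 := by
      rw [map_div₀, map_pow, hj]
      exact div_self (pow_ne_zero _ hvf₀0)
    have huO : (x : K) / f₀ ^ j ∈ O := (O.valuation_le_one_iff _).mp hu1.le
    obtain ⟨u, hu⟩ := hunit ⟨_, huO⟩ hu1
    refine ⟨u, ?_⟩
    apply Subtype.ext
    rw [hu]
    show f₀ ^ j * ((x : K) / f₀ ^ j) = x
    field_simp

end Generic

section Inst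

local notation "Ω" => AlgebraicClosure ℚ

variable (M q : ℕ) [NeZero M] [NeZero q] (hq : q.Prime) (hqM : ¬ q ∣ M)
  (A : ValuationSubring Ω) (hA : A.LiesOverPrime q)
  (ζ : Ωˣ) (hζ : ζ ^ q = 1) (hζ1 : ζ ≠ 1)

include hA in
theorem S36VK_q_mem : (q : Ω) ∈ A :=
  (A.valuation_le_one_iff _).mp (le_of_lt ((A.mem_nonunits_iff).mp hA))

include hA hq in
theorem S36VK_q_inv_not_mem : ((q : Ω))⁻¹ ∉ A := by
  intro h
  have h1 : A.valuation (q : Ω) < 1 := (A.mem_nonunits_iff).mp hA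
  have h2 : A.valuation ((q : Ω))⁻¹ ≤ 1 := (A.valuation_le_one_iff _).mpr h
  rw [map_inv₀] at h2
  have hq0 : (q : Ω) ≠ 0 := Nat.cast_ne_zero.mpr hq.ne_zero
  have h0 : A.valuation (q : Ω) ≠ 0 := (Valuation.ne_zero_iff _).mpr hq0
  rw [inv_le_one₀ (zero_lt_iff.mpr h0)] at h2
  exact absurd h1 (not_lt.mpr h2)

/-- the generic instance: a valuation subring `S36V_VS A φ hrep` on which the `I`-fixed elements
have discrete value group. -/
theorem S36VK_dvr_inst (N : ℕ) [NeZero N]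
    (H : Subgroup (Ω ≃ₐ[ℚ] Ω))
    (φ : ↥(modularFunctionFieldBar N) →+* LaurentSeries Ω)
    (hφ : ∀ c : Ω, φ (algebraMap Ω ↥(modularFunctionFieldBar N) c) =
      algebraMap Ω (LaurentSeries Ω) c)
    (hrep : S36V_Rep A φ) (hq : q.Prime) (hA : A.LiesOverPrime q) (m : ℕ) (hm : 0 < m)
    (h : ∀ f : ↥(modularFunctionFieldBar N), f ∈ (S36FI_act N H).fixF → f ≠ 0 →
      ∃ k : ℤ, f ^ m * algebraMap Ω ↥(modularFunctionFieldBar N) ((q : Ω) ^ k) ∈ S36V_G A φ ∧
        (f ^ m * algebraMap Ω ↥(modularFunctionFieldBar N) ((q : Ω) ^ k))⁻¹ ∈ S36V_G A φ) :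
    IsDiscreteValuationRing (S36FL_OL (S36FI_act N H) (S36V_VS A φ hrep)) := by
  have hcoe : (((q : ↥(S36FI_act N H).fixF)) : ↥(modularFunctionFieldBar N)) =
      algebraMap Ω ↥(modularFunctionFieldBar N) (q : Ω) := by
    rw [map_natCast]
    rfl
  refine S36IT_isDVR_comap_of_pow (S36V_VS A φ hrep) (S36FI_act N H).fixF.subtype m hm
    (q : ↥(S36FI_act N H).fixF) ?_ ?_ ?_
  · show (((q : ↥(S36FI_act N H).fixF)) : ↥(modularFunctionFieldBar N)) ∈ _
    rw [hcoe]
    exact (S36V_VS_algebraMap_mem_iff A φ hφ hrep _).mpr (S36VK_q_mem q A hA)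
  · show ((((q : ↥(S36FI_act N H).fixF)) : ↥(modularFunctionFieldBar N)))⁻¹ ∉ _
    rw [hcoe, ← map_inv₀]
    intro hmem
    exact S36VK_q_inv_not_mem q hq A hA ((S36V_VS_algebraMap_mem_iff A φ hφ hrep _).mp hmem)
  · intro f hf0
    have hf0' : (f : ↥(modularFunctionFieldBar N)) ≠ 0 := fun h0 => hf0 (Subtype.ext h0)
    obtain ⟨k, h1, h2⟩ := h f f.2 hf0'
    refine ⟨k, ?_, ?_⟩
    · show (f : ↥(modularFunctionFieldBar N)) ^ m *
        (((q : ↥(S36FI_act N H).fixF)) : ↥(modularFunctionFieldBar N)) ^ k ∈ _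
      rw [hcoe, ← map_zpow₀]
      exact h1
    · show ((f : ↥(modularFunctionFieldBar N)) ^ m *
        (((q : ↥(S36FI_act N H).fixF)) : ↥(modularFunctionFieldBar N)) ^ k)⁻¹ ∈ _
      rw [hcoe, ← map_zpow₀]
      exact h2

/-- **`F` is discrete on `F₁,L`** (uniformiser `q`). -/
theorem S36VK_dvr_F :
    IsDiscreteValuationRing (S36FL_OL (S36FI_act (M * q) (A.inertiaSubgroupIn ℚ))
      (S36V_OF M q hq A hA)) :=
  S36VK_dvr_inst q A (M * q) _ (S36V_emF M q) (S36V_emF_const M q)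
    (S36V_rep_emF M q hq A hA) hq hA 1 one_pos (fun f hf hf0 => by
      simpa only [pow_one] using S36FI_dv_F M q hq A hA f hf hf0)

/-- **`V` is discrete on `F₁,L`** (uniformiser `q`). -/
theorem S36VK_dvr_V :
    IsDiscreteValuationRing (S36FL_OL (S36FI_act (M * q) (A.inertiaSubgroupIn ℚ))
      (S36V_OV M q hq hqM A hA)) :=
  S36VK_dvr_inst q A (M * q) _ (S36V_emV M q hq hqM) (S36V_emV_const M q hq hqM)
    (S36V_rep_emV M q hq hqM A hA) hq hA 1 one_pos (fun f hf hf0 => by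
      simpa only [pow_one] using S36FI_dv_V M q hq hqM A hA f hf hf0)

/-- **`FF` is discrete on `F₂,L`** (uniformiser `q`). -/
theorem S36VK_dvr_FF :
    IsDiscreteValuationRing (S36FL_OL (S36FI_act (M * q * q) (A.inertiaSubgroupIn ℚ))
      (S36V_OFF M q hq A hA)) :=
  S36VK_dvr_inst q A (M * q * q) _ (S36V_emFF M q) (S36V_emFF_const M q)
    (S36V_rep_emFF M q hq A hA) hq hA 1 one_pos (fun f hf hf0 => by
      simpa only [pow_one] using S36FI_dv_FF M q hq A hA f hf hf0)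

/-- **`VV` is discrete on `F₂,L`** (uniformiser `q`). -/
theorem S36VK_dvr_VV :
    IsDiscreteValuationRing (S36FL_OL (S36FI_act (M * q * q) (A.inertiaSubgroupIn ℚ))
      (S36V_OVV M q hq hqM A hA)) :=
  S36VK_dvr_inst q A (M * q * q) _ (S36V_emVV M q hq hqM) (S36V_emVV_const M q hq hqM)
    (S36V_rep_emVV M q hq hqM A hA) hq hA 1 one_pos (fun f hf hf0 => by
      simpa only [pow_one] using S36FI_dv_VV M q hq hqM A hA f hf hf0)

/-- **`FV` is discrete on `F₂,L`** (value group `(1/(q-1)) ℤ`). -/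
theorem S36VK_dvr_FV :
    IsDiscreteValuationRing (S36FL_OL (S36FI_act (M * q * q) (A.inertiaSubgroupIn ℚ))
      (S36V_OFV M q hq hqM A hA ζ hζ hζ1)) :=
  S36VK_dvr_inst q A (M * q * q) _ (S36V_emFV M q hq hqM ζ hζ hζ1)
    (S36V_emFV_const M q hq hqM ζ hζ hζ1)
    (S36V_rep_emFV M q hq hqM A hA ζ hζ hζ1) hq hA (q - 1)
    (Nat.sub_pos_of_lt hq.one_lt) (fun f hf hf0 =>
      S36FI_dv_FV M q hq hqM A ζ hζ hζ1 hA f hf hf0)

end Inst


end Fermat.Agent.S36
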