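import Fermat.Agent.S36.Int3Three
import Fermat.Agent.S36.Val3Dvr

/-!
# TRACK 10 (S36), package INT-INST (helper17), part 5: the concrete family, CLOSED.
Prefix `S36IT_`.

* `S36IT_dvr3_inst` : the input `dvr` of `S36IT_fam3` (helper12's `S36VK_dvr_FF/FV/VV`);
* `S36IT_lat M q hq hqM A hA ζ hζ hζ1 U : S36IT_Fam ℚ̄ F₂ F_L (Fin 3)` : the family with no
  hypothesis left (`= S36IT_fam3 … (S36IT_dvr3_inst …) U`);
* `S36IT_lat_exists_den`, `S36IT_lat_mem_loc_iff` : INT (R12) on the concrete lattice `Λ_U`.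
-/

set_option autoImplicit false
set_option linter.style.haveILetI false
set_option linter.unusedSectionVars false
set_option linter.unusedVariables false

open AlgebraicCurve ModularCurve

noncomputable section

namespace Fermat.Agent.S36

local notation "Ω" => AlgebraicClosure ℚ

variable (M q : ℕ) [NeZero M] [NeZero q] (hq : q.Prime) (hqM : ¬ q ∣ M)
  (A : ValuationSubring Ω) (hA : A.LiesOverPrime q)
  (ζ : Ωˣ) (hζ : ζ ^ q = 1) (hζ1 : ζ ≠ 1)

/-- **the three vertical valuation rings are discrete on `F_L`.** -/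
theorem S36IT_dvr3_inst (i : Fin 3) :
    IsDiscreteValuationRing
      (S36FL_OL (S36FI_act (M * q * q) (A.inertiaSubgroupIn ℚ))
        (S36IT_Ov3 M q hq hqM A hA ζ hζ hζ1 i)) :=
  S36IT_dvr3 M q hq hqM A hA ζ hζ hζ1 (S36VK_dvr_FF M q hq A hA)
    (S36VK_dvr_FV M q hq hqM A hA ζ hζ hζ1) (S36VK_dvr_VV M q hq hqM A hA) i

/-- **THE lattice family of the chart `U`**, no hypothesis left. -/
def S36IT_lat (U : Set (Place Ω ↥(modularFunctionFieldBar (M * q * q)))) :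
    S36IT_Fam Ω ↥(modularFunctionFieldBar (M * q * q))
      ↥(S36FI_act (M * q * q) (A.inertiaSubgroupIn ℚ)).fixF (Fin 3) :=
  S36IT_fam3 M q hq hqM A hA ζ hζ hζ1 (S36IT_dvr3_inst M q hq hqM A hA ζ hζ hζ1) U

theorem S36IT_lat_eq (U : Set (Place Ω ↥(modularFunctionFieldBar (M * q * q)))) :
    S36IT_lat M q hq hqM A hA ζ hζ hζ1 U =
      S36IT_fam3 M q hq hqM A hA ζ hζ hζ1 (S36IT_dvr3_inst M q hq hqM A hA ζ hζ hζ1) U := rfl

variable (U : Set (Place Ω ↥(modularFunctionFieldBar (M * q * q))))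

/-- membership in `Λ_U`. -/
theorem S36IT_lat_mem_Λ (f : ↥(S36FI_act (M * q * q) (A.inertiaSubgroupIn ℚ)).fixF) :
    f ∈ (S36IT_lat M q hq hqM A hA ζ hζ hζ1 U).Λ ↔
      (f : ↥(modularFunctionFieldBar (M * q * q))) ∈ S36V_G A (S36V_emFF M q) ∧
      (f : ↥(modularFunctionFieldBar (M * q * q))) ∈ S36V_G A (S36V_emFV M q hq hqM ζ hζ hζ1) ∧
      (f : ↥(modularFunctionFieldBar (M * q * q))) ∈ S36V_G A (S36V_emVV M q hq hqM) ∧
      ∀ Q ∈ U, (f : ↥(modularFunctionFieldBar (M * q * q))) ∈ Q.toValuationSubring :=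
  S36IT_fam3_mem_Λ_G M q hq hqM A hA ζ hζ hζ1 _ U f

/-- **INT (R12) on the concrete lattice**: a function regular at every valuation through the
closed point `y` has a denominator that does not vanish at `y`. -/
theorem S36IT_lat_exists_den {κ : Type*} [Field κ]
    (y : (S36IT_lat M q hq hqM A hA ζ hζ hζ1 U).Λ →+* κ)
    (x : ↥(S36FI_act (M * q * q) (A.inertiaSubgroupIn ℚ)).fixF)
    (hx : ∀ i ∈ (S36IT_lat M q hq hqM A hA ζ hζ hζ1 U).thru y,
      (S36IT_lat M q hq hqM A hA ζ hζ hζ1 U).v i x ≤ 1) :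
    ∃ d : (S36IT_lat M q hq hqM A hA ζ hζ hζ1 U).Λ, y d ≠ 0 ∧
      (d : ↥(S36FI_act (M * q * q) (A.inertiaSubgroupIn ℚ)).fixF) * x ∈
        (S36IT_lat M q hq hqM A hA ζ hζ hζ1 U).Λ :=
  (S36IT_lat M q hq hqM A hA ζ hζ hζ1 U).exists_den y x hx

/-- **INT (R12) on the concrete lattice**: the local ring of `Λ_U` at `y` is the intersection of
the valuation rings through `y`. -/
theorem S36IT_lat_mem_loc_iff {κ : Type*} [Field κ]
    (y : (S36IT_lat M q hq hqM A hA ζ hζ hζ1 U).Λ →+* κ)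
    (x : ↥(S36FI_act (M * q * q) (A.inertiaSubgroupIn ℚ)).fixF) :
    x ∈ S36IT_loc (S36IT_lat M q hq hqM A hA ζ hζ hζ1 U).Λ y ↔
      ∀ i ∈ (S36IT_lat M q hq hqM A hA ζ hζ hζ1 U).thru y,
        (S36IT_lat M q hq hqM A hA ζ hζ hζ1 U).v i x ≤ 1 :=
  (S36IT_lat M q hq hqM A hA ζ hζ hζ1 U).mem_loc_iff y x

end Fermat.Agent.S36
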