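import Fermat.Agent.S36.Cart3Wire
import Fermat.Agent.S36.ChartsB
import Fermat.Agent.S36.ParamQ2
import Fermat.Agent.S36.Val3DvInst
import Fermat.Agent.S36.Int3Closed
import Fermat.Agent.S34.ValHgenNorm
import Fermat.Agent.S34.SatXB

/-!
# TRACK 10 (S36), package CART-INST (helper5): concrete inputs of the chart `U = {B ≠ ∞}`.
Prefix `S36CJ_`.

Setting (helper1 / helper17 / helper23): `A ⊂ ℚ̄` over `q`, `I = A.inertiaSubgroupIn ℚ`,
`F_L = (S36FI_act (M q q) I).fixF`, `k` the residue field of `A`, `κ = S36FI_kappa M A`,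
`S₁ S₂ S₃ = S36FI_SFF / SFV / SVV`, `D = S36IT_fam3 … dvr U` with `U = S34IX_TU B`,
`B = S36CO_BL M q I = j(t^q)`, chart `C = S36CZ_C`, `x̄ = S36CZ_xb = j̄(t^q) = j̄^q`.

* `S36CJ_xb_eq` : `x̄ = j̄ ^ q`;  `S36CJ_reg_iff`, `S36CJ_ord_iff` : `x̄` and `j̄` have the same poles;
* `S36CJ_hj` : `B` regular at `Q` ⇒ `A = j` regular at `Q` (the hypothesis `hj` of `S36SE_hsep_U`);
* `S36CJ_lift₃` : **surjectivity of the reduction along `VV`** on `Λ_U` (from `S36PA_lift_C`), with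
  the reductions along `FV` and `FF`;  `S36CJ_lift₁` the same along `FF` (from `S36PA_lift_A`);
* `S36CJ_hliftss` : **`hliftss` of `S36TX_geo_U_fin`** (multiplier `ε = 1`);
* `S36CJ_q`, `S36CJ_hqc`, `S36CJ_hqFF`, `S36CJ_hqVV`, `S36CJ_hπ`, `S36CJ_hπq` : **the uniformiser
  inputs of `S36TX_geo_U_fin`** (`m + 1 = q − 1`, `π = S36VDV_varpiL`).
-/

set_option autoImplicit false
set_option linter.unusedSectionVars false
set_option linter.unusedVariables false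
set_option linter.style.haveILetI false
set_option linter.style.longLine false
set_option synthInstance.maxHeartbeats 400000
set_option maxHeartbeats 1000000

open AlgebraicCurve ModularCurve HahnSeries IntermediateField

noncomputable section

namespace Fermat.Agent.S36

open Fermat.Agent.Lib Fermat.Agent.S18 Fermat.Agent.S24 Fermat.Agent.S34

local notation "Ω" => AlgebraicClosure ℚ

variable (M q : ℕ) [NeZero M] [NeZero q] (hq : q.Prime) (hqM : ¬ q ∣ M)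
  (A : ValuationSubring Ω) (hA : A.LiesOverPrime q)
  (ζ : Ωˣ) (hζ : ζ ^ q = 1) (hζ1 : ζ ≠ 1)

/-! ### the coordinate and its reduction -/

/-- `x̄ = j̄ ^ q`. -/
theorem S36CJ_xb_eq :
    S36CZ_xb M q hq hqM A hA = S18_jbar M (IsLocalRing.ResidueField A) ^ q := by
  haveI : Fact q.Prime := ⟨hq⟩
  haveI : CharP (IsLocalRing.ResidueField A) q := S18_residue_charP A q hq hA
  apply Subtype.ext
  rw [S36CZ_xb_coe]
  have h := S34VH_jq_pow (IsLocalRing.ResidueField A) q 1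
  rw [jqNModC_one] at h
  show jqNModC (IsLocalRing.ResidueField A) q = _
  rw [SubmonoidClass.coe_pow, S18_jbar_coe, h]
  rfl

/-- `x̄` and `j̄` have the same poles. -/
theorem S36CJ_ord_iff (Q : Place (IsLocalRing.ResidueField A) ↥(S36FI_kappa M A)) :
    0 ≤ Q.ord (S36CZ_xb M q hq hqM A hA) ↔
      0 ≤ Q.ord (S18_jbar M (IsLocalRing.ResidueField A)) := by
  rw [S36CJ_xb_eq, S18_ord_pow]
  have hq0 : (0 : ℤ) < (q : ℤ) := by exact_mod_cast hq.pos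
  constructor
  · intro h
    by_contra hcon
    push Not at hcon
    nlinarith
  · intro h
    positivity

/-- `x̄` and `j̄` have the same poles (adic form). -/
theorem S36CJ_reg_iff (Q : Place (IsLocalRing.ResidueField A) ↥(S36FI_kappa M A)) :
    Q.adicValuation (S36CZ_xb M q hq hqM A hA) ≤ 1 ↔
      0 ≤ Q.ord (S18_jbar M (IsLocalRing.ResidueField A)) := by
  rw [S36CU_adic_iff_ord]
  exact S36CJ_ord_iff M q hq hqM A hA Q

/-- **`hj`**: where `B = j(t^q)` is regular, `j` is regular. -/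
theorem S36CJ_hj (H : Subgroup (Ω ≃ₐ[ℚ] Ω))
    (Q : Place Ω ↥(modularFunctionFieldBar (M * q * q)))
    (hQ : 0 ≤ Q.ord ((S36CO_BL M q H : ↥(S36FI_act (M * q * q) H).fixF) :
      ↥(modularFunctionFieldBar (M * q * q)))) :
    0 ≤ Q.ord (jB (M * q * q)) := by
  by_contra hcon
  push Not at hcon
  have h := (S34SX_ord_jBar_ge (M * q * q) Q hcon q (S36CO_q_dvd M q)).2
  rw [S36CO_BL_coe] at hQ
  omega

/-! ### the lifts on the chart `U` -/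

section lift

variable (dvr : ∀ i, IsDiscreteValuationRing
    (S36FL_OL (S36FI_act (M * q * q) (A.inertiaSubgroupIn ℚ))
      (S36IT_Ov3 M q hq hqM A hA ζ hζ hζ1 i)))

/-- a function which is `I`-fixed, in the three Gauss rings and regular where `j` is regular lies
in the lattice `Λ_U` of the chart `U = {B ≠ ∞}`. -/
theorem S36CJ_mem_Λ (f : ↥(modularFunctionFieldBar (M * q * q)))
    (hfix : f ∈ (S36FI_act (M * q * q) (A.inertiaSubgroupIn ℚ)).fixF)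
    (hreg : ∀ Q : Place Ω ↥(modularFunctionFieldBar (M * q * q)),
      0 ≤ Q.ord (jB (M * q * q)) → 0 ≤ Q.ord f)
    (hFF : f ∈ S36V_G A (S36V_emFF M q))
    (hFV : f ∈ S36V_G A (S36V_emFV M q hq hqM ζ hζ hζ1))
    (hVV : f ∈ S36V_G A (S36V_emVV M q hq hqM)) :
    (⟨f, hfix⟩ : ↥(S36FI_act (M * q * q) (A.inertiaSubgroupIn ℚ)).fixF) ∈
      (S36IT_fam3 M q hq hqM A hA ζ hζ hζ1 dvr
        (S34IX_TU ((S36CO_BL M q (A.inertiaSubgroupIn ℚ) :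
          ↥(S36FI_act (M * q * q) (A.inertiaSubgroupIn ℚ)).fixF) :
            ↥(modularFunctionFieldBar (M * q * q))))).Λ := by
  rw [S36IT_fam3_mem_Λ_G]
  refine ⟨hFF, hFV, hVV, fun Q hQ => ?_⟩
  rw [← BL_adicValuation_le_one_iff, S36CU_adic_iff_ord]
  exact hreg Q (S36CJ_hj M q (A.inertiaSubgroupIn ℚ) Q hQ)

/-- **the lift along `VV`** (`δ_C`, from `S36PA_lift_C`): every `ā ∈ κ` regular off the cusps is the
reduction along `VV` **and** along `FV` of an element of `Λ_U`. -/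
theorem S36CJ_lift₃
    (a : ↥(S36FI_kappa M A))
    (ha : ∀ Q : Place (IsLocalRing.ResidueField A) ↥(S36FI_kappa M A),
      0 ≤ Q.ord (S18_jbar M (IsLocalRing.ResidueField A)) → 0 ≤ Q.ord a) :
    ∃ f : (S36IT_fam3 M q hq hqM A hA ζ hζ hζ1 dvr
        (S34IX_TU ((S36CO_BL M q (A.inertiaSubgroupIn ℚ) :
          ↥(S36FI_act (M * q * q) (A.inertiaSubgroupIn ℚ)).fixF) :
            ↥(modularFunctionFieldBar (M * q * q))))).Λ,
      (∀ h₃ : ((f : ↥(S36FI_act (M * q * q) (A.inertiaSubgroupIn ℚ)).fixF)) ∈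
          (S36FI_SVV M q hq hqM A hA).O, (S36FI_SVV M q hq hqM A hA).red ⟨f, h₃⟩ = a) ∧
      (∀ h₂ : ((f : ↥(S36FI_act (M * q * q) (A.inertiaSubgroupIn ℚ)).fixF)) ∈
          (S36FI_SFV M q hq hqM A hA ζ hζ hζ1).O,
        (S36FI_SFV M q hq hqM A hA ζ hζ hζ1).red ⟨f, h₂⟩ = a) := by
  obtain ⟨f, hfix, hreg, ⟨hFF, eFF⟩, ⟨hFV, eFV⟩, ⟨hVV, eVV⟩⟩ :=
    S36PA_lift_C M q hq hqM A hA ζ hζ hζ1 a ha
  refine ⟨⟨⟨f, hfix⟩, S36CJ_mem_Λ M q hq hqM A hA ζ hζ hζ1 dvr f hfix hreg hFF hFV hVV⟩,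
    fun h₃ => ?_, fun h₂ => ?_⟩
  · apply Subtype.ext
    rw [S36FI_SVV_red]
    exact eVV
  · apply Subtype.ext
    rw [S36FI_SFV_red]
    exact eFV

/-- **the lift along `FF`** (`δ_A`, from `S36PA_lift_A`): every `ā ∈ κ` regular off the cusps is the
reduction along `FF` **and** along `FV` of an element of `Λ_U`. -/
theorem S36CJ_lift₁
    (a : ↥(S36FI_kappa M A))
    (ha : ∀ Q : Place (IsLocalRing.ResidueField A) ↥(S36FI_kappa M A),
      0 ≤ Q.ord (S18_jbar M (IsLocalRing.ResidueField A)) → 0 ≤ Q.ord a) :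
    ∃ f : (S36IT_fam3 M q hq hqM A hA ζ hζ hζ1 dvr
        (S34IX_TU ((S36CO_BL M q (A.inertiaSubgroupIn ℚ) :
          ↥(S36FI_act (M * q * q) (A.inertiaSubgroupIn ℚ)).fixF) :
            ↥(modularFunctionFieldBar (M * q * q))))).Λ,
      (∀ h₁ : ((f : ↥(S36FI_act (M * q * q) (A.inertiaSubgroupIn ℚ)).fixF)) ∈
          (S36FI_SFF M q hq hqM A hA).O, (S36FI_SFF M q hq hqM A hA).red ⟨f, h₁⟩ = a) ∧
      (∀ h₂ : ((f : ↥(S36FI_act (M * q * q) (A.inertiaSubgroupIn ℚ)).fixF)) ∈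
          (S36FI_SFV M q hq hqM A hA ζ hζ hζ1).O,
        (S36FI_SFV M q hq hqM A hA ζ hζ hζ1).red ⟨f, h₂⟩ = a) := by
  obtain ⟨f, hfix, hreg, ⟨hFF, eFF⟩, ⟨hFV, eFV⟩, ⟨hVV, eVV⟩⟩ :=
    S36PA_lift_A M q hq hqM A hA ζ hζ hζ1 a ha
  refine ⟨⟨⟨f, hfix⟩, S36CJ_mem_Λ M q hq hqM A hA ζ hζ hζ1 dvr f hfix hreg hFF hFV hVV⟩,
    fun h₁ => ?_, fun h₂ => ?_⟩
  · apply Subtype.ext
    rw [S36FI_SFF_red]
    exact eFF
  · apply Subtype.ext
    rw [S36FI_SFV_red]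
    exact eFV

/-- **`hliftss`, general form**: for any set `T` of places containing the cusps (= poles of `j̄`),
pairs of functions regular off `T` lift to `Λ_U` along `VV` (multiplier `ε = 1`). -/
theorem S36CJ_hliftss_of
    (hO : ∀ f : (S36IT_fam3 M q hq hqM A hA ζ hζ hζ1 dvr
        (S34IX_TU ((S36CO_BL M q (A.inertiaSubgroupIn ℚ) :
          ↥(S36FI_act (M * q * q) (A.inertiaSubgroupIn ℚ)).fixF) :
            ↥(modularFunctionFieldBar (M * q * q))))).Λ,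
      ((f : ↥(S36FI_act (M * q * q) (A.inertiaSubgroupIn ℚ)).fixF)) ∈
        (S36FI_SVV M q hq hqM A hA).O)
    (T : Set (Place (IsLocalRing.ResidueField A) ↥(S36FI_kappa M A)))
    (hT : ∀ Q : Place (IsLocalRing.ResidueField A) ↥(S36FI_kappa M A),
      0 ≤ Q.ord (S18_jbar M (IsLocalRing.ResidueField A)) → Q ∉ T)
    (P : Place (IsLocalRing.ResidueField A) ↥(S36FI_kappa M A))
    (a₁ a₂ : ↥(S36FI_kappa M A))
    (h₁ : ∀ Q : Place (IsLocalRing.ResidueField A) ↥(S36FI_kappa M A), Q ∉ T → 0 ≤ Q.ord a₁)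
    (h₂ : ∀ Q : Place (IsLocalRing.ResidueField A) ↥(S36FI_kappa M A), Q ∉ T → 0 ≤ Q.ord a₂) :
    ∃ (ε : ↥(S36FI_kappa M A)) (f₁ f₂ : (S36IT_fam3 M q hq hqM A hA ζ hζ hζ1 dvr
        (S34IX_TU ((S36CO_BL M q (A.inertiaSubgroupIn ℚ) :
          ↥(S36FI_act (M * q * q) (A.inertiaSubgroupIn ℚ)).fixF) :
            ↥(modularFunctionFieldBar (M * q * q))))).Λ), ε ≠ 0 ∧ P.ord ε = 0 ∧
      S36CA_compRed (S36FI_SVV M q hq hqM A hA) _ hO f₁ = a₁ * ε ∧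
      S36CA_compRed (S36FI_SVV M q hq hqM A hA) _ hO f₂ = a₂ * ε := by
  obtain ⟨f₁, e₁, -⟩ := S36CJ_lift₃ M q hq hqM A hA ζ hζ hζ1 dvr a₁ (fun Q hQ => h₁ Q (hT Q hQ))
  obtain ⟨f₂, e₂, -⟩ := S36CJ_lift₃ M q hq hqM A hA ζ hζ hζ1 dvr a₂ (fun Q hQ => h₂ Q (hT Q hQ))
  refine ⟨1, f₁, f₂, one_ne_zero, P.ord_one, ?_, ?_⟩
  · rw [mul_one, S36CA_compRed_apply]
    exact e₁ _
  · rw [mul_one, S36CA_compRed_apply]
    exact e₂ _

/-- **`hliftss` of `S36TX_geo_fin`** for the separable coordinate `w₃ = j̄`. -/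
theorem S36CJ_hliftss_w
    (hO : ∀ f : (S36IT_fam3 M q hq hqM A hA ζ hζ hζ1 dvr
        (S34IX_TU ((S36CO_BL M q (A.inertiaSubgroupIn ℚ) :
          ↥(S36FI_act (M * q * q) (A.inertiaSubgroupIn ℚ)).fixF) :
            ↥(modularFunctionFieldBar (M * q * q))))).Λ,
      ((f : ↥(S36FI_act (M * q * q) (A.inertiaSubgroupIn ℚ)).fixF)) ∈
        (S36FI_SVV M q hq hqM A hA).O)
    (P : Place (IsLocalRing.ResidueField A) ↥(S36FI_kappa M A))
    (a₁ a₂ : ↥(S36FI_kappa M A))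
    (h₁ : ∀ Q : Place (IsLocalRing.ResidueField A) ↥(S36FI_kappa M A),
      Q ∉ {Q : Place (IsLocalRing.ResidueField A) ↥(S36FI_kappa M A) |
        ¬ Q.adicValuation (S18_jbar M (IsLocalRing.ResidueField A)) ≤ 1} → 0 ≤ Q.ord a₁)
    (h₂ : ∀ Q : Place (IsLocalRing.ResidueField A) ↥(S36FI_kappa M A),
      Q ∉ {Q : Place (IsLocalRing.ResidueField A) ↥(S36FI_kappa M A) |
        ¬ Q.adicValuation (S18_jbar M (IsLocalRing.ResidueField A)) ≤ 1} → 0 ≤ Q.ord a₂) :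
    ∃ (ε : ↥(S36FI_kappa M A)) (f₁ f₂ : (S36IT_fam3 M q hq hqM A hA ζ hζ hζ1 dvr
        (S34IX_TU ((S36CO_BL M q (A.inertiaSubgroupIn ℚ) :
          ↥(S36FI_act (M * q * q) (A.inertiaSubgroupIn ℚ)).fixF) :
            ↥(modularFunctionFieldBar (M * q * q))))).Λ), ε ≠ 0 ∧ P.ord ε = 0 ∧
      S36CA_compRed (S36FI_SVV M q hq hqM A hA) _ hO f₁ = a₁ * ε ∧
      S36CA_compRed (S36FI_SVV M q hq hqM A hA) _ hO f₂ = a₂ * ε :=
  S36CJ_hliftss_of M q hq hqM A hA ζ hζ hζ1 dvr hO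
    {Q : Place (IsLocalRing.ResidueField A) ↥(S36FI_kappa M A) |
      ¬ Q.adicValuation (S18_jbar M (IsLocalRing.ResidueField A)) ≤ 1}
    (fun Q hQ hQT => hQT ((S36CU_adic_iff_ord Q _).2 hQ)) P a₁ a₂ h₁ h₂

/-- **`hliftss` of `S36TX_geo_U_fin`** for the chart coordinate `x₃ = x̄ = j̄(t^q)`. -/
theorem S36CJ_hliftss_x
    (hO : ∀ f : (S36IT_fam3 M q hq hqM A hA ζ hζ hζ1 dvr
        (S34IX_TU ((S36CO_BL M q (A.inertiaSubgroupIn ℚ) :
          ↥(S36FI_act (M * q * q) (A.inertiaSubgroupIn ℚ)).fixF) :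
            ↥(modularFunctionFieldBar (M * q * q))))).Λ,
      ((f : ↥(S36FI_act (M * q * q) (A.inertiaSubgroupIn ℚ)).fixF)) ∈
        (S36FI_SVV M q hq hqM A hA).O)
    (P : Place (IsLocalRing.ResidueField A) ↥(S36FI_kappa M A))
    (a₁ a₂ : ↥(S36FI_kappa M A))
    (h₁ : ∀ Q : Place (IsLocalRing.ResidueField A) ↥(S36FI_kappa M A),
      Q ∉ {Q : Place (IsLocalRing.ResidueField A) ↥(S36FI_kappa M A) |
        ¬ Q.adicValuation (S36CZ_xb M q hq hqM A hA) ≤ 1} → 0 ≤ Q.ord a₁)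
    (h₂ : ∀ Q : Place (IsLocalRing.ResidueField A) ↥(S36FI_kappa M A),
      Q ∉ {Q : Place (IsLocalRing.ResidueField A) ↥(S36FI_kappa M A) |
        ¬ Q.adicValuation (S36CZ_xb M q hq hqM A hA) ≤ 1} → 0 ≤ Q.ord a₂) :
    ∃ (ε : ↥(S36FI_kappa M A)) (f₁ f₂ : (S36IT_fam3 M q hq hqM A hA ζ hζ hζ1 dvr
        (S34IX_TU ((S36CO_BL M q (A.inertiaSubgroupIn ℚ) :
          ↥(S36FI_act (M * q * q) (A.inertiaSubgroupIn ℚ)).fixF) :
            ↥(modularFunctionFieldBar (M * q * q))))).Λ), ε ≠ 0 ∧ P.ord ε = 0 ∧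
      S36CA_compRed (S36FI_SVV M q hq hqM A hA) _ hO f₁ = a₁ * ε ∧
      S36CA_compRed (S36FI_SVV M q hq hqM A hA) _ hO f₂ = a₂ * ε :=
  S36CJ_hliftss_of M q hq hqM A hA ζ hζ hζ1 dvr hO
    {Q : Place (IsLocalRing.ResidueField A) ↥(S36FI_kappa M A) |
      ¬ Q.adicValuation (S36CZ_xb M q hq hqM A hA) ≤ 1}
    (fun Q hQ hQT => hQT ((S36CJ_reg_iff M q hq hqM A hA Q).2 hQ)) P a₁ a₂ h₁ h₂

end lift

/-! ### the uniformisers (any chart `T`) -/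

section unif

variable (dvr : ∀ i, IsDiscreteValuationRing
    (S36FL_OL (S36FI_act (M * q * q) (A.inertiaSubgroupIn ℚ))
      (S36IT_Ov3 M q hq hqM A hA ζ hζ hζ1 i)))
  (T : Set (Place Ω ↥(modularFunctionFieldBar (M * q * q))))

/-- the constant `q` lies in the lattice of every chart. -/
theorem S36CJ_q_mem :
    (((q : ℕ) : ↥(S36FI_act (M * q * q) (A.inertiaSubgroupIn ℚ)).fixF)) ∈
      (S36IT_fam3 M q hq hqM A hA ζ hζ hζ1 dvr T).Λ := by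
  rw [S36IT_fam3_mem_Λ_G]
  have hqA : ((q : ℕ) : Ω) ∈ A := natCast_mem A q
  have e : ((((q : ℕ) : ↥(S36FI_act (M * q * q) (A.inertiaSubgroupIn ℚ)).fixF)) :
      ↥(modularFunctionFieldBar (M * q * q))) =
      algebraMap Ω ↥(modularFunctionFieldBar (M * q * q)) ((q : ℕ) : Ω) := by
    rw [map_natCast]
    rfl
  rw [e]
  refine ⟨S36VDV_G_const A _ (S36FI_emFF_const M q) hqA,
    S36VDV_G_const A _ (S36FI_emFV_const M q hq hqM ζ hζ hζ1) hqA,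
    S36VDV_G_const A _ (S36FI_emVV_const M q hq hqM) hqA, fun Q hQ => ?_⟩
  rw [map_natCast]
  exact natCast_mem _ q

/-- **`q : Λ_T`.** -/
def S36CJ_q : (S36IT_fam3 M q hq hqM A hA ζ hζ hζ1 dvr T).Λ :=
  ⟨((q : ℕ) : ↥(S36FI_act (M * q * q) (A.inertiaSubgroupIn ℚ)).fixF),
    S36CJ_q_mem M q hq hqM A hA ζ hζ hζ1 dvr T⟩

@[simp] theorem S36CJ_q_coe :
    ((S36CJ_q M q hq hqM A hA ζ hζ hζ1 dvr T :
      (S36IT_fam3 M q hq hqM A hA ζ hζ hζ1 dvr T).Λ) :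
        ↥(S36FI_act (M * q * q) (A.inertiaSubgroupIn ℚ)).fixF) = ((q : ℕ) : _) := rfl

include hq in
/-- **`hc`**: `q ≠ 0` in `ℚ̄`. -/
theorem S36CJ_hc : ((q : ℕ) : Ω) ≠ 0 := by exact_mod_cast hq.ne_zero

/-- **`hqc`**: `q` is the constant `q`. -/
theorem S36CJ_hqc :
    (S36IT_fam3 M q hq hqM A hA ζ hζ hζ1 dvr T).φ
        ((S36CJ_q M q hq hqM A hA ζ hζ hζ1 dvr T :
          (S36IT_fam3 M q hq hqM A hA ζ hζ hζ1 dvr T).Λ) :
            ↥(S36FI_act (M * q * q) (A.inertiaSubgroupIn ℚ)).fixF) =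
      algebraMap Ω ↥(modularFunctionFieldBar (M * q * q)) ((q : ℕ) : Ω) := by
  rw [S36CJ_q_coe, map_natCast, map_natCast]

/-- **`hqFF`**: `q` is a uniformiser of `FF` (index `0`). -/
theorem S36CJ_hqFF :
    S36CA_IsUnif ((S36IT_fam3 M q hq hqM A hA ζ hζ hζ1 dvr T).Ov 0)
      ((S36CJ_q M q hq hqM A hA ζ hζ hζ1 dvr T :
        (S36IT_fam3 M q hq hqM A hA ζ hζ hζ1 dvr T).Λ) :
          ↥(S36FI_act (M * q * q) (A.inertiaSubgroupIn ℚ)).fixF) :=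
  S36VDV_isUnif_FF M q hq A (S36V_OFF M q hq A hA) hA (fun _ => Iff.rfl)

/-- **`hqVV`**: `q` is a uniformiser of `VV` (index `2`). -/
theorem S36CJ_hqVV :
    S36CA_IsUnif ((S36IT_fam3 M q hq hqM A hA ζ hζ hζ1 dvr T).Ov 2)
      ((S36CJ_q M q hq hqM A hA ζ hζ hζ1 dvr T :
        (S36IT_fam3 M q hq hqM A hA ζ hζ hζ1 dvr T).Λ) :
          ↥(S36FI_act (M * q * q) (A.inertiaSubgroupIn ℚ)).fixF) :=
  S36VDV_isUnif_VV M q hq hqM A (S36V_OVV M q hq hqM A hA) hA (fun _ => Iff.rfl)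

/-- **`hπ`**: `ϖ` is a uniformiser of `FV` (index `1`). -/
theorem S36CJ_hπ :
    S36CA_IsUnif ((S36IT_fam3 M q hq hqM A hA ζ hζ hζ1 dvr T).Ov 1)
      (S36VDV_varpiL M q (A.inertiaSubgroupIn ℚ)) :=
  S36VDV_isUnif_FV M q hq hqM A ζ hζ hζ1 (S36V_OFV M q hq hqM A hA ζ hζ hζ1) hA (fun _ => Iff.rfl)

include hq in
/-- `(q − 2) + 1 = q − 1`. -/
theorem S36CJ_m_succ : q - 2 + 1 = q - 1 := by
  have := hq.two_le
  omega

/-- **`hπq`**: `ϖ^(m+1) / q` is a unit of `FV`, `m = q − 2`. -/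
theorem S36CJ_hπq :
    S36LW_IsU ((S36IT_fam3 M q hq hqM A hA ζ hζ hζ1 dvr T).Ov 1)
      (S36VDV_varpiL M q (A.inertiaSubgroupIn ℚ) ^ (q - 2 + 1) /
        ((S36CJ_q M q hq hqM A hA ζ hζ hζ1 dvr T :
          (S36IT_fam3 M q hq hqM A hA ζ hζ hζ1 dvr T).Λ) :
            ↥(S36FI_act (M * q * q) (A.inertiaSubgroupIn ℚ)).fixF)) := by
  rw [S36CJ_m_succ q hq]
  exact S36VDV_isU_FV M q hq hqM A ζ hζ hζ1 (S36V_OFV M q hq hqM A hA ζ hζ hζ1) hA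
    (fun _ => Iff.rfl)

/-- the three indices of the family. -/
theorem S36CJ_hFF : (S36IT_fam3 M q hq hqM A hA ζ hζ hζ1 dvr T).Ov 0 =
    (S36FI_SFF M q hq hqM A hA).O := rfl

theorem S36CJ_hFV : (S36IT_fam3 M q hq hqM A hA ζ hζ hζ1 dvr T).Ov 1 =
    (S36FI_SFV M q hq hqM A hA ζ hζ hζ1).O := rfl

theorem S36CJ_hVV : (S36IT_fam3 M q hq hqM A hA ζ hζ hζ1 dvr T).Ov 2 =
    (S36FI_SVV M q hq hqM A hA).O := rfl

theorem S36CJ_hall (i : Fin 3) : i = 0 ∨ i = 1 ∨ i = 2 := by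
  fin_cases i <;> simp

end unif

end Fermat.Agent.S36
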