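import Fermat.Agent.S34.NodalChart
import Fermat.Agent.S34.SatInst
import Fermat.Agent.S18.Norm
import Fermat.Agent.S36.ChartsO3Inst

/-!
# TRACK 10 (S36), C1.3 = NODAL3-INST (helper14), part 5: the pull backs `α₂`, `β₂` keep the chart
`U = {B ≠ ∞}` (`B = j(q τ)` at level `M q²`)

Prefix `S36N3R_`.  Level `M q` → `M q²`, `α = heckeAlphaBar ℚ̄ (M q) q`,
`β = heckeBetaBar ℚ̄ (M q) q`, `B = jBar (M q q) q`.

* `S36N3R_jB_int` : `j` is integral over `ℚ̄[j_q]` at level `M q` (Atkin–Lehner symmetry);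
* `S36N3R_alpha_reg` : `g ∈ reg (j_{Mq}) ⇒ α g ∈ reg (B)`;
* `S36N3R_beta_reg`  : `g ∈ reg (j_{Mq}) ⇒ β g ∈ reg (B)`.
-/

set_option autoImplicit false
set_option linter.unusedSectionVars false
set_option linter.unusedVariables false
set_option linter.style.haveILetI false
set_option synthInstance.maxHeartbeats 400000
set_option maxHeartbeats 1000000

open ModularCurve AlgebraicCurve IntermediateField

namespace Fermat.Agent.S36

open Fermat.Agent.Lib Fermat.Agent.S24 Fermat.Agent.S18 Fermat.Agent.S34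

local notation "Ω" => AlgebraicClosure ℚ

section gen

variable {K F : Type*} [Field K] [Field F] [Algebra K F]

/-- an element of `reg x` is regular at the places where `x` is. -/
theorem S36N3R_ord_of_reg {x y : F} (hy : y ∈ S34SB_reg K x) (P : Place K F)
    (hP : 0 ≤ P.ord x) : 0 ≤ P.ord y := by
  rcases eq_or_ne y 0 with rfl | hy0
  · rw [Place.ord_zero]
  · exact (S34SB_mem_reg_iff hy0).1 hy P hP

/-- an element integral over `K[x]` is in `reg x`. -/
theorem S36N3R_reg_of_int {x y : F} (hy : IsIntegral (Algebra.adjoin K ({x} : Set F)) y) :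
    y ∈ S34SB_reg K x := by
  rcases eq_or_ne y 0 with rfl | hy0
  · exact zero_mem _
  · rw [S34SB_mem_reg_iff hy0]
    exact fun P hP => NM_regular_of_isIntegral x y hy P hP

end gen

section lev

variable (M q : ℕ) [NeZero M] [NeZero q]

/-- `j` is integral over `ℚ̄[j_q]` on `X₀(M q)`. -/
theorem S36N3R_jB_int (hq : q.Prime) (hqM : ¬ q ∣ M) :
    IsIntegral (Algebra.adjoin Ω ({S34SP_jq M q} : Set ↥(modularFunctionFieldBar (M * q))))
      (jB (M * q)) := by
  haveI : NeZero (M * q) := ⟨Nat.mul_ne_zero (NeZero.ne M) (NeZero.ne q)⟩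
  haveI : NeZero (q * 1) := ⟨by rw [mul_one]; exact hq.ne_zero⟩
  have hjq : S34SP_jq M q = S34DF_wq M q hq hqM (jB (M * q)) := by
    rw [S34VW_wq_jB M q hq hqM]
    apply Subtype.ext
    simp only [S34SP_jq, jBar, mul_one]
  have h1 : S34SP_jq M q ∈ S34SB_reg Ω (jB (M * q)) :=
    S34NC_jBar_mem_reg (M * q) q (Dvd.intro_left M rfl)
  have h2 : IsIntegral (Algebra.adjoin Ω ({jB (M * q)} : Set ↥(modularFunctionFieldBar (M * q))))
      (S34SP_jq M q) :=
    S34SP_reg (M * q) _ fun P hP => S36N3R_ord_of_reg h1 P hP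
  have h3 := S34S_tp_isIntegral_map
    ((S34DF_wq M q hq hqM : ↥(modularFunctionFieldBar (M * q)) ≃ₐ[Ω]
      ↥(modularFunctionFieldBar (M * q))) : ↥(modularFunctionFieldBar (M * q)) →ₐ[Ω]
      ↥(modularFunctionFieldBar (M * q))) h2
  have e1 : ((S34DF_wq M q hq hqM : ↥(modularFunctionFieldBar (M * q)) ≃ₐ[Ω]
      ↥(modularFunctionFieldBar (M * q))) : ↥(modularFunctionFieldBar (M * q)) →ₐ[Ω]
      ↥(modularFunctionFieldBar (M * q))) (jB (M * q)) = S34SP_jq M q := hjq.symm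
  have e2 : ((S34DF_wq M q hq hqM : ↥(modularFunctionFieldBar (M * q)) ≃ₐ[Ω]
      ↥(modularFunctionFieldBar (M * q))) : ↥(modularFunctionFieldBar (M * q)) →ₐ[Ω]
      ↥(modularFunctionFieldBar (M * q))) (S34SP_jq M q) = jB (M * q) := by
    rw [hjq]
    exact S34DF_wq_wq M q hq hqM _
  rw [e1, e2] at h3
  exact h3

/-- `α₂ (j_q) = B`. -/
theorem S36N3R_alpha_jq :
    heckeAlphaBar Ω (M * q) q (S34SP_jq M q) = jBar (M * q * q) q (S36CO_q_dvd M q) := by
  haveI : NeZero (M * q) := ⟨Nat.mul_ne_zero (NeZero.ne M) (NeZero.ne q)⟩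
  exact S34WJ_alpha_jBar (M := M * q) (q := q) q (Dvd.intro_left M rfl)

/-- `β₂ (j) = B`. -/
theorem S36N3R_beta_jB :
    heckeBetaBar Ω (M * q) q (jB (M * q)) = jBar (M * q * q) q (S36CO_q_dvd M q) := by
  haveI : NeZero (M * q) := ⟨Nat.mul_ne_zero (NeZero.ne M) (NeZero.ne q)⟩
  exact S34SP_beta_jB (M * q) q

/-- **`α₂` keeps the chart `U`**: `g` regular off the cusps ⇒ `α₂ g ∈ reg (B)`. -/
theorem S36N3R_alpha_reg (hq : q.Prime) (hqM : ¬ q ∣ M)
    {g : ↥(modularFunctionFieldBar (M * q))}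
    (hg : g ∈ S34SB_reg Ω (jB (M * q))) :
    heckeAlphaBar Ω (M * q) q g ∈ S34SB_reg Ω (jBar (M * q * q) q (S36CO_q_dvd M q)) := by
  haveI : NeZero (M * q) := ⟨Nat.mul_ne_zero (NeZero.ne M) (NeZero.ne q)⟩
  have h1 : IsIntegral (Algebra.adjoin Ω ({jB (M * q)} : Set ↥(modularFunctionFieldBar (M * q))))
      g := S34SP_reg (M * q) _ fun P hP => S36N3R_ord_of_reg hg P hP
  have h2 := S34S_tp_isIntegral_map (heckeAlphaBar Ω (M * q) q) h1
  have h3 := S34S_tp_isIntegral_map (heckeAlphaBar Ω (M * q) q) (S36N3R_jB_int M q hq hqM)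
  rw [S36N3R_alpha_jq] at h3
  -- `α j` is regular where `B` is, and `α g` is regular where `α j` is
  have h4 := S36N3R_reg_of_int h3
  have h5 := S36N3R_reg_of_int h2
  rcases eq_or_ne (heckeAlphaBar Ω (M * q) q g) 0 with h0 | h0
  · rw [h0]; exact zero_mem _
  · rw [S34SB_mem_reg_iff h0]
    intro P hP
    exact S36N3R_ord_of_reg h5 P (S36N3R_ord_of_reg h4 P hP)

/-- **`β₂` keeps the chart `U`**: `g` regular off the cusps ⇒ `β₂ g ∈ reg (B)`. -/
theorem S36N3R_beta_reg {g : ↥(modularFunctionFieldBar (M * q))}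
    (hg : g ∈ S34SB_reg Ω (jB (M * q))) :
    heckeBetaBar Ω (M * q) q g ∈ S34SB_reg Ω (jBar (M * q * q) q (S36CO_q_dvd M q)) := by
  haveI : NeZero (M * q) := ⟨Nat.mul_ne_zero (NeZero.ne M) (NeZero.ne q)⟩
  have h1 : IsIntegral (Algebra.adjoin Ω ({jB (M * q)} : Set ↥(modularFunctionFieldBar (M * q))))
      g := S34SP_reg (M * q) _ fun P hP => S36N3R_ord_of_reg hg P hP
  have h2 := S34S_tp_isIntegral_map (heckeBetaBar Ω (M * q) q) h1
  rw [S36N3R_beta_jB] at h2
  exact S36N3R_reg_of_int h2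

end lev

end Fermat.Agent.S36
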