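import Fermat.Agent.S36.FixLFiveVal
import Fermat.Agent.S36.Val3Three

/-!
# TRACK 10 (S36), C1.3 = NODAL3-INST (helper14), part 4: the TABLE on helper1's FIVE valuation
data — the pull backs `α₂ s`, `β₂ s` of inertia-fixed Gauss-integral functions of level `q`

Prefix `S36N3T_`.  `SFF = S36FI_SFF`, `SFV = S36FI_SFV ζ`, `SVV = S36FI_SVV` (helper1,
`S36/FixLFiveVal.lean`), `κ = S36FI_kappa M A ⊂ k((t))`, `α = heckeAlphaBar ℚ̄ (M q) q`,
`β = heckeBetaBar ℚ̄ (M q) q`.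

* `S36N3T_alpha` : for `s ∈ F_{Mq}` inertia-fixed, Gauss-integral at `F` and `V`:
  `α s ∈ O₃(SFF, SFV, SVV)` with reductions `(s̄_F, s̄_F, Ψ s̄_V)` (as Laurent series);
* `S36N3T_beta`  : `β s ∈ O₃` with reductions `(Ψ s̄_F, s̄_V, s̄_V)`;
* **`S36N3T_HA`** : `s̄_F = a`, `s̄_V = 0` ⇒ `f = α s`, `red f = (a, a, 0)`;
* **`S36N3T_HB`** : `s̄_F = 0`, `s̄_V = a` ⇒ `f = β s`, `red f = (0, a, a)`
  — the inputs (HA), (HB) of `S36N3C_hint` on ANY chart `C` (regularity `α s ∈ C.B` resp.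
  `β s ∈ C.B` is the only chart-dependent input).
-/

set_option autoImplicit false
set_option linter.unusedSectionVars false
set_option linter.unusedVariables false
set_option linter.style.haveILetI false
set_option synthInstance.maxHeartbeats 400000
set_option maxHeartbeats 1000000

open HahnSeries ModularCurve IntermediateField

noncomputable section

namespace Fermat.Agent.S36

open Fermat.Agent.S18 Fermat.Agent.S24 Fermat.Agent.S34 Fermat.Agent.GalRep Fermat.Agent.S19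

local notation "Ω" => AlgebraicClosure ℚ

variable (M q : ℕ) [NeZero M] [NeZero q] (hq : q.Prime) (hqM : ¬ q ∣ M)
  (A : ValuationSubring Ω) (hA : A.LiesOverPrime q)
  (ζ : Ωˣ) (hζ : ζ ^ q = 1) (hζ1 : ζ ≠ 1)

/-- **the table for `α`** on the three valuation data over the inertia field. -/
theorem S36N3T_alpha (s : ↥(modularFunctionFieldBar (M * q)))
    (hfix : s ∈ (S36FI_act (M * q) (A.inertiaSubgroupIn ℚ)).fixF)
    (hF : s ∈ S36V_G A (S36V_emF M q)) (hV : s ∈ S36V_G A (S36V_emV M q hq hqM)) :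
    ∃ f : S36L3_O3 (S36FI_SFF M q hq hqM A hA) (S36FI_SFV M q hq hqM A hA ζ hζ hζ1)
        (S36FI_SVV M q hq hqM A hA),
      (((f : ↥(S36FI_act (M * q * q) (A.inertiaSubgroupIn ℚ)).fixF) :
        ↥(modularFunctionFieldBar (M * q * q))) = heckeAlphaBar Ω (M * q) q s) ∧
      (((S36L3_red _ _ _ f).1 : ↥(S36FI_kappa M A)) :
        LaurentSeries (IsLocalRing.ResidueField A)) = S36V_Gred A (S36V_emF M q) ⟨s, hF⟩ ∧
      (((S36L3_red _ _ _ f).2.1 : ↥(S36FI_kappa M A)) :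
        LaurentSeries (IsLocalRing.ResidueField A)) = S36V_Gred A (S36V_emF M q) ⟨s, hF⟩ ∧
      (((S36L3_red _ _ _ f).2.2 : ↥(S36FI_kappa M A)) :
        LaurentSeries (IsLocalRing.ResidueField A)) =
        qExpand (IsLocalRing.ResidueField A) q (S36V_Gred A (S36V_emV M q hq hqM) ⟨s, hV⟩) := by
  have hfix' := S36VR_fix_alpha (M * q) q (A.inertiaSubgroupIn ℚ) hfix
  set g : ↥(S36FI_act (M * q * q) (A.inertiaSubgroupIn ℚ)).fixF :=
    ⟨heckeAlphaBar Ω (M * q) q s, hfix'⟩ with hg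
  have h1 : heckeAlphaBar Ω (M * q) q s ∈ S36V_G A (S36V_emFF M q) :=
    (S36V_FF_alpha M q A).2 hF
  have h2 : heckeAlphaBar Ω (M * q) q s ∈ S36V_G A (S36V_emFV M q hq hqM ζ hζ hζ1) :=
    (S36V_FV_alpha M q hq hqM A ζ hζ hζ1).2 hF
  have h3 : heckeAlphaBar Ω (M * q) q s ∈ S36V_G A (S36V_emVV M q hq hqM) :=
    S36V_VV_alpha M q hq hqM A hV
  have g1 : g ∈ (S36FI_SFF M q hq hqM A hA).O := (S36FI_SFF_mem_O M q hq hqM A hA).2 h1
  have g2 : g ∈ (S36FI_SFV M q hq hqM A hA ζ hζ hζ1).O :=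
    (S36FI_SFV_mem_O M q hq hqM A hA ζ hζ hζ1).2 h2
  have g3 : g ∈ (S36FI_SVV M q hq hqM A hA).O := (S36FI_SVV_mem_O M q hq hqM A hA).2 h3
  refine ⟨⟨g, g1, g2, g3⟩, rfl, ?_, ?_, ?_⟩
  · rw [S36L3_red_fst]
    exact (S36FI_SFF_red M q hq hqM A hA g g1).trans (S36V_FF_alpha_red M q A hF h1)
  · rw [S36L3_red_snd]
    exact (S36FI_SFV_red M q hq hqM A hA ζ hζ hζ1 g g2).trans
      (S36V_FV_alpha_red M q hq hqM A ζ hζ hζ1 hF h2)
  · rw [S36L3_red_trd]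
    exact (S36FI_SVV_red M q hq hqM A hA g g3).trans (S36V_VV_alpha_red M q hq hqM A hV h3)

/-- **the table for `β`** on the three valuation data over the inertia field. -/
theorem S36N3T_beta (s : ↥(modularFunctionFieldBar (M * q)))
    (hfix : s ∈ (S36FI_act (M * q) (A.inertiaSubgroupIn ℚ)).fixF)
    (hF : s ∈ S36V_G A (S36V_emF M q)) (hV : s ∈ S36V_G A (S36V_emV M q hq hqM)) :
    ∃ f : S36L3_O3 (S36FI_SFF M q hq hqM A hA) (S36FI_SFV M q hq hqM A hA ζ hζ hζ1)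
        (S36FI_SVV M q hq hqM A hA),
      (((f : ↥(S36FI_act (M * q * q) (A.inertiaSubgroupIn ℚ)).fixF) :
        ↥(modularFunctionFieldBar (M * q * q))) = heckeBetaBar Ω (M * q) q s) ∧
      (((S36L3_red _ _ _ f).1 : ↥(S36FI_kappa M A)) :
        LaurentSeries (IsLocalRing.ResidueField A)) =
        qExpand (IsLocalRing.ResidueField A) q (S36V_Gred A (S36V_emF M q) ⟨s, hF⟩) ∧
      (((S36L3_red _ _ _ f).2.1 : ↥(S36FI_kappa M A)) :
        LaurentSeries (IsLocalRing.ResidueField A)) =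
        S36V_Gred A (S36V_emV M q hq hqM) ⟨s, hV⟩ ∧
      (((S36L3_red _ _ _ f).2.2 : ↥(S36FI_kappa M A)) :
        LaurentSeries (IsLocalRing.ResidueField A)) =
        S36V_Gred A (S36V_emV M q hq hqM) ⟨s, hV⟩ := by
  haveI : Fact q.Prime := ⟨hq⟩
  haveI : CharP (IsLocalRing.ResidueField A) q := S18_residue_charP A q hq hA
  have hfix' := S36VR_fix_beta (M * q) q (A.inertiaSubgroupIn ℚ) hfix
  set g : ↥(S36FI_act (M * q * q) (A.inertiaSubgroupIn ℚ)).fixF :=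
    ⟨heckeBetaBar Ω (M * q) q s, hfix'⟩ with hg
  have h1 : heckeBetaBar Ω (M * q) q s ∈ S36V_G A (S36V_emFF M q) :=
    S36V_FF_beta M q A hF
  have h2 : heckeBetaBar Ω (M * q) q s ∈ S36V_G A (S36V_emFV M q hq hqM ζ hζ hζ1) :=
    S36V_FV_beta M q hq hqM A ζ hζ hζ1 hV
  have h3 : heckeBetaBar Ω (M * q) q s ∈ S36V_G A (S36V_emVV M q hq hqM) :=
    (S36V_VV_beta M q hq hqM A).2 hV
  have g1 : g ∈ (S36FI_SFF M q hq hqM A hA).O := (S36FI_SFF_mem_O M q hq hqM A hA).2 h1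
  have g2 : g ∈ (S36FI_SFV M q hq hqM A hA ζ hζ hζ1).O :=
    (S36FI_SFV_mem_O M q hq hqM A hA ζ hζ hζ1).2 h2
  have g3 : g ∈ (S36FI_SVV M q hq hqM A hA).O := (S36FI_SVV_mem_O M q hq hqM A hA).2 h3
  refine ⟨⟨g, g1, g2, g3⟩, rfl, ?_, ?_, ?_⟩
  · rw [S36L3_red_fst]
    exact (S36FI_SFF_red M q hq hqM A hA g g1).trans (S36V_FF_beta_red M q A hF h1)
  · rw [S36L3_red_snd]
    exact (S36FI_SFV_red M q hq hqM A hA ζ hζ hζ1 g g2).trans
      (S36V_FV_beta_red M q hq hqM A ζ hζ hζ1 hV h2)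
  · rw [S36L3_red_trd]
    exact (S36FI_SVV_red M q hq hqM A hA g g3).trans (S36V_VV_beta_red M q hq hqM A hV h3)

/-- **(HA)** from a level-`q` function with reductions `(a, 0)`: `f = α s`, `red f = (a, a, 0)`. -/
theorem S36N3T_HA (s : ↥(modularFunctionFieldBar (M * q)))
    (hfix : s ∈ (S36FI_act (M * q) (A.inertiaSubgroupIn ℚ)).fixF)
    (hF : s ∈ S36V_G A (S36V_emF M q)) (hV : s ∈ S36V_G A (S36V_emV M q hq hqM))
    (a : ↥(S36FI_kappa M A))
    (haF : S36V_Gred A (S36V_emF M q) ⟨s, hF⟩ = (a : LaurentSeries (IsLocalRing.ResidueField A)))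
    (haV : S36V_Gred A (S36V_emV M q hq hqM) ⟨s, hV⟩ = 0) :
    ∃ f : S36L3_O3 (S36FI_SFF M q hq hqM A hA) (S36FI_SFV M q hq hqM A hA ζ hζ hζ1)
        (S36FI_SVV M q hq hqM A hA),
      (((f : ↥(S36FI_act (M * q * q) (A.inertiaSubgroupIn ℚ)).fixF) :
        ↥(modularFunctionFieldBar (M * q * q))) = heckeAlphaBar Ω (M * q) q s) ∧
      S36L3_red _ _ _ f = (a, a, 0) := by
  obtain ⟨f, hf, r1, r2, r3⟩ := S36N3T_alpha M q hq hqM A hA ζ hζ hζ1 s hfix hF hV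
  refine ⟨f, hf, Prod.ext ?_ (Prod.ext ?_ ?_)⟩
  · exact Subtype.ext (r1.trans haF)
  · exact Subtype.ext (r2.trans haF)
  · apply Subtype.ext
    rw [r3, haV, map_zero]
    rfl

/-- **(HB)** from a level-`q` function with reductions `(0, a)`: `f = β s`, `red f = (0, a, a)`. -/
theorem S36N3T_HB (s : ↥(modularFunctionFieldBar (M * q)))
    (hfix : s ∈ (S36FI_act (M * q) (A.inertiaSubgroupIn ℚ)).fixF)
    (hF : s ∈ S36V_G A (S36V_emF M q)) (hV : s ∈ S36V_G A (S36V_emV M q hq hqM))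
    (a : ↥(S36FI_kappa M A))
    (haF : S36V_Gred A (S36V_emF M q) ⟨s, hF⟩ = 0)
    (haV : S36V_Gred A (S36V_emV M q hq hqM) ⟨s, hV⟩ =
      (a : LaurentSeries (IsLocalRing.ResidueField A))) :
    ∃ f : S36L3_O3 (S36FI_SFF M q hq hqM A hA) (S36FI_SFV M q hq hqM A hA ζ hζ hζ1)
        (S36FI_SVV M q hq hqM A hA),
      (((f : ↥(S36FI_act (M * q * q) (A.inertiaSubgroupIn ℚ)).fixF) :
        ↥(modularFunctionFieldBar (M * q * q))) = heckeBetaBar Ω (M * q) q s) ∧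
      S36L3_red _ _ _ f = (0, a, a) := by
  obtain ⟨f, hf, r1, r2, r3⟩ := S36N3T_beta M q hq hqM A hA ζ hζ hζ1 s hfix hF hV
  refine ⟨f, hf, Prod.ext ?_ (Prod.ext ?_ ?_)⟩
  · apply Subtype.ext
    rw [r1, haF, map_zero]
    rfl
  · exact Subtype.ext (r2.trans haV)
  · exact Subtype.ext (r3.trans haV)

end Fermat.Agent.S36
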