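import Fermat.Agent.S36.Nodal3Hint
import Fermat.Agent.S36.Nodal3T
import Fermat.Agent.S36.Nodal3Reg
import Fermat.Agent.S36.Nodal3C
import Fermat.Agent.S36.Nodal3Sym
import Fermat.Agent.S36.Spec3SepZ

/-!
# TRACK 10 (S36), C1.3 = NODAL3-INST (helper14), part 7: `hint₁`, `hint₂`, `hint₃` of
`S36TI_Geo` on THE concrete chart `U = S36CZ_C` — NO free hypothesis

Prefix `S36N3F_`.  `D : S36SS_Data` (helper3), `X = S36SE_XSS D` (helper21), chart
`S36CZ_C M q hq hqM A hA n hn` (helper23), `S₁ S₂ S₃ = S36FI_SFF/SFV/SVV` (helper1).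

* `S36N3F_ord_pos` : `adicValuation a < 1`, `a ≠ 0` ⇒ `0 < ord a`;
* `S36N3F_node_zero` : a function of `κ`, regular off the cusps, vanishing at the supersingular
  places, vanishes at all nodes `D.e₁ i` (and `D.e₂ i`, by the node symmetry `S36N3S_Q_mem`);
* **`S36N3F_HA`**, **`S36N3F_HB`** : (HA), (HB) on `S36CZ_C`
  (`f = α₂ s` resp. `β₂ s`, `s` inertia-fixed of level `q`: `S36N3H_levI_A/_B`, the table
  `S36N3T_HA/_HB`, the regularity `S36N3R_alpha_reg/_beta_reg`);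
* **`S36N3F_hint`** : `hint₁ ∧ hint₂ ∧ hint₃` for `S36CZ_C` and `S36SE_XSS D`;
* `S36N3F_hcW` : the conductor `I₁² × I₂² × I₃² ⊂ W¹`.
-/

set_option autoImplicit false
set_option synthInstance.maxHeartbeats 400000
set_option maxHeartbeats 1000000
set_option linter.unusedSectionVars false
set_option linter.unusedVariables false
set_option linter.style.haveILetI false
set_option linter.style.longLine false

open HahnSeries IntermediateField AlgebraicCurve ModularCurve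

noncomputable section

namespace Fermat.Agent.S36

open Fermat.Agent.S18 Fermat.Agent.S24 Fermat.Agent.S34 Fermat.Agent.Lib Fermat.Agent.GalRep

local notation "ℚbar" => AlgebraicClosure ℚ

section gen

variable {K F : Type*} [Field K] [Field F] [Algebra K F]

/-- a non-zero function of adic valuation `< 1` has positive order. -/
theorem S36N3F_ord_pos (v : Place K F) {f : F} (hf : f ≠ 0) (h : v.adicValuation f < 1) :
    0 < v.ord f := by
  by_contra hcon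
  have h0 : 0 ≤ v.ord f⁻¹ := by rw [v.ord_inv]; omega
  have h1 : v.adicValuation f⁻¹ ≤ 1 := (S36CU_adic_iff_ord v f⁻¹).2 h0
  have h2 : v.adicValuation f * v.adicValuation f⁻¹ = 1 := by
    rw [← map_mul, mul_inv_cancel₀ hf, map_one]
  have h3 : v.adicValuation f * v.adicValuation f⁻¹ ≤ v.adicValuation f * 1 :=
    mul_le_mul' le_rfl h1
  rw [h2, mul_one] at h3
  exact absurd h (not_lt.2 h3)

end gen

variable (M q : ℕ) [NeZero M] [NeZero q] [NeZero (M * q)] (hq : q.Prime) (hqM : ¬ q ∣ M)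
  (A : ValuationSubring ℚbar) (hA : A.LiesOverPrime q)
  (ζ : ℚbarˣ) (hζ : ζ ^ q = 1) (hζ1 : ζ ≠ 1)
  {hgen : PrincipalGeneratedByIntegral A (IsLocalRing.residue A) (M * q)}
  {n' : ℕ} {hn' : 0 < n'} (n : ℕ) (hn : 0 < n)

include hA in
/-- the coordinate ring of the chart `U` on `κ` is the ring of the functions regular off the
cusps. -/
theorem S36N3F_Rb_eq :
    S34SB_reg (IsLocalRing.ResidueField A) (S36CZ_xb M q hq hqM A hA) =
      S34SB_reg (IsLocalRing.ResidueField A) (S18_jbar M (IsLocalRing.ResidueField A)) := by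
  rw [S36SE_x_eq_pow M q hq A hA _ (S36CZ_xb_coe M q hq hqM A hA)]
  exact S34SB_reg_pow _ hq.pos

include hA in
/-- a function regular off the cusps and vanishing at the supersingular places vanishes at all
nodes of level `q` (both branches). -/
theorem S36N3F_node_zero (D : S36SS_Data M q hq hqM A hgen n' hn')
    (a : ↥(modularFunctionFieldFullC (IsLocalRing.ResidueField A) M))
    (ha : a ∈ S34SB_reg (IsLocalRing.ResidueField A) (S18_jbar M (IsLocalRing.ResidueField A)))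
    (hv : ∀ y : ↥D.SS, (y.1 : Place (IsLocalRing.ResidueField A)
      ↥(modularFunctionFieldFullC (IsLocalRing.ResidueField A) M)).adicValuation a < 1) :
    ∃ (h₁ : S34NX_iota M q A hq hA a ∈ (S34M_chart M q A n' hn').Rb₁)
      (h₂ : S34NX_iota M q A hq hA a ∈ (S34M_chart M q A n' hn').Rb₂),
      (∀ i, D.e₁ i ⟨_, h₁⟩ = 0) ∧ (∀ i, D.e₂ i ⟨_, h₂⟩ = 0) := by
  obtain ⟨hR₁, hR₁', hR₂, hR₂'⟩ := S34NXR_RbSpec M q hq A hA n' hn'
  have h₁ := hR₁' a ha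
  have h₂ := hR₂' a ha
  have he₁ : ∀ i, D.e₁ i ⟨_, h₁⟩ = 0 := by
    intro i
    rw [D.P_ker i]
    by_cases ha0 : a = 0
    · left
      show S34NX_iota M q A hq hA a = 0
      rw [ha0, map_zero]
    · right
      show 0 < (D.P i).ord (S34NX_iota M q A hq hA a)
      rw [← D.φ_ord (D.P i) (S34NX_iota M q A hq hA a) a (S34NX_iota_coe M q A hq hA a)]
      exact S36N3F_ord_pos _ ha0 (hv ⟨D.φ (D.P i), (D.mem_SS _).2 ⟨i, rfl⟩⟩)
  refine ⟨h₁, h₂, he₁, fun i => ?_⟩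
  obtain ⟨j, hj⟩ := S36N3S_Q_mem D i
  rw [hj _ h₁ h₂]
  exact he₁ j

include hA in
/-- **(HA) on the chart `U`**: `a` regular on the chart, vanishing at the supersingular places
⇒ `(a, a, 0) = red f`, `f ∈ O₃ ∩ B_U`. -/
theorem S36N3F_HA (D : S36SS_Data M q hq hqM A hgen n' hn')
    (a : ↥(S36FI_kappa M A)) (ha : a ∈ (S36CZ_C M q hq hqM A hA n hn).Rb₂)
    (hv : ∀ y : ↥D.SS, ((S36SE_XSS M q hq hqM A hA D).P₂ y).adicValuation a < 1) :
    ∃ f : S36L3_O3 (S36FI_SFF M q hq hqM A hA) (S36FI_SFV M q hq hqM A hA ζ hζ hζ1)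
        (S36FI_SVV M q hq hqM A hA),
      (f : ↥(S36FI_act (M * q * q) (A.inertiaSubgroupIn ℚ)).fixF) ∈
        (S36CZ_C M q hq hqM A hA n hn).B ∧
      S36L3_red _ _ _ f = (a, a, 0) := by
  have ha' : a ∈ S34SB_reg (IsLocalRing.ResidueField A)
      (S18_jbar M (IsLocalRing.ResidueField A)) := by
    rw [← S36N3F_Rb_eq M q hq hqM A hA]
    exact ha
  obtain ⟨h₁, h₂, he₁, he₂⟩ := S36N3F_node_zero M q hq hqM A hA D a ha' hv
  obtain ⟨s, hsB, hfix, hF, hV, r1, r2⟩ :=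
    S36N3H_levI_A M q hq hqM A hA hgen hn' D.e₁ D.e₂ D.hW1 ⟨_, h₁⟩ he₁
  obtain ⟨f, hf, hred⟩ := S36N3T_HA M q hq hqM A hA ζ hζ hζ1 s hfix hF hV a
    (r1.trans (S34NX_iota_coe M q A hq hA a)) r2
  refine ⟨f, ?_, hred⟩
  show ((f : ↥(S36FI_act (M * q * q) (A.inertiaSubgroupIn ℚ)).fixF) :
    ↥(modularFunctionFieldBar (M * q * q))) ∈ S34IX_reg (S34IX_TU (K := ℚbar)
      ((S36CO_BL M q (A.inertiaSubgroupIn ℚ) :
        ↥(S36FI_act (M * q * q) (A.inertiaSubgroupIn ℚ)).fixF) :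
        ↥(modularFunctionFieldBar (M * q * q))))
  rw [S36CU_reg_eq, hf]
  exact S36N3R_alpha_reg M q hq hqM hsB

include hA in
/-- **(HB) on the chart `U`**: `a` regular on the chart, vanishing at the supersingular places
⇒ `(0, a, a) = red f`, `f ∈ O₃ ∩ B_U`. -/
theorem S36N3F_HB (D : S36SS_Data M q hq hqM A hgen n' hn')
    (a : ↥(S36FI_kappa M A)) (ha : a ∈ (S36CZ_C M q hq hqM A hA n hn).Rb₂)
    (hv : ∀ y : ↥D.SS, ((S36SE_XSS M q hq hqM A hA D).P₂ y).adicValuation a < 1) :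
    ∃ f : S36L3_O3 (S36FI_SFF M q hq hqM A hA) (S36FI_SFV M q hq hqM A hA ζ hζ hζ1)
        (S36FI_SVV M q hq hqM A hA),
      (f : ↥(S36FI_act (M * q * q) (A.inertiaSubgroupIn ℚ)).fixF) ∈
        (S36CZ_C M q hq hqM A hA n hn).B ∧
      S36L3_red _ _ _ f = (0, a, a) := by
  have ha' : a ∈ S34SB_reg (IsLocalRing.ResidueField A)
      (S18_jbar M (IsLocalRing.ResidueField A)) := by
    rw [← S36N3F_Rb_eq M q hq hqM A hA]
    exact ha
  obtain ⟨h₁, h₂, he₁, he₂⟩ := S36N3F_node_zero M q hq hqM A hA D a ha' hv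
  obtain ⟨s, hsB, hfix, hF, hV, r1, r2⟩ :=
    S36N3H_levI_B M q hq hqM A hA hgen hn' D.e₁ D.e₂ D.hW1 ⟨_, h₂⟩ he₂
  obtain ⟨f, hf, hred⟩ := S36N3T_HB M q hq hqM A hA ζ hζ hζ1 s hfix hF hV a r1
    (r2.trans (S34NX_iota_coe M q A hq hA a))
  refine ⟨f, ?_, hred⟩
  show ((f : ↥(S36FI_act (M * q * q) (A.inertiaSubgroupIn ℚ)).fixF) :
    ↥(modularFunctionFieldBar (M * q * q))) ∈ S34IX_reg (S34IX_TU (K := ℚbar)
      ((S36CO_BL M q (A.inertiaSubgroupIn ℚ) :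
        ↥(S36FI_act (M * q * q) (A.inertiaSubgroupIn ℚ)).fixF) :
        ↥(modularFunctionFieldBar (M * q * q))))
  rw [S36CU_reg_eq, hf]
  exact S36N3R_beta_reg M q hsB

include hA in
/-- **`hint₁`, `hint₂`, `hint₃` of `S36TI_Geo` on the chart `U = S36CZ_C`** at the
supersingular points `S36SE_XSS D` — no free hypothesis. -/
theorem S36N3F_hint (D : S36SS_Data M q hq hqM A hgen n' hn')
    (hC : S36SE_Reg (S36CZ_C M q hq hqM A hA n hn) (S36SE_XSS M q hq hqM A hA D)) :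
    (∀ g g' : ↥(S36CZ_C M q hq hqM A hA n hn).Rb₁,
      (∀ y, S36SE_e₁ (S36CZ_C M q hq hqM A hA n hn) (S36SE_XSS M q hq hqM A hA D) hC y g = 0) →
      (∀ y, S36SE_e₁ (S36CZ_C M q hq hqM A hA n hn) (S36SE_XSS M q hq hqM A hA D) hC y g' = 0) →
      ((g * g', 0, 0) : ↥(S36CZ_C M q hq hqM A hA n hn).Rb₁ ×
        ↥(S36CZ_C M q hq hqM A hA n hn).Rb₂ × ↥(S36CZ_C M q hq hqM A hA n hn).Rb₃) ∈
        S36L3_W (S36FI_same3 M q hq hqM A hA ζ hζ hζ1) (S36CZ_C M q hq hqM A hA n hn) 1) ∧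
    (∀ g g' : ↥(S36CZ_C M q hq hqM A hA n hn).Rb₂,
      (∀ y, S36SE_e₂ (S36CZ_C M q hq hqM A hA n hn) (S36SE_XSS M q hq hqM A hA D) hC y g = 0) →
      (∀ y, S36SE_e₂ (S36CZ_C M q hq hqM A hA n hn) (S36SE_XSS M q hq hqM A hA D) hC y g' = 0) →
      ((0, g * g', 0) : ↥(S36CZ_C M q hq hqM A hA n hn).Rb₁ ×
        ↥(S36CZ_C M q hq hqM A hA n hn).Rb₂ × ↥(S36CZ_C M q hq hqM A hA n hn).Rb₃) ∈
        S36L3_W (S36FI_same3 M q hq hqM A hA ζ hζ hζ1) (S36CZ_C M q hq hqM A hA n hn) 1) ∧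
    (∀ g g' : ↥(S36CZ_C M q hq hqM A hA n hn).Rb₃,
      (∀ y, S36SE_e₃ (S36CZ_C M q hq hqM A hA n hn) (S36SE_XSS M q hq hqM A hA D) hC y g = 0) →
      (∀ y, S36SE_e₃ (S36CZ_C M q hq hqM A hA n hn) (S36SE_XSS M q hq hqM A hA D) hC y g' = 0) →
      ((0, 0, g * g') : ↥(S36CZ_C M q hq hqM A hA n hn).Rb₁ ×
        ↥(S36CZ_C M q hq hqM A hA n hn).Rb₂ × ↥(S36CZ_C M q hq hqM A hA n hn).Rb₃) ∈
        S36L3_W (S36FI_same3 M q hq hqM A hA ζ hζ hζ1) (S36CZ_C M q hq hqM A hA n hn) 1) :=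
  S36N3C_hint (S36FI_same3 M q hq hqM A hA ζ hζ hζ1) (S36CZ_C M q hq hqM A hA n hn)
    (S36SE_XSS M q hq hqM A hA D) hC rfl rfl (fun _ => rfl) (fun _ => rfl)
    (fun a ha hv => S36N3F_HA M q hq hqM A hA ζ hζ hζ1 n hn D a ha hv)
    (fun a ha hv => S36N3F_HB M q hq hqM A hA ζ hζ hζ1 n hn D a ha hv)

include hA in
/-- **the conductor** `I₁² × I₂² × I₃² ⊂ W¹` on the chart `U = S36CZ_C`. -/
theorem S36N3F_hcW (D : S36SS_Data M q hq hqM A hgen n' hn')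
    (hC : S36SE_Reg (S36CZ_C M q hq hqM A hA n hn) (S36SE_XSS M q hq hqM A hA D)) :
    ∀ x ∈ S36N3I_c (S36CZ_C M q hq hqM A hA n hn)
        (S36SE_e₁ (S36CZ_C M q hq hqM A hA n hn) (S36SE_XSS M q hq hqM A hA D) hC)
        (S36SE_e₂ (S36CZ_C M q hq hqM A hA n hn) (S36SE_XSS M q hq hqM A hA D) hC)
        (S36SE_e₃ (S36CZ_C M q hq hqM A hA n hn) (S36SE_XSS M q hq hqM A hA D) hC),
      x ∈ S36L3_W (S36FI_same3 M q hq hqM A hA ζ hζ hζ1) (S36CZ_C M q hq hqM A hA n hn) 1 :=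
  S36N3C_hcW (S36FI_same3 M q hq hqM A hA ζ hζ hζ1) (S36CZ_C M q hq hqM A hA n hn)
    (S36SE_XSS M q hq hqM A hA D) hC rfl rfl (fun _ => rfl) (fun _ => rfl)
    (fun a ha hv => S36N3F_HA M q hq hqM A hA ζ hζ hζ1 n hn D a ha hv)
    (fun a ha hv => S36N3F_HB M q hq hqM A hA ζ hζ hζ1 n hn D a ha hv)

end Fermat.Agent.S36
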