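import Mathlib
import Fermat.Agent.Lib.LaurentTheta

/-!
# TRACK 10 (S36), package F5b = ORD-FV-Q (helper24), part 4: the Frobenius congruence and `θ`

* `S36OQ_exists_div` — a Laurent series over `ℤ` with all coefficients divisible by `q` is `q·γ`.
* `S36OQ_frob_int` — **Frobenius congruence**: `f(t^q) - f(t)^q = q · γ` over `ℤ`.
* `S36OQ_theta_qExpand` — `θ (f(t^N)) = N · (θ f)(t^N)`.
* `S36OQ_theta_gamma` — `θ γ = (θ f)(t^q) - f^{q-1} θ f` over `ℤ`.
* `S36OQ_theta_gamma_red` — in characteristic `q`: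
  `θ γ̄ = θ f̄ · ((θ f̄)^{q-1} - f̄^{q-1})`   (`f̄`, `γ̄` the images of `f`, `γ`).
* `S36OQ_theta_adjoin` — `θ` maps `k(x)` into `k(x) · θ x`.
* `S36OQ_theta_pow_mem` — **the consequence**: if `γ̄ ∈ k(f̄)` and `θ f̄ ≠ 0`, then
  `(θ f̄)^{q-1} ∈ k(f̄)`.
-/

set_option autoImplicit false

open HahnSeries ModularCurve

noncomputable section

namespace Fermat.Agent.S36

open Fermat.Agent.Lib

/-- a Laurent series over `ℤ` all of whose coefficients are divisible by `q` is `q · γ`. -/
theorem S36OQ_exists_div (q : ℤ) (g : LaurentSeries ℤ) (h : ∀ n, q ∣ g.coeff n) :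
    ∃ γ : LaurentSeries ℤ, g = HahnSeries.C q * γ := by
  refine ⟨⟨fun n => g.coeff n / q, g.isPWO_support.mono (fun n hn => ?_)⟩, ?_⟩
  · simp only [Function.mem_support, ne_eq] at hn
    rw [HahnSeries.mem_support]
    intro h0
    apply hn
    rw [h0, Int.zero_ediv]
  · ext n
    rw [HahnSeries.C_apply, HahnSeries.coeff_single_zero_mul]
    show g.coeff n = q * (g.coeff n / q)
    rw [Int.mul_ediv_cancel' (h n)]

/-- `coeffMap` commutes with `qExpand`. -/
theorem S36OQ_coeffMap_qExpand {R S : Type*} [CommRing R] [CommRing S] (φ : R →+* S) (n : ℕ)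
    [NeZero n] (x : LaurentSeries R) :
    coeffMap φ (qExpand R n x) = qExpand S n (coeffMap φ x) := by
  ext k
  by_cases hk : (n : ℤ) ∣ k
  · obtain ⟨m, rfl⟩ := hk
    rw [coeffMap_coeff, qExpand_coeff_mul, qExpand_coeff_mul, coeffMap_coeff]
  · rw [coeffMap_coeff, qExpand_coeff_of_not_dvd n _ hk, qExpand_coeff_of_not_dvd n _ hk,
      map_zero]

/-- in characteristic `q`, `h^q = h(t^q)` for a series with coefficients in the prime ring. -/
theorem S36OQ_pow_char_int {k : Type*} [CommRing k] (q : ℕ) [Fact q.Prime] [CharP k q]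
    (f : LaurentSeries ℤ) :
    (coeffMap (Int.castRingHom k) f) ^ q = qExpand k q (coeffMap (Int.castRingHom k) f) := by
  have : NeZero q := ⟨(Fact.out : q.Prime).ne_zero⟩
  rw [LT_pow_char q, coeffMap_coeffMap,
    RingHom.ext_int ((frobenius k q).comp (Int.castRingHom k)) (Int.castRingHom k)]

/-- **Frobenius congruence**: `f(t^q) - f(t)^q = q · γ` over `ℤ`. -/
theorem S36OQ_frob_int (q : ℕ) [Fact q.Prime] (f : LaurentSeries ℤ) :
    ∃ γ : LaurentSeries ℤ, qExpand ℤ q f - f ^ q = HahnSeries.C (q : ℤ) * γ := by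
  have : NeZero q := ⟨(Fact.out : q.Prime).ne_zero⟩
  apply S36OQ_exists_div
  intro n
  have h0 : coeffMap (Int.castRingHom (ZMod q)) (qExpand ℤ q f - f ^ q) = 0 := by
    rw [map_sub, map_pow, S36OQ_pow_char_int q f, S36OQ_coeffMap_qExpand, sub_self]
  have h1 := congrArg (fun x : LaurentSeries (ZMod q) => x.coeff n) h0
  simp only [coeffMap_coeff, HahnSeries.coeff_zero] at h1
  exact (ZMod.intCast_zmod_eq_zero_iff_dvd _ q).mp h1

/-- `θ (f(t^N)) = N · (θ f)(t^N)`. -/
theorem S36OQ_theta_qExpand {R : Type*} [CommRing R] (N : ℕ) [NeZero N] (f : LaurentSeries R) :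
    LT_theta (qExpand R N f) = HahnSeries.C (N : R) * qExpand R N (LT_theta f) := by
  ext n
  rw [LT_theta_coeff, HahnSeries.C_apply, HahnSeries.coeff_single_zero_mul]
  by_cases hn : (N : ℤ) ∣ n
  · obtain ⟨m, rfl⟩ := hn
    rw [qExpand_coeff_mul, qExpand_coeff_mul, LT_theta_coeff]
    push_cast
    ring
  · rw [qExpand_coeff_of_not_dvd N _ hn, qExpand_coeff_of_not_dvd N _ hn, mul_zero, mul_zero]

/-- `θ (c · g) = c · θ g` for a constant `c`. -/
theorem S36OQ_theta_C_mul {R : Type*} [CommRing R] (c : R) (g : LaurentSeries R) :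
    LT_theta (HahnSeries.C c * g) = HahnSeries.C c * LT_theta g := by
  ext n
  rw [LT_theta_coeff, HahnSeries.C_apply, HahnSeries.coeff_single_zero_mul,
    HahnSeries.coeff_single_zero_mul, LT_theta_coeff]
  ring

theorem S36OQ_theta_eq {R : Type*} [CommRing R] (f : LaurentSeries R) :
    LT_theta f = LT_thetaFun f := rfl

theorem S36OQ_thetaFun_one {R : Type*} [CommRing R] : LT_thetaFun (1 : LaurentSeries R) = 0 := by
  ext n
  rw [LT_thetaFun_coeff, HahnSeries.coeff_one, HahnSeries.coeff_zero]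
  split_ifs with h
  · rw [h]; simp
  · simp

theorem S36OQ_thetaFun_algebraMap {k : Type*} [Field k] (c : k) :
    LT_thetaFun (algebraMap k (LaurentSeries k) c) = 0 := by
  ext n
  rw [LT_thetaFun_coeff, LT_algebraMap_eq, HahnSeries.coeff_single, HahnSeries.coeff_zero]
  split_ifs with h
  · rw [h]; simp
  · simp

/-- `θ (f^n) = n · f^{n-1} · θ f`. -/
theorem S36OQ_theta_pow {R : Type*} [CommRing R] (f : LaurentSeries R) (n : ℕ) :
    LT_theta (f ^ n) = HahnSeries.C (n : R) * (f ^ (n - 1) * LT_theta f) := by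
  simp only [S36OQ_theta_eq]
  induction n with
  | zero =>
    rw [pow_zero, S36OQ_thetaFun_one]
    simp
  | succ n ih =>
    rw [pow_succ, LT_thetaFun_mul, ih, Nat.add_sub_cancel]
    rcases Nat.eq_zero_or_pos n with rfl | hn
    · simp
    · have e : f ^ n = f ^ (n - 1) * f := by
        rw [← pow_succ, Nat.sub_add_cancel hn]
      have hC : (HahnSeries.C ((n + 1 : ℕ) : R) : LaurentSeries R) =
          HahnSeries.C (n : R) + 1 := by
        rw [Nat.cast_add, Nat.cast_one, map_add, map_one]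
      rw [hC]
      conv_rhs => rw [e]
      conv_lhs => rw [e]
      ring

/-- `θ γ = (θ f)(t^q) - f^{q-1} θ f` over `ℤ`, for `f(t^q) - f^q = q γ`. -/
theorem S36OQ_theta_gamma (q : ℕ) [NeZero q] (f γ : LaurentSeries ℤ)
    (h : qExpand ℤ q f - f ^ q = HahnSeries.C (q : ℤ) * γ) :
    LT_theta γ = qExpand ℤ q (LT_theta f) - f ^ (q - 1) * LT_theta f := by
  have h1 := congrArg (fun x : LaurentSeries ℤ => (LT_theta x : LaurentSeries ℤ)) h
  simp only [map_sub] at h1
  rw [S36OQ_theta_qExpand, S36OQ_theta_pow, S36OQ_theta_C_mul] at h1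
  have hq0 : (HahnSeries.C ((q : ℕ) : ℤ) : LaurentSeries ℤ) ≠ 0 := by
    intro h0
    have := congrArg (fun x : LaurentSeries ℤ => x.coeff 0) h0
    simp only [HahnSeries.C_apply, HahnSeries.coeff_single_same, HahnSeries.coeff_zero] at this
    exact NeZero.ne q (by exact_mod_cast this)
  have h2 : (HahnSeries.C ((q : ℕ) : ℤ) : LaurentSeries ℤ) * LT_theta γ =
      HahnSeries.C ((q : ℕ) : ℤ) * (qExpand ℤ q (LT_theta f) - f ^ (q - 1) * LT_theta f) := by
    rw [← h1]
    ring
  exact mul_left_cancel₀ hq0 h2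

/-- **the identity mod `q`**: `θ γ̄ = θ f̄ · ((θ f̄)^{q-1} - f̄^{q-1})`. -/
theorem S36OQ_theta_gamma_red {k : Type*} [CommRing k] (q : ℕ) [Fact q.Prime] [CharP k q]
    (f γ : LaurentSeries ℤ) (h : qExpand ℤ q f - f ^ q = HahnSeries.C (q : ℤ) * γ) :
    LT_theta (coeffMap (Int.castRingHom k) γ) =
      LT_theta (coeffMap (Int.castRingHom k) f) *
        (LT_theta (coeffMap (Int.castRingHom k) f) ^ (q - 1) -
          coeffMap (Int.castRingHom k) f ^ (q - 1)) := by
  have : NeZero q := ⟨(Fact.out : q.Prime).ne_zero⟩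
  have hq1 : 0 < q := Nat.pos_of_ne_zero (NeZero.ne q)
  rw [LT_theta_coeffMap, S36OQ_theta_gamma q f γ h, map_sub, map_mul, map_pow,
    S36OQ_coeffMap_qExpand, ← S36OQ_pow_char_int q (LT_theta f), ← LT_theta_coeffMap]
  have e : LT_theta (coeffMap (Int.castRingHom k) f) ^ q =
      LT_theta (coeffMap (Int.castRingHom k) f) ^ (q - 1) *
        LT_theta (coeffMap (Int.castRingHom k) f) := by
    rw [← pow_succ, Nat.sub_add_cancel hq1]
  rw [e]
  ring

/-! ### `θ` on `k(x)` -/

/-- `θ` maps `k(x)` into `k(x) · θ x`. -/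
theorem S36OQ_theta_adjoin {k : Type*} [Field k] (x : LaurentSeries k) {g : LaurentSeries k}
    (hg : g ∈ IntermediateField.adjoin k {x}) :
    ∃ g' ∈ IntermediateField.adjoin k {x}, LT_theta g = g' * LT_theta x := by
  induction hg using IntermediateField.adjoin_induction with
  | mem y hy =>
    rw [Set.mem_singleton_iff] at hy
    subst hy
    exact ⟨1, one_mem _, (one_mul _).symm⟩
  | algebraMap c =>
    refine ⟨0, zero_mem _, ?_⟩
    rw [zero_mul]
    exact S36OQ_thetaFun_algebraMap c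
  | add y z _ _ hy hz =>
    obtain ⟨y', hy', ey⟩ := hy
    obtain ⟨z', hz', ez⟩ := hz
    refine ⟨y' + z', add_mem hy' hz', ?_⟩
    rw [map_add, ey, ez, add_mul]
  | inv y hym hy =>
    obtain ⟨y', hy', ey⟩ := hy
    refine ⟨-(y⁻¹ ^ 2) * y', mul_mem (neg_mem (pow_mem (inv_mem hym) 2)) hy', ?_⟩
    rcases eq_or_ne y 0 with rfl | hy0
    · simp
    · have h1 : LT_thetaFun (y * y⁻¹) = y * LT_thetaFun y⁻¹ + y⁻¹ * LT_thetaFun y :=
        LT_thetaFun_mul y y⁻¹
      rw [mul_inv_cancel₀ hy0, S36OQ_thetaFun_one] at h1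
      have ey' : LT_thetaFun y = y' * LT_theta x := ey
      show LT_thetaFun y⁻¹ = _
      have h3 : y * LT_thetaFun y⁻¹ = -(y⁻¹ * (y' * LT_theta x)) := by
        rw [← ey']
        linear_combination -h1
      have h4 : LT_thetaFun y⁻¹ = y⁻¹ * (y * LT_thetaFun y⁻¹) := by
        rw [← mul_assoc, inv_mul_cancel₀ hy0, one_mul]
      rw [h4, h3]
      ring
  | mul y z _ _ hy hz =>
    obtain ⟨y', hy', ey⟩ := hy
    obtain ⟨z', hz', ez⟩ := hz
    rename_i hym hzm
    refine ⟨y * z' + z * y', add_mem (mul_mem hym hz') (mul_mem hzm hy'), ?_⟩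
    show LT_thetaFun (y * z) = _
    have ey' : LT_thetaFun y = y' * LT_theta x := ey
    have ez' : LT_thetaFun z = z' * LT_theta x := ez
    rw [LT_thetaFun_mul, ey', ez']
    ring

/-- **the consequence.**  In characteristic `q`, for `f` with integer coefficients and
`f(t^q) - f^q = q γ`: if `γ̄ ∈ k(f̄)` and `θ f̄ ≠ 0` then `(θ f̄)^{q-1} ∈ k(f̄)`. -/
theorem S36OQ_theta_pow_mem {k : Type*} [Field k] (q : ℕ) [Fact q.Prime] [CharP k q]
    (f γ : LaurentSeries ℤ) (h : qExpand ℤ q f - f ^ q = HahnSeries.C (q : ℤ) * γ)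
    (hγ : coeffMap (Int.castRingHom k) γ ∈
      IntermediateField.adjoin k {coeffMap (Int.castRingHom k) f})
    (hθ : LT_theta (coeffMap (Int.castRingHom k) f) ≠ 0) :
    LT_theta (coeffMap (Int.castRingHom k) f) ^ (q - 1) ∈
      IntermediateField.adjoin k {coeffMap (Int.castRingHom k) f} := by
  obtain ⟨g', hg', e⟩ := S36OQ_theta_adjoin _ hγ
  rw [S36OQ_theta_gamma_red q f γ h] at e
  have hx : coeffMap (Int.castRingHom k) f ∈
      IntermediateField.adjoin k {coeffMap (Int.castRingHom k) f} :=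
    IntermediateField.subset_adjoin _ _ rfl
  have e2 : LT_theta (coeffMap (Int.castRingHom k) f) ^ (q - 1) =
      g' + coeffMap (Int.castRingHom k) f ^ (q - 1) := by
    have h3 : LT_theta (coeffMap (Int.castRingHom k) f) *
        (LT_theta (coeffMap (Int.castRingHom k) f) ^ (q - 1) -
          coeffMap (Int.castRingHom k) f ^ (q - 1)) =
        LT_theta (coeffMap (Int.castRingHom k) f) * g' := by
      rw [e]; ring
    have h4 := mul_left_cancel₀ hθ h3
    linear_combination h4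
  rw [e2]
  exact add_mem hg' (pow_mem hx _)

end Fermat.Agent.S36
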