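import Mathlib
import Fermat.Agent.S36.OrdQ
import Fermat.Agent.S36.OrdQFrob
import Fermat.Agent.S18.Der
import Fermat.Agent.S18.DerD
import Fermat.Agent.S18.Reduce
import Fermat.Agent.S18.ResField
import Fermat.Agent.S34.ValHgenAsm
import Fermat.Agent.Lib.CuspEmb

/-!
# TRACK 10 (S36), package F5b = ORD-FV-Q (helper24), part 5: `H_j = -(θ j̄)^{q-1} ∈ k(j̄)`  (D3 a)

`A ⊂ ℚ̄` a valuation ring over the prime `q`, `k` its residue field, `j̄ = jqModC k`.

* `S36OQ_gamma_mem` — `γ̄ = red ((j(t^q) - j(t)^q)/q) ∈ k(j̄)`  (TRACK 7: the Gauss valuation of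
  `F_q` has residue field `k(j̄, j̄(t^q)) = k(j̄)`; `S18_frac_mem_O` with `S34VH_hgen 1 q`).
* `S36OQ_theta_j_pow_mem` — **`(θ j̄)^{q-1} ∈ k(j̄)`**.
* `S36OQ_order_aeval` — the `t`-order of `P(x)` for `x` with a pole: `deg P · ord x`.
* `S36OQ_ord_aeval` — the same at a place `v` with `ord_v x < 0`.
* `S36OQ_Hj` — **(D3 a)**: in every `E ⊇ k(j̄)` there is `H_j ∈ E` with `q`-expansion
  `-(θ j̄)^{q-1}`, and `ord_v H_j = (q - 1) · ord_v j̄` at every pole `v` of `j̄`
  (the hypothesis `hcl` of `S36OC_main`, with equality, for all cusps at once).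
-/

set_option autoImplicit false
set_option synthInstance.maxHeartbeats 400000
set_option maxHeartbeats 1000000
set_option linter.unusedSectionVars false

open HahnSeries IntermediateField AlgebraicCurve ModularCurve

noncomputable section

namespace Fermat.Agent.S36

open Fermat.Agent.S18 Fermat.Agent.S24 Fermat.Agent.S34 Fermat.Agent.Lib

/-! ### orders of polynomials in an element with a pole -/

section aeval

variable {K F : Type*} [Field K] [Field F] [Algebra K F]

theorem S36OQ_val_algebraMap (Q : Place K F) {a : K} (ha : a ≠ 0) :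
    Q.adicValuation (algebraMap K F a) = 1 := by
  have h1 := Q.adicValuation_algebraMap_le_one a
  have h2 := Q.adicValuation_algebraMap_le_one a⁻¹
  have h3 : Q.adicValuation (algebraMap K F a) * Q.adicValuation (algebraMap K F a⁻¹) = 1 := by
    rw [← map_mul, ← map_mul, mul_inv_cancel₀ ha, map_one, map_one]
  refine le_antisymm h1 ?_
  calc (1 : WithZero (Multiplicative ℤ))
      = Q.adicValuation (algebraMap K F a) * Q.adicValuation (algebraMap K F a⁻¹) := h3.symm
    _ ≤ Q.adicValuation (algebraMap K F a) * 1 := mul_le_mul_right h2 _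
    _ = Q.adicValuation (algebraMap K F a) := mul_one _

/-- at a pole of `x`: `ord_Q (p(x)) = deg p · ord_Q x`. -/
theorem S36OQ_ord_aeval (Q : Place K F) {x : F} (hx : Q.ord x < 0) {p : Polynomial K}
    (hp : p ≠ 0) : Q.ord (Polynomial.aeval x p) = (p.natDegree : ℤ) * Q.ord x := by
  have hx0 : x ≠ 0 := by
    rintro rfl
    simp at hx
  have : Q.adicValuation.IsTrivialOn K := ⟨fun a ha => S36OQ_val_algebraMap Q ha⟩
  have h1 : 1 < Q.adicValuation x := by
    rw [Q.adicValuation_eq_exp_neg_ord hx0, ← WithZero.exp_zero, WithZero.exp_lt_exp]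
    omega
  have h := Polynomial.valuation_aeval_eq_valuation_X_pow_natDegree_of_one_lt_valuation_X
    (v := Q.adicValuation) x h1 hp
  rw [← map_pow] at h
  have e : Q.ord (Polynomial.aeval x p) = Q.ord (x ^ p.natDegree) := by
    unfold Place.ord
    rw [h]
  rw [e, ← zpow_natCast, Q.ord_zpow]

theorem S36OQ_aeval_ne_zero (Q : Place K F) {x : F} (hx : Q.ord x < 0) {p : Polynomial K}
    (hp : p ≠ 0) : Polynomial.aeval x p ≠ 0 := by
  intro h0
  have h1 := S36OQ_ord_aeval Q hx hp
  rw [h0, Q.ord_zero] at h1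
  rcases Nat.eq_zero_or_pos p.natDegree with hd | hd
  · obtain ⟨a, rfl⟩ := Polynomial.natDegree_eq_zero.mp hd
    rw [Polynomial.aeval_C] at h0
    have ha : a ≠ 0 := fun h => hp (by rw [h, map_zero])
    exact ha ((map_eq_zero (algebraMap K F)).mp h0)
  · have : (0 : ℤ) < (p.natDegree : ℤ) := by exact_mod_cast hd
    nlinarith

/-- a quotient of polynomials in `x` at a pole of `x`. -/
theorem S36OQ_ord_div (Q : Place K F) {x : F} (hx : Q.ord x < 0) {r s : Polynomial K}
    (hr : r ≠ 0) (hs : s ≠ 0) (H : F) (hH : H * Polynomial.aeval x s = Polynomial.aeval x r) :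
    Q.ord H = ((r.natDegree : ℤ) - s.natDegree) * Q.ord x := by
  have hs0 := S36OQ_aeval_ne_zero Q hx hs
  have hr0 := S36OQ_aeval_ne_zero Q hx hr
  have hH0 : H ≠ 0 := by
    rintro rfl
    rw [zero_mul] at hH
    exact hr0 hH.symm
  have h1 := Q.ord_mul hH0 hs0
  rw [hH, S36OQ_ord_aeval Q hx hr, S36OQ_ord_aeval Q hx hs] at h1
  linear_combination -h1

end aeval

section order

variable {k : Type*} [Field k]

/-- the `t`-order of a quotient of polynomials in a Laurent series `x` with a pole. -/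
theorem S36OQ_order_div (x : LaurentSeries k) (hx : x.order < 0) {r s : Polynomial k}
    (hr : r ≠ 0) (hs : s ≠ 0) (H : LaurentSeries k)
    (hH : H * Polynomial.aeval x s = Polynomial.aeval x r) :
    H.order = ((r.natDegree : ℤ) - s.natDegree) * x.order := by
  have hw := CU_w_isVal (K := k) (AlgHom.id k (LaurentSeries k))
  have hx0 : x ≠ 0 := by
    rintro rfl
    simp at hx
  have hwx : (0 : ℤ) < CU_w (AlgHom.id k (LaurentSeries k)) x⁻¹ := by
    rw [hw.inv hx0]
    show 0 < -x.order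
    omega
  obtain ⟨m, hm, -, hmf⟩ := hw.exists_mul_ord x⁻¹ (inv_ne_zero hx0) hwx
  set v := hw.place x⁻¹ (inv_ne_zero hx0) hwx with hv
  have hvx : v.ord x < 0 := by
    have h1 := hmf x hx0
    have h2 : CU_w (AlgHom.id k (LaurentSeries k)) x = x.order := rfl
    rw [h2] at h1
    by_contra hcon
    rw [not_lt] at hcon
    have : 0 ≤ m * v.ord x := mul_nonneg hm.le hcon
    omega
  have hs0 := S36OQ_aeval_ne_zero v hvx hs
  have hr0 := S36OQ_aeval_ne_zero v hvx hr
  have hH0 : H ≠ 0 := by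
    rintro rfl
    rw [zero_mul] at hH
    exact hr0 hH.symm
  have h1 := S36OQ_ord_div v hvx hr hs H hH
  have h2 := hmf H hH0
  have h3 := hmf x hx0
  have e1 : CU_w (AlgHom.id k (LaurentSeries k)) H = H.order := rfl
  have e2 : CU_w (AlgHom.id k (LaurentSeries k)) x = x.order := rfl
  rw [e1] at h2
  rw [e2] at h3
  rw [h2, h3, h1]
  ring

end order

/-! ### `γ̄ ∈ k(j̄)` -/

section gamma

variable (q : ℕ) [NeZero q] (hq : q.Prime) (A : ValuationSubring (AlgebraicClosure ℚ))
  (hA : A.LiesOverPrime q)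

/-- in characteristic `q`: `j̄(t^q) = j̄^q`. -/
theorem S36OQ_qExpand_j {k : Type*} [Field k] [Fact q.Prime] [CharP k q] :
    qExpand k q (jqModC k) = jqModC k ^ q := by
  have h := S36OQ_pow_char_int (k := k) q (jqModC ℤ)
  rw [coeffMap_jqModC] at h
  exact h.symm

/-- in characteristic `q`: `F_k(q) = k(j̄)`. -/
theorem S36OQ_full_le {k : Type*} [Field k] [Fact q.Prime] [CharP k q] :
    modularFunctionFieldFullC k (1 * q) ≤ IntermediateField.adjoin k {jqModC k} := by
  have hq' : q.Prime := Fact.out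
  have hx : jqModC k ∈ IntermediateField.adjoin k {jqModC k} :=
    IntermediateField.subset_adjoin _ _ rfl
  rw [modularFunctionFieldFullC, IntermediateField.adjoin_le_iff]
  rintro y ⟨d, hd0, hd, rfl⟩
  rw [one_mul] at hd
  rcases (Nat.dvd_prime hq').mp hd with h1 | h1
  · subst h1
    rw [qExpand_one_apply]
    exact hx
  · have h2 : q = d := h1.symm
    subst h2
    rw [S36OQ_qExpand_j q]
    exact pow_mem hx _

include hq hA in
/-- **`γ̄ ∈ k(j̄)`** for `γ = (j(t^q) - j(t)^q)/q`. -/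
theorem S36OQ_gamma_mem (γ : LaurentSeries ℤ)
    (h : qExpand ℤ q (jqModC ℤ) - jqModC ℤ ^ q = HahnSeries.C (q : ℤ) * γ) :
    coeffMap (Int.castRingHom (IsLocalRing.ResidueField A)) γ ∈
      IntermediateField.adjoin (IsLocalRing.ResidueField A)
        {jqModC (IsLocalRing.ResidueField A)} := by
  have : Fact q.Prime := ⟨hq⟩
  have : NeZero (1 * q) := ⟨by rw [one_mul]; exact hq.ne_zero⟩
  have : CharP (IsLocalRing.ResidueField A) q := S18_residue_charP A q hq hA
  have hqM : ¬ q ∣ 1 := hq.not_dvd_one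
  -- the element of `F_q`
  set f : ↥(modularFunctionFieldBar (1 * q)) :=
    (jBar (1 * q) q (dvd_mul_left q 1) - jB (1 * q) ^ q) *
      algebraMap (AlgebraicClosure ℚ) ↥(modularFunctionFieldBar (1 * q))
        ((q : AlgebraicClosure ℚ))⁻¹ with hf
  have hjBar : ((jBar (1 * q) q (dvd_mul_left q 1) : ↥(modularFunctionFieldBar (1 * q))) :
      LaurentSeries (AlgebraicClosure ℚ)) = qExpand (AlgebraicClosure ℚ) q
        (jqModC (AlgebraicClosure ℚ)) := by
    show coeffEmb (AlgebraicClosure ℚ) (qExpand ℚ q jq) = _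
    rw [coeffEmb, S36OQ_coeffMap_qExpand]
    congr 1
    exact S24_deg_coeffEmb_jq
  have hcoe : ((f : ↥(modularFunctionFieldBar (1 * q))) : LaurentSeries (AlgebraicClosure ℚ)) =
      (qExpand (AlgebraicClosure ℚ) q (jqModC (AlgebraicClosure ℚ)) -
        jqModC (AlgebraicClosure ℚ) ^ q) *
        HahnSeries.C ((q : AlgebraicClosure ℚ))⁻¹ := by
    rw [hf]
    push_cast
    rw [hjBar, S24_deg_jB_val]
    congr 1
    rw [map_inv₀, map_natCast]
  have hγQ : qExpand (AlgebraicClosure ℚ) q (jqModC (AlgebraicClosure ℚ)) -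
      jqModC (AlgebraicClosure ℚ) ^ q =
      HahnSeries.C (q : AlgebraicClosure ℚ) *
        coeffMap (Int.castRingHom (AlgebraicClosure ℚ)) γ := by
    have h1 := congrArg (coeffMap (Int.castRingHom (AlgebraicClosure ℚ))) h
    rw [map_sub, map_pow, S36OQ_coeffMap_qExpand, coeffMap_jqModC, map_mul,
      S36OQ_coeffMap_C, map_natCast] at h1
    exact h1
  have hq0 : (q : AlgebraicClosure ℚ) ≠ 0 := Nat.cast_ne_zero.mpr hq.ne_zero
  have hb : S18_ρ A (1 : LaurentSeries ↥A) ≠ 0 := by
    rw [map_one]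
    exact one_ne_zero
  have hfrac : ((f : ↥(modularFunctionFieldBar (1 * q))) : LaurentSeries (AlgebraicClosure ℚ)) *
      S18_ι A (1 : LaurentSeries ↥A) = S18_ι A (coeffMap (Int.castRingHom ↥A) γ) := by
    rw [map_one, mul_one, hcoe, hγQ, coeffMap_coeffMap,
      RingHom.ext_int (A.subtype.comp (Int.castRingHom ↥A))
        (Int.castRingHom (AlgebraicClosure ℚ))]
    have e : (HahnSeries.C (q : AlgebraicClosure ℚ) : LaurentSeries (AlgebraicClosure ℚ)) *
        HahnSeries.C ((q : AlgebraicClosure ℚ))⁻¹ = 1 := by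
      rw [← map_mul, mul_inv_cancel₀ hq0, map_one]
    calc HahnSeries.C (q : AlgebraicClosure ℚ) *
          coeffMap (Int.castRingHom (AlgebraicClosure ℚ)) γ *
          HahnSeries.C ((q : AlgebraicClosure ℚ))⁻¹
        = (HahnSeries.C (q : AlgebraicClosure ℚ) * HahnSeries.C ((q : AlgebraicClosure ℚ))⁻¹) *
          coeffMap (Int.castRingHom (AlgebraicClosure ℚ)) γ := by ring
      _ = coeffMap (Int.castRingHom (AlgebraicClosure ℚ)) γ := by rw [e, one_mul]
  obtain ⟨hO, hred⟩ := S18_frac_mem_O A (1 * q) (S18_hPD (1 * q)) (S18_hconst (1 * q))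
    (S34VH_hgen 1 q hq hqM A hA) f (coeffMap (Int.castRingHom ↥A) γ) 1 hb hfrac
  have hmem := (S18_red A (1 * q) ⟨f, hO⟩).2
  rw [hred, map_one, div_one, coeffMap_coeffMap,
    RingHom.ext_int ((IsLocalRing.residue ↥A).comp (Int.castRingHom ↥A))
      (Int.castRingHom (IsLocalRing.ResidueField A))] at hmem
  exact S36OQ_full_le q hmem

include hq hA in
/-- **`(θ j̄)^{q-1} ∈ k(j̄)`**. -/
theorem S36OQ_theta_j_pow_mem :
    LT_theta (jqModC (IsLocalRing.ResidueField A)) ^ (q - 1) ∈
      IntermediateField.adjoin (IsLocalRing.ResidueField A)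
        {jqModC (IsLocalRing.ResidueField A)} := by
  have : Fact q.Prime := ⟨hq⟩
  have : CharP (IsLocalRing.ResidueField A) q := S18_residue_charP A q hq hA
  obtain ⟨γ, hγ⟩ := S36OQ_frob_int q (jqModC ℤ)
  have h1 := S36OQ_gamma_mem q hq A hA γ hγ
  have h2 := S36OQ_theta_pow_mem (k := IsLocalRing.ResidueField A) q (jqModC ℤ) γ hγ
  rw [coeffMap_jqModC] at h2
  exact h2 h1 (S18_theta_j_ne_zero _)

end gamma

/-! ### (D3 a) -/

section main

variable (q : ℕ) [NeZero q] (hq : q.Prime) (A : ValuationSubring (AlgebraicClosure ℚ))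
  (hA : A.LiesOverPrime q)

/-- the order of `j̄` is `-1`. -/
theorem S36OQ_order_j (k : Type*) [Field k] : (jqModC k).order = -1 := by
  have h1 : (jqModC k).coeff (-1) ≠ 0 := by
    rw [coeff_jqModC_neg_one]
    exact one_ne_zero
  have hne : jqModC k ≠ 0 := HahnSeries.ne_zero_of_coeff_ne_zero h1
  apply le_antisymm
  · exact HahnSeries.order_le_of_coeff_ne_zero h1
  · by_contra hlt
    rw [not_le] at hlt
    have h2 : (jqModC k).coeff (jqModC k).order ≠ 0 :=
      mt HahnSeries.coeff_order_eq_zero.mp hne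
    exact h2 (coeff_jqModC_of_lt k hlt)

include hq hA in
/-- **(D3 a).**  In every intermediate field `E ⊇ k(j̄)` of `k((t))` there is `H_j ∈ E` with
`q`-expansion `-(θ j̄)^{q-1}`; at every place `v` of `E` with `ord_v j̄ < 0`,
`ord_v H_j = (q - 1) · ord_v j̄`. -/
theorem S36OQ_Hj (E : IntermediateField (IsLocalRing.ResidueField A)
      (LaurentSeries (IsLocalRing.ResidueField A)))
    (hx : jqModC (IsLocalRing.ResidueField A) ∈ E) :
    ∃ Hx : E, (Hx : LaurentSeries (IsLocalRing.ResidueField A)) =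
        -(LT_theta (jqModC (IsLocalRing.ResidueField A))) ^ (q - 1) ∧
      ∀ v : Place (IsLocalRing.ResidueField A) E,
        v.ord (⟨jqModC (IsLocalRing.ResidueField A), hx⟩ : E) < 0 →
        v.ord Hx = ((q : ℤ) - 1) * v.ord (⟨jqModC (IsLocalRing.ResidueField A), hx⟩ : E) := by
  classical
  set k := IsLocalRing.ResidueField A with hk
  set x : LaurentSeries k := jqModC k with hxdef
  have hmem := S36OQ_theta_j_pow_mem q hq A hA
  have hle : IntermediateField.adjoin k {x} ≤ E := by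
    rw [IntermediateField.adjoin_le_iff]
    rintro y hy
    rw [Set.mem_singleton_iff] at hy
    rw [hy]
    exact hx
  have hHmem : -(LT_theta x) ^ (q - 1) ∈ IntermediateField.adjoin k {x} := neg_mem hmem
  refine ⟨⟨-(LT_theta x) ^ (q - 1), hle hHmem⟩, rfl, fun v hv => ?_⟩
  obtain ⟨r, s, hrs⟩ := (IntermediateField.mem_adjoin_simple_iff k _).mp hHmem
  have hθ : LT_theta x ≠ 0 := S18_theta_j_ne_zero k
  have hH0 : -(LT_theta x) ^ (q - 1) ≠ 0 := neg_ne_zero.mpr (pow_ne_zero _ hθ)
  have hs0 : Polynomial.aeval x s ≠ 0 := by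
    intro h0
    rw [h0, div_zero] at hrs
    exact hH0 hrs
  have hr0 : Polynomial.aeval x r ≠ 0 := by
    intro h0
    rw [h0, zero_div] at hrs
    exact hH0 hrs
  have hs : s ≠ 0 := fun h => hs0 (by rw [h, map_zero])
  have hr : r ≠ 0 := fun h => hr0 (by rw [h, map_zero])
  have hmul : -(LT_theta x) ^ (q - 1) * Polynomial.aeval x s = Polynomial.aeval x r := by
    rw [hrs, div_mul_cancel₀ _ hs0]
  -- the `t`-orders
  have hox : x.order = -1 := S36OQ_order_j k
  have h1 := S36OQ_order_div x (by rw [hox]; norm_num) hr hs _ hmul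
  have hxne : x ≠ 0 := by
    intro h0
    rw [h0] at hox
    simp at hox
  have h2 := S36OQ_theta_pow_order x hxne (by rw [hox]; simp) (q - 1)
  rw [h2, hox] at h1
  have hq1 : ((q - 1 : ℕ) : ℤ) = (q : ℤ) - 1 := by
    rw [Nat.cast_sub hq.one_le, Nat.cast_one]
  have hdeg : (r.natDegree : ℤ) - s.natDegree = (q : ℤ) - 1 := by
    rw [nsmul_eq_mul, hq1] at h1
    linarith
  -- in `E`
  have hE : (⟨-(LT_theta x) ^ (q - 1), hle hHmem⟩ : E) *
      Polynomial.aeval (⟨x, hx⟩ : E) s = Polynomial.aeval (⟨x, hx⟩ : E) r := by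
    apply Subtype.ext
    show -(LT_theta x) ^ (q - 1) * ((Polynomial.aeval (⟨x, hx⟩ : E) s : E) : LaurentSeries k) =
      ((Polynomial.aeval (⟨x, hx⟩ : E) r : E) : LaurentSeries k)
    rw [← IntermediateField.aeval_coe, ← IntermediateField.aeval_coe]
    exact hmul
  rw [S36OQ_ord_div v hv hr hs _ hE, hdeg]

end main

end Fermat.Agent.S36
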