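import Fermat.Agent.S36.Arith36
import Fermat.Agent.S34.OntoM
import Fermat.Agent.S24.CuspCount

/-!
# TRACK 10 (S36), package ARITH, part 2 (helper25), prefix `S36AR_`: genus numerics

* `S36AR_genus N`   : the classical genus formula for the RIEMANN genus `RR_genus` of
  `F_N = ℚ̄(X₀(N))` (Hurwitz `HW_hurwitz` + the place counts of S24):
  `12 g + 3 ν₂ + 4 ν₃ + 6 ν_∞ = 12 + ψ`;
* `S36AR_genus_noell` : without elliptic points `6 (2 g − 2 + ν_∞) = ψ`;
* `S36AR_hnum`      : the numerical hypothesis `hnum` of `S36OC_count` (ORD-FV-COUNT), with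
  `s = g(Mq) + 1 − 2 g(M)` (TRACK 7's number of nodes) and `#cusps = cuspCount M`:
  `(q − 1) (2 g(M) − 2 + ν_∞(M)) = 2 s`, and `12 s = (q − 1) ψ(M)`;
* `S36AR_hnum_k`    : the same with the genus of the reduction `F̄_M` at a place over `q`.
-/

set_option autoImplicit false
set_option synthInstance.maxHeartbeats 400000
set_option maxHeartbeats 1000000
set_option linter.style.haveILetI false
set_option linter.unusedSectionVars false

open IntermediateField AlgebraicCurve ModularCurve KaehlerDifferential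

namespace Fermat.Agent.S36

open Fermat.Agent.Lib Fermat.Agent.S24 Fermat.Agent.S18 Fermat.Agent.S34 Fermat.Agent.S20

/-- **the genus formula for the Riemann genus of `X₀(N)`.** -/
theorem S36AR_genus (N : ℕ) [NeZero N] :
    12 * (RR_genus (AlgebraicClosure ℚ) ↥(modularFunctionFieldBar N) : ℤ) + 3 * nuTwo N +
      4 * nuThree N + 6 * cuspCount N = 12 + dedekindPsi N := by
  classical
  have hj := transcendental_jB N
  haveI := finiteDimensional_jB N
  haveI : Algebra.IsSeparable (AlgebraicClosure ℚ)⟮jB N⟯ ↥(modularFunctionFieldBar N) :=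
    S24_isSeparable_jB N
  have hn := finrank_eq_psi N
  obtain ⟨W, hW, hWdeg⟩ := HW_hurwitz (S18_hRR N) (jB N) hj
  have h17 : (0 : AlgebraicClosure ℚ) ≠ 1728 := by norm_num
  have hRH := S24_RH_count (jB N) (dedekindPsi N) (S24_deg_eq_one (BL_isFunctionField1 (jB N)))
    (W_hres hj) (fun v y hy => BL_ordDifferential_D (jB N) v hy)
    (fun c => hn ▸ W_hG2 hj c) (hn ▸ W_hG2inf hj)
    ({0, 1728} : Finset (AlgebraicClosure ℚ)) (fun c hc => by
      simp only [Finset.mem_insert, Finset.mem_singleton, not_or] at hc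
      exact S24_hcount N c hc.1 hc.2) W hW
  rw [Finset.sum_pair h17, hWdeg, S24_hinf N] at hRH
  have h0 := S24_h0 N
  have h1 := S24_h1728 N
  have h0' : (3 : ℤ) * Nat.card {v : Place (AlgebraicClosure ℚ) ↥(modularFunctionFieldBar N) //
      0 < v.ord (jB N - algebraMap (AlgebraicClosure ℚ) ↥(modularFunctionFieldBar N) 0)} =
      dedekindPsi N + 2 * nuThree N := by exact_mod_cast h0
  have h1' : (2 : ℤ) * Nat.card {v : Place (AlgebraicClosure ℚ) ↥(modularFunctionFieldBar N) //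
      0 < v.ord (jB N - algebraMap (AlgebraicClosure ℚ) ↥(modularFunctionFieldBar N) 1728)} =
      dedekindPsi N + nuTwo N := by exact_mod_cast h1
  linarith

/-- the genus formula without elliptic points. -/
theorem S36AR_genus_noell (N : ℕ) [NeZero N] (hν₂ : nuTwo N = 0) (hν₃ : nuThree N = 0) :
    6 * (2 * (RR_genus (AlgebraicClosure ℚ) ↥(modularFunctionFieldBar N) : ℤ) - 2 +
      cuspCount N) = dedekindPsi N := by
  have h := S36AR_genus N
  rw [hν₂, hν₃] at h
  push_cast at h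
  linarith

/-- **`hnum`**: `(q − 1) (2 g(M) − 2 + ν_∞(M)) = 2 s` for `s = g(Mq) + 1 − 2 g(M)`, and
`12 s = (q − 1) ψ(M)`. -/
theorem S36AR_hnum (M q : ℕ) [NeZero M] [NeZero (M * q)] (hq : q.Prime) (hqM : ¬ q ∣ M)
    (hν₂ : nuTwo M = 0) (hν₃ : nuThree M = 0) (s : ℤ)
    (hs : s = (RR_genus (AlgebraicClosure ℚ) ↥(modularFunctionFieldBar (M * q)) : ℤ) + 1 -
      2 * RR_genus (AlgebraicClosure ℚ) ↥(modularFunctionFieldBar M)) :
    ((q : ℤ) - 1) * (2 * (RR_genus (AlgebraicClosure ℚ) ↥(modularFunctionFieldBar M) : ℤ) - 2 +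
      cuspCount M) = 2 * s ∧ 12 * s = ((q : ℤ) - 1) * dedekindPsi M := by
  have hM : M ≠ 0 := NeZero.ne M
  have h0 := S36AR_genus_noell M hν₂ hν₃
  have h1 := S36AR_genus_noell (M * q) (S36AR_nuTwo_of_dvd (dvd_mul_right M q) hν₂)
    (S36AR_nuThree_of_dvd (dvd_mul_right M q) hν₃)
  have hψ : dedekindPsi (M * q) = (q + 1) * dedekindPsi M := by
    rw [mul_comm M q]
    exact S20_dedekindPsi_prime_mul_of_not_dvd hq hM hqM
  have hc : cuspCount (M * q) = 2 * cuspCount M := by
    rw [mul_comm M q]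
    exact S36AR_cuspCount_prime_mul hq hM hqM
  rw [hψ, hc] at h1
  push_cast at h1
  have h12 : 12 * s = ((q : ℤ) - 1) * dedekindPsi M := by
    rw [hs]
    linarith
  refine ⟨?_, h12⟩
  have h6 : 6 * (((q : ℤ) - 1) * (2 * (RR_genus (AlgebraicClosure ℚ)
      ↥(modularFunctionFieldBar M) : ℤ) - 2 + cuspCount M)) = 6 * (2 * s) := by
    have : ((q : ℤ) - 1) * (6 * (2 * (RR_genus (AlgebraicClosure ℚ)
        ↥(modularFunctionFieldBar M) : ℤ) - 2 + cuspCount M)) = ((q : ℤ) - 1) * dedekindPsi M := by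
      rw [h0]
    linarith
  linarith

/-- **`hnum` on the reduction**: the same with `g₀ = RR_genus κ F̄_M` at a place over `ℓ ∤ M`
(genus equality at good reduction). -/
theorem S36AR_hnum_k (M q : ℕ) [NeZero M] [NeZero (M * q)] (hq : q.Prime) (hqM : ¬ q ∣ M)
    (hν₂ : nuTwo M = 0) (hν₃ : nuThree M = 0)
    (A : ValuationSubring (AlgebraicClosure ℚ)) {ℓ : ℕ} (hℓ : ℓ.Prime) (hℓM : ¬ ℓ ∣ M)
    (hA : A.LiesOverPrime ℓ) (s : ℤ)
    (hs : s = (RR_genus (AlgebraicClosure ℚ) ↥(modularFunctionFieldBar (M * q)) : ℤ) + 1 -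
      2 * RR_genus (IsLocalRing.ResidueField A)
        ↥(modularFunctionFieldFullC (IsLocalRing.ResidueField A) M)) :
    ((q : ℤ) - 1) * (2 * (RR_genus (IsLocalRing.ResidueField A)
        ↥(modularFunctionFieldFullC (IsLocalRing.ResidueField A) M) : ℤ) - 2 +
      cuspCount M) = 2 * s ∧ 12 * s = ((q : ℤ) - 1) * dedekindPsi M := by
  have hg := S34OM_genus_eq M A hℓ hℓM hA
  rw [← hg] at hs ⊢
  exact S36AR_hnum M q hq hqM hν₂ hν₃ s hs

end Fermat.Agent.S36
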