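import Mathlib
import Fermat.Agent.Lib.Hurwitz

/-!
# TRACK 10 (S36), package ORD-FV-COUNT (helper19), prefix `S36OC_`

The COUNT of `NOTES/items/35_ORDFV_lead.md` §3 in the form with LOWER BOUNDS only.

`κ / k` a function field (`k` algebraically closed), `x ∈ κ` a separating element (`x = j̄`),
`Ψ ∈ κ^×` (`Ψ = (θ j̄)^{q-1}`), `SS` the supersingular places, `cusps` the poles of `x`.  If
* `ord_v Ψ - (q-1) ord_v(dx) ≥ 0` at the ordinary non-cuspidal places and `≥ -2` at `SS`
  (these are the orders of `(θ τ̄_v)^{q-1}`, `τ̄_v` a local parameter at `v`),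
* `ord_v Ψ ≥ (q-1) ord_v x` and `ord_v(dx) = ord_v x - 1` at the cusps,
* `(q-1) (2 g - 2 + #cusps) = 2 #SS`   (genus formula without elliptic points, `#SS = (q-1) ψ/12`),
then ALL these inequalities are equalities: `(θ τ̄)^{q-1}` is a unit at every ordinary place and
has a pole of order exactly `2` at every supersingular place.

* `S36OC_count_abs` : the statement for abstract divisors `P = div Ψ`, `W = div(dx)`, `X = div x`;
* `S36OC_count`     : the statement on `κ` (Hurwitz `deg (dx) = 2 g - 2`: `HW_hurwitz`).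
-/

set_option autoImplicit false
set_option linter.unusedSectionVars false

open AlgebraicCurve KaehlerDifferential IntermediateField

namespace Fermat.Agent.S36

open Fermat.Agent.Lib

variable {k κ : Type*} [Field k] [Field κ] [Algebra k κ]

/-- the degree of a sum of places of degree one. -/
theorem S36OC_degree_sum (hdeg : ∀ v : Place k κ, v.deg = 1) (s : Finset (Place k κ)) :
    (∑ v ∈ s, Finsupp.single v (1 : ℤ) : Divisor k κ).degree = s.card := by
  rw [map_sum]
  simp [Divisor.degree_single, hdeg]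

/-- the value of a sum of places at one of them. -/
theorem S36OC_sum_apply_mem (s : Finset (Place k κ)) (v : Place k κ) (hv : v ∈ s) :
    (∑ w ∈ s, Finsupp.single w (1 : ℤ) : Divisor k κ) v = 1 := by
  classical
  rw [Finsupp.finsetSum_apply, Finset.sum_eq_single v]
  · rw [Finsupp.single_eq_same]
  · intro w _ hw
    rw [Finsupp.single_apply, if_neg hw]
  · intro h
    exact absurd hv h

/-- the value of a sum of places off them. -/
theorem S36OC_sum_apply_not_mem (s : Finset (Place k κ)) (v : Place k κ) (hv : v ∉ s) :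
    (∑ w ∈ s, Finsupp.single w (1 : ℤ) : Divisor k κ) v = 0 := by
  classical
  rw [Finsupp.finsetSum_apply]
  refine Finset.sum_eq_zero fun w hw => ?_
  rw [Finsupp.single_apply, if_neg]
  rintro rfl
  exact hv hw

/-- **the count, abstract form.** -/
theorem S36OC_count_abs (hdeg : ∀ v : Place k κ, v.deg = 1) (P W X : Divisor k κ) (g : ℕ)
    (hP : P.degree = 0) (hW : W.degree = 2 * (g : ℤ) - 2)
    (SS cusps : Finset (Place k κ)) (hdisj : Disjoint SS cusps) (q : ℕ)
    (hnum : ((q : ℤ) - 1) * (2 * (g : ℤ) - 2 + cusps.card) = 2 * SS.card)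
    (htame : ∀ v ∈ cusps, W v = X v - 1)
    (hord : ∀ v, v ∉ cusps → v ∉ SS → 0 ≤ P v - ((q : ℤ) - 1) * W v)
    (hss : ∀ v ∈ SS, -2 ≤ P v - ((q : ℤ) - 1) * W v)
    (hcl : ∀ v ∈ cusps, ((q : ℤ) - 1) * X v ≤ P v) :
    (∀ v, v ∉ cusps → v ∉ SS → P v - ((q : ℤ) - 1) * W v = 0) ∧
      (∀ v ∈ SS, P v - ((q : ℤ) - 1) * W v = -2) ∧
      ∀ v ∈ cusps, P v = ((q : ℤ) - 1) * X v := by
  classical
  set T : Divisor k κ := ((q : ℤ) - 1) • W +
    ((q : ℤ) - 1) • (∑ v ∈ cusps, Finsupp.single v (1 : ℤ)) -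
    (2 : ℤ) • (∑ v ∈ SS, Finsupp.single v (1 : ℤ)) with hT
  have hTdeg : T.degree = 0 := by
    rw [hT, map_sub, map_add, map_zsmul, map_zsmul, map_zsmul, S36OC_degree_sum hdeg,
      S36OC_degree_sum hdeg, hW]
    simp only [smul_eq_mul]
    linarith
  have hTv : ∀ v, T v = ((q : ℤ) - 1) * W v +
      ((q : ℤ) - 1) * (∑ w ∈ cusps, Finsupp.single w (1 : ℤ) : Divisor k κ) v -
      2 * (∑ w ∈ SS, Finsupp.single w (1 : ℤ) : Divisor k κ) v := by
    intro v
    rw [hT, Finsupp.sub_apply, Finsupp.add_apply, Finsupp.smul_apply, Finsupp.smul_apply,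
      Finsupp.smul_apply]
    simp only [smul_eq_mul]
  have hTc : ∀ v ∈ cusps, T v = ((q : ℤ) - 1) * X v := by
    intro v hc
    have hs : v ∉ SS := fun hs => Finset.disjoint_left.1 hdisj hs hc
    rw [hTv, S36OC_sum_apply_mem cusps v hc, S36OC_sum_apply_not_mem SS v hs, htame v hc]
    ring
  have hTs : ∀ v ∈ SS, T v = ((q : ℤ) - 1) * W v - 2 := by
    intro v hs
    have hc : v ∉ cusps := fun hc => Finset.disjoint_left.1 hdisj hs hc
    rw [hTv, S36OC_sum_apply_not_mem cusps v hc, S36OC_sum_apply_mem SS v hs]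
    ring
  have hTo : ∀ v, v ∉ cusps → v ∉ SS → T v = ((q : ℤ) - 1) * W v := by
    intro v hc hs
    rw [hTv, S36OC_sum_apply_not_mem cusps v hc, S36OC_sum_apply_not_mem SS v hs]
    ring
  have hE : (0 : Divisor k κ) ≤ P - T := by
    rw [Finsupp.le_def]
    intro v
    rw [Finsupp.sub_apply, Finsupp.zero_apply]
    by_cases hc : v ∈ cusps
    · rw [hTc v hc]
      have h1 := hcl v hc
      linarith
    · by_cases hs : v ∈ SS
      · rw [hTs v hs]
        have h1 := hss v hs
        linarith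
      · rw [hTo v hc hs]
        have h1 := hord v hc hs
        linarith
  have hzero : P - T = 0 :=
    RR_eq_zero_of_degree_eq_zero hdeg hE (by rw [map_sub, hP, hTdeg, sub_zero])
  have hPT : ∀ v, P v = T v := by
    intro v
    have := congrArg (fun D : Divisor k κ => D v) hzero
    simp only [Finsupp.sub_apply, Finsupp.zero_apply] at this
    linarith
  refine ⟨fun v hc hs => ?_, fun v hs => ?_, fun v hc => ?_⟩
  · rw [hPT v, hTo v hc hs]
    ring
  · rw [hPT v, hTs v hs]
    ring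
  · rw [hPT v, hTc v hc]

/-- **the count on a function field**: `x` separating, `Ψ` any element. -/
theorem S36OC_count [IsAlgClosed k] (h : RR_Hyp k κ) (x : κ) (hx : Transcendental k x)
    [FiniteDimensional k⟮x⟯ κ] [Algebra.IsSeparable k⟮x⟯ κ] (Ψ : κ)
    (SS cusps : Finset (Place k κ)) (hdisj : Disjoint SS cusps) (q : ℕ)
    (hnum : ((q : ℤ) - 1) * (2 * (RR_genus k κ : ℤ) - 2 + cusps.card) = 2 * SS.card)
    (htame : ∀ v ∈ cusps, v.ordDifferential (D k κ x) = v.ord x - 1)
    (hord : ∀ v : Place k κ, v ∉ cusps → v ∉ SS →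
      0 ≤ v.ord Ψ - ((q : ℤ) - 1) * v.ordDifferential (D k κ x))
    (hss : ∀ v ∈ SS, -2 ≤ v.ord Ψ - ((q : ℤ) - 1) * v.ordDifferential (D k κ x))
    (hcl : ∀ v ∈ cusps, ((q : ℤ) - 1) * v.ord x ≤ v.ord Ψ) :
    (∀ v : Place k κ, v ∉ cusps → v ∉ SS →
        v.ord Ψ - ((q : ℤ) - 1) * v.ordDifferential (D k κ x) = 0) ∧
      (∀ v ∈ SS, v.ord Ψ - ((q : ℤ) - 1) * v.ordDifferential (D k κ x) = -2) ∧
      ∀ v ∈ cusps, v.ord Ψ = ((q : ℤ) - 1) * v.ord x := by
  obtain ⟨W, hW, hWdeg⟩ := HW_hurwitz h x hx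
  have hP := h.principal
  have key := S36OC_count_abs h.deg_one (RR_div hP Ψ) W (RR_div hP x) (RR_genus k κ)
    (RR_div_degree hP Ψ) hWdeg SS cusps hdisj q hnum
    (fun v hv => by rw [hW, RR_div_apply, htame v hv])
    (fun v hc hs => by rw [hW, RR_div_apply]; exact hord v hc hs)
    (fun v hs => by rw [hW, RR_div_apply]; exact hss v hs)
    (fun v hv => by rw [RR_div_apply, RR_div_apply]; exact hcl v hv)
  refine ⟨fun v hc hs => ?_, fun v hs => ?_, fun v hv => ?_⟩
  · have := key.1 v hc hs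
    rw [hW, RR_div_apply] at this
    exact this
  · have := key.2.1 v hs
    rw [hW, RR_div_apply] at this
    exact this
  · have := key.2.2 v hv
    rw [RR_div_apply, RR_div_apply] at this
    exact this

end Fermat.Agent.S36
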