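import Mathlib
import Fermat.Agent.Lib.DiffLocal
import Fermat.Agent.Lib.LaurentTheta
import Fermat.Agent.S36.OrdCount

/-!
# TRACK 10 (S36), ORD-FV: the chain rule (D3 b) and the count in final form (helper19)

* `S36OC_chain_D`: at a place `v` of degree one with a local parameter `τ - c`:
  `D x = f • D τ` with `ord_v f = ordDifferential_v (D x)`, and `D τ ≠ 0`.
* `S36OC_chain_der`: for a derivation `d` of an overfield `M` of `E`, and `Hx = C * (d x) ^ n`,
  `Hτ = C * (d τ) ^ n` in `M` with `Hx Hτ : E`: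
  `ord_v Hx = n * ordDifferential_v (D x) + ord_v Hτ`  (wild ramification allowed).
* `S36OC_chain_theta`: the same for `M = LaurentSeries k`, `d = LT_theta`.
* `S36OC_main`: chain rule + `S36OC_count`: from the lower bounds `ord_v (Hτ v) ≥ 0` (ordinary),
  `≥ -2` (supersingular), equality everywhere.
-/

set_option autoImplicit false
set_option linter.unusedSectionVars false
set_option linter.style.haveILetI false

open AlgebraicCurve KaehlerDifferential IntermediateField

namespace Fermat.Agent.S36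

open Fermat.Agent.Lib

section algebraic

variable {K F : Type*} [Field K] [Field F] [Algebra K F]

/-- **chain rule, Kähler form**: at a place `v` of degree one, with `τ - c` a local parameter,
`D x = f • D τ` with `ord_v f = ordDifferential_v (D x)`. -/
theorem S36OC_chain_D (x : F) [FiniteDimensional K⟮x⟯ F] [Algebra.IsSeparable K⟮x⟯ F]
    (v : Place K F) (hdeg : v.deg = 1) {τ : F} {c : K}
    (hτ : v.ord (τ - algebraMap K F c) = 1) :
    D K F τ ≠ 0 ∧ ∃ f : F, D K F x = f • D K F τ ∧ v.ordDifferential (D K F x) = v.ord f := by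
  haveI := FD_dCoordGenerates x v hdeg
  haveI := FD_nontrivial_kaehler v hdeg
  obtain ⟨u, hu0, huo, hu⟩ := FD_D_unif x v hdeg hτ
  rw [map_sub, Derivation.map_algebraMap, sub_zero] at hu
  have hdc : v.dCoord ≠ 0 := v.dCoord_ne_zero
  refine ⟨?_, v.differentialCoeff (D K F x) * u⁻¹, ?_, ?_⟩
  · rw [hu]
    exact smul_ne_zero hu0 hdc
  · rw [hu, smul_smul, mul_assoc, inv_mul_cancel₀ hu0, mul_one,
      v.differentialCoeff_smul_dCoord]
  · rw [Place.ordDifferential]
    rcases eq_or_ne (v.differentialCoeff (D K F x)) 0 with h0 | h0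
    · rw [h0, zero_mul]
    · rw [v.ord_mul h0 (inv_ne_zero hu0), v.ord_inv, huo, neg_zero, add_zero]

/-- lower bound at an ordinary point (D3 c): `g H` regular at `v`, `g` a unit at `v`. -/
theorem S36OC_lower_ord (v : Place K F) {g H : F} (hg0 : g ≠ 0) (hg : v.ord g = 0)
    (hreg : 0 ≤ v.ord (g * H)) : 0 ≤ v.ord H := by
  rcases eq_or_ne H 0 with rfl | hH
  · rw [v.ord_zero]
  · rw [v.ord_mul hg0 hH, hg, zero_add] at hreg
    exact hreg

/-- lower bound at a supersingular point (D3 c): `t₁ t₂ H` regular at `v`, `t₁`, `t₂` with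
simple zeros at `v`. -/
theorem S36OC_lower_ss (v : Place K F) {t₁ t₂ H : F} (h1 : v.ord t₁ = 1) (h2 : v.ord t₂ = 1)
    (hreg : 0 ≤ v.ord (t₁ * t₂ * H)) : -2 ≤ v.ord H := by
  rcases eq_or_ne H 0 with rfl | hH
  · rw [v.ord_zero]
    norm_num
  · have ht1 : t₁ ≠ 0 := by
      rintro rfl
      rw [v.ord_zero] at h1
      exact zero_ne_one h1
    have ht2 : t₂ ≠ 0 := by
      rintro rfl
      rw [v.ord_zero] at h2
      exact zero_ne_one h2
    rw [v.ord_mul (mul_ne_zero ht1 ht2) hH, v.ord_mul ht1 ht2, h1, h2] at hreg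
    linarith

/-- **simple zero** (D3 c): in characteristic `p`, if `τ - c` is a local parameter at `v` and
`c ^ (p ^ n) = c` (`n ≠ 0`), then `τ - τ ^ (p ^ n)` has a simple zero at `v`. -/
theorem S36OC_simple_zero (v : Place K F) (p : ℕ) [Fact p.Prime] [CharP F p] (n : ℕ)
    (hn : n ≠ 0) {τ : F} {c : K} (hc : c ^ (p ^ n) = c)
    (hτ : v.ord (τ - algebraMap K F c) = 1) : v.ord (τ - τ ^ (p ^ n)) = 1 := by
  set a : F := τ - algebraMap K F c with ha
  have ha0 : a ≠ 0 := by
    intro h0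
    rw [h0, v.ord_zero] at hτ
    exact zero_ne_one hτ
  have hw := Fermat.Agent.S24.S24_isVal_ord (K := K) v
  have hcF : (algebraMap K F c) ^ (p ^ n) = algebraMap K F c := by
    rw [← map_pow, hc]
  have hEq : τ - τ ^ (p ^ n) = a + -(a ^ (p ^ n)) := by
    rw [ha, sub_pow_char_pow, hcF]
    ring
  have hpn : 1 < p ^ n := Nat.one_lt_pow hn (Fact.out : p.Prime).one_lt
  have hlt : v.ord a < v.ord (-(a ^ (p ^ n))) := by
    rw [hw.neg (pow_ne_zero _ ha0), hw.pow ha0, hτ, mul_one]
    exact_mod_cast hpn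
  rw [hEq, (hw.add_eq_of_lt ha0 (neg_ne_zero.2 (pow_ne_zero _ ha0)) hlt).2, hτ]

end algebraic

section der

attribute [local instance 100000] Algebra.toModule

variable {K M : Type*} [Field K] [Field M] [Algebra K M] (E : IntermediateField K M)
  (d : Derivation K M M)

/-- a relation between Kähler differentials of `E` is inherited by every derivation of an
overfield. -/
theorem S36OC_d_of_D {x y f : E} (h : D K E x = f • D K E y) :
    d (x : M) = (f : M) * d (y : M) := by
  have := congrArg ((d.compAlgebraMap E).liftKaehlerDifferential) h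
  rw [map_smul, Derivation.liftKaehlerDifferential_comp_D,
    Derivation.liftKaehlerDifferential_comp_D] at this
  exact this

/-- **chain rule (D3 b), derivation form**: `ord_v(H_x) = n · ord_v(dx) + ord_v(H_τ)` for
`H_x = C (d x)ⁿ`, `H_τ = C (d τ)ⁿ`, `τ - c` a local parameter at `v`.  No tameness. -/
theorem S36OC_chain_der (x : E) [FiniteDimensional K⟮x⟯ E] [Algebra.IsSeparable K⟮x⟯ E]
    (v : Place K E) (hdeg : v.deg = 1) {τ : E} {c : K}
    (hτ : v.ord (τ - algebraMap K E c) = 1) (hx : d (x : M) ≠ 0)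
    {Hx Hτ : E} {C : M} (hC : C ≠ 0) (n : ℕ)
    (hHx : (Hx : M) = C * d (x : M) ^ n) (hHτ : (Hτ : M) = C * d (τ : M) ^ n) :
    v.ord Hx = (n : ℤ) * v.ordDifferential (D K E x) + v.ord Hτ := by
  obtain ⟨-, f, hf, hord⟩ := S36OC_chain_D x v hdeg hτ
  have hd := S36OC_d_of_D E d hf
  have hf0 : f ≠ 0 := by
    rintro rfl
    apply hx
    rw [hd]
    simp
  have hdτ : d (τ : M) ≠ 0 := by
    intro h0
    apply hx
    rw [hd, h0, mul_zero]
  have hHτ0 : Hτ ≠ 0 := by
    rintro rfl
    have : (C * d (τ : M) ^ n : M) ≠ 0 := mul_ne_zero hC (pow_ne_zero _ hdτ)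
    exact this (by rw [← hHτ]; rfl)
  have hEq : Hx = f ^ n * Hτ := by
    apply Subtype.ext
    show (Hx : M) = ((f ^ n * Hτ : E) : M)
    push_cast
    rw [hHx, hHτ, hd]
    ring
  rw [hEq, v.ord_mul (pow_ne_zero _ hf0) hHτ0, hord, ← zpow_natCast, v.ord_zpow]

/-- **chain rule (D3 b)** for a field of Laurent series and `θ = t d/dt`. -/
theorem S36OC_chain_theta {k : Type*} [Field k] (E : IntermediateField k (LaurentSeries k))
    (x : E) [FiniteDimensional k⟮x⟯ E] [Algebra.IsSeparable k⟮x⟯ E]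
    (v : Place k E) (hdeg : v.deg = 1) {τ : E} {c : k}
    (hτ : v.ord (τ - algebraMap k E c) = 1) (hx : LT_theta (x : LaurentSeries k) ≠ 0)
    {Hx Hτ : E} {C : LaurentSeries k} (hC : C ≠ 0) (n : ℕ)
    (hHx : (Hx : LaurentSeries k) = C * LT_theta (x : LaurentSeries k) ^ n)
    (hHτ : (Hτ : LaurentSeries k) = C * LT_theta (τ : LaurentSeries k) ^ n) :
    v.ord Hx = (n : ℤ) * v.ordDifferential (D k E x) + v.ord Hτ :=
  S36OC_chain_der E (LT_theta (R := k)) x v hdeg hτ hx hC n hHx hHτ

/-- **ORD-FV, final form of the count** (chain rule + `S36OC_count`): on a function field `E`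
of Laurent series over an algebraically closed field, with `x` separating, `H_f = C (θ f)^(q-1)`:
if `ord_v(H_{τ_v}) ≥ 0` at the ordinary points, `≥ -2` at the supersingular points (`τ_v - c_v`
a local parameter at `v`), `H_x` has a pole of order at most `(q-1)·(pole order of x)` at the
cusps, the cusps are tame for `x`, and `(q-1)(2g-2+#cusps) = 2·#SS`, then equality holds
everywhere. -/
theorem S36OC_main {k : Type*} [Field k] [IsAlgClosed k]
    (E : IntermediateField k (LaurentSeries k)) (h : RR_Hyp k E) (x : E)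
    (hx : Transcendental k x) [FiniteDimensional k⟮x⟯ E] [Algebra.IsSeparable k⟮x⟯ E]
    (hθx : LT_theta (x : LaurentSeries k) ≠ 0)
    (q : ℕ) (hq : 1 ≤ q) (C : LaurentSeries k) (hC : C ≠ 0)
    (SS cusps : Finset (Place k E)) (hdisj : Disjoint SS cusps)
    (hnum : ((q : ℤ) - 1) * (2 * (RR_genus k E : ℤ) - 2 + cusps.card) = 2 * SS.card)
    (htame : ∀ v ∈ cusps, v.ordDifferential (D k E x) = v.ord x - 1)
    (Hx : E) (hHx : (Hx : LaurentSeries k) = C * LT_theta (x : LaurentSeries k) ^ (q - 1))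
    (hcl : ∀ v ∈ cusps, ((q : ℤ) - 1) * v.ord x ≤ v.ord Hx)
    (τ Hτ : Place k E → E) (c : Place k E → k)
    (hτ : ∀ v : Place k E, v ∉ cusps → v.ord (τ v - algebraMap k E (c v)) = 1)
    (hHτ : ∀ v : Place k E, v ∉ cusps →
      (Hτ v : LaurentSeries k) = C * LT_theta (τ v : LaurentSeries k) ^ (q - 1))
    (hord : ∀ v : Place k E, v ∉ cusps → v ∉ SS → 0 ≤ v.ord (Hτ v))
    (hss : ∀ v ∈ SS, -2 ≤ v.ord (Hτ v)) :
    (∀ v : Place k E, v ∉ cusps → v ∉ SS → v.ord (Hτ v) = 0) ∧
      (∀ v ∈ SS, v.ord (Hτ v) = -2) ∧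
      ∀ v ∈ cusps, v.ord Hx = ((q : ℤ) - 1) * v.ord x := by
  have hn : ((q - 1 : ℕ) : ℤ) = (q : ℤ) - 1 := by
    rw [Nat.cast_sub hq, Nat.cast_one]
  have hSSc : ∀ v ∈ SS, v ∉ cusps := fun v hv hc =>
    (Finset.disjoint_left.1 hdisj hv) hc
  have hchain : ∀ v : Place k E, v ∉ cusps →
      v.ord Hx - ((q : ℤ) - 1) * v.ordDifferential (D k E x) = v.ord (Hτ v) := by
    intro v hv
    have := S36OC_chain_theta E x v (h.deg_one v) (hτ v hv) hθx hC (q - 1) hHx (hHτ v hv)
    rw [hn] at this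
    rw [this]
    ring
  have key := S36OC_count h x hx Hx SS cusps hdisj q hnum htame
    (fun v hc hs => by rw [hchain v hc]; exact hord v hc hs)
    (fun v hs => by rw [hchain v (hSSc v hs)]; exact hss v hs) hcl
  refine ⟨fun v hc hs => ?_, fun v hs => ?_, key.2.2⟩
  · rw [← hchain v hc]
    exact key.1 v hc hs
  · rw [← hchain v (hSSc v hs)]
    exact key.2.1 v hs

end der

end Fermat.Agent.S36
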