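import Mathlib
import Fermat.Agent.S18.CuspFinal
import Fermat.Agent.Lib.CuspEmb
import Fermat.Agent.Lib.CuspTwist
import Fermat.Agent.Lib.DiffLocal
import Fermat.Agent.S24.CuspCount

/-!
# TRACK 10 (S36), package F5c RBAR / CUSP-M (helper26), prefix `S36RB_`

`k` = residue field of `A ⊂ ℚ̄` over `ℓ ∤ N`, `F_k = modularFunctionFieldFullC k N`,
`j̄ = S18_jbar N k`.  The cusps of `X̄₀(N)` (= the poles of `j̄`) from the COMPLETE family of
`t`-expansions `KE_embk` (S18, K-core) with the same twist permutation as in characteristic `0`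
(`KE_twist_same`), through the abstract count `CU_emb_count` / `CU_emb_place_of_zero`:

* `S36RB_cusp_card`  : `#{v | ord_v j̄ < 0} = cuspCount N`   (`r` is injective on the cusps);
* `S36RB_cusp_dvd`   : `ord_v j̄ ∣ N` at every pole `v` of `j̄`  (the widths divide `N`);
* `S36RB_htame`      : `ordDifferential_v (d j̄) = ord_v j̄ - 1` at every pole `v` (TAME, all `ℓ`,
  also `ℓ = 2, 3`) — the hypothesis `htame` of `S36OC_count`;
* `S36RB_cusps`      : the `Finset` of the cusps with its cardinality and tameness.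
-/

set_option autoImplicit false
set_option linter.style.haveILetI false
set_option linter.unusedSectionVars false
set_option synthInstance.maxHeartbeats 400000
set_option maxHeartbeats 1000000

open IntermediateField Polynomial AlgebraicCurve ModularCurve KaehlerDifferential

namespace Fermat.Agent.S36

open Fermat.Agent.Lib Fermat.Agent.S24 Fermat.Agent.S28 Fermat.Agent.S18

section Final

variable (N : ℕ) [NeZero N] (A : ValuationSubring (AlgebraicClosure ℚ)) {ℓ : ℕ}
  (hℓ : ℓ.Prime) (hA : A.LiesOverPrime ℓ) (hℓN : ¬ ℓ ∣ N)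

include hℓ hA hℓN

/-- the twist permutation of the cosets, valid on BOTH sides. -/
theorem S36RB_exists_perm :
    letI := KE_algQC
    letI := KE_algkV A
    ∃ τ : Equiv.Perm (Cos N),
      (∀ γ (f : ↥(modularFunctionFieldBar N)) (n : ℤ),
        (KE_embK N (τ γ) f).coeff n = zetaC N ^ n * (KE_embK N γ f).coeff n) ∧
      ∀ γ (f : ↥(modularFunctionFieldFullC (IsLocalRing.ResidueField A) N)) (n : ℤ),
        (KE_embk N hℓ hℓN A hA (τ γ) f).coeff n =
          KE_zbar N (KE_V A) ^ n * (KE_embk N hℓ hℓN A hA γ f).coeff n := by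
  classical
  haveI : Finite (Cos N) := Subgroup.finite_quotient_of_finiteIndex
  letI := KE_algQC
  letI := KE_algkV A
  haveI hfdK := finiteDimensional_jB N
  haveI hsepK := S24_isSeparable_jB N
  have hzK := (KE_hyp_complex N).hz
  haveI : FiniteDimensional (AlgebraicClosure ℚ)⟮(jB N)⁻¹⟯ ↥(modularFunctionFieldBar N) :=
    W_finite_inv (jB N)
  haveI : Algebra.IsSeparable (AlgebraicClosure ℚ)⟮(jB N)⁻¹⟯ ↥(modularFunctionFieldBar N) := by
    have e := BG_adjoin_inv (K := AlgebraicClosure ℚ) (jB N)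
    exact e.symm ▸ hsepK
  obtain ⟨τ, hτ⟩ := CU_exists_perm (x := (jB N)⁻¹) (KE_embK N) (KE_embK_injective N)
    ((kcj N ℂ)⁻¹) (KE_embK_jB_inv N)
    (by rw [W_finrank_inv, finrank_eq_card_cos]) (zetaC N) (KE_zetaC_ne_zero N)
    (KE_kcj_inv_hinv hzK)
  exact ⟨τ, hτ, fun γ => KE_twist_same N hℓ hℓN A hA γ (τ γ) (hτ γ)⟩

/-- **CUSP-M, the count**: the number of poles of `j̄` on `F_k` is the number of cusps of
`X₀(N)`. -/
theorem S36RB_cusp_card :
    Nat.card {v : Place (IsLocalRing.ResidueField A)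
        ↥(modularFunctionFieldFullC (IsLocalRing.ResidueField A) N) //
      v.ord (S18_jbar N (IsLocalRing.ResidueField A)) < 0} = ModularCurve.cuspCount N := by
  classical
  haveI : IsAlgClosed (IsLocalRing.ResidueField A) := S18_residue_isAlgClosed A
  haveI : CharP (IsLocalRing.ResidueField A) ℓ := S18_residue_charP A ℓ hℓ hA
  haveI : Fact ℓ.Prime := ⟨hℓ⟩
  haveI : Finite (Cos N) := Subgroup.finite_quotient_of_finiteIndex
  letI := KE_algQC
  letI := KE_algkV A
  haveI hfdK := finiteDimensional_jB N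
  haveI hsepK := S24_isSeparable_jB N
  haveI hfdk := S18_finite_jbar N hℓ hℓN (S18_ψ A hℓ hA)
  haveI hsepk := S18_isSeparable_jbar N hℓN (S18_ψ A hℓ hA)
  haveI : FiniteDimensional (AlgebraicClosure ℚ)⟮(jB N)⁻¹⟯ ↥(modularFunctionFieldBar N) :=
    W_finite_inv (jB N)
  haveI : Algebra.IsSeparable (AlgebraicClosure ℚ)⟮(jB N)⁻¹⟯ ↥(modularFunctionFieldBar N) := by
    have e := BG_adjoin_inv (K := AlgebraicClosure ℚ) (jB N)
    exact e.symm ▸ hsepK
  haveI : FiniteDimensional (IsLocalRing.ResidueField A)⟮(S18_jbar N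
      (IsLocalRing.ResidueField A))⁻¹⟯
      ↥(modularFunctionFieldFullC (IsLocalRing.ResidueField A) N) :=
    W_finite_inv (S18_jbar N (IsLocalRing.ResidueField A))
  haveI : Algebra.IsSeparable (IsLocalRing.ResidueField A)⟮(S18_jbar N
      (IsLocalRing.ResidueField A))⁻¹⟯
      ↥(modularFunctionFieldFullC (IsLocalRing.ResidueField A) N) := by
    have e := BG_adjoin_inv (K := IsLocalRing.ResidueField A)
      (S18_jbar N (IsLocalRing.ResidueField A))
    exact e.symm ▸ hsepk
  have hN : 0 < N := Nat.pos_of_ne_zero (NeZero.ne N)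
  have hzK := (KE_hyp_complex N).hz
  have hzk := (KE_hyp_kV N hℓ hℓN A hA).hz
  have hxK : Transcendental (AlgebraicClosure ℚ) (jB N)⁻¹ := by
    intro h
    apply transcendental_jB N
    have := h.inv
    rwa [inv_inv] at this
  have hxk : Transcendental (IsLocalRing.ResidueField A)
      (S18_jbar N (IsLocalRing.ResidueField A))⁻¹ := by
    intro h
    apply S18_transcendental_jbar N (k := IsLocalRing.ResidueField A)
    have := h.inv
    rwa [inv_inv] at this
  obtain ⟨τ, hτK, hτk⟩ := S36RB_exists_perm N A hℓ hA hℓN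
  have h1 := CU_emb_count (x := (jB N)⁻¹) hxK (KE_embK N) (KE_embK_injective N)
    ((kcj N ℂ)⁻¹) (KE_embK_jB_inv N) N hN (KE_order_kcj_inv N ℂ)
    (by rw [W_finrank_inv, finrank_eq_card_cos]) τ (zetaC N) hzK hτK
  have h2 := CU_emb_count (x := (S18_jbar N (IsLocalRing.ResidueField A))⁻¹) hxk
    (KE_embk N hℓ hℓN A hA) (KE_embk_injective N hℓ hℓN A hA)
    ((kcj N (IsLocalRing.ResidueField (KE_V A)))⁻¹) (KE_embk_j_inv N hℓ hℓN A hA) N hN
    (KE_order_kcj_inv N (IsLocalRing.ResidueField (KE_V A)))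
    (by rw [W_finrank_inv, RIG_finrank_eq_card N A hℓ hA hℓN]) τ (KE_zbar N (KE_V A)) hzk hτk
  rw [← S24_hinf N]
  have e1 : Nat.card {v : Place (AlgebraicClosure ℚ) ↥(modularFunctionFieldBar N) //
      v.ord (jB N) < 0} = Nat.card {v : Place (AlgebraicClosure ℚ)
      ↥(modularFunctionFieldBar N) // 0 < v.ord (jB N)⁻¹} :=
    Nat.card_congr (Equiv.subtypeEquivRight (fun v => by rw [v.ord_inv]; omega))
  have e2 : Nat.card {v : Place (IsLocalRing.ResidueField A)
        ↥(modularFunctionFieldFullC (IsLocalRing.ResidueField A) N) //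
      v.ord (S18_jbar N (IsLocalRing.ResidueField A)) < 0} =
      Nat.card {v : Place (IsLocalRing.ResidueField A)
        ↥(modularFunctionFieldFullC (IsLocalRing.ResidueField A) N) //
      0 < v.ord (S18_jbar N (IsLocalRing.ResidueField A))⁻¹} :=
    Nat.card_congr (Equiv.subtypeEquivRight (fun v => by rw [v.ord_inv]; omega))
  rw [e1, e2, h1, h2]

/-- **CUSP-M, the widths**: at every pole `v` of `j̄` the order `ord_v j̄` divides `N`. -/
theorem S36RB_cusp_dvd (v : Place (IsLocalRing.ResidueField A)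
      ↥(modularFunctionFieldFullC (IsLocalRing.ResidueField A) N))
    (hv : v.ord (S18_jbar N (IsLocalRing.ResidueField A)) < 0) :
    v.ord (S18_jbar N (IsLocalRing.ResidueField A)) ∣ (N : ℤ) := by
  classical
  haveI : IsAlgClosed (IsLocalRing.ResidueField A) := S18_residue_isAlgClosed A
  haveI : CharP (IsLocalRing.ResidueField A) ℓ := S18_residue_charP A ℓ hℓ hA
  haveI : Fact ℓ.Prime := ⟨hℓ⟩
  haveI : Finite (Cos N) := Subgroup.finite_quotient_of_finiteIndex
  letI := KE_algQC
  letI := KE_algkV A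
  haveI hfdk := S18_finite_jbar N hℓ hℓN (S18_ψ A hℓ hA)
  haveI hsepk := S18_isSeparable_jbar N hℓN (S18_ψ A hℓ hA)
  haveI : FiniteDimensional (IsLocalRing.ResidueField A)⟮(S18_jbar N
      (IsLocalRing.ResidueField A))⁻¹⟯
      ↥(modularFunctionFieldFullC (IsLocalRing.ResidueField A) N) :=
    W_finite_inv (S18_jbar N (IsLocalRing.ResidueField A))
  haveI : Algebra.IsSeparable (IsLocalRing.ResidueField A)⟮(S18_jbar N
      (IsLocalRing.ResidueField A))⁻¹⟯
      ↥(modularFunctionFieldFullC (IsLocalRing.ResidueField A) N) := by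
    have e := BG_adjoin_inv (K := IsLocalRing.ResidueField A)
      (S18_jbar N (IsLocalRing.ResidueField A))
    exact e.symm ▸ hsepk
  have hN : 0 < N := Nat.pos_of_ne_zero (NeZero.ne N)
  have hzk := (KE_hyp_kV N hℓ hℓN A hA).hz
  have hxk : Transcendental (IsLocalRing.ResidueField A)
      (S18_jbar N (IsLocalRing.ResidueField A))⁻¹ := by
    intro h
    apply S18_transcendental_jbar N (k := IsLocalRing.ResidueField A)
    have := h.inv
    rwa [inv_inv] at this
  obtain ⟨τ, -, hτk⟩ := S36RB_exists_perm N A hℓ hA hℓN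
  have hv' : 0 < v.ord (S18_jbar N (IsLocalRing.ResidueField A))⁻¹ := by
    rw [v.ord_inv]; omega
  obtain ⟨γ, -, -, h3⟩ := CU_emb_place_of_zero
    (x := (S18_jbar N (IsLocalRing.ResidueField A))⁻¹) hxk
    (KE_embk N hℓ hℓN A hA) (KE_embk_injective N hℓ hℓN A hA)
    ((kcj N (IsLocalRing.ResidueField (KE_V A)))⁻¹) (KE_embk_j_inv N hℓ hℓN A hA) N hN
    (KE_order_kcj_inv N (IsLocalRing.ResidueField (KE_V A)))
    (by rw [W_finrank_inv, RIG_finrank_eq_card N A hℓ hA hℓN]) τ (KE_zbar N (KE_V A)) hzk hτk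
    v hv'
  rw [v.ord_inv] at h3
  exact (neg_dvd).mp h3

/-- **CUSP-M, tameness**: `ord_v(d j̄) = ord_v(j̄) - 1` at every pole `v` of `j̄`
(`htame` of `S36OC_count`); valid for every `ℓ ∤ N`, also `ℓ = 2, 3`. -/
theorem S36RB_htame (v : Place (IsLocalRing.ResidueField A)
      ↥(modularFunctionFieldFullC (IsLocalRing.ResidueField A) N))
    (hv : v.ord (S18_jbar N (IsLocalRing.ResidueField A)) < 0) :
    v.ordDifferential (D (IsLocalRing.ResidueField A)
        ↥(modularFunctionFieldFullC (IsLocalRing.ResidueField A) N)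
        (S18_jbar N (IsLocalRing.ResidueField A))) =
      v.ord (S18_jbar N (IsLocalRing.ResidueField A)) - 1 := by
  haveI : IsAlgClosed (IsLocalRing.ResidueField A) := S18_residue_isAlgClosed A
  haveI : CharP (IsLocalRing.ResidueField A) ℓ := S18_residue_charP A ℓ hℓ hA
  haveI : Fact ℓ.Prime := ⟨hℓ⟩
  haveI hfdk := S18_finite_jbar N hℓ hℓN (S18_ψ A hℓ hA)
  haveI hsepk := S18_isSeparable_jbar N hℓN (S18_ψ A hℓ hA)
  obtain ⟨m, hm⟩ := S36RB_cusp_dvd N A hℓ hA hℓN v hv
  refine FD_ordDifferential_D (S18_jbar N (IsLocalRing.ResidueField A)) v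
    (FD_deg_one (S18_jbar N (IsLocalRing.ResidueField A)) v) ?_
  intro h0
  apply hℓN
  rw [← CharP.cast_eq_zero_iff (IsLocalRing.ResidueField A) ℓ]
  have h1 : ((N : ℤ) : IsLocalRing.ResidueField A) = 0 := by
    rw [hm, Int.cast_mul, h0, zero_mul]
  exact_mod_cast h1

end Final

end Fermat.Agent.S36
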