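import Mathlib
import Fermat.Agent.S36.RBar
import Fermat.Agent.S36.OrdChain
import Fermat.Agent.S36.Arith36G

/-!
# TRACK 10 (S36), package F5c RBAR (helper26), part 2, prefix `S36RB_`:
the count (D3) INSTANTIATED on `κ = F̄_M = modularFunctionFieldFullC k M`

* `S36RB_hnum_abs`, `S36RB_hnum` : in `S36OC_count` the numerical hypothesis `hnum` may be
  weakened to the INEQUALITY `2 #SS ≤ (q-1)(2g-2+#cusps)`: the equality follows from the lower
  bounds (degree of an effective divisor).
* `S36RB_cusps` : the `Finset` of the poles of `j̄`, with `card = cuspCount M` and tameness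
  (from `S36RB_cusp_card`, `S36RB_htame`).
* `S36RB_count` : `S36OC_count` on `F̄_M`, `x = j̄`, `cusps` = poles of `j̄`, with
  `#SS ≤ s = g(F_{Mq}) + 1 - 2 g(F̄_M)` (TRACK 7's number of nodes).
* `S36RB_main` : `S36OC_main` on `F̄_M` in the same way (`H_f = C (θ f)^(q-1)`).
Remaining hypotheses: `Ψ` (resp. `C`, `Hx`, `τ`, `Hτ`), `SS` with `#SS ≤ s`, `SS` disjoint from the
poles of `j̄`, and the lower bounds `hord`, `hss`, `hcl`.
-/

set_option autoImplicit false
set_option linter.style.haveILetI false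
set_option linter.unusedSectionVars false
set_option synthInstance.maxHeartbeats 400000
set_option maxHeartbeats 1000000

open IntermediateField Polynomial AlgebraicCurve ModularCurve KaehlerDifferential

namespace Fermat.Agent.S36

open Fermat.Agent.Lib Fermat.Agent.S24 Fermat.Agent.S28 Fermat.Agent.S18

section abs

variable {k κ : Type*} [Field k] [Field κ] [Algebra k κ]

/-- **`hnum` from the inequality, abstract form.** -/
theorem S36RB_hnum_abs (hdeg : ∀ v : Place k κ, v.deg = 1) (P W X : Divisor k κ) (g : ℕ)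
    (hP : P.degree = 0) (hW : W.degree = 2 * (g : ℤ) - 2)
    (SS cusps : Finset (Place k κ)) (hdisj : Disjoint SS cusps) (q : ℕ)
    (hnum : 2 * (SS.card : ℤ) ≤ ((q : ℤ) - 1) * (2 * (g : ℤ) - 2 + cusps.card))
    (htame : ∀ v ∈ cusps, W v = X v - 1)
    (hord : ∀ v, v ∉ cusps → v ∉ SS → 0 ≤ P v - ((q : ℤ) - 1) * W v)
    (hss : ∀ v ∈ SS, -2 ≤ P v - ((q : ℤ) - 1) * W v)
    (hcl : ∀ v ∈ cusps, ((q : ℤ) - 1) * X v ≤ P v) :
    ((q : ℤ) - 1) * (2 * (g : ℤ) - 2 + cusps.card) = 2 * SS.card := by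
  classical
  set T : Divisor k κ := ((q : ℤ) - 1) • W +
    ((q : ℤ) - 1) • (∑ v ∈ cusps, Finsupp.single v (1 : ℤ)) -
    (2 : ℤ) • (∑ v ∈ SS, Finsupp.single v (1 : ℤ)) with hT
  have hTdeg : T.degree = ((q : ℤ) - 1) * (2 * (g : ℤ) - 2 + cusps.card) - 2 * SS.card := by
    rw [hT, map_sub, map_add, map_zsmul, map_zsmul, map_zsmul, S36OC_degree_sum hdeg,
      S36OC_degree_sum hdeg, hW]
    simp only [smul_eq_mul]
    ring
  have hTv : ∀ v, T v = ((q : ℤ) - 1) * W v +
      ((q : ℤ) - 1) * (∑ w ∈ cusps, Finsupp.single w (1 : ℤ) : Divisor k κ) v -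
      2 * (∑ w ∈ SS, Finsupp.single w (1 : ℤ) : Divisor k κ) v := by
    intro v
    rw [hT, Finsupp.sub_apply, Finsupp.add_apply, Finsupp.smul_apply, Finsupp.smul_apply,
      Finsupp.smul_apply]
    simp only [smul_eq_mul]
  have hTc : ∀ v ∈ cusps, T v = ((q : ℤ) - 1) * X v := by
    intro v hc
    have hs : v ∉ SS := fun hs => Finset.disjoint_left.1 hdisj hs hc
    rw [hTv, S36OC_sum_apply_mem cusps v hc, S36OC_sum_apply_not_mem SS v hs, htame v hc]
    ring
  have hTs : ∀ v ∈ SS, T v = ((q : ℤ) - 1) * W v - 2 := by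
    intro v hs
    have hc : v ∉ cusps := fun hc => Finset.disjoint_left.1 hdisj hs hc
    rw [hTv, S36OC_sum_apply_not_mem cusps v hc, S36OC_sum_apply_mem SS v hs]
    ring
  have hTo : ∀ v, v ∉ cusps → v ∉ SS → T v = ((q : ℤ) - 1) * W v := by
    intro v hc hs
    rw [hTv, S36OC_sum_apply_not_mem cusps v hc, S36OC_sum_apply_not_mem SS v hs]
    ring
  have hE : (0 : Divisor k κ) ≤ P - T := by
    rw [Finsupp.le_def]
    intro v
    rw [Finsupp.sub_apply, Finsupp.zero_apply]
    by_cases hc : v ∈ cusps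
    · rw [hTc v hc]
      have h1 := hcl v hc
      linarith
    · by_cases hs : v ∈ SS
      · rw [hTs v hs]
        have h1 := hss v hs
        linarith
      · rw [hTo v hc hs]
        have h1 := hord v hc hs
        linarith
  have h0 := RR_degree_nonneg hdeg hE
  rw [map_sub, hP, hTdeg] at h0
  linarith

/-- **`hnum` from the inequality, on a function field** (`x` separating). -/
theorem S36RB_hnum [IsAlgClosed k] (h : RR_Hyp k κ) (x : κ) (hx : Transcendental k x)
    [FiniteDimensional k⟮x⟯ κ] [Algebra.IsSeparable k⟮x⟯ κ] (Ψ : κ)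
    (SS cusps : Finset (Place k κ)) (hdisj : Disjoint SS cusps) (q : ℕ)
    (hnum : 2 * (SS.card : ℤ) ≤ ((q : ℤ) - 1) * (2 * (RR_genus k κ : ℤ) - 2 + cusps.card))
    (htame : ∀ v ∈ cusps, v.ordDifferential (D k κ x) = v.ord x - 1)
    (hord : ∀ v : Place k κ, v ∉ cusps → v ∉ SS →
      0 ≤ v.ord Ψ - ((q : ℤ) - 1) * v.ordDifferential (D k κ x))
    (hss : ∀ v ∈ SS, -2 ≤ v.ord Ψ - ((q : ℤ) - 1) * v.ordDifferential (D k κ x))
    (hcl : ∀ v ∈ cusps, ((q : ℤ) - 1) * v.ord x ≤ v.ord Ψ) :
    ((q : ℤ) - 1) * (2 * (RR_genus k κ : ℤ) - 2 + cusps.card) = 2 * SS.card := by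
  obtain ⟨W, hW, hWdeg⟩ := HW_hurwitz h x hx
  have hP := h.principal
  exact S36RB_hnum_abs h.deg_one (RR_div hP Ψ) W (RR_div hP x) (RR_genus k κ)
    (RR_div_degree hP Ψ) hWdeg SS cusps hdisj q hnum
    (fun v hv => by rw [hW, RR_div_apply, htame v hv])
    (fun v hc hs => by rw [hW, RR_div_apply]; exact hord v hc hs)
    (fun v hs => by rw [hW, RR_div_apply]; exact hss v hs)
    (fun v hv => by rw [RR_div_apply, RR_div_apply]; exact hcl v hv)

/-- `S36OC_count` with `hnum` as an inequality. -/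
theorem S36RB_count_le [IsAlgClosed k] (h : RR_Hyp k κ) (x : κ) (hx : Transcendental k x)
    [FiniteDimensional k⟮x⟯ κ] [Algebra.IsSeparable k⟮x⟯ κ] (Ψ : κ)
    (SS cusps : Finset (Place k κ)) (hdisj : Disjoint SS cusps) (q : ℕ)
    (hnum : 2 * (SS.card : ℤ) ≤ ((q : ℤ) - 1) * (2 * (RR_genus k κ : ℤ) - 2 + cusps.card))
    (htame : ∀ v ∈ cusps, v.ordDifferential (D k κ x) = v.ord x - 1)
    (hord : ∀ v : Place k κ, v ∉ cusps → v ∉ SS →
      0 ≤ v.ord Ψ - ((q : ℤ) - 1) * v.ordDifferential (D k κ x))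
    (hss : ∀ v ∈ SS, -2 ≤ v.ord Ψ - ((q : ℤ) - 1) * v.ordDifferential (D k κ x))
    (hcl : ∀ v ∈ cusps, ((q : ℤ) - 1) * v.ord x ≤ v.ord Ψ) :
    (∀ v : Place k κ, v ∉ cusps → v ∉ SS →
        v.ord Ψ - ((q : ℤ) - 1) * v.ordDifferential (D k κ x) = 0) ∧
      (∀ v ∈ SS, v.ord Ψ - ((q : ℤ) - 1) * v.ordDifferential (D k κ x) = -2) ∧
      ∀ v ∈ cusps, v.ord Ψ = ((q : ℤ) - 1) * v.ord x :=
  S36OC_count h x hx Ψ SS cusps hdisj q
    (S36RB_hnum h x hx Ψ SS cusps hdisj q hnum htame hord hss hcl) htame hord hss hcl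

end abs

section conc

variable (M : ℕ) [NeZero M] (A : ValuationSubring (AlgebraicClosure ℚ)) {q : ℕ}
  (hq : q.Prime) (hA : A.LiesOverPrime q) (hqM : ¬ q ∣ M)

include hq hA hqM

/-- **the cusps of `X̄₀(M)` as a `Finset`**: the poles of `j̄`, `cuspCount M` in number, all
tame. -/
theorem S36RB_cusps :
    ∃ cusps : Finset (Place (IsLocalRing.ResidueField A)
        ↥(modularFunctionFieldFullC (IsLocalRing.ResidueField A) M)),
      (∀ v, v ∈ cusps ↔ v.ord (S18_jbar M (IsLocalRing.ResidueField A)) < 0) ∧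
      cusps.card = ModularCurve.cuspCount M ∧
      ∀ v ∈ cusps, v.ordDifferential (D (IsLocalRing.ResidueField A)
          ↥(modularFunctionFieldFullC (IsLocalRing.ResidueField A) M)
          (S18_jbar M (IsLocalRing.ResidueField A))) =
        v.ord (S18_jbar M (IsLocalRing.ResidueField A)) - 1 := by
  classical
  have hP := (S18_hk M A hq hA hqM).principal
  set cusps := (RR_div hP (S18_jbar M (IsLocalRing.ResidueField A))).support.filter
    (fun v => v.ord (S18_jbar M (IsLocalRing.ResidueField A)) < 0) with hc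
  have hmem : ∀ v, v ∈ cusps ↔ v.ord (S18_jbar M (IsLocalRing.ResidueField A)) < 0 := by
    intro v
    rw [hc, Finset.mem_filter, Finsupp.mem_support_iff, RR_div_apply]
    constructor
    · exact fun h => h.2
    · exact fun h => ⟨ne_of_lt h, h⟩
  refine ⟨cusps, hmem, ?_, fun v hv => S36RB_htame M A hq hA hqM v ((hmem v).1 hv)⟩
  rw [← S36RB_cusp_card M A hq hA hqM]
  exact (Nat.subtype_card cusps hmem).symm

/-- **the count (D3) on `F̄_M`** (`S36OC_count` instantiated): `x = j̄`, the cusps are the poles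
of `j̄`, `SS` any finite set of non-cuspidal places with
`#SS ≤ s = g(F_{M q}) + 1 - 2 g(F̄_M)` (TRACK 7's number of nodes), `M` without elliptic points. -/
theorem S36RB_count [NeZero (M * q)] (hν₂ : nuTwo M = 0) (hν₃ : nuThree M = 0)
    (Ψ : ↥(modularFunctionFieldFullC (IsLocalRing.ResidueField A) M))
    (SS : Finset (Place (IsLocalRing.ResidueField A)
      ↥(modularFunctionFieldFullC (IsLocalRing.ResidueField A) M)))
    (hSSc : ∀ v ∈ SS, 0 ≤ v.ord (S18_jbar M (IsLocalRing.ResidueField A)))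
    (hSS : (SS.card : ℤ) ≤
      (RR_genus (AlgebraicClosure ℚ) ↥(modularFunctionFieldBar (M * q)) : ℤ) + 1 -
        2 * RR_genus (IsLocalRing.ResidueField A)
          ↥(modularFunctionFieldFullC (IsLocalRing.ResidueField A) M))
    (hord : ∀ v : Place (IsLocalRing.ResidueField A)
        ↥(modularFunctionFieldFullC (IsLocalRing.ResidueField A) M),
      0 ≤ v.ord (S18_jbar M (IsLocalRing.ResidueField A)) → v ∉ SS →
      0 ≤ v.ord Ψ - ((q : ℤ) - 1) * v.ordDifferential (D (IsLocalRing.ResidueField A)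
        ↥(modularFunctionFieldFullC (IsLocalRing.ResidueField A) M)
        (S18_jbar M (IsLocalRing.ResidueField A))))
    (hss : ∀ v ∈ SS, -2 ≤ v.ord Ψ - ((q : ℤ) - 1) *
      v.ordDifferential (D (IsLocalRing.ResidueField A)
        ↥(modularFunctionFieldFullC (IsLocalRing.ResidueField A) M)
        (S18_jbar M (IsLocalRing.ResidueField A))))
    (hcl : ∀ v : Place (IsLocalRing.ResidueField A)
        ↥(modularFunctionFieldFullC (IsLocalRing.ResidueField A) M),
      v.ord (S18_jbar M (IsLocalRing.ResidueField A)) < 0 →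
      ((q : ℤ) - 1) * v.ord (S18_jbar M (IsLocalRing.ResidueField A)) ≤ v.ord Ψ) :
    (∀ v : Place (IsLocalRing.ResidueField A)
        ↥(modularFunctionFieldFullC (IsLocalRing.ResidueField A) M),
      0 ≤ v.ord (S18_jbar M (IsLocalRing.ResidueField A)) → v ∉ SS →
      v.ord Ψ - ((q : ℤ) - 1) * v.ordDifferential (D (IsLocalRing.ResidueField A)
        ↥(modularFunctionFieldFullC (IsLocalRing.ResidueField A) M)
        (S18_jbar M (IsLocalRing.ResidueField A))) = 0) ∧
    (∀ v ∈ SS, v.ord Ψ - ((q : ℤ) - 1) *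
      v.ordDifferential (D (IsLocalRing.ResidueField A)
        ↥(modularFunctionFieldFullC (IsLocalRing.ResidueField A) M)
        (S18_jbar M (IsLocalRing.ResidueField A))) = -2) ∧
    (∀ v : Place (IsLocalRing.ResidueField A)
        ↥(modularFunctionFieldFullC (IsLocalRing.ResidueField A) M),
      v.ord (S18_jbar M (IsLocalRing.ResidueField A)) < 0 →
      v.ord Ψ = ((q : ℤ) - 1) * v.ord (S18_jbar M (IsLocalRing.ResidueField A))) ∧
    (SS.card : ℤ) =
      (RR_genus (AlgebraicClosure ℚ) ↥(modularFunctionFieldBar (M * q)) : ℤ) + 1 -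
        2 * RR_genus (IsLocalRing.ResidueField A)
          ↥(modularFunctionFieldFullC (IsLocalRing.ResidueField A) M) := by
  classical
  haveI : IsAlgClosed (IsLocalRing.ResidueField A) := S18_residue_isAlgClosed A
  haveI : CharP (IsLocalRing.ResidueField A) q := S18_residue_charP A q hq hA
  haveI : Fact q.Prime := ⟨hq⟩
  haveI hfdk := S18_finite_jbar M hq hqM (S18_ψ A hq hA)
  haveI hsepk := S18_isSeparable_jbar M hqM (S18_ψ A hq hA)
  have h := S18_hk M A hq hA hqM
  have hx := S18_transcendental_jbar M (k := IsLocalRing.ResidueField A)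
  obtain ⟨cusps, hmem, hcard, htame⟩ := S36RB_cusps M A hq hA hqM
  have hdisj : Disjoint SS cusps := by
    rw [Finset.disjoint_left]
    intro v hv hc
    have h1 := hSSc v hv
    have h2 := (hmem v).1 hc
    omega
  have hnot : ∀ v, v ∉ cusps ↔ 0 ≤ v.ord (S18_jbar M (IsLocalRing.ResidueField A)) := by
    intro v
    rw [hmem v, not_lt]
  obtain ⟨hn1, -⟩ := S36AR_hnum_k M q hq hqM hν₂ hν₃ A hq hqM hA _ rfl
  have hnum : 2 * (SS.card : ℤ) ≤ ((q : ℤ) - 1) *
      (2 * (RR_genus (IsLocalRing.ResidueField A)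
        ↥(modularFunctionFieldFullC (IsLocalRing.ResidueField A) M) : ℤ) - 2 + cusps.card) := by
    rw [hcard, hn1]
    linarith
  have hord' := fun v (hc : v ∉ cusps) (hs : v ∉ SS) => hord v ((hnot v).1 hc) hs
  have hcl' := fun v (hc : v ∈ cusps) => hcl v ((hmem v).1 hc)
  have heq := S36RB_hnum h (S18_jbar M (IsLocalRing.ResidueField A)) hx Ψ SS cusps hdisj q hnum
    htame hord' hss hcl'
  have key := S36OC_count h (S18_jbar M (IsLocalRing.ResidueField A)) hx Ψ SS cusps hdisj q heq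
    htame hord' hss hcl'
  refine ⟨fun v hv hs => key.1 v ((hnot v).2 hv) hs, key.2.1,
    fun v hv => key.2.2 v ((hmem v).2 hv), ?_⟩
  rw [hcard, hn1] at heq
  linarith

/-- **ORD-FV on `F̄_M`, final form** (`S36OC_main` instantiated): `H_f = C (θ f)^(q-1)`,
`τ_v - c_v` a local parameter at the non-cuspidal place `v`; lower bounds `ord_v H_{τ_v} ≥ 0`
off `SS`, `≥ -2` on `SS`, `ord_v H_{j̄} ≥ (q-1) ord_v j̄` at the cusps, `#SS ≤ s` ⇒ equality
everywhere (and `#SS = s`). -/
theorem S36RB_main [NeZero (M * q)] (hν₂ : nuTwo M = 0) (hν₃ : nuThree M = 0)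
    (C : LaurentSeries (IsLocalRing.ResidueField A)) (hC : C ≠ 0)
    (SS : Finset (Place (IsLocalRing.ResidueField A)
      ↥(modularFunctionFieldFullC (IsLocalRing.ResidueField A) M)))
    (hSSc : ∀ v ∈ SS, 0 ≤ v.ord (S18_jbar M (IsLocalRing.ResidueField A)))
    (hSS : (SS.card : ℤ) ≤
      (RR_genus (AlgebraicClosure ℚ) ↥(modularFunctionFieldBar (M * q)) : ℤ) + 1 -
        2 * RR_genus (IsLocalRing.ResidueField A)
          ↥(modularFunctionFieldFullC (IsLocalRing.ResidueField A) M))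
    (Hx : ↥(modularFunctionFieldFullC (IsLocalRing.ResidueField A) M))
    (hHx : (Hx : LaurentSeries (IsLocalRing.ResidueField A)) =
      C * LT_theta ((S18_jbar M (IsLocalRing.ResidueField A) :
        ↥(modularFunctionFieldFullC (IsLocalRing.ResidueField A) M)) :
          LaurentSeries (IsLocalRing.ResidueField A)) ^ (q - 1))
    (hcl : ∀ v : Place (IsLocalRing.ResidueField A)
        ↥(modularFunctionFieldFullC (IsLocalRing.ResidueField A) M),
      v.ord (S18_jbar M (IsLocalRing.ResidueField A)) < 0 →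
      ((q : ℤ) - 1) * v.ord (S18_jbar M (IsLocalRing.ResidueField A)) ≤ v.ord Hx)
    (τ Hτ : Place (IsLocalRing.ResidueField A)
        ↥(modularFunctionFieldFullC (IsLocalRing.ResidueField A) M) →
      ↥(modularFunctionFieldFullC (IsLocalRing.ResidueField A) M))
    (c : Place (IsLocalRing.ResidueField A)
        ↥(modularFunctionFieldFullC (IsLocalRing.ResidueField A) M) →
      IsLocalRing.ResidueField A)
    (hτ : ∀ v : Place (IsLocalRing.ResidueField A)
        ↥(modularFunctionFieldFullC (IsLocalRing.ResidueField A) M),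
      0 ≤ v.ord (S18_jbar M (IsLocalRing.ResidueField A)) →
      v.ord (τ v - algebraMap (IsLocalRing.ResidueField A)
        ↥(modularFunctionFieldFullC (IsLocalRing.ResidueField A) M) (c v)) = 1)
    (hHτ : ∀ v : Place (IsLocalRing.ResidueField A)
        ↥(modularFunctionFieldFullC (IsLocalRing.ResidueField A) M),
      0 ≤ v.ord (S18_jbar M (IsLocalRing.ResidueField A)) →
      (Hτ v : LaurentSeries (IsLocalRing.ResidueField A)) =
        C * LT_theta (τ v : LaurentSeries (IsLocalRing.ResidueField A)) ^ (q - 1))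
    (hord : ∀ v : Place (IsLocalRing.ResidueField A)
        ↥(modularFunctionFieldFullC (IsLocalRing.ResidueField A) M),
      0 ≤ v.ord (S18_jbar M (IsLocalRing.ResidueField A)) → v ∉ SS → 0 ≤ v.ord (Hτ v))
    (hss : ∀ v ∈ SS, -2 ≤ v.ord (Hτ v)) :
    (∀ v : Place (IsLocalRing.ResidueField A)
        ↥(modularFunctionFieldFullC (IsLocalRing.ResidueField A) M),
      0 ≤ v.ord (S18_jbar M (IsLocalRing.ResidueField A)) → v ∉ SS → v.ord (Hτ v) = 0) ∧
    (∀ v ∈ SS, v.ord (Hτ v) = -2) ∧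
    (∀ v : Place (IsLocalRing.ResidueField A)
        ↥(modularFunctionFieldFullC (IsLocalRing.ResidueField A) M),
      v.ord (S18_jbar M (IsLocalRing.ResidueField A)) < 0 →
      v.ord Hx = ((q : ℤ) - 1) * v.ord (S18_jbar M (IsLocalRing.ResidueField A))) ∧
    (SS.card : ℤ) =
      (RR_genus (AlgebraicClosure ℚ) ↥(modularFunctionFieldBar (M * q)) : ℤ) + 1 -
        2 * RR_genus (IsLocalRing.ResidueField A)
          ↥(modularFunctionFieldFullC (IsLocalRing.ResidueField A) M) := by
  classical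
  haveI : IsAlgClosed (IsLocalRing.ResidueField A) := S18_residue_isAlgClosed A
  haveI : CharP (IsLocalRing.ResidueField A) q := S18_residue_charP A q hq hA
  haveI : Fact q.Prime := ⟨hq⟩
  haveI hfdk := S18_finite_jbar M hq hqM (S18_ψ A hq hA)
  haveI hsepk := S18_isSeparable_jbar M hqM (S18_ψ A hq hA)
  have h := S18_hk M A hq hA hqM
  have hn : ((q - 1 : ℕ) : ℤ) = (q : ℤ) - 1 := by
    rw [Nat.cast_sub hq.one_le, Nat.cast_one]
  have hchain : ∀ v : Place (IsLocalRing.ResidueField A)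
        ↥(modularFunctionFieldFullC (IsLocalRing.ResidueField A) M),
      0 ≤ v.ord (S18_jbar M (IsLocalRing.ResidueField A)) →
      v.ord Hx - ((q : ℤ) - 1) * v.ordDifferential (D (IsLocalRing.ResidueField A)
        ↥(modularFunctionFieldFullC (IsLocalRing.ResidueField A) M)
        (S18_jbar M (IsLocalRing.ResidueField A))) = v.ord (Hτ v) := by
    intro v hv
    have := S36OC_chain_theta (modularFunctionFieldFullC (IsLocalRing.ResidueField A) M)
      (S18_jbar M (IsLocalRing.ResidueField A)) v (h.deg_one v) (hτ v hv)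
      (S18_theta_jbar_ne_zero M (IsLocalRing.ResidueField A)) hC (q - 1) hHx (hHτ v hv)
    rw [hn] at this
    rw [this]
    ring
  have key := S36RB_count M A hq hA hqM hν₂ hν₃ Hx SS hSSc hSS
    (fun v hv hs => by rw [hchain v hv]; exact hord v hv hs)
    (fun v hs => by rw [hchain v (hSSc v hs)]; exact hss v hs) hcl
  refine ⟨fun v hv hs => ?_, fun v hs => ?_, key.2.2.1, key.2.2.2⟩
  · rw [← hchain v hv]
    exact key.1 v hv hs
  · rw [← hchain v (hSSc v hs)]
    exact key.2.1 v hs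

end conc

end Fermat.Agent.S36
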