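import Mathlib
import Fermat.Agent.S36.RBarCount
import Fermat.Agent.S36.OrdQHj

/-!
# TRACK 10 (S36), package C2.5 = ORD-FV-INST (helper22), prefix `S36OI_`

The regularity count (D3) on `κ = F̄_M = modularFunctionFieldFullC k M`, in CHOICE-FREE form:
the conclusion holds for EVERY local coordinate `τ` at a non-cuspidal place `v`, not only for the
functions chosen to prove the lower bounds.

* `S36OI_exists_H` (abstract): if `H_x = C (d x)ⁿ` lies in `E` and `τ - c` is a local parameter at
  a place of degree one, then `H_τ = C (d τ)ⁿ` lies in `E` (chain rule `d x = f · d τ`, `f ∈ E`).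
* `S36OI_Hj` : `H_j = -(θ j̄)^(q-1) ∈ κ` with `ord_v H_j = (q-1) ord_v j̄` at the cusps
  (`S36OQ_Hj` of helper24 on `κ`).
* `S36OI_Htau` : for every non-cuspidal `v` and every `τ ∈ κ` with `τ - c` a local parameter at `v`,
  `H_τ = -(θ τ)^(q-1) ∈ κ`.
* `S36OI_main` : **the count**.  `M` without elliptic points (`ν₂ = ν₃ = 0`), `SS` a finite set of
  non-cuspidal places with `#SS ≤ s = g(F_{Mq}) + 1 - 2 g(κ)`, lower bounds
  `ord_v H_τ ≥ 0` (`v ∉ SS`), `≥ -2` (`v ∈ SS`) for SOME local coordinate `τ` at `v`.  Then for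
  EVERY local coordinate `τ` at `v`: `ord_v H_τ = 0` (`v ∉ SS`), `= -2` (`v ∈ SS`);
  `ord_v H_j = (q-1) ord_v j̄` at the cusps; `#SS = s`.
* `S36OI_unit_ord`, `S36OI_unit_ss`, `S36OI_unit_cusp` : the three consequences (R13) used by CART:
  `x · H_τ` is a unit at an ordinary `v` if `x` is; `t₁ t₂ H_τ` is a unit at `v ∈ SS` if `t₁`, `t₂`
  have simple zeros; `H_j / j̄^(q-1)` is a unit at the cusps.
-/

set_option autoImplicit false
set_option linter.style.haveILetI false
set_option linter.unusedSectionVars false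
set_option synthInstance.maxHeartbeats 400000
set_option maxHeartbeats 1000000

open IntermediateField Polynomial AlgebraicCurve ModularCurve KaehlerDifferential

namespace Fermat.Agent.S36

open Fermat.Agent.Lib Fermat.Agent.S24 Fermat.Agent.S28 Fermat.Agent.S18

section abs

attribute [local instance 100000] Algebra.toModule

variable {K M : Type*} [Field K] [Field M] [Algebra K M] (E : IntermediateField K M)
  (d : Derivation K M M)

/-- **`H_τ ∈ E`**: if `H_x = C (d x)ⁿ` lies in `E` and `τ - c` is a local parameter at a place of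
degree one of `E`, then `C (d τ)ⁿ` lies in `E`. -/
theorem S36OI_exists_H (x : E) [FiniteDimensional K⟮x⟯ E] [Algebra.IsSeparable K⟮x⟯ E]
    (v : Place K E) (hdeg : v.deg = 1) {τ : E} {c : K}
    (hτ : v.ord (τ - algebraMap K E c) = 1) (hx : d (x : M) ≠ 0)
    {Hx : E} {C : M} (n : ℕ) (hHx : (Hx : M) = C * d (x : M) ^ n) :
    ∃ Hτ : E, (Hτ : M) = C * d (τ : M) ^ n := by
  obtain ⟨-, f, hf, -⟩ := S36OC_chain_D x v hdeg hτ
  have hd := S36OC_d_of_D E d hf
  have hf0 : (f : M) ≠ 0 := by
    intro h0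
    apply hx
    rw [hd, h0, zero_mul]
  refine ⟨(f ^ n)⁻¹ * Hx, ?_⟩
  push_cast
  rw [hHx, hd, mul_pow]
  field_simp

end abs

section conc

variable (M : ℕ) [NeZero M] (A : ValuationSubring (AlgebraicClosure ℚ)) {q : ℕ}
  (hq : q.Prime) (hA : A.LiesOverPrime q) (hqM : ¬ q ∣ M)

include hq hA

/-- `H_j = -(θ j̄)^(q-1) ∈ κ`, with the exact pole order at the cusps. -/
theorem S36OI_Hj [NeZero q] :
    ∃ Hx : ↥(modularFunctionFieldFullC (IsLocalRing.ResidueField A) M),
      (Hx : LaurentSeries (IsLocalRing.ResidueField A)) =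
        -(LT_theta ((S18_jbar M (IsLocalRing.ResidueField A) :
          ↥(modularFunctionFieldFullC (IsLocalRing.ResidueField A) M)) :
            LaurentSeries (IsLocalRing.ResidueField A))) ^ (q - 1) ∧
      ∀ v : Place (IsLocalRing.ResidueField A)
          ↥(modularFunctionFieldFullC (IsLocalRing.ResidueField A) M),
        v.ord (S18_jbar M (IsLocalRing.ResidueField A)) < 0 →
        v.ord Hx = ((q : ℤ) - 1) * v.ord (S18_jbar M (IsLocalRing.ResidueField A)) :=
  S36OQ_Hj q hq A hA (modularFunctionFieldFullC (IsLocalRing.ResidueField A) M)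
    (jqModC_mem_full (IsLocalRing.ResidueField A) M)

include hqM

/-- `H_τ = -(θ τ)^(q-1) ∈ κ` for every local coordinate `τ` at a place of `κ`. -/
theorem S36OI_Htau [NeZero q]
    (v : Place (IsLocalRing.ResidueField A)
      ↥(modularFunctionFieldFullC (IsLocalRing.ResidueField A) M))
    (τ : ↥(modularFunctionFieldFullC (IsLocalRing.ResidueField A) M))
    (c : IsLocalRing.ResidueField A)
    (hτ : v.ord (τ - algebraMap (IsLocalRing.ResidueField A)
      ↥(modularFunctionFieldFullC (IsLocalRing.ResidueField A) M) c) = 1) :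
    ∃ Hτ : ↥(modularFunctionFieldFullC (IsLocalRing.ResidueField A) M),
      (Hτ : LaurentSeries (IsLocalRing.ResidueField A)) =
        -(LT_theta (τ : LaurentSeries (IsLocalRing.ResidueField A))) ^ (q - 1) := by
  classical
  haveI : IsAlgClosed (IsLocalRing.ResidueField A) := S18_residue_isAlgClosed A
  haveI : CharP (IsLocalRing.ResidueField A) q := S18_residue_charP A q hq hA
  haveI : Fact q.Prime := ⟨hq⟩
  haveI hfdk := S18_finite_jbar M hq hqM (S18_ψ A hq hA)
  haveI hsepk := S18_isSeparable_jbar M hqM (S18_ψ A hq hA)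
  have h := S18_hk M A hq hA hqM
  obtain ⟨Hx, hHx, -⟩ := S36OI_Hj M A hq hA
  have hHx' : (Hx : LaurentSeries (IsLocalRing.ResidueField A)) =
      (-1) * (LT_theta (R := IsLocalRing.ResidueField A))
        ((S18_jbar M (IsLocalRing.ResidueField A) :
          ↥(modularFunctionFieldFullC (IsLocalRing.ResidueField A) M)) :
            LaurentSeries (IsLocalRing.ResidueField A)) ^ (q - 1) := by
    rw [hHx, neg_one_mul]
  obtain ⟨Hτ, hHτ⟩ := S36OI_exists_H
    (modularFunctionFieldFullC (IsLocalRing.ResidueField A) M)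
    (LT_theta (R := IsLocalRing.ResidueField A))
    (S18_jbar M (IsLocalRing.ResidueField A)) v (h.deg_one v) hτ
    (S18_theta_jbar_ne_zero M (IsLocalRing.ResidueField A)) (q - 1) hHx'
  exact ⟨Hτ, by rw [hHτ, neg_one_mul]⟩

/-- **ORD-FV on `κ = F̄_M`, choice-free form.** -/
theorem S36OI_main [NeZero (M * q)] [NeZero q] (hν₂ : nuTwo M = 0) (hν₃ : nuThree M = 0)
    (SS : Finset (Place (IsLocalRing.ResidueField A)
      ↥(modularFunctionFieldFullC (IsLocalRing.ResidueField A) M)))
    (hSSc : ∀ v ∈ SS, 0 ≤ v.ord (S18_jbar M (IsLocalRing.ResidueField A)))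
    (hSS : (SS.card : ℤ) ≤
      (RR_genus (AlgebraicClosure ℚ) ↥(modularFunctionFieldBar (M * q)) : ℤ) + 1 -
        2 * RR_genus (IsLocalRing.ResidueField A)
          ↥(modularFunctionFieldFullC (IsLocalRing.ResidueField A) M))
    (hord : ∀ v : Place (IsLocalRing.ResidueField A)
        ↥(modularFunctionFieldFullC (IsLocalRing.ResidueField A) M),
      0 ≤ v.ord (S18_jbar M (IsLocalRing.ResidueField A)) → v ∉ SS →
      ∃ (τ Hτ : ↥(modularFunctionFieldFullC (IsLocalRing.ResidueField A) M))
        (c : IsLocalRing.ResidueField A),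
        v.ord (τ - algebraMap (IsLocalRing.ResidueField A)
          ↥(modularFunctionFieldFullC (IsLocalRing.ResidueField A) M) c) = 1 ∧
        (Hτ : LaurentSeries (IsLocalRing.ResidueField A)) =
          -(LT_theta (τ : LaurentSeries (IsLocalRing.ResidueField A))) ^ (q - 1) ∧
        0 ≤ v.ord Hτ)
    (hss : ∀ v ∈ SS,
      ∃ (τ Hτ : ↥(modularFunctionFieldFullC (IsLocalRing.ResidueField A) M))
        (c : IsLocalRing.ResidueField A),
        v.ord (τ - algebraMap (IsLocalRing.ResidueField A)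
          ↥(modularFunctionFieldFullC (IsLocalRing.ResidueField A) M) c) = 1 ∧
        (Hτ : LaurentSeries (IsLocalRing.ResidueField A)) =
          -(LT_theta (τ : LaurentSeries (IsLocalRing.ResidueField A))) ^ (q - 1) ∧
        -2 ≤ v.ord Hτ) :
    (∀ v : Place (IsLocalRing.ResidueField A)
        ↥(modularFunctionFieldFullC (IsLocalRing.ResidueField A) M),
      0 ≤ v.ord (S18_jbar M (IsLocalRing.ResidueField A)) →
      ∀ (τ Hτ : ↥(modularFunctionFieldFullC (IsLocalRing.ResidueField A) M))
        (c : IsLocalRing.ResidueField A),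
        v.ord (τ - algebraMap (IsLocalRing.ResidueField A)
          ↥(modularFunctionFieldFullC (IsLocalRing.ResidueField A) M) c) = 1 →
        (Hτ : LaurentSeries (IsLocalRing.ResidueField A)) =
          -(LT_theta (τ : LaurentSeries (IsLocalRing.ResidueField A))) ^ (q - 1) →
        (v ∉ SS → v.ord Hτ = 0) ∧ (v ∈ SS → v.ord Hτ = -2)) ∧
    (∀ Hx : ↥(modularFunctionFieldFullC (IsLocalRing.ResidueField A) M),
      (Hx : LaurentSeries (IsLocalRing.ResidueField A)) =
        -(LT_theta ((S18_jbar M (IsLocalRing.ResidueField A) :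
          ↥(modularFunctionFieldFullC (IsLocalRing.ResidueField A) M)) :
            LaurentSeries (IsLocalRing.ResidueField A))) ^ (q - 1) →
      ∀ v : Place (IsLocalRing.ResidueField A)
          ↥(modularFunctionFieldFullC (IsLocalRing.ResidueField A) M),
        v.ord (S18_jbar M (IsLocalRing.ResidueField A)) < 0 →
        v.ord Hx = ((q : ℤ) - 1) * v.ord (S18_jbar M (IsLocalRing.ResidueField A))) ∧
    (SS.card : ℤ) =
      (RR_genus (AlgebraicClosure ℚ) ↥(modularFunctionFieldBar (M * q)) : ℤ) + 1 -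
        2 * RR_genus (IsLocalRing.ResidueField A)
          ↥(modularFunctionFieldFullC (IsLocalRing.ResidueField A) M) := by
  classical
  haveI : IsAlgClosed (IsLocalRing.ResidueField A) := S18_residue_isAlgClosed A
  haveI : CharP (IsLocalRing.ResidueField A) q := S18_residue_charP A q hq hA
  haveI : Fact q.Prime := ⟨hq⟩
  haveI hfdk := S18_finite_jbar M hq hqM (S18_ψ A hq hA)
  haveI hsepk := S18_isSeparable_jbar M hqM (S18_ψ A hq hA)
  have h := S18_hk M A hq hA hqM
  have hn : ((q - 1 : ℕ) : ℤ) = (q : ℤ) - 1 := by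
    rw [Nat.cast_sub hq.one_le, Nat.cast_one]
  obtain ⟨Hx, hHx, hcusp⟩ := S36OI_Hj M A hq hA
  have hC : (-1 : LaurentSeries (IsLocalRing.ResidueField A)) ≠ 0 :=
    neg_ne_zero.2 one_ne_zero
  have hHx' : (Hx : LaurentSeries (IsLocalRing.ResidueField A)) =
      (-1) * (LT_theta (R := IsLocalRing.ResidueField A))
        ((S18_jbar M (IsLocalRing.ResidueField A) :
          ↥(modularFunctionFieldFullC (IsLocalRing.ResidueField A) M)) :
            LaurentSeries (IsLocalRing.ResidueField A)) ^ (q - 1) := by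
    rw [hHx, neg_one_mul]
  -- the chain rule, for every local coordinate
  have hchain : ∀ (v : Place (IsLocalRing.ResidueField A)
        ↥(modularFunctionFieldFullC (IsLocalRing.ResidueField A) M))
      (τ Hτ : ↥(modularFunctionFieldFullC (IsLocalRing.ResidueField A) M))
      (c : IsLocalRing.ResidueField A),
      v.ord (τ - algebraMap (IsLocalRing.ResidueField A)
        ↥(modularFunctionFieldFullC (IsLocalRing.ResidueField A) M) c) = 1 →
      (Hτ : LaurentSeries (IsLocalRing.ResidueField A)) =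
        -(LT_theta (τ : LaurentSeries (IsLocalRing.ResidueField A))) ^ (q - 1) →
      v.ord Hx - ((q : ℤ) - 1) * v.ordDifferential (D (IsLocalRing.ResidueField A)
        ↥(modularFunctionFieldFullC (IsLocalRing.ResidueField A) M)
        (S18_jbar M (IsLocalRing.ResidueField A))) = v.ord Hτ := by
    intro v τ Hτ c hτ hHτ
    have hHτ' : (Hτ : LaurentSeries (IsLocalRing.ResidueField A)) =
        (-1) * (LT_theta (R := IsLocalRing.ResidueField A))
          (τ : LaurentSeries (IsLocalRing.ResidueField A)) ^ (q - 1) := by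
      rw [hHτ, neg_one_mul]
    have := S36OC_chain_theta (modularFunctionFieldFullC (IsLocalRing.ResidueField A) M)
      (S18_jbar M (IsLocalRing.ResidueField A)) v (h.deg_one v) hτ
      (S18_theta_jbar_ne_zero M (IsLocalRing.ResidueField A)) hC (q - 1) hHx' hHτ'
    rw [hn] at this
    rw [this]
    ring
  have key := S36RB_count M A hq hA hqM hν₂ hν₃ Hx SS hSSc hSS
    (fun v hv hs => by
      obtain ⟨τ, Hτ, c, hτ, hHτ, h0⟩ := hord v hv hs
      rw [hchain v τ Hτ c hτ hHτ]
      exact h0)
    (fun v hs => by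
      obtain ⟨τ, Hτ, c, hτ, hHτ, h0⟩ := hss v hs
      rw [hchain v τ Hτ c hτ hHτ]
      exact h0)
    (fun v hv => le_of_eq (hcusp v hv).symm)
  refine ⟨fun v hv τ Hτ c hτ hHτ => ⟨fun hs => ?_, fun hs => ?_⟩, fun Hx' hHx'' v hv => ?_,
    key.2.2.2⟩
  · rw [← hchain v τ Hτ c hτ hHτ]
    exact key.1 v hv hs
  · rw [← hchain v τ Hτ c hτ hHτ]
    exact key.2.1 v hs
  · have e : Hx' = Hx := Subtype.ext (by rw [hHx'', hHx])
    rw [e]
    exact hcusp v hv

end conc

section units

variable {K F : Type*} [Field K] [Field F] [Algebra K F]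

/-- (R13), ordinary point: `x · H` is a unit at `v` if `x` is and `ord_v H = 0`. -/
theorem S36OI_unit_ord (v : Place K F) {x H : F} (hx : v.ord x = 0) (hx0 : x ≠ 0)
    (hH : v.ord H = 0) (hH0 : H ≠ 0) : v.ord (x * H) = 0 := by
  rw [v.ord_mul hx0 hH0, hx, hH, add_zero]

/-- (R13), supersingular point: `t₁ t₂ H` is a unit at `v` if `t₁`, `t₂` have simple zeros and
`ord_v H = -2`. -/
theorem S36OI_unit_ss (v : Place K F) {t₁ t₂ H : F} (h1 : v.ord t₁ = 1) (h2 : v.ord t₂ = 1)
    (hH : v.ord H = -2) : v.ord (t₁ * t₂ * H) = 0 := by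
  have ht1 : t₁ ≠ 0 := by
    rintro rfl
    rw [v.ord_zero] at h1
    exact zero_ne_one h1
  have ht2 : t₂ ≠ 0 := by
    rintro rfl
    rw [v.ord_zero] at h2
    exact zero_ne_one h2
  have hH0 : H ≠ 0 := by
    rintro rfl
    rw [v.ord_zero] at hH
    norm_num at hH
  rw [v.ord_mul (mul_ne_zero ht1 ht2) hH0, v.ord_mul ht1 ht2, h1, h2, hH]
  norm_num

/-- (R13), cusp: `H_j / j̄ⁿ` is a unit at `v` if `ord_v H_j = n · ord_v j̄`. -/
theorem S36OI_unit_cusp (v : Place K F) {x H : F} (n : ℕ) (hx0 : x ≠ 0) (hH0 : H ≠ 0)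
    (hH : v.ord H = (n : ℤ) * v.ord x) : v.ord (H / x ^ n) = 0 := by
  have hw := Fermat.Agent.S24.S24_isVal_ord (K := K) v
  rw [div_eq_mul_inv, v.ord_mul hH0 (inv_ne_zero (pow_ne_zero _ hx0)), v.ord_inv,
    hw.pow hx0, hH]
  ring

end units

end Fermat.Agent.S36
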