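import Fermat.Agent.S36.OrdLowerReg
import Fermat.Agent.S36.OrdInst

/-!
# TRACK 10 (S36), package C2.4 = ORD-LOWER (helper16), part 7: the order of `H_τ` everywhere

The three inputs of helper24's (R13)-INST (`S36/OrdUnit.lean`):

* `S36OL_poles_B` (in `OrdLowerReg.lean`) and `S36OL_TU_B` : the charts `{B ≠ ∞}` (`B = j(qz)`) and
  `{j ≠ ∞}` of `X₀(M q²)` have the same places;
* `S36OL_x₂_reg` : `x₂ = j̄(t^q)` regular at `P` ⇒ `j̄` regular at `P`;
* `S36OL_H_main` : **`ord_v H_τ = 0` at the ordinary places, `= -2` at the supersingular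
  places**, for EVERY local coordinate `τ` (`S36OI_main` of helper22 fed with
  `S36OL_hord_fin`, `S36OL_hss_fin`); inputs: `ν₂(M) = ν₃(M) = 0`, helper3's `S36SS_Data`, FIN-INST
  (`R : S36LJ_Red` on the chart `U`) and (R11a) on `FV` at the ordinary places.
-/

set_option autoImplicit false
set_option synthInstance.maxHeartbeats 400000
set_option maxHeartbeats 1000000
set_option linter.style.haveILetI false
set_option linter.unusedSectionVars false

open HahnSeries IntermediateField AlgebraicCurve ModularCurve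

noncomputable section

namespace Fermat.Agent.S36

open Fermat.Agent.S18 Fermat.Agent.S24 Fermat.Agent.S34 Fermat.Agent.GalRep Fermat.Agent.Lib
  Fermat.Agent.S17 Fermat.Agent.S19

local notation "ℚbar" => AlgebraicClosure ℚ

variable (M q : ℕ) [NeZero M] [NeZero q] (hq : q.Prime) (hqM : ¬ q ∣ M)
  (A : ValuationSubring ℚbar)
  (ζ : ℚbarˣ) (hζ : ζ ^ q = 1) (hζ1 : ζ ≠ 1)

/-- the regular points of `j(z)` are regular points of `B = j(qz)`. -/
theorem S36OL_TU_B (Q : Place ℚbar ↥(modularFunctionFieldBar (M * q * q)))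
    (hQ : 0 ≤ Q.ord (jB (M * q * q))) :
    Q ∈ S34IX_TU (K := ℚbar) (jBar (M * q * q) q (S36CO_q_dvd M q)) :=
  S34SX_reg_jBar (M * q * q) Q hQ q (S36CO_q_dvd M q)

include hq in
/-- `x₂ = j̄(t^q)` regular at `P` ⇒ `j̄` regular at `P`. -/
theorem S36OL_x₂_reg (hA : A.LiesOverPrime q)
    (x₂ : ↥(modularFunctionFieldFullC (IsLocalRing.ResidueField A) M))
    (hx₂ : (x₂ : LaurentSeries (IsLocalRing.ResidueField A)) =
      jqNModC (IsLocalRing.ResidueField A) q)
    (P : Place (IsLocalRing.ResidueField A)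
      ↥(modularFunctionFieldFullC (IsLocalRing.ResidueField A) M))
    (hP : P.adicValuation x₂ ≤ 1) : 0 ≤ P.ord (S18_jbar M (IsLocalRing.ResidueField A)) := by
  haveI : Fact q.Prime := ⟨hq⟩
  haveI : CharP (IsLocalRing.ResidueField A) q := S18_residue_charP A q hq hA
  have e : x₂ = S18_jbar M (IsLocalRing.ResidueField A) ^ q := by
    apply Subtype.ext
    rw [hx₂]
    show _ = (jqModC (IsLocalRing.ResidueField A)) ^ q
    have h1 := S34VH_jq_pow (IsLocalRing.ResidueField A) q 1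
    rw [jqNModC_one] at h1
    rw [h1]
    rfl
  rcases P.adicValuation_le_one_iff.1 hP with h0 | h0
  · have hj0 : S18_jbar M (IsLocalRing.ResidueField A) = 0 := by
      rw [e] at h0
      exact pow_eq_zero_iff (NeZero.ne q) |>.1 h0
    rw [hj0, Place.ord_zero]
  · rw [e, ← zpow_natCast, P.ord_zpow] at h0
    have hq0 : (0 : ℤ) < (q : ℤ) := by exact_mod_cast hq.pos
    by_contra hcon
    push Not at hcon
    have : (q : ℤ) * P.ord (S18_jbar M (IsLocalRing.ResidueField A)) < 0 :=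
      mul_neg_of_pos_of_neg hq0 hcon
    omega

/-- a regular function with non-zero value at `v` is a unit at `v`. -/
theorem S36OL_unit_of_c0 {k F : Type*} [Field k] [Field F] [Algebra k F] (v : Place k F)
    {f : F} (hf : v.adicValuation f ≤ 1) (h0 : FD_c0 v f ≠ 0) : f ≠ 0 ∧ v.ord f = 0 := by
  have hne : ¬ v.adicValuation f < 1 := by
    intro hlt
    apply h0
    exact FD_c0_unique v (by rwa [map_zero, sub_zero])
  have hf0 : f ≠ 0 := by
    rintro rfl
    apply hne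
    rw [map_zero]
    exact zero_lt_one
  refine ⟨hf0, ?_⟩
  have h1 := (v.adicValuation_le_one_iff.1 hf).resolve_left hf0
  by_contra hcon
  apply hne
  rw [FD_val_lt_one_iff, v.adicValuation_le_exp_iff]
  right
  have : 0 < v.ord f := lt_of_le_of_ne h1 (Ne.symm hcon)
  omega

/-- **the order of `H_τ = -(θ τ)^(q-1)` at every non-cuspidal place of `κ`, for every local
coordinate `τ`**: `0` at the ordinary places, `-2` at the supersingular places. -/
theorem S36OL_H_main [NeZero (M * q)] (hA : A.LiesOverPrime q)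
    (hν₂ : nuTwo M = 0) (hν₃ : nuThree M = 0)
    {hgen : PrincipalGeneratedByIntegral A (IsLocalRing.residue A) (M * q)}
    {n' : ℕ} {hn' : 0 < n'} (D : S36SS_Data M q hq hqM A hgen n' hn')
    (j : ↥(S36FI_act (M * q * q) (A.inertiaSubgroupIn ℚ)).fixF)
    (hj : ∀ P : Place ℚbar ↥(modularFunctionFieldBar (M * q * q)),
      0 ≤ P.ord (j : ↥(modularFunctionFieldBar (M * q * q))) → 0 ≤ P.ord (jB (M * q * q)))
    (x₁ x₂ x₃ : ↥(S36FI_kappa M A)) (n : ℕ) (hn : 0 < n)
    (R : S36LJ_Red (S₁ := S36FI_SFF M q hq hqM A hA)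
      (S₂ := S36FI_SFV M q hq hqM A hA ζ hζ hζ1) (S₃ := S36FI_SVV M q hq hqM A hA)
      (S36CU_U (S36FI_act (M * q * q) (A.inertiaSubgroupIn ℚ)) (IsLocalRing.ResidueField A)
        j x₁ x₂ x₃ n hn))
    (hx₂ : ∀ v : Place (IsLocalRing.ResidueField A)
        ↥(modularFunctionFieldFullC (IsLocalRing.ResidueField A) M),
      0 ≤ v.ord (S18_jbar M (IsLocalRing.ResidueField A)) →
      0 ≤ v.ord (x₂ : ↥(modularFunctionFieldFullC (IsLocalRing.ResidueField A) M)))
    (hg : ∀ v : Place (IsLocalRing.ResidueField A)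
        ↥(modularFunctionFieldFullC (IsLocalRing.ResidueField A) M),
      0 ≤ v.ord (S18_jbar M (IsLocalRing.ResidueField A)) → v ∉ D.SS →
      ∃ (g : ↥(S36FI_act (M * q * q) (A.inertiaSubgroupIn ℚ)).fixF)
        (h₁ : g ∈ (S36FI_SFF M q hq hqM A hA).O)
        (h₂ : g ∈ (S36FI_SFV M q hq hqM A hA ζ hζ hζ1).O)
        (h₃ : g ∈ (S36FI_SVV M q hq hqM A hA).O),
        (∀ Q : Place ℚbar ↥(modularFunctionFieldBar (M * q * q)), 0 ≤ Q.ord (jB (M * q * q)) →
          (g : ↥(modularFunctionFieldBar (M * q * q))) ∈ Q.toValuationSubring) ∧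
        (S36FI_SFF M q hq hqM A hA).red ⟨g, h₁⟩ = 0 ∧
        (S36FI_SVV M q hq hqM A hA).red ⟨g, h₃⟩ = 0 ∧
        FD_c0 v (((S36FI_SFV M q hq hqM A hA ζ hζ hζ1).red ⟨g, h₂⟩ : ↥(S36FI_kappa M A)) :
          ↥(modularFunctionFieldFullC (IsLocalRing.ResidueField A) M)) ≠ 0) :
    ∀ v : Place (IsLocalRing.ResidueField A)
        ↥(modularFunctionFieldFullC (IsLocalRing.ResidueField A) M),
      0 ≤ v.ord (S18_jbar M (IsLocalRing.ResidueField A)) →
      ∀ (τ Hτ : ↥(modularFunctionFieldFullC (IsLocalRing.ResidueField A) M))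
        (c : IsLocalRing.ResidueField A),
        v.ord (τ - algebraMap (IsLocalRing.ResidueField A)
          ↥(modularFunctionFieldFullC (IsLocalRing.ResidueField A) M) c) = 1 →
        (Hτ : LaurentSeries (IsLocalRing.ResidueField A)) =
          -(LT_theta (τ : LaurentSeries (IsLocalRing.ResidueField A))) ^ (q - 1) →
        (v ∉ D.SS → v.ord Hτ = 0) ∧ (v ∈ D.SS → v.ord Hτ = -2) := by
  refine (S36OI_main M A hq hA hqM hν₂ hν₃ D.SS D.SS_reg D.hs.le ?_ ?_).1
  · intro v hv hs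
    obtain ⟨g, h₁, h₂, h₃, hgreg, hg1, hg3, hg2⟩ := hg v hv hs
    have hgB : (g : ↥(modularFunctionFieldBar (M * q * q))) ∈ S36OL_B M q A :=
      (S36OL_mem_B M q A).2 ⟨g.2, hgreg⟩
    have hFF0 : S36V_Gred A (S36V_emFF M q) ⟨(g : ↥(modularFunctionFieldBar (M * q * q))), h₁⟩ =
        0 := by
      rw [← S36FI_SFF_red M q hq hqM A hA g h₁, hg1]
      rfl
    have hVV0 : S36V_Gred A (S36V_emVV M q hq hqM)
        ⟨(g : ↥(modularFunctionFieldBar (M * q * q))), h₃⟩ = 0 := by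
      rw [← S36FI_SVV_red M q hq hqM A hA g h₃, hg3]
      rfl
    have heg := S36FI_SFV_red M q hq hqM A hA ζ hζ hζ1 g h₂
    obtain ⟨e, he, hev⟩ := S36OL_hreg_of_Red M q hq hqM A ζ hζ hζ1 hA j hj x₁ x₂ x₃ n hn R v
      (hx₂ v hv) (g : ↥(modularFunctionFieldBar (M * q * q))) hgB h₁ h₃ h₂
    have hee : e = (S36FI_SFV M q hq hqM A hA ζ hζ hζ1).red ⟨g, h₂⟩ :=
      Subtype.ext (he.trans heg.symm)
    have hreg2 : v.adicValuation
        (((S36FI_SFV M q hq hqM A hA ζ hζ hζ1).red ⟨g, h₂⟩ : ↥(S36FI_kappa M A)) :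
          ↥(modularFunctionFieldFullC (IsLocalRing.ResidueField A) M)) ≤ 1 := by
      rw [← hee]
      exact v.adicValuation_le_one_iff.2 (Or.inr hev)
    obtain ⟨heg0, hegv⟩ := S36OL_unit_of_c0 v hreg2 hg2
    exact S36OL_hord_fin M q hq hqM A ζ hζ hζ1 hA j hj x₁ x₂ x₃ n hn R v hv (hx₂ v hv)
      (g : ↥(modularFunctionFieldBar (M * q * q))) hgB h₁ hFF0 h₃ hVV0 h₂ _ heg heg0 hegv
  · intro v hv
    exact S36OL_hss_fin M q hq hqM A ζ hζ hζ1 hA D j hj x₁ x₂ x₃ n hn R v hv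
      (hx₂ v (D.SS_reg v hv))

end Fermat.Agent.S36
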