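import Fermat.Agent.S36.Triv3Ss
import Fermat.Agent.S36.Cart3Wire
import Fermat.Agent.Lib.DescRat

/-!
# TRACK 10 (S36), C3.4 TRIV-CONC part 3 (helper11): the bundles from the conductor

Ruling D11: at a closed point `P` of ONE component which is not a triple point, the inputs
`hlift` (C2) and `hR11a` (hnot) of helper5's `S36CW_bundle₁/₂/₃` follow from the CONDUCTOR
statements `hint_j` (R11b'): take `g ∈ Rb_j` vanishing at all triple points with `g(P) ≠ 0`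
(`S36N3_exists_ne`); then `(a g · g, 0, 0) ∈ W¹` is a lift of `a · ε`, `ε = g²` a unit at `P`.

* `S36TX_ord_eq_zero` : `f` regular at `P` with `f(P) ≠ 0` has `ord_P f = 0`;
* `S36TX_lift₁/₂/₃`   : `hlift` of `S36CW_bundle_j` from `hint_j` (any chart, any point `P` whose
  evaluation differs from the evaluations `Z y` at the triple points);
* `S36TX_R11a₁/₂/₃`   : `hR11a` of `S36CW_bundle_j` from `hint_j`;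
* `S36TX_ev_ne`       : the evaluation at `P ≠ P'` differs from the evaluation at `P'`;
* `S36TX_hord₁`, `S36TX_hord₃` : **the bundles at the ordinary points of `FF`, `VV`**
  (`hord₁`, `hord₃` of `S36TX_geo_U_ss`) from `hint₁` / `hint₃` and `q` a uniformiser;
* `S36TX_hord₂` : **the bundles at the ordinary points of `FV`** from `hint₂` and (R13 ord);
* `S36TX_hss`   : **the bundles at the triple points** from `hW1`, the lifts at the triple points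
  and (R13 ss).
-/

set_option autoImplicit false
set_option linter.unusedSectionVars false
set_option linter.style.haveILetI false

open AlgebraicCurve IntermediateField

namespace Fermat.Agent.S36

open Fermat.Agent.Lib Fermat.Agent.S18 Fermat.Agent.S24 Fermat.Agent.S34

universe w

section place

variable {k κ : Type*} [Field k] [Field κ] [Algebra k κ]

/-- a function regular at `P` which does not vanish at `P` has order `0`. -/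
theorem S36TX_ord_eq_zero (P : Place k κ) (hdeg : P.deg = 1) {f : κ}
    (hf : P.adicValuation f ≤ 1) (hne : FD_c0 P f ≠ 0) : f ≠ 0 ∧ P.ord f = 0 := by
  have h1 : ¬ P.adicValuation f < 1 := fun h => hne ((FD_c0_eq_zero_iff P hdeg hf).2 h)
  have h2 : P.adicValuation f = 1 := le_antisymm hf (not_lt.1 h1)
  have h0 : f ≠ 0 := by
    rintro rfl
    rw [map_zero] at h2
    exact zero_ne_one h2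
  exact ⟨h0, (DSC_val_eq_one_iff P h0).1 h2⟩

end place

variable {L K k : Type*} {Fk₁ Fk₂ Fk₃ : Type w} [Field L] [Field K] [Algebra L K] [Field k]
  [Field Fk₁] [Field Fk₂] [Field Fk₃] [Algebra k Fk₁] [Algebra k Fk₂] [Algebra k Fk₃]
  {S₁ : S18_Val L K k Fk₁} {S₂ : S18_Val L K k Fk₂} {S₃ : S18_Val L K k Fk₃}
  (hS : S36L3_Same S₁ S₂ S₃) {n : ℕ} {C : S36L3_Chart L K k Fk₁ Fk₂ Fk₃ n}
  {Ω F : Type*} [Field Ω] [Field F] [Algebra Ω F] {ιv : Type*} (D : S36IT_Fam Ω F K ιv)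

/-! ### lifts of elements of `W¹` to the lattice -/

/-- an element of `W¹` is the reduction of an element of the lattice. -/
theorem S36TX_lift_W (hge : S36LJ_Lam S₁ S₂ S₃ C.B.toSubring ≤ D.Λ)
    (hle : D.Λ ≤ S36LJ_Lam S₁ S₂ S₃ C.B.toSubring)
    {m : ↥C.Rb₁ × ↥C.Rb₂ × ↥C.Rb₃} (hm : m ∈ S36L3_W hS C 1) :
    ∃ f : D.Λ, S36CA_compRed S₁ D (S36CW_mem₁ D hle) f = (m.1 : Fk₁) ∧
      S36CA_compRed S₂ D (S36CW_mem₂ D hle) f = (m.2.1 : Fk₂) ∧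
      S36CA_compRed S₃ D (S36CW_mem₃ D hle) f = (m.2.2 : Fk₃) := by
  rw [S36L3_mem_W] at hm
  obtain ⟨f, hfB, hfr⟩ := hm
  rw [mul_one] at hfB
  have hfB' : (f : K) ∈ C.B := C.root _ hfB
  have hfL : (f : K) ∈ S36LJ_Lam S₁ S₂ S₃ C.B.toSubring := ⟨f.2, hfB'⟩
  refine ⟨⟨f, hge hfL⟩, ?_, ?_, ?_⟩
  · exact congrArg Prod.fst hfr
  · exact congrArg (fun z => z.2.1) hfr
  · exact congrArg (fun z => z.2.2) hfr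

section lifts

variable {ι : Type*} [Finite ι]

/-- **`hlift` on `FF` from the conductor** (D11). -/
theorem S36TX_lift₁ (hge : S36LJ_Lam S₁ S₂ S₃ C.B.toSubring ≤ D.Λ)
    (hle : D.Λ ≤ S36LJ_Lam S₁ S₂ S₃ C.B.toSubring)
    (Z : ι → ↥C.Rb₁ →ₐ[k] k)
    (hint₁ : ∀ g g' : ↥C.Rb₁, (∀ y, Z y g = 0) → (∀ y, Z y g' = 0) →
      ((g * g', 0, 0) : ↥C.Rb₁ × ↥C.Rb₂ × ↥C.Rb₃) ∈ S36L3_W hS C 1)
    (P : Place k Fk₁) (hdeg : P.deg = 1) (hP : ∀ f ∈ C.Rb₁, P.adicValuation f ≤ 1)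
    (hne : ∀ y, S36SE_ev C.Rb₁ P hdeg hP ≠ Z y)
    (T : Set (Place k Fk₁))
    (hT : ∀ a : Fk₁, (∀ Q : Place k Fk₁, Q ∉ T → 0 ≤ Q.ord a) → a ∈ C.Rb₁) :
    ∀ a₁ a₂ : Fk₁, (∀ Q : Place k Fk₁, Q ∉ T → 0 ≤ Q.ord a₁) →
      (∀ Q : Place k Fk₁, Q ∉ T → 0 ≤ Q.ord a₂) →
      ∃ (ε : Fk₁) (f₁ f₂ : D.Λ), ε ≠ 0 ∧ P.ord ε = 0 ∧
        S36CA_compRed S₁ D (S36CW_mem₁ D hle) f₁ = a₁ * ε ∧
        S36CA_compRed S₁ D (S36CW_mem₁ D hle) f₂ = a₂ * ε := by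
  intro a₁ a₂ h1 h2
  obtain ⟨g, hg0, hgP⟩ := S36N3_exists_ne Z (S36SE_ev C.Rb₁ P hdeg hP) hne
  have hgg : S36SE_ev C.Rb₁ P hdeg hP (g * g) ≠ 0 := by
    rw [map_mul]
    exact mul_ne_zero hgP hgP
  obtain ⟨hε0, hεP⟩ := S36TX_ord_eq_zero P hdeg (hP _ (g * g).2) hgg
  have key : ∀ a : Fk₁, (∀ Q : Place k Fk₁, Q ∉ T → 0 ≤ Q.ord a) →
      ∃ f : D.Λ, S36CA_compRed S₁ D (S36CW_mem₁ D hle) f = a * ((g * g : ↥C.Rb₁) : Fk₁) := by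
    intro a ha
    have hm := hint₁ (⟨a, hT a ha⟩ * g) g (fun y => by rw [map_mul, hg0 y, mul_zero]) hg0
    obtain ⟨f, hf1, -, -⟩ := S36TX_lift_W hS D hge hle hm
    refine ⟨f, ?_⟩
    rw [hf1]
    push_cast
    ring
  obtain ⟨f₁, hf₁⟩ := key a₁ h1
  obtain ⟨f₂, hf₂⟩ := key a₂ h2
  exact ⟨_, f₁, f₂, hε0, hεP, hf₁, hf₂⟩

/-- **`hlift` on `FV` from the conductor** (D11). -/
theorem S36TX_lift₂ (hge : S36LJ_Lam S₁ S₂ S₃ C.B.toSubring ≤ D.Λ)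
    (hle : D.Λ ≤ S36LJ_Lam S₁ S₂ S₃ C.B.toSubring)
    (Z : ι → ↥C.Rb₂ →ₐ[k] k)
    (hint₂ : ∀ g g' : ↥C.Rb₂, (∀ y, Z y g = 0) → (∀ y, Z y g' = 0) →
      ((0, g * g', 0) : ↥C.Rb₁ × ↥C.Rb₂ × ↥C.Rb₃) ∈ S36L3_W hS C 1)
    (P : Place k Fk₂) (hdeg : P.deg = 1) (hP : ∀ f ∈ C.Rb₂, P.adicValuation f ≤ 1)
    (hne : ∀ y, S36SE_ev C.Rb₂ P hdeg hP ≠ Z y)
    (T : Set (Place k Fk₂))
    (hT : ∀ a : Fk₂, (∀ Q : Place k Fk₂, Q ∉ T → 0 ≤ Q.ord a) → a ∈ C.Rb₂) :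
    ∀ a₁ a₂ : Fk₂, (∀ Q : Place k Fk₂, Q ∉ T → 0 ≤ Q.ord a₁) →
      (∀ Q : Place k Fk₂, Q ∉ T → 0 ≤ Q.ord a₂) →
      ∃ (ε : Fk₂) (f₁ f₂ : D.Λ), ε ≠ 0 ∧ P.ord ε = 0 ∧
        S36CA_compRed S₂ D (S36CW_mem₂ D hle) f₁ = a₁ * ε ∧
        S36CA_compRed S₂ D (S36CW_mem₂ D hle) f₂ = a₂ * ε := by
  intro a₁ a₂ h1 h2
  obtain ⟨g, hg0, hgP⟩ := S36N3_exists_ne Z (S36SE_ev C.Rb₂ P hdeg hP) hne
  have hgg : S36SE_ev C.Rb₂ P hdeg hP (g * g) ≠ 0 := by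
    rw [map_mul]
    exact mul_ne_zero hgP hgP
  obtain ⟨hε0, hεP⟩ := S36TX_ord_eq_zero P hdeg (hP _ (g * g).2) hgg
  have key : ∀ a : Fk₂, (∀ Q : Place k Fk₂, Q ∉ T → 0 ≤ Q.ord a) →
      ∃ f : D.Λ, S36CA_compRed S₂ D (S36CW_mem₂ D hle) f = a * ((g * g : ↥C.Rb₂) : Fk₂) := by
    intro a ha
    have hm := hint₂ (⟨a, hT a ha⟩ * g) g (fun y => by rw [map_mul, hg0 y, mul_zero]) hg0
    obtain ⟨f, -, hf2, -⟩ := S36TX_lift_W hS D hge hle hm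
    refine ⟨f, ?_⟩
    rw [hf2]
    push_cast
    ring
  obtain ⟨f₁, hf₁⟩ := key a₁ h1
  obtain ⟨f₂, hf₂⟩ := key a₂ h2
  exact ⟨_, f₁, f₂, hε0, hεP, hf₁, hf₂⟩

/-- **`hlift` on `VV` from the conductor** (D11). -/
theorem S36TX_lift₃ (hge : S36LJ_Lam S₁ S₂ S₃ C.B.toSubring ≤ D.Λ)
    (hle : D.Λ ≤ S36LJ_Lam S₁ S₂ S₃ C.B.toSubring)
    (Z : ι → ↥C.Rb₃ →ₐ[k] k)
    (hint₃ : ∀ g g' : ↥C.Rb₃, (∀ y, Z y g = 0) → (∀ y, Z y g' = 0) →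
      ((0, 0, g * g') : ↥C.Rb₁ × ↥C.Rb₂ × ↥C.Rb₃) ∈ S36L3_W hS C 1)
    (P : Place k Fk₃) (hdeg : P.deg = 1) (hP : ∀ f ∈ C.Rb₃, P.adicValuation f ≤ 1)
    (hne : ∀ y, S36SE_ev C.Rb₃ P hdeg hP ≠ Z y)
    (T : Set (Place k Fk₃))
    (hT : ∀ a : Fk₃, (∀ Q : Place k Fk₃, Q ∉ T → 0 ≤ Q.ord a) → a ∈ C.Rb₃) :
    ∀ a₁ a₂ : Fk₃, (∀ Q : Place k Fk₃, Q ∉ T → 0 ≤ Q.ord a₁) →
      (∀ Q : Place k Fk₃, Q ∉ T → 0 ≤ Q.ord a₂) →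
      ∃ (ε : Fk₃) (f₁ f₂ : D.Λ), ε ≠ 0 ∧ P.ord ε = 0 ∧
        S36CA_compRed S₃ D (S36CW_mem₃ D hle) f₁ = a₁ * ε ∧
        S36CA_compRed S₃ D (S36CW_mem₃ D hle) f₂ = a₂ * ε := by
  intro a₁ a₂ h1 h2
  obtain ⟨g, hg0, hgP⟩ := S36N3_exists_ne Z (S36SE_ev C.Rb₃ P hdeg hP) hne
  have hgg : S36SE_ev C.Rb₃ P hdeg hP (g * g) ≠ 0 := by
    rw [map_mul]
    exact mul_ne_zero hgP hgP
  obtain ⟨hε0, hεP⟩ := S36TX_ord_eq_zero P hdeg (hP _ (g * g).2) hgg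
  have key : ∀ a : Fk₃, (∀ Q : Place k Fk₃, Q ∉ T → 0 ≤ Q.ord a) →
      ∃ f : D.Λ, S36CA_compRed S₃ D (S36CW_mem₃ D hle) f = a * ((g * g : ↥C.Rb₃) : Fk₃) := by
    intro a ha
    have hm := hint₃ (⟨a, hT a ha⟩ * g) g (fun y => by rw [map_mul, hg0 y, mul_zero]) hg0
    obtain ⟨f, -, -, hf3⟩ := S36TX_lift_W hS D hge hle hm
    refine ⟨f, ?_⟩
    rw [hf3]
    push_cast
    ring
  obtain ⟨f₁, hf₁⟩ := key a₁ h1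
  obtain ⟨f₂, hf₂⟩ := key a₂ h2
  exact ⟨_, f₁, f₂, hε0, hεP, hf₁, hf₂⟩

/-- **(R11a) on `FF` from the conductor.** -/
theorem S36TX_R11a₁ (Z : ι → ↥C.Rb₁ →ₐ[k] k)
    (hint₁ : ∀ g g' : ↥C.Rb₁, (∀ y, Z y g = 0) → (∀ y, Z y g' = 0) →
      ((g * g', 0, 0) : ↥C.Rb₁ × ↥C.Rb₂ × ↥C.Rb₃) ∈ S36L3_W hS C 1)
    (e : ↥C.Rb₁ →ₐ[k] k) (hne : ∀ y, e ≠ Z y) :
    ∃ g ∈ S36L3_W hS C 1, e g.1 ≠ 0 ∧ g.2.1 = 0 ∧ g.2.2 = 0 := by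
  obtain ⟨x, hx0, hxe⟩ := S36N3_exists_ne Z e hne
  refine ⟨(x * x, 0, 0), hint₁ x x hx0 hx0, ?_, rfl, rfl⟩
  show e (x * x) ≠ 0
  rw [map_mul]
  exact mul_ne_zero hxe hxe

/-- **(R11a) on `FV` from the conductor.** -/
theorem S36TX_R11a₂ (Z : ι → ↥C.Rb₂ →ₐ[k] k)
    (hint₂ : ∀ g g' : ↥C.Rb₂, (∀ y, Z y g = 0) → (∀ y, Z y g' = 0) →
      ((0, g * g', 0) : ↥C.Rb₁ × ↥C.Rb₂ × ↥C.Rb₃) ∈ S36L3_W hS C 1)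
    (e : ↥C.Rb₂ →ₐ[k] k) (hne : ∀ y, e ≠ Z y) :
    ∃ g ∈ S36L3_W hS C 1, e g.2.1 ≠ 0 ∧ g.1 = 0 ∧ g.2.2 = 0 := by
  obtain ⟨x, hx0, hxe⟩ := S36N3_exists_ne Z e hne
  refine ⟨(0, x * x, 0), hint₂ x x hx0 hx0, ?_, rfl, rfl⟩
  show e (x * x) ≠ 0
  rw [map_mul]
  exact mul_ne_zero hxe hxe

/-- **(R11a) on `VV` from the conductor.** -/
theorem S36TX_R11a₃ (Z : ι → ↥C.Rb₃ →ₐ[k] k)
    (hint₃ : ∀ g g' : ↥C.Rb₃, (∀ y, Z y g = 0) → (∀ y, Z y g' = 0) →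
      ((0, 0, g * g') : ↥C.Rb₁ × ↥C.Rb₂ × ↥C.Rb₃) ∈ S36L3_W hS C 1)
    (e : ↥C.Rb₃ →ₐ[k] k) (hne : ∀ y, e ≠ Z y) :
    ∃ g ∈ S36L3_W hS C 1, e g.2.2 ≠ 0 ∧ g.1 = 0 ∧ g.2.1 = 0 := by
  obtain ⟨x, hx0, hxe⟩ := S36N3_exists_ne Z e hne
  refine ⟨(0, 0, x * x), hint₃ x x hx0 hx0, ?_, rfl, rfl⟩
  show e (x * x) ≠ 0
  rw [map_mul]
  exact mul_ne_zero hxe hxe

end lifts

/-! ### the bundles at the points of the chart -/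

section bundles

variable {ι : Type*} [Finite ι] {X : S36SE_Pts k Fk₁ Fk₂ Fk₃ ι} {hC : S36SE_Reg C X}

/-- the evaluation at a place different from the triple points (on `FF`). -/
theorem S36TX_ev_ne₁ [Infinite k] (h₁ : RR_Hyp k Fk₁) (x₁ : Fk₁) (c₁ : Place k Fk₁)
    (hc₁ : c₁.ord x₁ < 0)
    (hR₁ : ∀ y : Fk₁, y ∈ C.Rb₁ ↔
      ∀ Q : Place k Fk₁, Q.adicValuation x₁ ≤ 1 → Q.adicValuation y ≤ 1)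
    (P : Place k Fk₁) (hP : ∀ f ∈ C.Rb₁, P.adicValuation f ≤ 1) (y : ι) (hne : P ≠ X.P₁ y) :
    S36SE_ev C.Rb₁ P (h₁.deg_one P) hP ≠ S36SE_e₁ C X hC y := by
  have hxR : x₁ ∈ C.Rb₁ := (hR₁ x₁).2 fun _ h => h
  exact S36SE_ev_ne h₁ x₁ c₁ hc₁ C.Rb₁ (fun f hf => (hR₁ f).2 hf) P (X.P₁ y) (hP x₁ hxR)
    (hC.reg₁ y x₁ hxR) hP (hC.reg₁ y) hne

/-- the evaluation at a place different from the triple points (on `FV`). -/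
theorem S36TX_ev_ne₂ [Infinite k] (h₂ : RR_Hyp k Fk₂) (x₂ : Fk₂) (c₂ : Place k Fk₂)
    (hc₂ : c₂.ord x₂ < 0)
    (hR₂ : ∀ y : Fk₂, y ∈ C.Rb₂ ↔
      ∀ Q : Place k Fk₂, Q.adicValuation x₂ ≤ 1 → Q.adicValuation y ≤ 1)
    (P : Place k Fk₂) (hP : ∀ f ∈ C.Rb₂, P.adicValuation f ≤ 1) (y : ι) (hne : P ≠ X.P₂ y) :
    S36SE_ev C.Rb₂ P (h₂.deg_one P) hP ≠ S36SE_e₂ C X hC y := by
  have hxR : x₂ ∈ C.Rb₂ := (hR₂ x₂).2 fun _ h => h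
  exact S36SE_ev_ne h₂ x₂ c₂ hc₂ C.Rb₂ (fun f hf => (hR₂ f).2 hf) P (X.P₂ y) (hP x₂ hxR)
    (hC.reg₂ y x₂ hxR) hP (hC.reg₂ y) hne

/-- the evaluation at a place different from the triple points (on `VV`). -/
theorem S36TX_ev_ne₃ [Infinite k] (h₃ : RR_Hyp k Fk₃) (x₃ : Fk₃) (c₃ : Place k Fk₃)
    (hc₃ : c₃.ord x₃ < 0)
    (hR₃ : ∀ y : Fk₃, y ∈ C.Rb₃ ↔
      ∀ Q : Place k Fk₃, Q.adicValuation x₃ ≤ 1 → Q.adicValuation y ≤ 1)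
    (P : Place k Fk₃) (hP : ∀ f ∈ C.Rb₃, P.adicValuation f ≤ 1) (y : ι) (hne : P ≠ X.P₃ y) :
    S36SE_ev C.Rb₃ P (h₃.deg_one P) hP ≠ S36SE_e₃ C X hC y := by
  have hxR : x₃ ∈ C.Rb₃ := (hR₃ x₃).2 fun _ h => h
  exact S36SE_ev_ne h₃ x₃ c₃ hc₃ C.Rb₃ (fun f hf => (hR₃ f).2 hf) P (X.P₃ y) (hP x₃ hxR)
    (hC.reg₃ y x₃ hxR) hP (hC.reg₃ y) hne

/-- the functions regular off the poles of `x` lie in the coordinate ring. -/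
theorem S36TX_hT {κ : Type*} [Field κ] [Algebra k κ] (Rb : Subalgebra k κ) (x : κ)
    (hR : ∀ y : κ, y ∈ Rb ↔ ∀ Q : Place k κ, Q.adicValuation x ≤ 1 → Q.adicValuation y ≤ 1)
    (a : κ) (ha : ∀ Q : Place k κ, Q ∉ {Q : Place k κ | ¬ Q.adicValuation x ≤ 1} → 0 ≤ Q.ord a) :
    a ∈ Rb :=
  (hR a).2 fun Q hQ => (Q.adicValuation_le_one_iff).2 (Or.inr (ha Q fun h => h hQ))

/-- **the bundle at an ordinary point of `FF`** (`hord₁` of `S36TX_geo_U_ss`). -/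
theorem S36TX_hord₁ [Finite ιv] [Infinite k] (h₁ : RR_Hyp k Fk₁)
    (hle : D.Λ ≤ S36LJ_Lam S₁ S₂ S₃ C.B.toSubring)
    (hge : S36LJ_Lam S₁ S₂ S₃ C.B.toSubring ≤ D.Λ)
    (R : S36LJ_Red (S₁ := S₁) (S₂ := S₂) (S₃ := S₃) C) {jFF jFV jVV : ιv}
    (hFF : D.Ov jFF = S₁.O) (hFV : D.Ov jFV = S₂.O) (hVV : D.Ov jVV = S₃.O)
    (hall : ∀ j : ιv, j = jFF ∨ j = jFV ∨ j = jVV)
    (x₁ : Fk₁) (c₁ : Place k Fk₁) (hc₁ : c₁.ord x₁ < 0)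
    (hR₁ : ∀ y : Fk₁, y ∈ C.Rb₁ ↔
      ∀ Q : Place k Fk₁, Q.adicValuation x₁ ≤ 1 → Q.adicValuation y ≤ 1)
    (hint₁ : ∀ g g' : ↥C.Rb₁, (∀ y, S36SE_e₁ C X hC y g = 0) →
      (∀ y, S36SE_e₁ C X hC y g' = 0) →
      ((g * g', 0, 0) : ↥C.Rb₁ × ↥C.Rb₂ × ↥C.Rb₃) ∈ S36L3_W hS C 1)
    (q : D.Λ) (c : Ω) (hc : c ≠ 0) (hqc : D.φ (q : K) = algebraMap Ω F c)
    (hunif : S36CA_IsUnif (D.Ov jFF) (q : K))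
    (P : Place k Fk₁) (hP : ∀ f ∈ C.Rb₁, P.adicValuation f ≤ 1) (hne : ∀ y, P ≠ X.P₁ y) :
    S36TX_Bun.{w} D
      (S36LK_y₁ D hle R ((S36SE_ev C.Rb₁ P (h₁.deg_one P) hP : ↥C.Rb₁ →ₐ[k] k) :
        ↥C.Rb₁ →+* k)) := by
  have hxR : x₁ ∈ C.Rb₁ := (hR₁ x₁).2 fun _ h => h
  have hc₀ : c₁ ∈ {Q : Place k Fk₁ | ¬ Q.adicValuation x₁ ≤ 1} :=
    (c₁.not_adicValuation_le_one_iff).2 hc₁
  have hPT : P ∉ {Q : Place k Fk₁ | ¬ Q.adicValuation x₁ ≤ 1} := fun h => h (hP x₁ hxR)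
  have hev : ∀ y, S36SE_ev C.Rb₁ P (h₁.deg_one P) hP ≠ S36SE_e₁ C X hC y := fun y =>
    S36TX_ev_ne₁ h₁ x₁ c₁ hc₁ hR₁ P hP y (hne y)
  obtain ⟨B, hVt, hVtv⟩ := S36CW_bundle₁ hS D hle R h₁ hge hFF hFV hVV hall
    ((S36SE_ev C.Rb₁ P (h₁.deg_one P) hP : ↥C.Rb₁ →ₐ[k] k) : ↥C.Rb₁ →+* k) P (fun _ => rfl)
    (fun r => hP _ r.2) {Q : Place k Fk₁ | ¬ Q.adicValuation x₁ ≤ 1} c₁ hc₀ hPT
    (S36TX_lift₁ hS D hge hle (S36SE_e₁ C X hC) hint₁ P (h₁.deg_one P) hP hev _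
      (S36TX_hT C.Rb₁ x₁ hR₁))
    (S36TX_R11a₁ hS (S36SE_e₁ C X hC) hint₁ _ hev) q c hc hqc hunif
  exact ⟨Fk₁, inferInstance, B, hVt, hVtv⟩

/-- **the bundle at an ordinary point of `VV`** (`hord₃` of `S36TX_geo_U_ss`). -/
theorem S36TX_hord₃ [Finite ιv] [Infinite k] (h₃ : RR_Hyp k Fk₃)
    (hle : D.Λ ≤ S36LJ_Lam S₁ S₂ S₃ C.B.toSubring)
    (hge : S36LJ_Lam S₁ S₂ S₃ C.B.toSubring ≤ D.Λ)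
    (R : S36LJ_Red (S₁ := S₁) (S₂ := S₂) (S₃ := S₃) C) {jFF jFV jVV : ιv}
    (hFF : D.Ov jFF = S₁.O) (hFV : D.Ov jFV = S₂.O) (hVV : D.Ov jVV = S₃.O)
    (hall : ∀ j : ιv, j = jFF ∨ j = jFV ∨ j = jVV)
    (x₃ : Fk₃) (c₃ : Place k Fk₃) (hc₃ : c₃.ord x₃ < 0)
    (hR₃ : ∀ y : Fk₃, y ∈ C.Rb₃ ↔
      ∀ Q : Place k Fk₃, Q.adicValuation x₃ ≤ 1 → Q.adicValuation y ≤ 1)
    (hint₃ : ∀ g g' : ↥C.Rb₃, (∀ y, S36SE_e₃ C X hC y g = 0) →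
      (∀ y, S36SE_e₃ C X hC y g' = 0) →
      ((0, 0, g * g') : ↥C.Rb₁ × ↥C.Rb₂ × ↥C.Rb₃) ∈ S36L3_W hS C 1)
    (q : D.Λ) (c : Ω) (hc : c ≠ 0) (hqc : D.φ (q : K) = algebraMap Ω F c)
    (hunif : S36CA_IsUnif (D.Ov jVV) (q : K))
    (P : Place k Fk₃) (hP : ∀ f ∈ C.Rb₃, P.adicValuation f ≤ 1) (hne : ∀ y, P ≠ X.P₃ y) :
    S36TX_Bun.{w} D
      (S36LK_y₃ D hle R ((S36SE_ev C.Rb₃ P (h₃.deg_one P) hP : ↥C.Rb₃ →ₐ[k] k) :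
        ↥C.Rb₃ →+* k)) := by
  have hxR : x₃ ∈ C.Rb₃ := (hR₃ x₃).2 fun _ h => h
  have hc₀ : c₃ ∈ {Q : Place k Fk₃ | ¬ Q.adicValuation x₃ ≤ 1} :=
    (c₃.not_adicValuation_le_one_iff).2 hc₃
  have hPT : P ∉ {Q : Place k Fk₃ | ¬ Q.adicValuation x₃ ≤ 1} := fun h => h (hP x₃ hxR)
  have hev : ∀ y, S36SE_ev C.Rb₃ P (h₃.deg_one P) hP ≠ S36SE_e₃ C X hC y := fun y =>
    S36TX_ev_ne₃ h₃ x₃ c₃ hc₃ hR₃ P hP y (hne y)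
  obtain ⟨B, hVt, hVtv⟩ := S36CW_bundle₃ hS D hle R h₃ hge hFF hFV hVV hall
    ((S36SE_ev C.Rb₃ P (h₃.deg_one P) hP : ↥C.Rb₃ →ₐ[k] k) : ↥C.Rb₃ →+* k) P (fun _ => rfl)
    (fun r => hP _ r.2) {Q : Place k Fk₃ | ¬ Q.adicValuation x₃ ≤ 1} c₃ hc₀ hPT
    (S36TX_lift₃ hS D hge hle (S36SE_e₃ C X hC) hint₃ P (h₃.deg_one P) hP hev _
      (S36TX_hT C.Rb₃ x₃ hR₃))
    (S36TX_R11a₃ hS (S36SE_e₃ C X hC) hint₃ _ hev) q c hc hqc hunif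
  exact ⟨Fk₃, inferInstance, B, hVt, hVtv⟩

/-- **the bundle at an ordinary point of `FV`** (`hord₂` of `S36TX_geo_U_ss`), from the
conductor and (R13 ord): `d = g ϖ^(m+1) / q ∈ Λ` with `y d ≠ 0`. -/
theorem S36TX_hord₂ [Finite ιv] [Infinite k] (h₂ : RR_Hyp k Fk₂)
    (hle : D.Λ ≤ S36LJ_Lam S₁ S₂ S₃ C.B.toSubring)
    (hge : S36LJ_Lam S₁ S₂ S₃ C.B.toSubring ≤ D.Λ)
    (R : S36LJ_Red (S₁ := S₁) (S₂ := S₂) (S₃ := S₃) C) {jFF jFV jVV : ιv}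
    (hFF : D.Ov jFF = S₁.O) (hFV : D.Ov jFV = S₂.O) (hVV : D.Ov jVV = S₃.O)
    (hall : ∀ j : ιv, j = jFF ∨ j = jFV ∨ j = jVV)
    (x₂ : Fk₂) (c₂ : Place k Fk₂) (hc₂ : c₂.ord x₂ < 0)
    (hR₂ : ∀ y : Fk₂, y ∈ C.Rb₂ ↔
      ∀ Q : Place k Fk₂, Q.adicValuation x₂ ≤ 1 → Q.adicValuation y ≤ 1)
    (hint₂ : ∀ g g' : ↥C.Rb₂, (∀ y, S36SE_e₂ C X hC y g = 0) →
      (∀ y, S36SE_e₂ C X hC y g' = 0) →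
      ((0, g * g', 0) : ↥C.Rb₁ × ↥C.Rb₂ × ↥C.Rb₃) ∈ S36L3_W hS C 1)
    (q : D.Λ) (c : Ω) (hc : c ≠ 0) (hqc : D.φ (q : K) = algebraMap Ω F c)
    (m : ℕ) (π : K) (hπ : S36CA_IsUnif (D.Ov jFV) π)
    (hπq : S36LW_IsU (D.Ov jFV) (π ^ (m + 1) / q))
    (P : Place k Fk₂) (hP : ∀ f ∈ C.Rb₂, P.adicValuation f ≤ 1) (hne : ∀ y, P ≠ X.P₂ y)
    (hR13 : ∃ ϖ g d : D.Λ, (d : K) = g * (ϖ : K) ^ (m + 1) / q ∧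
      S36LK_y₂ D hle R ((S36SE_ev C.Rb₂ P (h₂.deg_one P) hP : ↥C.Rb₂ →ₐ[k] k) :
        ↥C.Rb₂ →+* k) d ≠ 0 ∧ (ϖ : K) ^ (m + 1) / q ∈ D.Ov jFV) :
    S36TX_Bun.{w} D
      (S36LK_y₂ D hle R ((S36SE_ev C.Rb₂ P (h₂.deg_one P) hP : ↥C.Rb₂ →ₐ[k] k) :
        ↥C.Rb₂ →+* k)) := by
  have hxR : x₂ ∈ C.Rb₂ := (hR₂ x₂).2 fun _ h => h
  have hc₀ : c₂ ∈ {Q : Place k Fk₂ | ¬ Q.adicValuation x₂ ≤ 1} :=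
    (c₂.not_adicValuation_le_one_iff).2 hc₂
  have hPT : P ∉ {Q : Place k Fk₂ | ¬ Q.adicValuation x₂ ≤ 1} := fun h => h (hP x₂ hxR)
  have hev : ∀ y, S36SE_ev C.Rb₂ P (h₂.deg_one P) hP ≠ S36SE_e₂ C X hC y := fun y =>
    S36TX_ev_ne₂ h₂ x₂ c₂ hc₂ hR₂ P hP y (hne y)
  obtain ⟨ϖ, g, d, hdK, hd, hϖq⟩ := hR13
  obtain ⟨B, hVt, hVtv⟩ := S36CW_bundle₂ hS D hle R h₂ hge hFF hFV hVV hall
    ((S36SE_ev C.Rb₂ P (h₂.deg_one P) hP : ↥C.Rb₂ →ₐ[k] k) : ↥C.Rb₂ →+* k) P (fun _ => rfl)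
    (fun r => hP _ r.2) {Q : Place k Fk₂ | ¬ Q.adicValuation x₂ ≤ 1} c₂ hc₀ hPT
    (S36TX_lift₂ hS D hge hle (S36SE_e₂ C X hC) hint₂ P (h₂.deg_one P) hP hev _
      (S36TX_hT C.Rb₂ x₂ hR₂))
    (S36TX_R11a₂ hS (S36SE_e₂ C X hC) hint₂ _ hev) q c hc hqc ϖ g d m hdK hd hϖq π hπ hπq
  exact ⟨Fk₂, inferInstance, B, hVt, hVtv⟩

/-- **the bundle at a triple point** (`hss` of `S36TX_geo_U_ss`), from `hW1`, the lifts at the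
triple point on `VV` and (R13 ss): `ε = t₁ t₂ ϖ^(m+1) / q ∈ Λ` with `y ε ≠ 0`. -/
theorem S36TX_hss [Finite ιv] (h₁ : RR_Hyp k Fk₁) (h₂ : RR_Hyp k Fk₂) (h₃ : RR_Hyp k Fk₃)
    (hle : D.Λ ≤ S36LJ_Lam S₁ S₂ S₃ C.B.toSubring)
    (R : S36LJ_Red (S₁ := S₁) (S₂ := S₂) (S₃ := S₃) C) {jFF jFV jVV : ιv}
    (hFF : D.Ov jFF = S₁.O) (hFV : D.Ov jFV = S₂.O) (hVV : D.Ov jVV = S₃.O)
    (h12 : jFF ≠ jFV) (h13 : jFF ≠ jVV) (h23 : jFV ≠ jVV)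
    (hall : ∀ j : ιv, j = jFF ∨ j = jFV ∨ j = jVV)
    (hW1 : ∀ m ∈ S36L3_W hS C 1, ∀ y, S36SE_e₁ C X hC y m.1 = S36SE_e₂ C X hC y m.2.1 ∧
      S36SE_e₁ C X hC y m.1 = S36SE_e₃ C X hC y m.2.2)
    (x₃ : Fk₃) (c₃ : Place k Fk₃) (hc₃ : c₃.ord x₃ < 0)
    (hR₃ : ∀ y : Fk₃, y ∈ C.Rb₃ ↔
      ∀ Q : Place k Fk₃, Q.adicValuation x₃ ≤ 1 → Q.adicValuation y ≤ 1)
    (q : D.Λ) (c : Ω) (hc : c ≠ 0) (hqc : D.φ (q : K) = algebraMap Ω F c)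
    (hqFF : S36CA_IsUnif (D.Ov jFF) (q : K)) (hqVV : S36CA_IsUnif (D.Ov jVV) (q : K))
    (m : ℕ) (π : K) (hπ : S36CA_IsUnif (D.Ov jFV) π)
    (hπq : S36LW_IsU (D.Ov jFV) (π ^ (m + 1) / q))
    (y : ι)
    (hlift : ∀ a₁ a₂ : Fk₃,
      (∀ Q : Place k Fk₃, Q ∉ {Q : Place k Fk₃ | ¬ Q.adicValuation x₃ ≤ 1} → 0 ≤ Q.ord a₁) →
      (∀ Q : Place k Fk₃, Q ∉ {Q : Place k Fk₃ | ¬ Q.adicValuation x₃ ≤ 1} → 0 ≤ Q.ord a₂) →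
      ∃ (ε : Fk₃) (f₁ f₂ : D.Λ), ε ≠ 0 ∧ (X.P₃ y).ord ε = 0 ∧
        S36CA_compRed S₃ D (S36CW_mem₃ D hle) f₁ = a₁ * ε ∧
        S36CA_compRed S₃ D (S36CW_mem₃ D hle) f₂ = a₂ * ε)
    (hR13 : ∃ ϖ t₁ t₂ ε : D.Λ, (ε : K) = t₁ * t₂ * (ϖ : K) ^ (m + 1) / q ∧
      S36LK_y₁ D hle R ((S36SE_e₁ C X hC y : ↥C.Rb₁ →ₐ[k] k) : ↥C.Rb₁ →+* k) ε ≠ 0 ∧
      (t₁ : K) / q ∈ D.Ov jFF ∧ (t₂ : K) / q ∈ D.Ov jVV ∧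
      (ϖ : K) ^ (m + 1) / q ∈ D.Ov jFV) :
    S36TX_Bun.{w} D
      (S36LK_y₁ D hle R ((S36SE_e₁ C X hC y : ↥C.Rb₁ →ₐ[k] k) : ↥C.Rb₁ →+* k)) := by
  have hxR : x₃ ∈ C.Rb₃ := (hR₃ x₃).2 fun _ h => h
  have hc₀ : c₃ ∈ {Q : Place k Fk₃ | ¬ Q.adicValuation x₃ ≤ 1} :=
    (c₃.not_adicValuation_le_one_iff).2 hc₃
  have hPT : X.P₃ y ∉ {Q : Place k Fk₃ | ¬ Q.adicValuation x₃ ≤ 1} :=
    fun h => h (hC.reg₃ y x₃ hxR)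
  obtain ⟨ϖ, t₁, t₂, ε, hεK, hε, ht₁, ht₂, hϖ⟩ := hR13
  obtain ⟨B, hVt, hVtv⟩ := S36CW_bundle_ss hS D hle R h₁ h₂ h₃ hFF hFV hVV h12 h13 h23 hall
    ((S36SE_e₁ C X hC y : ↥C.Rb₁ →ₐ[k] k) : ↥C.Rb₁ →+* k)
    ((S36SE_e₂ C X hC y : ↥C.Rb₂ →ₐ[k] k) : ↥C.Rb₂ →+* k)
    ((S36SE_e₃ C X hC y : ↥C.Rb₃ →ₐ[k] k) : ↥C.Rb₃ →+* k)
    (fun m hm => hW1 m hm y) (X.P₁ y) (X.P₂ y) (X.P₃ y) (fun _ => rfl) (fun _ => rfl)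
    (fun _ => rfl) (fun r => hC.reg₃ y _ r.2) {Q : Place k Fk₃ | ¬ Q.adicValuation x₃ ≤ 1}
    c₃ hc₀ hPT hlift q c hc hqc ϖ t₁ t₂ ε m hεK hε ht₁ ht₂ hϖ hqFF hqVV π hπ hπq
  exact ⟨Fk₃, inferInstance, B, hVt, hVtv⟩

end bundles

end Fermat.Agent.S36
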