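import Fermat.Agent.S36.OrdUnit
import Fermat.Agent.S36.Triv3Bun

/-!
# TRACK 10 (S36), package (R13)-INST = ORD-UNIT (helper24), part 2: the hypotheses `hR13`,
# `hR13ss` of `S36TX_geo_fin` (helper11), prefix `S36OU_`

Setting: the concrete valuation data `S₁ S₂ S₃ = S36FI_SFF, S36FI_SFV ζ, S36FI_SVV` (helper1),
ANY chart `C` on them with points `X`, the family `D = S36IT_fam3 … dvr U` (helper17; so also
`S36IT_lat … U`), `hle`, `hge`, `R` (LI-INST / FIN), `w₂ = j̄`.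

* `S36OU_hR13`   : **`hR13` of `S36TX_geo_fin`** (= of `S36TX_hord₂`), from the conductor `hint₂`
  (which gives (R11a)) and the order of `H_τ` at the ordinary places (`S36OL_H_main`, helper16);
* `S36OU_hR13ss` : **`hR13ss` of `S36TX_geo_fin`** (= of `S36TX_hss`), from `hW1` and the order of
  `H_τ` at the supersingular places.

Inputs on the points: `hX : P ≠ X.P₂ y ∀ y ⇒ P ∉ SS` resp. `hXss : X.P₂ y ∈ SS`.
-/

set_option autoImplicit false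
set_option synthInstance.maxHeartbeats 400000
set_option maxHeartbeats 1000000
set_option linter.style.haveILetI false
set_option linter.unusedSectionVars false
set_option linter.unusedVariables false

open HahnSeries IntermediateField AlgebraicCurve ModularCurve

noncomputable section

namespace Fermat.Agent.S36

open Fermat.Agent.S18 Fermat.Agent.S24 Fermat.Agent.S34 Fermat.Agent.GalRep Fermat.Agent.Lib
  Fermat.Agent.S17 Fermat.Agent.S19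

local notation "ℚbar" => AlgebraicClosure ℚ

variable (M q : ℕ) [NeZero M] [NeZero q] (hq : q.Prime) (hqM : ¬ q ∣ M)
  (A : ValuationSubring ℚbar) (hA : A.LiesOverPrime q)
  (ζ : ℚbarˣ) (hζ : ζ ^ q = 1) (hζ1 : ζ ≠ 1)
  [NeZero (M * q)]
  (dvr : ∀ i, IsDiscreteValuationRing
    (S36FL_OL (S36FI_act (M * q * q) (A.inertiaSubgroupIn ℚ))
      (S36IT_Ov3 M q hq hqM A hA ζ hζ hζ1 i)))
  (U : Set (Place ℚbar ↥(modularFunctionFieldBar (M * q * q))))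
  {n : ℕ} {C : S36L3_Chart ↥(S36FI_act (M * q * q) (A.inertiaSubgroupIn ℚ)).fixK ↥(S36FI_act (M * q * q) (A.inertiaSubgroupIn ℚ)).fixF (IsLocalRing.ResidueField A) ↥(modularFunctionFieldFullC (IsLocalRing.ResidueField A) M) ↥(modularFunctionFieldFullC (IsLocalRing.ResidueField A) M) ↥(modularFunctionFieldFullC (IsLocalRing.ResidueField A) M) n}
  {ι : Type*} [Finite ι] {X : S36SE_Pts (IsLocalRing.ResidueField A) ↥(modularFunctionFieldFullC (IsLocalRing.ResidueField A) M) ↥(modularFunctionFieldFullC (IsLocalRing.ResidueField A) M) ↥(modularFunctionFieldFullC (IsLocalRing.ResidueField A) M) ι} {hC : S36SE_Reg C X}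

/-- **`hR13` of `S36TX_geo_fin`**: (R13) at the points of `FV` off the triple points. -/
theorem S36OU_hR13 (hU : ∀ Q ∈ U, 0 ≤ Q.ord (jB (M * q * q)))
    (h₂ : RR_Hyp (IsLocalRing.ResidueField A) ↥(modularFunctionFieldFullC (IsLocalRing.ResidueField A) M))
    (hle : (S36IT_fam3 M q hq hqM A hA ζ hζ hζ1 dvr U).Λ ≤ S36LJ_Lam (S36FI_SFF M q hq hqM A hA) (S36FI_SFV M q hq hqM A hA ζ hζ hζ1) (S36FI_SVV M q hq hqM A hA) C.B.toSubring)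
    (hge : S36LJ_Lam (S36FI_SFF M q hq hqM A hA) (S36FI_SFV M q hq hqM A hA ζ hζ hζ1) (S36FI_SVV M q hq hqM A hA) C.B.toSubring ≤ (S36IT_fam3 M q hq hqM A hA ζ hζ hζ1 dvr U).Λ)
    (R : S36LJ_Red (S₁ := (S36FI_SFF M q hq hqM A hA)) (S₂ := (S36FI_SFV M q hq hqM A hA ζ hζ hζ1)) (S₃ := (S36FI_SVV M q hq hqM A hA)) C)
    (c₂ : Place (IsLocalRing.ResidueField A) ↥(modularFunctionFieldFullC (IsLocalRing.ResidueField A) M)) (hc₂ : c₂.ord (S18_jbar M (IsLocalRing.ResidueField A)) < 0)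
    (hR₂ : ∀ y : ↥(modularFunctionFieldFullC (IsLocalRing.ResidueField A) M), y ∈ C.Rb₂ ↔
      ∀ Q : Place (IsLocalRing.ResidueField A) ↥(modularFunctionFieldFullC (IsLocalRing.ResidueField A) M), Q.adicValuation (S18_jbar M (IsLocalRing.ResidueField A)) ≤ 1 → Q.adicValuation y ≤ 1)
    (hint₂ : ∀ g g' : ↥C.Rb₂, (∀ y, S36SE_e₂ C X hC y g = 0) →
      (∀ y, S36SE_e₂ C X hC y g' = 0) →
      ((0, g * g', 0) : ↥C.Rb₁ × ↥C.Rb₂ × ↥C.Rb₃) ∈ S36L3_W (S36FI_same3 M q hq hqM A hA ζ hζ hζ1) C 1)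
    (qΛ : (S36IT_fam3 M q hq hqM A hA ζ hζ hζ1 dvr U).Λ) (hqΛ : (qΛ : ↥(S36FI_act (M * q * q) (A.inertiaSubgroupIn ℚ)).fixF) = ((q : ℕ) : ↥(S36FI_act (M * q * q) (A.inertiaSubgroupIn ℚ)).fixF))
    (hqFF : S36CA_IsUnif ((S36IT_fam3 M q hq hqM A hA ζ hζ hζ1 dvr U).Ov 0) (qΛ : ↥(S36FI_act (M * q * q) (A.inertiaSubgroupIn ℚ)).fixF))
    (hqVV : S36CA_IsUnif ((S36IT_fam3 M q hq hqM A hA ζ hζ hζ1 dvr U).Ov 2) (qΛ : ↥(S36FI_act (M * q * q) (A.inertiaSubgroupIn ℚ)).fixF))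
    (m : ℕ) (hm : m + 1 = q - 1)
    {hgen : PrincipalGeneratedByIntegral A (IsLocalRing.residue A) (M * q)}
    {n' : ℕ} {hn' : 0 < n'} (SSD : S36SS_Data M q hq hqM A hgen n' hn')
    (hX : ∀ P : Place (IsLocalRing.ResidueField A) ↥(modularFunctionFieldFullC (IsLocalRing.ResidueField A) M), (∀ y, P ≠ X.P₂ y) → P ∉ SSD.SS)
    (Hmain : ∀ v : Place (IsLocalRing.ResidueField A) ↥(modularFunctionFieldFullC (IsLocalRing.ResidueField A) M), 0 ≤ v.ord (S18_jbar M (IsLocalRing.ResidueField A)) →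
      ∀ (τ Hτ : ↥(modularFunctionFieldFullC (IsLocalRing.ResidueField A) M)) (c : (IsLocalRing.ResidueField A)), v.ord (τ - algebraMap (IsLocalRing.ResidueField A) ↥(modularFunctionFieldFullC (IsLocalRing.ResidueField A) M) c) = 1 →
        (Hτ : LaurentSeries (IsLocalRing.ResidueField A)) = -(LT_theta (τ : LaurentSeries (IsLocalRing.ResidueField A))) ^ (q - 1) →
        (v ∉ SSD.SS → v.ord Hτ = 0) ∧ (v ∈ SSD.SS → v.ord Hτ = -2)) :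
    ∀ (P : Place (IsLocalRing.ResidueField A) ↥(modularFunctionFieldFullC (IsLocalRing.ResidueField A) M)) (hP : ∀ f ∈ C.Rb₂, P.adicValuation f ≤ 1),
      (∀ y, P ≠ X.P₂ y) → ∃ ϖ g d : (S36IT_fam3 M q hq hqM A hA ζ hζ hζ1 dvr U).Λ,
        (d : ↥(S36FI_act (M * q * q) (A.inertiaSubgroupIn ℚ)).fixF) = g * (ϖ : ↥(S36FI_act (M * q * q) (A.inertiaSubgroupIn ℚ)).fixF) ^ (m + 1) / qΛ ∧
        S36LK_y₂ (S36IT_fam3 M q hq hqM A hA ζ hζ hζ1 dvr U) hle R ((S36SE_ev C.Rb₂ P (h₂.deg_one P) hP : ↥C.Rb₂ →ₐ[(IsLocalRing.ResidueField A)] (IsLocalRing.ResidueField A)) :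
          ↥C.Rb₂ →+* (IsLocalRing.ResidueField A)) d ≠ 0 ∧
        (ϖ : ↥(S36FI_act (M * q * q) (A.inertiaSubgroupIn ℚ)).fixF) ^ (m + 1) / qΛ ∈ (S36IT_fam3 M q hq hqM A hA ζ hζ hζ1 dvr U).Ov 1 := by
  classical
  intro P hP hne
  haveI : IsAlgClosed (IsLocalRing.ResidueField A) := S18_residue_isAlgClosed A
  have hjR : S18_jbar M (IsLocalRing.ResidueField A) ∈ C.Rb₂ := (hR₂ _).2 fun _ h => h
  have hv : 0 ≤ P.ord (S18_jbar M (IsLocalRing.ResidueField A)) := by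
    rcases (P.adicValuation_le_one_iff).1 (hP _ hjR) with h0 | h0
    · rw [h0, Place.ord_zero]
    · exact h0
  have hev : ∀ y, S36SE_ev C.Rb₂ P (h₂.deg_one P) hP ≠ S36SE_e₂ C X hC y := fun y =>
    S36TX_ev_ne₂ h₂ (S18_jbar M (IsLocalRing.ResidueField A)) c₂ hc₂ hR₂ P hP y (hne y)
  obtain ⟨g, hgW, hg2, hg1, hg3⟩ := S36TX_R11a₂ (S36FI_same3 M q hq hqM A hA ζ hζ hζ1) (S36SE_e₂ C X hC) hint₂ _ hev
  obtain ⟨f, e1, e2, e3⟩ := S36CW_exists_of_W (S36FI_same3 M q hq hqM A hA ζ hζ hζ1) (S36IT_fam3 M q hq hqM A hA ζ hζ hζ1 dvr U) hle hge g hgW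
  refine S36OU_ord M q hq hqM A hA ζ hζ hζ1 dvr U hU (S36CW_mem₁ (S36IT_fam3 M q hq hqM A hA ζ hζ hζ1 dvr U) hle) (S36CW_mem₂ (S36IT_fam3 M q hq hqM A hA ζ hζ hζ1 dvr U) hle)
    (S36CW_mem₃ (S36IT_fam3 M q hq hqM A hA ζ hζ hζ1 dvr U) hle) qΛ hqΛ hqFF hqVV m hm P hv
    (fun τ Hτ c h1 h2 => (Hmain P hv τ Hτ c h1 h2).1 (hX P hne))
    (fun f' => hP _ (R.red₂ f' (hle f'.2))) ⟨f, ?_, ?_, ?_⟩
  · exact e1.trans (by rw [hg1]; rfl)
  · exact e3.trans (by rw [hg3]; rfl)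
  · have : (S36FI_SFV M q hq hqM A hA ζ hζ hζ1).red ⟨f, S36CW_mem₂ (S36IT_fam3 M q hq hqM A hA ζ hζ hζ1 dvr U) hle f⟩ = (g.2.1 : ↥(modularFunctionFieldFullC (IsLocalRing.ResidueField A) M)) := e2
    rw [this]
    exact hg2

/-- **`hR13ss` of `S36TX_geo_fin`**: (R13) at the triple points. -/
theorem S36OU_hR13ss (hU : ∀ Q ∈ U, 0 ≤ Q.ord (jB (M * q * q)))
    (hle : (S36IT_fam3 M q hq hqM A hA ζ hζ hζ1 dvr U).Λ ≤ S36LJ_Lam (S36FI_SFF M q hq hqM A hA) (S36FI_SFV M q hq hqM A hA ζ hζ hζ1) (S36FI_SVV M q hq hqM A hA) C.B.toSubring)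
    (R : S36LJ_Red (S₁ := (S36FI_SFF M q hq hqM A hA)) (S₂ := (S36FI_SFV M q hq hqM A hA ζ hζ hζ1)) (S₃ := (S36FI_SVV M q hq hqM A hA)) C)
    (hW1 : ∀ m ∈ S36L3_W (S36FI_same3 M q hq hqM A hA ζ hζ hζ1) C 1, ∀ y, S36SE_e₁ C X hC y m.1 = S36SE_e₂ C X hC y m.2.1 ∧
      S36SE_e₁ C X hC y m.1 = S36SE_e₃ C X hC y m.2.2)
    (qΛ : (S36IT_fam3 M q hq hqM A hA ζ hζ hζ1 dvr U).Λ) (hqΛ : (qΛ : ↥(S36FI_act (M * q * q) (A.inertiaSubgroupIn ℚ)).fixF) = ((q : ℕ) : ↥(S36FI_act (M * q * q) (A.inertiaSubgroupIn ℚ)).fixF))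
    (m : ℕ) (hm : m + 1 = q - 1)
    {hgen : PrincipalGeneratedByIntegral A (IsLocalRing.residue A) (M * q)}
    {n' : ℕ} {hn' : 0 < n'} (SSD : S36SS_Data M q hq hqM A hgen n' hn')
    (hXss : ∀ y, X.P₂ y ∈ SSD.SS)
    (Hmain : ∀ v : Place (IsLocalRing.ResidueField A) ↥(modularFunctionFieldFullC (IsLocalRing.ResidueField A) M), 0 ≤ v.ord (S18_jbar M (IsLocalRing.ResidueField A)) →
      ∀ (τ Hτ : ↥(modularFunctionFieldFullC (IsLocalRing.ResidueField A) M)) (c : (IsLocalRing.ResidueField A)), v.ord (τ - algebraMap (IsLocalRing.ResidueField A) ↥(modularFunctionFieldFullC (IsLocalRing.ResidueField A) M) c) = 1 →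
        (Hτ : LaurentSeries (IsLocalRing.ResidueField A)) = -(LT_theta (τ : LaurentSeries (IsLocalRing.ResidueField A))) ^ (q - 1) →
        (v ∉ SSD.SS → v.ord Hτ = 0) ∧ (v ∈ SSD.SS → v.ord Hτ = -2)) :
    ∀ y : ι, ∃ ϖ t₁ t₂ ε : (S36IT_fam3 M q hq hqM A hA ζ hζ hζ1 dvr U).Λ,
      (ε : ↥(S36FI_act (M * q * q) (A.inertiaSubgroupIn ℚ)).fixF) = t₁ * t₂ * (ϖ : ↥(S36FI_act (M * q * q) (A.inertiaSubgroupIn ℚ)).fixF) ^ (m + 1) / qΛ ∧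
      S36LK_y₁ (S36IT_fam3 M q hq hqM A hA ζ hζ hζ1 dvr U) hle R ((S36SE_e₁ C X hC y : ↥C.Rb₁ →ₐ[(IsLocalRing.ResidueField A)] (IsLocalRing.ResidueField A)) : ↥C.Rb₁ →+* (IsLocalRing.ResidueField A)) ε ≠ 0 ∧
      (t₁ : ↥(S36FI_act (M * q * q) (A.inertiaSubgroupIn ℚ)).fixF) / qΛ ∈ (S36IT_fam3 M q hq hqM A hA ζ hζ hζ1 dvr U).Ov 0 ∧ (t₂ : ↥(S36FI_act (M * q * q) (A.inertiaSubgroupIn ℚ)).fixF) / qΛ ∈ (S36IT_fam3 M q hq hqM A hA ζ hζ hζ1 dvr U).Ov 2 ∧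
      (ϖ : ↥(S36FI_act (M * q * q) (A.inertiaSubgroupIn ℚ)).fixF) ^ (m + 1) / qΛ ∈ (S36IT_fam3 M q hq hqM A hA ζ hζ hζ1 dvr U).Ov 1 := by
  classical
  intro y
  have hP := hXss y
  refine S36OU_ss M q hq hqM A hA ζ hζ hζ1 dvr U hU (S36CW_mem₁ (S36IT_fam3 M q hq hqM A hA ζ hζ hζ1 dvr U) hle) (S36CW_mem₂ (S36IT_fam3 M q hq hqM A hA ζ hζ hζ1 dvr U) hle)
    qΛ hqΛ m hm SSD (X.P₂ y) hP
    (fun τ Hτ c h1 h2 => (Hmain (X.P₂ y) (SSD.SS_reg _ hP) τ Hτ c h1 h2).2 hP) (X.P₁ y) ?_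
  intro f
  exact (hW1 _ (S36LJ_red_mem_W_one (S36FI_same3 M q hq hqM A hA ζ hζ hζ1) R ⟨f, hle f.2⟩) y).1

end Fermat.Agent.S36
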