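import Fermat.Agent.S36.LocCore
import Fermat.Agent.S36.Nodal3Pkg
import Fermat.Agent.S36.Spec3Ev

/-!
# TRACK 10 (S36), C3.4 TRIV-INST (helper11): the two charts of the local core, assembled

`S36LC_hloc` (S36/LocCore.lean) asks for two `S36TL_Chart`s `T` (on `U`), `T'` (on `U'`) and the
evaluations on `U'' = U ∩ U'`.  This file builds them from the landed pieces:

* the evaluations are helper21's `S36SE_e₁/e₂/e₃ C X hC` at the points `X : S36SE_Pts` (C1.7);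
* `hW1` is asked on `U''` only (helper14, by norms) and restricted to `U`, `U'`
  (`S36TI_hW1_of_le`);
* the conductor `c` is `I_Z · I_Z` from the componentwise interpolation statements
  `hint₁ hint₂ hint₃` (NODAL3, `S36N3_Coord.hint_j`);
* `li`, `h₁ h₂ h₃` are the conclusions of helper19's `S36LK_li`, `S36LK_max₁/₂/₃` (C2.8).

## Results
* `S36TI_ofInt`   : a `S36TL_Chart` from `hint₁ hint₂ hint₃` (conductor `I_Z · I_Z`);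
* `S36TI_Geo`     : the geometric inputs of ONE chart, for the evaluations at `X` (a `Prop`);
* `S36TI_Geo.chart`, `S36TI_Geo.ofCoord` (from a NODAL3 package `S36N3_Coord`);
* `S36TI_hloc`    : **`hloc` of `S36WC_coreL_body`** from `X`, `hW1` on `U''`, `S36TI_Geo` on `U`
  and `U'`, `inj`, `happrox`, `hV`.
-/

set_option autoImplicit false
set_option linter.unusedSectionVars false

open AlgebraicCurve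

namespace Fermat.Agent.S36

open Fermat.Agent.S18 Fermat.Agent.S34

section chart

variable {L F k Fk₁ Fk₂ Fk₃ : Type*} [Field L] [Field F] [Algebra L F] [Field k]
  [Field Fk₁] [Field Fk₂] [Field Fk₃] [Algebra k Fk₁] [Algebra k Fk₂] [Algebra k Fk₃]

variable {S₁ : S18_Val L F k Fk₁} {S₂ : S18_Val L F k Fk₂} {S₃ : S18_Val L F k Fk₃}
  (hS : S36L3_Same S₁ S₂ S₃)

/-- `hW1` on a chart from `hW1` on a bigger chart (compatible evaluations). -/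
theorem S36TI_hW1_of_le {n : ℕ} {ι : Type*} {C C'' : S36L3_Chart L F k Fk₁ Fk₂ Fk₃ n}
    (hle : S36L3_ChartLE C C'')
    (e₁ : ι → ↥C.Rb₁ →ₐ[k] k) (e₂ : ι → ↥C.Rb₂ →ₐ[k] k) (e₃ : ι → ↥C.Rb₃ →ₐ[k] k)
    (e₁'' : ι → ↥C''.Rb₁ →ₐ[k] k) (e₂'' : ι → ↥C''.Rb₂ →ₐ[k] k) (e₃'' : ι → ↥C''.Rb₃ →ₐ[k] k)
    (c₁ : ∀ y (r : ↥C.Rb₁), e₁'' y ⟨r, hle.Rb₁_le r.2⟩ = e₁ y r)
    (c₂ : ∀ y (r : ↥C.Rb₂), e₂'' y ⟨r, hle.Rb₂_le r.2⟩ = e₂ y r)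
    (c₃ : ∀ y (r : ↥C.Rb₃), e₃'' y ⟨r, hle.Rb₃_le r.2⟩ = e₃ y r)
    (hW1 : ∀ m ∈ S36L3_W hS C'' 1, ∀ y, e₁'' y m.1 = e₂'' y m.2.1 ∧ e₁'' y m.1 = e₃'' y m.2.2) :
    ∀ m ∈ S36L3_W hS C 1, ∀ y, e₁ y m.1 = e₂ y m.2.1 ∧ e₁ y m.1 = e₃ y m.2.2 := by
  intro m hm y
  have h := hW1 _ (S36L3_W_mono hS hle hm) y
  have e1 : e₁'' y (S36L3_chartMap hle m).1 = e₁ y m.1 := c₁ y m.1
  have e2 : e₂'' y (S36L3_chartMap hle m).2.1 = e₂ y m.2.1 := c₂ y m.2.1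
  have e3 : e₃'' y (S36L3_chartMap hle m).2.2 = e₃ y m.2.2 := c₃ y m.2.2
  rw [e1, e2, e3] at h
  exact h

/-- **a `S36TL_Chart` from the componentwise interpolation statements** (R11b'): the conductor
is `I_Z · I_Z`. -/
noncomputable def S36TI_ofInt {n : ℕ} {ι : Type*} (C : S36L3_Chart L F k Fk₁ Fk₂ Fk₃ n)
    (Kp : Subgroup Fˣ) (hKp : Kp ≤ S36L3_NormGrp S₁ S₂ S₃)
    (e₁ : ι → ↥C.Rb₁ →ₐ[k] k) (e₂ : ι → ↥C.Rb₂ →ₐ[k] k) (e₃ : ι → ↥C.Rb₃ →ₐ[k] k)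
    (hW1 : ∀ m ∈ S36L3_W hS C 1, ∀ y, e₁ y m.1 = e₂ y m.2.1 ∧ e₁ y m.1 = e₃ y m.2.2)
    (li : ∀ u ∈ Kp, ∀ y, ∃ m ∈ S36L3_W hS C ((u : Fˣ) : F),
      e₁ y m.1 ≠ 0 ∧ e₂ y m.2.1 ≠ 0 ∧ e₃ y m.2.2 ≠ 0)
    (hint₁ : ∀ g g' : ↥C.Rb₁, (∀ y, e₁ y g = 0) → (∀ y, e₁ y g' = 0) →
      ((g * g', 0, 0) : ↥C.Rb₁ × ↥C.Rb₂ × ↥C.Rb₃) ∈ S36L3_W hS C 1)
    (hint₂ : ∀ g g' : ↥C.Rb₂, (∀ y, e₂ y g = 0) → (∀ y, e₂ y g' = 0) →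
      ((0, g * g', 0) : ↥C.Rb₁ × ↥C.Rb₂ × ↥C.Rb₃) ∈ S36L3_W hS C 1)
    (hint₃ : ∀ g g' : ↥C.Rb₃, (∀ y, e₃ y g = 0) → (∀ y, e₃ y g' = 0) →
      ((0, 0, g * g') : ↥C.Rb₁ × ↥C.Rb₂ × ↥C.Rb₃) ∈ S36L3_W hS C 1)
    (hsep : ∀ y, ∃ w ∈ S36L3_W hS C 1, e₁ y w.1 = 1 ∧ ∀ y', y' ≠ y → e₁ y' w.1 = 0)
    (h₁ : ∀ u ∈ Kp, ∀ 𝔫 : Ideal ↥C.Rb₁, 𝔫.IsMaximal →
      ∃ m ∈ S36L3_W hS C ((u : Fˣ) : F), m.1 ∉ 𝔫)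
    (h₂ : ∀ u ∈ Kp, ∀ 𝔫 : Ideal ↥C.Rb₂, 𝔫.IsMaximal →
      ∃ m ∈ S36L3_W hS C ((u : Fˣ) : F), m.2.1 ∉ 𝔫)
    (h₃ : ∀ u ∈ Kp, ∀ 𝔫 : Ideal ↥C.Rb₃, 𝔫.IsMaximal →
      ∃ m ∈ S36L3_W hS C ((u : Fˣ) : F), m.2.2 ∉ 𝔫) :
    S36TL_Chart hS C Kp ι where
  e₁ := e₁
  e₂ := e₂
  e₃ := e₃
  hW1 := hW1
  li := li
  c := (S36L3_mkDatum hS C e₁ e₂ e₃ Kp hKp hW1 li).IZ *
    (S36L3_mkDatum hS C e₁ e₂ e₃ Kp hKp hW1 li).IZ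
  hcW := by
    intro x hx
    have h := (S36L3_mkDatum hS C e₁ e₂ e₃ Kp hKp hW1 li).IZ_mul_le
      (fun g g' hg hg' => by
        show _ ∈ S36L3_W hS C (((1 : Fˣ) : Fˣ) : F)
        rw [Units.val_one]
        exact hint₁ g g' hg hg')
      (fun g g' hg hg' => by
        show _ ∈ S36L3_W hS C (((1 : Fˣ) : Fˣ) : F)
        rw [Units.val_one]
        exact hint₂ g g' hg hg')
      (fun g g' hg hg' => by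
        show _ ∈ S36L3_W hS C (((1 : Fˣ) : Fˣ) : F)
        rw [Units.val_one]
        exact hint₃ g g' hg hg') x hx
    have h' : x ∈ S36L3_W hS C (((1 : Fˣ) : Fˣ) : F) := h
    rwa [Units.val_one] at h'
  hnil := by
    intro x hx
    rw [pow_two]
    exact Ideal.mul_mem_mul hx hx
  hsep := hsep
  h₁ := h₁
  h₂ := h₂
  h₃ := h₃

/-- **the geometric inputs of one chart** for the evaluations at the points `X`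
(`Kp` = the normalised elements under consideration). -/
structure S36TI_Geo {n : ℕ} {ι : Type*} (C : S36L3_Chart L F k Fk₁ Fk₂ Fk₃ n)
    (X : S36SE_Pts k Fk₁ Fk₂ Fk₃ ι) (hC : S36SE_Reg C X) (Kp : Subgroup Fˣ) : Prop where
  /-- (LI) at the triple points (helper19 `S36LK_li`) -/
  li : ∀ u ∈ Kp, ∀ y, ∃ m ∈ S36L3_W hS C ((u : Fˣ) : F),
    S36SE_e₁ C X hC y m.1 ≠ 0 ∧ S36SE_e₂ C X hC y m.2.1 ≠ 0 ∧ S36SE_e₃ C X hC y m.2.2 ≠ 0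
  /-- (R11b') on `FF` (helper14 `S36N3_Coord.hint₁`) -/
  hint₁ : ∀ g g' : ↥C.Rb₁, (∀ y, S36SE_e₁ C X hC y g = 0) → (∀ y, S36SE_e₁ C X hC y g' = 0) →
    ((g * g', 0, 0) : ↥C.Rb₁ × ↥C.Rb₂ × ↥C.Rb₃) ∈ S36L3_W hS C 1
  /-- (R11b') on `FV` -/
  hint₂ : ∀ g g' : ↥C.Rb₂, (∀ y, S36SE_e₂ C X hC y g = 0) → (∀ y, S36SE_e₂ C X hC y g' = 0) →
    ((0, g * g', 0) : ↥C.Rb₁ × ↥C.Rb₂ × ↥C.Rb₃) ∈ S36L3_W hS C 1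
  /-- (R11b') on `VV` -/
  hint₃ : ∀ g g' : ↥C.Rb₃, (∀ y, S36SE_e₃ C X hC y g = 0) → (∀ y, S36SE_e₃ C X hC y g' = 0) →
    ((0, 0, g * g') : ↥C.Rb₁ × ↥C.Rb₂ × ↥C.Rb₃) ∈ S36L3_W hS C 1
  /-- separation of the triple points (helper21 `S36SE_hsep`) -/
  hsep : ∀ y, ∃ w ∈ S36L3_W hS C 1, S36SE_e₁ C X hC y w.1 = 1 ∧
    ∀ y', y' ≠ y → S36SE_e₁ C X hC y' w.1 = 0
  /-- (LI) at the closed points of `FF` (helper19 `S36LK_max₁`) -/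
  h₁ : ∀ u ∈ Kp, ∀ 𝔫 : Ideal ↥C.Rb₁, 𝔫.IsMaximal →
    ∃ m ∈ S36L3_W hS C ((u : Fˣ) : F), m.1 ∉ 𝔫
  /-- (LI) at the closed points of `FV` -/
  h₂ : ∀ u ∈ Kp, ∀ 𝔫 : Ideal ↥C.Rb₂, 𝔫.IsMaximal →
    ∃ m ∈ S36L3_W hS C ((u : Fˣ) : F), m.2.1 ∉ 𝔫
  /-- (LI) at the closed points of `VV` -/
  h₃ : ∀ u ∈ Kp, ∀ 𝔫 : Ideal ↥C.Rb₃, 𝔫.IsMaximal →
    ∃ m ∈ S36L3_W hS C ((u : Fˣ) : F), m.2.2 ∉ 𝔫

variable {hS}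

/-- the chart of TRIV from the geometric inputs. -/
noncomputable def S36TI_Geo.chart {n : ℕ} {ι : Type*} {C : S36L3_Chart L F k Fk₁ Fk₂ Fk₃ n}
    {X : S36SE_Pts k Fk₁ Fk₂ Fk₃ ι} {hC : S36SE_Reg C X} {Kp : Subgroup Fˣ}
    (G : S36TI_Geo hS C X hC Kp) (hKp : Kp ≤ S36L3_NormGrp S₁ S₂ S₃)
    (hW1 : ∀ m ∈ S36L3_W hS C 1, ∀ y, S36SE_e₁ C X hC y m.1 = S36SE_e₂ C X hC y m.2.1 ∧
      S36SE_e₁ C X hC y m.1 = S36SE_e₃ C X hC y m.2.2) :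
    S36TL_Chart hS C Kp ι :=
  S36TI_ofInt hS C Kp hKp (S36SE_e₁ C X hC) (S36SE_e₂ C X hC) (S36SE_e₃ C X hC) hW1 G.li
    G.hint₁ G.hint₂ G.hint₃ G.hsep G.h₁ G.h₂ G.h₃

theorem S36TI_Geo.chart_e₁ {n : ℕ} {ι : Type*} {C : S36L3_Chart L F k Fk₁ Fk₂ Fk₃ n}
    {X : S36SE_Pts k Fk₁ Fk₂ Fk₃ ι} {hC : S36SE_Reg C X} {Kp : Subgroup Fˣ}
    (G : S36TI_Geo hS C X hC Kp) (hKp : Kp ≤ S36L3_NormGrp S₁ S₂ S₃)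
    (hW1 : ∀ m ∈ S36L3_W hS C 1, ∀ y, S36SE_e₁ C X hC y m.1 = S36SE_e₂ C X hC y m.2.1 ∧
      S36SE_e₁ C X hC y m.1 = S36SE_e₃ C X hC y m.2.2) :
    (G.chart hKp hW1).e₁ = S36SE_e₁ C X hC := rfl

theorem S36TI_Geo.chart_e₂ {n : ℕ} {ι : Type*} {C : S36L3_Chart L F k Fk₁ Fk₂ Fk₃ n}
    {X : S36SE_Pts k Fk₁ Fk₂ Fk₃ ι} {hC : S36SE_Reg C X} {Kp : Subgroup Fˣ}
    (G : S36TI_Geo hS C X hC Kp) (hKp : Kp ≤ S36L3_NormGrp S₁ S₂ S₃)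
    (hW1 : ∀ m ∈ S36L3_W hS C 1, ∀ y, S36SE_e₁ C X hC y m.1 = S36SE_e₂ C X hC y m.2.1 ∧
      S36SE_e₁ C X hC y m.1 = S36SE_e₃ C X hC y m.2.2) :
    (G.chart hKp hW1).e₂ = S36SE_e₂ C X hC := rfl

theorem S36TI_Geo.chart_e₃ {n : ℕ} {ι : Type*} {C : S36L3_Chart L F k Fk₁ Fk₂ Fk₃ n}
    {X : S36SE_Pts k Fk₁ Fk₂ Fk₃ ι} {hC : S36SE_Reg C X} {Kp : Subgroup Fˣ}
    (G : S36TI_Geo hS C X hC Kp) (hKp : Kp ≤ S36L3_NormGrp S₁ S₂ S₃)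
    (hW1 : ∀ m ∈ S36L3_W hS C 1, ∀ y, S36SE_e₁ C X hC y m.1 = S36SE_e₂ C X hC y m.2.1 ∧
      S36SE_e₁ C X hC y m.1 = S36SE_e₃ C X hC y m.2.2) :
    (G.chart hKp hW1).e₃ = S36SE_e₃ C X hC := rfl

/-- the geometric inputs from a NODAL3 package (`hint_j`, `hsep`) and (LI). -/
theorem S36TI_Geo.ofCoord {n : ℕ} {ι : Type*} [Finite ι]
    {C : S36L3_Chart L F k Fk₁ Fk₂ Fk₃ n}
    {X : S36SE_Pts k Fk₁ Fk₂ Fk₃ ι} {hC : S36SE_Reg C X} {Kp : Subgroup Fˣ}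
    (hKp : Kp ≤ S36L3_NormGrp S₁ S₂ S₃)
    (hW1 : ∀ m ∈ S36L3_W hS C 1, ∀ y, S36SE_e₁ C X hC y m.1 = S36SE_e₂ C X hC y m.2.1 ∧
      S36SE_e₁ C X hC y m.1 = S36SE_e₃ C X hC y m.2.2)
    (li : ∀ u ∈ Kp, ∀ y, ∃ m ∈ S36L3_W hS C ((u : Fˣ) : F),
      S36SE_e₁ C X hC y m.1 ≠ 0 ∧ S36SE_e₂ C X hC y m.2.1 ≠ 0 ∧ S36SE_e₃ C X hC y m.2.2 ≠ 0)
    {R₀ : Type*} [CommRing R₀] [Algebra k R₀]
    (N : S36N3_Coord (S36L3_mkDatum hS C (S36SE_e₁ C X hC) (S36SE_e₂ C X hC) (S36SE_e₃ C X hC)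
      Kp hKp hW1 li) R₀)
    (h₁ : ∀ u ∈ Kp, ∀ 𝔫 : Ideal ↥C.Rb₁, 𝔫.IsMaximal →
      ∃ m ∈ S36L3_W hS C ((u : Fˣ) : F), m.1 ∉ 𝔫)
    (h₂ : ∀ u ∈ Kp, ∀ 𝔫 : Ideal ↥C.Rb₂, 𝔫.IsMaximal →
      ∃ m ∈ S36L3_W hS C ((u : Fˣ) : F), m.2.1 ∉ 𝔫)
    (h₃ : ∀ u ∈ Kp, ∀ 𝔫 : Ideal ↥C.Rb₃, 𝔫.IsMaximal →
      ∃ m ∈ S36L3_W hS C ((u : Fˣ) : F), m.2.2 ∉ 𝔫) :
    S36TI_Geo hS C X hC Kp where
  li := li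
  hint₁ g g' hg hg' := by
    have h := N.hint₁ g g' hg hg'
    have h' : ((g * g', 0, 0) : ↥C.Rb₁ × ↥C.Rb₂ × ↥C.Rb₃) ∈
        S36L3_W hS C (((1 : Fˣ) : Fˣ) : F) := h
    rwa [Units.val_one] at h'
  hint₂ g g' hg hg' := by
    have h := N.hint₂ g g' hg hg'
    have h' : ((0, g * g', 0) : ↥C.Rb₁ × ↥C.Rb₂ × ↥C.Rb₃) ∈
        S36L3_W hS C (((1 : Fˣ) : Fˣ) : F) := h
    rwa [Units.val_one] at h'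
  hint₃ g g' hg hg' := by
    have h := N.hint₃ g g' hg hg'
    have h' : ((0, 0, g * g') : ↥C.Rb₁ × ↥C.Rb₂ × ↥C.Rb₃) ∈
        S36L3_W hS C (((1 : Fˣ) : Fˣ) : F) := h
    rwa [Units.val_one] at h'
  hsep y := by
    obtain ⟨w, hw, h1, h0⟩ := N.hsep y
    have hw' : w ∈ S36L3_W hS C (((1 : Fˣ) : Fˣ) : F) := hw
    rw [Units.val_one] at hw'
    exact ⟨w, hw', h1, h0⟩
  h₁ := h₁
  h₂ := h₂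
  h₃ := h₃

end chart

/-! ### the final call -/

section final

variable {K₂ F₂ H₂ : Type*} [Field K₂] [Field F₂] [Algebra K₂ F₂] {A₂ : S36FL_Act K₂ F₂ H₂}
  {k Fk₁ Fk₂ Fk₃ : Type*} [Field k]
  [Field Fk₁] [Field Fk₂] [Field Fk₃] [Algebra k Fk₁] [Algebra k Fk₂] [Algebra k Fk₃]
  {S₁ : S18_Val ↥A₂.fixK ↥A₂.fixF k Fk₁} {S₂ : S18_Val ↥A₂.fixK ↥A₂.fixF k Fk₂}
  {S₃ : S18_Val ↥A₂.fixK ↥A₂.fixF k Fk₃} {n : ℕ}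

/-- **`hloc` of `S36WC_coreL_body`**, with the two charts of TRIV assembled from the evaluations
at the points `X` (C1.7), `hW1` on `U''` (NODAL3-INST), the geometric inputs `S36TI_Geo` of `U` and
`U'` (NODAL3 + LI), `inj` (INJ3-INST), `happrox` (INDEP) and `hV` (`S36HA_main`). -/
theorem S36TI_hloc (hS : S36L3_Same S₁ S₂ S₃) {ι : Type*} [Finite ι]
    (q : ℕ) [hq : Fact q.Prime] [CharP k q] (hnq : Nat.Coprime n q)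
    {C C' C'' : S36L3_Chart ↥A₂.fixK ↥A₂.fixF k Fk₁ Fk₂ Fk₃ n}
    (hle : S36L3_ChartLE C C'') (hle' : S36L3_ChartLE C' C'')
    (X : S36SE_Pts k Fk₁ Fk₂ Fk₃ ι) (hX : S36SE_Reg C'' X)
    (hW1 : ∀ m ∈ S36L3_W hS C'' 1, ∀ y,
      S36SE_e₁ C'' X hX y m.1 = S36SE_e₂ C'' X hX y m.2.1 ∧
      S36SE_e₁ C'' X hX y m.1 = S36SE_e₃ C'' X hX y m.2.2)
    (G : S36TI_Geo hS C X (hX.of_le hle) (S36LC_Kp A₂ n S₁ S₂ S₃))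
    (G' : S36TI_Geo hS C' X (hX.of_le hle') (S36LC_Kp A₂ n S₁ S₂ S₃))
    (inj : ∀ v : (↥A₂.fixF)ˣ, v ∈ S36L3_NormGrp S₁ S₂ S₃ →
      (1 : ↥C.Rb₁ × ↥C.Rb₂ × ↥C.Rb₃) ∈ S36L3_W hS C ((v : (↥A₂.fixF)ˣ) : ↥A₂.fixF) →
      (1 : ↥C'.Rb₁ × ↥C'.Rb₂ × ↥C'.Rb₃) ∈ S36L3_W hS C' ((v : (↥A₂.fixF)ˣ) : ↥A₂.fixF) →
      v ∈ S36TL_Triv ↥A₂.fixK (F := ↥A₂.fixF) n)
    (happrox : ∀ b₂ b₃ : k, b₂ ≠ 0 → b₃ ≠ 0 → ∃ f : S36L3_O3 S₁ S₂ S₃,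
      S36L3_red S₁ S₂ S₃ f = ((1 : Fk₁), algebraMap k Fk₂ b₂, algebraMap k Fk₃ b₃))
    (P₁ P₂ : (↥A₂.fixF)ˣ → Prop)
    (hV : ∀ u ∈ S36LC_Kp A₂ n S₁ S₂ S₃, P₁ u → P₂ u → ∃ ξ ξ' : k, ∀ y,
      ∃ m ∈ S36L3_W hS C ((u : (↥A₂.fixF)ˣ) : ↥A₂.fixF),
        S36SE_e₁ C X (hX.of_le hle) y m.1 ≠ 0 ∧
        S36SE_e₁ C X (hX.of_le hle) y m.1 * S36SE_e₂ C X (hX.of_le hle) y m.2.1 ^ (q - 1) =
          ξ * S36SE_e₃ C X (hX.of_le hle) y m.2.2 ^ q ∧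
        ξ' * (S36SE_e₂ C X (hX.of_le hle) y m.2.1 ^ (q - 1) *
          S36SE_e₃ C X (hX.of_le hle) y m.2.2) = S36SE_e₁ C X (hX.of_le hle) y m.1 ^ q) :
    ∀ u ∈ S36WC_Kum A₂ n, u ∈ S36L3_NormGrp S₁ S₂ S₃ → P₁ u → P₂ u →
      u ^ (q ^ 2 - 1) ∈ S36TL_Triv ↥A₂.fixK (F := ↥A₂.fixF) n := by
  have hW1C := S36TI_hW1_of_le hS hle (S36SE_e₁ C X (hX.of_le hle))
    (S36SE_e₂ C X (hX.of_le hle)) (S36SE_e₃ C X (hX.of_le hle))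
    (S36SE_e₁ C'' X hX) (S36SE_e₂ C'' X hX) (S36SE_e₃ C'' X hX)
    (fun _ _ => rfl) (fun _ _ => rfl) (fun _ _ => rfl) hW1
  have hW1C' := S36TI_hW1_of_le hS hle' (S36SE_e₁ C' X (hX.of_le hle'))
    (S36SE_e₂ C' X (hX.of_le hle')) (S36SE_e₃ C' X (hX.of_le hle'))
    (S36SE_e₁ C'' X hX) (S36SE_e₂ C'' X hX) (S36SE_e₃ C'' X hX)
    (fun _ _ => rfl) (fun _ _ => rfl) (fun _ _ => rfl) hW1
  exact S36LC_hloc hS q hnq hle hle' (G.chart S36LC_Kp_le hW1C) (G'.chart S36LC_Kp_le hW1C')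
    (S36SE_e₁ C'' X hX) (S36SE_e₂ C'' X hX) (S36SE_e₃ C'' X hX) hW1
    (fun _ _ => rfl) (fun _ _ => rfl) (fun _ _ => rfl)
    (fun _ _ => rfl) (fun _ _ => rfl) (fun _ _ => rfl) inj happrox P₁ P₂ hV

end final

end Fermat.Agent.S36
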