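import Fermat.Agent.S36.Triv3U
import Fermat.Agent.S36.OrdUnitFin
import Fermat.Agent.S36.OrdLowerMain
import Fermat.Agent.S36.Spec3SepZ
import Fermat.Agent.S36.Nodal3HintU
import Fermat.Agent.S36.Cart3Inst
import Fermat.Agent.S36.Triv3Inst
import Fermat.Agent.S36.Arith36

/-!
# TRACK 10 (S36), C3.4 TRIV-CONC part 8 (helper11): **HOLE 2 of WireConc** — `G` on the chart `U`
at the supersingular points

`X = S36SE_XSS D` (helper21), `C = S36CZ_C` (helper23).  `S36TY_geo_U` (Triv3U) with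

* `hsep`   := `S36SE_hsep_Z` (helper21),
* `hR13`   := `S36OU_hR13`, `hR13ss := S36OU_hR13ss` (helper24), with `Hmain` = `S36OL_H_main`
  (helper16) whose (R11a) input `hg` comes from the conductor `hint₂`
  (`S36TX_R11a₂` + `S36CW_exists_of_W`),

plugged in.  `S36TY_G_of` : inputs left = `hW1`, `hint₁₂₃` on `C`, the lifts `hliftss`,
`nuTwo M = 0`, `nuThree M = 0`.

* `S36TY_G` : with `hint₁₂₃ := S36N3F_hint` (helper14) and `hliftss := S36CJ_hliftss_w` (helper5):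
  inputs left = `hW1` on `U`, `nuTwo M = 0`, `nuThree M = 0`;
* `S36TY_G_hole`, `S36TY_G_hole_r` : **HOLE 2 of helper2's WireConc**, from `hW1` on `U''`
  (HOLE 1) and the auxiliary prime.
-/

set_option autoImplicit false
set_option synthInstance.maxHeartbeats 400000
set_option maxHeartbeats 1000000
set_option linter.unusedSectionVars false
set_option linter.unusedVariables false
set_option linter.style.haveILetI false

open AlgebraicCurve ModularCurve HahnSeries IntermediateField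

noncomputable section

namespace Fermat.Agent.S36

open Fermat.Agent.Lib Fermat.Agent.S18 Fermat.Agent.S24 Fermat.Agent.S34 Fermat.Agent.GalRep
  Fermat.Agent.S17 Fermat.Agent.S19

local notation "Ω" => AlgebraicClosure ℚ

variable (M q : ℕ) [NeZero M] [NeZero q] [NeZero (M * q)] (hq : q.Prime) (hqM : ¬ q ∣ M)
  (A : ValuationSubring Ω) (hA : A.LiesOverPrime q)
  (ζ : Ωˣ) (hζ : ζ ^ q = 1) (hζ1 : ζ ≠ 1)
  {hgen : PrincipalGeneratedByIntegral A (IsLocalRing.residue A) (M * q)}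
  {n' : ℕ} {hn' : 0 < n'} (n : ℕ) (hn : 0 < n)

include hq hqM in
/-- the chart `U = {B ≠ ∞}` lies in the affine part `{j ≠ ∞}`. -/
theorem S36TY_hU : ∀ Q ∈ S36TY_T M q A, 0 ≤ Q.ord (jB (M * q * q)) :=
  fun Q hQ => S36SE_hj_B M q hq hqM (A.inertiaSubgroupIn ℚ) Q hQ

include hq hA in
/-- the chart is regular at the places where `j̄` is regular. -/
theorem S36TY_hP (P : Place (IsLocalRing.ResidueField A) ↥(S36FI_kappa M A)) (hv : 0 ≤ P.ord (S18_jbar M (IsLocalRing.ResidueField A))) :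
    ∀ f ∈ (S36CZ_C M q hq hqM A hA n hn).Rb₂, P.adicValuation f ≤ 1 := by
  intro f hf
  exact (S36TY_hR M q hq hqM A hA f).1 hf P
    ((S36CU_adic_iff_ord _ _).2 hv)

/-- **`Hmain`**: the order of `H_τ` at the non-cuspidal places (`S36OL_H_main`), with (R11a)
from the conductor `hint₂`. -/
theorem S36TY_Hmain (hν₂ : nuTwo M = 0) (hν₃ : nuThree M = 0)
    (SSD : S36SS_Data M q hq hqM A hgen n' hn')
    {hC : S36SE_Reg (S36CZ_C M q hq hqM A hA n hn) (S36SE_XSS M q hq hqM A hA SSD)}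
    (hint₂ : ∀ g g' : ↥(S36CZ_C M q hq hqM A hA n hn).Rb₂,
      (∀ y, S36SE_e₂ (S36CZ_C M q hq hqM A hA n hn) (S36SE_XSS M q hq hqM A hA SSD) hC y g = 0) →
      (∀ y, S36SE_e₂ (S36CZ_C M q hq hqM A hA n hn) (S36SE_XSS M q hq hqM A hA SSD) hC y g' = 0) →
      ((0, g * g', 0) : ↥(S36CZ_C M q hq hqM A hA n hn).Rb₁ × ↥(S36CZ_C M q hq hqM A hA n hn).Rb₂ × ↥(S36CZ_C M q hq hqM A hA n hn).Rb₃) ∈ S36L3_W (S36FI_same3 M q hq hqM A hA ζ hζ hζ1) (S36CZ_C M q hq hqM A hA n hn) 1) :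
    ∀ v : Place (IsLocalRing.ResidueField A) ↥(S36FI_kappa M A), 0 ≤ v.ord (S18_jbar M (IsLocalRing.ResidueField A)) →
      ∀ (τ Hτ : ↥(modularFunctionFieldFullC (IsLocalRing.ResidueField A) M)) (c : (IsLocalRing.ResidueField A)),
        v.ord (τ - algebraMap (IsLocalRing.ResidueField A) ↥(modularFunctionFieldFullC (IsLocalRing.ResidueField A) M) c) = 1 →
        (Hτ : LaurentSeries (IsLocalRing.ResidueField A)) = -(LT_theta (τ : LaurentSeries (IsLocalRing.ResidueField A))) ^ (q - 1) →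
        (v ∉ SSD.SS → v.ord Hτ = 0) ∧ (v ∈ SSD.SS → v.ord Hτ = -2) := by
  classical
  haveI : IsAlgClosed (IsLocalRing.ResidueField A) := S18_residue_isAlgClosed A
  obtain ⟨c₂, hc₂⟩ := S36SE_jbar_pole M q hq hqM A hA
  refine S36OL_H_main M q hq hqM A ζ hζ hζ1 hA hν₂ hν₃ SSD (S36CO_BL M q (A.inertiaSubgroupIn ℚ))
    (fun P hP => S36SE_hj_B M q hq hqM (A.inertiaSubgroupIn ℚ) P hP)
    (S36CZ_xb M q hq hqM A hA) (S36CZ_xb M q hq hqM A hA) (S36CZ_xb M q hq hqM A hA) n hn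
    (S36TY_R M q hq hqM A hA ζ hζ hζ1 n hn)
    (fun v hv => S36SE_hx_of_reg M q hq A hA _ (S36CZ_xb_coe M q hq hqM A hA) v hv) ?_
  intro v hv hvS
  have hP := S36TY_hP M q hq hqM A hA n hn v hv
  have hne : ∀ y, v ≠ (S36SE_XSS M q hq hqM A hA SSD).P₂ y := fun y h => hvS (h ▸ y.2)
  have hev : ∀ y, S36SE_ev (S36CZ_C M q hq hqM A hA n hn).Rb₂ v ((S36TY_hRR M q hq hqM A hA).deg_one v) hP ≠ S36SE_e₂ (S36CZ_C M q hq hqM A hA n hn) (S36SE_XSS M q hq hqM A hA SSD) hC y := fun y =>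
    S36TX_ev_ne₂ (S36TY_hRR M q hq hqM A hA) (S18_jbar M (IsLocalRing.ResidueField A)) c₂ hc₂ (S36TY_hR M q hq hqM A hA) v hP y (hne y)
  obtain ⟨g, hgW, hg2, hg1, hg3⟩ := S36TX_R11a₂ (S36FI_same3 M q hq hqM A hA ζ hζ hζ1) (S36SE_e₂ (S36CZ_C M q hq hqM A hA n hn) (S36SE_XSS M q hq hqM A hA SSD) hC) hint₂ _ hev
  obtain ⟨f, e1, e2, e3⟩ := S36CW_exists_of_W (S36FI_same3 M q hq hqM A hA ζ hζ hζ1) (S36TY_D M q hq hqM A hA ζ hζ hζ1) (S36TY_hle M q hq hqM A hA ζ hζ hζ1 n hn)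
    (S36TY_hge M q hq hqM A hA ζ hζ hζ1 n hn) g hgW
  refine ⟨(f : ↥(S36FI_act (M * q * q) (A.inertiaSubgroupIn ℚ)).fixF), S36CW_mem₁ (S36TY_D M q hq hqM A hA ζ hζ hζ1) (S36TY_hle M q hq hqM A hA ζ hζ hζ1 n hn) f, S36CW_mem₂ (S36TY_D M q hq hqM A hA ζ hζ hζ1) (S36TY_hle M q hq hqM A hA ζ hζ hζ1 n hn) f, S36CW_mem₃ (S36TY_D M q hq hqM A hA ζ hζ hζ1) (S36TY_hle M q hq hqM A hA ζ hζ hζ1 n hn) f,
    ?_, ?_, ?_, ?_⟩
  · intro Q hQ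
    have hQU : Q ∈ (S36TY_D M q hq hqM A hA ζ hζ hζ1).U := S36OL_TU_B M q Q hQ
    have := (S36IT_lat_mem_Λ M q hq hqM A hA ζ hζ hζ1 (S36TY_T M q A) (f : ↥(S36FI_act (M * q * q) (A.inertiaSubgroupIn ℚ)).fixF)).1 f.2
    exact this.2.2.2 Q hQU
  · exact e1.trans (by rw [hg1]; rfl)
  · exact e3.trans (by rw [hg3]; rfl)
  · have h2 : (S36FI_SFV M q hq hqM A hA ζ hζ hζ1).red ⟨(f : ↥(S36FI_act (M * q * q) (A.inertiaSubgroupIn ℚ)).fixF), S36CW_mem₂ (S36TY_D M q hq hqM A hA ζ hζ hζ1) (S36TY_hle M q hq hqM A hA ζ hζ hζ1 n hn) f⟩ = (g.2.1 : ↥(S36FI_kappa M A)) := e2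
    rw [h2]
    exact hg2

include hq hqM hA in
/-- **`G` on the chart `U` at the supersingular points** from `hW1`, `hint_j` and the lifts. -/
theorem S36TY_G_of (hν₂ : nuTwo M = 0) (hν₃ : nuThree M = 0)
    (SSD : S36SS_Data M q hq hqM A hgen n' hn')
    {hC : S36SE_Reg (S36CZ_C M q hq hqM A hA n hn) (S36SE_XSS M q hq hqM A hA SSD)}
    (hW1 : ∀ m ∈ S36L3_W (S36FI_same3 M q hq hqM A hA ζ hζ hζ1) (S36CZ_C M q hq hqM A hA n hn) 1, ∀ y,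
      S36SE_e₁ (S36CZ_C M q hq hqM A hA n hn) (S36SE_XSS M q hq hqM A hA SSD) hC y m.1 = S36SE_e₂ (S36CZ_C M q hq hqM A hA n hn) (S36SE_XSS M q hq hqM A hA SSD) hC y m.2.1 ∧
      S36SE_e₁ (S36CZ_C M q hq hqM A hA n hn) (S36SE_XSS M q hq hqM A hA SSD) hC y m.1 = S36SE_e₃ (S36CZ_C M q hq hqM A hA n hn) (S36SE_XSS M q hq hqM A hA SSD) hC y m.2.2)
    (hint₁ : ∀ g g' : ↥(S36CZ_C M q hq hqM A hA n hn).Rb₁,
      (∀ y, S36SE_e₁ (S36CZ_C M q hq hqM A hA n hn) (S36SE_XSS M q hq hqM A hA SSD) hC y g = 0) →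
      (∀ y, S36SE_e₁ (S36CZ_C M q hq hqM A hA n hn) (S36SE_XSS M q hq hqM A hA SSD) hC y g' = 0) →
      ((g * g', 0, 0) : ↥(S36CZ_C M q hq hqM A hA n hn).Rb₁ × ↥(S36CZ_C M q hq hqM A hA n hn).Rb₂ × ↥(S36CZ_C M q hq hqM A hA n hn).Rb₃) ∈ S36L3_W (S36FI_same3 M q hq hqM A hA ζ hζ hζ1) (S36CZ_C M q hq hqM A hA n hn) 1)
    (hint₂ : ∀ g g' : ↥(S36CZ_C M q hq hqM A hA n hn).Rb₂,
      (∀ y, S36SE_e₂ (S36CZ_C M q hq hqM A hA n hn) (S36SE_XSS M q hq hqM A hA SSD) hC y g = 0) →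
      (∀ y, S36SE_e₂ (S36CZ_C M q hq hqM A hA n hn) (S36SE_XSS M q hq hqM A hA SSD) hC y g' = 0) →
      ((0, g * g', 0) : ↥(S36CZ_C M q hq hqM A hA n hn).Rb₁ × ↥(S36CZ_C M q hq hqM A hA n hn).Rb₂ × ↥(S36CZ_C M q hq hqM A hA n hn).Rb₃) ∈ S36L3_W (S36FI_same3 M q hq hqM A hA ζ hζ hζ1) (S36CZ_C M q hq hqM A hA n hn) 1)
    (hint₃ : ∀ g g' : ↥(S36CZ_C M q hq hqM A hA n hn).Rb₃,
      (∀ y, S36SE_e₃ (S36CZ_C M q hq hqM A hA n hn) (S36SE_XSS M q hq hqM A hA SSD) hC y g = 0) →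
      (∀ y, S36SE_e₃ (S36CZ_C M q hq hqM A hA n hn) (S36SE_XSS M q hq hqM A hA SSD) hC y g' = 0) →
      ((0, 0, g * g') : ↥(S36CZ_C M q hq hqM A hA n hn).Rb₁ × ↥(S36CZ_C M q hq hqM A hA n hn).Rb₂ × ↥(S36CZ_C M q hq hqM A hA n hn).Rb₃) ∈ S36L3_W (S36FI_same3 M q hq hqM A hA ζ hζ hζ1) (S36CZ_C M q hq hqM A hA n hn) 1)
    (hliftss : ∀ (y : ↥SSD.SS) (a₁ a₂ : ↥(S36FI_kappa M A)),
      (∀ Q : Place (IsLocalRing.ResidueField A) ↥(S36FI_kappa M A),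
        Q ∉ {Q : Place (IsLocalRing.ResidueField A) ↥(S36FI_kappa M A) | ¬ Q.adicValuation (S18_jbar M (IsLocalRing.ResidueField A)) ≤ 1} → 0 ≤ Q.ord a₁) →
      (∀ Q : Place (IsLocalRing.ResidueField A) ↥(S36FI_kappa M A),
        Q ∉ {Q : Place (IsLocalRing.ResidueField A) ↥(S36FI_kappa M A) | ¬ Q.adicValuation (S18_jbar M (IsLocalRing.ResidueField A)) ≤ 1} → 0 ≤ Q.ord a₂) →
      ∃ (ε : ↥(S36FI_kappa M A)) (f₁ f₂ : (S36TY_D M q hq hqM A hA ζ hζ hζ1).Λ), ε ≠ 0 ∧ ((S36SE_XSS M q hq hqM A hA SSD).P₃ y).ord ε = 0 ∧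
        S36CA_compRed (S36FI_SVV M q hq hqM A hA) (S36TY_D M q hq hqM A hA ζ hζ hζ1) (S36CW_mem₃ (S36TY_D M q hq hqM A hA ζ hζ hζ1) (S36TY_hle M q hq hqM A hA ζ hζ hζ1 n hn)) f₁ = a₁ * ε ∧
        S36CA_compRed (S36FI_SVV M q hq hqM A hA) (S36TY_D M q hq hqM A hA ζ hζ hζ1) (S36CW_mem₃ (S36TY_D M q hq hqM A hA ζ hζ hζ1) (S36TY_hle M q hq hqM A hA ζ hζ hζ1 n hn)) f₂ = a₂ * ε) :
    S36TI_Geo (S36FI_same3 M q hq hqM A hA ζ hζ hζ1) (S36CZ_C M q hq hqM A hA n hn) (S36SE_XSS M q hq hqM A hA SSD) hC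
      (S36LC_Kp (S36FI_act (M * q * q) (A.inertiaSubgroupIn ℚ)) n
        (S36FI_SFF M q hq hqM A hA) (S36FI_SFV M q hq hqM A hA ζ hζ hζ1) (S36FI_SVV M q hq hqM A hA)) := by
  classical
  haveI : IsAlgClosed (IsLocalRing.ResidueField A) := S18_residue_isAlgClosed A
  obtain ⟨c₂, hc₂⟩ := S36SE_jbar_pole M q hq hqM A hA
  have hm : q - 2 + 1 = q - 1 := by have := hq.two_le; omega
  have Hmain := S36TY_Hmain M q hq hqM A hA ζ hζ hζ1 n hn hν₂ hν₃ SSD hint₂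
  refine S36TY_geo_U M q hq hqM A hA ζ hζ hζ1 n hn hW1 hint₁ hint₂ hint₃
    (S36SE_hsep_Z M q hq hqM A hA ζ hζ hζ1 n hn SSD hC) ?_ hliftss ?_
  · exact S36OU_hR13 M q hq hqM A hA ζ hζ hζ1 (S36IT_dvr3_inst M q hq hqM A hA ζ hζ hζ1)
      (S36TY_T M q A) (S36TY_hU M q hq hqM A) (S36TY_hRR M q hq hqM A hA) (S36TY_hle M q hq hqM A hA ζ hζ hζ1 n hn)
      (S36TY_hge M q hq hqM A hA ζ hζ hζ1 n hn) (S36TY_R M q hq hqM A hA ζ hζ hζ1 n hn) c₂ hc₂ (S36TY_hR M q hq hqM A hA) hint₂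
      (S36TY_qΛ M q hq hqM A hA ζ hζ hζ1) rfl
      (S36VDV_isUnif_FF M q hq A (S36V_OFF M q hq A hA) hA (fun _ => Iff.rfl))
      (S36VDV_isUnif_VV M q hq hqM A (S36V_OVV M q hq hqM A hA) hA (fun _ => Iff.rfl))
      (q - 2) hm SSD (fun P hne hPS => hne ⟨P, hPS⟩ rfl) Hmain
  · exact S36OU_hR13ss M q hq hqM A hA ζ hζ hζ1 (S36IT_dvr3_inst M q hq hqM A hA ζ hζ hζ1)
      (S36TY_T M q A) (S36TY_hU M q hq hqM A) (S36TY_hle M q hq hqM A hA ζ hζ hζ1 n hn) (S36TY_R M q hq hqM A hA ζ hζ hζ1 n hn) hW1 (S36TY_qΛ M q hq hqM A hA ζ hζ hζ1) rfl (q - 2) hm SSD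
      (fun y => y.2) Hmain

include hq hqM hA in
/-- **`G` on the chart `U` at the supersingular points** — inputs left: `hW1` on `U` and the
absence of elliptic points (`nuTwo M = 0`, `nuThree M = 0`: the auxiliary prime). -/
theorem S36TY_G (hν₂ : nuTwo M = 0) (hν₃ : nuThree M = 0)
    (SSD : S36SS_Data M q hq hqM A hgen n' hn')
    {hC : S36SE_Reg (S36CZ_C M q hq hqM A hA n hn) (S36SE_XSS M q hq hqM A hA SSD)}
    (hW1 : ∀ m ∈ S36L3_W (S36FI_same3 M q hq hqM A hA ζ hζ hζ1) (S36CZ_C M q hq hqM A hA n hn) 1, ∀ y,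
      S36SE_e₁ (S36CZ_C M q hq hqM A hA n hn) (S36SE_XSS M q hq hqM A hA SSD) hC y m.1 = S36SE_e₂ (S36CZ_C M q hq hqM A hA n hn) (S36SE_XSS M q hq hqM A hA SSD) hC y m.2.1 ∧
      S36SE_e₁ (S36CZ_C M q hq hqM A hA n hn) (S36SE_XSS M q hq hqM A hA SSD) hC y m.1 = S36SE_e₃ (S36CZ_C M q hq hqM A hA n hn) (S36SE_XSS M q hq hqM A hA SSD) hC y m.2.2) :
    S36TI_Geo (S36FI_same3 M q hq hqM A hA ζ hζ hζ1) (S36CZ_C M q hq hqM A hA n hn) (S36SE_XSS M q hq hqM A hA SSD) hC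
      (S36LC_Kp (S36FI_act (M * q * q) (A.inertiaSubgroupIn ℚ)) n
        (S36FI_SFF M q hq hqM A hA) (S36FI_SFV M q hq hqM A hA ζ hζ hζ1) (S36FI_SVV M q hq hqM A hA)) := by
  obtain ⟨hint₁, hint₂, hint₃⟩ := S36N3F_hint M q hq hqM A hA ζ hζ hζ1 n hn SSD hC
  exact S36TY_G_of M q hq hqM A hA ζ hζ hζ1 n hn hν₂ hν₃ SSD hW1 hint₁ hint₂ hint₃
    (fun y a₁ a₂ h₁ h₂ => S36CJ_hliftss_w M q hq hqM A hA ζ hζ hζ1
      (S36IT_dvr3_inst M q hq hqM A hA ζ hζ hζ1) (S36CW_mem₃ (S36TY_D M q hq hqM A hA ζ hζ hζ1) (S36TY_hle M q hq hqM A hA ζ hζ hζ1 n hn))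
      ((S36SE_XSS M q hq hqM A hA SSD).P₃ y) a₁ a₂ h₁ h₂)

include hq hqM hA in
/-- **HOLE 2 of WireConc**: `G` on `U` from `hW1` on `U'' = U ∩ U'` (HOLE 1), in the exact
shape consumed by `S36TI_hloc`. -/
theorem S36TY_G_hole (hν₂ : nuTwo M = 0) (hν₃ : nuThree M = 0)
    (SSD : S36SS_Data M q hq hqM A hgen n' hn')
    (c : (S36FI_SFF M q hq hqM A hA).A)
    (hX : S36SE_Reg (S36CZ_C'' M q hq hqM A hA c n hn) (S36SE_XSS M q hq hqM A hA SSD))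
    (hW1 : ∀ m ∈ S36L3_W (S36FI_same3 M q hq hqM A hA ζ hζ hζ1) (S36CZ_C'' M q hq hqM A hA c n hn) 1, ∀ y,
      S36SE_e₁ (S36CZ_C'' M q hq hqM A hA c n hn) (S36SE_XSS M q hq hqM A hA SSD) hX y m.1 = S36SE_e₂ (S36CZ_C'' M q hq hqM A hA c n hn) (S36SE_XSS M q hq hqM A hA SSD) hX y m.2.1 ∧
      S36SE_e₁ (S36CZ_C'' M q hq hqM A hA c n hn) (S36SE_XSS M q hq hqM A hA SSD) hX y m.1 = S36SE_e₃ (S36CZ_C'' M q hq hqM A hA c n hn) (S36SE_XSS M q hq hqM A hA SSD) hX y m.2.2) :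
    S36TI_Geo (S36FI_same3 M q hq hqM A hA ζ hζ hζ1) (S36CZ_C M q hq hqM A hA n hn) (S36SE_XSS M q hq hqM A hA SSD) (hX.of_le (S36CZ_hle M q hq hqM A hA c n hn))
      (S36LC_Kp (S36FI_act (M * q * q) (A.inertiaSubgroupIn ℚ)) n
        (S36FI_SFF M q hq hqM A hA) (S36FI_SFV M q hq hqM A hA ζ hζ hζ1) (S36FI_SVV M q hq hqM A hA)) :=
  S36TY_G M q hq hqM A hA ζ hζ hζ1 n hn hν₂ hν₃ SSD
    (S36TI_hW1_of_le (S36FI_same3 M q hq hqM A hA ζ hζ hζ1) (S36CZ_hle M q hq hqM A hA c n hn)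
      (S36SE_e₁ (S36CZ_C M q hq hqM A hA n hn) (S36SE_XSS M q hq hqM A hA SSD) (hX.of_le (S36CZ_hle M q hq hqM A hA c n hn)))
      (S36SE_e₂ (S36CZ_C M q hq hqM A hA n hn) (S36SE_XSS M q hq hqM A hA SSD) (hX.of_le (S36CZ_hle M q hq hqM A hA c n hn)))
      (S36SE_e₃ (S36CZ_C M q hq hqM A hA n hn) (S36SE_XSS M q hq hqM A hA SSD) (hX.of_le (S36CZ_hle M q hq hqM A hA c n hn)))
      (S36SE_e₁ (S36CZ_C'' M q hq hqM A hA c n hn) (S36SE_XSS M q hq hqM A hA SSD) hX) (S36SE_e₂ (S36CZ_C'' M q hq hqM A hA c n hn) (S36SE_XSS M q hq hqM A hA SSD) hX) (S36SE_e₃ (S36CZ_C'' M q hq hqM A hA c n hn) (S36SE_XSS M q hq hqM A hA SSD) hX)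
      (fun _ _ => rfl) (fun _ _ => rfl) (fun _ _ => rfl) hW1)

include hq hqM hA in
/-- the same with the auxiliary prime `r ≡ 11 mod 12`, `r ∣ M`. -/
theorem S36TY_G_hole_r (hr : ∃ r : ℕ, r.Prime ∧ r % 12 = 11 ∧ r ∣ M)
    (SSD : S36SS_Data M q hq hqM A hgen n' hn')
    (c : (S36FI_SFF M q hq hqM A hA).A)
    (hX : S36SE_Reg (S36CZ_C'' M q hq hqM A hA c n hn) (S36SE_XSS M q hq hqM A hA SSD))
    (hW1 : ∀ m ∈ S36L3_W (S36FI_same3 M q hq hqM A hA ζ hζ hζ1) (S36CZ_C'' M q hq hqM A hA c n hn) 1, ∀ y,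
      S36SE_e₁ (S36CZ_C'' M q hq hqM A hA c n hn) (S36SE_XSS M q hq hqM A hA SSD) hX y m.1 = S36SE_e₂ (S36CZ_C'' M q hq hqM A hA c n hn) (S36SE_XSS M q hq hqM A hA SSD) hX y m.2.1 ∧
      S36SE_e₁ (S36CZ_C'' M q hq hqM A hA c n hn) (S36SE_XSS M q hq hqM A hA SSD) hX y m.1 = S36SE_e₃ (S36CZ_C'' M q hq hqM A hA c n hn) (S36SE_XSS M q hq hqM A hA SSD) hX y m.2.2) :
    S36TI_Geo (S36FI_same3 M q hq hqM A hA ζ hζ hζ1) (S36CZ_C M q hq hqM A hA n hn) (S36SE_XSS M q hq hqM A hA SSD) (hX.of_le (S36CZ_hle M q hq hqM A hA c n hn))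
      (S36LC_Kp (S36FI_act (M * q * q) (A.inertiaSubgroupIn ℚ)) n
        (S36FI_SFF M q hq hqM A hA) (S36FI_SFV M q hq hqM A hA ζ hζ hζ1) (S36FI_SVV M q hq hqM A hA)) := by
  obtain ⟨r, hrp, hr12, hrM⟩ := hr
  exact S36TY_G_hole M q hq hqM A hA ζ hζ hζ1 n hn
    (S36AR_nuTwo_eq_zero hrp (by omega) hrM) (S36AR_nuThree_eq_zero hrp (by omega) hrM)
    SSD c hX hW1

end Fermat.Agent.S36
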