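import Fermat.Agent.S36.ChartTransferSep
import Fermat.Agent.S36.RBarInst
import Fermat.Agent.S36.LDesc

/-!
# TRACK 10 (S36), §4 ASSEMBLY (helper19): `G'` on the concrete chart `U' = {B ≠ c}`.
Prefix `S36TZ_`.

`S36TZ_geo'` : **`S36TI_Geo hS (S36CZ_C' c n hn) X (hX.of_le hle') Kp`** (HOLE 3 of helper2's
`WireConc`) `=` helper2's `S36CX_geo_U'2` on helper23's charts `S36CZ_C`, `S36CZ_C' c`,
`S36CZ_C'' c`, with everything that does not depend on the geometry of the nodes plugged in: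

* `hPKF` (`S36LD_hRR`), `g = (B − c)⁻¹ ∈ O₃` with its three reductions `1/z̄`
  (`S36TZ_g`, `S36TZ_hg`, `S36TZ_hr₁/₂/₃`);
* RBAR for the separating coordinate `w_j = j̄` (helper26 `S36RI_hk`, `S36RI_transc`, `S36RI_fd`,
  `S36RI_sep`), `e = q`, `d₀ ^ q = c̄`, `z̄ = (j̄ − d₀) ^ q` (helper23 `S36CZ_zb_eq_pow`).

Left as hypotheses (verbatim shapes on the concrete charts): `hX` (helper21), `hW1` on `C''`
(helper9), `hint_j` on `C'` (NODAL3 on `U'`), `G` on `C` (helper11, §3), `hcusp₁/₃` (helper8),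
`hcusp₂` (helper27).
-/

set_option autoImplicit false
set_option linter.unusedSectionVars false
set_option linter.unusedVariables false
set_option linter.style.haveILetI false
set_option synthInstance.maxHeartbeats 400000
set_option maxHeartbeats 1000000

open AlgebraicCurve ModularCurve HahnSeries IntermediateField

noncomputable section

namespace Fermat.Agent.S36

open Fermat.Agent.Lib Fermat.Agent.S18 Fermat.Agent.S24 Fermat.Agent.S34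

local notation "Ω" => AlgebraicClosure ℚ

variable (M q : ℕ) [NeZero M] [NeZero q] (hq : q.Prime) (hqM : ¬ q ∣ M)
  (A : ValuationSubring Ω) (hA : A.LiesOverPrime q)
  (ζ : Ωˣ) (hζ : ζ ^ q = 1) (hζ1 : ζ ≠ 1)

/-! ### the function `g = (B − c)⁻¹` -/

variable (c : (S36FI_SFF M q hq hqM A hA).A)

/-- `g = (B − c)⁻¹ ∈ O₃`. -/
def S36TZ_g :
    S36L3_O3 (S36FI_SFF M q hq hqM A hA) (S36FI_SFV M q hq hqM A hA ζ hζ hζ1)
      (S36FI_SVV M q hq hqM A hA) :=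
  ⟨_, S36CZ_hsO M q hq hqM A hA ζ hζ hζ1 c⟩

/-- `hg` of `S36CX_geo_U'2`. -/
theorem S36TZ_hg :
    (((S36TZ_g M q hq hqM A hA ζ hζ hζ1 c :
        ↥(S36FI_act (M * q * q) (A.inertiaSubgroupIn ℚ)).fixF)) :
        ↥(modularFunctionFieldBar (M * q * q))) =
      (((S36CO_BL M q (A.inertiaSubgroupIn ℚ) :
          ↥(S36FI_act (M * q * q) (A.inertiaSubgroupIn ℚ)).fixF) :
          ↥(modularFunctionFieldBar (M * q * q))) -
        algebraMap Ω ↥(modularFunctionFieldBar (M * q * q))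
          (((c : ↥(S36FI_act (M * q * q) (A.inertiaSubgroupIn ℚ)).fixK)) : Ω))⁻¹ :=
  rfl

/-- the reduction of `g` along `FF` is `1/z̄`. -/
theorem S36TZ_hr₁ :
    (S36L3_red (S36FI_SFF M q hq hqM A hA) (S36FI_SFV M q hq hqM A hA ζ hζ hζ1)
      (S36FI_SVV M q hq hqM A hA) (S36TZ_g M q hq hqM A hA ζ hζ hζ1 c)).1 =
      (S36CZ_xb M q hq hqM A hA -
        algebraMap (IsLocalRing.ResidueField A) ↥(S36FI_kappa M A)
          ((S36FI_SFF M q hq hqM A hA).res c))⁻¹ :=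
  S36CO_red_inv (S36FI_SFF M q hq hqM A hA) (S36CZ_B_mem₁ M q hq hqM A hA) c
    (S36CO_ne_const_of_transc (S36CZ_xb_transc M q hq hqM A hA) _)

/-- the reduction of `g` along `FV` is `1/z̄`. -/
theorem S36TZ_hr₂ :
    (S36L3_red (S36FI_SFF M q hq hqM A hA) (S36FI_SFV M q hq hqM A hA ζ hζ hζ1)
      (S36FI_SVV M q hq hqM A hA) (S36TZ_g M q hq hqM A hA ζ hζ hζ1 c)).2.1 =
      (S36CZ_xb M q hq hqM A hA -
        algebraMap (IsLocalRing.ResidueField A) ↥(S36FI_kappa M A)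
          ((S36FI_SFF M q hq hqM A hA).res c))⁻¹ := by
  have hS := S36FI_same3 M q hq hqM A hA ζ hζ hζ1
  have hc : ((c : ↥(S36FI_act (M * q * q) (A.inertiaSubgroupIn ℚ)).fixK)) ∈
      (S36FI_SFV M q hq hqM A hA ζ hζ hζ1).A := by
    rw [← hS.same₂.A_eq]
    exact c.2
  have hB := S36CZ_B_mem₂ M q hq hqM A hA ζ hζ hζ1
  have hne : (S36FI_SFV M q hq hqM A hA ζ hζ hζ1).red ⟨_, hB⟩ ≠
      algebraMap (IsLocalRing.ResidueField A) ↥(S36FI_kappa M A)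
        ((S36FI_SFV M q hq hqM A hA ζ hζ hζ1).res ⟨_, hc⟩) := by
    rw [S36CZ_red₂]
    exact S36CO_ne_const_of_transc (S36CZ_xb_transc M q hq hqM A hA) _
  have h1 := S36CO_red_inv (S36FI_SFV M q hq hqM A hA ζ hζ hζ1) hB ⟨_, hc⟩ hne
  rw [S36CZ_red₂, ← hS.same₂.res_eq _ c.2 hc] at h1
  exact h1

/-- the reduction of `g` along `VV` is `1/z̄`. -/
theorem S36TZ_hr₃ :
    (S36L3_red (S36FI_SFF M q hq hqM A hA) (S36FI_SFV M q hq hqM A hA ζ hζ hζ1)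
      (S36FI_SVV M q hq hqM A hA) (S36TZ_g M q hq hqM A hA ζ hζ hζ1 c)).2.2 =
      (S36CZ_xb M q hq hqM A hA -
        algebraMap (IsLocalRing.ResidueField A) ↥(S36FI_kappa M A)
          ((S36FI_SFF M q hq hqM A hA).res c))⁻¹ := by
  have hS := S36FI_same3 M q hq hqM A hA ζ hζ hζ1
  have hc : ((c : ↥(S36FI_act (M * q * q) (A.inertiaSubgroupIn ℚ)).fixK)) ∈
      (S36FI_SVV M q hq hqM A hA).A := by
    rw [← hS.same₃.A_eq]
    exact c.2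
  have hB := S36CZ_B_mem₃ M q hq hqM A hA
  have hne : (S36FI_SVV M q hq hqM A hA).red ⟨_, hB⟩ ≠
      algebraMap (IsLocalRing.ResidueField A) ↥(S36FI_kappa M A)
        ((S36FI_SVV M q hq hqM A hA).res ⟨_, hc⟩) := by
    rw [S36CZ_red₃]
    exact S36CO_ne_const_of_transc (S36CZ_xb_transc M q hq hqM A hA) _
  have h1 := S36CO_red_inv (S36FI_SVV M q hq hqM A hA) hB ⟨_, hc⟩ hne
  rw [S36CZ_red₃, ← hS.same₃.res_eq _ c.2 hc] at h1
  exact h1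

/-! ### the assembly -/

variable (n : ℕ) (hn : 0 < n)

/-- **§4: the geometric inputs `G'` of the chart `U' = {B ≠ c}`** (HOLE 3 of `WireConc`). -/
theorem S36TZ_geo'
    {ι : Type*} {X : S36SE_Pts (IsLocalRing.ResidueField A) ↥(S36FI_kappa M A)
      ↥(S36FI_kappa M A) ↥(S36FI_kappa M A) ι}
    (hX : S36SE_Reg (S36CZ_C'' M q hq hqM A hA c n hn) X)
    {Kp : Subgroup (↥(S36FI_act (M * q * q) (A.inertiaSubgroupIn ℚ)).fixF)ˣ}
    (hKp : Kp ≤ S36L3_NormGrp (S36FI_SFF M q hq hqM A hA) (S36FI_SFV M q hq hqM A hA ζ hζ hζ1)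
      (S36FI_SVV M q hq hqM A hA))
    -- NODAL3-INST on `C''` and on `C'`
    (hW1 : ∀ m ∈ S36L3_W (S36FI_same3 M q hq hqM A hA ζ hζ hζ1)
        (S36CZ_C'' M q hq hqM A hA c n hn) 1, ∀ y,
      S36SE_e₁ _ X hX y m.1 = S36SE_e₂ _ X hX y m.2.1 ∧
      S36SE_e₁ _ X hX y m.1 = S36SE_e₃ _ X hX y m.2.2)
    (hint₁ : ∀ a a' : ↥(S36CZ_C' M q hq hqM A hA c n hn).Rb₁,
      (∀ y, S36SE_e₁ _ X (hX.of_le (S36CZ_hle' M q hq hqM A hA c n hn)) y a = 0) →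
      (∀ y, S36SE_e₁ _ X (hX.of_le (S36CZ_hle' M q hq hqM A hA c n hn)) y a' = 0) →
      ((a * a', 0, 0) : _ × _ × _) ∈ S36L3_W (S36FI_same3 M q hq hqM A hA ζ hζ hζ1)
        (S36CZ_C' M q hq hqM A hA c n hn) 1)
    (hint₂ : ∀ a a' : ↥(S36CZ_C' M q hq hqM A hA c n hn).Rb₂,
      (∀ y, S36SE_e₂ _ X (hX.of_le (S36CZ_hle' M q hq hqM A hA c n hn)) y a = 0) →
      (∀ y, S36SE_e₂ _ X (hX.of_le (S36CZ_hle' M q hq hqM A hA c n hn)) y a' = 0) →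
      ((0, a * a', 0) : _ × _ × _) ∈ S36L3_W (S36FI_same3 M q hq hqM A hA ζ hζ hζ1)
        (S36CZ_C' M q hq hqM A hA c n hn) 1)
    (hint₃ : ∀ a a' : ↥(S36CZ_C' M q hq hqM A hA c n hn).Rb₃,
      (∀ y, S36SE_e₃ _ X (hX.of_le (S36CZ_hle' M q hq hqM A hA c n hn)) y a = 0) →
      (∀ y, S36SE_e₃ _ X (hX.of_le (S36CZ_hle' M q hq hqM A hA c n hn)) y a' = 0) →
      ((0, 0, a * a') : _ × _ × _) ∈ S36L3_W (S36FI_same3 M q hq hqM A hA ζ hζ hζ1)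
        (S36CZ_C' M q hq hqM A hA c n hn) 1)
    -- §3: the chart `U`
    (G : S36TI_Geo (S36FI_same3 M q hq hqM A hA ζ hζ hζ1) (S36CZ_C M q hq hqM A hA n hn) X
      (hX.of_le (S36CZ_hle M q hq hqM A hA c n hn)) Kp)
    -- (LI) at the cusps
    (hcusp₁ : ∀ u ∈ Kp, ∀ P : Place (IsLocalRing.ResidueField A) ↥(S36FI_kappa M A),
      ¬ P.adicValuation (S36CZ_xb M q hq hqM A hA) ≤ 1 →
      P.adicValuation (S36CZ_zb M q hq hqM A hA c)⁻¹ ≤ 1 →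
      ∃ m ∈ S36L3_W (S36FI_same3 M q hq hqM A hA ζ hζ hζ1) (S36CZ_C' M q hq hqM A hA c n hn)
          ((u : (↥(S36FI_act (M * q * q) (A.inertiaSubgroupIn ℚ)).fixF)ˣ) :
            ↥(S36FI_act (M * q * q) (A.inertiaSubgroupIn ℚ)).fixF),
        FD_c0 P ((m.1 : ↥(S36CZ_C' M q hq hqM A hA c n hn).Rb₁) : ↥(S36FI_kappa M A)) ≠ 0)
    (hcusp₂ : ∀ u ∈ Kp, ∀ P : Place (IsLocalRing.ResidueField A) ↥(S36FI_kappa M A),
      ¬ P.adicValuation (S36CZ_xb M q hq hqM A hA) ≤ 1 →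
      P.adicValuation (S36CZ_zb M q hq hqM A hA c)⁻¹ ≤ 1 →
      ∃ m ∈ S36L3_W (S36FI_same3 M q hq hqM A hA ζ hζ hζ1) (S36CZ_C' M q hq hqM A hA c n hn)
          ((u : (↥(S36FI_act (M * q * q) (A.inertiaSubgroupIn ℚ)).fixF)ˣ) :
            ↥(S36FI_act (M * q * q) (A.inertiaSubgroupIn ℚ)).fixF),
        FD_c0 P ((m.2.1 : ↥(S36CZ_C' M q hq hqM A hA c n hn).Rb₂) : ↥(S36FI_kappa M A)) ≠ 0)
    (hcusp₃ : ∀ u ∈ Kp, ∀ P : Place (IsLocalRing.ResidueField A) ↥(S36FI_kappa M A),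
      ¬ P.adicValuation (S36CZ_xb M q hq hqM A hA) ≤ 1 →
      P.adicValuation (S36CZ_zb M q hq hqM A hA c)⁻¹ ≤ 1 →
      ∃ m ∈ S36L3_W (S36FI_same3 M q hq hqM A hA ζ hζ hζ1) (S36CZ_C' M q hq hqM A hA c n hn)
          ((u : (↥(S36FI_act (M * q * q) (A.inertiaSubgroupIn ℚ)).fixF)ˣ) :
            ↥(S36FI_act (M * q * q) (A.inertiaSubgroupIn ℚ)).fixF),
        FD_c0 P ((m.2.2 : ↥(S36CZ_C' M q hq hqM A hA c n hn).Rb₃) : ↥(S36FI_kappa M A)) ≠ 0) :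
    S36TI_Geo (S36FI_same3 M q hq hqM A hA ζ hζ hζ1) (S36CZ_C' M q hq hqM A hA c n hn) X
      (hX.of_le (S36CZ_hle' M q hq hqM A hA c n hn)) Kp := by
  haveI : IsAlgClosed (IsLocalRing.ResidueField A) := S18_residue_isAlgClosed A
  haveI := S36RI_fd M q hq hqM A hA
  haveI := S36RI_sep M q hq hqM A hA
  obtain ⟨d₀, hd₀⟩ := S36CZ_exists_root M q hq hqM A hA c
  have hxw := S36CZ_zb_eq_pow M q hq hqM A hA c d₀ hd₀
  have hrr := S36RI_hk M q hq hqM A hA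
  have htr := S36RI_transc M A
  exact S36CX_geo_U'2 (S36FI_act (M * q * q) (A.inertiaSubgroupIn ℚ))
    (S36FI_same3 M q hq hqM A hA ζ hζ hζ1) (S36LD_hRR (M * q * q)).principal
    (S36CO_BL M q (A.inertiaSubgroupIn ℚ))
    (c : ↥(S36FI_act (M * q * q) (A.inertiaSubgroupIn ℚ)).fixK)
    ((S36FI_SFF M q hq hqM A hA).res c)
    (S36CZ_xb M q hq hqM A hA) (S36CZ_xb M q hq hqM A hA) (S36CZ_xb M q hq hqM A hA) n hn
    hX hKp (S36TZ_g M q hq hqM A hA ζ hζ hζ1 c) (S36TZ_hg M q hq hqM A hA ζ hζ hζ1 c)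
    (S36TZ_hr₁ M q hq hqM A hA ζ hζ hζ1 c) (S36TZ_hr₂ M q hq hqM A hA ζ hζ hζ1 c)
    (S36TZ_hr₃ M q hq hqM A hA ζ hζ hζ1 c)
    hrr hrr hrr
    (S18_jbar M (IsLocalRing.ResidueField A)) (S18_jbar M (IsLocalRing.ResidueField A))
    (S18_jbar M (IsLocalRing.ResidueField A)) d₀ q hq.pos hxw hxw hxw htr htr htr
    hW1 hint₁ hint₂ hint₃ G hcusp₁ hcusp₂ hcusp₃

end Fermat.Agent.S36
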