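import Fermat.Agent.S36.WireConcHoles
import Fermat.Agent.S36.HVInstG
import Fermat.Agent.S36.Triv3UF
import Fermat.Agent.S36.Triv3UZ
import Fermat.Agent.S36.CuspLiUnrFin
import Fermat.Agent.S36.Nodal3UHint
import Fermat.Agent.S36.CuspRamInst

/-!
# TRACK 10 (S36), package WIRE (helper2), layer 3c: THE FINAL INSTANCE

Prefix `S36WX_`.  The named holes of `S36/WireConcHoles.lean` are closed by
`S36HG_Eblock` (helper4), `S36TY_G` (helper11; helper24, helper5, helper14, helper21),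
`S36TZ_geo'` (helper19) with `S36NU_hint` (helper12), `S36CLI_hcusp₁_fin/₃_fin` (helper8) and
`hcusp₂` (helper27), giving `S36WX_coreLAll : S36WC_CoreLAll`.
-/

set_option autoImplicit false
set_option linter.style.haveILetI false
set_option linter.unusedSectionVars false
set_option linter.unusedVariables false
set_option linter.style.longLine false
set_option synthInstance.maxHeartbeats 400000
set_option maxHeartbeats 1000000

open AlgebraicCurve ModularCurve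

namespace Fermat.Agent.S36

open Fermat.Agent.S18 Fermat.Agent.S34 Fermat.Agent.S24 Fermat.Agent.S35 Fermat.Agent.GalRep
open Fermat.Agent.Lib

local notation "ℚbar" => AlgebraicClosure ℚ

attribute [local instance 10] S36CT_alg

section holes

variable (M q : ℕ) [NeZero M] [NeZero q] [NeZero (M * q)] [NeZero (M * q * q)]
  (hq : q.Prime) (hqM : ¬ q ∣ M)
  (A : ValuationSubring ℚbar) (hA : A.LiesOverPrime q)
  (ζ : ℚbarˣ) (hζ : ζ ^ q = 1) (hζ1 : ζ ≠ 1)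
  {hgen : PrincipalGeneratedByIntegral A (IsLocalRing.residue A) (M * q)}
  (n : ℕ) (hn : 0 < n)

/-- HOLE E is closed (helper4). -/
theorem S36WX_holeE (D : S36SS_Data M q hq hqM A hgen n hn) :
    S36WX_HoleE M q hq hqM A hA ζ hζ hζ1 n hn D :=
  fun hC => S36HG_Eblock hA D (S36CZ_C M q hq hqM A hA n hn) hC
    (S36FI_kappa M A).val (S36FI_kappa M A).val (S36FI_kappa M A).val
    (fun _ => rfl) (fun _ => rfl) (fun _ => rfl)
    (S36CI_Hc M q hq hqM A hA ζ hζ hζ1 n hn).Ψ (fun _ => rfl)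

/-- HOLE G is closed (helper11). -/
theorem S36WX_holeG (hν₂ : nuTwo M = 0) (hν₃ : nuThree M = 0)
    (D : S36SS_Data M q hq hqM A hgen n hn) :
    S36WX_HoleG M q hq hqM A hA ζ hζ hζ1 n hn D :=
  fun hC hW1 => S36TY_G M q hq hqM A hA ζ hζ hζ1 n hn hν₂ hν₃ D (hC := hC) hW1

/-- HOLE G' from `hcusp₂`. -/
theorem S36WX_holeG'_of (D : S36SS_Data M q hq hqM A hgen n hn)
    (hcusp₂ : ∀ c : (S36FI_SFF M q hq hqM A hA).A,
      ∀ hX : S36SE_Reg (S36CZ_C'' M q hq hqM A hA c n hn) (S36SE_XSS M q hq hqM A hA D),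
      (∀ a a' : ↥(S36CZ_C' M q hq hqM A hA c n hn).Rb₂,
        (∀ y, S36SE_e₂ _ (S36SE_XSS M q hq hqM A hA D)
          (hX.of_le (S36CZ_hle' M q hq hqM A hA c n hn)) y a = 0) →
        (∀ y, S36SE_e₂ _ (S36SE_XSS M q hq hqM A hA D)
          (hX.of_le (S36CZ_hle' M q hq hqM A hA c n hn)) y a' = 0) →
        ((0, a * a', 0) : ↥(S36CZ_C' M q hq hqM A hA c n hn).Rb₁ ×
          ↥(S36CZ_C' M q hq hqM A hA c n hn).Rb₂ × ↥(S36CZ_C' M q hq hqM A hA c n hn).Rb₃) ∈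
            S36L3_W (S36FI_same3 M q hq hqM A hA ζ hζ hζ1)
              (S36CZ_C' M q hq hqM A hA c n hn) 1) →
      ∀ u ∈ S36LC_Kp (S36FI_act (M * q * q) (A.inertiaSubgroupIn ℚ)) n
          (S36FI_SFF M q hq hqM A hA) (S36FI_SFV M q hq hqM A hA ζ hζ hζ1)
          (S36FI_SVV M q hq hqM A hA),
        ∀ P : Place (IsLocalRing.ResidueField A) ↥(S36FI_kappa M A),
        ¬ P.adicValuation (S36CZ_xb M q hq hqM A hA) ≤ 1 →
        P.adicValuation (S36CZ_zb M q hq hqM A hA c)⁻¹ ≤ 1 →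
        ∃ m ∈ S36L3_W (S36FI_same3 M q hq hqM A hA ζ hζ hζ1)
            (S36CZ_C' M q hq hqM A hA c n hn)
            ((u : (↥(S36FI_act (M * q * q) (A.inertiaSubgroupIn ℚ)).fixF)ˣ) :
              ↥(S36FI_act (M * q * q) (A.inertiaSubgroupIn ℚ)).fixF),
          FD_c0 P ((m.2.1 : ↥(S36CZ_C' M q hq hqM A hA c n hn).Rb₂) :
            ↥(S36FI_kappa M A)) ≠ 0) :
    S36WX_HoleG' M q hq hqM A hA ζ hζ hζ1 n hn D := by
  classical
  refine ⟨Finset.univ.image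
    (fun i : Fin D.s => D.e₁ i ⟨S34M_xb M q A, S34SB_self_mem_reg _⟩),
    fun c hcT hCok hX hW1 G => ?_⟩
  have hc : ∀ i, D.e₁ i ⟨S34M_xb M q A, S34SB_self_mem_reg _⟩ ≠
      (S36FI_SFF M q hq hqM A hA).res c := fun i h =>
    hcT (Finset.mem_image.2 ⟨i, Finset.mem_univ _, h⟩)
  obtain ⟨hint₁, hint₂, hint₃⟩ := S36NU_hint M q hq hqM A hA ζ hζ hζ1 hgen D c hc n hn
    (hX.of_le (S36CZ_hle' M q hq hqM A hA c n hn))
  exact S36TZ_geo' M q hq hqM A hA ζ hζ hζ1 c n hn hX S36LC_Kp_le hW1 hint₁ hint₂ hint₃ G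
    (S36CLI_hcusp₁_fin M q hq hqM A hA ζ hζ hζ1 c n hn hX hint₁)
    (hcusp₂ c hX hint₂)
    (S36CLI_hcusp₃_fin M q hq hqM A hA ζ hζ hζ1 c n hn hX hint₃)

/-- HOLE G' is closed (helper19; helper12, helper8, helper27). -/
theorem S36WX_holeG' (D : S36SS_Data M q hq hqM A hgen n hn) :
    S36WX_HoleG' M q hq hqM A hA ζ hζ hζ1 n hn D :=
  S36WX_holeG'_of M q hq hqM A hA ζ hζ hζ1 n hn D
    (fun c hX hint₂ => S36KR_hcusp₂_fin M q hq hqM A hA ζ hζ hζ1 c n hn hX hint₂)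

end holes

/-- **CORE over the inertia field, all levels** (the hypothesis `hCoreLAll` of
`S36WC_coreAll`). -/
theorem S36WX_coreLAll : S36WC_CoreLAll := by
  intro M q p hMq hMqq hqP hpP hqM hqp hr
  haveI : NeZero M := ⟨fun h => hMq.out (by rw [h, zero_mul])⟩
  haveI : NeZero q := ⟨hqP.out.ne_zero⟩
  obtain ⟨r, hrp, hr12, -, -, hrM, -⟩ := hr
  have hν₂ : nuTwo M = 0 := S36AR_nuTwo_eq_zero hrp (by omega) hrM
  have hν₃ : nuThree M = 0 := S36AR_nuThree_eq_zero hrp (by omega) hrM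
  exact S36WX_coreL_of_holes M q p hqM hqp (fun k A hA ζ hζ hζ1 D =>
    ⟨S36WX_holeE M q hqP.out hqM A hA ζ hζ hζ1 (p ^ k) (pow_pos hpP.out.pos k) D,
      S36WX_holeG M q hqP.out hqM A hA ζ hζ hζ1 (p ^ k) (pow_pos hpP.out.pos k) hν₂ hν₃ D,
      S36WX_holeG' M q hqP.out hqM A hA ζ hζ hζ1 (p ^ k) (pow_pos hpP.out.pos k) D⟩)

end Fermat.Agent.S36
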