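import Mathlib
import Fermat.Agent.GalRep.AdicRep

/-!
# TRACK 10 (S36), package ALG36 (helper2), part A2: from the limit representation to finite levels

`𝒯 : GR_Tower p N L T`, `e` a `ℤ`-basis of `L`, `𝒪` a local domain of characteristic `0`, complete
for its maximal ideal `𝔪 ∋ p`, `GRA_R e 𝒯 hp` the limit representation on `𝒪 ⊗ L`.

* `S36A_exists_functional` : an abelian group killed by `n` has enough homomorphisms to `ℤ/n`
  (from Mathlib's character module `Hom(-, ℚ/ℤ)`);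
* `S36A_Phi hp k φ : 𝒪 →ₗ[ℤ] ℤ/p^k` for an additive `φ : 𝒪/𝔪^k → ℤ/p^k`, semilinear for
  `GRA_Z p → 𝒪` (`S36A_Phi_lam_mul`);  `S36A_PhiL = Φ ⊗ L : 𝒪 ⊗ L → ℤ/p^k ⊗ L` intertwines
  `GRA_R e 𝒯 hp τ` with `𝒯.r k τ` (`S36A_PhiL_R`) and commutes with base-changed maps
  (`S36A_PhiL_baseChange`);
* **`S36A_core`** : if at every finite level `k` the classes `z ∈ ℤ/p^k ⊗ L` which are fixed by a
  set `I ⊆ G_ℚ` and killed by `ψ ⊗ ℤ/p^k` are killed by a fixed integer `c ≠ 0`, then a vector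
  `v ∈ 𝒪 ⊗ L` fixed by `I` and killed by `ψ ⊗ 𝒪` is `0`.
-/

set_option autoImplicit false

open scoped TensorProduct
open Module IsLocalRing

namespace Fermat.Agent.S36

open Fermat.Agent.GalRep


/-- `ℤ/n → ℚ/ℤ`, `j ↦ j/n`. -/
noncomputable def S36A_zmodToCircle (n : ℕ) : ZMod n →+ AddCircle (1 : ℚ) :=
  ZMod.lift n ⟨((QuotientAddGroup.mk' (AddSubgroup.zmultiples (1 : ℚ))).comp
      ((AddMonoidHom.mulRight ((n : ℚ)⁻¹)).comp (Int.castAddHom ℚ))), by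
    rcases Nat.eq_zero_or_pos n with h | h
    · subst h
      simp
    · show QuotientAddGroup.mk' (AddSubgroup.zmultiples (1 : ℚ)) (((n : ℤ) : ℚ) * (n : ℚ)⁻¹) = 0
      rw [QuotientAddGroup.mk'_apply, QuotientAddGroup.eq_zero_iff, Int.cast_natCast,
        mul_inv_cancel₀ (Nat.cast_ne_zero.mpr h.ne')]
      exact AddSubgroup.mem_zmultiples 1⟩

theorem S36A_zmodToCircle_intCast (n : ℕ) (m : ℤ) :
    S36A_zmodToCircle n (m : ZMod n) =
      QuotientAddGroup.mk' (AddSubgroup.zmultiples (1 : ℚ)) ((m : ℚ) * (n : ℚ)⁻¹) := by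
  unfold S36A_zmodToCircle
  rw [ZMod.lift_coe]
  rfl

theorem S36A_zmodToCircle_injective (n : ℕ) [NeZero n] :
    Function.Injective (S36A_zmodToCircle n) := by
  rw [injective_iff_map_eq_zero]
  intro a ha
  obtain ⟨m, rfl⟩ := ZMod.intCast_surjective a
  rw [S36A_zmodToCircle_intCast, QuotientAddGroup.mk'_apply, QuotientAddGroup.eq_zero_iff,
    AddSubgroup.mem_zmultiples_iff] at ha
  obtain ⟨k, hk⟩ := ha
  have hn : (n : ℚ) ≠ 0 := Nat.cast_ne_zero.mpr (NeZero.ne n)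
  have h1 : (m : ℚ) = ((k * n : ℤ) : ℚ) := by
    rw [zsmul_eq_mul, mul_one] at hk
    push_cast
    field_simp at hk ⊢
    linarith [hk]
  have h2 : m = k * n := by exact_mod_cast h1
  rw [h2]
  push_cast
  simp

theorem S36A_mem_range_zmodToCircle (n : ℕ) [NeZero n] (u : AddCircle (1 : ℚ))
    (hu : n • u = 0) : u ∈ (S36A_zmodToCircle n).range := by
  obtain ⟨r, rfl⟩ := QuotientAddGroup.mk'_surjective (AddSubgroup.zmultiples (1 : ℚ)) u
  rw [← map_nsmul, QuotientAddGroup.mk'_apply, QuotientAddGroup.eq_zero_iff,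
    AddSubgroup.mem_zmultiples_iff] at hu
  obtain ⟨k, hk⟩ := hu
  have hn : (n : ℚ) ≠ 0 := Nat.cast_ne_zero.mpr (NeZero.ne n)
  refine ⟨(k : ZMod n), ?_⟩
  rw [S36A_zmodToCircle_intCast]
  congr 1
  rw [zsmul_eq_mul, mul_one, nsmul_eq_mul] at hk
  rw [hk]
  field_simp

/-- **characters with values in `ℤ/n`**: an abelian group killed by `n` has enough homomorphisms
to `ℤ/n`. -/
theorem S36A_exists_functional {X : Type*} [AddCommGroup X] (n : ℕ) [NeZero n]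
    (hX : ∀ y : X, n • y = 0) {x : X} (hx : x ≠ 0) : ∃ φ : X →+ ZMod n, φ x ≠ 0 := by
  obtain ⟨c, hc⟩ := CharacterModule.exists_character_apply_ne_zero_of_ne_zero hx
  have hmem : ∀ y : X, (c : X →+ AddCircle (1 : ℚ)) y ∈ (S36A_zmodToCircle n).range := by
    intro y
    apply S36A_mem_range_zmodToCircle
    rw [← map_nsmul, hX, map_zero]
  let E := AddMonoidHom.ofInjective (S36A_zmodToCircle_injective n)
  refine ⟨E.symm.toAddMonoidHom.comp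
    ((c : X →+ AddCircle (1 : ℚ)).codRestrict (S36A_zmodToCircle n).range hmem), ?_⟩
  intro h0
  apply hc
  have h1 : E.symm (⟨c x, hmem x⟩ : (S36A_zmodToCircle n).range) = 0 := h0
  have h2 := congrArg E h1
  rw [AddEquiv.apply_symm_apply, map_zero] at h2
  exact congrArg Subtype.val h2


section Phi

variable {p : ℕ} {𝒪 : Type} [CommRing 𝒪] [IsLocalRing 𝒪]
  (hp : (p : 𝒪) ∈ maximalIdeal 𝒪) (k : ℕ) (φ : (𝒪 ⧸ maximalIdeal 𝒪 ^ k) →+ ZMod (p ^ k))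

/-- the `ℤ`-linear functional `𝒪 → 𝒪/𝔪^k → ℤ/p^k`. -/
noncomputable def S36A_Phi : 𝒪 →ₗ[ℤ] ZMod (p ^ k) :=
  (φ.comp (Ideal.Quotient.mk (maximalIdeal 𝒪 ^ k)).toAddMonoidHom).toIntLinearMap

theorem S36A_Phi_apply (x : 𝒪) :
    S36A_Phi k φ x = φ (Ideal.Quotient.mk (maximalIdeal 𝒪 ^ k) x) := rfl

/-- `Φ` is linear over `ℤ/p^k` acting through `GRA_iota`. -/
theorem S36A_Phi_iota_mul (r : ZMod (p ^ k)) (y : 𝒪 ⧸ maximalIdeal 𝒪 ^ k) :
    φ (GRA_iota p 𝒪 hp k r * y) = r * φ y := by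
  obtain ⟨m, rfl⟩ := ZMod.intCast_surjective r
  rw [map_intCast, ← zsmul_eq_mul, map_zsmul, zsmul_eq_mul]

variable [IsAdicComplete (maximalIdeal 𝒪) 𝒪]

/-- `Φ (λ(a) x) = pr_k(a) Φ(x)` for `a ∈ GRA_Z p`. -/
theorem S36A_Phi_lam_mul (a : GRA_Z p) (x : 𝒪) :
    S36A_Phi k φ (GRA_lam p 𝒪 hp a * x) = GRA_pr p k a * S36A_Phi k φ x := by
  rw [S36A_Phi_apply, S36A_Phi_apply, map_mul, GRA_mk_lam, S36A_Phi_iota_mul]

end Phi

section PhiL

variable {p N : ℕ} {L : Type} [AddCommGroup L] {T : ℕ → Module.End ℤ L}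
  {ι : Type} [Fintype ι] [DecidableEq ι] (e : Basis ι ℤ L) (𝒯 : GR_Tower p N L T)
  {𝒪 : Type} [CommRing 𝒪] [IsLocalRing 𝒪]
  (hp : (p : 𝒪) ∈ maximalIdeal 𝒪) (k : ℕ) (φ : (𝒪 ⧸ maximalIdeal 𝒪 ^ k) →+ ZMod (p ^ k))

/-- `Φ ⊗ L : 𝒪 ⊗ L → ℤ/p^k ⊗ L`. -/
noncomputable def S36A_PhiL (L : Type) [AddCommGroup L] :
    (𝒪 ⊗[ℤ] L) →ₗ[ℤ] (ZMod (p ^ k) ⊗[ℤ] L) :=
  LinearMap.rTensor L (S36A_Phi k φ)

theorem S36A_PhiL_tmul {L : Type} [AddCommGroup L] (x : 𝒪) (l : L) :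
    S36A_PhiL k φ L (x ⊗ₜ[ℤ] l) = S36A_Phi k φ x ⊗ₜ[ℤ] l :=
  LinearMap.rTensor_tmul _ _ _ _

omit [Fintype ι] [DecidableEq ι] in
/-- the coordinates of `(Φ ⊗ L) v`. -/
theorem S36A_repr_PhiL (v : 𝒪 ⊗[ℤ] L) (i : ι) :
    (GRA_b e (ZMod (p ^ k))).repr (S36A_PhiL k φ L v) i
      = S36A_Phi k φ ((GRA_b e 𝒪).repr v i) := by
  induction v using TensorProduct.induction_on with
  | zero => simp
  | tmul x l =>
    rw [S36A_PhiL_tmul, Algebra.TensorProduct.basis_repr_tmul,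
      Algebra.TensorProduct.basis_repr_tmul]
    simp only [Finsupp.smul_apply, Finsupp.mapRange_apply, smul_eq_mul, algebraMap_int_eq,
      eq_intCast]
    rw [mul_comm, ← zsmul_eq_mul, mul_comm, ← zsmul_eq_mul, map_zsmul]
  | add v w hv hw =>
    rw [map_add, map_add, Finsupp.add_apply, hv, hw, map_add, Finsupp.add_apply, map_add]

/-- `Φ ⊗ -` commutes with base-changed `ℤ`-linear maps. -/
theorem S36A_PhiL_baseChange {L' : Type} [AddCommGroup L'] (ψ : L →ₗ[ℤ] L') (v : 𝒪 ⊗[ℤ] L) :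
    ψ.baseChange (ZMod (p ^ k)) (S36A_PhiL k φ L v) = S36A_PhiL k φ L' (ψ.baseChange 𝒪 v) := by
  induction v using TensorProduct.induction_on with
  | zero => simp
  | tmul x l =>
    rw [S36A_PhiL_tmul, LinearMap.baseChange_tmul, LinearMap.baseChange_tmul, S36A_PhiL_tmul]
  | add v w hv hw => rw [map_add, map_add, hv, hw, map_add, map_add]

variable [IsAdicComplete (maximalIdeal 𝒪) 𝒪]

/-- `Φ ⊗ L` intertwines the limit representation with the action at level `k`. -/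
theorem S36A_PhiL_R (τ : GQ) (v : 𝒪 ⊗[ℤ] L) :
    S36A_PhiL k φ L (GRA_R e 𝒯 hp τ v) = 𝒯.r k τ (S36A_PhiL k φ L v) := by
  apply (GRA_b e (ZMod (p ^ k))).repr.injective
  ext i
  rw [S36A_repr_PhiL]
  have h1 : (GRA_b e 𝒪).repr (GRA_R e 𝒯 hp τ v) i
      = (GRA_B e 𝒯 hp τ).mulVec (⇑((GRA_b e 𝒪).repr v)) i := by
    rw [GRA_R_apply, ← LinearMap.toMatrix_mulVec_repr (GRA_b e 𝒪) (GRA_b e 𝒪),
      LinearMap.toMatrix_toLin]
  have h2 : (GRA_b e (ZMod (p ^ k))).repr (𝒯.r k τ (S36A_PhiL k φ L v)) i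
      = (GRA_Ak e 𝒯 k τ).mulVec (⇑((GRA_b e (ZMod (p ^ k))).repr (S36A_PhiL k φ L v))) i := by
    rw [GRA_Ak, LinearMap.toMatrix_mulVec_repr]
  rw [h1, h2]
  simp only [Matrix.mulVec, dotProduct]
  rw [map_sum]
  refine Finset.sum_congr rfl fun j _ => ?_
  rw [S36A_repr_PhiL]
  show S36A_Phi k φ (GRA_lam p 𝒪 hp (GRA_A e 𝒯 τ i j) * _) = _
  rw [S36A_Phi_lam_mul]
  rfl

end PhiL

section core

variable {p N : ℕ} {L : Type} [AddCommGroup L] {T : ℕ → Module.End ℤ L}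
  {ι : Type} [Fintype ι] [DecidableEq ι] (e : Basis ι ℤ L) (𝒯 : GR_Tower p N L T)
  {𝒪 : Type} [CommRing 𝒪] [IsLocalRing 𝒪] [IsAdicComplete (maximalIdeal 𝒪) 𝒪]
  (hp : (p : 𝒪) ∈ maximalIdeal 𝒪)

/-- **ALG36, A2**: a bound at all finite levels for the classes fixed by `I` and killed by `ψ`
forces the `I`-fixed vectors of the limit representation in the kernel of `ψ` to vanish. -/
theorem S36A_core [IsDomain 𝒪] [CharZero 𝒪] [NeZero p]
    {L' : Type} [AddCommGroup L'] (ψ : L →ₗ[ℤ] L') (I : Set GQ) (c : ℕ) (hc : c ≠ 0)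
    (hfin : ∀ (k : ℕ) (z : ZMod (p ^ k) ⊗[ℤ] L), (∀ τ ∈ I, 𝒯.r k τ z = z) →
      ψ.baseChange (ZMod (p ^ k)) z = 0 → c • z = 0)
    (v : 𝒪 ⊗[ℤ] L) (hv : ∀ τ ∈ I, GRA_R e 𝒯 hp τ v = v) (hψ : ψ.baseChange 𝒪 v = 0) :
    v = 0 := by
  by_contra hv0
  -- a non-zero coordinate
  obtain ⟨i, hi⟩ : ∃ i, (GRA_b e 𝒪).repr v i ≠ 0 := by
    by_contra hcon
    simp only [not_exists, not_not] at hcon
    apply hv0
    apply (GRA_b e 𝒪).repr.injective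
    ext i
    rw [hcon i, map_zero, Finsupp.zero_apply]
  set x : 𝒪 := (c : 𝒪) * (GRA_b e 𝒪).repr v i with hx
  have hx0 : x ≠ 0 := mul_ne_zero (Nat.cast_ne_zero.mpr hc) hi
  -- a level at which `x` survives
  obtain ⟨k, hk⟩ : ∃ k : ℕ, x ∉ maximalIdeal 𝒪 ^ k := by
    by_contra hcon
    simp only [not_exists, not_not] at hcon
    apply hx0
    apply IsHausdorff.haus (inferInstance : IsHausdorff (maximalIdeal 𝒪) 𝒪) x
    intro n
    rw [SModEq.zero, smul_eq_mul, Ideal.mul_top]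
    exact hcon n
  have hxk : Ideal.Quotient.mk (maximalIdeal 𝒪 ^ k) x ≠ 0 := by
    rw [Ne, Ideal.Quotient.eq_zero_iff_mem]
    exact hk
  have : NeZero (p ^ k) := ⟨pow_ne_zero k (NeZero.ne p)⟩
  have hkill : ∀ y : 𝒪 ⧸ maximalIdeal 𝒪 ^ k, (p ^ k) • y = 0 := by
    intro y
    rw [nsmul_eq_mul, GRA_natCast_pow_eq_zero p 𝒪 hp k, zero_mul]
  obtain ⟨φ, hφ⟩ := S36A_exists_functional (p ^ k) hkill hxk
  -- the class at level `k`
  have h1 : ∀ τ ∈ I, 𝒯.r k τ (S36A_PhiL k φ L v) = S36A_PhiL k φ L v := by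
    intro τ hτ
    rw [← S36A_PhiL_R e 𝒯 hp k φ τ v, hv τ hτ]
  have h2 : ψ.baseChange (ZMod (p ^ k)) (S36A_PhiL k φ L v) = 0 := by
    rw [S36A_PhiL_baseChange, hψ, map_zero]
  have h3 := hfin k _ h1 h2
  have h4 := congrArg (fun w => (GRA_b e (ZMod (p ^ k))).repr w i) h3
  simp only [map_nsmul, Finsupp.smul_apply, map_zero, Finsupp.zero_apply] at h4
  rw [S36A_repr_PhiL, ← map_nsmul, nsmul_eq_mul, ← hx] at h4
  exact hφ h4

end core

end Fermat.Agent.S36
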