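import Mathlib

/-!
# TRACK 10 (S36), package ALG36 (helper2), part A1: Kolchin's lemma in rank 2

`V` free of rank 2 over a domain `R`, `ρ : G →* End_R V`, `H ≤ G` a subgroup all of whose elements
have characteristic polynomial `(X − 1)²`.  Then `H` fixes a vector `v ≠ 0`
(`S36A_kolchin`).

Proof: for `τ, τ₀ ∈ H` put `N = ρ τ − 1`, `N₀ = ρ τ₀ − 1` (trace `0`, determinant `0`);
`tr (ρ (τ τ₀)) = 2` gives `tr (N N₀) = 0`, and then `N N₀ = 0` by an identity of `2 × 2` matrices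
over a domain (`S36A_mat_mul_eq_zero`).  So `v = N₀ w ≠ 0` is fixed by all of `H`.
-/

set_option autoImplicit false

open Polynomial

namespace Fermat.Agent.S36

section matrix

variable {R : Type*} [CommRing R] [IsDomain R]

/-- two traceless `2 × 2` matrices of determinant `0` over a domain with `tr (N N₀) = 0` have
product `0`. -/
theorem S36A_mat_mul_eq_zero (N N₀ : Matrix (Fin 2) (Fin 2) R)
    (ht : N 0 0 + N 1 1 = 0) (hd : N 0 0 * N 1 1 - N 0 1 * N 1 0 = 0)
    (ht₀ : N₀ 0 0 + N₀ 1 1 = 0) (hd₀ : N₀ 0 0 * N₀ 1 1 - N₀ 0 1 * N₀ 1 0 = 0)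
    (htr : (N * N₀) 0 0 + (N * N₀) 1 1 = 0) : N * N₀ = 0 := by
  rw [Matrix.mul_apply, Matrix.mul_apply, Fin.sum_univ_two, Fin.sum_univ_two] at htr
  set a := N 0 0 with ha
  set b := N 0 1 with hb
  set c := N 1 0 with hc
  set d := N 1 1 with hdd
  set a₀ := N₀ 0 0 with ha₀
  set b₀ := N₀ 0 1 with hb₀
  set c₀ := N₀ 1 0 with hc₀
  set d₀ := N₀ 1 1 with hdd₀
  have hd' : d = -a := by linear_combination ht
  have hd₀' : d₀ = -a₀ := by linear_combination ht₀
  have h1 : a * a + b * c = 0 := by rw [hd'] at hd; linear_combination -hd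
  have h2 : a₀ * a₀ + b₀ * c₀ = 0 := by rw [hd₀'] at hd₀; linear_combination -hd₀
  have h3 : 2 * a * a₀ + b * c₀ + c * b₀ = 0 := by
    rw [hd', hd₀'] at htr
    linear_combination htr
  -- the four entries
  have e01 : a * b₀ - b * a₀ = 0 := by
    have : (a * b₀ - b * a₀) ^ 2 = 0 := by
      linear_combination (-(b * b₀)) * h3 + b₀ ^ 2 * h1 + b ^ 2 * h2
    exact pow_eq_zero_iff (two_ne_zero) |>.mp this
  have e10 : c * a₀ - a * c₀ = 0 := by
    have : (c * a₀ - a * c₀) ^ 2 = 0 := by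
      linear_combination (-(c * c₀)) * h3 + c₀ ^ 2 * h1 + c ^ 2 * h2
    exact pow_eq_zero_iff (two_ne_zero) |>.mp this
  have e00 : a * a₀ + b * c₀ = 0 := by
    have : (a * a₀ + b * c₀) ^ 2 = 0 := by
      linear_combination (b * c₀) * h3 + a₀ ^ 2 * h1 - (b * c) * h2
    exact pow_eq_zero_iff (two_ne_zero) |>.mp this
  have e11 : c * b₀ + a * a₀ = 0 := by linear_combination h3 - e00
  ext i j
  fin_cases i <;> fin_cases j
  · show (N * N₀) 0 0 = 0
    rw [Matrix.mul_apply, Fin.sum_univ_two]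
    exact e00
  · show (N * N₀) 0 1 = 0
    rw [Matrix.mul_apply, Fin.sum_univ_two, ← hdd₀, hd₀']
    linear_combination e01
  · show (N * N₀) 1 0 = 0
    rw [Matrix.mul_apply, Fin.sum_univ_two, ← hdd, hd']
    linear_combination e10
  · show (N * N₀) 1 1 = 0
    rw [Matrix.mul_apply, Fin.sum_univ_two, ← hdd, ← hdd₀, hd', hd₀']
    linear_combination e11

/-- a matrix with characteristic polynomial `(X − 1)²`: `M − 1` has trace `0` and determinant `0`. -/
theorem S36A_mat_unip (M : Matrix (Fin 2) (Fin 2) R) (h : M.charpoly = (X - 1) ^ 2) :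
    (M - 1) 0 0 + (M - 1) 1 1 = 0 ∧
      (M - 1) 0 0 * (M - 1) 1 1 - (M - 1) 0 1 * (M - 1) 1 0 = 0 := by
  rw [Matrix.charpoly_fin_two] at h
  have h1 := congrArg (fun p : R[X] => p.coeff 1) h
  have h0 := congrArg (fun p : R[X] => p.coeff 0) h
  have e : ((X : R[X]) - 1) ^ 2 = X ^ 2 - C 2 * X + C 1 := by
    rw [map_ofNat, map_one]
    ring
  simp only [e] at h1 h0
  simp only [coeff_add, coeff_sub, coeff_X_pow, coeff_C_mul, coeff_X_one,
    coeff_X_zero, mul_one, mul_zero, coeff_C] at h1 h0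
  norm_num at h1 h0
  rw [Matrix.trace_fin_two] at h1
  rw [Matrix.det_fin_two] at h0
  simp only [Matrix.sub_apply, Matrix.one_apply_eq, Matrix.one_apply_ne, ne_eq, zero_ne_one,
    one_ne_zero, not_false_eq_true, Fin.isValue, sub_zero]
  constructor
  · linear_combination h1
  · linear_combination h0 - h1

end matrix

section module

variable {R : Type*} [CommRing R] [IsDomain R] {V : Type*} [AddCommGroup V] [Module R V]
  [Module.Free R V] [Module.Finite R V]

/-- **Kolchin in rank 2**, operator form: if `ρ τ`, `ρ τ₀` and `ρ (τ τ₀)` have characteristic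
polynomial `(X − 1)²`, then `(ρ τ − 1)(ρ τ₀ − 1) = 0`. -/
theorem S36A_unip_mul_eq_zero (h2 : Module.finrank R V = 2) (f f₀ : Module.End R V)
    (hf : f.charpoly = (X - 1) ^ 2) (hf₀ : f₀.charpoly = (X - 1) ^ 2)
    (hff : (f * f₀).charpoly = (X - 1) ^ 2) : (f - 1) * (f₀ - 1) = 0 := by
  classical
  let b := Module.finBasisOfFinrankEq R V h2
  have key : ∀ g : Module.End R V, g.charpoly = (X - 1) ^ 2 →
      (LinearMap.toMatrix b b g).charpoly = (X - 1) ^ 2 := fun g hg => by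
    rw [LinearMap.charpoly_toMatrix g b, hg]
  set M := LinearMap.toMatrix b b f with hM
  set M₀ := LinearMap.toMatrix b b f₀ with hM₀
  obtain ⟨t1, d1⟩ := S36A_mat_unip M (key f hf)
  obtain ⟨t0, d0⟩ := S36A_mat_unip M₀ (key f₀ hf₀)
  have hmul : LinearMap.toMatrix b b (f * f₀) = M * M₀ := LinearMap.toMatrix_mul b f f₀
  obtain ⟨t2, -⟩ := S36A_mat_unip (M * M₀) (by rw [← hmul]; exact key _ hff)
  have htr : ((M - 1) * (M₀ - 1)) 0 0 + ((M - 1) * (M₀ - 1)) 1 1 = 0 := by
    have e : (M - 1) * (M₀ - 1) = (M * M₀ - 1) - (M - 1) - (M₀ - 1) := by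
      rw [sub_mul, mul_sub, mul_one, one_mul]
      abel
    rw [e]
    simp only [Matrix.sub_apply] at t1 t0 t2 ⊢
    linear_combination t2 - t1 - t0
  have hzero := S36A_mat_mul_eq_zero (M - 1) (M₀ - 1) t1 d1 t0 d0 htr
  apply (LinearMap.toMatrix b b).injective
  rw [map_zero]
  have e1 : LinearMap.toMatrix b b ((f - 1) * (f₀ - 1)) = (M - 1) * (M₀ - 1) := by
    rw [LinearMap.toMatrix_mul, map_sub, map_sub, LinearMap.toMatrix_one]
  rw [e1, hzero]

/-- **Kolchin's lemma in rank 2**: a subgroup of unipotent automorphisms of a free module of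
rank 2 over a domain has a common fixed vector `≠ 0`. -/
theorem S36A_kolchin (h2 : Module.finrank R V = 2) {G : Type*} [Group G]
    (ρ : G →* Module.End R V) (H : Subgroup G)
    (hH : ∀ τ ∈ H, (ρ τ).charpoly = (X - 1) ^ 2) :
    ∃ v : V, v ≠ 0 ∧ ∀ τ ∈ H, ρ τ v = v := by
  by_cases hall : ∀ τ ∈ H, ρ τ = 1
  · have : Nontrivial V := Module.nontrivial_of_finrank_pos (R := R) (by rw [h2]; norm_num)
    obtain ⟨v, hv⟩ := exists_ne (0 : V)
    exact ⟨v, hv, fun τ hτ => by rw [hall τ hτ, Module.End.one_apply]⟩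
  · simp only [not_forall] at hall
    obtain ⟨τ₀, hτ₀, hne⟩ := hall
    have hN₀ : ρ τ₀ - 1 ≠ 0 := sub_ne_zero.mpr hne
    obtain ⟨w, hw⟩ : ∃ w, (ρ τ₀ - 1) w ≠ 0 := by
      by_contra hcon
      simp only [not_exists, not_not] at hcon
      exact hN₀ (LinearMap.ext hcon)
    refine ⟨(ρ τ₀ - 1) w, hw, fun τ hτ => ?_⟩
    have h := S36A_unip_mul_eq_zero h2 (ρ τ) (ρ τ₀) (hH τ hτ) (hH τ₀ hτ₀)
      (by rw [← map_mul]; exact hH _ (H.mul_mem hτ hτ₀))
    have h' := congrArg (fun g : Module.End R V => g w) h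
    simp only [Module.End.mul_apply, LinearMap.zero_apply] at h'
    rw [LinearMap.sub_apply, Module.End.one_apply, sub_eq_zero] at h'
    exact h'

end module

end Fermat.Agent.S36
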