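import Mathlib
import Fermat.Agent.S41.DegPoly
import Fermat.Agent.S36.Bridge2

/-!
# TRACK 10 (S36), package DEGEN2 (helper27): Hecke equivariance of `trA`, `trB` at a prime `q ∣ N`

Level `N q`, `q` prime, `q ∣ N`.  The transfers `trA, trB : parInt (N q) → parInt N` commute with
the Hecke polynomials away from `q` (`T_ℓ` for `ℓ ∤ N q`, `U_r` for `r ∣ N`, `r ≠ q`).
On main this was known only for `q ∤ N` (`S41D_hA`, `S41D_hB`, transversals of size `q + 1`);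
here the transversals have size `q` (`S36B_lA_bijective`, `S36B_tB_bijective`).

* `S36D_trA_heckeT`, `S36D_trA_heckeU`, `S36D_trB_heckeT`, `S36D_trB_heckeU`;
* `S36D_hA`, `S36D_hB` : `trA ∘ ρ'(t) = ρ(t) ∘ trA`, same for `trB`  (`q ∣ N`);
* `S36D_hA_all`, `S36D_hB_all` : the same for every prime `q`;
* `S36D_ker_psi_stable` : `S41D_B N q = ker (trA, trB)` is stable under the Hecke polynomials
  away from `q`, for every prime `q`.
-/

set_option autoImplicit false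
set_option linter.style.haveILetI false

open Matrix MatrixGroups CongruenceSubgroup Matrix.SpecialLinearGroup
open ModularCurve ModularCurve.Period
open P2MW.S_ModularForm_heckeT_slash_eq_self_of_mem_Gamma0.ModularForm.HeckeSlashInvariance
open ModularForm

namespace Fermat.Agent.S36

open Fermat.Agent.S16 Fermat.Agent.GalRep Fermat.Agent.S41

/-- level preservation, `E = 1`, without coprimality of `q` and `N`:
`M y = k M'` with `k ∈ Γ₀(N q)`, `y ∈ Γ₀(N)` forces `N q ∣ y₁₀`. -/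
theorem S36D_heckeRep_lev1 {N p q : ℕ} [NeZero N] (hp : p ≠ 0) (hpq : IsCoprime (p : ℤ) (q : ℤ))
    (i i' : OnePoint (ZMod p)) (y : Gamma0 N) (k : Gamma0 (N * q))
    (h : heckeRep p i * ((1 : GL (Fin 2) ℝ) * S41D_iota N y)
      = S41D_iota (N * q) k * (heckeRep p i' * 1)) :
    ((N * q : ℕ) : ℤ) ∣ (y : SL(2, ℤ)) 1 0 := by
  rw [one_mul, mul_one] at h
  obtain ⟨-, -, e10, -⟩ := S41D_tri_entries _ _ _ _ _ _ _ _
    (S41D_heckeRep_val hp i) (S41D_heckeRep_val hp i') (y : SL(2, ℤ)) (k : SL(2, ℤ)) h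
  have hN0 : (N : ℤ) ≠ 0 := by exact_mod_cast NeZero.ne N
  obtain ⟨c, hc⟩ : ((N : ℕ) : ℤ) ∣ (y : SL(2, ℤ)) 1 0 := S41A_Gamma0_mem_iff.mp y.2
  obtain ⟨m, hm⟩ : ((N * q : ℕ) : ℤ) ∣ (k : SL(2, ℤ)) 1 0 := S41A_Gamma0_mem_iff.mp k.2
  have h1 : (q : ℤ) ∣ (S41D_abd p i).2.2 * c := by
    refine ⟨m * (S41D_abd p i').1, ?_⟩
    have e : (N : ℤ) * ((S41D_abd p i).2.2 * c) = (N : ℤ) * ((q : ℤ) * (m * (S41D_abd p i').1)) := by
      have := e10
      rw [hc, hm] at this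
      push_cast at this
      linear_combination this
    exact mul_left_cancel₀ hN0 e
  obtain ⟨c', hc'⟩ := (S41D_isCoprime_abd hpq i).2.symm.dvd_of_dvd_mul_left h1
  exact ⟨c', by rw [hc, hc']; push_cast; ring⟩

/-- two distinct primes are coprime, and `q ≠ 0` in `ZMod r`. -/
theorem S36D_coprime_of_ne {r q : ℕ} (hr : r.Prime) (hq : q.Prime) (hrq : r ≠ q) :
    IsCoprime (r : ℤ) (q : ℤ) ∧ ((q : ZMod r) ≠ 0) := by
  have h1 : ¬ r ∣ q := by
    intro h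
    rcases (Nat.dvd_prime hq).mp h with h1 | h1
    · exact hr.one_lt.ne' h1
    · exact hrq h1
  refine ⟨Nat.isCoprime_iff_coprime.mpr ((Nat.Prime.coprime_iff_not_dvd hr).mpr h1), ?_⟩
  intro h0
  exact h1 ((ZMod.natCast_eq_zero_iff q r).mp h0)

section final

variable (N q : ℕ) [NeZero N] [Fact q.Prime]

/-- **`trA` commutes with `T_ℓ`**, `ℓ ∤ N q`, `q ∣ N`. -/
theorem S36D_trA_heckeT (hqN : q ∣ N) (ℓ : Nat.Primes) (hℓ : ¬ (ℓ : ℕ) ∣ N * q)
    (χ : ↥(parInt (N * q))) :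
    S41D_trA N q (GRD_heckeL (N * q) (ModularCurve.heckeGen ℓ) χ)
      = GRD_heckeL N (ModularCurve.heckeGen ℓ) (S41D_trA N q χ) := by
  haveI : Fact (ℓ : ℕ).Prime := ⟨ℓ.2⟩
  have hq : q.Prime := Fact.out
  haveI : NeZero q := ⟨hq.ne_zero⟩
  have hℓN : ¬ (ℓ : ℕ) ∣ N := fun h => hℓ (Dvd.dvd.mul_right h q)
  obtain ⟨hcop, hq0⟩ := S41D_coprime_of_not_dvd N q ℓ.2 hℓ
  haveI := S41D_res_finiteIndex N q
  apply Subtype.ext
  refine AddMonoidHom.ext fun γ => ?_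
  obtain ⟨γ, rfl⟩ := Additive.ofMul.surjective γ
  rw [S41D_trA_coe]
  exact S41D_tr_hecke_comm (S41A_res N q) (S41D_res_injective N q) 1
    (fun h => by rw [one_mul, mul_one]; rfl) (fun j : ZMod q => S36B_lA N (j.val : ℤ))
    (S36B_lA_bijective hqN)
    (heckeRep (ℓ : ℕ)) (fun γ => S16_exists_heckeT_data (N := N) hℓN γ)
    (fun γ => S16_exists_heckeT_data (N := N * q) hℓ γ)
    (fun i i' k hk => S41D_heckeRep_sep ℓ.2 i i' _ hk)
    (fun i i' y k hk => (S36B_mem_range_res y).mpr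
      (S36D_heckeRep_lev1 ℓ.2.ne_zero hcop i i' y k hk))
    (fun i => ⟨1, i, by rw [map_one, mul_one, one_mul, one_mul]⟩)
    (χ : Additive (Gamma0 (N * q)) →+ ℤ) _
    (fun γ σ g' hd => GRD_heckeL_heckeT (N * q) ℓ hℓ χ γ σ g' hd) _
    (fun γ σ g' hd => GRD_heckeL_heckeT N ℓ hℓN (S41D_trA N q χ) γ σ g' hd) γ

/-- **`trB` commutes with `T_ℓ`**, `ℓ ∤ N q`, `q ∣ N`. -/
theorem S36D_trB_heckeT (hqN : q ∣ N) (ℓ : Nat.Primes) (hℓ : ¬ (ℓ : ℕ) ∣ N * q)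
    (χ : ↥(parInt (N * q))) :
    S41D_trB N q (GRD_heckeL (N * q) (ModularCurve.heckeGen ℓ) χ)
      = GRD_heckeL N (ModularCurve.heckeGen ℓ) (S41D_trB N q χ) := by
  haveI : Fact (ℓ : ℕ).Prime := ⟨ℓ.2⟩
  have hq : q.Prime := Fact.out
  haveI : NeZero q := ⟨hq.ne_zero⟩
  have hℓN : ¬ (ℓ : ℕ) ∣ N := fun h => hℓ (Dvd.dvd.mul_right h q)
  obtain ⟨hcop, hq0⟩ := S41D_coprime_of_not_dvd N q ℓ.2 hℓ
  haveI := S41D_deg_finiteIndex N q
  apply Subtype.ext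
  refine AddMonoidHom.ext fun γ => ?_
  obtain ⟨γ, rfl⟩ := Additive.ofMul.surjective γ
  rw [S41D_trB_coe]
  exact S41D_tr_hecke_comm (S41A_deg N q) (S41D_deg_injective N q) (heckeMatrix q 0)
    (S41D_D_deg hq.ne_zero) (fun j : ZMod q => S41D_T N (j.val : ℤ)) (S36B_tB_bijective hqN)
    (heckeRep (ℓ : ℕ)) (fun γ => S16_exists_heckeT_data (N := N) hℓN γ)
    (fun γ => S16_exists_heckeT_data (N := N * q) hℓ γ)
    (fun i i' k hk => S41D_heckeRep_sep ℓ.2 i i' _ hk)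
    (fun i i' y k hk => (S41D_mem_range_deg hq.ne_zero y).mpr
      (S41D_heckeRep_levD ℓ.2.ne_zero hq.ne_zero hcop i i' y k hk))
    (fun i => S41D_heckeRep_conjD hq.ne_zero i)
    (χ : Additive (Gamma0 (N * q)) →+ ℤ) _
    (fun γ σ g' hd => GRD_heckeL_heckeT (N * q) ℓ hℓ χ γ σ g' hd) _
    (fun γ σ g' hd => GRD_heckeL_heckeT N ℓ hℓN (S41D_trB N q χ) γ σ g' hd) γ

/-- **`trA` commutes with `U_r`**, `r ∣ N`, `r ≠ q`, `q ∣ N`. -/
theorem S36D_trA_heckeU (hqN : q ∣ N) (r : Nat.Primes) (hr : (r : ℕ) ∣ N) (hrq : (r : ℕ) ≠ q)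
    (χ : ↥(parInt (N * q))) :
    S41D_trA N q (GRD_heckeL (N * q) (ModularCurve.heckeGen r) χ)
      = GRD_heckeL N (ModularCurve.heckeGen r) (S41D_trA N q χ) := by
  haveI : Fact (r : ℕ).Prime := ⟨r.2⟩
  have hq : q.Prime := Fact.out
  haveI : NeZero q := ⟨hq.ne_zero⟩
  have hrNq : (r : ℕ) ∣ N * q := Dvd.dvd.mul_right hr q
  obtain ⟨hcop, hq0⟩ := S36D_coprime_of_ne r.2 hq hrq
  haveI := S41D_res_finiteIndex N q
  apply Subtype.ext
  refine AddMonoidHom.ext fun γ => ?_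
  obtain ⟨γ, rfl⟩ := Additive.ofMul.surjective γ
  rw [S41D_trA_coe]
  exact S41D_tr_hecke_comm (S41A_res N q) (S41D_res_injective N q) 1
    (fun h => by rw [one_mul, mul_one]; rfl) (fun j : ZMod q => S36B_lA N (j.val : ℤ))
    (S36B_lA_bijective hqN)
    (fun j : ZMod (r : ℕ) => heckeMatrix (r : ℕ) j.val)
    (fun γ => S16_exists_heckeU_data (N := N) hr γ)
    (fun γ => S16_exists_heckeU_data (N := N * q) hrNq γ)
    (fun i i' k hk => OnePoint.coe_injective (S41D_heckeRep_sep r.2 i i' _ hk))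
    (fun i i' y k hk => (S36B_mem_range_res y).mpr
      (S36D_heckeRep_lev1 r.2.ne_zero hcop i i' y k hk))
    (fun i => ⟨1, i, by rw [map_one, mul_one, one_mul, one_mul]⟩)
    (χ : Additive (Gamma0 (N * q)) →+ ℤ) _
    (fun γ σ g' hd => GRD_heckeL_heckeU (N * q) r hrNq χ γ σ g' hd) _
    (fun γ σ g' hd => GRD_heckeL_heckeU N r hr (S41D_trA N q χ) γ σ g' hd) γ

/-- **`trB` commutes with `U_r`**, `r ∣ N`, `r ≠ q`, `q ∣ N`. -/
theorem S36D_trB_heckeU (hqN : q ∣ N) (r : Nat.Primes) (hr : (r : ℕ) ∣ N) (hrq : (r : ℕ) ≠ q)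
    (χ : ↥(parInt (N * q))) :
    S41D_trB N q (GRD_heckeL (N * q) (ModularCurve.heckeGen r) χ)
      = GRD_heckeL N (ModularCurve.heckeGen r) (S41D_trB N q χ) := by
  haveI : Fact (r : ℕ).Prime := ⟨r.2⟩
  have hq : q.Prime := Fact.out
  haveI : NeZero q := ⟨hq.ne_zero⟩
  have hrNq : (r : ℕ) ∣ N * q := Dvd.dvd.mul_right hr q
  obtain ⟨hcop, hq0⟩ := S36D_coprime_of_ne r.2 hq hrq
  haveI := S41D_deg_finiteIndex N q
  apply Subtype.ext
  refine AddMonoidHom.ext fun γ => ?_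
  obtain ⟨γ, rfl⟩ := Additive.ofMul.surjective γ
  rw [S41D_trB_coe]
  exact S41D_tr_hecke_comm (S41A_deg N q) (S41D_deg_injective N q) (heckeMatrix q 0)
    (S41D_D_deg hq.ne_zero) (fun j : ZMod q => S41D_T N (j.val : ℤ)) (S36B_tB_bijective hqN)
    (fun j : ZMod (r : ℕ) => heckeMatrix (r : ℕ) j.val)
    (fun γ => S16_exists_heckeU_data (N := N) hr γ)
    (fun γ => S16_exists_heckeU_data (N := N * q) hrNq γ)
    (fun i i' k hk => OnePoint.coe_injective (S41D_heckeRep_sep r.2 i i' _ hk))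
    (fun i i' y k hk => (S41D_mem_range_deg hq.ne_zero y).mpr
      (S41D_heckeRep_levD r.2.ne_zero hq.ne_zero hcop i i' y k hk))
    (fun j => ⟨_, ((q : ZMod (r : ℕ)) * j : ZMod (r : ℕ)),
      S41D_conjD_fin r.2.ne_zero hq.ne_zero j.val _ _ (S41D_u_spec (r : ℕ) q j)⟩)
    (χ : Additive (Gamma0 (N * q)) →+ ℤ) _
    (fun γ σ g' hd => GRD_heckeL_heckeU (N * q) r hrNq χ γ σ g' hd) _
    (fun γ σ g' hd => GRD_heckeL_heckeU N r hr (S41D_trB N q χ) γ σ g' hd) γ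

/-- **(hA)** for `q ∣ N`. -/
theorem S36D_hA (hqN : q ∣ N) (t : S41D_R q) :
    S41D_trA N q ∘ₗ S41D_rho' N q t = S41D_rho N q t ∘ₗ S41D_trA N q := by
  refine S41D_equivariant_of_gen q _ _ _ (fun ℓ => ?_) t
  rw [S41D_rho_X, S41D_rho'_X]
  refine LinearMap.ext fun χ => ?_
  rcases S41D_prime_cases N q ℓ with h | h
  · exact S36D_trA_heckeU N q hqN ℓ.1 h ℓ.2 χ
  · exact S36D_trA_heckeT N q hqN ℓ.1 h χ

/-- **(hB)** for `q ∣ N`. -/
theorem S36D_hB (hqN : q ∣ N) (t : S41D_R q) :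
    S41D_trB N q ∘ₗ S41D_rho' N q t = S41D_rho N q t ∘ₗ S41D_trB N q := by
  refine S41D_equivariant_of_gen q _ _ _ (fun ℓ => ?_) t
  rw [S41D_rho_X, S41D_rho'_X]
  refine LinearMap.ext fun χ => ?_
  rcases S41D_prime_cases N q ℓ with h | h
  · exact S36D_trB_heckeU N q hqN ℓ.1 h ℓ.2 χ
  · exact S36D_trB_heckeT N q hqN ℓ.1 h χ

/-- **(hA)** for every prime `q`. -/
theorem S36D_hA_all (t : S41D_R q) :
    S41D_trA N q ∘ₗ S41D_rho' N q t = S41D_rho N q t ∘ₗ S41D_trA N q := by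
  by_cases hqN : q ∣ N
  · exact S36D_hA N q hqN t
  · exact S41D_hA N q hqN t

/-- **(hB)** for every prime `q`. -/
theorem S36D_hB_all (t : S41D_R q) :
    S41D_trB N q ∘ₗ S41D_rho' N q t = S41D_rho N q t ∘ₗ S41D_trB N q := by
  by_cases hqN : q ∣ N
  · exact S36D_hB N q hqN t
  · exact S41D_hB N q hqN t

/-- `S41D_B N q = ker ψ` is stable under the Hecke polynomials away from `q` (every prime `q`). -/
theorem S36D_ker_psi_stable (t : S41D_R q) (z : ↥(parInt (N * q)))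
    (hz : z ∈ S41D_B N q) : S41D_rho' N q t z ∈ S41D_B N q := by
  rw [S41D_mem_B] at hz ⊢
  have h1 := congrArg (fun g : ↥(parInt (N * q)) →ₗ[ℤ] ↥(parInt N) => g z) (S36D_hA_all N q t)
  have h2 := congrArg (fun g : ↥(parInt (N * q)) →ₗ[ℤ] ↥(parInt N) => g z) (S36D_hB_all N q t)
  simp only [LinearMap.comp_apply] at h1 h2
  exact ⟨by rw [h1, hz.1, map_zero], by rw [h2, hz.2, map_zero]⟩

end final

end Fermat.Agent.S36
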