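import Mathlib
import Fermat.Agent.S35.New
import Fermat.Agent.S35.Quartic
import Fermat.Agent.S36.Degen2

/-!
# TRACK 10 (S36), package ALG36 (helper2), part A4: the eigen-lattice of a newform is `q`-new

Level `N * q`, `q` ANY prime (in particular `q ∣ N`); `g` a newform of level `N * q`.

* `S36A_newform_psi` : for a newform `g` and a character `θ` of the Hecke polynomials with
  `θ P = 0 → λ_g P = 0`, the eigen-module of `θ` in `𝒪 ⊗ parInt (N q)` is killed by
  `ψ = (trA, trB)` (the two transfers to level `N`).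

This is `S35A_newform_psi` (case `q ∤ N`) with the equivariance of the transfers taken from
`S36/Degen2.lean` (helper27), which holds for every prime `q`.
-/

set_option autoImplicit false
set_option linter.style.haveILetI false
set_option linter.unusedSectionVars false
open scoped TensorProduct
open CuspForm ModularCurve CongruenceSubgroup ModularFormClass ModularCurve.Period

namespace Fermat.Agent.S36

open Fermat.Agent.S16 Fermat.Agent.GalRep Fermat.Agent.S41 Fermat.Agent.S35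

section newform

variable (N q : ℕ) [NeZero N] [NeZero (N * q)] [Fact q.Prime]

/-- an equivariant map to level `N` kills the eigen-module of a newform of level `N q`. -/
theorem S36A_newform_key {g : CuspForm (Gamma0 (N * q)) 2} (hg : g.IsNewform)
    {𝒪 : Type} [CommRing 𝒪] [IsDomain 𝒪] (θ : HeckeAlg →+* 𝒪)
    (hθ : ∀ P : HeckeAlg, θ P = 0 → S41F_charC g P = 0)
    (x : 𝒪 ⊗[ℤ] ↥(parInt (N * q)))
    (hx : x ∈ GR_eigen 𝒪 ↥(parInt (N * q)) (GR_hT (N * q)) (GRD_eig θ))
    (f : ↥(parInt (N * q)) →ₗ[ℤ] ↥(parInt N))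
    (hf : ∀ t : S41D_R q, f ∘ₗ S41D_rho' N q t = S41D_rho N q t ∘ₗ f) :
    f.baseChange 𝒪 x = 0 := by
  haveI := finite_parInt N
  haveI := free_parInt N
  have hq : q.Prime := Fact.out
  by_contra hy
  have heig : ∀ t : S41D_R q,
      (S41D_rho N q t).baseChange 𝒪 (f.baseChange 𝒪 x)
        = θ (S41D_incR q t) • f.baseChange 𝒪 x := by
    intro t
    have h1 := S35A_eigen_poly (N * q) θ x hx (S41D_incR q t)
    have h2 : (S41D_rho N q t).baseChange 𝒪 ∘ₗ f.baseChange 𝒪
        = f.baseChange 𝒪 ∘ₗ (S41D_rho' N q t).baseChange 𝒪 := by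
      rw [← LinearMap.baseChange_comp, ← LinearMap.baseChange_comp, hf t]
    have h3 := congrArg (fun φ : (𝒪 ⊗[ℤ] ↥(parInt (N * q))) →ₗ[𝒪] (𝒪 ⊗[ℤ] ↥(parInt N)) => φ x) h2
    simp only [LinearMap.comp_apply] at h3
    rw [h3]
    show f.baseChange 𝒪 ((GRD_heckeL (N * q) (S41D_incR q t)).baseChange 𝒪 x) = _
    rw [h1, map_smul]
  have hker : ∀ t : S41D_R q, S41D_rho N q t = 0 → S41F_charC g (S41D_incR q t) = 0 := by
    intro t ht
    apply hθ
    have h1 := heig t
    rw [ht, LinearMap.baseChange_zero, LinearMap.zero_apply] at h1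
    rcases smul_eq_zero.mp h1.symm with h2 | h2
    · exact h2
    · exact absurd h2 hy
  obtain ⟨g', hg', hcoef⟩ := S35A_exists_lower N q g hker
  have hNq : N ≠ N * q := by
    intro h
    have h1 : N * 1 = N * q := by rw [mul_one]; exact h
    exact hq.one_lt.ne (Nat.eq_of_mul_eq_mul_left (Nat.pos_of_ne_zero (NeZero.ne N)) h1)
  refine hg.2 N (Dvd.intro q rfl) hNq ⟨g', hg', fun ℓ hℓ hℓN => ?_⟩
  refine hcoef ⟨ℓ, hℓ⟩ ?_
  rintro rfl
  exact hℓN (Dvd.intro_left N rfl)

/-- **A4**: the eigen-module of a newform of level `N q` is killed by `ψ = (trA, trB)`. -/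
theorem S36A_newform_psi {g : CuspForm (Gamma0 (N * q)) 2} (hg : g.IsNewform)
    {𝒪 : Type} [CommRing 𝒪] [IsDomain 𝒪] (θ : HeckeAlg →+* 𝒪)
    (hθ : ∀ P : HeckeAlg, θ P = 0 → S41F_charC g P = 0)
    (x : 𝒪 ⊗[ℤ] ↥(parInt (N * q)))
    (hx : x ∈ GR_eigen 𝒪 ↥(parInt (N * q)) (GR_hT (N * q)) (GRD_eig θ)) :
    (S41D_psi N q).baseChange 𝒪 x = 0 :=
  S35A_baseChange_prod _ _ _
    (S36A_newform_key N q hg θ hθ x hx _ (S36D_hA_all N q))
    (S36A_newform_key N q hg θ hθ x hx _ (S36D_hB_all N q))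

end newform

end Fermat.Agent.S36
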