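import Mathlib
import Fermat.Agent.S35.Tower
import Fermat.Agent.S36.AlgIface
import Fermat.Agent.S36.AlgCore

/-!
# TRACK 10 (S36), package ALG36 (helper2), part A3: from (G36-K) to the finite levels of the tower

* `S36A_tmul_eq_zero` : `1 ⊗ y = 0` in `ℤ/n ⊗ Y` forces `y ∈ n Y`;
* `S36A_sat` : for `ψ : L → Y` with `Y` a finitely generated `ℤ`-module there is `t ≠ 0` such that
  `ψ z ∈ n Y` implies `t z ∈ ker ψ + n L`  (saturation of the image);
* `S36A_kummer` : (G36-K) on the classes `1 ⊗ z'`, `z'` in the `q`-new part, fixed by inertia;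
* **`S36A_tower_hfin`** : (G36-K) ⇒ the classes of `ℤ/p^k ⊗ parInt (N q)` fixed by an inertia group
  at `q` and killed by `ψ ⊗ ℤ/p^k` are killed by a fixed integer, in the shape of `S36A_core`.
-/

set_option autoImplicit false

open ModularCurve AlgebraicCurve CongruenceSubgroup
open scoped TensorProduct

namespace Fermat.Agent.S36

open Fermat.Agent.GalRep Fermat.Agent.S16 Fermat.Agent.S41 Fermat.Agent.S24 Fermat.Agent.S35

/-- `1 ⊗ y = 0` in `ℤ/n ⊗ Y` forces `y ∈ n Y`. -/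
theorem S36A_tmul_eq_zero {Y : Type*} [AddCommGroup Y] (n : ℕ) [NeZero n] (y : Y)
    (h : (1 : ZMod n) ⊗ₜ[ℤ] y = 0) : ∃ y' : Y, y = n • y' := by
  by_contra hcon
  let S : Submodule ℤ Y := LinearMap.range ((n : ℤ) • (LinearMap.id : Y →ₗ[ℤ] Y))
  have hy : S.mkQ y ≠ 0 := by
    intro h0
    rw [Submodule.mkQ_apply, Submodule.Quotient.mk_eq_zero] at h0
    obtain ⟨y', hy'⟩ := h0
    apply hcon
    refine ⟨y', ?_⟩
    rw [← hy']
    simp
  have hkill : ∀ x : Y ⧸ S, n • x = 0 := by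
    intro x
    obtain ⟨x, rfl⟩ := S.mkQ_surjective x
    rw [← map_nsmul, Submodule.mkQ_apply, Submodule.Quotient.mk_eq_zero]
    exact ⟨x, by simp⟩
  obtain ⟨φ, hφ⟩ := S36A_exists_functional n hkill hy
  let B : ZMod n →ₗ[ℤ] Y →ₗ[ℤ] ZMod n :=
    (LinearMap.mul ℤ (ZMod n)).compl₂ (φ.toIntLinearMap ∘ₗ S.mkQ)
  have h1 : TensorProduct.lift B ((1 : ZMod n) ⊗ₜ[ℤ] y) = φ (S.mkQ y) := by
    rw [TensorProduct.lift.tmul]
    show (1 : ZMod n) * φ (S.mkQ y) = _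
    rw [one_mul]
  rw [h, map_zero] at h1
  exact hφ h1.symm

/-- **saturation**: there is `t ≠ 0` with `ψ z ∈ n Y ⇒ t z ∈ ker ψ + n L`. -/
theorem S36A_sat {L Y : Type*} [AddCommGroup L] [AddCommGroup Y] [Module.Finite ℤ Y]
    (ψ : L →ₗ[ℤ] Y) :
    ∃ t : ℕ, t ≠ 0 ∧ ∀ (n : ℕ) (z : L) (y : Y), n ≠ 0 → ψ z = n • y →
      ∃ z' z₁ : L, ψ z' = 0 ∧ t • z = z' + n • z₁ := by
  -- the saturation of the image
  let Msat : Submodule ℤ Y :=
    { carrier := {y | ∃ m : ℕ, m ≠ 0 ∧ m • y ∈ LinearMap.range ψ}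
      zero_mem' := ⟨1, one_ne_zero, by simp⟩
      add_mem' := by
        rintro a b ⟨m, hm, ha⟩ ⟨m', hm', hb⟩
        refine ⟨m * m', mul_ne_zero hm hm', ?_⟩
        rw [smul_add]
        refine add_mem ?_ ?_
        · rw [mul_comm, mul_smul]
          exact (LinearMap.range ψ).smul_of_tower_mem m' ha
        · rw [mul_smul]
          exact (LinearMap.range ψ).smul_of_tower_mem m hb
      smul_mem' := by
        rintro c a ⟨m, hm, ha⟩
        refine ⟨m, hm, ?_⟩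
        rw [smul_comm]
        exact (LinearMap.range ψ).smul_mem c ha }
  have hfg : Msat.FG := IsNoetherian.noetherian Msat
  obtain ⟨s, hs⟩ := hfg
  have hmem : ∀ y ∈ s, ∃ m : ℕ, m ≠ 0 ∧ m • y ∈ LinearMap.range ψ := by
    intro y hy
    have : y ∈ Msat := by
      rw [← hs]
      exact Submodule.subset_span hy
    exact this
  choose! m hm0 hm using hmem
  refine ⟨∏ y ∈ s, m y, ?_, ?_⟩
  · exact Finset.prod_ne_zero_iff.mpr hm0
  · intro n z y hn hzy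
    have hy : y ∈ Msat := ⟨n, hn, ⟨z, hzy⟩⟩
    have hall : ∀ w ∈ Msat, (∏ y ∈ s, m y) • w ∈ LinearMap.range ψ := by
      intro w hw
      rw [← hs] at hw
      induction hw using Submodule.span_induction with
      | mem x hx =>
        obtain ⟨d, hd⟩ := Finset.dvd_prod_of_mem m hx
        rw [hd, mul_comm, mul_smul]
        exact (LinearMap.range ψ).smul_of_tower_mem d (hm x hx)
      | zero => simp
      | add a b _ _ ha hb =>
        rw [smul_add]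
        exact add_mem ha hb
      | smul c a _ ha =>
        rw [smul_comm]
        exact (LinearMap.range ψ).smul_mem c ha
    obtain ⟨z₁, hz₁⟩ := hall y hy
    refine ⟨(∏ y ∈ s, m y) • z - n • z₁, z₁, ?_, by abel⟩
    rw [map_sub, map_nsmul, map_nsmul, hzy, hz₁, smul_comm, sub_self]

section kummer

variable (N q p : ℕ) [NeZero N] [NeZero (N * q)] [Fact q.Prime]

/-- **(G36-K) on `ℤ/n ⊗ parInt (N q)`**, `n = p ^ k`: the inertia-fixed classes `1 ⊗ z'` with `z'`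
in the `q`-new part are killed by `c`. -/
theorem S36A_kummer (hK : GR_KappaStmt (N * q)) (k : ℕ) [NeZero (p ^ k)] (c : ℕ)
    (P : ValuationSubring (AlgebraicClosure ℚ))
    (hG : ∀ (f : ↥(modularFunctionFieldBar (N * q))) (z : ↥(parInt (N * q))),
        z ∈ S41D_B N q →
        KM_IsKum (AlgebraicClosure ℚ) ↥(modularFunctionFieldBar (N * q)) (p ^ k) f →
        GR_KChar (N * q) (p ^ k) f
          ((GRT_red (N * q) (p ^ k) z : ↥(GRT_X (N * q) (p ^ k))) :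
            Additive (Gamma0 (N * q)) →+ ZMod (p ^ k)) →
        (∀ τ ∈ P.inertiaSubgroupIn ℚ,
          GR_IsTriv (N * q) (p ^ k) (GR_gal (N * q) τ f * f⁻¹)) →
        GR_IsTriv (N * q) (p ^ k) (f ^ c))
    (z' : ↥(parInt (N * q))) (hz' : z' ∈ S41D_B N q)
    (hfix : ∀ τ ∈ P.inertiaSubgroupIn ℚ,
      GRT_r hK (p ^ k) τ ((1 : ZMod (p ^ k)) ⊗ₜ[ℤ] z') = (1 : ZMod (p ^ k)) ⊗ₜ[ℤ] z') :
    c • ((1 : ZMod (p ^ k)) ⊗ₜ[ℤ] z' : ZMod (p ^ k) ⊗[ℤ] ↥(parInt (N * q))) = 0 := by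
  have hn : 0 < p ^ k := Nat.pos_of_ne_zero (NeZero.ne (p ^ k))
  set χ := GRT_red (N * q) (p ^ k) z' with hχdef
  obtain ⟨f, hf, hχ⟩ := hK.surj (p ^ k) hn χ.1 χ.2
  have htriv : ∀ τ ∈ P.inertiaSubgroupIn ℚ,
      GR_IsTriv (N * q) (p ^ k) (GR_gal (N * q) τ f * f⁻¹) := by
    intro τ hτ
    have h1 := GRT_iso_r hK (p ^ k) τ ((1 : ZMod (p ^ k)) ⊗ₜ[ℤ] z')
    rw [hfix τ hτ, GRT_iso_one_tmul] at h1
    have h2 := GRT_act_spec hK hn τ χ hf hχ
    rw [← h1] at h2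
    exact GRT_isTriv_of_kchar_eq hK hn (hK.gal (p ^ k) τ f hf) hf h2 hχ
  have hc := hG f z' hz' hf hχ htriv
  have h0 := hK.triv (p ^ k) hn _ hc
  have h1 := GRT_kchar_pow hK hn hχ c
  have h2 := hK.uniq (p ^ k) hn (f ^ c) _ _ (pow_ne_zero c hf.1) h1 h0
  apply (GRT_iso (N * q) (p ^ k)).injective
  rw [map_nsmul, GRT_iso_one_tmul, map_zero]
  apply Subtype.ext
  rw [Submodule.coe_smul_of_tower]
  exact h2

end kummer

section tower

variable (N q p : ℕ) [NeZero N] [NeZero (N * q)] [Fact q.Prime] [hp : Fact p.Prime]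

/-- **ALG36, A3**: (G36-K) ⇒ at every level of the tower the classes fixed by an inertia group at
`q` and killed by `ψ` are killed by a fixed integer. -/
theorem S36A_tower_hfin (hK : GR_KappaStmt (N * q))
    (hH : ∀ (ℓ : ℕ) [Fact ℓ.Prime], Nonempty (GR_HeckeES (N * q) ℓ))
    (hU : GR_UnramStmt (N * q)) (hFin : GR_FinStmt (N * q)) (hG : S36A_G36K N q p) :
    ∃ c : ℕ, c ≠ 0 ∧ ∀ P : ValuationSubring (AlgebraicClosure ℚ), P.LiesOverPrime q →
      ∀ (k : ℕ) (z : ZMod (p ^ k) ⊗[ℤ] ↥(parInt (N * q))),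
        (∀ τ ∈ P.inertiaSubgroupIn ℚ, (S35A_tower (N * q) p hK hH hU hFin).r k τ z = z) →
        (S41D_psi N q).baseChange (ZMod (p ^ k)) z = 0 → c • z = 0 := by
  obtain ⟨c, hc, hG⟩ := hG
  have hfin : Module.Finite ℤ ↥(parInt N) := finite_parInt N
  obtain ⟨t, ht, hsat⟩ := S36A_sat (S41D_psi N q)
  refine ⟨c * t, mul_ne_zero hc ht, ?_⟩
  intro P hP k z hfix hψ
  have hne : NeZero (p ^ k) := ⟨pow_ne_zero k hp.out.ne_zero⟩
  obtain ⟨z0, rfl⟩ := GRT_exists_one_tmul (N * q) (p ^ k) z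
  rw [LinearMap.baseChange_tmul] at hψ
  obtain ⟨y, hy⟩ := S36A_tmul_eq_zero (p ^ k) _ hψ
  obtain ⟨z', z₁, hz', hz⟩ := hsat (p ^ k) z0 y (NeZero.ne _) hy
  have hkill : ∀ w : ZMod (p ^ k) ⊗[ℤ] ↥(parInt (N * q)), (p ^ k) • w = 0 := by
    intro w
    have : (p ^ k) • w = ((p ^ k : ℕ) : ZMod (p ^ k)) • w := by
      rw [Nat.cast_smul_eq_nsmul]
    rw [this, ZMod.natCast_self, zero_smul]
  have h1 : t • ((1 : ZMod (p ^ k)) ⊗ₜ[ℤ] z0 : ZMod (p ^ k) ⊗[ℤ] ↥(parInt (N * q)))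
      = (1 : ZMod (p ^ k)) ⊗ₜ[ℤ] z' := by
    rw [← TensorProduct.tmul_smul, hz, TensorProduct.tmul_add, TensorProduct.tmul_smul, hkill,
      add_zero]
  have hfix' : ∀ τ ∈ P.inertiaSubgroupIn ℚ,
      GRT_r hK (p ^ k) τ ((1 : ZMod (p ^ k)) ⊗ₜ[ℤ] z') = (1 : ZMod (p ^ k)) ⊗ₜ[ℤ] z' := by
    intro τ hτ
    have h2 := hfix τ hτ
    rw [S35A_tower_r] at h2
    rw [← h1, map_nsmul, h2]
  have h3 := S36A_kummer N q p hK k c P (hG k P hP) z' hz' hfix'
  rw [mul_smul, h1]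
  exact h3

end tower

end Fermat.Agent.S36
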