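import Mathlib
import Fermat.Agent.GalRep.TowerDone
import Fermat.Agent.S35.Main
import Fermat.Agent.S36.AlgKolchin
import Fermat.Agent.S36.AlgCore
import Fermat.Agent.S36.AlgTower
import Fermat.Agent.S36.AlgNew
import Fermat.Agent.Lib.FrobExists

/-!
# TRACK 10 (S36), package ALG36 (helper2): frozen S36 from (G36-K)

`S36A_main : S36A_G36KAll → S36A_Stmt`, where `S36A_Stmt` is the statement of S36 (verbatim) and
`S36A_G36KAll` (`S36/AlgIface.lean`) is the output of the geometry: at every level `N q` with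
`q ∥ N` and every prime `p ≠ q`, the inertia-fixed `q`-new Kummer classes of `p`-power exponent
are killed by a fixed integer.

Assembly (as in `S35A_main`): the eigen-lattice `W ⊆ O'' ⊗ parInt M` of the newform `g` has rank 2
and carries the limit representation of the tower `S35A_towerDone`.
* `S36A_nofix` : if `q² ∥ M`, `q ≠ λ`, no vector `≠ 0` of `W` is fixed by an inertia group at `q`
  (newness `S36A_newform_psi` + `S36A_tower_hfin` + `S36A_core`);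
* `S36A_alg`   : the determinant step; in case A the representation is `W` and a unipotent inertia
  would fix a vector by Kolchin's lemma; in case B (`W` scalar) a unipotent inertia of
  `μ ⊕ ε μ⁻¹` forces `μ = 1` on inertia, so that inertia fixes all of `W`.
-/

set_option autoImplicit false
set_option linter.style.haveILetI false
set_option linter.unusedSectionVars false
open scoped TensorProduct
open CuspForm ModularCurve CongruenceSubgroup ModularFormClass ModularCurve.Period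
open IsLocalRing Polynomial

namespace Fermat.Agent.S36

open Fermat.Agent.S16 Fermat.Agent.GalRep Fermat.Agent.S41 Fermat.Agent.S35

/-- The statement of S36 (verbatim). -/
def S36A_Stmt : Prop :=
  ∀ {M : ℕ} [NeZero M] {g : CuspForm (CongruenceSubgroup.Gamma0 M) 2} (_ : g.IsNewform)
    (lam : ℕ) [Fact lam.Prime]
    (S : Finset ℕ)
    (O' : Type) [CommRing O'] [IsDomain O'] [IsDiscreteValuationRing O']
    [IsAdicComplete (IsLocalRing.maximalIdeal O') O'] [Finite (IsLocalRing.ResidueField O')]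
    [CharZero O'] (_ : (lam : O') ∈ IsLocalRing.maximalIdeal O')
    (_ : lam ≠ 2)
    (chig : CuspForm.heckeAlgebra M 2 (↑S : Set ℕ) →+* ℂ)
    (_ : ∀ (ℓ : ℕ) (hℓ : ℓ.Prime) (hℓM : ¬ ℓ ∣ M) (hℓS : ℓ ∉ (↑S : Set ℕ)),
      chig (CuspForm.heckeAlgebra.T hℓ hℓM hℓS) = ModularFormClass.qCoeff g ℓ)
    (iota : chig.range →+* O')
    (_ : lam ∈ S) (_ : ∀ q : ℕ, q.Prime → q ∣ M → q ∈ S)
    (_ : ∀ (O'' : Type) [CommRing O''] [IsDomain O''] [IsDiscreteValuationRing O'']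
      [IsAdicComplete (IsLocalRing.maximalIdeal O'') O''] [Finite (IsLocalRing.ResidueField O'')] [CharZero O'']
      [Algebra O' O''] [Module.Finite O' O''] [IsLocalHom (algebraMap O' O'')],
      Function.Injective (algebraMap O' O'') → ∀ (ρ : GaloisRepAdic O''),
      (∀ (ℓ : ℕ) (hℓ : ℓ.Prime) (_ : ℓ ≠ lam) (hℓM : ¬ ℓ ∣ M) (hℓS : ℓ ∉ (↑S : Set ℕ)),
        ∀ A : ValuationSubring (AlgebraicClosure ℚ), A.LiesOverPrime ℓ →
          ∀ σ : AlgebraicClosure ℚ ≃ₐ[ℚ] AlgebraicClosure ℚ, A.IsFrobeniusAt σ ℓ →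
            LinearMap.charpoly (ρ.ρ σ) =
              X ^ 2 - C (algebraMap O' O'' ((iota.comp chig.rangeRestrict) (CuspForm.heckeAlgebra.T hℓ hℓM hℓS))) * X
                + C ((ℓ : O'')))
      → ρ.residual.IsAbsolutelyIrreducible ∧ ρ.residual.IsOdd),
    ∃ (O'' : Type) (_ : CommRing O'') (_ : IsDomain O'') (_ : IsDiscreteValuationRing O'')
      (_ : IsAdicComplete (IsLocalRing.maximalIdeal O'') O'') (_ : Finite (IsLocalRing.ResidueField O''))
      (_ : CharZero O'') (_ : Algebra O' O'') (_ : Module.Finite O' O'') (_ : IsLocalHom (algebraMap O' O'')),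
      Function.Injective (algebraMap O' O'') ∧
      ∃ ρ : GaloisRepAdic O'',
        (∀ (ℓ : ℕ) (hℓ : ℓ.Prime) (hℓM : ¬ ℓ ∣ M) (hℓS : ℓ ∉ (↑S : Set ℕ)),
          ∀ A : ValuationSubring (AlgebraicClosure ℚ), A.LiesOverPrime ℓ →
            ∀ σ : AlgebraicClosure ℚ ≃ₐ[ℚ] AlgebraicClosure ℚ, A.IsFrobeniusAt σ ℓ →
              LinearMap.charpoly (ρ.ρ σ) =
                X ^ 2 - C (algebraMap O' O'' ((iota.comp chig.rangeRestrict) (CuspForm.heckeAlgebra.T hℓ hℓM hℓS))) * X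
                  + C ((ℓ : O''))) ∧
        (∀ q : ℕ, q.Prime → q ≠ lam → M.factorization q = 2 → ¬ ρ.IsUnipotentOnInertiaAt q)

/-- **no inertia-fixed vectors** on the eigen-lattice of a newform at a prime `q` with `q² ∥ M`,
`q ≠ p`. -/
theorem S36A_nofix (hG : S36A_G36KAll)
    (M : ℕ) [NeZero M] (p : ℕ) [Fact p.Prime]
    {g : CuspForm (Gamma0 M) 2} (hg : g.IsNewform)
    {𝒪 : Type} [CommRing 𝒪] [IsDomain 𝒪] [IsDiscreteValuationRing 𝒪]
    [IsAdicComplete (maximalIdeal 𝒪) 𝒪] [CharZero 𝒪]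
    (hp𝒪 : (p : 𝒪) ∈ maximalIdeal 𝒪) (θ : HeckeAlg →+* 𝒪)
    (hθ : ∀ P : HeckeAlg, θ P = 0 → S41F_charC g P = 0)
    {ι : Type} [Fintype ι] [DecidableEq ι] (e : Module.Basis ι ℤ ↥(parInt M))
    (q : ℕ) (hq : q.Prime) (hqp : q ≠ p) (hq2 : M.factorization q = 2)
    (P : ValuationSubring (AlgebraicClosure ℚ)) (hP : P.LiesOverPrime q)
    (v : GR_eigen 𝒪 ↥(parInt M) (GR_hT M) (GRD_eig θ))
    (hv : ∀ τ ∈ P.inertiaSubgroupIn ℚ,
      GRA_rho e (S35A_towerDone M p) hp𝒪 (GRD_eig θ) τ v = v) :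
    v = 0 := by
  have hM0 : M ≠ 0 := NeZero.ne M
  have hq2M : q ^ 2 ∣ M := (hq.pow_dvd_iff_le_factorization hM0).mpr (le_of_eq hq2.symm)
  have hq3M : ¬ q ^ 3 ∣ M := by
    intro h
    have := (hq.pow_dvd_iff_le_factorization hM0).mp h
    omega
  have hqM : q ∣ M := (dvd_pow_self q two_ne_zero).trans hq2M
  obtain ⟨N, rfl⟩ : ∃ N, M = N * q := ⟨M / q, (Nat.div_mul_cancel hqM).symm⟩
  have hN0 : N ≠ 0 := fun h => (NeZero.ne (N * q)) (by rw [h, zero_mul])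
  haveI : NeZero N := ⟨hN0⟩
  haveI : Fact q.Prime := ⟨hq⟩
  have hqN : q ∣ N := by
    rw [sq] at hq2M
    exact (Nat.mul_dvd_mul_iff_right hq.pos).mp hq2M
  have hq2N : ¬ q ^ 2 ∣ N := by
    intro h
    apply hq3M
    rw [pow_succ]
    exact Nat.mul_dvd_mul_right h q
  obtain ⟨c, hc, hfin⟩ := S36A_tower_hfin N q p (KMF_kappa_final (N * q))
    (fun ℓ _ => GRHX_hecke_all (N * q) ℓ) (ES_unram GRT3_s18 GRT3_ri (N * q))
    (GR_fin (N * q) (KMF_kappa_final (N * q))) (hG N q p hqN hq2N hqp)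
  haveI : NeZero p := ⟨(Fact.out : p.Prime).ne_zero⟩
  have hψ := S36A_newform_psi N q hg θ hθ v.1 v.2
  have h0 := S36A_core e (S35A_towerDone (N * q) p) hp𝒪 (S41D_psi N q)
    {τ : GQ | τ ∈ P.inertiaSubgroupIn ℚ} c hc
    (fun k z hz hψ' => hfin P hP k z hz hψ') v.1
    (fun τ hτ => by
      rw [← GRA_rho_coe e (S35A_towerDone (N * q) p) hp𝒪 (GRD_eig θ) τ v]
      exact congrArg Subtype.val (hv τ hτ)) hψ
  exact Subtype.ext h0

section alg

variable {p N : ℕ} {S : Finset ℕ} {𝒪 : Type} [CommRing 𝒪] [IsDomain 𝒪]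
  [IsDiscreteValuationRing 𝒪] [IsAdicComplete (IsLocalRing.maximalIdeal 𝒪) 𝒪] [CharZero 𝒪]
  {a : ℕ → 𝒪}

/-- **ALG36, A5**: the determinant step; the representation is not unipotent on inertia at the
primes where the datum has no inertia-fixed vector. -/
theorem S36A_alg (hpS : p ∈ S) (hDS : GR_DS) (c : GR_Cyc p 𝒪) (D : GR_ESDatum p N S 𝒪 a)
    (Q : ℕ → Prop) (hQ : ∀ q, Q q → q.Prime)
    (hnofix : ∀ q : ℕ, Q q → ∀ P : ValuationSubring (AlgebraicClosure ℚ), P.LiesOverPrime q →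
      ∀ v : D.ρ.V, (∀ τ ∈ P.inertiaSubgroupIn ℚ, D.ρ.ρ τ v = v) → v = 0) :
    ∃ ρ : GaloisRepAdic 𝒪,
      (∀ ℓ : ℕ, ℓ.Prime → ¬ ℓ ∣ N → ℓ ∉ S → ∀ σ : GQ, GR_IsFrob ℓ σ →
        LinearMap.charpoly (ρ.ρ σ) = X ^ 2 - C (a ℓ) * X + C ((ℓ : 𝒪))) ∧
      (∀ q : ℕ, Q q → ¬ ρ.IsUnipotentOnInertiaAt q) := by
  have hexP : ∀ q : ℕ, Q q → ∃ P : ValuationSubring (AlgebraicClosure ℚ), P.LiesOverPrime q := by
    intro q hq
    obtain ⟨A, σ, hA, -⟩ := Fermat.Agent.Lib.exists_isFrobeniusAt q (hQ q hq)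
    exact ⟨A, hA⟩
  -- a unipotent inertia on the datum is impossible
  have hA : ∀ q : ℕ, Q q → ¬ D.ρ.IsUnipotentOnInertiaAt q := by
    intro q hq hu
    obtain ⟨P, hP⟩ := hexP q hq
    obtain ⟨v, hv0, hv⟩ := S36A_kolchin D.ρ.finrank_eq D.ρ.ρ (P.inertiaSubgroupIn ℚ) (hu P hP)
    exact hv0 (hnofix q hq P hP v hv)
  by_cases hN : N = 0
  · subst hN
    exact ⟨D.ρ, fun ℓ _ hℓN => absurd (dvd_zero ℓ) hℓN, hA⟩
  rcases GR_U1_or_U2 hN hDS D c hpS with h1 | h2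
  · -- case A
    exact ⟨D.ρ, fun ℓ hℓ hℓN hℓS σ hσ => GR_caseA D c hpS h1 hℓ hℓN hℓS σ hσ, hA⟩
  · -- case B
    have hs := GR_scalar_all D.ρ h2
    have hcont : ∀ n : ℕ, ∃ L : IntermediateField ℚ (AlgebraicClosure ℚ),
        FiniteDimensional ℚ L ∧ ∀ σ : GQ, (∀ x ∈ L, σ x = x) →
          GR_mu D.ρ hs σ - 1 ∈ IsLocalRing.maximalIdeal 𝒪 ^ n ∧
          GR_nu D.ρ c hs σ - 1 ∈ IsLocalRing.maximalIdeal 𝒪 ^ n := by
      intro n
      obtain ⟨L₁, hL₁, h₁⟩ := D.ρ.isAdicContinuous n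
      obtain ⟨L₂, hL₂, h₂⟩ := c.cont n
      refine ⟨L₁ ⊔ L₂, IntermediateField.finiteDimensional_sup L₁ L₂, fun σ hσ => ?_⟩
      have hσ1 : ∀ x ∈ L₁, σ x = x := fun x hx => hσ x (le_sup_left (a := L₁) hx)
      have hσ2 : ∀ x ∈ L₂, σ x = x := fun x hx => hσ x (le_sup_right (b := L₂) hx)
      have hσ1' : ∀ x ∈ L₁, σ⁻¹ x = x := fun x hx => by
        have := hσ1 x hx
        calc σ⁻¹ x = σ⁻¹ (σ x) := by rw [this]
          _ = x := by
            rw [← AlgEquiv.mul_apply, inv_mul_cancel, AlgEquiv.one_apply]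
      have hm := GR_mu_sub_one_mem D.ρ hs n σ (h₁ σ hσ1)
      have hm' := GR_mu_sub_one_mem D.ρ hs n σ⁻¹ (h₁ σ⁻¹ hσ1')
      have he := h₂ σ hσ2
      refine ⟨hm, ?_⟩
      rw [GR_nu_apply]
      have : (c.ε σ : 𝒪) * GR_mu D.ρ hs σ⁻¹ - 1
          = ((c.ε σ : 𝒪) - 1) * GR_mu D.ρ hs σ⁻¹ + (GR_mu D.ρ hs σ⁻¹ - 1) := by ring
      rw [this]
      exact Ideal.add_mem _ (Ideal.mul_mem_right _ _ he) hm'
    refine ⟨GR_diagRep (GR_mu D.ρ hs) (GR_nu D.ρ c hs) hcont, ?_, ?_⟩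
    · intro ℓ hℓ hℓN hℓS σ hσ
      show (GR_diagHom (GR_mu D.ρ hs) (GR_nu D.ρ c hs) σ).charpoly = _
      rw [GR_diagHom_charpoly, GR_nu_apply]
      have hℓp : ℓ ≠ p := fun h => hℓS (h ▸ hpS)
      rw [c.frob ℓ hℓ hℓp σ hσ]
      have hrel := GR_mu_rel D hs hℓ hℓN hℓS σ hσ
      have hinv := GR_mu_mul_inv D.ρ hs σ
      have htr : GR_mu D.ρ hs σ + (ℓ : 𝒪) * GR_mu D.ρ hs σ⁻¹ = a ℓ := by
        linear_combination (GR_mu D.ρ hs σ⁻¹) * hrel
          + (a ℓ - GR_mu D.ρ hs σ) * hinv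
      have hdet : GR_mu D.ρ hs σ * ((ℓ : 𝒪) * GR_mu D.ρ hs σ⁻¹) = ℓ := by
        linear_combination (ℓ : 𝒪) * hinv
      rw [htr, hdet]
    · intro q hq hu
      obtain ⟨P, hP⟩ := hexP q hq
      -- `μ = 1` on inertia
      have hmu : ∀ τ ∈ P.inertiaSubgroupIn ℚ, GR_mu D.ρ hs τ = 1 := by
        intro τ hτ
        have h := hu P hP τ hτ
        have h' : (GR_diagHom (GR_mu D.ρ hs) (GR_nu D.ρ c hs) τ).charpoly = (X - 1) ^ 2 := h
        rw [GR_diagHom_charpoly] at h'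
        set m := GR_mu D.ρ hs τ with hm
        set n := GR_nu D.ρ c hs τ with hn
        have e1 := congrArg (eval (1 : 𝒪)) h'
        have e0 := congrArg (eval (0 : 𝒪)) h'
        simp only [eval_add, eval_sub, eval_mul, eval_pow, eval_X, eval_C, eval_one] at e1 e0
        have hsq : (m - 1) * (m - 1) = 0 := by linear_combination (m - 1) * e0 - m * e1
        rcases mul_eq_zero.mp hsq with h0 | h0 <;> exact sub_eq_zero.mp h0
      haveI : Nontrivial D.ρ.V :=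
        Module.nontrivial_of_finrank_pos (R := 𝒪) (by rw [D.ρ.finrank_eq]; norm_num)
      obtain ⟨v, hv0⟩ := exists_ne (0 : D.ρ.V)
      apply hv0
      refine hnofix q hq P hP v fun τ hτ => ?_
      rw [GR_mu_spec D.ρ hs τ, hmu τ hτ, one_smul, Module.End.one_apply]

end alg

/-- **ALG36**: the statement of S36 from (G36-K). -/
theorem S36A_main (hG : S36A_G36KAll) : S36A_Stmt := by
  intro M _ g hg lam _ S O' _ _ _ _ _ _ hlamO' _ chig hchig iota hlamS hMS _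
  have hgn := hg.1
  haveI := finite_parInt M
  haveI := free_parInt M
  have hMS' : ∀ q : ℕ, q.Prime → q ∣ M → q ∈ (↑S : Set ℕ) := fun q hq hqM =>
    Finset.mem_coe.mpr (hMS q hq hqM)
  have hle := S35A_range_le (↑S : Set ℕ) hMS' chig hchig
  haveI : Module.Finite ℤ (S41F_charC g).range := S35A_range_finite hgn
  obtain ⟨O'', i1, i2, i3, i4, i5, i6, i7, i8, i9, hinj, Φ, hΦ, hΦι⟩ :=
    S35A_exists_coef O' chig.range (S41F_charC g).range hle iota
  have hp'' : (lam : O'') ∈ IsLocalRing.maximalIdeal O'' := by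
    have h1 : algebraMap O' O'' (lam : O') ∈ IsLocalRing.maximalIdeal O'' := by
      rw [IsLocalRing.mem_maximalIdeal, mem_nonunits_iff]
      intro hu
      have hu' : IsUnit (lam : O') := (isUnit_map_iff (algebraMap O' O'') _).mp hu
      exact (IsLocalRing.mem_maximalIdeal _).mp hlamO' hu'
    simpa using h1
  obtain ⟨c⟩ := GR_cycStmt lam O'' hp''
  have hθ : ∀ P : HeckeAlg, (Φ.comp (S41F_charC g).rangeRestrict) P = 0 → S41F_charC g P = 0 := by
    intro P hP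
    have h1 : (S41F_charC g).rangeRestrict P = 0 := hΦ (by rw [map_zero]; exact hP)
    exact congrArg Subtype.val h1
  have hrank := S35A_rank hgn Φ hΦ
  classical
  obtain ⟨ρ, hgood, hb⟩ := S36A_alg hlamS GR_ds c
    (GRA_datum_two (Module.Free.chooseBasis ℤ ↥(parInt M)) (S35A_towerDone M lam) hp''
      (GRD_eig (Φ.comp (S41F_charC g).rangeRestrict)) S hlamS hrank)
    (fun q => q.Prime ∧ q ≠ lam ∧ M.factorization q = 2) (fun q hq => hq.1)
    (fun q hq P hP v hv =>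
      S36A_nofix hG M lam hg hp'' (Φ.comp (S41F_charC g).rangeRestrict) hθ
        (Module.Free.chooseBasis ℤ ↥(parInt M)) q hq.1 hq.2.1 hq.2.2 P hP v hv)
  refine ⟨O'', i1, i2, i3, i4, i5, i6, i7, i8, i9, hinj, ρ, ?_, ?_⟩
  · intro ℓ hℓ hℓM hℓS A hA σ hσ
    rw [hgood ℓ hℓ hℓM (by simpa using hℓS) σ ⟨A, hA, hσ⟩, GRD_eig_prime _ hℓ]
    have h1 : (S41F_charC g).rangeRestrict (heckeGen ⟨ℓ, hℓ⟩)
        = Subring.inclusion hle (chig.rangeRestrict (CuspForm.heckeAlgebra.T hℓ hℓM hℓS)) := by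
      apply Subtype.ext
      exact (S41F_charC_heckeGen g (⟨ℓ, hℓ⟩ : Nat.Primes)).trans (hchig ℓ hℓ hℓM hℓS).symm
    have h2 : (Φ.comp (S41F_charC g).rangeRestrict) (heckeGen ⟨ℓ, hℓ⟩)
        = algebraMap O' O'' ((iota.comp chig.rangeRestrict)
            (CuspForm.heckeAlgebra.T hℓ hℓM hℓS)) := by
      rw [RingHom.comp_apply, h1, hΦι]
      rfl
    rw [h2]
  · intro q hq hqp hq2
    exact hb q ⟨hq, hqp, hq2⟩

end Fermat.Agent.S36
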