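import Mathlib
import Fermat.Agent.S36.Wire36
import Fermat.Agent.S36.AlgMain

/-!
# TRACK 10 (S36), package WIRE (helper2): frozen S36 from AUX-r and CORE

`S36W_main : S36W_AuxStmt → S36W_CoreAll → S36A_Stmt` (`S36A_Stmt` = the statement of S36, verbatim).
-/

set_option autoImplicit false

namespace Fermat.Agent.S36

/-- **S36 from AUX-r and CORE.** -/
theorem S36W_main (haux : S36W_AuxStmt) (hcore : S36W_CoreAll) : S36A_Stmt :=
  S36A_main (S36W_all haux hcore)

end Fermat.Agent.S36
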