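import Mathlib
import Fermat.Agent.GalRep.HeckeDeg
import Fermat.Agent.GalRep.Geom

/-!
# TRACK 10 (S36), AUX-r, the norm side in general form (helper18, shape of helper10)

`φ : F_M →ₐ[ℚ̄] F_{M'}` any `ℚ̄`-algebra homomorphism of modular function fields with
`φ (j) = j`.  Then `F_{M'}` is finite over `φ(F_M)`, of degree `d ≠ 0`, and

* `S36XN_norm_down_hom` : `∃ d ≠ 0, ∀ n c f, (φ f) ^ c` trivial of exponent `n` at level `M'`
  `⇒ f ^ (c * d)` trivial of exponent `n` at level `M`.

(`S36XN_norm_down` of `S36/AuxRNorm.lean` is the special case `φ = heckeAlphaBar ℚ̄ N ℓ` with the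
explicit degree.)
-/

set_option autoImplicit false
set_option synthInstance.maxHeartbeats 400000
set_option maxHeartbeats 1000000
set_option linter.unusedSectionVars false
set_option linter.style.haveILetI false

open IntermediateField AlgebraicCurve ModularCurve

noncomputable section

namespace Fermat.Agent.S36

open Fermat.Agent.S24 Fermat.Agent.GalRep

variable (M M' : ℕ) [NeZero M] [NeZero M']
  (φ : ↥(modularFunctionFieldBar M) →ₐ[AlgebraicClosure ℚ] ↥(modularFunctionFieldBar M'))

/-- the degree of `F_{M'}` over `F_M` along `φ`. -/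
def S36XN_degHom : ℕ :=
  @Module.finrank ↥(modularFunctionFieldBar M) ↥(modularFunctionFieldBar M') _ _
    (φ.toRingHom.toAlgebra.toModule)

theorem S36XN_degHom_eq :
    S36XN_degHom M M' φ = Module.finrank ↥φ.fieldRange ↥(modularFunctionFieldBar M') := by
  letI : Algebra ↥(modularFunctionFieldBar M) ↥(modularFunctionFieldBar M') :=
    φ.toRingHom.toAlgebra
  exact (Algebra.finrank_eq_of_equiv_equiv
    (AlgEquiv.ofInjectiveField φ).toRingEquiv (RingEquiv.refl _) rfl)

variable (hφ : φ (jB M) = jB M')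

include hφ in
theorem S36XN_degHom_ne_zero : S36XN_degHom M M' φ ≠ 0 := by
  rw [S36XN_degHom_eq]
  have h1 : (AlgebraicClosure ℚ)⟮jB M'⟯ ≤ φ.fieldRange := by
    rw [IntermediateField.adjoin_simple_le_iff, ← hφ]
    exact ⟨jB M, rfl⟩
  have h2 := relfinrank_mul_relfinrank h1 (le_top : φ.fieldRange ≤ ⊤)
  rw [relfinrank_top_right, relfinrank_top_right, finrank_eq_psi M'] at h2
  intro h0
  rw [h0, mul_zero] at h2
  exact (GRHF_dedekindPsi_pos M').ne h2

include hφ in
/-- **norm down** along `φ`. -/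
theorem S36XN_norm_down_hom :
    ∃ d : ℕ, d ≠ 0 ∧ ∀ (n c : ℕ) (f : ↥(modularFunctionFieldBar M)),
      GR_IsTriv M' n (φ f ^ c) → GR_IsTriv M n (f ^ (c * d)) := by
  refine ⟨S36XN_degHom M M' φ, S36XN_degHom_ne_zero M M' φ hφ, ?_⟩
  rintro n c f ⟨a, g, ha, hg, e⟩
  letI : Algebra ↥(modularFunctionFieldBar M) ↥(modularFunctionFieldBar M') :=
    φ.toRingHom.toAlgebra
  haveI : FiniteDimensional ↥(modularFunctionFieldBar M) ↥(modularFunctionFieldBar M') :=
    Module.finite_of_finrank_pos (Nat.pos_of_ne_zero (S36XN_degHom_ne_zero M M' φ hφ))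
  have hd : Module.finrank ↥(modularFunctionFieldBar M) ↥(modularFunctionFieldBar M') =
      S36XN_degHom M M' φ := rfl
  have hmap : ∀ x : ↥(modularFunctionFieldBar M),
      algebraMap ↥(modularFunctionFieldBar M) ↥(modularFunctionFieldBar M') x = φ x :=
    fun _ => rfl
  have e1 := congrArg (Algebra.norm ↥(modularFunctionFieldBar M)) e
  rw [← map_pow, ← hmap, Algebra.norm_algebraMap, hd, ← pow_mul, map_mul, map_pow,
    ← φ.commutes, ← hmap, Algebra.norm_algebraMap, hd, ← map_pow] at e1
  exact ⟨a ^ S36XN_degHom M M' φ, Algebra.norm ↥(modularFunctionFieldBar M) g,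
    pow_ne_zero _ ha, (Algebra.norm_ne_zero_iff (R := ↥(modularFunctionFieldBar M))).mpr hg, e1⟩

end Fermat.Agent.S36
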