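import Mathlib
import Fermat.Agent.S36.BaseLDvr

/-!
# TRACK 10 (S36), package BASE-L (helper20), part 6: `q` is irreducible in `O_L = A ∩ L`

* `S36BL_isUnit_iff`     : units of `A ∩ L` are the elements of value `1`;
* `S36BL_irreducible_q`  : `q` is irreducible in `A ∩ L` (`L ⊆ Ω^I`);
* `S36BL_maximalIdeal`   : the maximal ideal of `A ∩ L` is generated by `q`.
-/

set_option autoImplicit false
set_option linter.unusedSectionVars false
set_option linter.unusedVariables false
set_option linter.style.haveILetI false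

open Fermat.Agent.S19

namespace Fermat.Agent.S36

noncomputable section

local notation "Ω" => AlgebraicClosure ℚ

variable {q : ℕ} [hq : Fact q.Prime] (A : ValuationSubring Ω) (L : Subfield Ω)

/-- units of `A ∩ L`: the elements of value `1`. -/
theorem S36BL_isUnit_iff (x : ↥(A.comap L.subtype)) :
    IsUnit x ↔ A.valuation (((x : L) : Ω)) = 1 := by
  constructor
  · intro hu
    have h1 : A.valuation (((x : L) : Ω)) ≤ 1 := (A.valuation_le_one_iff _).mpr x.2
    have hinv := S36IT_inv_mem_of_isUnit (A.comap L.subtype) hu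
    have h2 : A.valuation ((((x : L) : Ω))⁻¹) ≤ 1 := by
      rw [A.valuation_le_one_iff]
      have : L.subtype ((x : L))⁻¹ ∈ A := hinv
      rwa [map_inv₀] at this
    have hx0 : (((x : L) : Ω)) ≠ 0 := by
      intro h0
      have : x = 0 := Subtype.ext (Subtype.ext h0)
      rw [this] at hu
      exact not_isUnit_zero hu
    have hv0 : A.valuation (((x : L) : Ω)) ≠ 0 := (Valuation.ne_zero_iff _).2 hx0
    rw [map_inv₀] at h2
    have h3 : 1 ≤ A.valuation (((x : L) : Ω)) := (inv_le_one₀ (zero_lt_iff.mpr hv0)).mp h2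
    exact le_antisymm h1 h3
  · intro hv
    have hx0 : ((x : L)) ≠ 0 := by
      intro h0
      rw [h0] at hv
      simp at hv
    refine S36IT_isUnit_of_mem (A.comap L.subtype) x.2 ?_ hx0
    show L.subtype ((x : L))⁻¹ ∈ A
    rw [map_inv₀, ← A.valuation_le_one_iff, map_inv₀]
    show (A.valuation (((x : L) : Ω)))⁻¹ ≤ 1
    rw [hv, inv_one]

/-- **`q` is irreducible in `O_L = A ∩ L`**. -/
theorem S36BL_irreducible_q (hA : A.LiesOverPrime q)
    (hL : ∀ c ∈ L, ∀ τ ∈ A.inertiaSubgroupIn ℚ, τ c = c) :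
    Irreducible (⟨(q : L), S36BL_pi_mem A L hA⟩ : ↥(A.comap L.subtype)) := by
  have hw0 := S36BL_vq_ne_zero (q := q) A
  have hw1 := S36BL_vq_lt_one A hA
  refine ⟨?_, fun a b hab => ?_⟩
  · rw [S36BL_isUnit_iff]
    show A.valuation (((q : L) : Ω)) ≠ 1
    push_cast
    exact hw1.ne
  · have hq0 : (q : L) ≠ 0 := S36BL_qL_ne_zero L
    have hab' : ((q : L) : Ω) = ((a : L) : Ω) * ((b : L) : Ω) := by
      have := congrArg (fun z : ↥(A.comap L.subtype) => (((z : L)) : Ω)) hab
      simpa using this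
    have ha0 : ((a : L) : Ω) ≠ 0 := by
      intro h0
      rw [h0, zero_mul] at hab'
      exact S36BL_q_ne_zero (q := q) (by exact_mod_cast hab')
    have hb0 : ((b : L) : Ω) ≠ 0 := by
      intro h0
      rw [h0, mul_zero] at hab'
      exact S36BL_q_ne_zero (q := q) (by exact_mod_cast hab')
    obtain ⟨i, hi⟩ := S36BL_val_eq A hA ha0 (hL _ (a : L).2)
    obtain ⟨j, hj⟩ := S36BL_val_eq A hA hb0 (hL _ (b : L).2)
    have hai : A.valuation (((a : L)) : Ω) ≤ 1 := (A.valuation_le_one_iff _).mpr a.2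
    have hbj : A.valuation (((b : L)) : Ω) ≤ 1 := (A.valuation_le_one_iff _).mpr b.2
    rw [hi, S36BL_zpow_le_one_iff A hA] at hai
    rw [hj, S36BL_zpow_le_one_iff A hA] at hbj
    have hsum : A.valuation (q : Ω) ^ (1 : ℤ) = A.valuation (q : Ω) ^ (i + j) := by
      rw [zpow_one, zpow_add₀ hw0, ← hi, ← hj, ← map_mul, ← hab']
      push_cast
      rfl
    have hij := S36BL_zpow_inj A hA hsum
    rcases Nat.eq_zero_or_pos i.toNat with h0 | h0
    · left
      rw [S36BL_isUnit_iff, hi]
      have : i = 0 := by omega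
      rw [this, zpow_zero]
    · right
      rw [S36BL_isUnit_iff, hj]
      have : j = 0 := by omega
      rw [this, zpow_zero]

/-- the non-units of `O_L` are the multiples of `q`. -/
theorem S36BL_not_isUnit_iff (hA : A.LiesOverPrime q)
    (hL : ∀ c ∈ L, ∀ τ ∈ A.inertiaSubgroupIn ℚ, τ c = c) (x : ↥(A.comap L.subtype)) :
    ¬ IsUnit x ↔ (⟨(q : L), S36BL_pi_mem A L hA⟩ : ↥(A.comap L.subtype)) ∣ x := by
  haveI := S36BL_isDVR A L hA hL
  have hirr := S36BL_irreducible_q A L hA hL
  have h1 : x ∈ IsLocalRing.maximalIdeal ↥(A.comap L.subtype) ↔ ¬ IsUnit x := by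
    rw [IsLocalRing.mem_maximalIdeal, mem_nonunits_iff]
  rw [← h1, hirr.maximalIdeal_eq, Ideal.mem_span_singleton]

end

end Fermat.Agent.S36
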