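import Mathlib

/-!
# TRACK 10 (S36), package BASE-L / UNIF (helper20), part 1: the finite level (Mathlib only)

* `S36BL_sum_ne_zero` : a finite sum whose non-zero terms have pairwise distinct valuations is
  non-zero;
* `S36BL_unif_fac`   : at a nonzero prime `p` of a number field, with `π` a uniformiser, every
  nonzero integer `y` is `π ^ n · d / c`, `c, d ∉ p`, where `y ∈ p ^ n ∖ p ^ (n + 1)`;
* `S36BL_unif_fin`   : `K / ℚ` finite Galois, `P ∋ q` a prime of `𝓞 K`, `e = #I_P`: there is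
  `π ∈ P` with `q · c = π ^ e · d`, `c, d ∉ P`.
-/

set_option autoImplicit false

open NumberField IsDedekindDomain
open scoped Pointwise

namespace Fermat.Agent.S36

/-- a finite sum whose terms of non-zero valuation have pairwise distinct valuations is
non-zero. -/
theorem S36BL_sum_ne_zero {R Γ₀ : Type*} [Ring R] [LinearOrderedCommGroupWithZero Γ₀]
    (v : Valuation R Γ₀) {ι : Type*} [DecidableEq ι] (s : Finset ι) (f : ι → R)
    (hinj : ∀ i ∈ s, ∀ j ∈ s, v (f i) ≠ 0 → v (f i) = v (f j) → i = j)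
    (hne : ∃ i ∈ s, v (f i) ≠ 0) : ∑ i ∈ s, f i ≠ 0 := by
  obtain ⟨i₀, hi₀, hv₀⟩ := hne
  obtain ⟨j, hj, hmax⟩ := Finset.exists_max_image s (fun i => v (f i)) ⟨i₀, hi₀⟩
  have hvj : v (f j) ≠ 0 := by
    intro h0
    have := hmax i₀ hi₀
    rw [h0] at this
    exact hv₀ (le_antisymm this zero_le)
  have hlt : ∀ i ∈ s.erase j, v (f i) < v (f j) := by
    intro i hi
    obtain ⟨hij, his⟩ := Finset.mem_erase.mp hi
    refine lt_of_le_of_ne (hmax i his) fun heq => hij ?_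
    exact hinj i his j hj (by rw [heq]; exact hvj) heq
  have hrest : v (∑ i ∈ s.erase j, f i) < v (f j) := v.map_sum_lt hvj hlt
  intro hsum
  rw [← Finset.add_sum_erase s f hj] at hsum
  have := v.map_add_eq_of_lt_left hrest
  rw [hsum, map_zero] at this
  exact hvj this.symm

/-- at a nonzero prime `p` of a number field, with `π` a uniformiser, every nonzero integer
`y` is `π ^ n · d / c` with `c, d ∉ p`, where `y ∈ p ^ n ∖ p ^ (n + 1)`. -/
theorem S36BL_unif_fac {E : Type*} [Field E] [NumberField E] (p : Ideal (𝓞 E)) [hp : p.IsPrime]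
    (hp0 : p ≠ ⊥) (π : 𝓞 E)
    (hπ : (⟨p, hp, hp0⟩ : HeightOneSpectrum (𝓞 E)).intValuation π = WithZero.exp (-1 : ℤ))
    (y : 𝓞 E) (hy : y ≠ 0) :
    ∃ (n : ℕ) (c d : 𝓞 E), c ∉ p ∧ d ∉ p ∧ y * c = π ^ n * d ∧ y ∈ p ^ n ∧ y ∉ p ^ (n + 1) := by
  classical
  set v : HeightOneSpectrum (𝓞 E) := ⟨p, hp, hp0⟩ with hv
  have hvy0 : v.intValuation y ≠ 0 := v.intValuation_ne_zero _ hy
  have hvy1 : v.intValuation y ≤ 1 := v.intValuation_le_one y
  set m : ℤ := WithZero.log (v.intValuation y) with hm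
  have hvy : v.intValuation y = WithZero.exp m := (WithZero.exp_log hvy0).symm
  have hm0 : m ≤ 0 := by
    rw [hvy, ← WithZero.exp_zero, WithZero.exp_le_exp] at hvy1
    exact hvy1
  obtain ⟨n, hn⟩ : ∃ n : ℕ, m = -(n : ℤ) := ⟨(-m).toNat, by
    rw [Int.toNat_of_nonneg (by omega)]; ring⟩
  have hmem : y ∈ p ^ n := by
    have h1 : v.intValuation y ≤ WithZero.exp (-(n : ℤ)) := by rw [hvy, hn]
    exact (HeightOneSpectrum.intValuation_le_pow_iff_mem v y n).mp h1
  have hnotmem : y ∉ p ^ (n + 1) := by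
    intro h
    have h1 : v.intValuation y ≤ WithZero.exp (-((n + 1 : ℕ) : ℤ)) :=
      (HeightOneSpectrum.intValuation_le_pow_iff_mem v y (n + 1)).mpr h
    rw [hvy, hn, WithZero.exp_le_exp] at h1
    push_cast at h1
    omega
  have hπE : v.valuation E (algebraMap (𝓞 E) E π) = WithZero.exp (-1 : ℤ) := by
    rw [HeightOneSpectrum.valuation_of_algebraMap, hπ]
  have hyE : v.valuation E (algebraMap (𝓞 E) E y) = WithZero.exp m := by
    rw [HeightOneSpectrum.valuation_of_algebraMap, hvy]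
  have hπ0 : algebraMap (𝓞 E) E π ≠ 0 := by
    intro h0
    rw [h0, map_zero] at hπE
    exact WithZero.exp_ne_zero hπE.symm
  have hz : v.valuation E (algebraMap (𝓞 E) E y * (algebraMap (𝓞 E) E π ^ n)⁻¹) = 1 := by
    rw [map_mul, map_inv₀, map_pow, hyE, hπE, ← WithZero.exp_nsmul, ← WithZero.exp_neg,
      ← WithZero.exp_add, hn]
    simp
  obtain ⟨d, c, hcd⟩ := v.exists_primeCompl_mul_eq_of_integer _ hz.le
  have hvd : v.valuation E (algebraMap (𝓞 E) E d) = 1 := by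
    rw [← hcd, map_mul, hz, one_mul]
    exact (HeightOneSpectrum.valuation_eq_one_iff_notMem (K := E) (v := v)).2 c.2
  have hd : d ∉ p := (HeightOneSpectrum.valuation_eq_one_iff_notMem (K := E) (v := v)).1 hvd
  refine ⟨n, c, d, c.2, hd, ?_, hmem, hnotmem⟩
  apply FaithfulSMul.algebraMap_injective (𝓞 E) E
  rw [map_mul, map_mul, map_pow, ← hcd]
  field_simp

/-- `K / ℚ` finite Galois, `P ∋ q` a prime of `𝓞 K`, `e = #I_P` the order of the inertia group:
there is `π ∈ P` with `q · c = π ^ e · d`, `c, d ∉ P`. -/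
theorem S36BL_unif_fin {K : Type*} [Field K] [NumberField K] [IsGalois ℚ K]
    (P : Ideal (𝓞 K)) [hP : P.IsPrime] (hP0 : P ≠ ⊥) (q : ℕ) (hq : q.Prime)
    (hqP : (q : 𝓞 K) ∈ P) :
    ∃ (π c d : 𝓞 K), π ∈ P ∧ π ≠ 0 ∧ c ∉ P ∧ d ∉ P ∧
      (q : 𝓞 K) * c = π ^ Nat.card (P.inertia (K ≃ₐ[ℚ] K)) * d := by
  classical
  obtain ⟨π, hπ⟩ := (⟨P, hP, hP0⟩ : HeightOneSpectrum (𝓞 K)).intValuation_exists_uniformizer
  have hq0 : (q : 𝓞 K) ≠ 0 := by exact_mod_cast hq.ne_zero
  obtain ⟨n, c, d, hc, hd, hcd, hmem, hnotmem⟩ := S36BL_unif_fac P hP0 π hπ (q : 𝓞 K) hq0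
  have hπP : π ∈ P := by
    have h1 : (⟨P, hP, hP0⟩ : HeightOneSpectrum (𝓞 K)).intValuation π
        ≤ WithZero.exp (-((1 : ℕ) : ℤ)) := by rw [hπ]; simp
    have := (HeightOneSpectrum.intValuation_le_pow_iff_mem
      (⟨P, hP, hP0⟩ : HeightOneSpectrum (𝓞 K)) π 1).mp h1
    simpa using this
  have hπ0 : π ≠ 0 := by
    rintro rfl
    rw [map_zero] at hπ
    exact WithZero.exp_ne_zero hπ.symm
  -- the prime below
  have hqZ : ((q : ℤ)) ∈ P.under ℤ := by
    rw [Ideal.under_def, Ideal.mem_comap]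
    simpa using hqP
  have hprime : Prime (q : ℤ) := Nat.prime_iff_prime_int.mp hq
  have hmaxq : (Ideal.span {(q : ℤ)}).IsMaximal :=
    PrincipalIdealRing.isMaximal_of_irreducible hprime.irreducible
  have hunder : P.under ℤ = Ideal.span {(q : ℤ)} := by
    have hle : Ideal.span {(q : ℤ)} ≤ P.under ℤ := (Ideal.span_singleton_le_iff_mem _).2 hqZ
    have hne : P.under ℤ ≠ ⊤ := Ideal.IsPrime.ne_top inferInstance
    exact (hmaxq.eq_of_le hne hle).symm
  have hp₀ne : P.under ℤ ≠ ⊥ := by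
    rw [hunder]
    simp [hq.ne_zero]
  have hmap : ∀ k : ℕ, Ideal.map (algebraMap ℤ (𝓞 K)) (P.under ℤ) ≤ P ^ k ↔
      (q : 𝓞 K) ∈ P ^ k := by
    intro k
    rw [hunder, Ideal.map_span, Set.image_singleton, Ideal.span_singleton_le_iff_mem]
    simp
  have he' : (P.under ℤ).ramificationIdx' P = n :=
    Ideal.ramificationIdx'_spec ((hmap n).2 hmem) (fun h => hnotmem ((hmap (n + 1)).1 h))
  have hpmax : (P.under ℤ).IsMaximal := Ideal.IsPrime.isMaximal inferInstance hp₀ne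
  have : Finite (ℤ ⧸ P.under ℤ) := Ideal.finiteQuotientOfFreeOfNeBot _ hp₀ne
  have h1 := Ideal.card_inertia_eq_ramificationIdxIn (G := K ≃ₐ[ℚ] K) (P.under ℤ) P
  rw [Ideal.ramificationIdxIn_eq_ramificationIdx (P.under ℤ) P (K ≃ₐ[ℚ] K),
    ← Ideal.ramificationIdx'_eq_ramificationIdx (P.under ℤ) P hp₀ne, he'] at h1
  rw [h1]
  exact ⟨π, c, d, hπP, hπ0, hc, hd, hcd⟩

end Fermat.Agent.S36
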