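import Mathlib
import Fermat.Agent.S36.BaseLDvr
import Fermat.Agent.S36.BaseLUnif1
import Fermat.Agent.S19.Teich

/-!
# TRACK 10 (S36), package BASE-L / UNIF (helper20), part 2: uniformiser decomposition over the
inertia field

`Ω = ℚ̄`, `A` a valuation subring of `Ω` over the prime `q`, `I` its inertia group, `L = Ω^I`.

* `S36BL_unif_ram` : for every finite `S ⊂ Ω` there are `e ≥ 1` and `π ∈ Ω` with
  `v(π) ^ e = v(q)` such that every `c ∈ S` is `∑_{i < e} a_i π ^ i` with `a_i ∈ L`.

Proof: `K'` = normal closure of `ℚ(S)`, `P = A ∩ 𝓞 K'`, `E₀ = K'^{I_P} ⊂ L`, `e = #I_P = [K' : E₀]`,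
`π` a uniformiser at `P` (`S36BL_unif_fin`); the powers `π ^ i`, `i < e`, have pairwise distinct
value classes modulo `v(E₀ˣ) ⊆ v(q) ^ ℤ` (`S36BL_val_eq`), hence are linearly independent over
`E₀`, hence a basis.
-/

set_option autoImplicit false
set_option linter.unusedSectionVars false
set_option linter.unusedVariables false
set_option linter.style.haveILetI false

open NumberField IsDedekindDomain IntermediateField
open scoped Pointwise
open Fermat.Agent.Lib Fermat.Agent.S19

namespace Fermat.Agent.S36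

noncomputable section

local notation "Ω" => AlgebraicClosure ℚ
local notation "Γ" => (AlgebraicClosure ℚ ≃ₐ[ℚ] AlgebraicClosure ℚ)

variable {q : ℕ} [hq : Fact q.Prime] (A : ValuationSubring Ω)

/-- integers of a number field inside `Ω` that are not in the prime below `A` are units of
`A`. -/
theorem S36BL_val_of_notMem (K : IntermediateField ℚ Ω) [NumberField K] {c : 𝓞 K}
    (hc : c ∉ S36BL_P A K) : A.valuation (((c : K) : Ω)) = 1 := by
  rw [S36BL_mem_P] at hc
  refine (S36BL_unit_iff A).mp ⟨?_, hc⟩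
  exact S19D_int_mem A (c.isIntegral_coe.map (IsScalarTower.toAlgHom ℤ K Ω))

/-- the restriction of an element of the inertia group of `A` to a finite normal extension lies
in the inertia group of the prime below. -/
theorem S36BL_restrict_mem (K : IntermediateField ℚ Ω) [NumberField K] [Normal ℚ K]
    {τ : Γ} (hτ : τ ∈ A.inertiaSubgroupIn ℚ) :
    τ.restrictNormal K ∈ (S36BL_P A K).inertia (K ≃ₐ[ℚ] K) := by
  intro b
  show τ.restrictNormal K • b - b ∈ S36BL_P A K
  rw [S36BL_mem_P]
  have hbA : (((b : K) : Ω)) ∈ A :=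
    S19D_int_mem A (b.isIntegral_coe.map (IsScalarTower.toAlgHom ℤ K Ω))
  have h1 := S19TE_inertia_sub_mem A hτ hbA
  have h2 : (((τ.restrictNormal K • b - b : 𝓞 K) : K) : Ω) = τ ((b : K) : Ω) - ((b : K) : Ω) := by
    have h3 : ((τ.restrictNormal K • b : 𝓞 K) : K) = τ.restrictNormal K (b : K) := rfl
    have h4 : (((τ.restrictNormal K • b - b : 𝓞 K) : K) : Ω)
        = (((τ.restrictNormal K • b : 𝓞 K) : K) : Ω) - ((b : K) : Ω) := by
      push_cast
      rfl
    rw [h4, h3]
    congr 1
    exact AlgEquiv.restrictNormal_commutes τ K (b : K)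
  rw [h2]
  exact h1

/-- the elements of the finite-level inertia field are fixed by the inertia group of `A`. -/
theorem S36BL_fixed_of_mem (K : IntermediateField ℚ Ω) [NumberField K] [Normal ℚ K]
    {x : K} (hx : x ∈ IntermediateField.fixedField ((S36BL_P A K).inertia (K ≃ₐ[ℚ] K)))
    {τ : Γ} (hτ : τ ∈ A.inertiaSubgroupIn ℚ) : τ (x : Ω) = (x : Ω) := by
  have h1 : τ.restrictNormal K x = x := hx ⟨_, S36BL_restrict_mem A K hτ⟩
  have h2 := AlgEquiv.restrictNormal_commutes τ K x
  rw [h1] at h2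
  exact h2.symm

/-- **uniformiser decomposition**: for every finite `S ⊂ Ω` there are `e ≥ 1` and `π` with
`v(π) ^ e = v(q)` such that every `c ∈ S` is `∑_{i < e} a_i π ^ i` with `I`-fixed `a_i`. -/
theorem S36BL_unif_ram (hA : A.LiesOverPrime q) (S : Finset Ω) :
    ∃ (e : ℕ) (π : Ω), 0 < e ∧ A.valuation π ^ e = A.valuation (q : Ω) ∧
      ∀ c ∈ S, ∃ a : Fin e → Ω, (∀ i, ∀ τ ∈ A.inertiaSubgroupIn ℚ, τ (a i) = a i) ∧
        c = ∑ i, a i * π ^ (i : ℕ) := by
  classical
  haveI := S19D_isGalois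
  haveI : Normal ℚ Ω := IsGalois.to_normal
  let K₀ : IntermediateField ℚ Ω := IntermediateField.adjoin ℚ (S : Set Ω)
  haveI : FiniteDimensional ℚ K₀ := IntermediateField.finiteDimensional_adjoin
    (fun x _ => ((AlgebraicClosure.isAlgebraic ℚ).isAlgebraic x).isIntegral)
  let K' : IntermediateField ℚ Ω := IntermediateField.normalClosure ℚ K₀ Ω
  haveI : FiniteDimensional ℚ K' := inferInstance
  haveI : Normal ℚ K' := normalClosure.normal ℚ K₀ Ω
  haveI : IsGalois ℚ K' := ⟨⟩
  haveI : NumberField K' := ⟨⟩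
  have hSK : ∀ c ∈ S, c ∈ K' := fun c hc =>
    (IntermediateField.le_normalClosure K₀) (IntermediateField.subset_adjoin ℚ _ hc)
  have hP0 : S36BL_P A K' ≠ ⊥ := S36BL_P_ne_bot A hA K'
  have hqP : (q : 𝓞 K') ∈ S36BL_P A K' := by
    rw [S36BL_mem_P]
    have h2 : (q : Ω) ∈ A.nonunits := hA
    simpa using h2
  obtain ⟨π, c, d, hπP, hπ0, hc, hd, hcd⟩ := S36BL_unif_fin (S36BL_P A K') hP0 q hq.out hqP
  set e := Nat.card ((S36BL_P A K').inertia (K' ≃ₐ[ℚ] K')) with he
  have hfin : Module.finrank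
      (IntermediateField.fixedField ((S36BL_P A K').inertia (K' ≃ₐ[ℚ] K'))) K' = e :=
    IntermediateField.finrank_fixedField_eq_card ((S36BL_P A K').inertia (K' ≃ₐ[ℚ] K'))
  have hepos : 0 < e := Nat.card_pos
  -- valuations
  set w := A.valuation (((π : K') : Ω)) with hw
  have hπΩ : (((π : K') : Ω)) ≠ 0 := by
    intro h0
    apply hπ0
    have : (π : K') = 0 := Subtype.ext h0
    exact_mod_cast this
  have hw0 : w ≠ 0 := (Valuation.ne_zero_iff _).2 hπΩ
  have hw1 : w < 1 := A.mem_nonunits_iff.mp ((S36BL_mem_P A K' π).mp hπP)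
  have hwq : w ^ e = A.valuation (q : Ω) := by
    have h1 := congrArg (fun z : 𝓞 K' => A.valuation (((z : K') : Ω))) hcd
    simp only [map_mul, map_pow, map_natCast] at h1
    have h1' : A.valuation ((q : Ω)) * A.valuation (((c : K') : Ω))
        = A.valuation (((π : K') : Ω)) ^ e * A.valuation (((d : K') : Ω)) := by
      simpa using h1
    rw [S36BL_val_of_notMem A K' hc, S36BL_val_of_notMem A K' hd, mul_one, mul_one] at h1'
    exact h1'.symm
  -- linear independence
  have hli : LinearIndependent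
      (IntermediateField.fixedField ((S36BL_P A K').inertia (K' ≃ₐ[ℚ] K')))
      (fun i : Fin e => ((π : K') ^ (i : ℕ) : K')) := by
    rw [Fintype.linearIndependent_iff]
    intro g hg
    by_contra hcon
    push Not at hcon
    obtain ⟨i₀, hi₀⟩ := hcon
    set f : Fin e → Ω := fun i => (((g i : K') : Ω)) * (((π : K') : Ω)) ^ (i : ℕ) with hf
    have hsum : ∑ i, f i = 0 := by
      have h1 := congrArg (algebraMap K' Ω) hg
      rw [map_sum, map_zero] at h1
      rw [← h1]
      refine Finset.sum_congr rfl fun i _ => ?_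
      rw [Algebra.smul_def, map_mul, map_pow]
      rfl
    have hval : ∀ i, g i ≠ 0 → ∃ m : ℤ, A.valuation (f i) = w ^ ((e : ℤ) * m + (i : ℕ)) := by
      intro i hgi
      have hgΩ : (((g i : K') : Ω)) ≠ 0 := by
        intro h0
        apply hgi
        exact Subtype.ext (Subtype.ext h0)
      obtain ⟨m, hm⟩ := S36BL_val_eq A hA hgΩ
        (fun τ hτ => S36BL_fixed_of_mem A K' (g i).2 hτ)
      refine ⟨m, ?_⟩
      rw [hf]
      simp only
      rw [map_mul, map_pow, hm, ← hwq, zpow_add₀ hw0, zpow_mul, zpow_natCast, zpow_natCast]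
    have hzero : ∀ i, A.valuation (f i) ≠ 0 → g i ≠ 0 := by
      intro i hv hgi
      apply hv
      rw [hf]
      simp only
      rw [hgi]
      simp
    refine S36BL_sum_ne_zero A.valuation Finset.univ f ?_ ?_ hsum
    · intro i _ j _ hvi hij
      obtain ⟨mi, hmi⟩ := hval i (hzero i hvi)
      obtain ⟨mj, hmj⟩ := hval j (hzero j (by rw [← hij]; exact hvi))
      rw [hmi, hmj] at hij
      have hinj : (e : ℤ) * mi + ((i : ℕ) : ℤ) = (e : ℤ) * mj + ((j : ℕ) : ℤ) :=
        zpow_right_injective₀ (zero_lt_iff.mpr hw0) hw1.ne hij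
      have hdvd : (e : ℤ) ∣ ((i : ℕ) : ℤ) - ((j : ℕ) : ℤ) := ⟨mj - mi, by linarith⟩
      have habs : |((i : ℕ) : ℤ) - ((j : ℕ) : ℤ)| < (e : ℤ) := by
        have hi := i.2
        have hj := j.2
        rw [abs_lt]
        constructor <;> omega
      have := Int.eq_zero_of_abs_lt_dvd hdvd habs
      apply Fin.ext
      omega
    · obtain ⟨m, hm⟩ := hval i₀ hi₀
      refine ⟨i₀, Finset.mem_univ _, ?_⟩
      rw [hm]
      exact zpow_ne_zero _ hw0
  have hspan := hli.span_eq_top_of_card_eq_finrank' (by rw [Fintype.card_fin, hfin])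
  refine ⟨e, (((π : K') : Ω)), hepos, hwq, fun x hx => ?_⟩
  have hmem : (⟨x, hSK x hx⟩ : K') ∈ Submodule.span
      (IntermediateField.fixedField ((S36BL_P A K').inertia (K' ≃ₐ[ℚ] K')))
      (Set.range fun i : Fin e => ((π : K') ^ (i : ℕ) : K')) := by
    rw [hspan]; trivial
  obtain ⟨g, hg⟩ := (Submodule.mem_span_range_iff_exists_fun _).mp hmem
  refine ⟨fun i => (((g i : K') : Ω)), fun i τ hτ => S36BL_fixed_of_mem A K' (g i).2 hτ, ?_⟩
  have h1 := congrArg (algebraMap K' Ω) hg
  rw [map_sum] at h1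
  refine Eq.trans h1.symm ?_
  refine Finset.sum_congr rfl fun i _ => ?_
  rw [Algebra.smul_def, map_mul, map_pow]
  rfl

end

end Fermat.Agent.S36
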