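import Mathlib
import Fermat.Agent.S36.Cart3Wire

/-!
# TRACK 10 (S36), CART at the CUSPS of the ramified component `FV` (chart `U′`), abstract part
# (helper27).  Prefix `S36CC_`.

Setting of `S36/Cart3Wire.lean` (helper5) / `S36/LiWire.lean` (helper19): `S₁ S₂ S₃` = `FF`, `FV`,
`VV`, `C` a chart of LAT3 (here `U′ = {B ≠ c}`), `D : S36IT_Fam Ω F K ιv` its family,
`y = S36LK_y₂ D hle R e` the closed point of `FV` at the place `P` of `Fk₂`.

At a cusp of `FV` the generator of the vertical prime is NOT in the lattice: it is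
`s₀ = (C − A) A^(q-1) (B − c)⁻¹` (poles at the ∞-type and 0-type cusps of the generic fibre), which
is regular at every valuation ring THROUGH `y` (`S36CQ_core`, helper25, with the trichotomy
`S36KT_tri` of `S36/CuspTri.lean`).  INT (`D.exists_den`, helper17) gives `d₁ ∈ Λ`, `y d₁ ≠ 0`,
`ϖ := d₁ s₀ ∈ Λ`; with `g ∈ Λ` reducing to `(0, x, 0)`, `x(P) ≠ 0` ((R11a), from the conductor)
`d := g ϖ^(m+1) / q ∈ Λ` and `y d ≠ 0` because the reduction of `s₀^(m+1) / q` along `FV` is a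
unit at `P` (the count: `ord_P H_j = (q − 1) ord_P j̄`).

* `S36CC_div_mem` : `red g = 0` on an unramified component with uniformiser `q` ⇒ `g / q ∈ O`;
* `S36CC_y_ne_zero_iff` : `y f ≠ 0 ↔ red₂ f ≠ 0 ∧ ord_P (red₂ f) = 0`;
* `S36CC_R13cusp` : **(R13) at a cusp of `FV`** = the hypothesis `hR13` of `S36TX_hord₂`
  (helper11) / the inputs `ϖ g d hdK hd hϖq` of `S36CW_bundle₂` (helper5).
-/

set_option autoImplicit false
set_option linter.unusedSectionVars false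
set_option linter.style.haveILetI false

open AlgebraicCurve

namespace Fermat.Agent.S36

open Fermat.Agent.Lib Fermat.Agent.S24 Fermat.Agent.S18 Fermat.Agent.S34

section one

variable {L K k Fk : Type*} [Field L] [Field K] [Algebra L K] [Field k] [Field Fk]
  [Algebra k Fk] (S : S18_Val L K k Fk) {Ω F : Type*} [Field Ω] [Field F] [Algebra Ω F]
  {ιv : Type*} (D : S36IT_Fam Ω F K ιv)

/-- a function of the lattice with zero reduction along a component with uniformiser `q` is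
divisible by `q` in the valuation ring of the component. -/
theorem S36CC_div_mem {j₀ : ιv} (hj₀ : D.Ov j₀ = S.O) (hO : ∀ f : D.Λ, (f : K) ∈ S.O)
    (q : K) (hq : S36CA_IsUnif (D.Ov j₀) q) (f : D.Λ) (h0 : S36CA_compRed S D hO f = 0) :
    (f : K) / q ∈ D.Ov j₀ := by
  rcases (S36CA_compRed_eq_zero_iff S D hj₀ hO f).1 h0 with h | h
  · rw [h]
    simp only [ZeroMemClass.coe_zero, zero_div]
    exact (D.Ov j₀).zero_mem
  · exact hq.gen _ (f.2 (Sum.inl j₀)) h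

/-- the point `y` (evaluation at `P` of the reduction) does not vanish at `f` iff the reduction
of `f` is a unit at `P`. -/
theorem S36CC_y_ne_zero_iff (h : RR_Hyp k Fk) (hO : ∀ f : D.Λ, (f : K) ∈ S.O) (y : D.Λ →+* k)
    (P : Place k Fk) (hy : ∀ f : D.Λ, y f = FD_c0 P (S36CA_compRed S D hO f))
    (hreg : ∀ f : D.Λ, P.adicValuation (S36CA_compRed S D hO f) ≤ 1) (f : D.Λ) :
    y f ≠ 0 ↔ (S36CA_compRed S D hO f ≠ 0 ∧ P.ord (S36CA_compRed S D hO f) = 0) := by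
  have hy' := S36CA_hy_of_spec h D.Λ y (S36CA_compRed S D hO) P hreg hy f
  constructor
  · intro hne
    have h1 : ¬ (S36CA_compRed S D hO f = 0 ∨ 0 < P.ord (S36CA_compRed S D hO f)) :=
      fun hc => hne (hy'.2 hc)
    push Not at h1
    refine ⟨h1.1, le_antisymm h1.2 ?_⟩
    rcases (Place.adicValuation_le_one_iff P).1 (hreg f) with h0 | h0
    · exact absurd h0 h1.1
    · exact h0
  · rintro ⟨h1, h2⟩ h0
    rcases hy'.1 h0 with h3 | h3
    · exact h1 h3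
    · rw [h2] at h3
      exact lt_irrefl _ h3

end one

section cusp

variable {L K k Fk₁ Fk₂ Fk₃ : Type*} [Field L] [Field K] [Algebra L K] [Field k]
  [Field Fk₁] [Field Fk₂] [Field Fk₃] [Algebra k Fk₁] [Algebra k Fk₂] [Algebra k Fk₃]
  {S₁ : S18_Val L K k Fk₁} {S₂ : S18_Val L K k Fk₂} {S₃ : S18_Val L K k Fk₃}
  (hS : S36L3_Same S₁ S₂ S₃) {n : ℕ} {C : S36L3_Chart L K k Fk₁ Fk₂ Fk₃ n}
  {Ω F : Type*} [Field Ω] [Field F] [Algebra Ω F] {ιv : Type*} (D : S36IT_Fam Ω F K ιv)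
  (hle : D.Λ ≤ S36LJ_Lam S₁ S₂ S₃ C.B.toSubring)
  (R : S36LJ_Red (S₁ := S₁) (S₂ := S₂) (S₃ := S₃) C)

/-- **(R13) at a cusp of `FV`**: from a generator `s₀ ∈ K` of the vertical prime which is regular
at every valuation ring through `y` (THRU), (R11a), the uniformiser `q` of `FF` and `VV`, and the
unit count `ord_P (red_FV (s₀^(m+1) / q)) = 0`. -/
theorem S36CC_R13cusp [Finite ιv] (h₂ : RR_Hyp k Fk₂)
    (hge : S36LJ_Lam S₁ S₂ S₃ C.B.toSubring ≤ D.Λ) {jFF jFV jVV : ιv}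
    (hFF : D.Ov jFF = S₁.O) (hFV : D.Ov jFV = S₂.O) (hVV : D.Ov jVV = S₃.O)
    (hall : ∀ j : ιv, j = jFF ∨ j = jFV ∨ j = jVV)
    (e : C.Rb₂ →+* k) (P : Place k Fk₂) (he : ∀ r : C.Rb₂, e r = FD_c0 P (r : Fk₂))
    (hRb : ∀ r : C.Rb₂, P.adicValuation (r : Fk₂) ≤ 1)
    (hR11a : ∃ g ∈ S36L3_W hS C 1, e g.2.1 ≠ 0 ∧ g.1 = 0 ∧ g.2.2 = 0)
    (q : D.Λ) (c : Ω) (hc : c ≠ 0) (hqc : D.φ (q : K) = algebraMap Ω F c)
    (hqFF : S36CA_IsUnif (D.Ov jFF) (q : K)) (hqVV : S36CA_IsUnif (D.Ov jVV) (q : K))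
    (s₀ : K) (hthru : ∀ i ∈ D.thru (S36LK_y₂ D hle R e), D.v i s₀ ≤ 1)
    (m : ℕ) (hw : s₀ ^ (m + 1) / q ∈ S₂.O)
    (hw0 : S₂.red ⟨s₀ ^ (m + 1) / q, hw⟩ ≠ 0)
    (hunit : P.ord (S₂.red ⟨s₀ ^ (m + 1) / q, hw⟩) = 0) :
    ∃ ϖ g d : D.Λ, (d : K) = g * (ϖ : K) ^ (m + 1) / q ∧
      S36LK_y₂ D hle R e d ≠ 0 ∧ (ϖ : K) ^ (m + 1) / q ∈ D.Ov jFV := by
  set y := S36LK_y₂ D hle R e with hy_def
  have hq0 : (q : K) ≠ 0 := by
    intro h0
    rw [h0, map_zero] at hqc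
    exact hc ((map_eq_zero _).1 hqc.symm)
  have hy : ∀ f : D.Λ, y f = FD_c0 P (S36CA_compRed S₂ D (S36CW_mem₂ D hle) f) := fun f => by
    rw [hy_def, S36CW_y₂_apply, he]
  have hreg : ∀ f : D.Λ, P.adicValuation (S36CA_compRed S₂ D (S36CW_mem₂ D hle) f) ≤ 1 :=
    fun f => hRb ⟨_, R.red₂ f (hle f.2)⟩
  have hiff := S36CC_y_ne_zero_iff S₂ D h₂ (S36CW_mem₂ D hle) y P hy hreg
  -- the denominator
  obtain ⟨d₁, hd₁y, hd₁Λ⟩ := D.exists_den y s₀ hthru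
  -- (R11a)
  obtain ⟨g, hg, hge2, hg1, hg3⟩ := hR11a
  obtain ⟨f, e1, e2, e3⟩ := S36CW_exists_of_W hS D hle hge g hg
  have hfy : y f ≠ 0 := by
    rw [hy_def, S36CW_y₂_apply]
    have : (⟨S36CA_compRed S₂ D (S36CW_mem₂ D hle) f, R.red₂ f (hle f.2)⟩ : C.Rb₂) = g.2.1 :=
      Subtype.ext e2
    rw [this]
    exact hge2
  have hfFF : (f : K) / q ∈ D.Ov jFF :=
    S36CC_div_mem S₁ D hFF (S36CW_mem₁ D hle) q hqFF f (by rw [e1, hg1]; rfl)
  have hfVV : (f : K) / q ∈ D.Ov jVV :=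
    S36CC_div_mem S₃ D hVV (S36CW_mem₃ D hle) q hqVV f (by rw [e3, hg3]; rfl)
  -- `ϖ^(m+1) / q` along `FV`
  have hϖq' : ((d₁ : K) * s₀) ^ (m + 1) / q ∈ S₂.O := by
    have : ((d₁ : K) * s₀) ^ (m + 1) / q = (d₁ : K) ^ (m + 1) * (s₀ ^ (m + 1) / q) := by
      rw [mul_pow, mul_div_assoc]
    rw [this]
    exact S₂.O.mul_mem _ _ (S₂.O.pow_mem (S36CW_mem₂ D hle d₁) _) hw
  -- `d ∈ Λ`
  have hdΛ : (f : K) * ((d₁ : K) * s₀) ^ (m + 1) / q ∈ D.Λ := by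
    rw [S36IT_Fam.mem_Λ]
    rintro (j | Q)
    · rw [S36IT_Fam.O_inl]
      rcases hall j with rfl | rfl | rfl
      · have : (f : K) * ((d₁ : K) * s₀) ^ (m + 1) / q =
            ((f : K) / q) * ((d₁ : K) * s₀) ^ (m + 1) := by
          field_simp
        rw [this]
        exact (D.Ov _).mul_mem _ _ hfFF ((D.Ov _).pow_mem (hd₁Λ (Sum.inl _)) _)
      · rw [mul_div_assoc, hFV]
        exact S₂.O.mul_mem _ _ (S36CW_mem₂ D hle f) hϖq'
      · have : (f : K) * ((d₁ : K) * s₀) ^ (m + 1) / q =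
            ((f : K) / q) * ((d₁ : K) * s₀) ^ (m + 1) := by
          field_simp
        rw [this]
        exact (D.Ov _).mul_mem _ _ hfVV ((D.Ov _).pow_mem (hd₁Λ (Sum.inl _)) _)
    · have hqU := D.ca_const_unit Q q c hc hqc
      rw [div_eq_mul_inv]
      exact (D.O _).mul_mem _ _
        ((D.O _).mul_mem _ _ (f.2 _) ((D.O _).pow_mem (hd₁Λ _) _)) hqU.2
  refine ⟨⟨(d₁ : K) * s₀, hd₁Λ⟩, f, ⟨_, hdΛ⟩, rfl, ?_, ?_⟩
  · -- `y d ≠ 0`
    rw [hiff]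
    have hred : S36CA_compRed S₂ D (S36CW_mem₂ D hle)
        ⟨(f : K) * ((d₁ : K) * s₀) ^ (m + 1) / q, hdΛ⟩ =
        S36CA_compRed S₂ D (S36CW_mem₂ D hle) f *
          S36CA_compRed S₂ D (S36CW_mem₂ D hle) d₁ ^ (m + 1) *
          S₂.red ⟨s₀ ^ (m + 1) / q, hw⟩ := by
      rw [S36CA_compRed_apply, S36CA_compRed_apply, S36CA_compRed_apply, ← map_pow, ← map_mul,
        ← map_mul]
      congr 1
      apply Subtype.ext
      show (f : K) * ((d₁ : K) * s₀) ^ (m + 1) / q =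
        (f : K) * (d₁ : K) ^ (m + 1) * (s₀ ^ (m + 1) / q)
      rw [mul_pow]
      ring
    obtain ⟨hf0, hfo⟩ := (hiff f).1 hfy
    obtain ⟨hd0, hdo⟩ := (hiff d₁).1 hd₁y
    rw [hred]
    refine ⟨mul_ne_zero (mul_ne_zero hf0 (pow_ne_zero _ hd0)) hw0, ?_⟩
    rw [P.ord_mul (mul_ne_zero hf0 (pow_ne_zero _ hd0)) hw0,
      P.ord_mul hf0 (pow_ne_zero _ hd0), ← zpow_natCast, P.ord_zpow, hfo, hdo, hunit]
    simp
  · rw [hFV]
    exact hϖq'

end cusp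

end Fermat.Agent.S36
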