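import Fermat.Agent.S36.CuspLiUnr
import Fermat.Agent.S36.Cart3Wire

/-!
# TRACK 10 (S36), package F6 CART (R14) (helper5), part 12: (LI) in place form.
# Prefix `S36CP_`.

Setting of `S36/LiWire.lean`, `S36/Triv3Li.lean`, `S36/CuspLiUnr.lean`.  Complements helper2's
`S36CL_point₁/₃`, `S36CL_pl₁/₃` (points of the unramified components off the triple points):

* `S36CP_point₂` : **(LI) at a point `P` of `FV` off the triple points**, on ANY chart (ordinary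
  point or cusp), from `hint₂` (ruling D11: (C2) and `hnot` from the conductor), a uniformiser
  `π` of `FV` with `π^(m+1) / q` a unit, and (R13) at the point: `d = g ϖ^(m+1) / q ∈ Λ` with
  `(red_FV d)(P) ≠ 0`;
* `S36CP_li` : **(LI) at a triple point** (all three branch values non-zero), from the
  supersingular bundle `S36CW_bundle_ss`: (R13 ss) `ε = t₁ t₂ ϖ^(m+1) / q` and lifts on `VV`;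
* `S36CP_pl₁`, `S36CP_pl₂`, `S36CP_pl₃` : **`hpl₁ hpl₂ hpl₃` of `S36TI_Geo.ofPlaces`** on a chart
  `{x ≠ ∞}` all of whose triple points are affine: (LI) at EVERY affine place.
-/

set_option autoImplicit false
set_option linter.unusedSectionVars false
set_option linter.style.haveILetI false

open AlgebraicCurve

namespace Fermat.Agent.S36

open Fermat.Agent.Lib Fermat.Agent.S18 Fermat.Agent.S24 Fermat.Agent.S34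

variable {L K k Fk₁ Fk₂ Fk₃ : Type*} [Field L] [Field K] [Algebra L K] [Field k]
  [Field Fk₁] [Field Fk₂] [Field Fk₃] [Algebra k Fk₁] [Algebra k Fk₂] [Algebra k Fk₃]
  {S₁ : S18_Val L K k Fk₁} {S₂ : S18_Val L K k Fk₂} {S₃ : S18_Val L K k Fk₃}
  (hS : S36L3_Same S₁ S₂ S₃) {n : ℕ} {C : S36L3_Chart L K k Fk₁ Fk₂ Fk₃ n}
  {Ω F : Type*} [Field Ω] [Field F] [Algebra Ω F] {ιv : Type*} (D : S36IT_Fam Ω F K ιv)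

/-- **(LI) at a point `P` of `FV` off the triple points** (ordinary point or cusp), on any
chart: (C2) and `hnot` from the conductor statement `hint₂`, (R13) at the point. -/
theorem S36CP_point₂ [Finite ιv] [IsNoetherianRing D.Λ] {ι : Type*} [Finite ι]
    (hle : D.Λ ≤ S36LJ_Lam S₁ S₂ S₃ C.B.toSubring)
    (hge : S36LJ_Lam S₁ S₂ S₃ C.B.toSubring ≤ D.Λ)
    (R : S36LJ_Red (S₁ := S₁) (S₂ := S₂) (S₃ := S₃) C)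
    (hOv : ∀ i : ιv, D.Ov i = S₁.O ∨ D.Ov i = S₂.O ∨ D.Ov i = S₃.O)
    (hfrac : ∀ x : K, ∃ b : D.Λ, (b : K) ≠ 0 ∧ (b : K) * x ∈ D.Λ)
    (j₀ : ιv) (hj₀ : D.Ov j₀ = S₂.O)
    (hoth : ∀ j : ιv, j ≠ j₀ → D.Ov j = S₁.O ∨ D.Ov j = S₃.O)
    (q : D.Λ) (c : Ω) (hc : c ≠ 0) (hqc : D.φ (q : K) = algebraMap Ω F c)
    (π : K) (m : ℕ) (hπ : S36CA_IsUnif (D.Ov j₀) π)
    (hπq : S36LW_IsU (D.Ov j₀) (π ^ (m + 1) / q))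
    (h : RR_Hyp k Fk₂) (T : Set (Place k Fk₂)) (c₀ : Place k Fk₂) (hc₀ : c₀ ∈ T)
    (hRT : ∀ a : Fk₂, (∀ Q : Place k Fk₂, Q ∉ T → 0 ≤ Q.ord a) → a ∈ C.Rb₂)
    (X : S36SE_Pts k Fk₁ Fk₂ Fk₃ ι) (hC : S36SE_Reg C X)
    (hint₂ : ∀ g g' : ↥C.Rb₂, (∀ y, S36SE_e₂ C X hC y g = 0) →
      (∀ y, S36SE_e₂ C X hC y g' = 0) →
      ((0, g * g', 0) : ↥C.Rb₁ × ↥C.Rb₂ × ↥C.Rb₃) ∈ S36L3_W hS C 1)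
    (P : Place k Fk₂) (hPT : P ∉ T) (hP : ∀ f ∈ C.Rb₂, P.adicValuation f ≤ 1)
    (hPne : ∀ y, S36SE_ev C.Rb₂ P (h.deg_one P) hP ≠ S36SE_e₂ C X hC y)
    (ϖ g d : D.Λ) (hdK : (d : K) = g * (ϖ : K) ^ (m + 1) / q)
    (hd : FD_c0 P (S₂.red ⟨d, (hle d.2).1.2.1⟩) ≠ 0)
    (hϖq : (ϖ : K) ^ (m + 1) / q ∈ D.Ov j₀)
    {u : K} (hu : u ∈ S36L3_Norm S₁ S₂ S₃)
    (hsep : ∀ Q ∈ D.U, ∃ g : K, g ≠ 0 ∧ (n : ℤ) * Q.ord (D.φ g) + Q.ord (D.φ u) = 0 ∧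
      ∀ Q' ∈ D.U, 0 ≤ (n : ℤ) * Q'.ord (D.φ g) + Q'.ord (D.φ u))
    (hsep0 : ∃ g : K, g ≠ 0 ∧ ∀ Q' ∈ D.U, 0 ≤ (n : ℤ) * Q'.ord (D.φ g) + Q'.ord (D.φ u)) :
    ∃ m' ∈ S36L3_W hS C u, FD_c0 P ((m'.2.1 : ↥C.Rb₂) : Fk₂) ≠ 0 := by
  set e : ↥C.Rb₂ →ₐ[k] k := S36SE_ev C.Rb₂ P (h.deg_one P) hP with he
  have hO : ∀ f : D.Λ, (f : K) ∈ S₂.O := fun f => (hle f.2).1.2.1
  -- a function vanishing at the triple points and not at `P`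
  obtain ⟨g₀, hg₀y, hg₀P⟩ := S36N3_exists_ne (S36SE_e₂ C X hC) e hPne
  have hg₀P' : FD_c0 P ((g₀ : ↥C.Rb₂) : Fk₂) ≠ 0 := hg₀P
  obtain ⟨hg₀0, hg₀ord⟩ := S36CL_ord_zero P (h.deg_one P) (hP _ g₀.2) hg₀P'
  -- the lifts of `a · g₀ · g₀`
  have hliftA : ∀ a : ↥C.Rb₂, ∃ f : D.Λ,
      S36CA_compRed S₂ D hO f = (a : Fk₂) * ((g₀ : Fk₂) * (g₀ : Fk₂)) ∧
      (∀ hf₁ : (f : K) ∈ S₁.O, S₁.red ⟨f, hf₁⟩ = 0) ∧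
      (∀ hf₃ : (f : K) ∈ S₃.O, S₃.red ⟨f, hf₃⟩ = 0) := by
    intro a
    have hag : ∀ y, S36SE_e₂ C X hC y (a * g₀) = 0 := fun y => by
      rw [map_mul, hg₀y y, mul_zero]
    obtain ⟨f, hf3, hred⟩ := S36CL_lift hS D hge (hint₂ (a * g₀) g₀ hag hg₀y)
    refine ⟨f, ?_, ?_, ?_⟩
    · have h1 := congrArg (fun z => z.2.1) hred
      rw [S36CA_compRed_apply]
      have h2 : S₂.red ⟨(f : K), hO f⟩ = (S36L3_red S₁ S₂ S₃ ⟨f, hf3⟩).2.1 := rfl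
      rw [h2, h1]
      push_cast
      ring
    · intro hf₁
      have h1 := congrArg Prod.fst hred
      exact h1
    · intro hf₃
      have h1 := congrArg (fun z => z.2.2) hred
      exact h1
  -- the closed point
  have hy : ∀ f : D.Λ, S36LK_y₂ D hle R (e : ↥C.Rb₂ →+* k) f =
      FD_c0 P (S36CA_compRed S₂ D hO f) := fun f => rfl
  have hreg : ∀ f : D.Λ, P.adicValuation (S36CA_compRed S₂ D hO f) ≤ 1 := fun f =>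
    hP _ (R.red₂ f (hle f.2))
  have hlift : ∀ a₁ a₂ : Fk₂, (∀ Q : Place k Fk₂, Q ∉ T → 0 ≤ Q.ord a₁) →
      (∀ Q : Place k Fk₂, Q ∉ T → 0 ≤ Q.ord a₂) →
      ∃ (e' : Fk₂) (f₁ f₂ : D.Λ), e' ≠ 0 ∧ P.ord e' = 0 ∧
        S36CA_compRed S₂ D hO f₁ = a₁ * e' ∧ S36CA_compRed S₂ D hO f₂ = a₂ * e' := by
    intro a₁ a₂ h₁ h₂
    obtain ⟨f₁, hf₁, -, -⟩ := hliftA ⟨a₁, hRT a₁ h₁⟩
    obtain ⟨f₂, hf₂, -, -⟩ := hliftA ⟨a₂, hRT a₂ h₂⟩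
    refine ⟨(g₀ : Fk₂) * (g₀ : Fk₂), f₁, f₂, mul_ne_zero hg₀0 hg₀0, ?_, hf₁, hf₂⟩
    rw [P.ord_mul hg₀0 hg₀0, hg₀ord, add_zero]
  have hnot : ∀ j : ιv, j ≠ j₀ → ∃ g : D.Λ, ((g : K))⁻¹ ∉ D.Ov j ∧
      S36LK_y₂ D hle R (e : ↥C.Rb₂ →+* k) g ≠ 0 := by
    intro j hj
    obtain ⟨f, hf₂, hf₁, hf₃⟩ := hliftA 1
    have hf₂' : S36CA_compRed S₂ D hO f = (g₀ : Fk₂) * (g₀ : Fk₂) := by
      rw [hf₂]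
      push_cast
      rw [one_mul]
    have hfK : (f : K) ≠ 0 := by
      intro h0
      have : S36CA_compRed S₂ D hO f = 0 := by
        rw [S36CA_compRed_apply]
        have : (⟨(f : K), hO f⟩ : S₂.O) = 0 := Subtype.ext h0
        rw [this, map_zero]
      rw [hf₂'] at this
      exact mul_ne_zero hg₀0 hg₀0 this
    refine ⟨f, ?_, ?_⟩
    · rcases hoth j hj with hj1 | hj3
      · rw [hj1]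
        exact S36CL_inv_not_mem S₁ hfK (hle f.2).1.1 (hf₁ _)
      · rw [hj3]
        exact S36CL_inv_not_mem S₃ hfK (hle f.2).1.2.2 (hf₃ _)
    · rw [hy f, hf₂', (FD_c0_mul P (h.deg_one P) (hP _ g₀.2) (hP _ g₀.2)).1]
      exact mul_ne_zero hg₀P' hg₀P'
  have hd' : S36LK_y₂ D hle R (e : ↥C.Rb₂ →+* k) d ≠ 0 := hd
  obtain ⟨B, hVt, hVtv⟩ := S36CA_comp_ram h hj₀ hO (S36LK_y₂ D hle R (e : ↥C.Rb₂ →+* k)) P hy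
    T c₀ hc₀ hPT hreg hlift hnot q c hc hqc ϖ g d m hdK hd' hϖq π hπ hπq
  obtain ⟨m', hm', hne⟩ := S36LK_point₂ hS D hle R hOv hfrac (e : ↥C.Rb₂ →+* k) B hVt hVtv hu
    hsep hsep0
  exact ⟨m', hm', hne⟩

/-- **(LI) at a triple point**: the three branch values of a section are non-zero. -/
theorem S36CP_li [Finite ιv] [IsNoetherianRing D.Λ] {ι : Type*}
    (hle : D.Λ ≤ S36LJ_Lam S₁ S₂ S₃ C.B.toSubring)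
    (R : S36LJ_Red (S₁ := S₁) (S₂ := S₂) (S₃ := S₃) C)
    (hOv : ∀ i : ιv, D.Ov i = S₁.O ∨ D.Ov i = S₂.O ∨ D.Ov i = S₃.O)
    (hfrac : ∀ x : K, ∃ b : D.Λ, (b : K) ≠ 0 ∧ (b : K) * x ∈ D.Λ)
    (h₁ : RR_Hyp k Fk₁) (h₂ : RR_Hyp k Fk₂) (h₃ : RR_Hyp k Fk₃) {jFF jFV jVV : ιv}
    (hFF : D.Ov jFF = S₁.O) (hFV : D.Ov jFV = S₂.O) (hVV : D.Ov jVV = S₃.O)
    (h12 : jFF ≠ jFV) (h13 : jFF ≠ jVV) (h23 : jFV ≠ jVV)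
    (hall : ∀ j : ιv, j = jFF ∨ j = jFV ∨ j = jVV)
    (X : S36SE_Pts k Fk₁ Fk₂ Fk₃ ι) (hC : S36SE_Reg C X)
    (hW1 : ∀ m ∈ S36L3_W hS C 1, ∀ y, S36SE_e₁ C X hC y m.1 = S36SE_e₂ C X hC y m.2.1 ∧
      S36SE_e₁ C X hC y m.1 = S36SE_e₃ C X hC y m.2.2)
    (y : ι) (T : Set (Place k Fk₃)) (c₀ : Place k Fk₃) (hc₀ : c₀ ∈ T) (hPT : X.P₃ y ∉ T)
    (hlift : ∀ a₁ a₂ : Fk₃, (∀ Q : Place k Fk₃, Q ∉ T → 0 ≤ Q.ord a₁) →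
      (∀ Q : Place k Fk₃, Q ∉ T → 0 ≤ Q.ord a₂) →
      ∃ (ε : Fk₃) (f₁ f₂ : D.Λ), ε ≠ 0 ∧ (X.P₃ y).ord ε = 0 ∧
        S36CA_compRed S₃ D (S36CW_mem₃ D hle) f₁ = a₁ * ε ∧
        S36CA_compRed S₃ D (S36CW_mem₃ D hle) f₂ = a₂ * ε)
    (q : D.Λ) (c : Ω) (hc : c ≠ 0) (hqc : D.φ (q : K) = algebraMap Ω F c)
    (ϖ t₁ t₂ ε : D.Λ) (m : ℕ)
    (hεK : (ε : K) = t₁ * t₂ * (ϖ : K) ^ (m + 1) / q)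
    (hε : FD_c0 (X.P₁ y) (S₁.red ⟨ε, (hle ε.2).1.1⟩) ≠ 0)
    (ht₁ : (t₁ : K) / q ∈ D.Ov jFF) (ht₂ : (t₂ : K) / q ∈ D.Ov jVV)
    (hϖ : (ϖ : K) ^ (m + 1) / q ∈ D.Ov jFV)
    (hqFF : S36CA_IsUnif (D.Ov jFF) (q : K)) (hqVV : S36CA_IsUnif (D.Ov jVV) (q : K))
    (π : K) (hπ : S36CA_IsUnif (D.Ov jFV) π) (hπq : S36LW_IsU (D.Ov jFV) (π ^ (m + 1) / q))
    {u : K} (hu : u ∈ S36L3_Norm S₁ S₂ S₃)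
    (hsep : ∀ Q ∈ D.U, ∃ g : K, g ≠ 0 ∧ (n : ℤ) * Q.ord (D.φ g) + Q.ord (D.φ u) = 0 ∧
      ∀ Q' ∈ D.U, 0 ≤ (n : ℤ) * Q'.ord (D.φ g) + Q'.ord (D.φ u))
    (hsep0 : ∃ g : K, g ≠ 0 ∧ ∀ Q' ∈ D.U, 0 ≤ (n : ℤ) * Q'.ord (D.φ g) + Q'.ord (D.φ u)) :
    ∃ m' ∈ S36L3_W hS C u, S36SE_e₁ C X hC y m'.1 ≠ 0 ∧ S36SE_e₂ C X hC y m'.2.1 ≠ 0 ∧
      S36SE_e₃ C X hC y m'.2.2 ≠ 0 := by
  have hW1y : ∀ m ∈ S36L3_W hS C 1,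
      (S36SE_e₁ C X hC y : ↥C.Rb₁ →+* k) m.1 = (S36SE_e₂ C X hC y : ↥C.Rb₂ →+* k) m.2.1 ∧
      (S36SE_e₁ C X hC y : ↥C.Rb₁ →+* k) m.1 = (S36SE_e₃ C X hC y : ↥C.Rb₃ →+* k) m.2.2 :=
    fun m hm => hW1 m hm y
  have hε' : S36LK_y₁ D hle R (S36SE_e₁ C X hC y : ↥C.Rb₁ →+* k) ε ≠ 0 := hε
  obtain ⟨B, hVt, hVtv⟩ := S36CW_bundle_ss hS D hle R h₁ h₂ h₃ hFF hFV hVV h12 h13 h23 hall
    (S36SE_e₁ C X hC y : ↥C.Rb₁ →+* k) (S36SE_e₂ C X hC y : ↥C.Rb₂ →+* k)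
    (S36SE_e₃ C X hC y : ↥C.Rb₃ →+* k) hW1y (X.P₁ y) (X.P₂ y) (X.P₃ y)
    (fun _ => rfl) (fun _ => rfl) (fun _ => rfl) (fun r => hC.reg₃ y _ r.2) T c₀ hc₀ hPT hlift
    q c hc hqc ϖ t₁ t₂ ε m hεK hε' ht₁ ht₂ hϖ hqFF hqVV π hπ hπq
  exact S36LK_li hS D hle R hOv hfrac (S36SE_e₁ C X hC y) (S36SE_e₂ C X hC y)
    (S36SE_e₃ C X hC y) (fun m hm => hW1 m hm y) B hVt hVtv hu hsep hsep0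

/-! ### separation of the affine places -/

/-- two different affine places of a chart `{x ≠ ∞}` are separated by a function of the
coordinate ring. -/
theorem S36CP_sep_place {κ : Type*} [Field κ] [Algebra k κ] [Infinite k] (h : RR_Hyp k κ)
    (x : κ) (c₀ : Place k κ) (hc₀ : c₀.ord x < 0) (Rb : Subalgebra k κ)
    (hR : ∀ y : κ, y ∈ Rb ↔ ∀ Q : Place k κ, Q.adicValuation x ≤ 1 → Q.adicValuation y ≤ 1)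
    (P P' : Place k κ) (hP : P.adicValuation x ≤ 1) (hP' : P'.adicValuation x ≤ 1)
    (hne : P ≠ P') : ∃ r : ↥Rb, FD_c0 P (r : κ) ≠ FD_c0 P' (r : κ) := by
  by_contra hcon
  push Not at hcon
  exact hne (S36SP_pt_injective h x c₀ hc₀ Rb hR P P' hP hP' hcon)

/-- **(LI) at all the triple points** from the supersingular bundles: surjectivity of the
reduction along `VV` (lifts from level `M`, helper25) and (R13 ss). -/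
theorem S36CP_li_all [Finite ιv] [IsNoetherianRing D.Λ] {ι : Type*}
    (hle : D.Λ ≤ S36LJ_Lam S₁ S₂ S₃ C.B.toSubring)
    (R : S36LJ_Red (S₁ := S₁) (S₂ := S₂) (S₃ := S₃) C)
    (hOv : ∀ i : ιv, D.Ov i = S₁.O ∨ D.Ov i = S₂.O ∨ D.Ov i = S₃.O)
    (hfrac : ∀ x : K, ∃ b : D.Λ, (b : K) ≠ 0 ∧ (b : K) * x ∈ D.Λ)
    (h₁ : RR_Hyp k Fk₁) (h₂ : RR_Hyp k Fk₂) (h₃ : RR_Hyp k Fk₃) {jFF jFV jVV : ιv}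
    (hFF : D.Ov jFF = S₁.O) (hFV : D.Ov jFV = S₂.O) (hVV : D.Ov jVV = S₃.O)
    (h12 : jFF ≠ jFV) (h13 : jFF ≠ jVV) (h23 : jFV ≠ jVV)
    (hall : ∀ j : ιv, j = jFF ∨ j = jFV ∨ j = jVV)
    (x₃ : Fk₃) (c₃ : Place k Fk₃) (hc₃ : c₃.ord x₃ < 0)
    (hR₃ : ∀ y : Fk₃, y ∈ C.Rb₃ ↔
      ∀ Q : Place k Fk₃, Q.adicValuation x₃ ≤ 1 → Q.adicValuation y ≤ 1)
    (X : S36SE_Pts k Fk₁ Fk₂ Fk₃ ι) (hC : S36SE_Reg C X)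
    (hW1 : ∀ m ∈ S36L3_W hS C 1, ∀ y, S36SE_e₁ C X hC y m.1 = S36SE_e₂ C X hC y m.2.1 ∧
      S36SE_e₁ C X hC y m.1 = S36SE_e₃ C X hC y m.2.2)
    (hsurj₃ : ∀ a : ↥C.Rb₃, ∃ f : D.Λ, S₃.red ⟨f, (hle f.2).1.2.2⟩ = (a : Fk₃))
    (q : D.Λ) (c : Ω) (hc : c ≠ 0) (hqc : D.φ (q : K) = algebraMap Ω F c) (m : ℕ)
    (hqFF : S36CA_IsUnif (D.Ov jFF) (q : K)) (hqVV : S36CA_IsUnif (D.Ov jVV) (q : K))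
    (π : K) (hπ : S36CA_IsUnif (D.Ov jFV) π) (hπq : S36LW_IsU (D.Ov jFV) (π ^ (m + 1) / q))
    (hR13 : ∀ y : ι, ∃ ϖ t₁ t₂ ε : D.Λ, (ε : K) = t₁ * t₂ * (ϖ : K) ^ (m + 1) / q ∧
      FD_c0 (X.P₁ y) (S₁.red ⟨ε, (hle ε.2).1.1⟩) ≠ 0 ∧ (t₁ : K) / q ∈ D.Ov jFF ∧
      (t₂ : K) / q ∈ D.Ov jVV ∧ (ϖ : K) ^ (m + 1) / q ∈ D.Ov jFV)
    {Kp : Subgroup Kˣ} (hKp : Kp ≤ S36L3_NormGrp S₁ S₂ S₃)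
    (hsep : ∀ u ∈ Kp, ∀ Q ∈ D.U, ∃ g : K, g ≠ 0 ∧
      (n : ℤ) * Q.ord (D.φ g) + Q.ord (D.φ ((u : Kˣ) : K)) = 0 ∧
      ∀ Q' ∈ D.U, 0 ≤ (n : ℤ) * Q'.ord (D.φ g) + Q'.ord (D.φ ((u : Kˣ) : K)))
    (hsep0 : ∀ u ∈ Kp, ∃ g : K, g ≠ 0 ∧
      ∀ Q' ∈ D.U, 0 ≤ (n : ℤ) * Q'.ord (D.φ g) + Q'.ord (D.φ ((u : Kˣ) : K))) :
    ∀ u ∈ Kp, ∀ y, ∃ m' ∈ S36L3_W hS C ((u : Kˣ) : K),
      S36SE_e₁ C X hC y m'.1 ≠ 0 ∧ S36SE_e₂ C X hC y m'.2.1 ≠ 0 ∧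
        S36SE_e₃ C X hC y m'.2.2 ≠ 0 := by
  intro u hu y
  obtain ⟨ϖ, t₁, t₂, ε, hεK, hε, ht₁, ht₂, hϖ⟩ := hR13 y
  have hx₃ : x₃ ∈ C.Rb₃ := (hR₃ x₃).2 fun _ hQ => hQ
  have hPy : (X.P₃ y).adicValuation x₃ ≤ 1 := hC.reg₃ y x₃ hx₃
  refine S36CP_li hS D hle R hOv hfrac h₁ h₂ h₃ hFF hFV hVV h12 h13 h23 hall X hC hW1 y
    {Q | ¬ Q.adicValuation x₃ ≤ 1} c₃ ((Place.not_adicValuation_le_one_iff c₃).2 hc₃)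
    (fun hn => hn hPy) ?_ q c hc hqc ϖ t₁ t₂ ε m hεK hε ht₁ ht₂ hϖ hqFF hqVV π hπ hπq
    ((S36L3_mem_NormGrp S₁ S₂ S₃).1 (hKp hu)) (hsep u hu) (hsep0 u hu)
  refine S36CA_lift_of_surj _ D.Λ (S36CA_compRed S₃ D (S36CW_mem₃ D hle)) (X.P₃ y) ?_
  intro a ha
  have haR : a ∈ C.Rb₃ := (hR₃ a).2 fun Q hQ =>
    (Place.adicValuation_le_one_iff Q).2 (Or.inr (ha Q (fun hn => hn hQ)))
  obtain ⟨f, hf⟩ := hsurj₃ ⟨a, haR⟩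
  exact ⟨f, hf⟩

/-- **`hpl₁`**: (LI) at every affine place of `FF`. -/
theorem S36CP_pl₁ [Finite ιv] [IsNoetherianRing D.Λ] {ι : Type*} [Finite ι] [Infinite k]
    (hle : D.Λ ≤ S36LJ_Lam S₁ S₂ S₃ C.B.toSubring)
    (hge : S36LJ_Lam S₁ S₂ S₃ C.B.toSubring ≤ D.Λ)
    (R : S36LJ_Red (S₁ := S₁) (S₂ := S₂) (S₃ := S₃) C)
    (hOv : ∀ i : ιv, D.Ov i = S₁.O ∨ D.Ov i = S₂.O ∨ D.Ov i = S₃.O)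
    (hfrac : ∀ x : K, ∃ b : D.Λ, (b : K) ≠ 0 ∧ (b : K) * x ∈ D.Λ)
    (j₀ : ιv) (hj₀ : D.Ov j₀ = S₁.O)
    (hoth : ∀ j : ιv, j ≠ j₀ → D.Ov j = S₂.O ∨ D.Ov j = S₃.O)
    (q : D.Λ) (c : Ω) (hc : c ≠ 0) (hqc : D.φ (q : K) = algebraMap Ω F c)
    (hunif : S36CA_IsUnif (D.Ov j₀) (q : K))
    (h : RR_Hyp k Fk₁) (x₁ : Fk₁) (c₀ : Place k Fk₁) (hc₀ : c₀.ord x₁ < 0)
    (hR₁ : ∀ y : Fk₁, y ∈ C.Rb₁ ↔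
      ∀ Q : Place k Fk₁, Q.adicValuation x₁ ≤ 1 → Q.adicValuation y ≤ 1)
    (X : S36SE_Pts k Fk₁ Fk₂ Fk₃ ι) (hC : S36SE_Reg C X)
    (hint₁ : ∀ g g' : ↥C.Rb₁, (∀ y, S36SE_e₁ C X hC y g = 0) →
      (∀ y, S36SE_e₁ C X hC y g' = 0) →
      ((g * g', 0, 0) : ↥C.Rb₁ × ↥C.Rb₂ × ↥C.Rb₃) ∈ S36L3_W hS C 1)
    {Kp : Subgroup Kˣ} (hKp : Kp ≤ S36L3_NormGrp S₁ S₂ S₃)
    (hli : ∀ u ∈ Kp, ∀ y, ∃ m' ∈ S36L3_W hS C ((u : Kˣ) : K),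
      S36SE_e₁ C X hC y m'.1 ≠ 0 ∧ S36SE_e₂ C X hC y m'.2.1 ≠ 0 ∧
        S36SE_e₃ C X hC y m'.2.2 ≠ 0)
    (hsep : ∀ u ∈ Kp, ∀ Q ∈ D.U, ∃ g : K, g ≠ 0 ∧
      (n : ℤ) * Q.ord (D.φ g) + Q.ord (D.φ ((u : Kˣ) : K)) = 0 ∧
      ∀ Q' ∈ D.U, 0 ≤ (n : ℤ) * Q'.ord (D.φ g) + Q'.ord (D.φ ((u : Kˣ) : K)))
    (hsep0 : ∀ u ∈ Kp, ∃ g : K, g ≠ 0 ∧
      ∀ Q' ∈ D.U, 0 ≤ (n : ℤ) * Q'.ord (D.φ g) + Q'.ord (D.φ ((u : Kˣ) : K))) :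
    ∀ u ∈ Kp, ∀ P : Place k Fk₁, P.adicValuation x₁ ≤ 1 →
      ∃ m' ∈ S36L3_W hS C ((u : Kˣ) : K), FD_c0 P ((m'.1 : ↥C.Rb₁) : Fk₁) ≠ 0 := by
  intro u hu P hPx
  by_cases hss : ∃ y, P = X.P₁ y
  · obtain ⟨y, rfl⟩ := hss
    obtain ⟨m', hm', h1, -, -⟩ := hli u hu y
    exact ⟨m', hm', h1⟩
  · push Not at hss
    have hx₁ : x₁ ∈ C.Rb₁ := (hR₁ x₁).2 fun _ hQ => hQ
    exact S36CL_pl₁ hS D hle hge R hOv hfrac j₀ hj₀ hoth q c hc hqc hunif h x₁ c₀ hc₀ hR₁ X hC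
      hint₁ hKp hsep hsep0 u hu P hPx fun y =>
        S36CP_sep_place h x₁ c₀ hc₀ C.Rb₁ hR₁ P (X.P₁ y) hPx (hC.reg₁ y x₁ hx₁) (hss y)

/-- **`hpl₃`**: (LI) at every affine place of `VV`. -/
theorem S36CP_pl₃ [Finite ιv] [IsNoetherianRing D.Λ] {ι : Type*} [Finite ι] [Infinite k]
    (hle : D.Λ ≤ S36LJ_Lam S₁ S₂ S₃ C.B.toSubring)
    (hge : S36LJ_Lam S₁ S₂ S₃ C.B.toSubring ≤ D.Λ)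
    (R : S36LJ_Red (S₁ := S₁) (S₂ := S₂) (S₃ := S₃) C)
    (hOv : ∀ i : ιv, D.Ov i = S₁.O ∨ D.Ov i = S₂.O ∨ D.Ov i = S₃.O)
    (hfrac : ∀ x : K, ∃ b : D.Λ, (b : K) ≠ 0 ∧ (b : K) * x ∈ D.Λ)
    (j₀ : ιv) (hj₀ : D.Ov j₀ = S₃.O)
    (hoth : ∀ j : ιv, j ≠ j₀ → D.Ov j = S₁.O ∨ D.Ov j = S₂.O)
    (q : D.Λ) (c : Ω) (hc : c ≠ 0) (hqc : D.φ (q : K) = algebraMap Ω F c)
    (hunif : S36CA_IsUnif (D.Ov j₀) (q : K))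
    (h : RR_Hyp k Fk₃) (x₃ : Fk₃) (c₀ : Place k Fk₃) (hc₀ : c₀.ord x₃ < 0)
    (hR₃ : ∀ y : Fk₃, y ∈ C.Rb₃ ↔
      ∀ Q : Place k Fk₃, Q.adicValuation x₃ ≤ 1 → Q.adicValuation y ≤ 1)
    (X : S36SE_Pts k Fk₁ Fk₂ Fk₃ ι) (hC : S36SE_Reg C X)
    (hint₃ : ∀ g g' : ↥C.Rb₃, (∀ y, S36SE_e₃ C X hC y g = 0) →
      (∀ y, S36SE_e₃ C X hC y g' = 0) →
      ((0, 0, g * g') : ↥C.Rb₁ × ↥C.Rb₂ × ↥C.Rb₃) ∈ S36L3_W hS C 1)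
    {Kp : Subgroup Kˣ} (hKp : Kp ≤ S36L3_NormGrp S₁ S₂ S₃)
    (hli : ∀ u ∈ Kp, ∀ y, ∃ m' ∈ S36L3_W hS C ((u : Kˣ) : K),
      S36SE_e₁ C X hC y m'.1 ≠ 0 ∧ S36SE_e₂ C X hC y m'.2.1 ≠ 0 ∧
        S36SE_e₃ C X hC y m'.2.2 ≠ 0)
    (hsep : ∀ u ∈ Kp, ∀ Q ∈ D.U, ∃ g : K, g ≠ 0 ∧
      (n : ℤ) * Q.ord (D.φ g) + Q.ord (D.φ ((u : Kˣ) : K)) = 0 ∧
      ∀ Q' ∈ D.U, 0 ≤ (n : ℤ) * Q'.ord (D.φ g) + Q'.ord (D.φ ((u : Kˣ) : K)))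
    (hsep0 : ∀ u ∈ Kp, ∃ g : K, g ≠ 0 ∧
      ∀ Q' ∈ D.U, 0 ≤ (n : ℤ) * Q'.ord (D.φ g) + Q'.ord (D.φ ((u : Kˣ) : K))) :
    ∀ u ∈ Kp, ∀ P : Place k Fk₃, P.adicValuation x₃ ≤ 1 →
      ∃ m' ∈ S36L3_W hS C ((u : Kˣ) : K), FD_c0 P ((m'.2.2 : ↥C.Rb₃) : Fk₃) ≠ 0 := by
  intro u hu P hPx
  by_cases hss : ∃ y, P = X.P₃ y
  · obtain ⟨y, rfl⟩ := hss
    obtain ⟨m', hm', -, -, h3⟩ := hli u hu y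
    exact ⟨m', hm', h3⟩
  · push Not at hss
    have hx₃ : x₃ ∈ C.Rb₃ := (hR₃ x₃).2 fun _ hQ => hQ
    exact S36CL_pl₃ hS D hle hge R hOv hfrac j₀ hj₀ hoth q c hc hqc hunif h x₃ c₀ hc₀ hR₃ X hC
      hint₃ hKp hsep hsep0 u hu P hPx fun y =>
        S36CP_sep_place h x₃ c₀ hc₀ C.Rb₃ hR₃ P (X.P₃ y) hPx (hC.reg₃ y x₃ hx₃) (hss y)

/-- **`hpl₂`**: (LI) at every affine place of `FV`; (R13 ord) at the places off the triple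
points. -/
theorem S36CP_pl₂ [Finite ιv] [IsNoetherianRing D.Λ] {ι : Type*} [Finite ι] [Infinite k]
    (hle : D.Λ ≤ S36LJ_Lam S₁ S₂ S₃ C.B.toSubring)
    (hge : S36LJ_Lam S₁ S₂ S₃ C.B.toSubring ≤ D.Λ)
    (R : S36LJ_Red (S₁ := S₁) (S₂ := S₂) (S₃ := S₃) C)
    (hOv : ∀ i : ιv, D.Ov i = S₁.O ∨ D.Ov i = S₂.O ∨ D.Ov i = S₃.O)
    (hfrac : ∀ x : K, ∃ b : D.Λ, (b : K) ≠ 0 ∧ (b : K) * x ∈ D.Λ)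
    (j₀ : ιv) (hj₀ : D.Ov j₀ = S₂.O)
    (hoth : ∀ j : ιv, j ≠ j₀ → D.Ov j = S₁.O ∨ D.Ov j = S₃.O)
    (q : D.Λ) (c : Ω) (hc : c ≠ 0) (hqc : D.φ (q : K) = algebraMap Ω F c)
    (π : K) (m : ℕ) (hπ : S36CA_IsUnif (D.Ov j₀) π)
    (hπq : S36LW_IsU (D.Ov j₀) (π ^ (m + 1) / q))
    (h : RR_Hyp k Fk₂) (x₂ : Fk₂) (c₀ : Place k Fk₂) (hc₀ : c₀.ord x₂ < 0)
    (hR₂ : ∀ y : Fk₂, y ∈ C.Rb₂ ↔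
      ∀ Q : Place k Fk₂, Q.adicValuation x₂ ≤ 1 → Q.adicValuation y ≤ 1)
    (X : S36SE_Pts k Fk₁ Fk₂ Fk₃ ι) (hC : S36SE_Reg C X)
    (hint₂ : ∀ g g' : ↥C.Rb₂, (∀ y, S36SE_e₂ C X hC y g = 0) →
      (∀ y, S36SE_e₂ C X hC y g' = 0) →
      ((0, g * g', 0) : ↥C.Rb₁ × ↥C.Rb₂ × ↥C.Rb₃) ∈ S36L3_W hS C 1)
    (hR13 : ∀ P : Place k Fk₂, P.adicValuation x₂ ≤ 1 → (∀ y, P ≠ X.P₂ y) →
      ∃ ϖ g d : D.Λ, (d : K) = g * (ϖ : K) ^ (m + 1) / q ∧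
        FD_c0 P (S₂.red ⟨d, (hle d.2).1.2.1⟩) ≠ 0 ∧ (ϖ : K) ^ (m + 1) / q ∈ D.Ov j₀)
    {Kp : Subgroup Kˣ} (hKp : Kp ≤ S36L3_NormGrp S₁ S₂ S₃)
    (hli : ∀ u ∈ Kp, ∀ y, ∃ m' ∈ S36L3_W hS C ((u : Kˣ) : K),
      S36SE_e₁ C X hC y m'.1 ≠ 0 ∧ S36SE_e₂ C X hC y m'.2.1 ≠ 0 ∧
        S36SE_e₃ C X hC y m'.2.2 ≠ 0)
    (hsep : ∀ u ∈ Kp, ∀ Q ∈ D.U, ∃ g : K, g ≠ 0 ∧
      (n : ℤ) * Q.ord (D.φ g) + Q.ord (D.φ ((u : Kˣ) : K)) = 0 ∧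
      ∀ Q' ∈ D.U, 0 ≤ (n : ℤ) * Q'.ord (D.φ g) + Q'.ord (D.φ ((u : Kˣ) : K)))
    (hsep0 : ∀ u ∈ Kp, ∃ g : K, g ≠ 0 ∧
      ∀ Q' ∈ D.U, 0 ≤ (n : ℤ) * Q'.ord (D.φ g) + Q'.ord (D.φ ((u : Kˣ) : K))) :
    ∀ u ∈ Kp, ∀ P : Place k Fk₂, P.adicValuation x₂ ≤ 1 →
      ∃ m' ∈ S36L3_W hS C ((u : Kˣ) : K), FD_c0 P ((m'.2.1 : ↥C.Rb₂) : Fk₂) ≠ 0 := by
  intro u hu P hPx
  by_cases hss : ∃ y, P = X.P₂ y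
  · obtain ⟨y, rfl⟩ := hss
    obtain ⟨m', hm', -, h2, -⟩ := hli u hu y
    exact ⟨m', hm', h2⟩
  · push Not at hss
    have hx₂ : x₂ ∈ C.Rb₂ := (hR₂ x₂).2 fun _ hQ => hQ
    have hP : ∀ f ∈ C.Rb₂, P.adicValuation f ≤ 1 := fun f hf => (hR₂ f).1 hf P hPx
    obtain ⟨ϖ, g, d, hdK, hd, hϖq⟩ := hR13 P hPx hss
    refine S36CP_point₂ hS D hle hge R hOv hfrac j₀ hj₀ hoth q c hc hqc π m hπ hπq h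
      {Q | ¬ Q.adicValuation x₂ ≤ 1} c₀ ((Place.not_adicValuation_le_one_iff c₀).2 hc₀) ?_
      X hC hint₂ P (fun hn => hn hPx) hP ?_ ϖ g d hdK hd hϖq
      ((S36L3_mem_NormGrp S₁ S₂ S₃).1 (hKp hu)) (hsep u hu) (hsep0 u hu)
    · intro a ha
      refine (hR₂ a).2 fun Q hQ => ?_
      exact (Place.adicValuation_le_one_iff Q).2 (Or.inr (ha Q (fun hn => hn hQ)))
    · intro y heq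
      obtain ⟨r, hr⟩ := S36CP_sep_place h x₂ c₀ hc₀ C.Rb₂ hR₂ P (X.P₂ y) hPx
        (hC.reg₂ y x₂ hx₂) (hss y)
      apply hr
      have := congrArg (fun e : ↥C.Rb₂ →ₐ[k] k => e r) heq
      exact this

end Fermat.Agent.S36
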