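import Mathlib
import Fermat.Agent.S36.Cart3Quot
import Fermat.Agent.S36.Int3Loc

/-!
# TRACK 10 (S36), package F6 CART (R14) (helper5), part 3: CART in the language of INT

Setting of helper17's `S36/Int3.lean`: `v : ι → Valuation K Γ₀`, `Λ = {x | ∀ i, v i x ≤ 1}`
(`hΛ`, `hfin`, `harch`), `y : Λ →+* k`, `S36IT_thru v Λ y` = the valuations through `y`,
`S36IT_loc Λ y = Λ_y = ⋂_{i ∈ thru} O_i`.

* `S36CA_incl_eq` : `S36CA_incl = S36IT_incl` (`rfl`);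
* `S36CA_unit_split` : `v(a), v(b) ≤ 1`, `v(a b) = 1` ⇒ `v(a) = v(b) = 1`;
* `S36CA_hC1_of_val` : **(C1) from valuations through `y` only**: `i₀ ∈ thru`,
  `v i s = 1` for the other `i ∈ thru`, `v i₀ f < 1 → v i₀ f ≤ v i₀ s` on `Λ` ⇒ (C1) for `s`;
* `S36CA_eps_ss` : **"ε is a unit at `y`" ⇒ `div t₁ = FF`, `div t₂ = VV`, `div ϖ = FV` near `y`**:
  for `ε = t₁ t₂ ϖ^(m+1) / q ∈ Λ`, `y ε ≠ 0`: at every `i ∈ thru` the valuations of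
  `t₁/q^{a}`, `t₂/q^{b}`, `ϖ^(m+1)/q^{c}` (exponents according to the branch) are `1`;
* `S36CA_eps_ram` : the same for `d = g ϖ^(m+1) / q` (ordinary points and cusps of FV);
* `S36CA_branch_of_val` : the `S36CA_Branch` from the valuation data;
* `S36CA_hVarch_of_val` : the archimedean hypothesis of `S36CA_Branch.hsep`/`.principal`/`.hK`
  from `harch` of INT.
-/

set_option autoImplicit false

namespace Fermat.Agent.S36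

open IsLocalRing

section

variable {K : Type*} [Field K] {k : Type*} [Field k]

theorem S36CA_incl_eq (Λ : Subring K) (y : Λ →+* k) : S36CA_incl Λ y = S36IT_incl Λ y := rfl

variable {Γ₀ : Type*} [LinearOrderedCommGroupWithZero Γ₀]

/-- in an ordered group with zero: `a, b ≤ 1`, `a b = 1` ⇒ `a = 1`. -/
theorem S36CA_unit_split {a b : Γ₀} (ha : a ≤ 1) (hb : b ≤ 1) (hab : a * b = 1) :
    a = 1 ∧ b = 1 := by
  have h1 : a = 1 := by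
    apply le_antisymm ha
    calc (1 : Γ₀) = a * b := hab.symm
      _ ≤ a * 1 := mul_le_mul' le_rfl hb
      _ = a := mul_one a
  refine ⟨h1, ?_⟩
  rw [h1, one_mul] at hab
  exact hab

variable {ι : Type*}

/-- **(C1) from the valuations through `y`** (bridge INT ⇒ CART). -/
theorem S36CA_hC1_of_val (v : ι → Valuation K Γ₀) (Λ : Subring K)
    (hΛ : ∀ x : K, x ∈ Λ ↔ ∀ i, v i x ≤ 1)
    (hfin : ∀ x : K, x ≠ 0 → {i | 1 < v i x}.Finite)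
    (harch : ∀ (i : ι) (d x : K), v i d < 1 → ∃ n : ℕ, v i d ^ n * v i x ≤ 1)
    (y : Λ →+* k) (i₀ : ι) (s : Λ) (hs0 : (s : K) ≠ 0)
    (hs1 : ∀ i ∈ S36IT_thru v Λ y, i ≠ i₀ → v i (s : K) = 1)
    (hloc : ∀ f : Λ, v i₀ (f : K) < 1 → v i₀ (f : K) ≤ v i₀ (s : K)) :
    ∀ f : Λ, v i₀ (f : K) < 1 → ∃ d e : Λ, y d ≠ 0 ∧ d * f = s * e := by
  intro f hf
  have key : ∀ i ∈ S36IT_thru v Λ y, v i ((f : K) / s) ≤ 1 := by
    intro i hi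
    rw [map_div₀]
    by_cases hii : i = i₀
    · subst hii
      exact (div_le_one₀ (zero_lt_iff.2 ((Valuation.ne_zero_iff _).2 hs0))).2 (hloc f hf)
    · rw [hs1 i hi hii, div_one]
      exact (hΛ _).1 f.2 i
  obtain ⟨d, hd, hdf⟩ := S36IT_exists_den v Λ hΛ hfin harch y _ key
  refine ⟨d, ⟨_, hdf⟩, hd, ?_⟩
  apply Subtype.ext
  push_cast
  field_simp

/-- `hVarch` of `S36CA_Branch.hsep` from `harch` of INT. -/
theorem S36CA_hVarch_of_val (w : Valuation K Γ₀)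
    (harch : ∀ d x : K, w d < 1 → ∃ n : ℕ, w d ^ n * w x ≤ 1)
    (s : K) (hs0 : s ≠ 0) (hs : w s < 1) (r : K) (hr : r ≠ 0) :
    ∃ j : ℕ, r / s ^ j ∉ w.valuationSubring := by
  obtain ⟨n, hn⟩ := harch s r⁻¹ hs
  refine ⟨n + 1, fun h => ?_⟩
  rw [Valuation.mem_valuationSubring_iff, map_div₀, map_pow] at h
  have hws : w s ≠ 0 := (Valuation.ne_zero_iff _).2 hs0
  have hwr : w r ≠ 0 := (Valuation.ne_zero_iff _).2 hr
  rw [map_inv₀] at hn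
  -- `w s ^ n ≤ w r ≤ w s ^ (n+1)`
  have h1 : w s ^ n ≤ w r := by
    have := mul_le_mul' hn (le_refl (w r))
    rwa [mul_assoc, inv_mul_cancel₀ hwr, mul_one, one_mul] at this
  have h2 : w r ≤ w s ^ (n + 1) :=
    (div_le_one₀ (zero_lt_iff.2 (pow_ne_zero _ hws))).1 h
  have h3 : w s ^ (n + 1) < w s ^ n := by
    rw [pow_succ]
    calc w s ^ n * w s < w s ^ n * 1 :=
          mul_lt_mul_of_pos_left hs (zero_lt_iff.2 (pow_ne_zero _ hws))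
      _ = w s ^ n := mul_one _
  exact absurd (h1.trans h2) (not_le.2 h3)

/-- **the `S36CA_Branch` from valuation data**: the branch `i₀` through `y`, with reduction `ρ`
(kernel = centre of `v i₀`), is Cartier at `y` with equation `s`. -/
theorem S36CA_branch_of_val {κ : Type*} [Field κ] (v : ι → Valuation K Γ₀) (Λ : Subring K)
    (hΛ : ∀ x : K, x ∈ Λ ↔ ∀ i, v i x ≤ 1)
    (hfin : ∀ x : K, x ≠ 0 → {i | 1 < v i x}.Finite)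
    (harch : ∀ (i : ι) (d x : K), v i d < 1 → ∃ n : ℕ, v i d ^ n * v i x ≤ 1)
    (y : Λ →+* k) (i₀ : ι) (hi₀ : i₀ ∈ S36IT_thru v Λ y)
    (ρ : Λ →+* κ) (hρ : ∀ f : Λ, ρ f = 0 ↔ v i₀ (f : K) < 1)
    (s : Λ) (hs0 : (s : K) ≠ 0) (hs : v i₀ (s : K) < 1)
    (hs1 : ∀ i ∈ S36IT_thru v Λ y, i ≠ i₀ → v i (s : K) = 1)
    (hloc : ∀ f : Λ, v i₀ (f : K) < 1 → v i₀ (f : K) ≤ v i₀ (s : K))
    (O : ValuationSubring κ)
    (hsub : ∀ x : κ, x ∈ O → ∃ a d : Λ, y d ≠ 0 ∧ ρ a = x * ρ d)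
    (hOarch : ∀ x : κ, x ≠ 0 → x ∈ O → x⁻¹ ∉ O → ∀ z : κ, ∃ n : ℕ, z * x ^ n ∈ O)
    (hne : ∃ t : Λ, y t = 0 ∧ ρ t ≠ 0) : S36CA_Branch Λ y ρ s O where
  hthr f hf := S36IT_mem_thru.1 hi₀ f ((hρ f).1 hf)
  hρs := (hρ s).2 hs
  hC1 f hf := S36CA_hC1_of_val v Λ hΛ hfin harch y i₀ s hs0 hs1 hloc f ((hρ f).1 hf)
  hsub := hsub
  harch := hOarch
  hne := hne

/-- the three hypotheses on `V` of `S36CA_Branch.hsep` / `.principal` / `.hK`, for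
`V = (v i₀).valuationSubring`. -/
theorem S36CA_hV_of_val (v : ι → Valuation K Γ₀) (Λ : Subring K)
    (hΛ : ∀ x : K, x ∈ Λ ↔ ∀ i, v i x ≤ 1)
    (harch : ∀ (i : ι) (d x : K), v i d < 1 → ∃ n : ℕ, v i d ^ n * v i x ≤ 1)
    (y : Λ →+* k) (i₀ : ι) (hi₀ : i₀ ∈ S36IT_thru v Λ y)
    (s : Λ) (hs0 : (s : K) ≠ 0) (hs : v i₀ (s : K) < 1) :
    (∀ f : Λ, (f : K) ∈ (v i₀).valuationSubring) ∧
    (∀ d : Λ, y d ≠ 0 → (d : K)⁻¹ ∈ (v i₀).valuationSubring) ∧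
    (∀ r : K, r ≠ 0 → ∃ j : ℕ, r / (s : K) ^ j ∉ (v i₀).valuationSubring) := by
  refine ⟨fun f => ?_, fun d hd => ?_, S36CA_hVarch_of_val (v i₀) (harch i₀) s hs0 hs⟩
  · rw [Valuation.mem_valuationSubring_iff]
    exact (hΛ _).1 f.2 i₀
  · rw [Valuation.mem_valuationSubring_iff, map_inv₀,
      S36IT_val_den (fun x hx => (hΛ x).1 hx) hi₀ hd, inv_one]

/-- **ordinary points and cusps of the ramified branch**: if `d = g ϖ^(m+1) / q ∈ Λ` is a unit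
at `y`, then at every valuation `i` through `y` at which `v i (ϖ^(m+1)) ≤ v i q`
(i.e. `i` = FV, or `i` horizontal), `v i g = 1` and `v i ϖ ^ (m+1) = v i q`. -/
theorem S36CA_eps_ram (v : ι → Valuation K Γ₀) (Λ : Subring K)
    (hΛ : ∀ x : K, x ∈ Λ ↔ ∀ i, v i x ≤ 1) (y : Λ →+* k)
    (q ϖ g d : Λ) (hq0 : (q : K) ≠ 0) (m : ℕ)
    (hdK : (d : K) = g * (ϖ : K) ^ (m + 1) / q) (hd : y d ≠ 0)
    (i : ι) (hi : i ∈ S36IT_thru v Λ y) (hϖq : v i (ϖ : K) ^ (m + 1) ≤ v i (q : K)) :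
    v i (g : K) = 1 ∧ v i (ϖ : K) ^ (m + 1) = v i (q : K) := by
  have hvq : v i (q : K) ≠ 0 := (Valuation.ne_zero_iff _).2 hq0
  have h1 : v i (d : K) = 1 := S36IT_val_den (fun x hx => (hΛ x).1 hx) hi hd
  rw [hdK, map_div₀, map_mul, map_pow, mul_div_assoc] at h1
  have h2 : v i (ϖ : K) ^ (m + 1) / v i (q : K) ≤ 1 := (div_le_one₀ (zero_lt_iff.2 hvq)).2 hϖq
  obtain ⟨h3, h4⟩ := S36CA_unit_split ((hΛ _).1 g.2 i) h2 h1
  exact ⟨h3, (div_eq_one_iff_eq hvq).1 h4⟩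

/-- **supersingular points: "ε is a unit at `y`"**.  `ε = t₁ t₂ ϖ^(m+1) / q ∈ Λ`, `y ε ≠ 0`,
`i` through `y`.
(1) if `v i t₁ ≤ v i q` (`i` = FF) then `v i t₁ = v i q`, `v i t₂ = 1`, `v i ϖ = 1`;
(2) if `v i t₂ ≤ v i q` (`i` = VV) then `v i t₂ = v i q`, `v i t₁ = 1`, `v i ϖ = 1`;
(3) if `v i ϖ ^ (m+1) ≤ v i q` (`i` = FV or horizontal) then `v i ϖ ^ (m+1) = v i q`,
    `v i t₁ = 1`, `v i t₂ = 1`. -/
theorem S36CA_eps_ss (v : ι → Valuation K Γ₀) (Λ : Subring K)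
    (hΛ : ∀ x : K, x ∈ Λ ↔ ∀ i, v i x ≤ 1) (y : Λ →+* k)
    (q ϖ t₁ t₂ ε : Λ) (hq0 : (q : K) ≠ 0) (m : ℕ)
    (hεK : (ε : K) = t₁ * t₂ * (ϖ : K) ^ (m + 1) / q) (hε : y ε ≠ 0)
    (i : ι) (hi : i ∈ S36IT_thru v Λ y) :
    (v i (t₁ : K) ≤ v i (q : K) →
      v i (t₁ : K) = v i (q : K) ∧ v i (t₂ : K) = 1 ∧ v i (ϖ : K) ^ (m + 1) = 1) ∧
    (v i (t₂ : K) ≤ v i (q : K) →
      v i (t₂ : K) = v i (q : K) ∧ v i (t₁ : K) = 1 ∧ v i (ϖ : K) ^ (m + 1) = 1) ∧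
    (v i (ϖ : K) ^ (m + 1) ≤ v i (q : K) →
      v i (ϖ : K) ^ (m + 1) = v i (q : K) ∧ v i (t₁ : K) = 1 ∧ v i (t₂ : K) = 1) := by
  have hvq : v i (q : K) ≠ 0 := (Valuation.ne_zero_iff _).2 hq0
  have hpos := zero_lt_iff.2 hvq
  have h1 : v i (ε : K) = 1 := S36IT_val_den (fun x hx => (hΛ x).1 hx) hi hε
  rw [hεK, map_div₀, map_mul, map_mul, map_pow] at h1
  have ht₁ := (hΛ _).1 t₁.2 i
  have ht₂ := (hΛ _).1 t₂.2 i
  have hϖ : v i (ϖ : K) ^ (m + 1) ≤ 1 := pow_le_one₀ zero_le ((hΛ _).1 ϖ.2 i)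
  refine ⟨fun h => ?_, fun h => ?_, fun h => ?_⟩
  · have e : (v i (t₁ : K) / v i (q : K)) * (v i (t₂ : K) * v i (ϖ : K) ^ (m + 1)) = 1 := by
      rw [← h1, div_mul_eq_mul_div, mul_assoc]
    obtain ⟨h3, h4⟩ := S36CA_unit_split ((div_le_one₀ hpos).2 h) (mul_le_one' ht₂ hϖ) e
    obtain ⟨h5, h6⟩ := S36CA_unit_split ht₂ hϖ h4
    exact ⟨(div_eq_one_iff_eq hvq).1 h3, h5, h6⟩
  · have e : (v i (t₂ : K) / v i (q : K)) * (v i (t₁ : K) * v i (ϖ : K) ^ (m + 1)) = 1 := by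
      rw [← h1, div_mul_eq_mul_div, ← mul_assoc, mul_comm (v i (t₂ : K))]
    obtain ⟨h3, h4⟩ := S36CA_unit_split ((div_le_one₀ hpos).2 h) (mul_le_one' ht₁ hϖ) e
    obtain ⟨h5, h6⟩ := S36CA_unit_split ht₁ hϖ h4
    exact ⟨(div_eq_one_iff_eq hvq).1 h3, h5, h6⟩
  · have e : (v i (ϖ : K) ^ (m + 1) / v i (q : K)) * (v i (t₁ : K) * v i (t₂ : K)) = 1 := by
      rw [← h1, div_mul_eq_mul_div, mul_comm]
    obtain ⟨h3, h4⟩ := S36CA_unit_split ((div_le_one₀ hpos).2 h) (mul_le_one' ht₁ ht₂) e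
    obtain ⟨h5, h6⟩ := S36CA_unit_split ht₁ ht₂ h4
    exact ⟨(div_eq_one_iff_eq hvq).1 h3, h5, h6⟩

end

end Fermat.Agent.S36
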