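import Mathlib
import Fermat.Agent.S36.Int3Loc

/-!
# TRACK 10 (S36), package F4 = INT (helper17), part A′: the lattice inside a SUBFIELD of rational
functions.  Prefix `S36IT_`.

In TRACK 10 the lattice is `Λ = {f ∈ K₀ | ∀ i, v i f ≤ 1}` where `K₀ ⊂ K = F₂` is the subfield of
`I`-invariant (`L`-rational) functions and the `v i` are valuations of the big field `K`
(designer's ruling D1: `L`-rationality = `I`-invariance inside the `ℚ̄`-objects).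

* `S36IT_exists_den_sub` (**INT**): `f ∈ K₀`, `v i f ≤ 1` for every `i` through `y`
  ⇒ `∃ d : Λ, y d ≠ 0 ∧ d * f ∈ Λ`;
* `S36IT_mem_loc_iff_sub` : `x ∈ Λ_y ↔ x ∈ K₀ ∧ ∀ i ∈ thru, v i x ≤ 1`;
* `S36IT_loc_le_sub` : `Λ_y ⊂ K₀`.
-/

set_option autoImplicit false

namespace Fermat.Agent.S36

variable {K : Type*} [Field K] {Γ₀ : Type*} [LinearOrderedCommGroupWithZero Γ₀] {ι : Type*}
  {k : Type*} [Field k]

/-- **INT (R12)** for a lattice of rational functions. -/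
theorem S36IT_exists_den_sub (v : ι → Valuation K Γ₀) (K₀ : Subfield K) (Λ : Subring K)
    (hΛ : ∀ x : K, x ∈ Λ ↔ x ∈ K₀ ∧ ∀ i, v i x ≤ 1)
    (hfin : ∀ x : K, x ∈ K₀ → x ≠ 0 → {i | 1 < v i x}.Finite)
    (harch : ∀ (i : ι) (d x : K), v i d < 1 → ∃ n : ℕ, v i d ^ n * v i x ≤ 1)
    (y : Λ →+* k) (f : K) (hf₀ : f ∈ K₀) (hf : ∀ i ∈ S36IT_thru v Λ y, v i f ≤ 1) :
    ∃ d : Λ, y d ≠ 0 ∧ (d : K) * f ∈ Λ := by
  classical
  rcases eq_or_ne f 0 with rfl | hf0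
  · refine ⟨1, ?_, ?_⟩
    · rw [map_one]; exact one_ne_zero
    · rw [mul_zero]; exact Λ.zero_mem
  set S := (hfin f hf₀ hf0).toFinset with hSdef
  have hS : ∀ i, i ∈ S ↔ 1 < v i f := fun i => by rw [hSdef, Set.Finite.mem_toFinset]; rfl
  have hex : ∀ i : ι, ∃ d : Λ, ∃ n : ℕ, y d ≠ 0 ∧ (1 < v i f → v i (d : K) ^ n * v i f ≤ 1) := by
    intro i
    by_cases hi : 1 < v i f
    · have hnot : i ∉ S36IT_thru v Λ y := fun h => not_le.2 hi (hf i h)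
      rw [S36IT_mem_thru] at hnot
      push Not at hnot
      obtain ⟨d, hd, hyd⟩ := hnot
      obtain ⟨n, hn⟩ := harch i d f hd
      exact ⟨d, n, hyd, fun _ => hn⟩
    · exact ⟨1, 0, by rw [map_one]; exact one_ne_zero, fun h => absurd h hi⟩
  choose d n hyd hdn using hex
  have hle : ∀ (i : ι) (x : Λ), v i (x : K) ≤ 1 := fun i x => ((hΛ _).1 x.2).2 i
  refine ⟨∏ i ∈ S, d i ^ n i, ?_, ?_⟩
  · rw [map_prod]
    exact Finset.prod_ne_zero_iff.2 fun i _ => by rw [map_pow]; exact pow_ne_zero _ (hyd i)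
  · rw [hΛ]
    refine ⟨K₀.mul_mem ((hΛ _).1 (∏ i ∈ S, d i ^ n i : Λ).2).1 hf₀, fun j => ?_⟩
    rw [map_mul]
    by_cases hj : j ∈ S
    · have e : ((∏ i ∈ S, d i ^ n i : Λ) : K) =
          ((d j ^ n j : Λ) : K) * ((∏ i ∈ S.erase j, d i ^ n i : Λ) : K) := by
        rw [← Subring.coe_mul, Finset.mul_prod_erase S (fun i => d i ^ n i) hj]
      rw [e, map_mul, mul_assoc, mul_comm (v j _) (v j f), ← mul_assoc]
      have h1 : v j ((d j ^ n j : Λ) : K) * v j f ≤ 1 := by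
        rw [Subring.coe_pow, map_pow]
        exact hdn j ((hS j).1 hj)
      exact mul_le_one' h1 (hle j _)
    · have hfj : v j f ≤ 1 := not_lt.1 fun h => hj ((hS j).2 h)
      exact mul_le_one' (hle j _) hfj

/-- `Λ_y ⊂ K₀`. -/
theorem S36IT_loc_le_sub (K₀ : Subfield K) (Λ : Subring K) (hΛ : ∀ x : K, x ∈ Λ → x ∈ K₀)
    (y : Λ →+* k) {x : K} (hx : x ∈ S36IT_loc Λ y) : x ∈ K₀ := by
  obtain ⟨d, hd, hdx⟩ := hx
  have hd0 : (d : K) ≠ 0 := S36IT_den_ne_zero hd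
  have h1 : ((d : K))⁻¹ * ((d : K) * x) ∈ K₀ := K₀.mul_mem (K₀.inv_mem (hΛ _ d.2)) (hΛ _ hdx)
  rwa [← mul_assoc, inv_mul_cancel₀ hd0, one_mul] at h1

/-- **`Λ_y` is the intersection of `K₀` with the valuation rings through `y`.** -/
theorem S36IT_mem_loc_iff_sub (v : ι → Valuation K Γ₀) (K₀ : Subfield K) (Λ : Subring K)
    (hΛ : ∀ x : K, x ∈ Λ ↔ x ∈ K₀ ∧ ∀ i, v i x ≤ 1)
    (hfin : ∀ x : K, x ∈ K₀ → x ≠ 0 → {i | 1 < v i x}.Finite)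
    (harch : ∀ (i : ι) (d x : K), v i d < 1 → ∃ n : ℕ, v i d ^ n * v i x ≤ 1)
    (y : Λ →+* k) (x : K) :
    x ∈ S36IT_loc Λ y ↔ x ∈ K₀ ∧ ∀ i ∈ S36IT_thru v Λ y, v i x ≤ 1 := by
  constructor
  · intro hx
    refine ⟨S36IT_loc_le_sub K₀ Λ (fun x hx => ((hΛ x).1 hx).1) y hx, ?_⟩
    obtain ⟨d, hd, hdx⟩ := hx
    intro i hi
    have h1 := ((hΛ _).1 hdx).2 i
    rwa [map_mul, S36IT_val_den (fun x hx => ((hΛ x).1 hx).2) hi hd, one_mul] at h1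
  · rintro ⟨h0, h⟩
    exact S36IT_exists_den_sub v K₀ Λ hΛ hfin harch y x h0 h

/-- a non-zero element of `Λ_y` with value `1` at all valuations through `y` is a unit of `Λ_y`
(the form used for "`m₀ⁿ u` is a unit"). -/
theorem S36IT_isUnit_of_val (v : ι → Valuation K Γ₀) (K₀ : Subfield K) (Λ : Subring K)
    (hΛ : ∀ x : K, x ∈ Λ ↔ x ∈ K₀ ∧ ∀ i, v i x ≤ 1)
    (hfin : ∀ x : K, x ∈ K₀ → x ≠ 0 → {i | 1 < v i x}.Finite)
    (harch : ∀ (i : ι) (d x : K), v i d < 1 → ∃ n : ℕ, v i d ^ n * v i x ≤ 1)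
    (y : Λ →+* k) (z : S36IT_loc Λ y) (hz0 : (z : K) ≠ 0)
    (hz : ∀ i ∈ S36IT_thru v Λ y, v i (z : K) = 1) :
    IsUnit z := by
  have hzK := (S36IT_mem_loc_iff_sub v K₀ Λ hΛ hfin harch y z).1 z.2
  have hinv : (z : K)⁻¹ ∈ S36IT_loc Λ y := by
    rw [S36IT_mem_loc_iff_sub v K₀ Λ hΛ hfin harch y]
    refine ⟨K₀.inv_mem hzK.1, fun i hi => ?_⟩
    rw [map_inv₀, hz i hi, inv_one]
  exact ⟨⟨z, ⟨_, hinv⟩, Subtype.ext (mul_inv_cancel₀ hz0), Subtype.ext (inv_mul_cancel₀ hz0)⟩, rfl⟩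

/-- conversely a unit of `Λ_y` has value `1` at all valuations through `y`. -/
theorem S36IT_val_of_isUnit (v : ι → Valuation K Γ₀) (K₀ : Subfield K) (Λ : Subring K)
    (hΛ : ∀ x : K, x ∈ Λ ↔ x ∈ K₀ ∧ ∀ i, v i x ≤ 1)
    (hfin : ∀ x : K, x ∈ K₀ → x ≠ 0 → {i | 1 < v i x}.Finite)
    (harch : ∀ (i : ι) (d x : K), v i d < 1 → ∃ n : ℕ, v i d ^ n * v i x ≤ 1)
    (y : Λ →+* k) (z : S36IT_loc Λ y) (hz : IsUnit z) {i : ι} (hi : i ∈ S36IT_thru v Λ y) :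
    v i (z : K) = 1 := by
  obtain ⟨u, rfl⟩ := hz
  have h1 := ((S36IT_mem_loc_iff_sub v K₀ Λ hΛ hfin harch y _).1 (u : S36IT_loc Λ y).2).2 i hi
  have h2 := ((S36IT_mem_loc_iff_sub v K₀ Λ hΛ hfin harch y _).1
    ((u⁻¹ : (S36IT_loc Λ y)ˣ) : S36IT_loc Λ y).2).2 i hi
  have h3 : v i ((u : S36IT_loc Λ y) : K) * v i (((u⁻¹ : (S36IT_loc Λ y)ˣ) : S36IT_loc Λ y) : K)
      = 1 := by
    rw [← map_mul, ← Subring.coe_mul, Units.mul_inv, Subring.coe_one, map_one]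
  refine le_antisymm h1 ?_
  calc (1 : Γ₀) = v i ((u : S36IT_loc Λ y) : K) *
        v i (((u⁻¹ : (S36IT_loc Λ y)ˣ) : S36IT_loc Λ y) : K) := h3.symm
    _ ≤ v i ((u : S36IT_loc Λ y) : K) * 1 := mul_le_mul_right h2 _
    _ = v i ((u : S36IT_loc Λ y) : K) := mul_one _

end Fermat.Agent.S36
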