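import Mathlib
import Fermat.Agent.S36.Cart3Val
import Fermat.Agent.S36.Int3Sub

/-!
# TRACK 10 (S36), package F6 CART (R14) (helper5), part 4: CART for the lattice of RATIONAL
# functions `Λ = {x ∈ K₀ | ∀ i, v i x ≤ 1}` (shapes of `S36/Int3Sub.lean`, `S36/LiVal.lean`)

`K₀ ⊂ K` the subfield of `I`-invariant functions, `v : ι → Valuation K Γ₀` (vertical and
horizontal valuations of the big field), `y : Λ →+* k`.

* `S36CA_hC1_of_val_sub`    : (C1) from the valuations through `y`;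
* `S36CA_branch_of_val_sub` : the `S36CA_Branch Λ y ρ s O` consumed by `S36LV_main'` (helper19),
  together with its hypotheses `hker`, `hs1`;
* `S36CA_hV_of_val_sub`     : the `V`-hypotheses of `.hsep`, `.principal`, `.hK`;
* `S36CA_eps_ss_sub`, `S36CA_eps_ram_sub` : "the unit `ε`" lemmas with the weak hypothesis
  `hle : ∀ x : Λ, ∀ i, v i x ≤ 1`;
* `S36CA_hs1_ss`, `S36CA_hloc_of_unif` : the hypotheses `hs1`, `hloc` at a supersingular point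
  from `ε` and a uniformiser `q` of the branch.
-/

set_option autoImplicit false

namespace Fermat.Agent.S36

open IsLocalRing

section

variable {K : Type*} [Field K] {k : Type*} [Field k]
  {Γ₀ : Type*} [LinearOrderedCommGroupWithZero Γ₀] {ι : Type*}

/-- **(C1) from the valuations through `y`**, lattice of rational functions. -/
theorem S36CA_hC1_of_val_sub (v : ι → Valuation K Γ₀) (K₀ : Subfield K) (Λ : Subring K)
    (hΛ : ∀ x : K, x ∈ Λ ↔ x ∈ K₀ ∧ ∀ i, v i x ≤ 1)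
    (hfin : ∀ x : K, x ∈ K₀ → x ≠ 0 → {i | 1 < v i x}.Finite)
    (harch : ∀ (i : ι) (d x : K), v i d < 1 → ∃ n : ℕ, v i d ^ n * v i x ≤ 1)
    (y : Λ →+* k) (i₀ : ι) (s : Λ) (hs0 : (s : K) ≠ 0)
    (hs1 : ∀ i ∈ S36IT_thru v Λ y, i ≠ i₀ → v i (s : K) = 1)
    (hloc : ∀ f : Λ, v i₀ (f : K) < 1 → v i₀ (f : K) ≤ v i₀ (s : K)) :
    ∀ f : Λ, v i₀ (f : K) < 1 → ∃ d e : Λ, y d ≠ 0 ∧ d * f = s * e := by
  intro f hf
  have key : ∀ i ∈ S36IT_thru v Λ y, v i ((f : K) / s) ≤ 1 := by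
    intro i hi
    rw [map_div₀]
    by_cases hii : i = i₀
    · subst hii
      exact (div_le_one₀ (zero_lt_iff.2 ((Valuation.ne_zero_iff _).2 hs0))).2 (hloc f hf)
    · rw [hs1 i hi hii, div_one]
      exact ((hΛ _).1 f.2).2 i
  obtain ⟨d, hd, hdf⟩ := S36IT_exists_den_sub v K₀ Λ hΛ hfin harch y _
    (K₀.div_mem ((hΛ _).1 f.2).1 ((hΛ _).1 s.2).1) key
  refine ⟨d, ⟨_, hdf⟩, hd, ?_⟩
  apply Subtype.ext
  push_cast
  field_simp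

/-- **the `S36CA_Branch` from valuation data**, lattice of rational functions. -/
theorem S36CA_branch_of_val_sub {κ : Type*} [Field κ] (v : ι → Valuation K Γ₀)
    (K₀ : Subfield K) (Λ : Subring K)
    (hΛ : ∀ x : K, x ∈ Λ ↔ x ∈ K₀ ∧ ∀ i, v i x ≤ 1)
    (hfin : ∀ x : K, x ∈ K₀ → x ≠ 0 → {i | 1 < v i x}.Finite)
    (harch : ∀ (i : ι) (d x : K), v i d < 1 → ∃ n : ℕ, v i d ^ n * v i x ≤ 1)
    (y : Λ →+* k) (i₀ : ι) (hi₀ : i₀ ∈ S36IT_thru v Λ y)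
    (ρ : Λ →+* κ) (hker : ∀ f : Λ, ρ f = 0 ↔ v i₀ (f : K) < 1)
    (s : Λ) (hs0 : (s : K) ≠ 0) (hs : v i₀ (s : K) < 1)
    (hs1 : ∀ i ∈ S36IT_thru v Λ y, i ≠ i₀ → v i (s : K) = 1)
    (hloc : ∀ f : Λ, v i₀ (f : K) < 1 → v i₀ (f : K) ≤ v i₀ (s : K))
    (O : ValuationSubring κ)
    (hsub : ∀ x : κ, x ∈ O → ∃ a d : Λ, y d ≠ 0 ∧ ρ a = x * ρ d)
    (hOarch : ∀ x : κ, x ≠ 0 → x ∈ O → x⁻¹ ∉ O → ∀ z : κ, ∃ n : ℕ, z * x ^ n ∈ O)
    (hne : ∃ t : Λ, y t = 0 ∧ ρ t ≠ 0) : S36CA_Branch Λ y ρ s O where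
  hthr f hf := S36IT_mem_thru.1 hi₀ f ((hker f).1 hf)
  hρs := (hker s).2 hs
  hC1 f hf :=
    S36CA_hC1_of_val_sub v K₀ Λ hΛ hfin harch y i₀ s hs0 hs1 hloc f ((hker f).1 hf)
  hsub := hsub
  harch := hOarch
  hne := hne

/-- the three hypotheses on `V` of `S36CA_Branch.hsep` / `.principal` / `.hK`, for
`V = (v i₀).valuationSubring`. -/
theorem S36CA_hV_of_val_sub (v : ι → Valuation K Γ₀) (Λ : Subring K)
    (hle : ∀ x : Λ, ∀ i, v i (x : K) ≤ 1)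
    (harch : ∀ (i : ι) (d x : K), v i d < 1 → ∃ n : ℕ, v i d ^ n * v i x ≤ 1)
    (y : Λ →+* k) (i₀ : ι) (hi₀ : i₀ ∈ S36IT_thru v Λ y)
    (s : Λ) (hs0 : (s : K) ≠ 0) (hs : v i₀ (s : K) < 1) :
    (∀ f : Λ, (f : K) ∈ (v i₀).valuationSubring) ∧
    (∀ d : Λ, y d ≠ 0 → (d : K)⁻¹ ∈ (v i₀).valuationSubring) ∧
    (∀ r : K, r ≠ 0 → ∃ j : ℕ, r / (s : K) ^ j ∉ (v i₀).valuationSubring) := by
  refine ⟨fun f => ?_, fun d hd => ?_, S36CA_hVarch_of_val (v i₀) (harch i₀) s hs0 hs⟩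
  · rw [Valuation.mem_valuationSubring_iff]
    exact hle f i₀
  · rw [Valuation.mem_valuationSubring_iff, map_inv₀,
      S36IT_val_den (fun x hx => hle ⟨x, hx⟩) hi₀ hd, inv_one]

/-- `S36CA_eps_ram` with the weak hypothesis `hle`. -/
theorem S36CA_eps_ram_sub (v : ι → Valuation K Γ₀) (Λ : Subring K)
    (hle : ∀ x : Λ, ∀ i, v i (x : K) ≤ 1) (y : Λ →+* k)
    (q ϖ g d : Λ) (hq0 : (q : K) ≠ 0) (m : ℕ)
    (hdK : (d : K) = g * (ϖ : K) ^ (m + 1) / q) (hd : y d ≠ 0)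
    (i : ι) (hi : i ∈ S36IT_thru v Λ y) (hϖq : v i (ϖ : K) ^ (m + 1) ≤ v i (q : K)) :
    v i (g : K) = 1 ∧ v i (ϖ : K) ^ (m + 1) = v i (q : K) := by
  have hvq : v i (q : K) ≠ 0 := (Valuation.ne_zero_iff _).2 hq0
  have h1 : v i (d : K) = 1 := S36IT_val_den (fun x hx => hle ⟨x, hx⟩) hi hd
  rw [hdK, map_div₀, map_mul, map_pow, mul_div_assoc] at h1
  have h2 : v i (ϖ : K) ^ (m + 1) / v i (q : K) ≤ 1 := (div_le_one₀ (zero_lt_iff.2 hvq)).2 hϖq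
  obtain ⟨h3, h4⟩ := S36CA_unit_split (hle g i) h2 h1
  exact ⟨h3, (div_eq_one_iff_eq hvq).1 h4⟩

/-- `S36CA_eps_ss` with the weak hypothesis `hle`. -/
theorem S36CA_eps_ss_sub (v : ι → Valuation K Γ₀) (Λ : Subring K)
    (hle : ∀ x : Λ, ∀ i, v i (x : K) ≤ 1) (y : Λ →+* k)
    (q ϖ t₁ t₂ ε : Λ) (hq0 : (q : K) ≠ 0) (m : ℕ)
    (hεK : (ε : K) = t₁ * t₂ * (ϖ : K) ^ (m + 1) / q) (hε : y ε ≠ 0)
    (i : ι) (hi : i ∈ S36IT_thru v Λ y) :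
    (v i (t₁ : K) ≤ v i (q : K) →
      v i (t₁ : K) = v i (q : K) ∧ v i (t₂ : K) = 1 ∧ v i (ϖ : K) ^ (m + 1) = 1) ∧
    (v i (t₂ : K) ≤ v i (q : K) →
      v i (t₂ : K) = v i (q : K) ∧ v i (t₁ : K) = 1 ∧ v i (ϖ : K) ^ (m + 1) = 1) ∧
    (v i (ϖ : K) ^ (m + 1) ≤ v i (q : K) →
      v i (ϖ : K) ^ (m + 1) = v i (q : K) ∧ v i (t₁ : K) = 1 ∧ v i (t₂ : K) = 1) := by
  have hvq : v i (q : K) ≠ 0 := (Valuation.ne_zero_iff _).2 hq0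
  have hpos := zero_lt_iff.2 hvq
  have h1 : v i (ε : K) = 1 := S36IT_val_den (fun x hx => hle ⟨x, hx⟩) hi hε
  rw [hεK, map_div₀, map_mul, map_mul, map_pow] at h1
  have ht₁ := hle t₁ i
  have ht₂ := hle t₂ i
  have hϖ : v i (ϖ : K) ^ (m + 1) ≤ 1 := pow_le_one₀ zero_le (hle ϖ i)
  refine ⟨fun h => ?_, fun h => ?_, fun h => ?_⟩
  · have e : (v i (t₁ : K) / v i (q : K)) * (v i (t₂ : K) * v i (ϖ : K) ^ (m + 1)) = 1 := by
      rw [← h1, div_mul_eq_mul_div, mul_assoc]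
    obtain ⟨h3, h4⟩ := S36CA_unit_split ((div_le_one₀ hpos).2 h) (mul_le_one' ht₂ hϖ) e
    obtain ⟨h5, h6⟩ := S36CA_unit_split ht₂ hϖ h4
    exact ⟨(div_eq_one_iff_eq hvq).1 h3, h5, h6⟩
  · have e : (v i (t₂ : K) / v i (q : K)) * (v i (t₁ : K) * v i (ϖ : K) ^ (m + 1)) = 1 := by
      rw [← h1, div_mul_eq_mul_div, ← mul_assoc, mul_comm (v i (t₂ : K))]
    obtain ⟨h3, h4⟩ := S36CA_unit_split ((div_le_one₀ hpos).2 h) (mul_le_one' ht₁ hϖ) e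
    obtain ⟨h5, h6⟩ := S36CA_unit_split ht₁ hϖ h4
    exact ⟨(div_eq_one_iff_eq hvq).1 h3, h5, h6⟩
  · have e : (v i (ϖ : K) ^ (m + 1) / v i (q : K)) * (v i (t₁ : K) * v i (t₂ : K)) = 1 := by
      rw [← h1, div_mul_eq_mul_div, mul_comm]
    obtain ⟨h3, h4⟩ := S36CA_unit_split ((div_le_one₀ hpos).2 h) (mul_le_one' ht₁ ht₂) e
    obtain ⟨h5, h6⟩ := S36CA_unit_split ht₁ ht₂ h4
    exact ⟨(div_eq_one_iff_eq hvq).1 h3, h5, h6⟩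

/-- **`hs1` at a supersingular point for `s = t₂`** (branch `i₀` = VV): every valuation `i ≠ i₀`
through `y` satisfies `v i t₁ ≤ v i q` (`i` = FF) or `v i ϖ^(m+1) ≤ v i q` (`i` = FV, or `i`
horizontal, where `v i q = 1`). -/
theorem S36CA_hs1_ss (v : ι → Valuation K Γ₀) (Λ : Subring K)
    (hle : ∀ x : Λ, ∀ i, v i (x : K) ≤ 1) (y : Λ →+* k)
    (q ϖ t₁ t₂ ε : Λ) (hq0 : (q : K) ≠ 0) (m : ℕ)
    (hεK : (ε : K) = t₁ * t₂ * (ϖ : K) ^ (m + 1) / q) (hε : y ε ≠ 0) (i₀ : ι)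
    (hcase : ∀ i ∈ S36IT_thru v Λ y, i ≠ i₀ →
      v i (t₁ : K) ≤ v i (q : K) ∨ v i (ϖ : K) ^ (m + 1) ≤ v i (q : K)) :
    ∀ i ∈ S36IT_thru v Λ y, i ≠ i₀ → v i (t₂ : K) = 1 := by
  intro i hi hii
  obtain ⟨h1, -, h3⟩ := S36CA_eps_ss_sub v Λ hle y q ϖ t₁ t₂ ε hq0 m hεK hε i hi
  rcases hcase i hi hii with h | h
  · exact (h1 h).2.1
  · exact (h3 h).2.2

/-- **`hloc` from a uniformiser**: if `q` is a uniformiser of the branch `i₀` on `Λ`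
(`v i₀ f < 1 → v i₀ f ≤ v i₀ q`) and `v i₀ s = v i₀ q`, then `s` is one as well. -/
theorem S36CA_hloc_of_unif (w : Valuation K Γ₀) (Λ : Subring K) (q s : K) (hsq : w s = w q)
    (huni : ∀ f : Λ, w (f : K) < 1 → w (f : K) ≤ w q) :
    ∀ f : Λ, w (f : K) < 1 → w (f : K) ≤ w s := fun f hf => hsq ▸ huni f hf

/-- **`hloc` for the ramified branch**: if `v f ^ (m+1) ≤ v q` on the centre (ramification
index `≤ m + 1`) and `v ϖ ^ (m+1) = v q`, then `ϖ` generates the centre. -/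
theorem S36CA_hloc_ram (w : Valuation K Γ₀) (Λ : Subring K) (q ϖ : K) (m : ℕ)
    (hϖq : w ϖ ^ (m + 1) = w q)
    (hram : ∀ f : Λ, w (f : K) < 1 → w (f : K) ^ (m + 1) ≤ w q) :
    ∀ f : Λ, w (f : K) < 1 → w (f : K) ≤ w ϖ := by
  intro f hf
  have h := hram f hf
  rw [← hϖq] at h
  exact (pow_le_pow_iff_left₀ zero_le zero_le (Nat.succ_ne_zero m)).1 h

end

end Fermat.Agent.S36
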