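import Fermat.Agent.S36.Triv3Inst
import Fermat.Agent.S36.Spec3Ev2
import Fermat.Agent.S36.Charts

/-!
# TRACK 10 (S36), T'-TRANSFER (helper2): the chart `U' = {x ≠ c}` from the chart `U = {x ≠ ∞}`

Prefix `S36CX_`.  `C` is the chart `U`, `C'` the chart `U'`, `C''` the chart `U ∩ U'`.  The
function `g = (x − c)⁻¹ ∈ O₃` is regular on `U'`, vanishes at all cusps and kills the poles (at
the cusps) of the functions regular on `U` (`S36CX_Kill`).  Then a section `f` of `M^u` on `U`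
(`fⁿ u ∈ B_U`) gives the section `f · g ^ N` on `U'`, with reduction `m · ḡ ^ N`:

* `S36CX_Kill C C' g` : the kill data (`g ∈ B_{U'}`, `ḡ_j ∈ Rb'_j`, `b ∈ B_U ⇒ b g^N ∈ B_{U'}`,
  `r ∈ Rb_j ⇒ r ḡ_j^N ∈ Rb'_j`);
* `S36CX_W_transfer` : `m ∈ W_U(u) ⇒ m · ḡ ^ N ∈ W_{U'}(u)` for all `N ≥ N₀`;
* `S36CX_hkill` : the hypothesis `hkill` of `S36SE_hsep_transfer` (helper21);
* `S36CX_li` : (LI) at the triple points on `U'` from (LI) on `U`;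
* `S36CX_max_of` (pure algebra), `S36CX_max₁/₂/₃` : (LI) at the maximal ideals of `Rb'_j` NOT
  containing `ḡ_j` (the closed points of `U'` which are not cusps) from (LI) at the maximal
  ideals of `Rb_j`;
* `S36CX_geo` : **`S36TI_Geo` on `U'`** from `S36TI_Geo` on `U`, the kill data, (R11b') on `U'`
  and (LI) at the cusps;
* `S36CX_chart` : the `S36TL_Chart` on `U'`.
-/

set_option autoImplicit false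
set_option linter.unusedSectionVars false

open AlgebraicCurve

namespace Fermat.Agent.S36

open Fermat.Agent.S18 Fermat.Agent.S34

/-! ### pure algebra: transfer of "no common zero" along a localisation -/

section alg

variable {k Fk : Type*} [Field k] [Field Fk] [Algebra k Fk]

/-- **transfer at the points off `ḡ = 0`.**  `Rb`, `Rb'` subalgebras of `Fk`, `ḡ ∈ Rb'` with
`r ḡ^N ∈ Rb'` for `r ∈ Rb` and `N ≫ 0`.  If the elements of `W ⊂ Rb` have no common zero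
(`hW`) and `w ḡ^N ∈ W'` for `w ∈ W` and some `N`, then the elements of `W'` have no common zero
off `ḡ = 0`. -/
theorem S36CX_max_of (Rb Rb' : Subalgebra k Fk) (gb : Fk) (hg : gb ∈ Rb')
    (hk : ∀ r ∈ Rb, ∃ N : ℕ, r * gb ^ N ∈ Rb')
    (W : Set ↥Rb) (W' : Set ↥Rb')
    (htr : ∀ w ∈ W, ∃ N : ℕ, ∃ h : (w : Fk) * gb ^ N ∈ Rb', (⟨_, h⟩ : ↥Rb') ∈ W')
    (hW : ∀ 𝔪 : Ideal ↥Rb, 𝔪.IsMaximal → ∃ w ∈ W, w ∉ 𝔪)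
    (𝔫 : Ideal ↥Rb') (h𝔫 : 𝔫.IsPrime) (hg𝔫 : (⟨gb, hg⟩ : ↥Rb') ∉ 𝔫) :
    ∃ w' ∈ W', w' ∉ 𝔫 := by
  by_contra hall
  have hall' : ∀ w' ∈ W', w' ∈ 𝔫 := by
    intro w' hw'
    by_contra hn
    exact hall ⟨w', hw', hn⟩
  -- the span of `W` is everything
  have htop : Ideal.span W = ⊤ := by
    by_contra hne
    obtain ⟨𝔪, h𝔪, hle⟩ := Ideal.exists_le_maximal _ hne
    obtain ⟨w, hw, hw𝔪⟩ := hW 𝔪 h𝔪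
    exact hw𝔪 (hle (Ideal.subset_span hw))
  -- the property transferred
  have key : ∀ r ∈ Ideal.span W, ∃ N : ℕ, ∃ h : (r : Fk) * gb ^ N ∈ Rb', (⟨_, h⟩ : ↥Rb') ∈ 𝔫 := by
    intro r hr
    induction hr using Submodule.span_induction with
    | mem w hw =>
      obtain ⟨N, h, hmem⟩ := htr w hw
      exact ⟨N, h, hall' _ hmem⟩
    | zero =>
      refine ⟨0, ?_, ?_⟩
      · rw [pow_zero, mul_one]; exact Rb'.zero_mem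
      · have : (⟨((0 : ↥Rb) : Fk) * gb ^ 0, by
            rw [pow_zero, mul_one]; exact Rb'.zero_mem⟩ : ↥Rb') = 0 :=
          Subtype.ext (by simp)
        rw [this]
        exact 𝔫.zero_mem
    | add a b _ _ ha hb =>
      obtain ⟨N, h, hmem⟩ := ha
      obtain ⟨N', h', hmem'⟩ := hb
      have e : ((a + b : ↥Rb) : Fk) * gb ^ (N + N') =
          (a : Fk) * gb ^ N * gb ^ N' + (b : Fk) * gb ^ N' * gb ^ N := by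
        push_cast; ring
      have hh : ((a + b : ↥Rb) : Fk) * gb ^ (N + N') ∈ Rb' := by
        rw [e]
        exact Rb'.add_mem (Rb'.mul_mem h (Rb'.pow_mem hg _)) (Rb'.mul_mem h' (Rb'.pow_mem hg _))
      refine ⟨N + N', hh, ?_⟩
      have e' : (⟨_, hh⟩ : ↥Rb') =
          ⟨_, h⟩ * (⟨gb, hg⟩ : ↥Rb') ^ N' + ⟨_, h'⟩ * (⟨gb, hg⟩ : ↥Rb') ^ N :=
        Subtype.ext (by
          show ((a + b : ↥Rb) : Fk) * gb ^ (N + N') = _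
          rw [e]
          push_cast
          rfl)
      rw [e']
      exact 𝔫.add_mem (𝔫.mul_mem_right _ hmem) (𝔫.mul_mem_right _ hmem')
    | smul a b _ hb =>
      obtain ⟨N, h, hmem⟩ := hb
      obtain ⟨M, hM⟩ := hk (a : Fk) a.2
      have e : ((a • b : ↥Rb) : Fk) * gb ^ (M + N) = ((a : Fk) * gb ^ M) * ((b : Fk) * gb ^ N) := by
        rw [smul_eq_mul]
        push_cast; ring
      have hh : ((a • b : ↥Rb) : Fk) * gb ^ (M + N) ∈ Rb' := by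
        rw [e]
        exact Rb'.mul_mem hM h
      refine ⟨M + N, hh, ?_⟩
      have e' : (⟨_, hh⟩ : ↥Rb') = ⟨_, hM⟩ * ⟨_, h⟩ :=
        Subtype.ext (by
          show ((a • b : ↥Rb) : Fk) * gb ^ (M + N) = _
          rw [e]
          rfl)
      rw [e']
      exact 𝔫.mul_mem_left _ hmem
  obtain ⟨N, h, hmem⟩ := key 1 (by rw [htop]; exact Submodule.mem_top)
  have e : (⟨_, h⟩ : ↥Rb') = (⟨gb, hg⟩ : ↥Rb') ^ N :=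
    Subtype.ext (by
      show ((1 : ↥Rb) : Fk) * gb ^ N = _
      push_cast
      rw [one_mul])
  rw [e] at hmem
  exact hg𝔫 (h𝔫.mem_of_pow_mem N hmem)

end alg

/-! ### the kill data and the transfer of `W^u` -/

section transfer

variable {L F k Fk₁ Fk₂ Fk₃ : Type*} [Field L] [Field F] [Algebra L F] [Field k]
  [Field Fk₁] [Field Fk₂] [Field Fk₃] [Algebra k Fk₁] [Algebra k Fk₂] [Algebra k Fk₃]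
  {S₁ : S18_Val L F k Fk₁} {S₂ : S18_Val L F k Fk₂} {S₃ : S18_Val L F k Fk₃}
  (hS : S36L3_Same S₁ S₂ S₃) {n : ℕ} {ι : Type*}

/-- **the kill data**: `g = (x − c)⁻¹` is an integral function regular on `U'` with reductions
in the coordinate rings of `U'`; its powers kill the poles at the cusps of the functions regular
on `U` (generic fibre and the three components of the special fibre). -/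
structure S36CX_Kill (C C' : S36L3_Chart L F k Fk₁ Fk₂ Fk₃ n) (g : S36L3_O3 S₁ S₂ S₃) :
    Prop where
  gB : (g : F) ∈ C'.B
  g₁ : (S36L3_red S₁ S₂ S₃ g).1 ∈ C'.Rb₁
  g₂ : (S36L3_red S₁ S₂ S₃ g).2.1 ∈ C'.Rb₂
  g₃ : (S36L3_red S₁ S₂ S₃ g).2.2 ∈ C'.Rb₃
  kB : ∀ b ∈ C.B, ∃ N : ℕ, b * (g : F) ^ N ∈ C'.B
  k₁ : ∀ r ∈ C.Rb₁, ∃ N : ℕ, r * (S36L3_red S₁ S₂ S₃ g).1 ^ N ∈ C'.Rb₁
  k₂ : ∀ r ∈ C.Rb₂, ∃ N : ℕ, r * (S36L3_red S₁ S₂ S₃ g).2.1 ^ N ∈ C'.Rb₂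
  k₃ : ∀ r ∈ C.Rb₃, ∃ N : ℕ, r * (S36L3_red S₁ S₂ S₃ g).2.2 ^ N ∈ C'.Rb₃

namespace S36CX_Kill

variable {C C' : S36L3_Chart L F k Fk₁ Fk₂ Fk₃ n} {g : S36L3_O3 S₁ S₂ S₃}

theorem kB_ge (K : S36CX_Kill C C' g) {b : F} {N N' : ℕ} (h : b * (g : F) ^ N ∈ C'.B)
    (hN : N ≤ N') : b * (g : F) ^ N' ∈ C'.B := by
  obtain ⟨d, rfl⟩ := Nat.exists_eq_add_of_le hN
  rw [pow_add, ← mul_assoc]
  exact C'.B.mul_mem h (C'.B.pow_mem K.gB d)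

theorem k₁_ge (K : S36CX_Kill C C' g) {r : Fk₁} {N N' : ℕ}
    (h : r * (S36L3_red S₁ S₂ S₃ g).1 ^ N ∈ C'.Rb₁) (hN : N ≤ N') :
    r * (S36L3_red S₁ S₂ S₃ g).1 ^ N' ∈ C'.Rb₁ := by
  obtain ⟨d, rfl⟩ := Nat.exists_eq_add_of_le hN
  rw [pow_add, ← mul_assoc]
  exact C'.Rb₁.mul_mem h (C'.Rb₁.pow_mem K.g₁ d)

theorem k₂_ge (K : S36CX_Kill C C' g) {r : Fk₂} {N N' : ℕ}
    (h : r * (S36L3_red S₁ S₂ S₃ g).2.1 ^ N ∈ C'.Rb₂) (hN : N ≤ N') :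
    r * (S36L3_red S₁ S₂ S₃ g).2.1 ^ N' ∈ C'.Rb₂ := by
  obtain ⟨d, rfl⟩ := Nat.exists_eq_add_of_le hN
  rw [pow_add, ← mul_assoc]
  exact C'.Rb₂.mul_mem h (C'.Rb₂.pow_mem K.g₂ d)

theorem k₃_ge (K : S36CX_Kill C C' g) {r : Fk₃} {N N' : ℕ}
    (h : r * (S36L3_red S₁ S₂ S₃ g).2.2 ^ N ∈ C'.Rb₃) (hN : N ≤ N') :
    r * (S36L3_red S₁ S₂ S₃ g).2.2 ^ N' ∈ C'.Rb₃ := by
  obtain ⟨d, rfl⟩ := Nat.exists_eq_add_of_le hN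
  rw [pow_add, ← mul_assoc]
  exact C'.Rb₃.mul_mem h (C'.Rb₃.pow_mem K.g₃ d)

end S36CX_Kill

variable {C C' C'' : S36L3_Chart L F k Fk₁ Fk₂ Fk₃ n} {g : S36L3_O3 S₁ S₂ S₃}

/-- **transfer of `W^u`**: `m ∈ W_U(u) ⇒ m · ḡ ^ N ∈ W_{U'}(u)` for all `N ≥ N₀`. -/
theorem S36CX_W_transfer (K : S36CX_Kill C C' g) {u : F} {m : ↥C.Rb₁ × ↥C.Rb₂ × ↥C.Rb₃}
    (hm : m ∈ S36L3_W hS C u) :
    ∃ N₀ : ℕ, ∀ N, N₀ ≤ N → ∃ m' ∈ S36L3_W hS C' u,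
      (m'.1 : Fk₁) = (m.1 : Fk₁) * (S36L3_red S₁ S₂ S₃ g).1 ^ N ∧
      (m'.2.1 : Fk₂) = (m.2.1 : Fk₂) * (S36L3_red S₁ S₂ S₃ g).2.1 ^ N ∧
      (m'.2.2 : Fk₃) = (m.2.2 : Fk₃) * (S36L3_red S₁ S₂ S₃ g).2.2 ^ N := by
  obtain ⟨f, hf, hfm⟩ := (S36L3_mem_W hS C u m).1 hm
  obtain ⟨NB, hNB⟩ := K.kB _ hf
  obtain ⟨N₁, hN₁⟩ := K.k₁ _ m.1.2
  obtain ⟨N₂, hN₂⟩ := K.k₂ _ m.2.1.2
  obtain ⟨N₃, hN₃⟩ := K.k₃ _ m.2.2.2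
  refine ⟨NB + N₁ + N₂ + N₃, fun N hN => ?_⟩
  have h₁ := K.k₁_ge hN₁ (show N₁ ≤ N by omega)
  have h₂ := K.k₂_ge hN₂ (show N₂ ≤ N by omega)
  have h₃ := K.k₃_ge hN₃ (show N₃ ≤ N by omega)
  refine ⟨(⟨_, h₁⟩, ⟨_, h₂⟩, ⟨_, h₃⟩), ?_, rfl, rfl, rfl⟩
  rw [S36L3_mem_W]
  refine ⟨f * g ^ N, ?_, ?_⟩
  · have hn1 : 1 ≤ n := C.hn
    have hle : NB ≤ n * N := by
      calc NB ≤ N := by omega
        _ = 1 * N := (one_mul N).symm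
        _ ≤ n * N := Nat.mul_le_mul_right N hn1
    have e : ((f * g ^ N : S36L3_O3 S₁ S₂ S₃) : F) ^ n * u =
        ((f : F) ^ n * u) * (g : F) ^ (n * N) := by
      push_cast
      rw [mul_pow, ← pow_mul, Nat.mul_comm N n]
      ring
    rw [e]
    exact K.kB_ge hNB hle
  · rw [map_mul, map_pow, hfm]
    rfl

/-- the hypothesis `hkill` of `S36SE_hsep_transfer`. -/
theorem S36CX_hkill (K : S36CX_Kill C C' g) (f : S36L3_O3 S₁ S₂ S₃) (hf : (f : F) ∈ C.B)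
    (h₁ : (S36L3_red S₁ S₂ S₃ f).1 ∈ C.Rb₁) (h₂ : (S36L3_red S₁ S₂ S₃ f).2.1 ∈ C.Rb₂)
    (h₃ : (S36L3_red S₁ S₂ S₃ f).2.2 ∈ C.Rb₃) :
    ∃ N : ℕ, (f : F) * (g : F) ^ N ∈ C'.B ∧
      (S36L3_red S₁ S₂ S₃ (f * g ^ N)).1 ∈ C'.Rb₁ ∧
      (S36L3_red S₁ S₂ S₃ (f * g ^ N)).2.1 ∈ C'.Rb₂ ∧
      (S36L3_red S₁ S₂ S₃ (f * g ^ N)).2.2 ∈ C'.Rb₃ := by
  obtain ⟨NB, hNB⟩ := K.kB _ hf
  obtain ⟨N₁, hN₁⟩ := K.k₁ _ h₁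
  obtain ⟨N₂, hN₂⟩ := K.k₂ _ h₂
  obtain ⟨N₃, hN₃⟩ := K.k₃ _ h₃
  refine ⟨NB + N₁ + N₂ + N₃, K.kB_ge hNB (by omega), ?_, ?_, ?_⟩
  · rw [map_mul, map_pow]
    exact K.k₁_ge hN₁ (by omega)
  · rw [map_mul, map_pow]
    exact K.k₂_ge hN₂ (by omega)
  · rw [map_mul, map_pow]
    exact K.k₃_ge hN₃ (by omega)

/-! ### the evaluations -/

/-- the value of `r · ḡ ^ N` at a point of `U ∩ U'`. -/
theorem S36CX_ev_mul {κ : Type*} [Field κ] [Algebra k κ] {Rb Rb' Rb'' : Subalgebra k κ}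
    (hle : Rb ≤ Rb'') (hle' : Rb' ≤ Rb'') (P : Place k κ) (hdeg : P.deg = 1)
    (hP'' : ∀ f ∈ Rb'', P.adicValuation f ≤ 1) (r : ↥Rb) (gb : ↥Rb') (N : ℕ) (r' : ↥Rb')
    (h : (r' : κ) = (r : κ) * (gb : κ) ^ N) :
    S36SE_ev Rb' P hdeg (fun f hf => hP'' f (hle' hf)) r' =
      S36SE_ev Rb P hdeg (fun f hf => hP'' f (hle hf)) r *
        (S36SE_ev Rb' P hdeg (fun f hf => hP'' f (hle' hf)) gb) ^ N := by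
  have a1 : S36SE_ev Rb' P hdeg (fun f hf => hP'' f (hle' hf)) r' =
      S36SE_ev Rb'' P hdeg hP'' ⟨r', hle' r'.2⟩ := rfl
  have a2 : S36SE_ev Rb P hdeg (fun f hf => hP'' f (hle hf)) r =
      S36SE_ev Rb'' P hdeg hP'' ⟨r, hle r.2⟩ := rfl
  have a3 : S36SE_ev Rb' P hdeg (fun f hf => hP'' f (hle' hf)) gb =
      S36SE_ev Rb'' P hdeg hP'' ⟨gb, hle' gb.2⟩ := rfl
  have a4 : (⟨r', hle' r'.2⟩ : ↥Rb'') = ⟨r, hle r.2⟩ * ⟨gb, hle' gb.2⟩ ^ N :=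
    Subtype.ext (by
      show (r' : κ) = _
      rw [h]
      rfl)
  rw [a1, a2, a3, a4, map_mul, map_pow]

/-- **(LI) at the triple points on `U'`** from (LI) on `U`. -/
theorem S36CX_li (hle : S36L3_ChartLE C C'') (hle' : S36L3_ChartLE C' C'')
    (X : S36SE_Pts k Fk₁ Fk₂ Fk₃ ι) (hX : S36SE_Reg C'' X) (K : S36CX_Kill C C' g)
    (hgy₁ : ∀ y, S36SE_e₁ C' X (hX.of_le hle') y ⟨_, K.g₁⟩ ≠ 0)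
    (hgy₂ : ∀ y, S36SE_e₂ C' X (hX.of_le hle') y ⟨_, K.g₂⟩ ≠ 0)
    (hgy₃ : ∀ y, S36SE_e₃ C' X (hX.of_le hle') y ⟨_, K.g₃⟩ ≠ 0)
    {u : F} (y : ι)
    (h : ∃ m ∈ S36L3_W hS C u, S36SE_e₁ C X (hX.of_le hle) y m.1 ≠ 0 ∧
      S36SE_e₂ C X (hX.of_le hle) y m.2.1 ≠ 0 ∧ S36SE_e₃ C X (hX.of_le hle) y m.2.2 ≠ 0) :
    ∃ m ∈ S36L3_W hS C' u, S36SE_e₁ C' X (hX.of_le hle') y m.1 ≠ 0 ∧
      S36SE_e₂ C' X (hX.of_le hle') y m.2.1 ≠ 0 ∧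
      S36SE_e₃ C' X (hX.of_le hle') y m.2.2 ≠ 0 := by
  obtain ⟨m, hm, v1, v2, v3⟩ := h
  obtain ⟨N₀, hN⟩ := S36CX_W_transfer hS K hm
  obtain ⟨m', hm', e1, e2, e3⟩ := hN N₀ le_rfl
  refine ⟨m', hm', ?_, ?_, ?_⟩
  · have key : S36SE_e₁ C' X (hX.of_le hle') y m'.1 =
        S36SE_e₁ C X (hX.of_le hle) y m.1 * (S36SE_e₁ C' X (hX.of_le hle') y ⟨_, K.g₁⟩) ^ N₀ :=
      S36CX_ev_mul hle.Rb₁_le hle'.Rb₁_le (X.P₁ y) (X.deg₁ y) (hX.reg₁ y) m.1 ⟨_, K.g₁⟩ N₀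
        m'.1 e1
    rw [key]
    exact mul_ne_zero v1 (pow_ne_zero _ (hgy₁ y))
  · have key : S36SE_e₂ C' X (hX.of_le hle') y m'.2.1 =
        S36SE_e₂ C X (hX.of_le hle) y m.2.1 *
          (S36SE_e₂ C' X (hX.of_le hle') y ⟨_, K.g₂⟩) ^ N₀ :=
      S36CX_ev_mul hle.Rb₂_le hle'.Rb₂_le (X.P₂ y) (X.deg₂ y) (hX.reg₂ y) m.2.1 ⟨_, K.g₂⟩ N₀
        m'.2.1 e2
    rw [key]
    exact mul_ne_zero v2 (pow_ne_zero _ (hgy₂ y))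
  · have key : S36SE_e₃ C' X (hX.of_le hle') y m'.2.2 =
        S36SE_e₃ C X (hX.of_le hle) y m.2.2 *
          (S36SE_e₃ C' X (hX.of_le hle') y ⟨_, K.g₃⟩) ^ N₀ :=
      S36CX_ev_mul hle.Rb₃_le hle'.Rb₃_le (X.P₃ y) (X.deg₃ y) (hX.reg₃ y) m.2.2 ⟨_, K.g₃⟩ N₀
        m'.2.2 e3
    rw [key]
    exact mul_ne_zero v3 (pow_ne_zero _ (hgy₃ y))

/-! ### (LI) at the closed points of `U'` which are not cusps -/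

/-- (LI) at the closed points of `FF ∩ U'` off the cusps. -/
theorem S36CX_max₁ (K : S36CX_Kill C C' g) {u : F}
    (h : ∀ 𝔪 : Ideal ↥C.Rb₁, 𝔪.IsMaximal → ∃ m ∈ S36L3_W hS C u, m.1 ∉ 𝔪)
    (𝔫 : Ideal ↥C'.Rb₁) (h𝔫 : 𝔫.IsPrime) (hg𝔫 : (⟨_, K.g₁⟩ : ↥C'.Rb₁) ∉ 𝔫) :
    ∃ m ∈ S36L3_W hS C' u, m.1 ∉ 𝔫 := by
  obtain ⟨w', ⟨m', hm', rfl⟩, hn⟩ := S36CX_max_of C.Rb₁ C'.Rb₁ _ K.g₁ K.k₁
    {r | ∃ m ∈ S36L3_W hS C u, m.1 = r} {r' | ∃ m' ∈ S36L3_W hS C' u, m'.1 = r'}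
    (by
      rintro _ ⟨m, hm, rfl⟩
      obtain ⟨N₀, hN⟩ := S36CX_W_transfer hS K hm
      obtain ⟨m', hm', e1, -, -⟩ := hN N₀ le_rfl
      exact ⟨N₀, e1 ▸ m'.1.2, m', hm', Subtype.ext e1⟩)
    (by
      intro 𝔪 h𝔪
      obtain ⟨m, hm, hn⟩ := h 𝔪 h𝔪
      exact ⟨m.1, ⟨m, hm, rfl⟩, hn⟩)
    𝔫 h𝔫 hg𝔫
  exact ⟨m', hm', hn⟩

/-- (LI) at the closed points of `FV ∩ U'` off the cusps. -/
theorem S36CX_max₂ (K : S36CX_Kill C C' g) {u : F}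
    (h : ∀ 𝔪 : Ideal ↥C.Rb₂, 𝔪.IsMaximal → ∃ m ∈ S36L3_W hS C u, m.2.1 ∉ 𝔪)
    (𝔫 : Ideal ↥C'.Rb₂) (h𝔫 : 𝔫.IsPrime) (hg𝔫 : (⟨_, K.g₂⟩ : ↥C'.Rb₂) ∉ 𝔫) :
    ∃ m ∈ S36L3_W hS C' u, m.2.1 ∉ 𝔫 := by
  obtain ⟨w', ⟨m', hm', rfl⟩, hn⟩ := S36CX_max_of C.Rb₂ C'.Rb₂ _ K.g₂ K.k₂
    {r | ∃ m ∈ S36L3_W hS C u, m.2.1 = r} {r' | ∃ m' ∈ S36L3_W hS C' u, m'.2.1 = r'}
    (by
      rintro _ ⟨m, hm, rfl⟩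
      obtain ⟨N₀, hN⟩ := S36CX_W_transfer hS K hm
      obtain ⟨m', hm', -, e2, -⟩ := hN N₀ le_rfl
      exact ⟨N₀, e2 ▸ m'.2.1.2, m', hm', Subtype.ext e2⟩)
    (by
      intro 𝔪 h𝔪
      obtain ⟨m, hm, hn⟩ := h 𝔪 h𝔪
      exact ⟨m.2.1, ⟨m, hm, rfl⟩, hn⟩)
    𝔫 h𝔫 hg𝔫
  exact ⟨m', hm', hn⟩

/-- (LI) at the closed points of `VV ∩ U'` off the cusps. -/
theorem S36CX_max₃ (K : S36CX_Kill C C' g) {u : F}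
    (h : ∀ 𝔪 : Ideal ↥C.Rb₃, 𝔪.IsMaximal → ∃ m ∈ S36L3_W hS C u, m.2.2 ∉ 𝔪)
    (𝔫 : Ideal ↥C'.Rb₃) (h𝔫 : 𝔫.IsPrime) (hg𝔫 : (⟨_, K.g₃⟩ : ↥C'.Rb₃) ∉ 𝔫) :
    ∃ m ∈ S36L3_W hS C' u, m.2.2 ∉ 𝔫 := by
  obtain ⟨w', ⟨m', hm', rfl⟩, hn⟩ := S36CX_max_of C.Rb₃ C'.Rb₃ _ K.g₃ K.k₃
    {r | ∃ m ∈ S36L3_W hS C u, m.2.2 = r} {r' | ∃ m' ∈ S36L3_W hS C' u, m'.2.2 = r'}
    (by
      rintro _ ⟨m, hm, rfl⟩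
      obtain ⟨N₀, hN⟩ := S36CX_W_transfer hS K hm
      obtain ⟨m', hm', -, -, e3⟩ := hN N₀ le_rfl
      exact ⟨N₀, e3 ▸ m'.2.2.2, m', hm', Subtype.ext e3⟩)
    (by
      intro 𝔪 h𝔪
      obtain ⟨m, hm, hn⟩ := h 𝔪 h𝔪
      exact ⟨m.2.2, ⟨m, hm, rfl⟩, hn⟩)
    𝔫 h𝔫 hg𝔫
  exact ⟨m', hm', hn⟩

/-! ### the chart `U'` -/

/-- **`S36TI_Geo` on `U'`** from `S36TI_Geo` on `U`, the kill data, the non-vanishing of `ḡ` at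
the triple points, (R11b') on `U'` (`hint_j`) and (LI) at the cusps of `U'` (`hc_j`: the
maximal ideals of `Rb'_j` containing `ḡ_j`). -/
theorem S36CX_geo (hle : S36L3_ChartLE C C'') (hle' : S36L3_ChartLE C' C'')
    (X : S36SE_Pts k Fk₁ Fk₂ Fk₃ ι) (hX : S36SE_Reg C'' X) (Kp : Subgroup Fˣ)
    (K : S36CX_Kill C C' g)
    (hgy₁ : ∀ y, S36SE_e₁ C' X (hX.of_le hle') y ⟨_, K.g₁⟩ ≠ 0)
    (hgy₂ : ∀ y, S36SE_e₂ C' X (hX.of_le hle') y ⟨_, K.g₂⟩ ≠ 0)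
    (hgy₃ : ∀ y, S36SE_e₃ C' X (hX.of_le hle') y ⟨_, K.g₃⟩ ≠ 0)
    (G : S36TI_Geo hS C X (hX.of_le hle) Kp)
    (hint₁ : ∀ a a' : ↥C'.Rb₁, (∀ y, S36SE_e₁ C' X (hX.of_le hle') y a = 0) →
      (∀ y, S36SE_e₁ C' X (hX.of_le hle') y a' = 0) →
      ((a * a', 0, 0) : ↥C'.Rb₁ × ↥C'.Rb₂ × ↥C'.Rb₃) ∈ S36L3_W hS C' 1)
    (hint₂ : ∀ a a' : ↥C'.Rb₂, (∀ y, S36SE_e₂ C' X (hX.of_le hle') y a = 0) →
      (∀ y, S36SE_e₂ C' X (hX.of_le hle') y a' = 0) →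
      ((0, a * a', 0) : ↥C'.Rb₁ × ↥C'.Rb₂ × ↥C'.Rb₃) ∈ S36L3_W hS C' 1)
    (hint₃ : ∀ a a' : ↥C'.Rb₃, (∀ y, S36SE_e₃ C' X (hX.of_le hle') y a = 0) →
      (∀ y, S36SE_e₃ C' X (hX.of_le hle') y a' = 0) →
      ((0, 0, a * a') : ↥C'.Rb₁ × ↥C'.Rb₂ × ↥C'.Rb₃) ∈ S36L3_W hS C' 1)
    (hc₁ : ∀ u ∈ Kp, ∀ 𝔫 : Ideal ↥C'.Rb₁, 𝔫.IsMaximal → (⟨_, K.g₁⟩ : ↥C'.Rb₁) ∈ 𝔫 →
      ∃ m ∈ S36L3_W hS C' ((u : Fˣ) : F), m.1 ∉ 𝔫)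
    (hc₂ : ∀ u ∈ Kp, ∀ 𝔫 : Ideal ↥C'.Rb₂, 𝔫.IsMaximal → (⟨_, K.g₂⟩ : ↥C'.Rb₂) ∈ 𝔫 →
      ∃ m ∈ S36L3_W hS C' ((u : Fˣ) : F), m.2.1 ∉ 𝔫)
    (hc₃ : ∀ u ∈ Kp, ∀ 𝔫 : Ideal ↥C'.Rb₃, 𝔫.IsMaximal → (⟨_, K.g₃⟩ : ↥C'.Rb₃) ∈ 𝔫 →
      ∃ m ∈ S36L3_W hS C' ((u : Fˣ) : F), m.2.2 ∉ 𝔫) :
    S36TI_Geo hS C' X (hX.of_le hle') Kp where
  li u hu y := S36CX_li hS hle hle' X hX K hgy₁ hgy₂ hgy₃ y (G.li u hu y)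
  hint₁ := hint₁
  hint₂ := hint₂
  hint₃ := hint₃
  hsep y := S36SE_hsep_transfer hS hle hle' (S36SE_e₁ C X (hX.of_le hle))
    (S36SE_e₁ C' X (hX.of_le hle')) (S36SE_e₁ C'' X hX) (fun _ _ => rfl) (fun _ _ => rfl)
    G.hsep g K.g₁ hgy₁ (fun f hf h₁ h₂ h₃ => S36CX_hkill K f hf h₁ h₂ h₃) y
  h₁ u hu 𝔫 h𝔫 := by
    by_cases hg : (⟨_, K.g₁⟩ : ↥C'.Rb₁) ∈ 𝔫
    · exact hc₁ u hu 𝔫 h𝔫 hg
    · exact S36CX_max₁ hS K (G.h₁ u hu) 𝔫 h𝔫.isPrime hg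
  h₂ u hu 𝔫 h𝔫 := by
    by_cases hg : (⟨_, K.g₂⟩ : ↥C'.Rb₂) ∈ 𝔫
    · exact hc₂ u hu 𝔫 h𝔫 hg
    · exact S36CX_max₂ hS K (G.h₂ u hu) 𝔫 h𝔫.isPrime hg
  h₃ u hu 𝔫 h𝔫 := by
    by_cases hg : (⟨_, K.g₃⟩ : ↥C'.Rb₃) ∈ 𝔫
    · exact hc₃ u hu 𝔫 h𝔫 hg
    · exact S36CX_max₃ hS K (G.h₃ u hu) 𝔫 h𝔫.isPrime hg

/-- **the `S36TL_Chart` on `U'`** (`hW1` is asked on `U'' = U ∩ U'`, as in `S36TI_hloc`). -/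
noncomputable def S36CX_chart (hle : S36L3_ChartLE C C'') (hle' : S36L3_ChartLE C' C'')
    (X : S36SE_Pts k Fk₁ Fk₂ Fk₃ ι) (hX : S36SE_Reg C'' X) (Kp : Subgroup Fˣ)
    (hKp : Kp ≤ S36L3_NormGrp S₁ S₂ S₃)
    (hW1 : ∀ m ∈ S36L3_W hS C'' 1, ∀ y, S36SE_e₁ C'' X hX y m.1 = S36SE_e₂ C'' X hX y m.2.1 ∧
      S36SE_e₁ C'' X hX y m.1 = S36SE_e₃ C'' X hX y m.2.2)
    (K : S36CX_Kill C C' g)
    (hgy₁ : ∀ y, S36SE_e₁ C' X (hX.of_le hle') y ⟨_, K.g₁⟩ ≠ 0)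
    (hgy₂ : ∀ y, S36SE_e₂ C' X (hX.of_le hle') y ⟨_, K.g₂⟩ ≠ 0)
    (hgy₃ : ∀ y, S36SE_e₃ C' X (hX.of_le hle') y ⟨_, K.g₃⟩ ≠ 0)
    (G : S36TI_Geo hS C X (hX.of_le hle) Kp)
    (hint₁ : ∀ a a' : ↥C'.Rb₁, (∀ y, S36SE_e₁ C' X (hX.of_le hle') y a = 0) →
      (∀ y, S36SE_e₁ C' X (hX.of_le hle') y a' = 0) →
      ((a * a', 0, 0) : ↥C'.Rb₁ × ↥C'.Rb₂ × ↥C'.Rb₃) ∈ S36L3_W hS C' 1)
    (hint₂ : ∀ a a' : ↥C'.Rb₂, (∀ y, S36SE_e₂ C' X (hX.of_le hle') y a = 0) →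
      (∀ y, S36SE_e₂ C' X (hX.of_le hle') y a' = 0) →
      ((0, a * a', 0) : ↥C'.Rb₁ × ↥C'.Rb₂ × ↥C'.Rb₃) ∈ S36L3_W hS C' 1)
    (hint₃ : ∀ a a' : ↥C'.Rb₃, (∀ y, S36SE_e₃ C' X (hX.of_le hle') y a = 0) →
      (∀ y, S36SE_e₃ C' X (hX.of_le hle') y a' = 0) →
      ((0, 0, a * a') : ↥C'.Rb₁ × ↥C'.Rb₂ × ↥C'.Rb₃) ∈ S36L3_W hS C' 1)
    (hc₁ : ∀ u ∈ Kp, ∀ 𝔫 : Ideal ↥C'.Rb₁, 𝔫.IsMaximal → (⟨_, K.g₁⟩ : ↥C'.Rb₁) ∈ 𝔫 →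
      ∃ m ∈ S36L3_W hS C' ((u : Fˣ) : F), m.1 ∉ 𝔫)
    (hc₂ : ∀ u ∈ Kp, ∀ 𝔫 : Ideal ↥C'.Rb₂, 𝔫.IsMaximal → (⟨_, K.g₂⟩ : ↥C'.Rb₂) ∈ 𝔫 →
      ∃ m ∈ S36L3_W hS C' ((u : Fˣ) : F), m.2.1 ∉ 𝔫)
    (hc₃ : ∀ u ∈ Kp, ∀ 𝔫 : Ideal ↥C'.Rb₃, 𝔫.IsMaximal → (⟨_, K.g₃⟩ : ↥C'.Rb₃) ∈ 𝔫 →
      ∃ m ∈ S36L3_W hS C' ((u : Fˣ) : F), m.2.2 ∉ 𝔫) :
    S36TL_Chart hS C' Kp ι :=
  (S36CX_geo hS hle hle' X hX Kp K hgy₁ hgy₂ hgy₃ G hint₁ hint₂ hint₃ hc₁ hc₂ hc₃).chart hKp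
    (S36TI_hW1_of_le hS hle' (S36SE_e₁ C' X (hX.of_le hle')) (S36SE_e₂ C' X (hX.of_le hle'))
      (S36SE_e₃ C' X (hX.of_le hle')) (S36SE_e₁ C'' X hX) (S36SE_e₂ C'' X hX)
      (S36SE_e₃ C'' X hX) (fun _ _ => rfl) (fun _ _ => rfl) (fun _ _ => rfl) hW1)

end transfer

/-! ### the kill data of the standard charts (helper23's `S36CU_U`, `S36CU_U'`) -/

section conc

variable {k κ : Type*} [Field k] [Field κ] [Algebra k κ]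

/-- `ḡ = (x − c₀)⁻¹` does not vanish at a point where `x` is regular. -/
theorem S36CX_hgy (Rb' : Subalgebra k κ) (P : Place k κ) (hdeg : P.deg = 1)
    (hP' : ∀ f ∈ Rb', P.adicValuation f ≤ 1) (x : κ) (c₀ : k)
    (hz : x - algebraMap k κ c₀ ≠ 0) (hx : P.adicValuation x ≤ 1) (gb : ↥Rb')
    (hgb : (gb : κ) = (x - algebraMap k κ c₀)⁻¹) : S36SE_ev Rb' P hdeg hP' gb ≠ 0 := by
  intro h0
  rw [S36SE_ev_eq_zero_iff, hgb, map_inv₀] at h0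
  have h1 : P.adicValuation (x - algebraMap k κ c₀) ≤ 1 :=
    (Valuation.map_sub _ _ _).trans (max_le hx (P.adicValuation_algebraMap_le_one c₀))
  have h2 : P.adicValuation (x - algebraMap k κ c₀) ≠ 0 := by
    rw [Ne, map_eq_zero]
    exact hz
  have h3 : (1 : WithZero (Multiplicative ℤ)) ≤ (P.adicValuation (x - algebraMap k κ c₀))⁻¹ :=
    (one_le_inv₀ (zero_lt_iff.2 h2)).2 h1
  exact absurd h0 (not_lt.2 h3)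

end conc

section conc2

variable {K F H : Type*} [Field K] [Field F] [Algebra K F] (S : S36FL_Act K F H)
variable {k Fk₁ Fk₂ Fk₃ : Type*} [Field k]
  [Field Fk₁] [Field Fk₂] [Field Fk₃] [Algebra k Fk₁] [Algebra k Fk₂] [Algebra k Fk₃]
  {S₁ : S18_Val S.fixK S.fixF k Fk₁} {S₂ : S18_Val S.fixK S.fixF k Fk₂}
  {S₃ : S18_Val S.fixK S.fixF k Fk₃}

/-- **the kill data of the standard charts**: `g = (j − c)⁻¹`, with reductions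
`(x_j − c₀)⁻¹` on the three components. -/
theorem S36CX_kill_conc (hP : HasPrincipalDivisors K F) (hP₁ : HasPrincipalDivisors k Fk₁)
    (hP₂ : HasPrincipalDivisors k Fk₂) (hP₃ : HasPrincipalDivisors k Fk₃)
    (j : S.fixF) (c : S.fixK) (c₀ : k) (x₁ : Fk₁) (x₂ : Fk₂) (x₃ : Fk₃) (n : ℕ) (hn : 0 < n)
    (g : S36L3_O3 S₁ S₂ S₃)
    (hg : ((g : S.fixF) : F) = ((j : F) - algebraMap K F (c : K))⁻¹)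
    (hr₁ : (S36L3_red S₁ S₂ S₃ g).1 = (x₁ - algebraMap k Fk₁ c₀)⁻¹)
    (hr₂ : (S36L3_red S₁ S₂ S₃ g).2.1 = (x₂ - algebraMap k Fk₂ c₀)⁻¹)
    (hr₃ : (S36L3_red S₁ S₂ S₃ g).2.2 = (x₃ - algebraMap k Fk₃ c₀)⁻¹) :
    S36CX_Kill (S36CU_U S k j x₁ x₂ x₃ n hn)
      (S36CU_U' S k j c (x₁ - algebraMap k Fk₁ c₀) (x₂ - algebraMap k Fk₂ c₀)
        (x₃ - algebraMap k Fk₃ c₀) n hn) g where
  gB := by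
    show ((g : S.fixF) : F) ∈ S34IX_reg (S34IX_TU' (j : F) (c : K))
    rw [S36CU_regZ_eq, hg]
    exact S36CU_inv_mem_regZ _
  g₁ := by
    show (S36L3_red S₁ S₂ S₃ g).1 ∈ S34SB_regZ k (x₁ - algebraMap k Fk₁ c₀)
    rw [hr₁]
    exact S36CU_inv_mem_regZ _
  g₂ := by
    show (S36L3_red S₁ S₂ S₃ g).2.1 ∈ S34SB_regZ k (x₂ - algebraMap k Fk₂ c₀)
    rw [hr₂]
    exact S36CU_inv_mem_regZ _
  g₃ := by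
    show (S36L3_red S₁ S₂ S₃ g).2.2 ∈ S34SB_regZ k (x₃ - algebraMap k Fk₃ c₀)
    rw [hr₃]
    exact S36CU_inv_mem_regZ _
  kB := by
    intro b hb
    have hb' : (b : F) ∈ S34SB_reg K (j : F) := by
      rw [← S36CU_reg_eq]
      exact hb
    obtain ⟨m₀, hm₀⟩ := S34SB_inv_clear hP (j : F) (c : K) hb'
    refine ⟨m₀, ?_⟩
    show ((b * (g : S.fixF) ^ m₀ : S.fixF) : F) ∈ S34IX_reg (S34IX_TU' (j : F) (c : K))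
    rw [S36CU_regZ_eq]
    have e : ((b * (g : S.fixF) ^ m₀ : S.fixF) : F) =
        ((j : F) - algebraMap K F (c : K))⁻¹ ^ m₀ * (b : F) := by
      push_cast
      rw [hg, mul_comm]
    rw [e]
    exact hm₀ m₀ le_rfl
  k₁ := by
    intro r hr
    obtain ⟨m₀, hm₀⟩ := S34SB_inv_clear hP₁ x₁ c₀ (show r ∈ S34SB_reg k x₁ from hr)
    refine ⟨m₀, ?_⟩
    show r * (S36L3_red S₁ S₂ S₃ g).1 ^ m₀ ∈ S34SB_regZ k (x₁ - algebraMap k Fk₁ c₀)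
    rw [hr₁, mul_comm]
    exact hm₀ m₀ le_rfl
  k₂ := by
    intro r hr
    obtain ⟨m₀, hm₀⟩ := S34SB_inv_clear hP₂ x₂ c₀ (show r ∈ S34SB_reg k x₂ from hr)
    refine ⟨m₀, ?_⟩
    show r * (S36L3_red S₁ S₂ S₃ g).2.1 ^ m₀ ∈ S34SB_regZ k (x₂ - algebraMap k Fk₂ c₀)
    rw [hr₂, mul_comm]
    exact hm₀ m₀ le_rfl
  k₃ := by
    intro r hr
    obtain ⟨m₀, hm₀⟩ := S34SB_inv_clear hP₃ x₃ c₀ (show r ∈ S34SB_reg k x₃ from hr)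
    refine ⟨m₀, ?_⟩
    show r * (S36L3_red S₁ S₂ S₃ g).2.2 ^ m₀ ∈ S34SB_regZ k (x₃ - algebraMap k Fk₃ c₀)
    rw [hr₃, mul_comm]
    exact hm₀ m₀ le_rfl

end conc2

end Fermat.Agent.S36
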