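import Fermat.Agent.S36.Triv3Li
import Fermat.Agent.S36.Charts

/-!
# TRACK 10 (S36), C3.4 TRIV-CONC (helper11): the geometric inputs of the chart `U`

`S36TX_geo_U` : **`S36TI_Geo` on helper23's chart `C = S36CU_U S k j x₁ x₂ x₃ n hn`**
(`U = {j ≠ ∞}`, `Rb_j = S34SB_reg k x_j`), for a family `D : S36IT_Fam Ω F' S.fixF ιv` of
valuation rings of the lattice `Λ_U` (helper17; concretely `S36IT_fam3 …`).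

It is `S36TI_Geo.ofPlaces` ∘ `S36TI_pl₁/₂/₃` with `hR_j := S36CU_mem_reg_adic`.  What is owed
(all hypotheses of `S36TX_geo_U`), by owner:

* NODAL3-INST (helper14) + EVAL-INST (helper21): `hW1`, `hint₁ hint₂ hint₃`, `hsep`;
* RBAR (helper26): `RR_Hyp k Fk_j`, `x_j` transcendental, `Fk_j / k(x_j)` finite separable,
  a pole `c_j` of `x_j`;
* INT / FIN / LI-INST (helper17, helper7, helper19, helper23, helper8, helper20):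
  `IsNoetherianRing D.Λ`, `hle`, `R`, `hOv`, `hfrac`, `hsepH`, `hsepH0`;
* CART-INST (helper5 & co): `hB₁ hB₂ hB₃` — a CART bundle at every affine place of each of the
  three components.
-/

set_option autoImplicit false
set_option linter.unusedSectionVars false
set_option linter.style.haveILetI false

open AlgebraicCurve IntermediateField

namespace Fermat.Agent.S36

open Fermat.Agent.Lib Fermat.Agent.S18 Fermat.Agent.S34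

universe w

variable {K F H : Type*} [Field K] [Field F] [Algebra K F] (S : S36FL_Act K F H)
  {k Fk₁ Fk₂ Fk₃ : Type*} [Field k]
  [Field Fk₁] [Field Fk₂] [Field Fk₃] [Algebra k Fk₁] [Algebra k Fk₂] [Algebra k Fk₃]
  {S₁ : S18_Val ↥S.fixK ↥S.fixF k Fk₁} {S₂ : S18_Val ↥S.fixK ↥S.fixF k Fk₂}
  {S₃ : S18_Val ↥S.fixK ↥S.fixF k Fk₃}

/-- **the geometric inputs of the chart `U = {j ≠ ∞}`** (helper23's `S36CU_U`). -/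
theorem S36TX_geo_U (hS : S36L3_Same S₁ S₂ S₃) [IsAlgClosed k]
    (j : ↥S.fixF) (x₁ : Fk₁) (x₂ : Fk₂) (x₃ : Fk₃) (n : ℕ) (hn : 0 < n)
    {ι : Type*} {X : S36SE_Pts k Fk₁ Fk₂ Fk₃ ι}
    {hC : S36SE_Reg (S36CU_U S k j x₁ x₂ x₃ n hn) X}
    {Kp : Subgroup (↥S.fixF)ˣ} (hKp : Kp ≤ S36L3_NormGrp S₁ S₂ S₃)
    -- RBAR
    (h₁ : RR_Hyp k Fk₁) (h₂ : RR_Hyp k Fk₂) (h₃ : RR_Hyp k Fk₃)
    (c₁ : Place k Fk₁) (c₂ : Place k Fk₂) (c₃ : Place k Fk₃)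
    (hc₁ : c₁.ord x₁ < 0) (hc₂ : c₂.ord x₂ < 0) (hc₃ : c₃.ord x₃ < 0)
    (hx₁ : Transcendental k x₁) (hx₂ : Transcendental k x₂) (hx₃ : Transcendental k x₃)
    [FiniteDimensional k⟮x₁⟯ Fk₁] [Algebra.IsSeparable k⟮x₁⟯ Fk₁]
    [FiniteDimensional k⟮x₂⟯ Fk₂] [Algebra.IsSeparable k⟮x₂⟯ Fk₂]
    [FiniteDimensional k⟮x₃⟯ Fk₃] [Algebra.IsSeparable k⟮x₃⟯ Fk₃]
    -- NODAL3-INST + EVAL-INST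
    (hW1 : ∀ m ∈ S36L3_W hS (S36CU_U S k j x₁ x₂ x₃ n hn) 1, ∀ y,
      S36SE_e₁ (S36CU_U S k j x₁ x₂ x₃ n hn) X hC y m.1 =
        S36SE_e₂ (S36CU_U S k j x₁ x₂ x₃ n hn) X hC y m.2.1 ∧
      S36SE_e₁ (S36CU_U S k j x₁ x₂ x₃ n hn) X hC y m.1 =
        S36SE_e₃ (S36CU_U S k j x₁ x₂ x₃ n hn) X hC y m.2.2)
    (hint₁ : ∀ g g' : ↥(S36CU_U S k j x₁ x₂ x₃ n hn).Rb₁,
      (∀ y, S36SE_e₁ (S36CU_U S k j x₁ x₂ x₃ n hn) X hC y g = 0) →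
      (∀ y, S36SE_e₁ (S36CU_U S k j x₁ x₂ x₃ n hn) X hC y g' = 0) →
      ((g * g', 0, 0) : ↥(S36CU_U S k j x₁ x₂ x₃ n hn).Rb₁ ×
        ↥(S36CU_U S k j x₁ x₂ x₃ n hn).Rb₂ × ↥(S36CU_U S k j x₁ x₂ x₃ n hn).Rb₃) ∈
        S36L3_W hS (S36CU_U S k j x₁ x₂ x₃ n hn) 1)
    (hint₂ : ∀ g g' : ↥(S36CU_U S k j x₁ x₂ x₃ n hn).Rb₂,
      (∀ y, S36SE_e₂ (S36CU_U S k j x₁ x₂ x₃ n hn) X hC y g = 0) →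
      (∀ y, S36SE_e₂ (S36CU_U S k j x₁ x₂ x₃ n hn) X hC y g' = 0) →
      ((0, g * g', 0) : ↥(S36CU_U S k j x₁ x₂ x₃ n hn).Rb₁ ×
        ↥(S36CU_U S k j x₁ x₂ x₃ n hn).Rb₂ × ↥(S36CU_U S k j x₁ x₂ x₃ n hn).Rb₃) ∈
        S36L3_W hS (S36CU_U S k j x₁ x₂ x₃ n hn) 1)
    (hint₃ : ∀ g g' : ↥(S36CU_U S k j x₁ x₂ x₃ n hn).Rb₃,
      (∀ y, S36SE_e₃ (S36CU_U S k j x₁ x₂ x₃ n hn) X hC y g = 0) →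
      (∀ y, S36SE_e₃ (S36CU_U S k j x₁ x₂ x₃ n hn) X hC y g' = 0) →
      ((0, 0, g * g') : ↥(S36CU_U S k j x₁ x₂ x₃ n hn).Rb₁ ×
        ↥(S36CU_U S k j x₁ x₂ x₃ n hn).Rb₂ × ↥(S36CU_U S k j x₁ x₂ x₃ n hn).Rb₃) ∈
        S36L3_W hS (S36CU_U S k j x₁ x₂ x₃ n hn) 1)
    (hsep : ∀ y, ∃ w ∈ S36L3_W hS (S36CU_U S k j x₁ x₂ x₃ n hn) 1,
      S36SE_e₁ (S36CU_U S k j x₁ x₂ x₃ n hn) X hC y w.1 = 1 ∧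
      ∀ y', y' ≠ y → S36SE_e₁ (S36CU_U S k j x₁ x₂ x₃ n hn) X hC y' w.1 = 0)
    -- INT / FIN / LI-INST
    {Ω F' : Type*} [Field Ω] [Field F'] [Algebra Ω F'] {ιv : Type*}
    (D : S36IT_Fam Ω F' ↥S.fixF ιv) [Finite ιv] [IsNoetherianRing D.Λ]
    (hle : D.Λ ≤ S36LJ_Lam S₁ S₂ S₃ (S36CU_U S k j x₁ x₂ x₃ n hn).B.toSubring)
    (R : S36LJ_Red (S₁ := S₁) (S₂ := S₂) (S₃ := S₃) (S36CU_U S k j x₁ x₂ x₃ n hn))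
    (hOv : ∀ i : ιv, D.Ov i = S₁.O ∨ D.Ov i = S₂.O ∨ D.Ov i = S₃.O)
    (hfrac : ∀ x : ↥S.fixF, ∃ b : D.Λ, (b : ↥S.fixF) ≠ 0 ∧ (b : ↥S.fixF) * x ∈ D.Λ)
    (hsepH : ∀ u ∈ Kp, ∀ Q ∈ D.U, ∃ g : ↥S.fixF, g ≠ 0 ∧
      (n : ℤ) * Q.ord (D.φ g) + Q.ord (D.φ ((u : (↥S.fixF)ˣ) : ↥S.fixF)) = 0 ∧
      ∀ Q' ∈ D.U, 0 ≤ (n : ℤ) * Q'.ord (D.φ g) + Q'.ord (D.φ ((u : (↥S.fixF)ˣ) : ↥S.fixF)))
    (hsepH0 : ∀ u ∈ Kp, ∃ g : ↥S.fixF, g ≠ 0 ∧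
      ∀ Q' ∈ D.U, 0 ≤ (n : ℤ) * Q'.ord (D.φ g) + Q'.ord (D.φ ((u : (↥S.fixF)ˣ) : ↥S.fixF)))
    -- CART-INST
    (hB₁ : ∀ (P : Place k Fk₁)
      (hP : ∀ f ∈ (S36CU_U S k j x₁ x₂ x₃ n hn).Rb₁, P.adicValuation f ≤ 1),
      ∃ (κ : Type w) (_ : Field κ) (B : S36CA_LiData D.O ⊤ D.Λ
        (S36LK_y₁ D hle R ((S36SE_ev (S36CU_U S k j x₁ x₂ x₃ n hn).Rb₁ P (h₁.deg_one P) hP :
          ↥(S36CU_U S k j x₁ x₂ x₃ n hn).Rb₁ →ₐ[k] k) :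
          ↥(S36CU_U S k j x₁ x₂ x₃ n hn).Rb₁ →+* k)) κ),
        (∀ i : ιv, Sum.inl i ∈ S36IT_thruVS D.O D.Λ
          (S36LK_y₁ D hle R ((S36SE_ev (S36CU_U S k j x₁ x₂ x₃ n hn).Rb₁ P (h₁.deg_one P) hP :
            ↥(S36CU_U S k j x₁ x₂ x₃ n hn).Rb₁ →ₐ[k] k) :
            ↥(S36CU_U S k j x₁ x₂ x₃ n hn).Rb₁ →+* k)) → Sum.inl i ∈ B.Vt) ∧
          ∀ i ∈ B.Vt, ∃ j : ιv, i = Sum.inl j)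
    (hB₂ : ∀ (P : Place k Fk₂)
      (hP : ∀ f ∈ (S36CU_U S k j x₁ x₂ x₃ n hn).Rb₂, P.adicValuation f ≤ 1),
      ∃ (κ : Type w) (_ : Field κ) (B : S36CA_LiData D.O ⊤ D.Λ
        (S36LK_y₂ D hle R ((S36SE_ev (S36CU_U S k j x₁ x₂ x₃ n hn).Rb₂ P (h₂.deg_one P) hP :
          ↥(S36CU_U S k j x₁ x₂ x₃ n hn).Rb₂ →ₐ[k] k) :
          ↥(S36CU_U S k j x₁ x₂ x₃ n hn).Rb₂ →+* k)) κ),
        (∀ i : ιv, Sum.inl i ∈ S36IT_thruVS D.O D.Λ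
          (S36LK_y₂ D hle R ((S36SE_ev (S36CU_U S k j x₁ x₂ x₃ n hn).Rb₂ P (h₂.deg_one P) hP :
            ↥(S36CU_U S k j x₁ x₂ x₃ n hn).Rb₂ →ₐ[k] k) :
            ↥(S36CU_U S k j x₁ x₂ x₃ n hn).Rb₂ →+* k)) → Sum.inl i ∈ B.Vt) ∧
          ∀ i ∈ B.Vt, ∃ j : ιv, i = Sum.inl j)
    (hB₃ : ∀ (P : Place k Fk₃)
      (hP : ∀ f ∈ (S36CU_U S k j x₁ x₂ x₃ n hn).Rb₃, P.adicValuation f ≤ 1),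
      ∃ (κ : Type w) (_ : Field κ) (B : S36CA_LiData D.O ⊤ D.Λ
        (S36LK_y₃ D hle R ((S36SE_ev (S36CU_U S k j x₁ x₂ x₃ n hn).Rb₃ P (h₃.deg_one P) hP :
          ↥(S36CU_U S k j x₁ x₂ x₃ n hn).Rb₃ →ₐ[k] k) :
          ↥(S36CU_U S k j x₁ x₂ x₃ n hn).Rb₃ →+* k)) κ),
        (∀ i : ιv, Sum.inl i ∈ S36IT_thruVS D.O D.Λ
          (S36LK_y₃ D hle R ((S36SE_ev (S36CU_U S k j x₁ x₂ x₃ n hn).Rb₃ P (h₃.deg_one P) hP :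
            ↥(S36CU_U S k j x₁ x₂ x₃ n hn).Rb₃ →ₐ[k] k) :
            ↥(S36CU_U S k j x₁ x₂ x₃ n hn).Rb₃ →+* k)) → Sum.inl i ∈ B.Vt) ∧
          ∀ i ∈ B.Vt, ∃ j : ιv, i = Sum.inl j) :
    S36TI_Geo hS (S36CU_U S k j x₁ x₂ x₃ n hn) X hC Kp := by
  have hR₁ : ∀ y : Fk₁, y ∈ (S36CU_U S k j x₁ x₂ x₃ n hn).Rb₁ ↔
      ∀ Q : Place k Fk₁, Q.adicValuation x₁ ≤ 1 → Q.adicValuation y ≤ 1 :=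
    fun y => S36CU_mem_reg_adic
  have hR₂ : ∀ y : Fk₂, y ∈ (S36CU_U S k j x₁ x₂ x₃ n hn).Rb₂ ↔
      ∀ Q : Place k Fk₂, Q.adicValuation x₂ ≤ 1 → Q.adicValuation y ≤ 1 :=
    fun y => S36CU_mem_reg_adic
  have hR₃ : ∀ y : Fk₃, y ∈ (S36CU_U S k j x₁ x₂ x₃ n hn).Rb₃ ↔
      ∀ Q : Place k Fk₃, Q.adicValuation x₃ ≤ 1 → Q.adicValuation y ≤ 1 :=
    fun y => S36CU_mem_reg_adic
  exact S36TI_Geo.ofPlaces hS hKp h₁ h₂ h₃ x₁ x₂ x₃ c₁ c₂ c₃ hc₁ hc₂ hc₃ hR₁ hR₂ hR₃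
    hx₁ hx₂ hx₃ hW1 hint₁ hint₂ hint₃ hsep
    (S36TI_pl₁ hS D hle R hOv hfrac x₁ h₁.deg_one hR₁ hB₁ hKp hsepH hsepH0)
    (S36TI_pl₂ hS D hle R hOv hfrac x₂ h₂.deg_one hR₂ hB₂ hKp hsepH hsepH0)
    (S36TI_pl₃ hS D hle R hOv hfrac x₃ h₃.deg_one hR₃ hB₃ hKp hsepH hsepH0)

end Fermat.Agent.S36
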