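import Fermat.Agent.S36.ChartTransferPl
import Fermat.Agent.S36.Triv3Conc

/-!
# TRACK 10 (S36), T'-TRANSFER part 3 (helper2): the geometric inputs of the chart `U'`

Prefix `S36CX_`.  The companion of helper11's `S36TX_geo_U` (S36/Triv3Conc.lean):

`S36CX_geo_U'` : **`S36TI_Geo` on helper23's chart `S36CU_U' S k j c z₁ z₂ z₃ n hn`**
(`U' = {j ≠ c}`, `z_j = x_j − c₀`, `Rb_j = S34SB_regZ k z_j`) from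

* `G` : `S36TI_Geo` on the chart `U` (`S36TX_geo_U`);
* `g = (j − c)⁻¹ ∈ O₃` with reductions `(x_j − c₀)⁻¹` (helper23 `S36CO_hsO_B`, `S36CO_red_inv`);
* RBAR for the coordinates `x_j' = (x_j − c₀)⁻¹`;
* `hW1` on `U''`, `hint₁ hint₂ hint₃` on `U'` (NODAL3-INST);
* (LI) at the CUSP places only: `hcusp₁`, `hcusp₃` (`S36CL_hcusp₁/₃`, S36/CuspLiUnr.lean),
  `hcusp₂` (helper27).
-/

set_option autoImplicit false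
set_option linter.unusedSectionVars false
set_option linter.style.haveILetI false

open AlgebraicCurve IntermediateField

namespace Fermat.Agent.S36

open Fermat.Agent.Lib Fermat.Agent.S18 Fermat.Agent.S34

variable {K F H : Type*} [Field K] [Field F] [Algebra K F] (S : S36FL_Act K F H)
  {k Fk₁ Fk₂ Fk₃ : Type*} [Field k]
  [Field Fk₁] [Field Fk₂] [Field Fk₃] [Algebra k Fk₁] [Algebra k Fk₂] [Algebra k Fk₃]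
  {S₁ : S18_Val ↥S.fixK ↥S.fixF k Fk₁} {S₂ : S18_Val ↥S.fixK ↥S.fixF k Fk₂}
  {S₃ : S18_Val ↥S.fixK ↥S.fixF k Fk₃}

/-- a transcendental element is not zero. -/
theorem S36CX_ne_zero_of_transc {κ : Type*} [Field κ] [Algebra k κ] {z : κ}
    (h : Transcendental k z⁻¹) : z ≠ 0 := by
  rintro rfl
  rw [inv_zero] at h
  exact h (isAlgebraic_zero)

/-- **the geometric inputs of the chart `U' = {j ≠ c}`** (helper23's `S36CU_U'`). -/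
theorem S36CX_geo_U' (hS : S36L3_Same S₁ S₂ S₃) [IsAlgClosed k]
    (hPKF : HasPrincipalDivisors K F)
    (j : ↥S.fixF) (c : ↥S.fixK) (c₀ : k) (x₁ : Fk₁) (x₂ : Fk₂) (x₃ : Fk₃) (n : ℕ) (hn : 0 < n)
    {ι : Type*} {X : S36SE_Pts k Fk₁ Fk₂ Fk₃ ι}
    (hX : S36SE_Reg (S36CU_U'' S k j c x₁ x₂ x₃ (x₁ - algebraMap k Fk₁ c₀)
      (x₂ - algebraMap k Fk₂ c₀) (x₃ - algebraMap k Fk₃ c₀) n hn) X)
    {Kp : Subgroup (↥S.fixF)ˣ} (hKp : Kp ≤ S36L3_NormGrp S₁ S₂ S₃)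
    -- the function `g = (j − c)⁻¹`
    (g : S36L3_O3 S₁ S₂ S₃)
    (hg : ((g : ↥S.fixF) : F) = ((j : F) - algebraMap K F (c : K))⁻¹)
    (hr₁ : (S36L3_red S₁ S₂ S₃ g).1 = (x₁ - algebraMap k Fk₁ c₀)⁻¹)
    (hr₂ : (S36L3_red S₁ S₂ S₃ g).2.1 = (x₂ - algebraMap k Fk₂ c₀)⁻¹)
    (hr₃ : (S36L3_red S₁ S₂ S₃ g).2.2 = (x₃ - algebraMap k Fk₃ c₀)⁻¹)
    -- RBAR
    (h₁ : RR_Hyp k Fk₁) (h₂ : RR_Hyp k Fk₂) (h₃ : RR_Hyp k Fk₃)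
    (c₁ : Place k Fk₁) (c₂ : Place k Fk₂) (c₃ : Place k Fk₃)
    (hc₁ : c₁.ord (x₁ - algebraMap k Fk₁ c₀)⁻¹ < 0)
    (hc₂ : c₂.ord (x₂ - algebraMap k Fk₂ c₀)⁻¹ < 0)
    (hc₃ : c₃.ord (x₃ - algebraMap k Fk₃ c₀)⁻¹ < 0)
    (hx₁ : Transcendental k (x₁ - algebraMap k Fk₁ c₀)⁻¹)
    (hx₂ : Transcendental k (x₂ - algebraMap k Fk₂ c₀)⁻¹)
    (hx₃ : Transcendental k (x₃ - algebraMap k Fk₃ c₀)⁻¹)
    [FiniteDimensional k⟮(x₁ - algebraMap k Fk₁ c₀)⁻¹⟯ Fk₁]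
    [Algebra.IsSeparable k⟮(x₁ - algebraMap k Fk₁ c₀)⁻¹⟯ Fk₁]
    [FiniteDimensional k⟮(x₂ - algebraMap k Fk₂ c₀)⁻¹⟯ Fk₂]
    [Algebra.IsSeparable k⟮(x₂ - algebraMap k Fk₂ c₀)⁻¹⟯ Fk₂]
    [FiniteDimensional k⟮(x₃ - algebraMap k Fk₃ c₀)⁻¹⟯ Fk₃]
    [Algebra.IsSeparable k⟮(x₃ - algebraMap k Fk₃ c₀)⁻¹⟯ Fk₃]
    -- NODAL3-INST
    (hW1 : ∀ m ∈ S36L3_W hS (S36CU_U'' S k j c x₁ x₂ x₃ (x₁ - algebraMap k Fk₁ c₀)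
        (x₂ - algebraMap k Fk₂ c₀) (x₃ - algebraMap k Fk₃ c₀) n hn) 1, ∀ y,
      S36SE_e₁ _ X hX y m.1 = S36SE_e₂ _ X hX y m.2.1 ∧
      S36SE_e₁ _ X hX y m.1 = S36SE_e₃ _ X hX y m.2.2)
    (hint₁ : ∀ a a' : ↥(S36CU_U' S k j c (x₁ - algebraMap k Fk₁ c₀)
        (x₂ - algebraMap k Fk₂ c₀) (x₃ - algebraMap k Fk₃ c₀) n hn).Rb₁,
      (∀ y, S36SE_e₁ _ X (hX.of_le (S36CU_le' S k j c x₁ x₂ x₃ _ _ _ n hn)) y a = 0) →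
      (∀ y, S36SE_e₁ _ X (hX.of_le (S36CU_le' S k j c x₁ x₂ x₃ _ _ _ n hn)) y a' = 0) →
      ((a * a', 0, 0) : _ × _ × _) ∈ S36L3_W hS (S36CU_U' S k j c
        (x₁ - algebraMap k Fk₁ c₀) (x₂ - algebraMap k Fk₂ c₀) (x₃ - algebraMap k Fk₃ c₀) n hn) 1)
    (hint₂ : ∀ a a' : ↥(S36CU_U' S k j c (x₁ - algebraMap k Fk₁ c₀)
        (x₂ - algebraMap k Fk₂ c₀) (x₃ - algebraMap k Fk₃ c₀) n hn).Rb₂,
      (∀ y, S36SE_e₂ _ X (hX.of_le (S36CU_le' S k j c x₁ x₂ x₃ _ _ _ n hn)) y a = 0) →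
      (∀ y, S36SE_e₂ _ X (hX.of_le (S36CU_le' S k j c x₁ x₂ x₃ _ _ _ n hn)) y a' = 0) →
      ((0, a * a', 0) : _ × _ × _) ∈ S36L3_W hS (S36CU_U' S k j c
        (x₁ - algebraMap k Fk₁ c₀) (x₂ - algebraMap k Fk₂ c₀) (x₃ - algebraMap k Fk₃ c₀) n hn) 1)
    (hint₃ : ∀ a a' : ↥(S36CU_U' S k j c (x₁ - algebraMap k Fk₁ c₀)
        (x₂ - algebraMap k Fk₂ c₀) (x₃ - algebraMap k Fk₃ c₀) n hn).Rb₃,
      (∀ y, S36SE_e₃ _ X (hX.of_le (S36CU_le' S k j c x₁ x₂ x₃ _ _ _ n hn)) y a = 0) →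
      (∀ y, S36SE_e₃ _ X (hX.of_le (S36CU_le' S k j c x₁ x₂ x₃ _ _ _ n hn)) y a' = 0) →
      ((0, 0, a * a') : _ × _ × _) ∈ S36L3_W hS (S36CU_U' S k j c
        (x₁ - algebraMap k Fk₁ c₀) (x₂ - algebraMap k Fk₂ c₀) (x₃ - algebraMap k Fk₃ c₀) n hn) 1)
    -- the chart `U`
    (G : S36TI_Geo hS (S36CU_U S k j x₁ x₂ x₃ n hn) X
      (hX.of_le (S36CU_le S k j c x₁ x₂ x₃ _ _ _ n hn)) Kp)
    -- (LI) at the cusps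
    (hcusp₁ : ∀ u ∈ Kp, ∀ P : Place k Fk₁, ¬ P.adicValuation x₁ ≤ 1 →
      P.adicValuation (x₁ - algebraMap k Fk₁ c₀)⁻¹ ≤ 1 →
      ∃ m ∈ S36L3_W hS (S36CU_U' S k j c (x₁ - algebraMap k Fk₁ c₀)
        (x₂ - algebraMap k Fk₂ c₀) (x₃ - algebraMap k Fk₃ c₀) n hn) ((u : (↥S.fixF)ˣ) : ↥S.fixF),
        FD_c0 P ((m.1 : ↥(S34SB_regZ k (x₁ - algebraMap k Fk₁ c₀))) : Fk₁) ≠ 0)
    (hcusp₂ : ∀ u ∈ Kp, ∀ P : Place k Fk₂, ¬ P.adicValuation x₂ ≤ 1 →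
      P.adicValuation (x₂ - algebraMap k Fk₂ c₀)⁻¹ ≤ 1 →
      ∃ m ∈ S36L3_W hS (S36CU_U' S k j c (x₁ - algebraMap k Fk₁ c₀)
        (x₂ - algebraMap k Fk₂ c₀) (x₃ - algebraMap k Fk₃ c₀) n hn) ((u : (↥S.fixF)ˣ) : ↥S.fixF),
        FD_c0 P ((m.2.1 : ↥(S34SB_regZ k (x₂ - algebraMap k Fk₂ c₀))) : Fk₂) ≠ 0)
    (hcusp₃ : ∀ u ∈ Kp, ∀ P : Place k Fk₃, ¬ P.adicValuation x₃ ≤ 1 →
      P.adicValuation (x₃ - algebraMap k Fk₃ c₀)⁻¹ ≤ 1 →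
      ∃ m ∈ S36L3_W hS (S36CU_U' S k j c (x₁ - algebraMap k Fk₁ c₀)
        (x₂ - algebraMap k Fk₂ c₀) (x₃ - algebraMap k Fk₃ c₀) n hn) ((u : (↥S.fixF)ˣ) : ↥S.fixF),
        FD_c0 P ((m.2.2 : ↥(S34SB_regZ k (x₃ - algebraMap k Fk₃ c₀))) : Fk₃) ≠ 0) :
    S36TI_Geo hS (S36CU_U' S k j c (x₁ - algebraMap k Fk₁ c₀) (x₂ - algebraMap k Fk₂ c₀)
      (x₃ - algebraMap k Fk₃ c₀) n hn) X
      (hX.of_le (S36CU_le' S k j c x₁ x₂ x₃ _ _ _ n hn)) Kp := by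
  have hz₁ := S36CX_ne_zero_of_transc hx₁
  have hz₂ := S36CX_ne_zero_of_transc hx₂
  have hz₃ := S36CX_ne_zero_of_transc hx₃
  have hxy₁ : ∀ y, (X.P₁ y).adicValuation x₁ ≤ 1 := fun y =>
    hX.reg₁ y x₁ (S36CU_self_mem_reg2 x₁ _)
  exact S36CX_geo_of_geo hS (S36CU_le S k j c x₁ x₂ x₃ _ _ _ n hn)
    (S36CU_le' S k j c x₁ x₂ x₃ _ _ _ n hn) X hX hKp
    (S36CX_kill_conc S hPKF h₁.principal h₂.principal h₃.principal j c c₀ x₁ x₂ x₃ n hn g hg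
      hr₁ hr₂ hr₃)
    h₁ h₂ h₃ x₁ _ x₂ _ x₃ _ c₁ c₂ c₃ hc₁ hc₂ hc₃
    (fun f hf => S36CU_mem_reg_adic.1 hf) (fun f hf => S36CU_mem_reg_adic.1 hf)
    (fun f hf => S36CU_mem_reg_adic.1 hf)
    (fun _ => S36CU_mem_regZ_adic) (fun _ => S36CU_mem_regZ_adic) (fun _ => S36CU_mem_regZ_adic)
    hx₁ hx₂ hx₃ hr₁ hr₂ hr₃
    (fun Q hQ hQ' => S36CX_hunit x₁ c₀ hz₁ Q hQ hQ')
    (fun Q hQ hQ' => S36CX_hunit x₂ c₀ hz₂ Q hQ hQ')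
    (fun Q hQ hQ' => S36CX_hunit x₃ c₀ hz₃ Q hQ hQ')
    hxy₁ hW1 hint₁ hint₂ hint₃ G hcusp₁ hcusp₂ hcusp₃

end Fermat.Agent.S36
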