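import Fermat.Agent.S36.Triv3
import Fermat.Agent.S36.Spec3Pts
import Fermat.Agent.S18.SemiReg

/-!
# TRACK 10 (S36), TRIV-INST part 1 (helper11): closed points of a component = affine places

`K` an algebraically closed field, `F / K` a function field with `h : RR_Hyp K F`, `x ∈ F`
transcendental with `F / K(x)` finite separable and a pole at `c₀`, `R ⊂ F` the ring of the
functions regular where `x` is regular (`hR`).

* `S36TP_isIntegral`   : `R` is integral over `K[x]`;
* `S36TP_max_place`    : **every maximal ideal of `R` is the ideal of an affine place `P`**: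
  `f ∈ 𝔫 ↔ FD_c0 P f = 0` (Nullstellensatz `S36TV_exists_point` + SPEC3 `S36SP_pt_surjective`);
* `S36TP_li_of_places` : (LI) at all affine places ⇒ (LI) at all maximal ideals — the shape of
  the fields `h₁ h₂ h₃` of `S36TL_Chart` / of `S36G_Datum.one_mem_W_of_max`.
-/

set_option autoImplicit false
set_option linter.unusedSectionVars false
set_option linter.style.haveILetI false

open AlgebraicCurve IntermediateField

namespace Fermat.Agent.S36

open Fermat.Agent.Lib Fermat.Agent.S18

variable {K F : Type*} [Field K] [Field F] [Algebra K F]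

section Points

variable [IsAlgClosed K] (h : RR_Hyp K F) (x : F) (c₀ : Place K F) (hc₀ : c₀.ord x < 0)
  (R : Subalgebra K F)
  (hR : ∀ y : F, y ∈ R ↔ ∀ Q : Place K F, Q.adicValuation x ≤ 1 → Q.adicValuation y ≤ 1)
  (hx : Transcendental K x) [FiniteDimensional K⟮x⟯ F] [Algebra.IsSeparable K⟮x⟯ F]

include hR in
theorem S36TP_adjoin_le : Algebra.adjoin K ({x} : Set F) ≤ R := by
  rw [Algebra.adjoin_le_iff]
  intro y hy
  rw [Set.mem_singleton_iff] at hy
  subst hy
  exact S36SP_x_mem _ R hR

include hR hx in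
/-- `R` is integral over `K[x]`. -/
theorem S36TP_isIntegral (f : F) (hf : f ∈ R) :
    IsIntegral (Algebra.adjoin K ({x} : Set F)) f := by
  apply S18_semi_isIntegral_of_regular hx f
  intro P hP
  have hx0 : x ≠ 0 := fun h0 => hx (h0 ▸ isAlgebraic_zero)
  have h1 : P.adicValuation x ≤ 1 := by
    rw [P.adicValuation_le_one_iff]
    exact Or.inr hP
  have h2 := (hR f).1 hf P h1
  rw [P.adicValuation_le_one_iff] at h2
  rcases h2 with h2 | h2
  · rw [h2, Place.ord_zero]
  · exact h2

include h hc₀ hR hx in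
/-- **every maximal ideal of the coordinate ring is the ideal of an affine place**. -/
theorem S36TP_max_place (𝔫 : Ideal R) (h𝔫 : 𝔫.IsMaximal) :
    ∃ (P : Place K F) (_ : P.adicValuation x ≤ 1), ∀ f : R, f ∈ 𝔫 ↔ FD_c0 P (f : F) = 0 := by
  have hle := S36TP_adjoin_le x R hR
  letI : Algebra (Algebra.adjoin K ({x} : Set F)) R := (Subalgebra.inclusion hle).toRingHom.toAlgebra
  haveI : IsScalarTower K (Algebra.adjoin K ({x} : Set F)) R :=
    IsScalarTower.of_algebraMap_eq (fun c => by
      show algebraMap K R c = Subalgebra.inclusion hle (algebraMap K _ c)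
      rfl)
  haveI : IsScalarTower (Algebra.adjoin K ({x} : Set F)) R F :=
    IsScalarTower.of_algebraMap_eq (fun a => rfl)
  haveI : Algebra.FiniteType K (Algebra.adjoin K ({x} : Set F)) :=
    Algebra.FiniteType.adjoin_of_finite (Set.finite_singleton x)
  haveI : Algebra.IsIntegral (Algebra.adjoin K ({x} : Set F)) R := by
    refine ⟨fun f => ?_⟩
    have h1 := S36TP_isIntegral x R hR hx (f : F) f.2
    exact (isIntegral_algebraMap_iff (A := R) (B := F) Subtype.val_injective).1 h1
  obtain ⟨e, he⟩ := S36TV_exists_point (k := K) (Algebra.adjoin K ({x} : Set F)) 𝔫 h𝔫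
  obtain ⟨P, hP, hPe⟩ := S36SP_pt_surjective h x c₀ hc₀ R hR e
  refine ⟨P, hP, fun f => ?_⟩
  rw [← he f, hPe f]

include h hc₀ hR hx in
/-- **(LI) at all affine places ⇒ (LI) at all maximal ideals**: `W` any set of elements of a
type `X`, `pr : X → R` the projection to the component. -/
theorem S36TP_li_of_places {X : Type*} (W : Set X) (pr : X → R)
    (hli : ∀ P : Place K F, P.adicValuation x ≤ 1 → ∃ m ∈ W, FD_c0 P ((pr m : R) : F) ≠ 0) :
    ∀ 𝔫 : Ideal R, 𝔫.IsMaximal → ∃ m ∈ W, pr m ∉ 𝔫 := by
  intro 𝔫 h𝔫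
  obtain ⟨P, hP, hPn⟩ := S36TP_max_place h x c₀ hc₀ R hR hx 𝔫 h𝔫
  obtain ⟨m, hm, hne⟩ := hli P hP
  exact ⟨m, hm, fun hmem => hne ((hPn _).1 hmem)⟩

end Points

end Fermat.Agent.S36
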