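import Fermat.Agent.S36.Triv3Inst
import Fermat.Agent.S36.Triv3Pts
import Fermat.Agent.S36.LiWire

/-!
# TRACK 10 (S36), C3.4 TRIV-INST part 3 (helper11): (LI) wired into the geometric inputs

The fields `li`, `h₁ h₂ h₃` of `S36TI_Geo` (S36/Triv3Inst.lean) from (LI) at the AFFINE PLACES
of the three components, and (LI) at the affine places from the CART bundles (helper5) through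
helper19's `S36LK_point₁/₂/₃`.

* `S36TI_li_of_fst` : (LI) on the FIRST branch at the triple points ⇒ `li` (all three branch
  values are non-zero), by `hW1` applied to the `n`-th power;
* `S36TI_Geo.ofPlaces` : `S36TI_Geo` from `hint₁ hint₂ hint₃`, `hsep` and
  `hpl_j : ∀ u ∈ Kp, ∀ P affine, ∃ m ∈ W^u, m_j(P) ≠ 0` (`k` algebraically closed, `Rb_j` the ring
  of the functions regular where `x_j` is regular — Nullstellensatz `S36TP_li_of_places`);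
* `S36TI_pl₁`, `S36TI_pl₂`, `S36TI_pl₃` : `hpl_j` from the CART bundles at the affine places
  (`S36LK_point_j` with `e := S36SE_ev Rb_j P`) and SEP-H.
-/

set_option autoImplicit false
set_option linter.unusedSectionVars false
set_option linter.style.haveILetI false

open AlgebraicCurve IntermediateField

namespace Fermat.Agent.S36

open Fermat.Agent.Lib Fermat.Agent.S18 Fermat.Agent.S34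

universe w

variable {L K k Fk₁ Fk₂ Fk₃ : Type*} [Field L] [Field K] [Algebra L K] [Field k]
  [Field Fk₁] [Field Fk₂] [Field Fk₃] [Algebra k Fk₁] [Algebra k Fk₂] [Algebra k Fk₃]
  {S₁ : S18_Val L K k Fk₁} {S₂ : S18_Val L K k Fk₂} {S₃ : S18_Val L K k Fk₃}
  (hS : S36L3_Same S₁ S₂ S₃) {n : ℕ} {C : S36L3_Chart L K k Fk₁ Fk₂ Fk₃ n}

/-- **(LI) on the first branch ⇒ `li`**: for a normalised `u` the `n`-th power of a member of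
`W^u` lies in `W^1`, whose three branch values agree. -/
theorem S36TI_li_of_fst {ι : Type*} (e₁ : ι → ↥C.Rb₁ →ₐ[k] k) (e₂ : ι → ↥C.Rb₂ →ₐ[k] k)
    (e₃ : ι → ↥C.Rb₃ →ₐ[k] k)
    (hW1 : ∀ m ∈ S36L3_W hS C 1, ∀ y, e₁ y m.1 = e₂ y m.2.1 ∧ e₁ y m.1 = e₃ y m.2.2)
    {Kp : Subgroup Kˣ} (hKp : Kp ≤ S36L3_NormGrp S₁ S₂ S₃)
    (h : ∀ u ∈ Kp, ∀ y, ∃ m ∈ S36L3_W hS C ((u : Kˣ) : K), e₁ y m.1 ≠ 0) :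
    ∀ u ∈ Kp, ∀ y, ∃ m ∈ S36L3_W hS C ((u : Kˣ) : K),
      e₁ y m.1 ≠ 0 ∧ e₂ y m.2.1 ≠ 0 ∧ e₃ y m.2.2 ≠ 0 := by
  intro u hu y
  obtain ⟨m, hm, hne⟩ := h u hu y
  have hpow := S36L3_pow_mem_W hS C ((S36L3_mem_NormGrp S₁ S₂ S₃).1 (hKp hu)) hm
  obtain ⟨h2, h3⟩ := hW1 _ hpow y
  have p1 : (m ^ n).1 = m.1 ^ n := rfl
  have p2 : (m ^ n).2.1 = m.2.1 ^ n := rfl
  have p3 : (m ^ n).2.2 = m.2.2 ^ n := rfl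
  rw [p1, p2, map_pow, map_pow] at h2
  rw [p1, p3, map_pow, map_pow] at h3
  have hn0 : e₁ y m.1 ^ n ≠ 0 := pow_ne_zero n hne
  refine ⟨m, hm, hne, fun h0 => hn0 ?_, fun h0 => hn0 ?_⟩
  · rw [h2, h0, zero_pow C.hn.ne']
  · rw [h3, h0, zero_pow C.hn.ne']

/-- **the geometric inputs of a chart from (LI) at the affine places** of the three
components. -/
theorem S36TI_Geo.ofPlaces [IsAlgClosed k] {ι : Type*}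
    {X : S36SE_Pts k Fk₁ Fk₂ Fk₃ ι} {hC : S36SE_Reg C X} {Kp : Subgroup Kˣ}
    (hKp : Kp ≤ S36L3_NormGrp S₁ S₂ S₃)
    (h₁ : RR_Hyp k Fk₁) (h₂ : RR_Hyp k Fk₂) (h₃ : RR_Hyp k Fk₃)
    (x₁ : Fk₁) (x₂ : Fk₂) (x₃ : Fk₃)
    (c₁ : Place k Fk₁) (c₂ : Place k Fk₂) (c₃ : Place k Fk₃)
    (hc₁ : c₁.ord x₁ < 0) (hc₂ : c₂.ord x₂ < 0) (hc₃ : c₃.ord x₃ < 0)
    (hR₁ : ∀ y : Fk₁, y ∈ C.Rb₁ ↔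
      ∀ Q : Place k Fk₁, Q.adicValuation x₁ ≤ 1 → Q.adicValuation y ≤ 1)
    (hR₂ : ∀ y : Fk₂, y ∈ C.Rb₂ ↔
      ∀ Q : Place k Fk₂, Q.adicValuation x₂ ≤ 1 → Q.adicValuation y ≤ 1)
    (hR₃ : ∀ y : Fk₃, y ∈ C.Rb₃ ↔
      ∀ Q : Place k Fk₃, Q.adicValuation x₃ ≤ 1 → Q.adicValuation y ≤ 1)
    (hx₁ : Transcendental k x₁) (hx₂ : Transcendental k x₂) (hx₃ : Transcendental k x₃)
    [FiniteDimensional k⟮x₁⟯ Fk₁] [Algebra.IsSeparable k⟮x₁⟯ Fk₁]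
    [FiniteDimensional k⟮x₂⟯ Fk₂] [Algebra.IsSeparable k⟮x₂⟯ Fk₂]
    [FiniteDimensional k⟮x₃⟯ Fk₃] [Algebra.IsSeparable k⟮x₃⟯ Fk₃]
    (hW1 : ∀ m ∈ S36L3_W hS C 1, ∀ y, S36SE_e₁ C X hC y m.1 = S36SE_e₂ C X hC y m.2.1 ∧
      S36SE_e₁ C X hC y m.1 = S36SE_e₃ C X hC y m.2.2)
    (hint₁ : ∀ g g' : ↥C.Rb₁, (∀ y, S36SE_e₁ C X hC y g = 0) →
      (∀ y, S36SE_e₁ C X hC y g' = 0) →
      ((g * g', 0, 0) : ↥C.Rb₁ × ↥C.Rb₂ × ↥C.Rb₃) ∈ S36L3_W hS C 1)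
    (hint₂ : ∀ g g' : ↥C.Rb₂, (∀ y, S36SE_e₂ C X hC y g = 0) →
      (∀ y, S36SE_e₂ C X hC y g' = 0) →
      ((0, g * g', 0) : ↥C.Rb₁ × ↥C.Rb₂ × ↥C.Rb₃) ∈ S36L3_W hS C 1)
    (hint₃ : ∀ g g' : ↥C.Rb₃, (∀ y, S36SE_e₃ C X hC y g = 0) →
      (∀ y, S36SE_e₃ C X hC y g' = 0) →
      ((0, 0, g * g') : ↥C.Rb₁ × ↥C.Rb₂ × ↥C.Rb₃) ∈ S36L3_W hS C 1)
    (hsep : ∀ y, ∃ w ∈ S36L3_W hS C 1, S36SE_e₁ C X hC y w.1 = 1 ∧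
      ∀ y', y' ≠ y → S36SE_e₁ C X hC y' w.1 = 0)
    (hpl₁ : ∀ u ∈ Kp, ∀ P : Place k Fk₁, P.adicValuation x₁ ≤ 1 →
      ∃ m ∈ S36L3_W hS C ((u : Kˣ) : K), FD_c0 P ((m.1 : ↥C.Rb₁) : Fk₁) ≠ 0)
    (hpl₂ : ∀ u ∈ Kp, ∀ P : Place k Fk₂, P.adicValuation x₂ ≤ 1 →
      ∃ m ∈ S36L3_W hS C ((u : Kˣ) : K), FD_c0 P ((m.2.1 : ↥C.Rb₂) : Fk₂) ≠ 0)
    (hpl₃ : ∀ u ∈ Kp, ∀ P : Place k Fk₃, P.adicValuation x₃ ≤ 1 →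
      ∃ m ∈ S36L3_W hS C ((u : Kˣ) : K), FD_c0 P ((m.2.2 : ↥C.Rb₃) : Fk₃) ≠ 0) :
    S36TI_Geo hS C X hC Kp where
  li := by
    refine S36TI_li_of_fst hS (S36SE_e₁ C X hC) (S36SE_e₂ C X hC) (S36SE_e₃ C X hC) hW1 hKp ?_
    intro u hu y
    have hx : (X.P₁ y).adicValuation x₁ ≤ 1 :=
      hC.reg₁ y x₁ (S36SP_x_mem x₁ C.Rb₁ hR₁)
    exact hpl₁ u hu (X.P₁ y) hx
  hint₁ := hint₁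
  hint₂ := hint₂
  hint₃ := hint₃
  hsep := hsep
  h₁ := fun u hu =>
    S36TP_li_of_places h₁ x₁ c₁ hc₁ C.Rb₁ hR₁ hx₁
      (↑(S36L3_W hS C ((u : Kˣ) : K)) : Set (↥C.Rb₁ × ↥C.Rb₂ × ↥C.Rb₃)) (fun m => m.1)
      (hpl₁ u hu)
  h₂ := fun u hu =>
    S36TP_li_of_places h₂ x₂ c₂ hc₂ C.Rb₂ hR₂ hx₂
      (↑(S36L3_W hS C ((u : Kˣ) : K)) : Set (↥C.Rb₁ × ↥C.Rb₂ × ↥C.Rb₃)) (fun m => m.2.1)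
      (hpl₂ u hu)
  h₃ := fun u hu =>
    S36TP_li_of_places h₃ x₃ c₃ hc₃ C.Rb₃ hR₃ hx₃
      (↑(S36L3_W hS C ((u : Kˣ) : K)) : Set (↥C.Rb₁ × ↥C.Rb₂ × ↥C.Rb₃)) (fun m => m.2.2)
      (hpl₃ u hu)

/-! ### (LI) at the affine places from the CART bundles -/

section bundles

variable {Ω F : Type*} [Field Ω] [Field F] [Algebra Ω F] {ιv : Type*} (D : S36IT_Fam Ω F K ιv)

/-- (LI) at the affine places of `FF` from the CART bundles. -/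
theorem S36TI_pl₁ [Finite ιv] [IsNoetherianRing D.Λ]
    (hle : D.Λ ≤ S36LJ_Lam S₁ S₂ S₃ C.B.toSubring)
    (R : S36LJ_Red (S₁ := S₁) (S₂ := S₂) (S₃ := S₃) C)
    (hOv : ∀ i : ιv, D.Ov i = S₁.O ∨ D.Ov i = S₂.O ∨ D.Ov i = S₃.O)
    (hfrac : ∀ x : K, ∃ b : D.Λ, (b : K) ≠ 0 ∧ (b : K) * x ∈ D.Λ)
    (x₁ : Fk₁) (hdeg : ∀ P : Place k Fk₁, P.deg = 1)
    (hR₁ : ∀ y : Fk₁, y ∈ C.Rb₁ ↔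
      ∀ Q : Place k Fk₁, Q.adicValuation x₁ ≤ 1 → Q.adicValuation y ≤ 1)
    (hB : ∀ (P : Place k Fk₁) (hP : ∀ f ∈ C.Rb₁, P.adicValuation f ≤ 1),
      ∃ (κ : Type w) (_ : Field κ) (B : S36CA_LiData D.O ⊤ D.Λ
        (S36LK_y₁ D hle R ((S36SE_ev C.Rb₁ P (hdeg P) hP : ↥C.Rb₁ →ₐ[k] k) : ↥C.Rb₁ →+* k)) κ),
        (∀ i : ιv, Sum.inl i ∈ S36IT_thruVS D.O D.Λ
          (S36LK_y₁ D hle R ((S36SE_ev C.Rb₁ P (hdeg P) hP : ↥C.Rb₁ →ₐ[k] k) : ↥C.Rb₁ →+* k)) →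
            Sum.inl i ∈ B.Vt) ∧ ∀ i ∈ B.Vt, ∃ j : ιv, i = Sum.inl j)
    {Kp : Subgroup Kˣ} (hKp : Kp ≤ S36L3_NormGrp S₁ S₂ S₃)
    (hsep : ∀ u ∈ Kp, ∀ Q ∈ D.U, ∃ g : K, g ≠ 0 ∧
      (n : ℤ) * Q.ord (D.φ g) + Q.ord (D.φ ((u : Kˣ) : K)) = 0 ∧
      ∀ Q' ∈ D.U, 0 ≤ (n : ℤ) * Q'.ord (D.φ g) + Q'.ord (D.φ ((u : Kˣ) : K)))
    (hsep0 : ∀ u ∈ Kp, ∃ g : K, g ≠ 0 ∧
      ∀ Q' ∈ D.U, 0 ≤ (n : ℤ) * Q'.ord (D.φ g) + Q'.ord (D.φ ((u : Kˣ) : K))) :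
    ∀ u ∈ Kp, ∀ P : Place k Fk₁, P.adicValuation x₁ ≤ 1 →
      ∃ m ∈ S36L3_W hS C ((u : Kˣ) : K), FD_c0 P ((m.1 : ↥C.Rb₁) : Fk₁) ≠ 0 := by
  intro u hu P hP
  have hP' : ∀ f ∈ C.Rb₁, P.adicValuation f ≤ 1 := fun f hf => (hR₁ f).1 hf P hP
  obtain ⟨κ, _, B, hVt, hVtv⟩ := hB P hP'
  exact S36LK_point₁ hS D hle R hOv hfrac
    ((S36SE_ev C.Rb₁ P (hdeg P) hP' : ↥C.Rb₁ →ₐ[k] k) : ↥C.Rb₁ →+* k) B hVt hVtv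
    ((S36L3_mem_NormGrp S₁ S₂ S₃).1 (hKp hu)) (hsep u hu) (hsep0 u hu)

/-- (LI) at the affine places of `FV` from the CART bundles. -/
theorem S36TI_pl₂ [Finite ιv] [IsNoetherianRing D.Λ]
    (hle : D.Λ ≤ S36LJ_Lam S₁ S₂ S₃ C.B.toSubring)
    (R : S36LJ_Red (S₁ := S₁) (S₂ := S₂) (S₃ := S₃) C)
    (hOv : ∀ i : ιv, D.Ov i = S₁.O ∨ D.Ov i = S₂.O ∨ D.Ov i = S₃.O)
    (hfrac : ∀ x : K, ∃ b : D.Λ, (b : K) ≠ 0 ∧ (b : K) * x ∈ D.Λ)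
    (x₂ : Fk₂) (hdeg : ∀ P : Place k Fk₂, P.deg = 1)
    (hR₂ : ∀ y : Fk₂, y ∈ C.Rb₂ ↔
      ∀ Q : Place k Fk₂, Q.adicValuation x₂ ≤ 1 → Q.adicValuation y ≤ 1)
    (hB : ∀ (P : Place k Fk₂) (hP : ∀ f ∈ C.Rb₂, P.adicValuation f ≤ 1),
      ∃ (κ : Type w) (_ : Field κ) (B : S36CA_LiData D.O ⊤ D.Λ
        (S36LK_y₂ D hle R ((S36SE_ev C.Rb₂ P (hdeg P) hP : ↥C.Rb₂ →ₐ[k] k) : ↥C.Rb₂ →+* k)) κ),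
        (∀ i : ιv, Sum.inl i ∈ S36IT_thruVS D.O D.Λ
          (S36LK_y₂ D hle R ((S36SE_ev C.Rb₂ P (hdeg P) hP : ↥C.Rb₂ →ₐ[k] k) : ↥C.Rb₂ →+* k)) →
            Sum.inl i ∈ B.Vt) ∧ ∀ i ∈ B.Vt, ∃ j : ιv, i = Sum.inl j)
    {Kp : Subgroup Kˣ} (hKp : Kp ≤ S36L3_NormGrp S₁ S₂ S₃)
    (hsep : ∀ u ∈ Kp, ∀ Q ∈ D.U, ∃ g : K, g ≠ 0 ∧
      (n : ℤ) * Q.ord (D.φ g) + Q.ord (D.φ ((u : Kˣ) : K)) = 0 ∧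
      ∀ Q' ∈ D.U, 0 ≤ (n : ℤ) * Q'.ord (D.φ g) + Q'.ord (D.φ ((u : Kˣ) : K)))
    (hsep0 : ∀ u ∈ Kp, ∃ g : K, g ≠ 0 ∧
      ∀ Q' ∈ D.U, 0 ≤ (n : ℤ) * Q'.ord (D.φ g) + Q'.ord (D.φ ((u : Kˣ) : K))) :
    ∀ u ∈ Kp, ∀ P : Place k Fk₂, P.adicValuation x₂ ≤ 1 →
      ∃ m ∈ S36L3_W hS C ((u : Kˣ) : K), FD_c0 P ((m.2.1 : ↥C.Rb₂) : Fk₂) ≠ 0 := by
  intro u hu P hP
  have hP' : ∀ f ∈ C.Rb₂, P.adicValuation f ≤ 1 := fun f hf => (hR₂ f).1 hf P hP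
  obtain ⟨κ, _, B, hVt, hVtv⟩ := hB P hP'
  exact S36LK_point₂ hS D hle R hOv hfrac
    ((S36SE_ev C.Rb₂ P (hdeg P) hP' : ↥C.Rb₂ →ₐ[k] k) : ↥C.Rb₂ →+* k) B hVt hVtv
    ((S36L3_mem_NormGrp S₁ S₂ S₃).1 (hKp hu)) (hsep u hu) (hsep0 u hu)

/-- (LI) at the affine places of `VV` from the CART bundles. -/
theorem S36TI_pl₃ [Finite ιv] [IsNoetherianRing D.Λ]
    (hle : D.Λ ≤ S36LJ_Lam S₁ S₂ S₃ C.B.toSubring)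
    (R : S36LJ_Red (S₁ := S₁) (S₂ := S₂) (S₃ := S₃) C)
    (hOv : ∀ i : ιv, D.Ov i = S₁.O ∨ D.Ov i = S₂.O ∨ D.Ov i = S₃.O)
    (hfrac : ∀ x : K, ∃ b : D.Λ, (b : K) ≠ 0 ∧ (b : K) * x ∈ D.Λ)
    (x₃ : Fk₃) (hdeg : ∀ P : Place k Fk₃, P.deg = 1)
    (hR₃ : ∀ y : Fk₃, y ∈ C.Rb₃ ↔
      ∀ Q : Place k Fk₃, Q.adicValuation x₃ ≤ 1 → Q.adicValuation y ≤ 1)
    (hB : ∀ (P : Place k Fk₃) (hP : ∀ f ∈ C.Rb₃, P.adicValuation f ≤ 1),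
      ∃ (κ : Type w) (_ : Field κ) (B : S36CA_LiData D.O ⊤ D.Λ
        (S36LK_y₃ D hle R ((S36SE_ev C.Rb₃ P (hdeg P) hP : ↥C.Rb₃ →ₐ[k] k) : ↥C.Rb₃ →+* k)) κ),
        (∀ i : ιv, Sum.inl i ∈ S36IT_thruVS D.O D.Λ
          (S36LK_y₃ D hle R ((S36SE_ev C.Rb₃ P (hdeg P) hP : ↥C.Rb₃ →ₐ[k] k) : ↥C.Rb₃ →+* k)) →
            Sum.inl i ∈ B.Vt) ∧ ∀ i ∈ B.Vt, ∃ j : ιv, i = Sum.inl j)
    {Kp : Subgroup Kˣ} (hKp : Kp ≤ S36L3_NormGrp S₁ S₂ S₃)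
    (hsep : ∀ u ∈ Kp, ∀ Q ∈ D.U, ∃ g : K, g ≠ 0 ∧
      (n : ℤ) * Q.ord (D.φ g) + Q.ord (D.φ ((u : Kˣ) : K)) = 0 ∧
      ∀ Q' ∈ D.U, 0 ≤ (n : ℤ) * Q'.ord (D.φ g) + Q'.ord (D.φ ((u : Kˣ) : K)))
    (hsep0 : ∀ u ∈ Kp, ∃ g : K, g ≠ 0 ∧
      ∀ Q' ∈ D.U, 0 ≤ (n : ℤ) * Q'.ord (D.φ g) + Q'.ord (D.φ ((u : Kˣ) : K))) :
    ∀ u ∈ Kp, ∀ P : Place k Fk₃, P.adicValuation x₃ ≤ 1 →
      ∃ m ∈ S36L3_W hS C ((u : Kˣ) : K), FD_c0 P ((m.2.2 : ↥C.Rb₃) : Fk₃) ≠ 0 := by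
  intro u hu P hP
  have hP' : ∀ f ∈ C.Rb₃, P.adicValuation f ≤ 1 := fun f hf => (hR₃ f).1 hf P hP
  obtain ⟨κ, _, B, hVt, hVtv⟩ := hB P hP'
  exact S36LK_point₃ hS D hle R hOv hfrac
    ((S36SE_ev C.Rb₃ P (hdeg P) hP' : ↥C.Rb₃ →ₐ[k] k) : ↥C.Rb₃ →+* k) B hVt hVtv
    ((S36L3_mem_NormGrp S₁ S₂ S₃).1 (hKp hu)) (hsep u hu) (hsep0 u hu)

end bundles

end Fermat.Agent.S36
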