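import Fermat.Agent.S36.ChartTransfer
import Fermat.Agent.S36.Triv3Li

/-!
# TRACK 10 (S36), T'-TRANSFER part 2 (helper2): the transfer in PLACE form

Prefix `S36CX_`.  helper11's `S36TI_Geo.ofPlaces` asks (LI) at the affine places of the three
components (`hpl_j`).  On the chart `U' = {x ≠ c}` (coordinate `x' = (x − c)⁻¹`) the affine
places are the places of `U ∩ U'` and the cusps (the poles of `x`):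

* `S36CX_hunit` : `x' = (x − c₀)⁻¹` is a unit at the places of `U ∩ U'`;
* `S36CX_pl₁/₂/₃` : **`hpl_j` on `U'`** from `hpl_j` on `U` and (LI) at the CUSP places;
* `S36CX_hgy₁/₂/₃` : the non-vanishing of `ḡ_j` at the triple points from `hunit`;
* `S36CX_geo_pl` : **`S36TI_Geo` on `U'`** from the inputs of the chart `U` in place form, the
  kill data, (R11b') on `U'` and (LI) at the cusp places.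
-/

set_option autoImplicit false
set_option linter.unusedSectionVars false
set_option linter.style.haveILetI false

open AlgebraicCurve IntermediateField

namespace Fermat.Agent.S36

open Fermat.Agent.Lib Fermat.Agent.S18 Fermat.Agent.S34

section unit

variable {k κ : Type*} [Field k] [Field κ] [Algebra k κ]

/-- `x' = (x − c₀)⁻¹` is a unit at the places where `x` and `x'` are regular. -/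
theorem S36CX_hunit (x : κ) (c₀ : k) (hz : x - algebraMap k κ c₀ ≠ 0) (Q : Place k κ)
    (hx : Q.adicValuation x ≤ 1) (hx' : Q.adicValuation (x - algebraMap k κ c₀)⁻¹ ≤ 1) :
    Q.adicValuation (x - algebraMap k κ c₀)⁻¹ = 1 := by
  refine le_antisymm hx' ?_
  rw [map_inv₀]
  have h1 : Q.adicValuation (x - algebraMap k κ c₀) ≤ 1 :=
    (Valuation.map_sub _ _ _).trans (max_le hx (Q.adicValuation_algebraMap_le_one c₀))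
  have h2 : Q.adicValuation (x - algebraMap k κ c₀) ≠ 0 := by
    rw [Ne, map_eq_zero]
    exact hz
  exact (one_le_inv₀ (zero_lt_iff.2 h2)).2 h1

/-- the value of `r · x' ^ N` at a place where `r` is regular and `x'` is a unit. -/
theorem S36CX_c0_mul_pow (P : Place k κ) (hdeg : P.deg = 1) {r x' : κ}
    (hr : P.adicValuation r ≤ 1) (hx' : P.adicValuation x' = 1) (N : ℕ)
    (h : FD_c0 P r ≠ 0) : FD_c0 P (r * x' ^ N) ≠ 0 := by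
  have hN : P.adicValuation (x' ^ N) = 1 := by rw [map_pow, hx', one_pow]
  rw [(FD_c0_mul P hdeg hr hN.le).1]
  refine mul_ne_zero h ?_
  intro h0
  rw [FD_c0_eq_zero_iff P hdeg hN.le, hN] at h0
  exact lt_irrefl _ h0

end unit

section transfer

variable {L F k Fk₁ Fk₂ Fk₃ : Type*} [Field L] [Field F] [Algebra L F] [Field k]
  [Field Fk₁] [Field Fk₂] [Field Fk₃] [Algebra k Fk₁] [Algebra k Fk₂] [Algebra k Fk₃]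
  {S₁ : S18_Val L F k Fk₁} {S₂ : S18_Val L F k Fk₂} {S₃ : S18_Val L F k Fk₃}
  (hS : S36L3_Same S₁ S₂ S₃) {n : ℕ} {ι : Type*}
  {C C' C'' : S36L3_Chart L F k Fk₁ Fk₂ Fk₃ n} {g : S36L3_O3 S₁ S₂ S₃}

/-- **`hpl₁` on `U'`** from `hpl₁` on `U` and (LI) at the cusp places of `FF`. -/
theorem S36CX_pl₁ (K : S36CX_Kill C C' g) (hdeg : ∀ P : Place k Fk₁, P.deg = 1)
    (x₁ x₁' : Fk₁)
    (hR₁ : ∀ f ∈ C.Rb₁, ∀ Q : Place k Fk₁, Q.adicValuation x₁ ≤ 1 → Q.adicValuation f ≤ 1)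
    (hgx : (S36L3_red S₁ S₂ S₃ g).1 = x₁')
    (hunit : ∀ Q : Place k Fk₁, Q.adicValuation x₁ ≤ 1 → Q.adicValuation x₁' ≤ 1 →
      Q.adicValuation x₁' = 1)
    {u : F}
    (hpl : ∀ P : Place k Fk₁, P.adicValuation x₁ ≤ 1 →
      ∃ m ∈ S36L3_W hS C u, FD_c0 P ((m.1 : ↥C.Rb₁) : Fk₁) ≠ 0)
    (hcusp : ∀ P : Place k Fk₁, ¬ P.adicValuation x₁ ≤ 1 → P.adicValuation x₁' ≤ 1 →
      ∃ m ∈ S36L3_W hS C' u, FD_c0 P ((m.1 : ↥C'.Rb₁) : Fk₁) ≠ 0) :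
    ∀ P : Place k Fk₁, P.adicValuation x₁' ≤ 1 →
      ∃ m ∈ S36L3_W hS C' u, FD_c0 P ((m.1 : ↥C'.Rb₁) : Fk₁) ≠ 0 := by
  intro P hP'
  by_cases hx : P.adicValuation x₁ ≤ 1
  · obtain ⟨m, hm, hv⟩ := hpl P hx
    obtain ⟨N₀, hN⟩ := S36CX_W_transfer hS K hm
    obtain ⟨m', hm', e1, -, -⟩ := hN N₀ le_rfl
    refine ⟨m', hm', ?_⟩
    rw [e1, hgx]
    exact S36CX_c0_mul_pow P (hdeg P) (hR₁ _ m.1.2 P hx) (hunit P hx hP') N₀ hv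
  · exact hcusp P hx hP'

/-- **`hpl₂` on `U'`** from `hpl₂` on `U` and (LI) at the cusp places of `FV`. -/
theorem S36CX_pl₂ (K : S36CX_Kill C C' g) (hdeg : ∀ P : Place k Fk₂, P.deg = 1)
    (x₂ x₂' : Fk₂)
    (hR₂ : ∀ f ∈ C.Rb₂, ∀ Q : Place k Fk₂, Q.adicValuation x₂ ≤ 1 → Q.adicValuation f ≤ 1)
    (hgx : (S36L3_red S₁ S₂ S₃ g).2.1 = x₂')
    (hunit : ∀ Q : Place k Fk₂, Q.adicValuation x₂ ≤ 1 → Q.adicValuation x₂' ≤ 1 →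
      Q.adicValuation x₂' = 1)
    {u : F}
    (hpl : ∀ P : Place k Fk₂, P.adicValuation x₂ ≤ 1 →
      ∃ m ∈ S36L3_W hS C u, FD_c0 P ((m.2.1 : ↥C.Rb₂) : Fk₂) ≠ 0)
    (hcusp : ∀ P : Place k Fk₂, ¬ P.adicValuation x₂ ≤ 1 → P.adicValuation x₂' ≤ 1 →
      ∃ m ∈ S36L3_W hS C' u, FD_c0 P ((m.2.1 : ↥C'.Rb₂) : Fk₂) ≠ 0) :
    ∀ P : Place k Fk₂, P.adicValuation x₂' ≤ 1 →
      ∃ m ∈ S36L3_W hS C' u, FD_c0 P ((m.2.1 : ↥C'.Rb₂) : Fk₂) ≠ 0 := by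
  intro P hP'
  by_cases hx : P.adicValuation x₂ ≤ 1
  · obtain ⟨m, hm, hv⟩ := hpl P hx
    obtain ⟨N₀, hN⟩ := S36CX_W_transfer hS K hm
    obtain ⟨m', hm', -, e2, -⟩ := hN N₀ le_rfl
    refine ⟨m', hm', ?_⟩
    rw [e2, hgx]
    exact S36CX_c0_mul_pow P (hdeg P) (hR₂ _ m.2.1.2 P hx) (hunit P hx hP') N₀ hv
  · exact hcusp P hx hP'

/-- **`hpl₃` on `U'`** from `hpl₃` on `U` and (LI) at the cusp places of `VV`. -/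
theorem S36CX_pl₃ (K : S36CX_Kill C C' g) (hdeg : ∀ P : Place k Fk₃, P.deg = 1)
    (x₃ x₃' : Fk₃)
    (hR₃ : ∀ f ∈ C.Rb₃, ∀ Q : Place k Fk₃, Q.adicValuation x₃ ≤ 1 → Q.adicValuation f ≤ 1)
    (hgx : (S36L3_red S₁ S₂ S₃ g).2.2 = x₃')
    (hunit : ∀ Q : Place k Fk₃, Q.adicValuation x₃ ≤ 1 → Q.adicValuation x₃' ≤ 1 →
      Q.adicValuation x₃' = 1)
    {u : F}
    (hpl : ∀ P : Place k Fk₃, P.adicValuation x₃ ≤ 1 →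
      ∃ m ∈ S36L3_W hS C u, FD_c0 P ((m.2.2 : ↥C.Rb₃) : Fk₃) ≠ 0)
    (hcusp : ∀ P : Place k Fk₃, ¬ P.adicValuation x₃ ≤ 1 → P.adicValuation x₃' ≤ 1 →
      ∃ m ∈ S36L3_W hS C' u, FD_c0 P ((m.2.2 : ↥C'.Rb₃) : Fk₃) ≠ 0) :
    ∀ P : Place k Fk₃, P.adicValuation x₃' ≤ 1 →
      ∃ m ∈ S36L3_W hS C' u, FD_c0 P ((m.2.2 : ↥C'.Rb₃) : Fk₃) ≠ 0 := by
  intro P hP'
  by_cases hx : P.adicValuation x₃ ≤ 1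
  · obtain ⟨m, hm, hv⟩ := hpl P hx
    obtain ⟨N₀, hN⟩ := S36CX_W_transfer hS K hm
    obtain ⟨m', hm', -, -, e3⟩ := hN N₀ le_rfl
    refine ⟨m', hm', ?_⟩
    rw [e3, hgx]
    exact S36CX_c0_mul_pow P (hdeg P) (hR₃ _ m.2.2.2 P hx) (hunit P hx hP') N₀ hv
  · exact hcusp P hx hP'

/-- `ḡ₁` does not vanish at the triple points. -/
theorem S36CX_hgy₁ (hle' : S36L3_ChartLE C' C'') (X : S36SE_Pts k Fk₁ Fk₂ Fk₃ ι)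
    (hX : S36SE_Reg C'' X) (K : S36CX_Kill C C' g) (x₁ x₁' : Fk₁)
    (hgx : (S36L3_red S₁ S₂ S₃ g).1 = x₁')
    (hunit : ∀ Q : Place k Fk₁, Q.adicValuation x₁ ≤ 1 → Q.adicValuation x₁' ≤ 1 →
      Q.adicValuation x₁' = 1)
    (hxy : ∀ y, (X.P₁ y).adicValuation x₁ ≤ 1) (y : ι) :
    S36SE_e₁ C' X (hX.of_le hle') y ⟨_, K.g₁⟩ ≠ 0 := by
  intro h0
  have h1 : (X.P₁ y).adicValuation (S36L3_red S₁ S₂ S₃ g).1 < 1 :=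
    (S36SE_ev_eq_zero_iff C'.Rb₁ (X.P₁ y) (X.deg₁ y) ((hX.of_le hle').reg₁ y) ⟨_, K.g₁⟩).1 h0
  have h2 := hunit (X.P₁ y) (hxy y) (hgx ▸ h1.le)
  rw [hgx, h2] at h1
  exact lt_irrefl _ h1

/-- `ḡ₂` does not vanish at the triple points. -/
theorem S36CX_hgy₂ (hle' : S36L3_ChartLE C' C'') (X : S36SE_Pts k Fk₁ Fk₂ Fk₃ ι)
    (hX : S36SE_Reg C'' X) (K : S36CX_Kill C C' g) (x₂ x₂' : Fk₂)
    (hgx : (S36L3_red S₁ S₂ S₃ g).2.1 = x₂')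
    (hunit : ∀ Q : Place k Fk₂, Q.adicValuation x₂ ≤ 1 → Q.adicValuation x₂' ≤ 1 →
      Q.adicValuation x₂' = 1)
    (hxy : ∀ y, (X.P₂ y).adicValuation x₂ ≤ 1) (y : ι) :
    S36SE_e₂ C' X (hX.of_le hle') y ⟨_, K.g₂⟩ ≠ 0 := by
  intro h0
  have h1 : (X.P₂ y).adicValuation (S36L3_red S₁ S₂ S₃ g).2.1 < 1 :=
    (S36SE_ev_eq_zero_iff C'.Rb₂ (X.P₂ y) (X.deg₂ y) ((hX.of_le hle').reg₂ y) ⟨_, K.g₂⟩).1 h0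
  have h2 := hunit (X.P₂ y) (hxy y) (hgx ▸ h1.le)
  rw [hgx, h2] at h1
  exact lt_irrefl _ h1

/-- `ḡ₃` does not vanish at the triple points. -/
theorem S36CX_hgy₃ (hle' : S36L3_ChartLE C' C'') (X : S36SE_Pts k Fk₁ Fk₂ Fk₃ ι)
    (hX : S36SE_Reg C'' X) (K : S36CX_Kill C C' g) (x₃ x₃' : Fk₃)
    (hgx : (S36L3_red S₁ S₂ S₃ g).2.2 = x₃')
    (hunit : ∀ Q : Place k Fk₃, Q.adicValuation x₃ ≤ 1 → Q.adicValuation x₃' ≤ 1 →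
      Q.adicValuation x₃' = 1)
    (hxy : ∀ y, (X.P₃ y).adicValuation x₃ ≤ 1) (y : ι) :
    S36SE_e₃ C' X (hX.of_le hle') y ⟨_, K.g₃⟩ ≠ 0 := by
  intro h0
  have h1 : (X.P₃ y).adicValuation (S36L3_red S₁ S₂ S₃ g).2.2 < 1 :=
    (S36SE_ev_eq_zero_iff C'.Rb₃ (X.P₃ y) (X.deg₃ y) ((hX.of_le hle').reg₃ y) ⟨_, K.g₃⟩).1 h0
  have h2 := hunit (X.P₃ y) (hxy y) (hgx ▸ h1.le)
  rw [hgx, h2] at h1
  exact lt_irrefl _ h1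

/-- **`S36TI_Geo` on `U'` in place form**: from `hsep` and `hpl_j` on `U`, the kill data,
(R11b') on `U'` and (LI) at the cusp places (`hcusp_j`). -/
theorem S36CX_geo_pl [IsAlgClosed k] (hle : S36L3_ChartLE C C'') (hle' : S36L3_ChartLE C' C'')
    (X : S36SE_Pts k Fk₁ Fk₂ Fk₃ ι) (hX : S36SE_Reg C'' X) {Kp : Subgroup Fˣ}
    (hKp : Kp ≤ S36L3_NormGrp S₁ S₂ S₃) (K : S36CX_Kill C C' g)
    (h₁ : RR_Hyp k Fk₁) (h₂ : RR_Hyp k Fk₂) (h₃ : RR_Hyp k Fk₃)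
    (x₁ x₁' : Fk₁) (x₂ x₂' : Fk₂) (x₃ x₃' : Fk₃)
    (c₁ : Place k Fk₁) (c₂ : Place k Fk₂) (c₃ : Place k Fk₃)
    (hc₁ : c₁.ord x₁' < 0) (hc₂ : c₂.ord x₂' < 0) (hc₃ : c₃.ord x₃' < 0)
    (hR₁ : ∀ f ∈ C.Rb₁, ∀ Q : Place k Fk₁, Q.adicValuation x₁ ≤ 1 → Q.adicValuation f ≤ 1)
    (hR₂ : ∀ f ∈ C.Rb₂, ∀ Q : Place k Fk₂, Q.adicValuation x₂ ≤ 1 → Q.adicValuation f ≤ 1)
    (hR₃ : ∀ f ∈ C.Rb₃, ∀ Q : Place k Fk₃, Q.adicValuation x₃ ≤ 1 → Q.adicValuation f ≤ 1)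
    (hR₁' : ∀ y : Fk₁, y ∈ C'.Rb₁ ↔
      ∀ Q : Place k Fk₁, Q.adicValuation x₁' ≤ 1 → Q.adicValuation y ≤ 1)
    (hR₂' : ∀ y : Fk₂, y ∈ C'.Rb₂ ↔
      ∀ Q : Place k Fk₂, Q.adicValuation x₂' ≤ 1 → Q.adicValuation y ≤ 1)
    (hR₃' : ∀ y : Fk₃, y ∈ C'.Rb₃ ↔
      ∀ Q : Place k Fk₃, Q.adicValuation x₃' ≤ 1 → Q.adicValuation y ≤ 1)
    (hx₁ : Transcendental k x₁') (hx₂ : Transcendental k x₂') (hx₃ : Transcendental k x₃')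
    [FiniteDimensional k⟮x₁'⟯ Fk₁] [Algebra.IsSeparable k⟮x₁'⟯ Fk₁]
    [FiniteDimensional k⟮x₂'⟯ Fk₂] [Algebra.IsSeparable k⟮x₂'⟯ Fk₂]
    [FiniteDimensional k⟮x₃'⟯ Fk₃] [Algebra.IsSeparable k⟮x₃'⟯ Fk₃]
    (hgx₁ : (S36L3_red S₁ S₂ S₃ g).1 = x₁') (hgx₂ : (S36L3_red S₁ S₂ S₃ g).2.1 = x₂')
    (hgx₃ : (S36L3_red S₁ S₂ S₃ g).2.2 = x₃')
    (hunit₁ : ∀ Q : Place k Fk₁, Q.adicValuation x₁ ≤ 1 → Q.adicValuation x₁' ≤ 1 →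
      Q.adicValuation x₁' = 1)
    (hunit₂ : ∀ Q : Place k Fk₂, Q.adicValuation x₂ ≤ 1 → Q.adicValuation x₂' ≤ 1 →
      Q.adicValuation x₂' = 1)
    (hunit₃ : ∀ Q : Place k Fk₃, Q.adicValuation x₃ ≤ 1 → Q.adicValuation x₃' ≤ 1 →
      Q.adicValuation x₃' = 1)
    (hxy₁ : ∀ y, (X.P₁ y).adicValuation x₁ ≤ 1)
    (hW1 : ∀ m ∈ S36L3_W hS C'' 1, ∀ y,
      S36SE_e₁ C'' X hX y m.1 = S36SE_e₂ C'' X hX y m.2.1 ∧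
      S36SE_e₁ C'' X hX y m.1 = S36SE_e₃ C'' X hX y m.2.2)
    (hint₁ : ∀ a a' : ↥C'.Rb₁, (∀ y, S36SE_e₁ C' X (hX.of_le hle') y a = 0) →
      (∀ y, S36SE_e₁ C' X (hX.of_le hle') y a' = 0) →
      ((a * a', 0, 0) : ↥C'.Rb₁ × ↥C'.Rb₂ × ↥C'.Rb₃) ∈ S36L3_W hS C' 1)
    (hint₂ : ∀ a a' : ↥C'.Rb₂, (∀ y, S36SE_e₂ C' X (hX.of_le hle') y a = 0) →
      (∀ y, S36SE_e₂ C' X (hX.of_le hle') y a' = 0) →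
      ((0, a * a', 0) : ↥C'.Rb₁ × ↥C'.Rb₂ × ↥C'.Rb₃) ∈ S36L3_W hS C' 1)
    (hint₃ : ∀ a a' : ↥C'.Rb₃, (∀ y, S36SE_e₃ C' X (hX.of_le hle') y a = 0) →
      (∀ y, S36SE_e₃ C' X (hX.of_le hle') y a' = 0) →
      ((0, 0, a * a') : ↥C'.Rb₁ × ↥C'.Rb₂ × ↥C'.Rb₃) ∈ S36L3_W hS C' 1)
    (hsep : ∀ y, ∃ w ∈ S36L3_W hS C 1, S36SE_e₁ C X (hX.of_le hle) y w.1 = 1 ∧
      ∀ y', y' ≠ y → S36SE_e₁ C X (hX.of_le hle) y' w.1 = 0)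
    (hpl₁ : ∀ u ∈ Kp, ∀ P : Place k Fk₁, P.adicValuation x₁ ≤ 1 →
      ∃ m ∈ S36L3_W hS C ((u : Fˣ) : F), FD_c0 P ((m.1 : ↥C.Rb₁) : Fk₁) ≠ 0)
    (hpl₂ : ∀ u ∈ Kp, ∀ P : Place k Fk₂, P.adicValuation x₂ ≤ 1 →
      ∃ m ∈ S36L3_W hS C ((u : Fˣ) : F), FD_c0 P ((m.2.1 : ↥C.Rb₂) : Fk₂) ≠ 0)
    (hpl₃ : ∀ u ∈ Kp, ∀ P : Place k Fk₃, P.adicValuation x₃ ≤ 1 →
      ∃ m ∈ S36L3_W hS C ((u : Fˣ) : F), FD_c0 P ((m.2.2 : ↥C.Rb₃) : Fk₃) ≠ 0)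
    (hcusp₁ : ∀ u ∈ Kp, ∀ P : Place k Fk₁, ¬ P.adicValuation x₁ ≤ 1 →
      P.adicValuation x₁' ≤ 1 →
      ∃ m ∈ S36L3_W hS C' ((u : Fˣ) : F), FD_c0 P ((m.1 : ↥C'.Rb₁) : Fk₁) ≠ 0)
    (hcusp₂ : ∀ u ∈ Kp, ∀ P : Place k Fk₂, ¬ P.adicValuation x₂ ≤ 1 →
      P.adicValuation x₂' ≤ 1 →
      ∃ m ∈ S36L3_W hS C' ((u : Fˣ) : F), FD_c0 P ((m.2.1 : ↥C'.Rb₂) : Fk₂) ≠ 0)
    (hcusp₃ : ∀ u ∈ Kp, ∀ P : Place k Fk₃, ¬ P.adicValuation x₃ ≤ 1 →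
      P.adicValuation x₃' ≤ 1 →
      ∃ m ∈ S36L3_W hS C' ((u : Fˣ) : F), FD_c0 P ((m.2.2 : ↥C'.Rb₃) : Fk₃) ≠ 0) :
    S36TI_Geo hS C' X (hX.of_le hle') Kp :=
  S36TI_Geo.ofPlaces hS hKp h₁ h₂ h₃ x₁' x₂' x₃' c₁ c₂ c₃ hc₁ hc₂ hc₃ hR₁' hR₂' hR₃'
    hx₁ hx₂ hx₃
    (S36TI_hW1_of_le hS hle' (S36SE_e₁ C' X (hX.of_le hle')) (S36SE_e₂ C' X (hX.of_le hle'))
      (S36SE_e₃ C' X (hX.of_le hle')) (S36SE_e₁ C'' X hX) (S36SE_e₂ C'' X hX)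
      (S36SE_e₃ C'' X hX) (fun _ _ => rfl) (fun _ _ => rfl) (fun _ _ => rfl) hW1)
    hint₁ hint₂ hint₃
    (fun y => S36SE_hsep_transfer hS hle hle' (S36SE_e₁ C X (hX.of_le hle))
      (S36SE_e₁ C' X (hX.of_le hle')) (S36SE_e₁ C'' X hX) (fun _ _ => rfl) (fun _ _ => rfl)
      hsep g K.g₁ (S36CX_hgy₁ hle' X hX K x₁ x₁' hgx₁ hunit₁ hxy₁)
      (fun f hf a₁ a₂ a₃ => S36CX_hkill K f hf a₁ a₂ a₃) y)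
    (fun u hu => S36CX_pl₁ hS K h₁.deg_one x₁ x₁' hR₁ hgx₁ hunit₁ (hpl₁ u hu) (hcusp₁ u hu))
    (fun u hu => S36CX_pl₂ hS K h₂.deg_one x₂ x₂' hR₂ hgx₂ hunit₂ (hpl₂ u hu) (hcusp₂ u hu))
    (fun u hu => S36CX_pl₃ hS K h₃.deg_one x₃ x₃' hR₃ hgx₃ hunit₃ (hpl₃ u hu) (hcusp₃ u hu))

/-! ### the place form of (LI) from `S36TI_Geo` -/

/-- the evaluation at a place is onto `k`, hence its kernel is a maximal ideal. -/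
theorem S36CX_ker_max {κ : Type*} [Field κ] [Algebra k κ] (Rb : Subalgebra k κ) (P : Place k κ)
    (hdeg : P.deg = 1) (hP : ∀ f ∈ Rb, P.adicValuation f ≤ 1) :
    (RingHom.ker ((S36SE_ev Rb P hdeg hP : ↥Rb →ₐ[k] k) : ↥Rb →+* k)).IsMaximal :=
  RingHom.ker_isMaximal_of_surjective _ (fun c => ⟨algebraMap k ↥Rb c, by
    show S36SE_ev Rb P hdeg hP (algebraMap k ↥Rb c) = c
    rw [AlgHom.commutes]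
    rfl⟩)

/-- `hpl₁` on a chart from `S36TI_Geo` on the chart. -/
theorem S36CX_pl_of_geo₁ {X : S36SE_Pts k Fk₁ Fk₂ Fk₃ ι} {hC : S36SE_Reg C X}
    {Kp : Subgroup Fˣ} (G : S36TI_Geo hS C X hC Kp) (hdeg : ∀ P : Place k Fk₁, P.deg = 1)
    (x₁ : Fk₁)
    (hR₁ : ∀ f ∈ C.Rb₁, ∀ Q : Place k Fk₁, Q.adicValuation x₁ ≤ 1 → Q.adicValuation f ≤ 1) :
    ∀ u ∈ Kp, ∀ P : Place k Fk₁, P.adicValuation x₁ ≤ 1 →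
      ∃ m ∈ S36L3_W hS C ((u : Fˣ) : F), FD_c0 P ((m.1 : ↥C.Rb₁) : Fk₁) ≠ 0 := by
  intro u hu P hP
  have hP' : ∀ f ∈ C.Rb₁, P.adicValuation f ≤ 1 := fun f hf => hR₁ f hf P hP
  obtain ⟨m, hm, hn⟩ := G.h₁ u hu _ (S36CX_ker_max C.Rb₁ P (hdeg P) hP')
  refine ⟨m, hm, fun h0 => hn ?_⟩
  rw [RingHom.mem_ker]
  exact h0

/-- `hpl₂` on a chart from `S36TI_Geo` on the chart. -/
theorem S36CX_pl_of_geo₂ {X : S36SE_Pts k Fk₁ Fk₂ Fk₃ ι} {hC : S36SE_Reg C X}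
    {Kp : Subgroup Fˣ} (G : S36TI_Geo hS C X hC Kp) (hdeg : ∀ P : Place k Fk₂, P.deg = 1)
    (x₂ : Fk₂)
    (hR₂ : ∀ f ∈ C.Rb₂, ∀ Q : Place k Fk₂, Q.adicValuation x₂ ≤ 1 → Q.adicValuation f ≤ 1) :
    ∀ u ∈ Kp, ∀ P : Place k Fk₂, P.adicValuation x₂ ≤ 1 →
      ∃ m ∈ S36L3_W hS C ((u : Fˣ) : F), FD_c0 P ((m.2.1 : ↥C.Rb₂) : Fk₂) ≠ 0 := by
  intro u hu P hP
  have hP' : ∀ f ∈ C.Rb₂, P.adicValuation f ≤ 1 := fun f hf => hR₂ f hf P hP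
  obtain ⟨m, hm, hn⟩ := G.h₂ u hu _ (S36CX_ker_max C.Rb₂ P (hdeg P) hP')
  refine ⟨m, hm, fun h0 => hn ?_⟩
  rw [RingHom.mem_ker]
  exact h0

/-- `hpl₃` on a chart from `S36TI_Geo` on the chart. -/
theorem S36CX_pl_of_geo₃ {X : S36SE_Pts k Fk₁ Fk₂ Fk₃ ι} {hC : S36SE_Reg C X}
    {Kp : Subgroup Fˣ} (G : S36TI_Geo hS C X hC Kp) (hdeg : ∀ P : Place k Fk₃, P.deg = 1)
    (x₃ : Fk₃)
    (hR₃ : ∀ f ∈ C.Rb₃, ∀ Q : Place k Fk₃, Q.adicValuation x₃ ≤ 1 → Q.adicValuation f ≤ 1) :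
    ∀ u ∈ Kp, ∀ P : Place k Fk₃, P.adicValuation x₃ ≤ 1 →
      ∃ m ∈ S36L3_W hS C ((u : Fˣ) : F), FD_c0 P ((m.2.2 : ↥C.Rb₃) : Fk₃) ≠ 0 := by
  intro u hu P hP
  have hP' : ∀ f ∈ C.Rb₃, P.adicValuation f ≤ 1 := fun f hf => hR₃ f hf P hP
  obtain ⟨m, hm, hn⟩ := G.h₃ u hu _ (S36CX_ker_max C.Rb₃ P (hdeg P) hP')
  refine ⟨m, hm, fun h0 => hn ?_⟩
  rw [RingHom.mem_ker]
  exact h0

/-- **`S36TI_Geo` on `U'` from `S36TI_Geo` on `U`**, with (LI) at the cusp PLACES. -/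
theorem S36CX_geo_of_geo [IsAlgClosed k] (hle : S36L3_ChartLE C C'')
    (hle' : S36L3_ChartLE C' C'')
    (X : S36SE_Pts k Fk₁ Fk₂ Fk₃ ι) (hX : S36SE_Reg C'' X) {Kp : Subgroup Fˣ}
    (hKp : Kp ≤ S36L3_NormGrp S₁ S₂ S₃) (K : S36CX_Kill C C' g)
    (h₁ : RR_Hyp k Fk₁) (h₂ : RR_Hyp k Fk₂) (h₃ : RR_Hyp k Fk₃)
    (x₁ x₁' : Fk₁) (x₂ x₂' : Fk₂) (x₃ x₃' : Fk₃)
    (c₁ : Place k Fk₁) (c₂ : Place k Fk₂) (c₃ : Place k Fk₃)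
    (hc₁ : c₁.ord x₁' < 0) (hc₂ : c₂.ord x₂' < 0) (hc₃ : c₃.ord x₃' < 0)
    (hR₁ : ∀ f ∈ C.Rb₁, ∀ Q : Place k Fk₁, Q.adicValuation x₁ ≤ 1 → Q.adicValuation f ≤ 1)
    (hR₂ : ∀ f ∈ C.Rb₂, ∀ Q : Place k Fk₂, Q.adicValuation x₂ ≤ 1 → Q.adicValuation f ≤ 1)
    (hR₃ : ∀ f ∈ C.Rb₃, ∀ Q : Place k Fk₃, Q.adicValuation x₃ ≤ 1 → Q.adicValuation f ≤ 1)
    (hR₁' : ∀ y : Fk₁, y ∈ C'.Rb₁ ↔
      ∀ Q : Place k Fk₁, Q.adicValuation x₁' ≤ 1 → Q.adicValuation y ≤ 1)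
    (hR₂' : ∀ y : Fk₂, y ∈ C'.Rb₂ ↔
      ∀ Q : Place k Fk₂, Q.adicValuation x₂' ≤ 1 → Q.adicValuation y ≤ 1)
    (hR₃' : ∀ y : Fk₃, y ∈ C'.Rb₃ ↔
      ∀ Q : Place k Fk₃, Q.adicValuation x₃' ≤ 1 → Q.adicValuation y ≤ 1)
    (hx₁ : Transcendental k x₁') (hx₂ : Transcendental k x₂') (hx₃ : Transcendental k x₃')
    [FiniteDimensional k⟮x₁'⟯ Fk₁] [Algebra.IsSeparable k⟮x₁'⟯ Fk₁]
    [FiniteDimensional k⟮x₂'⟯ Fk₂] [Algebra.IsSeparable k⟮x₂'⟯ Fk₂]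
    [FiniteDimensional k⟮x₃'⟯ Fk₃] [Algebra.IsSeparable k⟮x₃'⟯ Fk₃]
    (hgx₁ : (S36L3_red S₁ S₂ S₃ g).1 = x₁') (hgx₂ : (S36L3_red S₁ S₂ S₃ g).2.1 = x₂')
    (hgx₃ : (S36L3_red S₁ S₂ S₃ g).2.2 = x₃')
    (hunit₁ : ∀ Q : Place k Fk₁, Q.adicValuation x₁ ≤ 1 → Q.adicValuation x₁' ≤ 1 →
      Q.adicValuation x₁' = 1)
    (hunit₂ : ∀ Q : Place k Fk₂, Q.adicValuation x₂ ≤ 1 → Q.adicValuation x₂' ≤ 1 →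
      Q.adicValuation x₂' = 1)
    (hunit₃ : ∀ Q : Place k Fk₃, Q.adicValuation x₃ ≤ 1 → Q.adicValuation x₃' ≤ 1 →
      Q.adicValuation x₃' = 1)
    (hxy₁ : ∀ y, (X.P₁ y).adicValuation x₁ ≤ 1)
    (hW1 : ∀ m ∈ S36L3_W hS C'' 1, ∀ y,
      S36SE_e₁ C'' X hX y m.1 = S36SE_e₂ C'' X hX y m.2.1 ∧
      S36SE_e₁ C'' X hX y m.1 = S36SE_e₃ C'' X hX y m.2.2)
    (hint₁ : ∀ a a' : ↥C'.Rb₁, (∀ y, S36SE_e₁ C' X (hX.of_le hle') y a = 0) →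
      (∀ y, S36SE_e₁ C' X (hX.of_le hle') y a' = 0) →
      ((a * a', 0, 0) : ↥C'.Rb₁ × ↥C'.Rb₂ × ↥C'.Rb₃) ∈ S36L3_W hS C' 1)
    (hint₂ : ∀ a a' : ↥C'.Rb₂, (∀ y, S36SE_e₂ C' X (hX.of_le hle') y a = 0) →
      (∀ y, S36SE_e₂ C' X (hX.of_le hle') y a' = 0) →
      ((0, a * a', 0) : ↥C'.Rb₁ × ↥C'.Rb₂ × ↥C'.Rb₃) ∈ S36L3_W hS C' 1)
    (hint₃ : ∀ a a' : ↥C'.Rb₃, (∀ y, S36SE_e₃ C' X (hX.of_le hle') y a = 0) →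
      (∀ y, S36SE_e₃ C' X (hX.of_le hle') y a' = 0) →
      ((0, 0, a * a') : ↥C'.Rb₁ × ↥C'.Rb₂ × ↥C'.Rb₃) ∈ S36L3_W hS C' 1)
    (G : S36TI_Geo hS C X (hX.of_le hle) Kp)
    (hcusp₁ : ∀ u ∈ Kp, ∀ P : Place k Fk₁, ¬ P.adicValuation x₁ ≤ 1 →
      P.adicValuation x₁' ≤ 1 →
      ∃ m ∈ S36L3_W hS C' ((u : Fˣ) : F), FD_c0 P ((m.1 : ↥C'.Rb₁) : Fk₁) ≠ 0)
    (hcusp₂ : ∀ u ∈ Kp, ∀ P : Place k Fk₂, ¬ P.adicValuation x₂ ≤ 1 →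
      P.adicValuation x₂' ≤ 1 →
      ∃ m ∈ S36L3_W hS C' ((u : Fˣ) : F), FD_c0 P ((m.2.1 : ↥C'.Rb₂) : Fk₂) ≠ 0)
    (hcusp₃ : ∀ u ∈ Kp, ∀ P : Place k Fk₃, ¬ P.adicValuation x₃ ≤ 1 →
      P.adicValuation x₃' ≤ 1 →
      ∃ m ∈ S36L3_W hS C' ((u : Fˣ) : F), FD_c0 P ((m.2.2 : ↥C'.Rb₃) : Fk₃) ≠ 0) :
    S36TI_Geo hS C' X (hX.of_le hle') Kp :=
  S36CX_geo_pl hS hle hle' X hX hKp K h₁ h₂ h₃ x₁ x₁' x₂ x₂' x₃ x₃' c₁ c₂ c₃ hc₁ hc₂ hc₃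
    hR₁ hR₂ hR₃ hR₁' hR₂' hR₃' hx₁ hx₂ hx₃ hgx₁ hgx₂ hgx₃ hunit₁ hunit₂ hunit₃ hxy₁ hW1
    hint₁ hint₂ hint₃ G.hsep
    (S36CX_pl_of_geo₁ hS G h₁.deg_one x₁ hR₁) (S36CX_pl_of_geo₂ hS G h₂.deg_one x₂ hR₂)
    (S36CX_pl_of_geo₃ hS G h₃.deg_one x₃ hR₃) hcusp₁ hcusp₂ hcusp₃

end transfer

end Fermat.Agent.S36
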