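import Fermat.Agent.S36.ChartTransferConc
import Fermat.Agent.Lib.DescExt

/-!
# TRACK 10 (S36), T'-TRANSFER part 5 (helper2): the TWO-COORDINATE variants

Prefix `S36CX_`.  After helper19's AUDIT FINDING 1: the chart coordinate `x_j = red_j(B)` is a
`q`-th power (`x_j = j̄^q`), hence `Fk_j / k(x_j)` is NOT separable and the hypotheses
`[Algebra.IsSeparable k⟮x_j'⟯ Fk_j]` of `S36CX_geo_pl`, `S36CX_geo_of_geo`, `S36CX_geo_U'` cannot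
be satisfied for the coordinates of ruling D9.  Here the Nullstellensatz coordinate `w_j'`
(separable) is decoupled from the chart coordinate `x_j'`:

* `S36CX_geo_pl2`, `S36CX_geo_of_geo2` : as `S36CX_geo_pl`, `S36CX_geo_of_geo`, with the RBAR
  inputs stated for `w_j'` and `hxw_j : ∀ Q, Q.adicValuation x_j' ≤ 1 ↔ Q.adicValuation w_j' ≤ 1`;
* `S36CX_geo_U'2` : **`S36TI_Geo` on helper23's chart `S36CU_U'`** with the RBAR inputs stated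
  for coordinates `w_j` with `x_j − c₀ = (w_j − d₀) ^ e` (concretely `w_j = j̄`, `e = q`,
  `d₀ ^ q = c₀`): `Transcendental k w_j`, `FiniteDimensional k⟮w_j⟯ Fk_j`,
  `Algebra.IsSeparable k⟮w_j⟯ Fk_j` — nothing else (the pole is produced inside).
-/

set_option autoImplicit false
set_option linter.unusedSectionVars false
set_option linter.style.haveILetI false

open AlgebraicCurve IntermediateField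

namespace Fermat.Agent.S36

open Fermat.Agent.Lib Fermat.Agent.S18 Fermat.Agent.S34

section coord

variable {k κ : Type*} [Field k] [Field κ] [Algebra k κ]

/-- `k((w − d)⁻¹) = k(w)`. -/
theorem S36CX_adjoin_inv_sub (w : κ) (d : k) :
    k⟮(w - algebraMap k κ d)⁻¹⟯ = k⟮w⟯ := by
  apply le_antisymm
  · rw [IntermediateField.adjoin_simple_le_iff]
    exact inv_mem (sub_mem (IntermediateField.mem_adjoin_simple_self k w)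
      (IntermediateField.algebraMap_mem _ d))
  · rw [IntermediateField.adjoin_simple_le_iff]
    have h1 : (w - algebraMap k κ d)⁻¹ ∈ k⟮(w - algebraMap k κ d)⁻¹⟯ :=
      IntermediateField.mem_adjoin_simple_self k _
    have h2 := inv_mem h1
    rw [inv_inv] at h2
    have h3 := add_mem h2 (IntermediateField.algebraMap_mem k⟮(w - algebraMap k κ d)⁻¹⟯ d)
    rwa [sub_add_cancel] at h3

theorem S36CX_findim_of_eq {E E' : IntermediateField k κ} (h : E = E')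
    [FiniteDimensional E κ] : FiniteDimensional E' κ := by
  subst h
  infer_instance

theorem S36CX_sep_of_eq {E E' : IntermediateField k κ} (h : E = E')
    [Algebra.IsSeparable E κ] : Algebra.IsSeparable E' κ := by
  subst h
  infer_instance

/-- `(w − d)⁻¹` is transcendental when `w` is. -/
theorem S36CX_transc_inv_sub {w : κ} (hw : Transcendental k w) (d : k) :
    Transcendental k (w - algebraMap k κ d)⁻¹ := by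
  intro h
  apply hw
  have h1 : IsAlgebraic k (w - algebraMap k κ d) := by
    have := h.inv
    rwa [inv_inv] at this
  have h2 := h1.add (isAlgebraic_algebraMap (A := κ) d)
  rwa [sub_add_cancel] at h2

/-- `w − d ≠ 0` for `w` transcendental. -/
theorem S36CX_sub_ne_zero_of_transc {w : κ} (hw : Transcendental k w) (d : k) :
    w - algebraMap k κ d ≠ 0 := fun h0 =>
  hw ((sub_eq_zero.1 h0) ▸ isAlgebraic_algebraMap d)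

/-- a transcendental function has a pole. -/
theorem S36CX_pole_of_transc (h : RR_Hyp k κ) {w : κ} (hw : Transcendental k w) :
    ∃ c : Place k κ, c.ord w < 0 :=
  DSC_exists_pole h w (fun ⟨c, hc⟩ => hw (hc ▸ isAlgebraic_algebraMap c))

/-- regularity of a power. -/
theorem S36CX_val_pow_le_one_iff (Q : Place k κ) (w : κ) {e : ℕ} (he : 0 < e) :
    Q.adicValuation (w ^ e) ≤ 1 ↔ Q.adicValuation w ≤ 1 := by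
  rw [map_pow]
  exact pow_le_one_iff he.ne'

end coord

section transfer

variable {L F k Fk₁ Fk₂ Fk₃ : Type*} [Field L] [Field F] [Algebra L F] [Field k]
  [Field Fk₁] [Field Fk₂] [Field Fk₃] [Algebra k Fk₁] [Algebra k Fk₂] [Algebra k Fk₃]
  {S₁ : S18_Val L F k Fk₁} {S₂ : S18_Val L F k Fk₂} {S₃ : S18_Val L F k Fk₃}
  (hS : S36L3_Same S₁ S₂ S₃) {n : ℕ} {ι : Type*}
  {C C' C'' : S36L3_Chart L F k Fk₁ Fk₂ Fk₃ n} {g : S36L3_O3 S₁ S₂ S₃}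

/-- **`S36TI_Geo` on `U'`** in place form, two coordinates per component: `x_j'` (the chart) and
`w_j'` (separable, for the Nullstellensatz). -/
theorem S36CX_geo_pl2 [IsAlgClosed k] (hle : S36L3_ChartLE C C'') (hle' : S36L3_ChartLE C' C'')
    (X : S36SE_Pts k Fk₁ Fk₂ Fk₃ ι) (hX : S36SE_Reg C'' X) {Kp : Subgroup Fˣ}
    (hKp : Kp ≤ S36L3_NormGrp S₁ S₂ S₃) (K : S36CX_Kill C C' g)
    (h₁ : RR_Hyp k Fk₁) (h₂ : RR_Hyp k Fk₂) (h₃ : RR_Hyp k Fk₃)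
    (x₁ x₁' w₁' : Fk₁) (x₂ x₂' w₂' : Fk₂) (x₃ x₃' w₃' : Fk₃)
    (hxw₁ : ∀ Q : Place k Fk₁, Q.adicValuation x₁' ≤ 1 ↔ Q.adicValuation w₁' ≤ 1)
    (hxw₂ : ∀ Q : Place k Fk₂, Q.adicValuation x₂' ≤ 1 ↔ Q.adicValuation w₂' ≤ 1)
    (hxw₃ : ∀ Q : Place k Fk₃, Q.adicValuation x₃' ≤ 1 ↔ Q.adicValuation w₃' ≤ 1)
    (c₁ : Place k Fk₁) (c₂ : Place k Fk₂) (c₃ : Place k Fk₃)
    (hc₁ : c₁.ord w₁' < 0) (hc₂ : c₂.ord w₂' < 0) (hc₃ : c₃.ord w₃' < 0)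
    (hR₁ : ∀ f ∈ C.Rb₁, ∀ Q : Place k Fk₁, Q.adicValuation x₁ ≤ 1 → Q.adicValuation f ≤ 1)
    (hR₂ : ∀ f ∈ C.Rb₂, ∀ Q : Place k Fk₂, Q.adicValuation x₂ ≤ 1 → Q.adicValuation f ≤ 1)
    (hR₃ : ∀ f ∈ C.Rb₃, ∀ Q : Place k Fk₃, Q.adicValuation x₃ ≤ 1 → Q.adicValuation f ≤ 1)
    (hR₁' : ∀ y : Fk₁, y ∈ C'.Rb₁ ↔
      ∀ Q : Place k Fk₁, Q.adicValuation x₁' ≤ 1 → Q.adicValuation y ≤ 1)
    (hR₂' : ∀ y : Fk₂, y ∈ C'.Rb₂ ↔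
      ∀ Q : Place k Fk₂, Q.adicValuation x₂' ≤ 1 → Q.adicValuation y ≤ 1)
    (hR₃' : ∀ y : Fk₃, y ∈ C'.Rb₃ ↔
      ∀ Q : Place k Fk₃, Q.adicValuation x₃' ≤ 1 → Q.adicValuation y ≤ 1)
    (hx₁ : Transcendental k w₁') (hx₂ : Transcendental k w₂') (hx₃ : Transcendental k w₃')
    [FiniteDimensional k⟮w₁'⟯ Fk₁] [Algebra.IsSeparable k⟮w₁'⟯ Fk₁]
    [FiniteDimensional k⟮w₂'⟯ Fk₂] [Algebra.IsSeparable k⟮w₂'⟯ Fk₂]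
    [FiniteDimensional k⟮w₃'⟯ Fk₃] [Algebra.IsSeparable k⟮w₃'⟯ Fk₃]
    (hgx₁ : (S36L3_red S₁ S₂ S₃ g).1 = x₁') (hgx₂ : (S36L3_red S₁ S₂ S₃ g).2.1 = x₂')
    (hgx₃ : (S36L3_red S₁ S₂ S₃ g).2.2 = x₃')
    (hunit₁ : ∀ Q : Place k Fk₁, Q.adicValuation x₁ ≤ 1 → Q.adicValuation x₁' ≤ 1 →
      Q.adicValuation x₁' = 1)
    (hunit₂ : ∀ Q : Place k Fk₂, Q.adicValuation x₂ ≤ 1 → Q.adicValuation x₂' ≤ 1 →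
      Q.adicValuation x₂' = 1)
    (hunit₃ : ∀ Q : Place k Fk₃, Q.adicValuation x₃ ≤ 1 → Q.adicValuation x₃' ≤ 1 →
      Q.adicValuation x₃' = 1)
    (hxy₁ : ∀ y, (X.P₁ y).adicValuation x₁ ≤ 1)
    (hW1 : ∀ m ∈ S36L3_W hS C'' 1, ∀ y,
      S36SE_e₁ C'' X hX y m.1 = S36SE_e₂ C'' X hX y m.2.1 ∧
      S36SE_e₁ C'' X hX y m.1 = S36SE_e₃ C'' X hX y m.2.2)
    (hint₁ : ∀ a a' : ↥C'.Rb₁, (∀ y, S36SE_e₁ C' X (hX.of_le hle') y a = 0) →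
      (∀ y, S36SE_e₁ C' X (hX.of_le hle') y a' = 0) →
      ((a * a', 0, 0) : ↥C'.Rb₁ × ↥C'.Rb₂ × ↥C'.Rb₃) ∈ S36L3_W hS C' 1)
    (hint₂ : ∀ a a' : ↥C'.Rb₂, (∀ y, S36SE_e₂ C' X (hX.of_le hle') y a = 0) →
      (∀ y, S36SE_e₂ C' X (hX.of_le hle') y a' = 0) →
      ((0, a * a', 0) : ↥C'.Rb₁ × ↥C'.Rb₂ × ↥C'.Rb₃) ∈ S36L3_W hS C' 1)
    (hint₃ : ∀ a a' : ↥C'.Rb₃, (∀ y, S36SE_e₃ C' X (hX.of_le hle') y a = 0) →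
      (∀ y, S36SE_e₃ C' X (hX.of_le hle') y a' = 0) →
      ((0, 0, a * a') : ↥C'.Rb₁ × ↥C'.Rb₂ × ↥C'.Rb₃) ∈ S36L3_W hS C' 1)
    (hsep : ∀ y, ∃ w ∈ S36L3_W hS C 1, S36SE_e₁ C X (hX.of_le hle) y w.1 = 1 ∧
      ∀ y', y' ≠ y → S36SE_e₁ C X (hX.of_le hle) y' w.1 = 0)
    (hpl₁ : ∀ u ∈ Kp, ∀ P : Place k Fk₁, P.adicValuation x₁ ≤ 1 →
      ∃ m ∈ S36L3_W hS C ((u : Fˣ) : F), FD_c0 P ((m.1 : ↥C.Rb₁) : Fk₁) ≠ 0)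
    (hpl₂ : ∀ u ∈ Kp, ∀ P : Place k Fk₂, P.adicValuation x₂ ≤ 1 →
      ∃ m ∈ S36L3_W hS C ((u : Fˣ) : F), FD_c0 P ((m.2.1 : ↥C.Rb₂) : Fk₂) ≠ 0)
    (hpl₃ : ∀ u ∈ Kp, ∀ P : Place k Fk₃, P.adicValuation x₃ ≤ 1 →
      ∃ m ∈ S36L3_W hS C ((u : Fˣ) : F), FD_c0 P ((m.2.2 : ↥C.Rb₃) : Fk₃) ≠ 0)
    (hcusp₁ : ∀ u ∈ Kp, ∀ P : Place k Fk₁, ¬ P.adicValuation x₁ ≤ 1 →
      P.adicValuation x₁' ≤ 1 →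
      ∃ m ∈ S36L3_W hS C' ((u : Fˣ) : F), FD_c0 P ((m.1 : ↥C'.Rb₁) : Fk₁) ≠ 0)
    (hcusp₂ : ∀ u ∈ Kp, ∀ P : Place k Fk₂, ¬ P.adicValuation x₂ ≤ 1 →
      P.adicValuation x₂' ≤ 1 →
      ∃ m ∈ S36L3_W hS C' ((u : Fˣ) : F), FD_c0 P ((m.2.1 : ↥C'.Rb₂) : Fk₂) ≠ 0)
    (hcusp₃ : ∀ u ∈ Kp, ∀ P : Place k Fk₃, ¬ P.adicValuation x₃ ≤ 1 →
      P.adicValuation x₃' ≤ 1 →
      ∃ m ∈ S36L3_W hS C' ((u : Fˣ) : F), FD_c0 P ((m.2.2 : ↥C'.Rb₃) : Fk₃) ≠ 0) :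
    S36TI_Geo hS C' X (hX.of_le hle') Kp :=
  S36TI_Geo.ofPlaces hS hKp h₁ h₂ h₃ w₁' w₂' w₃' c₁ c₂ c₃ hc₁ hc₂ hc₃
    (fun y => (hR₁' y).trans
      ⟨fun h Q hQ => h Q ((hxw₁ Q).2 hQ), fun h Q hQ => h Q ((hxw₁ Q).1 hQ)⟩)
    (fun y => (hR₂' y).trans
      ⟨fun h Q hQ => h Q ((hxw₂ Q).2 hQ), fun h Q hQ => h Q ((hxw₂ Q).1 hQ)⟩)
    (fun y => (hR₃' y).trans
      ⟨fun h Q hQ => h Q ((hxw₃ Q).2 hQ), fun h Q hQ => h Q ((hxw₃ Q).1 hQ)⟩)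
    hx₁ hx₂ hx₃
    (S36TI_hW1_of_le hS hle' (S36SE_e₁ C' X (hX.of_le hle')) (S36SE_e₂ C' X (hX.of_le hle'))
      (S36SE_e₃ C' X (hX.of_le hle')) (S36SE_e₁ C'' X hX) (S36SE_e₂ C'' X hX)
      (S36SE_e₃ C'' X hX) (fun _ _ => rfl) (fun _ _ => rfl) (fun _ _ => rfl) hW1)
    hint₁ hint₂ hint₃
    (fun y => S36SE_hsep_transfer hS hle hle' (S36SE_e₁ C X (hX.of_le hle))
      (S36SE_e₁ C' X (hX.of_le hle')) (S36SE_e₁ C'' X hX) (fun _ _ => rfl) (fun _ _ => rfl)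
      hsep g K.g₁ (S36CX_hgy₁ hle' X hX K x₁ x₁' hgx₁ hunit₁ hxy₁)
      (fun f hf a₁ a₂ a₃ => S36CX_hkill K f hf a₁ a₂ a₃) y)
    (fun u hu P hP => S36CX_pl₁ hS K h₁.deg_one x₁ x₁' hR₁ hgx₁ hunit₁ (hpl₁ u hu)
      (hcusp₁ u hu) P ((hxw₁ P).2 hP))
    (fun u hu P hP => S36CX_pl₂ hS K h₂.deg_one x₂ x₂' hR₂ hgx₂ hunit₂ (hpl₂ u hu)
      (hcusp₂ u hu) P ((hxw₂ P).2 hP))
    (fun u hu P hP => S36CX_pl₃ hS K h₃.deg_one x₃ x₃' hR₃ hgx₃ hunit₃ (hpl₃ u hu)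
      (hcusp₃ u hu) P ((hxw₃ P).2 hP))

/-- **`S36TI_Geo` on `U'` from `S36TI_Geo` on `U`**, two coordinates per component. -/
theorem S36CX_geo_of_geo2 [IsAlgClosed k] (hle : S36L3_ChartLE C C'')
    (hle' : S36L3_ChartLE C' C'')
    (X : S36SE_Pts k Fk₁ Fk₂ Fk₃ ι) (hX : S36SE_Reg C'' X) {Kp : Subgroup Fˣ}
    (hKp : Kp ≤ S36L3_NormGrp S₁ S₂ S₃) (K : S36CX_Kill C C' g)
    (h₁ : RR_Hyp k Fk₁) (h₂ : RR_Hyp k Fk₂) (h₃ : RR_Hyp k Fk₃)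
    (x₁ x₁' w₁' : Fk₁) (x₂ x₂' w₂' : Fk₂) (x₃ x₃' w₃' : Fk₃)
    (hxw₁ : ∀ Q : Place k Fk₁, Q.adicValuation x₁' ≤ 1 ↔ Q.adicValuation w₁' ≤ 1)
    (hxw₂ : ∀ Q : Place k Fk₂, Q.adicValuation x₂' ≤ 1 ↔ Q.adicValuation w₂' ≤ 1)
    (hxw₃ : ∀ Q : Place k Fk₃, Q.adicValuation x₃' ≤ 1 ↔ Q.adicValuation w₃' ≤ 1)
    (c₁ : Place k Fk₁) (c₂ : Place k Fk₂) (c₃ : Place k Fk₃)
    (hc₁ : c₁.ord w₁' < 0) (hc₂ : c₂.ord w₂' < 0) (hc₃ : c₃.ord w₃' < 0)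
    (hR₁ : ∀ f ∈ C.Rb₁, ∀ Q : Place k Fk₁, Q.adicValuation x₁ ≤ 1 → Q.adicValuation f ≤ 1)
    (hR₂ : ∀ f ∈ C.Rb₂, ∀ Q : Place k Fk₂, Q.adicValuation x₂ ≤ 1 → Q.adicValuation f ≤ 1)
    (hR₃ : ∀ f ∈ C.Rb₃, ∀ Q : Place k Fk₃, Q.adicValuation x₃ ≤ 1 → Q.adicValuation f ≤ 1)
    (hR₁' : ∀ y : Fk₁, y ∈ C'.Rb₁ ↔
      ∀ Q : Place k Fk₁, Q.adicValuation x₁' ≤ 1 → Q.adicValuation y ≤ 1)
    (hR₂' : ∀ y : Fk₂, y ∈ C'.Rb₂ ↔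
      ∀ Q : Place k Fk₂, Q.adicValuation x₂' ≤ 1 → Q.adicValuation y ≤ 1)
    (hR₃' : ∀ y : Fk₃, y ∈ C'.Rb₃ ↔
      ∀ Q : Place k Fk₃, Q.adicValuation x₃' ≤ 1 → Q.adicValuation y ≤ 1)
    (hx₁ : Transcendental k w₁') (hx₂ : Transcendental k w₂') (hx₃ : Transcendental k w₃')
    [FiniteDimensional k⟮w₁'⟯ Fk₁] [Algebra.IsSeparable k⟮w₁'⟯ Fk₁]
    [FiniteDimensional k⟮w₂'⟯ Fk₂] [Algebra.IsSeparable k⟮w₂'⟯ Fk₂]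
    [FiniteDimensional k⟮w₃'⟯ Fk₃] [Algebra.IsSeparable k⟮w₃'⟯ Fk₃]
    (hgx₁ : (S36L3_red S₁ S₂ S₃ g).1 = x₁') (hgx₂ : (S36L3_red S₁ S₂ S₃ g).2.1 = x₂')
    (hgx₃ : (S36L3_red S₁ S₂ S₃ g).2.2 = x₃')
    (hunit₁ : ∀ Q : Place k Fk₁, Q.adicValuation x₁ ≤ 1 → Q.adicValuation x₁' ≤ 1 →
      Q.adicValuation x₁' = 1)
    (hunit₂ : ∀ Q : Place k Fk₂, Q.adicValuation x₂ ≤ 1 → Q.adicValuation x₂' ≤ 1 →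
      Q.adicValuation x₂' = 1)
    (hunit₃ : ∀ Q : Place k Fk₃, Q.adicValuation x₃ ≤ 1 → Q.adicValuation x₃' ≤ 1 →
      Q.adicValuation x₃' = 1)
    (hxy₁ : ∀ y, (X.P₁ y).adicValuation x₁ ≤ 1)
    (hW1 : ∀ m ∈ S36L3_W hS C'' 1, ∀ y,
      S36SE_e₁ C'' X hX y m.1 = S36SE_e₂ C'' X hX y m.2.1 ∧
      S36SE_e₁ C'' X hX y m.1 = S36SE_e₃ C'' X hX y m.2.2)
    (hint₁ : ∀ a a' : ↥C'.Rb₁, (∀ y, S36SE_e₁ C' X (hX.of_le hle') y a = 0) →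
      (∀ y, S36SE_e₁ C' X (hX.of_le hle') y a' = 0) →
      ((a * a', 0, 0) : ↥C'.Rb₁ × ↥C'.Rb₂ × ↥C'.Rb₃) ∈ S36L3_W hS C' 1)
    (hint₂ : ∀ a a' : ↥C'.Rb₂, (∀ y, S36SE_e₂ C' X (hX.of_le hle') y a = 0) →
      (∀ y, S36SE_e₂ C' X (hX.of_le hle') y a' = 0) →
      ((0, a * a', 0) : ↥C'.Rb₁ × ↥C'.Rb₂ × ↥C'.Rb₃) ∈ S36L3_W hS C' 1)
    (hint₃ : ∀ a a' : ↥C'.Rb₃, (∀ y, S36SE_e₃ C' X (hX.of_le hle') y a = 0) →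
      (∀ y, S36SE_e₃ C' X (hX.of_le hle') y a' = 0) →
      ((0, 0, a * a') : ↥C'.Rb₁ × ↥C'.Rb₂ × ↥C'.Rb₃) ∈ S36L3_W hS C' 1)
    (G : S36TI_Geo hS C X (hX.of_le hle) Kp)
    (hcusp₁ : ∀ u ∈ Kp, ∀ P : Place k Fk₁, ¬ P.adicValuation x₁ ≤ 1 →
      P.adicValuation x₁' ≤ 1 →
      ∃ m ∈ S36L3_W hS C' ((u : Fˣ) : F), FD_c0 P ((m.1 : ↥C'.Rb₁) : Fk₁) ≠ 0)
    (hcusp₂ : ∀ u ∈ Kp, ∀ P : Place k Fk₂, ¬ P.adicValuation x₂ ≤ 1 →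
      P.adicValuation x₂' ≤ 1 →
      ∃ m ∈ S36L3_W hS C' ((u : Fˣ) : F), FD_c0 P ((m.2.1 : ↥C'.Rb₂) : Fk₂) ≠ 0)
    (hcusp₃ : ∀ u ∈ Kp, ∀ P : Place k Fk₃, ¬ P.adicValuation x₃ ≤ 1 →
      P.adicValuation x₃' ≤ 1 →
      ∃ m ∈ S36L3_W hS C' ((u : Fˣ) : F), FD_c0 P ((m.2.2 : ↥C'.Rb₃) : Fk₃) ≠ 0) :
    S36TI_Geo hS C' X (hX.of_le hle') Kp :=
  S36CX_geo_pl2 hS hle hle' X hX hKp K h₁ h₂ h₃ x₁ x₁' w₁' x₂ x₂' w₂' x₃ x₃' w₃'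
    hxw₁ hxw₂ hxw₃ c₁ c₂ c₃ hc₁ hc₂ hc₃
    hR₁ hR₂ hR₃ hR₁' hR₂' hR₃' hx₁ hx₂ hx₃ hgx₁ hgx₂ hgx₃ hunit₁ hunit₂ hunit₃ hxy₁ hW1
    hint₁ hint₂ hint₃ G.hsep
    (S36CX_pl_of_geo₁ hS G h₁.deg_one x₁ hR₁) (S36CX_pl_of_geo₂ hS G h₂.deg_one x₂ hR₂)
    (S36CX_pl_of_geo₃ hS G h₃.deg_one x₃ hR₃) hcusp₁ hcusp₂ hcusp₃

end transfer

section conc

variable {K F H : Type*} [Field K] [Field F] [Algebra K F] (S : S36FL_Act K F H)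
  {k Fk₁ Fk₂ Fk₃ : Type*} [Field k]
  [Field Fk₁] [Field Fk₂] [Field Fk₃] [Algebra k Fk₁] [Algebra k Fk₂] [Algebra k Fk₃]
  {S₁ : S18_Val ↥S.fixK ↥S.fixF k Fk₁} {S₂ : S18_Val ↥S.fixK ↥S.fixF k Fk₂}
  {S₃ : S18_Val ↥S.fixK ↥S.fixF k Fk₃}

/-- **the geometric inputs of the chart `U' = {j ≠ c}`** (helper23's `S36CU_U'`), with the RBAR
inputs stated for separable coordinates `w_j`, `x_j − c₀ = (w_j − d₀) ^ e`. -/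
theorem S36CX_geo_U'2 (hS : S36L3_Same S₁ S₂ S₃) [IsAlgClosed k]
    (hPKF : HasPrincipalDivisors K F)
    (j : ↥S.fixF) (c : ↥S.fixK) (c₀ : k) (x₁ : Fk₁) (x₂ : Fk₂) (x₃ : Fk₃) (n : ℕ) (hn : 0 < n)
    {ι : Type*} {X : S36SE_Pts k Fk₁ Fk₂ Fk₃ ι}
    (hX : S36SE_Reg (S36CU_U'' S k j c x₁ x₂ x₃ (x₁ - algebraMap k Fk₁ c₀)
      (x₂ - algebraMap k Fk₂ c₀) (x₃ - algebraMap k Fk₃ c₀) n hn) X)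
    {Kp : Subgroup (↥S.fixF)ˣ} (hKp : Kp ≤ S36L3_NormGrp S₁ S₂ S₃)
    -- the function `g = (j − c)⁻¹`
    (g : S36L3_O3 S₁ S₂ S₃)
    (hg : ((g : ↥S.fixF) : F) = ((j : F) - algebraMap K F (c : K))⁻¹)
    (hr₁ : (S36L3_red S₁ S₂ S₃ g).1 = (x₁ - algebraMap k Fk₁ c₀)⁻¹)
    (hr₂ : (S36L3_red S₁ S₂ S₃ g).2.1 = (x₂ - algebraMap k Fk₂ c₀)⁻¹)
    (hr₃ : (S36L3_red S₁ S₂ S₃ g).2.2 = (x₃ - algebraMap k Fk₃ c₀)⁻¹)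
    -- RBAR, for the separable coordinates
    (h₁ : RR_Hyp k Fk₁) (h₂ : RR_Hyp k Fk₂) (h₃ : RR_Hyp k Fk₃)
    (w₁ : Fk₁) (w₂ : Fk₂) (w₃ : Fk₃) (d₀ : k) (e : ℕ) (he : 0 < e)
    (hxw₁ : x₁ - algebraMap k Fk₁ c₀ = (w₁ - algebraMap k Fk₁ d₀) ^ e)
    (hxw₂ : x₂ - algebraMap k Fk₂ c₀ = (w₂ - algebraMap k Fk₂ d₀) ^ e)
    (hxw₃ : x₃ - algebraMap k Fk₃ c₀ = (w₃ - algebraMap k Fk₃ d₀) ^ e)
    (hw₁ : Transcendental k w₁) (hw₂ : Transcendental k w₂) (hw₃ : Transcendental k w₃)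
    [FiniteDimensional k⟮w₁⟯ Fk₁] [Algebra.IsSeparable k⟮w₁⟯ Fk₁]
    [FiniteDimensional k⟮w₂⟯ Fk₂] [Algebra.IsSeparable k⟮w₂⟯ Fk₂]
    [FiniteDimensional k⟮w₃⟯ Fk₃] [Algebra.IsSeparable k⟮w₃⟯ Fk₃]
    -- NODAL3-INST
    (hW1 : ∀ m ∈ S36L3_W hS (S36CU_U'' S k j c x₁ x₂ x₃ (x₁ - algebraMap k Fk₁ c₀)
        (x₂ - algebraMap k Fk₂ c₀) (x₃ - algebraMap k Fk₃ c₀) n hn) 1, ∀ y,
      S36SE_e₁ _ X hX y m.1 = S36SE_e₂ _ X hX y m.2.1 ∧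
      S36SE_e₁ _ X hX y m.1 = S36SE_e₃ _ X hX y m.2.2)
    (hint₁ : ∀ a a' : ↥(S36CU_U' S k j c (x₁ - algebraMap k Fk₁ c₀)
        (x₂ - algebraMap k Fk₂ c₀) (x₃ - algebraMap k Fk₃ c₀) n hn).Rb₁,
      (∀ y, S36SE_e₁ _ X (hX.of_le (S36CU_le' S k j c x₁ x₂ x₃ _ _ _ n hn)) y a = 0) →
      (∀ y, S36SE_e₁ _ X (hX.of_le (S36CU_le' S k j c x₁ x₂ x₃ _ _ _ n hn)) y a' = 0) →
      ((a * a', 0, 0) : _ × _ × _) ∈ S36L3_W hS (S36CU_U' S k j c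
        (x₁ - algebraMap k Fk₁ c₀) (x₂ - algebraMap k Fk₂ c₀) (x₃ - algebraMap k Fk₃ c₀) n hn) 1)
    (hint₂ : ∀ a a' : ↥(S36CU_U' S k j c (x₁ - algebraMap k Fk₁ c₀)
        (x₂ - algebraMap k Fk₂ c₀) (x₃ - algebraMap k Fk₃ c₀) n hn).Rb₂,
      (∀ y, S36SE_e₂ _ X (hX.of_le (S36CU_le' S k j c x₁ x₂ x₃ _ _ _ n hn)) y a = 0) →
      (∀ y, S36SE_e₂ _ X (hX.of_le (S36CU_le' S k j c x₁ x₂ x₃ _ _ _ n hn)) y a' = 0) →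
      ((0, a * a', 0) : _ × _ × _) ∈ S36L3_W hS (S36CU_U' S k j c
        (x₁ - algebraMap k Fk₁ c₀) (x₂ - algebraMap k Fk₂ c₀) (x₃ - algebraMap k Fk₃ c₀) n hn) 1)
    (hint₃ : ∀ a a' : ↥(S36CU_U' S k j c (x₁ - algebraMap k Fk₁ c₀)
        (x₂ - algebraMap k Fk₂ c₀) (x₃ - algebraMap k Fk₃ c₀) n hn).Rb₃,
      (∀ y, S36SE_e₃ _ X (hX.of_le (S36CU_le' S k j c x₁ x₂ x₃ _ _ _ n hn)) y a = 0) →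
      (∀ y, S36SE_e₃ _ X (hX.of_le (S36CU_le' S k j c x₁ x₂ x₃ _ _ _ n hn)) y a' = 0) →
      ((0, 0, a * a') : _ × _ × _) ∈ S36L3_W hS (S36CU_U' S k j c
        (x₁ - algebraMap k Fk₁ c₀) (x₂ - algebraMap k Fk₂ c₀) (x₃ - algebraMap k Fk₃ c₀) n hn) 1)
    -- the chart `U`
    (G : S36TI_Geo hS (S36CU_U S k j x₁ x₂ x₃ n hn) X
      (hX.of_le (S36CU_le S k j c x₁ x₂ x₃ _ _ _ n hn)) Kp)
    -- (LI) at the cusps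
    (hcusp₁ : ∀ u ∈ Kp, ∀ P : Place k Fk₁, ¬ P.adicValuation x₁ ≤ 1 →
      P.adicValuation (x₁ - algebraMap k Fk₁ c₀)⁻¹ ≤ 1 →
      ∃ m ∈ S36L3_W hS (S36CU_U' S k j c (x₁ - algebraMap k Fk₁ c₀)
        (x₂ - algebraMap k Fk₂ c₀) (x₃ - algebraMap k Fk₃ c₀) n hn) ((u : (↥S.fixF)ˣ) : ↥S.fixF),
        FD_c0 P ((m.1 : ↥(S34SB_regZ k (x₁ - algebraMap k Fk₁ c₀))) : Fk₁) ≠ 0)
    (hcusp₂ : ∀ u ∈ Kp, ∀ P : Place k Fk₂, ¬ P.adicValuation x₂ ≤ 1 →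
      P.adicValuation (x₂ - algebraMap k Fk₂ c₀)⁻¹ ≤ 1 →
      ∃ m ∈ S36L3_W hS (S36CU_U' S k j c (x₁ - algebraMap k Fk₁ c₀)
        (x₂ - algebraMap k Fk₂ c₀) (x₃ - algebraMap k Fk₃ c₀) n hn) ((u : (↥S.fixF)ˣ) : ↥S.fixF),
        FD_c0 P ((m.2.1 : ↥(S34SB_regZ k (x₂ - algebraMap k Fk₂ c₀))) : Fk₂) ≠ 0)
    (hcusp₃ : ∀ u ∈ Kp, ∀ P : Place k Fk₃, ¬ P.adicValuation x₃ ≤ 1 →
      P.adicValuation (x₃ - algebraMap k Fk₃ c₀)⁻¹ ≤ 1 →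
      ∃ m ∈ S36L3_W hS (S36CU_U' S k j c (x₁ - algebraMap k Fk₁ c₀)
        (x₂ - algebraMap k Fk₂ c₀) (x₃ - algebraMap k Fk₃ c₀) n hn) ((u : (↥S.fixF)ˣ) : ↥S.fixF),
        FD_c0 P ((m.2.2 : ↥(S34SB_regZ k (x₃ - algebraMap k Fk₃ c₀))) : Fk₃) ≠ 0) :
    S36TI_Geo hS (S36CU_U' S k j c (x₁ - algebraMap k Fk₁ c₀) (x₂ - algebraMap k Fk₂ c₀)
      (x₃ - algebraMap k Fk₃ c₀) n hn) X
      (hX.of_le (S36CU_le' S k j c x₁ x₂ x₃ _ _ _ n hn)) Kp := by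
  have hz₁ : x₁ - algebraMap k Fk₁ c₀ ≠ 0 :=
    hxw₁ ▸ pow_ne_zero e (S36CX_sub_ne_zero_of_transc hw₁ d₀)
  have hz₂ : x₂ - algebraMap k Fk₂ c₀ ≠ 0 :=
    hxw₂ ▸ pow_ne_zero e (S36CX_sub_ne_zero_of_transc hw₂ d₀)
  have hz₃ : x₃ - algebraMap k Fk₃ c₀ ≠ 0 :=
    hxw₃ ▸ pow_ne_zero e (S36CX_sub_ne_zero_of_transc hw₃ d₀)
  have hv₁ : ∀ Q : Place k Fk₁, Q.adicValuation (x₁ - algebraMap k Fk₁ c₀)⁻¹ ≤ 1 ↔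
      Q.adicValuation (w₁ - algebraMap k Fk₁ d₀)⁻¹ ≤ 1 := fun Q => by
    rw [hxw₁, ← inv_pow]
    exact S36CX_val_pow_le_one_iff Q _ he
  have hv₂ : ∀ Q : Place k Fk₂, Q.adicValuation (x₂ - algebraMap k Fk₂ c₀)⁻¹ ≤ 1 ↔
      Q.adicValuation (w₂ - algebraMap k Fk₂ d₀)⁻¹ ≤ 1 := fun Q => by
    rw [hxw₂, ← inv_pow]
    exact S36CX_val_pow_le_one_iff Q _ he
  have hv₃ : ∀ Q : Place k Fk₃, Q.adicValuation (x₃ - algebraMap k Fk₃ c₀)⁻¹ ≤ 1 ↔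
      Q.adicValuation (w₃ - algebraMap k Fk₃ d₀)⁻¹ ≤ 1 := fun Q => by
    rw [hxw₃, ← inv_pow]
    exact S36CX_val_pow_le_one_iff Q _ he
  have ht₁ := S36CX_transc_inv_sub hw₁ d₀
  have ht₂ := S36CX_transc_inv_sub hw₂ d₀
  have ht₃ := S36CX_transc_inv_sub hw₃ d₀
  obtain ⟨c₁, hc₁⟩ := S36CX_pole_of_transc h₁ ht₁
  obtain ⟨c₂, hc₂⟩ := S36CX_pole_of_transc h₂ ht₂
  obtain ⟨c₃, hc₃⟩ := S36CX_pole_of_transc h₃ ht₃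
  haveI : FiniteDimensional k⟮(w₁ - algebraMap k Fk₁ d₀)⁻¹⟯ Fk₁ :=
    S36CX_findim_of_eq (S36CX_adjoin_inv_sub w₁ d₀).symm
  haveI : FiniteDimensional k⟮(w₂ - algebraMap k Fk₂ d₀)⁻¹⟯ Fk₂ :=
    S36CX_findim_of_eq (S36CX_adjoin_inv_sub w₂ d₀).symm
  haveI : FiniteDimensional k⟮(w₃ - algebraMap k Fk₃ d₀)⁻¹⟯ Fk₃ :=
    S36CX_findim_of_eq (S36CX_adjoin_inv_sub w₃ d₀).symm
  haveI : Algebra.IsSeparable k⟮(w₁ - algebraMap k Fk₁ d₀)⁻¹⟯ Fk₁ :=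
    S36CX_sep_of_eq (S36CX_adjoin_inv_sub w₁ d₀).symm
  haveI : Algebra.IsSeparable k⟮(w₂ - algebraMap k Fk₂ d₀)⁻¹⟯ Fk₂ :=
    S36CX_sep_of_eq (S36CX_adjoin_inv_sub w₂ d₀).symm
  haveI : Algebra.IsSeparable k⟮(w₃ - algebraMap k Fk₃ d₀)⁻¹⟯ Fk₃ :=
    S36CX_sep_of_eq (S36CX_adjoin_inv_sub w₃ d₀).symm
  have hxy₁ : ∀ y, (X.P₁ y).adicValuation x₁ ≤ 1 := fun y =>
    hX.reg₁ y x₁ (S36CU_self_mem_reg2 x₁ _)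
  exact S36CX_geo_of_geo2 hS (S36CU_le S k j c x₁ x₂ x₃ _ _ _ n hn)
    (S36CU_le' S k j c x₁ x₂ x₃ _ _ _ n hn) X hX hKp
    (S36CX_kill_conc S hPKF h₁.principal h₂.principal h₃.principal j c c₀ x₁ x₂ x₃ n hn g hg
      hr₁ hr₂ hr₃)
    h₁ h₂ h₃ x₁ _ _ x₂ _ _ x₃ _ _ hv₁ hv₂ hv₃ c₁ c₂ c₃ hc₁ hc₂ hc₃
    (fun f hf => S36CU_mem_reg_adic.1 hf) (fun f hf => S36CU_mem_reg_adic.1 hf)
    (fun f hf => S36CU_mem_reg_adic.1 hf)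
    (fun _ => S36CU_mem_regZ_adic) (fun _ => S36CU_mem_regZ_adic) (fun _ => S36CU_mem_regZ_adic)
    ht₁ ht₂ ht₃ hr₁ hr₂ hr₃
    (fun Q hQ hQ' => S36CX_hunit x₁ c₀ hz₁ Q hQ hQ')
    (fun Q hQ hQ' => S36CX_hunit x₂ c₀ hz₂ Q hQ hQ')
    (fun Q hQ hQ' => S36CX_hunit x₃ c₀ hz₃ Q hQ hQ')
    hxy₁ hW1 hint₁ hint₂ hint₃ G hcusp₁ hcusp₂ hcusp₃

end conc

end Fermat.Agent.S36
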