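import Fermat.Agent.S36.ChartTransfer

/-!
# TRACK 10 (S36), T'-TRANSFER part 4 (helper2): `hW1` on `U'' = U ∩ U'` from `hW1` on `U`

Prefix `S36CX_`.  `S36LC_hloc` / `S36TI_hloc` / `S36WF_body` consume `hW1` on the chart `U''`,
while `hW1` by norms (helper14, `S36N3W_hW1`) is proved on the chart of the level-`q` block,
which is built for `U` only.  An integral function `f` regular on `U''` becomes regular on `U`
after multiplication by a power of `h = j − c` (`S36CX_Kill C'' C h`), and `h` is a unit at the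
triple points:

* `S36CX_hW1_up` : **`hW1` on `U''` from `hW1` on `U`**;
* `S36CX_kill_conc''` : the kill data `S36CX_Kill U'' U (j − c)` for helper23's charts.
-/

set_option autoImplicit false
set_option linter.unusedSectionVars false

open AlgebraicCurve

namespace Fermat.Agent.S36

open Fermat.Agent.S18 Fermat.Agent.S34

section transfer

variable {L F k Fk₁ Fk₂ Fk₃ : Type*} [Field L] [Field F] [Algebra L F] [Field k]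
  [Field Fk₁] [Field Fk₂] [Field Fk₃] [Algebra k Fk₁] [Algebra k Fk₂] [Algebra k Fk₃]
  {S₁ : S18_Val L F k Fk₁} {S₂ : S18_Val L F k Fk₂} {S₃ : S18_Val L F k Fk₃}
  (hS : S36L3_Same S₁ S₂ S₃) {n : ℕ} {ι : Type*}
  {C C'' : S36L3_Chart L F k Fk₁ Fk₂ Fk₃ n} {h : S36L3_O3 S₁ S₂ S₃}

/-- the reduction of `h` is an element of `W¹` of the chart `U`. -/
theorem S36CX_kill_mem_W (K : S36CX_Kill C'' C h) :
    ((⟨_, K.g₁⟩, ⟨_, K.g₂⟩, ⟨_, K.g₃⟩) : ↥C.Rb₁ × ↥C.Rb₂ × ↥C.Rb₃) ∈ S36L3_W hS C 1 :=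
  (S36L3_mem_W_one hS C _).2 ⟨h, K.gB, rfl⟩

/-- **`hW1` on `U''` from `hW1` on `U`.** -/
theorem S36CX_hW1_up (hle : S36L3_ChartLE C C'') (K : S36CX_Kill C'' C h)
    (e₁ : ι → ↥C.Rb₁ →ₐ[k] k) (e₂ : ι → ↥C.Rb₂ →ₐ[k] k) (e₃ : ι → ↥C.Rb₃ →ₐ[k] k)
    (e₁'' : ι → ↥C''.Rb₁ →ₐ[k] k) (e₂'' : ι → ↥C''.Rb₂ →ₐ[k] k) (e₃'' : ι → ↥C''.Rb₃ →ₐ[k] k)
    (c₁ : ∀ y (r : ↥C.Rb₁), e₁'' y ⟨r, hle.Rb₁_le r.2⟩ = e₁ y r)
    (c₂ : ∀ y (r : ↥C.Rb₂), e₂'' y ⟨r, hle.Rb₂_le r.2⟩ = e₂ y r)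
    (c₃ : ∀ y (r : ↥C.Rb₃), e₃'' y ⟨r, hle.Rb₃_le r.2⟩ = e₃ y r)
    (hhy : ∀ y, e₁ y ⟨_, K.g₁⟩ ≠ 0)
    (hW1 : ∀ m ∈ S36L3_W hS C 1, ∀ y, e₁ y m.1 = e₂ y m.2.1 ∧ e₁ y m.1 = e₃ y m.2.2) :
    ∀ m ∈ S36L3_W hS C'' 1, ∀ y, e₁'' y m.1 = e₂'' y m.2.1 ∧ e₁'' y m.1 = e₃'' y m.2.2 := by
  intro m hm y
  obtain ⟨N₀, hN⟩ := S36CX_W_transfer hS K hm
  obtain ⟨m', hm', q1, q2, q3⟩ := hN N₀ le_rfl
  -- the values of `h`
  have hh := hW1 _ (S36CX_kill_mem_W hS K) y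
  set v : k := e₁ y ⟨_, K.g₁⟩ with hv
  have hv0 : v ≠ 0 := hhy y
  have hv2 : e₂ y ⟨_, K.g₂⟩ = v := hh.1.symm
  have hv3 : e₃ y ⟨_, K.g₃⟩ = v := hh.2.symm
  -- the values of `m'`
  have a1 : e₁ y m'.1 = e₁'' y m.1 * v ^ N₀ := by
    have e : (⟨m'.1, hle.Rb₁_le m'.1.2⟩ : ↥C''.Rb₁) =
        m.1 * (⟨_, hle.Rb₁_le K.g₁⟩ : ↥C''.Rb₁) ^ N₀ :=
      Subtype.ext (by
        show (m'.1 : Fk₁) = _
        rw [q1]
        rfl)
    rw [← c₁ y m'.1, e, map_mul, map_pow, c₁ y ⟨_, K.g₁⟩]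
  have a2 : e₂ y m'.2.1 = e₂'' y m.2.1 * v ^ N₀ := by
    have e : (⟨m'.2.1, hle.Rb₂_le m'.2.1.2⟩ : ↥C''.Rb₂) =
        m.2.1 * (⟨_, hle.Rb₂_le K.g₂⟩ : ↥C''.Rb₂) ^ N₀ :=
      Subtype.ext (by
        show (m'.2.1 : Fk₂) = _
        rw [q2]
        rfl)
    rw [← c₂ y m'.2.1, e, map_mul, map_pow, c₂ y ⟨_, K.g₂⟩, hv2]
  have a3 : e₃ y m'.2.2 = e₃'' y m.2.2 * v ^ N₀ := by
    have e : (⟨m'.2.2, hle.Rb₃_le m'.2.2.2⟩ : ↥C''.Rb₃) =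
        m.2.2 * (⟨_, hle.Rb₃_le K.g₃⟩ : ↥C''.Rb₃) ^ N₀ :=
      Subtype.ext (by
        show (m'.2.2 : Fk₃) = _
        rw [q3]
        rfl)
    rw [← c₃ y m'.2.2, e, map_mul, map_pow, c₃ y ⟨_, K.g₃⟩, hv3]
  have hm'W := hW1 m' hm' y
  rw [a1, a2, a3] at hm'W
  have hvN : v ^ N₀ ≠ 0 := pow_ne_zero _ hv0
  exact ⟨mul_right_cancel₀ hvN hm'W.1, mul_right_cancel₀ hvN hm'W.2⟩

end transfer

/-! ### the kill data `U'' → U` of the standard charts -/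

section conc

variable {K F H : Type*} [Field K] [Field F] [Algebra K F] (S : S36FL_Act K F H)
variable {k Fk₁ Fk₂ Fk₃ : Type*} [Field k]
  [Field Fk₁] [Field Fk₂] [Field Fk₃] [Algebra k Fk₁] [Algebra k Fk₂] [Algebra k Fk₃]
  {S₁ : S18_Val S.fixK S.fixF k Fk₁} {S₂ : S18_Val S.fixK S.fixF k Fk₂}
  {S₃ : S18_Val S.fixK S.fixF k Fk₃}

/-- clearing the poles on `{x = c}`: `f ∈ reg2 x (x − c) ⇒ f · (x − c) ^ N ∈ reg x`. -/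
theorem S36CX_clear2 {K' F' : Type*} [Field K'] [Field F'] [Algebra K' F']
    (hP : HasPrincipalDivisors K' F') (x : F') (c : K') {f : F'}
    (hf : f ∈ S34SB_reg2 K' x (x - algebraMap K' F' c)) :
    ∃ N : ℕ, f * (x - algebraMap K' F' c) ^ N ∈ S34SB_reg K' x := by
  by_cases hz : x - algebraMap K' F' c = 0
  · -- `x = c` is constant: `reg x` is everything regular off the empty set of poles
    refine ⟨1, ?_⟩
    rw [hz, pow_one, mul_zero]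
    exact (S34SB_reg K' x).zero_mem
  · obtain ⟨m, hm⟩ := (S34SB_mem_reg2_iff hP x c hz).1 hf
    exact ⟨m, by rw [mul_comm]; exact hm⟩

/-- **the kill data `U'' → U`** of helper23's charts: `h = j − c`, with reductions
`x_j − c₀`. -/
theorem S36CX_kill_conc'' (hP : HasPrincipalDivisors K F) (hP₁ : HasPrincipalDivisors k Fk₁)
    (hP₂ : HasPrincipalDivisors k Fk₂) (hP₃ : HasPrincipalDivisors k Fk₃)
    (j : S.fixF) (c : S.fixK) (c₀ : k) (x₁ : Fk₁) (x₂ : Fk₂) (x₃ : Fk₃) (n : ℕ) (hn : 0 < n)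
    (h : S36L3_O3 S₁ S₂ S₃)
    (hh : ((h : S.fixF) : F) = (j : F) - algebraMap K F (c : K))
    (hr₁ : (S36L3_red S₁ S₂ S₃ h).1 = x₁ - algebraMap k Fk₁ c₀)
    (hr₂ : (S36L3_red S₁ S₂ S₃ h).2.1 = x₂ - algebraMap k Fk₂ c₀)
    (hr₃ : (S36L3_red S₁ S₂ S₃ h).2.2 = x₃ - algebraMap k Fk₃ c₀) :
    S36CX_Kill
      (S36CU_U'' S k j c x₁ x₂ x₃ (x₁ - algebraMap k Fk₁ c₀) (x₂ - algebraMap k Fk₂ c₀)
        (x₃ - algebraMap k Fk₃ c₀) n hn)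
      (S36CU_U S k j x₁ x₂ x₃ n hn) h where
  gB := by
    show ((h : S.fixF) : F) ∈ S34IX_reg (S34IX_TU (K := K) (j : F))
    rw [S36CU_reg_eq, hh]
    exact S34SB_sub_const_mem_reg _ _
  g₁ := by
    show (S36L3_red S₁ S₂ S₃ h).1 ∈ S34SB_reg k x₁
    rw [hr₁]
    exact S34SB_sub_const_mem_reg _ _
  g₂ := by
    show (S36L3_red S₁ S₂ S₃ h).2.1 ∈ S34SB_reg k x₂
    rw [hr₂]
    exact S34SB_sub_const_mem_reg _ _
  g₃ := by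
    show (S36L3_red S₁ S₂ S₃ h).2.2 ∈ S34SB_reg k x₃
    rw [hr₃]
    exact S34SB_sub_const_mem_reg _ _
  kB := by
    intro b hb
    have hb' : (b : F) ∈ S34SB_reg2 K (j : F) ((j : F) - algebraMap K F (c : K)) := by
      rw [← S36CU_reg2_eq]
      exact hb
    obtain ⟨N, hN⟩ := S36CX_clear2 hP (j : F) (c : K) hb'
    refine ⟨N, ?_⟩
    show ((b * (h : S.fixF) ^ N : S.fixF) : F) ∈ S34IX_reg (S34IX_TU (K := K) (j : F))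
    rw [S36CU_reg_eq]
    have e : ((b * (h : S.fixF) ^ N : S.fixF) : F) =
        (b : F) * ((j : F) - algebraMap K F (c : K)) ^ N := by
      push_cast
      rw [hh]
    rw [e]
    exact hN
  k₁ := by
    intro r hr
    obtain ⟨N, hN⟩ := S36CX_clear2 hP₁ x₁ c₀
      (show r ∈ S34SB_reg2 k x₁ (x₁ - algebraMap k Fk₁ c₀) from hr)
    exact ⟨N, by
      show r * (S36L3_red S₁ S₂ S₃ h).1 ^ N ∈ S34SB_reg k x₁
      rw [hr₁]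
      exact hN⟩
  k₂ := by
    intro r hr
    obtain ⟨N, hN⟩ := S36CX_clear2 hP₂ x₂ c₀
      (show r ∈ S34SB_reg2 k x₂ (x₂ - algebraMap k Fk₂ c₀) from hr)
    exact ⟨N, by
      show r * (S36L3_red S₁ S₂ S₃ h).2.1 ^ N ∈ S34SB_reg k x₂
      rw [hr₂]
      exact hN⟩
  k₃ := by
    intro r hr
    obtain ⟨N, hN⟩ := S36CX_clear2 hP₃ x₃ c₀
      (show r ∈ S34SB_reg2 k x₃ (x₃ - algebraMap k Fk₃ c₀) from hr)
    exact ⟨N, by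
      show r * (S36L3_red S₁ S₂ S₃ h).2.2 ^ N ∈ S34SB_reg k x₃
      rw [hr₃]
      exact hN⟩

end conc

end Fermat.Agent.S36
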