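import Fermat.Agent.S36.Charts
import Fermat.Agent.S36.LiInst
import Fermat.Agent.S36.Int3Fam

/-!
# TRACK 10 (S36), C1.1 CHARTS, part 3 (helper23): `hjO`, `hsO` of INJ3 and `hle` of LI-INST.
Prefix `S36CO_`.

* `S36CO_inv_mem` : on a valuation datum `S : S18_Val L F k Fk`: if the reduction of `x ∈ O` is
  not the constant `c̄`, then `1/(x − c) ∈ O`;
  `S36CO_inv_mem_of_transc` : the same if the reduction of `x` is transcendental over `k`;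
* `S36CO_hjO`, `S36CO_hsO` : the hypotheses `hjO`, `hsO` of `S36I3_core_fix` (`S36I3_htors_fix`,
  `S36I3_inj_fix`) for a coordinate `x` integral on the three components whose three reductions
  are not the constant `c̄` (resp. are transcendental);
* `S36CO_hle`, `S36CO_Lam_eq` : `hle` of `S36LK_*` (helper19): for a family `D : S36IT_Fam Ω F F_L ιv`
  (helper17) over the fixed field `F_L = S.fixF` whose vertical rings are `S₁.O, S₂.O, S₃.O` and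
  whose horizontal places are those of the chart `T`, `D.Λ = O₃ ∩ B_T`
  (`B_T = S36I3_reg S T` = the `B` of the charts `S36CU_U`, `S36CU_U'`, `S36CU_U''`).
-/

set_option autoImplicit false
set_option linter.unusedSectionVars false
set_option linter.unusedVariables false

open AlgebraicCurve

namespace Fermat.Agent.S36

open Fermat.Agent.Lib Fermat.Agent.S18 Fermat.Agent.S24 Fermat.Agent.S34

/-! ### `1/(x − c)` is integral -/

section one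

variable {L F k Fk : Type*} [Field L] [Field F] [Algebra L F] [Field k] [Field Fk]
  [Algebra k Fk] (S : S18_Val L F k Fk)

/-- the inverse of an element of `O` with non-zero reduction lies in `O`. -/
theorem S36CO_inv_mem_of_red_ne (y : S.O) (hy : S.red y ≠ 0) : ((y : F))⁻¹ ∈ S.O := by
  obtain ⟨u, hu⟩ := (S.red_ne_zero_iff y).1 hy
  have h1 : ((↑(u⁻¹) : S.O) : F) * (y : F) = 1 := by
    rw [← hu]
    have := u.inv_mul
    exact_mod_cast congrArg (Subtype.val) this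
  rw [inv_eq_of_mul_eq_one_left h1]
  exact (↑(u⁻¹) : S.O).2

/-- `x − c ∈ O`. -/
theorem S36CO_sub_mem {x : F} (hx : x ∈ S.O) (c : S.A) : x - algebraMap L F (c : L) ∈ S.O :=
  S.O.sub_mem hx ((S.algebraMap_mem_iff c).2 c.2)

/-- the reduction of `x − c`. -/
theorem S36CO_red_sub {x : F} (hx : x ∈ S.O) (c : S.A) :
    S.red ⟨x - algebraMap L F (c : L), S36CO_sub_mem S hx c⟩ =
      S.red ⟨x, hx⟩ - algebraMap k Fk (S.res c) := by
  have e : (⟨x - algebraMap L F (c : L), S36CO_sub_mem S hx c⟩ : S.O) =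
      ⟨x, hx⟩ - ⟨algebraMap L F (c : L), (S.algebraMap_mem_iff c).2 c.2⟩ := rfl
  rw [e, map_sub, S.red_algebraMap (c : L) c.2]

/-- if the reduction of `x` is not `c̄`, then `1/(x − c) ∈ O`. -/
theorem S36CO_inv_mem {x : F} (hx : x ∈ S.O) (c : S.A)
    (hne : S.red ⟨x, hx⟩ ≠ algebraMap k Fk (S.res c)) :
    (x - algebraMap L F (c : L))⁻¹ ∈ S.O := by
  refine S36CO_inv_mem_of_red_ne S ⟨_, S36CO_sub_mem S hx c⟩ ?_
  rw [S36CO_red_sub S hx c]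
  exact sub_ne_zero.2 hne

/-- the reduction of `1/(x − c)`. -/
theorem S36CO_red_inv {x : F} (hx : x ∈ S.O) (c : S.A)
    (hne : S.red ⟨x, hx⟩ ≠ algebraMap k Fk (S.res c)) :
    S.red ⟨(x - algebraMap L F (c : L))⁻¹, S36CO_inv_mem S hx c hne⟩ =
      (S.red ⟨x, hx⟩ - algebraMap k Fk (S.res c))⁻¹ := by
  have h0 : S.red ⟨x, hx⟩ - algebraMap k Fk (S.res c) ≠ 0 := sub_ne_zero.2 hne
  have hz : x - algebraMap L F (c : L) ≠ 0 := by
    intro hz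
    apply h0
    rw [← S36CO_red_sub S hx c]
    have : (⟨x - algebraMap L F (c : L), S36CO_sub_mem S hx c⟩ : S.O) = 0 := Subtype.ext hz
    rw [this, map_zero]
  have e : (⟨(x - algebraMap L F (c : L))⁻¹, S36CO_inv_mem S hx c hne⟩ : S.O) *
      ⟨x - algebraMap L F (c : L), S36CO_sub_mem S hx c⟩ = 1 :=
    Subtype.ext (inv_mul_cancel₀ hz)
  refine eq_inv_of_mul_eq_one_left ?_
  rw [← S36CO_red_sub S hx c, ← map_mul, e, map_one]

/-- a transcendental element is not a constant. -/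
theorem S36CO_ne_const_of_transc {y : Fk} (hy : Transcendental k y) (a : k) :
    y ≠ algebraMap k Fk a := by
  intro h
  exact hy (h ▸ isAlgebraic_algebraMap a)

/-- if the reduction of `x` is transcendental, then `1/(x − c) ∈ O` for every `c ∈ A`. -/
theorem S36CO_inv_mem_of_transc {x : F} (hx : x ∈ S.O) (c : S.A)
    (ht : Transcendental k (S.red ⟨x, hx⟩)) : (x - algebraMap L F (c : L))⁻¹ ∈ S.O :=
  S36CO_inv_mem S hx c (S36CO_ne_const_of_transc ht _)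

end one

/-! ### `hjO`, `hsO` -/

section three

variable {L F k Fk₁ Fk₂ Fk₃ : Type*} [Field L] [Field F] [Algebra L F] [Field k]
  [Field Fk₁] [Field Fk₂] [Field Fk₃] [Algebra k Fk₁] [Algebra k Fk₂] [Algebra k Fk₃]
  {S₁ : S18_Val L F k Fk₁} {S₂ : S18_Val L F k Fk₂} {S₃ : S18_Val L F k Fk₃}

/-- `hjO` of INJ3. -/
theorem S36CO_hjO {x : F} (h₁ : x ∈ S₁.O) (h₂ : x ∈ S₂.O) (h₃ : x ∈ S₃.O) :
    x ∈ S36L3_O3 S₁ S₂ S₃ := ⟨h₁, h₂, h₃⟩

/-- `hsO` of INJ3: the three reductions of `x` are not the constant `c̄`. -/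
theorem S36CO_hsO (hS : S36L3_Same S₁ S₂ S₃) {x : F} (hx : x ∈ S36L3_O3 S₁ S₂ S₃) (c : S₁.A)
    (hne₁ : S₁.red ⟨x, hx.1⟩ ≠ algebraMap k Fk₁ (S₁.res c))
    (hne₂ : S₂.red ⟨x, hx.2.1⟩ ≠ algebraMap k Fk₂ (S₁.res c))
    (hne₃ : S₃.red ⟨x, hx.2.2⟩ ≠ algebraMap k Fk₃ (S₁.res c)) :
    (x - algebraMap S₁.A F c)⁻¹ ∈ S36L3_O3 S₁ S₂ S₃ := by
  have e : algebraMap S₁.A F c = algebraMap L F (c : L) := rfl
  rw [e]
  refine ⟨S36CO_inv_mem S₁ hx.1 c hne₁, ?_, ?_⟩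
  · have hc : (c : L) ∈ S₂.A := hS.same₂.A_eq ▸ c.2
    have := S36CO_inv_mem S₂ hx.2.1 ⟨(c : L), hc⟩ (by
      rw [← hS.same₂.res_eq (c : L) c.2 hc]; exact hne₂)
    exact this
  · have hc : (c : L) ∈ S₃.A := hS.same₃.A_eq ▸ c.2
    have := S36CO_inv_mem S₃ hx.2.2 ⟨(c : L), hc⟩ (by
      rw [← hS.same₃.res_eq (c : L) c.2 hc]; exact hne₃)
    exact this

/-- `hsO` of INJ3: the three reductions of `x` are transcendental. -/
theorem S36CO_hsO_of_transc (hS : S36L3_Same S₁ S₂ S₃) {x : F}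
    (hx : x ∈ S36L3_O3 S₁ S₂ S₃) (c : S₁.A)
    (ht₁ : Transcendental k (S₁.red ⟨x, hx.1⟩))
    (ht₂ : Transcendental k (S₂.red ⟨x, hx.2.1⟩))
    (ht₃ : Transcendental k (S₃.red ⟨x, hx.2.2⟩)) :
    (x - algebraMap S₁.A F c)⁻¹ ∈ S36L3_O3 S₁ S₂ S₃ :=
  S36CO_hsO hS hx c (S36CO_ne_const_of_transc ht₁ _) (S36CO_ne_const_of_transc ht₂ _)
    (S36CO_ne_const_of_transc ht₃ _)

end three

/-! ### `hle` of LI-INST: `D.Λ = O₃ ∩ B_T` -/

section hle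

variable {Ω F H : Type*} [Field Ω] [Field F] [Algebra Ω F] (S : S36FL_Act Ω F H)
  {k Fk₁ Fk₂ Fk₃ : Type*} [Field k]
  [Field Fk₁] [Field Fk₂] [Field Fk₃] [Algebra k Fk₁] [Algebra k Fk₂] [Algebra k Fk₃]
  (S₁ : S18_Val S.fixK S.fixF k Fk₁) (S₂ : S18_Val S.fixK S.fixF k Fk₂)
  (S₃ : S18_Val S.fixK S.fixF k Fk₃)
  {ιv : Type*} (D : S36IT_Fam Ω F S.fixF ιv)

/-- membership in `(S36I3_reg S T).toSubring`. -/
theorem S36CO_mem_reg {T : Set (Place Ω F)} {f : S.fixF} :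
    f ∈ (S36I3_reg S T).toSubring ↔ ∀ v ∈ T, (f : F) ∈ v.toValuationSubring := Iff.rfl

/-- **`hle`** of `S36LK_*`: the lattice of the family lies in `O₃ ∩ B_T`. -/
theorem S36CO_hle (hφ : ∀ f : S.fixF, D.φ f = (f : F))
    (h₁ : ∃ i, D.Ov i ≤ S₁.O) (h₂ : ∃ i, D.Ov i ≤ S₂.O) (h₃ : ∃ i, D.Ov i ≤ S₃.O)
    (T : Set (Place Ω F)) (hT : T ⊆ D.U) :
    D.Λ ≤ S36LJ_Lam S₁ S₂ S₃ (S36I3_reg S T).toSubring := by
  intro f hf
  rw [S36IT_Fam.mem_Λ_iff] at hf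
  obtain ⟨i₁, hi₁⟩ := h₁
  obtain ⟨i₂, hi₂⟩ := h₂
  obtain ⟨i₃, hi₃⟩ := h₃
  refine ⟨⟨hi₁ (hf.1 i₁), hi₂ (hf.1 i₂), hi₃ (hf.1 i₃)⟩, ?_⟩
  refine (S36CO_mem_reg S).2 fun v hv => ?_
  have := hf.2 v (hT hv)
  rwa [hφ] at this

/-- the converse inclusion. -/
theorem S36CO_Lam_le (hφ : ∀ f : S.fixF, D.φ f = (f : F))
    (hOv : ∀ i : ιv, D.Ov i = S₁.O ∨ D.Ov i = S₂.O ∨ D.Ov i = S₃.O)
    (T : Set (Place Ω F)) (hT : D.U ⊆ T) :
    S36LJ_Lam S₁ S₂ S₃ (S36I3_reg S T).toSubring ≤ D.Λ := by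
  rintro f ⟨⟨h1, h2, h3⟩, h4⟩
  rw [S36IT_Fam.mem_Λ_iff]
  refine ⟨fun i => ?_, fun Q hQ => ?_⟩
  · rcases hOv i with h | h | h
    · rw [h]; exact h1
    · rw [h]; exact h2
    · rw [h]; exact h3
  · rw [hφ]
    exact (S36CO_mem_reg S).1 h4 Q (hT hQ)

/-- **`D.Λ = O₃ ∩ B_T`**. -/
theorem S36CO_Lam_eq (hφ : ∀ f : S.fixF, D.φ f = (f : F))
    (hOv : ∀ i : ιv, D.Ov i = S₁.O ∨ D.Ov i = S₂.O ∨ D.Ov i = S₃.O)
    (h₁ : ∃ i, D.Ov i = S₁.O) (h₂ : ∃ i, D.Ov i = S₂.O) (h₃ : ∃ i, D.Ov i = S₃.O)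
    (T : Set (Place Ω F)) (hT : D.U = T) :
    D.Λ = S36LJ_Lam S₁ S₂ S₃ (S36I3_reg S T).toSubring :=
  le_antisymm
    (S36CO_hle S S₁ S₂ S₃ D hφ (h₁.imp fun _ h => h.le) (h₂.imp fun _ h => h.le)
      (h₃.imp fun _ h => h.le) T hT.ge)
    (S36CO_Lam_le S S₁ S₂ S₃ D hφ hOv T hT.le)

end hle

end Fermat.Agent.S36
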