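import Mathlib

/-!
# TRACK 10 (S36), package COMP3 (helper13): component group and norm residues

Abstract setting (Mathlib only).  `F₂` = function field of level `q²` (over the inertia field),
`F₁` = function field of level `q`, `N₁ N₂ : F₂ˣ →* F₁ˣ` the two norms (along `p₁`, `p₂`).

* three valuations `vFF vFV vVV : F₂ˣ → ℤ` (value group `ℤ` each; `v(q) = (1, q - 1, 1)`), two
  valuations `vF vV : F₁ˣ → ℤ`, with the norm formulas (`e·f` table of VAL3)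
  `vF ∘ N₁ = vFF + vFV`, `vV ∘ N₁ = q·vVV`, `vF ∘ N₂ = q·vFF`, `vV ∘ N₂ = vFV + vVV`;
* residue maps `rFF rFV rVV : F₂ˣ → Ωˣ`, `rF rV : F₁ˣ → Ωˣ` (multiplicative on units) with
  values in one big field `Ω` (`= k((t))`), the residue field `κ ≤ Ωˣ`, the constants
  `Cst ≤ κ`, the Frobenius substitution `ψ : Ωˣ →* Ωˣ` (`t ↦ t^q`), and the four norm–residue
  formulas (NORMRES)
  `rF (N₁ u) = rFF u · rFV u ^ (q-1)`, `ψ (rV (N₁ u)) = rVV u ^ q`,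
  `ψ (rF (N₂ u)) = rFF u ^ q`, `rV (N₂ u) = rFV u ^ (q-1) · rVV u`;
* weak approximation for the three valuations (values and residues).

`S36C3_main`: if both norms of `u` are trivial (`= c·hⁿ`, `c` constant), then
`u ^ ((q + 1) * (q - 1))` is, up to a trivial factor, a NORMALISED generator (unit at the
three valuations with residue `1`).  The component group costs `q + 1`, the residues `q - 1`;
no Frobenius eigenvalue, no point count is used.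
-/

set_option autoImplicit false

namespace Fermat.Agent.S36

/-- the datum of COMP3. -/
structure S36C3_Datum (F₂ F₁ Ω : Type*) [Field F₂] [Field F₁] [Field Ω] (n q : ℕ) where
  /-- constants of level `q²` -/
  C₂ : Subgroup F₂ˣ
  /-- constants of level `q` -/
  C₁ : Subgroup F₁ˣ
  /-- the norm along `p₁` -/
  N₁ : F₂ˣ →* F₁ˣ
  /-- the norm along `p₂` -/
  N₂ : F₂ˣ →* F₁ˣ
  N₁_const : ∀ c ∈ C₂, N₁ c ∈ C₁
  N₂_const : ∀ c ∈ C₂, N₂ c ∈ C₁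
  vFF : F₂ˣ → ℤ
  vFV : F₂ˣ → ℤ
  vVV : F₂ˣ → ℤ
  vF : F₁ˣ → ℤ
  vV : F₁ˣ → ℤ
  vFF_mul : ∀ a b, vFF (a * b) = vFF a + vFF b
  vFV_mul : ∀ a b, vFV (a * b) = vFV a + vFV b
  vVV_mul : ∀ a b, vVV (a * b) = vVV a + vVV b
  vF_mul : ∀ a b, vF (a * b) = vF a + vF b
  vV_mul : ∀ a b, vV (a * b) = vV a + vV b
  /-- constants of level `q` have the same valuation at `F` and `V` -/
  v_const₁ : ∀ c ∈ C₁, vF c = vV c
  /-- the uniformiser `q` as a constant of level `q²` -/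
  q₂ : F₂ˣ
  q₂_mem : q₂ ∈ C₂
  vFF_q₂ : vFF q₂ = 1
  vFV_q₂ : vFV q₂ = (q : ℤ) - 1
  vVV_q₂ : vVV q₂ = 1
  /-- the uniformiser `q` as a constant of level `q` -/
  q₁ : F₁ˣ
  q₁_mem : q₁ ∈ C₁
  vF_q₁ : vF q₁ = 1
  vF_N₁ : ∀ u, vF (N₁ u) = vFF u + vFV u
  vV_N₁ : ∀ u, vV (N₁ u) = q * vVV u
  vF_N₂ : ∀ u, vF (N₂ u) = q * vFF u
  vV_N₂ : ∀ u, vV (N₂ u) = vFV u + vVV u
  approx_v : ∀ a b c : ℤ, ∃ h : F₂ˣ, vFF h = a ∧ vFV h = b ∧ vVV h = c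
  /-- the units of the residue field -/
  κ : Subgroup Ωˣ
  /-- the constants of the residue field -/
  Cst : Subgroup Ωˣ
  rFF : F₂ˣ → Ωˣ
  rFV : F₂ˣ → Ωˣ
  rVV : F₂ˣ → Ωˣ
  rF : F₁ˣ → Ωˣ
  rV : F₁ˣ → Ωˣ
  rFF_mul : ∀ a b, vFF a = 0 → vFF b = 0 → rFF (a * b) = rFF a * rFF b
  rFV_mul : ∀ a b, vFV a = 0 → vFV b = 0 → rFV (a * b) = rFV a * rFV b
  rVV_mul : ∀ a b, vVV a = 0 → vVV b = 0 → rVV (a * b) = rVV a * rVV b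
  rF_mul : ∀ a b, vF a = 0 → vF b = 0 → rF (a * b) = rF a * rF b
  rV_mul : ∀ a b, vV a = 0 → vV b = 0 → rV (a * b) = rV a * rV b
  rF_mem : ∀ a, vF a = 0 → rF a ∈ κ
  rV_mem : ∀ a, vV a = 0 → rV a ∈ κ
  rF_const : ∀ c ∈ C₁, vF c = 0 → rF c ∈ Cst
  rV_const : ∀ c ∈ C₁, vV c = 0 → rV c ∈ Cst
  /-- the Frobenius substitution `t ↦ t^q` -/
  ψ : Ωˣ →* Ωˣ
  ψ_const : ∀ c ∈ Cst, ψ c ∈ Cst
  /-- `ψ x = (σ⁻¹ x)^q` on the residue field -/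
  ψ_pow : ∀ x ∈ κ, ∃ g ∈ κ, ψ x = g ^ q
  /-- `k` is perfect and algebraically closed in `Ω` -/
  root_q : ∀ x : Ωˣ, x ^ q ∈ Cst → x ∈ Cst
  root_n : ∀ c ∈ Cst, ∃ d ∈ Cst, d ^ n = c
  Cst_le : Cst ≤ κ
  NR1F : ∀ u, vFF u = 0 → vFV u = 0 → vVV u = 0 → rF (N₁ u) = rFF u * rFV u ^ (q - 1)
  NR1V : ∀ u, vFF u = 0 → vFV u = 0 → vVV u = 0 → ψ (rV (N₁ u)) = rVV u ^ q
  NR2F : ∀ u, vFF u = 0 → vFV u = 0 → vVV u = 0 → ψ (rF (N₂ u)) = rFF u ^ q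
  NR2V : ∀ u, vFF u = 0 → vFV u = 0 → vVV u = 0 → rV (N₂ u) = rFV u ^ (q - 1) * rVV u
  approx_r : ∀ g₁ ∈ κ, ∀ g₂ ∈ κ, ∀ g₃ ∈ κ, ∃ h : F₂ˣ, vFF h = 0 ∧ vFV h = 0 ∧ vVV h = 0 ∧
    rFF h = g₁ ∧ rFV h = g₂ ∧ rVV h = g₃

namespace S36C3_Datum

variable {F₂ F₁ Ω : Type*} [Field F₂] [Field F₁] [Field Ω] {n q : ℕ}
  (D : S36C3_Datum F₂ F₁ Ω n q)

/-- the trivial Kummer generators of level `q²`: `c · hⁿ`, `c` constant. -/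
def Triv₂ : Subgroup F₂ˣ := D.C₂ ⊔ (powMonoidHom n : F₂ˣ →* F₂ˣ).range

/-- the trivial Kummer generators of level `q`. -/
def Triv₁ : Subgroup F₁ˣ := D.C₁ ⊔ (powMonoidHom n : F₁ˣ →* F₁ˣ).range

/-- the normalised generators of level `q²`. -/
def IsNorm (u : F₂ˣ) : Prop :=
  D.vFF u = 0 ∧ D.vFV u = 0 ∧ D.vVV u = 0 ∧ D.rFF u = 1 ∧ D.rFV u = 1 ∧ D.rVV u = 1

theorem mem_Triv₂_iff {u : F₂ˣ} : u ∈ D.Triv₂ ↔ ∃ c ∈ D.C₂, ∃ h : F₂ˣ, u = c * h ^ n := by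
  rw [Triv₂, Subgroup.mem_sup]
  constructor
  · rintro ⟨c, hc, y, ⟨h, rfl⟩, rfl⟩
    exact ⟨c, hc, h, rfl⟩
  · rintro ⟨c, hc, h, rfl⟩
    exact ⟨c, hc, h ^ n, ⟨h, rfl⟩, rfl⟩

theorem mem_Triv₁_iff {u : F₁ˣ} : u ∈ D.Triv₁ ↔ ∃ c ∈ D.C₁, ∃ h : F₁ˣ, u = c * h ^ n := by
  rw [Triv₁, Subgroup.mem_sup]
  constructor
  · rintro ⟨c, hc, y, ⟨h, rfl⟩, rfl⟩
    exact ⟨c, hc, h, rfl⟩
  · rintro ⟨c, hc, h, rfl⟩
    exact ⟨c, hc, h ^ n, ⟨h, rfl⟩, rfl⟩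

theorem N₁_Triv {u : F₂ˣ} (hu : u ∈ D.Triv₂) : D.N₁ u ∈ D.Triv₁ := by
  obtain ⟨c, hc, h, rfl⟩ := D.mem_Triv₂_iff.1 hu
  rw [map_mul, map_pow]
  exact D.mem_Triv₁_iff.2 ⟨_, D.N₁_const c hc, _, rfl⟩

theorem N₂_Triv {u : F₂ˣ} (hu : u ∈ D.Triv₂) : D.N₂ u ∈ D.Triv₁ := by
  obtain ⟨c, hc, h, rfl⟩ := D.mem_Triv₂_iff.1 hu
  rw [map_mul, map_pow]
  exact D.mem_Triv₁_iff.2 ⟨_, D.N₂_const c hc, _, rfl⟩

/-! ### valuations of one, powers, inverses -/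

section val

variable {G : Type*} [Group G] (v : G → ℤ) (hv : ∀ a b, v (a * b) = v a + v b)

include hv

theorem S36C3_v_one : v 1 = 0 := by
  have h := hv 1 1
  rw [mul_one] at h
  omega

theorem S36C3_v_pow (a : G) (m : ℕ) : v (a ^ m) = m * v a := by
  induction m with
  | zero => rw [pow_zero, S36C3_v_one v hv]; simp
  | succ m ih => rw [pow_succ, hv, ih]; push_cast; ring

theorem S36C3_v_inv (a : G) : v a⁻¹ = - v a := by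
  have h := hv a a⁻¹
  rw [mul_inv_cancel, S36C3_v_one v hv] at h
  omega

theorem S36C3_v_zpow (a : G) (m : ℤ) : v (a ^ m) = m * v a := by
  obtain ⟨k, rfl | rfl⟩ := m.eq_nat_or_neg
  · rw [zpow_natCast, S36C3_v_pow v hv]
  · rw [zpow_neg, zpow_natCast, S36C3_v_inv v hv, S36C3_v_pow v hv]; ring

end val

section res

variable {G H : Type*} [Group G] [Group H] (v : G → ℤ) (hv : ∀ a b, v (a * b) = v a + v b)
  (r : G → H) (hr : ∀ a b, v a = 0 → v b = 0 → r (a * b) = r a * r b)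

include hv hr

theorem S36C3_r_one : r 1 = 1 := by
  have h1 := hr 1 1 (S36C3_v_one v hv) (S36C3_v_one v hv)
  rw [mul_one] at h1
  exact mul_eq_left.mp h1.symm

theorem S36C3_r_pow {a : G} (ha : v a = 0) (m : ℕ) : v (a ^ m) = 0 ∧ r (a ^ m) = r a ^ m := by
  induction m with
  | zero =>
    rw [pow_zero, pow_zero]
    exact ⟨S36C3_v_one v hv, S36C3_r_one v hv r hr⟩
  | succ m ih =>
    rw [pow_succ, pow_succ]
    exact ⟨by rw [hv, ih.1, ha, add_zero], by rw [hr _ _ ih.1 ha, ih.2]⟩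

theorem S36C3_r_inv {a : G} (ha : v a = 0) : v a⁻¹ = 0 ∧ r a⁻¹ = (r a)⁻¹ := by
  have h0 : v a⁻¹ = 0 := by rw [S36C3_v_inv v hv, ha, neg_zero]
  refine ⟨h0, ?_⟩
  have h1 := hr a a⁻¹ ha h0
  rw [mul_inv_cancel, S36C3_r_one v hv r hr] at h1
  exact eq_inv_of_mul_eq_one_right h1.symm

end res

/-! ### Step 1: the component group costs `q + 1` -/

/-- a trivial generator of level `q` has `vF ≡ vV` modulo `n`. -/
theorem vF_sub_vV_of_Triv {t : F₁ˣ} (ht : t ∈ D.Triv₁) : ∃ k : ℤ, D.vF t - D.vV t = n * k := by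
  obtain ⟨c, hc, h, rfl⟩ := D.mem_Triv₁_iff.1 ht
  refine ⟨D.vF h - D.vV h, ?_⟩
  rw [D.vF_mul, D.vV_mul, S36C3_v_pow D.vF D.vF_mul, S36C3_v_pow D.vV D.vV_mul, D.v_const₁ c hc]
  ring

/-- **component group**: if both norms of `u` are trivial, then `u ^ (q+1)` is, up to a
trivial factor, a unit at the three valuations. -/
theorem exists_unit (u : F₂ˣ) (h₁ : D.N₁ u ∈ D.Triv₁) (h₂ : D.N₂ u ∈ D.Triv₁) :
    ∃ t ∈ D.Triv₂, D.vFF (u ^ (q + 1) * t) = 0 ∧ D.vFV (u ^ (q + 1) * t) = 0 ∧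
      D.vVV (u ^ (q + 1) * t) = 0 := by
  obtain ⟨k₁, hk₁⟩ := D.vF_sub_vV_of_Triv h₁
  obtain ⟨k₂, hk₂⟩ := D.vF_sub_vV_of_Triv h₂
  rw [D.vF_N₁, D.vV_N₁] at hk₁
  rw [D.vF_N₂, D.vV_N₂] at hk₂
  set a := D.vFF u with ha
  set b := D.vFV u with hb
  set c := D.vVV u with hc
  -- `a + b - q c = n k₁`, `q a - (b + c) = n k₂`
  obtain ⟨h, hh1, hh2, hh3⟩ := D.approx_v (k₁ + k₂) (q * k₁ - k₂) 0
  refine ⟨D.q₂ ^ (-((q : ℤ) + 1) * c) * (h ^ n)⁻¹, ?_, ?_, ?_, ?_⟩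
  · refine D.mem_Triv₂_iff.2 ⟨D.q₂ ^ (-((q : ℤ) + 1) * c), D.C₂.zpow_mem D.q₂_mem _, h⁻¹, ?_⟩
    rw [inv_pow]
  · rw [D.vFF_mul, D.vFF_mul, S36C3_v_pow D.vFF D.vFF_mul, S36C3_v_zpow D.vFF D.vFF_mul,
      S36C3_v_inv D.vFF D.vFF_mul, S36C3_v_pow D.vFF D.vFF_mul, D.vFF_q₂, hh1, ← ha]
    push_cast
    linear_combination (hk₁ + hk₂)
  · rw [D.vFV_mul, D.vFV_mul, S36C3_v_pow D.vFV D.vFV_mul, S36C3_v_zpow D.vFV D.vFV_mul,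
      S36C3_v_inv D.vFV D.vFV_mul, S36C3_v_pow D.vFV D.vFV_mul, D.vFV_q₂, hh2, ← hb]
    push_cast
    linear_combination (q : ℤ) * hk₁ - hk₂
  · rw [D.vVV_mul, D.vVV_mul, S36C3_v_pow D.vVV D.vVV_mul, S36C3_v_zpow D.vVV D.vVV_mul,
      S36C3_v_inv D.vVV D.vVV_mul, S36C3_v_pow D.vVV D.vVV_mul, D.vVV_q₂, hh3, ← hc]
    push_cast
    ring

/-! ### Step 2: residues of trivial units of level `q` -/

/-- a trivial generator of level `q` which is a unit at `F` and `V` has residues in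
`Cst · κⁿ`. -/
theorem res_of_Triv {t : F₁ˣ} (ht : t ∈ D.Triv₁) (hF : D.vF t = 0) (hV : D.vV t = 0) :
    (∃ c ∈ D.Cst, ∃ g ∈ D.κ, D.rF t = c * g ^ n) ∧ (∃ c ∈ D.Cst, ∃ g ∈ D.κ, D.rV t = c * g ^ n) := by
  obtain ⟨c, hc, h, rfl⟩ := D.mem_Triv₁_iff.1 ht
  rw [D.vF_mul, S36C3_v_pow D.vF D.vF_mul] at hF
  rw [D.vV_mul, S36C3_v_pow D.vV D.vV_mul] at hV
  have hcc := D.v_const₁ c hc
  have hvq : D.vV D.q₁ = 1 := by rw [← D.v_const₁ _ D.q₁_mem, D.vF_q₁]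
  -- renormalise: `c' = c q₁^{-vF c}`, `h' = h q₁^{-vF h}`
  set m := D.vF h with hm
  have hVh : D.vV h = m ∨ n = 0 := by
    by_cases hn : n = 0
    · exact Or.inr hn
    · left
      have hn' : (n : ℤ) ≠ 0 := by exact_mod_cast hn
      have : (n : ℤ) * D.vV h = n * m := by linarith
      exact mul_left_cancel₀ hn' this
  by_cases hn : n = 0
  · -- `n = 0`: `t = c`
    subst hn
    rw [pow_zero, mul_one]
    simp only [Nat.cast_zero, zero_mul, add_zero] at hF hV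
    exact ⟨⟨D.rF c, D.rF_const c hc hF, 1, D.κ.one_mem, by rw [pow_zero, mul_one]⟩,
      ⟨D.rV c, D.rV_const c hc hV, 1, D.κ.one_mem, by rw [pow_zero, mul_one]⟩⟩
  have hVh' : D.vV h = m := hVh.resolve_right hn
  set c' : F₁ˣ := c * D.q₁ ^ ((n : ℤ) * m) with hc'
  set h' : F₁ˣ := h * D.q₁ ^ (-m) with hh'
  have hc'mem : c' ∈ D.C₁ := D.C₁.mul_mem hc (D.C₁.zpow_mem D.q₁_mem _)
  have e : c * h ^ n = c' * h' ^ n := by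
    have hX : (D.q₁ ^ (-m)) ^ n = (D.q₁ ^ ((n : ℤ) * m))⁻¹ := by
      rw [← zpow_natCast, ← zpow_mul, ← zpow_neg]
      congr 1
      ring
    rw [hc', hh', mul_pow, hX, mul_assoc c, mul_left_comm (D.q₁ ^ ((n : ℤ) * m)) (h ^ n),
      mul_inv_cancel, mul_one]
  have hFc' : D.vF c' = 0 := by
    rw [hc', D.vF_mul, S36C3_v_zpow D.vF D.vF_mul, D.vF_q₁]
    omega
  have hVc' : D.vV c' = 0 := by
    rw [hc', D.vV_mul, S36C3_v_zpow D.vV D.vV_mul, hvq, ← hcc]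
    omega
  have hFh' : D.vF h' = 0 := by
    rw [hh', D.vF_mul, S36C3_v_zpow D.vF D.vF_mul, D.vF_q₁]
    omega
  have hVh'' : D.vV h' = 0 := by
    rw [hh', D.vV_mul, S36C3_v_zpow D.vV D.vV_mul, hvq, hVh']
    omega
  have powF : ∀ k : ℕ, D.vF (h' ^ k) = 0 ∧ D.rF (h' ^ k) = D.rF h' ^ k := by
    intro k
    induction k with
    | zero =>
      rw [pow_zero, pow_zero]
      refine ⟨S36C3_v_one D.vF D.vF_mul, ?_⟩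
      have h1 := D.rF_mul 1 1 (S36C3_v_one D.vF D.vF_mul) (S36C3_v_one D.vF D.vF_mul)
      rw [mul_one] at h1
      exact (mul_eq_left.mp h1.symm)
    | succ k ih =>
      rw [pow_succ, pow_succ]
      refine ⟨by rw [D.vF_mul, ih.1, hFh', add_zero], ?_⟩
      rw [D.rF_mul _ _ ih.1 hFh', ih.2]
  have powV : ∀ k : ℕ, D.vV (h' ^ k) = 0 ∧ D.rV (h' ^ k) = D.rV h' ^ k := by
    intro k
    induction k with
    | zero =>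
      rw [pow_zero, pow_zero]
      refine ⟨S36C3_v_one D.vV D.vV_mul, ?_⟩
      have h1 := D.rV_mul 1 1 (S36C3_v_one D.vV D.vV_mul) (S36C3_v_one D.vV D.vV_mul)
      rw [mul_one] at h1
      exact (mul_eq_left.mp h1.symm)
    | succ k ih =>
      rw [pow_succ, pow_succ]
      refine ⟨by rw [D.vV_mul, ih.1, hVh'', add_zero], ?_⟩
      rw [D.rV_mul _ _ ih.1 hVh'', ih.2]
  rw [e]
  refine ⟨⟨D.rF c', D.rF_const c' hc'mem hFc', D.rF h', D.rF_mem h' hFh', ?_⟩,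
    ⟨D.rV c', D.rV_const c' hc'mem hVc', D.rV h', D.rV_mem h' hVh'', ?_⟩⟩
  · rw [D.rF_mul _ _ hFc' (powF n).1, (powF n).2]
  · rw [D.rV_mul _ _ hVc' (powV n).1, (powV n).2]

/-! ### Step 3: the residues cost `q - 1` -/

/-- a `q`-th power equal to `ψ` of an element of `Cst · κⁿ` lies in `Cst · κⁿ`. -/
theorem root_of_psi {x y : Ωˣ} (hxy : D.ψ y = x ^ q) (hy : ∃ c ∈ D.Cst, ∃ g ∈ D.κ, y = c * g ^ n) :
    ∃ c ∈ D.Cst, ∃ g ∈ D.κ, x = c * g ^ n := by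
  obtain ⟨c, hc, g, hg, rfl⟩ := hy
  obtain ⟨g', hg', hψ⟩ := D.ψ_pow g hg
  rw [map_mul, map_pow, hψ] at hxy
  -- `(x * (g'^n)⁻¹)^q = ψ c`
  have h1 : (x * (g' ^ n)⁻¹) ^ q = D.ψ c := by
    rw [mul_pow, ← hxy, inv_pow, ← pow_mul, ← pow_mul, mul_comm n q, mul_inv_cancel_right]
  have h2 : x * (g' ^ n)⁻¹ ∈ D.Cst := D.root_q _ (by rw [h1]; exact D.ψ_const c hc)
  exact ⟨_, h2, g', hg', by rw [inv_mul_cancel_right]⟩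

/-- **COMP3**: if both norms of `u` to level `q` are trivial, then `u ^ ((q+1)(q-1))` is, up
to a trivial factor, a normalised generator. -/
theorem S36C3_main (u : F₂ˣ) (h₁ : D.N₁ u ∈ D.Triv₁) (h₂ : D.N₂ u ∈ D.Triv₁) :
    ∃ t ∈ D.Triv₂, D.IsNorm (u ^ ((q + 1) * (q - 1)) * t) := by
  obtain ⟨t₀, ht₀, v1, v2, v3⟩ := D.exists_unit u h₁ h₂
  set u₂ : F₂ˣ := u ^ (q + 1) * t₀ with hu₂
  -- the norms of `u₂` are trivial units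
  have hN₁ : D.N₁ u₂ ∈ D.Triv₁ := by
    rw [hu₂, map_mul, map_pow]
    exact D.Triv₁.mul_mem (D.Triv₁.pow_mem h₁ _) (D.N₁_Triv ht₀)
  have hN₂ : D.N₂ u₂ ∈ D.Triv₁ := by
    rw [hu₂, map_mul, map_pow]
    exact D.Triv₁.mul_mem (D.Triv₁.pow_mem h₂ _) (D.N₂_Triv ht₀)
  have hF₁ : D.vF (D.N₁ u₂) = 0 := by rw [D.vF_N₁, v1, v2, add_zero]
  have hV₁ : D.vV (D.N₁ u₂) = 0 := by rw [D.vV_N₁, v3, mul_zero]
  have hF₂ : D.vF (D.N₂ u₂) = 0 := by rw [D.vF_N₂, v1, mul_zero]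
  have hV₂ : D.vV (D.N₂ u₂) = 0 := by rw [D.vV_N₂, v2, v3, add_zero]
  obtain ⟨rF1, rV1⟩ := D.res_of_Triv hN₁ hF₁ hV₁
  obtain ⟨rF2, -⟩ := D.res_of_Triv hN₂ hF₂ hV₂
  -- residues at `VV`, `FF`
  obtain ⟨d₃, hd₃, g₃, hg₃, e₃⟩ := D.root_of_psi (D.NR1V u₂ v1 v2 v3) rV1
  obtain ⟨d₁, hd₁, g₁, hg₁, e₁⟩ := D.root_of_psi (D.NR2F u₂ v1 v2 v3) rF2
  -- residue at `FV`
  obtain ⟨c, hc, g, hg, eF⟩ := rF1
  have e₂ : D.rFV u₂ ^ (q - 1) = (c * d₁⁻¹) * (g * g₁⁻¹) ^ n := by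
    have h := D.NR1F u₂ v1 v2 v3
    rw [eF, e₁] at h
    have : D.rFV u₂ ^ (q - 1) = (d₁ * g₁ ^ n)⁻¹ * (c * g ^ n) := by
      rw [h, inv_mul_cancel_left]
    rw [this, mul_pow, inv_pow, mul_inv]
    simp only [mul_comm, mul_left_comm, mul_assoc]
  -- `n`-th roots of the constants
  obtain ⟨a₁, ha₁, ea₁⟩ := D.root_n (d₁ ^ (q - 1)) (D.Cst.pow_mem hd₁ _)
  obtain ⟨a₂, ha₂, ea₂⟩ := D.root_n (c * d₁⁻¹) (D.Cst.mul_mem hc (D.Cst.inv_mem hd₁))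
  obtain ⟨a₃, ha₃, ea₃⟩ := D.root_n (d₃ ^ (q - 1)) (D.Cst.pow_mem hd₃ _)
  obtain ⟨h₃, w1, w2, w3, s1, s2, s3⟩ := D.approx_r (a₁ * g₁ ^ (q - 1))
    (D.κ.mul_mem (D.Cst_le ha₁) (D.κ.pow_mem hg₁ _)) (a₂ * (g * g₁⁻¹))
    (D.κ.mul_mem (D.Cst_le ha₂) (D.κ.mul_mem hg (D.κ.inv_mem hg₁))) (a₃ * g₃ ^ (q - 1))
    (D.κ.mul_mem (D.Cst_le ha₃) (D.κ.pow_mem hg₃ _))
  -- the trivial factor
  refine ⟨t₀ ^ (q - 1) * (h₃ ^ n)⁻¹, ?_, ?_⟩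
  · refine D.Triv₂.mul_mem (D.Triv₂.pow_mem ht₀ _) ?_
    exact D.mem_Triv₂_iff.2 ⟨1, D.C₂.one_mem, h₃⁻¹, by rw [one_mul, inv_pow]⟩
  have hfac : u ^ ((q + 1) * (q - 1)) * (t₀ ^ (q - 1) * (h₃ ^ n)⁻¹) =
      u₂ ^ (q - 1) * (h₃ ^ n)⁻¹ := by
    rw [hu₂, mul_pow, ← pow_mul, mul_assoc]
  rw [hfac]
  -- valuations and residues of the factors
  obtain ⟨p1, q1⟩ := S36C3_r_pow D.vFF D.vFF_mul D.rFF D.rFF_mul v1 (q - 1)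
  obtain ⟨p2, q2⟩ := S36C3_r_pow D.vFV D.vFV_mul D.rFV D.rFV_mul v2 (q - 1)
  obtain ⟨p3, q3⟩ := S36C3_r_pow D.vVV D.vVV_mul D.rVV D.rVV_mul v3 (q - 1)
  obtain ⟨x1, y1⟩ := S36C3_r_pow D.vFF D.vFF_mul D.rFF D.rFF_mul w1 n
  obtain ⟨x2, y2⟩ := S36C3_r_pow D.vFV D.vFV_mul D.rFV D.rFV_mul w2 n
  obtain ⟨x3, y3⟩ := S36C3_r_pow D.vVV D.vVV_mul D.rVV D.rVV_mul w3 n
  obtain ⟨x1', y1'⟩ := S36C3_r_inv D.vFF D.vFF_mul D.rFF D.rFF_mul x1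
  obtain ⟨x2', y2'⟩ := S36C3_r_inv D.vFV D.vFV_mul D.rFV D.rFV_mul x2
  obtain ⟨x3', y3'⟩ := S36C3_r_inv D.vVV D.vVV_mul D.rVV D.rVV_mul x3
  refine ⟨by rw [D.vFF_mul, p1, x1', add_zero], by rw [D.vFV_mul, p2, x2', add_zero],
    by rw [D.vVV_mul, p3, x3', add_zero], ?_, ?_, ?_⟩
  · have hh : D.rFF h₃ ^ n = D.rFF u₂ ^ (q - 1) := by
      rw [s1, e₁, mul_pow, mul_pow, ea₁, ← pow_mul, ← pow_mul, mul_comm n (q - 1)]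
    rw [D.rFF_mul _ _ p1 x1', q1, y1', y1, hh, mul_inv_cancel]
  · have hh : D.rFV h₃ ^ n = D.rFV u₂ ^ (q - 1) := by
      rw [s2, e₂, mul_pow, ea₂]
    rw [D.rFV_mul _ _ p2 x2', q2, y2', y2, hh, mul_inv_cancel]
  · have hh : D.rVV h₃ ^ n = D.rVV u₂ ^ (q - 1) := by
      rw [s3, e₃, mul_pow, mul_pow, ea₃, ← pow_mul, ← pow_mul, mul_comm n (q - 1)]
    rw [D.rVV_mul _ _ p3 x3', q3, y3', y3, hh, mul_inv_cancel]

end S36C3_Datum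

end Fermat.Agent.S36
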