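import Fermat.Agent.S36.Comp3Final
import Fermat.Agent.S36.Comp3Indep

/-!
# TRACK 10 (S36), package COMP3-INST part 2g (helper13): THE instance of COMP3 on the modular
function fields — prefix `S36CI_`

`q ∤ M` prime, `A ⊂ ℚ̄` over `q`, `I = A.inertiaSubgroupIn ℚ`, `ζ` a primitive `q`-th root of
unity, `k` the residue field of `A`; `L = ℚ̄^I` (written at level `M q²`),
`F₂ = F_{M q²}^I`, `F₁ = F_{M q}^I` (an `L`-algebra by `S36CT_alg (M q²) (M q) I`).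

* `S36CI_indep` : the three valuation rings `FF`, `FV`, `VV` of `F₂` are pairwise incomparable
  (helper9's `S36CY_indep`);
* **`S36CI_Hc`** : `S36CH_Hyp L F₂ F₁ k k((t)) n q` — item [A] of WIRE (helper2);
* `S36CI_Hc_FF_O`, … (`hO_j`), `S36CI_Hc_FF_ρ`, … (`hρ_j`), `S36CI_Hc_N₁`, `S36CI_Hc_N₂`
  (`hN₁`, `hN₂`) : all `rfl`, for `S_j = S36FI_SFF`, `S36FI_SFV ζ`, `S36FI_SVV` (helper1);
* `S36CI_happrox` : item [E] of WIRE;
* `S36CI_comp3_main` : COMP3 itself for these data (`S36CH_main`).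
-/

set_option autoImplicit false
set_option linter.unusedSectionVars false
set_option linter.unusedVariables false
set_option linter.style.haveILetI false
set_option synthInstance.maxHeartbeats 400000
set_option maxHeartbeats 1000000

open HahnSeries ModularCurve IntermediateField

noncomputable section

namespace Fermat.Agent.S36

open Fermat.Agent.S18 Fermat.Agent.S24 Fermat.Agent.S34 Fermat.Agent.GalRep

local notation "ℚbar" => AlgebraicClosure ℚ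

variable (M q : ℕ) [NeZero M] [NeZero q] (hq : q.Prime) (hqM : ¬ q ∣ M)
  (A : ValuationSubring ℚbar) (hA : A.LiesOverPrime q)
  (ζ : ℚbarˣ) (hζ : ζ ^ q = 1) (hζ1 : ζ ≠ 1)

/-- **`indep`**: the three valuation rings of `F₂` are pairwise incomparable. -/
theorem S36CI_indep :
    S36CV_Indep (S36C5_FF M q hq hqM A hA).O (S36C5_FV M q hq hqM A hA ζ hζ hζ1).O
      (S36C5_VV M q hq hqM A hA).O :=
  S36CY_indep M q hq hqM A ζ hζ hζ1 (A.inertiaSubgroupIn ℚ) hA (S36C5_tie_FF M q hq hqM A hA)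
    (S36C5_tie_FV M q hq hqM A hA ζ hζ hζ1) (S36C5_tie_VV M q hq hqM A hA)

/-- **COMP3-INST**: the hypotheses of COMP3 hold on the modular function fields. -/
def S36CI_Hc (n : ℕ) (hn : 0 < n) :
    @S36CH_Hyp ↥(S36FI_act (M * q * q) (A.inertiaSubgroupIn ℚ)).fixK
      ↥(S36FI_act (M * q * q) (A.inertiaSubgroupIn ℚ)).fixF
      ↥(S36FI_act (M * q) (A.inertiaSubgroupIn ℚ)).fixF
      (IsLocalRing.ResidueField A) (LaurentSeries (IsLocalRing.ResidueField A))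
      _ _ _ _ _ _ (S36CT_alg (M * q * q) (M * q) (A.inertiaSubgroupIn ℚ)) _ n q :=
  S36CI_mk' M q hq hqM A hA ζ hζ hζ1 n hn (S36CI_indep M q hq hqM A hA ζ hζ hζ1)

/-- **`happrox`** ([E] of WIRE) for the three concrete valuation data. -/
theorem S36CI_happrox (b₂ b₃ : IsLocalRing.ResidueField A) (hb₂ : b₂ ≠ 0) (hb₃ : b₃ ≠ 0) :
    ∃ f : S36L3_O3 (S36FI_SFF M q hq hqM A hA) (S36FI_SFV M q hq hqM A hA ζ hζ hζ1)
        (S36FI_SVV M q hq hqM A hA),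
      S36L3_red (S36FI_SFF M q hq hqM A hA) (S36FI_SFV M q hq hqM A hA ζ hζ hζ1)
        (S36FI_SVV M q hq hqM A hA) f =
      (1, algebraMap (IsLocalRing.ResidueField A) ↥(S36FI_kappa M A) b₂,
        algebraMap (IsLocalRing.ResidueField A) ↥(S36FI_kappa M A) b₃) :=
  S36CS_happrox (S36FI_SFF M q hq hqM A hA) (S36FI_SFV M q hq hqM A hA ζ hζ hζ1)
    (S36FI_SVV M q hq hqM A hA) (S36C5_FF M q hq hqM A hA).toS36CV_DV
    (S36C5_FV M q hq hqM A hA ζ hζ hζ1).toS36CV_DV (S36C5_VV M q hq hqM A hA).toS36CV_DV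
    rfl rfl rfl (S36CI_indep M q hq hqM A hA ζ hζ hζ1) b₂ b₃ hb₂ hb₃

/-! ### what WIRE needs to know about `S36CI_Hc` (all `rfl`) -/

section wire

attribute [local instance 10] S36CT_alg

variable (n : ℕ) (hn : 0 < n)

theorem S36CI_Hc_FF_O :
    (S36FI_SFF M q hq hqM A hA).O = (S36CI_Hc M q hq hqM A hA ζ hζ hζ1 n hn).FF.O := rfl

theorem S36CI_Hc_FV_O :
    (S36FI_SFV M q hq hqM A hA ζ hζ hζ1).O =
      (S36CI_Hc M q hq hqM A hA ζ hζ hζ1 n hn).FV.O := rfl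

theorem S36CI_Hc_VV_O :
    (S36FI_SVV M q hq hqM A hA).O = (S36CI_Hc M q hq hqM A hA ζ hζ hζ1 n hn).VV.O := rfl

theorem S36CI_Hc_FF_ρ (x : ↥(S36FI_act (M * q * q) (A.inertiaSubgroupIn ℚ)).fixF)
    (hx : x ∈ (S36FI_SFF M q hq hqM A hA).O) :
    (S36CI_Hc M q hq hqM A hA ζ hζ hζ1 n hn).FF.ρ ⟨x, hx⟩ =
      (S36FI_kappa M A).val ((S36FI_SFF M q hq hqM A hA).red ⟨x, hx⟩) := rfl

theorem S36CI_Hc_FV_ρ (x : ↥(S36FI_act (M * q * q) (A.inertiaSubgroupIn ℚ)).fixF)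
    (hx : x ∈ (S36FI_SFV M q hq hqM A hA ζ hζ hζ1).O) :
    (S36CI_Hc M q hq hqM A hA ζ hζ hζ1 n hn).FV.ρ ⟨x, hx⟩ =
      (S36FI_kappa M A).val ((S36FI_SFV M q hq hqM A hA ζ hζ hζ1).red ⟨x, hx⟩) := rfl

theorem S36CI_Hc_VV_ρ (x : ↥(S36FI_act (M * q * q) (A.inertiaSubgroupIn ℚ)).fixF)
    (hx : x ∈ (S36FI_SVV M q hq hqM A hA).O) :
    (S36CI_Hc M q hq hqM A hA ζ hζ hζ1 n hn).VV.ρ ⟨x, hx⟩ =
      (S36FI_kappa M A).val ((S36FI_SVV M q hq hqM A hA).red ⟨x, hx⟩) := rfl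

theorem S36CI_Hc_N₁ (u : (↥(S36FI_act (M * q * q) (A.inertiaSubgroupIn ℚ)).fixF)ˣ) :
    ((((S36CI_Hc M q hq hqM A hA ζ hζ hζ1 n hn).N₁ u :
      (↥(S36FI_act (M * q) (A.inertiaSubgroupIn ℚ)).fixF)ˣ) :
        ↥(S36FI_act (M * q) (A.inertiaSubgroupIn ℚ)).fixF) :
          ↥(modularFunctionFieldBar (M * q))) =
      Fermat.Agent.S35.S35B_NA (M * q) q
        (((u : ↥(S36FI_act (M * q * q) (A.inertiaSubgroupIn ℚ)).fixF)) :
          ↥(modularFunctionFieldBar (M * q * q))) := rfl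

theorem S36CI_Hc_N₂ (u : (↥(S36FI_act (M * q * q) (A.inertiaSubgroupIn ℚ)).fixF)ˣ) :
    ((((S36CI_Hc M q hq hqM A hA ζ hζ hζ1 n hn).N₂ u :
      (↥(S36FI_act (M * q) (A.inertiaSubgroupIn ℚ)).fixF)ˣ) :
        ↥(S36FI_act (M * q) (A.inertiaSubgroupIn ℚ)).fixF) :
          ↥(modularFunctionFieldBar (M * q))) =
      Fermat.Agent.S35.S35B_NB (M * q) q
        (((u : ↥(S36FI_act (M * q * q) (A.inertiaSubgroupIn ℚ)).fixF)) :
          ↥(modularFunctionFieldBar (M * q * q))) := rfl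

/-- **COMP3 on the modular function fields**: if the two norms of `u ∈ F₂ˣ` are trivial over
`L` (a constant times an `n`-th power), then `u ^ ((q+1)(q-1))` is, up to a constant and an
`n`-th power, a principal unit at `FF`, `FV` and `VV`. -/
theorem S36CI_comp3_main (u : (↥(S36FI_act (M * q * q) (A.inertiaSubgroupIn ℚ)).fixF)ˣ)
    (h₁ : ∃ (c : (↥(S36FI_act (M * q * q) (A.inertiaSubgroupIn ℚ)).fixK)ˣ)
      (g : (↥(S36FI_act (M * q) (A.inertiaSubgroupIn ℚ)).fixF)ˣ),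
      (S36CI_Hc M q hq hqM A hA ζ hζ hζ1 n hn).N₁ u = S36CH_const _ _ c * g ^ n)
    (h₂ : ∃ (c : (↥(S36FI_act (M * q * q) (A.inertiaSubgroupIn ℚ)).fixK)ˣ)
      (g : (↥(S36FI_act (M * q) (A.inertiaSubgroupIn ℚ)).fixF)ˣ),
      (S36CI_Hc M q hq hqM A hA ζ hζ hζ1 n hn).N₂ u = S36CH_const _ _ c * g ^ n) :
    ∃ (c : (↥(S36FI_act (M * q * q) (A.inertiaSubgroupIn ℚ)).fixK)ˣ)
      (g : (↥(S36FI_act (M * q * q) (A.inertiaSubgroupIn ℚ)).fixF)ˣ),
      S34AP_Small (S36FI_SFF M q hq hqM A hA).O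
        (((u ^ ((q + 1) * (q - 1)) * (S36CH_const _ _ c * g ^ n) :
          (↥(S36FI_act (M * q * q) (A.inertiaSubgroupIn ℚ)).fixF)ˣ) :
            ↥(S36FI_act (M * q * q) (A.inertiaSubgroupIn ℚ)).fixF) - 1) ∧
      S34AP_Small (S36FI_SFV M q hq hqM A hA ζ hζ hζ1).O
        (((u ^ ((q + 1) * (q - 1)) * (S36CH_const _ _ c * g ^ n) :
          (↥(S36FI_act (M * q * q) (A.inertiaSubgroupIn ℚ)).fixF)ˣ) :
            ↥(S36FI_act (M * q * q) (A.inertiaSubgroupIn ℚ)).fixF) - 1) ∧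
      S34AP_Small (S36FI_SVV M q hq hqM A hA).O
        (((u ^ ((q + 1) * (q - 1)) * (S36CH_const _ _ c * g ^ n) :
          (↥(S36FI_act (M * q * q) (A.inertiaSubgroupIn ℚ)).fixF)ˣ) :
            ↥(S36FI_act (M * q * q) (A.inertiaSubgroupIn ℚ)).fixF) - 1) :=
  (S36CI_Hc M q hq hqM A hA ζ hζ hζ1 n hn).S36CH_main u h₁ h₂

end wire

end Fermat.Agent.S36
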