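import Fermat.Agent.S36.Comp3Tie
import Fermat.Agent.S36.Comp3Hyp
import Fermat.Agent.S36.Comp3Types
import Fermat.Agent.S36.BaseLDvr
import Fermat.Agent.S36.Val3VS
import Fermat.Agent.S36.Val3DvInst

/-!
# TRACK 10 (S36), package COMP3-INST (P5) (helper1 for helper13): the CONSTANTS block of
`S36CH_Hyp` from the ties — prefix `S36CK_`

`L = (S36FI_act N' H).fixK` (the base field, written at level `N'`), `F_L = (S36FI_act N H).fixF`
an `L`-algebra (`halg`), `D : S36CV_Val F_L k((t))` tied to the Gauss ring along `φ`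
(`T : S36CG_Tie N H A φ π₀ D`), `A_L = S36FL_AL (S36FI_act N' H) A`, `ϖ = S36BL_pi L` (`= q`),
`res = S36BL_resL A L`.

Generic (any tie):
* `S36CK_const`   : `a ∈ A_L → algebraMap L F_L a ∈ D.O`;
* `S36CK_ρ_const` : `D.ρ (algebraMap L F_L a) = algebraMap k k((t)) (res a)`;
* `S36CK_π`       : `π₀ = q ⟹ D.v (S36CH_const L F_L ϖ) = 1`;
* `S36CK_π_pow`   : `π₀ ^ e / q` a Gauss unit `⟹ D.v (S36CH_const L F_L ϖ) = e`;
* `S36CK_dvL`     : `dvL` of `S36CH_Hyp` for the inertia field.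

Concrete: `S36CK_FV_π` (`e = q - 1`, helper8's `S36VDV_FV_pow`).
-/

set_option autoImplicit false
set_option linter.unusedSectionVars false
set_option linter.unusedVariables false
set_option linter.style.haveILetI false
set_option synthInstance.maxHeartbeats 400000
set_option maxHeartbeats 1000000

open HahnSeries ModularCurve IntermediateField

noncomputable section

namespace Fermat.Agent.S36

open Fermat.Agent.S18 Fermat.Agent.S24 Fermat.Agent.S34 Fermat.Agent.GalRep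

local notation "Ω" => AlgebraicClosure ℚ

section generic

variable {N' N : ℕ} {H : Subgroup (Ω ≃ₐ[ℚ] Ω)} {A : ValuationSubring Ω}
  {φ : ↥(modularFunctionFieldBar N) →+* LaurentSeries Ω}
  {π₀ : ↥(modularFunctionFieldBar N)}
  {D : S36CV_Val ↥(S36FI_act N H).fixF (LaurentSeries (IsLocalRing.ResidueField A))}
  (T : S36CG_Tie N H A φ π₀ D)
  (hφ : ∀ c : Ω, φ (algebraMap Ω ↥(modularFunctionFieldBar N) c) =
    algebraMap Ω (LaurentSeries Ω) c)
  [Algebra ↥(S36FI_act N' H).fixK ↥(S36FI_act N H).fixF]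
  (halg : ∀ c : ↥(S36FI_act N' H).fixK,
    ((algebraMap ↥(S36FI_act N' H).fixK ↥(S36FI_act N H).fixF c : ↥(S36FI_act N H).fixF) :
      ↥(modularFunctionFieldBar N)) = algebraMap Ω ↥(modularFunctionFieldBar N) (c : Ω))

include T hφ halg in
/-- **`X_const`**: the constants of `A_L` are integral. -/
theorem S36CK_const (a : ↥(S36FI_act N' H).fixK) (ha : a ∈ S36FL_AL (S36FI_act N' H) A) :
    algebraMap ↥(S36FI_act N' H).fixK ↥(S36FI_act N H).fixF a ∈ D.O := by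
  rw [T.mem, halg]
  exact S36V_G_const A φ ⟨(a : Ω), ha⟩ (hφ _)

include T hφ halg in
/-- **`X_ρ_const`**: the residue of a constant. -/
theorem S36CK_ρ_const (a : ↥(S36FI_act N' H).fixK) (ha : a ∈ S36FL_AL (S36FI_act N' H) A)
    (h : algebraMap ↥(S36FI_act N' H).fixK ↥(S36FI_act N H).fixF a ∈ D.O) :
    D.ρ ⟨_, h⟩ = algebraMap (IsLocalRing.ResidueField A)
      (LaurentSeries (IsLocalRing.ResidueField A))
      (S36BL_resL A (S36FI_act N' H).fixK ⟨a, ha⟩) := by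
  have h' : ((algebraMap ↥(S36FI_act N' H).fixK ↥(S36FI_act N H).fixF a :
      ↥(S36FI_act N H).fixF) : ↥(modularFunctionFieldBar N)) ∈ S36V_G A φ := (T.mem _).1 h
  rw [T.red _ h h']
  have h'' : algebraMap Ω ↥(modularFunctionFieldBar N) (a : Ω) ∈ S36V_G A φ := by
    rw [← halg]; exact h'
  have e : (⟨_, h'⟩ : S36V_G A φ) = ⟨_, h''⟩ := Subtype.ext (halg a)
  rw [e, S36V_Gred_const A φ ⟨(a : Ω), ha⟩ (hφ _) h'']
  rfl

variable {q : ℕ} [hq : Fact q.Prime]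

include halg in
/-- the image of the uniformiser `ϖ = q` of `L` in `F_N`. -/
theorem S36CK_const_pi_coe :
    ((((S36CH_const ↥(S36FI_act N' H).fixK ↥(S36FI_act N H).fixF
      (S36BL_pi (q := q) (S36FI_act N' H).fixK) : (↥(S36FI_act N H).fixF)ˣ) :
        ↥(S36FI_act N H).fixF)) : ↥(modularFunctionFieldBar N)) =
      algebraMap Ω ↥(modularFunctionFieldBar N) ((q : ℕ) : Ω) := by
  rw [S36CH_const_val, halg, S36BL_pi_val]
  push_cast
  rfl

include T halg in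
/-- **`X_π`** (`X = FF, VV, F, V`): the uniformiser of the base has valuation `1`. -/
theorem S36CK_π (hπ₀ : π₀ = algebraMap Ω ↥(modularFunctionFieldBar N) ((q : ℕ) : Ω)) :
    D.v (S36CH_const ↥(S36FI_act N' H).fixK ↥(S36FI_act N H).fixF
      (S36BL_pi (q := q) (S36FI_act N' H).fixK)) = 1 := by
  rw [T.v_iff, S36CK_const_pi_coe halg, ← hπ₀, zpow_neg, zpow_one,
    mul_inv_cancel₀ T.pi_ne_zero]
  exact ⟨one_mem _, by rw [inv_one]; exact one_mem _⟩

include T halg in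
/-- **`FV_π`, generic form**: if `π₀ ^ e · q⁻¹` is a Gauss unit then the uniformiser of the base
has valuation `e`. -/
theorem S36CK_π_pow (e : ℕ)
    (hu : S36NR_U A φ (π₀ ^ e * (algebraMap Ω ↥(modularFunctionFieldBar N) ((q : ℕ) : Ω))⁻¹)) :
    D.v (S36CH_const ↥(S36FI_act N' H).fixK ↥(S36FI_act N H).fixF
      (S36BL_pi (q := q) (S36FI_act N' H).fixK)) = (e : ℤ) := by
  rw [T.v_iff, S36CK_const_pi_coe halg, zpow_neg, zpow_natCast]
  have hq0 : algebraMap Ω ↥(modularFunctionFieldBar N) ((q : ℕ) : Ω) ≠ 0 := by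
    rw [Ne, map_eq_zero]
    exact_mod_cast hq.out.ne_zero
  have e1 : algebraMap Ω ↥(modularFunctionFieldBar N) ((q : ℕ) : Ω) * (π₀ ^ e)⁻¹ =
      (π₀ ^ e * (algebraMap Ω ↥(modularFunctionFieldBar N) ((q : ℕ) : Ω))⁻¹)⁻¹ := by
    rw [mul_inv, inv_inv, mul_comm]
  rw [e1]
  exact ⟨hu.2, by rw [inv_inv]; exact hu.1⟩

end generic


/-! ### the concrete embeddings: `hφ` is `S36V_emX_const` -/

section concrete

variable (M q : ℕ) [NeZero M] [NeZero q] (hq : q.Prime) (hqM : ¬ q ∣ M)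
  (A : ValuationSubring Ω) (ζ : Ωˣ) (hζ : ζ ^ q = 1) (hζ1 : ζ ≠ 1)
  {N' : ℕ} {H : Subgroup (Ω ≃ₐ[ℚ] Ω)}

section level2

variable {π₀ : ↥(modularFunctionFieldBar (M * q * q))}
  {D : S36CV_Val ↥(S36FI_act (M * q * q) H).fixF (LaurentSeries (IsLocalRing.ResidueField A))}
  [Algebra ↥(S36FI_act N' H).fixK ↥(S36FI_act (M * q * q) H).fixF]
  (halg : ∀ c : ↥(S36FI_act N' H).fixK,
    ((algebraMap ↥(S36FI_act N' H).fixK ↥(S36FI_act (M * q * q) H).fixF c :
        ↥(S36FI_act (M * q * q) H).fixF) : ↥(modularFunctionFieldBar (M * q * q))) =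
      algebraMap Ω ↥(modularFunctionFieldBar (M * q * q)) (c : Ω))

include halg in
theorem S36CK_FF_const (T : S36CG_Tie (M * q * q) H A (S36V_emFF M q) π₀ D)
    (a : ↥(S36FI_act N' H).fixK) (ha : a ∈ S36FL_AL (S36FI_act N' H) A) :
    algebraMap ↥(S36FI_act N' H).fixK ↥(S36FI_act (M * q * q) H).fixF a ∈ D.O :=
  S36CK_const T (S36V_emFF_const M q) halg a ha

include halg in
theorem S36CK_VV_const (T : S36CG_Tie (M * q * q) H A (S36V_emVV M q hq hqM) π₀ D)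
    (a : ↥(S36FI_act N' H).fixK) (ha : a ∈ S36FL_AL (S36FI_act N' H) A) :
    algebraMap ↥(S36FI_act N' H).fixK ↥(S36FI_act (M * q * q) H).fixF a ∈ D.O :=
  S36CK_const T (S36V_emVV_const M q hq hqM) halg a ha

include halg in
theorem S36CK_FV_const (T : S36CG_Tie (M * q * q) H A (S36V_emFV M q hq hqM ζ hζ hζ1) π₀ D)
    (a : ↥(S36FI_act N' H).fixK) (ha : a ∈ S36FL_AL (S36FI_act N' H) A) :
    algebraMap ↥(S36FI_act N' H).fixK ↥(S36FI_act (M * q * q) H).fixF a ∈ D.O :=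
  S36CK_const T (S36V_emFV_const M q hq hqM ζ hζ hζ1) halg a ha

include halg in
theorem S36CK_FF_ρ_const (T : S36CG_Tie (M * q * q) H A (S36V_emFF M q) π₀ D)
    (a : ↥(S36FI_act N' H).fixK) (ha : a ∈ S36FL_AL (S36FI_act N' H) A)
    (h : algebraMap ↥(S36FI_act N' H).fixK ↥(S36FI_act (M * q * q) H).fixF a ∈ D.O) :
    D.ρ ⟨_, h⟩ = algebraMap (IsLocalRing.ResidueField A)
      (LaurentSeries (IsLocalRing.ResidueField A))
      (S36BL_resL A (S36FI_act N' H).fixK ⟨a, ha⟩) :=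
  S36CK_ρ_const T (S36V_emFF_const M q) halg a ha h

include halg in
theorem S36CK_VV_ρ_const (T : S36CG_Tie (M * q * q) H A (S36V_emVV M q hq hqM) π₀ D)
    (a : ↥(S36FI_act N' H).fixK) (ha : a ∈ S36FL_AL (S36FI_act N' H) A)
    (h : algebraMap ↥(S36FI_act N' H).fixK ↥(S36FI_act (M * q * q) H).fixF a ∈ D.O) :
    D.ρ ⟨_, h⟩ = algebraMap (IsLocalRing.ResidueField A)
      (LaurentSeries (IsLocalRing.ResidueField A))
      (S36BL_resL A (S36FI_act N' H).fixK ⟨a, ha⟩) :=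
  S36CK_ρ_const T (S36V_emVV_const M q hq hqM) halg a ha h

include halg in
theorem S36CK_FV_ρ_const (T : S36CG_Tie (M * q * q) H A (S36V_emFV M q hq hqM ζ hζ hζ1) π₀ D)
    (a : ↥(S36FI_act N' H).fixK) (ha : a ∈ S36FL_AL (S36FI_act N' H) A)
    (h : algebraMap ↥(S36FI_act N' H).fixK ↥(S36FI_act (M * q * q) H).fixF a ∈ D.O) :
    D.ρ ⟨_, h⟩ = algebraMap (IsLocalRing.ResidueField A)
      (LaurentSeries (IsLocalRing.ResidueField A))
      (S36BL_resL A (S36FI_act N' H).fixK ⟨a, ha⟩) :=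
  S36CK_ρ_const T (S36V_emFV_const M q hq hqM ζ hζ hζ1) halg a ha h

end level2

section level1

variable {π₀ : ↥(modularFunctionFieldBar (M * q))}
  {D : S36CV_Val ↥(S36FI_act (M * q) H).fixF (LaurentSeries (IsLocalRing.ResidueField A))}
  [Algebra ↥(S36FI_act N' H).fixK ↥(S36FI_act (M * q) H).fixF]
  (halg : ∀ c : ↥(S36FI_act N' H).fixK,
    ((algebraMap ↥(S36FI_act N' H).fixK ↥(S36FI_act (M * q) H).fixF c :
        ↥(S36FI_act (M * q) H).fixF) : ↥(modularFunctionFieldBar (M * q))) =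
      algebraMap Ω ↥(modularFunctionFieldBar (M * q)) (c : Ω))

include halg in
theorem S36CK_F_const (T : S36CG_Tie (M * q) H A (S36V_emF M q) π₀ D)
    (a : ↥(S36FI_act N' H).fixK) (ha : a ∈ S36FL_AL (S36FI_act N' H) A) :
    algebraMap ↥(S36FI_act N' H).fixK ↥(S36FI_act (M * q) H).fixF a ∈ D.O :=
  S36CK_const T (S36V_emF_const M q) halg a ha

include halg in
theorem S36CK_V_const (T : S36CG_Tie (M * q) H A (S36V_emV M q hq hqM) π₀ D)
    (a : ↥(S36FI_act N' H).fixK) (ha : a ∈ S36FL_AL (S36FI_act N' H) A) :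
    algebraMap ↥(S36FI_act N' H).fixK ↥(S36FI_act (M * q) H).fixF a ∈ D.O :=
  S36CK_const T (S36V_emV_const M q hq hqM) halg a ha

include halg in
/-- **`F_ρ_const`**. -/
theorem S36CK_F_ρ_const (T : S36CG_Tie (M * q) H A (S36V_emF M q) π₀ D)
    (a : ↥(S36FI_act N' H).fixK) (ha : a ∈ S36FL_AL (S36FI_act N' H) A)
    (h : algebraMap ↥(S36FI_act N' H).fixK ↥(S36FI_act (M * q) H).fixF a ∈ D.O) :
    D.ρ ⟨_, h⟩ = algebraMap (IsLocalRing.ResidueField A)
      (LaurentSeries (IsLocalRing.ResidueField A))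
      (S36BL_resL A (S36FI_act N' H).fixK ⟨a, ha⟩) :=
  S36CK_ρ_const T (S36V_emF_const M q) halg a ha h

include halg in
/-- **`V_ρ_const`**. -/
theorem S36CK_V_ρ_const (T : S36CG_Tie (M * q) H A (S36V_emV M q hq hqM) π₀ D)
    (a : ↥(S36FI_act N' H).fixK) (ha : a ∈ S36FL_AL (S36FI_act N' H) A)
    (h : algebraMap ↥(S36FI_act N' H).fixK ↥(S36FI_act (M * q) H).fixF a ∈ D.O) :
    D.ρ ⟨_, h⟩ = algebraMap (IsLocalRing.ResidueField A)
      (LaurentSeries (IsLocalRing.ResidueField A))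
      (S36BL_resL A (S36FI_act N' H).fixK ⟨a, ha⟩) :=
  S36CK_ρ_const T (S36V_emV_const M q hq hqM) halg a ha h

end level1

end concrete

section dvL

variable {q : ℕ} [hq : Fact q.Prime] (N' : ℕ) (A : ValuationSubring Ω)

/-- **`dvL`** of `S36CH_Hyp` for the inertia field. -/
theorem S36CK_dvL (hA : A.LiesOverPrime q)
    (c : (↥(S36FI_act N' (A.inertiaSubgroupIn ℚ)).fixK)ˣ) :
    ∃ m : ℤ, c * S36BL_pi (q := q) (S36FI_act N' (A.inertiaSubgroupIn ℚ)).fixK ^ (-m) ∈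
      S36CV_UG (S36FL_AL (S36FI_act N' (A.inertiaSubgroupIn ℚ)) A) :=
  S36BL_dvL A (S36FI_act N' (A.inertiaSubgroupIn ℚ)).fixK hA
    (fun c hc τ hτ => (S36FI_mem_fixK N' (A.inertiaSubgroupIn ℚ)).mp hc τ hτ) c

end dvL

section FV

variable (M q : ℕ) [NeZero M] [NeZero q] (hq : q.Prime) (hqM : ¬ q ∣ M)
  (A : ValuationSubring Ω) (hA : A.LiesOverPrime q)
  (ζ : Ωˣ) (hζ : ζ ^ q = 1) (hζ1 : ζ ≠ 1)
  {N' : ℕ}
  {D : S36CV_Val ↥(S36FI_act (M * q * q) (A.inertiaSubgroupIn ℚ)).fixF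
    (LaurentSeries (IsLocalRing.ResidueField A))}
  (T : S36CG_Tie (M * q * q) (A.inertiaSubgroupIn ℚ) A (S36V_emFV M q hq hqM ζ hζ hζ1)
    (S36VDV_varpi M q) D)
  [Algebra ↥(S36FI_act N' (A.inertiaSubgroupIn ℚ)).fixK
    ↥(S36FI_act (M * q * q) (A.inertiaSubgroupIn ℚ)).fixF]
  (halg : ∀ c : ↥(S36FI_act N' (A.inertiaSubgroupIn ℚ)).fixK,
    ((algebraMap ↥(S36FI_act N' (A.inertiaSubgroupIn ℚ)).fixK
      ↥(S36FI_act (M * q * q) (A.inertiaSubgroupIn ℚ)).fixF c :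
        ↥(S36FI_act (M * q * q) (A.inertiaSubgroupIn ℚ)).fixF) :
      ↥(modularFunctionFieldBar (M * q * q))) =
      algebraMap Ω ↥(modularFunctionFieldBar (M * q * q)) (c : Ω))

include T halg hA in
/-- **`FV_π`**: along the middle valuation the uniformiser `q` of the base has valuation
`q - 1`. -/
theorem S36CK_FV_π :
    haveI : Fact q.Prime := ⟨hq⟩
    D.v (S36CH_const ↥(S36FI_act N' (A.inertiaSubgroupIn ℚ)).fixK
      ↥(S36FI_act (M * q * q) (A.inertiaSubgroupIn ℚ)).fixF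
      (S36BL_pi (q := q) (S36FI_act N' (A.inertiaSubgroupIn ℚ)).fixK)) = (q : ℤ) - 1 := by
  haveI : Fact q.Prime := ⟨hq⟩
  have h := S36CK_π_pow (q := q) T halg (q - 1) (by
    have := S36VDV_FV_pow M q hq hqM A ζ hζ hζ1 hA
    exact ⟨this.1, this.2⟩)
  rw [h, Nat.cast_sub hq.one_lt.le, Nat.cast_one]

end FV

end Fermat.Agent.S36
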