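import Fermat.Agent.S36.Val3Eq
import Fermat.Agent.S36.Val3Three
import Fermat.Agent.S36.BaseLCyc
import Fermat.Agent.GalRep.ESRed

/-!
# TRACK 10 (S36), package P-VAL3 §3, step (1) CONJ (helper29)

`A` a valuation subring of `ℚ̄` over `q`, `I` its inertia group.  The Gauss rings along the `q − 1`
middle embeddings `ι_ζ` are permuted by the decomposition group; on an `I`-FIXED function `f` they
all give the SAME reduction.

* `S36VC_dec` : for `g` in the decomposition group and embeddings `φ, φ'` with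
  `φ' (σ f) = σ (φ f)`: `f ∈ G(φ) ⇒ σ f ∈ G(φ')` and `red_{φ'} (σ f) = ḡ (red_φ f)`;
* `S36VC_inertia` : the same for `τ ∈ I`, where the reductions are EQUAL;
* `S36VC_isPrimitiveRoot` : `ζ ^ q = 1`, `ζ ≠ 1` ⇒ `ζ` is a primitive `q`-th root of unity;
* `S36VC_conj` : `f` fixed by `I`, `f ∈ G(ι_ζ)` ⇒ `f ∈ G(ι_ζ')` and `red_{ζ'} f = red_ζ f`
  for all `ζ, ζ'`.
-/

set_option autoImplicit false
set_option synthInstance.maxHeartbeats 400000
set_option maxHeartbeats 1000000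
set_option linter.style.haveILetI false
set_option linter.unusedSectionVars false

open HahnSeries IntermediateField AlgebraicCurve ModularCurve

noncomputable section

namespace Fermat.Agent.S36

open Fermat.Agent.S18 Fermat.Agent.S24 Fermat.Agent.S34 Fermat.Agent.S37 Fermat.Agent.GalRep

local notation "ℚbar" => AlgebraicClosure ℚ

section general

variable (N : ℕ) [NeZero N] (A : ValuationSubring ℚbar)

/-- **the decomposition group permutes the Gauss rings along conjugate embeddings**. -/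
theorem S36VC_dec (g : A.decompositionSubgroup ℚ)
    (φ φ' : ↥(modularFunctionFieldBar N) →+* LaurentSeries ℚbar)
    (f f' : ↥(modularFunctionFieldBar N))
    (h : φ' f' = coeffMap (((g : ℚbar ≃ₐ[ℚ] ℚbar) : ℚbar ≃ₐ[ℚ] ℚbar) : ℚbar →+* ℚbar) (φ f))
    (hf : f ∈ S36V_G A φ) :
    ∃ hf' : f' ∈ S36V_G A φ',
      S36V_Gred A φ' ⟨f', hf'⟩ =
        coeffMap (MulSemiringAction.toRingHom (A.decompositionSubgroup ℚ)
          (IsLocalRing.ResidueField A) g) (S36V_Gred A φ ⟨f, hf⟩) := by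
  have hmem : f' ∈ S36V_G A φ' :=
    S36V_mem_G_of_eq_post A φ' φ
      (coeffMap (((g : ℚbar ≃ₐ[ℚ] ℚbar) : ℚbar ≃ₐ[ℚ] ℚbar) : ℚbar →+* ℚbar)) (ES_act A g)
      (coeffMap (MulSemiringAction.toRingHom (A.decompositionSubgroup ℚ)
        (IsLocalRing.ResidueField A) g))
      (fun s => ES_ι_act A g s) (fun s => ES_ρ_act A g s) h hf
  refine ⟨hmem, ?_⟩
  exact S36V_Gred_of_eq_post A φ' φ
      (coeffMap (((g : ℚbar ≃ₐ[ℚ] ℚbar) : ℚbar ≃ₐ[ℚ] ℚbar) : ℚbar →+* ℚbar)) (ES_act A g)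
      (coeffMap (MulSemiringAction.toRingHom (A.decompositionSubgroup ℚ)
        (IsLocalRing.ResidueField A) g))
      (fun s => ES_ι_act A g s) (fun s => ES_ρ_act A g s) h hf hmem

/-- **inertia does not change the reduction**. -/
theorem S36VC_inertia (τ : ℚbar ≃ₐ[ℚ] ℚbar) (hτ : τ ∈ A.inertiaSubgroupIn ℚ)
    (φ φ' : ↥(modularFunctionFieldBar N) →+* LaurentSeries ℚbar)
    (f f' : ↥(modularFunctionFieldBar N))
    (h : φ' f' = coeffMap (τ : ℚbar →+* ℚbar) (φ f))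
    (hf : f ∈ S36V_G A φ) :
    ∃ hf' : f' ∈ S36V_G A φ', S36V_Gred A φ' ⟨f', hf'⟩ = S36V_Gred A φ ⟨f, hf⟩ := by
  obtain ⟨g, hgI, rfl⟩ := hτ
  have hgid : MulSemiringAction.toRingHom (A.decompositionSubgroup ℚ)
      (IsLocalRing.ResidueField A) g = RingHom.id _ := by
    have h1 : MulSemiringAction.toRingAut (A.decompositionSubgroup ℚ)
        (IsLocalRing.ResidueField A) g = 1 := hgI
    ext x
    exact congrArg (fun e : RingAut (IsLocalRing.ResidueField A) => e x) h1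
  obtain ⟨hf', hred⟩ := S36VC_dec N A g φ φ' f f' h hf
  refine ⟨hf', ?_⟩
  rw [hred, hgid, coeffMap_id]

end general

/-- a `q`-th root of unity `≠ 1` is primitive (`q` prime). -/
theorem S36VC_isPrimitiveRoot {q : ℕ} (hq : q.Prime) (ζ : ℚbarˣ) (hζ : ζ ^ q = 1) (hζ1 : ζ ≠ 1) :
    IsPrimitiveRoot (ζ : ℚbar) q := by
  have h1 : (ζ : ℚbar) ^ q = 1 := by
    rw [← Units.val_pow_eq_pow_val, hζ, Units.val_one]
  have h2 : (ζ : ℚbar) ≠ 1 := fun h => hζ1 (Units.ext h)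
  have hord : orderOf (ζ : ℚbar) = q := by
    have hdvd : orderOf (ζ : ℚbar) ∣ q := orderOf_dvd_of_pow_eq_one h1
    rcases (Nat.dvd_prime hq).mp hdvd with h | h
    · exact absurd (orderOf_eq_one_iff.mp h) h2
    · exact h
  rw [← hord]
  exact IsPrimitiveRoot.orderOf _

variable (M q : ℕ) [NeZero M] [NeZero q] (hq : q.Prime) (hqM : ¬ q ∣ M)
  (A : ValuationSubring ℚbar)

/-- **CONJ**: on an `I`-fixed function the Gauss rings along all middle embeddings `ι_ζ` agree,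
with the same reduction. -/
theorem S36VC_conj (hA : A.LiesOverPrime q)
    (ζ : ℚbarˣ) (hζ : ζ ^ q = 1) (hζ1 : ζ ≠ 1) (ζ' : ℚbarˣ) (hζ' : ζ' ^ q = 1) (hζ'1 : ζ' ≠ 1)
    (f : ↥(modularFunctionFieldBar (M * q * q)))
    (hfix : ∀ τ ∈ A.inertiaSubgroupIn ℚ, GR_gal (M * q * q) τ f = f)
    (hf : f ∈ S36V_G A (S36V_emFV M q hq hqM ζ hζ hζ1)) :
    ∃ hf' : f ∈ S36V_G A (S36V_emFV M q hq hqM ζ' hζ' hζ'1),
      S36V_Gred A (S36V_emFV M q hq hqM ζ' hζ' hζ'1) ⟨f, hf'⟩ =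
        S36V_Gred A (S36V_emFV M q hq hqM ζ hζ hζ1) ⟨f, hf⟩ := by
  haveI : Fact q.Prime := ⟨hq⟩
  obtain ⟨τ, hτ, hτζ⟩ := S36BL_inertia_transitive A hA
    (S36VC_isPrimitiveRoot hq ζ hζ hζ1) (S36VC_isPrimitiveRoot hq ζ' hζ' hζ'1)
  refine S36VC_inertia (M * q * q) A τ hτ _ _ f f ?_ hf
  have h1 := S36VE_iota_gal M q hq hqM τ ζ hζ hζ1 ζ' hζ' hζ'1 hτζ.symm f
  rw [hfix τ hτ] at h1
  exact h1.symm

end Fermat.Agent.S36
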