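import Fermat.Agent.S36.NormRes5
import Fermat.Agent.S36.Val3Conj

/-!
# TRACK 10 (S36), package NORMRES (helper4), part 7: the formulas on INERTIA-FIXED functions

`I = A.inertiaSubgroupIn ℚ`.  For an `I`-fixed `m ∈ F₂` the `q - 1` middle valuations `FV ζ`
coincide with equal reductions (`S36VC_conj`, helper29), so ONE `ζ₀` suffices:

* `S36NR_fix_mem_all`, `S36NR_fix_red_all`, `S36NR_fix_U_all` : from `ζ₀` to all `ζ`;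
* `S36NR_fix_NA_mem_F`, `S36NR_fix_NA_red_F` :
    `red_F (N_α m) = red_FF m · (red_{FV ζ₀} m)^(q-1)`;
* `S36NR_fix_NB_mem_V`, `S36NR_fix_NB_red_V` :
    `red_V (N_β m) = (red_{FV ζ₀} m)^(q-1) · red_VV m`;
  (the other two formulas `S36NR_NB_red_F`, `S36NR_NA_red_V` do not involve `FV`);
* `S36NR_fix_NA_U_F`, `S36NR_fix_NB_U_V` : units to units;
* `S36NR_fix_tab_NA_F`, `S36NR_fix_tab_NB_V` : the table with ONE `ζ₀`
  (`m`, `π` inertia-fixed, `e` an inertia-fixed constant).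
-/

set_option autoImplicit false
set_option synthInstance.maxHeartbeats 400000
set_option maxHeartbeats 1000000
set_option linter.style.haveILetI false
set_option linter.unusedSectionVars false

open HahnSeries IntermediateField AlgebraicCurve ModularCurve

noncomputable section

namespace Fermat.Agent.S36

open Fermat.Agent.S18 Fermat.Agent.S24 Fermat.Agent.S34 Fermat.Agent.S35 Fermat.Agent.S37
  Fermat.Agent.GalRep Fermat.Agent.Lib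

local notation "ℚbar" => AlgebraicClosure ℚ

variable (M q : ℕ) [NeZero M] [NeZero q] (hq : q.Prime) (hqM : ¬ q ∣ M)
  (A : ValuationSubring ℚbar) (hA : A.LiesOverPrime q)
  (ζ₀ : ℚbarˣ) (hζ₀ : ζ₀ ^ q = 1) (hζ₀1 : ζ₀ ≠ 1)

/-! ### from one `ζ₀` to all `ζ` -/

include hA in
theorem S36NR_fix_mem_all {m : ↥(modularFunctionFieldBar (M * q * q))}
    (hfix : ∀ τ ∈ A.inertiaSubgroupIn ℚ, GR_gal (M * q * q) τ m = m)
    (h1 : m ∈ S36V_G A (S36V_emFV M q hq hqM ζ₀ hζ₀ hζ₀1)) (ζ : S36NR_Z q) :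
    m ∈ S36V_G A (S36V_emFV M q hq hqM ζ.1 ζ.2.1 ζ.2.2) :=
  (S36VC_conj M q hq hqM A hA ζ₀ hζ₀ hζ₀1 ζ.1 ζ.2.1 ζ.2.2 m hfix h1).1

include hA in
theorem S36NR_fix_red_all {m : ↥(modularFunctionFieldBar (M * q * q))}
    (hfix : ∀ τ ∈ A.inertiaSubgroupIn ℚ, GR_gal (M * q * q) τ m = m)
    (h1 : m ∈ S36V_G A (S36V_emFV M q hq hqM ζ₀ hζ₀ hζ₀1)) (ζ : S36NR_Z q)
    (h : m ∈ S36V_G A (S36V_emFV M q hq hqM ζ.1 ζ.2.1 ζ.2.2)) :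
    S36V_Gred A (S36V_emFV M q hq hqM ζ.1 ζ.2.1 ζ.2.2) ⟨m, h⟩ =
      S36V_Gred A (S36V_emFV M q hq hqM ζ₀ hζ₀ hζ₀1) ⟨m, h1⟩ :=
  (S36VC_conj M q hq hqM A hA ζ₀ hζ₀ hζ₀1 ζ.1 ζ.2.1 ζ.2.2 m hfix h1).2

theorem S36NR_fix_inv {N : ℕ} {m : ↥(modularFunctionFieldBar N)}
    (hfix : ∀ τ ∈ A.inertiaSubgroupIn ℚ, GR_gal N τ m = m) :
    ∀ τ ∈ A.inertiaSubgroupIn ℚ, GR_gal N τ m⁻¹ = m⁻¹ := by
  intro τ hτ
  rw [map_inv₀, hfix τ hτ]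

theorem S36NR_fix_mul {N : ℕ} {m m' : ↥(modularFunctionFieldBar N)}
    (hfix : ∀ τ ∈ A.inertiaSubgroupIn ℚ, GR_gal N τ m = m)
    (hfix' : ∀ τ ∈ A.inertiaSubgroupIn ℚ, GR_gal N τ m' = m') :
    ∀ τ ∈ A.inertiaSubgroupIn ℚ, GR_gal N τ (m * m') = m * m' := by
  intro τ hτ
  rw [map_mul, hfix τ hτ, hfix' τ hτ]

theorem S36NR_fix_pow {N : ℕ} {m : ↥(modularFunctionFieldBar N)}
    (hfix : ∀ τ ∈ A.inertiaSubgroupIn ℚ, GR_gal N τ m = m) (n : ℕ) :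
    ∀ τ ∈ A.inertiaSubgroupIn ℚ, GR_gal N τ (m ^ n) = m ^ n := by
  intro τ hτ
  rw [map_pow, hfix τ hτ]

theorem S36NR_fix_zpow {N : ℕ} {m : ↥(modularFunctionFieldBar N)}
    (hfix : ∀ τ ∈ A.inertiaSubgroupIn ℚ, GR_gal N τ m = m) (n : ℤ) :
    ∀ τ ∈ A.inertiaSubgroupIn ℚ, GR_gal N τ (m ^ n) = m ^ n := by
  intro τ hτ
  rw [map_zpow₀, hfix τ hτ]

theorem S36NR_fix_const {N : ℕ} {c : ℚbar}
    (hc : ∀ τ ∈ A.inertiaSubgroupIn ℚ, τ c = c) :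
    ∀ τ ∈ A.inertiaSubgroupIn ℚ,
      GR_gal N τ (algebraMap ℚbar ↥(modularFunctionFieldBar N) c) =
        algebraMap ℚbar ↥(modularFunctionFieldBar N) c := by
  intro τ hτ
  have := arithmeticRingAut_algebraMap (modularFunctionFieldFull N) τ c
  rw [hc τ hτ] at this
  exact this

include hA in
theorem S36NR_fix_U_all {m : ↥(modularFunctionFieldBar (M * q * q))}
    (hfix : ∀ τ ∈ A.inertiaSubgroupIn ℚ, GR_gal (M * q * q) τ m = m)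
    (h1 : S36NR_U A (S36V_emFV M q hq hqM ζ₀ hζ₀ hζ₀1) m) (ζ : S36NR_Z q) :
    S36NR_U A (S36V_emFV M q hq hqM ζ.1 ζ.2.1 ζ.2.2) m :=
  ⟨S36NR_fix_mem_all M q hq hqM A hA ζ₀ hζ₀ hζ₀1 hfix h1.1 ζ,
    S36NR_fix_mem_all M q hq hqM A hA ζ₀ hζ₀ hζ₀1 (S36NR_fix_inv A hfix) h1.2 ζ⟩

/-! ### the residue formulas with one `ζ₀` -/

include hA in
/-- **(NR1F) on inertia-fixed functions, membership.** -/
theorem S36NR_fix_NA_mem_F {m : ↥(modularFunctionFieldBar (M * q * q))}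
    (hfix : ∀ τ ∈ A.inertiaSubgroupIn ℚ, GR_gal (M * q * q) τ m = m)
    (h0 : m ∈ S36V_G A (S36V_emFF M q))
    (h1 : m ∈ S36V_G A (S36V_emFV M q hq hqM ζ₀ hζ₀ hζ₀1)) :
    S35B_NA (M * q) q m ∈ S36V_G A (S36V_emF M q) :=
  S36NR_NA_mem_F M q hq hqM A h0 (S36NR_fix_mem_all M q hq hqM A hA ζ₀ hζ₀ hζ₀1 hfix h1)

include hA in
/-- **(NR1F) on inertia-fixed functions**:
`red_F (N_α m) = red_FF m · (red_{FV ζ₀} m)^(q-1)`. -/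
theorem S36NR_fix_NA_red_F {m : ↥(modularFunctionFieldBar (M * q * q))}
    (hfix : ∀ τ ∈ A.inertiaSubgroupIn ℚ, GR_gal (M * q * q) τ m = m)
    (h0 : m ∈ S36V_G A (S36V_emFF M q))
    (h1 : m ∈ S36V_G A (S36V_emFV M q hq hqM ζ₀ hζ₀ hζ₀1))
    (h : S35B_NA (M * q) q m ∈ S36V_G A (S36V_emF M q)) :
    S36V_Gred A (S36V_emF M q) ⟨S35B_NA (M * q) q m, h⟩ =
      S36V_Gred A (S36V_emFF M q) ⟨m, h0⟩ *
        S36V_Gred A (S36V_emFV M q hq hqM ζ₀ hζ₀ hζ₀1) ⟨m, h1⟩ ^ (q - 1) := by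
  have hall := S36NR_fix_mem_all M q hq hqM A hA ζ₀ hζ₀ hζ₀1 hfix h1
  rw [S36NR_NA_red_F M q hq hqM A h0 hall h]
  congr 1
  exact S36NR_prod_const q _ _ fun ζ =>
    S36NR_fix_red_all M q hq hqM A hA ζ₀ hζ₀ hζ₀1 hfix h1 ζ (hall ζ)

include hA in
/-- **(NR2V) on inertia-fixed functions, membership.** -/
theorem S36NR_fix_NB_mem_V {m : ↥(modularFunctionFieldBar (M * q * q))}
    (hfix : ∀ τ ∈ A.inertiaSubgroupIn ℚ, GR_gal (M * q * q) τ m = m)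
    (h2 : m ∈ S36V_G A (S36V_emVV M q hq hqM))
    (h1 : m ∈ S36V_G A (S36V_emFV M q hq hqM ζ₀ hζ₀ hζ₀1)) :
    S35B_NB (M * q) q m ∈ S36V_G A (S36V_emV M q hq hqM) :=
  S36NR_NB_mem_V M q hq hqM A h2 (S36NR_fix_mem_all M q hq hqM A hA ζ₀ hζ₀ hζ₀1 hfix h1)

include hA in
/-- **(NR2V) on inertia-fixed functions**:
`red_V (N_β m) = (red_{FV ζ₀} m)^(q-1) · red_VV m`. -/
theorem S36NR_fix_NB_red_V {m : ↥(modularFunctionFieldBar (M * q * q))}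
    (hfix : ∀ τ ∈ A.inertiaSubgroupIn ℚ, GR_gal (M * q * q) τ m = m)
    (h2 : m ∈ S36V_G A (S36V_emVV M q hq hqM))
    (h1 : m ∈ S36V_G A (S36V_emFV M q hq hqM ζ₀ hζ₀ hζ₀1))
    (h : S35B_NB (M * q) q m ∈ S36V_G A (S36V_emV M q hq hqM)) :
    S36V_Gred A (S36V_emV M q hq hqM) ⟨S35B_NB (M * q) q m, h⟩ =
      S36V_Gred A (S36V_emFV M q hq hqM ζ₀ hζ₀ hζ₀1) ⟨m, h1⟩ ^ (q - 1) *
        S36V_Gred A (S36V_emVV M q hq hqM) ⟨m, h2⟩ := by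
  have hall := S36NR_fix_mem_all M q hq hqM A hA ζ₀ hζ₀ hζ₀1 hfix h1
  rw [S36NR_NB_red_V M q hq hqM A hA h2 hall h, mul_comm]
  congr 1
  exact S36NR_prod_const q _ _ fun ζ =>
    S36NR_fix_red_all M q hq hqM A hA ζ₀ hζ₀ hζ₀1 hfix h1 ζ (hall ζ)

/-! ### units to units -/

include hA in
theorem S36NR_fix_NA_U_F {m : ↥(modularFunctionFieldBar (M * q * q))}
    (hfix : ∀ τ ∈ A.inertiaSubgroupIn ℚ, GR_gal (M * q * q) τ m = m)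
    (h0 : S36NR_U A (S36V_emFF M q) m)
    (h1 : S36NR_U A (S36V_emFV M q hq hqM ζ₀ hζ₀ hζ₀1) m) :
    S36NR_U A (S36V_emF M q) (S35B_NA (M * q) q m) :=
  S36NR_NA_U_F M q hq hqM A h0 (S36NR_fix_U_all M q hq hqM A hA ζ₀ hζ₀ hζ₀1 hfix h1)

include hA in
theorem S36NR_fix_NB_U_V {m : ↥(modularFunctionFieldBar (M * q * q))}
    (hfix : ∀ τ ∈ A.inertiaSubgroupIn ℚ, GR_gal (M * q * q) τ m = m)
    (h2 : S36NR_U A (S36V_emVV M q hq hqM) m)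
    (h1 : S36NR_U A (S36V_emFV M q hq hqM ζ₀ hζ₀ hζ₀1) m) :
    S36NR_U A (S36V_emV M q hq hqM) (S35B_NB (M * q) q m) :=
  S36NR_NB_U_V M q hq hqM A h2 (S36NR_fix_U_all M q hq hqM A hA ζ₀ hζ₀ hζ₀1 hfix h1)

/-! ### the table with one `ζ₀` -/

include hA in
/-- **TABLE, `N_α` at `F`, inertia-fixed form**. -/
theorem S36NR_fix_tab_NA_F (m π : ↥(modularFunctionFieldBar (M * q * q))) (hπ : π ≠ 0)
    (hfix : ∀ τ ∈ A.inertiaSubgroupIn ℚ, GR_gal (M * q * q) τ m = m)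
    (hfixπ : ∀ τ ∈ A.inertiaSubgroupIn ℚ, GR_gal (M * q * q) τ π = π)
    (c₀ e : ℚbar) (he : ∀ τ ∈ A.inertiaSubgroupIn ℚ, τ e = e) (b : ℤ)
    (hFF : S36NR_U A (S36V_emFF M q)
      (m * (algebraMap ℚbar ↥(modularFunctionFieldBar (M * q * q)) c₀)⁻¹))
    (hFV : S36NR_U A (S36V_emFV M q hq hqM ζ₀ hζ₀ hζ₀1) (m * π ^ (-b)))
    (hπFF : S36NR_U A (S36V_emFF M q) π)
    (hπFV : S36NR_U A (S36V_emFV M q hq hqM ζ₀ hζ₀ hζ₀1)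
      (π ^ (q - 1) * (algebraMap ℚbar ↥(modularFunctionFieldBar (M * q * q)) e)⁻¹)) :
    S36NR_U A (S36V_emF M q)
      (S35B_NA (M * q) q m *
        (algebraMap ℚbar ↥(modularFunctionFieldBar (M * q)) (c₀ * e ^ b))⁻¹) :=
  S36NR_tab_NA_F M q hq hqM A hA m π hπ c₀ e b hFF
    (S36NR_fix_U_all M q hq hqM A hA ζ₀ hζ₀ hζ₀1
      (S36NR_fix_mul A hfix (S36NR_fix_zpow A hfixπ (-b))) hFV)
    hπFF
    (S36NR_fix_U_all M q hq hqM A hA ζ₀ hζ₀ hζ₀1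
      (S36NR_fix_mul A (S36NR_fix_pow A hfixπ (q - 1)) (S36NR_fix_inv A (S36NR_fix_const A he)))
      hπFV)

include hA in
/-- **TABLE, `N_β` at `V`, inertia-fixed form**. -/
theorem S36NR_fix_tab_NB_V (m π : ↥(modularFunctionFieldBar (M * q * q))) (hπ : π ≠ 0)
    (hfix : ∀ τ ∈ A.inertiaSubgroupIn ℚ, GR_gal (M * q * q) τ m = m)
    (hfixπ : ∀ τ ∈ A.inertiaSubgroupIn ℚ, GR_gal (M * q * q) τ π = π)
    (c₂ e : ℚbar) (he : ∀ τ ∈ A.inertiaSubgroupIn ℚ, τ e = e) (b : ℤ)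
    (hVV : S36NR_U A (S36V_emVV M q hq hqM)
      (m * (algebraMap ℚbar ↥(modularFunctionFieldBar (M * q * q)) c₂)⁻¹))
    (hFV : S36NR_U A (S36V_emFV M q hq hqM ζ₀ hζ₀ hζ₀1) (m * π ^ (-b)))
    (hπVV : S36NR_U A (S36V_emVV M q hq hqM) π)
    (hπFV : S36NR_U A (S36V_emFV M q hq hqM ζ₀ hζ₀ hζ₀1)
      (π ^ (q - 1) * (algebraMap ℚbar ↥(modularFunctionFieldBar (M * q * q)) e)⁻¹)) :
    S36NR_U A (S36V_emV M q hq hqM)
      (S35B_NB (M * q) q m *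
        (algebraMap ℚbar ↥(modularFunctionFieldBar (M * q)) (c₂ * e ^ b))⁻¹) :=
  S36NR_tab_NB_V M q hq hqM A hA m π hπ c₂ e b hVV
    (S36NR_fix_U_all M q hq hqM A hA ζ₀ hζ₀ hζ₀1
      (S36NR_fix_mul A hfix (S36NR_fix_zpow A hfixπ (-b))) hFV)
    hπVV
    (S36NR_fix_U_all M q hq hqM A hA ζ₀ hζ₀ hζ₀1
      (S36NR_fix_mul A (S36NR_fix_pow A hfixπ (q - 1)) (S36NR_fix_inv A (S36NR_fix_const A he)))
      hπFV)

end Fermat.Agent.S36
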