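import Fermat.Agent.S36.Comp3Tie
import Fermat.Agent.S36.Comp3Norm
import Fermat.Agent.S36.Val3DvInst
import Fermat.Agent.S36.NormRes6

/-!
# TRACK 10 (S36), COMP3-INST, piece (P1) (helper4): the eight norm fields of `S36CH_Hyp`
from the TIES — prefix `S36CB_`

Setting (helper13's split, `S36/Comp3Tie.lean`): `I = A.inertiaSubgroupIn ℚ`,
`F₂ = (S36FI_act (M*q*q) I).fixF`, `F₁ = (S36FI_act (M*q) I).fixF`, `k` the residue field of `A`;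
five ARBITRARY valuation data `D_FF D_FV D_VV` on `F₂`, `D_F D_V` on `F₁`, tied to the Gauss rings
along `S36V_emFF`, `S36V_emFV ζ₀`, `S36V_emVV`, `S36V_emF`, `S36V_emV` with uniformisers
`q`, `ϖ = S36VDV_varpi M q`, `q`, `q`, `q`.  `N₁ = S36CN_NA (M*q) q I`, `N₂ = S36CN_NB (M*q) q I`,
`Ψ = qExpand k q`.

* `S36CB_vF_N₁`, `S36CB_vV_N₁`, `S36CB_vF_N₂`, `S36CB_vV_N₂` : the valuation table;
* `S36CB_NR1F`, `S36CB_NR1V`, `S36CB_NR2F`, `S36CB_NR2V` : the residue formulas;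
literally the fields `vF_N₁ … NR2V` of `S36CH_Hyp`.

The two statements with the middle valuation (`vF_N₁`, `vV_N₂`) need that `ϖ` is a unit of the
Gauss ring along `emFF` resp. `emVV` (piece (P2), hypotheses `hπFF`, `hπVV`).
-/

set_option autoImplicit false
set_option synthInstance.maxHeartbeats 400000
set_option maxHeartbeats 1000000
set_option linter.style.haveILetI false
set_option linter.unusedSectionVars false

open HahnSeries IntermediateField AlgebraicCurve ModularCurve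

noncomputable section

namespace Fermat.Agent.S36

open Fermat.Agent.S18 Fermat.Agent.S24 Fermat.Agent.S34 Fermat.Agent.S35 Fermat.Agent.S37
  Fermat.Agent.GalRep Fermat.Agent.Lib

local notation "ℚbar" => AlgebraicClosure ℚ

/-! ### generalities -/

/-- elements of the fixed field are fixed. -/
theorem S36CB_fix (N : ℕ) (H : Subgroup (ℚbar ≃ₐ[ℚ] ℚbar))
    (u : (↥(S36FI_act N H).fixF)ˣ) :
    ∀ τ ∈ H, GR_gal N τ (((u : ↥(S36FI_act N H).fixF)) : ↥(modularFunctionFieldBar N)) =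
      (((u : ↥(S36FI_act N H).fixF)) : ↥(modularFunctionFieldBar N)) :=
  (S36FI_mem_fixF N H).1 (u : ↥(S36FI_act N H).fixF).2

/-- `q^(-a)` as the inverse of a constant. -/
theorem S36CB_cq_zpow (N q : ℕ) (a : ℤ) :
    (algebraMap ℚbar ↥(modularFunctionFieldBar N) (q : ℚbar)) ^ (-a) =
      (algebraMap ℚbar ↥(modularFunctionFieldBar N) ((q : ℚbar) ^ a))⁻¹ := by
  rw [zpow_neg, map_zpow₀]

theorem S36CB_natCast_fix (H : Subgroup (ℚbar ≃ₐ[ℚ] ℚbar)) (q : ℕ) :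
    ∀ τ ∈ H, τ (q : ℚbar) = (q : ℚbar) := fun τ _ => map_natCast τ q

/-! ### the setting -/

variable (M q : ℕ) [NeZero M] [NeZero q] (hq : q.Prime) (hqM : ¬ q ∣ M)
  (A : ValuationSubring ℚbar) (hA : A.LiesOverPrime q)
  (ζ₀ : ℚbarˣ) (hζ₀ : ζ₀ ^ q = 1) (hζ₀1 : ζ₀ ≠ 1)
  {D_FF D_FV D_VV : S36CV_Val ↥(S36FI_act (M * q * q) (A.inertiaSubgroupIn ℚ)).fixF
    (LaurentSeries (IsLocalRing.ResidueField A))}
  {D_F D_V : S36CV_Val ↥(S36FI_act (M * q) (A.inertiaSubgroupIn ℚ)).fixF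
    (LaurentSeries (IsLocalRing.ResidueField A))}
  (T_FF : S36CG_Tie (M * q * q) (A.inertiaSubgroupIn ℚ) A (S36V_emFF M q)
    (algebraMap ℚbar ↥(modularFunctionFieldBar (M * q * q)) (q : ℚbar)) D_FF)
  (T_FV : S36CG_Tie (M * q * q) (A.inertiaSubgroupIn ℚ) A (S36V_emFV M q hq hqM ζ₀ hζ₀ hζ₀1)
    (S36VDV_varpi M q) D_FV)
  (T_VV : S36CG_Tie (M * q * q) (A.inertiaSubgroupIn ℚ) A (S36V_emVV M q hq hqM)
    (algebraMap ℚbar ↥(modularFunctionFieldBar (M * q * q)) (q : ℚbar)) D_VV)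
  (T_F : S36CG_Tie (M * q) (A.inertiaSubgroupIn ℚ) A (S36V_emF M q)
    (algebraMap ℚbar ↥(modularFunctionFieldBar (M * q)) (q : ℚbar)) D_F)
  (T_V : S36CG_Tie (M * q) (A.inertiaSubgroupIn ℚ) A (S36V_emV M q hq hqM)
    (algebraMap ℚbar ↥(modularFunctionFieldBar (M * q)) (q : ℚbar)) D_V)

/-! ### the valuation table -/

include hA T_FF T_FV T_F in
/-- **`vF_N₁`**: `v_F (N_α u) = v_FF u + v_FV u`. -/
theorem S36CB_vF_N₁ (hπFF : S36NR_U A (S36V_emFF M q) (S36VDV_varpi M q))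
    (u : (↥(S36FI_act (M * q * q) (A.inertiaSubgroupIn ℚ)).fixF)ˣ) :
    D_F.v (S36CN_NA (M * q) q (A.inertiaSubgroupIn ℚ) u) = D_FF.v u + D_FV.v u := by
  have hq0 : (q : ℚbar) ≠ 0 := by exact_mod_cast hq.ne_zero
  have hFF := T_FF.v_spec' u
  rw [S36CB_cq_zpow] at hFF
  have hFV := T_FV.v_spec' u
  have hπFV : S36NR_U A (S36V_emFV M q hq hqM ζ₀ hζ₀ hζ₀1)
      (S36VDV_varpi M q ^ (q - 1) *
        (algebraMap ℚbar ↥(modularFunctionFieldBar (M * q * q)) (q : ℚbar))⁻¹) :=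
    S36VDV_FV_pow M q hq hqM A ζ₀ hζ₀ hζ₀1 hA
  have hfixπ : ∀ τ ∈ A.inertiaSubgroupIn ℚ,
      GR_gal (M * q * q) τ (S36VDV_varpi M q) = S36VDV_varpi M q :=
    (S36FI_mem_fixF (M * q * q) (A.inertiaSubgroupIn ℚ)).1
      (S36VDV_varpi_fixed M q (A.inertiaSubgroupIn ℚ))
  have h := S36NR_fix_tab_NA_F M q hq hqM A hA ζ₀ hζ₀ hζ₀1 _ (S36VDV_varpi M q)
    T_FV.pi_ne_zero (S36CB_fix (M * q * q) (A.inertiaSubgroupIn ℚ) u) hfixπ
    ((q : ℚbar) ^ (D_FF.v u)) (q : ℚbar) (S36CB_natCast_fix (A.inertiaSubgroupIn ℚ) q)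
    (D_FV.v u) hFF hFV hπFF hπFV
  rw [T_F.v_iff, S36CB_cq_zpow, zpow_add₀ hq0]
  exact h

include hA T_VV T_FV T_V in
/-- **`vV_N₂`**: `v_V (N_β u) = v_FV u + v_VV u`. -/
theorem S36CB_vV_N₂ (hπVV : S36NR_U A (S36V_emVV M q hq hqM) (S36VDV_varpi M q))
    (u : (↥(S36FI_act (M * q * q) (A.inertiaSubgroupIn ℚ)).fixF)ˣ) :
    D_V.v (S36CN_NB (M * q) q (A.inertiaSubgroupIn ℚ) u) = D_FV.v u + D_VV.v u := by
  have hq0 : (q : ℚbar) ≠ 0 := by exact_mod_cast hq.ne_zero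
  have hVV := T_VV.v_spec' u
  rw [S36CB_cq_zpow] at hVV
  have hFV := T_FV.v_spec' u
  have hπFV : S36NR_U A (S36V_emFV M q hq hqM ζ₀ hζ₀ hζ₀1)
      (S36VDV_varpi M q ^ (q - 1) *
        (algebraMap ℚbar ↥(modularFunctionFieldBar (M * q * q)) (q : ℚbar))⁻¹) :=
    S36VDV_FV_pow M q hq hqM A ζ₀ hζ₀ hζ₀1 hA
  have hfixπ : ∀ τ ∈ A.inertiaSubgroupIn ℚ,
      GR_gal (M * q * q) τ (S36VDV_varpi M q) = S36VDV_varpi M q :=
    (S36FI_mem_fixF (M * q * q) (A.inertiaSubgroupIn ℚ)).1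
      (S36VDV_varpi_fixed M q (A.inertiaSubgroupIn ℚ))
  have h := S36NR_fix_tab_NB_V M q hq hqM A hA ζ₀ hζ₀ hζ₀1 _ (S36VDV_varpi M q)
    T_FV.pi_ne_zero (S36CB_fix (M * q * q) (A.inertiaSubgroupIn ℚ) u) hfixπ
    ((q : ℚbar) ^ (D_VV.v u)) (q : ℚbar) (S36CB_natCast_fix (A.inertiaSubgroupIn ℚ) q)
    (D_FV.v u) hVV hFV hπVV hπFV
  rw [T_V.v_iff, S36CB_cq_zpow, add_comm, zpow_add₀ hq0]
  exact h

include hA T_VV T_V in
/-- **`vV_N₁`**: `v_V (N_α u) = q · v_VV u`. -/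
theorem S36CB_vV_N₁ (u : (↥(S36FI_act (M * q * q) (A.inertiaSubgroupIn ℚ)).fixF)ˣ) :
    D_V.v (S36CN_NA (M * q) q (A.inertiaSubgroupIn ℚ) u) = q * D_VV.v u := by
  have hVV := T_VV.v_spec' u
  rw [S36CB_cq_zpow] at hVV
  have h := S36NR_tab_NA_V M q hq hqM A hA _ ((q : ℚbar) ^ (D_VV.v u)) hVV
  rw [T_V.v_iff, S36CB_cq_zpow, mul_comm (q : ℤ), zpow_mul, zpow_natCast]
  exact h

include hq hA T_FF T_F in
/-- **`vF_N₂`**: `v_F (N_β u) = q · v_FF u`. -/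
theorem S36CB_vF_N₂ (u : (↥(S36FI_act (M * q * q) (A.inertiaSubgroupIn ℚ)).fixF)ˣ) :
    D_F.v (S36CN_NB (M * q) q (A.inertiaSubgroupIn ℚ) u) = q * D_FF.v u := by
  have hFF := T_FF.v_spec' u
  rw [S36CB_cq_zpow] at hFF
  have h := S36NR_tab_NB_F M q hq A hA _ ((q : ℚbar) ^ (D_FF.v u)) hFF
  rw [T_F.v_iff, S36CB_cq_zpow, mul_comm (q : ℤ), zpow_mul, zpow_natCast]
  exact h

/-! ### the residue formulas -/

include hA T_FF T_FV T_F in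
/-- **`NR1F`**: `r_F (N_α u) = r_FF u · (r_FV u)^(q-1)` on units. -/
theorem S36CB_NR1F (u : (↥(S36FI_act (M * q * q) (A.inertiaSubgroupIn ℚ)).fixF)ˣ)
    (h0 : D_FF.v u = 0) (h1 : D_FV.v u = 0) (_h2 : D_VV.v u = 0) :
    D_F.r (S36CN_NA (M * q) q (A.inertiaSubgroupIn ℚ) u) = D_FF.r u * D_FV.r u ^ (q - 1) := by
  have hfix := S36CB_fix (M * q * q) (A.inertiaSubgroupIn ℚ) u
  have u0 := (T_FF.v_zero_iff u).1 h0
  have u1 := (T_FV.v_zero_iff u).1 h1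
  have uN := S36NR_fix_NA_U_F M q hq hqM A hA ζ₀ hζ₀ hζ₀1 hfix u0 u1
  have hN : D_F.v (S36CN_NA (M * q) q (A.inertiaSubgroupIn ℚ) u) = 0 :=
    (T_F.v_zero_iff _).2 uN
  apply Units.ext
  rw [Units.val_mul, Units.val_pow_eq_pow_val, T_F.r_eq _ hN uN.1, T_FF.r_eq u h0 u0.1,
    T_FV.r_eq u h1 u1.1]
  exact S36NR_fix_NA_red_F M q hq hqM A hA ζ₀ hζ₀ hζ₀1 hfix u0.1 u1.1 uN.1

include hA T_VV T_FV T_V in
/-- **`NR2V`**: `r_V (N_β u) = (r_FV u)^(q-1) · r_VV u` on units. -/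
theorem S36CB_NR2V (u : (↥(S36FI_act (M * q * q) (A.inertiaSubgroupIn ℚ)).fixF)ˣ)
    (_h0 : D_FF.v u = 0) (h1 : D_FV.v u = 0) (h2 : D_VV.v u = 0) :
    D_V.r (S36CN_NB (M * q) q (A.inertiaSubgroupIn ℚ) u) = D_FV.r u ^ (q - 1) * D_VV.r u := by
  have hfix := S36CB_fix (M * q * q) (A.inertiaSubgroupIn ℚ) u
  have u2 := (T_VV.v_zero_iff u).1 h2
  have u1 := (T_FV.v_zero_iff u).1 h1
  have uN := S36NR_fix_NB_U_V M q hq hqM A hA ζ₀ hζ₀ hζ₀1 hfix u2 u1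
  have hN : D_V.v (S36CN_NB (M * q) q (A.inertiaSubgroupIn ℚ) u) = 0 :=
    (T_V.v_zero_iff _).2 uN
  apply Units.ext
  rw [Units.val_mul, Units.val_pow_eq_pow_val, T_V.r_eq _ hN uN.1, T_VV.r_eq u h2 u2.1,
    T_FV.r_eq u h1 u1.1]
  exact S36NR_fix_NB_red_V M q hq hqM A hA ζ₀ hζ₀ hζ₀1 hfix u2.1 u1.1 uN.1

include hA T_VV T_V in
/-- **`NR1V`**: `Ψ (r_V (N_α u)) = (r_VV u)^q` on units. -/
theorem S36CB_NR1V (u : (↥(S36FI_act (M * q * q) (A.inertiaSubgroupIn ℚ)).fixF)ˣ)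
    (_h0 : D_FF.v u = 0) (_h1 : D_FV.v u = 0) (h2 : D_VV.v u = 0) :
    Units.map ((qExpand (IsLocalRing.ResidueField A) q :
        LaurentSeries (IsLocalRing.ResidueField A) →+*
          LaurentSeries (IsLocalRing.ResidueField A)) :
        LaurentSeries (IsLocalRing.ResidueField A) →*
          LaurentSeries (IsLocalRing.ResidueField A))
      (D_V.r (S36CN_NA (M * q) q (A.inertiaSubgroupIn ℚ) u)) = D_VV.r u ^ q := by
  have u2 := (T_VV.v_zero_iff u).1 h2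
  have uN := S36NR_NA_U_V M q hq hqM A hA u2
  have hN : D_V.v (S36CN_NA (M * q) q (A.inertiaSubgroupIn ℚ) u) = 0 :=
    (T_V.v_zero_iff _).2 uN
  apply Units.ext
  rw [Units.coe_map, Units.val_pow_eq_pow_val, T_V.r_eq _ hN uN.1, T_VV.r_eq u h2 u2.1]
  exact S36NR_NA_red_V M q hq hqM A hA u2.1 uN.1

include hq hA T_FF T_F in
/-- **`NR2F`**: `Ψ (r_F (N_β u)) = (r_FF u)^q` on units. -/
theorem S36CB_NR2F (u : (↥(S36FI_act (M * q * q) (A.inertiaSubgroupIn ℚ)).fixF)ˣ)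
    (h0 : D_FF.v u = 0) (_h1 : D_FV.v u = 0) (_h2 : D_VV.v u = 0) :
    Units.map ((qExpand (IsLocalRing.ResidueField A) q :
        LaurentSeries (IsLocalRing.ResidueField A) →+*
          LaurentSeries (IsLocalRing.ResidueField A)) :
        LaurentSeries (IsLocalRing.ResidueField A) →*
          LaurentSeries (IsLocalRing.ResidueField A))
      (D_F.r (S36CN_NB (M * q) q (A.inertiaSubgroupIn ℚ) u)) = D_FF.r u ^ q := by
  have u0 := (T_FF.v_zero_iff u).1 h0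
  have uN := S36NR_NB_U_F M q hq A hA u0
  have hN : D_F.v (S36CN_NB (M * q) q (A.inertiaSubgroupIn ℚ) u) = 0 :=
    (T_F.v_zero_iff _).2 uN
  apply Units.ext
  rw [Units.coe_map, Units.val_pow_eq_pow_val, T_F.r_eq _ hN uN.1, T_FF.r_eq u h0 u0.1]
  exact S36NR_NB_red_F M q hq A hA u0.1 uN.1

end Fermat.Agent.S36
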