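import Fermat.Agent.S36.NormRes3

/-!
# TRACK 10 (S36), package NORMRES (helper4), part 5: the norm–residue formulas

Levels `N₁ = M q`, `N₂ = M q q` (`q ∤ M` prime), `A ⊂ ℚ̄` a valuation subring over `q`, residue
field `k`.  Gauss rings `S36V_G A (em X)`, reductions `S36V_Gred A (em X)` along the five
embeddings `X = F, V` (level `M q`), `FF, FV ζ, VV` (level `M q q`) of `S36/Val3Three.lean`.
`N_α = S35B_NA (M q) q`, `N_β = S35B_NB (M q) q`, `Z = S36NR_Z q` the `q`-th roots of unity `≠ 1`.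

## Units
* `S36NR_U A φ f` : `f ∈ G(φ) ∧ f⁻¹ ∈ G(φ)` (junk-tolerant: `0` qualifies);
  `S36NR_Us A x` the same for series.

## The four residue formulas (for MEMBERS, not only units)
* `S36NR_NA_mem_F`, `S36NR_NA_red_F` : `m ∈ FF ∩ ⋂ FV_ζ ⇒ N_α m ∈ F`,
    `red_F (N_α m) = red_FF m · ∏_ζ red_{FV ζ} m`;
* `S36NR_NB_mem_F`, `S36NR_NB_red_F` : `m ∈ FF ⇒ N_β m ∈ F`, `(red_F (N_β m))(t^q) = (red_FF m)^q`;
* `S36NR_NA_mem_V`, `S36NR_NA_red_V` : `m ∈ VV ⇒ N_α m ∈ V`, `(red_V (N_α m))(t^q) = (red_VV m)^q`;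
* `S36NR_NB_mem_V`, `S36NR_NB_red_V` : `m ∈ VV ∩ ⋂ FV_ζ ⇒ N_β m ∈ V`,
    `red_V (N_β m) = red_VV m · ∏_ζ red_{FV ζ} m`;
* `S36NR_prod_const` : if all `red_{FV ζ} m` are equal to `g` (e.g. `m` inertia-fixed), then
    `∏_ζ red_{FV ζ} m = g ^ (q - 1)`.

## The table (leading constants): `S36/NormRes5.lean`.
-/

set_option autoImplicit false
set_option synthInstance.maxHeartbeats 400000
set_option maxHeartbeats 1000000
set_option linter.style.haveILetI false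
set_option linter.unusedSectionVars false

open HahnSeries IntermediateField AlgebraicCurve ModularCurve

noncomputable section

namespace Fermat.Agent.S36

open Fermat.Agent.S18 Fermat.Agent.S24 Fermat.Agent.S34 Fermat.Agent.S35 Fermat.Agent.S37
  Fermat.Agent.GalRep Fermat.Agent.Lib

/-! ### units of the Gauss ring -/

section Generic

variable {L : Type*} [Field L] [Algebra ℚ L] (A : ValuationSubring L)

/-- units of the series-level Gauss ring (junk-tolerant: `0` qualifies). -/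
def S36NR_Us (x : LaurentSeries L) : Prop := x ∈ S36NR_Gs A ∧ x⁻¹ ∈ S36NR_Gs A

variable {A}

theorem S36NR_Us_one : S36NR_Us A (1 : LaurentSeries L) :=
  ⟨one_mem _, by rw [inv_one]; exact one_mem _⟩

theorem S36NR_Us_mul {x y : LaurentSeries L} (hx : S36NR_Us A x) (hy : S36NR_Us A y) :
    S36NR_Us A (x * y) :=
  ⟨mul_mem hx.1 hy.1, by rw [mul_inv]; exact mul_mem hx.2 hy.2⟩

theorem S36NR_Us_inv {x : LaurentSeries L} (hx : S36NR_Us A x) : S36NR_Us A x⁻¹ :=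
  ⟨hx.2, by rw [inv_inv]; exact hx.1⟩

theorem S36NR_Us_pow {x : LaurentSeries L} (hx : S36NR_Us A x) (n : ℕ) : S36NR_Us A (x ^ n) :=
  ⟨pow_mem hx.1 n, by rw [← inv_pow]; exact pow_mem hx.2 n⟩

theorem S36NR_Us_zpow {x : LaurentSeries L} (hx : S36NR_Us A x) (n : ℤ) :
    S36NR_Us A (x ^ n) := by
  cases n with
  | ofNat n =>
    rw [Int.ofNat_eq_natCast, zpow_natCast]
    exact S36NR_Us_pow hx n
  | negSucc n =>
    rw [zpow_negSucc]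
    exact S36NR_Us_inv (S36NR_Us_pow hx (n + 1))

theorem S36NR_Us_prod {X : Type*} (s : Finset X) (f : X → LaurentSeries L)
    (h : ∀ i ∈ s, S36NR_Us A (f i)) : S36NR_Us A (∏ i ∈ s, f i) := by
  refine ⟨S36NR_prod_mem A s f fun i hi => (h i hi).1, ?_⟩
  rw [← Finset.prod_inv_distrib]
  exact S36NR_prod_mem A s _ fun i hi => (h i hi).2

theorem S36NR_Us_rf_ne_zero {x : LaurentSeries L} (hx : S36NR_Us A x) (hx0 : x ≠ 0) :
    S36NR_rf A x ≠ 0 :=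
  S36NR_rf_ne_zero A hx.1 hx.2 hx0

theorem S36NR_Us_rf_inv {x : LaurentSeries L} (hx : S36NR_Us A x) :
    S36NR_rf A x⁻¹ = (S36NR_rf A x)⁻¹ := by
  by_cases hx0 : x = 0
  · rw [hx0, inv_zero, S36NR_rf_zero, inv_zero]
  · exact S36NR_rf_inv A hx.1 (S36NR_Us_rf_ne_zero hx hx0)

/-- constants: units of `A`. -/
theorem S36NR_Us_C {c : L} (hc : c ∈ A) (hc' : c⁻¹ ∈ A) :
    S36NR_Us A (algebraMap L (LaurentSeries L) c) := by
  refine ⟨S36NR_C_mem A ⟨c, hc⟩, ?_⟩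
  rw [← map_inv₀]
  exact S36NR_C_mem A ⟨c⁻¹, hc'⟩

section Post

variable (TL : LaurentSeries L →+* LaurentSeries L) (TA : LaurentSeries A →+* LaurentSeries A)
  (Tk : LaurentSeries (IsLocalRing.ResidueField A) →+*
    LaurentSeries (IsLocalRing.ResidueField A))
  (hι : ∀ s, S18_ι A (TA s) = TL (S18_ι A s)) (hρ : ∀ s, S18_ρ A (TA s) = Tk (S18_ρ A s))

include hι hρ in
theorem S36NR_Us_post {x : LaurentSeries L} (hx : S36NR_Us A x) : S36NR_Us A (TL x) :=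
  ⟨S36NR_post_mem A TL TA Tk hι hρ hx.1, by
    rw [← map_inv₀]
    exact S36NR_post_mem A TL TA Tk hι hρ hx.2⟩

end Post

variable (A)
variable {F : Type*} [Field F] (φ : F →+* LaurentSeries L)

/-- units of the Gauss ring along `φ` (junk-tolerant: `0` qualifies). -/
def S36NR_U (f : F) : Prop := f ∈ S36V_G A φ ∧ f⁻¹ ∈ S36V_G A φ

theorem S36NR_U_iff {f : F} : S36NR_U A φ f ↔ S36NR_Us A (φ f) := by
  constructor
  · rintro ⟨h1, h2⟩
    refine ⟨h1, ?_⟩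
    rw [← map_inv₀]
    exact h2
  · rintro ⟨h1, h2⟩
    refine ⟨h1, ?_⟩
    rw [← map_inv₀] at h2
    exact h2

variable {A φ}

theorem S36NR_U_mul {f g : F} (hf : S36NR_U A φ f) (hg : S36NR_U A φ g) :
    S36NR_U A φ (f * g) :=
  ⟨mul_mem hf.1 hg.1, by rw [mul_inv]; exact mul_mem hf.2 hg.2⟩

theorem S36NR_U_inv {f : F} (hf : S36NR_U A φ f) : S36NR_U A φ f⁻¹ :=
  ⟨hf.2, by rw [inv_inv]; exact hf.1⟩

theorem S36NR_U_pow {f : F} (hf : S36NR_U A φ f) (n : ℕ) : S36NR_U A φ (f ^ n) :=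
  ⟨pow_mem hf.1 n, by rw [← inv_pow]; exact pow_mem hf.2 n⟩

/-- **a valuation ring is root-closed**: `f^n` a unit, `n ≠ 0` ⟹ `f` a unit. -/
theorem S36NR_U_of_pow (hrep : S36V_Rep A φ) {f : F} (n : ℕ) (hn : n ≠ 0)
    (h : S36NR_U A φ (f ^ n)) : S36NR_U A φ f := by
  by_cases hf0 : f = 0
  · rw [hf0]
    exact ⟨zero_mem _, by rw [inv_zero]; exact zero_mem _⟩
  obtain ⟨k, rfl⟩ : ∃ k, n = k + 1 := Nat.exists_eq_succ_of_ne_zero hn
  have key : ∀ g : F, g ≠ 0 → g ∈ S36V_G A φ → (g ^ (k + 1))⁻¹ ∈ S36V_G A φ →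
      g⁻¹ ∈ S36V_G A φ := by
    intro g hg0 hg hgn
    have : g⁻¹ = g ^ k * (g ^ (k + 1))⁻¹ := by
      rw [pow_succ, mul_inv, ← mul_assoc, mul_inv_cancel₀ (pow_ne_zero k hg0), one_mul]
    rw [this]
    exact mul_mem (pow_mem hg k) hgn
  rcases S36V_mem_or_inv_mem hrep f with hf | hf
  · exact ⟨hf, key f hf0 hf h.2⟩
  · have h2 : (f⁻¹ ^ (k + 1))⁻¹ ∈ S36V_G A φ := by
      rw [inv_pow, inv_inv]
      exact h.1
    have := key f⁻¹ (inv_ne_zero hf0) hf h2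
    rw [inv_inv] at this
    exact ⟨this, hf⟩

section PostU

variable (TL : LaurentSeries L →+* LaurentSeries L) (TA : LaurentSeries A →+* LaurentSeries A)
  (Tk : LaurentSeries (IsLocalRing.ResidueField A) →+*
    LaurentSeries (IsLocalRing.ResidueField A))
  (hι : ∀ s, S18_ι A (TA s) = TL (S18_ι A s)) (hρ : ∀ s, S18_ρ A (TA s) = Tk (S18_ρ A s))
  (hC : ∀ c : L, TL (HahnSeries.C c) = HahnSeries.C c)

include hι hρ hC in
/-- reflection for units. -/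
theorem S36NR_U_reflect (hrep : S36V_Rep A φ) {f : F} (h : S36NR_Us A (TL (φ f))) :
    S36NR_U A φ f := by
  refine ⟨S36NR_reflect A φ TL TA Tk hι hρ hC hrep h.1, ?_⟩
  refine S36NR_reflect A φ TL TA Tk hι hρ hC hrep ?_
  rw [map_inv₀, map_inv₀]
  exact h.2

end PostU

end Generic

local notation "ℚbar" => AlgebraicClosure ℚ

variable (M q : ℕ) [NeZero M] [NeZero q] (hq : q.Prime) (hqM : ¬ q ∣ M)
  (A : ValuationSubring ℚbar) (hA : A.LiesOverPrime q)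

/-! ### the index set `Z` -/

open Classical in
theorem S36NR_card_Z : Fintype.card (S36NR_Z q) = q - 1 := by
  have h1 : q ≤ Fintype.card (Option (S36NR_Z q)) := S36NR_card_optZ q
  have h2 : Fintype.card (Option (S36NR_Z q)) ≤ Fintype.card (S36NR_Y q) := by
    refine Fintype.card_le_of_injective
      (fun o : Option (S36NR_Z q) => match o with
        | none => (⟨1, one_pow q⟩ : S36NR_Y q)
        | some ζ => ⟨ζ.1, ζ.2.1⟩) ?_
    intro a b hab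
    cases a with
    | none =>
      cases b with
      | none => rfl
      | some ζ =>
        exfalso
        exact ζ.2.2 (congrArg (fun z : S36NR_Y q => z.1) hab).symm
    | some ζ =>
      cases b with
      | none =>
        exfalso
        exact ζ.2.2 (congrArg (fun z : S36NR_Y q => z.1) hab)
      | some ζ' =>
        exact congrArg some (Subtype.ext (congrArg (fun z : S36NR_Y q => z.1) hab))
  rw [S36NR_card_Y] at h2
  rw [Fintype.card_option] at h1 h2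
  omega

/-- if all factors are equal, the product over `Z` is a `(q-1)`-th power. -/
theorem S36NR_prod_const {R : Type*} [CommMonoid R] (f : S36NR_Z q → R) (g : R)
    (h : ∀ ζ, f ζ = g) : ∏ ζ, f ζ = g ^ (q - 1) := by
  rw [Finset.prod_congr rfl fun ζ _ => h ζ, Finset.prod_const, Finset.card_univ, S36NR_card_Z]

/-! ### (NR1F) the norm along `α` at `F` -/

/-- **(NR1F), membership**: `m ∈ FF ∩ ⋂ FV_ζ ⇒ N_α m ∈ F`. -/
theorem S36NR_NA_mem_F {m : ↥(modularFunctionFieldBar (M * q * q))}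
    (h0 : m ∈ S36V_G A (S36V_emFF M q))
    (hζ : ∀ ζ : S36NR_Z q, m ∈ S36V_G A (S36V_emFV M q hq hqM ζ.1 ζ.2.1 ζ.2.2)) :
    S35B_NA (M * q) q m ∈ S36V_G A (S36V_emF M q) := by
  rw [S36NR_mem_F_iff, S36NR_alpha M q hq hqM m]
  exact mul_mem ((S36NR_mem_FF_iff M q A).1 h0) (S36NR_prod_mem A _ _ fun ζ _ => hζ ζ)

/-- **(NR1F), reduction**: `red_F (N_α m) = red_FF m · ∏_ζ red_{FV ζ} m`. -/
theorem S36NR_NA_red_F {m : ↥(modularFunctionFieldBar (M * q * q))}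
    (h0 : m ∈ S36V_G A (S36V_emFF M q))
    (hζ : ∀ ζ : S36NR_Z q, m ∈ S36V_G A (S36V_emFV M q hq hqM ζ.1 ζ.2.1 ζ.2.2))
    (h : S35B_NA (M * q) q m ∈ S36V_G A (S36V_emF M q)) :
    S36V_Gred A (S36V_emF M q) ⟨S35B_NA (M * q) q m, h⟩ =
      S36V_Gred A (S36V_emFF M q) ⟨m, h0⟩ *
        ∏ ζ : S36NR_Z q, S36V_Gred A (S36V_emFV M q hq hqM ζ.1 ζ.2.1 ζ.2.2) ⟨m, hζ ζ⟩ := by
  have h0' : (m : LaurentSeries ℚbar) ∈ S36NR_Gs A := (S36NR_mem_FF_iff M q A).1 h0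
  have hζ' : ∀ ζ : S36NR_Z q, S36V_iota M q hq hqM ζ.1 ζ.2.1 ζ.2.2 m ∈ S36NR_Gs A :=
    fun ζ => (S36NR_mem_FV_iff M q hq hqM A ζ.1 ζ.2.1 ζ.2.2).1 (hζ ζ)
  have e1 : S36V_Gred A (S36V_emF M q) ⟨S35B_NA (M * q) q m, h⟩ =
      S36NR_rf A ((S35B_NA (M * q) q m : ↥(modularFunctionFieldBar (M * q))) :
        LaurentSeries ℚbar) := S36NR_Gred_eq A _ h
  have e2 : S36V_Gred A (S36V_emFF M q) ⟨m, h0⟩ = S36NR_rf A (m : LaurentSeries ℚbar) :=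
    S36NR_Gred_eq A _ h0
  have e3 : ∀ ζ : S36NR_Z q,
      S36V_Gred A (S36V_emFV M q hq hqM ζ.1 ζ.2.1 ζ.2.2) ⟨m, hζ ζ⟩ =
        S36NR_rf A (S36V_iota M q hq hqM ζ.1 ζ.2.1 ζ.2.2 m) :=
    fun ζ => S36NR_Gred_eq A _ (hζ ζ)
  rw [e1, e2, S36NR_alpha M q hq hqM m,
    S36NR_rf_mul A h0' (S36NR_prod_mem A _ _ fun ζ _ => hζ' ζ),
    S36NR_rf_prod A _ _ fun ζ _ => hζ' ζ,
    Finset.prod_congr rfl fun ζ _ => e3 ζ]

/-! ### (NR2F) the norm along `β` at `F` -/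

include hq in
/-- the norm along `β` of an `FF`-integral element, after `t ↦ t^q`. -/
theorem S36NR_NB_psi_mem {m : ↥(modularFunctionFieldBar (M * q * q))}
    (h0 : m ∈ S36V_G A (S36V_emFF M q)) :
    qExpand ℚbar q ((S35B_NB (M * q) q m : ↥(modularFunctionFieldBar (M * q))) :
      LaurentSeries ℚbar) ∈ S36NR_Gs A := by
  rw [S36NR_beta M q hq m]
  exact S36NR_prod_mem A _ _ fun ζ _ =>
    S36NR_zeta_tw_mem q A ζ.1 ζ.2 ((S36NR_mem_FF_iff M q A).1 h0)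

include hq hA in
/-- **(NR2F), membership**: `m ∈ FF ⇒ N_β m ∈ F`. -/
theorem S36NR_NB_mem_F {m : ↥(modularFunctionFieldBar (M * q * q))}
    (h0 : m ∈ S36V_G A (S36V_emFF M q)) :
    S35B_NB (M * q) q m ∈ S36V_G A (S36V_emF M q) :=
  S36NR_reflect_psi M q hq A hA (S36NR_NB_psi_mem M q hq A h0)

include hq hA in
/-- **(NR2F), reduction**: `(red_F (N_β m))(t^q) = (red_FF m)^q`. -/
theorem S36NR_NB_red_F {m : ↥(modularFunctionFieldBar (M * q * q))}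
    (h0 : m ∈ S36V_G A (S36V_emFF M q))
    (h : S35B_NB (M * q) q m ∈ S36V_G A (S36V_emF M q)) :
    qExpand (IsLocalRing.ResidueField A) q
        (S36V_Gred A (S36V_emF M q) ⟨S35B_NB (M * q) q m, h⟩) =
      S36V_Gred A (S36V_emFF M q) ⟨m, h0⟩ ^ q := by
  haveI : Fact q.Prime := ⟨hq⟩
  haveI : CharP (IsLocalRing.ResidueField A) q := S18_residue_charP A q hq hA
  have h0' : (m : LaurentSeries ℚbar) ∈ S36NR_Gs A := (S36NR_mem_FF_iff M q A).1 h0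
  have h' : ((S35B_NB (M * q) q m : ↥(modularFunctionFieldBar (M * q))) :
      LaurentSeries ℚbar) ∈ S36NR_Gs A := (S36NR_mem_F_iff M q A).1 h
  have e1 : S36V_Gred A (S36V_emF M q) ⟨S35B_NB (M * q) q m, h⟩ =
      S36NR_rf A ((S35B_NB (M * q) q m : ↥(modularFunctionFieldBar (M * q))) :
        LaurentSeries ℚbar) := S36NR_Gred_eq A _ h
  have e2 : S36V_Gred A (S36V_emFF M q) ⟨m, h0⟩ = S36NR_rf A (m : LaurentSeries ℚbar) :=
    S36NR_Gred_eq A _ h0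
  have e3 : ∀ ζ : S36NR_Y q, S36NR_rf A (ES_tw ζ.1 (m : LaurentSeries ℚbar)) =
      S36NR_rf A (m : LaurentSeries ℚbar) := fun ζ => S36NR_zeta_rf_tw q A ζ.1 ζ.2 h0'
  have e4 : qExpand (IsLocalRing.ResidueField A) q (S36NR_rf A
      ((S35B_NB (M * q) q m : ↥(modularFunctionFieldBar (M * q))) : LaurentSeries ℚbar)) =
      S36NR_rf A (qExpand ℚbar q
        ((S35B_NB (M * q) q m : ↥(modularFunctionFieldBar (M * q))) : LaurentSeries ℚbar)) :=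
    (S36NR_rf_qExpand A q h').symm
  have e5 : S36NR_rf A (∏ ζ : S36NR_Y q, ES_tw ζ.1 (m : LaurentSeries ℚbar)) =
      ∏ ζ : S36NR_Y q, S36NR_rf A (ES_tw ζ.1 (m : LaurentSeries ℚbar)) :=
    S36NR_rf_prod A Finset.univ (fun ζ : S36NR_Y q => ES_tw ζ.1 (m : LaurentSeries ℚbar))
      (fun ζ _ => S36NR_zeta_tw_mem q A ζ.1 ζ.2 h0')
  rw [e1, e2, e4, S36NR_beta M q hq m, e5]
  rw [Finset.prod_congr rfl fun ζ _ => e3 ζ]
  rw [Finset.prod_const, Finset.card_univ, S36NR_card_Y]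

/-! ### transfer along the involutions `w_q`, `w₂` -/

theorem S36NR_Gred_V_eq {f : ↥(modularFunctionFieldBar (M * q))}
    (h : f ∈ S36V_G A (S36V_emV M q hq hqM))
    (h' : S34DF_wq M q hq hqM f ∈ S36V_G A (S36V_emF M q)) :
    S36V_Gred A (S36V_emV M q hq hqM) ⟨f, h⟩ =
      S36V_Gred A (S36V_emF M q) ⟨S34DF_wq M q hq hqM f, h'⟩ := by
  rw [S36NR_Gred_eq A _ h, S36NR_Gred_eq A _ h', S36V_emV_apply, S36V_emF_apply]

theorem S36NR_Gred_VV_eq {m : ↥(modularFunctionFieldBar (M * q * q))}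
    (h : m ∈ S36V_G A (S36V_emVV M q hq hqM))
    (h' : S36V_w2 M q hq hqM m ∈ S36V_G A (S36V_emFF M q)) :
    S36V_Gred A (S36V_emVV M q hq hqM) ⟨m, h⟩ =
      S36V_Gred A (S36V_emFF M q) ⟨S36V_w2 M q hq hqM m, h'⟩ := by
  rw [S36NR_Gred_eq A _ h, S36NR_Gred_eq A _ h', S36V_emVV_apply, S36V_emFF_apply]

include hA in
/-- the reduction at `FV_ζ` of `w₂ m` is the reduction at `FV_{ζ⁻¹}` of `m`. -/
theorem S36NR_Gred_FV_w2 (ζ : S36NR_Z q) {m : ↥(modularFunctionFieldBar (M * q * q))}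
    (h : m ∈ S36V_G A (S36V_emFV M q hq hqM (S36NR_Zinv q ζ).1 (S36NR_Zinv q ζ).2.1
      (S36NR_Zinv q ζ).2.2))
    (h' : S36V_w2 M q hq hqM m ∈ S36V_G A (S36V_emFV M q hq hqM ζ.1 ζ.2.1 ζ.2.2)) :
    S36V_Gred A (S36V_emFV M q hq hqM ζ.1 ζ.2.1 ζ.2.2) ⟨S36V_w2 M q hq hqM m, h'⟩ =
      S36V_Gred A (S36V_emFV M q hq hqM (S36NR_Zinv q ζ).1 (S36NR_Zinv q ζ).2.1
        (S36NR_Zinv q ζ).2.2) ⟨m, h⟩ := by
  haveI : Fact q.Prime := ⟨hq⟩
  haveI : CharP (IsLocalRing.ResidueField A) q := S18_residue_charP A q hq hA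
  have hm : S36V_iota M q hq hqM (S36NR_Zinv q ζ).1 (S36NR_Zinv q ζ).2.1
      (S36NR_Zinv q ζ).2.2 m ∈ S36NR_Gs A := (S36NR_mem_FV_iff M q hq hqM A _ _ _).1 h
  have e1 : S36V_Gred A (S36V_emFV M q hq hqM ζ.1 ζ.2.1 ζ.2.2) ⟨S36V_w2 M q hq hqM m, h'⟩ =
      S36NR_rf A (S36V_iota M q hq hqM ζ.1 ζ.2.1 ζ.2.2 (S36V_w2 M q hq hqM m)) :=
    S36NR_Gred_eq A _ h'
  have e2 : S36V_Gred A (S36V_emFV M q hq hqM (S36NR_Zinv q ζ).1 (S36NR_Zinv q ζ).2.1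
        (S36NR_Zinv q ζ).2.2) ⟨m, h⟩ =
      S36NR_rf A (S36V_iota M q hq hqM (S36NR_Zinv q ζ).1 (S36NR_Zinv q ζ).2.1
        (S36NR_Zinv q ζ).2.2 m) := S36NR_Gred_eq A _ h
  have e3 : S36V_iota M q hq hqM ζ.1 ζ.2.1 ζ.2.2 (S36V_w2 M q hq hqM m) =
      ES_tw ζ.1 (S36V_iota M q hq hqM (S36NR_Zinv q ζ).1 (S36NR_Zinv q ζ).2.1
        (S36NR_Zinv q ζ).2.2 m) := S36NR_iota_w2 M q hq hqM ζ.1 ζ.2.1 ζ.2.2 m
  rw [e1, e2, e3]
  exact S36NR_zeta_rf_tw q A ζ.1 ζ.2.1 hm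

/-! ### (NR1V) the norm along `α` at `V` -/

include hA in
/-- **(NR1V), membership**: `m ∈ VV ⇒ N_α m ∈ V`. -/
theorem S36NR_NA_mem_V {m : ↥(modularFunctionFieldBar (M * q * q))}
    (h2 : m ∈ S36V_G A (S36V_emVV M q hq hqM)) :
    S35B_NA (M * q) q m ∈ S36V_G A (S36V_emV M q hq hqM) := by
  rw [S36NR_mem_V_iff, S36NR_NA_eq M q hq hqM, S34DF_wq_wq]
  exact S36NR_NB_mem_F M q hq A hA ((S36NR_mem_VV_iff M q hq hqM A).1 h2)

include hA in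
/-- **(NR1V), reduction**: `(red_V (N_α m))(t^q) = (red_VV m)^q`. -/
theorem S36NR_NA_red_V {m : ↥(modularFunctionFieldBar (M * q * q))}
    (h2 : m ∈ S36V_G A (S36V_emVV M q hq hqM))
    (h : S35B_NA (M * q) q m ∈ S36V_G A (S36V_emV M q hq hqM)) :
    qExpand (IsLocalRing.ResidueField A) q
        (S36V_Gred A (S36V_emV M q hq hqM) ⟨S35B_NA (M * q) q m, h⟩) =
      S36V_Gred A (S36V_emVV M q hq hqM) ⟨m, h2⟩ ^ q := by
  have h2' : S36V_w2 M q hq hqM m ∈ S36V_G A (S36V_emFF M q) :=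
    (S36NR_mem_VV_iff M q hq hqM A).1 h2
  have hN : S35B_NB (M * q) q (S36V_w2 M q hq hqM m) ∈ S36V_G A (S36V_emF M q) :=
    S36NR_NB_mem_F M q hq A hA h2'
  have key := S36NR_NB_red_F M q hq A hA h2' hN
  have hw : S34DF_wq M q hq hqM (S35B_NA (M * q) q m) =
      S35B_NB (M * q) q (S36V_w2 M q hq hqM m) := by
    rw [S36NR_NA_eq M q hq hqM, S34DF_wq_wq]
  have e1 : S36V_Gred A (S36V_emV M q hq hqM) ⟨S35B_NA (M * q) q m, h⟩ =
      S36V_Gred A (S36V_emF M q) ⟨S35B_NB (M * q) q (S36V_w2 M q hq hqM m), hN⟩ := by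
    rw [S36NR_Gred_eq A _ h, S36NR_Gred_eq A _ hN, S36V_emV_apply, S36V_emF_apply, hw]
  rw [e1, S36NR_Gred_VV_eq M q hq hqM A h2 h2']
  exact key

/-! ### (NR2V) the norm along `β` at `V` -/

/-- **(NR2V), membership**: `m ∈ VV ∩ ⋂ FV_ζ ⇒ N_β m ∈ V`. -/
theorem S36NR_NB_mem_V {m : ↥(modularFunctionFieldBar (M * q * q))}
    (h2 : m ∈ S36V_G A (S36V_emVV M q hq hqM))
    (hζ : ∀ ζ : S36NR_Z q, m ∈ S36V_G A (S36V_emFV M q hq hqM ζ.1 ζ.2.1 ζ.2.2)) :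
    S35B_NB (M * q) q m ∈ S36V_G A (S36V_emV M q hq hqM) := by
  rw [S36NR_mem_V_iff, S36NR_NB_eq M q hq hqM, S34DF_wq_wq]
  exact S36NR_NA_mem_F M q hq hqM A ((S36NR_mem_VV_iff M q hq hqM A).1 h2)
    (S36NR_w2_mem_FV_all M q hq hqM A hζ)

include hA in
/-- **(NR2V), reduction**: `red_V (N_β m) = red_VV m · ∏_ζ red_{FV ζ} m`. -/
theorem S36NR_NB_red_V {m : ↥(modularFunctionFieldBar (M * q * q))}
    (h2 : m ∈ S36V_G A (S36V_emVV M q hq hqM))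
    (hζ : ∀ ζ : S36NR_Z q, m ∈ S36V_G A (S36V_emFV M q hq hqM ζ.1 ζ.2.1 ζ.2.2))
    (h : S35B_NB (M * q) q m ∈ S36V_G A (S36V_emV M q hq hqM)) :
    S36V_Gred A (S36V_emV M q hq hqM) ⟨S35B_NB (M * q) q m, h⟩ =
      S36V_Gred A (S36V_emVV M q hq hqM) ⟨m, h2⟩ *
        ∏ ζ : S36NR_Z q, S36V_Gred A (S36V_emFV M q hq hqM ζ.1 ζ.2.1 ζ.2.2) ⟨m, hζ ζ⟩ := by
  have h2' : S36V_w2 M q hq hqM m ∈ S36V_G A (S36V_emFF M q) :=
    (S36NR_mem_VV_iff M q hq hqM A).1 h2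
  have hζ' := S36NR_w2_mem_FV_all M q hq hqM A hζ
  have hN : S35B_NA (M * q) q (S36V_w2 M q hq hqM m) ∈ S36V_G A (S36V_emF M q) :=
    S36NR_NA_mem_F M q hq hqM A h2' hζ'
  have key := S36NR_NA_red_F M q hq hqM A h2' hζ' hN
  have hw : S34DF_wq M q hq hqM (S35B_NB (M * q) q m) =
      S35B_NA (M * q) q (S36V_w2 M q hq hqM m) := by
    rw [S36NR_NB_eq M q hq hqM, S34DF_wq_wq]
  have e1 : S36V_Gred A (S36V_emV M q hq hqM) ⟨S35B_NB (M * q) q m, h⟩ =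
      S36V_Gred A (S36V_emF M q) ⟨S35B_NA (M * q) q (S36V_w2 M q hq hqM m), hN⟩ := by
    rw [S36NR_Gred_eq A _ h, S36NR_Gred_eq A _ hN, S36V_emV_apply, S36V_emF_apply, hw]
  have e3 : ∀ ζ : S36NR_Z q,
      S36V_Gred A (S36V_emFV M q hq hqM ζ.1 ζ.2.1 ζ.2.2) ⟨S36V_w2 M q hq hqM m, hζ' ζ⟩ =
      S36V_Gred A (S36V_emFV M q hq hqM (S36NR_Zinv q ζ).1 (S36NR_Zinv q ζ).2.1
        (S36NR_Zinv q ζ).2.2) ⟨m, hζ (S36NR_Zinv q ζ)⟩ :=
    fun ζ => S36NR_Gred_FV_w2 M q hq hqM A hA ζ (hζ (S36NR_Zinv q ζ)) (hζ' ζ)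
  rw [e1, key, S36NR_Gred_VV_eq M q hq hqM A h2 h2', Finset.prod_congr rfl fun ζ _ => e3 ζ]
  congr 1
  exact Equiv.prod_comp (S36NR_ZinvEquiv q)
    (fun ζ : S36NR_Z q => S36V_Gred A (S36V_emFV M q hq hqM ζ.1 ζ.2.1 ζ.2.2) ⟨m, hζ ζ⟩)

end Fermat.Agent.S36
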