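import Fermat.Agent.S36.Val3DvInst
import Fermat.Agent.S36.FrobRat
import Fermat.Agent.S36.NormRes4

/-!
# TRACK 10 (S36), COMP3-INST piece (P2) (helper8): the uniformiser `ϖ = j(t^{q²}) − j(t)` of the
middle valuation `FV` is a UNIT of the two outer Gauss rings `FF` and `VV`.  Prefix `S36VDV_`.

Along `emFF`: `ϖ ↦ j(t^{q²}) − j(t)`; along `emVV`: `ϖ ↦ j(t) − j(t^{q²})`; both are integral
series with reduction `± (j̄(t^{q²}) − j̄(t)) ≠ 0` (coefficient `±1` at `t^{−q²}`).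

* `S36VDV_rho_qq_ne` : `j̄(t^{q²}) − j̄(t) ≠ 0`;
* `S36VDV_emFF_varpi`, `S36VDV_emVV_varpi` : the two expansions;
* **`S36VDV_varpi_FF`** : `S36NR_U A (S36V_emFF M q) (S36VDV_varpi M q)`;
* **`S36VDV_varpi_VV`** : `S36NR_U A (S36V_emVV M q hq hqM) (S36VDV_varpi M q)`
  (= hypotheses `hπFF`, `hπVV` of helper4's `S36CB_vF_N₁`, `S36CB_vV_N₂`).
-/

set_option autoImplicit false
set_option linter.style.haveILetI false
set_option linter.unusedSectionVars false
set_option linter.unusedVariables false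

open HahnSeries AlgebraicCurve ModularCurve

noncomputable section

namespace Fermat.Agent.S36

open Fermat.Agent.S18 Fermat.Agent.S24 Fermat.Agent.S34

local notation "Ω" => AlgebraicClosure ℚ

variable (M q : ℕ) [NeZero M] [NeZero q] (hq : q.Prime) (hqM : ¬ q ∣ M)
  (A : ValuationSubring Ω)

include hq in
/-- `j̄(t^{q²}) − j̄(t) ≠ 0`. -/
theorem S36VDV_rho_qq_ne :
    S18_ρ A (qExpand A q (qExpand A q (jqModC A)) - jqModC A) ≠ 0 := by
  intro h0
  have h1 := congrArg (fun z : LaurentSeries (IsLocalRing.ResidueField A) =>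
    z.coeff ((q : ℤ) * ((q : ℤ) * (-1)))) h0
  simp only [HahnSeries.coeff_zero] at h1
  rw [coeffMap_coeff, HahnSeries.coeff_sub, qExpand_coeff_mul, qExpand_coeff_mul,
    ModularCurve.coeff_jqModC_neg_one] at h1
  have hlt : (q : ℤ) * ((q : ℤ) * (-1)) < -((1 : ℕ) : ℤ) := by
    have h2 : (2 : ℤ) ≤ q := by exact_mod_cast hq.two_le
    push_cast
    nlinarith
  have h3 := ModularCurve.coeff_jqModC_pow_of_lt A hlt
  rw [pow_one] at h3
  rw [h3, sub_zero, map_one] at h1
  exact one_ne_zero h1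

/-- the expansion of `ϖ` along `emFF`. -/
theorem S36VDV_emFF_varpi :
    S36V_emFF M q (S36VDV_varpi M q) =
      S18_ι A (qExpand A q (qExpand A q (jqModC A)) - jqModC A) := by
  show S36V_emFF M q (S36OQ_dC M q (jB M) - S36OQ_dA M q (jB M)) = _
  rw [map_sub, S36FR_emFF_dC, S36FR_emFF_dA, S36OQ_coe0_apply, S36VDV_jB_coe M A, map_sub,
    S36OQ_coeffMap_qExpand, S36OQ_coeffMap_qExpand]

/-- the expansion of `ϖ` along `emVV`. -/
theorem S36VDV_emVV_varpi :
    S36V_emVV M q hq hqM (S36VDV_varpi M q) =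
      -S18_ι A (qExpand A q (qExpand A q (jqModC A)) - jqModC A) := by
  show S36V_emVV M q hq hqM (S36OQ_dC M q (jB M) - S36OQ_dA M q (jB M)) = _
  rw [map_sub, S36FR_emVV_dC, S36FR_emVV_dA, S36OQ_coe0_apply, S36VDV_jB_coe M A, map_sub,
    S36OQ_coeffMap_qExpand, S36OQ_coeffMap_qExpand]
  ring

include hq in
/-- **`ϖ` is a unit of the Gauss ring `FF`.** -/
theorem S36VDV_varpi_FF : S36NR_U A (S36V_emFF M q) (S36VDV_varpi M q) := by
  have h : S36VDV_UG A (S36V_emFF M q) (S36VDV_varpi M q) := by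
    refine S36VDV_UG_of_rep A _ (c := 1) (map_one _) (S36VDV_rho_qq_ne q hq A) (s₂ := 1)
      (by rw [map_one]; exact one_ne_zero) ?_
    rw [S36VDV_emFF_varpi M q A, map_one, mul_one, map_one, one_mul]
  exact ⟨h.1, h.2⟩

include hq in
/-- **`ϖ` is a unit of the Gauss ring `VV`.** -/
theorem S36VDV_varpi_VV : S36NR_U A (S36V_emVV M q hq hqM) (S36VDV_varpi M q) := by
  have hρ : S18_ρ A (-(qExpand A q (qExpand A q (jqModC A)) - jqModC A)) ≠ 0 := by
    rw [map_neg, neg_ne_zero]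
    exact S36VDV_rho_qq_ne q hq A
  have h : S36VDV_UG A (S36V_emVV M q hq hqM) (S36VDV_varpi M q) := by
    refine S36VDV_UG_of_rep A _ (c := 1) (map_one _) hρ (s₂ := 1)
      (by rw [map_one]; exact one_ne_zero) ?_
    rw [S36VDV_emVV_varpi M q hq hqM A, map_one, mul_one, map_one, one_mul, map_neg]
  exact ⟨h.1, h.2⟩

end Fermat.Agent.S36
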