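import Fermat.Agent.S36.Comp3Inst
import Fermat.Agent.S36.Comp3Tab
import Fermat.Agent.S36.Val3DvInst2

/-!
# TRACK 10 (S36), package COMP3-INST part 2f (helper13): the norm formulas for the five concrete
valuation data — prefix `S36CI_`

* `S36CI_norms` : `S36CI_Norms` (helper4's `S36CB_*` on the ties of `S36/Comp3Five.lean`, with
  helper8's `S36VDV_varpi_FF`, `S36VDV_varpi_VV`);
* `S36CI_mk'` : the `S36CH_Hyp` instance from `indep` alone.
-/

set_option autoImplicit false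
set_option linter.unusedSectionVars false
set_option linter.unusedVariables false
set_option linter.style.haveILetI false
set_option synthInstance.maxHeartbeats 400000
set_option maxHeartbeats 1000000

open HahnSeries ModularCurve IntermediateField

noncomputable section

namespace Fermat.Agent.S36

open Fermat.Agent.S18 Fermat.Agent.S24 Fermat.Agent.S34 Fermat.Agent.GalRep

local notation "ℚbar" => AlgebraicClosure ℚ

variable (M q : ℕ) [NeZero M] [NeZero q] (hq : q.Prime) (hqM : ¬ q ∣ M)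
  (A : ValuationSubring ℚbar) (hA : A.LiesOverPrime q)
  (ζ : ℚbarˣ) (hζ : ζ ^ q = 1) (hζ1 : ζ ≠ 1)

/-- **the eight norm formulas** for the five concrete valuation data. -/
theorem S36CI_norms : S36CI_Norms M q hq hqM A hA ζ hζ hζ1 where
  vF_N₁ := S36CB_vF_N₁ M q hq hqM A hA ζ hζ hζ1 (S36C5_tie_FF M q hq hqM A hA)
    (S36C5_tie_FV M q hq hqM A hA ζ hζ hζ1) (S36C5_tie_F M q hq hqM A hA)
    (S36VDV_varpi_FF M q hq A)
  vV_N₁ := S36CB_vV_N₁ M q hq hqM A hA (S36C5_tie_VV M q hq hqM A hA)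
    (S36C5_tie_V M q hq hqM A hA)
  vF_N₂ := S36CB_vF_N₂ M q hq A hA (S36C5_tie_FF M q hq hqM A hA)
    (S36C5_tie_F M q hq hqM A hA)
  vV_N₂ := S36CB_vV_N₂ M q hq hqM A hA ζ hζ hζ1 (S36C5_tie_FV M q hq hqM A hA ζ hζ hζ1)
    (S36C5_tie_VV M q hq hqM A hA) (S36C5_tie_V M q hq hqM A hA)
    (S36VDV_varpi_VV M q hq hqM A)
  NR1F := S36CB_NR1F M q hq hqM A hA ζ hζ hζ1 (S36C5_tie_FF M q hq hqM A hA)
    (S36C5_tie_FV M q hq hqM A hA ζ hζ hζ1) (S36C5_tie_F M q hq hqM A hA)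
  NR1V := S36CB_NR1V M q hq hqM A hA (D_FF := S36C5_FF M q hq hqM A hA)
    (D_FV := S36C5_FV M q hq hqM A hA ζ hζ hζ1) (S36C5_tie_VV M q hq hqM A hA)
    (S36C5_tie_V M q hq hqM A hA)
  NR2F := S36CB_NR2F M q hq A hA (D_FV := S36C5_FV M q hq hqM A hA ζ hζ hζ1)
    (D_VV := S36C5_VV M q hq hqM A hA) (S36C5_tie_FF M q hq hqM A hA)
    (S36C5_tie_F M q hq hqM A hA)
  NR2V := S36CB_NR2V M q hq hqM A hA ζ hζ hζ1 (D_FF := S36C5_FF M q hq hqM A hA)
    (S36C5_tie_FV M q hq hqM A hA ζ hζ hζ1) (S36C5_tie_VV M q hq hqM A hA)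
    (S36C5_tie_V M q hq hqM A hA)

/-- **COMP3-INST** from `indep` alone. -/
def S36CI_mk' (n : ℕ) (hn : 0 < n)
    (indep : S36CV_Indep (S36C5_FF M q hq hqM A hA).O (S36C5_FV M q hq hqM A hA ζ hζ hζ1).O
      (S36C5_VV M q hq hqM A hA).O) :
    @S36CH_Hyp ↥(S36FI_act (M * q * q) (A.inertiaSubgroupIn ℚ)).fixK
      ↥(S36FI_act (M * q * q) (A.inertiaSubgroupIn ℚ)).fixF
      ↥(S36FI_act (M * q) (A.inertiaSubgroupIn ℚ)).fixF
      (IsLocalRing.ResidueField A) (LaurentSeries (IsLocalRing.ResidueField A))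
      _ _ _ _ _ _ (S36CT_alg (M * q * q) (M * q) (A.inertiaSubgroupIn ℚ)) _ n q :=
  S36CI_mk M q hq hqM A hA ζ hζ hζ1 n hn indep (S36CI_norms M q hq hqM A hA ζ hζ hζ1)

end Fermat.Agent.S36
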