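import Fermat.Agent.S36.Comp3Hyp
import Fermat.Agent.S36.Lat3

/-!
# TRACK 10 (S36), package COMP3-INST part 1c (helper13): bridges `S18_Val` ↔ `S36CV_Val`

* `S36CS_small_iff` : for an `S18_Val`, `red x = 0 ↔ x ∈ 𝔪` (`S34AP_Small`);
* `S36CS_ofS18` : an `S18_Val` with a uniformiser, discreteness and an embedding of its residue
  field into `Ω` is an `S36CV_Val`;
* `S36CS_mem_Norm` : principal units at the three valuations are normalised elements of LAT3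
  (`S36L3_Norm`): the output of `S36CH_main` in the language of LAT3 / GAMMA3;
* `S36CS_happrox` : APPROX3 in the shape `happrox` of `S36TL_renorm` / `S36TL_core`.
-/

set_option autoImplicit false

namespace Fermat.Agent.S36

open Fermat.Agent.S18 Fermat.Agent.S34

variable {L F k Fk Ω : Type*} [Field L] [Field F] [Algebra L F] [Field k] [Field Fk]
  [Algebra k Fk] [Field Ω]

/-- the kernel of the residue map of an `S18_Val` is the maximal ideal. -/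
theorem S36CS_small_iff (S : S18_Val L F k Fk) (x : F) (hx : x ∈ S.O) :
    S.red ⟨x, hx⟩ = 0 ↔ S34AP_Small S.O x := by
  rw [S.red_eq_zero_iff, S34AP_small_iff]
  constructor
  · intro h
    exact ⟨hx, by rw [IsLocalRing.mem_maximalIdeal, mem_nonunits_iff]; exact h⟩
  · rintro ⟨h, hm⟩
    rw [IsLocalRing.mem_maximalIdeal, mem_nonunits_iff] at hm
    exact hm

/-- an `S18_Val` with uniformiser, discreteness and an embedding of the residue field. -/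
noncomputable def S36CS_ofS18 (S : S18_Val L F k Fk) (π : Fˣ) (hπ : (π : F) ∈ S.O)
    (hπ' : ((π⁻¹ : Fˣ) : F) ∉ S.O) (dv : ∀ f : Fˣ, ∃ m : ℤ, f * π ^ (-m) ∈ S36CV_UG S.O)
    (emb : Fk →+* Ω) : S36CV_Val F Ω where
  O := S.O
  π := π
  π_mem := hπ
  π_inv := hπ'
  dv := dv
  ρ := emb.comp S.red
  ρ_eq_zero := by
    intro x hx
    rw [RingHom.comp_apply, map_eq_zero]
    exact S36CS_small_iff S x hx

@[simp] theorem S36CS_ofS18_O (S : S18_Val L F k Fk) (π : Fˣ) (hπ : (π : F) ∈ S.O)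
    (hπ' : ((π⁻¹ : Fˣ) : F) ∉ S.O) (dv : ∀ f : Fˣ, ∃ m : ℤ, f * π ^ (-m) ∈ S36CV_UG S.O)
    (emb : Fk →+* Ω) : (S36CS_ofS18 S π hπ hπ' dv emb).O = S.O := rfl

theorem S36CS_ofS18_ρ (S : S18_Val L F k Fk) (π : Fˣ) (hπ : (π : F) ∈ S.O)
    (hπ' : ((π⁻¹ : Fˣ) : F) ∉ S.O) (dv : ∀ f : Fˣ, ∃ m : ℤ, f * π ^ (-m) ∈ S36CV_UG S.O)
    (emb : Fk →+* Ω) (x : S.O) : (S36CS_ofS18 S π hπ hπ' dv emb).ρ x = emb (S.red x) := rfl

/-- a principal unit has residue `1`. -/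
theorem S36CS_red_eq_one (S : S18_Val L F k Fk) {u : F} (h : S34AP_Small S.O (u - 1)) :
    ∃ hu : u ∈ S.O, S.red ⟨u, hu⟩ = 1 := by
  have hu : u ∈ S.O := by
    have := S.O.add_mem _ _ h.mem S.O.one_mem
    rwa [sub_add_cancel] at this
  refine ⟨hu, ?_⟩
  have h1 := (S36CS_small_iff S _ (S.O.sub_mem hu S.O.one_mem)).2 h
  have e : (⟨u - 1, S.O.sub_mem hu S.O.one_mem⟩ : S.O) = ⟨u, hu⟩ - 1 := rfl
  rw [e, map_sub, map_one, sub_eq_zero] at h1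
  exact h1

/-- an `S18_Val` with uniformiser and discreteness as an `S36CV_DV`. -/
def S36CS_dv (S : S18_Val L F k Fk) (π : Fˣ) (hπ : (π : F) ∈ S.O)
    (hπ' : ((π⁻¹ : Fˣ) : F) ∉ S.O) (dv : ∀ f : Fˣ, ∃ m : ℤ, f * π ^ (-m) ∈ S36CV_UG S.O) :
    S36CV_DV F where
  O := S.O
  π := π
  π_mem := hπ
  π_inv := hπ'
  dv := dv

/-- two elements of `O` that are congruent modulo `𝔪` have the same residue. -/
theorem S36CS_red_congr (S : S18_Val L F k Fk) {a b : F} (ha : a ∈ S.O) (hb : b ∈ S.O)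
    (h : S34AP_Small S.O (a - b)) : S.red ⟨a, ha⟩ = S.red ⟨b, hb⟩ := by
  have h1 := (S36CS_small_iff S _ (S.O.sub_mem ha hb)).2 h
  have e : (⟨a - b, S.O.sub_mem ha hb⟩ : S.O) = ⟨a, ha⟩ - ⟨b, hb⟩ := rfl
  rw [e, map_sub, sub_eq_zero] at h1
  exact h1

/-- a nonzero constant of the residue field is the residue of a constant unit. -/
theorem S36CS_exists_const (S : S18_Val L F k Fk) (b : k) (hb : b ≠ 0) :
    ∃ x : Fˣ, x ∈ S36CV_UG S.O ∧ ∀ hx : (x : F) ∈ S.O, S.red ⟨x, hx⟩ = algebraMap k Fk b := by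
  obtain ⟨a, rfl⟩ := S.res_surjective b
  have hmem : algebraMap L F a ∈ S.O := (S.algebraMap_mem_iff a).2 a.2
  have hred : S.red ⟨algebraMap L F a, hmem⟩ = algebraMap k Fk (S.res a) :=
    S.red_algebraMap a a.2 _
  have hne : S.red ⟨algebraMap L F a, hmem⟩ ≠ 0 := by
    rw [hred, Ne, map_eq_zero]
    exact hb
  have hns : ¬ S34AP_Small S.O (algebraMap L F a) := fun hs =>
    hne ((S36CS_small_iff S _ hmem).2 hs)
  have h0 : algebraMap L F (a : L) ≠ 0 := fun h0 => hns (Or.inl h0)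
  have hinv : (algebraMap L F (a : L))⁻¹ ∈ S.O := by
    by_contra hcon
    exact hns (Or.inr hcon)
  refine ⟨Units.mk0 _ h0, ⟨hmem, ?_⟩, fun hx => hred⟩
  rw [Units.val_inv_eq_inv_val]
  exact hinv

variable {Fk₁ Fk₂ Fk₃ : Type*} [Field Fk₁] [Field Fk₂] [Field Fk₃] [Algebra k Fk₁]
  [Algebra k Fk₂] [Algebra k Fk₃]

/-- **APPROX3 in the language of LAT3** (`happrox` of `S36TL_renorm` / `S36TL_core`): for three
pairwise incomparable DISCRETE valuation data, every triple `(1, b₂, b₃)` of nonzero constants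
is the reduction of an element of `O₃`. -/
theorem S36CS_happrox (S₁ : S18_Val L F k Fk₁) (S₂ : S18_Val L F k Fk₂)
    (S₃ : S18_Val L F k Fk₃) (D₁ D₂ D₃ : S36CV_DV F) (h₁ : D₁.O = S₁.O) (h₂ : D₂.O = S₂.O)
    (h₃ : D₃.O = S₃.O) (hI : S36CV_Indep D₁.O D₂.O D₃.O) (b₂ b₃ : k) (hb₂ : b₂ ≠ 0)
    (hb₃ : b₃ ≠ 0) :
    ∃ f : S36L3_O3 S₁ S₂ S₃,
      S36L3_red S₁ S₂ S₃ f = (1, algebraMap k Fk₂ b₂, algebraMap k Fk₃ b₃) := by
  obtain ⟨x₂, hx₂, r₂⟩ := S36CS_exists_const S₂ b₂ hb₂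
  obtain ⟨x₃, hx₃, r₃⟩ := S36CS_exists_const S₃ b₃ hb₃
  have hx₁ : (1 : Fˣ) ∈ S36CV_UG D₁.O := (S36CV_UG D₁.O).one_mem
  rw [← h₂] at hx₂
  rw [← h₃] at hx₃
  obtain ⟨g, u1, u2, u3, s1, s2, s3⟩ := S36CV_approx_r D₁ D₂ D₃ hI 1 x₂ x₃ hx₁ hx₂ hx₃
  rw [h₁] at u1 s1
  rw [h₂] at u2 s2 hx₂
  rw [h₃] at u3 s3 hx₃
  refine ⟨⟨g, u1.1, u2.1, u3.1⟩, Prod.ext ?_ (Prod.ext ?_ ?_)⟩
  · show S₁.red ⟨g, u1.1⟩ = 1
    rw [S36CS_red_congr S₁ u1.1 S₁.O.one_mem (by rwa [Units.val_one] at s1)]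
    exact map_one _
  · show S₂.red ⟨g, u2.1⟩ = algebraMap k Fk₂ b₂
    rw [S36CS_red_congr S₂ u2.1 hx₂.1 s2]
    exact r₂ _
  · show S₃.red ⟨g, u3.1⟩ = algebraMap k Fk₃ b₃
    rw [S36CS_red_congr S₃ u3.1 hx₃.1 s3]
    exact r₃ _

/-- **principal units at the three valuations are normalised** (LAT3's `S36L3_Norm`). -/
theorem S36CS_mem_Norm (S₁ : S18_Val L F k Fk₁) (S₂ : S18_Val L F k Fk₂)
    (S₃ : S18_Val L F k Fk₃) {u : F} (h₁ : S34AP_Small S₁.O (u - 1))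
    (h₂ : S34AP_Small S₂.O (u - 1)) (h₃ : S34AP_Small S₃.O (u - 1)) :
    u ∈ S36L3_Norm S₁ S₂ S₃ := by
  obtain ⟨m1, r1⟩ := S36CS_red_eq_one S₁ h₁
  obtain ⟨m2, r2⟩ := S36CS_red_eq_one S₂ h₂
  obtain ⟨m3, r3⟩ := S36CS_red_eq_one S₃ h₃
  refine ⟨⟨m1, m2, m3⟩, ?_⟩
  refine Prod.ext ?_ (Prod.ext ?_ ?_)
  · exact r1
  · exact r2
  · exact r3

end Fermat.Agent.S36
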