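import Fermat.Agent.S36.Comp3Tie
import Fermat.Agent.S36.Comp3S18
import Fermat.Agent.S36.FixLFiveVal
import Fermat.Agent.S36.FixLDv

/-!
# TRACK 10 (S36), package COMP3-INST part 2d (helper13): the five concrete valuation data of COMP3
— prefix `S36C5_`

`q ∤ M` prime, `A ⊂ ℚ̄` over `q`, `I` its inertia group, `k` its residue field,
`κ = modularFunctionFieldFullC k M ⊂ k((t))`, `F₂ = F_{M q²}^I`, `F₁ = F_{M q}^I`,
`L = ℚ̄^I` (written at level `M q²`).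

* `S36C5_tie_of` (generic): the `S36CV_Val` of an `S18_Val` cut out by a Gauss ring
  (`S36CS_ofS18`) is tied to that Gauss ring; `S36C5_ρ_mem_of`, `S36C5_ρ_surj_of`;
* `S36C5_FF`, `S36C5_FV`, `S36C5_VV`, `S36C5_F`, `S36C5_V` : the five `S36CV_Val`
  (`S36CS_ofS18` of helper1's `S36FI_SFF`, `S36FI_SFV`, `S36FI_SVV`, `S36FI_SF`, `S36FI_SV`;
  uniformisers `q`, `ϖ`, `q`, `q`, `q`), with their ties `S36C5_tie_FF`, … and
  `S36C5_FF_ρ_mem`, `S36C5_FF_ρ_surj`, ….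
-/

set_option autoImplicit false
set_option linter.unusedSectionVars false
set_option linter.unusedVariables false
set_option linter.style.haveILetI false
set_option synthInstance.maxHeartbeats 400000
set_option maxHeartbeats 1000000

open HahnSeries ModularCurve IntermediateField

noncomputable section

namespace Fermat.Agent.S36

open Fermat.Agent.S18 Fermat.Agent.S24 Fermat.Agent.S34 Fermat.Agent.GalRep

local notation "ℚbar" => AlgebraicClosure ℚ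

/-! ### generic part -/

section generic

variable {N : ℕ} {H : Subgroup (ℚbar ≃ₐ[ℚ] ℚbar)} {A : ValuationSubring ℚbar}
  {φ : ↥(modularFunctionFieldBar N) →+* LaurentSeries ℚbar}
  {L' : Type*} [Field L'] [Algebra L' ↥(S36FI_act N H).fixF]
  {κ : IntermediateField (IsLocalRing.ResidueField A) (LaurentSeries (IsLocalRing.ResidueField A))}
  (S : S18_Val L' ↥(S36FI_act N H).fixF (IsLocalRing.ResidueField A) ↥κ)
  (hmem : ∀ f : ↥(S36FI_act N H).fixF,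
    f ∈ S.O ↔ (f : ↥(modularFunctionFieldBar N)) ∈ S36V_G A φ)
  (hred : ∀ (f : ↥(S36FI_act N H).fixF) (hf : f ∈ S.O)
    (hf' : (f : ↥(modularFunctionFieldBar N)) ∈ S36V_G A φ),
    ((S.red ⟨f, hf⟩ : ↥κ) : LaurentSeries (IsLocalRing.ResidueField A)) =
      S36V_Gred A φ ⟨(f : ↥(modularFunctionFieldBar N)), hf'⟩)
  (π : (↥(S36FI_act N H).fixF)ˣ) (hπ : ((π : (↥(S36FI_act N H).fixF)ˣ) :
    ↥(S36FI_act N H).fixF) ∈ S.O)
  (hπ' : ((π⁻¹ : (↥(S36FI_act N H).fixF)ˣ) : ↥(S36FI_act N H).fixF) ∉ S.O)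
  (dv : ∀ f : (↥(S36FI_act N H).fixF)ˣ, ∃ m : ℤ, f * π ^ (-m) ∈ S36CV_UG S.O)
  (π₀ : ↥(modularFunctionFieldBar N))
  (hπ₀ : (((π : (↥(S36FI_act N H).fixF)ˣ) : ↥(S36FI_act N H).fixF) :
    ↥(modularFunctionFieldBar N)) = π₀)

include hmem hred hπ₀ in
/-- **the tie** of `S36CS_ofS18 S …` with the Gauss ring cutting out `S`. -/
theorem S36C5_tie_of :
    S36CG_Tie N H A φ π₀ (S36CS_ofS18 S π hπ hπ' dv κ.val.toRingHom) where
  mem := hmem
  red := fun f hf hf' => hred f hf hf'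
  pi := hπ₀

/-- the residues lie in `κ`. -/
theorem S36C5_ρ_mem_of (x : (S36CS_ofS18 S π hπ hπ' dv κ.val.toRingHom).O) :
    (S36CS_ofS18 S π hπ hπ' dv κ.val.toRingHom).ρ x ∈ κ :=
  (S.red x).2

/-- every element of `κ` is a residue. -/
theorem S36C5_ρ_surj_of (g : LaurentSeries (IsLocalRing.ResidueField A)) (hg : g ∈ κ) :
    ∃ x, (S36CS_ofS18 S π hπ hπ' dv κ.val.toRingHom).ρ x = g := by
  obtain ⟨x, hx⟩ := S.red_surjective ⟨g, hg⟩
  exact ⟨x, congrArg Subtype.val hx⟩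

end generic

/-! ### the five concrete data -/

section five

variable (M q : ℕ) [NeZero M] [NeZero q] (hq : q.Prime) (hqM : ¬ q ∣ M)
  (A : ValuationSubring ℚbar) (hA : A.LiesOverPrime q)
  (ζ : ℚbarˣ) (hζ : ζ ^ q = 1) (hζ1 : ζ ≠ 1)

/-- `FF` : the Gauss valuation at `∞` of level `M q²`, uniformiser `q`. -/
def S36C5_FF : S36CV_Val ↥(S36FI_act (M * q * q) (A.inertiaSubgroupIn ℚ)).fixF
    (LaurentSeries (IsLocalRing.ResidueField A)) :=
  S36CS_ofS18 (S36FI_SFF M q hq hqM A hA)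
    (S36FI_piq (M * q * q) (A.inertiaSubgroupIn ℚ) q hq.ne_zero)
    (S36VDV_isUnif_FF M q hq A (S36V_OFF M q hq A hA) hA (fun _ => Iff.rfl)).mem
    (fun h => (S36VDV_isUnif_FF M q hq A (S36V_OFF M q hq A hA) hA
      (fun _ => Iff.rfl)).inv_not_mem (by rwa [Units.val_inv_eq_inv_val] at h))
    (S36FI_cvdv_FF M q hq A _ hA (fun _ => Iff.rfl))
    (S36FI_kappa M A).val.toRingHom

/-- `VV` : the Gauss valuation at `0` of level `M q²`, uniformiser `q`. -/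
def S36C5_VV : S36CV_Val ↥(S36FI_act (M * q * q) (A.inertiaSubgroupIn ℚ)).fixF
    (LaurentSeries (IsLocalRing.ResidueField A)) :=
  S36CS_ofS18 (S36FI_SVV M q hq hqM A hA)
    (S36FI_piq (M * q * q) (A.inertiaSubgroupIn ℚ) q hq.ne_zero)
    (S36VDV_isUnif_VV M q hq hqM A (S36V_OVV M q hq hqM A hA) hA (fun _ => Iff.rfl)).mem
    (fun h => (S36VDV_isUnif_VV M q hq hqM A (S36V_OVV M q hq hqM A hA) hA
      (fun _ => Iff.rfl)).inv_not_mem (by rwa [Units.val_inv_eq_inv_val] at h))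
    (S36FI_cvdv_VV M q hq hqM A _ hA (fun _ => Iff.rfl))
    (S36FI_kappa M A).val.toRingHom

/-- `FV` : the Gauss valuation at the middle cusp of level `M q²`, uniformiser `ϖ`. -/
def S36C5_FV : S36CV_Val ↥(S36FI_act (M * q * q) (A.inertiaSubgroupIn ℚ)).fixF
    (LaurentSeries (IsLocalRing.ResidueField A)) :=
  S36CS_ofS18 (S36FI_SFV M q hq hqM A hA ζ hζ hζ1)
    (S36FI_piFV M q hq hqM A ζ hζ hζ1 hA)
    (S36VDV_isUnif_FV M q hq hqM A ζ hζ hζ1 (S36V_OFV M q hq hqM A hA ζ hζ hζ1) hA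
      (fun _ => Iff.rfl)).mem
    (fun h => (S36VDV_isUnif_FV M q hq hqM A ζ hζ hζ1 (S36V_OFV M q hq hqM A hA ζ hζ hζ1) hA
      (fun _ => Iff.rfl)).inv_not_mem (by rwa [Units.val_inv_eq_inv_val] at h))
    (S36FI_cvdv_FV M q hq hqM A ζ hζ hζ1 _ hA (fun _ => Iff.rfl))
    (S36FI_kappa M A).val.toRingHom

/-- `F` : the Gauss valuation at `∞` of level `M q`, uniformiser `q`. -/
def S36C5_F : S36CV_Val ↥(S36FI_act (M * q) (A.inertiaSubgroupIn ℚ)).fixF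
    (LaurentSeries (IsLocalRing.ResidueField A)) :=
  letI := S36CT_alg (M * q * q) (M * q) (A.inertiaSubgroupIn ℚ)
  S36CS_ofS18 (S36FI_SF M q hq hqM A hA)
    (S36FI_piq (M * q) (A.inertiaSubgroupIn ℚ) q hq.ne_zero)
    (S36VDV_isUnif_F M q hq A (S36V_OF M q hq A hA) hA (fun _ => Iff.rfl)).mem
    (fun h => (S36VDV_isUnif_F M q hq A (S36V_OF M q hq A hA) hA
      (fun _ => Iff.rfl)).inv_not_mem (by rwa [Units.val_inv_eq_inv_val] at h))
    (S36FI_cvdv_F M q hq A _ hA (fun _ => Iff.rfl))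
    (S36FI_kappa M A).val.toRingHom

/-- `V` : the Gauss valuation at `0` of level `M q`, uniformiser `q`. -/
def S36C5_V : S36CV_Val ↥(S36FI_act (M * q) (A.inertiaSubgroupIn ℚ)).fixF
    (LaurentSeries (IsLocalRing.ResidueField A)) :=
  letI := S36CT_alg (M * q * q) (M * q) (A.inertiaSubgroupIn ℚ)
  S36CS_ofS18 (S36FI_SV M q hq hqM A hA)
    (S36FI_piq (M * q) (A.inertiaSubgroupIn ℚ) q hq.ne_zero)
    (S36VDV_isUnif_V M q hq hqM A (S36V_OV M q hq hqM A hA) hA (fun _ => Iff.rfl)).mem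
    (fun h => (S36VDV_isUnif_V M q hq hqM A (S36V_OV M q hq hqM A hA) hA
      (fun _ => Iff.rfl)).inv_not_mem (by rwa [Units.val_inv_eq_inv_val] at h))
    (S36FI_cvdv_V M q hq hqM A _ hA (fun _ => Iff.rfl))
    (S36FI_kappa M A).val.toRingHom

/-! ### the rings (for `hO_j` of WIRE: all `rfl`) -/

theorem S36C5_FF_O : (S36C5_FF M q hq hqM A hA).O = (S36FI_SFF M q hq hqM A hA).O := rfl

theorem S36C5_FV_O :
    (S36C5_FV M q hq hqM A hA ζ hζ hζ1).O = (S36FI_SFV M q hq hqM A hA ζ hζ hζ1).O := rfl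

theorem S36C5_VV_O : (S36C5_VV M q hq hqM A hA).O = (S36FI_SVV M q hq hqM A hA).O := rfl

/-! ### the ties -/

/-- the constant `q` of `F_N`. -/
abbrev S36C5_cq (N : ℕ) : ↥(modularFunctionFieldBar N) :=
  algebraMap ℚbar ↥(modularFunctionFieldBar N) ((q : ℕ) : ℚbar)

theorem S36C5_tie_FF :
    S36CG_Tie (M * q * q) (A.inertiaSubgroupIn ℚ) A (S36V_emFF M q) (S36C5_cq q (M * q * q))
      (S36C5_FF M q hq hqM A hA) :=
  S36C5_tie_of (S36FI_SFF M q hq hqM A hA) (fun _ => Iff.rfl)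
    (fun f hf _ => S36FI_SFF_red M q hq hqM A hA f hf) _ _ _ _ _
    (S36FI_piq_coe (M * q * q) (A.inertiaSubgroupIn ℚ) q hq.ne_zero)

theorem S36C5_tie_VV :
    S36CG_Tie (M * q * q) (A.inertiaSubgroupIn ℚ) A (S36V_emVV M q hq hqM)
      (S36C5_cq q (M * q * q)) (S36C5_VV M q hq hqM A hA) :=
  S36C5_tie_of (S36FI_SVV M q hq hqM A hA) (fun _ => Iff.rfl)
    (fun f hf _ => S36FI_SVV_red M q hq hqM A hA f hf) _ _ _ _ _
    (S36FI_piq_coe (M * q * q) (A.inertiaSubgroupIn ℚ) q hq.ne_zero)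

theorem S36C5_tie_FV :
    S36CG_Tie (M * q * q) (A.inertiaSubgroupIn ℚ) A (S36V_emFV M q hq hqM ζ hζ hζ1)
      (S36VDV_varpi M q) (S36C5_FV M q hq hqM A hA ζ hζ hζ1) :=
  S36C5_tie_of (S36FI_SFV M q hq hqM A hA ζ hζ hζ1) (fun _ => Iff.rfl)
    (fun f hf _ => S36FI_SFV_red M q hq hqM A hA ζ hζ hζ1 f hf) _ _ _ _ _
    (S36FI_piFV_coe M q hq hqM A ζ hζ hζ1 hA)

theorem S36C5_tie_F :
    S36CG_Tie (M * q) (A.inertiaSubgroupIn ℚ) A (S36V_emF M q) (S36C5_cq q (M * q))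
      (S36C5_F M q hq hqM A hA) :=
  letI := S36CT_alg (M * q * q) (M * q) (A.inertiaSubgroupIn ℚ)
  S36C5_tie_of (S36FI_SF M q hq hqM A hA) (fun _ => Iff.rfl)
    (fun f hf _ => S36FI_SF_red M q hq hqM A hA f hf) _ _ _ _ _
    (S36FI_piq_coe (M * q) (A.inertiaSubgroupIn ℚ) q hq.ne_zero)

theorem S36C5_tie_V :
    S36CG_Tie (M * q) (A.inertiaSubgroupIn ℚ) A (S36V_emV M q hq hqM) (S36C5_cq q (M * q))
      (S36C5_V M q hq hqM A hA) :=
  letI := S36CT_alg (M * q * q) (M * q) (A.inertiaSubgroupIn ℚ)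
  S36C5_tie_of (S36FI_SV M q hq hqM A hA) (fun _ => Iff.rfl)
    (fun f hf _ => S36FI_SV_red M q hq hqM A hA f hf) _ _ _ _ _
    (S36FI_piq_coe (M * q) (A.inertiaSubgroupIn ℚ) q hq.ne_zero)

/-! ### the residue field -/

theorem S36C5_F_ρ_mem (x : (S36C5_F M q hq hqM A hA).O) :
    (S36C5_F M q hq hqM A hA).ρ x ∈ S36FI_kappa M A :=
  letI := S36CT_alg (M * q * q) (M * q) (A.inertiaSubgroupIn ℚ)
  S36C5_ρ_mem_of (S36FI_SF M q hq hqM A hA) _ _ _ _ x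

theorem S36C5_V_ρ_mem (x : (S36C5_V M q hq hqM A hA).O) :
    (S36C5_V M q hq hqM A hA).ρ x ∈ S36FI_kappa M A :=
  letI := S36CT_alg (M * q * q) (M * q) (A.inertiaSubgroupIn ℚ)
  S36C5_ρ_mem_of (S36FI_SV M q hq hqM A hA) _ _ _ _ x

theorem S36C5_FF_ρ_surj (g : LaurentSeries (IsLocalRing.ResidueField A))
    (hg : g ∈ S36FI_kappa M A) : ∃ x, (S36C5_FF M q hq hqM A hA).ρ x = g :=
  S36C5_ρ_surj_of (S36FI_SFF M q hq hqM A hA) _ _ _ _ g hg

theorem S36C5_FV_ρ_surj (g : LaurentSeries (IsLocalRing.ResidueField A))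
    (hg : g ∈ S36FI_kappa M A) : ∃ x, (S36C5_FV M q hq hqM A hA ζ hζ hζ1).ρ x = g :=
  S36C5_ρ_surj_of (S36FI_SFV M q hq hqM A hA ζ hζ hζ1) _ _ _ _ g hg

theorem S36C5_VV_ρ_surj (g : LaurentSeries (IsLocalRing.ResidueField A))
    (hg : g ∈ S36FI_kappa M A) : ∃ x, (S36C5_VV M q hq hqM A hA).ρ x = g :=
  S36C5_ρ_surj_of (S36FI_SVV M q hq hqM A hA) _ _ _ _ g hg

end five

end Fermat.Agent.S36
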