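import Mathlib
import Fermat.Agent.Lib.LaurentTheta
import Fermat.Prelude.Def_ModularCurve_X0ModL
import Fermat.Prelude.Def_ModularCurve_JqCoeff

/-!
# TRACK 10 (S36), COMP3-INST, the [Frobenius] block of `S36CH_Hyp` (helper18)

`k` a perfect field of characteristic `q`, `Ω = k((t)) = LaurentSeries k`, `Ψ = qExpand k q`
(`t ↦ t^q`), `K = modularFunctionFieldFullC k N ⊂ Ω` (the reduction field of level `N`).

* `S36CF_Psi_const`   : `Ψ c = c` for constants (`Ψ_const`);
* `S36CF_frobInv_mem` : `K` is stable under the coefficientwise inverse Frobenius;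
* `S36CF_Psi_eq_pow`  : `Ψ x = (Frob⁻¹-on-coefficients x) ^ q`;
* `S36CF_Psi_pow`     : `x ∈ K ⇒ ∃ g ∈ K, Ψ x = g ^ q` (`Ψ_pow`);
* `S36CF_root_q`      : `x ^ q` constant `⇒ x` constant (`root_q`), any field of characteristic `q`;
* `S36CF_root_n`      : `k` algebraically closed is `n`-divisible (`root_n`);
* `S36CF_k_le_K`      : constants lie in `K` (`k_le_K`).
-/

set_option autoImplicit false
set_option linter.unusedSectionVars false

open HahnSeries ModularCurve

namespace Fermat.Agent.S36

open Fermat.Agent.Lib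

section general

variable {R S : Type*} [CommRing R] [CommRing S]

/-- `coeffMap` commutes with `qExpand`. -/
theorem S36CF_coeffMap_qExpand (f : R →+* S) (n : ℕ) [NeZero n] (x : LaurentSeries R) :
    coeffMap f (qExpand R n x) = qExpand S n (coeffMap f x) := by
  ext m
  by_cases hm : (n : ℤ) ∣ m
  · obtain ⟨m', rfl⟩ := hm
    rw [coeffMap_coeff, qExpand_coeff_mul, qExpand_coeff_mul, coeffMap_coeff]
  · rw [coeffMap_coeff, qExpand_coeff_of_not_dvd n _ hm, qExpand_coeff_of_not_dvd n _ hm,
      map_zero]

/-- `coeffMap f` maps `j̄` to `j̄`. -/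
theorem S36CF_coeffMap_jqModC (f : R →+* S) : coeffMap f (jqModC R) = jqModC S :=
  map_jqModC f

end general

variable (k : Type*) [Field k] (q : ℕ) [Fact q.Prime] [CharP k q]

/-- `Ψ_const`. -/
theorem S36CF_Psi_const [NeZero q] (c : k) :
    qExpand k q (algebraMap k (LaurentSeries k) c) = algebraMap k (LaurentSeries k) c := by
  rw [algebraMap_laurentSeries_eq_single, qExpand_single, mul_zero]

/-- `root_q`: a Laurent series whose `q`-th power is a constant is a constant. -/
theorem S36CF_root_q (x : LaurentSeries k) (c : k)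
    (h : x ^ q = algebraMap k (LaurentSeries k) c) :
    ∃ d : k, x = algebraMap k (LaurentSeries k) d := by
  have hq0 : (q : ℤ) ≠ 0 := by exact_mod_cast (Fact.out : q.Prime).ne_zero
  refine ⟨x.coeff 0, ?_⟩
  rw [algebraMap_laurentSeries_eq_single]
  ext m
  rcases eq_or_ne m 0 with rfl | hm
  · rw [HahnSeries.coeff_single_same]
  · rw [HahnSeries.coeff_single_of_ne hm]
    have h1 := LT_coeff_pow_char_mul q x m
    rw [h, algebraMap_laurentSeries_eq_single,
      HahnSeries.coeff_single_of_ne (mul_ne_zero hq0 hm)] at h1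
    exact (pow_eq_zero_iff (Fact.out : q.Prime).ne_zero).mp h1.symm

/-- `root_n`. -/
theorem S36CF_root_n [IsAlgClosed k] (n : ℕ) (hn : 0 < n) (c : k) : ∃ d : k, d ^ n = c :=
  IsAlgClosed.exists_pow_nat_eq c hn

variable (N : ℕ) [NeZero N]

/-- `k_le_K`. -/
theorem S36CF_k_le_K (c : k) :
    algebraMap k (LaurentSeries k) c ∈ modularFunctionFieldFullC k N :=
  (modularFunctionFieldFullC k N).algebraMap_mem c

variable [PerfectRing k q]

/-- `Ψ x = (Frob⁻¹ on coefficients of x) ^ q`. -/
theorem S36CF_Psi_eq_pow [NeZero q] (x : LaurentSeries k) :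
    qExpand k q x = (coeffMap ((frobeniusEquiv k q).symm : k →+* k) x) ^ q := by
  rw [LT_pow_char q, coeffMap_coeffMap]
  have e : (frobenius k q).comp ((frobeniusEquiv k q).symm : k →+* k) = RingHom.id k := by
    ext a
    simp
  rw [e, coeffMap_id]

/-- the reduction field is stable under every coefficient map induced by an endomorphism of
`k`. -/
theorem S36CF_coeffMap_mem (φ : k →+* k) (x : LaurentSeries k)
    (hx : x ∈ modularFunctionFieldFullC k N) :
    coeffMap φ x ∈ modularFunctionFieldFullC k N := by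
  unfold modularFunctionFieldFullC at hx ⊢
  induction hx using IntermediateField.adjoin_induction with
  | mem y hy =>
    obtain ⟨d, hd0, hd, rfl⟩ := hy
    rw [S36CF_coeffMap_qExpand, S36CF_coeffMap_jqModC]
    exact IntermediateField.subset_adjoin k _ ⟨d, hd0, hd, rfl⟩
  | algebraMap c =>
    rw [algebraMap_laurentSeries_eq_single, coeffMap_single,
      ← algebraMap_laurentSeries_eq_single]
    exact IntermediateField.algebraMap_mem _ _
  | add y z _ _ ihy ihz =>
    rw [map_add]
    exact add_mem ihy ihz
  | inv y _ ihy =>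
    rw [map_inv₀]
    exact inv_mem ihy
  | mul y z _ _ ihy ihz =>
    rw [map_mul]
    exact mul_mem ihy ihz

/-- the reduction field is stable under the coefficientwise inverse Frobenius. -/
theorem S36CF_frobInv_mem (x : LaurentSeries k) (hx : x ∈ modularFunctionFieldFullC k N) :
    coeffMap ((frobeniusEquiv k q).symm : k →+* k) x ∈ modularFunctionFieldFullC k N :=
  S36CF_coeffMap_mem k N _ x hx

/-- `Ψ_pow`: on the reduction field, `Ψ` is the `q`-th power of an element of the field. -/
theorem S36CF_Psi_pow [NeZero q] (x : LaurentSeries k) (hx : x ∈ modularFunctionFieldFullC k N) :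
    ∃ g ∈ modularFunctionFieldFullC k N, qExpand k q x = g ^ q :=
  ⟨_, S36CF_frobInv_mem k q N x hx, S36CF_Psi_eq_pow k q x⟩

/-- `Ψ` maps the reduction field into itself. -/
theorem S36CF_Psi_mem [NeZero q] (x : LaurentSeries k) (hx : x ∈ modularFunctionFieldFullC k N) :
    qExpand k q x ∈ modularFunctionFieldFullC k N := by
  obtain ⟨g, hg, e⟩ := S36CF_Psi_pow k q N x hx
  rw [e]
  exact pow_mem hg q

end Fermat.Agent.S36
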