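import Fermat.Agent.S36.Comp3Five
import Fermat.Agent.S36.Comp3Const
import Fermat.Agent.S36.Comp3Hyp
import Fermat.Agent.S36.Comp3Norm
import Fermat.Agent.S36.Comp3Frob

/-!
# TRACK 10 (S36), package COMP3-INST part 2e (helper13): the hypotheses of COMP3 on the modular
function fields — prefix `S36CI_`

`q ∤ M` prime, `A ⊂ ℚ̄` over `q`, `I` its inertia group, `k` its residue field,
`L = ℚ̄^I` (written at level `M q²`), `F₂ = F_{M q²}^I`, `F₁ = F_{M q}^I`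
(an `L`-algebra by `S36CT_alg (M q²) (M q) I`).

* `S36CI_Norms` : the eight norm formulas (valuation table + norm-residue formulas) for the five
  concrete valuation data `S36C5_*` (package (P1), helper4);
* `S36CI_mk` : the `S36CH_Hyp` instance from `indep` (package (P3)) and `S36CI_Norms`.
-/

set_option autoImplicit false
set_option linter.unusedSectionVars false
set_option linter.unusedVariables false
set_option linter.style.haveILetI false
set_option synthInstance.maxHeartbeats 400000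
set_option maxHeartbeats 1000000

open HahnSeries ModularCurve IntermediateField

noncomputable section

namespace Fermat.Agent.S36

open Fermat.Agent.S18 Fermat.Agent.S24 Fermat.Agent.S34 Fermat.Agent.GalRep

local notation "ℚbar" => AlgebraicClosure ℚ

variable (M q : ℕ) [NeZero M] [NeZero q] (hq : q.Prime) (hqM : ¬ q ∣ M)
  (A : ValuationSubring ℚbar) (hA : A.LiesOverPrime q)
  (ζ : ℚbarˣ) (hζ : ζ ^ q = 1) (hζ1 : ζ ≠ 1)

/-- the Frobenius substitution `t ↦ t^q` on `k((t))`. -/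
abbrev S36CI_Ψ : LaurentSeries (IsLocalRing.ResidueField A) →+*
    LaurentSeries (IsLocalRing.ResidueField A) :=
  qExpand (IsLocalRing.ResidueField A) q

/-- the eight norm formulas of COMP3 for the five concrete valuation data. -/
structure S36CI_Norms : Prop where
  vF_N₁ : ∀ u, (S36C5_F M q hq hqM A hA).v (S36CN_NA (M * q) q (A.inertiaSubgroupIn ℚ) u) =
    (S36C5_FF M q hq hqM A hA).v u + (S36C5_FV M q hq hqM A hA ζ hζ hζ1).v u
  vV_N₁ : ∀ u, (S36C5_V M q hq hqM A hA).v (S36CN_NA (M * q) q (A.inertiaSubgroupIn ℚ) u) =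
    q * (S36C5_VV M q hq hqM A hA).v u
  vF_N₂ : ∀ u, (S36C5_F M q hq hqM A hA).v (S36CN_NB (M * q) q (A.inertiaSubgroupIn ℚ) u) =
    q * (S36C5_FF M q hq hqM A hA).v u
  vV_N₂ : ∀ u, (S36C5_V M q hq hqM A hA).v (S36CN_NB (M * q) q (A.inertiaSubgroupIn ℚ) u) =
    (S36C5_FV M q hq hqM A hA ζ hζ hζ1).v u + (S36C5_VV M q hq hqM A hA).v u
  NR1F : ∀ u, (S36C5_FF M q hq hqM A hA).v u = 0 →
    (S36C5_FV M q hq hqM A hA ζ hζ hζ1).v u = 0 → (S36C5_VV M q hq hqM A hA).v u = 0 →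
    (S36C5_F M q hq hqM A hA).r (S36CN_NA (M * q) q (A.inertiaSubgroupIn ℚ) u) =
      (S36C5_FF M q hq hqM A hA).r u * (S36C5_FV M q hq hqM A hA ζ hζ hζ1).r u ^ (q - 1)
  NR1V : ∀ u, (S36C5_FF M q hq hqM A hA).v u = 0 →
    (S36C5_FV M q hq hqM A hA ζ hζ hζ1).v u = 0 → (S36C5_VV M q hq hqM A hA).v u = 0 →
    Units.map ((S36CI_Ψ q A : LaurentSeries (IsLocalRing.ResidueField A) →+* _) :
        LaurentSeries (IsLocalRing.ResidueField A) →* _)
      ((S36C5_V M q hq hqM A hA).r (S36CN_NA (M * q) q (A.inertiaSubgroupIn ℚ) u)) =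
      (S36C5_VV M q hq hqM A hA).r u ^ q
  NR2F : ∀ u, (S36C5_FF M q hq hqM A hA).v u = 0 →
    (S36C5_FV M q hq hqM A hA ζ hζ hζ1).v u = 0 → (S36C5_VV M q hq hqM A hA).v u = 0 →
    Units.map ((S36CI_Ψ q A : LaurentSeries (IsLocalRing.ResidueField A) →+* _) :
        LaurentSeries (IsLocalRing.ResidueField A) →* _)
      ((S36C5_F M q hq hqM A hA).r (S36CN_NB (M * q) q (A.inertiaSubgroupIn ℚ) u)) =
      (S36C5_FF M q hq hqM A hA).r u ^ q
  NR2V : ∀ u, (S36C5_FF M q hq hqM A hA).v u = 0 →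
    (S36C5_FV M q hq hqM A hA ζ hζ hζ1).v u = 0 → (S36C5_VV M q hq hqM A hA).v u = 0 →
    (S36C5_V M q hq hqM A hA).r (S36CN_NB (M * q) q (A.inertiaSubgroupIn ℚ) u) =
      (S36C5_FV M q hq hqM A hA ζ hζ hζ1).r u ^ (q - 1) * (S36C5_VV M q hq hqM A hA).r u

/-- **COMP3-INST**: the hypotheses of COMP3 on the modular function fields, from `indep` and the
norm formulas. -/
def S36CI_mk (n : ℕ) (hn : 0 < n)
    (indep : S36CV_Indep (S36C5_FF M q hq hqM A hA).O (S36C5_FV M q hq hqM A hA ζ hζ hζ1).O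
      (S36C5_VV M q hq hqM A hA).O)
    (NN : S36CI_Norms M q hq hqM A hA ζ hζ hζ1) :
    @S36CH_Hyp ↥(S36FI_act (M * q * q) (A.inertiaSubgroupIn ℚ)).fixK
      ↥(S36FI_act (M * q * q) (A.inertiaSubgroupIn ℚ)).fixF
      ↥(S36FI_act (M * q) (A.inertiaSubgroupIn ℚ)).fixF
      (IsLocalRing.ResidueField A) (LaurentSeries (IsLocalRing.ResidueField A))
      _ _ _ _ _ _ (S36CT_alg (M * q * q) (M * q) (A.inertiaSubgroupIn ℚ)) _ n q :=
  letI := S36CT_alg (M * q * q) (M * q) (A.inertiaSubgroupIn ℚ)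
  haveI : Fact q.Prime := ⟨hq⟩
  haveI : CharP (IsLocalRing.ResidueField A) q := S18_residue_charP A q hq hA
  haveI : IsAlgClosed (IsLocalRing.ResidueField A) := S18_residue_isAlgClosed A
  { hq := hq.ne_zero
    FF := S36C5_FF M q hq hqM A hA
    FV := S36C5_FV M q hq hqM A hA ζ hζ hζ1
    VV := S36C5_VV M q hq hqM A hA
    F := S36C5_F M q hq hqM A hA
    V := S36C5_V M q hq hqM A hA
    indep := indep
    A := S36FL_AL (S36FI_act (M * q * q) (A.inertiaSubgroupIn ℚ)) A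
    ϖ := S36BL_pi (q := q) (S36FI_act (M * q * q) (A.inertiaSubgroupIn ℚ)).fixK
    dvL := S36CK_dvL (M * q * q) A hA
    res := S36BL_resL A (S36FI_act (M * q * q) (A.inertiaSubgroupIn ℚ)).fixK
    FF_const := S36CK_FF_const M q A (fun _ => rfl) (S36C5_tie_FF M q hq hqM A hA)
    FV_const := S36CK_FV_const M q hq hqM A ζ hζ hζ1 (fun _ => rfl)
      (S36C5_tie_FV M q hq hqM A hA ζ hζ hζ1)
    VV_const := S36CK_VV_const M q hq hqM A (fun _ => rfl) (S36C5_tie_VV M q hq hqM A hA)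
    F_const := S36CK_F_const M q A
      (S36CT_algebraMap_coe (M * q * q) (M * q) (A.inertiaSubgroupIn ℚ))
      (S36C5_tie_F M q hq hqM A hA)
    V_const := S36CK_V_const M q hq hqM A
      (S36CT_algebraMap_coe (M * q * q) (M * q) (A.inertiaSubgroupIn ℚ))
      (S36C5_tie_V M q hq hqM A hA)
    F_ρ_const := S36CK_F_ρ_const M q A
      (S36CT_algebraMap_coe (M * q * q) (M * q) (A.inertiaSubgroupIn ℚ))
      (S36C5_tie_F M q hq hqM A hA)
    V_ρ_const := S36CK_V_ρ_const M q hq hqM A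
      (S36CT_algebraMap_coe (M * q * q) (M * q) (A.inertiaSubgroupIn ℚ))
      (S36C5_tie_V M q hq hqM A hA)
    FF_π := S36CK_π (S36C5_tie_FF M q hq hqM A hA) (fun _ => rfl) rfl
    FV_π := S36CK_FV_π M q hq hqM A hA ζ hζ hζ1 (S36C5_tie_FV M q hq hqM A hA ζ hζ hζ1)
      (fun _ => rfl)
    VV_π := S36CK_π (S36C5_tie_VV M q hq hqM A hA) (fun _ => rfl) rfl
    F_π := S36CK_π (S36C5_tie_F M q hq hqM A hA)
      (S36CT_algebraMap_coe (M * q * q) (M * q) (A.inertiaSubgroupIn ℚ)) rfl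
    V_π := S36CK_π (S36C5_tie_V M q hq hqM A hA)
      (S36CT_algebraMap_coe (M * q * q) (M * q) (A.inertiaSubgroupIn ℚ)) rfl
    K := (S36FI_kappa M A).toSubfield
    F_ρ_mem := S36C5_F_ρ_mem M q hq hqM A hA
    V_ρ_mem := S36C5_V_ρ_mem M q hq hqM A hA
    FF_ρ_surj := S36C5_FF_ρ_surj M q hq hqM A hA
    FV_ρ_surj := S36C5_FV_ρ_surj M q hq hqM A hA ζ hζ hζ1
    VV_ρ_surj := S36C5_VV_ρ_surj M q hq hqM A hA
    k_le_K := S36CF_k_le_K (IsLocalRing.ResidueField A) M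
    Ψ := S36CI_Ψ q A
    Ψ_const := fun c => ⟨c, S36CF_Psi_const (IsLocalRing.ResidueField A) q c⟩
    Ψ_pow := S36CF_Psi_pow (IsLocalRing.ResidueField A) q M
    root_q := S36CF_root_q (IsLocalRing.ResidueField A) q
    root_n := S36CF_root_n (IsLocalRing.ResidueField A) n hn
    N₁ := S36CN_NA (M * q) q (A.inertiaSubgroupIn ℚ)
    N₂ := S36CN_NB (M * q) q (A.inertiaSubgroupIn ℚ)
    N₁_const := S36CN_NA_const (M * q) q (A.inertiaSubgroupIn ℚ) hq
    N₂_const := S36CN_NB_const (M * q) q (A.inertiaSubgroupIn ℚ) hq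
    vF_N₁ := NN.vF_N₁
    vV_N₁ := NN.vV_N₁
    vF_N₂ := NN.vF_N₂
    vV_N₂ := NN.vV_N₂
    NR1F := NN.NR1F
    NR1V := NN.NR1V
    NR2F := NN.NR2F
    NR2V := NN.NR2V }

/-! ### what WIRE needs to know about `S36CI_mk` (all `rfl`) -/

section wire

attribute [local instance 10] S36CT_alg

variable (n : ℕ) (hn : 0 < n)
  (indep : S36CV_Indep (S36C5_FF M q hq hqM A hA).O (S36C5_FV M q hq hqM A hA ζ hζ hζ1).O
    (S36C5_VV M q hq hqM A hA).O)
  (NN : S36CI_Norms M q hq hqM A hA ζ hζ hζ1)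

theorem S36CI_mk_FF_O :
    (S36FI_SFF M q hq hqM A hA).O = (S36CI_mk M q hq hqM A hA ζ hζ hζ1 n hn indep NN).FF.O := rfl

theorem S36CI_mk_FV_O :
    (S36FI_SFV M q hq hqM A hA ζ hζ hζ1).O =
      (S36CI_mk M q hq hqM A hA ζ hζ hζ1 n hn indep NN).FV.O := rfl

theorem S36CI_mk_VV_O :
    (S36FI_SVV M q hq hqM A hA).O = (S36CI_mk M q hq hqM A hA ζ hζ hζ1 n hn indep NN).VV.O := rfl

theorem S36CI_mk_FF_ρ (x : ↥(S36FI_act (M * q * q) (A.inertiaSubgroupIn ℚ)).fixF)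
    (hx : x ∈ (S36FI_SFF M q hq hqM A hA).O) :
    (S36CI_mk M q hq hqM A hA ζ hζ hζ1 n hn indep NN).FF.ρ ⟨x, hx⟩ =
      (S36FI_kappa M A).val ((S36FI_SFF M q hq hqM A hA).red ⟨x, hx⟩) := rfl

theorem S36CI_mk_FV_ρ (x : ↥(S36FI_act (M * q * q) (A.inertiaSubgroupIn ℚ)).fixF)
    (hx : x ∈ (S36FI_SFV M q hq hqM A hA ζ hζ hζ1).O) :
    (S36CI_mk M q hq hqM A hA ζ hζ hζ1 n hn indep NN).FV.ρ ⟨x, hx⟩ =
      (S36FI_kappa M A).val ((S36FI_SFV M q hq hqM A hA ζ hζ hζ1).red ⟨x, hx⟩) := rfl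

theorem S36CI_mk_VV_ρ (x : ↥(S36FI_act (M * q * q) (A.inertiaSubgroupIn ℚ)).fixF)
    (hx : x ∈ (S36FI_SVV M q hq hqM A hA).O) :
    (S36CI_mk M q hq hqM A hA ζ hζ hζ1 n hn indep NN).VV.ρ ⟨x, hx⟩ =
      (S36FI_kappa M A).val ((S36FI_SVV M q hq hqM A hA).red ⟨x, hx⟩) := rfl

theorem S36CI_mk_N₁ (u : (↥(S36FI_act (M * q * q) (A.inertiaSubgroupIn ℚ)).fixF)ˣ) :
    ((((S36CI_mk M q hq hqM A hA ζ hζ hζ1 n hn indep NN).N₁ u :
      (↥(S36FI_act (M * q) (A.inertiaSubgroupIn ℚ)).fixF)ˣ) :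
        ↥(S36FI_act (M * q) (A.inertiaSubgroupIn ℚ)).fixF) :
          ↥(modularFunctionFieldBar (M * q))) =
      Fermat.Agent.S35.S35B_NA (M * q) q
        (((u : ↥(S36FI_act (M * q * q) (A.inertiaSubgroupIn ℚ)).fixF)) :
          ↥(modularFunctionFieldBar (M * q * q))) := rfl

theorem S36CI_mk_N₂ (u : (↥(S36FI_act (M * q * q) (A.inertiaSubgroupIn ℚ)).fixF)ˣ) :
    ((((S36CI_mk M q hq hqM A hA ζ hζ hζ1 n hn indep NN).N₂ u :
      (↥(S36FI_act (M * q) (A.inertiaSubgroupIn ℚ)).fixF)ˣ) :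
        ↥(S36FI_act (M * q) (A.inertiaSubgroupIn ℚ)).fixF) :
          ↥(modularFunctionFieldBar (M * q))) =
      Fermat.Agent.S35.S35B_NB (M * q) q
        (((u : ↥(S36FI_act (M * q * q) (A.inertiaSubgroupIn ℚ)).fixF)) :
          ↥(modularFunctionFieldBar (M * q * q))) := rfl

end wire

end Fermat.Agent.S36
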