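import Fermat.Agent.S36.Comp3Hyp

/-!
# TRACK 10 (S36), package COMP3-INST part 2b (helper13): residue fields

`D : S36CV_Val F Ω` (valuation ring `O ⊂ F`, residue map `ρ : O →+* Ω` with kernel `𝔪`).

* `S36CR_range D : Subfield Ω` — the image of `ρ` is a SUBFIELD of `Ω`;
* `S36CR_adjoin_le` : if the constants `k` and a set `S ⊂ Ω` consist of residues, then every
  element of `K = k(S)` (`IntermediateField.adjoin k S`) is a residue: the hypotheses
  `FF_ρ_surj`, `FV_ρ_surj`, `VV_ρ_surj` of `S36CH_Hyp` from the residues of the generators;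
* `S36CR_inv`, `S36CR_exists_unit` : residues of inverses, lifting of nonzero residues to units.
-/

set_option autoImplicit false

namespace Fermat.Agent.S36

open Fermat.Agent.S34

variable {F Ω : Type*} [Field F] [Field Ω] (D : S36CV_Val F Ω)

/-- a nonzero residue is the residue of a unit of `O`, and its inverse is a residue. -/
theorem S36CR_inv (x : D.O) (hx : D.ρ x ≠ 0) : ∃ y : D.O, D.ρ y = (D.ρ x)⁻¹ := by
  have hns : ¬ S34AP_Small D.O (x : F) := by
    intro hs
    apply hx
    have := (D.ρ_eq_zero _ x.2).2 hs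
    rwa [Subtype.coe_eta] at this
  have hx0 : (x : F) ≠ 0 := fun h0 => hns (Or.inl h0)
  have hinv : (x : F)⁻¹ ∈ D.O := by
    by_contra hcon
    exact hns (Or.inr hcon)
  refine ⟨⟨(x : F)⁻¹, hinv⟩, ?_⟩
  have e : (⟨(x : F)⁻¹, hinv⟩ : D.O) * x = 1 := Subtype.ext (inv_mul_cancel₀ hx0)
  have h1 := congrArg D.ρ e
  rw [map_mul, map_one] at h1
  exact eq_inv_of_mul_eq_one_left h1

/-- the image of the residue map, as a subfield of `Ω`. -/
def S36CR_range : Subfield Ω where
  toSubring := D.ρ.range
  inv_mem' := by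
    rintro _ ⟨x, rfl⟩
    by_cases hx : D.ρ x = 0
    · rw [hx, inv_zero]
      exact D.ρ.range.zero_mem
    · obtain ⟨y, hy⟩ := S36CR_inv D x hx
      exact ⟨y, hy⟩

theorem S36CR_mem_range {g : Ω} : g ∈ S36CR_range D ↔ ∃ x : D.O, D.ρ x = g := Iff.rfl

/-- **residues generate**: if the constants and the elements of `S` are residues, so is every
element of `k(S)`. -/
theorem S36CR_adjoin_le {k : Type*} [Field k] [Algebra k Ω] (S : Set Ω)
    (hk : ∀ c : k, ∃ x : D.O, D.ρ x = algebraMap k Ω c) (hS : ∀ s ∈ S, ∃ x : D.O, D.ρ x = s)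
    (g : Ω) (hg : g ∈ IntermediateField.adjoin k S) : ∃ x : D.O, D.ρ x = g := by
  have hle : (IntermediateField.adjoin k S).toSubfield ≤ S36CR_range D := by
    rw [IntermediateField.adjoin_toSubfield, Subfield.closure_le]
    rintro x (⟨c, rfl⟩ | hx)
    · exact hk c
    · exact hS x hx
  exact hle hg

end Fermat.Agent.S36
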