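import Fermat.Agent.S36.Comp3VS
import Fermat.Agent.S36.FixLInst
import Fermat.Agent.S36.NormRes4

/-!
# TRACK 10 (S36), package COMP3-INST part 2c (helper13): the TIE between a valuation datum on the
fixed field and a Gauss ring — prefix `S36CG_`

`N` a level, `H ≤ Gal(ℚ̄/ℚ)`, `F_N^H = (S36FI_act N H).fixF`, `A ⊂ ℚ̄` a valuation subring with
residue field `k`, `φ : F_N → ℚ̄((t))` an embedding, `π₀ ∈ F_N`.

`S36CG_Tie N H A φ π₀ D` says that the datum `D : S36CV_Val F_N^H k((t))` (valuation ring,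
uniformiser, residue map) is the restriction to `F_N^H` of the Gauss valuation along `φ`:
`D.O = G(φ) ∩ F_N^H`, `D.ρ = red_φ`, `D.π = π₀`.  Consequences, in the language of helper4's
NORMRES (`S36NR_U A φ f`: `f` is a unit of the Gauss ring):

* `S36CG_Tie.mem_UG` : `u ∈ S36CV_UG D.O ↔ S36NR_U A φ u`;
* `S36CG_Tie.v_iff`  : `D.v u = m ↔ S36NR_U A φ (u · π₀^(-m))`;
* `S36CG_Tie.r_eq`   : `D.r u = red_φ u` for units.
-/

set_option autoImplicit false

open ModularCurve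

namespace Fermat.Agent.S36

local notation "ℚbar" => AlgebraicClosure ℚ

/-- the tie between a valuation datum on the fixed field `F_N^H` and the Gauss ring along `φ`. -/
structure S36CG_Tie (N : ℕ) (H : Subgroup (ℚbar ≃ₐ[ℚ] ℚbar)) (A : ValuationSubring ℚbar)
    (φ : ↥(modularFunctionFieldBar N) →+* LaurentSeries ℚbar)
    (π₀ : ↥(modularFunctionFieldBar N))
    (D : S36CV_Val ↥(S36FI_act N H).fixF (LaurentSeries (IsLocalRing.ResidueField A))) :
    Prop where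
  mem : ∀ f : ↥(S36FI_act N H).fixF,
    f ∈ D.O ↔ (f : ↥(modularFunctionFieldBar N)) ∈ S36V_G A φ
  red : ∀ (f : ↥(S36FI_act N H).fixF) (hf : f ∈ D.O)
    (hf' : (f : ↥(modularFunctionFieldBar N)) ∈ S36V_G A φ),
    D.ρ ⟨f, hf⟩ = S36V_Gred A φ ⟨(f : ↥(modularFunctionFieldBar N)), hf'⟩
  pi : (((D.π : (↥(S36FI_act N H).fixF)ˣ) : ↥(S36FI_act N H).fixF) :
    ↥(modularFunctionFieldBar N)) = π₀

namespace S36CG_Tie

variable {N : ℕ} {H : Subgroup (ℚbar ≃ₐ[ℚ] ℚbar)} {A : ValuationSubring ℚbar}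
  {φ : ↥(modularFunctionFieldBar N) →+* LaurentSeries ℚbar}
  {π₀ : ↥(modularFunctionFieldBar N)}
  {D : S36CV_Val ↥(S36FI_act N H).fixF (LaurentSeries (IsLocalRing.ResidueField A))}

/-- the coercion `(F_N^H)ˣ → F_N`. -/
theorem coe_inv (u : (↥(S36FI_act N H).fixF)ˣ) :
    ((((u⁻¹ : (↥(S36FI_act N H).fixF)ˣ) : ↥(S36FI_act N H).fixF)) :
      ↥(modularFunctionFieldBar N)) =
      ((((u : ↥(S36FI_act N H).fixF)) : ↥(modularFunctionFieldBar N)))⁻¹ := by
  rw [Units.val_inv_eq_inv_val]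
  rfl

theorem coe_mul (u v : (↥(S36FI_act N H).fixF)ˣ) :
    ((((u * v : (↥(S36FI_act N H).fixF)ˣ) : ↥(S36FI_act N H).fixF)) :
      ↥(modularFunctionFieldBar N)) =
      (((u : ↥(S36FI_act N H).fixF)) : ↥(modularFunctionFieldBar N)) *
        (((v : ↥(S36FI_act N H).fixF)) : ↥(modularFunctionFieldBar N)) := by
  rw [Units.val_mul]
  rfl

theorem coe_zpow (u : (↥(S36FI_act N H).fixF)ˣ) (m : ℤ) :
    ((((u ^ m : (↥(S36FI_act N H).fixF)ˣ) : ↥(S36FI_act N H).fixF)) :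
      ↥(modularFunctionFieldBar N)) =
      ((((u : ↥(S36FI_act N H).fixF)) : ↥(modularFunctionFieldBar N))) ^ m := by
  rw [Units.val_zpow_eq_zpow_val]
  exact map_zpow₀ (S36FI_act N H).fixF.subtype _ m

theorem coe_ne_zero (u : (↥(S36FI_act N H).fixF)ˣ) :
    (((u : ↥(S36FI_act N H).fixF)) : ↥(modularFunctionFieldBar N)) ≠ 0 :=
  fun h => u.ne_zero (Subtype.ext h)

variable (T : S36CG_Tie N H A φ π₀ D)
include T

/-- units of `D.O` = Gauss units. -/
theorem mem_UG (u : (↥(S36FI_act N H).fixF)ˣ) :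
    u ∈ S36CV_UG D.O ↔
      S36NR_U A φ (((u : ↥(S36FI_act N H).fixF)) : ↥(modularFunctionFieldBar N)) := by
  constructor
  · rintro ⟨h1, h2⟩
    refine ⟨(T.mem _).1 h1, ?_⟩
    rw [← coe_inv]
    exact (T.mem _).1 h2
  · rintro ⟨h1, h2⟩
    refine ⟨(T.mem _).2 h1, (T.mem _).2 ?_⟩
    rw [coe_inv]
    exact h2

/-- the normalised valuation in terms of Gauss units. -/
theorem v_iff (u : (↥(S36FI_act N H).fixF)ˣ) (m : ℤ) :
    D.v u = m ↔
      S36NR_U A φ ((((u : ↥(S36FI_act N H).fixF)) : ↥(modularFunctionFieldBar N)) *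
        π₀ ^ (-m)) := by
  rw [S36CV_DV.v_eq_iff, T.mem_UG, coe_mul, coe_zpow, T.pi]

theorem v_spec' (u : (↥(S36FI_act N H).fixF)ˣ) :
    S36NR_U A φ ((((u : ↥(S36FI_act N H).fixF)) : ↥(modularFunctionFieldBar N)) *
        π₀ ^ (-(D.v u))) :=
  (T.v_iff u _).1 rfl

/-- units have valuation `0`. -/
theorem v_zero_iff (u : (↥(S36FI_act N H).fixF)ˣ) :
    D.v u = 0 ↔
      S36NR_U A φ (((u : ↥(S36FI_act N H).fixF)) : ↥(modularFunctionFieldBar N)) := by
  rw [S36CV_DV.v_eq_zero_iff, T.mem_UG]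

/-- the residue of a unit. -/
theorem r_eq (u : (↥(S36FI_act N H).fixF)ˣ) (hu : D.v u = 0)
    (hu' : (((u : ↥(S36FI_act N H).fixF)) : ↥(modularFunctionFieldBar N)) ∈ S36V_G A φ) :
    ((D.r u : (LaurentSeries (IsLocalRing.ResidueField A))ˣ) :
      LaurentSeries (IsLocalRing.ResidueField A)) =
      S36V_Gred A φ ⟨(((u : ↥(S36FI_act N H).fixF)) : ↥(modularFunctionFieldBar N)), hu'⟩ := by
  rw [D.r_val (D.v_eq_zero_iff.1 hu)]
  exact T.red _ _ hu'

/-- the uniformiser is not zero. -/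
theorem pi_ne_zero : π₀ ≠ 0 := by
  rw [← T.pi]
  exact coe_ne_zero _

end S36CG_Tie

end Fermat.Agent.S36
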