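import Mathlib
import Fermat.Agent.S34.OntoM
import Fermat.Agent.S24.CuspCount

/-!
# TRACK 10 (S36), package CUSP-INJ (helper25, prefix `S36CI_`): the cusps of the special fibre

`K = ℚ̄`, `F = modularFunctionFieldBar N`, `A ⊂ K` a valuation ring over `ℓ ∤ N` (every `ℓ`, also
`ℓ = 2, 3`), `k` its residue field, `κ = modularFunctionFieldFullC k N`, `r` the specialisation
map on places.

The local comparison of S18 (`LC_fin`, `LC_cusp`) gives `r_* div(dj) ≤ div(dj̄)` pointwise; by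
Hurwitz on both sides and the genus equality `S34OM_genus_eq` the degrees agree, so

* `S36CI_spec` : `r_* div(dj) = div(dj̄)` pointwise.

At a pole `Q` of `j̄`, with `n ≥ 1` poles of `j` in the residue disc of `Q`, the left side is
`ord_Q j̄ - n` and the right side is `≥ ord_Q j̄ - 1`.  Hence `n = 1` and equality:

* `S36CI_tame` : `ord_Q (dj̄) = ord_Q j̄ - 1` at every pole of `j̄`;
* `S36CI_inj`  : `r` is injective on the poles of `j`;
* `S36CI_card` : the number of poles of `j̄` is `cuspCount N`;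
* `S36CI_main` : the finset of cusps of `κ`, in the form used by `S36OC_count`.
-/

set_option autoImplicit false
set_option synthInstance.maxHeartbeats 400000
set_option maxHeartbeats 1000000
set_option linter.unusedSectionVars false
set_option linter.unusedVariables false
set_option linter.style.haveILetI false

open HahnSeries IntermediateField AlgebraicCurve ModularCurve KaehlerDifferential

namespace Fermat.Agent.S36

open Fermat.Agent.Lib Fermat.Agent.S24 Fermat.Agent.S18 Fermat.Agent.S34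

attribute [local instance 100000] Algebra.toModule

section abs

variable {L F k Fk : Type*} [Field L] [Field F] [Algebra L F] [Field k] [Field Fk]
  [Algebra k Fk] (S : S18_Spec L F k Fk)

/-- a non-pole of `j` in the residue disc of a pole of `j̄` is unramified for `j`. -/
theorem S36CI_unr (hPD : HasPrincipalDivisors L F) (j : S.O)
    (hjnc : ∀ c : k, S.red j ≠ algebraMap k Fk c)
    (Pl : Finset (Place L F)) (hPl : ∀ P, P ∈ Pl ↔ P.ord (j : F) < 0)
    (T : Finset (Place k Fk)) (hT : ∀ Q, Q ∈ T ↔ Q.ord (S.red j) < 0)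
    (hsum : ∑ Q ∈ T, Q.ord (S.red j) ≤ ∑ P ∈ Pl, P.ord (j : F))
    (W : Divisor L F)
    (hX0 : ∀ P : Place L F, 0 ≤ P.ord (j : F) → W P ≠ 0 →
      ∃ c : L, c ∈ S.A ∧ 0 < P.ord ((j : F) - algebraMap L F c))
    (Q : Place k Fk) (hQ : Q.ord (S.red j) < 0) (P : Place L F) (hP : S.r P = Q)
    (hPj : 0 ≤ P.ord (j : F)) : W P = 0 := by
  by_contra hne
  obtain ⟨c, hc, hpos⟩ := hX0 P hPj hne
  have := S.LC_compat_sub hPD j hjnc Pl hPl T hT hsum c hc P hpos
  rw [hP] at this
  omega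

/-- **LOC, pointwise form**: `r_* div(dj) (Q) ≤ ord_Q (dj̄)` at every place `Q`. -/
theorem S36CI_le (hPD : HasPrincipalDivisors L F) (hF : LC_Diff L F) (hk : LC_Diff k Fk)
    (hval : ∀ (P : Place L F) (y : F), 0 ≤ P.ord y →
      ∃ a : L, y = algebraMap L F a ∨ 0 < P.ord (y - algebraMap L F a))
    (hFpole : ∀ (P : Place L F) (y : F), P.ord y < 0 →
      P.ordDifferential (D L F y) = P.ord y - 1)
    (hDER : ∀ (y t : S.O) (f : F), D L F (y : F) = f • D L F (t : F) → D k Fk (S.red t) ≠ 0 →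
      ∃ hf : f ∈ S.O, D k Fk (S.red y) = S.red ⟨f, hf⟩ • D k Fk (S.red t))
    (j : S.O) (hjnc : ∀ c : k, S.red j ≠ algebraMap k Fk c) (hDjk : D k Fk (S.red j) ≠ 0)
    (Pl : Finset (Place L F)) (hPl : ∀ P, P ∈ Pl ↔ P.ord (j : F) < 0)
    (T : Finset (Place k Fk)) (hT : ∀ Q, Q ∈ T ↔ Q.ord (S.red j) < 0)
    (hsum : ∑ Q ∈ T, Q.ord (S.red j) ≤ ∑ P ∈ Pl, P.ord (j : F))
    (W : Divisor L F) (hW : ∀ P, W P = P.ordDifferential (D L F (j : F)))
    (hX0 : ∀ P : Place L F, 0 ≤ P.ord (j : F) → W P ≠ 0 →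
      ∃ c : L, c ∈ S.A ∧ 0 < P.ord ((j : F) - algebraMap L F c))
    (hNORM : ∀ Q : Place k Fk, 0 ≤ Q.ord (S.red j) →
      ∃ n : S.O, (∀ P : Place L F, 0 ≤ P.ord (j : F) → 0 ≤ P.ord (n : F)) ∧
        Q.ord (S.red n) = 1)
    (Q : Place k Fk) :
    Finsupp.mapDomain S.r W Q ≤ Q.ordDifferential (D k Fk (S.red j)) := by
  have hjred : S.red j ≠ 0 := by
    have := hjnc 0
    rwa [map_zero] at this
  have hA := (S.LC_compat hPD j hjred Pl hPl T hT hsum).1
  by_cases hQ : Q.ord (S.red j) < 0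
  · exact S.LC_cusp hPD hk hFpole j hjred W hW Q hQ fun P hP hPj =>
      S36CI_unr S hPD j hjnc Pl hPl T hT hsum W hX0 Q hQ P hP hPj
  · obtain ⟨n, hnreg, hn⟩ := hNORM Q (by omega)
    refine (S.LC_fin hPD hF hk hval hDER j hDjk W hW Q n hn fun P hP => ?_).le
    refine hnreg P ?_
    by_contra hlt
    have := hA P (by omega)
    rw [hP] at this
    exact hQ this

/-- **degree squeeze**: if moreover `deg div(dj̄) ≤ deg div(dj)`, then `r_* div(dj) = div(dj̄)`
pointwise. -/
theorem S36CI_eq (hPD : HasPrincipalDivisors L F) (hF : LC_Diff L F) (hk : LC_Diff k Fk)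
    (hdegk : ∀ Q : Place k Fk, Q.deg = 1)
    (hval : ∀ (P : Place L F) (y : F), 0 ≤ P.ord y →
      ∃ a : L, y = algebraMap L F a ∨ 0 < P.ord (y - algebraMap L F a))
    (hFpole : ∀ (P : Place L F) (y : F), P.ord y < 0 →
      P.ordDifferential (D L F y) = P.ord y - 1)
    (hDER : ∀ (y t : S.O) (f : F), D L F (y : F) = f • D L F (t : F) → D k Fk (S.red t) ≠ 0 →
      ∃ hf : f ∈ S.O, D k Fk (S.red y) = S.red ⟨f, hf⟩ • D k Fk (S.red t))
    (j : S.O) (hjnc : ∀ c : k, S.red j ≠ algebraMap k Fk c) (hDjk : D k Fk (S.red j) ≠ 0)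
    (Pl : Finset (Place L F)) (hPl : ∀ P, P ∈ Pl ↔ P.ord (j : F) < 0)
    (T : Finset (Place k Fk)) (hT : ∀ Q, Q ∈ T ↔ Q.ord (S.red j) < 0)
    (hsum : ∑ Q ∈ T, Q.ord (S.red j) ≤ ∑ P ∈ Pl, P.ord (j : F))
    (W : Divisor L F) (hW : ∀ P, W P = P.ordDifferential (D L F (j : F)))
    (Wk : Divisor k Fk) (hWk : ∀ Q, Wk Q = Q.ordDifferential (D k Fk (S.red j)))
    (hX0 : ∀ P : Place L F, 0 ≤ P.ord (j : F) → W P ≠ 0 →
      ∃ c : L, c ∈ S.A ∧ 0 < P.ord ((j : F) - algebraMap L F c))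
    (hNORM : ∀ Q : Place k Fk, 0 ≤ Q.ord (S.red j) →
      ∃ n : S.O, (∀ P : Place L F, 0 ≤ P.ord (j : F) → 0 ≤ P.ord (n : F)) ∧
        Q.ord (S.red n) = 1)
    (hdeg : Divisor.degree Wk ≤ Divisor.degree W) (Q : Place k Fk) :
    Finsupp.mapDomain S.r W Q = Wk Q := by
  classical
  have hle : ∀ Q, Finsupp.mapDomain S.r W Q ≤ Wk Q := fun Q => by
    rw [hWk]
    exact S36CI_le S hPD hF hk hval hFpole hDER j hjnc hDjk Pl hPl T hT hsum W hW hX0 hNORM Q
  have h1 := LC_degree_eq_sum_of_subset hdegk (Finsupp.mapDomain S.r W)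
    ((Finsupp.mapDomain S.r W).support ∪ Wk.support) Finset.subset_union_left
  have h2 := LC_degree_eq_sum_of_subset hdegk Wk
    ((Finsupp.mapDomain S.r W).support ∪ Wk.support) Finset.subset_union_right
  have h3 : Divisor.degree (Finsupp.mapDomain S.r W) = Divisor.degree W :=
    LC_degree_mapDomain S.r S.deg_r W
  have hsumle : ∑ Q ∈ (Finsupp.mapDomain S.r W).support ∪ Wk.support, Wk Q ≤
      ∑ Q ∈ (Finsupp.mapDomain S.r W).support ∪ Wk.support, Finsupp.mapDomain S.r W Q := by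
    rw [← h1, ← h2, h3]
    exact hdeg
  have hall := (Finset.sum_eq_sum_iff_of_le (fun Q _ => hle Q)).mp
    (le_antisymm (Finset.sum_le_sum fun Q _ => hle Q) hsumle)
  by_cases hQ : Q ∈ (Finsupp.mapDomain S.r W).support ∪ Wk.support
  · exact hall Q hQ
  · rw [Finset.mem_union, not_or] at hQ
    rw [Finsupp.notMem_support_iff.mp hQ.1, Finsupp.notMem_support_iff.mp hQ.2]

/-- every pole of `j̄` has a pole of `j` in its residue disc. -/
theorem S36CI_exists_pole (hPD : HasPrincipalDivisors L F) (j : S.O) (hj : S.red j ≠ 0)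
    (Q : Place k Fk) (hQ : Q.ord (S.red j) < 0) :
    ∃ P₀, S.r P₀ = Q ∧ P₀.ord (j : F) < 0 := by
  classical
  obtain ⟨Dj, hDj, -⟩ := hPD.exists_divisor (j : F) (S.ne_zero_of_red_ne_zero hj)
  have hV3 := S.mapDomain_div j hj Dj hDj Q
  by_contra hno
  have hno' : ∀ P, S.r P = Q → 0 ≤ P.ord (j : F) := by
    intro P hP
    by_contra hlt
    exact hno ⟨P, hP, by omega⟩
  have := LC_mapDomain_le S.r 0 Dj Q (fun P hP => by
    rw [Finsupp.zero_apply, hDj]; exact hno' P hP)
  rw [Finsupp.mapDomain_zero, Finsupp.zero_apply, hV3] at this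
  omega

/-- at a pole `Q` of `j̄` with a pole `P₀` of `j` in its disc: `r_* div(dj) (Q) ≤ ord_Q j̄ - 1`. -/
theorem S36CI_cusp_le_one (hPD : HasPrincipalDivisors L F)
    (hFpole : ∀ (P : Place L F) (y : F), P.ord y < 0 →
      P.ordDifferential (D L F y) = P.ord y - 1)
    (j : S.O) (hj : S.red j ≠ 0)
    (W : Divisor L F) (hW : ∀ P, W P = P.ordDifferential (D L F (j : F)))
    (Q : Place k Fk)
    (hunr : ∀ P, S.r P = Q → 0 ≤ P.ord (j : F) → W P = 0)
    (P₀ : Place L F) (hP₀ : S.r P₀ = Q) (hP₀j : P₀.ord (j : F) < 0) :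
    Finsupp.mapDomain S.r W Q ≤ Q.ord (S.red j) - 1 := by
  classical
  obtain ⟨Dj, hDj, -⟩ := hPD.exists_divisor (j : F) (S.ne_zero_of_red_ne_zero hj)
  have hV3 := S.mapDomain_div j hj Dj hDj Q
  have hle := LC_mapDomain_le S.r W (Dj - Finsupp.single P₀ 1) Q (fun P hP => by
    rw [Finsupp.sub_apply, hDj, Finsupp.single_apply]
    by_cases hPj : P.ord (j : F) < 0
    · rw [hW, hFpole P _ hPj]
      split_ifs <;> omega
    · rw [hunr P hP (by omega)]
      have hne : P₀ ≠ P := by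
        rintro rfl
        exact hPj hP₀j
      rw [if_neg hne]
      omega)
  rw [Finsupp.mapDomain_sub, Finsupp.sub_apply, hV3, Finsupp.mapDomain_single, hP₀,
    Finsupp.single_eq_same] at hle
  exact hle

/-- at a pole `Q` of `j̄` with two distinct poles of `j` in its disc:
`r_* div(dj) (Q) ≤ ord_Q j̄ - 2`. -/
theorem S36CI_cusp_le_two (hPD : HasPrincipalDivisors L F)
    (hFpole : ∀ (P : Place L F) (y : F), P.ord y < 0 →
      P.ordDifferential (D L F y) = P.ord y - 1)
    (j : S.O) (hj : S.red j ≠ 0)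
    (W : Divisor L F) (hW : ∀ P, W P = P.ordDifferential (D L F (j : F)))
    (Q : Place k Fk)
    (hunr : ∀ P, S.r P = Q → 0 ≤ P.ord (j : F) → W P = 0)
    (P₀ P₁ : Place L F) (hP₀ : S.r P₀ = Q) (hP₁ : S.r P₁ = Q)
    (hP₀j : P₀.ord (j : F) < 0) (hP₁j : P₁.ord (j : F) < 0) (h01 : P₀ ≠ P₁) :
    Finsupp.mapDomain S.r W Q ≤ Q.ord (S.red j) - 2 := by
  classical
  obtain ⟨Dj, hDj, -⟩ := hPD.exists_divisor (j : F) (S.ne_zero_of_red_ne_zero hj)
  have hV3 := S.mapDomain_div j hj Dj hDj Q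
  have hle := LC_mapDomain_le S.r W (Dj - Finsupp.single P₀ 1 - Finsupp.single P₁ 1) Q
    (fun P hP => by
      rw [Finsupp.sub_apply, Finsupp.sub_apply, hDj, Finsupp.single_apply, Finsupp.single_apply]
      by_cases hPj : P.ord (j : F) < 0
      · rw [hW, hFpole P _ hPj]
        by_cases h0 : P₀ = P
        · have h1 : P₁ ≠ P := fun h1 => h01 (h0.trans h1.symm)
          rw [if_pos h0, if_neg h1]
          omega
        · rw [if_neg h0]
          split_ifs <;> omega
      · rw [hunr P hP (by omega)]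
        have hne0 : P₀ ≠ P := by
          rintro rfl
          exact hPj hP₀j
        have hne1 : P₁ ≠ P := by
          rintro rfl
          exact hPj hP₁j
        rw [if_neg hne0, if_neg hne1]
        omega)
  rw [Finsupp.mapDomain_sub, Finsupp.mapDomain_sub, Finsupp.sub_apply, Finsupp.sub_apply, hV3,
    Finsupp.mapDomain_single, Finsupp.mapDomain_single, hP₀, hP₁,
    Finsupp.single_eq_same] at hle
  omega

/-- **the cusps of the special fibre, abstract form**: under the hypotheses of the degree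
squeeze, every pole `Q` of `j̄` is tame for `j̄` and has exactly one pole of `j` in its disc. -/
theorem S36CI_cusp (hPD : HasPrincipalDivisors L F) (hF : LC_Diff L F) (hk : LC_Diff k Fk)
    (hdegk : ∀ Q : Place k Fk, Q.deg = 1)
    (hval : ∀ (P : Place L F) (y : F), 0 ≤ P.ord y →
      ∃ a : L, y = algebraMap L F a ∨ 0 < P.ord (y - algebraMap L F a))
    (hFpole : ∀ (P : Place L F) (y : F), P.ord y < 0 →
      P.ordDifferential (D L F y) = P.ord y - 1)
    (hDER : ∀ (y t : S.O) (f : F), D L F (y : F) = f • D L F (t : F) → D k Fk (S.red t) ≠ 0 →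
      ∃ hf : f ∈ S.O, D k Fk (S.red y) = S.red ⟨f, hf⟩ • D k Fk (S.red t))
    (j : S.O) (hjnc : ∀ c : k, S.red j ≠ algebraMap k Fk c) (hDjk : D k Fk (S.red j) ≠ 0)
    (Pl : Finset (Place L F)) (hPl : ∀ P, P ∈ Pl ↔ P.ord (j : F) < 0)
    (T : Finset (Place k Fk)) (hT : ∀ Q, Q ∈ T ↔ Q.ord (S.red j) < 0)
    (hsum : ∑ Q ∈ T, Q.ord (S.red j) ≤ ∑ P ∈ Pl, P.ord (j : F))
    (W : Divisor L F) (hW : ∀ P, W P = P.ordDifferential (D L F (j : F)))
    (Wk : Divisor k Fk) (hWk : ∀ Q, Wk Q = Q.ordDifferential (D k Fk (S.red j)))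
    (hX0 : ∀ P : Place L F, 0 ≤ P.ord (j : F) → W P ≠ 0 →
      ∃ c : L, c ∈ S.A ∧ 0 < P.ord ((j : F) - algebraMap L F c))
    (hNORM : ∀ Q : Place k Fk, 0 ≤ Q.ord (S.red j) →
      ∃ n : S.O, (∀ P : Place L F, 0 ≤ P.ord (j : F) → 0 ≤ P.ord (n : F)) ∧
        Q.ord (S.red n) = 1)
    (hdeg : Divisor.degree Wk ≤ Divisor.degree W)
    (Q : Place k Fk) (hQ : Q.ord (S.red j) < 0) :
    Q.ordDifferential (D k Fk (S.red j)) = Q.ord (S.red j) - 1 ∧
      ∀ P₀ P₁ : Place L F, S.r P₀ = Q → S.r P₁ = Q → P₀.ord (j : F) < 0 → P₁.ord (j : F) < 0 →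
        P₀ = P₁ := by
  have hjred : S.red j ≠ 0 := by
    have := hjnc 0
    rwa [map_zero] at this
  have heq := S36CI_eq S hPD hF hk hdegk hval hFpole hDER j hjnc hDjk Pl hPl T hT hsum W hW
    Wk hWk hX0 hNORM hdeg Q
  rw [hWk] at heq
  have hunr : ∀ P, S.r P = Q → 0 ≤ P.ord (j : F) → W P = 0 := fun P hP hPj =>
    S36CI_unr S hPD j hjnc Pl hPl T hT hsum W hX0 Q hQ P hP hPj
  have hpole := hk.pole Q _ hQ
  obtain ⟨P, hP, hPj⟩ := S36CI_exists_pole S hPD j hjred Q hQ
  have h1 := S36CI_cusp_le_one S hPD hFpole j hjred W hW Q hunr P hP hPj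
  refine ⟨by omega, fun P₀ P₁ hP₀ hP₁ hP₀j hP₁j => ?_⟩
  by_contra h01
  have h2 := S36CI_cusp_le_two S hPD hFpole j hjred W hW Q hunr P₀ P₁ hP₀ hP₁ hP₀j hP₁j h01
  omega

end abs

section concrete

variable (N : ℕ) [NeZero N] (A : ValuationSubring (AlgebraicClosure ℚ)) {ℓ : ℕ}

/-- **the cusps of the special fibre of `X₀(N)` at `ℓ ∤ N`** (every `ℓ`): tameness of `j̄` at its
poles, injectivity of the specialisation map on the poles of `j`, poles go to poles and every pole
of `j̄` is hit, and `r_* div(dj) = div(dj̄)`. -/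
theorem S36CI_core (hℓ : ℓ.Prime) (hℓN : ¬ ℓ ∣ N) (hA : A.LiesOverPrime ℓ)
    (h : ReductionInputsModL A N) :
    (∀ Q : Place (IsLocalRing.ResidueField A)
        ↥(modularFunctionFieldFullC (IsLocalRing.ResidueField A) N),
      Q.ord (S18_jbar N (IsLocalRing.ResidueField A)) < 0 →
      Q.ordDifferential (D (IsLocalRing.ResidueField A)
          ↥(modularFunctionFieldFullC (IsLocalRing.ResidueField A) N)
          (S18_jbar N (IsLocalRing.ResidueField A))) =
        Q.ord (S18_jbar N (IsLocalRing.ResidueField A)) - 1) ∧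
    (∀ P₀ P₁ : Place (AlgebraicClosure ℚ) ↥(modularFunctionFieldBar N),
      (S18_specModL N A h).r P₀ = (S18_specModL N A h).r P₁ →
      P₀.ord (jB N) < 0 → P₁.ord (jB N) < 0 → P₀ = P₁) ∧
    (∀ P : Place (AlgebraicClosure ℚ) ↥(modularFunctionFieldBar N), P.ord (jB N) < 0 →
      ((S18_specModL N A h).r P).ord (S18_jbar N (IsLocalRing.ResidueField A)) < 0) ∧
    (∀ Q : Place (IsLocalRing.ResidueField A)
        ↥(modularFunctionFieldFullC (IsLocalRing.ResidueField A) N),
      Q.ord (S18_jbar N (IsLocalRing.ResidueField A)) < 0 →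
      ∃ P : Place (AlgebraicClosure ℚ) ↥(modularFunctionFieldBar N),
        (S18_specModL N A h).r P = Q ∧ P.ord (jB N) < 0) ∧
    (∀ W : Divisor (AlgebraicClosure ℚ) ↥(modularFunctionFieldBar N),
      (∀ P, W P = P.ordDifferential
        (D (AlgebraicClosure ℚ) ↥(modularFunctionFieldBar N) (jB N))) →
      ∀ Q : Place (IsLocalRing.ResidueField A)
        ↥(modularFunctionFieldFullC (IsLocalRing.ResidueField A) N),
        Finsupp.mapDomain (S18_specModL N A h).r W Q =
          Q.ordDifferential (D (IsLocalRing.ResidueField A)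
            ↥(modularFunctionFieldFullC (IsLocalRing.ResidueField A) N)
            (S18_jbar N (IsLocalRing.ResidueField A)))) := by
  have hfact : Fact ℓ.Prime := ⟨hℓ⟩
  have hkC : IsAlgClosed (IsLocalRing.ResidueField A) := S18_residue_isAlgClosed A
  have hk := S18_hk N A hℓ hA hℓN
  have hDk := S18_lcDiff_k N A hℓ hℓN hA
  obtain ⟨W, hW, hg⟩ := S18_hurwitz_F N
  obtain ⟨Wk, hWk, hgk⟩ := S18_hurwitz_k N A hℓ hℓN hA
  obtain ⟨Pl, T, hPl, hT, hsum⟩ := S18_poles_sum_le_k N A hℓ hA hℓN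
  have hred := S18_red_jO N A h
  have hjnc : ∀ c : IsLocalRing.ResidueField A, (S18_specModL N A h).red (S18_jO N A h) ≠
      algebraMap (IsLocalRing.ResidueField A)
        ↥(modularFunctionFieldFullC (IsLocalRing.ResidueField A) N) c := by
    intro c hc
    rw [hred] at hc
    have htr := S18_transcendental_jbar (k := IsLocalRing.ResidueField A) N
    rw [hc] at htr
    exact htr (isAlgebraic_algebraMap c)
  have hjred : (S18_specModL N A h).red (S18_jO N A h) ≠ 0 := by
    have := hjnc 0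
    rwa [map_zero] at this
  have hDjk : D (IsLocalRing.ResidueField A)
      ↥(modularFunctionFieldFullC (IsLocalRing.ResidueField A) N)
      ((S18_specModL N A h).red (S18_jO N A h)) ≠ 0 := by
    rw [hred]
    intro h0
    have h1 := S18_derLift_D (modularFunctionFieldFullC (IsLocalRing.ResidueField A) N)
      (LT_theta (R := IsLocalRing.ResidueField A)) (S18_jbar N (IsLocalRing.ResidueField A))
    rw [h0, map_zero] at h1
    exact S18_theta_jbar_ne_zero N (IsLocalRing.ResidueField A) h1.symm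
  have hΩ : ∃ ω₀ : Ω[↥(modularFunctionFieldFullC (IsLocalRing.ResidueField A) N)⁄
        IsLocalRing.ResidueField A],
      ∀ ω : Ω[↥(modularFunctionFieldFullC (IsLocalRing.ResidueField A) N)⁄
        IsLocalRing.ResidueField A],
        ∃ c : ↥(modularFunctionFieldFullC (IsLocalRing.ResidueField A) N), ω = c • ω₀ := by
    obtain ⟨Q⟩ := hk.nonempty
    exact ⟨_, fun ω => hDk.exists_eq_smul Q ω _ hDjk⟩
  have hNORM : ∀ Q : Place (IsLocalRing.ResidueField A)
        ↥(modularFunctionFieldFullC (IsLocalRing.ResidueField A) N),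
      0 ≤ Q.ord (S18_jbar N (IsLocalRing.ResidueField A)) →
      ∃ n : (S18_specModL N A h).O,
        (∀ P : Place (AlgebraicClosure ℚ) ↥(modularFunctionFieldBar N),
          0 ≤ P.ord (jB N) → 0 ≤ P.ord (n : ↥(modularFunctionFieldBar N))) ∧
        Q.ord ((S18_specModL N A h).red n) = 1 := by
    intro Q hQ
    refine NMX_norm_final N A h.choose_spec.2 hℓ hℓN hA (fun w hw => ?_) Q hQ
    refine ONX_onto N A h.choose_spec.2 hA hℓN w (fun Q' hQ' => hw Q' ?_)
    rwa [SP_jbarN_eq N A h.choose_spec.2] at hQ'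
  have hgen := S34OM_genus_eq N A hℓ hℓN hA
  have hdeg : Divisor.degree Wk ≤ Divisor.degree W := by
    rw [hg, hgk, hgen]
  have hcompat := ((S18_specModL N A h).LC_compat (S18_hRR N).principal (S18_jO N A h) hjred
    Pl hPl T (by rw [hred]; exact hT) (by rw [hred]; exact hsum)).1
  have hcusp := fun Q hQ => S36CI_cusp (S18_specModL N A h) (S18_hRR N).principal
    (S18_lcDiff_F N) hDk hk.deg_one
    (fun P y hy => S18_exists_value P ((S18_hRR N).deg_one P) y hy) (S18_hFpole N)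
    (S18_der N A h hΩ) (S18_jO N A h) hjnc hDjk Pl hPl T (by rw [hred]; exact hT)
    (by rw [hred]; exact hsum) W hW Wk (by rw [hred]; exact hWk)
    (fun P hP hWP => by rw [hW] at hWP; exact S18_hX0 N A P hP hWP)
    (by rw [hred]; exact hNORM) hdeg Q hQ
  have hspec := fun Q => S36CI_eq (S18_specModL N A h) (S18_hRR N).principal
    (S18_lcDiff_F N) hDk hk.deg_one
    (fun P y hy => S18_exists_value P ((S18_hRR N).deg_one P) y hy) (S18_hFpole N)
    (S18_der N A h hΩ) (S18_jO N A h) hjnc hDjk Pl hPl T (by rw [hred]; exact hT)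
    (by rw [hred]; exact hsum) W hW Wk (by rw [hred]; exact hWk)
    (fun P hP hWP => by rw [hW] at hWP; exact S18_hX0 N A P hP hWP)
    (by rw [hred]; exact hNORM) hdeg Q
  rw [hred] at hcusp hcompat
  refine ⟨fun Q hQ => (hcusp Q hQ).1, fun P₀ P₁ h01 h0 h1 => ?_, fun P hP => hcompat P hP,
    fun Q hQ => ?_, fun W' hW' Q => ?_⟩
  · exact (hcusp _ (hcompat P₁ h1)).2 P₀ P₁ h01 rfl h0 h1
  · have := S36CI_exists_pole (S18_specModL N A h) (S18_hRR N).principal (S18_jO N A h) hjred Q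
      (by rw [hred]; exact hQ)
    exact this
  · have hWW : W' = W := by
      ext P
      rw [hW', hW]
    rw [hWW, hspec Q, hWk]

/-- **tameness at the cusps of the special fibre** (`ℓ ∤ N`, every `ℓ`). -/
theorem S36CI_tame (hℓ : ℓ.Prime) (hℓN : ¬ ℓ ∣ N) (hA : A.LiesOverPrime ℓ)
    (Q : Place (IsLocalRing.ResidueField A)
      ↥(modularFunctionFieldFullC (IsLocalRing.ResidueField A) N))
    (hQ : Q.ord (S18_jbar N (IsLocalRing.ResidueField A)) < 0) :
    Q.ordDifferential (D (IsLocalRing.ResidueField A)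
        ↥(modularFunctionFieldFullC (IsLocalRing.ResidueField A) N)
        (S18_jbar N (IsLocalRing.ResidueField A))) =
      Q.ord (S18_jbar N (IsLocalRing.ResidueField A)) - 1 :=
  (S36CI_core N A hℓ hℓN hA (RI_main N A hℓ hA hℓN)).1 Q hQ

/-- the specialisation map is injective on the cusps. -/
theorem S36CI_inj (hℓ : ℓ.Prime) (hℓN : ¬ ℓ ∣ N) (hA : A.LiesOverPrime ℓ)
    (h : ReductionInputsModL A N)
    (P₀ P₁ : Place (AlgebraicClosure ℚ) ↥(modularFunctionFieldBar N))
    (h01 : (S18_specModL N A h).r P₀ = (S18_specModL N A h).r P₁)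
    (h0 : P₀.ord (jB N) < 0) (h1 : P₁.ord (jB N) < 0) : P₀ = P₁ :=
  (S36CI_core N A hℓ hℓN hA h).2.1 P₀ P₁ h01 h0 h1

/-- `r_* div(dj) = div(dj̄)`: the divisor of `dj` specialises to the divisor of `dj̄`. -/
theorem S36CI_spec (hℓ : ℓ.Prime) (hℓN : ¬ ℓ ∣ N) (hA : A.LiesOverPrime ℓ)
    (h : ReductionInputsModL A N)
    (W : Divisor (AlgebraicClosure ℚ) ↥(modularFunctionFieldBar N))
    (hW : ∀ P, W P = P.ordDifferential
      (D (AlgebraicClosure ℚ) ↥(modularFunctionFieldBar N) (jB N)))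
    (Q : Place (IsLocalRing.ResidueField A)
      ↥(modularFunctionFieldFullC (IsLocalRing.ResidueField A) N)) :
    Finsupp.mapDomain (S18_specModL N A h).r W Q =
      Q.ordDifferential (D (IsLocalRing.ResidueField A)
        ↥(modularFunctionFieldFullC (IsLocalRing.ResidueField A) N)
        (S18_jbar N (IsLocalRing.ResidueField A))) :=
  (S36CI_core N A hℓ hℓN hA h).2.2.2.2 W hW Q

/-- **the number of cusps of the special fibre** of `X₀(N)` at `ℓ ∤ N` is `cuspCount N`. -/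
theorem S36CI_card (hℓ : ℓ.Prime) (hℓN : ¬ ℓ ∣ N) (hA : A.LiesOverPrime ℓ) :
    Nat.card {Q : Place (IsLocalRing.ResidueField A)
        ↥(modularFunctionFieldFullC (IsLocalRing.ResidueField A) N) //
      Q.ord (S18_jbar N (IsLocalRing.ResidueField A)) < 0} = ModularCurve.cuspCount N := by
  have h : ReductionInputsModL A N := RI_main N A hℓ hA hℓN
  obtain ⟨-, hinj, hcompat, hsurj, -⟩ := S36CI_core N A hℓ hℓN hA h
  rw [← S24_hinf N]
  symm
  refine Nat.card_eq_of_bijective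
    (fun P : {v : Place (AlgebraicClosure ℚ) ↥(modularFunctionFieldBar N) // v.ord (jB N) < 0} =>
      (⟨(S18_specModL N A h).r P.1, hcompat P.1 P.2⟩ :
        {Q : Place (IsLocalRing.ResidueField A)
          ↥(modularFunctionFieldFullC (IsLocalRing.ResidueField A) N) //
          Q.ord (S18_jbar N (IsLocalRing.ResidueField A)) < 0})) ⟨?_, ?_⟩
  · intro P₀ P₁ h01
    apply Subtype.ext
    exact hinj P₀.1 P₁.1 (congrArg Subtype.val h01) P₀.2 P₁.2
  · intro Q
    obtain ⟨P, hP, hPj⟩ := hsurj Q.1 Q.2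
    exact ⟨⟨P, hPj⟩, Subtype.ext hP⟩

/-- **the cusps of the special fibre, in the form used by the count** (`S36OC_count`):
the finset of poles of `j̄` has `cuspCount N` elements and `j̄` is tame at each of them. -/
theorem S36CI_main (hℓ : ℓ.Prime) (hℓN : ¬ ℓ ∣ N) (hA : A.LiesOverPrime ℓ) :
    ∃ cusps : Finset (Place (IsLocalRing.ResidueField A)
        ↥(modularFunctionFieldFullC (IsLocalRing.ResidueField A) N)),
      (∀ Q, Q ∈ cusps ↔ Q.ord (S18_jbar N (IsLocalRing.ResidueField A)) < 0) ∧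
      cusps.card = ModularCurve.cuspCount N ∧
      ∀ Q ∈ cusps, Q.ordDifferential (D (IsLocalRing.ResidueField A)
          ↥(modularFunctionFieldFullC (IsLocalRing.ResidueField A) N)
          (S18_jbar N (IsLocalRing.ResidueField A))) =
        Q.ord (S18_jbar N (IsLocalRing.ResidueField A)) - 1 := by
  classical
  obtain ⟨Pl, T, hPl, hT, hsum⟩ := S18_poles_sum_le_k N A hℓ hA hℓN
  refine ⟨T, hT, ?_, fun Q hQ => S36CI_tame N A hℓ hℓN hA Q ((hT Q).mp hQ)⟩
  rw [← S36CI_card N A hℓ hℓN hA, ← Nat.card_eq_finsetCard]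
  exact Nat.card_congr (Equiv.subtypeEquivRight hT)

end concrete

end Fermat.Agent.S36
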