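import Fermat.Agent.S36.Triv3Conc

/-!
# TRACK 10 (S36), C3.4 TRIV-CONC part 2 (helper11): bundles by type of point

The hypothesis `hB_j` of `S36TI_pl_j` / `S36TX_geo_U` asks for a CART bundle at EVERY affine
place of each component.  This file splits it by the type of the point:

* `S36TX_plP₁/₂/₃` : (LI) at the places satisfying a predicate `Pr` from the bundles at these
  places only (for the cusps of the chart `U'`: `hcusp_j` of helper2's `S36CX_geo_pl`);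
* `S36TX_y₁_eq_y₂`, `S36TX_y₁_eq_y₃` : at a triple point the three closed points
  `y_j = e_j ∘ red_j : Λ → k` of the lattice COINCIDE (by `hW1`, since `red Λ ⊂ W¹`);
* `S36TX_bun_congr` : transport of a bundle along an equality of closed points;
* `S36TX_hB₁/₂/₃` : `hB_j` at all affine places from the bundles at the places which are NOT
  triple points and ONE bundle at every triple point (at `y₁`);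
* `S36TX_geo_U_ss` : **`S36TX_geo_U` with the bundles split by type of point** (`hss`: one
  bundle at every triple point; `hord_j`: the bundles at the other affine places of the
  component `j`).
-/

set_option autoImplicit false
set_option linter.unusedSectionVars false
set_option linter.style.haveILetI false

open AlgebraicCurve IntermediateField

namespace Fermat.Agent.S36

open Fermat.Agent.Lib Fermat.Agent.S18 Fermat.Agent.S34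

universe w

variable {L K k Fk₁ Fk₂ Fk₃ : Type*} [Field L] [Field K] [Algebra L K] [Field k]
  [Field Fk₁] [Field Fk₂] [Field Fk₃] [Algebra k Fk₁] [Algebra k Fk₂] [Algebra k Fk₃]
  {S₁ : S18_Val L K k Fk₁} {S₂ : S18_Val L K k Fk₂} {S₃ : S18_Val L K k Fk₃}
  (hS : S36L3_Same S₁ S₂ S₃) {n : ℕ} {C : S36L3_Chart L K k Fk₁ Fk₂ Fk₃ n}
  {Ω F : Type*} [Field Ω] [Field F] [Algebra Ω F] {ιv : Type*} (D : S36IT_Fam Ω F K ιv)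

/-- the statement "there is a CART bundle at the closed point `y` whose `Vt` is the set of the
vertical rings through `y`". -/
def S36TX_Bun {k' : Type*} [Field k'] (y : D.Λ →+* k') : Prop :=
  ∃ (κ : Type w) (_ : Field κ) (B : S36CA_LiData D.O ⊤ D.Λ y κ),
    (∀ i : ιv, Sum.inl i ∈ S36IT_thruVS D.O D.Λ y → Sum.inl i ∈ B.Vt) ∧
      ∀ i ∈ B.Vt, ∃ j : ιv, i = Sum.inl j

/-- transport of a bundle along an equality of closed points. -/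
theorem S36TX_bun_congr {k' : Type*} [Field k'] {y y' : D.Λ →+* k'} (h : y = y')
    (hB : S36TX_Bun.{w} D y) : S36TX_Bun.{w} D y' := by
  subst h
  exact hB

/-! ### (LI) at the places satisfying a predicate -/

/-- (LI) at the places of `FF` satisfying `Pr`, from the bundles at these places. -/
theorem S36TX_plP₁ [Finite ιv] [IsNoetherianRing D.Λ]
    (hle : D.Λ ≤ S36LJ_Lam S₁ S₂ S₃ C.B.toSubring)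
    (R : S36LJ_Red (S₁ := S₁) (S₂ := S₂) (S₃ := S₃) C)
    (hOv : ∀ i : ιv, D.Ov i = S₁.O ∨ D.Ov i = S₂.O ∨ D.Ov i = S₃.O)
    (hfrac : ∀ x : K, ∃ b : D.Λ, (b : K) ≠ 0 ∧ (b : K) * x ∈ D.Λ)
    (hdeg : ∀ P : Place k Fk₁, P.deg = 1) (Pr : Place k Fk₁ → Prop)
    (hreg : ∀ P, Pr P → ∀ f ∈ C.Rb₁, P.adicValuation f ≤ 1)
    (hB : ∀ (P : Place k Fk₁) (hP : Pr P), S36TX_Bun.{w} D
      (S36LK_y₁ D hle R ((S36SE_ev C.Rb₁ P (hdeg P) (hreg P hP) : ↥C.Rb₁ →ₐ[k] k) :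
        ↥C.Rb₁ →+* k)))
    {Kp : Subgroup Kˣ} (hKp : Kp ≤ S36L3_NormGrp S₁ S₂ S₃)
    (hsepH : ∀ u ∈ Kp, ∀ Q ∈ D.U, ∃ g : K, g ≠ 0 ∧
      (n : ℤ) * Q.ord (D.φ g) + Q.ord (D.φ ((u : Kˣ) : K)) = 0 ∧
      ∀ Q' ∈ D.U, 0 ≤ (n : ℤ) * Q'.ord (D.φ g) + Q'.ord (D.φ ((u : Kˣ) : K)))
    (hsepH0 : ∀ u ∈ Kp, ∃ g : K, g ≠ 0 ∧
      ∀ Q' ∈ D.U, 0 ≤ (n : ℤ) * Q'.ord (D.φ g) + Q'.ord (D.φ ((u : Kˣ) : K))) :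
    ∀ u ∈ Kp, ∀ P : Place k Fk₁, Pr P →
      ∃ m ∈ S36L3_W hS C ((u : Kˣ) : K), FD_c0 P ((m.1 : ↥C.Rb₁) : Fk₁) ≠ 0 := by
  intro u hu P hP
  obtain ⟨κ, _, B, hVt, hVtv⟩ := hB P hP
  exact S36LK_point₁ hS D hle R hOv hfrac
    ((S36SE_ev C.Rb₁ P (hdeg P) (hreg P hP) : ↥C.Rb₁ →ₐ[k] k) : ↥C.Rb₁ →+* k) B hVt hVtv
    ((S36L3_mem_NormGrp S₁ S₂ S₃).1 (hKp hu)) (hsepH u hu) (hsepH0 u hu)

/-- (LI) at the places of `FV` satisfying `Pr`, from the bundles at these places. -/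
theorem S36TX_plP₂ [Finite ιv] [IsNoetherianRing D.Λ]
    (hle : D.Λ ≤ S36LJ_Lam S₁ S₂ S₃ C.B.toSubring)
    (R : S36LJ_Red (S₁ := S₁) (S₂ := S₂) (S₃ := S₃) C)
    (hOv : ∀ i : ιv, D.Ov i = S₁.O ∨ D.Ov i = S₂.O ∨ D.Ov i = S₃.O)
    (hfrac : ∀ x : K, ∃ b : D.Λ, (b : K) ≠ 0 ∧ (b : K) * x ∈ D.Λ)
    (hdeg : ∀ P : Place k Fk₂, P.deg = 1) (Pr : Place k Fk₂ → Prop)
    (hreg : ∀ P, Pr P → ∀ f ∈ C.Rb₂, P.adicValuation f ≤ 1)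
    (hB : ∀ (P : Place k Fk₂) (hP : Pr P), S36TX_Bun.{w} D
      (S36LK_y₂ D hle R ((S36SE_ev C.Rb₂ P (hdeg P) (hreg P hP) : ↥C.Rb₂ →ₐ[k] k) :
        ↥C.Rb₂ →+* k)))
    {Kp : Subgroup Kˣ} (hKp : Kp ≤ S36L3_NormGrp S₁ S₂ S₃)
    (hsepH : ∀ u ∈ Kp, ∀ Q ∈ D.U, ∃ g : K, g ≠ 0 ∧
      (n : ℤ) * Q.ord (D.φ g) + Q.ord (D.φ ((u : Kˣ) : K)) = 0 ∧
      ∀ Q' ∈ D.U, 0 ≤ (n : ℤ) * Q'.ord (D.φ g) + Q'.ord (D.φ ((u : Kˣ) : K)))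
    (hsepH0 : ∀ u ∈ Kp, ∃ g : K, g ≠ 0 ∧
      ∀ Q' ∈ D.U, 0 ≤ (n : ℤ) * Q'.ord (D.φ g) + Q'.ord (D.φ ((u : Kˣ) : K))) :
    ∀ u ∈ Kp, ∀ P : Place k Fk₂, Pr P →
      ∃ m ∈ S36L3_W hS C ((u : Kˣ) : K), FD_c0 P ((m.2.1 : ↥C.Rb₂) : Fk₂) ≠ 0 := by
  intro u hu P hP
  obtain ⟨κ, _, B, hVt, hVtv⟩ := hB P hP
  exact S36LK_point₂ hS D hle R hOv hfrac
    ((S36SE_ev C.Rb₂ P (hdeg P) (hreg P hP) : ↥C.Rb₂ →ₐ[k] k) : ↥C.Rb₂ →+* k) B hVt hVtv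
    ((S36L3_mem_NormGrp S₁ S₂ S₃).1 (hKp hu)) (hsepH u hu) (hsepH0 u hu)

/-- (LI) at the places of `VV` satisfying `Pr`, from the bundles at these places. -/
theorem S36TX_plP₃ [Finite ιv] [IsNoetherianRing D.Λ]
    (hle : D.Λ ≤ S36LJ_Lam S₁ S₂ S₃ C.B.toSubring)
    (R : S36LJ_Red (S₁ := S₁) (S₂ := S₂) (S₃ := S₃) C)
    (hOv : ∀ i : ιv, D.Ov i = S₁.O ∨ D.Ov i = S₂.O ∨ D.Ov i = S₃.O)
    (hfrac : ∀ x : K, ∃ b : D.Λ, (b : K) ≠ 0 ∧ (b : K) * x ∈ D.Λ)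
    (hdeg : ∀ P : Place k Fk₃, P.deg = 1) (Pr : Place k Fk₃ → Prop)
    (hreg : ∀ P, Pr P → ∀ f ∈ C.Rb₃, P.adicValuation f ≤ 1)
    (hB : ∀ (P : Place k Fk₃) (hP : Pr P), S36TX_Bun.{w} D
      (S36LK_y₃ D hle R ((S36SE_ev C.Rb₃ P (hdeg P) (hreg P hP) : ↥C.Rb₃ →ₐ[k] k) :
        ↥C.Rb₃ →+* k)))
    {Kp : Subgroup Kˣ} (hKp : Kp ≤ S36L3_NormGrp S₁ S₂ S₃)
    (hsepH : ∀ u ∈ Kp, ∀ Q ∈ D.U, ∃ g : K, g ≠ 0 ∧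
      (n : ℤ) * Q.ord (D.φ g) + Q.ord (D.φ ((u : Kˣ) : K)) = 0 ∧
      ∀ Q' ∈ D.U, 0 ≤ (n : ℤ) * Q'.ord (D.φ g) + Q'.ord (D.φ ((u : Kˣ) : K)))
    (hsepH0 : ∀ u ∈ Kp, ∃ g : K, g ≠ 0 ∧
      ∀ Q' ∈ D.U, 0 ≤ (n : ℤ) * Q'.ord (D.φ g) + Q'.ord (D.φ ((u : Kˣ) : K))) :
    ∀ u ∈ Kp, ∀ P : Place k Fk₃, Pr P →
      ∃ m ∈ S36L3_W hS C ((u : Kˣ) : K), FD_c0 P ((m.2.2 : ↥C.Rb₃) : Fk₃) ≠ 0 := by
  intro u hu P hP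
  obtain ⟨κ, _, B, hVt, hVtv⟩ := hB P hP
  exact S36LK_point₃ hS D hle R hOv hfrac
    ((S36SE_ev C.Rb₃ P (hdeg P) (hreg P hP) : ↥C.Rb₃ →ₐ[k] k) : ↥C.Rb₃ →+* k) B hVt hVtv
    ((S36L3_mem_NormGrp S₁ S₂ S₃).1 (hKp hu)) (hsepH u hu) (hsepH0 u hu)

/-! ### the three closed points of the lattice at a triple point coincide -/

/-- at a triple point, `y₁ = y₂` as closed points of the lattice. -/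
theorem S36TX_y₁_eq_y₂ (hle : D.Λ ≤ S36LJ_Lam S₁ S₂ S₃ C.B.toSubring)
    (R : S36LJ_Red (S₁ := S₁) (S₂ := S₂) (S₃ := S₃) C)
    (e₁ : ↥C.Rb₁ →ₐ[k] k) (e₂ : ↥C.Rb₂ →ₐ[k] k)
    (hW1 : ∀ m ∈ S36L3_W hS C 1, e₁ m.1 = e₂ m.2.1) :
    S36LK_y₁ D hle R (e₁ : ↥C.Rb₁ →+* k) = S36LK_y₂ D hle R (e₂ : ↥C.Rb₂ →+* k) := by
  ext f
  exact hW1 _ (S36LJ_red_mem_W_one hS R (Subring.inclusion hle f))

/-- at a triple point, `y₁ = y₃` as closed points of the lattice. -/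
theorem S36TX_y₁_eq_y₃ (hle : D.Λ ≤ S36LJ_Lam S₁ S₂ S₃ C.B.toSubring)
    (R : S36LJ_Red (S₁ := S₁) (S₂ := S₂) (S₃ := S₃) C)
    (e₁ : ↥C.Rb₁ →ₐ[k] k) (e₃ : ↥C.Rb₃ →ₐ[k] k)
    (hW1 : ∀ m ∈ S36L3_W hS C 1, e₁ m.1 = e₃ m.2.2) :
    S36LK_y₁ D hle R (e₁ : ↥C.Rb₁ →+* k) = S36LK_y₃ D hle R (e₃ : ↥C.Rb₃ →+* k) := by
  ext f
  exact hW1 _ (S36LJ_red_mem_W_one hS R (Subring.inclusion hle f))

/-! ### `hB_j` at all affine places from the ordinary points and the triple points -/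

section split

variable {ι : Type*} {X : S36SE_Pts k Fk₁ Fk₂ Fk₃ ι} {hC : S36SE_Reg C X}

/-- `hB₁` at all places regular on the chart. -/
theorem S36TX_hB₁ (hle : D.Λ ≤ S36LJ_Lam S₁ S₂ S₃ C.B.toSubring)
    (R : S36LJ_Red (S₁ := S₁) (S₂ := S₂) (S₃ := S₃) C)
    (hdeg : ∀ P : Place k Fk₁, P.deg = 1)
    (hss : ∀ y : ι, S36TX_Bun.{w} D
      (S36LK_y₁ D hle R ((S36SE_e₁ C X hC y : ↥C.Rb₁ →ₐ[k] k) : ↥C.Rb₁ →+* k)))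
    (hord : ∀ (P : Place k Fk₁) (hP : ∀ f ∈ C.Rb₁, P.adicValuation f ≤ 1),
      (∀ y, P ≠ X.P₁ y) → S36TX_Bun.{w} D
        (S36LK_y₁ D hle R ((S36SE_ev C.Rb₁ P (hdeg P) hP : ↥C.Rb₁ →ₐ[k] k) : ↥C.Rb₁ →+* k)))
    (P : Place k Fk₁) (hP : ∀ f ∈ C.Rb₁, P.adicValuation f ≤ 1) :
    S36TX_Bun.{w} D
      (S36LK_y₁ D hle R ((S36SE_ev C.Rb₁ P (hdeg P) hP : ↥C.Rb₁ →ₐ[k] k) : ↥C.Rb₁ →+* k)) := by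
  by_cases h : ∃ y, P = X.P₁ y
  · obtain ⟨y, rfl⟩ := h
    exact hss y
  · exact hord P hP fun y hy => h ⟨y, hy⟩

/-- `hB₂` at all places regular on the chart. -/
theorem S36TX_hB₂ (hle : D.Λ ≤ S36LJ_Lam S₁ S₂ S₃ C.B.toSubring)
    (R : S36LJ_Red (S₁ := S₁) (S₂ := S₂) (S₃ := S₃) C)
    (hdeg : ∀ P : Place k Fk₂, P.deg = 1)
    (hW1 : ∀ m ∈ S36L3_W hS C 1, ∀ y, S36SE_e₁ C X hC y m.1 = S36SE_e₂ C X hC y m.2.1 ∧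
      S36SE_e₁ C X hC y m.1 = S36SE_e₃ C X hC y m.2.2)
    (hss : ∀ y : ι, S36TX_Bun.{w} D
      (S36LK_y₁ D hle R ((S36SE_e₁ C X hC y : ↥C.Rb₁ →ₐ[k] k) : ↥C.Rb₁ →+* k)))
    (hord : ∀ (P : Place k Fk₂) (hP : ∀ f ∈ C.Rb₂, P.adicValuation f ≤ 1),
      (∀ y, P ≠ X.P₂ y) → S36TX_Bun.{w} D
        (S36LK_y₂ D hle R ((S36SE_ev C.Rb₂ P (hdeg P) hP : ↥C.Rb₂ →ₐ[k] k) : ↥C.Rb₂ →+* k)))
    (P : Place k Fk₂) (hP : ∀ f ∈ C.Rb₂, P.adicValuation f ≤ 1) :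
    S36TX_Bun.{w} D
      (S36LK_y₂ D hle R ((S36SE_ev C.Rb₂ P (hdeg P) hP : ↥C.Rb₂ →ₐ[k] k) : ↥C.Rb₂ →+* k)) := by
  by_cases h : ∃ y, P = X.P₂ y
  · obtain ⟨y, rfl⟩ := h
    exact S36TX_bun_congr D
      (S36TX_y₁_eq_y₂ hS D hle R (S36SE_e₁ C X hC y) (S36SE_e₂ C X hC y)
        (fun m hm => (hW1 m hm y).1)) (hss y)
  · exact hord P hP fun y hy => h ⟨y, hy⟩

/-- `hB₃` at all places regular on the chart. -/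
theorem S36TX_hB₃ (hle : D.Λ ≤ S36LJ_Lam S₁ S₂ S₃ C.B.toSubring)
    (R : S36LJ_Red (S₁ := S₁) (S₂ := S₂) (S₃ := S₃) C)
    (hdeg : ∀ P : Place k Fk₃, P.deg = 1)
    (hW1 : ∀ m ∈ S36L3_W hS C 1, ∀ y, S36SE_e₁ C X hC y m.1 = S36SE_e₂ C X hC y m.2.1 ∧
      S36SE_e₁ C X hC y m.1 = S36SE_e₃ C X hC y m.2.2)
    (hss : ∀ y : ι, S36TX_Bun.{w} D
      (S36LK_y₁ D hle R ((S36SE_e₁ C X hC y : ↥C.Rb₁ →ₐ[k] k) : ↥C.Rb₁ →+* k)))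
    (hord : ∀ (P : Place k Fk₃) (hP : ∀ f ∈ C.Rb₃, P.adicValuation f ≤ 1),
      (∀ y, P ≠ X.P₃ y) → S36TX_Bun.{w} D
        (S36LK_y₃ D hle R ((S36SE_ev C.Rb₃ P (hdeg P) hP : ↥C.Rb₃ →ₐ[k] k) : ↥C.Rb₃ →+* k)))
    (P : Place k Fk₃) (hP : ∀ f ∈ C.Rb₃, P.adicValuation f ≤ 1) :
    S36TX_Bun.{w} D
      (S36LK_y₃ D hle R ((S36SE_ev C.Rb₃ P (hdeg P) hP : ↥C.Rb₃ →ₐ[k] k) : ↥C.Rb₃ →+* k)) := by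
  by_cases h : ∃ y, P = X.P₃ y
  · obtain ⟨y, rfl⟩ := h
    exact S36TX_bun_congr D
      (S36TX_y₁_eq_y₃ hS D hle R (S36SE_e₁ C X hC y) (S36SE_e₃ C X hC y)
        (fun m hm => (hW1 m hm y).2)) (hss y)
  · exact hord P hP fun y hy => h ⟨y, hy⟩

end split

/-! ### the chart `U` with the bundles split by type of point -/

section conc

variable {K₀ F₀ H₀ : Type*} [Field K₀] [Field F₀] [Algebra K₀ F₀] (S : S36FL_Act K₀ F₀ H₀)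
  {T₁ : S18_Val ↥S.fixK ↥S.fixF k Fk₁} {T₂ : S18_Val ↥S.fixK ↥S.fixF k Fk₂}
  {T₃ : S18_Val ↥S.fixK ↥S.fixF k Fk₃}

/-- **the geometric inputs of the chart `U = {j ≠ ∞}`**, bundles split by type of point. -/
theorem S36TX_geo_U_ss (hT : S36L3_Same T₁ T₂ T₃) [IsAlgClosed k]
    (j : ↥S.fixF) (x₁ : Fk₁) (x₂ : Fk₂) (x₃ : Fk₃) (n : ℕ) (hn : 0 < n)
    {ι : Type*} {X : S36SE_Pts k Fk₁ Fk₂ Fk₃ ι}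
    {hC : S36SE_Reg (S36CU_U S k j x₁ x₂ x₃ n hn) X}
    {Kp : Subgroup (↥S.fixF)ˣ} (hKp : Kp ≤ S36L3_NormGrp T₁ T₂ T₃)
    -- RBAR
    (h₁ : RR_Hyp k Fk₁) (h₂ : RR_Hyp k Fk₂) (h₃ : RR_Hyp k Fk₃)
    (c₁ : Place k Fk₁) (c₂ : Place k Fk₂) (c₃ : Place k Fk₃)
    (hc₁ : c₁.ord x₁ < 0) (hc₂ : c₂.ord x₂ < 0) (hc₃ : c₃.ord x₃ < 0)
    (hx₁ : Transcendental k x₁) (hx₂ : Transcendental k x₂) (hx₃ : Transcendental k x₃)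
    [FiniteDimensional k⟮x₁⟯ Fk₁] [Algebra.IsSeparable k⟮x₁⟯ Fk₁]
    [FiniteDimensional k⟮x₂⟯ Fk₂] [Algebra.IsSeparable k⟮x₂⟯ Fk₂]
    [FiniteDimensional k⟮x₃⟯ Fk₃] [Algebra.IsSeparable k⟮x₃⟯ Fk₃]
    -- NODAL3-INST + EVAL-INST
    (hW1 : ∀ m ∈ S36L3_W hT (S36CU_U S k j x₁ x₂ x₃ n hn) 1, ∀ y,
      S36SE_e₁ (S36CU_U S k j x₁ x₂ x₃ n hn) X hC y m.1 =
        S36SE_e₂ (S36CU_U S k j x₁ x₂ x₃ n hn) X hC y m.2.1 ∧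
      S36SE_e₁ (S36CU_U S k j x₁ x₂ x₃ n hn) X hC y m.1 =
        S36SE_e₃ (S36CU_U S k j x₁ x₂ x₃ n hn) X hC y m.2.2)
    (hint₁ : ∀ g g' : ↥(S36CU_U S k j x₁ x₂ x₃ n hn).Rb₁,
      (∀ y, S36SE_e₁ (S36CU_U S k j x₁ x₂ x₃ n hn) X hC y g = 0) →
      (∀ y, S36SE_e₁ (S36CU_U S k j x₁ x₂ x₃ n hn) X hC y g' = 0) →
      ((g * g', 0, 0) : ↥(S36CU_U S k j x₁ x₂ x₃ n hn).Rb₁ ×
        ↥(S36CU_U S k j x₁ x₂ x₃ n hn).Rb₂ × ↥(S36CU_U S k j x₁ x₂ x₃ n hn).Rb₃) ∈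
        S36L3_W hT (S36CU_U S k j x₁ x₂ x₃ n hn) 1)
    (hint₂ : ∀ g g' : ↥(S36CU_U S k j x₁ x₂ x₃ n hn).Rb₂,
      (∀ y, S36SE_e₂ (S36CU_U S k j x₁ x₂ x₃ n hn) X hC y g = 0) →
      (∀ y, S36SE_e₂ (S36CU_U S k j x₁ x₂ x₃ n hn) X hC y g' = 0) →
      ((0, g * g', 0) : ↥(S36CU_U S k j x₁ x₂ x₃ n hn).Rb₁ ×
        ↥(S36CU_U S k j x₁ x₂ x₃ n hn).Rb₂ × ↥(S36CU_U S k j x₁ x₂ x₃ n hn).Rb₃) ∈
        S36L3_W hT (S36CU_U S k j x₁ x₂ x₃ n hn) 1)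
    (hint₃ : ∀ g g' : ↥(S36CU_U S k j x₁ x₂ x₃ n hn).Rb₃,
      (∀ y, S36SE_e₃ (S36CU_U S k j x₁ x₂ x₃ n hn) X hC y g = 0) →
      (∀ y, S36SE_e₃ (S36CU_U S k j x₁ x₂ x₃ n hn) X hC y g' = 0) →
      ((0, 0, g * g') : ↥(S36CU_U S k j x₁ x₂ x₃ n hn).Rb₁ ×
        ↥(S36CU_U S k j x₁ x₂ x₃ n hn).Rb₂ × ↥(S36CU_U S k j x₁ x₂ x₃ n hn).Rb₃) ∈
        S36L3_W hT (S36CU_U S k j x₁ x₂ x₃ n hn) 1)
    (hsep : ∀ y, ∃ w ∈ S36L3_W hT (S36CU_U S k j x₁ x₂ x₃ n hn) 1,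
      S36SE_e₁ (S36CU_U S k j x₁ x₂ x₃ n hn) X hC y w.1 = 1 ∧
      ∀ y', y' ≠ y → S36SE_e₁ (S36CU_U S k j x₁ x₂ x₃ n hn) X hC y' w.1 = 0)
    -- INT / FIN / LI-INST
    {Ω' F' : Type*} [Field Ω'] [Field F'] [Algebra Ω' F'] {ιw : Type*}
    (E : S36IT_Fam Ω' F' ↥S.fixF ιw) [Finite ιw] [IsNoetherianRing E.Λ]
    (hle : E.Λ ≤ S36LJ_Lam T₁ T₂ T₃ (S36CU_U S k j x₁ x₂ x₃ n hn).B.toSubring)
    (R : S36LJ_Red (S₁ := T₁) (S₂ := T₂) (S₃ := T₃) (S36CU_U S k j x₁ x₂ x₃ n hn))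
    (hOv : ∀ i : ιw, E.Ov i = T₁.O ∨ E.Ov i = T₂.O ∨ E.Ov i = T₃.O)
    (hfrac : ∀ x : ↥S.fixF, ∃ b : E.Λ, (b : ↥S.fixF) ≠ 0 ∧ (b : ↥S.fixF) * x ∈ E.Λ)
    (hsepH : ∀ u ∈ Kp, ∀ Q ∈ E.U, ∃ g : ↥S.fixF, g ≠ 0 ∧
      (n : ℤ) * Q.ord (E.φ g) + Q.ord (E.φ ((u : (↥S.fixF)ˣ) : ↥S.fixF)) = 0 ∧
      ∀ Q' ∈ E.U, 0 ≤ (n : ℤ) * Q'.ord (E.φ g) + Q'.ord (E.φ ((u : (↥S.fixF)ˣ) : ↥S.fixF)))
    (hsepH0 : ∀ u ∈ Kp, ∃ g : ↥S.fixF, g ≠ 0 ∧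
      ∀ Q' ∈ E.U, 0 ≤ (n : ℤ) * Q'.ord (E.φ g) + Q'.ord (E.φ ((u : (↥S.fixF)ˣ) : ↥S.fixF)))
    -- CART-INST, by type of point
    (hss : ∀ y : ι, S36TX_Bun.{w} E
      (S36LK_y₁ E hle R ((S36SE_e₁ (S36CU_U S k j x₁ x₂ x₃ n hn) X hC y :
        ↥(S36CU_U S k j x₁ x₂ x₃ n hn).Rb₁ →ₐ[k] k) :
        ↥(S36CU_U S k j x₁ x₂ x₃ n hn).Rb₁ →+* k)))
    (hord₁ : ∀ (P : Place k Fk₁)
      (hP : ∀ f ∈ (S36CU_U S k j x₁ x₂ x₃ n hn).Rb₁, P.adicValuation f ≤ 1),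
      (∀ y, P ≠ X.P₁ y) → S36TX_Bun.{w} E
        (S36LK_y₁ E hle R ((S36SE_ev (S36CU_U S k j x₁ x₂ x₃ n hn).Rb₁ P (h₁.deg_one P) hP :
          ↥(S36CU_U S k j x₁ x₂ x₃ n hn).Rb₁ →ₐ[k] k) :
          ↥(S36CU_U S k j x₁ x₂ x₃ n hn).Rb₁ →+* k)))
    (hord₂ : ∀ (P : Place k Fk₂)
      (hP : ∀ f ∈ (S36CU_U S k j x₁ x₂ x₃ n hn).Rb₂, P.adicValuation f ≤ 1),
      (∀ y, P ≠ X.P₂ y) → S36TX_Bun.{w} E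
        (S36LK_y₂ E hle R ((S36SE_ev (S36CU_U S k j x₁ x₂ x₃ n hn).Rb₂ P (h₂.deg_one P) hP :
          ↥(S36CU_U S k j x₁ x₂ x₃ n hn).Rb₂ →ₐ[k] k) :
          ↥(S36CU_U S k j x₁ x₂ x₃ n hn).Rb₂ →+* k)))
    (hord₃ : ∀ (P : Place k Fk₃)
      (hP : ∀ f ∈ (S36CU_U S k j x₁ x₂ x₃ n hn).Rb₃, P.adicValuation f ≤ 1),
      (∀ y, P ≠ X.P₃ y) → S36TX_Bun.{w} E
        (S36LK_y₃ E hle R ((S36SE_ev (S36CU_U S k j x₁ x₂ x₃ n hn).Rb₃ P (h₃.deg_one P) hP :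
          ↥(S36CU_U S k j x₁ x₂ x₃ n hn).Rb₃ →ₐ[k] k) :
          ↥(S36CU_U S k j x₁ x₂ x₃ n hn).Rb₃ →+* k))) :
    S36TI_Geo hT (S36CU_U S k j x₁ x₂ x₃ n hn) X hC Kp :=
  S36TX_geo_U S hT j x₁ x₂ x₃ n hn hKp h₁ h₂ h₃ c₁ c₂ c₃ hc₁ hc₂ hc₃ hx₁ hx₂ hx₃
    hW1 hint₁ hint₂ hint₃ hsep E hle R hOv hfrac hsepH hsepH0
    (S36TX_hB₁ E hle R h₁.deg_one hss hord₁)
    (S36TX_hB₂ hT E hle R h₂.deg_one hW1 hss hord₂)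
    (S36TX_hB₃ hT E hle R h₃.deg_one hW1 hss hord₃)

end conc

end Fermat.Agent.S36
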