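import Mathlib
import Fermat.Agent.S36.Cart3Cusp
import Fermat.Agent.S36.Triv3Bun
import Fermat.Agent.S36.Triv3Ss

/-!
# TRACK 10 (S36), (LI) at the CUSPS of the ramified component `FV` (chart `U′`) (helper27)

Prefix `S36CC_`.  Companion of `S36/CuspLiUnr.lean` (helper2: `hcusp₁`, `hcusp₃`).

* `S36CC_unit_count` : **the unit count at a cusp**.  `s₀ = ϖ₀ · a^(m+1) · w` with
  `ϖ₀^(m+1) / q ∈ O_FV` of reduction `H`, `a ∈ O_FV` of reduction `j̄`, `w ∈ O_FV` of reduction `w̄`,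
  `ord_P H = (m + 1) ord_P j̄` (`S36OI_Hj`: `m + 1 = q − 1`) and `ord_P w̄ = −(m + 2) ord_P j̄`
  (`w̄ = (j̄^q − c̄)⁻¹`): then `s₀^(m+1) / q ∈ O_FV` and its reduction is a unit at `P`.
  (Instance: `ϖ₀ = C − A`, `a = A`, `w = (B − c)⁻¹`.)
* `S36CC_hcusp₂` : **`hcusp₂`** of `S36CX_pl₂` / `S36CX_geo_pl` / `S36CX_geo_of_geo` /
  `S36CX_geo_U'` (helper2): (LI) at the cusps of `FV` on the chart `U′` (here `C`, coordinate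
  `x₂'`), from `hint₂` (conductor), the uniformisers (helper8), THRU (`S36CQ_core`, helper25, for
  the generator `s₀`) and the unit count.
-/

set_option autoImplicit false
set_option linter.unusedSectionVars false
set_option linter.style.haveILetI false

open AlgebraicCurve

namespace Fermat.Agent.S36

open Fermat.Agent.Lib Fermat.Agent.S18 Fermat.Agent.S24 Fermat.Agent.S34

universe w

section count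

variable {L K k Fk : Type*} [Field L] [Field K] [Algebra L K] [Field k] [Field Fk]
  [Algebra k Fk] (S : S18_Val L K k Fk)

/-- **the unit count at a cusp.** -/
theorem S36CC_unit_count (P : Place k Fk) (q ϖ₀ a w s₀ : K) (m : ℕ)
    (hs₀ : s₀ = ϖ₀ * a ^ (m + 1) * w)
    (hϖ : ϖ₀ ^ (m + 1) / q ∈ S.O) (ha : a ∈ S.O) (hw : w ∈ S.O)
    (hH0 : S.red ⟨ϖ₀ ^ (m + 1) / q, hϖ⟩ ≠ 0) (hj0 : S.red ⟨a, ha⟩ ≠ 0)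
    (hw0 : S.red ⟨w, hw⟩ ≠ 0)
    (hH : P.ord (S.red ⟨ϖ₀ ^ (m + 1) / q, hϖ⟩) = ((m : ℤ) + 1) * P.ord (S.red ⟨a, ha⟩))
    (hwo : P.ord (S.red ⟨w, hw⟩) = -((m : ℤ) + 2) * P.ord (S.red ⟨a, ha⟩)) :
    ∃ h : s₀ ^ (m + 1) / q ∈ S.O, S.red ⟨s₀ ^ (m + 1) / q, h⟩ ≠ 0 ∧
      P.ord (S.red ⟨s₀ ^ (m + 1) / q, h⟩) = 0 := by
  have e : s₀ ^ (m + 1) / q = ϖ₀ ^ (m + 1) / q * (a ^ (m + 1)) ^ (m + 1) * w ^ (m + 1) := by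
    rw [hs₀, mul_pow, mul_pow]
    ring
  have hmem : s₀ ^ (m + 1) / q ∈ S.O := by
    rw [e]
    exact S.O.mul_mem _ _ (S.O.mul_mem _ _ hϖ (S.O.pow_mem (S.O.pow_mem ha _) _))
      (S.O.pow_mem hw _)
  have hred : S.red ⟨s₀ ^ (m + 1) / q, hmem⟩ =
      S.red ⟨ϖ₀ ^ (m + 1) / q, hϖ⟩ * (S.red ⟨a, ha⟩ ^ (m + 1)) ^ (m + 1) *
        S.red ⟨w, hw⟩ ^ (m + 1) := by
    rw [← map_pow, ← map_pow, ← map_pow, ← map_mul, ← map_mul]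
    congr 1
    exact Subtype.ext e
  refine ⟨hmem, ?_, ?_⟩
  · rw [hred]
    exact mul_ne_zero (mul_ne_zero hH0 (pow_ne_zero _ (pow_ne_zero _ hj0))) (pow_ne_zero _ hw0)
  · rw [hred, P.ord_mul (mul_ne_zero hH0 (pow_ne_zero _ (pow_ne_zero _ hj0)))
      (pow_ne_zero _ hw0), P.ord_mul hH0 (pow_ne_zero _ (pow_ne_zero _ hj0)),
      ← zpow_natCast (S.red ⟨w, hw⟩), P.ord_zpow, ← zpow_natCast (S.red ⟨a, ha⟩ ^ (m + 1)),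
      P.ord_zpow, ← zpow_natCast (S.red ⟨a, ha⟩), P.ord_zpow, hH, hwo]
    push_cast
    ring

end count

variable {L K k : Type*} {Fk₁ Fk₂ Fk₃ : Type w} [Field L] [Field K] [Algebra L K] [Field k]
  [Field Fk₁] [Field Fk₂] [Field Fk₃] [Algebra k Fk₁] [Algebra k Fk₂] [Algebra k Fk₃]
  {S₁ : S18_Val L K k Fk₁} {S₂ : S18_Val L K k Fk₂} {S₃ : S18_Val L K k Fk₃}
  (hS : S36L3_Same S₁ S₂ S₃) {n : ℕ} {C : S36L3_Chart L K k Fk₁ Fk₂ Fk₃ n}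
  {Ω F : Type*} [Field Ω] [Field F] [Algebra Ω F] {ιv : Type*} (D : S36IT_Fam Ω F K ιv)

/-- **`hcusp₂`**: (LI) at the cusps of `FV` on the chart `U′` (here `C`, with coordinate `x₂'`;
`x₂` is the coordinate of the chart `U`, whose poles are the cusps). -/
theorem S36CC_hcusp₂ [Finite ιv] [IsNoetherianRing D.Λ] [Infinite k] {ι : Type*} [Finite ι]
    (hle : D.Λ ≤ S36LJ_Lam S₁ S₂ S₃ C.B.toSubring)
    (hge : S36LJ_Lam S₁ S₂ S₃ C.B.toSubring ≤ D.Λ)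
    (R : S36LJ_Red (S₁ := S₁) (S₂ := S₂) (S₃ := S₃) C)
    (hOv : ∀ i : ιv, D.Ov i = S₁.O ∨ D.Ov i = S₂.O ∨ D.Ov i = S₃.O)
    (hfrac : ∀ x : K, ∃ b : D.Λ, (b : K) ≠ 0 ∧ (b : K) * x ∈ D.Λ)
    {jFF jFV jVV : ιv}
    (hFF : D.Ov jFF = S₁.O) (hFV : D.Ov jFV = S₂.O) (hVV : D.Ov jVV = S₃.O)
    (hall : ∀ j : ιv, j = jFF ∨ j = jFV ∨ j = jVV)
    (q : D.Λ) (c : Ω) (hc : c ≠ 0) (hqc : D.φ (q : K) = algebraMap Ω F c)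
    (hqFF : S36CA_IsUnif (D.Ov jFF) (q : K)) (hqVV : S36CA_IsUnif (D.Ov jVV) (q : K))
    (m : ℕ) (π : K) (hπ : S36CA_IsUnif (D.Ov jFV) π)
    (hπq : S36LW_IsU (D.Ov jFV) (π ^ (m + 1) / q))
    (h₂ : RR_Hyp k Fk₂) (x₂ x₂' : Fk₂) (c₂ : Place k Fk₂) (hc₂ : c₂.ord x₂' < 0)
    (hR₂' : ∀ y : Fk₂, y ∈ C.Rb₂ ↔
      ∀ Q : Place k Fk₂, Q.adicValuation x₂' ≤ 1 → Q.adicValuation y ≤ 1)
    (hcz : ∀ Q : Place k Fk₂, ¬ Q.adicValuation x₂ ≤ 1 → Q.adicValuation x₂' < 1)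
    (X : S36SE_Pts k Fk₁ Fk₂ Fk₃ ι) (hC : S36SE_Reg C X)
    (hxy : ∀ y, ¬ (X.P₂ y).adicValuation x₂' < 1)
    (hint₂ : ∀ g g' : ↥C.Rb₂, (∀ y, S36SE_e₂ C X hC y g = 0) →
      (∀ y, S36SE_e₂ C X hC y g' = 0) →
      ((0, g * g', 0) : ↥C.Rb₁ × ↥C.Rb₂ × ↥C.Rb₃) ∈ S36L3_W hS C 1)
    -- the generator of the vertical prime at the cusps, with the unit count and THRU
    (s₀ : K) (hw : s₀ ^ (m + 1) / q ∈ S₂.O) (hw0 : S₂.red ⟨s₀ ^ (m + 1) / q, hw⟩ ≠ 0)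
    (hunit : ∀ P : Place k Fk₂, ¬ P.adicValuation x₂ ≤ 1 →
      P.ord (S₂.red ⟨s₀ ^ (m + 1) / q, hw⟩) = 0)
    (hthru : ∀ (P : Place k Fk₂) (hP : ∀ f ∈ C.Rb₂, P.adicValuation f ≤ 1),
      ¬ P.adicValuation x₂ ≤ 1 →
      ∀ i ∈ D.thru (S36LK_y₂ D hle R
        ((S36SE_ev C.Rb₂ P (h₂.deg_one P) hP : ↥C.Rb₂ →ₐ[k] k) : ↥C.Rb₂ →+* k)),
        D.v i s₀ ≤ 1)
    {Kp : Subgroup Kˣ} (hKp : Kp ≤ S36L3_NormGrp S₁ S₂ S₃)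
    (hsep : ∀ u ∈ Kp, ∀ Q ∈ D.U, ∃ g : K, g ≠ 0 ∧
      (n : ℤ) * Q.ord (D.φ g) + Q.ord (D.φ ((u : Kˣ) : K)) = 0 ∧
      ∀ Q' ∈ D.U, 0 ≤ (n : ℤ) * Q'.ord (D.φ g) + Q'.ord (D.φ ((u : Kˣ) : K)))
    (hsep0 : ∀ u ∈ Kp, ∃ g : K, g ≠ 0 ∧
      ∀ Q' ∈ D.U, 0 ≤ (n : ℤ) * Q'.ord (D.φ g) + Q'.ord (D.φ ((u : Kˣ) : K))) :
    ∀ u ∈ Kp, ∀ P : Place k Fk₂, ¬ P.adicValuation x₂ ≤ 1 → P.adicValuation x₂' ≤ 1 →
      ∃ m ∈ S36L3_W hS C ((u : Kˣ) : K), FD_c0 P ((m.2.1 : ↥C.Rb₂) : Fk₂) ≠ 0 := by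
  have hx'mem : x₂' ∈ C.Rb₂ := (hR₂' x₂').2 fun _ hQ => hQ
  -- the cusp places of the chart
  set Pr : Place k Fk₂ → Prop :=
    fun P => ¬ P.adicValuation x₂ ≤ 1 ∧ P.adicValuation x₂' ≤ 1 with hPr
  have hreg : ∀ P, Pr P → ∀ f ∈ C.Rb₂, P.adicValuation f ≤ 1 :=
    fun P hP f hf => (hR₂' f).1 hf P hP.2
  have hneP : ∀ P, Pr P → ∀ y, P ≠ X.P₂ y := by
    rintro P hP y rfl
    exact hxy y (hcz _ hP.1)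
  have hB : ∀ (P : Place k Fk₂) (hP : Pr P), S36TX_Bun.{w} D
      (S36LK_y₂ D hle R ((S36SE_ev C.Rb₂ P (h₂.deg_one P) (hreg P hP) : ↥C.Rb₂ →ₐ[k] k) :
        ↥C.Rb₂ →+* k)) := by
    intro P hP
    have hev : ∀ y, S36SE_ev C.Rb₂ P (h₂.deg_one P) (hreg P hP) ≠ S36SE_e₂ C X hC y :=
      fun y => S36TX_ev_ne₂ h₂ x₂' c₂ hc₂ hR₂' P (hreg P hP) y (hneP P hP y)
    refine S36TX_hord₂ hS D (X := X) (hC := hC) h₂ hle hge R hFF hFV hVV hall x₂' c₂ hc₂ hR₂'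
      hint₂ q c hc hqc m π hπ hπq P (hreg P hP) (hneP P hP) ?_
    exact S36CC_R13cusp hS D hle R h₂ hge hFF hFV hVV hall _ P (fun _ => rfl)
      (fun r => hreg P hP _ r.2) (S36TX_R11a₂ hS (S36SE_e₂ C X hC) hint₂ _ hev)
      q c hc hqc hqFF hqVV s₀ (hthru P (hreg P hP) hP.1) m hw hw0 (hunit P hP.1)
  intro u hu P hPx hPx'
  exact S36TX_plP₂ hS D hle R hOv hfrac h₂.deg_one Pr hreg hB hKp hsep hsep0 u hu P ⟨hPx, hPx'⟩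

end Fermat.Agent.S36
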