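import Fermat.Agent.S36.Triv3Li
import Fermat.Agent.S36.Cart3Comp

/-!
# TRACK 10 (S36), (LI) at the points of `FF` and `VV` off the triple points (helper2)

Prefix `S36CL_`.  Ruling D11: at a closed point `P` of an UNRAMIFIED component (`FF` or `VV`)
which is not a triple point — an ordinary point or a cusp, on any chart `C` — the CART bundle
needs no lifting theorem: (C2) and `hnot` follow from the conductor statement `hint_j` of the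
chart.

* `S36CL_lift` : an element of `W¹` is the reduction of an element of `D.Λ` (`Λ_C ≤ D.Λ`);
* `S36CL_ord_zero` : a function regular at `P` with non-zero value has order `0`;
* `S36CL_point₁` : **(LI) at a point `P` of `FF` off the triple points**:
  `∃ m ∈ W^u, m₁(P) ≠ 0`, from `hint₁`, the uniformiser `q` of `FF` and SEP-H;
* `S36CL_point₃` : the same on `VV`;
* `S36CL_hcusp₁`, `S36CL_hcusp₃` : the hypotheses `hcusp₁`, `hcusp₃` of `S36CX_pl₁`, `S36CX_pl₃`,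
  `S36CX_geo_pl`, `S36CX_geo_of_geo` (S36/ChartTransferPl.lean).
-/

set_option autoImplicit false
set_option linter.unusedSectionVars false
set_option linter.style.haveILetI false

open AlgebraicCurve

namespace Fermat.Agent.S36

open Fermat.Agent.Lib Fermat.Agent.S18 Fermat.Agent.S24 Fermat.Agent.S34

section ord

variable {k κ : Type*} [Field k] [Field κ] [Algebra k κ]

/-- a function regular at `P` with non-zero value at `P` is non-zero of order `0`. -/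
theorem S36CL_ord_zero (P : Place k κ) (hdeg : P.deg = 1) {g : κ}
    (hg : P.adicValuation g ≤ 1) (hv : FD_c0 P g ≠ 0) : g ≠ 0 ∧ P.ord g = 0 := by
  have hg0 : g ≠ 0 := by
    rintro rfl
    apply hv
    exact (FD_c0_eq_zero_iff P hdeg hg).2 (by rw [map_zero]; exact zero_lt_one)
  refine ⟨hg0, ?_⟩
  have h1 : P.adicValuation g = 1 := by
    refine le_antisymm hg (not_lt.1 fun hlt => hv ?_)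
    exact (FD_c0_eq_zero_iff P hdeg hg).2 hlt
  have h2 : 0 ≤ P.ord g := (Place.adicValuation_le_one_iff P).1 hg |>.resolve_left hg0
  have h3 : P.adicValuation g⁻¹ ≤ 1 := by rw [map_inv₀, h1, inv_one]
  have h4 : 0 ≤ P.ord g⁻¹ :=
    (Place.adicValuation_le_one_iff P).1 h3 |>.resolve_left (inv_ne_zero hg0)
  rw [Place.ord_inv] at h4
  omega

end ord

variable {L K k Fk₁ Fk₂ Fk₃ : Type*} [Field L] [Field K] [Algebra L K] [Field k]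
  [Field Fk₁] [Field Fk₂] [Field Fk₃] [Algebra k Fk₁] [Algebra k Fk₂] [Algebra k Fk₃]
  {S₁ : S18_Val L K k Fk₁} {S₂ : S18_Val L K k Fk₂} {S₃ : S18_Val L K k Fk₃}
  (hS : S36L3_Same S₁ S₂ S₃) {n : ℕ} {C : S36L3_Chart L K k Fk₁ Fk₂ Fk₃ n}
  {Ω F : Type*} [Field Ω] [Field F] [Algebra Ω F] {ιv : Type*} (D : S36IT_Fam Ω F K ιv)

/-- an element of `W¹` is the reduction of an element of the lattice `D.Λ`. -/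
theorem S36CL_lift (hge : S36LJ_Lam S₁ S₂ S₃ C.B.toSubring ≤ D.Λ)
    {m : ↥C.Rb₁ × ↥C.Rb₂ × ↥C.Rb₃} (hm : m ∈ S36L3_W hS C 1) :
    ∃ (f : D.Λ) (h : (f : K) ∈ S36L3_O3 S₁ S₂ S₃),
      S36L3_red S₁ S₂ S₃ ⟨f, h⟩ = ((m.1 : Fk₁), (m.2.1 : Fk₂), (m.2.2 : Fk₃)) := by
  obtain ⟨f, hfB, hred⟩ := (S36L3_mem_W_one hS C m).1 hm
  exact ⟨⟨f, hge ⟨f.2, hfB⟩⟩, f.2, hred⟩

/-- a non-zero non-unit of a valuation ring of `S18_Val`: the inverse is not in the ring. -/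
theorem S36CL_inv_not_mem {Fk : Type*} [Field Fk] [Algebra k Fk] (S : S18_Val L K k Fk)
    {f : K} (hf0 : f ≠ 0) (hf : f ∈ S.O) (h0 : S.red ⟨f, hf⟩ = 0) : f⁻¹ ∉ S.O := by
  intro hinv
  have hu : IsUnit (⟨f, hf⟩ : S.O) := by
    refine isUnit_iff_exists_inv.2 ⟨⟨f⁻¹, hinv⟩, ?_⟩
    exact Subtype.ext (mul_inv_cancel₀ hf0)
  exact (S.red_ne_zero_iff _).2 hu h0

/-- **(LI) at a point `P` of `FF` off the triple points** (ordinary point or cusp), on any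
chart: (C2) and `hnot` from the conductor statement `hint₁`. -/
theorem S36CL_point₁ [Finite ιv] [IsNoetherianRing D.Λ] {ι : Type*} [Finite ι]
    (hle : D.Λ ≤ S36LJ_Lam S₁ S₂ S₃ C.B.toSubring)
    (hge : S36LJ_Lam S₁ S₂ S₃ C.B.toSubring ≤ D.Λ)
    (R : S36LJ_Red (S₁ := S₁) (S₂ := S₂) (S₃ := S₃) C)
    (hOv : ∀ i : ιv, D.Ov i = S₁.O ∨ D.Ov i = S₂.O ∨ D.Ov i = S₃.O)
    (hfrac : ∀ x : K, ∃ b : D.Λ, (b : K) ≠ 0 ∧ (b : K) * x ∈ D.Λ)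
    (j₀ : ιv) (hj₀ : D.Ov j₀ = S₁.O)
    (hoth : ∀ j : ιv, j ≠ j₀ → D.Ov j = S₂.O ∨ D.Ov j = S₃.O)
    (q : D.Λ) (c : Ω) (hc : c ≠ 0) (hqc : D.φ (q : K) = algebraMap Ω F c)
    (hunif : S36CA_IsUnif (D.Ov j₀) (q : K))
    (h : RR_Hyp k Fk₁) (T : Set (Place k Fk₁)) (c₀ : Place k Fk₁) (hc₀ : c₀ ∈ T)
    (hRT : ∀ a : Fk₁, (∀ Q : Place k Fk₁, Q ∉ T → 0 ≤ Q.ord a) → a ∈ C.Rb₁)
    (X : S36SE_Pts k Fk₁ Fk₂ Fk₃ ι) (hC : S36SE_Reg C X)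
    (hint₁ : ∀ g g' : ↥C.Rb₁, (∀ y, S36SE_e₁ C X hC y g = 0) →
      (∀ y, S36SE_e₁ C X hC y g' = 0) →
      ((g * g', 0, 0) : ↥C.Rb₁ × ↥C.Rb₂ × ↥C.Rb₃) ∈ S36L3_W hS C 1)
    (P : Place k Fk₁) (hPT : P ∉ T) (hP : ∀ f ∈ C.Rb₁, P.adicValuation f ≤ 1)
    (hPne : ∀ y, S36SE_ev C.Rb₁ P (h.deg_one P) hP ≠ S36SE_e₁ C X hC y)
    {u : K} (hu : u ∈ S36L3_Norm S₁ S₂ S₃)
    (hsep : ∀ Q ∈ D.U, ∃ g : K, g ≠ 0 ∧ (n : ℤ) * Q.ord (D.φ g) + Q.ord (D.φ u) = 0 ∧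
      ∀ Q' ∈ D.U, 0 ≤ (n : ℤ) * Q'.ord (D.φ g) + Q'.ord (D.φ u))
    (hsep0 : ∃ g : K, g ≠ 0 ∧ ∀ Q' ∈ D.U, 0 ≤ (n : ℤ) * Q'.ord (D.φ g) + Q'.ord (D.φ u)) :
    ∃ m ∈ S36L3_W hS C u, FD_c0 P ((m.1 : ↥C.Rb₁) : Fk₁) ≠ 0 := by
  set e : ↥C.Rb₁ →ₐ[k] k := S36SE_ev C.Rb₁ P (h.deg_one P) hP with he
  have hO : ∀ f : D.Λ, (f : K) ∈ S₁.O := fun f => (hle f.2).1.1
  -- a function vanishing at the triple points and not at `P`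
  obtain ⟨g₀, hg₀y, hg₀P⟩ := S36N3_exists_ne (S36SE_e₁ C X hC) e hPne
  have hg₀P' : FD_c0 P ((g₀ : ↥C.Rb₁) : Fk₁) ≠ 0 := hg₀P
  obtain ⟨hg₀0, hg₀ord⟩ := S36CL_ord_zero P (h.deg_one P) (hP _ g₀.2) hg₀P'
  -- the lifts of `a · g₀ · g₀`
  have hliftA : ∀ a : ↥C.Rb₁, ∃ f : D.Λ,
      S36CA_compRed S₁ D hO f = (a : Fk₁) * ((g₀ : Fk₁) * (g₀ : Fk₁)) ∧
      (∀ hf₂ : (f : K) ∈ S₂.O, S₂.red ⟨f, hf₂⟩ = 0) ∧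
      (∀ hf₃ : (f : K) ∈ S₃.O, S₃.red ⟨f, hf₃⟩ = 0) := by
    intro a
    have hag : ∀ y, S36SE_e₁ C X hC y (a * g₀) = 0 := fun y => by
      rw [map_mul, hg₀y y, mul_zero]
    obtain ⟨f, hf3, hred⟩ := S36CL_lift hS D hge (hint₁ (a * g₀) g₀ hag hg₀y)
    refine ⟨f, ?_, ?_, ?_⟩
    · have h1 := congrArg Prod.fst hred
      rw [S36CA_compRed_apply]
      have h2 : S₁.red ⟨(f : K), hO f⟩ = (S36L3_red S₁ S₂ S₃ ⟨f, hf3⟩).1 := rfl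
      rw [h2, h1]
      push_cast
      ring
    · intro hf₂
      have h1 := congrArg (fun z => z.2.1) hred
      exact h1
    · intro hf₃
      have h1 := congrArg (fun z => z.2.2) hred
      exact h1
  -- the closed point
  have hy : ∀ f : D.Λ, S36LK_y₁ D hle R (e : ↥C.Rb₁ →+* k) f =
      FD_c0 P (S36CA_compRed S₁ D hO f) := fun f => rfl
  have hreg : ∀ f : D.Λ, P.adicValuation (S36CA_compRed S₁ D hO f) ≤ 1 := fun f =>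
    hP _ (R.red₁ f (hle f.2))
  have hlift : ∀ a₁ a₂ : Fk₁, (∀ Q : Place k Fk₁, Q ∉ T → 0 ≤ Q.ord a₁) →
      (∀ Q : Place k Fk₁, Q ∉ T → 0 ≤ Q.ord a₂) →
      ∃ (e' : Fk₁) (f₁ f₂ : D.Λ), e' ≠ 0 ∧ P.ord e' = 0 ∧
        S36CA_compRed S₁ D hO f₁ = a₁ * e' ∧ S36CA_compRed S₁ D hO f₂ = a₂ * e' := by
    intro a₁ a₂ h₁ h₂
    obtain ⟨f₁, hf₁, -, -⟩ := hliftA ⟨a₁, hRT a₁ h₁⟩
    obtain ⟨f₂, hf₂, -, -⟩ := hliftA ⟨a₂, hRT a₂ h₂⟩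
    refine ⟨(g₀ : Fk₁) * (g₀ : Fk₁), f₁, f₂, mul_ne_zero hg₀0 hg₀0, ?_, hf₁, hf₂⟩
    rw [P.ord_mul hg₀0 hg₀0, hg₀ord, add_zero]
  have hnot : ∀ j : ιv, j ≠ j₀ → ∃ g : D.Λ, ((g : K))⁻¹ ∉ D.Ov j ∧
      S36LK_y₁ D hle R (e : ↥C.Rb₁ →+* k) g ≠ 0 := by
    intro j hj
    obtain ⟨f, hf₁, hf₂, hf₃⟩ := hliftA 1
    have hf₁' : S36CA_compRed S₁ D hO f = (g₀ : Fk₁) * (g₀ : Fk₁) := by
      rw [hf₁]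
      push_cast
      rw [one_mul]
    have hfK : (f : K) ≠ 0 := by
      intro h0
      have : S36CA_compRed S₁ D hO f = 0 := by
        rw [S36CA_compRed_apply]
        have : (⟨(f : K), hO f⟩ : S₁.O) = 0 := Subtype.ext h0
        rw [this, map_zero]
      rw [hf₁'] at this
      exact mul_ne_zero hg₀0 hg₀0 this
    refine ⟨f, ?_, ?_⟩
    · rcases hoth j hj with hj2 | hj3
      · rw [hj2]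
        exact S36CL_inv_not_mem S₂ hfK (hle f.2).1.2.1 (hf₂ _)
      · rw [hj3]
        exact S36CL_inv_not_mem S₃ hfK (hle f.2).1.2.2 (hf₃ _)
    · rw [hy f, hf₁', (FD_c0_mul P (h.deg_one P) (hP _ g₀.2) (hP _ g₀.2)).1]
      exact mul_ne_zero hg₀P' hg₀P'
  obtain ⟨B, hVt, hVtv⟩ := S36CA_comp_unr h hj₀ hO (S36LK_y₁ D hle R (e : ↥C.Rb₁ →+* k)) P hy
    T c₀ hc₀ hPT hreg hlift hnot q c hc hqc hunif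
  obtain ⟨m, hm, hne⟩ := S36LK_point₁ hS D hle R hOv hfrac (e : ↥C.Rb₁ →+* k) B hVt hVtv hu
    hsep hsep0
  exact ⟨m, hm, hne⟩

/-- **(LI) at a point `P` of `VV` off the triple points** (ordinary point or cusp), on any
chart: (C2) and `hnot` from the conductor statement `hint₃`. -/
theorem S36CL_point₃ [Finite ιv] [IsNoetherianRing D.Λ] {ι : Type*} [Finite ι]
    (hle : D.Λ ≤ S36LJ_Lam S₁ S₂ S₃ C.B.toSubring)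
    (hge : S36LJ_Lam S₁ S₂ S₃ C.B.toSubring ≤ D.Λ)
    (R : S36LJ_Red (S₁ := S₁) (S₂ := S₂) (S₃ := S₃) C)
    (hOv : ∀ i : ιv, D.Ov i = S₁.O ∨ D.Ov i = S₂.O ∨ D.Ov i = S₃.O)
    (hfrac : ∀ x : K, ∃ b : D.Λ, (b : K) ≠ 0 ∧ (b : K) * x ∈ D.Λ)
    (j₀ : ιv) (hj₀ : D.Ov j₀ = S₃.O)
    (hoth : ∀ j : ιv, j ≠ j₀ → D.Ov j = S₁.O ∨ D.Ov j = S₂.O)
    (q : D.Λ) (c : Ω) (hc : c ≠ 0) (hqc : D.φ (q : K) = algebraMap Ω F c)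
    (hunif : S36CA_IsUnif (D.Ov j₀) (q : K))
    (h : RR_Hyp k Fk₃) (T : Set (Place k Fk₃)) (c₀ : Place k Fk₃) (hc₀ : c₀ ∈ T)
    (hRT : ∀ a : Fk₃, (∀ Q : Place k Fk₃, Q ∉ T → 0 ≤ Q.ord a) → a ∈ C.Rb₃)
    (X : S36SE_Pts k Fk₁ Fk₂ Fk₃ ι) (hC : S36SE_Reg C X)
    (hint₃ : ∀ g g' : ↥C.Rb₃, (∀ y, S36SE_e₃ C X hC y g = 0) →
      (∀ y, S36SE_e₃ C X hC y g' = 0) →
      ((0, 0, g * g') : ↥C.Rb₁ × ↥C.Rb₂ × ↥C.Rb₃) ∈ S36L3_W hS C 1)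
    (P : Place k Fk₃) (hPT : P ∉ T) (hP : ∀ f ∈ C.Rb₃, P.adicValuation f ≤ 1)
    (hPne : ∀ y, S36SE_ev C.Rb₃ P (h.deg_one P) hP ≠ S36SE_e₃ C X hC y)
    {u : K} (hu : u ∈ S36L3_Norm S₁ S₂ S₃)
    (hsep : ∀ Q ∈ D.U, ∃ g : K, g ≠ 0 ∧ (n : ℤ) * Q.ord (D.φ g) + Q.ord (D.φ u) = 0 ∧
      ∀ Q' ∈ D.U, 0 ≤ (n : ℤ) * Q'.ord (D.φ g) + Q'.ord (D.φ u))
    (hsep0 : ∃ g : K, g ≠ 0 ∧ ∀ Q' ∈ D.U, 0 ≤ (n : ℤ) * Q'.ord (D.φ g) + Q'.ord (D.φ u)) :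
    ∃ m ∈ S36L3_W hS C u, FD_c0 P ((m.2.2 : ↥C.Rb₃) : Fk₃) ≠ 0 := by
  set e : ↥C.Rb₃ →ₐ[k] k := S36SE_ev C.Rb₃ P (h.deg_one P) hP with he
  have hO : ∀ f : D.Λ, (f : K) ∈ S₃.O := fun f => (hle f.2).1.2.2
  obtain ⟨g₀, hg₀y, hg₀P⟩ := S36N3_exists_ne (S36SE_e₃ C X hC) e hPne
  have hg₀P' : FD_c0 P ((g₀ : ↥C.Rb₃) : Fk₃) ≠ 0 := hg₀P
  obtain ⟨hg₀0, hg₀ord⟩ := S36CL_ord_zero P (h.deg_one P) (hP _ g₀.2) hg₀P'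
  have hliftA : ∀ a : ↥C.Rb₃, ∃ f : D.Λ,
      S36CA_compRed S₃ D hO f = (a : Fk₃) * ((g₀ : Fk₃) * (g₀ : Fk₃)) ∧
      (∀ hf₁ : (f : K) ∈ S₁.O, S₁.red ⟨f, hf₁⟩ = 0) ∧
      (∀ hf₂ : (f : K) ∈ S₂.O, S₂.red ⟨f, hf₂⟩ = 0) := by
    intro a
    have hag : ∀ y, S36SE_e₃ C X hC y (a * g₀) = 0 := fun y => by
      rw [map_mul, hg₀y y, mul_zero]
    obtain ⟨f, hf3, hred⟩ := S36CL_lift hS D hge (hint₃ (a * g₀) g₀ hag hg₀y)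
    refine ⟨f, ?_, ?_, ?_⟩
    · have h1 := congrArg (fun z => z.2.2) hred
      rw [S36CA_compRed_apply]
      have h2 : S₃.red ⟨(f : K), hO f⟩ = (S36L3_red S₁ S₂ S₃ ⟨f, hf3⟩).2.2 := rfl
      rw [h2, h1]
      push_cast
      ring
    · intro hf₁
      have h1 := congrArg Prod.fst hred
      exact h1
    · intro hf₂
      have h1 := congrArg (fun z => z.2.1) hred
      exact h1
  have hy : ∀ f : D.Λ, S36LK_y₃ D hle R (e : ↥C.Rb₃ →+* k) f =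
      FD_c0 P (S36CA_compRed S₃ D hO f) := fun f => rfl
  have hreg : ∀ f : D.Λ, P.adicValuation (S36CA_compRed S₃ D hO f) ≤ 1 := fun f =>
    hP _ (R.red₃ f (hle f.2))
  have hlift : ∀ a₁ a₂ : Fk₃, (∀ Q : Place k Fk₃, Q ∉ T → 0 ≤ Q.ord a₁) →
      (∀ Q : Place k Fk₃, Q ∉ T → 0 ≤ Q.ord a₂) →
      ∃ (e' : Fk₃) (f₁ f₂ : D.Λ), e' ≠ 0 ∧ P.ord e' = 0 ∧
        S36CA_compRed S₃ D hO f₁ = a₁ * e' ∧ S36CA_compRed S₃ D hO f₂ = a₂ * e' := by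
    intro a₁ a₂ h₁ h₂
    obtain ⟨f₁, hf₁, -, -⟩ := hliftA ⟨a₁, hRT a₁ h₁⟩
    obtain ⟨f₂, hf₂, -, -⟩ := hliftA ⟨a₂, hRT a₂ h₂⟩
    refine ⟨(g₀ : Fk₃) * (g₀ : Fk₃), f₁, f₂, mul_ne_zero hg₀0 hg₀0, ?_, hf₁, hf₂⟩
    rw [P.ord_mul hg₀0 hg₀0, hg₀ord, add_zero]
  have hnot : ∀ j : ιv, j ≠ j₀ → ∃ g : D.Λ, ((g : K))⁻¹ ∉ D.Ov j ∧
      S36LK_y₃ D hle R (e : ↥C.Rb₃ →+* k) g ≠ 0 := by
    intro j hj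
    obtain ⟨f, hf₃, hf₁, hf₂⟩ := hliftA 1
    have hf₃' : S36CA_compRed S₃ D hO f = (g₀ : Fk₃) * (g₀ : Fk₃) := by
      rw [hf₃]
      push_cast
      rw [one_mul]
    have hfK : (f : K) ≠ 0 := by
      intro h0
      have : S36CA_compRed S₃ D hO f = 0 := by
        rw [S36CA_compRed_apply]
        have : (⟨(f : K), hO f⟩ : S₃.O) = 0 := Subtype.ext h0
        rw [this, map_zero]
      rw [hf₃'] at this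
      exact mul_ne_zero hg₀0 hg₀0 this
    refine ⟨f, ?_, ?_⟩
    · rcases hoth j hj with hj1 | hj2
      · rw [hj1]
        exact S36CL_inv_not_mem S₁ hfK (hle f.2).1.1 (hf₁ _)
      · rw [hj2]
        exact S36CL_inv_not_mem S₂ hfK (hle f.2).1.2.1 (hf₂ _)
    · rw [hy f, hf₃', (FD_c0_mul P (h.deg_one P) (hP _ g₀.2) (hP _ g₀.2)).1]
      exact mul_ne_zero hg₀P' hg₀P'
  obtain ⟨B, hVt, hVtv⟩ := S36CA_comp_unr h hj₀ hO (S36LK_y₃ D hle R (e : ↥C.Rb₃ →+* k)) P hy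
    T c₀ hc₀ hPT hreg hlift hnot q c hc hqc hunif
  obtain ⟨m, hm, hne⟩ := S36LK_point₃ hS D hle R hOv hfrac (e : ↥C.Rb₃ →+* k) B hVt hVtv hu
    hsep hsep0
  exact ⟨m, hm, hne⟩

/-! ### the place form on a chart with coordinate `x` -/

/-- **(LI) at the places of `FF` off the triple points**, chart with coordinate `x₁`. -/
theorem S36CL_pl₁ [Finite ιv] [IsNoetherianRing D.Λ] {ι : Type*} [Finite ι]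
    (hle : D.Λ ≤ S36LJ_Lam S₁ S₂ S₃ C.B.toSubring)
    (hge : S36LJ_Lam S₁ S₂ S₃ C.B.toSubring ≤ D.Λ)
    (R : S36LJ_Red (S₁ := S₁) (S₂ := S₂) (S₃ := S₃) C)
    (hOv : ∀ i : ιv, D.Ov i = S₁.O ∨ D.Ov i = S₂.O ∨ D.Ov i = S₃.O)
    (hfrac : ∀ x : K, ∃ b : D.Λ, (b : K) ≠ 0 ∧ (b : K) * x ∈ D.Λ)
    (j₀ : ιv) (hj₀ : D.Ov j₀ = S₁.O)
    (hoth : ∀ j : ιv, j ≠ j₀ → D.Ov j = S₂.O ∨ D.Ov j = S₃.O)
    (q : D.Λ) (c : Ω) (hc : c ≠ 0) (hqc : D.φ (q : K) = algebraMap Ω F c)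
    (hunif : S36CA_IsUnif (D.Ov j₀) (q : K))
    (h : RR_Hyp k Fk₁) (x₁ : Fk₁) (c₀ : Place k Fk₁) (hc₀ : c₀.ord x₁ < 0)
    (hR₁ : ∀ y : Fk₁, y ∈ C.Rb₁ ↔
      ∀ Q : Place k Fk₁, Q.adicValuation x₁ ≤ 1 → Q.adicValuation y ≤ 1)
    (X : S36SE_Pts k Fk₁ Fk₂ Fk₃ ι) (hC : S36SE_Reg C X)
    (hint₁ : ∀ g g' : ↥C.Rb₁, (∀ y, S36SE_e₁ C X hC y g = 0) →
      (∀ y, S36SE_e₁ C X hC y g' = 0) →
      ((g * g', 0, 0) : ↥C.Rb₁ × ↥C.Rb₂ × ↥C.Rb₃) ∈ S36L3_W hS C 1)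
    {Kp : Subgroup Kˣ} (hKp : Kp ≤ S36L3_NormGrp S₁ S₂ S₃)
    (hsep : ∀ u ∈ Kp, ∀ Q ∈ D.U, ∃ g : K, g ≠ 0 ∧
      (n : ℤ) * Q.ord (D.φ g) + Q.ord (D.φ ((u : Kˣ) : K)) = 0 ∧
      ∀ Q' ∈ D.U, 0 ≤ (n : ℤ) * Q'.ord (D.φ g) + Q'.ord (D.φ ((u : Kˣ) : K)))
    (hsep0 : ∀ u ∈ Kp, ∃ g : K, g ≠ 0 ∧
      ∀ Q' ∈ D.U, 0 ≤ (n : ℤ) * Q'.ord (D.φ g) + Q'.ord (D.φ ((u : Kˣ) : K))) :
    ∀ u ∈ Kp, ∀ P : Place k Fk₁, P.adicValuation x₁ ≤ 1 →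
      (∀ y, ∃ r : ↥C.Rb₁, FD_c0 P (r : Fk₁) ≠ FD_c0 (X.P₁ y) (r : Fk₁)) →
      ∃ m ∈ S36L3_W hS C ((u : Kˣ) : K), FD_c0 P ((m.1 : ↥C.Rb₁) : Fk₁) ≠ 0 := by
  intro u hu P hPx hPne
  have hP : ∀ f ∈ C.Rb₁, P.adicValuation f ≤ 1 := fun f hf => (hR₁ f).1 hf P hPx
  refine S36CL_point₁ hS D hle hge R hOv hfrac j₀ hj₀ hoth q c hc hqc hunif h
    {Q | ¬ Q.adicValuation x₁ ≤ 1} c₀ ?_ ?_ X hC hint₁ P ?_ hP ?_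
    ((S36L3_mem_NormGrp S₁ S₂ S₃).1 (hKp hu)) (hsep u hu) (hsep0 u hu)
  · exact (Place.not_adicValuation_le_one_iff c₀).2 hc₀
  · intro a ha
    refine (hR₁ a).2 fun Q hQ => ?_
    exact (Place.adicValuation_le_one_iff Q).2 (Or.inr (ha Q (fun hn => hn hQ)))
  · exact fun hn => hn hPx
  · intro y heq
    obtain ⟨r, hr⟩ := hPne y
    apply hr
    have := congrArg (fun e : ↥C.Rb₁ →ₐ[k] k => e r) heq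
    exact this

/-- **(LI) at the places of `VV` off the triple points**, chart with coordinate `x₃`. -/
theorem S36CL_pl₃ [Finite ιv] [IsNoetherianRing D.Λ] {ι : Type*} [Finite ι]
    (hle : D.Λ ≤ S36LJ_Lam S₁ S₂ S₃ C.B.toSubring)
    (hge : S36LJ_Lam S₁ S₂ S₃ C.B.toSubring ≤ D.Λ)
    (R : S36LJ_Red (S₁ := S₁) (S₂ := S₂) (S₃ := S₃) C)
    (hOv : ∀ i : ιv, D.Ov i = S₁.O ∨ D.Ov i = S₂.O ∨ D.Ov i = S₃.O)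
    (hfrac : ∀ x : K, ∃ b : D.Λ, (b : K) ≠ 0 ∧ (b : K) * x ∈ D.Λ)
    (j₀ : ιv) (hj₀ : D.Ov j₀ = S₃.O)
    (hoth : ∀ j : ιv, j ≠ j₀ → D.Ov j = S₁.O ∨ D.Ov j = S₂.O)
    (q : D.Λ) (c : Ω) (hc : c ≠ 0) (hqc : D.φ (q : K) = algebraMap Ω F c)
    (hunif : S36CA_IsUnif (D.Ov j₀) (q : K))
    (h : RR_Hyp k Fk₃) (x₃ : Fk₃) (c₀ : Place k Fk₃) (hc₀ : c₀.ord x₃ < 0)
    (hR₃ : ∀ y : Fk₃, y ∈ C.Rb₃ ↔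
      ∀ Q : Place k Fk₃, Q.adicValuation x₃ ≤ 1 → Q.adicValuation y ≤ 1)
    (X : S36SE_Pts k Fk₁ Fk₂ Fk₃ ι) (hC : S36SE_Reg C X)
    (hint₃ : ∀ g g' : ↥C.Rb₃, (∀ y, S36SE_e₃ C X hC y g = 0) →
      (∀ y, S36SE_e₃ C X hC y g' = 0) →
      ((0, 0, g * g') : ↥C.Rb₁ × ↥C.Rb₂ × ↥C.Rb₃) ∈ S36L3_W hS C 1)
    {Kp : Subgroup Kˣ} (hKp : Kp ≤ S36L3_NormGrp S₁ S₂ S₃)
    (hsep : ∀ u ∈ Kp, ∀ Q ∈ D.U, ∃ g : K, g ≠ 0 ∧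
      (n : ℤ) * Q.ord (D.φ g) + Q.ord (D.φ ((u : Kˣ) : K)) = 0 ∧
      ∀ Q' ∈ D.U, 0 ≤ (n : ℤ) * Q'.ord (D.φ g) + Q'.ord (D.φ ((u : Kˣ) : K)))
    (hsep0 : ∀ u ∈ Kp, ∃ g : K, g ≠ 0 ∧
      ∀ Q' ∈ D.U, 0 ≤ (n : ℤ) * Q'.ord (D.φ g) + Q'.ord (D.φ ((u : Kˣ) : K))) :
    ∀ u ∈ Kp, ∀ P : Place k Fk₃, P.adicValuation x₃ ≤ 1 →
      (∀ y, ∃ r : ↥C.Rb₃, FD_c0 P (r : Fk₃) ≠ FD_c0 (X.P₃ y) (r : Fk₃)) →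
      ∃ m ∈ S36L3_W hS C ((u : Kˣ) : K), FD_c0 P ((m.2.2 : ↥C.Rb₃) : Fk₃) ≠ 0 := by
  intro u hu P hPx hPne
  have hP : ∀ f ∈ C.Rb₃, P.adicValuation f ≤ 1 := fun f hf => (hR₃ f).1 hf P hPx
  refine S36CL_point₃ hS D hle hge R hOv hfrac j₀ hj₀ hoth q c hc hqc hunif h
    {Q | ¬ Q.adicValuation x₃ ≤ 1} c₀ ?_ ?_ X hC hint₃ P ?_ hP ?_
    ((S36L3_mem_NormGrp S₁ S₂ S₃).1 (hKp hu)) (hsep u hu) (hsep0 u hu)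
  · exact (Place.not_adicValuation_le_one_iff c₀).2 hc₀
  · intro a ha
    refine (hR₃ a).2 fun Q hQ => ?_
    exact (Place.adicValuation_le_one_iff Q).2 (Or.inr (ha Q (fun hn => hn hQ)))
  · exact fun hn => hn hPx
  · intro y heq
    obtain ⟨r, hr⟩ := hPne y
    apply hr
    have := congrArg (fun e : ↥C.Rb₃ →ₐ[k] k => e r) heq
    exact this

/-! ### the cusps of the chart `U'` -/

/-- a cusp (pole of `x`) is a zero of `x' = (x − c₀)⁻¹`. -/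
theorem S36CL_cusp_zero {κ : Type*} [Field κ] [Algebra k κ] (x : κ) (c₀ : k) (Q : Place k κ)
    (hQ : ¬ Q.adicValuation x ≤ 1) : Q.adicValuation (x - algebraMap k κ c₀)⁻¹ < 1 := by
  have hx : 1 < Q.adicValuation x := not_le.1 hQ
  have hc : Q.adicValuation (algebraMap k κ c₀) ≤ 1 := Q.adicValuation_algebraMap_le_one c₀
  have h1 : Q.adicValuation (x - algebraMap k κ c₀) = Q.adicValuation x := by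
    rw [sub_eq_add_neg]
    apply Valuation.map_add_eq_of_lt_left
    rw [Valuation.map_neg]
    exact lt_of_le_of_lt hc hx
  rw [map_inv₀, h1]
  exact inv_lt_one_of_one_lt₀ hx

/-- **`hcusp₁`** of `S36CX_pl₁` / `S36CX_geo_pl` / `S36CX_geo_of_geo`: (LI) at the cusps of `FF`
on the chart `U'` (here `C`, with coordinate `x₁'`). -/
theorem S36CL_hcusp₁ [Finite ιv] [IsNoetherianRing D.Λ] {ι : Type*} [Finite ι]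
    (hle : D.Λ ≤ S36LJ_Lam S₁ S₂ S₃ C.B.toSubring)
    (hge : S36LJ_Lam S₁ S₂ S₃ C.B.toSubring ≤ D.Λ)
    (R : S36LJ_Red (S₁ := S₁) (S₂ := S₂) (S₃ := S₃) C)
    (hOv : ∀ i : ιv, D.Ov i = S₁.O ∨ D.Ov i = S₂.O ∨ D.Ov i = S₃.O)
    (hfrac : ∀ x : K, ∃ b : D.Λ, (b : K) ≠ 0 ∧ (b : K) * x ∈ D.Λ)
    (j₀ : ιv) (hj₀ : D.Ov j₀ = S₁.O)
    (hoth : ∀ j : ιv, j ≠ j₀ → D.Ov j = S₂.O ∨ D.Ov j = S₃.O)
    (q : D.Λ) (c : Ω) (hc : c ≠ 0) (hqc : D.φ (q : K) = algebraMap Ω F c)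
    (hunif : S36CA_IsUnif (D.Ov j₀) (q : K))
    (h : RR_Hyp k Fk₁) (x₁ x₁' : Fk₁) (c₀ : Place k Fk₁) (hc₀ : c₀.ord x₁' < 0)
    (hR₁' : ∀ y : Fk₁, y ∈ C.Rb₁ ↔
      ∀ Q : Place k Fk₁, Q.adicValuation x₁' ≤ 1 → Q.adicValuation y ≤ 1)
    (hcz : ∀ Q : Place k Fk₁, ¬ Q.adicValuation x₁ ≤ 1 → Q.adicValuation x₁' < 1)
    (X : S36SE_Pts k Fk₁ Fk₂ Fk₃ ι) (hC : S36SE_Reg C X)
    (hxy : ∀ y, ¬ (X.P₁ y).adicValuation x₁' < 1)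
    (hint₁ : ∀ g g' : ↥C.Rb₁, (∀ y, S36SE_e₁ C X hC y g = 0) →
      (∀ y, S36SE_e₁ C X hC y g' = 0) →
      ((g * g', 0, 0) : ↥C.Rb₁ × ↥C.Rb₂ × ↥C.Rb₃) ∈ S36L3_W hS C 1)
    {Kp : Subgroup Kˣ} (hKp : Kp ≤ S36L3_NormGrp S₁ S₂ S₃)
    (hsep : ∀ u ∈ Kp, ∀ Q ∈ D.U, ∃ g : K, g ≠ 0 ∧
      (n : ℤ) * Q.ord (D.φ g) + Q.ord (D.φ ((u : Kˣ) : K)) = 0 ∧
      ∀ Q' ∈ D.U, 0 ≤ (n : ℤ) * Q'.ord (D.φ g) + Q'.ord (D.φ ((u : Kˣ) : K)))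
    (hsep0 : ∀ u ∈ Kp, ∃ g : K, g ≠ 0 ∧
      ∀ Q' ∈ D.U, 0 ≤ (n : ℤ) * Q'.ord (D.φ g) + Q'.ord (D.φ ((u : Kˣ) : K))) :
    ∀ u ∈ Kp, ∀ P : Place k Fk₁, ¬ P.adicValuation x₁ ≤ 1 → P.adicValuation x₁' ≤ 1 →
      ∃ m ∈ S36L3_W hS C ((u : Kˣ) : K), FD_c0 P ((m.1 : ↥C.Rb₁) : Fk₁) ≠ 0 := by
  intro u hu P hPx hPx'
  have hx'mem : x₁' ∈ C.Rb₁ := (hR₁' x₁').2 fun _ hQ => hQ
  refine S36CL_pl₁ hS D hle hge R hOv hfrac j₀ hj₀ hoth q c hc hqc hunif h x₁' c₀ hc₀ hR₁' X hC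
    hint₁ hKp hsep hsep0 u hu P hPx' fun y => ⟨⟨x₁', hx'mem⟩, ?_⟩
  have h0 : FD_c0 P x₁' = 0 := (FD_c0_eq_zero_iff P (h.deg_one P) hPx').2 (hcz P hPx)
  have h1 : FD_c0 (X.P₁ y) x₁' ≠ 0 := fun h1 =>
    hxy y ((FD_c0_eq_zero_iff (X.P₁ y) (h.deg_one _) (hC.reg₁ y _ hx'mem)).1 h1)
  show FD_c0 P x₁' ≠ FD_c0 (X.P₁ y) x₁'
  rw [h0]
  exact fun h => h1 h.symm

/-- **`hcusp₃`** of `S36CX_pl₃` / `S36CX_geo_pl` / `S36CX_geo_of_geo`: (LI) at the cusps of `VV`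
on the chart `U'` (here `C`, with coordinate `x₃'`). -/
theorem S36CL_hcusp₃ [Finite ιv] [IsNoetherianRing D.Λ] {ι : Type*} [Finite ι]
    (hle : D.Λ ≤ S36LJ_Lam S₁ S₂ S₃ C.B.toSubring)
    (hge : S36LJ_Lam S₁ S₂ S₃ C.B.toSubring ≤ D.Λ)
    (R : S36LJ_Red (S₁ := S₁) (S₂ := S₂) (S₃ := S₃) C)
    (hOv : ∀ i : ιv, D.Ov i = S₁.O ∨ D.Ov i = S₂.O ∨ D.Ov i = S₃.O)
    (hfrac : ∀ x : K, ∃ b : D.Λ, (b : K) ≠ 0 ∧ (b : K) * x ∈ D.Λ)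
    (j₀ : ιv) (hj₀ : D.Ov j₀ = S₃.O)
    (hoth : ∀ j : ιv, j ≠ j₀ → D.Ov j = S₁.O ∨ D.Ov j = S₂.O)
    (q : D.Λ) (c : Ω) (hc : c ≠ 0) (hqc : D.φ (q : K) = algebraMap Ω F c)
    (hunif : S36CA_IsUnif (D.Ov j₀) (q : K))
    (h : RR_Hyp k Fk₃) (x₃ x₃' : Fk₃) (c₀ : Place k Fk₃) (hc₀ : c₀.ord x₃' < 0)
    (hR₃' : ∀ y : Fk₃, y ∈ C.Rb₃ ↔
      ∀ Q : Place k Fk₃, Q.adicValuation x₃' ≤ 1 → Q.adicValuation y ≤ 1)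
    (hcz : ∀ Q : Place k Fk₃, ¬ Q.adicValuation x₃ ≤ 1 → Q.adicValuation x₃' < 1)
    (X : S36SE_Pts k Fk₁ Fk₂ Fk₃ ι) (hC : S36SE_Reg C X)
    (hxy : ∀ y, ¬ (X.P₃ y).adicValuation x₃' < 1)
    (hint₃ : ∀ g g' : ↥C.Rb₃, (∀ y, S36SE_e₃ C X hC y g = 0) →
      (∀ y, S36SE_e₃ C X hC y g' = 0) →
      ((0, 0, g * g') : ↥C.Rb₁ × ↥C.Rb₂ × ↥C.Rb₃) ∈ S36L3_W hS C 1)
    {Kp : Subgroup Kˣ} (hKp : Kp ≤ S36L3_NormGrp S₁ S₂ S₃)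
    (hsep : ∀ u ∈ Kp, ∀ Q ∈ D.U, ∃ g : K, g ≠ 0 ∧
      (n : ℤ) * Q.ord (D.φ g) + Q.ord (D.φ ((u : Kˣ) : K)) = 0 ∧
      ∀ Q' ∈ D.U, 0 ≤ (n : ℤ) * Q'.ord (D.φ g) + Q'.ord (D.φ ((u : Kˣ) : K)))
    (hsep0 : ∀ u ∈ Kp, ∃ g : K, g ≠ 0 ∧
      ∀ Q' ∈ D.U, 0 ≤ (n : ℤ) * Q'.ord (D.φ g) + Q'.ord (D.φ ((u : Kˣ) : K))) :
    ∀ u ∈ Kp, ∀ P : Place k Fk₃, ¬ P.adicValuation x₃ ≤ 1 → P.adicValuation x₃' ≤ 1 →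
      ∃ m ∈ S36L3_W hS C ((u : Kˣ) : K), FD_c0 P ((m.2.2 : ↥C.Rb₃) : Fk₃) ≠ 0 := by
  intro u hu P hPx hPx'
  have hx'mem : x₃' ∈ C.Rb₃ := (hR₃' x₃').2 fun _ hQ => hQ
  refine S36CL_pl₃ hS D hle hge R hOv hfrac j₀ hj₀ hoth q c hc hqc hunif h x₃' c₀ hc₀ hR₃' X hC
    hint₃ hKp hsep hsep0 u hu P hPx' fun y => ⟨⟨x₃', hx'mem⟩, ?_⟩
  have h0 : FD_c0 P x₃' = 0 := (FD_c0_eq_zero_iff P (h.deg_one P) hPx').2 (hcz P hPx)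
  have h1 : FD_c0 (X.P₃ y) x₃' ≠ 0 := fun h1 =>
    hxy y ((FD_c0_eq_zero_iff (X.P₃ y) (h.deg_one _) (hC.reg₃ y _ hx'mem)).1 h1)
  show FD_c0 P x₃' ≠ FD_c0 (X.P₃ y) x₃'
  rw [h0]
  exact fun h => h1 h.symm

end Fermat.Agent.S36
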