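import Fermat.Agent.S36.Int3Fam
import Fermat.Agent.S36.FixLInst
import Fermat.Agent.S36.FixLVal
import Fermat.Agent.S18.Reduce
import Fermat.Agent.S17.Data

/-!
# TRACK 10 (S36), package INT-INST (helper17), part 2: the family of valuation rings of the
lattice `Λ_U` on the field `F_L` of `H`-fixed modular functions.  Prefix `S36IT_`.

`F = modularFunctionFieldBar N`, `H ≤ Gal(ℚ̄/ℚ)` (the inertia group), `F_L = (S36FI_act N H).fixF`.

* `S36IT_algebraic_fixF` : `F` is algebraic over `F_L`;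
* `S36IT_place_ne_top`, `S36IT_nt_fixF` : every place of `F` is non-trivial on `F_L`;
* `S36IT_famX0 N H Ov dvr U : S36IT_Fam ℚ̄ F F_L ιv` — the family: the vertical rings are the
  restrictions `S36FL_OL S (Ov i)` of valuation subrings `Ov i` of `F` (the Gauss rings `FF`, `FV`,
  `VV`), assumed discrete on `F_L` (BASE-L / FIX-L-INST), the horizontal ones the places `Q ∈ U`.
* `S36IT_famX0_mem_Λ` : `f ∈ Λ_U ↔ (∀ i, f ∈ Ov i) ∧ ∀ Q ∈ U, 0 ≤ ord_Q f` (`f ≠ 0`).
-/

set_option autoImplicit false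
set_option linter.style.haveILetI false
set_option linter.unusedSectionVars false

open AlgebraicCurve ModularCurve WithZero

namespace Fermat.Agent.S36

open Fermat.Agent.S24

section general

variable {Ω F : Type*} [Field Ω] [Field F] [Algebra Ω F]

theorem S36IT_place_ne_top (Q : Place Ω F) : Q.toValuationSubring ≠ ⊤ := Q.ne_top'

end general

section X0

variable (N : ℕ) [NeZero N] (H : Subgroup (AlgebraicClosure ℚ ≃ₐ[ℚ] AlgebraicClosure ℚ))

/-- **`F` is algebraic over the field `F_L` of fixed functions.** -/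
theorem S36IT_algebraic_fixF :
    Algebra.IsAlgebraic ↥(S36FI_act N H).fixF ↥(modularFunctionFieldBar N) := by
  refine ⟨fun f => ?_⟩
  refine F_induction N (fun f => IsAlgebraic ↥(S36FI_act N H).fixF f) ?_ ?_ ?_ ?_ ?_ f
  · intro c
    have h1 : IsAlgebraic ℚ c := (AlgebraicClosure.isAlgebraic ℚ).isAlgebraic c
    have h2 : IsAlgebraic ℚ (algebraMap (AlgebraicClosure ℚ) ↥(modularFunctionFieldBar N) c) :=
      h1.algebraMap
    exact h2.tower_top _
  · intro d _ hd
    have hmem : jBar N d hd ∈ (S36FI_act N H).fixF :=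
      (S36FI_mem_fixF N H).2 fun σ _ => S36FI_jBar_fixed N σ d hd
    exact isAlgebraic_algebraMap (⟨jBar N d hd, hmem⟩ : ↥(S36FI_act N H).fixF)
  · intro x y hx hy
    exact hx.add hy
  · intro x y hx hy
    exact hx.mul hy
  · intro x hx
    exact hx.inv

/-- every place of `F` is non-trivial on `F_L`. -/
theorem S36IT_nt_fixF (Q : Place (AlgebraicClosure ℚ) ↥(modularFunctionFieldBar N)) :
    ∃ x : ↥(S36FI_act N H).fixF, (S36FI_act N H).fixF.subtype x ∉ Q.toValuationSubring := by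
  haveI := S36IT_algebraic_fixF N H
  exact S36IT_nt_of_algebraic Q.toValuationSubring (S36IT_place_ne_top Q)

/-- **the family of valuation rings of `Λ_U`** on `F_L`. -/
noncomputable def S36IT_famX0 {ιv : Type*}
    (Ov : ιv → ValuationSubring ↥(modularFunctionFieldBar N))
    (dvr : ∀ i, IsDiscreteValuationRing (S36FL_OL (S36FI_act N H) (Ov i)))
    (U : Set (Place (AlgebraicClosure ℚ) ↥(modularFunctionFieldBar N))) :
    S36IT_Fam (AlgebraicClosure ℚ) ↥(modularFunctionFieldBar N) ↥(S36FI_act N H).fixF ιv where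
  φ := (S36FI_act N H).fixF.subtype
  Ov i := S36FL_OL (S36FI_act N H) (Ov i)
  dvr_v := dvr
  U := U
  nt Q _ := S36IT_nt_fixF N H Q
  poles f := Fermat.Agent.S17.S17DA_poles_finite (Fermat.Agent.S18.S18_hPD N) f

variable {N H} in
/-- membership in the lattice `Λ_U`. -/
theorem S36IT_famX0_mem_Λ {ιv : Type*}
    (Ov : ιv → ValuationSubring ↥(modularFunctionFieldBar N))
    (dvr : ∀ i, IsDiscreteValuationRing (S36FL_OL (S36FI_act N H) (Ov i)))
    (U : Set (Place (AlgebraicClosure ℚ) ↥(modularFunctionFieldBar N)))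
    (f : ↥(S36FI_act N H).fixF) :
    f ∈ (S36IT_famX0 N H Ov dvr U).Λ ↔
      (∀ i, (f : ↥(modularFunctionFieldBar N)) ∈ Ov i) ∧
        ∀ Q ∈ U, (f : ↥(modularFunctionFieldBar N)) ∈ Q.toValuationSubring :=
  (S36IT_famX0 N H Ov dvr U).mem_Λ_iff

variable {N H} in
/-- membership in the lattice `Λ_U`, order form. -/
theorem S36IT_famX0_mem_Λ_ord {ιv : Type*}
    (Ov : ιv → ValuationSubring ↥(modularFunctionFieldBar N))
    (dvr : ∀ i, IsDiscreteValuationRing (S36FL_OL (S36FI_act N H) (Ov i)))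
    (U : Set (Place (AlgebraicClosure ℚ) ↥(modularFunctionFieldBar N)))
    (f : ↥(S36FI_act N H).fixF) :
    f ∈ (S36IT_famX0 N H Ov dvr U).Λ ↔
      (∀ i, (f : ↥(modularFunctionFieldBar N)) ∈ Ov i) ∧
        ∀ Q ∈ U, f = 0 ∨ 0 ≤ Q.ord (f : ↥(modularFunctionFieldBar N)) := by
  rw [S36IT_famX0_mem_Λ]
  refine and_congr Iff.rfl (forall_congr' fun Q => forall_congr' fun _ => ?_)
  rw [S36IT_place_mem_iff, Place.adicValuation_le_one_iff]
  refine or_congr ?_ Iff.rfl
  constructor
  · intro h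
    exact Subtype.ext h
  · intro h
    rw [h]
    rfl

variable {N H} in
/-- the lattice is monotone in the chart. -/
theorem S36IT_famX0_Λ_mono {ιv : Type*}
    (Ov : ιv → ValuationSubring ↥(modularFunctionFieldBar N))
    (dvr : ∀ i, IsDiscreteValuationRing (S36FL_OL (S36FI_act N H) (Ov i)))
    {U U' : Set (Place (AlgebraicClosure ℚ) ↥(modularFunctionFieldBar N))} (hU : U' ⊆ U) :
    (S36IT_famX0 N H Ov dvr U).Λ ≤ (S36IT_famX0 N H Ov dvr U').Λ := by
  intro f hf
  rw [S36IT_famX0_mem_Λ] at hf ⊢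
  exact ⟨hf.1, fun Q hQ => hf.2 Q (hU hQ)⟩

end X0

end Fermat.Agent.S36
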