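import Mathlib
import Fermat.Agent.S36.Int3Fam

/-!
# TRACK 10 (S36), C2.8 LI-INST, part 4 (helper19): `hfrac` — the lattice has the whole field as
its fraction field.  Prefix `S36LQ_`.

`hfrac : ∀ x : K, ∃ b : Λ, (b : K) ≠ 0 ∧ (b : K) * x ∈ Λ` is an input of `S36LW_li`,
`S36LF_li`, `S36LK_*` (helper19) and of `S36FN_MU_fg` (helper7).

* `S36LQ_mem_of_isIntegral` : an intersection of valuation rings is integrally closed;
* `S36LQ_hfrac` : if `K` is algebraic over a subring `R₀ ⊆ Λ` (e.g. `R₀ = O_L[j]`), and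
  `Λ = K₀ ∩ ⋂ O i`, then `hfrac` holds on `K₀`;
* `S36IT_Fam.S36LQ_hfrac_fam` : the same for helper17's family `D`.
-/

set_option autoImplicit false

namespace Fermat.Agent.S36

section

variable {K : Type*} [Field K] {ι : Type*}

/-- an element integral over a subring of a valuation ring lies in the valuation ring. -/
theorem S36LQ_mem_of_isIntegral (O : ValuationSubring K) (R₀ : Subring K)
    (hR₀ : ∀ r : K, r ∈ R₀ → r ∈ O) {x : K} (hx : IsIntegral R₀ x) : x ∈ O := by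
  obtain ⟨p, hp, hpx⟩ := hx
  -- map the polynomial to `O`
  let incl : R₀ →+* O := Subring.inclusion (S := R₀) (T := O.toSubring) hR₀
  have hint : IsIntegral O x := by
    refine ⟨p.map incl, hp.map incl, ?_⟩
    rw [Polynomial.eval₂_map]
    exact hpx
  obtain ⟨y, hy⟩ := (IsIntegrallyClosed.isIntegral_iff (R := O) (K := K)).1 hint
  rw [← hy]
  exact y.2

/-- **`hfrac`**: if every element of `K₀` is algebraic over a subring `R₀ ⊆ Λ`, then every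
element of `K₀` has a non-zero denominator in `Λ = K₀ ∩ ⋂ O i`. -/
theorem S36LQ_hfrac (O : ι → ValuationSubring K) (K₀ : Subfield K) (Λ : Subring K)
    (hΛ : ∀ x : K, x ∈ Λ ↔ x ∈ K₀ ∧ ∀ i, x ∈ O i)
    (R₀ : Subring K) (hR₀ : ∀ r : K, r ∈ R₀ → r ∈ Λ)
    (halg : ∀ x : K, x ∈ K₀ → IsAlgebraic R₀ x) :
    ∀ x : K, x ∈ K₀ → ∃ b : Λ, (b : K) ≠ 0 ∧ (b : K) * x ∈ Λ := by
  intro x hx
  obtain ⟨b, hb0, hb⟩ := (halg x hx).exists_integral_multiple
  have hbΛ : (b : K) ∈ Λ := hR₀ _ b.2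
  refine ⟨⟨b, hbΛ⟩, fun h => hb0 (Subtype.ext h), ?_⟩
  rw [hΛ]
  refine ⟨K₀.mul_mem ((hΛ _).1 hbΛ).1 hx, fun i => ?_⟩
  exact S36LQ_mem_of_isIntegral (O i) R₀ (fun r hr => ((hΛ r).1 (hR₀ r hr)).2 i) hb

end

namespace S36IT_Fam

open AlgebraicCurve

variable {Ω F K : Type*} [Field Ω] [Field F] [Algebra Ω F] [Field K] {ιv : Type*}
  (D : S36IT_Fam Ω F K ιv)

/-- **`hfrac` for the lattice `D.Λ`** of helper17's family. -/
theorem S36LQ_hfrac_fam (R₀ : Subring K) (hR₀ : ∀ r : K, r ∈ R₀ → r ∈ D.Λ)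
    (halg : ∀ x : K, IsAlgebraic R₀ x) :
    ∀ x : K, ∃ b : D.Λ, (b : K) ≠ 0 ∧ (b : K) * x ∈ D.Λ := fun x =>
  S36LQ_hfrac D.O ⊤ D.Λ
    (fun x => ⟨fun h => ⟨Subfield.mem_top x, h⟩, fun h => h.2⟩) R₀ hR₀
    (fun x _ => halg x) x (Subfield.mem_top x)

end S36IT_Fam

end Fermat.Agent.S36
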