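import Mathlib
import Fermat.Agent.S17.RRAvoid
import Fermat.Agent.S36.LDesc

/-!
# TRACK 10 (S36), package SEP-H (helper29): separating functions over the inertia field

`F = modularFunctionFieldBar N ⊂ ℚ̄((q))`, `H ⊂ Gal(ℚ̄/ℚ)` a subgroup (an inertia group) acting
semilinearly on `F` through the `q`-expansion coefficients (`GR_gal`).

* `S36SH_echelon`, `S36SH_span_fixed` (abstract, Mathlib only): a finite-dimensional subspace `W`
  of a `K`-vector space with coordinate functionals, stable under a family of coordinatewise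
  acting operators, has a (reduced echelon) basis of FIXED vectors.  No Hilbert 90, no Dedekind
  independence, no profinite group theory.
* `S36SH_rr_stable`, `S36SH_rr_span` : `L(D)` for an `H`-stable divisor `D` is spanned by its
  `H`-fixed elements.
* `S36SH_main` : `E ≥ 0` an `H`-stable divisor of positive degree, `Orb` an `H`-stable finite set of
  places disjoint from `E`, `Q ∈ Orb`, `a : ℤ`: there is an `H`-fixed `f ≠ 0` with
  `ord_Q f = a` EXACTLY, `ord_v f ≥ a` on `Orb`, and `ord_v f ≥ - m E(v)` elsewhere.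
* `S36SH_orbit` : the `H`-orbit of a place is finite (as a `Finset`).
* `S36SH_chart` : chart form: `x` an `H`-fixed non-constant function, `Q` a place with
  `ord_Q x ≥ 0`: there is an `H`-fixed `f` with `ord_Q f = a` exactly and `ord_v f ≥ 0` at every
  place `v` outside the `H`-orbit of `Q` with `ord_v x ≥ 0` (poles only over `x = ∞`).
-/

set_option autoImplicit false
set_option linter.unusedSectionVars false

open AlgebraicCurve ModularCurve HahnSeries

namespace Fermat.Agent.S36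

/-! ### abstract part: the echelon basis of a stable subspace is fixed -/

section Abstract

variable {K V ι H : Type*} [Field K] [AddCommGroup V] [Module K V]

/-- **echelon descent**: a stable finite-dimensional subspace has a reduced echelon basis
consisting of fixed vectors. -/
theorem S36SH_echelon (onK : H → K →+* K) (onV : H → V → V)
    (coe : ι → V →ₗ[K] K) (hcoe : ∀ h i v, coe i (onV h v) = onK h (coe i v))
    (hsep : ∀ v, (∀ i, coe i v = 0) → v = 0) :
    ∀ (d : ℕ) (W : Submodule K V), FiniteDimensional K W → Module.finrank K W = d →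
      (∀ h, ∀ w ∈ W, onV h w ∈ W) →
      ∃ (n : ℕ) (b : Fin n → V) (idx : Fin n → ι),
        (∀ k, b k ∈ W) ∧ (∀ k h, onV h (b k) = b k) ∧
        (∀ k l, coe (idx k) (b l) = if k = l then 1 else 0) ∧
        (∀ y ∈ W, y = ∑ k, coe (idx k) y • b k) := by
  intro d
  induction d using Nat.strong_induction_on with
  | _ d ih =>
    intro W hfin hd hst
    by_cases hW : W = ⊥
    · refine ⟨0, Fin.elim0, Fin.elim0, fun k => k.elim0, fun k => k.elim0, fun k => k.elim0,
        fun y hy => ?_⟩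
      rw [hW, Submodule.mem_bot] at hy
      simp [hy]
    · obtain ⟨w, hwW, hw0⟩ := Submodule.exists_mem_ne_zero_of_ne_bot hW
      obtain ⟨i₀, hi₀⟩ : ∃ i₀, coe i₀ w ≠ 0 := by
        by_contra hcon
        push Not at hcon
        exact hw0 (hsep w hcon)
      set W₁ : Submodule K V := W ⊓ LinearMap.ker (coe i₀) with hW₁
      have hmem₁ : ∀ x, x ∈ W₁ ↔ x ∈ W ∧ coe i₀ x = 0 := fun x => by
        rw [hW₁, Submodule.mem_inf, LinearMap.mem_ker]
      have hle : W₁ ≤ W := inf_le_left
      have hlt : W₁ < W := by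
        refine lt_of_le_of_ne hle fun heq => ?_
        have : w ∈ W₁ := by rw [heq]; exact hwW
        exact hi₀ ((hmem₁ w).mp this).2
      have : FiniteDimensional K W := hfin
      have hfin₁ : FiniteDimensional K W₁ := Submodule.finiteDimensional_of_le hle
      have hrk : Module.finrank K W₁ < d := by
        rw [← hd]
        exact Submodule.finrank_lt_finrank_of_lt hlt
      have hst₁ : ∀ h, ∀ w ∈ W₁, onV h w ∈ W₁ := by
        intro h x hx
        rw [hmem₁] at hx ⊢
        refine ⟨hst h x hx.1, ?_⟩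
        rw [hcoe, hx.2, map_zero]
      obtain ⟨n, b, idx, hb, hfix, hdel, hexp⟩ := ih _ hrk W₁ hfin₁ rfl hst₁
      -- the new vector
      set c := coe i₀ w with hc
      set w' : V := c⁻¹ • w with hw'
      have hw'W : w' ∈ W := W.smul_mem _ hwW
      have hw'1 : coe i₀ w' = 1 := by
        rw [hw', map_smul, smul_eq_mul, inv_mul_cancel₀ hi₀]
      set w₁ : V := w' - ∑ k, coe (idx k) w' • b k with hw₁
      have hbker : ∀ k, coe i₀ (b k) = 0 := fun k => ((hmem₁ _).mp (hb k)).2
      have hw₁W : w₁ ∈ W :=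
        W.sub_mem hw'W (W.sum_mem fun k _ => W.smul_mem _ (hle (hb k)))
      have hw₁0 : coe i₀ w₁ = 1 := by
        rw [hw₁, map_sub, map_sum, hw'1]
        simp [hbker]
      have hw₁k : ∀ l, coe (idx l) w₁ = 0 := by
        intro l
        rw [hw₁, map_sub, map_sum]
        simp only [map_smul, smul_eq_mul, hdel]
        simp
      have hzero : ∀ x ∈ W₁, (∀ k, coe (idx k) x = 0) → x = 0 := by
        intro x hx h0
        rw [hexp x hx]
        simp [h0]
      refine ⟨n + 1, Fin.cons w₁ b, Fin.cons i₀ idx, ?_, ?_, ?_, ?_⟩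
      · intro k
        refine Fin.cases ?_ (fun k => ?_) k
        · simpa using hw₁W
        · simpa using hle (hb k)
      · intro k h
        refine Fin.cases ?_ (fun k => ?_) k
        · simp only [Fin.cons_zero]
          have hx : onV h w₁ - w₁ ∈ W₁ := by
            rw [hmem₁]
            refine ⟨W.sub_mem (hst h w₁ hw₁W) hw₁W, ?_⟩
            rw [map_sub, hcoe, hw₁0, map_one, sub_self]
          have := hzero _ hx (fun k => by rw [map_sub, hcoe, hw₁k, map_zero, sub_self])
          exact sub_eq_zero.mp this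
        · simpa using hfix k h
      · intro k l
        refine Fin.cases ?_ (fun k => ?_) k <;> refine Fin.cases ?_ (fun l => ?_) l
        · simpa using hw₁0
        · simp only [Fin.cons_zero, Fin.cons_succ, hbker]
          rw [if_neg (Fin.succ_ne_zero l).symm]
        · simp only [Fin.cons_zero, Fin.cons_succ, hw₁k]
          rw [if_neg (Fin.succ_ne_zero k)]
        · simp only [Fin.cons_succ, hdel, Fin.succ_inj]
      · intro y hy
        rw [Fin.sum_univ_succ]
        simp only [Fin.cons_zero, Fin.cons_succ]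
        have hy₁ : y - coe i₀ y • w₁ ∈ W₁ := by
          rw [hmem₁]
          refine ⟨W.sub_mem hy (W.smul_mem _ hw₁W), ?_⟩
          rw [map_sub, map_smul, hw₁0, smul_eq_mul, mul_one, sub_self]
        have h1 := hexp _ hy₁
        have h2 : ∀ k, coe (idx k) (y - coe i₀ y • w₁) = coe (idx k) y := by
          intro k
          rw [map_sub, map_smul, hw₁k, smul_zero, sub_zero]
        simp only [h2] at h1
        rw [← h1]
        abel

/-- **a stable finite-dimensional subspace is spanned by its fixed vectors**. -/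
theorem S36SH_span_fixed (onK : H → K →+* K) (onV : H → V → V)
    (coe : ι → V →ₗ[K] K) (hcoe : ∀ h i v, coe i (onV h v) = onK h (coe i v))
    (hsep : ∀ v, (∀ i, coe i v = 0) → v = 0)
    (W : Submodule K V) [FiniteDimensional K W] (hst : ∀ h, ∀ w ∈ W, onV h w ∈ W) :
    W ≤ Submodule.span K {w | w ∈ W ∧ ∀ h, onV h w = w} := by
  obtain ⟨n, b, idx, hb, hfix, -, hexp⟩ :=
    S36SH_echelon onK onV coe hcoe hsep _ W inferInstance rfl hst
  intro y hy
  rw [hexp y hy]
  exact Submodule.sum_mem _ fun k _ =>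
    Submodule.smul_mem _ _ (Submodule.subset_span ⟨hb k, fun h => hfix k h⟩)

/-- a subspace spanned by fixed vectors which is not contained in `W'` contains a fixed vector
outside `W'`. -/
theorem S36SH_exists_fixed_not_mem (onV : H → V → V) (W W' : Submodule K V)
    (hspan : W ≤ Submodule.span K {w | w ∈ W ∧ ∀ h, onV h w = w}) (hnot : ¬ W ≤ W') :
    ∃ w ∈ W, (∀ h, onV h w = w) ∧ w ∉ W' := by
  by_contra hcon
  push Not at hcon
  apply hnot
  refine hspan.trans (Submodule.span_le.mpr ?_)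
  rintro w ⟨hw, hfix⟩
  exact hcon w hw hfix

end Abstract

/-! ### the modular function field -/

section Concrete

local notation "ℚbar" => AlgebraicClosure ℚ

open Fermat.Agent.Lib Fermat.Agent.GalRep Fermat.Agent.S24 Fermat.Agent.S17

variable (N : ℕ) [NeZero N]

/-- the `q`-expansion coefficient functionals on `F`. -/
noncomputable def S36SH_coe (k : ℤ) : ↥(modularFunctionFieldBar N) →ₗ[ℚbar] ℚbar where
  toFun f := (f : LaurentSeries ℚbar).coeff k
  map_add' f g := rfl
  map_smul' c f := by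
    rw [Algebra.smul_def]
    exact S36LD_coeff_const_mul N c f k

theorem S36SH_coe_apply (k : ℤ) (f : ↥(modularFunctionFieldBar N)) :
    S36SH_coe N k f = (f : LaurentSeries ℚbar).coeff k := rfl

theorem S36SH_coe_sep (f : ↥(modularFunctionFieldBar N)) (h : ∀ k, S36SH_coe N k f = 0) :
    f = 0 := by
  apply Subtype.ext
  ext k
  exact h k

theorem S36SH_coe_gal (σ : GQ) (k : ℤ) (f : ↥(modularFunctionFieldBar N)) :
    S36SH_coe N k (GR_gal N σ f) = σ (S36SH_coe N k f) :=
  S36LD_coeff_gal N σ f k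

/-- `L(D)` is stable under `τ` if `D` is. -/
theorem S36SH_rr_stable (τ : GQ) (D : Divisor ℚbar ↥(modularFunctionFieldBar N))
    (hD : ∀ v, D (arithmeticGalois (modularFunctionFieldFull N) τ • v) = D v)
    (f : ↥(modularFunctionFieldBar N)) (hf : f ∈ riemannRochSpace D) :
    GR_gal N τ f ∈ riemannRochSpace D := by
  rcases eq_or_ne f 0 with rfl | hf0
  · rw [map_zero]
    exact Submodule.zero_mem _
  have hτf0 : GR_gal N τ f ≠ 0 := fun h0 => hf0 ((map_eq_zero_iff _ (GR_gal N τ).injective).mp h0)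
  rw [S17RS_mem_iff_ord hτf0]
  intro w
  have hw : arithmeticGalois (modularFunctionFieldFull N) τ •
      ((arithmeticGalois (modularFunctionFieldFull N) τ)⁻¹ • w) = w := smul_inv_smul _ _
  have h1 := S36LD_ord_gal N τ ((arithmeticGalois (modularFunctionFieldFull N) τ)⁻¹ • w) f
  rw [hw] at h1
  have h2 := hD ((arithmeticGalois (modularFunctionFieldFull N) τ)⁻¹ • w)
  rw [hw] at h2
  rw [h1, h2]
  exact (S17RS_mem_iff_ord hf0).mp hf _

/-- **`L(D)` is spanned by its `H`-fixed elements** for an `H`-stable divisor `D`. -/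
theorem S36SH_rr_span (H : Set GQ) (D : Divisor ℚbar ↥(modularFunctionFieldBar N))
    (hD : ∀ τ ∈ H, ∀ v, D (arithmeticGalois (modularFunctionFieldFull N) τ • v) = D v) :
    riemannRochSpace D ≤
      Submodule.span ℚbar {w | w ∈ riemannRochSpace D ∧ ∀ τ : H, GR_gal N τ.1 w = w} := by
  have : FiniteDimensional ℚbar (riemannRochSpace D) := RR_finite (S36LD_hRR N) D
  exact S36SH_span_fixed (H := H) (fun τ => ((τ.1 : ℚbar ≃ₐ[ℚ] ℚbar) : ℚbar →+* ℚbar))
    (fun τ => GR_gal N τ.1) (S36SH_coe N) (fun τ k f => S36SH_coe_gal N τ.1 k f)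
    (S36SH_coe_sep N) (riemannRochSpace D) (fun τ f hf => S36SH_rr_stable N τ.1 D (hD τ.1 τ.2) f hf)

/-- **SEP-H, main theorem**: `D₀`, `E` two `H`-stable divisors, `deg E > 0`, `Q` a place.  For a
suitable `m` there is an `H`-fixed `g ≠ 0` in `L(D₀ + m E)` with `ord_Q g = -(D₀ + m E)(Q)`
EXACTLY. -/
theorem S36SH_main (H : Set GQ) (D₀ E : Divisor ℚbar ↥(modularFunctionFieldBar N))
    (hD₀ : ∀ τ ∈ H, ∀ v, D₀ (arithmeticGalois (modularFunctionFieldFull N) τ • v) = D₀ v)
    (hE : ∀ τ ∈ H, ∀ v, E (arithmeticGalois (modularFunctionFieldFull N) τ • v) = E v)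
    (hEdeg : 0 < E.degree) (Q : Place ℚbar ↥(modularFunctionFieldBar N)) :
    ∃ (m : ℕ) (g : ↥(modularFunctionFieldBar N)), g ≠ 0 ∧ (∀ τ ∈ H, GR_gal N τ g = g) ∧
      Q.ord g = -(D₀ Q + (m : ℤ) * E Q) ∧ ∀ v : Place ℚbar ↥(modularFunctionFieldBar N),
        -(D₀ v + (m : ℤ) * E v) ≤ v.ord g := by
  classical
  have hR := S36LD_hRR N
  set m : ℕ := (2 * (RR_genus ℚbar ↥(modularFunctionFieldBar N) : ℤ) + 1 - D₀.degree).toNat
    with hm
  set D : Divisor ℚbar ↥(modularFunctionFieldBar N) := D₀ + m • E with hDdef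
  have hDv : ∀ v, D v = D₀ v + (m : ℤ) * E v := by
    intro v
    rw [hDdef, Finsupp.add_apply, Finsupp.smul_apply, nsmul_eq_mul]
  have hdeg : 2 * (RR_genus ℚbar ↥(modularFunctionFieldBar N) : ℤ) + 1 ≤ D.degree := by
    rw [hDdef, map_add, map_nsmul, nsmul_eq_mul]
    have h1 : (2 * (RR_genus ℚbar ↥(modularFunctionFieldBar N) : ℤ) + 1 - D₀.degree) ≤ (m : ℤ) :=
      Int.self_le_toNat _
    have h2 : (m : ℤ) ≤ (m : ℤ) * E.degree := by
      have : (0 : ℤ) ≤ m := Int.natCast_nonneg _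
      nlinarith
    linarith
  have hDst : ∀ τ ∈ H, ∀ v, D (arithmeticGalois (modularFunctionFieldFull N) τ • v) = D v := by
    intro τ hτ v
    rw [hDv, hDv, hD₀ τ hτ, hE τ hτ]
  have hnot := S17RS_not_le_sub_single hR D hdeg Q
  obtain ⟨g, hg, hfix, hgnot⟩ := S36SH_exists_fixed_not_mem (H := H) (fun τ => GR_gal N τ.1)
    (riemannRochSpace D) (riemannRochSpace (D - Finsupp.single Q 1)) (S36SH_rr_span N H D hDst) hnot
  have hg0 : g ≠ 0 := by
    rintro rfl
    exact hgnot (Submodule.zero_mem _)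
  refine ⟨m, g, hg0, fun τ hτ => hfix ⟨τ, hτ⟩, ?_, fun v => ?_⟩
  · rw [S17RS_ord_eq_of_not_mem hg hgnot, hDv]
  · rw [← hDv]
    exact (S17RS_mem_iff_ord hg0).mp hg v

/-- the pole divisor of an `H`-fixed function is `H`-stable. -/
theorem S36SH_poleDiv_stable (τ : GQ) (x : ↥(modularFunctionFieldBar N))
    (hx : GR_gal N τ x = x) (v : Place ℚbar ↥(modularFunctionFieldBar N)) :
    RR_poleDiv (S36LD_hRR N).principal x (arithmeticGalois (modularFunctionFieldFull N) τ • v) =
      RR_poleDiv (S36LD_hRR N).principal x v := by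
  rw [RR_poleDiv_apply, RR_poleDiv_apply]
  have h1 := S36LD_ord_gal N τ v x
  rw [hx] at h1
  rw [h1]

/-- **SEP-H, chart form**: `x` an `H`-fixed function with a pole (the chart `U = {x ≠ ∞}`), `D₀` an
`H`-stable divisor, `Q ∈ U`: there is an `H`-fixed `g ≠ 0` with `ord_Q g = - D₀(Q)` EXACTLY and
`ord_v g ≥ - D₀(v)` at every place `v ∈ U`. -/
theorem S36SH_chart (H : Set GQ) (x : ↥(modularFunctionFieldBar N))
    (hx : ∀ τ ∈ H, GR_gal N τ x = x)
    (hpole : ∃ v : Place ℚbar ↥(modularFunctionFieldBar N), v.ord x < 0)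
    (D₀ : Divisor ℚbar ↥(modularFunctionFieldBar N))
    (hD₀ : ∀ τ ∈ H, ∀ v, D₀ (arithmeticGalois (modularFunctionFieldFull N) τ • v) = D₀ v)
    (Q : Place ℚbar ↥(modularFunctionFieldBar N)) (hQ : 0 ≤ Q.ord x) :
    ∃ g : ↥(modularFunctionFieldBar N), g ≠ 0 ∧ (∀ τ ∈ H, GR_gal N τ g = g) ∧
      Q.ord g = - D₀ Q ∧ ∀ v : Place ℚbar ↥(modularFunctionFieldBar N),
        0 ≤ v.ord x → - D₀ v ≤ v.ord g := by
  have hR := S36LD_hRR N
  obtain ⟨v₀, hv₀⟩ := hpole
  have hE0 : ∀ v : Place ℚbar ↥(modularFunctionFieldBar N), 0 ≤ v.ord x →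
      RR_poleDiv hR.principal x v = 0 := by
    intro v hv
    rw [RR_poleDiv_apply]
    exact max_eq_right (by linarith)
  obtain ⟨m, g, hg0, hfix, hQg, hall⟩ := S36SH_main N H D₀ (RR_poleDiv hR.principal x) hD₀
    (fun τ hτ v => S36SH_poleDiv_stable N τ x (hx τ hτ) v)
    (RR_poleDiv_degree_pos hR.deg_one hR.principal v₀ hv₀) Q
  refine ⟨g, hg0, hfix, ?_, fun v hv => ?_⟩
  · rw [hQg, hE0 Q hQ, mul_zero, add_zero]
  · have := hall v
    rwa [hE0 v hv, mul_zero, add_zero] at this

/-- **SEP-H, Kummer form** (the shape of `hgen` in F7, `S36LV_li`): `u` a Kummer generator of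
exponent `n` with `H`-stable divisor (`u` is `H`-fixed up to constants and `n`-th powers suffices;
here: `n D₀ = div u` with `D₀` `H`-stable), `x` the chart function, `Q ∈ U`: there is an `H`-fixed
`g ≠ 0` with `n ord_Q g + ord_Q u = 0` and `n ord_v g + ord_v u ≥ 0` for all `v ∈ U`. -/
theorem S36SH_kummer (H : Set GQ) (x : ↥(modularFunctionFieldBar N))
    (hx : ∀ τ ∈ H, GR_gal N τ x = x)
    (hpole : ∃ v : Place ℚbar ↥(modularFunctionFieldBar N), v.ord x < 0)
    (n : ℕ) (u : ↥(modularFunctionFieldBar N))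
    (D₀ : Divisor ℚbar ↥(modularFunctionFieldBar N))
    (hu : ∀ v, (n : ℤ) * D₀ v = v.ord u)
    (hD₀ : ∀ τ ∈ H, ∀ v, D₀ (arithmeticGalois (modularFunctionFieldFull N) τ • v) = D₀ v)
    (Q : Place ℚbar ↥(modularFunctionFieldBar N)) (hQ : 0 ≤ Q.ord x) :
    ∃ g : ↥(modularFunctionFieldBar N), g ≠ 0 ∧ (∀ τ ∈ H, GR_gal N τ g = g) ∧
      (n : ℤ) * Q.ord g + Q.ord u = 0 ∧ ∀ v : Place ℚbar ↥(modularFunctionFieldBar N),
        0 ≤ v.ord x → 0 ≤ (n : ℤ) * v.ord g + v.ord u := by
  obtain ⟨g, hg0, hfix, hQg, hall⟩ := S36SH_chart N H x hx hpole D₀ hD₀ Q hQ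
  refine ⟨g, hg0, hfix, ?_, fun v hv => ?_⟩
  · rw [hQg, ← hu]
    ring
  · have h1 := hall v hv
    have h2 : (0 : ℤ) ≤ n := Int.natCast_nonneg _
    rw [← hu]
    nlinarith

/-- **SEP-H, Kummer form without a marked place** (the shape of `hgen0` in F7). -/
theorem S36SH_kummer0 (H : Set GQ) (x : ↥(modularFunctionFieldBar N))
    (hx : ∀ τ ∈ H, GR_gal N τ x = x)
    (hpole : ∃ v : Place ℚbar ↥(modularFunctionFieldBar N), v.ord x < 0)
    (n : ℕ) (u : ↥(modularFunctionFieldBar N))
    (D₀ : Divisor ℚbar ↥(modularFunctionFieldBar N))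
    (hu : ∀ v, (n : ℤ) * D₀ v = v.ord u)
    (hD₀ : ∀ τ ∈ H, ∀ v, D₀ (arithmeticGalois (modularFunctionFieldFull N) τ • v) = D₀ v) :
    ∃ g : ↥(modularFunctionFieldBar N), g ≠ 0 ∧ (∀ τ ∈ H, GR_gal N τ g = g) ∧
      ∀ v : Place ℚbar ↥(modularFunctionFieldBar N),
        0 ≤ v.ord x → 0 ≤ (n : ℤ) * v.ord g + v.ord u := by
  have hR := S36LD_hRR N
  obtain ⟨v₀, hv₀⟩ := hpole
  obtain ⟨m, g, hg0, hfix, -, hall⟩ := S36SH_main N H D₀ (RR_poleDiv hR.principal x) hD₀
    (fun τ hτ v => S36SH_poleDiv_stable N τ x (hx τ hτ) v)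
    (RR_poleDiv_degree_pos hR.deg_one hR.principal v₀ hv₀) v₀
  refine ⟨g, hg0, hfix, fun v hv => ?_⟩
  have h1 := hall v
  have hE0 : RR_poleDiv hR.principal x v = 0 := by
    rw [RR_poleDiv_apply]
    exact max_eq_right (by linarith)
  rw [hE0, mul_zero, add_zero] at h1
  have h2 : (0 : ℤ) ≤ n := Int.natCast_nonneg _
  rw [← hu]
  nlinarith

end Concrete

end Fermat.Agent.S36
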