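import Mathlib
import Fermat.Agent.S36.SepH
import Fermat.Agent.S36.Int3Inst
import Fermat.Agent.S36.WireInst
import Fermat.Agent.S36.LiFrac

/-!
# TRACK 10 (S36), C2.8 LI-INST, part 5 (helper19): the non-bundle inputs of `S36LK_*` on the
concrete family `S36IT_famX0` (helper17).  Prefix `S36LS_`.

`F = modularFunctionFieldBar N`, `H ≤ Gal(ℚ̄/ℚ)`, `F_L = (S36FI_act N H).fixF`,
`D = S36IT_famX0 N H Ov dvr U`.

* `S36LS_exists_root` : the divisor of a Kummer generator has an `n`-th root;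
* `S36LS_kummer` : SEP-H (helper29, `S36SH_kummer`, `S36SH_kummer0`) for a Kummer generator
  `u ∈ S36WC_Kum (S36FI_act N H) n` on the chart `{x ≠ ∞}` of an `H`-fixed function `x`, with the
  separating functions in `F_L`;
* `S36LS_hsep`, `S36LS_hsep0` : **the hypotheses `hsep`, `hsep0` of `S36LK_*`** on
  `D = S36IT_famX0 N H Ov dvr U`, `U ⊆ {x ≠ ∞}` (for the chart `U' ⊆ {x ≠ c}` apply them to
  `x' = 1 / (x - c)`).
-/

set_option autoImplicit false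
set_option linter.unusedSectionVars false
set_option linter.style.haveILetI false

open AlgebraicCurve ModularCurve

namespace Fermat.Agent.S36

open Fermat.Agent.Lib Fermat.Agent.GalRep Fermat.Agent.S24 Fermat.Agent.S17

section root

variable {K F : Type*} [Field K] [Field F] [Algebra K F]

/-- the divisor of a Kummer generator has an `n`-th root. -/
theorem S36LS_exists_root (hP : HasPrincipalDivisors K F) (n : ℕ) (u : F) (hu0 : u ≠ 0)
    (hdvd : ∀ v : Place K F, (n : ℤ) ∣ v.ord u) :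
    ∃ D₀ : Divisor K F, ∀ v, (n : ℤ) * D₀ v = v.ord u := by
  obtain ⟨D, hD, -⟩ := hP.exists_divisor u hu0
  refine ⟨D.mapRange (fun a => a / (n : ℤ)) (by simp), fun v => ?_⟩
  rw [Finsupp.mapRange_apply, hD v]
  exact Int.mul_ediv_cancel' (hdvd v)

end root

section sep

local notation "ℚbar" => AlgebraicClosure ℚ

variable (N : ℕ) [NeZero N] (H : Subgroup GQ)

/-- **SEP-H for a Kummer generator of the fixed field**, on the chart `{x ≠ ∞}`. -/
theorem S36LS_kummer (x : ↥(modularFunctionFieldBar N)) (hx : ∀ τ ∈ H, GR_gal N τ x = x)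
    (hpole : ∃ v : Place ℚbar ↥(modularFunctionFieldBar N), v.ord x < 0)
    (n : ℕ) (hn : n ≠ 0) (u : (↥(S36FI_act N H).fixF)ˣ)
    (hu : u ∈ S36WC_Kum (S36FI_act N H) n) :
    (∀ Q : Place ℚbar ↥(modularFunctionFieldBar N), 0 ≤ Q.ord x →
      ∃ g : ↥(S36FI_act N H).fixF, g ≠ 0 ∧
        (n : ℤ) * Q.ord (g : ↥(modularFunctionFieldBar N)) +
          Q.ord (((u : ↥(S36FI_act N H).fixF)) : ↥(modularFunctionFieldBar N)) = 0 ∧
        ∀ v : Place ℚbar ↥(modularFunctionFieldBar N), 0 ≤ v.ord x →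
          0 ≤ (n : ℤ) * v.ord (g : ↥(modularFunctionFieldBar N)) +
            v.ord (((u : ↥(S36FI_act N H).fixF)) : ↥(modularFunctionFieldBar N))) ∧
    (∃ g : ↥(S36FI_act N H).fixF, g ≠ 0 ∧
        ∀ v : Place ℚbar ↥(modularFunctionFieldBar N), 0 ≤ v.ord x →
          0 ≤ (n : ℤ) * v.ord (g : ↥(modularFunctionFieldBar N)) +
            v.ord (((u : ↥(S36FI_act N H).fixF)) : ↥(modularFunctionFieldBar N))) := by
  set uF : ↥(modularFunctionFieldBar N) := (((u : ↥(S36FI_act N H).fixF)) : ↥(modularFunctionFieldBar N)) with huF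
  have hu0 : uF ≠ 0 := fun h => u.ne_zero (Subtype.ext h)
  have hufix : ∀ τ ∈ H, GR_gal N τ uF = uF := fun τ hτ =>
    (S36FI_mem_fixF N H).1 (u : ↥(S36FI_act N H).fixF).2 τ hτ
  obtain ⟨D₀, hD₀⟩ := S36LS_exists_root (S36LD_hRR N).principal n uF hu0 (fun v => hu v)
  have hn' : (n : ℤ) ≠ 0 := Int.natCast_ne_zero.2 hn
  have hstab : ∀ τ ∈ (H : Set GQ), ∀ v,
      D₀ (arithmeticGalois (modularFunctionFieldFull N) τ • v) = D₀ v := by
    intro τ hτ v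
    apply mul_left_cancel₀ hn'
    rw [hD₀, hD₀]
    have h1 := S36LD_ord_gal N τ v uF
    rw [hufix τ hτ] at h1
    exact h1
  have hx' : ∀ τ ∈ (H : Set GQ), GR_gal N τ x = x := fun τ hτ => hx τ hτ
  constructor
  · intro Q hQ
    obtain ⟨g, hg0, hgfix, h1, h2⟩ := S36SH_kummer N (H : Set GQ) x hx' hpole n uF D₀ hD₀ hstab Q hQ
    have hgmem : g ∈ (S36FI_act N H).fixF := (S36FI_mem_fixF N H).2 fun σ hσ => hgfix σ hσ
    exact ⟨⟨g, hgmem⟩, fun h => hg0 (congrArg Subtype.val h), h1, h2⟩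
  · obtain ⟨g, hg0, hgfix, h2⟩ := S36SH_kummer0 N (H : Set GQ) x hx' hpole n uF D₀ hD₀ hstab
    have hgmem : g ∈ (S36FI_act N H).fixF := (S36FI_mem_fixF N H).2 fun σ hσ => hgfix σ hσ
    exact ⟨⟨g, hgmem⟩, fun h => hg0 (congrArg Subtype.val h), h2⟩

variable {N H} in
/-- **`hsep` of `S36LK_*`** on `S36IT_famX0 N H Ov dvr U`, `U ⊆ {x ≠ ∞}`. -/
theorem S36LS_hsep {ιv : Type*}
    (Ov : ιv → ValuationSubring ↥(modularFunctionFieldBar N))
    (dvr : ∀ i, IsDiscreteValuationRing (S36FL_OL (S36FI_act N H) (Ov i)))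
    (U : Set (Place ℚbar ↥(modularFunctionFieldBar N)))
    (x : ↥(modularFunctionFieldBar N)) (hx : ∀ τ ∈ H, GR_gal N τ x = x)
    (hpole : ∃ v : Place ℚbar ↥(modularFunctionFieldBar N), v.ord x < 0)
    (hU : ∀ Q ∈ U, 0 ≤ Q.ord x)
    (n : ℕ) (hn : n ≠ 0) (u : (↥(S36FI_act N H).fixF)ˣ)
    (hu : u ∈ S36WC_Kum (S36FI_act N H) n) :
    ∀ Q ∈ (S36IT_famX0 N H Ov dvr U).U, ∃ g : ↥(S36FI_act N H).fixF, g ≠ 0 ∧
      (n : ℤ) * Q.ord ((S36IT_famX0 N H Ov dvr U).φ g) +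
        Q.ord ((S36IT_famX0 N H Ov dvr U).φ (u : ↥(S36FI_act N H).fixF)) = 0 ∧
      ∀ Q' ∈ (S36IT_famX0 N H Ov dvr U).U,
        0 ≤ (n : ℤ) * Q'.ord ((S36IT_famX0 N H Ov dvr U).φ g) +
          Q'.ord ((S36IT_famX0 N H Ov dvr U).φ (u : ↥(S36FI_act N H).fixF)) := by
  intro Q hQ
  obtain ⟨g, hg0, h1, h2⟩ := (S36LS_kummer N H x hx hpole n hn u hu).1 Q (hU Q hQ)
  exact ⟨g, hg0, h1, fun Q' hQ' => h2 Q' (hU Q' hQ')⟩

variable {N H} in
/-- **`hsep0` of `S36LK_*`** on `S36IT_famX0 N H Ov dvr U`, `U ⊆ {x ≠ ∞}`. -/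
theorem S36LS_hsep0 {ιv : Type*}
    (Ov : ιv → ValuationSubring ↥(modularFunctionFieldBar N))
    (dvr : ∀ i, IsDiscreteValuationRing (S36FL_OL (S36FI_act N H) (Ov i)))
    (U : Set (Place ℚbar ↥(modularFunctionFieldBar N)))
    (x : ↥(modularFunctionFieldBar N)) (hx : ∀ τ ∈ H, GR_gal N τ x = x)
    (hpole : ∃ v : Place ℚbar ↥(modularFunctionFieldBar N), v.ord x < 0)
    (hU : ∀ Q ∈ U, 0 ≤ Q.ord x)
    (n : ℕ) (hn : n ≠ 0) (u : (↥(S36FI_act N H).fixF)ˣ)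
    (hu : u ∈ S36WC_Kum (S36FI_act N H) n) :
    ∃ g : ↥(S36FI_act N H).fixF, g ≠ 0 ∧
      ∀ Q' ∈ (S36IT_famX0 N H Ov dvr U).U,
        0 ≤ (n : ℤ) * Q'.ord ((S36IT_famX0 N H Ov dvr U).φ g) +
          Q'.ord ((S36IT_famX0 N H Ov dvr U).φ (u : ↥(S36FI_act N H).fixF)) := by
  obtain ⟨g, hg0, h2⟩ := (S36LS_kummer N H x hx hpole n hn u hu).2
  exact ⟨g, hg0, fun Q' hQ' => h2 Q' (hU Q' hQ')⟩

end sep

end Fermat.Agent.S36
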