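import Mathlib
import Fermat.Agent.S36.LiSep
import Fermat.Agent.S36.Int3Three
import Fermat.Agent.S34.InjConc
import Fermat.Agent.Lib.DescExt

/-!
# TRACK 10 (S36), SEP-H-INST (helper20): `hsepH`, `hsepH0` on the concrete family `S36IT_fam3`
for the charts `U = {B ≠ ∞}` and `U' = {B ≠ c}`.  Prefix `S36SJ_`.

On top of helper19's `S36LS_hsep`, `S36LS_hsep0` (`S36/LiSep.lean`, chart `{x ≠ ∞}`):

* `S36SJ_inv_fixed`, `S36SJ_inv_pole`, `S36SJ_inv_nonneg` : the chart function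
  `x' = (x - c)⁻¹` of `U' = {x ≠ c}` is `H`-fixed, has a pole, and is regular on `U'`;
* `S36SJ_hsep'`, `S36SJ_hsep0'` : `hsep`, `hsep0` on `S36IT_famX0 N H Ov dvr U`, `U ⊆ {x ≠ c}`;
* `S36SJ_hsepH_U`, `S36SJ_hsepH0_U`   : the hypotheses `hsepH`, `hsepH0` of `S36TX_geo_U` for
  `D = S36IT_fam3 … dvr (S34IX_TU B)` and every subgroup `Kp ≤ S36WC_Kum A₂ n`;
* `S36SJ_hsepH_U'`, `S36SJ_hsepH0_U'` : the same for `D = S36IT_fam3 … dvr (S34IX_TU' B c)`.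
-/

set_option autoImplicit false
set_option linter.unusedSectionVars false
set_option linter.unusedVariables false
set_option linter.style.haveILetI false

open AlgebraicCurve ModularCurve

namespace Fermat.Agent.S36

open Fermat.Agent.Lib Fermat.Agent.GalRep Fermat.Agent.S24 Fermat.Agent.S17 Fermat.Agent.S18
  Fermat.Agent.S34

local notation "ℚbar" => AlgebraicClosure ℚ

section general

variable (N : ℕ) [NeZero N] (H : Subgroup GQ)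

/-- the chart function `(x - c)⁻¹` of `U' = {x ≠ c}` is fixed. -/
theorem S36SJ_inv_fixed (x : ↥(modularFunctionFieldBar N)) (hx : ∀ τ ∈ H, GR_gal N τ x = x)
    (c : ℚbar) (hc : ∀ τ ∈ H, τ c = c) :
    ∀ τ ∈ H, GR_gal N τ (x - algebraMap ℚbar ↥(modularFunctionFieldBar N) c)⁻¹ =
      (x - algebraMap ℚbar ↥(modularFunctionFieldBar N) c)⁻¹ := by
  intro τ hτ
  rw [map_inv₀, map_sub, hx τ hτ]
  have h1 : GR_gal N τ (algebraMap ℚbar ↥(modularFunctionFieldBar N) c) =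
      algebraMap ℚbar ↥(modularFunctionFieldBar N) (τ c) :=
    arithmeticRingAut_algebraMap _ τ c
  rw [h1, hc τ hτ]

/-- the chart function `(x - c)⁻¹` has a pole (if `x` has one). -/
theorem S36SJ_inv_pole (x : ↥(modularFunctionFieldBar N))
    (hpole : ∃ v : Place ℚbar ↥(modularFunctionFieldBar N), v.ord x < 0) (c : ℚbar) :
    ∃ v : Place ℚbar ↥(modularFunctionFieldBar N),
      v.ord (x - algebraMap ℚbar ↥(modularFunctionFieldBar N) c)⁻¹ < 0 := by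
  obtain ⟨v₀, hv₀⟩ := hpole
  refine DSC_exists_pole (S36LD_hRR N) _ ?_
  rintro ⟨c', hc'⟩
  have hne : x - algebraMap ℚbar ↥(modularFunctionFieldBar N) c ≠ 0 := by
    intro h0
    rw [sub_eq_zero] at h0
    rw [h0, S18_Spec.ord_algebraMap] at hv₀
    exact lt_irrefl _ hv₀
  have h1 : x - algebraMap ℚbar ↥(modularFunctionFieldBar N) c =
      algebraMap ℚbar ↥(modularFunctionFieldBar N) c'⁻¹ := by
    rw [map_inv₀, ← hc', inv_inv]
  have h2 : x = algebraMap ℚbar ↥(modularFunctionFieldBar N) (c'⁻¹ + c) := by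
    rw [map_add, ← h1]
    ring
  rw [h2, S18_Spec.ord_algebraMap] at hv₀
  exact lt_irrefl _ hv₀

/-- the chart function `(x - c)⁻¹` is regular on `U' = {x ≠ c}`. -/
theorem S36SJ_inv_nonneg (x : ↥(modularFunctionFieldBar N)) (c : ℚbar)
    (Q : Place ℚbar ↥(modularFunctionFieldBar N)) (hQ : Q ∈ S34IX_TU' x c) :
    0 ≤ Q.ord (x - algebraMap ℚbar ↥(modularFunctionFieldBar N) c)⁻¹ := by
  rw [Place.ord_inv]
  have : Q.ord (x - algebraMap ℚbar ↥(modularFunctionFieldBar N) c) ≤ 0 := hQ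
  omega

variable {N H} in
/-- **`hsep` of `S36LK_*`** on `S36IT_famX0 N H Ov dvr U`, `U ⊆ {x ≠ c}`. -/
theorem S36SJ_hsep' {ιv : Type*}
    (Ov : ιv → ValuationSubring ↥(modularFunctionFieldBar N))
    (dvr : ∀ i, IsDiscreteValuationRing (S36FL_OL (S36FI_act N H) (Ov i)))
    (U : Set (Place ℚbar ↥(modularFunctionFieldBar N)))
    (x : ↥(modularFunctionFieldBar N)) (hx : ∀ τ ∈ H, GR_gal N τ x = x)
    (hpole : ∃ v : Place ℚbar ↥(modularFunctionFieldBar N), v.ord x < 0)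
    (c : ℚbar) (hc : ∀ τ ∈ H, τ c = c)
    (hU : U ⊆ S34IX_TU' x c)
    (n : ℕ) (hn : n ≠ 0) (u : (↥(S36FI_act N H).fixF)ˣ)
    (hu : u ∈ S36WC_Kum (S36FI_act N H) n) :
    ∀ Q ∈ (S36IT_famX0 N H Ov dvr U).U, ∃ g : ↥(S36FI_act N H).fixF, g ≠ 0 ∧
      (n : ℤ) * Q.ord ((S36IT_famX0 N H Ov dvr U).φ g) +
        Q.ord ((S36IT_famX0 N H Ov dvr U).φ (u : ↥(S36FI_act N H).fixF)) = 0 ∧
      ∀ Q' ∈ (S36IT_famX0 N H Ov dvr U).U,
        0 ≤ (n : ℤ) * Q'.ord ((S36IT_famX0 N H Ov dvr U).φ g) +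
          Q'.ord ((S36IT_famX0 N H Ov dvr U).φ (u : ↥(S36FI_act N H).fixF)) :=
  S36LS_hsep Ov dvr U _ (S36SJ_inv_fixed N H x hx c hc) (S36SJ_inv_pole N x hpole c)
    (fun Q hQ => S36SJ_inv_nonneg N x c Q (hU hQ)) n hn u hu

variable {N H} in
/-- **`hsep0` of `S36LK_*`** on `S36IT_famX0 N H Ov dvr U`, `U ⊆ {x ≠ c}`. -/
theorem S36SJ_hsep0' {ιv : Type*}
    (Ov : ιv → ValuationSubring ↥(modularFunctionFieldBar N))
    (dvr : ∀ i, IsDiscreteValuationRing (S36FL_OL (S36FI_act N H) (Ov i)))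
    (U : Set (Place ℚbar ↥(modularFunctionFieldBar N)))
    (x : ↥(modularFunctionFieldBar N)) (hx : ∀ τ ∈ H, GR_gal N τ x = x)
    (hpole : ∃ v : Place ℚbar ↥(modularFunctionFieldBar N), v.ord x < 0)
    (c : ℚbar) (hc : ∀ τ ∈ H, τ c = c)
    (hU : U ⊆ S34IX_TU' x c)
    (n : ℕ) (hn : n ≠ 0) (u : (↥(S36FI_act N H).fixF)ˣ)
    (hu : u ∈ S36WC_Kum (S36FI_act N H) n) :
    ∃ g : ↥(S36FI_act N H).fixF, g ≠ 0 ∧
      ∀ Q' ∈ (S36IT_famX0 N H Ov dvr U).U,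
        0 ≤ (n : ℤ) * Q'.ord ((S36IT_famX0 N H Ov dvr U).φ g) +
          Q'.ord ((S36IT_famX0 N H Ov dvr U).φ (u : ↥(S36FI_act N H).fixF)) :=
  S36LS_hsep0 Ov dvr U _ (S36SJ_inv_fixed N H x hx c hc) (S36SJ_inv_pole N x hpole c)
    (fun Q hQ => S36SJ_inv_nonneg N x c Q (hU hQ)) n hn u hu

end general

/-! ### the concrete family `S36IT_fam3` -/

section fam3

variable (M q : ℕ) [NeZero M] [NeZero q] (hq : q.Prime) (hqM : ¬ q ∣ M)
  (A : ValuationSubring ℚbar) (hA : A.LiesOverPrime q)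
  (ζ : ℚbarˣ) (hζ : ζ ^ q = 1) (hζ1 : ζ ≠ 1)
  (dvr : ∀ i, IsDiscreteValuationRing
      (S36FL_OL (S36FI_act (M * q * q) (A.inertiaSubgroupIn ℚ))
        (S36IT_Ov3 M q hq hqM A hA ζ hζ hζ1 i)))
  (B : ↥(S36FI_act (M * q * q) (A.inertiaSubgroupIn ℚ)).fixF)
  (c : ↥(S36FI_act (M * q * q) (A.inertiaSubgroupIn ℚ)).fixK)
  (n : ℕ)
  (Kp : Subgroup (↥(S36FI_act (M * q * q) (A.inertiaSubgroupIn ℚ)).fixF)ˣ)

/-- `B ∈ F_L` is fixed by the inertia group. -/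
theorem S36SJ_B_fixed : ∀ τ ∈ A.inertiaSubgroupIn ℚ,
    GR_gal (M * q * q) τ (B : ↥(modularFunctionFieldBar (M * q * q))) =
      (B : ↥(modularFunctionFieldBar (M * q * q))) :=
  fun τ hτ => (S36FI_mem_fixF (M * q * q) (A.inertiaSubgroupIn ℚ)).1 B.2 τ hτ

/-- `c ∈ L` is fixed by the inertia group. -/
theorem S36SJ_c_fixed : ∀ τ ∈ A.inertiaSubgroupIn ℚ, τ (c : ℚbar) = (c : ℚbar) :=
  fun τ hτ => (S36FI_mem_fixK (M * q * q) (A.inertiaSubgroupIn ℚ)).1 c.2 τ hτ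

/-- **`hsepH` of `S36TX_geo_U`** on the chart `U = {B ≠ ∞}`, `D = S36IT_fam3 … (S34IX_TU B)`. -/
theorem S36SJ_hsepH_U
    (hpole : ∃ v : Place ℚbar ↥(modularFunctionFieldBar (M * q * q)),
      v.ord (B : ↥(modularFunctionFieldBar (M * q * q))) < 0)
    (hn : n ≠ 0)
    (hKp : Kp ≤ S36WC_Kum (S36FI_act (M * q * q) (A.inertiaSubgroupIn ℚ)) n) :
    ∀ u ∈ Kp, ∀ Q ∈ (S36IT_fam3 M q hq hqM A hA ζ hζ hζ1 dvr
        (S34IX_TU (K := ℚbar) (B : ↥(modularFunctionFieldBar (M * q * q))))).U,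
      ∃ g : ↥(S36FI_act (M * q * q) (A.inertiaSubgroupIn ℚ)).fixF, g ≠ 0 ∧
      (n : ℤ) * Q.ord ((S36IT_fam3 M q hq hqM A hA ζ hζ hζ1 dvr
        (S34IX_TU (K := ℚbar) (B : ↥(modularFunctionFieldBar (M * q * q))))).φ g) +
        Q.ord ((S36IT_fam3 M q hq hqM A hA ζ hζ hζ1 dvr
          (S34IX_TU (K := ℚbar) (B : ↥(modularFunctionFieldBar (M * q * q))))).φ
            ((u : (↥(S36FI_act (M * q * q) (A.inertiaSubgroupIn ℚ)).fixF)ˣ) :
              ↥(S36FI_act (M * q * q) (A.inertiaSubgroupIn ℚ)).fixF)) = 0 ∧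
      ∀ Q' ∈ (S36IT_fam3 M q hq hqM A hA ζ hζ hζ1 dvr
          (S34IX_TU (K := ℚbar) (B : ↥(modularFunctionFieldBar (M * q * q))))).U,
        0 ≤ (n : ℤ) * Q'.ord ((S36IT_fam3 M q hq hqM A hA ζ hζ hζ1 dvr
          (S34IX_TU (K := ℚbar) (B : ↥(modularFunctionFieldBar (M * q * q))))).φ g) +
          Q'.ord ((S36IT_fam3 M q hq hqM A hA ζ hζ hζ1 dvr
            (S34IX_TU (K := ℚbar) (B : ↥(modularFunctionFieldBar (M * q * q))))).φ
              ((u : (↥(S36FI_act (M * q * q) (A.inertiaSubgroupIn ℚ)).fixF)ˣ) :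
                ↥(S36FI_act (M * q * q) (A.inertiaSubgroupIn ℚ)).fixF)) :=
  fun u hu => S36LS_hsep (S36IT_Ov3 M q hq hqM A hA ζ hζ hζ1) dvr _
    (B : ↥(modularFunctionFieldBar (M * q * q))) (S36SJ_B_fixed M q A B) hpole
    (fun Q hQ => hQ) n hn u (hKp hu)

/-- **`hsepH0` of `S36TX_geo_U`** on the chart `U = {B ≠ ∞}`. -/
theorem S36SJ_hsepH0_U
    (hpole : ∃ v : Place ℚbar ↥(modularFunctionFieldBar (M * q * q)),
      v.ord (B : ↥(modularFunctionFieldBar (M * q * q))) < 0)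
    (hn : n ≠ 0)
    (hKp : Kp ≤ S36WC_Kum (S36FI_act (M * q * q) (A.inertiaSubgroupIn ℚ)) n) :
    ∀ u ∈ Kp, ∃ g : ↥(S36FI_act (M * q * q) (A.inertiaSubgroupIn ℚ)).fixF, g ≠ 0 ∧
      ∀ Q' ∈ (S36IT_fam3 M q hq hqM A hA ζ hζ hζ1 dvr
          (S34IX_TU (K := ℚbar) (B : ↥(modularFunctionFieldBar (M * q * q))))).U,
        0 ≤ (n : ℤ) * Q'.ord ((S36IT_fam3 M q hq hqM A hA ζ hζ hζ1 dvr
          (S34IX_TU (K := ℚbar) (B : ↥(modularFunctionFieldBar (M * q * q))))).φ g) +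
          Q'.ord ((S36IT_fam3 M q hq hqM A hA ζ hζ hζ1 dvr
            (S34IX_TU (K := ℚbar) (B : ↥(modularFunctionFieldBar (M * q * q))))).φ
              ((u : (↥(S36FI_act (M * q * q) (A.inertiaSubgroupIn ℚ)).fixF)ˣ) :
                ↥(S36FI_act (M * q * q) (A.inertiaSubgroupIn ℚ)).fixF)) :=
  fun u hu => S36LS_hsep0 (S36IT_Ov3 M q hq hqM A hA ζ hζ hζ1) dvr _
    (B : ↥(modularFunctionFieldBar (M * q * q))) (S36SJ_B_fixed M q A B) hpole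
    (fun Q hQ => hQ) n hn u (hKp hu)

/-- **`hsepH`** on the chart `U' = {B ≠ c}`, `D = S36IT_fam3 … (S34IX_TU' B c)`. -/
theorem S36SJ_hsepH_U'
    (hpole : ∃ v : Place ℚbar ↥(modularFunctionFieldBar (M * q * q)),
      v.ord (B : ↥(modularFunctionFieldBar (M * q * q))) < 0)
    (hn : n ≠ 0)
    (hKp : Kp ≤ S36WC_Kum (S36FI_act (M * q * q) (A.inertiaSubgroupIn ℚ)) n) :
    ∀ u ∈ Kp, ∀ Q ∈ (S36IT_fam3 M q hq hqM A hA ζ hζ hζ1 dvr
        (S34IX_TU' (B : ↥(modularFunctionFieldBar (M * q * q))) (c : ℚbar))).U,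
      ∃ g : ↥(S36FI_act (M * q * q) (A.inertiaSubgroupIn ℚ)).fixF, g ≠ 0 ∧
      (n : ℤ) * Q.ord ((S36IT_fam3 M q hq hqM A hA ζ hζ hζ1 dvr
        (S34IX_TU' (B : ↥(modularFunctionFieldBar (M * q * q))) (c : ℚbar))).φ g) +
        Q.ord ((S36IT_fam3 M q hq hqM A hA ζ hζ hζ1 dvr
          (S34IX_TU' (B : ↥(modularFunctionFieldBar (M * q * q))) (c : ℚbar))).φ
            ((u : (↥(S36FI_act (M * q * q) (A.inertiaSubgroupIn ℚ)).fixF)ˣ) :
              ↥(S36FI_act (M * q * q) (A.inertiaSubgroupIn ℚ)).fixF)) = 0 ∧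
      ∀ Q' ∈ (S36IT_fam3 M q hq hqM A hA ζ hζ hζ1 dvr
          (S34IX_TU' (B : ↥(modularFunctionFieldBar (M * q * q))) (c : ℚbar))).U,
        0 ≤ (n : ℤ) * Q'.ord ((S36IT_fam3 M q hq hqM A hA ζ hζ hζ1 dvr
          (S34IX_TU' (B : ↥(modularFunctionFieldBar (M * q * q))) (c : ℚbar))).φ g) +
          Q'.ord ((S36IT_fam3 M q hq hqM A hA ζ hζ hζ1 dvr
            (S34IX_TU' (B : ↥(modularFunctionFieldBar (M * q * q))) (c : ℚbar))).φ
              ((u : (↥(S36FI_act (M * q * q) (A.inertiaSubgroupIn ℚ)).fixF)ˣ) :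
                ↥(S36FI_act (M * q * q) (A.inertiaSubgroupIn ℚ)).fixF)) :=
  fun u hu => S36SJ_hsep' (S36IT_Ov3 M q hq hqM A hA ζ hζ hζ1) dvr _
    (B : ↥(modularFunctionFieldBar (M * q * q))) (S36SJ_B_fixed M q A B) hpole
    (c : ℚbar) (S36SJ_c_fixed M q A c) (fun Q hQ => hQ) n hn u (hKp hu)

/-- **`hsepH0`** on the chart `U' = {B ≠ c}`. -/
theorem S36SJ_hsepH0_U'
    (hpole : ∃ v : Place ℚbar ↥(modularFunctionFieldBar (M * q * q)),
      v.ord (B : ↥(modularFunctionFieldBar (M * q * q))) < 0)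
    (hn : n ≠ 0)
    (hKp : Kp ≤ S36WC_Kum (S36FI_act (M * q * q) (A.inertiaSubgroupIn ℚ)) n) :
    ∀ u ∈ Kp, ∃ g : ↥(S36FI_act (M * q * q) (A.inertiaSubgroupIn ℚ)).fixF, g ≠ 0 ∧
      ∀ Q' ∈ (S36IT_fam3 M q hq hqM A hA ζ hζ hζ1 dvr
          (S34IX_TU' (B : ↥(modularFunctionFieldBar (M * q * q))) (c : ℚbar))).U,
        0 ≤ (n : ℤ) * Q'.ord ((S36IT_fam3 M q hq hqM A hA ζ hζ hζ1 dvr
          (S34IX_TU' (B : ↥(modularFunctionFieldBar (M * q * q))) (c : ℚbar))).φ g) +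
          Q'.ord ((S36IT_fam3 M q hq hqM A hA ζ hζ hζ1 dvr
            (S34IX_TU' (B : ↥(modularFunctionFieldBar (M * q * q))) (c : ℚbar))).φ
              ((u : (↥(S36FI_act (M * q * q) (A.inertiaSubgroupIn ℚ)).fixF)ˣ) :
                ↥(S36FI_act (M * q * q) (A.inertiaSubgroupIn ℚ)).fixF)) :=
  fun u hu => S36SJ_hsep0' (S36IT_Ov3 M q hq hqM A hA ζ hζ hζ1) dvr _
    (B : ↥(modularFunctionFieldBar (M * q * q))) (S36SJ_B_fixed M q A B) hpole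
    (c : ℚbar) (S36SJ_c_fixed M q A c) (fun Q hQ => hQ) n hn u (hKp hu)

end fam3

end Fermat.Agent.S36
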