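import Fermat.Agent.S36.CuspLiUnr
import Fermat.Agent.S36.ChartsB
import Fermat.Agent.S36.ChartTransferSep
import Fermat.Agent.S36.SepHInst
import Fermat.Agent.S36.Int3Closed
import Fermat.Agent.S36.FracInst

/-!
# TRACK 10 (S36), audit item U5 (helper8): the concrete `hcusp₁`, `hcusp₃` of `S36CX_geo_U'2`
= helper2's `S36CL_hcusp₁/₃` instantiated on the lattice `D′ = Λ_{U′}` of the chart `U′ = {B ≠ c}`.
Prefix `S36CLI_`.

Concrete objects: `S = S36FI_act (M q q) I`, `S₁ S₂ S₃ = S36FI_SFF, S36FI_SFV, S36FI_SVV` (helper1),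
`j = S36CO_BL` (`B = j(t^q)`), charts `S36CZ_C'`, `S36CZ_C''` (helper23),
`D′ = S36IT_lat … (S34IX_TU' B c)` (helper17).

Supplied here: `hle`, `hge`, `hOv` (helper23), `hfrac` (`S36FQ_hfrac_U'`), the uniformiser `q`
(`S36VDV_isUnif_FF/_VV`), the pole `c₀`, `hR'`, `hcz`, `hxy`, `hsep`, `hsep0` (helper20's
`S36SJ_hsepH_U'`, `S36SJ_hsepH0_U'`).
Left as hypotheses (owned by others): `[IsNoetherianRing D′.Λ]` and `R : S36LJ_Red C′` (FIN on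
`U′`), `h : RR_Hyp k κ` (RBAR), `hint₁`, `hint₃` (NODAL3 on `U′`), `hpole` (`B` has a pole).

* `S36CLI_BL_eq` : `S36CO_BL = β (j)` (the two names of `B`);
* `S36CLI_hfrac'` : `hfrac` for `D′` in the shape of the charts `S36CZ_C'`;
* **`S36CLI_hcusp₁`**, **`S36CLI_hcusp₃`**.
-/

set_option autoImplicit false
set_option synthInstance.maxHeartbeats 400000
set_option maxHeartbeats 1000000
set_option linter.unusedSectionVars false
set_option linter.unusedVariables false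
set_option linter.style.haveILetI false

open AlgebraicCurve ModularCurve HahnSeries IntermediateField

noncomputable section

namespace Fermat.Agent.S36

open Fermat.Agent.Lib Fermat.Agent.S18 Fermat.Agent.S24 Fermat.Agent.S34

local notation "Ω" => AlgebraicClosure ℚ

variable (M q : ℕ) [NeZero M] [NeZero q] (hq : q.Prime) (hqM : ¬ q ∣ M)
  (A : ValuationSubring Ω) (hA : A.LiesOverPrime q)
  (ζ : Ωˣ) (hζ : ζ ^ q = 1) (hζ1 : ζ ≠ 1)

/-- the two names of the coordinate `B = j(t^q)`. -/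
theorem S36CLI_BL_eq :
    jBar (M * q * q) q (S36CO_q_dvd M q) = heckeBetaBar Ω (M * q) q (jB (M * q)) := by
  apply Subtype.ext
  rw [coe_heckeBetaBar, S36V_coe_jBar]
  show jqNModC Ω q =
    qExpand Ω q ((jBar (M * q) 1 (one_dvd _) : ↥(modularFunctionFieldBar (M * q))) :
      LaurentSeries Ω)
  rw [S36V_coe_jBar, jqNModC_one]
  rfl

variable (c : (S36FI_SFF M q hq hqM A hA).A)

/-- **`hfrac` on the lattice of the chart `U′`**, in the shape of helper23's charts. -/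
theorem S36CLI_hfrac' :
    ∀ x : ↥(S36FI_act (M * q * q) (A.inertiaSubgroupIn ℚ)).fixF,
      ∃ b : (S36IT_lat M q hq hqM A hA ζ hζ hζ1
          (S34IX_TU' ((S36CO_BL M q (A.inertiaSubgroupIn ℚ) :
            ↥(S36FI_act (M * q * q) (A.inertiaSubgroupIn ℚ)).fixF) :
              ↥(modularFunctionFieldBar (M * q * q)))
            (((c : ↥(S36FI_act (M * q * q) (A.inertiaSubgroupIn ℚ)).fixK)) : Ω))).Λ,
        (b : ↥(S36FI_act (M * q * q) (A.inertiaSubgroupIn ℚ)).fixF) ≠ 0 ∧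
          (b : ↥(S36FI_act (M * q * q) (A.inertiaSubgroupIn ℚ)).fixF) * x ∈
            (S36IT_lat M q hq hqM A hA ζ hζ hζ1
              (S34IX_TU' ((S36CO_BL M q (A.inertiaSubgroupIn ℚ) :
                ↥(S36FI_act (M * q * q) (A.inertiaSubgroupIn ℚ)).fixF) :
                  ↥(modularFunctionFieldBar (M * q * q)))
                (((c : ↥(S36FI_act (M * q * q) (A.inertiaSubgroupIn ℚ)).fixK)) : Ω))).Λ :=
  S36FQ_hfrac_U' M q hq hqM A hA ζ hζ hζ1 (S36IT_dvr3_inst M q hq hqM A hA ζ hζ hζ1) _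
    (c : ↥(S36FI_act (M * q * q) (A.inertiaSubgroupIn ℚ)).fixK) c.2
    (by rw [S36CO_BL_coe, S36CLI_BL_eq])

/-- **`hfrac` on the lattice of the chart `U`**, in the shape of helper23's charts. -/
theorem S36CLI_hfrac :
    ∀ x : ↥(S36FI_act (M * q * q) (A.inertiaSubgroupIn ℚ)).fixF,
      ∃ b : (S36IT_lat M q hq hqM A hA ζ hζ hζ1
          (S34IX_TU (K := Ω) ((S36CO_BL M q (A.inertiaSubgroupIn ℚ) :
            ↥(S36FI_act (M * q * q) (A.inertiaSubgroupIn ℚ)).fixF) :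
              ↥(modularFunctionFieldBar (M * q * q))))).Λ,
        (b : ↥(S36FI_act (M * q * q) (A.inertiaSubgroupIn ℚ)).fixF) ≠ 0 ∧
          (b : ↥(S36FI_act (M * q * q) (A.inertiaSubgroupIn ℚ)).fixF) * x ∈
            (S36IT_lat M q hq hqM A hA ζ hζ hζ1
              (S34IX_TU (K := Ω) ((S36CO_BL M q (A.inertiaSubgroupIn ℚ) :
                ↥(S36FI_act (M * q * q) (A.inertiaSubgroupIn ℚ)).fixF) :
                  ↥(modularFunctionFieldBar (M * q * q))))).Λ :=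
  S36FQ_hfrac_U M q hq hqM A hA ζ hζ hζ1 (S36IT_dvr3_inst M q hq hqM A hA ζ hζ hζ1) _
    (by rw [S36CO_BL_coe, S36CLI_BL_eq])

/-! ### the concrete `hcusp₁`, `hcusp₃` -/

section cusp

variable (n : ℕ) (hn : 0 < n)

/-- the constant `q` as an element of the lattice. -/
def S36CLI_q (T : Set (Place Ω ↥(modularFunctionFieldBar (M * q * q)))) :
    (S36IT_lat M q hq hqM A hA ζ hζ hζ1 T).Λ :=
  ⟨((q : ℕ) : ↥(S36FI_act (M * q * q) (A.inertiaSubgroupIn ℚ)).fixF), natCast_mem _ q⟩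

theorem S36CLI_q_phi (T : Set (Place Ω ↥(modularFunctionFieldBar (M * q * q)))) :
    (S36IT_lat M q hq hqM A hA ζ hζ hζ1 T).φ
        ((S36CLI_q M q hq hqM A hA ζ hζ hζ1 T :
          (S36IT_lat M q hq hqM A hA ζ hζ hζ1 T).Λ) :
          ↥(S36FI_act (M * q * q) (A.inertiaSubgroupIn ℚ)).fixF) =
      algebraMap Ω ↥(modularFunctionFieldBar (M * q * q)) ((q : ℕ) : Ω) := by
  show (S36FI_act (M * q * q) (A.inertiaSubgroupIn ℚ)).fixF.subtype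
    ((q : ℕ) : ↥(S36FI_act (M * q * q) (A.inertiaSubgroupIn ℚ)).fixF) = _
  rw [map_natCast, map_natCast]

/-- the triple points are not zeros of `1/(x̄ − c̄)`. -/
theorem S36CLI_hxy {ι : Type*}
    {X : S36SE_Pts (IsLocalRing.ResidueField A) ↥(S36FI_kappa M A) ↥(S36FI_kappa M A)
      ↥(S36FI_kappa M A) ι}
    (hX : S36SE_Reg (S36CZ_C'' M q hq hqM A hA c n hn) X) :
    (∀ y, ¬ (X.P₁ y).adicValuation (S36CZ_zb M q hq hqM A hA c)⁻¹ < 1) ∧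
    (∀ y, ¬ (X.P₃ y).adicValuation (S36CZ_zb M q hq hqM A hA c)⁻¹ < 1) := by
  have hz := S36CZ_zb_ne_zero M q hq hqM A hA c
  constructor
  · intro y hlt
    have h1 := hX.reg₁ y (S36CZ_xb M q hq hqM A hA) (S36CU_self_mem_reg2 _ _)
    have h2 := hX.reg₁ y (S36CZ_zb M q hq hqM A hA c)⁻¹ (S36CU_inv_mem_reg2 _ _)
    have h3 := S36CX_hunit (S36CZ_xb M q hq hqM A hA) _ hz (X.P₁ y) h1 h2
    exact absurd h3 hlt.ne
  · intro y hlt
    have h1 := hX.reg₃ y (S36CZ_xb M q hq hqM A hA) (S36CU_self_mem_reg2 _ _)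
    have h2 := hX.reg₃ y (S36CZ_zb M q hq hqM A hA c)⁻¹ (S36CU_inv_mem_reg2 _ _)
    have h3 := S36CX_hunit (S36CZ_xb M q hq hqM A hA) _ hz (X.P₃ y) h1 h2
    exact absurd h3 hlt.ne

/-- **the concrete `hcusp₁`** of `S36CX_geo_U'2`: (LI) at the cusps of `FF` on the chart `U′`. -/
theorem S36CLI_hcusp₁ {ι : Type*} [Finite ι]
    {X : S36SE_Pts (IsLocalRing.ResidueField A) ↥(S36FI_kappa M A) ↥(S36FI_kappa M A)
      ↥(S36FI_kappa M A) ι}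
    (hX : S36SE_Reg (S36CZ_C'' M q hq hqM A hA c n hn) X)
    [IsNoetherianRing (S36IT_lat M q hq hqM A hA ζ hζ hζ1
      (S34IX_TU' ((S36CO_BL M q (A.inertiaSubgroupIn ℚ) :
        ↥(S36FI_act (M * q * q) (A.inertiaSubgroupIn ℚ)).fixF) :
          ↥(modularFunctionFieldBar (M * q * q)))
        (((c : ↥(S36FI_act (M * q * q) (A.inertiaSubgroupIn ℚ)).fixK)) : Ω))).Λ]
    (R : S36LJ_Red (S₁ := S36FI_SFF M q hq hqM A hA)
      (S₂ := S36FI_SFV M q hq hqM A hA ζ hζ hζ1) (S₃ := S36FI_SVV M q hq hqM A hA)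
      (S36CZ_C' M q hq hqM A hA c n hn))
    (h : RR_Hyp (IsLocalRing.ResidueField A) ↥(S36FI_kappa M A))
    (hint₁ : ∀ g g' : ↥(S36CZ_C' M q hq hqM A hA c n hn).Rb₁,
      (∀ y, S36SE_e₁ (S36CZ_C' M q hq hqM A hA c n hn) X
        (hX.of_le (S36CZ_hle' M q hq hqM A hA c n hn)) y g = 0) →
      (∀ y, S36SE_e₁ (S36CZ_C' M q hq hqM A hA c n hn) X
        (hX.of_le (S36CZ_hle' M q hq hqM A hA c n hn)) y g' = 0) →
      ((g * g', 0, 0) : ↥(S36CZ_C' M q hq hqM A hA c n hn).Rb₁ ×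
          ↥(S36CZ_C' M q hq hqM A hA c n hn).Rb₂ × ↥(S36CZ_C' M q hq hqM A hA c n hn).Rb₃) ∈
        S36L3_W (S36FI_same3 M q hq hqM A hA ζ hζ hζ1) (S36CZ_C' M q hq hqM A hA c n hn) 1)
    {Kp : Subgroup (↥(S36FI_act (M * q * q) (A.inertiaSubgroupIn ℚ)).fixF)ˣ}
    (hKp : Kp ≤ S36L3_NormGrp (S36FI_SFF M q hq hqM A hA)
      (S36FI_SFV M q hq hqM A hA ζ hζ hζ1) (S36FI_SVV M q hq hqM A hA))
    (hKum : Kp ≤ S36WC_Kum (S36FI_act (M * q * q) (A.inertiaSubgroupIn ℚ)) n)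
    (hpole : ∃ v : Place Ω ↥(modularFunctionFieldBar (M * q * q)),
      v.ord ((S36CO_BL M q (A.inertiaSubgroupIn ℚ) :
        ↥(S36FI_act (M * q * q) (A.inertiaSubgroupIn ℚ)).fixF) :
          ↥(modularFunctionFieldBar (M * q * q))) < 0) :
    ∀ u ∈ Kp, ∀ P : Place (IsLocalRing.ResidueField A) ↥(S36FI_kappa M A),
      ¬ P.adicValuation (S36CZ_xb M q hq hqM A hA) ≤ 1 →
      P.adicValuation (S36CZ_zb M q hq hqM A hA c)⁻¹ ≤ 1 →
      ∃ m ∈ S36L3_W (S36FI_same3 M q hq hqM A hA ζ hζ hζ1) (S36CZ_C' M q hq hqM A hA c n hn)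
          ((u : (↥(S36FI_act (M * q * q) (A.inertiaSubgroupIn ℚ)).fixF)ˣ) :
            ↥(S36FI_act (M * q * q) (A.inertiaSubgroupIn ℚ)).fixF),
        FD_c0 P ((m.1 : ↥(S36CZ_C' M q hq hqM A hA c n hn).Rb₁) : ↥(S36FI_kappa M A)) ≠ 0 := by
  obtain ⟨c₀, hc₀⟩ := S36CX_pole_of_transc h
    (S36CX_transc_inv_sub (S36CZ_xb_transc M q hq hqM A hA)
      ((S36FI_SFF M q hq hqM A hA).res c))
  refine S36CL_hcusp₁ (S36FI_same3 M q hq hqM A hA ζ hζ hζ1)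
    (S36IT_lat M q hq hqM A hA ζ hζ hζ1
      (S34IX_TU' ((S36CO_BL M q (A.inertiaSubgroupIn ℚ) :
        ↥(S36FI_act (M * q * q) (A.inertiaSubgroupIn ℚ)).fixF) :
          ↥(modularFunctionFieldBar (M * q * q)))
        (((c : ↥(S36FI_act (M * q * q) (A.inertiaSubgroupIn ℚ)).fixK)) : Ω)))
    (S36CZ_hleΛ' M q hq hqM A hA ζ hζ hζ1 c n hn _)
    (S36CZ_Lam_eq M q hq hqM A hA ζ hζ hζ1 _ _).ge
    R (S36CZ_hOv M q hq hqM A hA ζ hζ hζ1 _ _)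
    (S36CLI_hfrac' M q hq hqM A hA ζ hζ hζ1 c)
    0 rfl ?_ (S36CLI_q M q hq hqM A hA ζ hζ hζ1 _) ((q : ℕ) : Ω)
    (by exact_mod_cast hq.ne_zero) (S36CLI_q_phi M q hq hqM A hA ζ hζ hζ1 _)
    (S36VDV_isUnif_FF M q hq A (S36V_OFF M q hq A hA) hA (fun _ => Iff.rfl))
    h (S36CZ_xb M q hq hqM A hA) (S36CZ_zb M q hq hqM A hA c)⁻¹ c₀ hc₀
    (fun y => S36CU_mem_regZ_adic)
    (fun Q hQ => S36CL_cusp_zero (S36CZ_xb M q hq hqM A hA) _ Q hQ)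
    X (hX.of_le (S36CZ_hle' M q hq hqM A hA c n hn))
    (S36CLI_hxy M q hq hqM A hA c n hn hX).1 hint₁ hKp
    (S36SJ_hsepH_U' M q hq hqM A hA ζ hζ hζ1 _ _ _ n Kp hpole hn.ne' hKum)
    (S36SJ_hsepH0_U' M q hq hqM A hA ζ hζ hζ1 _ _ _ n Kp hpole hn.ne' hKum)
  intro j hj
  fin_cases j
  · exact absurd rfl hj
  · exact Or.inl rfl
  · exact Or.inr rfl

/-- **the concrete `hcusp₃`** of `S36CX_geo_U'2`: (LI) at the cusps of `VV` on the chart `U′`. -/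
theorem S36CLI_hcusp₃ {ι : Type*} [Finite ι]
    {X : S36SE_Pts (IsLocalRing.ResidueField A) ↥(S36FI_kappa M A) ↥(S36FI_kappa M A)
      ↥(S36FI_kappa M A) ι}
    (hX : S36SE_Reg (S36CZ_C'' M q hq hqM A hA c n hn) X)
    [IsNoetherianRing (S36IT_lat M q hq hqM A hA ζ hζ hζ1
      (S34IX_TU' ((S36CO_BL M q (A.inertiaSubgroupIn ℚ) :
        ↥(S36FI_act (M * q * q) (A.inertiaSubgroupIn ℚ)).fixF) :
          ↥(modularFunctionFieldBar (M * q * q)))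
        (((c : ↥(S36FI_act (M * q * q) (A.inertiaSubgroupIn ℚ)).fixK)) : Ω))).Λ]
    (R : S36LJ_Red (S₁ := S36FI_SFF M q hq hqM A hA)
      (S₂ := S36FI_SFV M q hq hqM A hA ζ hζ hζ1) (S₃ := S36FI_SVV M q hq hqM A hA)
      (S36CZ_C' M q hq hqM A hA c n hn))
    (h : RR_Hyp (IsLocalRing.ResidueField A) ↥(S36FI_kappa M A))
    (hint₃ : ∀ g g' : ↥(S36CZ_C' M q hq hqM A hA c n hn).Rb₃,
      (∀ y, S36SE_e₃ (S36CZ_C' M q hq hqM A hA c n hn) X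
        (hX.of_le (S36CZ_hle' M q hq hqM A hA c n hn)) y g = 0) →
      (∀ y, S36SE_e₃ (S36CZ_C' M q hq hqM A hA c n hn) X
        (hX.of_le (S36CZ_hle' M q hq hqM A hA c n hn)) y g' = 0) →
      ((0, 0, g * g') : ↥(S36CZ_C' M q hq hqM A hA c n hn).Rb₁ ×
          ↥(S36CZ_C' M q hq hqM A hA c n hn).Rb₂ × ↥(S36CZ_C' M q hq hqM A hA c n hn).Rb₃) ∈
        S36L3_W (S36FI_same3 M q hq hqM A hA ζ hζ hζ1) (S36CZ_C' M q hq hqM A hA c n hn) 1)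
    {Kp : Subgroup (↥(S36FI_act (M * q * q) (A.inertiaSubgroupIn ℚ)).fixF)ˣ}
    (hKp : Kp ≤ S36L3_NormGrp (S36FI_SFF M q hq hqM A hA)
      (S36FI_SFV M q hq hqM A hA ζ hζ hζ1) (S36FI_SVV M q hq hqM A hA))
    (hKum : Kp ≤ S36WC_Kum (S36FI_act (M * q * q) (A.inertiaSubgroupIn ℚ)) n)
    (hpole : ∃ v : Place Ω ↥(modularFunctionFieldBar (M * q * q)),
      v.ord ((S36CO_BL M q (A.inertiaSubgroupIn ℚ) :
        ↥(S36FI_act (M * q * q) (A.inertiaSubgroupIn ℚ)).fixF) :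
          ↥(modularFunctionFieldBar (M * q * q))) < 0) :
    ∀ u ∈ Kp, ∀ P : Place (IsLocalRing.ResidueField A) ↥(S36FI_kappa M A),
      ¬ P.adicValuation (S36CZ_xb M q hq hqM A hA) ≤ 1 →
      P.adicValuation (S36CZ_zb M q hq hqM A hA c)⁻¹ ≤ 1 →
      ∃ m ∈ S36L3_W (S36FI_same3 M q hq hqM A hA ζ hζ hζ1) (S36CZ_C' M q hq hqM A hA c n hn)
          ((u : (↥(S36FI_act (M * q * q) (A.inertiaSubgroupIn ℚ)).fixF)ˣ) :
            ↥(S36FI_act (M * q * q) (A.inertiaSubgroupIn ℚ)).fixF),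
        FD_c0 P ((m.2.2 : ↥(S36CZ_C' M q hq hqM A hA c n hn).Rb₃) : ↥(S36FI_kappa M A)) ≠ 0 := by
  obtain ⟨c₀, hc₀⟩ := S36CX_pole_of_transc h
    (S36CX_transc_inv_sub (S36CZ_xb_transc M q hq hqM A hA)
      ((S36FI_SFF M q hq hqM A hA).res c))
  refine S36CL_hcusp₃ (S36FI_same3 M q hq hqM A hA ζ hζ hζ1)
    (S36IT_lat M q hq hqM A hA ζ hζ hζ1
      (S34IX_TU' ((S36CO_BL M q (A.inertiaSubgroupIn ℚ) :
        ↥(S36FI_act (M * q * q) (A.inertiaSubgroupIn ℚ)).fixF) :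
          ↥(modularFunctionFieldBar (M * q * q)))
        (((c : ↥(S36FI_act (M * q * q) (A.inertiaSubgroupIn ℚ)).fixK)) : Ω)))
    (S36CZ_hleΛ' M q hq hqM A hA ζ hζ hζ1 c n hn _)
    (S36CZ_Lam_eq M q hq hqM A hA ζ hζ hζ1 _ _).ge
    R (S36CZ_hOv M q hq hqM A hA ζ hζ hζ1 _ _)
    (S36CLI_hfrac' M q hq hqM A hA ζ hζ hζ1 c)
    2 rfl ?_ (S36CLI_q M q hq hqM A hA ζ hζ hζ1 _) ((q : ℕ) : Ω)
    (by exact_mod_cast hq.ne_zero) (S36CLI_q_phi M q hq hqM A hA ζ hζ hζ1 _)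
    (S36VDV_isUnif_VV M q hq hqM A (S36V_OVV M q hq hqM A hA) hA (fun _ => Iff.rfl))
    h (S36CZ_xb M q hq hqM A hA) (S36CZ_zb M q hq hqM A hA c)⁻¹ c₀ hc₀
    (fun y => S36CU_mem_regZ_adic)
    (fun Q hQ => S36CL_cusp_zero (S36CZ_xb M q hq hqM A hA) _ Q hQ)
    X (hX.of_le (S36CZ_hle' M q hq hqM A hA c n hn))
    (S36CLI_hxy M q hq hqM A hA c n hn hX).2 hint₃ hKp
    (S36SJ_hsepH_U' M q hq hqM A hA ζ hζ hζ1 _ _ _ n Kp hpole hn.ne' hKum)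
    (S36SJ_hsepH0_U' M q hq hqM A hA ζ hζ hζ1 _ _ _ n Kp hpole hn.ne' hKum)
  intro j hj
  fin_cases j
  · exact Or.inl rfl
  · exact Or.inr rfl
  · exact absurd rfl hj

end cusp

end Fermat.Agent.S36
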