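import Fermat.Agent.S36.CuspLiRam
import Fermat.Agent.S36.ChartsBPow
import Fermat.Agent.S36.Val3DvInst
import Fermat.Agent.S36.OrdInst
import Fermat.Agent.S36.Comp3Indep
import Fermat.Agent.S36.OrdQVal

/-!
# TRACK 10 (S36), U4 = concrete `hcusp₂`, part 1 (helper27): the generator `s₀` at the cusps of
`FV` and the UNIT COUNT on `S36FI_SFV`.  Prefix `S36KR_`.

Setting of `S36/ChartsB.lean` (helper23): `S = S36FI_act (M q q) I`, `F_L = S.fixF`,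
`S₂ = S36FI_SFV`, `κ = S36FI_kappa M A`, `B = S36CO_BL`, `x̄ = S36CZ_xb = j̄ ^ q`.

* `S36KR_AL`, `S36KR_CL` : `A = δ_A^* j`, `C = δ_C^* j` as elements of `F_L`;
* `S36KR_s₀ c = ϖ · A^(q−1) · (B − c)⁻¹`, `ϖ = C − A = S36VDV_varpiL` (the generator of the
  vertical prime `FV` at the cusps of the chart `U′ = {B ≠ c}`);
* `S36KR_varpi_mem`, `S36KR_varpi_red` : `ϖ^(q−1)/q ∈ O_FV`, with reduction `−(θ j̄)^(q−1)`;
* `S36KR_A_mem`, `S36KR_A_red` : `A ∈ O_FV`, with reduction `j̄`;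
* `S36KR_w_mem`, `S36KR_w_red` : `(B − c)⁻¹ ∈ O_FV`, with reduction `1/(x̄ − c̄)`;
* `S36KR_s₀_mem`, `S36KR_s₀_red_ne`, `S36KR_unit` : **the unit count**: `s₀^(q−1)/q ∈ O_FV`, its
  reduction is `≠ 0` and has order `0` at every pole of `x̄` (= the inputs `hw`, `hw0`, `hunit` of
  `S36CC_hcusp₂`, with `m = q − 2`).
-/

set_option autoImplicit false
set_option synthInstance.maxHeartbeats 400000
set_option maxHeartbeats 1000000
set_option linter.unusedSectionVars false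
set_option linter.unusedVariables false
set_option linter.style.haveILetI false

open AlgebraicCurve ModularCurve HahnSeries IntermediateField

noncomputable section

namespace Fermat.Agent.S36

open Fermat.Agent.Lib Fermat.Agent.S18 Fermat.Agent.S24 Fermat.Agent.S34 Fermat.Agent.GalRep

local notation "Ω" => AlgebraicClosure ℚ

variable (M q : ℕ) [NeZero M] [NeZero q] (hq : q.Prime) (hqM : ¬ q ∣ M)
  (A : ValuationSubring Ω) (hA : A.LiesOverPrime q)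
  (ζ : Ωˣ) (hζ : ζ ^ q = 1) (hζ1 : ζ ≠ 1)

/-! ### `A`, `C` as elements of `F_L` -/

theorem S36KR_gal_A (σ : Ω ≃ₐ[ℚ] Ω) :
    GR_gal (M * q * q) σ (S36OQ_dA M q (jB M)) = S36OQ_dA M q (jB M) := by
  show GR_gal (M * q * q) σ
    (heckeAlphaBar Ω (M * q) q (heckeAlphaBar Ω M q (jB M))) = _
  rw [S36VE_gal_alpha, S36VE_gal_alpha, S34SW_gal_jB]
  rfl

theorem S36KR_gal_C (σ : Ω ≃ₐ[ℚ] Ω) :
    GR_gal (M * q * q) σ (S36OQ_dC M q (jB M)) = S36OQ_dC M q (jB M) := by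
  show GR_gal (M * q * q) σ
    (heckeBetaBar Ω (M * q) q (heckeBetaBar Ω M q (jB M))) = _
  rw [S36VE_gal_beta, S36VE_gal_beta, S34SW_gal_jB]
  rfl

/-- `A = δ_A^* j` as an element of `F_L`. -/
def S36KR_AL (H : Subgroup (Ω ≃ₐ[ℚ] Ω)) : ↥(S36FI_act (M * q * q) H).fixF :=
  ⟨S36OQ_dA M q (jB M), (S36FI_mem_fixF (M * q * q) H).2 fun σ _ => S36KR_gal_A M q σ⟩

/-- `C = δ_C^* j` as an element of `F_L`. -/
def S36KR_CL (H : Subgroup (Ω ≃ₐ[ℚ] Ω)) : ↥(S36FI_act (M * q * q) H).fixF :=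
  ⟨S36OQ_dC M q (jB M), (S36FI_mem_fixF (M * q * q) H).2 fun σ _ => S36KR_gal_C M q σ⟩

theorem S36KR_varpiL_eq (H : Subgroup (Ω ≃ₐ[ℚ] Ω)) :
    S36VDV_varpiL M q H = S36KR_CL M q H - S36KR_AL M q H := Subtype.ext rfl

/-! ### the three factors along `FV` -/

section factors

include hq hA

/-- `ϖ^(q−1)/q`, read in `F₂`, is `w_j` of helper24. -/
theorem S36KR_varpi_coe :
    ((S36VDV_varpiL M q (A.inertiaSubgroupIn ℚ) ^ (q - 1) /
        ((q : ℕ) : ↥(S36FI_act (M * q * q) (A.inertiaSubgroupIn ℚ)).fixF) :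
      ↥(S36FI_act (M * q * q) (A.inertiaSubgroupIn ℚ)).fixF) :
        ↥(modularFunctionFieldBar (M * q * q))) = S36OQ_w M q (jB M) := by
  have e : (S36FI_act (M * q * q) (A.inertiaSubgroupIn ℚ)).fixF.subtype
      (S36VDV_varpiL M q (A.inertiaSubgroupIn ℚ) ^ (q - 1) /
        ((q : ℕ) : ↥(S36FI_act (M * q * q) (A.inertiaSubgroupIn ℚ)).fixF)) =
      S36VDV_varpi M q ^ (q - 1) *
        (algebraMap Ω ↥(modularFunctionFieldBar (M * q * q)) (q : Ω))⁻¹ := by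
    rw [map_div₀, map_pow, map_natCast, map_natCast, div_eq_mul_inv]
    rfl
  exact e.trans (mul_comm _ _)

/-- **`ϖ^(q−1)/q ∈ O_FV`.** -/
theorem S36KR_varpi_mem :
    S36VDV_varpiL M q (A.inertiaSubgroupIn ℚ) ^ (q - 1) /
        ((q : ℕ) : ↥(S36FI_act (M * q * q) (A.inertiaSubgroupIn ℚ)).fixF) ∈
      (S36FI_SFV M q hq hqM A hA ζ hζ hζ1).O := by
  haveI : Fact q.Prime := ⟨hq⟩
  haveI := S36CZ_charP q hq A hA
  rw [S36FI_SFV_mem_O, S36KR_varpi_coe M q hq A hA]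
  exact S36OQ_w_mem M q hq hqM A ζ hζ hζ1 (S36CY_j M A)

/-- **the reduction of `ϖ^(q−1)/q` along `FV` is `−(θ j̄)^(q−1)`.** -/
theorem S36KR_varpi_red
    (h : S36VDV_varpiL M q (A.inertiaSubgroupIn ℚ) ^ (q - 1) /
        ((q : ℕ) : ↥(S36FI_act (M * q * q) (A.inertiaSubgroupIn ℚ)).fixF) ∈
      (S36FI_SFV M q hq hqM A hA ζ hζ hζ1).O) :
    ((((S36FI_SFV M q hq hqM A hA ζ hζ hζ1).red ⟨_, h⟩ : ↥(S36FI_kappa M A)) :
      LaurentSeries (IsLocalRing.ResidueField A))) =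
      -(LT_theta ((S18_jbar M (IsLocalRing.ResidueField A) :
          ↥(modularFunctionFieldFullC (IsLocalRing.ResidueField A) M)) :
            LaurentSeries (IsLocalRing.ResidueField A))) ^ (q - 1) := by
  haveI : Fact q.Prime := ⟨hq⟩
  haveI := S36CZ_charP q hq A hA
  rw [S36FI_SFV_red, S18_jbar_coe, ← S36CY_red_j M A,
    ← S36OQ_w_red M q hq hqM A ζ hζ hζ1 (S36CY_j M A)]
  congr 1
  exact Subtype.ext (S36KR_varpi_coe M q hq A hA)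

/-- **`A ∈ O_FV`.** -/
theorem S36KR_A_mem :
    S36KR_AL M q (A.inertiaSubgroupIn ℚ) ∈ (S36FI_SFV M q hq hqM A hA ζ hζ hζ1).O :=
  S36OQ_dA_mem M q hq hqM A ζ hζ hζ1 (S36CY_j M A)

/-- **the reduction of `A` along `FV` is `j̄`.** -/
theorem S36KR_A_red
    (h : S36KR_AL M q (A.inertiaSubgroupIn ℚ) ∈ (S36FI_SFV M q hq hqM A hA ζ hζ hζ1).O) :
    (S36FI_SFV M q hq hqM A hA ζ hζ hζ1).red ⟨_, h⟩ =
      S18_jbar M (IsLocalRing.ResidueField A) := by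
  apply Subtype.ext
  rw [S36FI_SFV_red, S18_jbar_coe, ← S36CY_red_j M A]
  exact S36OQ_dA_red M q hq hqM A ζ hζ hζ1 (S36CY_j M A)

/-- **`(B − c)⁻¹ ∈ O_FV`.** -/
theorem S36KR_w_mem (c : (S36FI_SFF M q hq hqM A hA).A) :
    (S36CO_BL M q (A.inertiaSubgroupIn ℚ) -
        algebraMap (S36FI_SFF M q hq hqM A hA).A
          ↥(S36FI_act (M * q * q) (A.inertiaSubgroupIn ℚ)).fixF c)⁻¹ ∈
      (S36FI_SFV M q hq hqM A hA ζ hζ hζ1).O :=
  (S36CZ_hsO M q hq hqM A hA ζ hζ hζ1 c).2.1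

/-- **the reduction of `(B − c)⁻¹` along `FV` is `1/(x̄ − c̄)`.** -/
theorem S36KR_w_red (c : (S36FI_SFF M q hq hqM A hA).A)
    (h : (S36CO_BL M q (A.inertiaSubgroupIn ℚ) -
        algebraMap (S36FI_SFF M q hq hqM A hA).A
          ↥(S36FI_act (M * q * q) (A.inertiaSubgroupIn ℚ)).fixF c)⁻¹ ∈
      (S36FI_SFV M q hq hqM A hA ζ hζ hζ1).O) :
    (S36FI_SFV M q hq hqM A hA ζ hζ hζ1).red ⟨_, h⟩ = (S36CZ_zb M q hq hqM A hA c)⁻¹ := by
  have hne : (S36FI_SFV M q hq hqM A hA ζ hζ hζ1).red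
      ⟨_, S36CZ_B_mem₂ M q hq hqM A hA ζ hζ hζ1⟩ ≠
      algebraMap (IsLocalRing.ResidueField A) ↥(S36FI_kappa M A)
        ((S36FI_SFV M q hq hqM A hA ζ hζ hζ1).res c) := by
    rw [S36CZ_red₂]
    exact S36CO_ne_const_of_transc (S36CZ_xb_transc M q hq hqM A hA) _
  have := S36CO_red_inv (S36FI_SFV M q hq hqM A hA ζ hζ hζ1)
    (S36CZ_B_mem₂ M q hq hqM A hA ζ hζ hζ1) c hne
  rw [S36CZ_red₂] at this
  exact this

end factors

/-! ### the generator and the unit count -/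

/-- **the generator** `s₀ = ϖ · A^(q−1) · (B − c)⁻¹` of the vertical prime `FV` at the cusps of
the chart `U′ = {B ≠ c}`. -/
def S36KR_s₀ (c : (S36FI_SFF M q hq hqM A hA).A) :
    ↥(S36FI_act (M * q * q) (A.inertiaSubgroupIn ℚ)).fixF :=
  S36VDV_varpiL M q (A.inertiaSubgroupIn ℚ) * S36KR_AL M q (A.inertiaSubgroupIn ℚ) ^ (q - 1) *
    (S36CO_BL M q (A.inertiaSubgroupIn ℚ) -
      algebraMap (S36FI_SFF M q hq hqM A hA).A
        ↥(S36FI_act (M * q * q) (A.inertiaSubgroupIn ℚ)).fixF c)⁻¹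

section count

variable (c : (S36FI_SFF M q hq hqM A hA).A)

/-- the reduction of `ϖ^(q−1)/q` is `≠ 0`. -/
theorem S36KR_varpi_red_ne
    (h : S36VDV_varpiL M q (A.inertiaSubgroupIn ℚ) ^ (q - 1) /
        ((q : ℕ) : ↥(S36FI_act (M * q * q) (A.inertiaSubgroupIn ℚ)).fixF) ∈
      (S36FI_SFV M q hq hqM A hA ζ hζ hζ1).O) :
    (S36FI_SFV M q hq hqM A hA ζ hζ hζ1).red ⟨_, h⟩ ≠ 0 := by
  have hu := (S36VDV_isU_FV M q hq hqM A ζ hζ hζ1
    (S36V_OFV M q hq hqM A hA ζ hζ hζ1) hA (fun f => Iff.rfl)).2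
  intro h0
  have h1 : (⟨_, h⟩ : (S36FI_SFV M q hq hqM A hA ζ hζ hζ1).O) * ⟨_, hu⟩ = 1 := by
    apply Subtype.ext
    refine mul_inv_cancel₀ ?_
    intro hz
    have hq0 : ((q : ℕ) : ↥(S36FI_act (M * q * q) (A.inertiaSubgroupIn ℚ)).fixF) ≠ 0 :=
      Nat.cast_ne_zero.2 hq.ne_zero
    rcases div_eq_zero_iff.1 hz with hz | hz
    · have := pow_eq_zero_iff (Nat.sub_pos_of_lt hq.one_lt).ne' |>.1 hz
      exact S36VDV_varpi_ne_zero M q hq hqM A ζ hζ hζ1 hA (congrArg Subtype.val this)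
    · exact hq0 hz
  have h2 := congrArg (S36FI_SFV M q hq hqM A hA ζ hζ hζ1).red h1
  rw [map_mul, h0, zero_mul, map_one] at h2
  exact zero_ne_one h2

/-- **`hw`** of `S36CC_hcusp₂`: `s₀^(m+1)/q ∈ O_FV` (`m + 1 = q − 1`). -/
theorem S36KR_s₀_mem (m : ℕ) (hm : m + 1 = q - 1) :
    S36KR_s₀ M q hq hqM A hA c ^ (m + 1) /
        ((q : ℕ) : ↥(S36FI_act (M * q * q) (A.inertiaSubgroupIn ℚ)).fixF) ∈
      (S36FI_SFV M q hq hqM A hA ζ hζ hζ1).O := by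
  have e : S36KR_s₀ M q hq hqM A hA c ^ (m + 1) /
        ((q : ℕ) : ↥(S36FI_act (M * q * q) (A.inertiaSubgroupIn ℚ)).fixF) =
      S36VDV_varpiL M q (A.inertiaSubgroupIn ℚ) ^ (q - 1) /
          ((q : ℕ) : ↥(S36FI_act (M * q * q) (A.inertiaSubgroupIn ℚ)).fixF) *
        (S36KR_AL M q (A.inertiaSubgroupIn ℚ) ^ (q - 1)) ^ (q - 1) *
        ((S36CO_BL M q (A.inertiaSubgroupIn ℚ) -
          algebraMap (S36FI_SFF M q hq hqM A hA).A
            ↥(S36FI_act (M * q * q) (A.inertiaSubgroupIn ℚ)).fixF c)⁻¹) ^ (q - 1) := by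
    rw [hm, S36KR_s₀, mul_pow, mul_pow]
    ring
  rw [e]
  exact mul_mem (mul_mem (S36KR_varpi_mem M q hq hqM A hA ζ hζ hζ1)
    (pow_mem (pow_mem (S36KR_A_mem M q hq hqM A hA ζ hζ hζ1) _) _))
    (pow_mem (S36KR_w_mem M q hq hqM A hA ζ hζ hζ1 c) _)

/-- the reduction of `s₀^(m+1)/q` along `FV`. -/
theorem S36KR_s₀_red (m : ℕ) (hm : m + 1 = q - 1)
    (h : S36KR_s₀ M q hq hqM A hA c ^ (m + 1) /
        ((q : ℕ) : ↥(S36FI_act (M * q * q) (A.inertiaSubgroupIn ℚ)).fixF) ∈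
      (S36FI_SFV M q hq hqM A hA ζ hζ hζ1).O) :
    (S36FI_SFV M q hq hqM A hA ζ hζ hζ1).red ⟨_, h⟩ =
      (S36FI_SFV M q hq hqM A hA ζ hζ hζ1).red
          ⟨_, S36KR_varpi_mem M q hq hqM A hA ζ hζ hζ1⟩ *
        (S18_jbar M (IsLocalRing.ResidueField A) ^ (q - 1)) ^ (q - 1) *
        ((S36CZ_zb M q hq hqM A hA c)⁻¹) ^ (q - 1) := by
  have e : S36KR_s₀ M q hq hqM A hA c ^ (m + 1) /
        ((q : ℕ) : ↥(S36FI_act (M * q * q) (A.inertiaSubgroupIn ℚ)).fixF) =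
      S36VDV_varpiL M q (A.inertiaSubgroupIn ℚ) ^ (q - 1) /
          ((q : ℕ) : ↥(S36FI_act (M * q * q) (A.inertiaSubgroupIn ℚ)).fixF) *
        (S36KR_AL M q (A.inertiaSubgroupIn ℚ) ^ (q - 1)) ^ (q - 1) *
        ((S36CO_BL M q (A.inertiaSubgroupIn ℚ) -
          algebraMap (S36FI_SFF M q hq hqM A hA).A
            ↥(S36FI_act (M * q * q) (A.inertiaSubgroupIn ℚ)).fixF c)⁻¹) ^ (q - 1) := by
    rw [hm, S36KR_s₀, mul_pow, mul_pow]
    ring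
  rw [← S36KR_A_red M q hq hqM A hA ζ hζ hζ1 (S36KR_A_mem M q hq hqM A hA ζ hζ hζ1),
    ← S36KR_w_red M q hq hqM A hA ζ hζ hζ1 c (S36KR_w_mem M q hq hqM A hA ζ hζ hζ1 c),
    ← map_pow, ← map_pow, ← map_pow, ← map_mul, ← map_mul]
  congr 1
  exact Subtype.ext e

/-- **`hw0`** of `S36CC_hcusp₂`: the reduction of `s₀^(m+1)/q` is `≠ 0`. -/
theorem S36KR_s₀_red_ne (m : ℕ) (hm : m + 1 = q - 1)
    (h : S36KR_s₀ M q hq hqM A hA c ^ (m + 1) /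
        ((q : ℕ) : ↥(S36FI_act (M * q * q) (A.inertiaSubgroupIn ℚ)).fixF) ∈
      (S36FI_SFV M q hq hqM A hA ζ hζ hζ1).O) :
    (S36FI_SFV M q hq hqM A hA ζ hζ hζ1).red ⟨_, h⟩ ≠ 0 := by
  rw [S36KR_s₀_red M q hq hqM A hA ζ hζ hζ1 c m hm h]
  have hj : S18_jbar M (IsLocalRing.ResidueField A) ≠ 0 := by
    haveI := S36CZ_algClosed A
    intro h0
    have := S18_transcendental_jbar (N := M) (k := IsLocalRing.ResidueField A)
    rw [h0] at this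
    exact this (isAlgebraic_zero)
  exact mul_ne_zero (mul_ne_zero (S36KR_varpi_red_ne M q hq hqM A hA ζ hζ hζ1 _)
    (pow_ne_zero _ (pow_ne_zero _ hj)))
    (pow_ne_zero _ (inv_ne_zero (S36CZ_zb_ne_zero M q hq hqM A hA c)))

/-- **`hunit`** of `S36CC_hcusp₂`: the reduction of `s₀^(m+1)/q` is a unit at every pole of
`x̄`. -/
theorem S36KR_unit (m : ℕ) (hm : m + 1 = q - 1)
    (h : S36KR_s₀ M q hq hqM A hA c ^ (m + 1) /
        ((q : ℕ) : ↥(S36FI_act (M * q * q) (A.inertiaSubgroupIn ℚ)).fixF) ∈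
      (S36FI_SFV M q hq hqM A hA ζ hζ hζ1).O)
    (P : Place (IsLocalRing.ResidueField A) ↥(S36FI_kappa M A))
    (hP : ¬ P.adicValuation (S36CZ_xb M q hq hqM A hA) ≤ 1) :
    P.ord ((S36FI_SFV M q hq hqM A hA ζ hζ hζ1).red ⟨_, h⟩) = 0 := by
  have hq2 := hq.two_le
  have hPx : P.ord (S36CZ_xb M q hq hqM A hA) < 0 := (P.not_adicValuation_le_one_iff).1 hP
  have hxj : P.ord (S36CZ_xb M q hq hqM A hA) =
      (q : ℤ) * P.ord (S18_jbar M (IsLocalRing.ResidueField A)) := by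
    rw [S36CZ_xb_eq_pow M q hq hqM A hA, S18_ord_pow]
  have hPj : P.ord (S18_jbar M (IsLocalRing.ResidueField A)) < 0 := by
    by_contra hge
    rw [not_lt] at hge
    have : 0 ≤ (q : ℤ) * P.ord (S18_jbar M (IsLocalRing.ResidueField A)) :=
      mul_nonneg (by positivity) hge
    omega
  -- the first factor
  obtain ⟨Hx, hHx, hHord⟩ := S36OI_Hj M A hq hA
  have hH : (S36FI_SFV M q hq hqM A hA ζ hζ hζ1).red
      ⟨_, S36KR_varpi_mem M q hq hqM A hA ζ hζ hζ1⟩ = Hx := by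
    apply Subtype.ext
    rw [hHx]
    exact S36KR_varpi_red M q hq hqM A hA ζ hζ hζ1 _
  have hH0 : Hx ≠ 0 := hH ▸ S36KR_varpi_red_ne M q hq hqM A hA ζ hζ hζ1 _
  have hj0 : S18_jbar M (IsLocalRing.ResidueField A) ≠ 0 := by
    rintro h0
    rw [h0, Place.ord_zero] at hPj
    exact lt_irrefl _ hPj
  have hz0 := S36CZ_zb_ne_zero M q hq hqM A hA c
  have hzo : P.ord (S36CZ_zb M q hq hqM A hA c) =
      (q : ℤ) * P.ord (S18_jbar M (IsLocalRing.ResidueField A)) := by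
    rw [S36CZ_zb, LC_ord_sub_const_of_neg P hPx, hxj]
  rw [S36KR_s₀_red M q hq hqM A hA ζ hζ hζ1 c m hm h, hH,
    P.ord_mul (mul_ne_zero hH0 (pow_ne_zero _ (pow_ne_zero _ hj0)))
      (pow_ne_zero _ (inv_ne_zero hz0)),
    P.ord_mul hH0 (pow_ne_zero _ (pow_ne_zero _ hj0)), S18_ord_pow, S18_ord_pow, S18_ord_pow,
    P.ord_inv, hzo, hHord P hPj]
  have hq1 : ((q - 1 : ℕ) : ℤ) = (q : ℤ) - 1 := by
    rw [Nat.cast_sub (by omega)]
    rfl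
  rw [hq1]
  ring

end count

end Fermat.Agent.S36
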