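import Fermat.Agent.S36.Int3Fam
import Fermat.Agent.S18.Loc
import Fermat.Agent.S18.FinalA
import Fermat.Agent.S24.GlobalA

/-!
# TRACK 10 (S36), FV-CUSP THRU (helper25, with helper27's generator): the semi-abstract core.
Prefix `S36CQ_`.

`D : S36IT_Fam Ω F K ιv` the family of a chart contained in `U′ = {B ≠ c}`, `y : D.Λ →+* k` a
closed point, `A B C : F` (in the application `A = j(τ)`, `B = j(q τ)`, `C = j(q² τ)` at level
`M q²`), `w = (B − c)⁻¹`,

* `s₀ = (C − A) · A^(q−1) · w`   (helper27's generator: NO poles at the non-cuspidal places);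
* `f_∞ = (B^q − C) · w^q`, `f₀ = (B^q − A) · w^q`  (elements of `Λ` with `y f ≠ 0`).

Hypotheses on the places of `F`:
* `(h1)` `A`, `C` are regular where `B` is regular;
* `(h2)` at every pole `P` of `B` one of
  `∞`-type: `ord C = q · ord B`, `q · ord B < ord (B^q − C)`;
  middle:   `ord A = ord C`, `ord B = q · ord A`;
  `0`-type: `ord A = q · ord B`, `q · ord B < ord (B^q − A)`.

`S36CQ_core`: every valuation ring of the family THROUGH `y` contains `s₀`
(= the hypothesis of INT, `D.exists_den`).  `S36CQ_h2_of_div` converts the `∞`/`0`-type clauses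
from the form `0 < ord (C / B^q − 1)`.
-/

set_option autoImplicit false
set_option linter.unusedSectionVars false
set_option linter.unusedVariables false
set_option linter.style.longLine false

open AlgebraicCurve

namespace Fermat.Agent.S36

open Fermat.Agent.S24 Fermat.Agent.S18

section gen

variable {Ω F : Type*} [Field Ω] [Field F] [Algebra Ω F]

/-- membership in the valuation ring of a place from `0 ≤ ord`. -/
theorem S36CQ_mem_of_ord (Q : Place Ω F) {f : F} (h : 0 ≤ Q.ord f) :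
    f ∈ Q.toValuationSubring := by
  rcases eq_or_ne f 0 with rfl | h0
  · exact Q.toValuationSubring.zero_mem
  · exact (BG_mem_iff_ord_nonneg Q h0).2 h

theorem S36CQ_ord_of_mem (Q : Place Ω F) {f : F} (h : f ∈ Q.toValuationSubring) :
    0 ≤ Q.ord f := by
  rcases eq_or_ne f 0 with rfl | h0
  · rw [Place.ord_zero]
  · exact (BG_mem_iff_ord_nonneg Q h0).1 h

/-- the inverse of `B − c` is regular at the non-cuspidal places of `U′`. -/
theorem S36CQ_w_mem (Q : Place Ω F) {B : F} (c : Ω) (hB : 0 ≤ Q.ord B)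
    (hU : Q.ord (B - algebraMap Ω F c) ≤ 0) :
    (B - algebraMap Ω F c)⁻¹ ∈ Q.toValuationSubring := by
  apply S36CQ_mem_of_ord
  rw [Q.ord_inv]
  have h1 : (B - algebraMap Ω F c) ∈ Q.toValuationSubring :=
    sub_mem (S36CQ_mem_of_ord Q hB) (Q.algebraMap_mem' c)
  have h2 := S36CQ_ord_of_mem Q h1
  omega

/-- conversion of the leading-coefficient clause. -/
theorem S36CQ_h2_of_div (P : Place Ω F) {B C : F} (q : ℕ) (hB : P.ord B < 0)
    (h : 0 < P.ord (C / B ^ q - 1)) : (q : ℤ) * P.ord B < P.ord (B ^ q - C) := by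
  have hB0 : B ≠ 0 := by
    rintro rfl
    rw [Place.ord_zero] at hB
    exact lt_irrefl _ hB
  have hBq : B ^ q ≠ 0 := pow_ne_zero _ hB0
  have hne : C / B ^ q - 1 ≠ 0 := by
    intro h0
    rw [h0, Place.ord_zero] at h
    exact lt_irrefl _ h
  have e : B ^ q - C = ((C / B ^ q - 1) * B ^ q) * (-1) := by
    field_simp
    ring
  rw [e, P.ord_mul (mul_ne_zero hne hBq) (neg_ne_zero.2 one_ne_zero), P.ord_mul hne hBq,
    S18_ord_pow, S18_Spec.ord_neg_one]
  omega

end gen

section core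

variable {Ω F K : Type*} [Field Ω] [Field F] [Algebra Ω F] [Field K] {ιv : Type*}
  (D : S36IT_Fam Ω F K ιv) {k : Type*} [Field k]

/-- a horizontal place at which a function of the lattice with `y f ≠ 0` vanishes does not pass
through `y`. -/
theorem S36CQ_not_thru (y : D.Λ →+* k) (Q : D.U) (f : D.Λ)
    (hQ : 0 < (Q : Place Ω F).ord (D.φ f)) (hy : y f ≠ 0) : Sum.inr Q ∉ D.thru y := by
  intro h
  have hf0 : (f : K) ≠ 0 := by
    intro h0
    apply hy
    have : f = 0 := Subtype.ext h0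
    rw [this, map_zero]
  exact hy ((D.thru_inr_iff y Q).1 h f hf0 hQ)

/-- **FV-CUSP THRU, the core**: every valuation ring of the family through `y` contains
`s₀ = (C − A) A^(q−1) (B − c)⁻¹`. -/
theorem S36CQ_core (y : D.Λ →+* k) (A B C : F) (c : Ω) (q : ℕ) (hq : 1 ≤ q)
    (hU : ∀ Q ∈ D.U, (Q : Place Ω F).ord (B - algebraMap Ω F c) ≤ 0)
    (h1 : ∀ P : Place Ω F, 0 ≤ P.ord B → 0 ≤ P.ord A ∧ 0 ≤ P.ord C)
    (h2 : ∀ P : Place Ω F, P.ord B < 0 →
      (P.ord C = q * P.ord B ∧ (q : ℤ) * P.ord B < P.ord (B ^ q - C)) ∨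
      (P.ord A = P.ord C ∧ P.ord B = q * P.ord A) ∨
      (P.ord A = q * P.ord B ∧ (q : ℤ) * P.ord B < P.ord (B ^ q - A)))
    (finf f0 : D.Λ)
    (hfinf : D.φ (finf : K) = (B ^ q - C) * ((B - algebraMap Ω F c)⁻¹) ^ q)
    (hf0 : D.φ (f0 : K) = (B ^ q - A) * ((B - algebraMap Ω F c)⁻¹) ^ q)
    (hyinf : y finf ≠ 0) (hy0 : y f0 ≠ 0)
    (s₀ : K) (hs₀ : D.φ s₀ = (C - A) * A ^ (q - 1) * (B - algebraMap Ω F c)⁻¹)
    (hv : ∀ i : ιv, s₀ ∈ D.Ov i) :
    ∀ i ∈ D.thru y, D.v i s₀ ≤ 1 := by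
  rintro (i | Q) hi
  · rw [D.v_le_one_iff]
    exact hv i
  rw [D.v_le_one_iff, S36IT_Fam.O_inr, ValuationSubring.mem_comap, hs₀]
  set P : Place Ω F := (Q : Place Ω F) with hP
  have hUQ := hU P Q.2
  -- a general fact: a function of `Λ` of the form `(B^q − X) w^q` with `y ≠ 0` excludes the
  -- places where the leading terms of `B^q` and `X` cancel
  have key : ∀ (f : D.Λ) (X : F), D.φ (f : K) = (B ^ q - X) * ((B - algebraMap Ω F c)⁻¹) ^ q →
      y f ≠ 0 → P.ord B < 0 → (q : ℤ) * P.ord B < P.ord (B ^ q - X) → False := by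
    intro f X hf hyf hB hlt
    have hf0' : D.φ (f : K) ≠ 0 := by
      intro h0
      apply hyf
      have : f = 0 := Subtype.ext ((map_eq_zero D.φ).1 h0)
      rw [this, map_zero]
    rw [hf] at hf0'
    have hX0 : B ^ q - X ≠ 0 := left_ne_zero_of_mul hf0'
    have hw0 : ((B - algebraMap Ω F c)⁻¹) ^ q ≠ 0 := right_ne_zero_of_mul hf0'
    have hord : 0 < P.ord (D.φ (f : K)) := by
      rw [hf, P.ord_mul hX0 hw0, S18_ord_pow, P.ord_inv, LC_ord_sub_const_of_neg P hB c]
      linarith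
    exact S36CQ_not_thru D y Q f hord hyf hi
  rcases lt_or_ge (P.ord B) 0 with hB | hB
  · -- a cusp
    rcases h2 P hB with ⟨-, hlt⟩ | ⟨hAC, hBA⟩ | ⟨-, hlt⟩
    · exact (key finf C hfinf hyinf hB hlt).elim
    · -- middle cusps: `s₀` is regular
      have hqz : (1 : ℤ) ≤ (q : ℤ) := by exact_mod_cast hq
      have hA : P.ord A < 0 := by
        by_contra hcon
        push Not at hcon
        have : 0 ≤ (q : ℤ) * P.ord A := mul_nonneg (by omega) hcon
        omega
      have hA0 : A ≠ 0 := by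
        rintro rfl
        rw [Place.ord_zero] at hA
        exact lt_irrefl _ hA
      rcases eq_or_ne (C - A) 0 with h0 | h0
      · rw [h0, zero_mul, zero_mul]
        exact P.toValuationSubring.zero_mem
      apply S36CQ_mem_of_ord
      have hw0 : (B - algebraMap Ω F c)⁻¹ ≠ 0 := by
        apply inv_ne_zero
        intro h0'
        have := LC_ord_sub_const_of_neg P hB c
        rw [h0', Place.ord_zero] at this
        omega
      have hCA : P.ord A ≤ P.ord (C - A) :=
        S18_ord_sub_ge P h0 (Or.inr (le_of_eq hAC)) (Or.inr le_rfl)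
      rw [P.ord_mul (mul_ne_zero h0 (pow_ne_zero _ hA0)) hw0, P.ord_mul h0 (pow_ne_zero _ hA0),
        S18_ord_pow, P.ord_inv, LC_ord_sub_const_of_neg P hB c, hBA]
      have hq1 : ((q - 1 : ℕ) : ℤ) = (q : ℤ) - 1 := by
        rw [Nat.cast_sub hq]
        simp
      rw [hq1]
      nlinarith
    · exact (key f0 A hf0 hy0 hB hlt).elim
  · -- not a cusp
    obtain ⟨hA, hC⟩ := h1 P hB
    have hAm := S36CQ_mem_of_ord P hA
    have hCm := S36CQ_mem_of_ord P hC
    exact mul_mem (mul_mem (sub_mem hCm hAm) (pow_mem hAm _)) (S36CQ_w_mem P c hB hUQ)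

end core

end Fermat.Agent.S36
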