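import Mathlib

/-!
# TRACK 10 (S36), package DESC-W (helper26), prefix `S36DW_` — Mathlib only

Lattice descent for the reduction of a lattice (gap "NODAL-L" of helper14).

`K` a field (`ℚ̄`) with a valuation ring `A`, residue map `res : A →+* k`; `F` a `K`-vector space
(a function field), `Λ ⊆ F` an `A`-lattice ("integral elements") with a reduction `red : F → R`
into a `k`-vector space `R`, additive and `res`-semilinear on `Λ`.

* `S36DW_coeff_mem` : if `h i ∈ Λ` have `k`-linearly independent reductions and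
  `∑ c i • h i ∈ Λ` (`c i ∈ K`), then `c i ∈ A` for all `i`   (no discreteness needed);
* `S36DW_main` : `O ⊆ A` a subring which is a PID (`O = O_L = A ∩ L`, a DVR with uniformiser `π`,
  `O → k` onto), `ΛV ⊆ Λ` a finitely generated `O`-submodule (`ΛV = Λ ∩ V_L`) on which the
  kernel of `red` is `π ΛV` (DISCRETENESS over `L`).  Then every `f ∈ Λ` in the `K`-span of `ΛV`
  has the reduction of an element of `ΛV`:   `red (Λ ∩ K·V_L) = red (Λ ∩ V_L)`.
* `S36DW_fg_of_coeff` : finite generation of `ΛV` from an injective `O`-linear coefficient map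
  `ΛV → Oⁿ` (echelon form / `q`-expansion coefficients; BOUNDED).
-/

set_option autoImplicit false
set_option linter.unusedSectionVars false
set_option linter.unusedVariables false
set_option linter.style.haveILetI false

namespace Fermat.Agent.S36

section core

variable {K F R k : Type*} [Field K] [Field k] [AddCommGroup F] [Module K F]
  [AddCommGroup R] [Module k R]
  (A : ValuationSubring K) (res : A →+* k) (hres : ∀ a : A, res a = 0 ↔ ¬ IsUnit a)
  (Λ : Set F) (hΛ0 : (0 : F) ∈ Λ) (hΛadd : ∀ f ∈ Λ, ∀ g ∈ Λ, f + g ∈ Λ)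
  (hΛsmul : ∀ a : K, a ∈ A → ∀ f ∈ Λ, a • f ∈ Λ)
  (red : F → R) (hred_add : ∀ f ∈ Λ, ∀ g ∈ Λ, red (f + g) = red f + red g)
  (hred_smul : ∀ (a : K) (ha : a ∈ A), ∀ f ∈ Λ, red (a • f) = res ⟨a, ha⟩ • red f)

include hΛ0 hred_smul in
theorem S36DW_red_zero : red 0 = 0 := by
  have h := hred_smul 0 A.zero_mem 0 hΛ0
  rw [zero_smul] at h
  rw [h]
  have : (⟨0, A.zero_mem⟩ : A) = 0 := rfl
  rw [this, map_zero, zero_smul]

include hΛ0 hΛadd hΛsmul in
theorem S36DW_sum_mem {ι : Type*} (s : Finset ι) (c : ι → K) (hc : ∀ i ∈ s, c i ∈ A)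
    (h : ι → F) (hh : ∀ i ∈ s, h i ∈ Λ) : ∑ i ∈ s, c i • h i ∈ Λ := by
  classical
  induction s using Finset.induction_on with
  | empty => simpa using hΛ0
  | insert a s ha ih =>
    rw [Finset.sum_insert ha]
    exact hΛadd _ (hΛsmul _ (hc a (Finset.mem_insert_self a s)) _
      (hh a (Finset.mem_insert_self a s))) _
      (ih (fun i hi => hc i (Finset.mem_insert_of_mem hi))
        (fun i hi => hh i (Finset.mem_insert_of_mem hi)))

include hΛ0 hΛadd hΛsmul hred_add hred_smul in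
theorem S36DW_red_sum {ι : Type*} (s : Finset ι) (c : ι → K) (hc : ∀ i, c i ∈ A)
    (h : ι → F) (hh : ∀ i, h i ∈ Λ) :
    red (∑ i ∈ s, c i • h i) = ∑ i ∈ s, res ⟨c i, hc i⟩ • red (h i) := by
  classical
  induction s using Finset.induction_on with
  | empty =>
    simp only [Finset.sum_empty]
    exact S36DW_red_zero A res Λ hΛ0 red hred_smul
  | insert a s ha ih =>
    rw [Finset.sum_insert ha, Finset.sum_insert ha,
      hred_add _ (hΛsmul _ (hc a) _ (hh a)) _
        (S36DW_sum_mem A Λ hΛ0 hΛadd hΛsmul s c (fun i _ => hc i) h (fun i _ => hh i)),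
      hred_smul _ (hc a) _ (hh a), ih]

include hres hΛ0 hΛadd hΛsmul hred_add hred_smul in
/-- **the core**: elements of `Λ` with `k`-linearly independent reductions are "orthonormal":
a `K`-combination of them lying in `Λ` has coefficients in `A`. -/
theorem S36DW_coeff_mem {ι : Type*} [Fintype ι] (h : ι → F) (hh : ∀ i, h i ∈ Λ)
    (hind : LinearIndependent k (fun i => red (h i)))
    (c : ι → K) (hc : ∑ i, c i • h i ∈ Λ) : ∀ i, c i ∈ A := by
  classical
  by_contra hcon
  simp only [not_forall] at hcon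
  obtain ⟨i₁, hi₁⟩ := hcon
  -- the index of maximal valuation
  obtain ⟨i₀, -, hi₀⟩ := Finset.exists_max_image Finset.univ (fun i => A.valuation (c i))
    ⟨i₁, Finset.mem_univ i₁⟩
  have hv1 : ¬ A.valuation (c i₁) ≤ 1 := fun h => hi₁ ((A.valuation_le_one_iff _).1 h)
  have hv0 : ¬ A.valuation (c i₀) ≤ 1 := fun h =>
    hv1 (le_trans (hi₀ i₁ (Finset.mem_univ i₁)) h)
  have hc0 : c i₀ ≠ 0 := by
    intro h0
    apply hv0
    rw [h0, map_zero]
    exact zero_le_one
  have hvpos : 0 < A.valuation (c i₀) := by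
    rw [zero_lt_iff]
    exact (Valuation.ne_zero_iff _).2 hc0
  -- the inverse of `c i₀` is a nonunit of `A`
  have hinvA : (c i₀)⁻¹ ∈ A := by
    rw [← A.valuation_le_one_iff, map_inv₀]
    exact inv_le_one_of_one_le₀ (le_of_lt (not_le.1 hv0))
  have hinvnu : ¬ IsUnit (⟨(c i₀)⁻¹, hinvA⟩ : A) := by
    intro hu
    have := (A.valuation_eq_one_iff ⟨(c i₀)⁻¹, hinvA⟩).1 hu
    simp only [map_inv₀] at this
    apply hv0
    rw [inv_eq_one] at this
    rw [this]
  have hres0 : res ⟨(c i₀)⁻¹, hinvA⟩ = 0 := (hres _).2 hinvnu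
  -- the normalised coefficients
  have hd : ∀ i, (c i₀)⁻¹ * c i ∈ A := by
    intro i
    rw [← A.valuation_le_one_iff, map_mul, map_inv₀]
    rw [inv_mul_le_iff₀ hvpos, mul_one]
    exact hi₀ i (Finset.mem_univ i)
  have hsum : (c i₀)⁻¹ • ∑ i, c i • h i = ∑ i, ((c i₀)⁻¹ * c i) • h i := by
    rw [Finset.smul_sum]
    exact Finset.sum_congr rfl fun i _ => by rw [smul_smul]
  have h1 := hred_smul _ hinvA _ hc
  rw [hres0, zero_smul, hsum,
    S36DW_red_sum A res Λ hΛ0 hΛadd hΛsmul red hred_add hred_smul Finset.univ _ hd h hh] at h1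
  have h2 := (Fintype.linearIndependent_iff.1 hind) _ h1 i₀
  have h3 : (⟨(c i₀)⁻¹ * c i₀, hd i₀⟩ : A) = 1 := by
    apply Subtype.ext
    show (c i₀)⁻¹ * c i₀ = 1
    exact inv_mul_cancel₀ hc0
  rw [h3, map_one] at h2
  exact one_ne_zero h2

end core

section main

variable {K F R k : Type*} [Field K] [Field k] [AddCommGroup F] [Module K F]
  [AddCommGroup R] [Module k R]
  (A : ValuationSubring K) (res : A →+* k) (hres : ∀ a : A, res a = 0 ↔ ¬ IsUnit a)
  (Λ : Set F) (hΛ0 : (0 : F) ∈ Λ) (hΛadd : ∀ f ∈ Λ, ∀ g ∈ Λ, f + g ∈ Λ)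
  (hΛsmul : ∀ a : K, a ∈ A → ∀ f ∈ Λ, a • f ∈ Λ)
  (red : F → R) (hred_add : ∀ f ∈ Λ, ∀ g ∈ Λ, red (f + g) = red f + red g)
  (hred_smul : ∀ (a : K) (ha : a ∈ A), ∀ f ∈ Λ, red (a • f) = res ⟨a, ha⟩ • red f)
  (O : Subring K) (hOA : ∀ x ∈ O, x ∈ A) [IsPrincipalIdealRing O]
  (hresO : ∀ y : k, ∃ (a : K) (ha : a ∈ A), a ∈ O ∧ res ⟨a, ha⟩ = y)
  (π : K) (hπO : π ∈ O) (hπ : res ⟨π, hOA π hπO⟩ = 0)
  (M : Submodule O F) (hMΛ : ∀ f ∈ M, f ∈ Λ)
  (hdisc : ∀ f ∈ M, red f = 0 → ∃ g ∈ M, f = π • g)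

include hres hΛ0 hΛadd hΛsmul hred_add hred_smul hresO hπ hMΛ hdisc in
/-- **DESC-W, module form**: `M ⊆ Λ` a finitely generated `O`-submodule (`O` a PID inside `A`
with `O → k` onto), the kernel of `red` on `M` is `π M`.  Then every element of `Λ` in the
`K`-span of `M` has the same reduction as some element of `M`. -/
theorem S36DW_main_mod [Module.Finite O M] (f : F) (hf : f ∈ Λ)
    (hfM : f ∈ Submodule.span K (M : Set F)) : ∃ g ∈ M, red g = red f := by
  classical
  haveI : NoZeroSMulDivisors O M := by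
    refine ⟨fun {c x} hcx => ?_⟩
    have h1 : ((c • x : M) : F) = 0 := by rw [hcx]; rfl
    have h2 : ((c : K)) • (x : F) = 0 := h1
    rcases smul_eq_zero.1 h2 with h3 | h3
    · exact Or.inl (Subtype.ext h3)
    · exact Or.inr (Subtype.ext h3)
  haveI : Module.Free O M := Module.free_of_finite_type_torsion_free'
  set ι := Module.Free.ChooseBasisIndex O M with hι
  let b : Module.Basis ι O M := Module.Free.chooseBasis O M
  set h : ι → F := fun i => ((b i : M) : F) with hh
  have hhM : ∀ i, h i ∈ M := fun i => (b i).2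
  have hhΛ : ∀ i, h i ∈ Λ := fun i => hMΛ _ (hhM i)
  -- sums with coefficients in `O`
  have hsumO : ∀ a : ι → O, ((∑ i, a i • b i : M) : F) = ∑ i, (a i : K) • h i := by
    intro a
    rw [Submodule.coe_sum]
    rfl
  have hredO : ∀ a : ι → O, red ((∑ i, a i • b i : M) : F) =
      ∑ i, res ⟨(a i : K), hOA _ (a i).2⟩ • red (h i) := by
    intro a
    rw [hsumO]
    exact S36DW_red_sum A res Λ hΛ0 hΛadd hΛsmul red hred_add hred_smul Finset.univ _
      (fun i => hOA _ (a i).2) h hhΛ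
  -- lifting of residues into `O`
  have hlift : ∀ y : k, ∃ a : O, res ⟨(a : K), hOA _ a.2⟩ = y := by
    intro y
    obtain ⟨a, ha, haO, hay⟩ := hresO y
    exact ⟨⟨a, haO⟩, hay⟩
  -- independence of the reductions
  have hind : LinearIndependent k (fun i => red (h i)) := by
    rw [Fintype.linearIndependent_iff]
    intro y hy i
    choose a ha using fun i => hlift (y i)
    have h1 : red ((∑ i, a i • b i : M) : F) = 0 := by
      rw [hredO]
      simp only [ha]
      exact hy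
    obtain ⟨g, hg, hfg⟩ := hdisc _ (∑ i, a i • b i : M).2 h1
    have h2 : (∑ i, a i • b i : M) = (⟨π, hπO⟩ : O) • (⟨g, hg⟩ : M) := Subtype.ext hfg
    have h3 := congrArg (fun m => b.repr m i) h2
    simp only [map_smul, Finsupp.smul_apply, smul_eq_mul] at h3
    have h4 : b.repr (∑ i, a i • b i) i = a i := by
      rw [map_sum]
      simp only [map_smul, Module.Basis.repr_self, Finsupp.smul_single, smul_eq_mul, mul_one]
      rw [Finsupp.finsetSum_apply]
      simp [Finsupp.single_apply]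
    rw [h4] at h3
    rw [← ha i]
    have h5 : (⟨(a i : K), hOA _ (a i).2⟩ : A) =
        ⟨π, hOA π hπO⟩ * ⟨((b.repr ⟨g, hg⟩ i : O) : K), hOA _ (b.repr ⟨g, hg⟩ i).2⟩ := by
      apply Subtype.ext
      show (a i : K) = π * ((b.repr ⟨g, hg⟩ i : O) : K)
      rw [h3]
      rfl
    rw [h5, map_mul, hπ, zero_mul]
  -- expansion of `f`
  have hspan : Submodule.span K (M : Set F) ≤ Submodule.span K (Set.range h) := by
    rw [Submodule.span_le]
    intro x hx
    have h1 := b.sum_repr ⟨x, hx⟩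
    have h2 : x = ∑ i, ((b.repr ⟨x, hx⟩ i : O) : K) • h i := by
      rw [← hsumO]
      rw [h1]
    rw [h2]
    exact Submodule.sum_mem _ fun i _ =>
      Submodule.smul_mem _ _ (Submodule.subset_span ⟨i, rfl⟩)
  obtain ⟨c, hc⟩ := (Submodule.mem_span_range_iff_exists_fun K).1 (hspan hfM)
  have hcA : ∀ i, c i ∈ A := S36DW_coeff_mem A res hres Λ hΛ0 hΛadd hΛsmul red hred_add
    hred_smul h hhΛ hind c (by rw [hc]; exact hf)
  choose a ha using fun i => hlift (res ⟨c i, hcA i⟩)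
  refine ⟨((∑ i, a i • b i : M) : F), (∑ i, a i • b i : M).2, ?_⟩
  rw [hredO, ← hc,
    S36DW_red_sum A res Λ hΛ0 hΛadd hΛsmul red hred_add hred_smul Finset.univ c hcA h hhΛ]
  exact Finset.sum_congr rfl fun i _ => by rw [ha i]

include hres hΛ0 hΛadd hΛsmul hred_add hred_smul hresO hπ in
/-- **DESC-W, set form**: `ΛV ⊆ Λ` closed under `0, +` and `O`-scalars, finitely generated over
`O`, with `ker (red | ΛV) = π ΛV`. -/
theorem S36DW_main (ΛV : Set F) (hV0 : (0 : F) ∈ ΛV) (hVadd : ∀ f ∈ ΛV, ∀ g ∈ ΛV, f + g ∈ ΛV)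
    (hVsmul : ∀ a : K, a ∈ O → ∀ f ∈ ΛV, a • f ∈ ΛV) (hVΛ : ∀ f ∈ ΛV, f ∈ Λ)
    (hdiscV : ∀ f ∈ ΛV, red f = 0 → ∃ g ∈ ΛV, f = π • g)
    (hfg : ∃ (m : ℕ) (g : Fin m → F), (∀ j, g j ∈ ΛV) ∧
      ∀ f ∈ ΛV, ∃ c : Fin m → K, (∀ j, c j ∈ O) ∧ f = ∑ j, c j • g j)
    (f : F) (hf : f ∈ Λ) (hfV : f ∈ Submodule.span K ΛV) : ∃ g ∈ ΛV, red g = red f := by
  classical
  let M : Submodule O F :=
    { carrier := ΛV
      add_mem' := fun {a b} ha hb => hVadd a ha b hb
      zero_mem' := hV0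
      smul_mem' := fun c x hx => hVsmul (c : K) c.2 x hx }
  have hM : ∀ x, x ∈ M ↔ x ∈ ΛV := fun x => Iff.rfl
  haveI : Module.Finite O M := by
    rw [Module.Finite.iff_fg]
    obtain ⟨m, g, hg, hgen⟩ := hfg
    refine ⟨Finset.image g Finset.univ, le_antisymm ?_ ?_⟩
    · rw [Submodule.span_le]
      intro x hx
      simp only [Finset.coe_image, Finset.coe_univ, Set.image_univ, Set.mem_range] at hx
      obtain ⟨j, rfl⟩ := hx
      exact hg j
    · intro x hx
      obtain ⟨c, hc, rfl⟩ := hgen x hx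
      refine Submodule.sum_mem _ fun j _ => ?_
      have h1 : c j • g j = (⟨c j, hc j⟩ : O) • g j := rfl
      rw [h1]
      exact Submodule.smul_mem _ _ (Submodule.subset_span (by simp))
  exact S36DW_main_mod A res hres Λ hΛ0 hΛadd hΛsmul red hred_add hred_smul O hOA hresO π hπO hπ
    M hVΛ hdiscV f hf hfV

omit [Module K F] in
/-- finite generation from an injective `O`-linear coefficient map (BOUNDED). -/
theorem S36DW_fg_of_coeff {F' : Type*} [AddCommGroup F'] [Module O F'] (M : Submodule O F')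
    (n : ℕ) (φ : M →ₗ[O] (Fin n → O)) (hφ : Function.Injective φ) : Module.Finite O M :=
  Module.Finite.of_injective φ hφ

end main

end Fermat.Agent.S36
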