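import Fermat.Agent.S36.DescWU
import Fermat.Agent.S36.BaseLUnif
import Fermat.Agent.S36.Val3DvInst
import Fermat.Agent.S36.NormRes3
import Fermat.Agent.S36.SepH
import Fermat.Agent.S34.Asm3
import Fermat.Agent.S34.Pole2
import Fermat.Agent.S34.StraightInst

/-!
# TRACK 10 (S36), package DESC-W-INST (helper26), prefix `S36DW_`

Level `M q` (`q ∤ M` prime), `A ⊂ ℚ̄` a valuation subring over `q`, `I` its inertia group,
`F = modularFunctionFieldBar (M q)`, `V₁`, `V₂ = V₁ ∘ w_q` the two Gauss valuations of TRACK 7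
(`S34M_T1`, `S34M_T2`).

**Descent of integral functions to the inertia field, modulo the maximal ideal**: every
`f ∈ L(D) ∩ O₁ ∩ O₂` (`D` an `I`-stable divisor) has the same reduction `(f̄₁, f̄₂)` as an
`I`-FIXED `g ∈ L(D) ∩ O₁ ∩ O₂`.

Proof: `L(D)` is spanned by `I`-fixed functions `b_j` (SEP-H, helper29), so `f = ∑ c_j b_j`; by the
uniformiser decomposition (UNIF, helper20) `c_j = ∑_{i<e} a_{ji} π^i` with `I`-fixed `a_{ji}`,
`v(π)^e = v(q)`; hence `f = ∑_{i<e} π^i f_i` with `I`-fixed `f_i ∈ L(D)`.  The values of `I`-fixed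
functions at `V₁`, `V₂` are powers of `v(q)` (DISCRETENESS, helper1's `S36FI_dv_F/_V`), so the
terms have pairwise distinct values (ORTH, `S36DW_unif`): `g = f_0` is integral and `f - g` is in
the maximal ideal of both valuations.

* `S36DW_core`   : the generic statement along an embedding `φ : F → ℚ̄((t))`;
* `S36DW_decomp` : `f = ∑_{i<e} π^i f_i` for `f` in the span of fixed elements;
* `S36DW_levV`   : the descent for a subspace spanned by `I`-fixed elements;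
* `S36DW_levD`   : the descent for `L(D)`, `D` an `I`-stable divisor;
* `S36DW_levL`   : the descent for `L(E(a,b))`, `E(a,b) = a (x)_∞ + b (x - c)₀`, `x`, `c` `I`-fixed;
* `S36DW_levJ`   : the same for `x = j`.
-/

set_option autoImplicit false
set_option synthInstance.maxHeartbeats 400000
set_option maxHeartbeats 1000000
set_option linter.style.haveILetI false
set_option linter.unusedSectionVars false
set_option linter.unusedVariables false

open HahnSeries IntermediateField AlgebraicCurve ModularCurve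

noncomputable section

namespace Fermat.Agent.S36

open Fermat.Agent.S18 Fermat.Agent.S24 Fermat.Agent.S34 Fermat.Agent.S37 Fermat.Agent.GalRep
  Fermat.Agent.Lib

local notation "Ω" => AlgebraicClosure ℚ

/-! ### the generic core -/

section core

variable {q : ℕ} (A : ValuationSubring Ω)
variable {F : Type*} [Field F] [Algebra Ω F] (φ : F →+* LaurentSeries Ω)
  (hφ : ∀ c : Ω, φ (algebraMap Ω F c) = HahnSeries.C c)
  (O : ValuationSubring F) (hO : ∀ f, f ∈ O ↔ f ∈ S36V_G A φ)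

include hO in
/-- Gauss units have valuation one. -/
theorem S36DW_val_unit {u : F} (hu0 : u ≠ 0) (h1 : u ∈ S36V_G A φ) (h2 : u⁻¹ ∈ S36V_G A φ) :
    O.valuation u = 1 := by
  have a1 : O.valuation u ≤ 1 := (O.valuation_le_one_iff u).2 ((hO u).2 h1)
  have a2 : O.valuation u⁻¹ ≤ 1 := (O.valuation_le_one_iff u⁻¹).2 ((hO _).2 h2)
  rw [map_inv₀] at a2
  have hv0 : O.valuation u ≠ 0 := (Valuation.ne_zero_iff _).2 hu0
  have a3 : 1 ≤ O.valuation u := (inv_le_one₀ (zero_lt_iff.2 hv0)).1 a2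
  exact le_antisymm a1 a3

include hφ hO in
/-- constants of valuation one have valuation one. -/
theorem S36DW_val_const {c : Ω} (hc : A.valuation c = 1) :
    O.valuation (algebraMap Ω F c) = 1 := by
  have h := S36VDV_UG_const A φ hφ hc
  have hc0 : c ≠ 0 := by
    rintro rfl
    rw [map_zero] at hc
    exact zero_ne_one hc
  exact S36DW_val_unit A φ O hO ((map_ne_zero _).2 hc0) h.1 h.2

include hφ hO in
/-- `v(q) < 1`. -/
theorem S36DW_val_Q (hq : q.Prime) (hA : A.LiesOverPrime q) :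
    O.valuation (algebraMap Ω F (q : Ω)) < 1 := by
  have hq0 : (q : Ω) ≠ 0 := by exact_mod_cast hq.ne_zero
  have hqA : A.valuation (q : Ω) < 1 := (ValuationSubring.mem_nonunits_iff A).mp hA
  have hni := S36VDV_const_inv_not_mem A φ hφ hq0 hqA
  rw [← hO] at hni
  by_contra hge
  rw [not_lt] at hge
  apply hni
  rw [← O.valuation_le_one_iff, map_inv₀]
  exact inv_le_one_of_one_le₀ hge

include hφ hO in
/-- `v(π)^e = v(q)` is inherited from the base. -/
theorem S36DW_val_pi {e : ℕ} {π : Ω} (hq : q.Prime)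
    (hπ : A.valuation π ^ e = A.valuation (q : Ω)) :
    O.valuation (algebraMap Ω F π) ^ e = O.valuation (algebraMap Ω F (q : Ω)) := by
  have hq0 : (q : Ω) ≠ 0 := by exact_mod_cast hq.ne_zero
  have hvq : A.valuation (q : Ω) ≠ 0 := (Valuation.ne_zero_iff _).2 hq0
  have hu : A.valuation (π ^ e / (q : Ω)) = 1 := by
    rw [map_div₀, map_pow, hπ, div_self hvq]
  have h := S36DW_val_const A φ hφ O hO hu
  rw [map_div₀, map_div₀, map_pow, map_pow] at h
  have hvQ : O.valuation (algebraMap Ω F (q : Ω)) ≠ 0 :=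
    (Valuation.ne_zero_iff _).2 ((map_ne_zero _).2 hq0)
  exact (div_eq_one_iff_eq hvQ).1 h

include hO in
/-- DISCRETENESS in valuation form. -/
theorem S36DW_disc (hq : q.Prime) (FL : Set F)
    (hdv : ∀ f ∈ FL, f ≠ 0 → ∃ k : ℤ, f * algebraMap Ω F ((q : Ω) ^ k) ∈ S36V_G A φ ∧
      (f * algebraMap Ω F ((q : Ω) ^ k))⁻¹ ∈ S36V_G A φ) :
    ∀ f ∈ FL, f ≠ 0 → ∃ k : ℤ, O.valuation f = O.valuation (algebraMap Ω F (q : Ω)) ^ k := by
  intro f hf hf0
  obtain ⟨k, h1, h2⟩ := hdv f hf hf0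
  have hq0 : (q : Ω) ≠ 0 := by exact_mod_cast hq.ne_zero
  have hQ0 : algebraMap Ω F ((q : Ω) ^ k) ≠ 0 := (map_ne_zero _).2 (zpow_ne_zero _ hq0)
  have h := S36DW_val_unit A φ O hO (mul_ne_zero hf0 hQ0) h1 h2
  rw [map_mul, map_zpow₀, map_zpow₀] at h
  refine ⟨-k, ?_⟩
  rw [zpow_neg]
  exact eq_inv_of_mul_eq_one_left h

include hφ hO in
/-- **the generic core**: if `∑_{i<e} π^i f_i` (`f_i` with discrete values, `v(π)^e = v(q)`) is
integral along `φ`, then `f_0` is integral and the rest lies in the maximal ideal. -/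
theorem S36DW_core (hq : q.Prime) (hA : A.LiesOverPrime q) (FL : Set F)
    (hdv : ∀ f ∈ FL, f ≠ 0 → ∃ k : ℤ, f * algebraMap Ω F ((q : Ω) ^ k) ∈ S36V_G A φ ∧
      (f * algebraMap Ω F ((q : Ω) ^ k))⁻¹ ∈ S36V_G A φ)
    (e : ℕ) (he : 0 < e) (π : Ω) (hπ : A.valuation π ^ e = A.valuation (q : Ω))
    (f : Fin e → F) (hf : ∀ i, f i ∈ FL)
    (hsum : ∑ i : Fin e, algebraMap Ω F π ^ (i : ℕ) * f i ∈ O) :
    f ⟨0, he⟩ ∈ O ∧
      (∑ i : Fin e, algebraMap Ω F π ^ (i : ℕ) * f i) - f ⟨0, he⟩ ∈ O.nonunits :=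
  S36DW_unif O (algebraMap Ω F (q : Ω)) (algebraMap Ω F π) e he
    (S36DW_val_pi A φ hφ O hO hq hπ) (S36DW_val_Q A φ hφ O hO hq hA)
    ((map_ne_zero _).2 (by exact_mod_cast hq.ne_zero)) FL (S36DW_disc A φ O hO hq FL hdv) f hf hsum

end core

/-! ### reductions -/

section red

variable {L F k Fk : Type*} [Field L] [Field F] [Algebra L F] [Field k] [Field Fk]
  [Algebra k Fk] (S : S18_Val L F k Fk)

/-- elements which differ by an element of the maximal ideal have the same reduction. -/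
theorem S36DW_red_eq {f g : F} (hf : f ∈ S.O) (hg : g ∈ S.O) (h : f - g ∈ S.O.nonunits) :
    S.red ⟨g, hg⟩ = S.red ⟨f, hf⟩ := by
  have h0 : S.red (⟨f, hf⟩ - ⟨g, hg⟩) = 0 := by
    by_contra hne
    have hu := (S.red_ne_zero_iff _).1 hne
    have h1 := (ValuationSubring.valuation_eq_one_iff S.O _).1 hu
    have h2 : S.O.valuation (f - g) < 1 := (ValuationSubring.mem_nonunits_iff S.O).mp h
    have h3 : (((⟨f, hf⟩ - ⟨g, hg⟩ : S.O) : S.O) : F) = f - g := rfl
    rw [h3] at h1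
    rw [h1] at h2
    exact lt_irrefl _ h2
  rw [map_sub, sub_eq_zero] at h0
  exact h0.symm

end red

/-! ### the decomposition -/

section decomp

variable (N : ℕ) [NeZero N] {q : ℕ} (A : ValuationSubring Ω)

/-- semilinearity of the Galois action. -/
theorem S36DW_gal_smul (τ : Ω ≃ₐ[ℚ] Ω) (c : Ω) (b : ↥(modularFunctionFieldBar N)) :
    GR_gal N τ (c • b) = τ c • GR_gal N τ b := by
  rw [Algebra.smul_def, map_mul, Algebra.smul_def]
  congr 1
  exact arithmeticRingAut_algebraMap _ τ c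

/-- **uniformiser decomposition of functions**: an element of the span of the `I`-fixed elements
of `V` is `∑_{i<e} π^i f_i` with `I`-fixed `f_i ∈ V`, `v(π)^e = v(q)`. -/
theorem S36DW_decomp (hq : q.Prime) (hA : A.LiesOverPrime q)
    (V : Submodule Ω ↥(modularFunctionFieldBar N)) (f : ↥(modularFunctionFieldBar N))
    (hf : f ∈ Submodule.span Ω
      {w | w ∈ V ∧ ∀ τ ∈ A.inertiaSubgroupIn ℚ, GR_gal N τ w = w}) :
    ∃ (e : ℕ) (π : Ω) (g : Fin e → ↥(modularFunctionFieldBar N)), 0 < e ∧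
      A.valuation π ^ e = A.valuation (q : Ω) ∧ (∀ i, g i ∈ V) ∧
      (∀ i, ∀ τ ∈ A.inertiaSubgroupIn ℚ, GR_gal N τ (g i) = g i) ∧
      f = ∑ i : Fin e, algebraMap Ω ↥(modularFunctionFieldBar N) π ^ (i : ℕ) * g i := by
  classical
  haveI : Fact q.Prime := ⟨hq⟩
  obtain ⟨c, t, ht, -, hsum⟩ := Submodule.mem_span_iff_exists_finset_subset.1 hf
  obtain ⟨e, π, he, hπ, hdec⟩ := S36BL_unif_ram A hA (t.image c)
  have hdec' : ∀ b ∈ t, ∃ a : Fin e → Ω,
      (∀ i, ∀ τ ∈ A.inertiaSubgroupIn ℚ, τ (a i) = a i) ∧ c b = ∑ i, a i * π ^ (i : ℕ) :=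
    fun b hb => hdec (c b) (Finset.mem_image_of_mem c hb)
  choose! a ha1 ha2 using hdec'
  refine ⟨e, π, fun i => ∑ b ∈ t, a b i • b, he, hπ, ?_, ?_, ?_⟩
  · intro i
    exact Submodule.sum_mem _ fun b hb => Submodule.smul_mem _ _ (ht (Finset.mem_coe.2 hb)).1
  · intro i τ hτ
    rw [map_sum]
    refine Finset.sum_congr rfl fun b hb => ?_
    rw [S36DW_gal_smul, ha1 b hb i τ hτ, (ht (Finset.mem_coe.2 hb)).2 τ hτ]
  · rw [← hsum]
    calc ∑ b ∈ t, c b • b
        = ∑ b ∈ t, ∑ i : Fin e,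
            algebraMap Ω ↥(modularFunctionFieldBar N) π ^ (i : ℕ) * (a b i • b) := by
          refine Finset.sum_congr rfl fun b hb => ?_
          have h1 : c b • b = (∑ i, a b i * π ^ (i : ℕ)) • b := by rw [← ha2 b hb]
          rw [h1, Finset.sum_smul]
          refine Finset.sum_congr rfl fun i _ => ?_
          rw [Algebra.smul_def, Algebra.smul_def, map_mul, map_pow]
          ring
      _ = ∑ i : Fin e, ∑ b ∈ t,
            algebraMap Ω ↥(modularFunctionFieldBar N) π ^ (i : ℕ) * (a b i • b) :=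
          Finset.sum_comm
      _ = _ := by
          refine Finset.sum_congr rfl fun i _ => ?_
          rw [Finset.mul_sum]

/-- the grid divisor `E(a,b)` of `I`-fixed functions is `I`-stable. -/
theorem S36DW_E_stable (hP : HasPrincipalDivisors Ω ↥(modularFunctionFieldBar N))
    (x z : ↥(modularFunctionFieldBar N)) (a b : ℕ) (τ : Ω ≃ₐ[ℚ] Ω)
    (hx : GR_gal N τ x = x) (hz : GR_gal N τ z = z)
    (v : Place Ω ↥(modularFunctionFieldBar N)) :
    S34P_E hP x z a b (arithmeticGalois (modularFunctionFieldFull N) τ • v) =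
      S34P_E hP x z a b v := by
  rw [S34P_E_apply, S34P_E_apply]
  have h1 := S36LD_ord_gal N τ v x
  have h2 := S36LD_ord_gal N τ v z
  rw [hx] at h1
  rw [hz] at h2
  rw [h1, h2]

end decomp

/-! ### level `M q` -/

section lev

variable (M q : ℕ) [NeZero M] [NeZero q] (hq : q.Prime) (hqM : ¬ q ∣ M)
  (A : ValuationSubring Ω) (hA : A.LiesOverPrime q)

section abs

variable (O₁ O₂ : ValuationSubring ↥(modularFunctionFieldBar (M * q)))
  (hO₁ : ∀ f, f ∈ O₁ ↔ f ∈ S36V_G A (S36V_emF M q))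
  (hO₂ : ∀ f, f ∈ O₂ ↔ f ∈ S36V_G A (S36V_emV M q hq hqM))

include hA hO₁ hO₂ in
/-- **DESC-W at level `M q`, subspace form**: `V` a subspace spanned by its `I`-fixed elements;
every `f ∈ V ∩ O₁ ∩ O₂` is congruent modulo the maximal ideals of `O₁` and `O₂` to an `I`-fixed
`g ∈ V ∩ O₁ ∩ O₂`. -/
theorem S36DW_levV (V : Submodule Ω ↥(modularFunctionFieldBar (M * q)))
    (hV : V ≤ Submodule.span Ω
      {w | w ∈ V ∧ ∀ τ ∈ A.inertiaSubgroupIn ℚ, GR_gal (M * q) τ w = w})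
    (f : ↥(modularFunctionFieldBar (M * q))) (hf : f ∈ V) (hf₁ : f ∈ O₁) (hf₂ : f ∈ O₂) :
    ∃ g : ↥(modularFunctionFieldBar (M * q)), g ∈ V ∧
      (∀ τ ∈ A.inertiaSubgroupIn ℚ, GR_gal (M * q) τ g = g) ∧ g ∈ O₁ ∧ g ∈ O₂ ∧
      f - g ∈ O₁.nonunits ∧ f - g ∈ O₂.nonunits := by
  obtain ⟨e, π, g, he, hπ, hgV, hgfix, hfg⟩ := S36DW_decomp (M * q) A hq hA V f (hV hf)
  set FL : Set ↥(modularFunctionFieldBar (M * q)) :=
    {w | w ∈ (S36FI_act (M * q) (A.inertiaSubgroupIn ℚ)).fixF} with hFL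
  have hgFL : ∀ i, g i ∈ FL := fun i =>
    (S36FI_mem_fixF (M * q) (A.inertiaSubgroupIn ℚ)).2 (hgfix i)
  have h1 := S36DW_core A (S36V_emF M q) (S36FI_emF_const M q) O₁ hO₁ hq hA FL
    (fun w hw hw0 => S36FI_dv_F M q hq A hA w hw hw0) e he π hπ g hgFL
    (by rw [← hfg]; exact hf₁)
  have h2 := S36DW_core A (S36V_emV M q hq hqM) (S36FI_emV_const M q hq hqM) O₂ hO₂ hq hA FL
    (fun w hw hw0 => S36FI_dv_V M q hq hqM A hA w hw hw0) e he π hπ g hgFL
    (by rw [← hfg]; exact hf₂)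
  rw [← hfg] at h1 h2
  exact ⟨g ⟨0, he⟩, hgV _, hgfix _, h1.1, h2.1, h1.2, h2.2⟩

end abs

variable (hgen : PrincipalGeneratedByIntegral A (IsLocalRing.residue A) (M * q))

include hq hqM hA in
/-- `V₁` is the Gauss ring along `coe₁`. -/
theorem S36DW_T1_iff (f : ↥(modularFunctionFieldBar (M * q))) :
    f ∈ (S34M_T1 M q A hgen).O ↔ f ∈ S36V_G A (S36V_emF M q) := by
  rw [S34M_T1_O, S34DF_mem_O1]
  exact ⟨fun h => S36NR_S18_le_G M q A h, fun h => S36NR_G_le_S18 M q hq hqM A hA h⟩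

include hq hqM hA in
/-- `V₂` is the Gauss ring along `coe₁ ∘ w_q`. -/
theorem S36DW_T2_iff (f : ↥(modularFunctionFieldBar (M * q))) :
    f ∈ (S34M_T2 M q hq hqM A hgen).O ↔ f ∈ S36V_G A (S36V_emV M q hq hqM) := by
  rw [S34M_T2_O, S34DF_mem_O2, S36NR_mem_V_iff]
  exact ⟨fun h => S36NR_S18_le_G M q A h, fun h => S36NR_G_le_S18 M q hq hqM A hA h⟩

include hA in
/-- **DESC-W-INST, subspace form on THE canonical objects**. -/
theorem S36DW_levT (V : Submodule Ω ↥(modularFunctionFieldBar (M * q)))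
    (hV : V ≤ Submodule.span Ω
      {w | w ∈ V ∧ ∀ τ ∈ A.inertiaSubgroupIn ℚ, GR_gal (M * q) τ w = w})
    (f : ↥(modularFunctionFieldBar (M * q))) (hf : f ∈ V)
    (hfO : f ∈ S34P_O2 (S34M_T1 M q A hgen) (S34M_T2 M q hq hqM A hgen)) :
    ∃ g : ↥(modularFunctionFieldBar (M * q)), g ∈ V ∧
      ∃ hg : g ∈ S34P_O2 (S34M_T1 M q A hgen) (S34M_T2 M q hq hqM A hgen),
        (∀ σ ∈ A.inertiaSubgroupIn ℚ, GR_gal (M * q) σ g = g) ∧
        S34P_red (S34M_T1 M q A hgen) (S34M_T2 M q hq hqM A hgen) ⟨g, hg⟩ =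
          S34P_red (S34M_T1 M q A hgen) (S34M_T2 M q hq hqM A hgen) ⟨f, hfO⟩ := by
  obtain ⟨g, hgV, hgfix, hg₁, hg₂, hd₁, hd₂⟩ :=
    S36DW_levV M q hq hqM A hA (S34M_T1 M q A hgen).O (S34M_T2 M q hq hqM A hgen).O
      (S36DW_T1_iff M q hq hqM A hA hgen) (S36DW_T2_iff M q hq hqM A hA hgen) V hV f hf
      hfO.1 hfO.2
  refine ⟨g, hgV, ⟨hg₁, hg₂⟩, hgfix, ?_⟩
  refine Prod.ext ?_ ?_
  · rw [S34P_red_fst, S34P_red_fst]
    exact S36DW_red_eq (S34M_T1 M q A hgen) hfO.1 hg₁ hd₁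
  · rw [S34P_red_snd, S34P_red_snd]
    exact S36DW_red_eq (S34M_T2 M q hq hqM A hgen) hfO.2 hg₂ hd₂

include hA in
/-- **DESC-W-INST for `L(D)`**, `D` an `I`-stable divisor: every integral `f ∈ L(D)` has the same
reduction `(f̄₁, f̄₂)` as an `I`-fixed integral `g ∈ L(D)`. -/
theorem S36DW_levD (D : Divisor Ω ↥(modularFunctionFieldBar (M * q)))
    (hD : ∀ τ ∈ A.inertiaSubgroupIn ℚ, ∀ v,
      D (arithmeticGalois (modularFunctionFieldFull (M * q)) τ • v) = D v)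
    (f : ↥(modularFunctionFieldBar (M * q))) (hf : f ∈ riemannRochSpace D)
    (hfO : f ∈ S34P_O2 (S34M_T1 M q A hgen) (S34M_T2 M q hq hqM A hgen)) :
    ∃ g : ↥(modularFunctionFieldBar (M * q)), g ∈ riemannRochSpace D ∧
      ∃ hg : g ∈ S34P_O2 (S34M_T1 M q A hgen) (S34M_T2 M q hq hqM A hgen),
        (∀ σ ∈ A.inertiaSubgroupIn ℚ, GR_gal (M * q) σ g = g) ∧
        S34P_red (S34M_T1 M q A hgen) (S34M_T2 M q hq hqM A hgen) ⟨g, hg⟩ =
          S34P_red (S34M_T1 M q A hgen) (S34M_T2 M q hq hqM A hgen) ⟨f, hfO⟩ := by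
  refine S36DW_levT M q hq hqM A hA hgen (riemannRochSpace D) ?_ f hf hfO
  refine le_trans (S36SH_rr_span (M * q) (A.inertiaSubgroupIn ℚ : Set (Ω ≃ₐ[ℚ] Ω)) D
    (fun τ hτ v => hD τ hτ v)) (Submodule.span_mono ?_)
  rintro w ⟨hw1, hw2⟩
  exact ⟨hw1, fun τ hτ => hw2 ⟨τ, hτ⟩⟩

include hA in
/-- **DESC-W-INST for the grid** `E(a,b) = a (x)_∞ + b (x - c)₀`, `x` and `c` fixed by `I`. -/
theorem S36DW_levL (hP : HasPrincipalDivisors Ω ↥(modularFunctionFieldBar (M * q)))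
    (x : ↥(modularFunctionFieldBar (M * q)))
    (hx : ∀ τ ∈ A.inertiaSubgroupIn ℚ, GR_gal (M * q) τ x = x)
    (c : Ω) (hc : ∀ τ ∈ A.inertiaSubgroupIn ℚ, τ c = c) (a b : ℕ)
    (f : ↥(modularFunctionFieldBar (M * q)))
    (hf : f ∈ riemannRochSpace
      (S34P_E hP x (x - algebraMap Ω ↥(modularFunctionFieldBar (M * q)) c) a b))
    (hfO : f ∈ S34P_O2 (S34M_T1 M q A hgen) (S34M_T2 M q hq hqM A hgen)) :
    ∃ g : ↥(modularFunctionFieldBar (M * q)),
      g ∈ riemannRochSpace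
        (S34P_E hP x (x - algebraMap Ω ↥(modularFunctionFieldBar (M * q)) c) a b) ∧
      ∃ hg : g ∈ S34P_O2 (S34M_T1 M q A hgen) (S34M_T2 M q hq hqM A hgen),
        (∀ σ ∈ A.inertiaSubgroupIn ℚ, GR_gal (M * q) σ g = g) ∧
        S34P_red (S34M_T1 M q A hgen) (S34M_T2 M q hq hqM A hgen) ⟨g, hg⟩ =
          S34P_red (S34M_T1 M q A hgen) (S34M_T2 M q hq hqM A hgen) ⟨f, hfO⟩ := by
  refine S36DW_levD M q hq hqM A hA hgen _ ?_ f hf hfO
  intro τ hτ v
  refine S36DW_E_stable (M * q) hP x _ a b τ (hx τ hτ) ?_ v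
  rw [map_sub, hx τ hτ]
  congr 1
  have h := arithmeticRingAut_algebraMap (modularFunctionFieldFull (M * q)) τ c
  rw [hc τ hτ] at h
  exact h

include hA in
/-- **DESC-W-INST for the `j`-grid** `E(a,b) = a (j)_∞ + b (j - c)₀`, `c` fixed by `I`
(helper14's shape). -/
theorem S36DW_levJ (hP : HasPrincipalDivisors Ω ↥(modularFunctionFieldBar (M * q)))
    (c : Ω) (hc : ∀ τ ∈ A.inertiaSubgroupIn ℚ, τ c = c) (a b : ℕ)
    (f : ↥(modularFunctionFieldBar (M * q)))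
    (hf : f ∈ riemannRochSpace
      (S34P_E hP (jB (M * q) : ↥(modularFunctionFieldBar (M * q)))
        ((jB (M * q) : ↥(modularFunctionFieldBar (M * q))) -
          algebraMap Ω ↥(modularFunctionFieldBar (M * q)) c) a b))
    (hfO : f ∈ S34P_O2 (S34M_T1 M q A hgen) (S34M_T2 M q hq hqM A hgen)) :
    ∃ g : ↥(modularFunctionFieldBar (M * q)),
      g ∈ riemannRochSpace
        (S34P_E hP (jB (M * q) : ↥(modularFunctionFieldBar (M * q)))
          ((jB (M * q) : ↥(modularFunctionFieldBar (M * q))) -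
            algebraMap Ω ↥(modularFunctionFieldBar (M * q)) c) a b) ∧
      ∃ hg : g ∈ S34P_O2 (S34M_T1 M q A hgen) (S34M_T2 M q hq hqM A hgen),
        (∀ σ ∈ A.inertiaSubgroupIn ℚ, GR_gal (M * q) σ g = g) ∧
        S34P_red (S34M_T1 M q A hgen) (S34M_T2 M q hq hqM A hgen) ⟨g, hg⟩ =
          S34P_red (S34M_T1 M q A hgen) (S34M_T2 M q hq hqM A hgen) ⟨f, hfO⟩ :=
  S36DW_levL M q hq hqM A hA hgen hP (jB (M * q))
    (fun τ _ => S34SW_gal_jB (M * q) τ) c hc a b f hf hfO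

end lev

end Fermat.Agent.S36
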