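import Mathlib

/-!
# TRACK 10 (S36), package DESC-W (helper26), part 2, prefix `S36DW_` — Mathlib only

Descent of integral elements along a totally ramified extension of the constants, by the
"uniformiser decomposition".

`F` a field with a valuation ring `O`; `Q, Π ∈ F` (the images of `q` and of a uniformiser `π` of a
finite extension of the base field) with `v(Π)^e = v(Q) < 1`; `FL ⊆ F` a set of elements whose
valuations are powers of `v(Q)` (the `I`-fixed elements: DISCRETENESS).  If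
`f = ∑_{i<e} Π^i f_i` with `f_i ∈ FL` is integral, then every term is integral, every `f_i` is
integral, and `Π^i f_i` is a non-unit for `i ≥ 1`.

* `S36DW_orth`   : a sum with pairwise distinct valuations in `O` has all its terms in `O`;
* `S36DW_terms`  : the statement above, term by term;
* `S36DW_unif`   : `f_0 ∈ O` and `f - f_0 ∈ O.nonunits`.
-/

set_option autoImplicit false
set_option linter.unusedSectionVars false
set_option linter.unusedVariables false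
set_option linter.style.haveILetI false

namespace Fermat.Agent.S36

section orth

variable {F : Type*} [Field F] (O : ValuationSubring F)

/-- a sum with pairwise distinct valuations which is integral has integral terms. -/
theorem S36DW_orth {ι : Type*} (s : Finset ι) (x : ι → F)
    (hdist : ∀ i ∈ s, ∀ j ∈ s, i ≠ j → x i ≠ 0 → O.valuation (x i) ≠ O.valuation (x j))
    (hsum : ∑ i ∈ s, x i ∈ O) : ∀ i ∈ s, x i ∈ O := by
  classical
  rcases s.eq_empty_or_nonempty with rfl | hne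
  · intro i hi
    simp at hi
  obtain ⟨i₀, hi₀, hmax⟩ := Finset.exists_max_image s (fun i => O.valuation (x i)) hne
  by_cases h0 : x i₀ = 0
  · intro i hi
    have h1 := hmax i hi
    rw [h0, map_zero] at h1
    have h2 : x i = 0 := (Valuation.zero_iff _).1 (le_antisymm h1 zero_le)
    rw [h2]
    exact O.zero_mem
  have hlt : ∀ j ∈ s.erase i₀, O.valuation (x j) < O.valuation (x i₀) := by
    intro j hj
    have hj' := Finset.mem_erase.1 hj
    exact lt_of_le_of_ne (hmax j hj'.2) (fun h => hdist i₀ hi₀ j hj'.2 (Ne.symm hj'.1) h0 h.symm)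
  have hv0 : O.valuation (x i₀) ≠ 0 := (Valuation.ne_zero_iff _).2 h0
  have hrest : O.valuation (∑ j ∈ s.erase i₀, x j) < O.valuation (x i₀) :=
    Valuation.map_sum_lt _ hv0 hlt
  have hsplit : ∑ i ∈ s, x i = x i₀ + ∑ j ∈ s.erase i₀, x j :=
    (Finset.add_sum_erase s x hi₀).symm
  have hval : O.valuation (∑ i ∈ s, x i) = O.valuation (x i₀) := by
    rw [hsplit]
    exact Valuation.map_add_eq_of_lt_left _ hrest
  have h1 : O.valuation (x i₀) ≤ 1 := by
    rw [← hval]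
    exact (O.valuation_le_one_iff _).2 hsum
  intro i hi
  exact (O.valuation_le_one_iff _).1 (le_trans (hmax i hi) h1)

end orth

section unif

variable {F : Type*} [Field F] (O : ValuationSubring F)
  (Q ϖ : F) (e : ℕ) (he : 0 < e) (hϖQ : O.valuation ϖ ^ e = O.valuation Q)
  (hQ1 : O.valuation Q < 1) (hQ0 : Q ≠ 0)
  (FL : Set F) (hdisc : ∀ f ∈ FL, f ≠ 0 → ∃ k : ℤ, O.valuation f = O.valuation Q ^ k)

include he hϖQ hQ1 hQ0 in
theorem S36DW_valPi : 0 < O.valuation ϖ ∧ O.valuation ϖ < 1 := by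
  have hvQ : O.valuation Q ≠ 0 := (Valuation.ne_zero_iff _).2 hQ0
  have h0 : O.valuation ϖ ≠ 0 := by
    intro h
    rw [h, zero_pow he.ne'] at hϖQ
    exact hvQ hϖQ.symm
  refine ⟨zero_lt_iff.2 h0, ?_⟩
  by_contra hge
  rw [not_lt] at hge
  have h1 : 1 ≤ O.valuation ϖ ^ e := one_le_pow₀ hge
  rw [hϖQ] at h1
  exact absurd hQ1 (not_lt.2 h1)

include he hϖQ hQ1 hQ0 hdisc in
/-- the valuation of a term `ϖ^i f`, `f ∈ FL`, `f ≠ 0`. -/
theorem S36DW_val_term (i : ℕ) (f : F) (hf : f ∈ FL) (hf0 : f ≠ 0) :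
    ∃ k : ℤ, O.valuation f = O.valuation Q ^ k ∧
      O.valuation (ϖ ^ i * f) = O.valuation ϖ ^ ((i : ℤ) + (e : ℤ) * k) := by
  obtain ⟨k, hk⟩ := hdisc f hf hf0
  obtain ⟨hϖ0, -⟩ := S36DW_valPi O Q ϖ e he hϖQ hQ1 hQ0
  refine ⟨k, hk, ?_⟩
  rw [map_mul, map_pow, hk, ← hϖQ, zpow_add₀ hϖ0.ne', zpow_natCast, zpow_mul, zpow_natCast]

include he hϖQ hQ1 hQ0 hdisc in
/-- **ORTH, term by term**: if `∑_{i<e} ϖ^i f_i` is integral (`f_i ∈ FL`), then every term is
integral, every `f_i` is integral, and the terms with `i ≥ 1` are non-units. -/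
theorem S36DW_terms (f : Fin e → F) (hf : ∀ i, f i ∈ FL)
    (hsum : ∑ i : Fin e, ϖ ^ (i : ℕ) * f i ∈ O) :
    ∀ i : Fin e, ϖ ^ (i : ℕ) * f i ∈ O ∧ f i ∈ O ∧
      (0 < (i : ℕ) → ϖ ^ (i : ℕ) * f i ∈ O.nonunits) := by
  classical
  obtain ⟨hϖ0, hϖ1⟩ := S36DW_valPi O Q ϖ e he hϖQ hQ1 hQ0
  have hϖne : ϖ ≠ 0 := (Valuation.ne_zero_iff _).1 hϖ0.ne'
  have hterms : ∀ i ∈ (Finset.univ : Finset (Fin e)), ϖ ^ (i : ℕ) * f i ∈ O := by
    refine S36DW_orth O Finset.univ (fun i : Fin e => ϖ ^ (i : ℕ) * f i) ?_ hsum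
    intro i _ j _ hij hi0 heq
    have hfi0 : f i ≠ 0 := right_ne_zero_of_mul hi0
    have hj0 : ϖ ^ (j : ℕ) * f j ≠ 0 := by
      intro h0
      rw [h0, map_zero] at heq
      exact hi0 ((Valuation.zero_iff _).1 heq)
    have hfj0 : f j ≠ 0 := right_ne_zero_of_mul hj0
    obtain ⟨ki, -, hvi⟩ := S36DW_val_term O Q ϖ e he hϖQ hQ1 hQ0 FL hdisc i (f i) (hf i) hfi0
    obtain ⟨kj, -, hvj⟩ := S36DW_val_term O Q ϖ e he hϖQ hQ1 hQ0 FL hdisc j (f j) (hf j) hfj0
    rw [hvi, hvj] at heq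
    have h1 := (zpow_right_strictAnti₀ hϖ0 hϖ1).injective heq
    apply hij
    apply Fin.ext
    have hi := i.2
    have hj := j.2
    have h2 : ((i : ℕ) : ℤ) - (j : ℕ) = (e : ℤ) * (kj - ki) := by linarith
    have h3 : ((i : ℕ) : ℤ) - (j : ℕ) = 0 := by
      by_contra hne
      have hd : (e : ℤ) ∣ ((i : ℕ) : ℤ) - (j : ℕ) := ⟨kj - ki, h2⟩
      have hle := Int.le_of_dvd (abs_pos.2 hne) ((dvd_abs _ _).2 hd)
      have habs : |((i : ℕ) : ℤ) - (j : ℕ)| < e := by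
        rw [abs_lt]
        constructor <;> omega
      omega
    omega
  intro i
  have hti := hterms i (Finset.mem_univ i)
  by_cases hfi0 : f i = 0
  · rw [hfi0, mul_zero]
    exact ⟨O.zero_mem, O.zero_mem, fun _ => O.nonunits.zero_mem⟩
  obtain ⟨k, hk, hv⟩ := S36DW_val_term O Q ϖ e he hϖQ hQ1 hQ0 FL hdisc i (f i) (hf i) hfi0
  have h1 : O.valuation (ϖ ^ (i : ℕ) * f i) ≤ 1 := (O.valuation_le_one_iff _).2 hti
  rw [hv, zpow_le_one_iff_right_of_lt_one₀ hϖ0 hϖ1] at h1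
  have hi := i.2
  have hk0 : 0 ≤ k := by
    by_contra hneg
    rw [not_le] at hneg
    have : (e : ℤ) * k ≤ -(e : ℤ) := by nlinarith
    omega
  have hQpos : 0 < O.valuation Q := zero_lt_iff.2 ((Valuation.ne_zero_iff _).2 hQ0)
  refine ⟨hti, ?_, fun hpos => ?_⟩
  · rw [← O.valuation_le_one_iff, hk, zpow_le_one_iff_right_of_lt_one₀ hQpos hQ1]
    exact hk0
  · rw [ValuationSubring.mem_nonunits_iff, hv, zpow_lt_one_iff_right_of_lt_one₀ hϖ0 hϖ1]
    have : (0 : ℤ) ≤ (e : ℤ) * k := by positivity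
    omega

include he hϖQ hQ1 hQ0 hdisc in
/-- **ORTH**: if `f = ∑_{i<e} ϖ^i f_i` is integral (`f_i ∈ FL`), then `f_0` is integral and
`f - f_0` is a non-unit. -/
theorem S36DW_unif (f : Fin e → F) (hf : ∀ i, f i ∈ FL)
    (hsum : ∑ i : Fin e, ϖ ^ (i : ℕ) * f i ∈ O) :
    f ⟨0, he⟩ ∈ O ∧ (∑ i : Fin e, ϖ ^ (i : ℕ) * f i) - f ⟨0, he⟩ ∈ O.nonunits := by
  classical
  have ht := S36DW_terms O Q ϖ e he hϖQ hQ1 hQ0 FL hdisc f hf hsum
  refine ⟨(ht ⟨0, he⟩).2.1, ?_⟩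
  have h1 : (∑ i : Fin e, ϖ ^ (i : ℕ) * f i) - f ⟨0, he⟩ =
      ∑ i ∈ (Finset.univ : Finset (Fin e)).erase ⟨0, he⟩, ϖ ^ (i : ℕ) * f i := by
    rw [← Finset.add_sum_erase Finset.univ (fun i : Fin e => ϖ ^ (i : ℕ) * f i)
      (Finset.mem_univ (⟨0, he⟩ : Fin e))]
    simp
  rw [h1]
  refine sum_mem fun i hi => ?_
  have hi' := (Finset.mem_erase.1 hi).1
  refine (ht i).2.2 ?_
  rcases Nat.eq_zero_or_pos (i : ℕ) with h0 | h0
  · exact absurd (Fin.ext h0) hi'
  · exact h0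

end unif

end Fermat.Agent.S36
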