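import Mathlib

/-!
# TRACK 10 (S36), package F1 = FIN (R9) (helper7): finiteness of the lattice by the TRACE FORM

Designer's ruling (D8): FIN does not need "only three".  If `K ⊂ F` is finite separable,
`S₀ ⊂ K` a Noetherian subring, `Λ ⊂ F` a subring containing `S₀` with `K·Λ = F` and
`Tr_{F/K}(Λ) ⊂ S₀`, then `Λ ⊂ ∑ S₀·bᵢ^*` for the trace-dual basis of a basis `b ⊂ Λ`;
hence `Λ` is a finitely generated `S₀`-module, every element of `Λ` is integral over `S₀` and
`Λ` is a Noetherian ring.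

* `S36FN_eq_sum_dual` : `g = ∑ Tr(g·bᵢ) • bᵢ^*`;
* `S36FN_exists_basis` : a `K`-basis of `F` inside `Λ` from `K·Λ = F` (this is the hypothesis
  `hbas` of all the theorems below);
* `S36FN_core_basis` : `∃ s : Finset F, ∀ g ∈ Λ, g ∈ span_{S₀} s`;
* `S36FN_isIntegral` : `∀ g ∈ Λ, IsIntegral S₀ g`;
* `S36FN_fg` : every `S₀`-submodule of `F` contained in `Λ` is finitely generated;
* `S36FN_isNoetherianRing` : `Λ` is a Noetherian ring;
* `S36FN_trace_tower` : the hypothesis `htr` from a tower `K ⊂ K₁ ⊂ F`, `Tr_{F/K₁}(Λ) ⊂` integral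
  elements, `S₀` integrally closed in `K`.
-/

set_option autoImplicit false

open Module

namespace Fermat.Agent.S36

section core

variable {K F : Type*} [Field K] [Field F] [Algebra K F] [FiniteDimensional K F]
  [Algebra.IsSeparable K F]

/-- expansion of `g` in the trace-dual basis. -/
theorem S36FN_eq_sum_dual {ι : Type*} [Fintype ι] [DecidableEq ι] (b : Basis ι K F) (g : F) :
    g = ∑ i, Algebra.trace K F (g * b i) •
      (Algebra.traceForm K F).dualBasis (traceForm_nondegenerate K F) b i := by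
  have h := ((Algebra.traceForm K F).dualBasis (traceForm_nondegenerate K F) b).sum_repr g
  conv_lhs => rw [← h]
  refine Finset.sum_congr rfl fun i _ => ?_
  rw [LinearMap.BilinForm.dualBasis_repr_apply, Algebra.traceForm_apply]

/-- a `K`-basis of `F` inside `Λ`, if `K·Λ = F`. -/
theorem S36FN_exists_basis (Λ : Subring F)
    (hspan : ∀ x : F, ∃ d : K, d ≠ 0 ∧ algebraMap K F d * x ∈ Λ) :
    ∃ (n : ℕ) (b : Basis (Fin n) K F), ∀ i, b i ∈ Λ := by
  classical
  set b₀ : Basis (Fin (finrank K F)) K F := finBasis K F with hb₀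
  choose d hd0 hd using fun i => hspan (b₀ i)
  refine ⟨_, b₀.unitsSMul fun i => Units.mk0 (d i) (hd0 i), fun i => ?_⟩
  rw [Basis.unitsSMul_apply, Units.smul_def, Units.val_mk0, Algebra.smul_def]
  exact hd i

/-- **FIN, trace form** (basis version): `Λ` is contained in a finitely generated
`S₀`-submodule of `F`. -/
theorem S36FN_core_basis (S₀ : Subring K) (Λ : Subring F)
    (hbas : ∃ (n : ℕ) (b : Basis (Fin n) K F), ∀ i, b i ∈ Λ)
    (htr : ∀ g ∈ Λ, Algebra.trace K F g ∈ S₀) :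
    ∃ s : Finset F, ∀ g ∈ Λ, g ∈ Submodule.span S₀ (s : Set F) := by
  classical
  obtain ⟨n, b, hb⟩ := hbas
  set b' := (Algebra.traceForm K F).dualBasis (traceForm_nondegenerate K F) b with hb'
  refine ⟨Finset.univ.image b', fun g hg => ?_⟩
  rw [S36FN_eq_sum_dual b g]
  refine Submodule.sum_mem _ fun i _ => ?_
  have h1 : Algebra.trace K F (g * b i) • b' i =
      (⟨Algebra.trace K F (g * b i), htr _ (Λ.mul_mem hg (hb i))⟩ : S₀) • b' i := rfl
  rw [h1]
  refine Submodule.smul_mem _ _ (Submodule.subset_span ?_)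
  rw [Finset.coe_image, Finset.coe_univ, Set.image_univ]
  exact Set.mem_range_self i

/-- every `S₀`-submodule of `F` contained in `Λ` is finitely generated. -/
theorem S36FN_fg (S₀ : Subring K) [IsNoetherianRing S₀] (Λ : Subring F)
    (hbas : ∃ (n : ℕ) (b : Basis (Fin n) K F), ∀ i, b i ∈ Λ)
    (htr : ∀ g ∈ Λ, Algebra.trace K F g ∈ S₀)
    (N : Submodule S₀ F) (hN : ∀ g ∈ N, g ∈ Λ) : N.FG := by
  obtain ⟨s, hs⟩ := S36FN_core_basis S₀ Λ hbas htr
  have hnoeth : IsNoetherian S₀ (Submodule.span S₀ (s : Set F)) :=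
    isNoetherian_span_of_finite S₀ s.finite_toSet
  exact isNoetherian_submodule.mp hnoeth N fun g hg => hs g (hN g hg)

/-- **FIN, integrality**: every element of `Λ` is integral over `S₀`. -/
theorem S36FN_isIntegral (S₀ : Subring K) [IsNoetherianRing S₀] (Λ : Subring F)
    (hS : ∀ a ∈ S₀, algebraMap K F a ∈ Λ)
    (hbas : ∃ (n : ℕ) (b : Basis (Fin n) K F), ∀ i, b i ∈ Λ)
    (htr : ∀ g ∈ Λ, Algebra.trace K F g ∈ S₀) :
    ∀ g ∈ Λ, IsIntegral S₀ g := by
  intro g hg
  have hle : ∀ x ∈ Algebra.adjoin S₀ {g}, x ∈ Λ := by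
    intro x hx
    induction hx using Algebra.adjoin_induction with
    | mem y hy => rw [Set.mem_singleton_iff] at hy; rw [hy]; exact hg
    | algebraMap r => exact hS r r.2
    | add x y _ _ hx hy => exact Λ.add_mem hx hy
    | mul x y _ _ hx hy => exact Λ.mul_mem hx hy
  have hfg : (Subalgebra.toSubmodule (Algebra.adjoin S₀ {g})).FG :=
    S36FN_fg S₀ Λ hbas htr _ hle
  exact IsIntegral.of_mem_of_fg _ hfg g (Algebra.subset_adjoin (Set.mem_singleton g))

/-- **FIN**: `Λ` is a Noetherian ring. -/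
theorem S36FN_isNoetherianRing (S₀ : Subring K) [IsNoetherianRing S₀] (Λ : Subring F)
    (hS : ∀ a ∈ S₀, algebraMap K F a ∈ Λ)
    (hbas : ∃ (n : ℕ) (b : Basis (Fin n) K F), ∀ i, b i ∈ Λ)
    (htr : ∀ g ∈ Λ, Algebra.trace K F g ∈ S₀) :
    IsNoetherianRing Λ := by
  obtain ⟨s, hs⟩ := S36FN_core_basis S₀ Λ hbas htr
  have hnoeth : IsNoetherian S₀ (Submodule.span S₀ (s : Set F)) :=
    isNoetherian_span_of_finite S₀ s.finite_toSet
  let φ : S₀ →+* Λ :=
    { toFun := fun a => ⟨algebraMap K F a, hS a a.2⟩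
      map_one' := by ext; simp
      map_mul' := fun a b => by ext; simp
      map_zero' := by ext; simp
      map_add' := fun a b => by ext; simp }
  let _ : Algebra S₀ Λ := φ.toAlgebra
  let f : Λ →ₗ[S₀] Submodule.span S₀ (s : Set F) :=
    { toFun := fun g => ⟨(g : F), hs g g.2⟩
      map_add' := fun a b => by ext; simp
      map_smul' := fun a g => by
        ext
        simp only [RingHom.id_apply, Submodule.coe_smul]
        rw [Algebra.smul_def, Algebra.smul_def]
        rfl }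
  have hf : Function.Injective f := by
    intro a b hab
    have := congrArg (fun z : Submodule.span S₀ (s : Set F) => (z : F)) hab
    exact Subtype.ext this
  have h1 : IsNoetherian S₀ Λ := isNoetherian_of_injective f hf
  exact isNoetherian_of_tower S₀ h1

end core

section tower

variable {K K₁ F : Type*} [Field K] [Field K₁] [Field F] [Algebra K K₁] [Algebra K₁ F]
  [Algebra K F] [IsScalarTower K K₁ F] [FiniteDimensional K K₁] [FiniteDimensional K₁ F]

/-- the trace hypothesis from a tower `K ⊂ K₁ ⊂ F`: if `Tr_{F/K₁}(g)` is integral over `S₀` and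
`S₀` is integrally closed in `K`, then `Tr_{F/K}(g) ∈ S₀`. -/
theorem S36FN_trace_tower (S₀ : Subring K) (hic : ∀ z : K, IsIntegral S₀ z → z ∈ S₀)
    (g : F) (hg : IsIntegral S₀ (Algebra.trace K₁ F g)) :
    Algebra.trace K F g ∈ S₀ := by
  rw [← Algebra.trace_trace (S := K₁)]
  exact hic _ (Algebra.isIntegral_trace hg)

end tower

section MU

variable {K : Type*} [Field K] {Γ₀ : Type*} [LinearOrderedCommGroupWithZero Γ₀] {ι : Type*}

/-- **FIN for `M^u`** (the hypothesis `hfg` of helper19's `S36LV_li` / `S36LV_main`): if the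
lattice `Λ = {x ∈ K₀ | ∀ i, v i x ≤ 1}` is a Noetherian ring with `K₀ = Frac Λ`, then
`M^u = {f ∈ K₀ | ∀ i, v i f ^ n * v i u ≤ 1}` is a finitely generated `Λ`-module. -/
theorem S36FN_MU_fg (v : ι → Valuation K Γ₀) (K₀ : Subfield K) (Λ : Subring K)
    (hΛ : ∀ x : K, x ∈ Λ ↔ x ∈ K₀ ∧ ∀ i, v i x ≤ 1) [IsNoetherianRing Λ]
    (hfrac : ∀ x ∈ K₀, ∃ b : Λ, (b : K) ≠ 0 ∧ (b : K) * x ∈ Λ)
    (u : K) (hu₀ : u ∈ K₀) (hu : u ≠ 0) (n : ℕ) (hn : n ≠ 0)
    (MU : Submodule Λ K) (hMU : ∀ f : K, f ∈ MU ↔ f ∈ K₀ ∧ ∀ i, v i f ^ n * v i u ≤ 1) :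
    MU.FG := by
  classical
  obtain ⟨b, hb0, hbu⟩ := hfrac u⁻¹ (K₀.inv_mem hu₀)
  have hb₀ : (b : K) ∈ K₀ := ((hΛ _).1 b.2).1
  have hble : ∀ i, v i (b : K) ≤ 1 := ((hΛ _).1 b.2).2
  have hbule : ∀ i, v i (b : K) ≤ v i u := by
    intro i
    have h1 := ((hΛ _).1 hbu).2 i
    rw [map_mul, map_inv₀] at h1
    have hvu : v i u ≠ 0 := (Valuation.ne_zero_iff _).2 hu
    have h2 := mul_le_mul_left h1 (v i u)
    rwa [mul_assoc, inv_mul_cancel₀ hvu, mul_one, one_mul] at h2
  -- `b • MU ⊂ Λ`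
  have hmem : ∀ f ∈ MU, (b : K) * f ∈ Λ := by
    intro f hf
    obtain ⟨hf₀, hfle⟩ := (hMU f).1 hf
    rw [hΛ]
    refine ⟨K₀.mul_mem hb₀ hf₀, fun i => ?_⟩
    by_contra hlt
    push Not at hlt
    have h1 : 1 < v i ((b : K) * f) ^ n := one_lt_pow₀ hlt hn
    rw [map_mul, mul_pow] at h1
    have h2 : v i (b : K) ^ n ≤ v i u := by
      calc v i (b : K) ^ n ≤ v i (b : K) ^ 1 := pow_le_pow_right_of_le_one' (hble i)
            (Nat.one_le_iff_ne_zero.2 hn)
        _ = v i (b : K) := pow_one _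
        _ ≤ v i u := hbule i
    have h3 : v i (b : K) ^ n * v i f ^ n ≤ v i u * v i f ^ n := mul_le_mul_left h2 _
    rw [mul_comm (v i u)] at h3
    exact absurd (lt_of_lt_of_le h1 (h3.trans (hfle i))) (lt_irrefl _)
  -- the ideal `b • MU` of `Λ`
  let I : Ideal Λ :=
    { carrier := {x | ∃ f ∈ MU, (x : K) = (b : K) * f}
      add_mem' := by
        rintro x y ⟨f, hf, hxf⟩ ⟨g, hg, hyg⟩
        exact ⟨f + g, MU.add_mem hf hg, by rw [Subring.coe_add, hxf, hyg, mul_add]⟩
      zero_mem' := ⟨0, MU.zero_mem, by simp⟩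
      smul_mem' := by
        rintro c x ⟨f, hf, hxf⟩
        refine ⟨c • f, MU.smul_mem c hf, ?_⟩
        rw [smul_eq_mul, Subring.coe_mul, hxf]
        change (c : K) * ((b : K) * f) = (b : K) * ((c : K) * f)
        ring }
  obtain ⟨t, ht⟩ := (isNoetherianRing_iff_ideal_fg Λ).1 inferInstance I
  refine ⟨t.image fun x : Λ => (b : K)⁻¹ * (x : K), le_antisymm ?_ ?_⟩
  · rw [Submodule.span_le]
    intro z hz
    rw [Finset.coe_image] at hz
    obtain ⟨x, hx, rfl⟩ := hz
    have hxI : x ∈ I := by rw [← ht]; exact Submodule.subset_span hx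
    obtain ⟨f, hf, hxf⟩ := hxI
    change (b : K)⁻¹ * (x : K) ∈ MU
    rw [hxf, ← mul_assoc, inv_mul_cancel₀ hb0, one_mul]
    exact hf
  · intro f hf
    have hxI : (⟨(b : K) * f, hmem f hf⟩ : Λ) ∈ I := ⟨f, hf, rfl⟩
    rw [← ht] at hxI
    have key : ∀ x : Λ, x ∈ Submodule.span Λ (t : Set Λ) →
        (b : K)⁻¹ * (x : K) ∈
          Submodule.span Λ ((t.image fun x : Λ => (b : K)⁻¹ * (x : K) : Finset K) : Set K) := by
      intro x hx
      induction hx using Submodule.span_induction with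
      | mem y hy =>
        refine Submodule.subset_span ?_
        rw [Finset.coe_image]
        exact ⟨y, hy, rfl⟩
      | zero => simp
      | add x y _ _ hx hy =>
        rw [Subring.coe_add, mul_add]
        exact Submodule.add_mem _ hx hy
      | smul c x _ hx =>
        have : (b : K)⁻¹ * ((c • x : Λ) : K) = c • ((b : K)⁻¹ * (x : K)) := by
          rw [smul_eq_mul, Subring.coe_mul]
          change (b : K)⁻¹ * ((c : K) * (x : K)) = (c : K) * ((b : K)⁻¹ * (x : K))
          ring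
        rw [this]
        exact Submodule.smul_mem _ c hx
    have := key _ hxI
    rwa [← mul_assoc, inv_mul_cancel₀ hb0, one_mul] at this

end MU

section adjoin

open Polynomial IntermediateField

variable {R E F : Type*} [CommRing R] [Field E] [Field F] [Algebra R E] [Algebra E F]
  [Algebra R F] [IsScalarTower R E F]

/-- `R[j]` as a subring of `E(j)`. -/
def S36FN_S₀ (R E : Type*) {F : Type*} [CommRing R] [Field E] [Field F] [Algebra R E]
    [Algebra E F] [Algebra R F] [IsScalarTower R E F] (j : F) : Subring E⟮j⟯ :=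
  (Algebra.adjoin R {j}).toSubring.comap (algebraMap E⟮j⟯ F)

theorem S36FN_mem_S₀ (j : F) (a : E⟮j⟯) :
    a ∈ S36FN_S₀ R E j ↔ (a : F) ∈ Algebra.adjoin R {j} := Iff.rfl

theorem S36FN_coe_aeval_gen (j : F) (p : R[X]) :
    ((aeval (AdjoinSimple.gen E j) p : E⟮j⟯) : F) = aeval j p := by
  induction p using Polynomial.induction_on' with
  | add p q hp hq => rw [map_add, map_add, ← hp, ← hq]; rfl
  | monomial n a =>
    rw [aeval_monomial, aeval_monomial, IntermediateField.coe_mul, IntermediateField.coe_pow,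
      AdjoinSimple.coe_gen]
    rfl

/-- `R[j] ⊂ E(j)` is a Noetherian ring. -/
theorem S36FN_S₀_noeth [IsNoetherianRing R] (j : F) : IsNoetherianRing (S36FN_S₀ R E j) := by
  have hmem : ∀ p : R[X], (aeval (AdjoinSimple.gen E j) p : E⟮j⟯) ∈ S36FN_S₀ R E j := by
    intro p
    rw [S36FN_mem_S₀, S36FN_coe_aeval_gen, Algebra.adjoin_singleton_eq_range_aeval]
    exact ⟨p, rfl⟩
  let ψ : R[X] →+* S36FN_S₀ R E j :=
    (aeval (AdjoinSimple.gen E j) : R[X] →ₐ[R] E⟮j⟯).toRingHom.codRestrict _ hmem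
  refine isNoetherianRing_of_surjective R[X] _ ψ fun a => ?_
  have ha : ((a : E⟮j⟯) : F) ∈ Algebra.adjoin R {j} := a.2
  rw [Algebra.adjoin_singleton_eq_range_aeval] at ha
  obtain ⟨p, hp⟩ := ha
  refine ⟨p, Subtype.ext (Subtype.ext ?_)⟩
  change ((aeval (AdjoinSimple.gen E j) p : E⟮j⟯) : F) = _
  rw [S36FN_coe_aeval_gen]
  exact hp

omit [Field E] [Algebra R E] [Algebra E F] [IsScalarTower R E F] in
/-- `R[j] ⊂ Λ` if `Λ` contains `R` and `j`. -/
theorem S36FN_adjoin_le (j : F) (Λ : Subring F) (hR : ∀ r : R, algebraMap R F r ∈ Λ)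
    (hj : j ∈ Λ) : ∀ x ∈ Algebra.adjoin R {j}, x ∈ Λ := by
  intro x hx
  induction hx using Algebra.adjoin_induction with
  | mem y hy => rw [Set.mem_singleton_iff] at hy; rw [hy]; exact hj
  | algebraMap r => exact hR r
  | add x y _ _ hx hy => exact Λ.add_mem hx hy
  | mul x y _ _ hx hy => exact Λ.mul_mem hx hy

/-- integrality over `R[j] ⊂ E(j)` is integrality over the subalgebra `R[j] ⊂ F`. -/
theorem S36FN_isIntegral_adjoin (j : F) {g : F} (hg : IsIntegral (S36FN_S₀ R E j) g) :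
    IsIntegral (Algebra.adjoin R {j}) g := by
  obtain ⟨p, hp, hpz⟩ := hg
  let θ : S36FN_S₀ R E j →+* Algebra.adjoin R {j} :=
    { toFun := fun a => ⟨((a : E⟮j⟯) : F), a.2⟩
      map_one' := by ext; simp
      map_mul' := fun a b => by ext; simp
      map_zero' := by ext; simp
      map_add' := fun a b => by ext; simp }
  refine ⟨p.map θ, hp.map θ, ?_⟩
  rw [eval₂_map]
  exact hpz

/-- **FIN (R9), `O[j]`-form**: a subring `Λ ⊂ F` containing `R` and `j`, containing a basis of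
`F` over `E(j)`, with `Tr_{F/E(j)}(Λ) ⊂ R[j]`, is integral over `R[j]` and is a Noetherian ring.
(`hΛint` of `S36T_htors_kummer`; with `S36FN_MU_fg`: `hfg` of `S36LV_li`.) -/
theorem S36FN_adjoin [IsNoetherianRing R] (j : F) [FiniteDimensional E⟮j⟯ F]
    [Algebra.IsSeparable E⟮j⟯ F]
    (Λ : Subring F) (hR : ∀ r : R, algebraMap R F r ∈ Λ) (hj : j ∈ Λ)
    (hbas : ∃ (n : ℕ) (b : Basis (Fin n) E⟮j⟯ F), ∀ i, b i ∈ Λ)
    (htr : ∀ g ∈ Λ, ((Algebra.trace E⟮j⟯ F g : E⟮j⟯) : F) ∈ Algebra.adjoin R {j}) :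
    (∀ g ∈ Λ, IsIntegral (Algebra.adjoin R {j}) g) ∧ IsNoetherianRing Λ := by
  have := S36FN_S₀_noeth (R := R) (E := E) j
  have hS : ∀ a ∈ S36FN_S₀ R E j, algebraMap E⟮j⟯ F a ∈ Λ := fun a ha =>
    S36FN_adjoin_le j Λ hR hj _ ha
  exact ⟨fun g hg => S36FN_isIntegral_adjoin j
      (S36FN_isIntegral (S36FN_S₀ R E j) Λ hS hbas htr g hg),
    S36FN_isNoetherianRing (S36FN_S₀ R E j) Λ hS hbas htr⟩

end adjoin

end Fermat.Agent.S36
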