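import Mathlib
import Fermat.Agent.S36.Fin3

/-!
# TRACK 10 (S36), package F1 = FIN (R9): the hypothesis `hbas` (helper6) — prefix `S36FS_`

`R ⊂ L = Frac R`, `L ⊂ F` fields, `x ∈ F` with `F` algebraic over `L(x)`, `Λ ⊂ F` a subring
containing `R` and `x`, with `F = Frac Λ` (`hfrac`).

* `S36FS_isFractionRing` : `L(x) = Frac (R[x])` (`R[x] = S36FN_S₀ R L x ⊂ L(x)`);
* `S36FS_hspan` : every `f ∈ F` has a denominator in `R[x]`: `∃ d ∈ L(x)`, `d ≠ 0`, `d f ∈ Λ`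
  (the hypothesis `hspan` of `S36FN_exists_basis`); moreover `d ∈ R[x]`;
* `S36FS_hbas` : `∃ n (b : Basis (Fin n) L(x) F), ∀ i, b i ∈ Λ` (the hypothesis `hbas` of
  `S36FN_adjoin`).
-/

set_option autoImplicit false

namespace Fermat.Agent.S36

open Polynomial IntermediateField Module

variable {R L F : Type*} [CommRing R] [Field L] [Field F] [Algebra R L] [Algebra L F]
  [Algebra R F] [IsScalarTower R L F]

/-- `L(x)` is the fraction field of `R[x]`. -/
theorem S36FS_isFractionRing [IsDomain R] [IsFractionRing R L] (x : F) :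
    IsFractionRing (S36FN_S₀ R L x) L⟮x⟯ := by
  have hmem : ∀ p : R[X], (aeval (AdjoinSimple.gen L x) p : L⟮x⟯) ∈ S36FN_S₀ R L x := by
    intro p
    rw [S36FN_mem_S₀, S36FN_coe_aeval_gen, Algebra.adjoin_singleton_eq_range_aeval]
    exact ⟨p, rfl⟩
  have hfaith : FaithfulSMul (S36FN_S₀ R L x) L⟮x⟯ :=
    (faithfulSMul_iff_algebraMap_injective _ _).2 fun a b hab => Subtype.ext hab
  refine IsFractionRing.of_field (S36FN_S₀ R L x) L⟮x⟯ fun z => ?_
  obtain ⟨r, s, hrs⟩ := (mem_adjoin_simple_iff L (z : F)).mp z.2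
  obtain ⟨b, hb, hbr⟩ := IsLocalization.integerNormalization_spec (nonZeroDivisors R) r
  obtain ⟨c, hc, hcs⟩ := IsLocalization.integerNormalization_spec (nonZeroDivisors R) s
  set r' := IsLocalization.integerNormalization (nonZeroDivisors R) r with hr'
  set s' := IsLocalization.integerNormalization (nonZeroDivisors R) s with hs'
  have hb0 : algebraMap R F b ≠ 0 := by
    rw [IsScalarTower.algebraMap_apply R L F]
    exact (map_ne_zero_iff _ (algebraMap L F).injective).2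
      ((map_ne_zero_iff _ (IsFractionRing.injective R L)).2 (nonZeroDivisors.ne_zero hb))
  have hc0 : algebraMap R F c ≠ 0 := by
    rw [IsScalarTower.algebraMap_apply R L F]
    exact (map_ne_zero_iff _ (algebraMap L F).injective).2
      ((map_ne_zero_iff _ (IsFractionRing.injective R L)).2 (nonZeroDivisors.ne_zero hc))
  have h1 : aeval x r' = algebraMap R F b * aeval x r := by
    rw [← aeval_map_algebraMap L x r', hbr, ← algebraMap_smul L b r, map_smul,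
      Algebra.smul_def, ← IsScalarTower.algebraMap_apply]
  have h2 : aeval x s' = algebraMap R F c * aeval x s := by
    rw [← aeval_map_algebraMap L x s', hcs, ← algebraMap_smul L c s, map_smul,
      Algebra.smul_def, ← IsScalarTower.algebraMap_apply]
  refine ⟨⟨_, hmem (C c * r')⟩, ⟨_, hmem (C b * s')⟩, ?_⟩
  apply Subtype.ext
  rw [IntermediateField.coe_div]
  change (z : F) = ((aeval (AdjoinSimple.gen L x) (C c * r') : L⟮x⟯) : F) /
    ((aeval (AdjoinSimple.gen L x) (C b * s') : L⟮x⟯) : F)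
  rw [S36FN_coe_aeval_gen, S36FN_coe_aeval_gen, map_mul, map_mul, aeval_C, aeval_C, h1, h2, hrs]
  by_cases hs0 : aeval x s = 0
  · rw [hs0, mul_zero, mul_zero, div_zero, div_zero]
  · field_simp

/-- **`hspan`**, strong form: every `f ∈ F` has a nonzero denominator in `R[x]`. -/
theorem S36FS_hspan' [IsDomain R] [IsFractionRing R L] (x : F) [Algebra.IsAlgebraic L⟮x⟯ F]
    (Λ : Subring F) (hR : ∀ r : R, algebraMap R F r ∈ Λ) (hx : x ∈ Λ)
    (hfrac : ∀ f : F, ∃ b ∈ Λ, b ≠ 0 ∧ b * f ∈ Λ) (f : F) :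
    ∃ d : L⟮x⟯, d ≠ 0 ∧ (d : F) ∈ Algebra.adjoin R {x} ∧ (d : F) * f ∈ Λ := by
  have hfr := S36FS_isFractionRing (R := R) (L := L) x
  have hS₀ : ∀ a : S36FN_S₀ R L x, ((a : L⟮x⟯) : F) ∈ Λ := fun a =>
    S36FN_adjoin_le x Λ hR hx _ a.2
  obtain ⟨b, hbΛ, hb0, hbf⟩ := hfrac f
  have hST : IsScalarTower (S36FN_S₀ R L x) L⟮x⟯ F :=
    IsScalarTower.of_algebraMap_eq fun _ => rfl
  have halg : IsAlgebraic (S36FN_S₀ R L x) b :=
    (IsFractionRing.isAlgebraic_iff (S36FN_S₀ R L x) L⟮x⟯ F).mpr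
      (Algebra.IsAlgebraic.isAlgebraic b)
  have hadj : ∀ t : F, t ∈ Algebra.adjoin (S36FN_S₀ R L x) {b} → t ∈ Λ := by
    intro t ht
    induction ht using Algebra.adjoin_induction with
    | mem y hy => rw [Set.mem_singleton_iff] at hy; rw [hy]; exact hbΛ
    | algebraMap a => exact hS₀ a
    | add _ _ _ _ hx hy => exact Λ.add_mem hx hy
    | mul _ _ _ _ hx hy => exact Λ.mul_mem hx hy
  obtain ⟨t, ht, r, hr0, hbt⟩ :=
    halg.exists_nonzero_eq_adjoin_mul (mem_nonZeroDivisors_of_ne_zero hb0)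
  have htΛ : t ∈ Λ := hadj t ht
  refine ⟨(r : L⟮x⟯), fun h => hr0 (Subtype.ext h), r.2, ?_⟩
  have h1 : ((r : L⟮x⟯) : F) = b * t := hbt.symm
  rw [h1, mul_right_comm]
  exact Λ.mul_mem hbf htΛ

/-- **`hspan`** of `S36FN_exists_basis`. -/
theorem S36FS_hspan [IsDomain R] [IsFractionRing R L] (x : F) [Algebra.IsAlgebraic L⟮x⟯ F]
    (Λ : Subring F) (hR : ∀ r : R, algebraMap R F r ∈ Λ) (hx : x ∈ Λ)
    (hfrac : ∀ f : F, ∃ b ∈ Λ, b ≠ 0 ∧ b * f ∈ Λ) (f : F) :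
    ∃ d : L⟮x⟯, d ≠ 0 ∧ algebraMap L⟮x⟯ F d * f ∈ Λ := by
  obtain ⟨d, hd0, -, hd⟩ := S36FS_hspan' (L := L) x Λ hR hx hfrac f
  exact ⟨d, hd0, hd⟩

/-- **`hbas`** of `S36FN_adjoin`: `Λ` contains a basis of `F` over `L(x)`. -/
theorem S36FS_hbas [IsDomain R] [IsFractionRing R L] (x : F) [FiniteDimensional L⟮x⟯ F]
    [Algebra.IsSeparable L⟮x⟯ F]
    (Λ : Subring F) (hR : ∀ r : R, algebraMap R F r ∈ Λ) (hx : x ∈ Λ)
    (hfrac : ∀ f : F, ∃ b ∈ Λ, b ≠ 0 ∧ b * f ∈ Λ) :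
    ∃ (n : ℕ) (b : Basis (Fin n) L⟮x⟯ F), ∀ i, b i ∈ Λ :=
  S36FN_exists_basis Λ (S36FS_hspan (L := L) x Λ hR hx hfrac)

end Fermat.Agent.S36
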