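import Mathlib
import Fermat.Agent.S34.PoleInt
import Fermat.Agent.S36.Fin3

/-!
# TRACK 10 (S36), package F1 = FIN (R9) (helper7), part 2: integrality over `A[x]` from a
cartesian chart, and the trace hypothesis `htr` of `Fin3.lean`

* `S36FC_isIntegral_A` (P2): for a lattice datum `S : S34L_Lat L F k R` with a cartesian chart
  `hC : S.IsCart x y` (TRACK 7: `S34CB_isCart_X0` at level `q M`): `z ∈ O` integral over `L[x]`
  ⇒ `z` integral over `A[x]`.
* `S36FC_red_isIntegral` : integrality over `R[j]` is preserved by a reduction map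
  (with `BL_mem_of_isIntegral` this is `hreg` of ORD-LOWER).
-/

set_option autoImplicit false

open Polynomial IntermediateField
open scoped IntermediateField.algebraAdjoinAdjoin

namespace Fermat.Agent.S36

open Fermat.Agent.S18 Fermat.Agent.S34

section P2

variable {L F k R : Type*} [Field L] [Field F] [Algebra L F] [Field k] [CommRing R]
  [Algebra k R]

variable {S : S34L_Lat L F k R}

/-- **(P2)**: on a lattice with a cartesian chart, integrality over `L[x]` implies integrality
over `A[x]`. -/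
theorem S36FC_isIntegral_A [Nontrivial R] {x : S.O} {n : ℕ} {y : Fin n → S.O}
    (hC : S.IsCart x y) (z : S.O) (hz : IsIntegral (Algebra.adjoin L {(x : F)}) (z : F)) :
    IsIntegral (Algebra.adjoin S.A {(x : F)}) (z : F) := by
  classical
  have hxt := S34P_transcendental_x hC
  let K' := L⟮(x : F)⟯
  let Ox : ValuationSubring K' := S34P_Ox S x hC.unit
  let _ : Algebra Ox F := ((algebraMap K' F).comp Ox.subtype).toAlgebra
  have hST : IsScalarTower Ox K' F := IsScalarTower.of_algebraMap_eq (fun _ => rfl)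
  have hOxmem : ∀ a : Ox, ((a : K') : F) ∈ S.O := fun a => a.2
  -- `z` is integral over `O_x`
  have hz2 : IsIntegral Ox (z : F) := by
    let N : Submodule Ox F := Submodule.span Ox (Set.range fun i => (y i : F))
    have hNO : ∀ f ∈ N, f ∈ S.O := by
      intro f hf
      induction hf using Submodule.span_induction with
      | mem g hg =>
        obtain ⟨i, rfl⟩ := hg
        exact (y i).2
      | zero => exact S.O.zero_mem
      | add g h _ _ hg hh => exact S.O.add_mem hg hh
      | smul a g _ hg =>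
        have : a • g = ((a : K') : F) * g := rfl
        rw [this]
        exact S.O.mul_mem (hOxmem a) hg
    have hON : ∀ f : S.O, (f : F) ∈ N := by
      intro f
      obtain ⟨a, haO, haK, hf⟩ := S34P_exists_repr hC f
      rw [hf]
      refine Submodule.sum_mem _ fun i _ => ?_
      have : a i * (y i : F) = (⟨⟨a i, haK i⟩, haO i⟩ : Ox) • (y i : F) := rfl
      rw [this]
      exact Submodule.smul_mem _ _ (Submodule.subset_span ⟨i, rfl⟩)
    refine isIntegral_of_smul_mem_submodule N ?_ (Submodule.fg_span (Set.finite_range _))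
      (z : F) ?_
    · intro hbot
      have h1 : (1 : F) ∈ N := by simpa using hON 1
      rw [hbot, Submodule.mem_bot] at h1
      exact one_ne_zero h1
    · intro f hf
      have : (z : F) • f = ((z * ⟨f, hNO f hf⟩ : S.O) : F) := rfl
      rw [this]
      exact hON _
  have := S18_Val.isIntegrallyClosed_adjoin hxt
  have e1 := minpoly.isIntegrallyClosed_eq_field_fractions' K' hz
  have e2 := minpoly.isIntegrallyClosed_eq_field_fractions' K' hz2
  set P₂ := minpoly Ox (z : F) with hP₂
  have hP₂m : P₂.Monic := minpoly.monic hz2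
  have hroot : eval₂ (algebraMap Ox F) (z : F) P₂ = 0 := minpoly.aeval Ox (z : F)
  -- coefficients
  have hcoef : ∀ t, algebraMap Ox F (P₂.coeff t) ∈ Algebra.adjoin S.A {(x : F)} := by
    intro t
    have h1 : (algebraMap Ox K' (P₂.coeff t) : K') =
        algebraMap (Algebra.adjoin L {(x : F)}) K'
          ((minpoly (Algebra.adjoin L {(x : F)}) (z : F)).coeff t) := by
      have := congrArg (fun p => p.coeff t) (e2.symm.trans e1)
      simpa [coeff_map] using this
    have h2 : (((P₂.coeff t : Ox) : K') : F) ∈ Algebra.adjoin L {(x : F)} := by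
      have h3 : (algebraMap Ox K' (P₂.coeff t) : K') = ((P₂.coeff t : Ox) : K') := rfl
      rw [← h3, h1]
      exact ((minpoly (Algebra.adjoin L {(x : F)}) (z : F)).coeff t).2
    rw [Algebra.adjoin_singleton_eq_range_aeval] at h2
    obtain ⟨q, hq⟩ := h2
    have hqO : aeval (x : F) q ∈ S.O := by
      have : aeval (x : F) q = (((P₂.coeff t : Ox) : K') : F) := hq
      rw [this]
      exact hOxmem _
    have hcA := S34P_coeff_mem_of_aeval_mem hC.transc q hqO
    have h5 : algebraMap Ox F (P₂.coeff t) = aeval (x : F) q := hq.symm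
    rw [h5, aeval_eq_sum_range]
    refine Subalgebra.sum_mem _ fun i _ => ?_
    have h6 : q.coeff i • (x : F) ^ i = (⟨q.coeff i, hcA i⟩ : S.A) • (x : F) ^ i := rfl
    rw [h6]
    exact Subalgebra.smul_mem _ (Subalgebra.pow_mem _
      (Algebra.subset_adjoin (Set.mem_singleton _)) i) _
  have hlifts : P₂.map (algebraMap Ox F) ∈
      Polynomial.lifts (algebraMap (Algebra.adjoin S.A {(x : F)}) F) :=
    (Polynomial.lifts_iff_coeff_lifts _).mpr fun t => by
      rw [coeff_map]
      exact ⟨⟨_, hcoef t⟩, rfl⟩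
  obtain ⟨q', hq'q, -, hq'monic⟩ :=
    Polynomial.lifts_and_natDegree_eq_and_monic hlifts (hP₂m.map _)
  refine ⟨q', hq'monic, ?_⟩
  rw [Polynomial.eval₂_eq_eval_map, hq'q, Polynomial.eval_map]
  exact hroot

end P2

section P3

variable {R E F : Type*} [CommRing R] [Field E] [Field F] [Algebra R E] [Algebra E F]
  [Algebra R F] [IsScalarTower R E F]

/-- the evaluation `R[X] → R[j] ⊂ E(j)`. -/
noncomputable def S36FC_ψ (R E : Type*) {F : Type*} [CommRing R] [Field E] [Field F]
    [Algebra R E] [Algebra E F] [Algebra R F] [IsScalarTower R E F] (j : F) :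
    R[X] →+* S36FN_S₀ R E j :=
  (aeval (AdjoinSimple.gen E j) : R[X] →ₐ[R] E⟮j⟯).toRingHom.codRestrict _ (fun p => by
    rw [S36FN_mem_S₀]
    change ((aeval (AdjoinSimple.gen E j) p : E⟮j⟯) : F) ∈ _
    rw [S36FN_coe_aeval_gen, Algebra.adjoin_singleton_eq_range_aeval]
    exact ⟨p, rfl⟩)

theorem S36FC_coe_ψ (j : F) (p : R[X]) :
    (((S36FC_ψ R E j p : S36FN_S₀ R E j) : E⟮j⟯) : F) = aeval j p :=
  S36FN_coe_aeval_gen j p

theorem S36FC_ψ_surjective (j : F) : Function.Surjective (S36FC_ψ R E j) := by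
  intro a
  have ha : ((a : E⟮j⟯) : F) ∈ Algebra.adjoin R {j} := a.2
  rw [Algebra.adjoin_singleton_eq_range_aeval] at ha
  obtain ⟨p, hp⟩ := ha
  refine ⟨p, Subtype.ext (Subtype.ext ?_)⟩
  rw [S36FC_coe_ψ]
  exact hp

theorem S36FC_ψ_injective [IsDomain R] [IsFractionRing R E] (j : F) (hj : Transcendental E j) :
    Function.Injective (S36FC_ψ R E j) := by
  intro p q hpq
  have h0 : aeval j p = aeval j q := by
    rw [← S36FC_coe_ψ (E := E), ← S36FC_coe_ψ (E := E), hpq]
  have h1 : aeval j (p.map (algebraMap R E)) = aeval j (q.map (algebraMap R E)) := by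
    rw [aeval_map_algebraMap, aeval_map_algebraMap]
    exact h0
  have h2 := (transcendental_iff_injective.mp hj) h1
  exact Polynomial.map_injective _ (IsFractionRing.injective R E) h2

/-- **(P3)**: `R[j]` is integrally closed in `E(j)` (`R` integrally closed, `E = Frac R`,
`j` transcendental): the hypothesis `hic` of `S36FN_trace_tower`. -/
theorem S36FC_hic [IsDomain R] [IsIntegrallyClosed R] [IsFractionRing R E] (j : F)
    (hj : Transcendental E j) :
    ∀ z : E⟮j⟯, IsIntegral (S36FN_S₀ R E j) z → z ∈ S36FN_S₀ R E j := by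
  classical
  let e : R[X] ≃+* S36FN_S₀ R E j :=
    RingEquiv.ofBijective (S36FC_ψ R E j) ⟨S36FC_ψ_injective j hj, S36FC_ψ_surjective j⟩
  have hIC : IsIntegrallyClosed (S36FN_S₀ R E j) := IsIntegrallyClosed.of_equiv e
  have hfaith : FaithfulSMul (S36FN_S₀ R E j) E⟮j⟯ :=
    (faithfulSMul_iff_algebraMap_injective _ _).2 fun a b hab => Subtype.ext hab
  have hfr : IsFractionRing (S36FN_S₀ R E j) E⟮j⟯ := by
    refine IsFractionRing.of_field (S36FN_S₀ R E j) E⟮j⟯ fun z => ?_
    obtain ⟨r, s, hrs⟩ := (mem_adjoin_simple_iff E (z : F)).mp z.2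
    obtain ⟨b, hb, hbr⟩ := IsLocalization.integerNormalization_spec (nonZeroDivisors R) r
    obtain ⟨c, hc, hcs⟩ := IsLocalization.integerNormalization_spec (nonZeroDivisors R) s
    set r' := IsLocalization.integerNormalization (nonZeroDivisors R) r with hr'
    set s' := IsLocalization.integerNormalization (nonZeroDivisors R) s with hs'
    have hb0 : algebraMap R F b ≠ 0 := by
      rw [IsScalarTower.algebraMap_apply R E F]
      exact (map_ne_zero_iff _ (algebraMap E F).injective).2
        ((map_ne_zero_iff _ (IsFractionRing.injective R E)).2 (nonZeroDivisors.ne_zero hb))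
    have hc0 : algebraMap R F c ≠ 0 := by
      rw [IsScalarTower.algebraMap_apply R E F]
      exact (map_ne_zero_iff _ (algebraMap E F).injective).2
        ((map_ne_zero_iff _ (IsFractionRing.injective R E)).2 (nonZeroDivisors.ne_zero hc))
    have h1 : aeval j r' = algebraMap R F b * aeval j r := by
      rw [← aeval_map_algebraMap E j r', hbr, ← algebraMap_smul E b r, map_smul,
        Algebra.smul_def, ← IsScalarTower.algebraMap_apply]
    have h2 : aeval j s' = algebraMap R F c * aeval j s := by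
      rw [← aeval_map_algebraMap E j s', hcs, ← algebraMap_smul E c s, map_smul,
        Algebra.smul_def, ← IsScalarTower.algebraMap_apply]
    refine ⟨S36FC_ψ R E j (C c * r'), S36FC_ψ R E j (C b * s'), ?_⟩
    apply Subtype.ext
    rw [IntermediateField.coe_div]
    change (z : F) = (((S36FC_ψ R E j (C c * r') : S36FN_S₀ R E j) : E⟮j⟯) : F) /
      (((S36FC_ψ R E j (C b * s') : S36FN_S₀ R E j) : E⟮j⟯) : F)
    rw [S36FC_coe_ψ, S36FC_coe_ψ, map_mul, map_mul, aeval_C, aeval_C, h1, h2, hrs]
    by_cases hs0 : aeval j s = 0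
    · rw [hs0, mul_zero, mul_zero, div_zero, div_zero]
    · field_simp
  intro z hz
  obtain ⟨y, hy⟩ := (IsIntegrallyClosed.isIntegral_iff (R := S36FN_S₀ R E j)).mp hz
  rw [← hy]
  exact y.2

/-- integrality over the subalgebra `R[j] ⊂ F` is integrality over `R[j] ⊂ E(j)`
(converse of `S36FN_isIntegral_adjoin`). -/
theorem S36FC_isIntegral_S₀ (j : F) {g : F} (hg : IsIntegral (Algebra.adjoin R {j}) g) :
    IsIntegral (S36FN_S₀ R E j) g := by
  obtain ⟨p, hp, hpz⟩ := hg
  have hle : ∀ c : F, c ∈ Algebra.adjoin R {j} → c ∈ E⟮j⟯ := by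
    intro c hc
    rw [Algebra.adjoin_singleton_eq_range_aeval] at hc
    obtain ⟨q, hq⟩ := hc
    have h1 : aeval j q = aeval j (q.map (algebraMap R E)) := (aeval_map_algebraMap E j q).symm
    have h2 : c = aeval j (q.map (algebraMap R E)) := by rw [← h1]; exact hq.symm
    rw [h2, mem_adjoin_simple_iff]
    exact ⟨q.map (algebraMap R E), 1, by simp⟩
  let θ : Algebra.adjoin R {j} →+* S36FN_S₀ R E j :=
    { toFun := fun c => ⟨⟨(c : F), hle c c.2⟩, c.2⟩
      map_one' := rfl
      map_mul' := fun a b => rfl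
      map_zero' := rfl
      map_add' := fun a b => rfl }
  refine ⟨p.map θ, hp.map θ, ?_⟩
  rw [eval₂_map]
  exact hpz

end P3

section red

/-- **reduction preserves integrality over `R[j]`**: if `ρ : Λ → κ` is a ring homomorphism which
maps the constants `R` into `k`, then `ρ g` is integral over `k[ρ j]` for every `g ∈ Λ` integral
over `R[j]`.  (With `BL_mem_of_isIntegral` (S24/LocalRing.lean): `hreg` of ORD-LOWER.) -/
theorem S36FC_red_isIntegral {R F k κ : Type*} [CommRing R] [Field F] [Algebra R F]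
    [Field k] [Field κ] [Algebra k κ]
    (Λ : Subring F) (hR : ∀ r : R, algebraMap R F r ∈ Λ) (j : Λ)
    (ρ : Λ →+* κ) (hρ : ∀ r : R, ∃ c : k, ρ ⟨algebraMap R F r, hR r⟩ = algebraMap k κ c)
    (g : Λ) (hg : IsIntegral (Algebra.adjoin R {(j : F)}) (g : F)) :
    IsIntegral (Algebra.adjoin k {ρ j}) (ρ g) := by
  classical
  obtain ⟨p, hp, hpz⟩ := hg
  -- `R[j] ⊂ Λ` and `ρ(R[j]) ⊂ k[ρ j]`
  have hmem : ∀ c : F, c ∈ Algebra.adjoin R {(j : F)} →
      ∃ hc : c ∈ Λ, ρ ⟨c, hc⟩ ∈ Algebra.adjoin k {ρ j} := by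
    intro c hc
    induction hc using Algebra.adjoin_induction with
    | mem y hy =>
      rw [Set.mem_singleton_iff] at hy
      subst hy
      exact ⟨j.2, Algebra.subset_adjoin (Set.mem_singleton _)⟩
    | algebraMap r =>
      obtain ⟨c, hc⟩ := hρ r
      exact ⟨hR r, by rw [hc]; exact Subalgebra.algebraMap_mem _ c⟩
    | add x y _ _ hx hy =>
      obtain ⟨hx1, hx2⟩ := hx
      obtain ⟨hy1, hy2⟩ := hy
      refine ⟨Λ.add_mem hx1 hy1, ?_⟩
      have : (⟨x + y, Λ.add_mem hx1 hy1⟩ : Λ) = ⟨x, hx1⟩ + ⟨y, hy1⟩ := rfl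
      rw [this, map_add]
      exact Subalgebra.add_mem _ hx2 hy2
    | mul x y _ _ hx hy =>
      obtain ⟨hx1, hx2⟩ := hx
      obtain ⟨hy1, hy2⟩ := hy
      refine ⟨Λ.mul_mem hx1 hy1, ?_⟩
      have : (⟨x * y, Λ.mul_mem hx1 hy1⟩ : Λ) = ⟨x, hx1⟩ * ⟨y, hy1⟩ := rfl
      rw [this, map_mul]
      exact Subalgebra.mul_mem _ hx2 hy2
  let θ : Algebra.adjoin R {(j : F)} →+* Algebra.adjoin k {ρ j} :=
    { toFun := fun c => ⟨ρ ⟨(c : F), (hmem c c.2).1⟩, (hmem c c.2).2⟩
      map_one' := by
        apply Subtype.ext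
        change ρ ⟨(1 : F), _⟩ = 1
        exact map_one ρ
      map_mul' := fun a b => by
        apply Subtype.ext
        change ρ ⟨(a : F) * (b : F), _⟩ = ρ ⟨(a : F), _⟩ * ρ ⟨(b : F), _⟩
        rw [← map_mul]
        rfl
      map_zero' := by
        apply Subtype.ext
        change ρ ⟨(0 : F), _⟩ = 0
        exact map_zero ρ
      map_add' := fun a b => by
        apply Subtype.ext
        change ρ ⟨(a : F) + (b : F), _⟩ = ρ ⟨(a : F), _⟩ + ρ ⟨(b : F), _⟩
        rw [← map_add]
        rfl }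
  refine ⟨p.map θ, hp.map θ, ?_⟩
  -- evaluate inside `Λ`
  let ι : Algebra.adjoin R {(j : F)} →+* Λ :=
    { toFun := fun c => ⟨(c : F), (hmem c c.2).1⟩
      map_one' := rfl
      map_mul' := fun a b => rfl
      map_zero' := rfl
      map_add' := fun a b => rfl }
  have h1 : eval₂ ι g p = 0 := by
    apply Subtype.ext
    have h2 := Polynomial.hom_eval₂ p ι Λ.subtype g
    have h3 : (Λ.subtype).comp ι = algebraMap (Algebra.adjoin R {(j : F)}) F := rfl
    rw [h3] at h2
    have h5 : (Λ.subtype) g = (g : F) := rfl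
    rw [h5, hpz] at h2
    exact h2
  have h2 := Polynomial.hom_eval₂ p ι ρ g
  rw [h1, map_zero] at h2
  rw [eval₂_map]
  have h3 : (algebraMap (Algebra.adjoin k {ρ j}) κ).comp θ = ρ.comp ι := rfl
  rw [h3]
  exact h2.symm

end red

section assemble

variable {E F₁ F₂ k Rk : Type*} [Field E] [Field F₁] [Field F₂] [Algebra E F₁] [Field k]
  [CommRing Rk] [Algebra k Rk]

/-- **the trace hypothesis over the valuation ring**: `S` a lattice datum on `F₁` (level `q M`)
with a cartesian chart `x` (TRACK 7), `F₂ / F₁` finite (level `q² M`, via `α`).  If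
`Tr_{F₂/F₁} g` lies in the lattice `O` and is integral over `E[x]`, then
`Tr_{F₂/E(x)} g ∈ A[x]`. -/
theorem S36FC_trace_mem [Nontrivial Rk] (S : S34L_Lat E F₁ k Rk) {x : S.O} {n : ℕ}
    {y : Fin n → S.O} (hC : S.IsCart x y)
    [Algebra F₁ F₂] [FiniteDimensional E⟮(x : F₁)⟯ F₁] [FiniteDimensional F₁ F₂]
    (g : F₂) (hO : Algebra.trace F₁ F₂ g ∈ S.O)
    (hint : IsIntegral (Algebra.adjoin E {(x : F₁)}) (Algebra.trace F₁ F₂ g)) :
    Algebra.trace E⟮(x : F₁)⟯ F₂ g ∈ S36FN_S₀ S.A E (x : F₁) := by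
  have hxt := S34P_transcendental_x hC
  have h1 : IsIntegral (Algebra.adjoin S.A {(x : F₁)}) (Algebra.trace F₁ F₂ g) :=
    S36FC_isIntegral_A hC ⟨_, hO⟩ hint
  have h2 : IsIntegral (S36FN_S₀ S.A E (x : F₁)) (Algebra.trace F₁ F₂ g) :=
    S36FC_isIntegral_S₀ (x : F₁) h1
  exact S36FN_trace_tower (S36FN_S₀ S.A E (x : F₁)) (S36FC_hic (x : F₁) hxt) g h2

end assemble

end Fermat.Agent.S36
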