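import Fermat.Agent.S36.Fin3Closed
import Fermat.Agent.S36.ChartsB

/-!
# TRACK 10 (S36), package F1 = FIN (R9): the CONSUMER forms on the concrete chart `C = S36CZ_C`
(helper17).  Prefix `S36FG_`.

`S₁ = S36FI_SFF`, `S₂ = S36FI_SFV ζ`, `S₃ = S36FI_SVV` (helper1), `C = S36CZ_C … n hn` the chart
`U = {B ≠ ∞}` (helper23), `B = S36CO_BL M q I`.

* `S36FG_hint_C` : **`hint`** of `S36I3_htors_inst` / `S36I3_inj_inst` / `S36I3_inj_fix'`:
  `g ∈ O₃ → g ∈ C.B → IsIntegral (Algebra.adjoin S₁.A {B}) g`;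
* `S36FG_noeth_C` : `IsNoetherianRing (S36LJ_Lam S₁ S₂ S₃ C.B.toSubring)`;
* `S36FG_noeth_fam` : `IsNoetherianRing (S36IT_fam3 … dvr (S34IX_TU B)).Λ` (= the instance
  `[IsNoetherianRing D.Λ]` of `S36LK_*`, `S36LF_li`);
* `S36FG_isDVR_A`, `S36FG_noeth_A` : `S₁.A` is a discrete valuation ring, Noetherian.
-/

set_option autoImplicit false
set_option linter.style.haveILetI false
set_option linter.unusedSectionVars false
set_option linter.unusedVariables false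
set_option synthInstance.maxHeartbeats 400000
set_option maxHeartbeats 1000000

open AlgebraicCurve ModularCurve IntermediateField Module

noncomputable section

namespace Fermat.Agent.S36

open Fermat.Agent.S18 Fermat.Agent.S24 Fermat.Agent.S34 Fermat.Agent.GalRep

local notation "Ω" => AlgebraicClosure ℚ

variable (M q : ℕ) [NeZero M] [NeZero q] (hq : q.Prime) (hqM : ¬ q ∣ M)
  (A : ValuationSubring Ω) (hA : A.LiesOverPrime q)
  (ζ : Ωˣ) (hζ : ζ ^ q = 1) (hζ1 : ζ ≠ 1)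

/-- **`S₁.A = O_L` is a discrete valuation ring.** -/
theorem S36FG_isDVR_A : IsDiscreteValuationRing (S36FI_SFF M q hq hqM A hA).A :=
  S36FG_isDVR_OL M q hq A hA

/-- `S₁.A = O_L` is Noetherian. -/
theorem S36FG_noeth_A : IsNoetherianRing (S36FI_SFF M q hq hqM A hA).A :=
  S36FG_noeth_OL M q hq A hA

/-- the lattice of the chart `U` is Noetherian (family form). -/
theorem S36FG_noeth_fam
    (dvr : ∀ i, IsDiscreteValuationRing
      (S36FL_OL (S36FI_act (M * q * q) (A.inertiaSubgroupIn ℚ))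
        (S36IT_Ov3 M q hq hqM A hA ζ hζ hζ1 i))) :
    IsNoetherianRing (S36IT_fam3 M q hq hqM A hA ζ hζ hζ1 dvr
      (S34IX_TU (K := Ω) ((S36CO_BL M q (A.inertiaSubgroupIn ℚ) :
        (S36FI_act (M * q * q) (A.inertiaSubgroupIn ℚ)).fixF) :
          ↥(modularFunctionFieldBar (M * q * q))))).Λ :=
  S36FG_noeth M q hq hqM A hA ζ hζ hζ1 dvr

variable (n : ℕ) (hn : 0 < n)

/-- **`hint`** on the chart `C = S36CZ_C`: the elements of `O₃ ∩ C.B` are integral over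
`S₁.A[B]`. -/
theorem S36FG_hint_C (g : ↥(S36FI_act (M * q * q) (A.inertiaSubgroupIn ℚ)).fixF)
    (hg : g ∈ S36L3_O3 (S36FI_SFF M q hq hqM A hA) (S36FI_SFV M q hq hqM A hA ζ hζ hζ1)
      (S36FI_SVV M q hq hqM A hA))
    (hgB : g ∈ (S36CZ_C M q hq hqM A hA n hn).B) :
    IsIntegral (Algebra.adjoin (S36FI_SFF M q hq hqM A hA).A
      {S36CO_BL M q (A.inertiaSubgroupIn ℚ)}) g := by
  have hmem : g ∈ S36FG_Λ M q hq hqM A hA ζ hζ hζ1
      (S36IT_dvr3_inst M q hq hqM A hA ζ hζ hζ1) := by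
    show g ∈ (S36IT_fam3 M q hq hqM A hA ζ hζ hζ1 _ _).Λ
    rw [S36CZ_Lam_eq]
    exact ⟨hg, hgB⟩
  exact S36FG_hint M q hq hqM A hA ζ hζ hζ1 _ g hmem

/-- **the lattice `O₃ ∩ C.B` of the chart `C = S36CZ_C` is Noetherian.** -/
theorem S36FG_noeth_C :
    IsNoetherianRing (S36LJ_Lam (S36FI_SFF M q hq hqM A hA)
      (S36FI_SFV M q hq hqM A hA ζ hζ hζ1) (S36FI_SVV M q hq hqM A hA)
      (S36CZ_C M q hq hqM A hA n hn).B.toSubring) := by
  have h := S36FG_noeth M q hq hqM A hA ζ hζ hζ1 (S36IT_dvr3_inst M q hq hqM A hA ζ hζ hζ1)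
  have e := S36CZ_Lam_eq M q hq hqM A hA ζ hζ hζ1 (S36IT_dvr3_inst M q hq hqM A hA ζ hζ hζ1)
    (S34IX_TU (K := Ω) ((S36CO_BL M q (A.inertiaSubgroupIn ℚ) :
        (S36FI_act (M * q * q) (A.inertiaSubgroupIn ℚ)).fixF) :
          ↥(modularFunctionFieldBar (M * q * q))))
  unfold S36FG_Λ at h
  rw [e] at h
  exact h

end Fermat.Agent.S36
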