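import Fermat.Agent.S36.Fin3GlueInst
import Fermat.Agent.S36.FracInst
import Fermat.Agent.S36.Int3Closed

/-!
# TRACK 10 (S36), package F1 = FIN (R9) on the chart `U = {B ≠ ∞}`, CLOSED (helper17).
Prefix `S36FG_`.

`Λ_U = (S36IT_fam3 … dvr (S34IX_TU B)).Λ`, `B = S36CO_BL M q I` (helper23), `O_L = S36FL_AL S A`.

* `S36FG_TU_eq` : the chart `{ord B ≥ 0}` for the two names of `B` (`jBar (M q q) q`, `β (j)`);
* `S36FG_hfrac` : `hfrac` in the shape of `S36FG_fam3` (from helper8's `S36FQ_hfrac_U`);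
* **`S36FG_main`** : `Λ_U` is integral over `O_L[B]` and NOETHERIAN — no hypothesis left
  (for every `dvr`); `S36FG_hint`, `S36FG_noeth` its two halves;
* `S36FG_noeth_lat` : the same for `S36IT_lat` (the closed family).
-/

set_option autoImplicit false
set_option linter.style.haveILetI false
set_option linter.unusedSectionVars false
set_option linter.unusedVariables false
set_option synthInstance.maxHeartbeats 400000
set_option maxHeartbeats 1000000

open AlgebraicCurve ModularCurve IntermediateField Module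

noncomputable section

namespace Fermat.Agent.S36

open Fermat.Agent.S18 Fermat.Agent.S24 Fermat.Agent.S34 Fermat.Agent.GalRep

local notation "Ω" => AlgebraicClosure ℚ

variable (M q : ℕ) [NeZero M] [NeZero q] (hq : q.Prime) (hqM : ¬ q ∣ M)
  (A : ValuationSubring Ω) (hA : A.LiesOverPrime q)
  (ζ : Ωˣ) (hζ : ζ ^ q = 1) (hζ1 : ζ ≠ 1)

/-- the chart `U = {B ≠ ∞}` for the two names of `B`. -/
theorem S36FG_TU_eq (H : Subgroup (Ω ≃ₐ[ℚ] Ω)) :
    S34IX_TU (K := Ω) ((S36CO_BL M q H : (S36FI_act (M * q * q) H).fixF) :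
      ↥(modularFunctionFieldBar (M * q * q))) =
      S34IX_TU (K := Ω) (heckeBetaBar Ω (M * q) q (jB (M * q))) := by
  rw [S36FG_BL_coe_beta]

variable
    (dvr : ∀ i, IsDiscreteValuationRing
      (S36FL_OL (S36FI_act (M * q * q) (A.inertiaSubgroupIn ℚ))
        (S36IT_Ov3 M q hq hqM A hA ζ hζ hζ1 i)))

include hq in
/-- `hfrac` on the chart `U`. -/
theorem S36FG_hfrac (f : ↥(S36FI_act (M * q * q) (A.inertiaSubgroupIn ℚ)).fixF) :
    ∃ b ∈ S36FG_Λ M q hq hqM A hA ζ hζ hζ1 dvr, b ≠ 0 ∧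
      b * f ∈ S36FG_Λ M q hq hqM A hA ζ hζ hζ1 dvr := by
  obtain ⟨b, hb0, hb⟩ := S36FQ_hfrac_U M q hq hqM A hA ζ hζ hζ1 dvr
    (S34IX_TU (K := Ω) ((S36CO_BL M q (A.inertiaSubgroupIn ℚ) :
      (S36FI_act (M * q * q) (A.inertiaSubgroupIn ℚ)).fixF) :
        ↥(modularFunctionFieldBar (M * q * q))))
    (S36FG_TU_eq M q (A.inertiaSubgroupIn ℚ)).le f
  exact ⟨b, b.2, hb0, hb⟩

include hq in
/-- **FIN on the chart `U = {B ≠ ∞}`, closed**: `Λ_U` is integral over `O_L[B]` and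
Noetherian. -/
theorem S36FG_main :
    (∀ g ∈ S36FG_Λ M q hq hqM A hA ζ hζ hζ1 dvr,
      IsIntegral (Algebra.adjoin
        (S36FL_AL (S36FI_act (M * q * q) (A.inertiaSubgroupIn ℚ)) A)
        {S36CO_BL M q (A.inertiaSubgroupIn ℚ)}) g) ∧
      IsNoetherianRing (S36FG_Λ M q hq hqM A hA ζ hζ hζ1 dvr) :=
  S36FG_fam3 M q hq hqM A hA ζ hζ hζ1 dvr (S36FG_hfrac M q hq hqM A hA ζ hζ hζ1 dvr)

include hq in
/-- `hint`: the lattice is integral over `O_L[B]`. -/
theorem S36FG_hint (g : ↥(S36FI_act (M * q * q) (A.inertiaSubgroupIn ℚ)).fixF)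
    (hg : g ∈ S36FG_Λ M q hq hqM A hA ζ hζ hζ1 dvr) :
    IsIntegral (Algebra.adjoin
        (S36FL_AL (S36FI_act (M * q * q) (A.inertiaSubgroupIn ℚ)) A)
        {S36CO_BL M q (A.inertiaSubgroupIn ℚ)}) g :=
  (S36FG_main M q hq hqM A hA ζ hζ hζ1 dvr).1 g hg

include hq in
/-- **the lattice `Λ_U` is a Noetherian ring.** -/
theorem S36FG_noeth : IsNoetherianRing (S36FG_Λ M q hq hqM A hA ζ hζ hζ1 dvr) :=
  (S36FG_main M q hq hqM A hA ζ hζ hζ1 dvr).2

/-- the same for the closed family `S36IT_lat`. -/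
theorem S36FG_noeth_lat :
    IsNoetherianRing (S36IT_lat M q hq hqM A hA ζ hζ hζ1
      (S34IX_TU (K := Ω) ((S36CO_BL M q (A.inertiaSubgroupIn ℚ) :
        (S36FI_act (M * q * q) (A.inertiaSubgroupIn ℚ)).fixF) :
          ↥(modularFunctionFieldBar (M * q * q))))).Λ :=
  S36FG_noeth M q hq hqM A hA ζ hζ hζ1 (S36IT_dvr3_inst M q hq hqM A hA ζ hζ hζ1)

end Fermat.Agent.S36
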