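import Mathlib

/-!
# TRACK 10 (S36), package FIX-L (helper22), part 1: semilinear actions, Artin's lemma, descent
of fractions — Mathlib only, prefix `S36FL_`

Setting: fields `K ⊆ F` (`Algebra K F`), a family `H` of ring automorphisms acting on `K` and on
`F` *semilinearly* (`h (c • f) = h c • h f`).  `L := K^H`, `F_L := F^H`.
(For `K = ℚ̄`, `F = ℚ̄(X₀(N))`, `H` = an inertia group: `L` = the inertia field, `F_L` = the
function field of `X₀(N)` over `L`.)

* `S36FL_artin` : a nontrivial `K`-linear relation between `H`-fixed elements of `F` yields a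
  nontrivial relation with `H`-fixed coefficients (Artin's lemma);
* `S36FL_poly` : polynomial dependence over `K[x]` of `H`-fixed elements (`x` fixed) descends to
  `L[x]` — so `[F_L : L(x)] ≤ [F : K(x)]`;
* `S36FL_fixed_of_indep` : an `H`-fixed `K`-combination of `K`-independent fixed elements has
  fixed coefficients;
* `S36FL_frac` : if `f` is `H`-fixed and `f * Q ∈ K·E`, `0 ≠ Q ∈ K·E` (`E` a set of fixed elements)
  then `f * Q' ∈ L·E` for some `0 ≠ Q' ∈ L·E`: fixed fractions are fractions of fixed elements.
-/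

set_option autoImplicit false

namespace Fermat.Agent.S36

/-- a semilinear action of a family `H` of automorphisms on `F / K`. -/
structure S36FL_Act (K F H : Type*) [Field K] [Field F] [Algebra K F] where
  /-- the action on the constants -/
  onK : H → K ≃+* K
  /-- the action on the big field -/
  onF : H → F ≃+* F
  semi : ∀ (h : H) (c : K), onF h (algebraMap K F c) = algebraMap K F (onK h c)

namespace S36FL_Act

variable {K F H : Type*} [Field K] [Field F] [Algebra K F] (S : S36FL_Act K F H)

/-- the fixed field of the constants. -/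
def fixK : Subfield K where
  carrier := {c | ∀ h, S.onK h c = c}
  zero_mem' h := map_zero _
  one_mem' h := map_one _
  add_mem' ha hb h := by rw [map_add, ha h, hb h]
  mul_mem' ha hb h := by rw [map_mul, ha h, hb h]
  neg_mem' ha h := by rw [map_neg, ha h]
  inv_mem' a ha h := by rw [map_inv₀, ha h]

/-- the fixed field of the big field. -/
def fixF : Subfield F where
  carrier := {f | ∀ h, S.onF h f = f}
  zero_mem' h := map_zero _
  one_mem' h := map_one _
  add_mem' ha hb h := by rw [map_add, ha h, hb h]
  mul_mem' ha hb h := by rw [map_mul, ha h, hb h]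
  neg_mem' ha h := by rw [map_neg, ha h]
  inv_mem' a ha h := by rw [map_inv₀, ha h]

theorem mem_fixK {c : K} : c ∈ S.fixK ↔ ∀ h, S.onK h c = c := Iff.rfl

theorem mem_fixF {f : F} : f ∈ S.fixF ↔ ∀ h, S.onF h f = f := Iff.rfl

theorem algebraMap_mem_fixF {c : K} (hc : c ∈ S.fixK) : algebraMap K F c ∈ S.fixF := fun h => by
  rw [S.semi, hc h]

theorem onF_smul (h : H) (c : K) (f : F) : S.onF h (c • f) = S.onK h c • S.onF h f := by
  rw [Algebra.smul_def, map_mul, S.semi, Algebra.smul_def]

theorem onF_sum_smul {ι : Type*} (h : H) (s : Finset ι) (c : ι → K) (e : ι → F)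
    (he : ∀ i ∈ s, S.onF h (e i) = e i) :
    S.onF h (∑ i ∈ s, c i • e i) = ∑ i ∈ s, S.onK h (c i) • e i := by
  rw [map_sum]
  exact Finset.sum_congr rfl fun i hi => by rw [S.onF_smul, he i hi]

end S36FL_Act

section artin

variable {K F H : Type*} [Field K] [Field F] [Algebra K F] (S : S36FL_Act K F H)

/-- **Artin's lemma** (relation form): a nontrivial `K`-linear relation between `H`-fixed
elements of `F` yields a nontrivial relation with `H`-fixed coefficients. -/
theorem S36FL_artin {ι : Type*} [DecidableEq ι] (s : Finset ι) (e : ι → F)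
    (he : ∀ i ∈ s, ∀ h, S.onF h (e i) = e i) (c : ι → K)
    (hc : ∑ i ∈ s, c i • e i = 0) (hne : ∃ i ∈ s, c i ≠ 0) :
    ∃ c' : ι → K, (∀ i, c' i ∈ S.fixK) ∧ (∃ i ∈ s, c' i ≠ 0) ∧ ∑ i ∈ s, c' i • e i = 0 := by
  classical
  -- strong induction on the size of a set `t ⊆ s` carrying the support
  have key : ∀ n : ℕ, ∀ t : Finset ι, t.card ≤ n → ∀ c : ι → K,
      (∀ i ∈ s, i ∉ t → c i = 0) → ∑ i ∈ s, c i • e i = 0 → (∃ i ∈ s, c i ≠ 0) →
      ∃ c' : ι → K, (∀ i, c' i ∈ S.fixK) ∧ (∃ i ∈ s, c' i ≠ 0) ∧ ∑ i ∈ s, c' i • e i = 0 := by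
    intro n
    induction n with
    | zero =>
      intro t ht c hsupp _ ⟨i, hi, hci⟩
      have : t = ∅ := Finset.card_eq_zero.mp (Nat.le_zero.mp ht)
      exact absurd (hsupp i hi (by rw [this]; exact Finset.notMem_empty i)) hci
    | succ n ih =>
      intro t ht c hsupp hrel ⟨i₀, hi₀, hci₀⟩
      have hi₀t : i₀ ∈ t := by
        by_contra h
        exact hci₀ (hsupp i₀ hi₀ h)
      -- normalise
      set c₁ : ι → K := fun i => c i / c i₀ with hc₁
      have hrel₁ : ∑ i ∈ s, c₁ i • e i = 0 := by
        have : ∑ i ∈ s, c₁ i • e i = (c i₀)⁻¹ • ∑ i ∈ s, c i • e i := by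
          rw [Finset.smul_sum]
          exact Finset.sum_congr rfl fun i _ => by
            rw [smul_smul]
            show (c i / c i₀) • e i = _
            rw [div_eq_inv_mul]
        rw [this, hrel, smul_zero]
      have h₁₀ : c₁ i₀ = 1 := div_self hci₀
      by_cases hfix : ∀ i ∈ s, ∀ h, S.onK h (c₁ i) = c₁ i
      · refine ⟨fun i => if i ∈ s then c₁ i else 0, fun i => ?_, ⟨i₀, hi₀, ?_⟩, ?_⟩
        · by_cases hi : i ∈ s
          · simp only [hi, if_true]
            exact fun h => hfix i hi h
          · simp only [hi, if_false]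
            exact S.fixK.zero_mem
        · simp only [hi₀, if_true, h₁₀]
          exact one_ne_zero
        · rw [← hrel₁]
          exact Finset.sum_congr rfl fun i hi => by simp only [hi, if_true]
      · push Not at hfix
        obtain ⟨i₁, hi₁, h, hh⟩ := hfix
        set d : ι → K := fun i => S.onK h (c₁ i) - c₁ i with hd
        have hdrel : ∑ i ∈ s, d i • e i = 0 := by
          have h1 : ∑ i ∈ s, S.onK h (c₁ i) • e i = 0 := by
            rw [← S.onF_sum_smul h s c₁ e (fun i hi => he i hi h), hrel₁, map_zero]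
          have : ∑ i ∈ s, d i • e i = ∑ i ∈ s, S.onK h (c₁ i) • e i - ∑ i ∈ s, c₁ i • e i := by
            rw [← Finset.sum_sub_distrib]
            exact Finset.sum_congr rfl fun i _ => by rw [hd, sub_smul]
          rw [this, h1, hrel₁, sub_zero]
        have hd₀ : d i₀ = 0 := by
          simp only [hd, h₁₀, map_one, sub_self]
        have hdsupp : ∀ i ∈ s, i ∉ t.erase i₀ → d i = 0 := by
          intro i hi hit
          by_cases hi0 : i = i₀
          · rw [hi0, hd₀]
          · have : i ∉ t := fun hit' => hit (Finset.mem_erase.mpr ⟨hi0, hit'⟩)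
            have hci : c i = 0 := hsupp i hi this
            simp only [hd, hc₁, hci, zero_div, map_zero, sub_self]
        have hcard : (t.erase i₀).card ≤ n := by
          rw [Finset.card_erase_of_mem hi₀t]
          omega
        exact ih (t.erase i₀) hcard d hdsupp hdrel ⟨i₁, hi₁, sub_ne_zero.mpr hh⟩
  exact key s.card s le_rfl c (fun i hi hit => absurd hi hit) hc hne

end artin

end Fermat.Agent.S36
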