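import Mathlib
import Fermat.Agent.S36.FixL

/-!
# TRACK 10 (S36), package F1 = FIN (R9), trace pieces for `htr` (helper6) — prefix `S36FT_`

Abstract inputs for helper7's hypothesis `htr` of `S36FN_adjoin` (`Tr_{F/E(j)}(Λ) ⊂ O_L[j]`).

* `S36FT_trace_mem_adjoin` (**T1**): `j` transcendental over `E`, `g` integral over `E[j]` ⇒
  `Tr_{F/E(j)} g ∈ E[j]`;
* `S36FT_isIntegral_trace_alg` / `S36FT_isIntegral_trace_hom` (**P5**): in a tower
  `K[j₁] ⊂ F₁ —α→ F₂`, `g` integral over `K[α j₁]` ⇒ `Tr_α g` integral over `K[j₁]`;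
* `S36FT_onF_aeval`, `S36FT_coeff_fixed` (**T2**, coefficients): for a semilinear action fixing
  `j`, a fixed polynomial expression `P(j)` has fixed coefficients;
* `S36FT_res`, `S36FT_trace_onF`, `S36FT_trace_fixed` (**T2**, equivariance): the trace
  `Tr_{F/K(j)}` commutes with the semilinear action; the trace of a fixed element is fixed;
* `S36FT_mem_adjoin_of_coeff`, `S36FT_trace_mem_adjoin_fix` (**P4**): a fixed element of `K[j]`
  with coefficients in a subring `A ⊂ K` lies in `R[j]` for every `R` mapping onto `A ∩ K^H`;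
* `S36FT_adjoin_fix`, `S36FT_trace_adjoin_fix` (**P4**, subalgebra form): fixed `x ∈ R'[j]`
  ⇒ `x ∈ R[j]` (`R' = 𝔸`, `R = O_L`);
* `S36FT_span_top`, `S36FT_hbas` (**`hbas`** of `S36FN_adjoin`): if `F` is generated by fixed
  elements and every fixed element can be scaled into `Λ` by a nonzero element of `K(j)`, then
  `Λ` contains a `K(j)`-basis of `F`.
-/

set_option autoImplicit false

namespace Fermat.Agent.S36

open Polynomial IntermediateField Module

section T1

variable {E F : Type*} [Field E] [Field F] [Algebra E F]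

open scoped IntermediateField.algebraAdjoinAdjoin in
/-- **(T1)** `j` transcendental over `E`, `g` integral over `E[j]` ⇒ `Tr_{F/E(j)} g ∈ E[j]`. -/
theorem S36FT_trace_mem_adjoin (j : F) (hj : Transcendental E j) [FiniteDimensional E⟮j⟯ F]
    {g : F} (hg : IsIntegral (Algebra.adjoin E {j}) g) :
    ((Algebra.trace E⟮j⟯ F g : E⟮j⟯) : F) ∈ Algebra.adjoin E {j} := by
  have : IsIntegrallyClosed (Algebra.adjoin E {j}) :=
    IsIntegrallyClosed.of_equiv (Polynomial.algEquivOfTranscendental E j hj).toRingEquiv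
  have h1 : IsIntegral (Algebra.adjoin E {j}) (Algebra.trace E⟮j⟯ F g) :=
    Algebra.isIntegral_trace hg
  obtain ⟨y, hy⟩ := IsIntegrallyClosed.isIntegral_iff.mp h1
  rw [← hy]
  exact y.2

/-- **(T1)**, polynomial form. -/
theorem S36FT_trace_eq_aeval (j : F) (hj : Transcendental E j) [FiniteDimensional E⟮j⟯ F]
    {g : F} (hg : IsIntegral (Algebra.adjoin E {j}) g) :
    ∃ P : E[X], ((Algebra.trace E⟮j⟯ F g : E⟮j⟯) : F) = aeval j P := by
  have h := S36FT_trace_mem_adjoin j hj hg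
  rw [Algebra.adjoin_singleton_eq_range_aeval] at h
  obtain ⟨P, hP⟩ := h
  exact ⟨P, hP.symm⟩

end T1

section P5

variable {K F₁ F₂ : Type*} [Field K] [Field F₁] [Field F₂] [Algebra K F₁] [Algebra K F₂]

/-- integrality over `K[α j]` is integrality over `K[j]` (acting through `α`). -/
theorem S36FT_isIntegralElem_of_adjoin (α : F₁ →ₐ[K] F₂) (j : F₁) {g : F₂}
    (hg : IsIntegral (Algebra.adjoin K {α j}) g) :
    (α.toRingHom.comp (algebraMap (Algebra.adjoin K {j}) F₁)).IsIntegralElem g := by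
  obtain ⟨p, hp, hpz⟩ := hg
  have hlift : p.map (algebraMap (Algebra.adjoin K {α j}) F₂) ∈
      Polynomial.lifts (α.toRingHom.comp (algebraMap (Algebra.adjoin K {j}) F₁)) := by
    rw [Polynomial.lifts_iff_coeff_lifts]
    intro n
    rw [Polynomial.coeff_map]
    have h0 : ∀ y : F₂, y ∈ Algebra.adjoin K {α j} →
        ∃ z : Algebra.adjoin K {j}, α (z : F₁) = y := by
      intro y hy
      rw [Algebra.adjoin_singleton_eq_range_aeval] at hy
      obtain ⟨q, hq⟩ := hy
      refine ⟨⟨aeval j q, ?_⟩, ?_⟩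
      · rw [Algebra.adjoin_singleton_eq_range_aeval]
        exact ⟨q, rfl⟩
      · rw [← hq]
        exact (Polynomial.aeval_algHom_apply α j q).symm
    obtain ⟨z, hz⟩ := h0 _ (p.coeff n).2
    exact ⟨z, hz⟩
  obtain ⟨P, hP, -, hPm⟩ := Polynomial.lifts_and_degree_eq_and_monic hlift (hp.map _)
  refine ⟨P, hPm, ?_⟩
  have h1 : eval₂ (α.toRingHom.comp (algebraMap (Algebra.adjoin K {j}) F₁)) g P
      = eval₂ (RingHom.id F₂) g
        (P.map (α.toRingHom.comp (algebraMap (Algebra.adjoin K {j}) F₁))) := by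
    rw [eval₂_map, RingHom.id_comp]
  rw [h1, hP, eval₂_map, RingHom.id_comp]
  exact hpz

/-- **(P5)**, instance form: `K[j] ⊂ F₁ ⊂ F₂`, `g ∈ F₂` integral over `K[j]`
⇒ `Tr_{F₂/F₁} g` is integral over `K[j]`. -/
theorem S36FT_isIntegral_trace_alg [Algebra F₁ F₂] [IsScalarTower K F₁ F₂]
    [FiniteDimensional F₁ F₂] (j : F₁) {g : F₂}
    (hg : IsIntegral (Algebra.adjoin K {algebraMap F₁ F₂ j}) g) :
    IsIntegral (Algebra.adjoin K {j}) (Algebra.trace F₁ F₂ g) := by
  have h1 := S36FT_isIntegralElem_of_adjoin (IsScalarTower.toAlgHom K F₁ F₂) j hg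
  have h2 : IsIntegral (Algebra.adjoin K {j}) g := h1
  exact Algebra.isIntegral_trace h2

/-- **(P5)**, hom form: `α : F₁ →ₐ[K] F₂` finite, `g` integral over `K[α j]`
⇒ `Tr_α g` is integral over `K[j]`. -/
theorem S36FT_isIntegral_trace_hom (α : F₁ →ₐ[K] F₂)
    (hfin : @FiniteDimensional F₁ F₂ _ _ α.toRingHom.toAlgebra.toModule) (j : F₁) {g : F₂}
    (hg : IsIntegral (Algebra.adjoin K {α j}) g) :
    IsIntegral (Algebra.adjoin K {j})
      (@Algebra.trace F₁ F₂ _ _ α.toRingHom.toAlgebra g) := by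
  let _ : Algebra F₁ F₂ := α.toRingHom.toAlgebra
  have : IsScalarTower K F₁ F₂ := IsScalarTower.of_algebraMap_eq fun c => (α.commutes c).symm
  exact S36FT_isIntegral_trace_alg j hg

end P5

section T2

variable {K F H : Type*} [Field K] [Field F] [Algebra K F] (S : S36FL_Act K F H)

/-- the action on a polynomial expression in a fixed element. -/
theorem S36FT_onF_aeval (h : H) (j : F) (hj : S.onF h j = j) (P : K[X]) :
    S.onF h (aeval j P) = aeval j (P.map (S.onK h : K →+* K)) := by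
  induction P using Polynomial.induction_on' with
  | add p q hp hq => rw [map_add, map_add, hp, hq, Polynomial.map_add, map_add]
  | monomial n a =>
    rw [aeval_monomial, map_mul, S.semi, map_pow, hj, Polynomial.map_monomial, aeval_monomial]
    rfl

/-- **(T2, coefficients)**: a fixed polynomial expression in a fixed transcendental element has
fixed coefficients. -/
theorem S36FT_coeff_fixed (j : F) (hjfix : ∀ h, S.onF h j = j) (hj : Transcendental K j)
    (P : K[X]) (hP : aeval j P ∈ S.fixF) (n : ℕ) : P.coeff n ∈ S.fixK := by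
  intro h
  have h1 := S36FT_onF_aeval S h j (hjfix h) P
  rw [hP h] at h1
  have h2 := (transcendental_iff_injective.mp hj) h1
  have h3 := congrArg (fun q : K[X] => q.coeff n) h2
  simp only [Polynomial.coeff_map] at h3
  exact h3.symm

theorem S36FT_onF_mem (h : H) (j : F) (hj : S.onF h j = j) {x : F} (hx : x ∈ K⟮j⟯) :
    S.onF h x ∈ K⟮j⟯ := by
  induction hx using IntermediateField.adjoin_induction with
  | mem y hy =>
    rw [Set.mem_singleton_iff] at hy
    rw [hy, hj]
    exact mem_adjoin_simple_self K j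
  | algebraMap c =>
    rw [S.semi]
    exact (K⟮j⟯).algebraMap_mem _
  | add _ _ _ _ hx hy => rw [map_add]; exact add_mem hx hy
  | inv _ _ hx => rw [map_inv₀]; exact inv_mem hx
  | mul _ _ _ _ hx hy => rw [map_mul]; exact mul_mem hx hy

theorem S36FT_symm_mem (h : H) (j : F) (hj : S.onF h j = j) {x : F} (hx : x ∈ K⟮j⟯) :
    (S.onF h).symm x ∈ K⟮j⟯ := by
  induction hx using IntermediateField.adjoin_induction with
  | mem y hy =>
    rw [Set.mem_singleton_iff] at hy
    have hs : (S.onF h).symm j = j := (RingEquiv.symm_apply_eq _).mpr hj.symm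
    rw [hy, hs]
    exact mem_adjoin_simple_self K j
  | algebraMap c =>
    have hs : (S.onF h).symm (algebraMap K F c) = algebraMap K F ((S.onK h).symm c) := by
      rw [RingEquiv.symm_apply_eq, S.semi, RingEquiv.apply_symm_apply]
    rw [hs]
    exact (K⟮j⟯).algebraMap_mem _
  | add _ _ _ _ hx hy => rw [map_add]; exact add_mem hx hy
  | inv _ _ hx => rw [map_inv₀]; exact inv_mem hx
  | mul _ _ _ _ hx hy => rw [map_mul]; exact mul_mem hx hy

/-- the restriction of the action to `K(j)`, `j` fixed. -/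
def S36FT_res (h : H) (j : F) (hj : S.onF h j = j) : K⟮j⟯ ≃+* K⟮j⟯ where
  toFun x := ⟨S.onF h x, S36FT_onF_mem S h j hj x.2⟩
  invFun x := ⟨(S.onF h).symm x, S36FT_symm_mem S h j hj x.2⟩
  left_inv _ := Subtype.ext ((S.onF h).symm_apply_apply _)
  right_inv _ := Subtype.ext ((S.onF h).apply_symm_apply _)
  map_mul' _ _ := Subtype.ext (map_mul (S.onF h) _ _)
  map_add' _ _ := Subtype.ext (map_add (S.onF h) _ _)

theorem S36FT_res_coe (h : H) (j : F) (hj : S.onF h j = j) (x : K⟮j⟯) :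
    ((S36FT_res S h j hj x : K⟮j⟯) : F) = S.onF h (x : F) := rfl

/-- **(T2, equivariance)**: `Tr_{F/K(j)} (h g) = h (Tr_{F/K(j)} g)`. -/
theorem S36FT_trace_onF (h : H) (j : F) (hj : S.onF h j = j) (g : F) :
    ((Algebra.trace K⟮j⟯ F (S.onF h g) : K⟮j⟯) : F)
      = S.onF h ((Algebra.trace K⟮j⟯ F g : K⟮j⟯) : F) := by
  have he : RingHom.comp (algebraMap K⟮j⟯ F) (S36FT_res S h j hj : K⟮j⟯ →+* K⟮j⟯)
      = RingHom.comp (S.onF h : F →+* F) (algebraMap K⟮j⟯ F) := by
    ext x
    rfl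
  have key := Algebra.trace_eq_of_equiv_equiv (S36FT_res S h j hj) (S.onF h) he g
  rw [← S36FT_res_coe S h j hj, key, RingEquiv.apply_symm_apply]

/-- **(T2)**: the trace of a fixed element is fixed. -/
theorem S36FT_trace_fixed (j : F) (hjfix : ∀ h, S.onF h j = j) {g : F} (hg : g ∈ S.fixF) :
    ((Algebra.trace K⟮j⟯ F g : K⟮j⟯) : F) ∈ S.fixF := by
  intro h
  rw [← S36FT_trace_onF S h j (hjfix h), hg h]

end T2

section P4

variable {K F H : Type*} [Field K] [Field F] [Algebra K F] (S : S36FL_Act K F H)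

omit [Field K] [Field F] [Algebra K F] in
/-- a polynomial expression with coefficients in the image of `R` lies in `R[j]`. -/
theorem S36FT_mem_adjoin_of_coeff {K F : Type*} [CommRing K] [CommRing F] [Algebra K F]
    {R : Type*} [CommRing R] [Algebra R K] [Algebra R F] [IsScalarTower R K F]
    (j : F) (P : K[X]) (hP : ∀ n, ∃ r : R, algebraMap R K r = P.coeff n) :
    aeval j P ∈ Algebra.adjoin R {j} := by
  rw [aeval_eq_sum_range]
  refine Subalgebra.sum_mem _ fun n _ => ?_
  obtain ⟨r, hr⟩ := hP n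
  rw [← hr, algebraMap_smul, Algebra.smul_def]
  exact Subalgebra.mul_mem _ (Subalgebra.algebraMap_mem _ r)
    (Subalgebra.pow_mem _ (Algebra.self_mem_adjoin_singleton R j) n)

/-- **(P4)**, coefficient form: a fixed element `P(j)`, `P` with coefficients in `A`, has
coefficients in `A ∩ K^H`. -/
theorem S36FT_coeff_mem_inf (A : Subring K) (j : F) (hjfix : ∀ h, S.onF h j = j)
    (hj : Transcendental K j) (P : K[X]) (hPA : ∀ n, P.coeff n ∈ A)
    (hfix : aeval j P ∈ S.fixF) (n : ℕ) : P.coeff n ∈ A ∧ P.coeff n ∈ S.fixK :=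
  ⟨hPA n, S36FT_coeff_fixed S j hjfix hj P hfix n⟩

/-- **(P4)**: `g` fixed, `Tr_{F/K(j)} g = P(j)` with `P ∈ A[X]` ⇒ `Tr_{F/K(j)} g ∈ R[j]` for
every `R` mapping onto `A ∩ K^H` (e.g. `R = O_L`). -/
theorem S36FT_trace_mem_adjoin_fix {R : Type*} [CommRing R] [Algebra R K] [Algebra R F]
    [IsScalarTower R K F] (A : Subring K)
    (hR : ∀ c : K, c ∈ A → c ∈ S.fixK → ∃ r : R, algebraMap R K r = c)
    (j : F) (hjfix : ∀ h, S.onF h j = j) (hj : Transcendental K j)
    {g : F} (hg : g ∈ S.fixF) (P : K[X]) (hPA : ∀ n, P.coeff n ∈ A)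
    (hP : ((Algebra.trace K⟮j⟯ F g : K⟮j⟯) : F) = aeval j P) :
    ((Algebra.trace K⟮j⟯ F g : K⟮j⟯) : F) ∈ Algebra.adjoin R {j} := by
  have hfix : aeval j P ∈ S.fixF := hP ▸ S36FT_trace_fixed S j hjfix hg
  rw [hP]
  exact S36FT_mem_adjoin_of_coeff j P fun n =>
    hR _ (hPA n) (S36FT_coeff_fixed S j hjfix hj P hfix n)

end P4

section P4'

variable {K F H : Type*} [Field K] [Field F] [Algebra K F] (S : S36FL_Act K F H)

/-- **(P4)**, subalgebra form: a fixed element of `R'[j]` lies in `R[j]`, for every `R` mapping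
onto the fixed elements of the image of `R'` (e.g. `R' = 𝔸`, `R = O_L = 𝔸 ∩ L`). -/
theorem S36FT_adjoin_fix {R' R : Type*} [CommRing R'] [Algebra R' K] [Algebra R' F]
    [IsScalarTower R' K F] [CommRing R] [Algebra R K] [Algebra R F] [IsScalarTower R K F]
    (hR : ∀ r' : R', algebraMap R' K r' ∈ S.fixK → ∃ r : R, algebraMap R K r = algebraMap R' K r')
    (j : F) (hjfix : ∀ h, S.onF h j = j) (hj : Transcendental K j)
    {x : F} (hx : x ∈ S.fixF) (hxA : x ∈ Algebra.adjoin R' {j}) :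
    x ∈ Algebra.adjoin R {j} := by
  rw [Algebra.adjoin_singleton_eq_range_aeval] at hxA
  obtain ⟨P, rfl⟩ := hxA
  have h1 : aeval j P = aeval j (P.map (algebraMap R' K)) := (aeval_map_algebraMap K j P).symm
  change aeval j P ∈ S.fixF at hx
  change aeval j P ∈ _
  rw [h1] at hx ⊢
  refine S36FT_mem_adjoin_of_coeff j _ fun n => ?_
  have h2 := S36FT_coeff_fixed S j hjfix hj _ hx n
  rw [Polynomial.coeff_map] at h2 ⊢
  exact hR _ h2

/-- **(P4)** for the trace: `g` fixed, `Tr_{F/K(j)} g ∈ R'[j]` ⇒ `Tr_{F/K(j)} g ∈ R[j]`. -/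
theorem S36FT_trace_adjoin_fix {R' R : Type*} [CommRing R'] [Algebra R' K] [Algebra R' F]
    [IsScalarTower R' K F] [CommRing R] [Algebra R K] [Algebra R F] [IsScalarTower R K F]
    (hR : ∀ r' : R', algebraMap R' K r' ∈ S.fixK → ∃ r : R, algebraMap R K r = algebraMap R' K r')
    (j : F) (hjfix : ∀ h, S.onF h j = j) (hj : Transcendental K j)
    {g : F} (hg : g ∈ S.fixF)
    (hA : ((Algebra.trace K⟮j⟯ F g : K⟮j⟯) : F) ∈ Algebra.adjoin R' {j}) :
    ((Algebra.trace K⟮j⟯ F g : K⟮j⟯) : F) ∈ Algebra.adjoin R {j} :=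
  S36FT_adjoin_fix S hR j hjfix hj (S36FT_trace_fixed S j hjfix hg) hA

end P4'

section hbas

variable {K F H : Type*} [Field K] [Field F] [Algebra K F] (S : S36FL_Act K F H)

/-- the `K(j)`-span of the fixed elements is everything, if `F` is generated by fixed elements. -/
theorem S36FT_span_top (j : F) [FiniteDimensional K⟮j⟯ F]
    (hfrac : ∀ f : F, ∃ P Q : F, P ∈ Submodule.span K (S.fixF : Set F) ∧
      Q ∈ Submodule.span K (S.fixF : Set F) ∧ Q ≠ 0 ∧ f * Q = P) (f : F) :
    f ∈ Submodule.span K⟮j⟯ (S.fixF : Set F) := by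
  set A' : Subalgebra K⟮j⟯ F := Algebra.adjoin K⟮j⟯ (S.fixF : Set F) with hA'
  have hspan : Submodule.span K⟮j⟯ (S.fixF : Set F) = Subalgebra.toSubmodule A' := by
    rw [hA', Algebra.adjoin_eq_span]
    congr 1
    have : Submonoid.closure (S.fixF : Set F) = S.fixF.toSubmonoid :=
      Submonoid.closure_eq S.fixF.toSubmonoid
    rw [this]
    rfl
  have hle : ∀ x : F, x ∈ Submodule.span K (S.fixF : Set F) → x ∈ A' := by
    intro x hx
    induction hx using Submodule.span_induction with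
    | mem y hy => exact Algebra.subset_adjoin hy
    | zero => exact A'.zero_mem
    | add x y _ _ hx hy => exact A'.add_mem hx hy
    | smul c x _ hx =>
      have : c • x = (algebraMap K K⟮j⟯ c) • x := by
        rw [Algebra.smul_def, Algebra.smul_def]
        rfl
      rw [this]
      exact A'.smul_mem hx _
  obtain ⟨P, Q, hP, hQ, hQ0, hfQ⟩ := hfrac f
  have hQi : Q⁻¹ ∈ A' :=
    A'.inv_mem_of_algebraic (x := ⟨Q, hle Q hQ⟩) (Algebra.IsAlgebraic.isAlgebraic Q)
  have hf : f = P * Q⁻¹ := by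
    rw [← hfQ, mul_assoc, mul_inv_cancel₀ hQ0, mul_one]
  rw [hspan, hf]
  exact A'.mul_mem (hle P hP) hQi

/-- **`hbas`**: a `K(j)`-basis of `F` inside `Λ`, consisting of scaled fixed elements. -/
theorem S36FT_hbas (j : F) [FiniteDimensional K⟮j⟯ F]
    (hgen : ∀ f : F, f ∈ Submodule.span K⟮j⟯ (S.fixF : Set F))
    (Λ : Subring F) (hscale : ∀ f ∈ S.fixF, ∃ d : K⟮j⟯, d ≠ 0 ∧ (d : F) * f ∈ Λ) :
    ∃ (n : ℕ) (b : Basis (Fin n) K⟮j⟯ F), ∀ i, b i ∈ Λ := by
  classical
  obtain ⟨b, hbs, hbspan, hli⟩ := exists_linearIndependent K⟮j⟯ (S.fixF : Set F)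
  have htop : ⊤ ≤ Submodule.span K⟮j⟯ (Set.range (Subtype.val : b → F)) := by
    rw [Subtype.range_coe, hbspan]
    intro f _
    exact hgen f
  let B₀ : Basis b K⟮j⟯ F := Basis.mk hli htop
  have hfin : Finite b := Module.Finite.finite_basis B₀
  let e : b ≃ Fin (Nat.card b) := Finite.equivFin b
  let B₁ : Basis (Fin (Nat.card b)) K⟮j⟯ F := B₀.reindex e
  have hB₁ : ∀ i, B₁ i ∈ S.fixF := by
    intro i
    rw [Basis.reindex_apply, Basis.mk_apply]
    exact hbs (e.symm i).2
  choose d hd0 hd using fun i => hscale (B₁ i) (hB₁ i)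
  refine ⟨Nat.card b, B₁.unitsSMul fun i => Units.mk0 (d i) (hd0 i), fun i => ?_⟩
  rw [Basis.unitsSMul_apply]
  have : (Units.mk0 (d i) (hd0 i)) • B₁ i = (d i : F) * B₁ i := by
    rw [Units.smul_def, Units.val_mk0, Algebra.smul_def]
    rfl
  rw [this]
  exact hd i

end hbas

end Fermat.Agent.S36
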