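import Mathlib
import Fermat.Agent.S36.FixLFinT
import Fermat.Agent.S36.Fin3Tr

/-!
# TRACK 10 (S36), package F1 = FIN (R9): base change of the trace (helper6) — prefix `S36FB_`

`S : S36FL_Act K F H`, `L = S.fixK`, `F_L = S.fixF`, `x ∈ F_L` transcendental over `K`,
`F` finite over `K(x)` and generated by fixed elements.

* `S36FB_coe_mem` , `S36FB_incl : L(x) →+* K(x)` : the inclusion;
* `S36FB_indep_coe` : `L(x)`-independent elements of `F_L` are `K(x)`-independent in `F`
  (Artin);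
* `S36FB_basis` : an `L(x)`-basis of `F_L` is a `K(x)`-basis of `F`;
* `S36FB_finrank_eq` : `[F_L : L(x)] = [F : K(x)]`;
* `S36FB_trace` (**BC**): `Tr_{F_L/L(x)} g = Tr_{F/K(x)} g` for `g ∈ F_L`;
* `S36FB_htr` : `htr` of `S36FN_adjoin` in the `E = L` form from the `ℚ̄`-level statement
  `Tr_{F/K(x)} g ∈ R'[x]` (`R' = 𝔸`, `R = O_L`).
-/

set_option autoImplicit false

namespace Fermat.Agent.S36

open Polynomial IntermediateField Module

variable {K F H : Type*} [Field K] [Field F] [Algebra K F] (S : S36FL_Act K F H)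

/-- elements of `L(x)` lie in `K(x)`. -/
theorem S36FB_coe_mem (x : S.fixF) {a : S.fixF} (ha : a ∈ (S.fixK)⟮x⟯) :
    (a : F) ∈ K⟮(x : F)⟯ := by
  induction ha using IntermediateField.adjoin_induction with
  | mem y hy =>
    rw [Set.mem_singleton_iff] at hy
    rw [hy]
    exact mem_adjoin_simple_self K (x : F)
  | algebraMap c =>
    rw [S.algebraMap_fix_coe]
    exact (K⟮(x : F)⟯).algebraMap_mem _
  | add _ _ _ _ hx hy => exact add_mem hx hy
  | inv _ _ hx => exact inv_mem hx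
  | mul _ _ _ _ hx hy => exact mul_mem hx hy

/-- the inclusion `L(x) → K(x)`. -/
def S36FB_incl (x : S.fixF) : (S.fixK)⟮x⟯ →+* K⟮(x : F)⟯ where
  toFun a := ⟨((a : S.fixF) : F), S36FB_coe_mem S x a.2⟩
  map_one' := rfl
  map_mul' _ _ := rfl
  map_zero' := rfl
  map_add' _ _ := rfl

theorem S36FB_incl_coe (x : S.fixF) (a : (S.fixK)⟮x⟯) :
    ((S36FB_incl S x a : K⟮(x : F)⟯) : F) = ((a : S.fixF) : F) := rfl

theorem S36FB_coe_smul (x : S.fixF) (a : (S.fixK)⟮x⟯) (z : S.fixF) :
    ((a • z : S.fixF) : F) = S36FB_incl S x a • (z : F) := rfl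

/-- **Artin**: `L(x)`-independent elements of `F_L` are `K(x)`-independent in `F`. -/
theorem S36FB_indep_coe {ι : Type*} (x : S.fixF) (hxt : Transcendental K (x : F))
    (y : ι → S.fixF) (hli : LinearIndependent (S.fixK)⟮x⟯ y) :
    LinearIndependent K⟮(x : F)⟯ (fun i => ((y i : S.fixF) : F)) := by
  classical
  refine S36FX_indep_adjoin (fun h => (S.onF h : F →+* F)) (fun h => (S.onK h : K →+* K))
    (fun h c => S.semi h c) (x : F) (fun h => x.2 h)
    (fun i => ((y i : S.fixF) : F)) (fun i h => (y i).2 h) ?_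
  intro s p hp hsum i hi
  have hlift : ∀ i, ∃ P : (S.fixK)[X], P.map (algebraMap S.fixK K) = p i := by
    intro i
    have h1 : p i ∈ Polynomial.lifts (algebraMap S.fixK K) := by
      rw [Polynomial.lifts_iff_coeff_lifts]
      intro n
      exact ⟨⟨(p i).coeff n, fun h => hp i n h⟩, rfl⟩
    exact h1
  choose P hP using hlift
  have hmem : ∀ i, aeval x (P i) ∈ (S.fixK)⟮x⟯ := by
    intro i
    have h1 : aeval x (P i) ∈ Algebra.adjoin S.fixK {x} := by
      rw [Algebra.adjoin_singleton_eq_range_aeval]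
      exact ⟨P i, rfl⟩
    exact algebra_adjoin_le_adjoin _ _ h1
  have hsum' : ∑ i ∈ s, (⟨aeval x (P i), hmem i⟩ : (S.fixK)⟮x⟯) • y i = 0 := by
    apply Subtype.ext
    have h1 : ((∑ i ∈ s, (⟨aeval x (P i), hmem i⟩ : (S.fixK)⟮x⟯) • y i : S.fixF) : F)
        = ∑ i ∈ s, aeval (x : F) (p i) * ((y i : S.fixF) : F) := by
      rw [AddSubmonoidClass.coe_finsetSum]
      refine Finset.sum_congr rfl fun i _ => ?_
      rw [IntermediateField.smul_def, smul_eq_mul]
      show ((aeval x (P i) : S.fixF) : F) * _ = _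
      rw [S36FX_coe_aeval, hP]
    rw [h1, hsum]
    rfl
  have h0 := (linearIndependent_iff'.mp hli) s _ hsum' i hi
  have h1 : aeval x (P i) = 0 := congrArg Subtype.val h0
  have h2 := (transcendental_iff.mp (S36FX_transc S x hxt)) _ h1
  rw [← hP, h2, Polynomial.map_zero]

section basis

variable (x : S.fixF) (hxt : Transcendental K (x : F))
  (hgen : ∀ f : F, f ∈ Submodule.span K⟮(x : F)⟯ (S.fixF : Set F))
  {n : ℕ} (b : Basis (Fin n) (S.fixK)⟮x⟯ S.fixF)

include hgen in
theorem S36FB_span_coe :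
    ⊤ ≤ Submodule.span K⟮(x : F)⟯ (Set.range fun i => ((b i : S.fixF) : F)) := by
  intro f _
  have hle : Submodule.span K⟮(x : F)⟯ (S.fixF : Set F)
      ≤ Submodule.span K⟮(x : F)⟯ (Set.range fun i => ((b i : S.fixF) : F)) := by
    refine Submodule.span_le.mpr ?_
    intro z hz
    have h1 : (⟨z, hz⟩ : S.fixF) = ∑ i, b.repr ⟨z, hz⟩ i • b i := (b.sum_repr _).symm
    have h2 : z = ∑ i, S36FB_incl S x (b.repr ⟨z, hz⟩ i) • ((b i : S.fixF) : F) := by
      have := congrArg (fun w : S.fixF => (w : F)) h1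
      simp only [AddSubmonoidClass.coe_finsetSum] at this
      exact this
    rw [h2]
    exact Submodule.sum_mem _ fun i _ =>
      Submodule.smul_mem _ _ (Submodule.subset_span ⟨i, rfl⟩)
  exact hle (hgen f)

/-- **an `L(x)`-basis of `F_L` is a `K(x)`-basis of `F`.** -/
noncomputable def S36FB_basis : Basis (Fin n) K⟮(x : F)⟯ F :=
  Basis.mk (S36FB_indep_coe S x hxt b b.linearIndependent) (S36FB_span_coe S x hgen b)

theorem S36FB_basis_apply (i : Fin n) :
    S36FB_basis S x hxt hgen b i = ((b i : S.fixF) : F) := by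
  rw [S36FB_basis, Basis.mk_apply]

/-- coordinates in the base-changed basis. -/
theorem S36FB_repr (z : S.fixF) (i : Fin n) :
    (S36FB_basis S x hxt hgen b).repr (z : F) i = S36FB_incl S x (b.repr z i) := by
  have h1 : z = ∑ k, b.repr z k • b k := (b.sum_repr _).symm
  have h2 : (z : F) = ∑ k, S36FB_incl S x (b.repr z k) • S36FB_basis S x hxt hgen b k := by
    have := congrArg (fun w : S.fixF => (w : F)) h1
    simp only [AddSubmonoidClass.coe_finsetSum] at this
    rw [this]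
    refine Finset.sum_congr rfl fun k _ => ?_
    rw [S36FB_basis_apply]
    rfl
  rw [h2, Basis.repr_sum_self]

include hxt hgen b in
/-- **(BC)**: `Tr_{F_L/L(x)} g = Tr_{F/K(x)} g` for `g ∈ F_L`. -/
theorem S36FB_trace_incl (g : S.fixF) :
    Algebra.trace K⟮(x : F)⟯ F (g : F) = S36FB_incl S x (Algebra.trace (S.fixK)⟮x⟯ S.fixF g) := by
  classical
  rw [Algebra.trace_eq_matrix_trace (S36FB_basis S x hxt hgen b),
    Algebra.trace_eq_matrix_trace b, Matrix.trace, Matrix.trace, map_sum]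
  refine Finset.sum_congr rfl fun i _ => ?_
  rw [Matrix.diag_apply, Matrix.diag_apply, Algebra.leftMulMatrix_eq_repr_mul,
    Algebra.leftMulMatrix_eq_repr_mul, S36FB_basis_apply]
  exact S36FB_repr S x hxt hgen b (g * b i) i

end basis

/-- **(BC)**: `Tr_{F_L/L(x)} g = Tr_{F/K(x)} g` for `g ∈ F_L`, as elements of `F`. -/
theorem S36FB_trace (x : S.fixF) (hxt : Transcendental K (x : F))
    [FiniteDimensional K⟮(x : F)⟯ F]
    (hgen : ∀ f : F, f ∈ Submodule.span K⟮(x : F)⟯ (S.fixF : Set F)) (g : S.fixF) :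
    (((Algebra.trace (S.fixK)⟮x⟯ S.fixF g : (S.fixK)⟮x⟯) : S.fixF) : F)
      = ((Algebra.trace K⟮(x : F)⟯ F (g : F) : K⟮(x : F)⟯) : F) := by
  have := S36FX_finite S x hxt
  have b := Module.finBasis (S.fixK)⟮x⟯ S.fixF
  rw [S36FB_trace_incl S x hxt hgen b g]
  rfl

/-- `[F_L : L(x)] = [F : K(x)]`. -/
theorem S36FB_finrank_eq (x : S.fixF) (hxt : Transcendental K (x : F))
    [FiniteDimensional K⟮(x : F)⟯ F]
    (hgen : ∀ f : F, f ∈ Submodule.span K⟮(x : F)⟯ (S.fixF : Set F)) :
    Module.finrank (S.fixK)⟮x⟯ S.fixF = Module.finrank K⟮(x : F)⟯ F := by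
  have := S36FX_finite S x hxt
  have b := Module.finBasis (S.fixK)⟮x⟯ S.fixF
  rw [Module.finrank_eq_card_basis (S36FB_basis S x hxt hgen b), Fintype.card_fin]

/-- **`htr` in the `E = L` form**: if `Tr_{F/K(x)} g ∈ R'[x]` (computed over `K`), `g ∈ F_L`, and
`R` maps onto the fixed elements of the image of `R'`, then `Tr_{F_L/L(x)} g ∈ R[x]`. -/
theorem S36FB_htr {R' R : Type*} [CommRing R'] [Algebra R' K] [Algebra R' F]
    [IsScalarTower R' K F] [CommRing R] [Algebra R S.fixK] [Algebra R S.fixF]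
    [IsScalarTower R S.fixK S.fixF]
    (hR : ∀ r' : R', algebraMap R' K r' ∈ S.fixK →
      ∃ r : R, ((algebraMap R S.fixK r : S.fixK) : K) = algebraMap R' K r')
    (x : S.fixF) (hxt : Transcendental K (x : F)) [FiniteDimensional K⟮(x : F)⟯ F]
    (hgen : ∀ f : F, f ∈ Submodule.span K⟮(x : F)⟯ (S.fixF : Set F)) (g : S.fixF)
    (hA : ((Algebra.trace K⟮(x : F)⟯ F (g : F) : K⟮(x : F)⟯) : F) ∈ Algebra.adjoin R' {(x : F)}) :
    ((Algebra.trace (S.fixK)⟮x⟯ S.fixF g : (S.fixK)⟮x⟯) : S.fixF) ∈ Algebra.adjoin R {x} := by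
  have hfix : ((Algebra.trace K⟮(x : F)⟯ F (g : F) : K⟮(x : F)⟯) : F) ∈ S.fixF :=
    S36FT_trace_fixed S (x : F) (fun h => x.2 h) g.2
  rw [Algebra.adjoin_singleton_eq_range_aeval] at hA
  obtain ⟨P, hP⟩ := hA
  change aeval (x : F) P = _ at hP
  have h1 : aeval (x : F) P = aeval (x : F) (P.map (algebraMap R' K)) :=
    (aeval_map_algebraMap K (x : F) P).symm
  rw [h1] at hP
  have hc : ∀ n, ∃ r : R, ((algebraMap R S.fixK r : S.fixK) : K) = (P.coeff n |> algebraMap R' K) := by
    intro n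
    refine hR _ ?_
    have := S36FT_coeff_fixed S (x : F) (fun h => x.2 h) hxt (P.map (algebraMap R' K))
      (hP ▸ hfix) n
    rwa [Polynomial.coeff_map] at this
  choose r hr using hc
  -- the polynomial over `R`
  set Q : R[X] := ∑ n ∈ Finset.range (P.natDegree + 1), Polynomial.monomial n (r n) with hQ
  have hQx : ((aeval x Q : S.fixF) : F) = aeval (x : F) (P.map (algebraMap R' K)) := by
    rw [hQ, map_sum, AddSubmonoidClass.coe_finsetSum]
    have h2 : aeval (x : F) (P.map (algebraMap R' K))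
        = ∑ n ∈ Finset.range (P.natDegree + 1),
          algebraMap K F ((P.map (algebraMap R' K)).coeff n) * (x : F) ^ n := by
      rw [aeval_eq_sum_range' (n := P.natDegree + 1)]
      · exact Finset.sum_congr rfl fun n _ => by rw [Algebra.smul_def]
      · exact lt_of_le_of_lt (Polynomial.natDegree_map_le) (Nat.lt_succ_self _)
    rw [h2]
    refine Finset.sum_congr rfl fun n _ => ?_
    rw [aeval_monomial, Polynomial.coeff_map, ← hr n]
    rw [IsScalarTower.algebraMap_apply R S.fixK S.fixF]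
    rfl
  have hfin : ((Algebra.trace (S.fixK)⟮x⟯ S.fixF g : (S.fixK)⟮x⟯) : S.fixF) = aeval x Q := by
    apply Subtype.ext
    rw [S36FB_trace S x hxt hgen g, hQx, hP]
  rw [hfin, Algebra.adjoin_singleton_eq_range_aeval]
  exact ⟨Q, rfl⟩

end Fermat.Agent.S36
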