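import Fermat.Agent.S36.Fin3Fd
import Fermat.Agent.S36.Fin3TrBC
import Fermat.Agent.S36.NormRes6
import Fermat.Agent.S36.FixLInst

/-!
# TRACK 10 (S36), package F1 = FIN-INST (helper7), part 5: FIN over the inertia field

* `S36FK_abs` : (abstract, `S : S36FL_Act K F H`, `L = S.fixK`, `F_L = S.fixF`) a subring
  `Λ ⊂ F_L` containing `R` (`= O_L`) and `x`, containing an `L(x)`-basis of `F_L`, whose elements
  have `Tr_{F/K(x)} g ∈ R'[x]` (`R' = 𝔸`)  is integral over `R[x]` and Noetherian.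
  (`S36FN_adjoin` + helper6's `S36FB_htr`.)
* `S36FK_main` : (concrete, level `M q²`, `x = B = β j`) every subring `Λ ⊂ F_{2,L}` of functions
  which are integral for `FF`, `FV ζ₀`, `VV` and regular where `B` is regular, containing `O_L`,
  `B` and an `L(B)`-basis, is integral over `O_L[B]` and Noetherian.
  `S36FK_main_alpha` : the same for `x = A = α j`.
-/

set_option autoImplicit false
set_option synthInstance.maxHeartbeats 400000
set_option maxHeartbeats 1000000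
set_option linter.style.haveILetI false
set_option linter.unusedSectionVars false

open HahnSeries IntermediateField AlgebraicCurve ModularCurve

noncomputable section

namespace Fermat.Agent.S36

open Fermat.Agent.S18 Fermat.Agent.S24 Fermat.Agent.S34 Fermat.Agent.S35 Fermat.Agent.S37
  Fermat.Agent.GalRep Fermat.Agent.Lib

section abs

variable {K F H : Type*} [Field K] [Field F] [Algebra K F] (S : S36FL_Act K F H)

/-- **FIN over the fixed field** (abstract). -/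
theorem S36FK_abs [CharZero K] {R' R : Type*} [CommRing R'] [Algebra R' K] [Algebra R' F]
    [IsScalarTower R' K F] [CommRing R] [IsNoetherianRing R] [Algebra R S.fixK]
    [Algebra R S.fixF] [IsScalarTower R S.fixK S.fixF]
    (hR : ∀ r' : R', algebraMap R' K r' ∈ S.fixK →
      ∃ r : R, ((algebraMap R S.fixK r : S.fixK) : K) = algebraMap R' K r')
    (x : S.fixF) (hxt : Transcendental K (x : F)) [FiniteDimensional K⟮(x : F)⟯ F]
    (hgen : ∀ f : F, f ∈ Submodule.span K⟮(x : F)⟯ (S.fixF : Set F))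
    (Λ : Subring S.fixF) (hRΛ : ∀ r : R, algebraMap R S.fixF r ∈ Λ) (hxΛ : x ∈ Λ)
    (hbas : ∃ (n : ℕ) (b : Module.Basis (Fin n) (S.fixK)⟮x⟯ S.fixF), ∀ i, b i ∈ Λ)
    (hA : ∀ g ∈ Λ, ((Algebra.trace K⟮(x : F)⟯ F (g : F) : K⟮(x : F)⟯) : F) ∈
      Algebra.adjoin R' {(x : F)}) :
    (∀ g ∈ Λ, IsIntegral (Algebra.adjoin R {x}) g) ∧ IsNoetherianRing Λ := by
  haveI : CharZero S.fixK := S36FX_charZero S
  haveI : FiniteDimensional (S.fixK)⟮x⟯ S.fixF := S36FX_finite S x hxt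
  exact S36FN_adjoin (R := R) (E := S.fixK) x Λ hRΛ hxΛ hbas
    (fun g hg => S36FB_htr S hR x hxt hgen g (hA g hg))

end abs

local notation "ℚbar" => AlgebraicClosure ℚ

variable (M q : ℕ) [NeZero M] [NeZero q] (hq : q.Prime) (hqM : ¬ q ∣ M)
  (A : ValuationSubring ℚbar) (hA : A.LiesOverPrime q)
  (ζ₀ : ℚbarˣ) (hζ₀ : ζ₀ ^ q = 1) (hζ₀1 : ζ₀ ≠ 1)

include hA in
/-- **FIN-INST (chart `x = B`)**. -/
theorem S36FK_main {R : Type*} [CommRing R] [IsNoetherianRing R]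
    [Algebra R (S36FI_act (M * q * q) (A.inertiaSubgroupIn ℚ)).fixK]
    [Algebra R (S36FI_act (M * q * q) (A.inertiaSubgroupIn ℚ)).fixF]
    [IsScalarTower R (S36FI_act (M * q * q) (A.inertiaSubgroupIn ℚ)).fixK
      (S36FI_act (M * q * q) (A.inertiaSubgroupIn ℚ)).fixF]
    (hR : ∀ a : A, algebraMap A ℚbar a ∈ (S36FI_act (M * q * q) (A.inertiaSubgroupIn ℚ)).fixK →
      ∃ r : R, ((algebraMap R (S36FI_act (M * q * q) (A.inertiaSubgroupIn ℚ)).fixK r :
        (S36FI_act (M * q * q) (A.inertiaSubgroupIn ℚ)).fixK) : ℚbar) = algebraMap A ℚbar a)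
    (x : (S36FI_act (M * q * q) (A.inertiaSubgroupIn ℚ)).fixF)
    (hx : (x : ↥(modularFunctionFieldBar (M * q * q))) =
      heckeBetaBar ℚbar (M * q) q (jB (M * q)))
    (hgen : ∀ f : ↥(modularFunctionFieldBar (M * q * q)),
      f ∈ Submodule.span ℚbar⟮(x : ↥(modularFunctionFieldBar (M * q * q)))⟯
        ((S36FI_act (M * q * q) (A.inertiaSubgroupIn ℚ)).fixF :
          Set ↥(modularFunctionFieldBar (M * q * q))))
    (Λ : Subring (S36FI_act (M * q * q) (A.inertiaSubgroupIn ℚ)).fixF)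
    (hRΛ : ∀ r : R, algebraMap R (S36FI_act (M * q * q) (A.inertiaSubgroupIn ℚ)).fixF r ∈ Λ)
    (hxΛ : x ∈ Λ)
    (hbas : ∃ (n : ℕ) (b : Module.Basis (Fin n)
      ((S36FI_act (M * q * q) (A.inertiaSubgroupIn ℚ)).fixK)⟮x⟯
      (S36FI_act (M * q * q) (A.inertiaSubgroupIn ℚ)).fixF), ∀ i, b i ∈ Λ)
    (hFF : ∀ g ∈ Λ, (g : ↥(modularFunctionFieldBar (M * q * q))) ∈ S36V_G A (S36V_emFF M q))
    (hFV : ∀ g ∈ Λ, (g : ↥(modularFunctionFieldBar (M * q * q))) ∈
      S36V_G A (S36V_emFV M q hq hqM ζ₀ hζ₀ hζ₀1))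
    (hVV : ∀ g ∈ Λ, (g : ↥(modularFunctionFieldBar (M * q * q))) ∈
      S36V_G A (S36V_emVV M q hq hqM))
    (hreg : ∀ g ∈ Λ, ∀ P : Place ℚbar ↥(modularFunctionFieldBar (M * q * q)),
      0 ≤ P.ord (x : ↥(modularFunctionFieldBar (M * q * q))) →
      0 ≤ P.ord (g : ↥(modularFunctionFieldBar (M * q * q)))) :
    (∀ g ∈ Λ, IsIntegral (Algebra.adjoin R {x}) g) ∧ IsNoetherianRing Λ := by
  have hxt : Transcendental ℚbar (x : ↥(modularFunctionFieldBar (M * q * q))) := by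
    rw [hx]; exact S36FD_transc_B M q
  haveI : FiniteDimensional ℚbar⟮(x : ↥(modularFunctionFieldBar (M * q * q)))⟯
      ↥(modularFunctionFieldBar (M * q * q)) := by
    rw [hx]; exact S36FD_fd_B M q hq
  refine S36FK_abs (S36FI_act (M * q * q) (A.inertiaSubgroupIn ℚ)) (R' := A) hR x hxt hgen Λ
    hRΛ hxΛ hbas fun g hg => ?_
  have hfix : ∀ τ ∈ A.inertiaSubgroupIn ℚ,
      GR_gal (M * q * q) τ (g : ↥(modularFunctionFieldBar (M * q * q))) =
        (g : ↥(modularFunctionFieldBar (M * q * q))) :=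
    (S36FI_mem_fixF (M * q * q) (A.inertiaSubgroupIn ℚ)).1 g.2
  have key := S36FD_hA_reg M q hq hqM A hA (hFF g hg)
    (fun ζ => S36NR_fix_mem_all M q hq hqM A hA ζ₀ hζ₀ hζ₀1 hfix (hFV g hg) ζ) (hVV g hg)
    (by
      intro P hP
      rw [← hx] at hP
      exact hreg g hg P hP)
  revert key
  rw [← hx]
  exact id

include hA in
/-- **FIN-INST (chart `x = A`)**. -/
theorem S36FK_main_alpha {R : Type*} [CommRing R] [IsNoetherianRing R]
    [Algebra R (S36FI_act (M * q * q) (A.inertiaSubgroupIn ℚ)).fixK]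
    [Algebra R (S36FI_act (M * q * q) (A.inertiaSubgroupIn ℚ)).fixF]
    [IsScalarTower R (S36FI_act (M * q * q) (A.inertiaSubgroupIn ℚ)).fixK
      (S36FI_act (M * q * q) (A.inertiaSubgroupIn ℚ)).fixF]
    (hR : ∀ a : A, algebraMap A ℚbar a ∈ (S36FI_act (M * q * q) (A.inertiaSubgroupIn ℚ)).fixK →
      ∃ r : R, ((algebraMap R (S36FI_act (M * q * q) (A.inertiaSubgroupIn ℚ)).fixK r :
        (S36FI_act (M * q * q) (A.inertiaSubgroupIn ℚ)).fixK) : ℚbar) = algebraMap A ℚbar a)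
    (x : (S36FI_act (M * q * q) (A.inertiaSubgroupIn ℚ)).fixF)
    (hx : (x : ↥(modularFunctionFieldBar (M * q * q))) =
      heckeAlphaBar ℚbar (M * q) q (jB (M * q)))
    (hgen : ∀ f : ↥(modularFunctionFieldBar (M * q * q)),
      f ∈ Submodule.span ℚbar⟮(x : ↥(modularFunctionFieldBar (M * q * q)))⟯
        ((S36FI_act (M * q * q) (A.inertiaSubgroupIn ℚ)).fixF :
          Set ↥(modularFunctionFieldBar (M * q * q))))
    (Λ : Subring (S36FI_act (M * q * q) (A.inertiaSubgroupIn ℚ)).fixF)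
    (hRΛ : ∀ r : R, algebraMap R (S36FI_act (M * q * q) (A.inertiaSubgroupIn ℚ)).fixF r ∈ Λ)
    (hxΛ : x ∈ Λ)
    (hbas : ∃ (n : ℕ) (b : Module.Basis (Fin n)
      ((S36FI_act (M * q * q) (A.inertiaSubgroupIn ℚ)).fixK)⟮x⟯
      (S36FI_act (M * q * q) (A.inertiaSubgroupIn ℚ)).fixF), ∀ i, b i ∈ Λ)
    (hFF : ∀ g ∈ Λ, (g : ↥(modularFunctionFieldBar (M * q * q))) ∈ S36V_G A (S36V_emFF M q))
    (hFV : ∀ g ∈ Λ, (g : ↥(modularFunctionFieldBar (M * q * q))) ∈
      S36V_G A (S36V_emFV M q hq hqM ζ₀ hζ₀ hζ₀1))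
    (hVV : ∀ g ∈ Λ, (g : ↥(modularFunctionFieldBar (M * q * q))) ∈
      S36V_G A (S36V_emVV M q hq hqM))
    (hreg : ∀ g ∈ Λ, ∀ P : Place ℚbar ↥(modularFunctionFieldBar (M * q * q)),
      0 ≤ P.ord (x : ↥(modularFunctionFieldBar (M * q * q))) →
      0 ≤ P.ord (g : ↥(modularFunctionFieldBar (M * q * q)))) :
    (∀ g ∈ Λ, IsIntegral (Algebra.adjoin R {x}) g) ∧ IsNoetherianRing Λ := by
  have hxt : Transcendental ℚbar (x : ↥(modularFunctionFieldBar (M * q * q))) := by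
    rw [hx]; exact S36FD_transc_A M q
  haveI : FiniteDimensional ℚbar⟮(x : ↥(modularFunctionFieldBar (M * q * q)))⟯
      ↥(modularFunctionFieldBar (M * q * q)) := by
    rw [hx]; exact S36FD_fd_A M q hq
  refine S36FK_abs (S36FI_act (M * q * q) (A.inertiaSubgroupIn ℚ)) (R' := A) hR x hxt hgen Λ
    hRΛ hxΛ hbas fun g hg => ?_
  have hfix : ∀ τ ∈ A.inertiaSubgroupIn ℚ,
      GR_gal (M * q * q) τ (g : ↥(modularFunctionFieldBar (M * q * q))) =
        (g : ↥(modularFunctionFieldBar (M * q * q))) :=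
    (S36FI_mem_fixF (M * q * q) (A.inertiaSubgroupIn ℚ)).1 g.2
  have key := S36FD_hA_reg_alpha M q hq hqM A hA (hFF g hg)
    (fun ζ => S36NR_fix_mem_all M q hq hqM A hA ζ₀ hζ₀ hζ₀1 hfix (hFV g hg) ζ) (hVV g hg)
    (by
      intro P hP
      rw [← hx] at hP
      exact hreg g hg P hP)
  revert key
  rw [← hx]
  exact id

end Fermat.Agent.S36
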