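import Fermat.Agent.S36.FixLInst
import Fermat.Agent.S36.Fin3TrBC

/-!
# TRACK 10 (S36), package F1 = FIN (R9): the hypothesis `hgen` on `X₀(N)` (helper6) —
prefix `S36FH_`

`F = modularFunctionFieldBar N`, `H ≤ Gal(ℚ̄/ℚ)`, `S = S36FI_act N H`, `x ∈ F` with `F` finite
over `ℚ̄(x)`.

* `S36FH_hfrac` : every `f ∈ F` is a fraction of `ℚ̄`-combinations of fixed elements;
* `S36FH_hgen` : `F` is spanned over `ℚ̄(x)` by the `H`-fixed elements (the hypothesis `hgen` of
  `S36FB_trace`, `S36FB_htr`, `S36FB_basis`, `S36FB_finrank_eq`);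
* `S36FH_trace`, `S36FH_finrank_eq`, `S36FH_htr` : the base-change statements on `X₀(N)`.
-/

set_option autoImplicit false

open ModularCurve IntermediateField

namespace Fermat.Agent.S36

variable (N : ℕ) [NeZero N] (H : Subgroup (AlgebraicClosure ℚ ≃ₐ[ℚ] AlgebraicClosure ℚ))

/-- every function is a fraction of `ℚ̄`-combinations of fixed functions. -/
theorem S36FH_hfrac (f : ↥(modularFunctionFieldBar N)) :
    ∃ P Q : ↥(modularFunctionFieldBar N),
      P ∈ Submodule.span (AlgebraicClosure ℚ)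
        ((S36FI_act N H).fixF : Set ↥(modularFunctionFieldBar N)) ∧
      Q ∈ Submodule.span (AlgebraicClosure ℚ)
        ((S36FI_act N H).fixF : Set ↥(modularFunctionFieldBar N)) ∧ Q ≠ 0 ∧ f * Q = P := by
  have hsub : (S36FI_mon N : Set ↥(modularFunctionFieldBar N)) ⊆
      ((S36FI_act N H).fixF : Set ↥(modularFunctionFieldBar N)) := fun e he =>
    (S36FI_mem_fixF N H).2 fun σ _ => S36FI_mon_fixed N σ he
  obtain ⟨P, Q, hP, hQ, hQ0, hfQ⟩ := S36FI_gen N f
  exact ⟨P, Q, Submodule.span_mono hsub hP, Submodule.span_mono hsub hQ, hQ0, hfQ⟩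

/-- **`hgen`**: `F` is spanned over `ℚ̄(x)` by the fixed functions. -/
theorem S36FH_hgen (x : ↥(modularFunctionFieldBar N))
    [FiniteDimensional (AlgebraicClosure ℚ)⟮x⟯ ↥(modularFunctionFieldBar N)]
    (f : ↥(modularFunctionFieldBar N)) :
    f ∈ Submodule.span (AlgebraicClosure ℚ)⟮x⟯
      ((S36FI_act N H).fixF : Set ↥(modularFunctionFieldBar N)) :=
  S36FT_span_top (S36FI_act N H) x (S36FH_hfrac N H) f

/-- **(BC)** on `X₀(N)`: `Tr_{F_L/L(x)} g = Tr_{F/ℚ̄(x)} g`. -/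
theorem S36FH_trace (x : (S36FI_act N H).fixF)
    (hxt : Transcendental (AlgebraicClosure ℚ) (x : ↥(modularFunctionFieldBar N)))
    [FiniteDimensional (AlgebraicClosure ℚ)⟮(x : ↥(modularFunctionFieldBar N))⟯
      ↥(modularFunctionFieldBar N)] (g : (S36FI_act N H).fixF) :
    (((Algebra.trace ((S36FI_act N H).fixK)⟮x⟯ (S36FI_act N H).fixF g :
        ((S36FI_act N H).fixK)⟮x⟯) : (S36FI_act N H).fixF) : ↥(modularFunctionFieldBar N))
      = ((Algebra.trace (AlgebraicClosure ℚ)⟮(x : ↥(modularFunctionFieldBar N))⟯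
          ↥(modularFunctionFieldBar N) (g : ↥(modularFunctionFieldBar N)) :
          (AlgebraicClosure ℚ)⟮(x : ↥(modularFunctionFieldBar N))⟯) :
          ↥(modularFunctionFieldBar N)) :=
  S36FB_trace (S36FI_act N H) x hxt (S36FH_hgen N H x) g

/-- `[F_L : L(x)] = [F : ℚ̄(x)]` on `X₀(N)`. -/
theorem S36FH_finrank_eq (x : (S36FI_act N H).fixF)
    (hxt : Transcendental (AlgebraicClosure ℚ) (x : ↥(modularFunctionFieldBar N)))
    [FiniteDimensional (AlgebraicClosure ℚ)⟮(x : ↥(modularFunctionFieldBar N))⟯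
      ↥(modularFunctionFieldBar N)] :
    Module.finrank ((S36FI_act N H).fixK)⟮x⟯ (S36FI_act N H).fixF
      = Module.finrank (AlgebraicClosure ℚ)⟮(x : ↥(modularFunctionFieldBar N))⟯
          ↥(modularFunctionFieldBar N) :=
  S36FB_finrank_eq (S36FI_act N H) x hxt (S36FH_hgen N H x)

/-- **`htr`** of `S36FN_adjoin` (`E = L` form) on `X₀(N)` from the `ℚ̄`-level statement
`Tr_{F/ℚ̄(x)} g ∈ A[x]` (helper7's `S36FJ_hA`); `R` = any ring mapping onto `A ∩ L`. -/
theorem S36FH_htr (A : ValuationSubring (AlgebraicClosure ℚ))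
    {R : Type*} [CommRing R] [Algebra R (S36FI_act N H).fixK]
    [Algebra R (S36FI_act N H).fixF] [IsScalarTower R (S36FI_act N H).fixK (S36FI_act N H).fixF]
    (hR : ∀ a : AlgebraicClosure ℚ, a ∈ A → a ∈ (S36FI_act N H).fixK →
      ∃ r : R, ((algebraMap R (S36FI_act N H).fixK r : (S36FI_act N H).fixK) :
        AlgebraicClosure ℚ) = a)
    (x : (S36FI_act N H).fixF)
    (hxt : Transcendental (AlgebraicClosure ℚ) (x : ↥(modularFunctionFieldBar N)))
    [FiniteDimensional (AlgebraicClosure ℚ)⟮(x : ↥(modularFunctionFieldBar N))⟯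
      ↥(modularFunctionFieldBar N)] (g : (S36FI_act N H).fixF)
    (hA : ((Algebra.trace (AlgebraicClosure ℚ)⟮(x : ↥(modularFunctionFieldBar N))⟯
          ↥(modularFunctionFieldBar N) (g : ↥(modularFunctionFieldBar N)) :
          (AlgebraicClosure ℚ)⟮(x : ↥(modularFunctionFieldBar N))⟯) :
          ↥(modularFunctionFieldBar N)) ∈
        Algebra.adjoin A {(x : ↥(modularFunctionFieldBar N))}) :
    ((Algebra.trace ((S36FI_act N H).fixK)⟮x⟯ (S36FI_act N H).fixF g :
        ((S36FI_act N H).fixK)⟮x⟯) : (S36FI_act N H).fixF) ∈ Algebra.adjoin R {x} :=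
  S36FB_htr (S36FI_act N H) (R' := A) (fun r' hr' => hR _ r'.2 hr') x hxt
    (S36FH_hgen N H x) g hA

end Fermat.Agent.S36
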