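import Mathlib
import Fermat.Agent.S36.Fin3
import Fermat.Agent.S36.Fin3TrBC
import Fermat.Agent.S36.FixLVal

/-!
# TRACK 10 (S36), package F1 = FIN (R9), the GLUE (helper17).  Prefix `S36FG_`.

`S : S36FL_Act K F H` (`K = ℚ̄`, `F = F₂`, `H` = inertia), `L = S.fixK`, `F_L = S.fixF`,
`A ⊂ K` a valuation subring, `O_L = S36FL_AL S A = A ∩ L`.

* `S36FG_glue` : `S36FN_adjoin` (helper7) with `E = L`, `F = F_L`, `R = O_L`, fed by `S36FB_htr`
  (helper6): a subring `Λ ⊂ F_L` containing `O_L` and `x`, containing an `L(x)`-basis of `F_L`,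
  with `Tr_{F/K(x)} g ∈ A[x]` for `g ∈ Λ` (the `ℚ̄`-level statement `S36FJ_hA`, helper7), is
  integral over `O_L[x]` and NOETHERIAN.
-/

set_option autoImplicit false

namespace Fermat.Agent.S36

open Polynomial IntermediateField Module

variable {K F H : Type*} [Field K] [Field F] [Algebra K F] (S : S36FL_Act K F H)

/-- the hypothesis `hR` of `S36FB_htr` for `R' = A`, `R = O_L = A ∩ L`. -/
theorem S36FG_hR (A : ValuationSubring K) (r' : A) (hr' : algebraMap A K r' ∈ S.fixK) :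
    ∃ r : S36FL_AL S A,
      ((algebraMap (S36FL_AL S A) S.fixK r : S.fixK) : K) = algebraMap A K r' :=
  ⟨⟨⟨(r' : K), hr'⟩, r'.2⟩, rfl⟩

/-- **FIN, the glue**: integrality over `O_L[x]` and noetherianity of the lattice. -/
theorem S36FG_glue [CharZero K] (A : ValuationSubring K) [IsNoetherianRing (S36FL_AL S A)]
    (x : S.fixF) (hxt : Transcendental K (x : F)) [FiniteDimensional K⟮(x : F)⟯ F]
    (hgen : ∀ f : F, f ∈ Submodule.span K⟮(x : F)⟯ (S.fixF : Set F))
    (Λ : Subring S.fixF)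
    (hR : ∀ r : S36FL_AL S A, algebraMap (S36FL_AL S A) S.fixF r ∈ Λ)
    (hx : x ∈ Λ)
    (hbas : ∃ (n : ℕ) (b : Basis (Fin n) (S.fixK)⟮x⟯ S.fixF), ∀ i, b i ∈ Λ)
    (hA : ∀ g ∈ Λ, ((Algebra.trace K⟮(x : F)⟯ F (g : F) : K⟮(x : F)⟯) : F) ∈
      Algebra.adjoin A {(x : F)}) :
    (∀ g ∈ Λ, IsIntegral (Algebra.adjoin (S36FL_AL S A) {x}) g) ∧ IsNoetherianRing Λ := by
  haveI := S36FX_finite S x hxt
  haveI : CharZero S.fixK := S36FX_charZero S
  haveI : CharZero S.fixF := charZero_of_injective_algebraMap (algebraMap S.fixK S.fixF).injective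
  haveI : CharZero (S.fixK)⟮x⟯ :=
    charZero_of_injective_algebraMap (algebraMap S.fixK (S.fixK)⟮x⟯).injective
  refine S36FN_adjoin (R := S36FL_AL S A) (E := S.fixK) x Λ hR hx hbas ?_
  intro g hg
  exact S36FB_htr S (R' := A) (R := S36FL_AL S A) (S36FG_hR S A) x hxt hgen g (hA g hg)

end Fermat.Agent.S36
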