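import Fermat.Agent.S36.Fin3Glue
import Fermat.Agent.S36.Fin3Fix
import Fermat.Agent.S36.Fin3Bas
import Fermat.Agent.S36.Fin3Gen
import Fermat.Agent.S36.Int3Three
import Fermat.Agent.S36.ChartsO3Inst
import Fermat.Agent.S36.BaseLDvr

/-!
# TRACK 10 (S36), package F1 = FIN (R9), the GLUE on the concrete lattice (helper17).
Prefix `S36FG_`.

Level `N₂ = M q²`, `A ⊂ ℚ̄` over `q`, `I` its inertia group, `S = S36FI_act N₂ I`, `L = S.fixK`,
`F_L = S.fixF`, `O_L = S36FL_AL S A`, the coordinate `B = j(qz)` (`S36CO_BL`, helper23; designer's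
ruling D9), `U = {B ≠ ∞} = S34IX_TU B`, `Λ_U = (S36IT_fam3 … U).Λ`.

* `S36FG_BL_mem_Λ` : `B ∈ Λ_U`;   `S36FG_const_mem_Λ` : `O_L ⊂ Λ_U` (any chart);
* `S36FG_isDVR_OL`, `S36FG_noeth_OL` : `O_L` is a discrete valuation ring (BASE-L), Noetherian;
* `S36FG_hreg` : elements of `Λ_U` are regular on `U`;
* **`S36FG_fam3`** : `Λ_U` is integral over `O_L[B]` and NOETHERIAN
  (`S36FK_main`, helper7; `S36FS_hbas`, `S36FH_hgen`, helper6).
  Only input: `hfrac` (helper8 / helper19: `S36LQ_hfrac_fam`).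
-/

set_option autoImplicit false
set_option linter.style.haveILetI false
set_option linter.unusedSectionVars false
set_option linter.unusedVariables false
set_option synthInstance.maxHeartbeats 400000
set_option maxHeartbeats 1000000

open AlgebraicCurve ModularCurve IntermediateField Module

noncomputable section

namespace Fermat.Agent.S36

open Fermat.Agent.S18 Fermat.Agent.S24 Fermat.Agent.S34 Fermat.Agent.GalRep

local notation "Ω" => AlgebraicClosure ℚ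

variable (M q : ℕ) [NeZero M] [NeZero q] (hq : q.Prime) (hqM : ¬ q ∣ M)
  (A : ValuationSubring Ω) (hA : A.LiesOverPrime q)
  (ζ : Ωˣ) (hζ : ζ ^ q = 1) (hζ1 : ζ ≠ 1)

/-- `B = β (j)`. -/
theorem S36FG_BL_coe_beta (H : Subgroup (Ω ≃ₐ[ℚ] Ω)) :
    ((S36CO_BL M q H : (S36FI_act (M * q * q) H).fixF) :
      ↥(modularFunctionFieldBar (M * q * q))) = heckeBetaBar Ω (M * q) q (jB (M * q)) :=
  S36CO_B_eq_beta M q (S36CO_q_dvd M q)

include hq hA in
/-- **`O_L` is a discrete valuation ring** (BASE-L). -/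
theorem S36FG_isDVR_OL :
    IsDiscreteValuationRing (S36FL_AL (S36FI_act (M * q * q) (A.inertiaSubgroupIn ℚ)) A) := by
  haveI : Fact q.Prime := ⟨hq⟩
  exact S36BL_isDVR A (S36FI_act (M * q * q) (A.inertiaSubgroupIn ℚ)).fixK hA
    (fun c hc τ hτ => (S36FI_mem_fixK (M * q * q) (A.inertiaSubgroupIn ℚ)).1 hc τ hτ)

include hq hA in
/-- `O_L` is Noetherian. -/
theorem S36FG_noeth_OL :
    IsNoetherianRing (S36FL_AL (S36FI_act (M * q * q) (A.inertiaSubgroupIn ℚ)) A) := by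
  haveI := S36FG_isDVR_OL M q hq A hA
  infer_instance

section fam

variable
    (dvr : ∀ i, IsDiscreteValuationRing
      (S36FL_OL (S36FI_act (M * q * q) (A.inertiaSubgroupIn ℚ))
        (S36IT_Ov3 M q hq hqM A hA ζ hζ hζ1 i)))

/-- `O_L ⊂ Λ_T` for every chart `T`. -/
theorem S36FG_const_mem_Λ (T : Set (Place Ω ↥(modularFunctionFieldBar (M * q * q))))
    (r : S36FL_AL (S36FI_act (M * q * q) (A.inertiaSubgroupIn ℚ)) A) :
    algebraMap (S36FL_AL (S36FI_act (M * q * q) (A.inertiaSubgroupIn ℚ)) A)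
      ↥(S36FI_act (M * q * q) (A.inertiaSubgroupIn ℚ)).fixF r ∈
        (S36IT_fam3 M q hq hqM A hA ζ hζ hζ1 dvr T).Λ := by
  rw [S36IT_fam3_mem_Λ]
  have hr : ((r : ↥(S36FI_act (M * q * q) (A.inertiaSubgroupIn ℚ)).fixK) : Ω) ∈ A := r.2
  refine ⟨?_, ?_, ?_, fun Q _ => ?_⟩
  · exact (S36V_VS_algebraMap_mem_iff A (S36V_emFF M q) (S36V_emFF_const M q)
      (S36V_rep_emFF M q hq A hA) _).2 hr
  · exact (S36V_VS_algebraMap_mem_iff A (S36V_emFV M q hq hqM ζ hζ hζ1)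
      (S36V_emFV_const M q hq hqM ζ hζ hζ1) (S36V_rep_emFV M q hq hqM A hA ζ hζ hζ1) _).2 hr
  · exact (S36V_VS_algebraMap_mem_iff A (S36V_emVV M q hq hqM) (S36V_emVV_const M q hq hqM)
      (S36V_rep_emVV M q hq hqM A hA) _).2 hr
  · exact Q.algebraMap_mem' _

/-- the lattice `Λ_U` of the chart `U = {B ≠ ∞}`. -/
abbrev S36FG_Λ : Subring ↥(S36FI_act (M * q * q) (A.inertiaSubgroupIn ℚ)).fixF :=
  (S36IT_fam3 M q hq hqM A hA ζ hζ hζ1 dvr
    (S34IX_TU (K := Ω) ((S36CO_BL M q (A.inertiaSubgroupIn ℚ) :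
      (S36FI_act (M * q * q) (A.inertiaSubgroupIn ℚ)).fixF) :
        ↥(modularFunctionFieldBar (M * q * q))))).Λ

/-- `B ∈ Λ_U`. -/
theorem S36FG_BL_mem_Λ :
    S36CO_BL M q (A.inertiaSubgroupIn ℚ) ∈ S36FG_Λ M q hq hqM A hA ζ hζ hζ1 dvr := by
  rw [S36IT_fam3_mem_Λ_G]
  refine ⟨S36CO_B_mem_FF M q A (S36CO_q_dvd M q),
    S36CO_B_mem_FV M q hq hqM A ζ hζ hζ1 (S36CO_q_dvd M q),
    S36CO_B_mem_VV M q hq hqM A (S36CO_q_dvd M q), fun Q hQ => ?_⟩
  rw [S36IT_place_mem_iff, Place.adicValuation_le_one_iff]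
  exact Or.inr hQ

/-- elements of `Λ_U` are regular on `U`. -/
theorem S36FG_hreg (g : ↥(S36FI_act (M * q * q) (A.inertiaSubgroupIn ℚ)).fixF)
    (hg : g ∈ S36FG_Λ M q hq hqM A hA ζ hζ hζ1 dvr)
    (P : Place Ω ↥(modularFunctionFieldBar (M * q * q)))
    (hP : 0 ≤ P.ord ((S36CO_BL M q (A.inertiaSubgroupIn ℚ) :
      (S36FI_act (M * q * q) (A.inertiaSubgroupIn ℚ)).fixF) :
        ↥(modularFunctionFieldBar (M * q * q)))) :
    0 ≤ P.ord (g : ↥(modularFunctionFieldBar (M * q * q))) := by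
  have h := ((S36IT_fam3_mem_Λ M q hq hqM A hA ζ hζ hζ1 dvr _ g).1 hg).2.2.2 P hP
  rw [S36IT_place_mem_iff, Place.adicValuation_le_one_iff] at h
  rcases h with h | h
  · rw [h, Place.ord_zero]
  · exact h

/-- **FIN on the concrete lattice**: `Λ_U` is integral over `O_L[B]` and Noetherian. -/
theorem S36FG_fam3
    (hfrac : ∀ f : ↥(S36FI_act (M * q * q) (A.inertiaSubgroupIn ℚ)).fixF,
      ∃ b ∈ S36FG_Λ M q hq hqM A hA ζ hζ hζ1 dvr, b ≠ 0 ∧
        b * f ∈ S36FG_Λ M q hq hqM A hA ζ hζ hζ1 dvr) :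
    (∀ g ∈ S36FG_Λ M q hq hqM A hA ζ hζ hζ1 dvr,
      IsIntegral (Algebra.adjoin
        (S36FL_AL (S36FI_act (M * q * q) (A.inertiaSubgroupIn ℚ)) A)
        {S36CO_BL M q (A.inertiaSubgroupIn ℚ)}) g) ∧
      IsNoetherianRing (S36FG_Λ M q hq hqM A hA ζ hζ hζ1 dvr) := by
  set S := S36FI_act (M * q * q) (A.inertiaSubgroupIn ℚ) with hS
  set x : S.fixF := S36CO_BL M q (A.inertiaSubgroupIn ℚ) with hxdef
  have hx : ((x : S.fixF) : ↥(modularFunctionFieldBar (M * q * q))) =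
      heckeBetaBar Ω (M * q) q (jB (M * q)) := S36FG_BL_coe_beta M q _
  haveI := S36FG_isDVR_OL M q hq A hA
  haveI := S36FG_noeth_OL M q hq A hA
  haveI hfd : FiniteDimensional Ω⟮((x : S.fixF) : ↥(modularFunctionFieldBar (M * q * q)))⟯
      ↥(modularFunctionFieldBar (M * q * q)) := by
    rw [hx]
    exact S36FD_fd_B M q hq
  have hxt : Transcendental Ω ((x : S.fixF) : ↥(modularFunctionFieldBar (M * q * q))) := by
    rw [hx]
    exact S36FD_transc_B M q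
  haveI := S36FX_finite S x hxt
  haveI : CharZero S.fixK := S36FX_charZero S
  haveI : CharZero S.fixF := charZero_of_injective_algebraMap (algebraMap S.fixK S.fixF).injective
  haveI : CharZero (S.fixK)⟮x⟯ :=
    charZero_of_injective_algebraMap (algebraMap S.fixK (S.fixK)⟮x⟯).injective
  have hR := S36FG_const_mem_Λ M q hq hqM A hA ζ hζ hζ1 dvr
    (S34IX_TU (K := Ω) ((x : S.fixF) : ↥(modularFunctionFieldBar (M * q * q))))
  have hxΛ := S36FG_BL_mem_Λ M q hq hqM A hA ζ hζ hζ1 dvr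
  have hbas := S36FS_hbas (R := S36FL_AL S A) (L := S.fixK) x
    (S36FG_Λ M q hq hqM A hA ζ hζ hζ1 dvr) hR hxΛ hfrac
  refine S36FK_main M q hq hqM A hA ζ hζ hζ1 (R := S36FL_AL S A) (S36FG_hR S A) x hx
    (fun f => S36FH_hgen (M * q * q) (A.inertiaSubgroupIn ℚ) _ f)
    (S36FG_Λ M q hq hqM A hA ζ hζ hζ1 dvr) hR hxΛ hbas ?_ ?_ ?_ ?_
  · intro g hg
    exact ((S36IT_fam3_mem_Λ_G M q hq hqM A hA ζ hζ hζ1 dvr _ g).1 hg).1
  · intro g hg
    exact ((S36IT_fam3_mem_Λ_G M q hq hqM A hA ζ hζ hζ1 dvr _ g).1 hg).2.1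
  · intro g hg
    exact ((S36IT_fam3_mem_Λ_G M q hq hqM A hA ζ hζ hζ1 dvr _ g).1 hg).2.2.1
  · intro g hg P hP
    exact S36FG_hreg M q hq hqM A hA ζ hζ hζ1 dvr g hg P hP

end fam

end Fermat.Agent.S36
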