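import Fermat.Agent.S36.Fin3Cart
import Fermat.Agent.S36.Fin3Tr
import Fermat.Agent.S36.NormRes3
import Fermat.Agent.S34.Cart2X0

/-!
# TRACK 10 (S36), package F1 = FIN (R9) (helper7), part 3: the trace hypothesis `htr` at level
`q² M`, over `ℚ̄`

Levels `N₁ = M q`, `N₂ = M q q` (`q ∤ M` prime), `A ⊂ ℚ̄` a valuation subring over `q`,
`β : F_{N₁} → F_{N₂}` (`f(z) ↦ f(q z)`), so `β (j) = B = j(q z)` (designer's ruling D9: the charts
of level `q² M` use `x = B`).

* `S36FJ_trace_mem` : for `m ∈ G(FF) ∩ ⋂_ζ G(FV_ζ) ∩ G(VV)` with `Tr_β m` integral over `ℚ̄[j]`: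
  `Tr_{F_{N₂} / ℚ̄(j)} m ∈ A[j]`   (`F_{N₂}` an algebra over `F_{N₁} ⊃ ℚ̄(j)` through `β`).
  Inputs: helper4's `S36NR_TB_mem_lat` (P1), TRACK 7's cartesian chart `S34CB_isCart_X0`,
  `S36FC_trace_mem` (P2 + P3).
-/

set_option autoImplicit false
set_option synthInstance.maxHeartbeats 400000
set_option maxHeartbeats 1000000
set_option linter.style.haveILetI false
set_option linter.unusedSectionVars false

open HahnSeries IntermediateField AlgebraicCurve ModularCurve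

noncomputable section

namespace Fermat.Agent.S36

open Fermat.Agent.S18 Fermat.Agent.S24 Fermat.Agent.S34 Fermat.Agent.S35 Fermat.Agent.S37
  Fermat.Agent.GalRep Fermat.Agent.Lib

/-! ### trace transfer along a field embedding -/

section TT

variable {E F₁ F₂ : Type*} [Field E] [Field F₁] [Field F₂] [Algebra E F₁] [Algebra E F₂]

/-- the isomorphism `E(j) ≃ E(β j)` induced by `β`. -/
def S36FJ_e (β : F₁ →ₐ[E] F₂) (j : F₁) : E⟮j⟯ ≃ₐ[E] E⟮β j⟯ :=
  (IntermediateField.equivMap E⟮j⟯ β).trans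
    (IntermediateField.equivOfEq (by
      rw [IntermediateField.adjoin_map, Set.image_singleton]))

theorem S36FJ_e_coe (β : F₁ →ₐ[E] F₂) (j : F₁) (a : E⟮j⟯) :
    ((S36FJ_e β j a : E⟮β j⟯) : F₂) = β (a : F₁) := rfl

/-- **trace transfer**: the trace of `F₂` over `E(β j) ⊂ F₂` is the `β`-image of the trace of
`F₂` over `E(j) ⊂ F₁` (`F₂` an `F₁`-algebra through `β`). -/
theorem S36FJ_trace_transfer (β : F₁ →ₐ[E] F₂) (j : F₁) (m : F₂) :
    letI : Algebra F₁ F₂ := β.toRingHom.toAlgebra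
    ((Algebra.trace E⟮β j⟯ F₂ m : E⟮β j⟯) : F₂) =
      β ((Algebra.trace E⟮j⟯ F₂ m : E⟮j⟯) : F₁) := by
  letI : Algebra F₁ F₂ := β.toRingHom.toAlgebra
  have he : RingHom.comp (algebraMap E⟮β j⟯ F₂) ((S36FJ_e β j).toRingEquiv : E⟮j⟯ →+* E⟮β j⟯) =
      RingHom.comp ((RingEquiv.refl F₂ : F₂ ≃+* F₂) : F₂ →+* F₂) (algebraMap E⟮j⟯ F₂) := by
    ext a
    rfl
  have h := Algebra.trace_eq_of_equiv_equiv (S36FJ_e β j).toRingEquiv (RingEquiv.refl F₂) he m
  rw [h]
  change _ = ((S36FJ_e β j ((S36FJ_e β j).toRingEquiv.symm _) : E⟮β j⟯) : F₂)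
  congr 1
  exact ((S36FJ_e β j).toRingEquiv.apply_symm_apply _).symm

/-- `β` maps `R[j]` into `R[β j]`. -/
theorem S36FJ_map_adjoin {R : Type*} [CommRing R] [Algebra R E] [Algebra R F₁] [Algebra R F₂]
    [IsScalarTower R E F₁] [IsScalarTower R E F₂] (β : F₁ →ₐ[E] F₂) (j : F₁) {z : F₁}
    (hz : z ∈ Algebra.adjoin R {j}) : β z ∈ Algebra.adjoin R {β j} := by
  induction hz using Algebra.adjoin_induction with
  | mem y hy =>
    rw [Set.mem_singleton_iff] at hy
    rw [hy]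
    exact Algebra.subset_adjoin (Set.mem_singleton _)
  | algebraMap r =>
    have : β (algebraMap R F₁ r) = algebraMap R F₂ r := by
      rw [IsScalarTower.algebraMap_apply R E F₁, IsScalarTower.algebraMap_apply R E F₂]
      exact β.commutes _
    rw [this]
    exact Subalgebra.algebraMap_mem _ r
  | add x y _ _ hx hy => rw [map_add]; exact Subalgebra.add_mem _ hx hy
  | mul x y _ _ hx hy => rw [map_mul]; exact Subalgebra.mul_mem _ hx hy

end TT

local notation "ℚbar" => AlgebraicClosure ℚ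

variable (M q : ℕ) [NeZero M] [NeZero q] (hq : q.Prime) (hqM : ¬ q ∣ M)
  (A : ValuationSubring ℚbar) (hA : A.LiesOverPrime q)

include hA in
/-- **`htr` over `ℚ̄`**: the trace of a function which is integral for `FF`, all `FV_ζ`, `VV`
(and whose `β`-trace is integral over `ℚ̄[j]`) lies in `A[j]`. -/
theorem S36FJ_trace_mem {m : ↥(modularFunctionFieldBar (M * q * q))}
    (h0 : m ∈ S36V_G A (S36V_emFF M q))
    (hζ : ∀ ζ : S36NR_Z q, m ∈ S36V_G A (S36V_emFV M q hq hqM ζ.1 ζ.2.1 ζ.2.2))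
    (h2 : m ∈ S36V_G A (S36V_emVV M q hq hqM))
    (hint : IsIntegral (Algebra.adjoin ℚbar {(jB (M * q) : ↥(modularFunctionFieldBar (M * q)))})
      (S36NR_TB M q m)) :
    letI : Algebra ↥(modularFunctionFieldBar (M * q)) ↥(modularFunctionFieldBar (M * q * q)) :=
      (heckeBetaBar ℚbar (M * q) q).toRingHom.toAlgebra
    Algebra.trace ℚbar⟮(jB (M * q) : ↥(modularFunctionFieldBar (M * q)))⟯
        ↥(modularFunctionFieldBar (M * q * q)) m ∈
      S36FN_S₀ A ℚbar (jB (M * q) : ↥(modularFunctionFieldBar (M * q))) := by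
  letI : Algebra ↥(modularFunctionFieldBar (M * q)) ↥(modularFunctionFieldBar (M * q * q)) :=
    (heckeBetaBar ℚbar (M * q) q).toRingHom.toAlgebra
  obtain ⟨y, hy⟩ := S34CB_isCart_X0 M q hq hqM A hA (S34VH_hgen M q hq hqM A hA)
  haveI := finiteDimensional_jB (M * q)
  haveI : FiniteDimensional ↥(modularFunctionFieldBar (M * q))
      ↥(modularFunctionFieldBar (M * q * q)) := GRHK_finiteDimensional hq
  exact S36FC_trace_mem (S34DF_lat M q hq hqM A) hy m
    (S36NR_TB_mem_lat M q hq hqM A hA h0 hζ h2) hint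

include hA in
/-- **`htr` over `ℚ̄`, chart `x = A`** (the same along `α`). -/
theorem S36FJ_trace_mem_alpha {m : ↥(modularFunctionFieldBar (M * q * q))}
    (h0 : m ∈ S36V_G A (S36V_emFF M q))
    (hζ : ∀ ζ : S36NR_Z q, m ∈ S36V_G A (S36V_emFV M q hq hqM ζ.1 ζ.2.1 ζ.2.2))
    (h2 : m ∈ S36V_G A (S36V_emVV M q hq hqM))
    (hint : IsIntegral (Algebra.adjoin ℚbar {(jB (M * q) : ↥(modularFunctionFieldBar (M * q)))})
      (S36NR_TA M q m)) :
    letI : Algebra ↥(modularFunctionFieldBar (M * q)) ↥(modularFunctionFieldBar (M * q * q)) :=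
      (heckeAlphaBar ℚbar (M * q) q).toRingHom.toAlgebra
    Algebra.trace ℚbar⟮(jB (M * q) : ↥(modularFunctionFieldBar (M * q)))⟯
        ↥(modularFunctionFieldBar (M * q * q)) m ∈
      S36FN_S₀ A ℚbar (jB (M * q) : ↥(modularFunctionFieldBar (M * q))) := by
  letI : Algebra ↥(modularFunctionFieldBar (M * q)) ↥(modularFunctionFieldBar (M * q * q)) :=
    (heckeAlphaBar ℚbar (M * q) q).toRingHom.toAlgebra
  obtain ⟨y, hy⟩ := S34CB_isCart_X0 M q hq hqM A hA (S34VH_hgen M q hq hqM A hA)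
  haveI := finiteDimensional_jB (M * q)
  haveI : FiniteDimensional ↥(modularFunctionFieldBar (M * q))
      ↥(modularFunctionFieldBar (M * q * q)) :=
    S36B_finiteDimensional_alpha hq (Dvd.intro_left M rfl)
  exact S36FC_trace_mem (S34DF_lat M q hq hqM A) hy m
    (S36NR_TA_mem_lat M q hq hqM A hA h0 hζ h2) hint

include hA in
/-- **FIN-INST, the trace input `hA` of `S36FB_htr` (chart `x = B = β j`)**: for
`m ∈ G(FF) ∩ ⋂_ζ G(FV_ζ) ∩ G(VV)` integral over `ℚ̄[B]` (i.e. regular off the cusps):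
`Tr_{F_{N₂} / ℚ̄(B)} m ∈ A[B]`. -/
theorem S36FJ_hA {m : ↥(modularFunctionFieldBar (M * q * q))}
    (h0 : m ∈ S36V_G A (S36V_emFF M q))
    (hζ : ∀ ζ : S36NR_Z q, m ∈ S36V_G A (S36V_emFV M q hq hqM ζ.1 ζ.2.1 ζ.2.2))
    (h2 : m ∈ S36V_G A (S36V_emVV M q hq hqM))
    (hint : IsIntegral (Algebra.adjoin ℚbar
      {heckeBetaBar ℚbar (M * q) q (jB (M * q))}) m) :
    ((Algebra.trace ℚbar⟮heckeBetaBar ℚbar (M * q) q (jB (M * q))⟯
        ↥(modularFunctionFieldBar (M * q * q)) m :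
          ℚbar⟮heckeBetaBar ℚbar (M * q) q (jB (M * q))⟯) :
        ↥(modularFunctionFieldBar (M * q * q))) ∈
      Algebra.adjoin A {heckeBetaBar ℚbar (M * q) q (jB (M * q))} := by
  have h1 := S36FT_isIntegral_trace_hom (heckeBetaBar ℚbar (M * q) q)
    (GRHK_finiteDimensional hq) (jB (M * q)) hint
  have h3 := S36FJ_trace_mem M q hq hqM A hA h0 hζ h2 h1
  rw [S36FJ_trace_transfer (heckeBetaBar ℚbar (M * q) q) (jB (M * q)) m]
  exact S36FJ_map_adjoin (heckeBetaBar ℚbar (M * q) q) (jB (M * q)) h3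

include hA in
/-- **FIN-INST, the trace input `hA` of `S36FB_htr` (chart `x = A = α j`).** -/
theorem S36FJ_hA_alpha {m : ↥(modularFunctionFieldBar (M * q * q))}
    (h0 : m ∈ S36V_G A (S36V_emFF M q))
    (hζ : ∀ ζ : S36NR_Z q, m ∈ S36V_G A (S36V_emFV M q hq hqM ζ.1 ζ.2.1 ζ.2.2))
    (h2 : m ∈ S36V_G A (S36V_emVV M q hq hqM))
    (hint : IsIntegral (Algebra.adjoin ℚbar
      {heckeAlphaBar ℚbar (M * q) q (jB (M * q))}) m) :
    ((Algebra.trace ℚbar⟮heckeAlphaBar ℚbar (M * q) q (jB (M * q))⟯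
        ↥(modularFunctionFieldBar (M * q * q)) m :
          ℚbar⟮heckeAlphaBar ℚbar (M * q) q (jB (M * q))⟯) :
        ↥(modularFunctionFieldBar (M * q * q))) ∈
      Algebra.adjoin A {heckeAlphaBar ℚbar (M * q) q (jB (M * q))} := by
  have h1 := S36FT_isIntegral_trace_hom (heckeAlphaBar ℚbar (M * q) q)
    (S36B_finiteDimensional_alpha hq (Dvd.intro_left M rfl)) (jB (M * q)) hint
  have h3 := S36FJ_trace_mem_alpha M q hq hqM A hA h0 hζ h2 h1
  rw [S36FJ_trace_transfer (heckeAlphaBar ℚbar (M * q) q) (jB (M * q)) m]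
  exact S36FJ_map_adjoin (heckeAlphaBar ℚbar (M * q) q) (jB (M * q)) h3

end Fermat.Agent.S36
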