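import Fermat.Agent.S36.Fin3Fix
import Fermat.Agent.S36.Fin3Bas
import Fermat.Agent.S36.Fin3Gen
import Fermat.Agent.S36.Fin3Glue
import Fermat.Agent.S36.Int3Three

/-!
# TRACK 10 (S36), package F1 = FIN (R9): the CLOSED statement on the concrete lattice `Λ_U`
(helper6) — prefix `S36FM_`

`F₂ = modularFunctionFieldBar (M q²)`, `A ⊂ ℚ̄` over `q`, `I = A.inertiaSubgroupIn ℚ`,
`S = S36FI_act (M q²) I`, `L = S.fixK`, `F_L = S.fixF`, `O_L = S36FL_AL S A`,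
`D = S36IT_fam3 … dvr U` (helper17), `Λ_U = D.Λ`, `x = B = β j ∈ F_L`.

* `S36FM_abs` : helper7's `S36FK_main` with `hgen` (`S36FH_hgen`), `hbas` (`S36FS_hbas`) and
  `hR` (`S36FG_hR`) discharged, `R = O_L`; the only inputs are `O_L ⊂ Λ`, `x ∈ Λ`, `hfrac`
  and the integrality of `Λ` for `FF`, `FV`, `VV` and off the poles of `x`;
* `S36FM_main` : the same on `Λ = D.Λ`: if `U ⊇ {ord x ≥ 0}`, `O_L ⊂ Λ_U`, `x ∈ Λ_U` and
  `hfrac` (helper8) then `Λ_U` is integral over `O_L[x]` and NOETHERIAN;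
* `S36FM_abs_alpha`, `S36FM_main_alpha` : the same for the chart `x = A = α j`.
-/

set_option autoImplicit false
set_option synthInstance.maxHeartbeats 400000
set_option maxHeartbeats 1000000
set_option linter.style.haveILetI false
set_option linter.unusedSectionVars false

open HahnSeries IntermediateField AlgebraicCurve ModularCurve

noncomputable section

namespace Fermat.Agent.S36

open Fermat.Agent.S18 Fermat.Agent.S24 Fermat.Agent.S34 Fermat.Agent.S35 Fermat.Agent.S37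
  Fermat.Agent.GalRep Fermat.Agent.Lib

local notation "ℚbar" => AlgebraicClosure ℚ

variable (M q : ℕ) [NeZero M] [NeZero q] (hq : q.Prime) (hqM : ¬ q ∣ M)
  (A : ValuationSubring ℚbar) (hA : A.LiesOverPrime q)
  (ζ₀ : ℚbarˣ) (hζ₀ : ζ₀ ^ q = 1) (hζ₀1 : ζ₀ ≠ 1)

include hA in
/-- **FIN-INST, closed form** (chart `x = B`): `hgen`, `hbas`, `hR` discharged, `R = O_L`. -/
theorem S36FM_abs
    [IsNoetherianRing (S36FL_AL (S36FI_act (M * q * q) (A.inertiaSubgroupIn ℚ)) A)]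
    (x : (S36FI_act (M * q * q) (A.inertiaSubgroupIn ℚ)).fixF)
    (hx : (x : ↥(modularFunctionFieldBar (M * q * q))) =
      heckeBetaBar ℚbar (M * q) q (jB (M * q)))
    (Λ : Subring (S36FI_act (M * q * q) (A.inertiaSubgroupIn ℚ)).fixF)
    (hRΛ : ∀ r : S36FL_AL (S36FI_act (M * q * q) (A.inertiaSubgroupIn ℚ)) A,
      algebraMap (S36FL_AL (S36FI_act (M * q * q) (A.inertiaSubgroupIn ℚ)) A)
        (S36FI_act (M * q * q) (A.inertiaSubgroupIn ℚ)).fixF r ∈ Λ)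
    (hxΛ : x ∈ Λ)
    (hfrac : ∀ f : (S36FI_act (M * q * q) (A.inertiaSubgroupIn ℚ)).fixF,
      ∃ b ∈ Λ, b ≠ 0 ∧ b * f ∈ Λ)
    (hFF : ∀ g ∈ Λ, (g : ↥(modularFunctionFieldBar (M * q * q))) ∈ S36V_G A (S36V_emFF M q))
    (hFV : ∀ g ∈ Λ, (g : ↥(modularFunctionFieldBar (M * q * q))) ∈
      S36V_G A (S36V_emFV M q hq hqM ζ₀ hζ₀ hζ₀1))
    (hVV : ∀ g ∈ Λ, (g : ↥(modularFunctionFieldBar (M * q * q))) ∈
      S36V_G A (S36V_emVV M q hq hqM))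
    (hreg : ∀ g ∈ Λ, ∀ P : Place ℚbar ↥(modularFunctionFieldBar (M * q * q)),
      0 ≤ P.ord (x : ↥(modularFunctionFieldBar (M * q * q))) →
      0 ≤ P.ord (g : ↥(modularFunctionFieldBar (M * q * q)))) :
    (∀ g ∈ Λ, IsIntegral
      (Algebra.adjoin (S36FL_AL (S36FI_act (M * q * q) (A.inertiaSubgroupIn ℚ)) A) {x}) g) ∧
      IsNoetherianRing Λ := by
  have hxt : Transcendental ℚbar (x : ↥(modularFunctionFieldBar (M * q * q))) := by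
    rw [hx]; exact S36FD_transc_B M q
  haveI hfd : FiniteDimensional ℚbar⟮(x : ↥(modularFunctionFieldBar (M * q * q)))⟯
      ↥(modularFunctionFieldBar (M * q * q)) := by
    rw [hx]; exact S36FD_fd_B M q hq
  haveI := S36FX_finite (S36FI_act (M * q * q) (A.inertiaSubgroupIn ℚ)) x hxt
  haveI : CharZero (S36FI_act (M * q * q) (A.inertiaSubgroupIn ℚ)).fixK :=
    S36FX_charZero (S36FI_act (M * q * q) (A.inertiaSubgroupIn ℚ))
  haveI : CharZero ((S36FI_act (M * q * q) (A.inertiaSubgroupIn ℚ)).fixK)⟮x⟯ :=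
    charZero_of_injective_algebraMap
      (algebraMap (S36FI_act (M * q * q) (A.inertiaSubgroupIn ℚ)).fixK
        ((S36FI_act (M * q * q) (A.inertiaSubgroupIn ℚ)).fixK)⟮x⟯).injective
  have hbas := S36FS_hbas (R := S36FL_AL (S36FI_act (M * q * q) (A.inertiaSubgroupIn ℚ)) A)
    (L := (S36FI_act (M * q * q) (A.inertiaSubgroupIn ℚ)).fixK) x Λ hRΛ hxΛ hfrac
  exact S36FK_main M q hq hqM A hA ζ₀ hζ₀ hζ₀1
    (R := S36FL_AL (S36FI_act (M * q * q) (A.inertiaSubgroupIn ℚ)) A)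
    (S36FG_hR (S36FI_act (M * q * q) (A.inertiaSubgroupIn ℚ)) A) x hx
    (S36FH_hgen (M * q * q) (A.inertiaSubgroupIn ℚ) (x : ↥(modularFunctionFieldBar (M * q * q))))
    Λ hRΛ hxΛ hbas hFF hFV hVV hreg

include hA in
/-- **FIN on the concrete lattice `Λ_U = D.Λ`**, `D = S36IT_fam3 … dvr U`, `U ⊇ {ord x ≥ 0}`,
`x = B`: `Λ_U` is integral over `O_L[x]` and Noetherian. -/
theorem S36FM_main
    [IsNoetherianRing (S36FL_AL (S36FI_act (M * q * q) (A.inertiaSubgroupIn ℚ)) A)]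
    (dvr : ∀ i, IsDiscreteValuationRing
      (S36FL_OL (S36FI_act (M * q * q) (A.inertiaSubgroupIn ℚ))
        (S36IT_Ov3 M q hq hqM A hA ζ₀ hζ₀ hζ₀1 i)))
    (U : Set (Place ℚbar ↥(modularFunctionFieldBar (M * q * q))))
    (x : (S36FI_act (M * q * q) (A.inertiaSubgroupIn ℚ)).fixF)
    (hx : (x : ↥(modularFunctionFieldBar (M * q * q))) =
      heckeBetaBar ℚbar (M * q) q (jB (M * q)))
    (hU : ∀ P : Place ℚbar ↥(modularFunctionFieldBar (M * q * q)),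
      0 ≤ P.ord (x : ↥(modularFunctionFieldBar (M * q * q))) → P ∈ U)
    (hRΛ : ∀ r : S36FL_AL (S36FI_act (M * q * q) (A.inertiaSubgroupIn ℚ)) A,
      algebraMap (S36FL_AL (S36FI_act (M * q * q) (A.inertiaSubgroupIn ℚ)) A)
        (S36FI_act (M * q * q) (A.inertiaSubgroupIn ℚ)).fixF r ∈
        (S36IT_fam3 M q hq hqM A hA ζ₀ hζ₀ hζ₀1 dvr U).Λ)
    (hxΛ : x ∈ (S36IT_fam3 M q hq hqM A hA ζ₀ hζ₀ hζ₀1 dvr U).Λ)
    (hfrac : ∀ f : (S36FI_act (M * q * q) (A.inertiaSubgroupIn ℚ)).fixF,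
      ∃ b : (S36IT_fam3 M q hq hqM A hA ζ₀ hζ₀ hζ₀1 dvr U).Λ,
        (b : (S36FI_act (M * q * q) (A.inertiaSubgroupIn ℚ)).fixF) ≠ 0 ∧
        (b : (S36FI_act (M * q * q) (A.inertiaSubgroupIn ℚ)).fixF) * f ∈
          (S36IT_fam3 M q hq hqM A hA ζ₀ hζ₀ hζ₀1 dvr U).Λ) :
    (∀ g ∈ (S36IT_fam3 M q hq hqM A hA ζ₀ hζ₀ hζ₀1 dvr U).Λ, IsIntegral
      (Algebra.adjoin (S36FL_AL (S36FI_act (M * q * q) (A.inertiaSubgroupIn ℚ)) A) {x}) g) ∧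
      IsNoetherianRing (S36IT_fam3 M q hq hqM A hA ζ₀ hζ₀ hζ₀1 dvr U).Λ := by
  refine S36FM_abs M q hq hqM A hA ζ₀ hζ₀ hζ₀1 x hx _ hRΛ hxΛ
    (fun f => ?_) (fun g hg => ?_) (fun g hg => ?_) (fun g hg => ?_) (fun g hg P hP => ?_)
  · obtain ⟨b, hb0, hb⟩ := hfrac f
    exact ⟨b, b.2, hb0, hb⟩
  · exact ((S36IT_fam3_mem_Λ_G M q hq hqM A hA ζ₀ hζ₀ hζ₀1 dvr U g).1 hg).1
  · exact ((S36IT_fam3_mem_Λ_G M q hq hqM A hA ζ₀ hζ₀ hζ₀1 dvr U g).1 hg).2.1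
  · exact ((S36IT_fam3_mem_Λ_G M q hq hqM A hA ζ₀ hζ₀ hζ₀1 dvr U g).1 hg).2.2.1
  · have h1 := ((S36IT_fam3_mem_Λ_G M q hq hqM A hA ζ₀ hζ₀ hζ₀1 dvr U g).1 hg).2.2.2 P
      (hU P hP)
    rw [S36IT_place_mem_iff, Place.adicValuation_le_one_iff] at h1
    rcases h1 with h1 | h1
    · rw [h1, Place.ord_zero]
    · exact h1

include hA in
/-- **FIN-INST, closed form** (chart `x = A = α j`): `hgen`, `hbas`, `hR` discharged, `R = O_L`. -/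
theorem S36FM_abs_alpha
    [IsNoetherianRing (S36FL_AL (S36FI_act (M * q * q) (A.inertiaSubgroupIn ℚ)) A)]
    (x : (S36FI_act (M * q * q) (A.inertiaSubgroupIn ℚ)).fixF)
    (hx : (x : ↥(modularFunctionFieldBar (M * q * q))) =
      heckeAlphaBar ℚbar (M * q) q (jB (M * q)))
    (Λ : Subring (S36FI_act (M * q * q) (A.inertiaSubgroupIn ℚ)).fixF)
    (hRΛ : ∀ r : S36FL_AL (S36FI_act (M * q * q) (A.inertiaSubgroupIn ℚ)) A,
      algebraMap (S36FL_AL (S36FI_act (M * q * q) (A.inertiaSubgroupIn ℚ)) A)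
        (S36FI_act (M * q * q) (A.inertiaSubgroupIn ℚ)).fixF r ∈ Λ)
    (hxΛ : x ∈ Λ)
    (hfrac : ∀ f : (S36FI_act (M * q * q) (A.inertiaSubgroupIn ℚ)).fixF,
      ∃ b ∈ Λ, b ≠ 0 ∧ b * f ∈ Λ)
    (hFF : ∀ g ∈ Λ, (g : ↥(modularFunctionFieldBar (M * q * q))) ∈ S36V_G A (S36V_emFF M q))
    (hFV : ∀ g ∈ Λ, (g : ↥(modularFunctionFieldBar (M * q * q))) ∈
      S36V_G A (S36V_emFV M q hq hqM ζ₀ hζ₀ hζ₀1))
    (hVV : ∀ g ∈ Λ, (g : ↥(modularFunctionFieldBar (M * q * q))) ∈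
      S36V_G A (S36V_emVV M q hq hqM))
    (hreg : ∀ g ∈ Λ, ∀ P : Place ℚbar ↥(modularFunctionFieldBar (M * q * q)),
      0 ≤ P.ord (x : ↥(modularFunctionFieldBar (M * q * q))) →
      0 ≤ P.ord (g : ↥(modularFunctionFieldBar (M * q * q)))) :
    (∀ g ∈ Λ, IsIntegral
      (Algebra.adjoin (S36FL_AL (S36FI_act (M * q * q) (A.inertiaSubgroupIn ℚ)) A) {x}) g) ∧
      IsNoetherianRing Λ := by
  have hxt : Transcendental ℚbar (x : ↥(modularFunctionFieldBar (M * q * q))) := by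
    rw [hx]; exact S36FD_transc_A M q
  haveI hfd : FiniteDimensional ℚbar⟮(x : ↥(modularFunctionFieldBar (M * q * q)))⟯
      ↥(modularFunctionFieldBar (M * q * q)) := by
    rw [hx]; exact S36FD_fd_A M q hq
  haveI := S36FX_finite (S36FI_act (M * q * q) (A.inertiaSubgroupIn ℚ)) x hxt
  haveI : CharZero (S36FI_act (M * q * q) (A.inertiaSubgroupIn ℚ)).fixK :=
    S36FX_charZero (S36FI_act (M * q * q) (A.inertiaSubgroupIn ℚ))
  haveI : CharZero ((S36FI_act (M * q * q) (A.inertiaSubgroupIn ℚ)).fixK)⟮x⟯ :=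
    charZero_of_injective_algebraMap
      (algebraMap (S36FI_act (M * q * q) (A.inertiaSubgroupIn ℚ)).fixK
        ((S36FI_act (M * q * q) (A.inertiaSubgroupIn ℚ)).fixK)⟮x⟯).injective
  have hbas := S36FS_hbas (R := S36FL_AL (S36FI_act (M * q * q) (A.inertiaSubgroupIn ℚ)) A)
    (L := (S36FI_act (M * q * q) (A.inertiaSubgroupIn ℚ)).fixK) x Λ hRΛ hxΛ hfrac
  exact S36FK_main_alpha M q hq hqM A hA ζ₀ hζ₀ hζ₀1
    (R := S36FL_AL (S36FI_act (M * q * q) (A.inertiaSubgroupIn ℚ)) A)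
    (S36FG_hR (S36FI_act (M * q * q) (A.inertiaSubgroupIn ℚ)) A) x hx
    (S36FH_hgen (M * q * q) (A.inertiaSubgroupIn ℚ) (x : ↥(modularFunctionFieldBar (M * q * q))))
    Λ hRΛ hxΛ hbas hFF hFV hVV hreg

include hA in
/-- **FIN on the concrete lattice `Λ_U = D.Λ`**, `D = S36IT_fam3 … dvr U`, `U ⊇ {ord x ≥ 0}`,
`x = A`: `Λ_U` is integral over `O_L[x]` and Noetherian. -/
theorem S36FM_main_alpha
    [IsNoetherianRing (S36FL_AL (S36FI_act (M * q * q) (A.inertiaSubgroupIn ℚ)) A)]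
    (dvr : ∀ i, IsDiscreteValuationRing
      (S36FL_OL (S36FI_act (M * q * q) (A.inertiaSubgroupIn ℚ))
        (S36IT_Ov3 M q hq hqM A hA ζ₀ hζ₀ hζ₀1 i)))
    (U : Set (Place ℚbar ↥(modularFunctionFieldBar (M * q * q))))
    (x : (S36FI_act (M * q * q) (A.inertiaSubgroupIn ℚ)).fixF)
    (hx : (x : ↥(modularFunctionFieldBar (M * q * q))) =
      heckeAlphaBar ℚbar (M * q) q (jB (M * q)))
    (hU : ∀ P : Place ℚbar ↥(modularFunctionFieldBar (M * q * q)),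
      0 ≤ P.ord (x : ↥(modularFunctionFieldBar (M * q * q))) → P ∈ U)
    (hRΛ : ∀ r : S36FL_AL (S36FI_act (M * q * q) (A.inertiaSubgroupIn ℚ)) A,
      algebraMap (S36FL_AL (S36FI_act (M * q * q) (A.inertiaSubgroupIn ℚ)) A)
        (S36FI_act (M * q * q) (A.inertiaSubgroupIn ℚ)).fixF r ∈
        (S36IT_fam3 M q hq hqM A hA ζ₀ hζ₀ hζ₀1 dvr U).Λ)
    (hxΛ : x ∈ (S36IT_fam3 M q hq hqM A hA ζ₀ hζ₀ hζ₀1 dvr U).Λ)
    (hfrac : ∀ f : (S36FI_act (M * q * q) (A.inertiaSubgroupIn ℚ)).fixF,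
      ∃ b : (S36IT_fam3 M q hq hqM A hA ζ₀ hζ₀ hζ₀1 dvr U).Λ,
        (b : (S36FI_act (M * q * q) (A.inertiaSubgroupIn ℚ)).fixF) ≠ 0 ∧
        (b : (S36FI_act (M * q * q) (A.inertiaSubgroupIn ℚ)).fixF) * f ∈
          (S36IT_fam3 M q hq hqM A hA ζ₀ hζ₀ hζ₀1 dvr U).Λ) :
    (∀ g ∈ (S36IT_fam3 M q hq hqM A hA ζ₀ hζ₀ hζ₀1 dvr U).Λ, IsIntegral
      (Algebra.adjoin (S36FL_AL (S36FI_act (M * q * q) (A.inertiaSubgroupIn ℚ)) A) {x}) g) ∧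
      IsNoetherianRing (S36IT_fam3 M q hq hqM A hA ζ₀ hζ₀ hζ₀1 dvr U).Λ := by
  refine S36FM_abs_alpha M q hq hqM A hA ζ₀ hζ₀ hζ₀1 x hx _ hRΛ hxΛ
    (fun f => ?_) (fun g hg => ?_) (fun g hg => ?_) (fun g hg => ?_) (fun g hg P hP => ?_)
  · obtain ⟨b, hb0, hb⟩ := hfrac f
    exact ⟨b, b.2, hb0, hb⟩
  · exact ((S36IT_fam3_mem_Λ_G M q hq hqM A hA ζ₀ hζ₀ hζ₀1 dvr U g).1 hg).1
  · exact ((S36IT_fam3_mem_Λ_G M q hq hqM A hA ζ₀ hζ₀ hζ₀1 dvr U g).1 hg).2.1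
  · exact ((S36IT_fam3_mem_Λ_G M q hq hqM A hA ζ₀ hζ₀ hζ₀1 dvr U g).1 hg).2.2.1
  · have h1 := ((S36IT_fam3_mem_Λ_G M q hq hqM A hA ζ₀ hζ₀ hζ₀1 dvr U g).1 hg).2.2.2 P
      (hU P hP)
    rw [S36IT_place_mem_iff, Place.adicValuation_le_one_iff] at h1
    rcases h1 with h1 | h1
    · rw [h1, Place.ord_zero]
    · exact h1

end Fermat.Agent.S36
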