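import Fermat.Agent.S36.Fin3Red

/-!
# TRACK 10 (S36), package F1 = FIN-INST (helper7), part 9: `S36LJ_Red` on the chart
`U' = {j ≠ c}`

* `S36FZ_integral_le_regZ_pow` : elements integral over `k[1/z^e]` are regular off the zeros of
  `z` (`0 < e`);
* `S36FZ_red_U'` : `S36LJ_Red (S36CU_U' S k j c z₁ z₂ z₃ n hn)` from `hint`
  (the elements of `Λ_{U'}` are integral over `A[s]`, `s = 1/(j − c)`) and
  `red_i s = 1/z_i^e` (ruling D12: `red_i (B − c) = z^q`, `z = j̄ − c₀`);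
* `S36FZ_red_U_pow` : the same on the chart `U` with `red_i j = x_i^e`.
-/

set_option autoImplicit false
set_option linter.unusedSectionVars false

open AlgebraicCurve IntermediateField

namespace Fermat.Agent.S36

open Fermat.Agent.Lib Fermat.Agent.S18 Fermat.Agent.S24 Fermat.Agent.S34

section one

variable {k Fk : Type*} [Field k] [Field Fk] [Algebra k Fk]

/-- the zeros of `z ^ e` are the zeros of `z`. -/
theorem S36FZ_zeros_pow (z : Fk) {e : ℕ} (he : 0 < e) :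
    S34SB_zeros k (z ^ e) = S34SB_zeros k z := by
  ext Q
  rw [S34SB_mem_zeros, S34SB_mem_zeros, ← zpow_natCast, Q.ord_zpow]
  have he' : (0 : ℤ) < e := by exact_mod_cast he
  constructor
  · intro h
    by_contra hn
    rw [not_lt] at hn
    have := mul_nonpos_of_nonneg_of_nonpos he'.le hn
    omega
  · intro h
    exact mul_pos he' h

theorem S36FZ_regZ_pow (z : Fk) {e : ℕ} (he : 0 < e) :
    S34SB_regZ k (z ^ e) = S34SB_regZ k z := by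
  unfold S34SB_regZ
  rw [S36FZ_zeros_pow z he]

/-- elements integral over `k[1/z^e]` are regular off the zeros of `z`. -/
theorem S36FZ_integral_le_regZ_pow (z : Fk) {e : ℕ} (he : 0 < e) {f : Fk}
    (hf : IsIntegral (Algebra.adjoin k {(z ^ e)⁻¹}) f) : f ∈ S34SB_regZ k z := by
  rw [← S36FZ_regZ_pow z he]
  exact S36CU_integral_le_regZ _ hf

/-- elements integral over `k[x^e]` are regular off the poles of `x`. -/
theorem S36FZ_integral_le_reg_pow (x : Fk) {e : ℕ} (he : 0 < e) {f : Fk}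
    (hf : IsIntegral (Algebra.adjoin k {x ^ e}) f) : f ∈ S34SB_reg k x := by
  rw [← S34SB_reg_pow x he]
  exact S36CU_integral_le_reg _ hf

end one

section chart

variable {K F H : Type*} [Field K] [Field F] [Algebra K F] (S : S36FL_Act K F H)
  {k Fk₁ Fk₂ Fk₃ : Type*} [Field k]
  [Field Fk₁] [Field Fk₂] [Field Fk₃] [Algebra k Fk₁] [Algebra k Fk₂] [Algebra k Fk₃]
  {S₁ : S18_Val S.fixK S.fixF k Fk₁} {S₂ : S18_Val S.fixK S.fixF k Fk₂}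
  {S₃ : S18_Val S.fixK S.fixF k Fk₃}

/-- **`S36LJ_Red` on the chart `U' = {j ≠ c}`**: the reductions of `Λ_{U'}` are regular off the
zeros of `z_i`, where `red_i (1/(j − c)) = 1/z_i^e`. -/
theorem S36FZ_red_U' (hS : S36L3_Same S₁ S₂ S₃) (j : S.fixF) (c : S.fixK)
    (s : S.fixF) (hs : s ∈ S36L3_O3 S₁ S₂ S₃)
    (z₁ : Fk₁) (z₂ : Fk₂) (z₃ : Fk₃) {e : ℕ} (he : 0 < e)
    (hz₁ : S₁.red ⟨s, hs.1⟩ = (z₁ ^ e)⁻¹) (hz₂ : S₂.red ⟨s, hs.2.1⟩ = (z₂ ^ e)⁻¹)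
    (hz₃ : S₃.red ⟨s, hs.2.2⟩ = (z₃ ^ e)⁻¹)
    (n : ℕ) (hn : 0 < n)
    (hint : ∀ g : S.fixF, g ∈ S36L3_O3 S₁ S₂ S₃ →
      g ∈ S36I3_reg S (S34IX_TU' (j : F) (c : K)) → IsIntegral (Algebra.adjoin S₁.A {s}) g) :
    S36LJ_Red (S₁ := S₁) (S₂ := S₂) (S₃ := S₃) (S36CU_U' S k j c z₁ z₂ z₃ n hn) :=
  S36F3R_red hS _ s hs hint
    (fun _ h => S36FZ_integral_le_regZ_pow z₁ he (hz₁ ▸ h))
    (fun _ h => S36FZ_integral_le_regZ_pow z₂ he (hz₂ ▸ h))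
    (fun _ h => S36FZ_integral_le_regZ_pow z₃ he (hz₃ ▸ h))
    (fun x hx => S34SB_regOff_root _ hn x hx) (fun x hx => S34SB_regOff_root _ hn x hx)
    (fun x hx => S34SB_regOff_root _ hn x hx)

/-- **`S36LJ_Red` on the chart `U = {j ≠ ∞}`**, with `red_i j = x_i^e` (ruling D12). -/
theorem S36FZ_red_U_pow (hS : S36L3_Same S₁ S₂ S₃) (j : S.fixF) (hj : j ∈ S36L3_O3 S₁ S₂ S₃)
    (x₁ : Fk₁) (x₂ : Fk₂) (x₃ : Fk₃) {e : ℕ} (he : 0 < e)
    (hx₁ : S₁.red ⟨j, hj.1⟩ = x₁ ^ e) (hx₂ : S₂.red ⟨j, hj.2.1⟩ = x₂ ^ e)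
    (hx₃ : S₃.red ⟨j, hj.2.2⟩ = x₃ ^ e)
    (n : ℕ) (hn : 0 < n)
    (hint : ∀ g : S.fixF, g ∈ S36L3_O3 S₁ S₂ S₃ →
      g ∈ S36I3_reg S (S34IX_TU (K := K) (j : F)) → IsIntegral (Algebra.adjoin S₁.A {j}) g) :
    S36LJ_Red (S₁ := S₁) (S₂ := S₂) (S₃ := S₃) (S36CU_U S k j x₁ x₂ x₃ n hn) :=
  S36F3R_red hS _ j hj hint
    (fun _ h => S36FZ_integral_le_reg_pow x₁ he (hx₁ ▸ h))
    (fun _ h => S36FZ_integral_le_reg_pow x₂ he (hx₂ ▸ h))
    (fun _ h => S36FZ_integral_le_reg_pow x₃ he (hx₃ ▸ h))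
    (fun x hx => S34SB_reg_root _ hn x hx) (fun x hx => S34SB_reg_root _ hn x hx)
    (fun x hx => S34SB_reg_root _ hn x hx)

end chart

end Fermat.Agent.S36
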