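import Fermat.Agent.S36.Fin3ZInst
import Fermat.Agent.S36.Fin3ZRed
import Fermat.Agent.S36.Fin3Chart

/-!
# TRACK 10 (S36), package F1 = FIN-INST (helper7), part 10: the CONSUMER forms of FIN on the
concrete charts `C = S36CZ_C` (`U = {B ≠ ∞}`) and `C' = S36CZ_C' c` (`U' = {B ≠ c}`)

`S₁ = S36FI_SFF`, `S₂ = S36FI_SFV ζ`, `S₃ = S36FI_SVV` (helper1), charts of helper23 (ChartsB),
`B = S36CO_BL M q I`, `c ∈ S₁.A = O_L`, `s = 1/(B − c)`.  No hypothesis left.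

* `S36FZ_hfrac'`, **`S36FZ_main'`** : `Λ_{U'}` is integral over `O_L[s]` and NOETHERIAN;
* `S36FZ_noeth_fam'` : `IsNoetherianRing (S36IT_fam3 … dvr (S34IX_TU' B c)).Λ`;
* `S36FZ_hint_C'` : `g ∈ O₃ → g ∈ C'.B → IsIntegral (Algebra.adjoin S₁.A {s}) g`;
* `S36FZ_noeth_C'` : `IsNoetherianRing (S36LJ_Lam S₁ S₂ S₃ C'.B.toSubring)`;
* **`S36FZ_red_C`** : `S36LJ_Red (S36CZ_C … n hn)`;
* **`S36FZ_red_C'`** : `S36LJ_Red (S36CZ_C' … c n hn)`.
-/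

set_option autoImplicit false
set_option linter.style.haveILetI false
set_option linter.unusedSectionVars false
set_option linter.unusedVariables false
set_option synthInstance.maxHeartbeats 400000
set_option maxHeartbeats 1000000

open AlgebraicCurve ModularCurve IntermediateField Module

noncomputable section

namespace Fermat.Agent.S36

open Fermat.Agent.S18 Fermat.Agent.S24 Fermat.Agent.S34 Fermat.Agent.GalRep

local notation "Ω" => AlgebraicClosure ℚ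

variable (M q : ℕ) [NeZero M] [NeZero q] (hq : q.Prime) (hqM : ¬ q ∣ M)
  (A : ValuationSubring Ω) (hA : A.LiesOverPrime q)
  (ζ : Ωˣ) (hζ : ζ ^ q = 1) (hζ1 : ζ ≠ 1)

section fam

variable
    (dvr : ∀ i, IsDiscreteValuationRing
      (S36FL_OL (S36FI_act (M * q * q) (A.inertiaSubgroupIn ℚ))
        (S36IT_Ov3 M q hq hqM A hA ζ hζ hζ1 i)))
    (c : S36FL_AL (S36FI_act (M * q * q) (A.inertiaSubgroupIn ℚ)) A)

include hq in
/-- `hfrac` on the chart `U'`. -/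
theorem S36FZ_hfrac' (f : ↥(S36FI_act (M * q * q) (A.inertiaSubgroupIn ℚ)).fixF) :
    ∃ b ∈ S36FZ_Λ' M q hq hqM A hA ζ hζ hζ1 dvr c, b ≠ 0 ∧
      b * f ∈ S36FZ_Λ' M q hq hqM A hA ζ hζ hζ1 dvr c := by
  obtain ⟨b, hb0, hb⟩ := S36FQ_hfrac_U' M q hq hqM A hA ζ hζ hζ1 dvr
    (S34IX_TU' ((S36CO_BL M q (A.inertiaSubgroupIn ℚ) :
      (S36FI_act (M * q * q) (A.inertiaSubgroupIn ℚ)).fixF) :
        ↥(modularFunctionFieldBar (M * q * q)))
      ((c : ↥(S36FI_act (M * q * q) (A.inertiaSubgroupIn ℚ)).fixK) : Ω))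
    (c : ↥(S36FI_act (M * q * q) (A.inertiaSubgroupIn ℚ)).fixK) c.2
    (by rw [S36FG_BL_coe_beta]) f
  exact ⟨b, b.2, hb0, hb⟩

include hq in
/-- **FIN on the chart `U' = {B ≠ c}`, closed**: `Λ_{U'}` is integral over `O_L[s]` and
Noetherian. -/
theorem S36FZ_main' :
    (∀ g ∈ S36FZ_Λ' M q hq hqM A hA ζ hζ hζ1 dvr c,
      IsIntegral (Algebra.adjoin
        (S36FL_AL (S36FI_act (M * q * q) (A.inertiaSubgroupIn ℚ)) A)
        {S36FZ_s M q A c}) g) ∧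
      IsNoetherianRing (S36FZ_Λ' M q hq hqM A hA ζ hζ hζ1 dvr c) :=
  S36FZ_fam3' M q hq hqM A hA ζ hζ hζ1 dvr c (S36FZ_hfrac' M q hq hqM A hA ζ hζ hζ1 dvr c)

include hq in
/-- the lattice of the chart `U'` is Noetherian (family form). -/
theorem S36FZ_noeth_fam' :
    IsNoetherianRing (S36IT_fam3 M q hq hqM A hA ζ hζ hζ1 dvr
      (S34IX_TU' ((S36CO_BL M q (A.inertiaSubgroupIn ℚ) :
        (S36FI_act (M * q * q) (A.inertiaSubgroupIn ℚ)).fixF) :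
          ↥(modularFunctionFieldBar (M * q * q)))
        ((c : ↥(S36FI_act (M * q * q) (A.inertiaSubgroupIn ℚ)).fixK) : Ω))).Λ :=
  (S36FZ_main' M q hq hqM A hA ζ hζ hζ1 dvr c).2

end fam

variable (c : (S36FI_SFF M q hq hqM A hA).A) (n : ℕ) (hn : 0 < n)

/-- **`hint`** on the chart `C' = S36CZ_C' c`: the elements of `O₃ ∩ C'.B` are integral over
`S₁.A[s]`, `s = 1/(B − c)`. -/
theorem S36FZ_hint_C' (g : ↥(S36FI_act (M * q * q) (A.inertiaSubgroupIn ℚ)).fixF)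
    (hg : g ∈ S36L3_O3 (S36FI_SFF M q hq hqM A hA) (S36FI_SFV M q hq hqM A hA ζ hζ hζ1)
      (S36FI_SVV M q hq hqM A hA))
    (hgB : g ∈ (S36CZ_C' M q hq hqM A hA c n hn).B) :
    IsIntegral (Algebra.adjoin (S36FI_SFF M q hq hqM A hA).A
      {(S36CO_BL M q (A.inertiaSubgroupIn ℚ) -
        algebraMap (S36FI_SFF M q hq hqM A hA).A
          ↥(S36FI_act (M * q * q) (A.inertiaSubgroupIn ℚ)).fixF c)⁻¹}) g := by
  have hmem : g ∈ S36FZ_Λ' M q hq hqM A hA ζ hζ hζ1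
      (S36IT_dvr3_inst M q hq hqM A hA ζ hζ hζ1) c := by
    show g ∈ (S36IT_fam3 M q hq hqM A hA ζ hζ hζ1 _ _).Λ
    rw [S36CZ_Lam_eq]
    exact ⟨hg, hgB⟩
  exact (S36FZ_main' M q hq hqM A hA ζ hζ hζ1 _ c).1 g hmem

/-- **the lattice `O₃ ∩ C'.B` of the chart `C' = S36CZ_C' c` is Noetherian.** -/
theorem S36FZ_noeth_C' :
    IsNoetherianRing (S36LJ_Lam (S36FI_SFF M q hq hqM A hA)
      (S36FI_SFV M q hq hqM A hA ζ hζ hζ1) (S36FI_SVV M q hq hqM A hA)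
      (S36CZ_C' M q hq hqM A hA c n hn).B.toSubring) := by
  have h := S36FZ_noeth_fam' M q hq hqM A hA ζ hζ hζ1
    (S36IT_dvr3_inst M q hq hqM A hA ζ hζ hζ1) c
  have e := S36CZ_Lam_eq M q hq hqM A hA ζ hζ hζ1 (S36IT_dvr3_inst M q hq hqM A hA ζ hζ hζ1)
    (S34IX_TU' ((S36CO_BL M q (A.inertiaSubgroupIn ℚ) :
        (S36FI_act (M * q * q) (A.inertiaSubgroupIn ℚ)).fixF) :
          ↥(modularFunctionFieldBar (M * q * q)))
        ((c : ↥(S36FI_act (M * q * q) (A.inertiaSubgroupIn ℚ)).fixK) : Ω))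
  rw [e] at h
  exact h

/-- **`S36LJ_Red` on the concrete chart `C = S36CZ_C`** (`U = {B ≠ ∞}`). -/
theorem S36FZ_red_C :
    S36LJ_Red (S₁ := S36FI_SFF M q hq hqM A hA) (S₂ := S36FI_SFV M q hq hqM A hA ζ hζ hζ1)
      (S₃ := S36FI_SVV M q hq hqM A hA) (S36CZ_C M q hq hqM A hA n hn) :=
  S36FZ_red_U_pow (S36FI_act (M * q * q) (A.inertiaSubgroupIn ℚ))
    (S36FI_same3 M q hq hqM A hA ζ hζ hζ1) (S36CO_BL M q (A.inertiaSubgroupIn ℚ))
    (S36CZ_hjO M q hq hqM A hA ζ hζ hζ1) (S36CZ_xb M q hq hqM A hA) (S36CZ_xb M q hq hqM A hA)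
    (S36CZ_xb M q hq hqM A hA) (e := 1) one_pos
    (by rw [pow_one]; rfl)
    (by rw [pow_one]; exact S36CZ_red₂ M q hq hqM A hA ζ hζ hζ1 _)
    (by rw [pow_one]; exact S36CZ_red₃ M q hq hqM A hA _) n hn
    (fun g hg hgB => S36FG_hint_C M q hq hqM A hA ζ hζ hζ1 n hn g hg hgB)

/-- **`S36LJ_Red` on the concrete chart `C' = S36CZ_C' c`** (`U' = {B ≠ c}`). -/
theorem S36FZ_red_C' :
    S36LJ_Red (S₁ := S36FI_SFF M q hq hqM A hA) (S₂ := S36FI_SFV M q hq hqM A hA ζ hζ hζ1)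
      (S₃ := S36FI_SVV M q hq hqM A hA) (S36CZ_C' M q hq hqM A hA c n hn) := by
  have hS := S36FI_same3 M q hq hqM A hA ζ hζ hζ1
  have hj := S36CZ_hjO M q hq hqM A hA ζ hζ hζ1
  have hc₂ : ((c : ↥(S36FI_act (M * q * q) (A.inertiaSubgroupIn ℚ)).fixK)) ∈
      (S36FI_SFV M q hq hqM A hA ζ hζ hζ1).A := c.2
  have hc₃ : ((c : ↥(S36FI_act (M * q * q) (A.inertiaSubgroupIn ℚ)).fixK)) ∈
      (S36FI_SVV M q hq hqM A hA).A := c.2
  refine S36FZ_red_U' (S36FI_act (M * q * q) (A.inertiaSubgroupIn ℚ)) hS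
    (S36CO_BL M q (A.inertiaSubgroupIn ℚ))
    (c : ↥(S36FI_act (M * q * q) (A.inertiaSubgroupIn ℚ)).fixK)
    ((S36CO_BL M q (A.inertiaSubgroupIn ℚ) -
        algebraMap (S36FI_SFF M q hq hqM A hA).A
          ↥(S36FI_act (M * q * q) (A.inertiaSubgroupIn ℚ)).fixF c)⁻¹)
    (S36CZ_hsO M q hq hqM A hA ζ hζ hζ1 c)
    (S36CZ_zb M q hq hqM A hA c) (S36CZ_zb M q hq hqM A hA c) (S36CZ_zb M q hq hqM A hA c)
    (e := 1) one_pos ?_ ?_ ?_ n hn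
    (fun g hg hgB => S36FZ_hint_C' M q hq hqM A hA ζ hζ hζ1 c n hn g hg hgB)
  · rw [pow_one]
    exact S36CO_red_inv (S36FI_SFF M q hq hqM A hA) hj.1 c
      (S36CO_ne_const_of_transc (S36CZ_xb_transc M q hq hqM A hA) _)
  · rw [pow_one]
    have h := S36CO_red_inv (S36FI_SFV M q hq hqM A hA ζ hζ hζ1) hj.2.1 ⟨_, hc₂⟩
      (by
        rw [S36CZ_red₂]
        exact S36CO_ne_const_of_transc (S36CZ_xb_transc M q hq hqM A hA) _)
    refine h.trans ?_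
    rw [S36CZ_red₂, ← hS.same₂.res_eq _ c.2 hc₂]
    rfl
  · rw [pow_one]
    have h := S36CO_red_inv (S36FI_SVV M q hq hqM A hA) hj.2.2 ⟨_, hc₃⟩
      (by
        rw [S36CZ_red₃]
        exact S36CO_ne_const_of_transc (S36CZ_xb_transc M q hq hqM A hA) _)
    refine h.trans ?_
    rw [S36CZ_red₃, ← hS.same₃.res_eq _ c.2 hc₃]
    rfl

end Fermat.Agent.S36
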