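import Fermat.Agent.S36.Fin3Z
import Fermat.Agent.S36.Fin3GlueInst

/-!
# TRACK 10 (S36), package F1 = FIN-INST (helper7), part 8: FIN on the concrete lattice of the
chart `U' = {B ≠ c}`

Level `N₂ = M q²`, `S = S36FI_act N₂ I`, `L = S.fixK`, `F_L = S.fixF`, `O_L = S36FL_AL S A`,
`B = S36CO_BL` (`= j(qz)`), `c ∈ O_L`, `s = 1/(B − c)` (`S36FZ_s`), `U' = S34IX_TU' B c`,
`Λ_{U'} = (S36IT_fam3 … U').Λ` (`S36FZ_Λ'`).

* `S36FZ_G_inv_sub` : `1/(f − c)` lies in the Gauss ring if the reduction of `f` is transcendental;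
* `S36FZ_s_mem_Λ'` : `s ∈ Λ_{U'}`;   `S36FZ_hreg'` : elements of `Λ_{U'}` are regular on `U'`;
* **`S36FZ_fam3'`** : `Λ_{U'}` is integral over `O_L[s]` and NOETHERIAN (only input: `hfrac`).
-/

set_option autoImplicit false
set_option linter.style.haveILetI false
set_option linter.unusedSectionVars false
set_option linter.unusedVariables false
set_option synthInstance.maxHeartbeats 400000
set_option maxHeartbeats 1000000

open AlgebraicCurve ModularCurve IntermediateField Module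

noncomputable section

namespace Fermat.Agent.S36

open Fermat.Agent.S18 Fermat.Agent.S24 Fermat.Agent.S34 Fermat.Agent.GalRep

section gauss

variable {L : Type*} [Field L] [Algebra ℚ L] (A : ValuationSubring L)
variable {F : Type*} [Field F] (φ : F →+* LaurentSeries L)
variable [Algebra L F] (hφ : ∀ c : L, φ (algebraMap L F c) = algebraMap L (LaurentSeries L) c)

include hφ in
/-- `1/(f − c)` lies in the Gauss ring if the reduction of `f` is transcendental. -/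
theorem S36FZ_G_inv_sub {f : F} (hf : f ∈ S36V_G A φ)
    (ht : Transcendental (IsLocalRing.ResidueField A) (S36V_Gred A φ ⟨f, hf⟩)) (c : A) :
    (f - algebraMap L F (c : L))⁻¹ ∈ S36V_G A φ := by
  have hc : algebraMap L F (c : L) ∈ S36V_G A φ := S36V_G_const A φ c (hφ c)
  have hsub : f - algebraMap L F (c : L) ∈ S36V_G A φ := Subring.sub_mem _ hf hc
  refine S36V_G_inv_mem A φ hsub ?_
  have e : (⟨f - algebraMap L F (c : L), hsub⟩ : S36V_G A φ) =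
      ⟨f, hf⟩ - ⟨algebraMap L F (c : L), hc⟩ := rfl
  rw [e, map_sub, S36V_Gred_const A φ c (hφ c) hc]
  exact sub_ne_zero.2 (S36CO_ne_const_of_transc ht _)

end gauss

local notation "Ω" => AlgebraicClosure ℚ

variable (M q : ℕ) [NeZero M] [NeZero q] (hq : q.Prime) (hqM : ¬ q ∣ M)
  (A : ValuationSubring Ω) (hA : A.LiesOverPrime q)
  (ζ : Ωˣ) (hζ : ζ ^ q = 1) (hζ1 : ζ ≠ 1)

/-- the coordinate `s = 1/(B − c)` of the chart `U'`. -/
def S36FZ_s (c : S36FL_AL (S36FI_act (M * q * q) (A.inertiaSubgroupIn ℚ)) A) :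
    (S36FI_act (M * q * q) (A.inertiaSubgroupIn ℚ)).fixF :=
  (S36CO_BL M q (A.inertiaSubgroupIn ℚ) -
    algebraMap (S36FL_AL (S36FI_act (M * q * q) (A.inertiaSubgroupIn ℚ)) A)
      ↥(S36FI_act (M * q * q) (A.inertiaSubgroupIn ℚ)).fixF c)⁻¹

theorem S36FZ_s_coe (c : S36FL_AL (S36FI_act (M * q * q) (A.inertiaSubgroupIn ℚ)) A) :
    ((S36FZ_s M q A c : (S36FI_act (M * q * q) (A.inertiaSubgroupIn ℚ)).fixF) :
      ↥(modularFunctionFieldBar (M * q * q))) =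
      (heckeBetaBar Ω (M * q) q (jB (M * q)) -
        algebraMap Ω ↥(modularFunctionFieldBar (M * q * q))
          ((c : ↥(S36FI_act (M * q * q) (A.inertiaSubgroupIn ℚ)).fixK) : Ω))⁻¹ := by
  rw [← S36FG_BL_coe_beta M q (A.inertiaSubgroupIn ℚ)]
  rfl

theorem S36FZ_s_coe' (c : S36FL_AL (S36FI_act (M * q * q) (A.inertiaSubgroupIn ℚ)) A) :
    ((S36FZ_s M q A c : (S36FI_act (M * q * q) (A.inertiaSubgroupIn ℚ)).fixF) :
      ↥(modularFunctionFieldBar (M * q * q))) =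
      (jBar (M * q * q) q (S36CO_q_dvd M q) -
        algebraMap Ω ↥(modularFunctionFieldBar (M * q * q))
          ((c : ↥(S36FI_act (M * q * q) (A.inertiaSubgroupIn ℚ)).fixK) : Ω))⁻¹ := rfl

section fam

variable
    (dvr : ∀ i, IsDiscreteValuationRing
      (S36FL_OL (S36FI_act (M * q * q) (A.inertiaSubgroupIn ℚ))
        (S36IT_Ov3 M q hq hqM A hA ζ hζ hζ1 i)))
    (c : S36FL_AL (S36FI_act (M * q * q) (A.inertiaSubgroupIn ℚ)) A)

/-- the lattice `Λ_{U'}` of the chart `U' = {B ≠ c}`. -/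
abbrev S36FZ_Λ' : Subring ↥(S36FI_act (M * q * q) (A.inertiaSubgroupIn ℚ)).fixF :=
  (S36IT_fam3 M q hq hqM A hA ζ hζ hζ1 dvr
    (S34IX_TU' ((S36CO_BL M q (A.inertiaSubgroupIn ℚ) :
      (S36FI_act (M * q * q) (A.inertiaSubgroupIn ℚ)).fixF) :
        ↥(modularFunctionFieldBar (M * q * q)))
      ((c : ↥(S36FI_act (M * q * q) (A.inertiaSubgroupIn ℚ)).fixK) : Ω))).Λ

/-- `s ∈ Λ_{U'}`. -/
theorem S36FZ_s_mem_Λ' :
    S36FZ_s M q A c ∈ S36FZ_Λ' M q hq hqM A hA ζ hζ hζ1 dvr c := by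
  rw [S36IT_fam3_mem_Λ_G]
  have hcA : ((c : ↥(S36FI_act (M * q * q) (A.inertiaSubgroupIn ℚ)).fixK) : Ω) ∈ A := c.2
  refine ⟨?_, ?_, ?_, fun Q hQ => ?_⟩
  · rw [S36FZ_s_coe']
    refine S36FZ_G_inv_sub A (S36V_emFF M q) (S36V_emFF_const M q)
      (S36CO_B_mem_FF M q A (S36CO_q_dvd M q)) ?_ ⟨_, hcA⟩
    rw [S36CO_B_red_FF M q A (S36CO_q_dvd M q)]
    exact S36CO_jqN_transc _ q
  · rw [S36FZ_s_coe']
    refine S36FZ_G_inv_sub A (S36V_emFV M q hq hqM ζ hζ hζ1)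
      (S36V_emFV_const M q hq hqM ζ hζ hζ1)
      (S36CO_B_mem_FV M q hq hqM A ζ hζ hζ1 (S36CO_q_dvd M q)) ?_ ⟨_, hcA⟩
    rw [S36CO_B_red_FV M q hq hqM A ζ hζ hζ1 (S36CO_q_dvd M q)]
    exact S36CO_jqN_transc _ q
  · rw [S36FZ_s_coe']
    refine S36FZ_G_inv_sub A (S36V_emVV M q hq hqM) (S36V_emVV_const M q hq hqM)
      (S36CO_B_mem_VV M q hq hqM A (S36CO_q_dvd M q)) ?_ ⟨_, hcA⟩
    rw [S36CO_B_red_VV M q hq hqM A (S36CO_q_dvd M q)]
    exact S36CO_jqN_transc _ q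
  · rw [S36IT_place_mem_iff, Place.adicValuation_le_one_iff]
    right
    rw [S36FZ_s_coe', Place.ord_inv]
    have : Q.ord (jBar (M * q * q) q (S36CO_q_dvd M q) -
        algebraMap Ω ↥(modularFunctionFieldBar (M * q * q))
          ((c : ↥(S36FI_act (M * q * q) (A.inertiaSubgroupIn ℚ)).fixK) : Ω)) ≤ 0 := hQ
    omega

/-- elements of `Λ_{U'}` are regular on `U'`. -/
theorem S36FZ_hreg' (g : ↥(S36FI_act (M * q * q) (A.inertiaSubgroupIn ℚ)).fixF)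
    (hg : g ∈ S36FZ_Λ' M q hq hqM A hA ζ hζ hζ1 dvr c)
    (P : Place Ω ↥(modularFunctionFieldBar (M * q * q)))
    (hP : P.ord (heckeBetaBar Ω (M * q) q (jB (M * q)) -
        algebraMap Ω ↥(modularFunctionFieldBar (M * q * q))
          ((c : ↥(S36FI_act (M * q * q) (A.inertiaSubgroupIn ℚ)).fixK) : Ω)) ≤ 0) :
    0 ≤ P.ord (g : ↥(modularFunctionFieldBar (M * q * q))) := by
  rw [← S36FG_BL_coe_beta M q (A.inertiaSubgroupIn ℚ)] at hP
  have h := ((S36IT_fam3_mem_Λ M q hq hqM A hA ζ hζ hζ1 dvr _ g).1 hg).2.2.2 P hP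
  rw [S36IT_place_mem_iff, Place.adicValuation_le_one_iff] at h
  rcases h with h | h
  · rw [h, Place.ord_zero]
  · exact h


theorem S36FZ_hxt' :
    Transcendental Ω ((S36FZ_s M q A c : (S36FI_act (M * q * q) (A.inertiaSubgroupIn ℚ)).fixF) :
      ↥(modularFunctionFieldBar (M * q * q))) := by
  rw [S36FZ_s_coe]
  exact S36FZ_transc (S36FD_transc_B M q) _

include hq in
theorem S36FZ_hfd' :
    FiniteDimensional
      Ω⟮((S36FZ_s M q A c : (S36FI_act (M * q * q) (A.inertiaSubgroupIn ℚ)).fixF) :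
        ↥(modularFunctionFieldBar (M * q * q)))⟯
      ↥(modularFunctionFieldBar (M * q * q)) := by
  rw [S36FZ_s_coe]
  haveI := S36FD_fd_B M q hq
  exact S36FZ_fd _ _

include hq hA in
theorem S36FZ_hbas'
    (hfrac : ∀ f : ↥(S36FI_act (M * q * q) (A.inertiaSubgroupIn ℚ)).fixF,
      ∃ b ∈ S36FZ_Λ' M q hq hqM A hA ζ hζ hζ1 dvr c, b ≠ 0 ∧
        b * f ∈ S36FZ_Λ' M q hq hqM A hA ζ hζ hζ1 dvr c) :
    ∃ (n : ℕ) (b : Basis (Fin n)
      ((S36FI_act (M * q * q) (A.inertiaSubgroupIn ℚ)).fixK)⟮S36FZ_s M q A c⟯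
      (S36FI_act (M * q * q) (A.inertiaSubgroupIn ℚ)).fixF),
      ∀ i, b i ∈ S36FZ_Λ' M q hq hqM A hA ζ hζ hζ1 dvr c := by
  haveI := S36FG_isDVR_OL M q hq A hA
  haveI := S36FZ_hfd' M q hq A c
  haveI := S36FX_finite (S36FI_act (M * q * q) (A.inertiaSubgroupIn ℚ)) (S36FZ_s M q A c)
    (S36FZ_hxt' M q A c)
  haveI : CharZero (S36FI_act (M * q * q) (A.inertiaSubgroupIn ℚ)).fixK :=
    S36FX_charZero (S36FI_act (M * q * q) (A.inertiaSubgroupIn ℚ))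
  haveI : CharZero ((S36FI_act (M * q * q) (A.inertiaSubgroupIn ℚ)).fixK)⟮S36FZ_s M q A c⟯ :=
    charZero_of_injective_algebraMap (algebraMap (S36FI_act (M * q * q) (A.inertiaSubgroupIn ℚ)).fixK
      ((S36FI_act (M * q * q) (A.inertiaSubgroupIn ℚ)).fixK)⟮S36FZ_s M q A c⟯).injective
  exact S36FS_hbas (R := S36FL_AL (S36FI_act (M * q * q) (A.inertiaSubgroupIn ℚ)) A)
    (L := (S36FI_act (M * q * q) (A.inertiaSubgroupIn ℚ)).fixK) (S36FZ_s M q A c)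
    (S36FZ_Λ' M q hq hqM A hA ζ hζ hζ1 dvr c)
    (S36FG_const_mem_Λ M q hq hqM A hA ζ hζ hζ1 dvr _)
    (S36FZ_s_mem_Λ' M q hq hqM A hA ζ hζ hζ1 dvr c) hfrac

include hq hA in
/-- **FIN on the concrete lattice of the chart `U'`**: `Λ_{U'}` is integral over `O_L[s]`,
`s = 1/(B − c)`, and Noetherian. -/
theorem S36FZ_fam3'
    (hfrac : ∀ f : ↥(S36FI_act (M * q * q) (A.inertiaSubgroupIn ℚ)).fixF,
      ∃ b ∈ S36FZ_Λ' M q hq hqM A hA ζ hζ hζ1 dvr c, b ≠ 0 ∧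
        b * f ∈ S36FZ_Λ' M q hq hqM A hA ζ hζ hζ1 dvr c) :
    (∀ g ∈ S36FZ_Λ' M q hq hqM A hA ζ hζ hζ1 dvr c,
      IsIntegral (Algebra.adjoin
        (S36FL_AL (S36FI_act (M * q * q) (A.inertiaSubgroupIn ℚ)) A)
        {S36FZ_s M q A c}) g) ∧
      IsNoetherianRing (S36FZ_Λ' M q hq hqM A hA ζ hζ hζ1 dvr c) := by
  haveI := S36FG_isDVR_OL M q hq A hA
  haveI := S36FG_noeth_OL M q hq A hA
  haveI := S36FZ_hfd' M q hq A c
  refine S36FZ_main M q hq hqM A hA ζ hζ hζ1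
    (R := S36FL_AL (S36FI_act (M * q * q) (A.inertiaSubgroupIn ℚ)) A)
    (S36FG_hR (S36FI_act (M * q * q) (A.inertiaSubgroupIn ℚ)) A)
    ⟨_, c.2⟩ (S36FZ_s M q A c) (S36FZ_s_coe M q A c)
    (fun f => S36FH_hgen (M * q * q) (A.inertiaSubgroupIn ℚ) _ f)
    (S36FZ_Λ' M q hq hqM A hA ζ hζ hζ1 dvr c)
    (S36FG_const_mem_Λ M q hq hqM A hA ζ hζ hζ1 dvr _)
    (S36FZ_s_mem_Λ' M q hq hqM A hA ζ hζ hζ1 dvr c)
    (S36FZ_hbas' M q hq hqM A hA ζ hζ hζ1 dvr c hfrac) ?_ ?_ ?_ ?_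
  · intro g hg
    exact ((S36IT_fam3_mem_Λ_G M q hq hqM A hA ζ hζ hζ1 dvr _ g).1 hg).1
  · intro g hg
    exact ((S36IT_fam3_mem_Λ_G M q hq hqM A hA ζ hζ hζ1 dvr _ g).1 hg).2.1
  · intro g hg
    exact ((S36IT_fam3_mem_Λ_G M q hq hqM A hA ζ hζ hζ1 dvr _ g).1 hg).2.2.1
  · intro g hg P hP
    exact S36FZ_hreg' M q hq hqM A hA ζ hζ hζ1 dvr c g hg P hP

end fam

end Fermat.Agent.S36
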