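import Fermat.Agent.S36.FixLVal
import Fermat.Agent.S36.FixLInst
import Fermat.Agent.S36.Val3VS
import Fermat.Agent.S36.Comp3Types
import Fermat.Agent.S36.Comp3VS
import Fermat.Agent.S34.Pole

/-!
# TRACK 10 (S36), package FIX-L-INST (helper1), part 4: assembly of valuation data over the
inertia field — prefix `S36FI_`

* `S36FI_valX` : the cross-level version of `S36FL_val` (helper22): the valuation datum
  `S18_Val S'.fixK S.fixF k Fk` for two semilinear actions `S'`, `S` with the same constants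
  (`S'.fixK` is the base field; `S.fixF` is an algebra over it by a given structure).  All data
  built with the same `S'`, `A`, `res` have the SAME `A` and `res` (`S36FI_valX_same`);
* `S36FI_gauss N' N H A φ hrep … : S18_Val L F_{N,L} k κ`, `L = (S36FI_act N' H).fixK`,
  `F_{N,L} = (S36FI_act N H).fixF`, `O = S36V_VS A φ hrep ∩ F_{N,L}`, `red = S36V_Gred A φ`
  (as a series); hypotheses = the residue lifts `hres`, and `hred_mem`, `hred_surj`
  (the reductions of the `H`-fixed elements are exactly `κ`);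
* `S36FI_gauss_mem_O`, `S36FI_gauss_red` : membership and reduction in terms of the Gauss ring;
* `S36FI_piq` : the constant `q` as a unit of `F_{N,L}`; `S36FI_gauss_dv` : discreteness in the
  form of COMP3 (`∀ f : (F_L)ˣ, ∃ m : ℤ, f * π^(-m) ∈ S36CV_UG S.O`) from the Gauss-unit form.
-/

set_option autoImplicit false
set_option linter.unusedSectionVars false
set_option linter.unusedVariables false
set_option linter.style.haveILetI false
set_option synthInstance.maxHeartbeats 400000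

open HahnSeries ModularCurve IntermediateField

namespace Fermat.Agent.S36

open Fermat.Agent.S18 Fermat.Agent.S24 Fermat.Agent.S34

/-! ### the cross-level restriction of a valuation datum -/

section cross

variable {K F F' H H' : Type*} [Field K] [Field F] [Algebra K F] [Field F'] [Algebra K F']
  {S' : S36FL_Act K F' H'} {S : S36FL_Act K F H}
  {k Fk R : Type*} [Field k] [Field Fk] [Algebra k Fk] [CommRing R]
  {A : ValuationSubring K} {res : A →+* k}
  {O : ValuationSubring F} {red : O →+* R} {incl : Fk →+* R}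

/-- **cross-level FIX-L (c)**: restriction of a valuation datum of `F / K` to the fixed field
`S.fixF`, over the base field `S'.fixK` (the fixed field of the constants, written with another
action `S'`). -/
noncomputable def S36FI_valX [Algebra ↥S'.fixK ↥S.fixF]
    (halg : ∀ c : ↥S'.fixK,
      ((algebraMap ↥S'.fixK ↥S.fixF c : ↥S.fixF) : F) = algebraMap K F (c : K))
    (hres : ∀ y : k, ∃ a : A, (a : K) ∈ S'.fixK ∧ res a = y)
    (hres0 : ∀ a : A, res a = 0 ↔ ¬ IsUnit a)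
    (hincl : Function.Injective incl)
    (hred_mem : ∀ x : O, (x : F) ∈ S.fixF → ∃ y : Fk, red x = incl y)
    (hred_surj : ∀ y : Fk, ∃ x : O, (x : F) ∈ S.fixF ∧ red x = incl y)
    (hred0 : ∀ x : O, red x ≠ 0 ↔ IsUnit x)
    (hmem : ∀ a : K, algebraMap K F a ∈ O ↔ a ∈ A)
    (hredalg : ∀ (a : K) (ha : a ∈ A) (haO : algebraMap K F a ∈ O),
      red ⟨algebraMap K F a, haO⟩ = incl (algebraMap k Fk (res ⟨a, ha⟩))) :
    S18_Val S'.fixK S.fixF k Fk where
  A := S36FL_AL S' A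
  res := res.comp (S36FL_ALincl S' A)
  res_surjective := by
    intro y
    obtain ⟨a, ha, hay⟩ := hres y
    exact ⟨⟨⟨(a : K), ha⟩, a.2⟩, hay⟩
  res_eq_zero_iff := by
    intro a
    rw [RingHom.comp_apply, hres0, S36FL_isUnit_AL]
  O := S36FL_OL S O
  red := S36FL_redL hincl hred_mem
  red_surjective := by
    intro y
    obtain ⟨x, hx, hxy⟩ := hred_surj y
    refine ⟨⟨⟨(x : F), hx⟩, x.2⟩, hincl ?_⟩
    rw [S36FL_incl_redL, ← hxy]
    rfl
  red_ne_zero_iff := by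
    intro x
    rw [S36FL_isUnit_OL, ← hred0, ← S36FL_incl_redL hincl hred_mem x]
    constructor
    · intro h h0
      apply h
      apply hincl
      rw [h0, map_zero]
    · intro h h0
      apply h
      rw [h0, map_zero]
  algebraMap_mem_iff := by
    intro a
    show ((algebraMap ↥S'.fixK ↥S.fixF a : ↥S.fixF) : F) ∈ O ↔ (a : K) ∈ A
    rw [halg]
    exact hmem (a : K)
  red_algebraMap := by
    intro a ha haO
    apply hincl
    rw [S36FL_incl_redL]
    have hO : algebraMap K F (a : K) ∈ O := (hmem (a : K)).2 ha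
    have e : S36FL_OLincl S O ⟨algebraMap ↥S'.fixK ↥S.fixF a, haO⟩ =
        ⟨algebraMap K F (a : K), hO⟩ := Subtype.ext (halg a)
    rw [e]
    exact hredalg (a : K) ha hO

section lemmas

variable [Algebra ↥S'.fixK ↥S.fixF]
  (halg : ∀ c : ↥S'.fixK,
    ((algebraMap ↥S'.fixK ↥S.fixF c : ↥S.fixF) : F) = algebraMap K F (c : K))
  (hres : ∀ y : k, ∃ a : A, (a : K) ∈ S'.fixK ∧ res a = y)
  (hres0 : ∀ a : A, res a = 0 ↔ ¬ IsUnit a)
  (hincl : Function.Injective incl)
  (hred_mem : ∀ x : O, (x : F) ∈ S.fixF → ∃ y : Fk, red x = incl y)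
  (hred_surj : ∀ y : Fk, ∃ x : O, (x : F) ∈ S.fixF ∧ red x = incl y)
  (hred0 : ∀ x : O, red x ≠ 0 ↔ IsUnit x)
  (hmem : ∀ a : K, algebraMap K F a ∈ O ↔ a ∈ A)
  (hredalg : ∀ (a : K) (ha : a ∈ A) (haO : algebraMap K F a ∈ O),
    red ⟨algebraMap K F a, haO⟩ = incl (algebraMap k Fk (res ⟨a, ha⟩)))

theorem S36FI_valX_A :
    (S36FI_valX halg hres hres0 hincl hred_mem hred_surj hred0 hmem hredalg).A =
      S36FL_AL S' A := rfl

theorem S36FI_valX_res (a : S36FL_AL S' A) :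
    (S36FI_valX halg hres hres0 hincl hred_mem hred_surj hred0 hmem hredalg).res a =
      res (S36FL_ALincl S' A a) := rfl

theorem S36FI_valX_O :
    (S36FI_valX halg hres hres0 hincl hred_mem hred_surj hred0 hmem hredalg).O =
      S36FL_OL S O := rfl

theorem S36FI_valX_mem_O {f : ↥S.fixF} :
    f ∈ (S36FI_valX halg hres hres0 hincl hred_mem hred_surj hred0 hmem hredalg).O ↔
      (f : F) ∈ O := Iff.rfl

theorem S36FI_valX_red (f : ↥S.fixF)
    (hf : f ∈ (S36FI_valX halg hres hres0 hincl hred_mem hred_surj hred0 hmem hredalg).O) :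
    incl ((S36FI_valX halg hres hres0 hincl hred_mem hred_surj hred0 hmem hredalg).red ⟨f, hf⟩) =
      red ⟨(f : F), hf⟩ :=
  S36FL_incl_redL hincl hred_mem ⟨f, hf⟩

end lemmas

/-- two cross-level data with the same base `S'`, `A`, `res` have the same `A` and `res`
(abstract form: cheap for the kernel). -/
theorem S36FI_valX_same {Fk₁ R₁ : Type*} [Field Fk₁] [Algebra k Fk₁] [CommRing R₁]
    {O₁ : ValuationSubring F} {red₁ : O₁ →+* R₁} {incl₁ : Fk₁ →+* R₁}
    [Algebra ↥S'.fixK ↥S.fixF]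
    (halg : ∀ c : ↥S'.fixK,
      ((algebraMap ↥S'.fixK ↥S.fixF c : ↥S.fixF) : F) = algebraMap K F (c : K))
    (hres : ∀ y : k, ∃ a : A, (a : K) ∈ S'.fixK ∧ res a = y)
    (hres0 : ∀ a : A, res a = 0 ↔ ¬ IsUnit a)
    (hincl : Function.Injective incl)
    (hred_mem : ∀ x : O, (x : F) ∈ S.fixF → ∃ y : Fk, red x = incl y)
    (hred_surj : ∀ y : Fk, ∃ x : O, (x : F) ∈ S.fixF ∧ red x = incl y)
    (hred0 : ∀ x : O, red x ≠ 0 ↔ IsUnit x)
    (hmem : ∀ a : K, algebraMap K F a ∈ O ↔ a ∈ A)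
    (hredalg : ∀ (a : K) (ha : a ∈ A) (haO : algebraMap K F a ∈ O),
      red ⟨algebraMap K F a, haO⟩ = incl (algebraMap k Fk (res ⟨a, ha⟩)))
    (hincl₁ : Function.Injective incl₁)
    (hred_mem₁ : ∀ x : O₁, (x : F) ∈ S.fixF → ∃ y : Fk₁, red₁ x = incl₁ y)
    (hred_surj₁ : ∀ y : Fk₁, ∃ x : O₁, (x : F) ∈ S.fixF ∧ red₁ x = incl₁ y)
    (hred0₁ : ∀ x : O₁, red₁ x ≠ 0 ↔ IsUnit x)
    (hmem₁ : ∀ a : K, algebraMap K F a ∈ O₁ ↔ a ∈ A)
    (hredalg₁ : ∀ (a : K) (ha : a ∈ A) (haO : algebraMap K F a ∈ O₁),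
      red₁ ⟨algebraMap K F a, haO⟩ = incl₁ (algebraMap k Fk₁ (res ⟨a, ha⟩))) :
    S34P_Same (S36FI_valX halg hres hres0 hincl hred_mem hred_surj hred0 hmem hredalg)
      (S36FI_valX halg hres hres0 hincl₁ hred_mem₁ hred_surj₁ hred0₁ hmem₁ hredalg₁) :=
  ⟨rfl, fun _ _ _ => rfl⟩

end cross

/-- two data over the same base built with the same `A` and `res` are `Same`. -/
theorem S36FI_same {L F k Fk₁ Fk₂ : Type*} [Field L] [Field F] [Algebra L F] [Field k]
    [Field Fk₁] [Field Fk₂] [Algebra k Fk₁] [Algebra k Fk₂]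
    (S₁ : S18_Val L F k Fk₁) (S₂ : S18_Val L F k Fk₂) (hA : S₁.A = S₂.A)
    (hres : ∀ (a : L) (h₁ : a ∈ S₁.A) (h₂ : a ∈ S₂.A), S₁.res ⟨a, h₁⟩ = S₂.res ⟨a, h₂⟩) :
    S34P_Same S₁ S₂ :=
  ⟨hA, hres⟩

/-! ### Gauss data over the fixed field -/

section gauss

local notation "Ω" => AlgebraicClosure ℚ

variable (N' N : ℕ) (H : Subgroup (Ω ≃ₐ[ℚ] Ω)) (A : ValuationSubring Ω)
  (φ : ↥(modularFunctionFieldBar N) →+* LaurentSeries Ω) (hrep : S36V_Rep A φ)
  (hφ : ∀ c : Ω, φ (algebraMap Ω ↥(modularFunctionFieldBar N) c) =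
    algebraMap Ω (LaurentSeries Ω) c)
  (κ : IntermediateField (IsLocalRing.ResidueField A) (LaurentSeries (IsLocalRing.ResidueField A)))
  (hH : ∀ y : IsLocalRing.ResidueField A, ∃ a : A, (∀ σ ∈ H, σ (a : Ω) = a) ∧
    IsLocalRing.residue A a = y)
  (hmemκ : ∀ (f : ↥(modularFunctionFieldBar N)) (hf : f ∈ S36V_G A φ),
    f ∈ (S36FI_act N H).fixF → S36V_Gred A φ ⟨f, hf⟩ ∈ κ)
  (hsurjκ : ∀ y ∈ κ, ∃ x : ↥(modularFunctionFieldBar N), x ∈ (S36FI_act N H).fixF ∧
    ∃ hx : x ∈ S36V_G A φ, S36V_Gred A φ ⟨x, hx⟩ = y)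

/-- **the Gauss datum along `φ` over the fixed field**: `L = (S36FI_act N' H).fixK` (the base
field written at level `N'`), `F_L = (S36FI_act N H).fixF`, residue field `κ ⊂ k((t))`. -/
noncomputable def S36FI_gauss :
    @S18_Val ↥(S36FI_act N' H).fixK ↥(S36FI_act N H).fixF (IsLocalRing.ResidueField A) ↥κ
      _ _ (S36CT_alg N' N H) _ _ _ :=
  letI := S36CT_alg N' N H
  S36FI_valX (S' := S36FI_act N' H) (S := S36FI_act N H) (A := A)
    (res := IsLocalRing.residue A) (O := S36V_VS A φ hrep) (red := S36V_VSred A φ hrep)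
    (incl := κ.val.toRingHom)
    (S36CT_algebraMap_coe N' N H)
    (fun y => by
      obtain ⟨a, ha, hay⟩ := hH y
      exact ⟨a, (S36FI_mem_fixK N' H).mpr ha, hay⟩)
    (fun a => by
      rw [IsLocalRing.residue_eq_zero_iff, IsLocalRing.mem_maximalIdeal, mem_nonunits_iff])
    (fun x y h => Subtype.ext h)
    (fun x hx => ⟨⟨_, hmemκ x.1 x.2 hx⟩, rfl⟩)
    (fun y => by
      obtain ⟨x, hxf, hx, hxy⟩ := hsurjκ y.1 y.2
      exact ⟨⟨x, hx⟩, hxf, hxy⟩)
    (S36V_VSred_ne_zero_iff A φ hrep)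
    (S36V_VS_algebraMap_mem_iff A φ hφ hrep)
    (fun a ha haO => S36V_VSred_algebraMap A φ hφ hrep a ha haO)

theorem S36FI_gauss_A :
    letI := S36CT_alg N' N H
    (S36FI_gauss N' N H A φ hrep hφ κ hH hmemκ hsurjκ).A = S36FL_AL (S36FI_act N' H) A := rfl

theorem S36FI_gauss_res (a : S36FL_AL (S36FI_act N' H) A) :
    letI := S36CT_alg N' N H
    (S36FI_gauss N' N H A φ hrep hφ κ hH hmemκ hsurjκ).res a =
      IsLocalRing.residue A (S36FL_ALincl (S36FI_act N' H) A a) := rfl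

theorem S36FI_gauss_O :
    letI := S36CT_alg N' N H
    (S36FI_gauss N' N H A φ hrep hφ κ hH hmemκ hsurjκ).O =
      S36FL_OL (S36FI_act N H) (S36V_VS A φ hrep) := rfl

theorem S36FI_gauss_mem_O {f : ↥(S36FI_act N H).fixF} :
    letI := S36CT_alg N' N H
    f ∈ (S36FI_gauss N' N H A φ hrep hφ κ hH hmemκ hsurjκ).O ↔
      (f : ↥(modularFunctionFieldBar N)) ∈ S36V_G A φ := Iff.rfl

/-- the reduction of the Gauss datum over the fixed field is the Gauss reduction (as a series). -/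
theorem S36FI_gauss_red (f : ↥(S36FI_act N H).fixF)
    (hf : letI := S36CT_alg N' N H
      f ∈ (S36FI_gauss N' N H A φ hrep hφ κ hH hmemκ hsurjκ).O) :
    letI := S36CT_alg N' N H
    (((S36FI_gauss N' N H A φ hrep hφ κ hH hmemκ hsurjκ).red ⟨f, hf⟩ : ↥κ) :
      LaurentSeries (IsLocalRing.ResidueField A)) =
      S36V_Gred A φ ⟨(f : ↥(modularFunctionFieldBar N)), hf⟩ :=
  S36FL_incl_redL (S := S36FI_act N H) (O := S36V_VS A φ hrep) (red := S36V_VSred A φ hrep)
    (incl := κ.val.toRingHom) (fun x y h => Subtype.ext h)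
    (fun x hx => ⟨⟨_, hmemκ x.1 x.2 hx⟩, rfl⟩) ⟨f, hf⟩

/-- two Gauss data over the same base field (same level, any embeddings and residue fields) have
the same `A` and `res`. -/
theorem S36FI_gauss_same
    (φ₁ : ↥(modularFunctionFieldBar N) →+* LaurentSeries Ω) (hrep₁ : S36V_Rep A φ₁)
    (hφ₁ : ∀ c : Ω, φ₁ (algebraMap Ω ↥(modularFunctionFieldBar N) c) =
      algebraMap Ω (LaurentSeries Ω) c)
    (κ₁ : IntermediateField (IsLocalRing.ResidueField A)
      (LaurentSeries (IsLocalRing.ResidueField A)))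
    (hmemκ₁ : ∀ (f : ↥(modularFunctionFieldBar N)) (hf : f ∈ S36V_G A φ₁),
      f ∈ (S36FI_act N H).fixF → S36V_Gred A φ₁ ⟨f, hf⟩ ∈ κ₁)
    (hsurjκ₁ : ∀ y ∈ κ₁, ∃ x : ↥(modularFunctionFieldBar N), x ∈ (S36FI_act N H).fixF ∧
      ∃ hx : x ∈ S36V_G A φ₁, S36V_Gred A φ₁ ⟨x, hx⟩ = y) :
    letI := S36CT_alg N' N H
    S34P_Same (S36FI_gauss N' N H A φ hrep hφ κ hH hmemκ hsurjκ)
      (S36FI_gauss N' N H A φ₁ hrep₁ hφ₁ κ₁ hH hmemκ₁ hsurjκ₁) :=
  @S36FI_valX_same _ _ _ _ _ _ _ _ _ _ (S36FI_act N' H) (S36FI_act N H) _ _ _ _ _ _ _ A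
    (IsLocalRing.residue A) _ _ _ _ _ _ _ _ _ _ _ (S36CT_alg N' N H) _ _ _ _ _ _ _ _ _ _ _ _ _
    _ _

end gauss

end Fermat.Agent.S36
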