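import Fermat.Agent.S36.FixLFiveVal
import Fermat.Agent.S36.Comp3S18
import Fermat.Agent.S36.Comp3Tie

/-!
# TRACK 10 (S36), package FIX-L-INST (helper1), part 7: the five valuation data in the shape of
COMP3 (`S36CV_Val`) and their ties — prefix `S36FI_`

`D_X := S36CS_ofS18 S_X π_X … κ.val` for the five valuation data `S_X` of `S36/FixLFiveVal.lean`
(`π_X = q` for `X = FF, VV, F, V`; `π_FV = ϖ`), as `S36CV_Val F_L k((t))`, and the ties
`S36CG_Tie N I A (em X) π₀ D_X` (helper13's interface, `S36/Comp3Tie.lean`).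

* `S36FI_DFF`, `S36FI_DFV ζ`, `S36FI_DVV : S36CV_Val F₂,L k((t))`;
  `S36FI_DF`, `S36FI_DV : S36CV_Val F₁,L k((t))`;
* `S36FI_DX_O : D_X.O = S_X.O` (`rfl`), `S36FI_DX_ρ : D_X.ρ x = ↑(S_X.red x)` (`rfl`);
* `S36FI_tie_FF`, `_FV`, `_VV`, `_F`, `_V`.
-/

set_option autoImplicit false
set_option linter.unusedSectionVars false
set_option linter.unusedVariables false
set_option linter.style.haveILetI false
set_option synthInstance.maxHeartbeats 400000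
set_option maxHeartbeats 1000000

open HahnSeries ModularCurve IntermediateField

noncomputable section

namespace Fermat.Agent.S36

open Fermat.Agent.S18 Fermat.Agent.S24 Fermat.Agent.S34 Fermat.Agent.GalRep Fermat.Agent.S19

local notation "Ω" => AlgebraicClosure ℚ

variable (M q : ℕ) [NeZero M] [NeZero q] (hq : q.Prime) (hqM : ¬ q ∣ M)
  (A : ValuationSubring Ω) (hA : A.LiesOverPrime q)
  (ζ : Ωˣ) (hζ : ζ ^ q = 1) (hζ1 : ζ ≠ 1)

/-! ### the uniformisers are uniformisers -/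

section unif

variable (N : ℕ) (H : Subgroup (Ω ≃ₐ[ℚ] Ω))
  (φ : ↥(modularFunctionFieldBar N) →+* LaurentSeries Ω)
  (hφ : ∀ c : Ω, φ (algebraMap Ω ↥(modularFunctionFieldBar N) c) =
    algebraMap Ω (LaurentSeries Ω) c)
  (O : ValuationSubring ↥(S36FI_act N H).fixF)
  (hO : ∀ f : ↥(S36FI_act N H).fixF, f ∈ O ↔ (f : ↥(modularFunctionFieldBar N)) ∈ S36V_G A φ)

include hφ hO hA in
theorem S36FI_piq_mem :
    ((S36FI_piq N H q (NeZero.ne q) : (↥(S36FI_act N H).fixF)ˣ) : ↥(S36FI_act N H).fixF) ∈ O := by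
  rw [hO, S36FI_piq_coe]
  have hqA : ((q : ℕ) : Ω) ∈ A := A.nonunits_le hA
  exact S36V_G_const A φ ⟨_, hqA⟩ (hφ _)

include hφ hO hA in
theorem S36FI_piq_inv_not_mem :
    (((S36FI_piq N H q (NeZero.ne q))⁻¹ : (↥(S36FI_act N H).fixF)ˣ) :
      ↥(S36FI_act N H).fixF) ∉ O := by
  rw [hO, S36CG_Tie.coe_inv, S36FI_piq_coe, ← map_inv₀]
  intro h
  have h1 : (((q : ℕ) : Ω))⁻¹ ∈ A := S36V_const_mem A φ _ (hφ _) h
  have h2 : A.valuation ((q : ℕ) : Ω) < 1 := A.mem_nonunits_iff.mp hA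
  have h3 : A.valuation (((q : ℕ) : Ω))⁻¹ ≤ 1 := (A.valuation_le_one_iff _).mpr h1
  rw [map_inv₀] at h3
  have hq0 : A.valuation ((q : ℕ) : Ω) ≠ 0 := by
    rw [Ne, map_eq_zero]
    exact_mod_cast NeZero.ne q
  have h4 : 1 ≤ A.valuation ((q : ℕ) : Ω) := by
    have := (inv_le_one₀ (zero_lt_iff.mpr hq0)).mp h3
    exact this
  exact not_lt.mpr h4 h2

end unif

/-! ### the five data -/

/-- **`D_FF`.** -/
def S36FI_DFF : S36CV_Val ↥(S36FI_act (M * q * q) (A.inertiaSubgroupIn ℚ)).fixF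
    (LaurentSeries (IsLocalRing.ResidueField A)) :=
  S36CS_ofS18 (S36FI_SFF M q hq hqM A hA)
    (S36FI_piq (M * q * q) (A.inertiaSubgroupIn ℚ) q hq.ne_zero)
    (S36FI_piq_mem q A hA (M * q * q) _ (S36V_emFF M q) (S36V_emFF_const M q) _
      (fun _ => Iff.rfl))
    (S36FI_piq_inv_not_mem q A hA (M * q * q) _ (S36V_emFF M q) (S36V_emFF_const M q) _
      (fun _ => Iff.rfl))
    (S36FI_cvdv_FF M q hq A _ hA (fun _ => Iff.rfl))
    (S36FI_kappa M A).val.toRingHom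

/-- **`D_VV`.** -/
def S36FI_DVV : S36CV_Val ↥(S36FI_act (M * q * q) (A.inertiaSubgroupIn ℚ)).fixF
    (LaurentSeries (IsLocalRing.ResidueField A)) :=
  S36CS_ofS18 (S36FI_SVV M q hq hqM A hA)
    (S36FI_piq (M * q * q) (A.inertiaSubgroupIn ℚ) q hq.ne_zero)
    (S36FI_piq_mem q A hA (M * q * q) _ (S36V_emVV M q hq hqM) (S36V_emVV_const M q hq hqM) _
      (fun _ => Iff.rfl))
    (S36FI_piq_inv_not_mem q A hA (M * q * q) _ (S36V_emVV M q hq hqM)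
      (S36V_emVV_const M q hq hqM) _ (fun _ => Iff.rfl))
    (S36FI_cvdv_VV M q hq hqM A _ hA (fun _ => Iff.rfl))
    (S36FI_kappa M A).val.toRingHom

/-- **`D_FV`** (uniformiser `ϖ`). -/
def S36FI_DFV : S36CV_Val ↥(S36FI_act (M * q * q) (A.inertiaSubgroupIn ℚ)).fixF
    (LaurentSeries (IsLocalRing.ResidueField A)) :=
  S36CS_ofS18 (S36FI_SFV M q hq hqM A hA ζ hζ hζ1)
    (S36FI_piFV M q hq hqM A ζ hζ hζ1 hA)
    (S36VDV_isUnif_FV M q hq hqM A ζ hζ hζ1 (S36V_OFV M q hq hqM A hA ζ hζ hζ1) hA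
      (fun _ => Iff.rfl)).mem
    (by
      have h := (S36VDV_isUnif_FV M q hq hqM A ζ hζ hζ1 (S36V_OFV M q hq hqM A hA ζ hζ hζ1) hA
        (fun _ => Iff.rfl)).inv_not_mem
      rw [Units.val_inv_eq_inv_val]
      exact h)
    (S36FI_cvdv_FV M q hq hqM A ζ hζ hζ1 _ hA (fun _ => Iff.rfl))
    (S36FI_kappa M A).val.toRingHom

/-- **`D_F`** (level `M q`). -/
def S36FI_DF : S36CV_Val ↥(S36FI_act (M * q) (A.inertiaSubgroupIn ℚ)).fixF
    (LaurentSeries (IsLocalRing.ResidueField A)) :=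
  letI := S36CT_alg (M * q * q) (M * q) (A.inertiaSubgroupIn ℚ)
  S36CS_ofS18 (S36FI_SF M q hq hqM A hA)
    (S36FI_piq (M * q) (A.inertiaSubgroupIn ℚ) q hq.ne_zero)
    (S36FI_piq_mem q A hA (M * q) _ (S36V_emF M q) (S36V_emF_const M q) _
      (fun _ => Iff.rfl))
    (S36FI_piq_inv_not_mem q A hA (M * q) _ (S36V_emF M q) (S36V_emF_const M q) _
      (fun _ => Iff.rfl))
    (S36FI_cvdv_F M q hq A _ hA (fun _ => Iff.rfl))
    (S36FI_kappa M A).val.toRingHom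

/-- **`D_V`** (level `M q`). -/
def S36FI_DV : S36CV_Val ↥(S36FI_act (M * q) (A.inertiaSubgroupIn ℚ)).fixF
    (LaurentSeries (IsLocalRing.ResidueField A)) :=
  letI := S36CT_alg (M * q * q) (M * q) (A.inertiaSubgroupIn ℚ)
  S36CS_ofS18 (S36FI_SV M q hq hqM A hA)
    (S36FI_piq (M * q) (A.inertiaSubgroupIn ℚ) q hq.ne_zero)
    (S36FI_piq_mem q A hA (M * q) _ (S36V_emV M q hq hqM) (S36V_emV_const M q hq hqM) _
      (fun _ => Iff.rfl))
    (S36FI_piq_inv_not_mem q A hA (M * q) _ (S36V_emV M q hq hqM)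
      (S36V_emV_const M q hq hqM) _ (fun _ => Iff.rfl))
    (S36FI_cvdv_V M q hq hqM A _ hA (fun _ => Iff.rfl))
    (S36FI_kappa M A).val.toRingHom

/-! ### `O` and `ρ` -/

theorem S36FI_DFF_O : (S36FI_DFF M q hq hqM A hA).O = (S36FI_SFF M q hq hqM A hA).O := rfl

theorem S36FI_DFV_O : (S36FI_DFV M q hq hqM A hA ζ hζ hζ1).O =
    (S36FI_SFV M q hq hqM A hA ζ hζ hζ1).O := rfl

theorem S36FI_DVV_O : (S36FI_DVV M q hq hqM A hA).O = (S36FI_SVV M q hq hqM A hA).O := rfl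

theorem S36FI_DF_O :
    letI := S36CT_alg (M * q * q) (M * q) (A.inertiaSubgroupIn ℚ)
    (S36FI_DF M q hq hqM A hA).O = (S36FI_SF M q hq hqM A hA).O := rfl

theorem S36FI_DV_O :
    letI := S36CT_alg (M * q * q) (M * q) (A.inertiaSubgroupIn ℚ)
    (S36FI_DV M q hq hqM A hA).O = (S36FI_SV M q hq hqM A hA).O := rfl

theorem S36FI_DFF_ρ (x : ↥(S36FI_act (M * q * q) (A.inertiaSubgroupIn ℚ)).fixF)
    (h : x ∈ (S36FI_SFF M q hq hqM A hA).O) (h' : x ∈ (S36FI_DFF M q hq hqM A hA).O) :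
    (S36FI_DFF M q hq hqM A hA).ρ ⟨x, h'⟩ =
      (S36FI_kappa M A).val ((S36FI_SFF M q hq hqM A hA).red ⟨x, h⟩) := rfl

theorem S36FI_DFV_ρ (x : ↥(S36FI_act (M * q * q) (A.inertiaSubgroupIn ℚ)).fixF)
    (h : x ∈ (S36FI_SFV M q hq hqM A hA ζ hζ hζ1).O)
    (h' : x ∈ (S36FI_DFV M q hq hqM A hA ζ hζ hζ1).O) :
    (S36FI_DFV M q hq hqM A hA ζ hζ hζ1).ρ ⟨x, h'⟩ =
      (S36FI_kappa M A).val ((S36FI_SFV M q hq hqM A hA ζ hζ hζ1).red ⟨x, h⟩) := rfl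

theorem S36FI_DVV_ρ (x : ↥(S36FI_act (M * q * q) (A.inertiaSubgroupIn ℚ)).fixF)
    (h : x ∈ (S36FI_SVV M q hq hqM A hA).O) (h' : x ∈ (S36FI_DVV M q hq hqM A hA).O) :
    (S36FI_DVV M q hq hqM A hA).ρ ⟨x, h'⟩ =
      (S36FI_kappa M A).val ((S36FI_SVV M q hq hqM A hA).red ⟨x, h⟩) := rfl

/-! ### the ties -/

/-- **the tie of `D_FF`.** -/
theorem S36FI_tie_FF : S36CG_Tie (M * q * q) (A.inertiaSubgroupIn ℚ) A (S36V_emFF M q)
    (algebraMap Ω ↥(modularFunctionFieldBar (M * q * q)) ((q : ℕ) : Ω))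
    (S36FI_DFF M q hq hqM A hA) where
  mem _ := Iff.rfl
  red f hf hf' := S36FI_SFF_red M q hq hqM A hA f hf
  pi := S36FI_piq_coe (M * q * q) _ q hq.ne_zero

/-- **the tie of `D_VV`.** -/
theorem S36FI_tie_VV : S36CG_Tie (M * q * q) (A.inertiaSubgroupIn ℚ) A (S36V_emVV M q hq hqM)
    (algebraMap Ω ↥(modularFunctionFieldBar (M * q * q)) ((q : ℕ) : Ω))
    (S36FI_DVV M q hq hqM A hA) where
  mem _ := Iff.rfl
  red f hf hf' := S36FI_SVV_red M q hq hqM A hA f hf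
  pi := S36FI_piq_coe (M * q * q) _ q hq.ne_zero

/-- **the tie of `D_FV`.** -/
theorem S36FI_tie_FV : S36CG_Tie (M * q * q) (A.inertiaSubgroupIn ℚ) A
    (S36V_emFV M q hq hqM ζ hζ hζ1) (S36VDV_varpi M q)
    (S36FI_DFV M q hq hqM A hA ζ hζ hζ1) where
  mem _ := Iff.rfl
  red f hf hf' := S36FI_SFV_red M q hq hqM A hA ζ hζ hζ1 f hf
  pi := rfl

/-- **the tie of `D_F`.** -/
theorem S36FI_tie_F : S36CG_Tie (M * q) (A.inertiaSubgroupIn ℚ) A (S36V_emF M q)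
    (algebraMap Ω ↥(modularFunctionFieldBar (M * q)) ((q : ℕ) : Ω))
    (S36FI_DF M q hq hqM A hA) where
  mem _ := Iff.rfl
  red f hf hf' := S36FI_SF_red M q hq hqM A hA f hf
  pi := S36FI_piq_coe (M * q) _ q hq.ne_zero

/-- **the tie of `D_V`.** -/
theorem S36FI_tie_V : S36CG_Tie (M * q) (A.inertiaSubgroupIn ℚ) A (S36V_emV M q hq hqM)
    (algebraMap Ω ↥(modularFunctionFieldBar (M * q)) ((q : ℕ) : Ω))
    (S36FI_DV M q hq hqM A hA) where
  mem _ := Iff.rfl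
  red f hf hf' := S36FI_SV_red M q hq hqM A hA f hf
  pi := S36FI_piq_coe (M * q) _ q hq.ne_zero

end Fermat.Agent.S36
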