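import Fermat.Agent.S36.FixL

/-!
# TRACK 10 (S36), package FIX-L-INST (helper1), part 1: fixed fractions are fractions of fixed
elements — abstract, Mathlib + `S36/FixL.lean` only, prefix `S36FI_`

`S : S36FL_Act K F H` a semilinear action, `L = S.fixK`, `E ⊂ F` a set of `H`-fixed elements.

* `S36FI_frac` : if `f ∈ F` is `H`-fixed and `f * Q = P` with `P, Q ∈ K·E`, `Q ≠ 0`, then
  `f * Q' = P'` with `P' = Σ aᵢ eᵢ`, `Q' = Σ bᵢ eᵢ ≠ 0`, `aᵢ, bᵢ ∈ L`, `eᵢ ∈ E` linearly independent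
  over `K`.
-/

set_option autoImplicit false
set_option linter.style.haveILetI false

namespace Fermat.Agent.S36

section frac

variable {K F H : Type*} [Field K] [Field F] [Algebra K F] (S : S36FL_Act K F H)

/-- **fixed fractions are fractions of fixed elements.** -/
theorem S36FI_frac (E : Set F) (hE : ∀ e ∈ E, ∀ h, S.onF h e = e)
    (f : F) (hf : ∀ h, S.onF h f = f) (P Q : F)
    (hP : P ∈ Submodule.span K E) (hQ : Q ∈ Submodule.span K E) (hQ0 : Q ≠ 0)
    (hfQ : f * Q = P) :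
    ∃ (n : ℕ) (e : Fin n → F) (a b : Fin n → K), (∀ i, e i ∈ E) ∧ LinearIndependent K e ∧
      (∀ i, a i ∈ S.fixK) ∧ (∀ i, b i ∈ S.fixK) ∧ (∑ i, b i • e i) ≠ 0 ∧
      f * (∑ i, b i • e i) = ∑ i, a i • e i := by
  classical
  -- a finite linearly independent subset of `E` whose span contains `P` and `Q`
  obtain ⟨T₁, hT₁E, hPT⟩ := Submodule.mem_span_finite_of_mem_span hP
  obtain ⟨T₂, hT₂E, hQT⟩ := Submodule.mem_span_finite_of_mem_span hQ
  set T : Finset F := T₁ ∪ T₂ with hT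
  have hTE : (T : Set F) ⊆ E := by
    intro x hx
    rw [hT, Finset.coe_union] at hx
    rcases hx with hx | hx
    · exact hT₁E hx
    · exact hT₂E hx
  obtain ⟨B, hBT, hBspan, hBli⟩ := exists_linearIndependent K (T : Set F)
  have hBfin : B.Finite := T.finite_toSet.subset hBT
  haveI : Fintype ↥B := hBfin.fintype
  have hPB : P ∈ Submodule.span K B := by
    rw [hBspan]
    exact Submodule.span_mono (by rw [hT, Finset.coe_union]; exact Set.subset_union_left) hPT
  have hQB : Q ∈ Submodule.span K B := by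
    rw [hBspan]
    exact Submodule.span_mono (by rw [hT, Finset.coe_union]; exact Set.subset_union_right) hQT
  obtain ⟨a₀, ha₀⟩ := Submodule.mem_span_iff_of_fintype.mp hPB
  obtain ⟨b₀, hb₀⟩ := Submodule.mem_span_iff_of_fintype.mp hQB
  -- the relation
  let ev : ↥B ⊕ ↥B → F := Sum.elim (fun t => (t : F)) (fun t => f * (t : F))
  let c : ↥B ⊕ ↥B → K := Sum.elim a₀ (fun t => -b₀ t)
  have hev : ∀ i ∈ (Finset.univ : Finset (↥B ⊕ ↥B)), ∀ h, S.onF h (ev i) = ev i := by
    rintro (t | t) - h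
    · exact hE _ (hTE (hBT t.2)) h
    · show S.onF h (f * (t : F)) = f * (t : F)
      rw [map_mul, hf h, hE _ (hTE (hBT t.2)) h]
  have hrel : ∑ i ∈ (Finset.univ : Finset (↥B ⊕ ↥B)), c i • ev i = 0 := by
    rw [Fintype.sum_sum_type]
    simp only [c, ev, Sum.elim_inl, Sum.elim_inr]
    rw [ha₀]
    have : ∑ t : ↥B, (-b₀ t) • (f * (t : F)) = -(f * Q) := by
      rw [← hb₀, Finset.mul_sum, ← Finset.sum_neg_distrib]
      refine Finset.sum_congr rfl fun t _ => ?_
      rw [neg_smul, mul_smul_comm]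
    rw [this, hfQ, add_neg_cancel]
  have hne : ∃ i ∈ (Finset.univ : Finset (↥B ⊕ ↥B)), c i ≠ 0 := by
    by_contra hcon
    push Not at hcon
    apply hQ0
    rw [← hb₀]
    refine Finset.sum_eq_zero fun t _ => ?_
    have := hcon (Sum.inr t) (Finset.mem_univ _)
    simp only [c, Sum.elim_inr, neg_eq_zero] at this
    rw [this, zero_smul]
  obtain ⟨c', hc'fix, ⟨i₀, -, hi₀⟩, hrel'⟩ := S36FL_artin S Finset.univ ev hev c hrel hne
  rw [Fintype.sum_sum_type] at hrel'
  simp only [ev, Sum.elim_inl, Sum.elim_inr] at hrel'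
  -- `P' = f Q'`
  have hPQ' : f * (∑ t : ↥B, (-c' (Sum.inr t)) • (t : F)) = ∑ t : ↥B, c' (Sum.inl t) • (t : F) := by
    have h1 : ∑ t : ↥B, c' (Sum.inr t) • (f * (t : F)) =
        -(f * ∑ t : ↥B, (-c' (Sum.inr t)) • (t : F)) := by
      rw [Finset.mul_sum, ← Finset.sum_neg_distrib]
      refine Finset.sum_congr rfl fun t _ => ?_
      rw [neg_smul, mul_neg, neg_neg, mul_smul_comm]
    rw [h1] at hrel'
    exact (neg_add_eq_zero.mp (by rw [add_comm]; exact hrel'))
  have hli := Fintype.linearIndependent_iff.mp hBli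
  have hQ'0 : (∑ t : ↥B, (-c' (Sum.inr t)) • (t : F)) ≠ 0 := by
    intro h0
    have hP'0 : ∑ t : ↥B, c' (Sum.inl t) • (t : F) = 0 := by
      rw [← hPQ', h0, mul_zero]
    have h1 := hli (fun t => c' (Sum.inl t)) hP'0
    have h2 := hli (fun t => -c' (Sum.inr t)) h0
    rcases i₀ with t | t
    · exact hi₀ (h1 t)
    · exact hi₀ (neg_eq_zero.mp (h2 t))
  -- reindex by `Fin n`
  let eqv : ↥B ≃ Fin (Fintype.card ↥B) := Fintype.equivFin ↥B
  refine ⟨Fintype.card ↥B, fun i => ((eqv.symm i : ↥B) : F), fun i => c' (Sum.inl (eqv.symm i)),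
    fun i => -c' (Sum.inr (eqv.symm i)), fun i => hTE (hBT (eqv.symm i).2), ?_,
    fun i => hc'fix _, fun i => S.fixK.neg_mem (hc'fix _), ?_, ?_⟩
  · exact hBli.comp _ eqv.symm.injective
  · rw [Equiv.sum_comp eqv.symm (fun t : ↥B => (-c' (Sum.inr t)) • (t : F))]
    exact hQ'0
  · rw [Equiv.sum_comp eqv.symm (fun t : ↥B => (-c' (Sum.inr t)) • (t : F)),
      Equiv.sum_comp eqv.symm (fun t : ↥B => c' (Sum.inl t) • (t : F))]
    exact hPQ'

end frac

end Fermat.Agent.S36
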