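import Mathlib
import Fermat.Agent.S18.ValDefs

/-!
# TRACK 10 (S36), package FIX-L-INST (helper1), part 3a: primitive parts of series with
coefficients in a discretely valued subfield — Mathlib + `S18/ValDefs` only, prefix `S36FI_`

`K` a field, `A` a valuation subring, `π ∈ K` (e.g. `π = q`), `T ⊆ K` a set (e.g. the inertia field
`L`, or `L(ζ_q)`) on which the valuation is discrete: `x ∈ T`, `x ≠ 0` ⇒ `v(x^m · π^k) = 1` for some
`k : ℤ` (`m ≥ 1` fixed).

* `S36FI_exists_max` : a bounded family of elements of `T`, not all zero, has a member of maximal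
  absolute value;
* `S36FI_lift` : a Laurent series with coefficients in `A` is `ι s'`;
* `S36FI_prim` : a bounded Laurent series `s ≠ 0` with coefficients in `T` is
  `s = C c · ι s'` with `c = ` a nonzero coefficient of `s` and `s'` an integral series with
  nonzero reduction (`ρ s' ≠ 0`).
-/

set_option autoImplicit false
set_option linter.unusedSectionVars false
set_option linter.unusedVariables false
set_option linter.style.haveILetI false

open HahnSeries ModularCurve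

namespace Fermat.Agent.S36

open Fermat.Agent.S18

section max

variable {K : Type*} [Field K] (A : ValuationSubring K)

/-- a bounded family of elements of a discretely valued set, not all zero, has a member of
maximal absolute value. -/
theorem S36FI_exists_max (π : K) (hπ0 : π ≠ 0) (hπ : π ∈ A.nonunits)
    (harch : ∀ c : K, c ≠ 0 → ∃ M : ℕ, A.valuation (π ^ M) ≤ A.valuation c)
    (T : Set K) (m : ℕ) (hm : m ≠ 0)
    (hdisc : ∀ x ∈ T, x ≠ 0 → ∃ k : ℤ, A.valuation (x ^ m * π ^ k) = 1)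
    {ι : Type*} (s : ι → K) (hsT : ∀ n, s n ∈ T) (hs : ∃ n, s n ≠ 0)
    (hbdd : ∃ c : K, c ≠ 0 ∧ ∀ n, c * s n ∈ A) :
    ∃ n₀, s n₀ ≠ 0 ∧ ∀ n, A.valuation (s n) ≤ A.valuation (s n₀) := by
  classical
  set v := A.valuation with hv
  have hvπ0 : v π ≠ 0 := (Valuation.ne_zero_iff _).mpr hπ0
  have hvπ1 : v π < 1 := (A.mem_nonunits_iff).mp hπ
  have hvπpos : 0 < v π := zero_lt_iff.mpr hvπ0
  -- the exponents
  let P : ℤ → Prop := fun k => ∃ n, s n ≠ 0 ∧ v (s n ^ m * π ^ k) = 1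
  obtain ⟨c, hc0, hc⟩ := hbdd
  obtain ⟨M, hM⟩ := harch (c ^ m) (pow_ne_zero m hc0)
  have hbd : ∃ b : ℤ, ∀ z : ℤ, P z → z ≤ b := by
    refine ⟨M, ?_⟩
    rintro z ⟨n, hn0, hn⟩
    by_contra hcon
    push Not at hcon
    -- `v(π)^z < v(π)^M ≤ v(c)^m`, and `v(c)^m v(s n)^m ≤ 1`
    have h1 : v π ^ z < v π ^ (M : ℤ) :=
      zpow_lt_zpow_right_of_lt_one₀ hvπpos hvπ1 hcon
    have h2 : v (c * s n) ≤ 1 := (A.valuation_le_one_iff _).mpr (hc n)
    have h3 : v (c * s n) ^ m ≤ 1 := pow_le_one₀ zero_le h2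
    rw [map_mul, mul_pow] at h3
    rw [map_mul, map_pow, map_zpow₀] at hn
    rw [map_pow, map_pow] at hM
    have hsn : v (s n) ^ m ≠ 0 := pow_ne_zero _ ((Valuation.ne_zero_iff _).mpr hn0)
    have h4 : v π ^ z = (v (s n) ^ m)⁻¹ := eq_inv_of_mul_eq_one_right hn
    have h5 : v c ^ m ≤ (v (s n) ^ m)⁻¹ := by
      have := (le_mul_inv_iff₀ (a := v c ^ m) (b := 1) (zero_lt_iff.mpr hsn)).mpr h3
      rwa [one_mul] at this
    rw [← h4] at h5
    have h6 : v π ^ (M : ℤ) ≤ v π ^ z := by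
      rw [zpow_natCast]
      exact hM.trans h5
    exact absurd h1 (not_lt.mpr h6)
  have hinh : ∃ z : ℤ, P z := by
    obtain ⟨n, hn⟩ := hs
    obtain ⟨k, hk⟩ := hdisc (s n) (hsT n) hn
    exact ⟨k, n, hn, hk⟩
  obtain ⟨k₀, ⟨n₀, hn₀, hk₀⟩, hmax⟩ := Int.exists_greatest_of_bdd hbd hinh
  refine ⟨n₀, hn₀, fun n => ?_⟩
  by_cases hn : s n = 0
  · rw [hn, map_zero]
    exact zero_le
  obtain ⟨k, hk⟩ := hdisc (s n) (hsT n) hn
  have hle : k ≤ k₀ := hmax k ⟨n, hn, hk⟩
  rw [map_mul, map_pow, map_zpow₀] at hk hk₀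
  have hsn : v (s n) ^ m ≠ 0 := pow_ne_zero _ ((Valuation.ne_zero_iff _).mpr hn)
  have hsn₀ : v (s n₀) ^ m ≠ 0 := pow_ne_zero _ ((Valuation.ne_zero_iff _).mpr hn₀)
  have e1 : v (s n) ^ m = (v π ^ k)⁻¹ := eq_inv_of_mul_eq_one_left hk
  have e2 : v (s n₀) ^ m = (v π ^ k₀)⁻¹ := eq_inv_of_mul_eq_one_left hk₀
  have h7 : v π ^ k₀ ≤ v π ^ k := zpow_le_zpow_right_of_le_one₀ hvπpos hvπ1.le hle
  have h8 : v (s n) ^ m ≤ v (s n₀) ^ m := by
    rw [e1, e2]
    exact inv_anti₀ (zpow_pos hvπpos _) h7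
  exact (pow_le_pow_iff_left₀ zero_le zero_le hm).mp h8

end max

section series

variable {K : Type*} [Field K] (A : ValuationSubring K)

/-- a Laurent series with coefficients in `A` comes from `A((t))`. -/
theorem S36FI_lift (s : LaurentSeries K) (h : ∀ n, s.coeff n ∈ A) :
    ∃ s' : LaurentSeries A, coeffMap A.subtype s' = s ∧ ∀ n, ((s'.coeff n : A) : K) = s.coeff n := by
  have hsupp : Function.support (fun n => (⟨s.coeff n, h n⟩ : A)) = s.support := by
    ext n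
    simp only [Function.mem_support, ne_eq, HahnSeries.mem_support]
    constructor
    · intro h1 h2
      exact h1 (Subtype.ext h2)
    · intro h1 h2
      exact h1 (congrArg Subtype.val h2)
  refine ⟨⟨fun n => ⟨s.coeff n, h n⟩, ?_⟩, ?_, fun n => rfl⟩
  · rw [hsupp]
    exact s.isPWO_support
  · ext n
    rfl

/-- **primitive part**: a bounded Laurent series `s ≠ 0` with coefficients in a discretely valued
set `T` is `C c · ι s'` with `c` a nonzero coefficient of `s` and `s'` integral with nonzero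
reduction. -/
theorem S36FI_prim (π : K) (hπ0 : π ≠ 0) (hπ : π ∈ A.nonunits)
    (harch : ∀ c : K, c ≠ 0 → ∃ M : ℕ, A.valuation (π ^ M) ≤ A.valuation c)
    (T : Set K) (m : ℕ) (hm : m ≠ 0)
    (hdisc : ∀ x ∈ T, x ≠ 0 → ∃ k : ℤ, A.valuation (x ^ m * π ^ k) = 1)
    (s : LaurentSeries K) (hs : s ≠ 0) (hsT : ∀ n, s.coeff n ∈ T)
    (hbdd : ∃ c : K, c ≠ 0 ∧ ∀ n, c * s.coeff n ∈ A) :
    ∃ c : K, c ≠ 0 ∧ c ∈ T ∧ ∃ s' : LaurentSeries A,
      coeffMap (IsLocalRing.residue A) s' ≠ 0 ∧ s = HahnSeries.C c * coeffMap A.subtype s' := by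
  have hne : ∃ n, s.coeff n ≠ 0 := by
    by_contra hcon
    push Not at hcon
    exact hs (HahnSeries.ext (funext hcon))
  obtain ⟨n₀, hn₀, hmax⟩ := S36FI_exists_max A π hπ0 hπ harch T m hm hdisc
    (fun n => s.coeff n) hsT hne hbdd
  set c := s.coeff n₀ with hc
  have hmem : ∀ n, (c⁻¹ • s).coeff n ∈ A := by
    intro n
    rw [HahnSeries.coeff_smul, smul_eq_mul, ← A.valuation_le_one_iff, map_mul, map_inv₀]
    have hvc : A.valuation c ≠ 0 := (Valuation.ne_zero_iff _).mpr hn₀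
    rw [inv_mul_le_iff₀ (zero_lt_iff.mpr hvc), mul_one]
    exact hmax n
  obtain ⟨s', hs', hs'c⟩ := S36FI_lift A (c⁻¹ • s) hmem
  refine ⟨c, hn₀, hsT n₀, s', ?_, ?_⟩
  · intro h0
    have h1 := congrArg (fun z => z.coeff n₀) h0
    simp only [coeffMap_coeff, HahnSeries.coeff_zero] at h1
    have h2 : s'.coeff n₀ = 1 := by
      apply Subtype.ext
      rw [hs'c, HahnSeries.coeff_smul, smul_eq_mul]
      exact inv_mul_cancel₀ hn₀
    rw [h2, map_one] at h1
    exact one_ne_zero h1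
  · rw [hs', HahnSeries.C_mul_eq_smul, smul_smul, mul_inv_cancel₀ hn₀, one_smul]

end series

end Fermat.Agent.S36
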