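import Mathlib

/-!
# TRACK 10 (S36), package FIX-L, part (C): fixed fractions are fractions of fixed elements (helper6)

Pure algebra over Mathlib.  Prefix `S36FX_`.  `ψ h : K →+* K`, `φ h : F →+* F` (`h : H`) a family
of semilinear endomorphisms of `F / K` (no group structure is used).

* `S36FX_span_fixed` : a subspace of `ι → K` (`ι` finite) which is stable under the coordinatewise
  action of all `ψ h` is spanned by its fixed vectors (descent of subspaces, Artin's argument);
* `S36FX_frac_fin` : if `f` and the `ε i` are fixed and `f * ∑ c i • ε i = ∑ d i • ε i` with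
  `∑ c i • ε i ≠ 0`, the same holds with fixed coefficients `c'`, `d'`;
* `S36FX_frac` : the same for the spans of a set `E` of fixed elements, coefficients in a
  subfield `L ⊂ K` containing the fixed elements of `K`.
-/

set_option autoImplicit false
set_option linter.style.haveILetI false

namespace Fermat.Agent.S36

section span

variable {K H ι : Type*} [Field K] [Fintype ι]

/-- **descent of subspaces**: a coordinatewise-stable subspace of `ι → K` is spanned by its
fixed vectors. -/
theorem S36FX_span_fixed (ψ : H → K →+* K) (C : Submodule K (ι → K))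
    (hC : ∀ h, ∀ c ∈ C, (fun i => ψ h (c i)) ∈ C) :
    ∀ c ∈ C, c ∈ Submodule.span K {c' : ι → K | c' ∈ C ∧ ∀ i h, ψ h (c' i) = c' i} := by
  classical
  set T : Set (ι → K) := {c' : ι → K | c' ∈ C ∧ ∀ i h, ψ h (c' i) = c' i} with hT
  -- the support
  let supp : (ι → K) → Finset ι := fun c => Finset.univ.filter fun i => c i ≠ 0
  have hsupp : ∀ (c : ι → K) (i : ι), i ∈ supp c ↔ c i ≠ 0 := fun c i => by
    simp only [supp, Finset.mem_filter, Finset.mem_univ, true_and]
  suffices hmain : ∀ n : ℕ, ∀ c ∈ C, (supp c).card = n → c ∈ Submodule.span K T from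
    fun c hc => hmain _ c hc rfl
  intro n
  induction n using Nat.strong_induction_on with
  | _ n ih =>
    intro c hc hcard
    by_cases hc0 : c = 0
    · rw [hc0]
      exact Submodule.zero_mem _
    obtain ⟨i₀, hi₀⟩ : ∃ i₀, c i₀ ≠ 0 := by
      by_contra hcon
      push Not at hcon
      exact hc0 (funext hcon)
    by_cases hB : ∃ cz ∈ C, cz ≠ 0 ∧ supp cz ⊂ supp c
    · -- a nonzero vector with strictly smaller support
      obtain ⟨cz, hcz, hcz0, hss⟩ := hB
      obtain ⟨i₁, hi₁⟩ : ∃ i₁, cz i₁ ≠ 0 := by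
        by_contra hcon
        push Not at hcon
        exact hcz0 (funext hcon)
      have h1 : cz ∈ Submodule.span K T :=
        ih _ (hcard ▸ Finset.card_lt_card hss) cz hcz rfl
      set cn : ι → K := c - (c i₁ / cz i₁) • cz with hcn
      have hcnC : cn ∈ C := C.sub_mem hc (C.smul_mem _ hcz)
      have hcni₁ : cn i₁ = 0 := by
        rw [hcn, Pi.sub_apply, Pi.smul_apply, smul_eq_mul, div_mul_cancel₀ _ hi₁, sub_self]
      have hi₁c : i₁ ∈ supp c := hss.1 ((hsupp _ _).mpr hi₁)
      have hssn : supp cn ⊂ supp c := by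
        refine (Finset.ssubset_iff_of_subset ?_).mpr ⟨i₁, hi₁c, ?_⟩
        · intro i hi
          rw [hsupp] at hi ⊢
          intro hci
          apply hi
          have hczi : cz i = 0 := by
            by_contra hne
            exact (hsupp _ _).mp (hss.1 ((hsupp _ _).mpr hne)) hci
          rw [hcn, Pi.sub_apply, Pi.smul_apply, hci, hczi, smul_zero, sub_zero]
        · rw [hsupp, not_not]
          exact hcni₁
      have h2 : cn ∈ Submodule.span K T :=
        ih _ (hcard ▸ Finset.card_lt_card hssn) cn hcnC rfl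
      have h3 : c = cn + (c i₁ / cz i₁) • cz := by rw [hcn]; abel
      rw [h3]
      exact Submodule.add_mem _ h2 (Submodule.smul_mem _ _ h1)
    · -- `c` has minimal support: its normalisation is fixed
      push Not at hB
      set cn : ι → K := (c i₀)⁻¹ • c with hcn
      have hcnC : cn ∈ C := C.smul_mem _ hc
      have hcni₀ : cn i₀ = 1 := by
        rw [hcn, Pi.smul_apply, smul_eq_mul, inv_mul_cancel₀ hi₀]
      have hfix : ∀ i h, ψ h (cn i) = cn i := by
        intro i h
        set d : ι → K := (fun i => ψ h (cn i)) - cn with hd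
        have hdC : d ∈ C := C.sub_mem (hC h cn hcnC) hcnC
        have hdi₀ : d i₀ = 0 := by
          rw [hd, Pi.sub_apply, hcni₀, map_one, sub_self]
        have hdss : supp d ⊂ supp c := by
          refine (Finset.ssubset_iff_of_subset ?_).mpr ⟨i₀, (hsupp _ _).mpr hi₀, ?_⟩
          · intro i hi
            rw [hsupp] at hi ⊢
            intro hci
            apply hi
            have : cn i = 0 := by rw [hcn, Pi.smul_apply, hci, smul_zero]
            rw [hd, Pi.sub_apply, this, map_zero, sub_self]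
          · rw [hsupp, not_not]
            exact hdi₀
        have hd0 : d = 0 := by
          by_contra hne
          exact hB d hdC hne hdss
        have := congrFun hd0 i
        rw [hd, Pi.sub_apply, Pi.zero_apply] at this
        exact sub_eq_zero.mp this
      have h1 : cn ∈ Submodule.span K T := Submodule.subset_span ⟨hcnC, hfix⟩
      have h2 : c = c i₀ • cn := by
        rw [hcn, smul_smul, mul_inv_cancel₀ hi₀, one_smul]
      rw [h2]
      exact Submodule.smul_mem _ _ h1

end span

section frac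

variable {K F H ι : Type*} [Field K] [Field F] [Algebra K F]

/-- **(C)**, finite families: a fixed fraction of `K`-combinations of fixed elements is a
fraction of combinations with fixed coefficients. -/
theorem S36FX_frac_fin [Fintype ι] (φ : H → F →+* F) (ψ : H → K →+* K)
    (hsemi : ∀ h c, φ h (algebraMap K F c) = algebraMap K F (ψ h c))
    (ε : ι → F) (hε : ∀ i h, φ h (ε i) = ε i) (f : F) (hf : ∀ h, φ h f = f)
    (c d : ι → K) (hrel : f * ∑ i, c i • ε i = ∑ i, d i • ε i) (hne : ∑ i, c i • ε i ≠ 0) :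
    ∃ c' d' : ι → K, (∀ i h, ψ h (c' i) = c' i) ∧ (∀ i h, ψ h (d' i) = d' i) ∧
      f * ∑ i, c' i • ε i = ∑ i, d' i • ε i ∧ ∑ i, c' i • ε i ≠ 0 := by
  classical
  have hφ : ∀ (h : H) (v : ι → K), φ h (∑ i, v i • ε i) = ∑ i, ψ h (v i) • ε i := by
    intro h v
    rw [map_sum]
    refine Finset.sum_congr rfl fun i _ => ?_
    rw [Algebra.smul_def, Algebra.smul_def, map_mul, hsemi, hε]
  -- the subspace of relations
  let C : Submodule K (ι ⊕ ι → K) :=
    { carrier := {v | f * ∑ i, v (Sum.inl i) • ε i = ∑ i, v (Sum.inr i) • ε i}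
      add_mem' := by
        intro v w hv hw
        simp only [Set.mem_ofPred_eq, Pi.add_apply, add_smul, Finset.sum_add_distrib, mul_add]
          at hv hw ⊢
        rw [hv, hw]
      zero_mem' := by
        simp only [Set.mem_ofPred_eq, Pi.zero_apply, zero_smul, Finset.sum_const_zero, mul_zero]
      smul_mem' := by
        intro a v hv
        simp only [Set.mem_ofPred_eq, Pi.smul_apply, smul_eq_mul, mul_smul] at hv ⊢
        rw [← Finset.smul_sum, ← Finset.smul_sum, mul_smul_comm, hv] }
  let K₁ : Submodule K (ι ⊕ ι → K) :=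
    { carrier := {v | ∑ i, v (Sum.inl i) • ε i = 0}
      add_mem' := by
        intro v w hv hw
        simp only [Set.mem_ofPred_eq, Pi.add_apply, add_smul, Finset.sum_add_distrib] at hv hw ⊢
        rw [hv, hw, add_zero]
      zero_mem' := by
        simp only [Set.mem_ofPred_eq, Pi.zero_apply, zero_smul, Finset.sum_const_zero]
      smul_mem' := by
        intro a v hv
        simp only [Set.mem_ofPred_eq, Pi.smul_apply, smul_eq_mul, mul_smul] at hv ⊢
        rw [← Finset.smul_sum, hv, smul_zero] }
  have hC : ∀ h, ∀ v ∈ C, (fun i => ψ h (v i)) ∈ C := by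
    intro h v hv
    have h1 : f * ∑ i, v (Sum.inl i) • ε i = ∑ i, v (Sum.inr i) • ε i := hv
    have h2 := congrArg (φ h) h1
    rw [map_mul, hf, hφ h (fun i => v (Sum.inl i)), hφ h (fun i => v (Sum.inr i))] at h2
    exact h2
  have hv₀ : Sum.elim c d ∈ C := by
    show f * ∑ i, (Sum.elim c d) (Sum.inl i) • ε i = ∑ i, (Sum.elim c d) (Sum.inr i) • ε i
    simpa using hrel
  have hspan := S36FX_span_fixed ψ C hC _ hv₀
  by_contra hcon
  push Not at hcon
  have hle : Submodule.span K {c' : ι ⊕ ι → K | c' ∈ C ∧ ∀ i h, ψ h (c' i) = c' i} ≤ K₁ := by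
    rw [Submodule.span_le]
    rintro v ⟨hvC, hvfix⟩
    exact hcon (fun i => v (Sum.inl i)) (fun i => v (Sum.inr i)) (fun i h => hvfix _ h)
      (fun i h => hvfix _ h) hvC
  have h3 : ∑ i, (Sum.elim c d) (Sum.inl i) • ε i = 0 := hle hspan
  apply hne
  simpa using h3

/-- **(C)**: fixed fractions of elements of the `K`-span of a set `E` of fixed elements are
fractions of elements of the `L`-span, `L ⊂ K` any subfield containing the fixed constants. -/
theorem S36FX_frac (φ : H → F →+* F) (ψ : H → K →+* K)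
    (hsemi : ∀ h c, φ h (algebraMap K F c) = algebraMap K F (ψ h c))
    (L : Subfield K) (hL : ∀ c : K, (∀ h, ψ h c = c) → c ∈ L)
    (E : Set F) (hE : ∀ e ∈ E, ∀ h, φ h e = e) (f : F) (hf : ∀ h, φ h f = f)
    (Q : F) (hQ : Q ∈ Submodule.span K E) (hQ0 : Q ≠ 0) (hfQ : f * Q ∈ Submodule.span K E) :
    ∃ Q' : F, Q' ∈ Submodule.span L E ∧ Q' ≠ 0 ∧ f * Q' ∈ Submodule.span L E := by
  classical
  obtain ⟨n₁, c₁, g₁, h₁⟩ := Submodule.mem_span_set'.mp hQ
  obtain ⟨n₂, c₂, g₂, h₂⟩ := Submodule.mem_span_set'.mp hfQ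
  -- the combined family
  set ε : Fin n₁ ⊕ Fin n₂ → F := Sum.elim (fun i => (g₁ i : F)) (fun i => (g₂ i : F)) with hε
  have hεE : ∀ i, ε i ∈ E := by
    rintro (i | i)
    · exact (g₁ i).2
    · exact (g₂ i).2
  set c : Fin n₁ ⊕ Fin n₂ → K := Sum.elim c₁ (fun _ => 0) with hc
  set d : Fin n₁ ⊕ Fin n₂ → K := Sum.elim (fun _ => 0) c₂ with hd
  have hcQ : ∑ i, c i • ε i = Q := by
    rw [Fintype.sum_sum_type, ← h₁]
    simp [hc, hε]
  have hdQ : ∑ i, d i • ε i = f * Q := by
    rw [Fintype.sum_sum_type, ← h₂]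
    simp [hd, hε]
  obtain ⟨c', d', hc', hd', hrel', hne'⟩ := S36FX_frac_fin φ ψ hsemi ε
    (fun i h => hE _ (hεE i) h) f hf c d (by rw [hcQ, hdQ]) (by rw [hcQ]; exact hQ0)
  have hmem : ∀ v : Fin n₁ ⊕ Fin n₂ → K, (∀ i h, ψ h (v i) = v i) →
      ∑ i, v i • ε i ∈ Submodule.span L E := by
    intro v hv
    refine Submodule.sum_mem _ fun i _ => ?_
    have h1 : v i • ε i = (⟨v i, hL _ (hv i)⟩ : L) • ε i := rfl
    rw [h1]
    exact Submodule.smul_mem _ _ (Submodule.subset_span (hεE i))
  refine ⟨∑ i, c' i • ε i, hmem c' hc', hne', ?_⟩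
  rw [hrel']
  exact hmem d' hd'

end frac

end Fermat.Agent.S36
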