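import Fermat.Agent.S36.FixLValGrp
import Fermat.Agent.S36.Val3Def
import Fermat.Agent.S36.BaseLZeta

/-!
# TRACK 10 (S36), package FIX-L-INST (helper1), part 3c: value groups in Gauss-ring form —
prefix `S36FI_`

`Ω = ℚ̄`, `A ⊂ Ω` over `q`, `H ≤ Gal(Ω/ℚ)`, `φ : F_N → Ω((t))` an embedding which is the identity on
constants, maps the generators `j(t^d)` to integral series and commutes with the action of `H` on
coefficients.

* `S36FI_hgen_of` : integrality + equivariance ⇒ the hypothesis `hgen` of `S36FI_val`;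
* `S36FI_unit` : if `v` is discrete on `Ω^H` (`v(x^m q^k) = 1`) then for every `H`-fixed `f ≠ 0`
  there is `k : ℤ` with `f^m · q^k` a unit of the Gauss ring `S36V_G A φ`;
* `S36FI_unit_I` : `H = I` the inertia group, `m = 1` (`S36BL_val'`);
* `S36FI_Hz`, `S36FI_unit_zeta` : `H = I ∩ Stab ζ`, `m = q - 1` (`S36BL_val_zeta`); the hypothesis on
  `f` is still "`f` is `I`-fixed".
-/

set_option autoImplicit false
set_option linter.unusedSectionVars false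
set_option linter.unusedVariables false
set_option linter.style.haveILetI false
set_option synthInstance.maxHeartbeats 400000

open HahnSeries ModularCurve IntermediateField

namespace Fermat.Agent.S36

open Fermat.Agent.S18 Fermat.Agent.S24 Fermat.Agent.S34

local notation "Ω" => AlgebraicClosure ℚ

section unit

variable {q : ℕ} [hq : Fact q.Prime] (N : ℕ) [NeZero N] (A : ValuationSubring Ω)
  (H : Subgroup (Ω ≃ₐ[ℚ] Ω))

/-- integrality of the generators + equivariance ⇒ `hgen` of `S36FI_val`. -/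
theorem S36FI_hgen_of (φ : ↥(modularFunctionFieldBar N) →+* LaurentSeries Ω)
    (hint : ∀ (d : ℕ) [NeZero d] (hd : d ∣ N), ∃ s : LaurentSeries A,
      φ (jBar N d hd) = S18_ι A s)
    (heq : ∀ σ ∈ H, ∀ f : ↥(modularFunctionFieldBar N),
      φ (arithmeticRingAut (modularFunctionFieldFull N) σ f) =
        coeffMap ((σ : Ω ≃ₐ[ℚ] Ω) : Ω →+* Ω) (φ f))
    (d : ℕ) [NeZero d] (hd : d ∣ N) (n : ℤ) :
    (φ (jBar N d hd)).coeff n ∈ A ∧
      ∀ σ ∈ H, σ ((φ (jBar N d hd)).coeff n) = (φ (jBar N d hd)).coeff n := by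
  refine ⟨?_, fun σ hσ => ?_⟩
  · obtain ⟨s, hs⟩ := hint d hd
    rw [hs]
    show (coeffMap A.subtype s).coeff n ∈ A
    rw [coeffMap_coeff]
    exact (s.coeff n).2
  · have h := heq σ hσ (jBar N d hd)
    rw [S36FI_jBar_fixed N σ d hd] at h
    have h2 := congrArg (fun x : LaurentSeries Ω => x.coeff n) h
    simp only [coeffMap_coeff] at h2
    exact h2.symm

/-- **the value group along `φ` in Gauss-ring form**: for `f ≠ 0` fixed by `H`, `f^m · q^k` is a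
unit of the Gauss ring along `φ` for some `k : ℤ`. -/
theorem S36FI_unit (hA : A.LiesOverPrime q) (m : ℕ) (hm : m ≠ 0)
    (hdisc : ∀ x : Ω, (∀ σ ∈ H, σ x = x) → x ≠ 0 →
      ∃ k : ℤ, A.valuation (x ^ m * (q : Ω) ^ k) = 1)
    (φ : ↥(modularFunctionFieldBar N) →+* LaurentSeries Ω)
    (hφc : ∀ c : Ω, φ (algebraMap Ω ↥(modularFunctionFieldBar N) c) = HahnSeries.C c)
    (hgen : ∀ (d : ℕ) [NeZero d] (hd : d ∣ N) (n : ℤ), (φ (jBar N d hd)).coeff n ∈ A ∧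
      ∀ σ ∈ H, σ ((φ (jBar N d hd)).coeff n) = (φ (jBar N d hd)).coeff n)
    (f : ↥(modularFunctionFieldBar N)) (hf : f ∈ (S36FI_act N H).fixF) (hf0 : f ≠ 0) :
    ∃ k : ℤ, f ^ m * algebraMap Ω ↥(modularFunctionFieldBar N) ((q : Ω) ^ k) ∈ S36V_G A φ ∧
      (f ^ m * algebraMap Ω ↥(modularFunctionFieldBar N) ((q : Ω) ^ k))⁻¹ ∈ S36V_G A φ := by
  obtain ⟨c, hc0, hcfix, s₁, s₂, hs₁, hs₂, hrep⟩ :=
    S36FI_val N A H hA m hm hdisc φ hφc hgen f hf hf0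
  obtain ⟨k, hk⟩ := hdisc c hcfix hc0
  obtain ⟨huA, hunu⟩ := (S36BL_unit_iff A).mpr hk
  refine ⟨k, ?_⟩
  set u : A := ⟨c ^ m * (q : Ω) ^ k, huA⟩ with hu
  have hures : IsLocalRing.residue A u ≠ 0 := by
    rw [Ne, IsLocalRing.residue_eq_zero_iff, IsLocalRing.mem_maximalIdeal, mem_nonunits_iff,
      not_not]
    by_contra hnu
    exact hunu ((A.mem_nonunits_iff_exists_mem_maximalIdeal).mpr ⟨huA, by
      rwa [IsLocalRing.mem_maximalIdeal, mem_nonunits_iff]⟩)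
  have hρ₁ : S18_ρ A (HahnSeries.C u * s₁ ^ m) ≠ 0 := by
    rw [map_mul, map_pow, S18_ρ_C]
    refine mul_ne_zero ?_ (pow_ne_zero _ hs₁)
    rw [Ne, map_eq_zero]
    exact hures
  have hρ₂ : S18_ρ A (s₂ ^ m) ≠ 0 := by
    rw [map_pow]
    exact pow_ne_zero _ hs₂
  have hrep' : φ (f ^ m * algebraMap Ω ↥(modularFunctionFieldBar N) ((q : Ω) ^ k)) *
      S18_ι A (s₂ ^ m) = S18_ι A (HahnSeries.C u * s₁ ^ m) := by
    rw [map_mul, map_pow, hφc, map_mul (S18_ι A), map_pow, map_pow, S18_ι_C]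
    show _ = algebraMap Ω (LaurentSeries Ω) (c ^ m * (q : Ω) ^ k) * _
    have e1 : (algebraMap Ω (LaurentSeries Ω) (c ^ m * (q : Ω) ^ k) : LaurentSeries Ω) =
        HahnSeries.C c ^ m * HahnSeries.C ((q : Ω) ^ k) := by
      rw [← map_pow, ← map_mul, HahnSeries.C_apply, algebraMap_laurentSeries_eq_single]
    rw [e1]
    calc φ f ^ m * HahnSeries.C ((q : Ω) ^ k) * S18_ι A s₂ ^ m
        = (φ f * S18_ι A s₂) ^ m * HahnSeries.C ((q : Ω) ^ k) := by ring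
      _ = (HahnSeries.C c * S18_ι A s₁) ^ m * HahnSeries.C ((q : Ω) ^ k) := by rw [hrep]
      _ = _ := by ring
  have hmem : f ^ m * algebraMap Ω ↥(modularFunctionFieldBar N) ((q : Ω) ^ k) ∈ S36V_G A φ :=
    S36V_G_of_rep A φ hρ₂ hrep'
  refine ⟨hmem, S36V_G_inv_mem A φ hmem ?_⟩
  rw [S36V_Gred_eq A φ hmem hρ₂ hrep']
  exact div_ne_zero hρ₁ hρ₂

/-- the same for the inertia group `I` (`m = 1`): `f · q^k` is a Gauss unit. -/
theorem S36FI_unit_I (hA : A.LiesOverPrime q)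
    (φ : ↥(modularFunctionFieldBar N) →+* LaurentSeries Ω)
    (hφc : ∀ c : Ω, φ (algebraMap Ω ↥(modularFunctionFieldBar N) c) = HahnSeries.C c)
    (hint : ∀ (d : ℕ) [NeZero d] (hd : d ∣ N), ∃ s : LaurentSeries A,
      φ (jBar N d hd) = S18_ι A s)
    (heq : ∀ σ ∈ A.inertiaSubgroupIn ℚ, ∀ f : ↥(modularFunctionFieldBar N),
      φ (arithmeticRingAut (modularFunctionFieldFull N) σ f) =
        coeffMap ((σ : Ω ≃ₐ[ℚ] Ω) : Ω →+* Ω) (φ f))
    (f : ↥(modularFunctionFieldBar N)) (hf : f ∈ (S36FI_act N (A.inertiaSubgroupIn ℚ)).fixF)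
    (hf0 : f ≠ 0) :
    ∃ k : ℤ, f * algebraMap Ω ↥(modularFunctionFieldBar N) ((q : Ω) ^ k) ∈ S36V_G A φ ∧
      (f * algebraMap Ω ↥(modularFunctionFieldBar N) ((q : Ω) ^ k))⁻¹ ∈ S36V_G A φ := by
  have h := S36FI_unit N A (A.inertiaSubgroupIn ℚ) hA 1 one_ne_zero
    (fun x hx hx0 => by
      obtain ⟨k, hk⟩ := S36BL_val' A hA hx0 hx
      exact ⟨k, by rw [pow_one]; exact hk⟩)
    φ hφc (fun d _ hd n => S36FI_hgen_of N A _ φ hint heq d hd n) f hf hf0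
  simpa only [pow_one] using h

/-- the subgroup of the inertia group fixing `ζ`. -/
def S36FI_Hz (ζ : Ω) : Subgroup (Ω ≃ₐ[ℚ] Ω) where
  carrier := {σ | σ ∈ A.inertiaSubgroupIn ℚ ∧ σ ζ = ζ}
  one_mem' := ⟨Subgroup.one_mem _, rfl⟩
  mul_mem' := by
    rintro σ τ ⟨hσ, hσζ⟩ ⟨hτ, hτζ⟩
    refine ⟨Subgroup.mul_mem _ hσ hτ, ?_⟩
    show σ (τ ζ) = ζ
    rw [hτζ, hσζ]
  inv_mem' := by
    rintro σ ⟨hσ, hσζ⟩
    refine ⟨Subgroup.inv_mem _ hσ, ?_⟩
    have : σ⁻¹ (σ ζ) = ζ := by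
      show (σ⁻¹ * σ) ζ = ζ
      rw [inv_mul_cancel]
      rfl
    rwa [hσζ] at this

theorem S36FI_mem_Hz {ζ : Ω} {σ : Ω ≃ₐ[ℚ] Ω} :
    σ ∈ S36FI_Hz A ζ ↔ σ ∈ A.inertiaSubgroupIn ℚ ∧ σ ζ = ζ := Iff.rfl

theorem S36FI_Hz_le (ζ : Ω) : S36FI_Hz A ζ ≤ A.inertiaSubgroupIn ℚ := fun _ h => h.1

/-- an `I`-fixed function is fixed by `I ∩ Stab ζ`. -/
theorem S36FI_fixF_mono {H₁ H₂ : Subgroup (Ω ≃ₐ[ℚ] Ω)} (h : H₁ ≤ H₂)
    {f : ↥(modularFunctionFieldBar N)} (hf : f ∈ (S36FI_act N H₂).fixF) :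
    f ∈ (S36FI_act N H₁).fixF :=
  (S36FI_mem_fixF N H₁).mpr fun σ hσ => (S36FI_mem_fixF N H₂).mp hf σ (h hσ)

/-- the same for the middle valuation (`m = q - 1`): for `I`-fixed `f ≠ 0`, `f^(q-1) · q^k` is a
Gauss unit along an embedding `φ` that is equivariant for `I ∩ Stab ζ`. -/
theorem S36FI_unit_zeta (hA : A.LiesOverPrime q) {ζ : Ω} (hζ : ζ ^ q = 1)
    (φ : ↥(modularFunctionFieldBar N) →+* LaurentSeries Ω)
    (hφc : ∀ c : Ω, φ (algebraMap Ω ↥(modularFunctionFieldBar N) c) = HahnSeries.C c)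
    (hint : ∀ (d : ℕ) [NeZero d] (hd : d ∣ N), ∃ s : LaurentSeries A,
      φ (jBar N d hd) = S18_ι A s)
    (heq : ∀ σ ∈ A.inertiaSubgroupIn ℚ, σ ζ = ζ → ∀ f : ↥(modularFunctionFieldBar N),
      φ (arithmeticRingAut (modularFunctionFieldFull N) σ f) =
        coeffMap ((σ : Ω ≃ₐ[ℚ] Ω) : Ω →+* Ω) (φ f))
    (f : ↥(modularFunctionFieldBar N)) (hf : f ∈ (S36FI_act N (A.inertiaSubgroupIn ℚ)).fixF)
    (hf0 : f ≠ 0) :
    ∃ k : ℤ, f ^ (q - 1) * algebraMap Ω ↥(modularFunctionFieldBar N) ((q : Ω) ^ k) ∈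
        S36V_G A φ ∧
      (f ^ (q - 1) * algebraMap Ω ↥(modularFunctionFieldBar N) ((q : Ω) ^ k))⁻¹ ∈
        S36V_G A φ := by
  have hq1 : q - 1 ≠ 0 := Nat.sub_ne_zero_of_lt hq.out.one_lt
  exact S36FI_unit N A (S36FI_Hz A ζ) hA (q - 1) hq1
    (fun x hx hx0 => S36BL_val_zeta A hA hζ hx0 fun τ hτ hτζ => hx τ ⟨hτ, hτζ⟩)
    φ hφc (fun d _ hd n => S36FI_hgen_of N A (S36FI_Hz A ζ) φ hint
      (fun σ hσ g => heq σ ((S36FI_mem_Hz A).mp hσ).1 ((S36FI_mem_Hz A).mp hσ).2 g) d hd n) f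
    (S36FI_fixF_mono N (S36FI_Hz_le A ζ) hf) hf0

end unit

end Fermat.Agent.S36
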