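import Fermat.Agent.S36.FixLInst
import Fermat.Agent.S36.FixLPrim
import Fermat.Agent.S36.BaseL
import Fermat.Agent.S34.RankOne

/-!
# TRACK 10 (S36), package FIX-L-INST (helper1), part 3b: the value group of an `H`-fixed modular
function along an embedding — prefix `S36FI_`

`Ω = ℚ̄`, `A` a valuation subring of `Ω` over `q`, `H ≤ Gal(Ω/ℚ)`, `L' = Ω^H`,
`φ : F_N →ₐ[Ω] Ω((t))` an embedding such that the series `φ (j(t^d))`, `d ∣ N`, have coefficients in
`A ∩ L'` (for `FF`, `VV`: `H = I`, rational integral coefficients; for `FV`: `H = I ∩ Stab ζ_q`).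

* `S36FI_arch` : the valuation of `A` is archimedean with respect to `q`;
* `S36FI_val` : if the valuation is discrete on `L'` (`x ∈ L'`, `x ≠ 0` ⇒ `v(x^m q^k) = 1`) then for
  every `H`-fixed `f ≠ 0`:  `φ f · ι s₂ = C c · ι s₁` with `c ∈ L'`, `c ≠ 0` and `s₁, s₂` integral series
  with nonzero reduction — "`f = c ·` Gauss unit with `c ∈ L'`";
* `S36FI_valZ` : for `H = I` the inertia group: `φ f · ι s₂ = C (q^k) · ι s₁`, `k : ℤ` — the value
  group of `F_L` along `φ` is `ℤ · v(q)`.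
-/

set_option autoImplicit false
set_option linter.unusedSectionVars false
set_option linter.unusedVariables false
set_option linter.style.haveILetI false
set_option synthInstance.maxHeartbeats 400000

open HahnSeries ModularCurve IntermediateField

namespace Fermat.Agent.S36

open Fermat.Agent.S18 Fermat.Agent.S24 Fermat.Agent.S34

local notation "Ω" => AlgebraicClosure ℚ

section arch

variable {q : ℕ} [hq : Fact q.Prime] (A : ValuationSubring Ω)

/-- the valuation of `A` is archimedean with respect to `q`. -/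
theorem S36FI_arch (hA : A.LiesOverPrime q) (c : Ω) (hc : c ≠ 0) :
    ∃ M : ℕ, A.valuation ((q : Ω) ^ M) ≤ A.valuation c := by
  haveI : Algebra.IsAlgebraic ℚ Ω := AlgebraicClosure.isAlgebraic ℚ
  by_cases hcA : c ∈ A
  · have hc0 : (⟨c, hcA⟩ : A) ≠ 0 := fun h => hc (congrArg Subtype.val h)
    obtain ⟨e, b, hb⟩ := S34RO_dvd_pow_q A hq.out hA ⟨c, hcA⟩ hc0
    refine ⟨e, ?_⟩
    have h1 : (q : Ω) ^ e = c * (b : Ω) := by
      have := congrArg Subtype.val hb
      simpa using this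
    rw [h1, map_mul]
    calc A.valuation c * A.valuation (b : Ω) ≤ A.valuation c * 1 := by
          gcongr
          exact (A.valuation_le_one_iff _).mpr b.2
      _ = A.valuation c := mul_one _
  · refine ⟨0, ?_⟩
    rw [pow_zero, map_one]
    have := (A.valuation_le_one_iff c).not.mpr hcA
    exact le_of_lt (not_le.mp this)

end arch

section series

variable (A : ValuationSubring Ω) (H : Subgroup (Ω ≃ₐ[ℚ] Ω))

/-- the subring `A ∩ Ω^H`. -/
def S36FI_R₀ : Subring Ω where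
  carrier := {x | x ∈ A ∧ ∀ σ ∈ H, σ x = x}
  zero_mem' := ⟨A.zero_mem, fun σ _ => map_zero σ⟩
  one_mem' := ⟨A.one_mem, fun σ _ => map_one σ⟩
  add_mem' := by
    rintro x y ⟨hx, hx'⟩ ⟨hy, hy'⟩
    exact ⟨A.add_mem _ _ hx hy, fun σ hσ => by rw [map_add, hx' σ hσ, hy' σ hσ]⟩
  mul_mem' := by
    rintro x y ⟨hx, hx'⟩ ⟨hy, hy'⟩
    exact ⟨A.mul_mem _ _ hx hy, fun σ hσ => by rw [map_mul, hx' σ hσ, hy' σ hσ]⟩
  neg_mem' := by
    rintro x ⟨hx, hx'⟩
    exact ⟨A.neg_mem _ hx, fun σ hσ => by rw [map_neg, hx' σ hσ]⟩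

/-- the Laurent series with coefficients in `A ∩ Ω^H`. -/
def S36FI_T : Subring (LaurentSeries Ω) where
  carrier := {s | ∀ n, s.coeff n ∈ S36FI_R₀ A H}
  zero_mem' := fun n => by
    rw [HahnSeries.coeff_zero]
    exact Subring.zero_mem _
  one_mem' := fun n => by
    rw [HahnSeries.coeff_one]
    split_ifs
    · exact Subring.one_mem _
    · exact Subring.zero_mem _
  add_mem' := by
    intro x y hx hy n
    rw [HahnSeries.coeff_add]
    exact Subring.add_mem _ (hx n) (hy n)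
  mul_mem' := by
    intro x y hx hy n
    rw [HahnSeries.coeff_mul]
    exact Subring.sum_mem _ fun ij _ => Subring.mul_mem _ (hx _) (hy _)
  neg_mem' := by
    intro x hx n
    rw [HahnSeries.coeff_neg]
    exact Subring.neg_mem _ (hx n)

end series

section val

variable {q : ℕ} [hq : Fact q.Prime] (N : ℕ) [NeZero N] (A : ValuationSubring Ω)
  (H : Subgroup (Ω ≃ₐ[ℚ] Ω))

/-- the images of the monomials have coefficients in `A ∩ Ω^H`. -/
theorem S36FI_mon_mem_T (φ : ↥(modularFunctionFieldBar N) →+* LaurentSeries Ω)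
    (hgen : ∀ (d : ℕ) [NeZero d] (hd : d ∣ N) (n : ℤ), (φ (jBar N d hd)).coeff n ∈ A ∧
      ∀ σ ∈ H, σ ((φ (jBar N d hd)).coeff n) = (φ (jBar N d hd)).coeff n)
    {e : ↥(modularFunctionFieldBar N)} (he : e ∈ S36FI_mon N) : φ e ∈ S36FI_T A H := by
  induction he using Submonoid.closure_induction with
  | mem x hx =>
    obtain ⟨d, hne, hd, rfl⟩ := hx
    exact fun n => hgen d hd n
  | one =>
    rw [map_one]
    exact Subring.one_mem _
  | mul x y _ _ hx hy =>
    rw [map_mul]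
    exact Subring.mul_mem _ hx hy

/-- the image of an `Ω^H`-combination of monomials: coefficients in `Ω^H`, bounded. -/
theorem S36FI_comb (φ : ↥(modularFunctionFieldBar N) →+* LaurentSeries Ω)
    (hφc : ∀ c : Ω, φ (algebraMap Ω ↥(modularFunctionFieldBar N) c) = HahnSeries.C c)
    (hgen : ∀ (d : ℕ) [NeZero d] (hd : d ∣ N) (n : ℤ), (φ (jBar N d hd)).coeff n ∈ A ∧
      ∀ σ ∈ H, σ ((φ (jBar N d hd)).coeff n) = (φ (jBar N d hd)).coeff n)
    (n : ℕ) (e : Fin n → ↥(modularFunctionFieldBar N)) (a : Fin n → Ω)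
    (he : ∀ i, e i ∈ S36FI_mon N) (ha : ∀ i, a i ∈ (S36FI_act N H).fixK) :
    (∀ k, ∀ σ ∈ H, σ ((φ (∑ i, a i • e i)).coeff k) = (φ (∑ i, a i • e i)).coeff k) ∧
      ∃ c : Ω, c ≠ 0 ∧ ∀ k, c * (φ (∑ i, a i • e i)).coeff k ∈ A := by
  classical
  have hcoeff : ∀ k, (φ (∑ i, a i • e i)).coeff k = ∑ i, a i * (φ (e i)).coeff k := by
    intro k
    rw [map_sum]
    have h1 : ∀ i, φ (a i • e i) = a i • φ (e i) := by
      intro i
      rw [Algebra.smul_def, map_mul, hφc, HahnSeries.C_mul_eq_smul]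
    simp only [h1]
    rw [← HahnSeries.coeff.addMonoidHom_apply, map_sum]
    refine Finset.sum_congr rfl fun i _ => ?_
    rw [HahnSeries.coeff.addMonoidHom_apply, HahnSeries.coeff_smul, smul_eq_mul]
  refine ⟨fun k σ hσ => ?_, ?_⟩
  · rw [hcoeff, map_sum]
    refine Finset.sum_congr rfl fun i _ => ?_
    rw [map_mul, (S36FI_mem_fixK N H).mp (ha i) σ hσ,
      (S36FI_mon_mem_T N A H φ hgen (he i) k).2 σ hσ]
  · -- a common denominator
    let ci : Fin n → Ω := fun i => if a i ∈ A then 1 else (a i)⁻¹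
    have hci0 : ∀ i, ci i ≠ 0 := by
      intro i
      simp only [ci]
      split_ifs with h
      · exact one_ne_zero
      · refine inv_ne_zero ?_
        rintro h0
        exact h (h0 ▸ A.zero_mem)
    have hciA : ∀ i, ci i ∈ A := by
      intro i
      simp only [ci]
      split_ifs with h
      · exact A.one_mem
      · exact (A.mem_or_inv_mem (a i)).resolve_left h
    have hcia : ∀ i, ci i * a i ∈ A := by
      intro i
      simp only [ci]
      split_ifs with h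
      · rw [one_mul]; exact h
      · have h0 : a i ≠ 0 := by
          rintro h0
          exact h (h0 ▸ A.zero_mem)
        rw [inv_mul_cancel₀ h0]
        exact A.one_mem
    refine ⟨∏ i, ci i, Finset.prod_ne_zero_iff.mpr fun i _ => hci0 i, fun k => ?_⟩
    rw [hcoeff, Finset.mul_sum]
    refine A.toSubring.sum_mem fun i _ => ?_
    have h1 : (∏ j, ci j) * (a i * (φ (e i)).coeff k) =
        (∏ j ∈ Finset.univ.erase i, ci j) * ((ci i * a i) * (φ (e i)).coeff k) := by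
      rw [← Finset.mul_prod_erase Finset.univ ci (Finset.mem_univ i)]
      ring
    rw [h1]
    exact A.mul_mem _ _ (A.toSubring.prod_mem fun j _ => hciA j)
      (A.mul_mem _ _ (hcia i) (S36FI_mon_mem_T N A H φ hgen (he i) k).1)

/-- **the value of an `H`-fixed modular function along `φ` lies in the value group of
`L' = Ω^H`**: `f = c ·` (Gauss unit) with `c ∈ L'`. -/
theorem S36FI_val (hA : A.LiesOverPrime q) (m : ℕ) (hm : m ≠ 0)
    (hdisc : ∀ x : Ω, (∀ σ ∈ H, σ x = x) → x ≠ 0 →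
      ∃ k : ℤ, A.valuation (x ^ m * (q : Ω) ^ k) = 1)
    (φ : ↥(modularFunctionFieldBar N) →+* LaurentSeries Ω)
    (hφc : ∀ c : Ω, φ (algebraMap Ω ↥(modularFunctionFieldBar N) c) = HahnSeries.C c)
    (hgen : ∀ (d : ℕ) [NeZero d] (hd : d ∣ N) (n : ℤ), (φ (jBar N d hd)).coeff n ∈ A ∧
      ∀ σ ∈ H, σ ((φ (jBar N d hd)).coeff n) = (φ (jBar N d hd)).coeff n)
    (f : ↥(modularFunctionFieldBar N)) (hf : f ∈ (S36FI_act N H).fixF) (hf0 : f ≠ 0) :
    ∃ c : Ω, c ≠ 0 ∧ (∀ σ ∈ H, σ c = c) ∧ ∃ s₁ s₂ : LaurentSeries A,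
      S18_ρ A s₁ ≠ 0 ∧ S18_ρ A s₂ ≠ 0 ∧ φ f * S18_ι A s₂ = HahnSeries.C c * S18_ι A s₁ := by
  obtain ⟨n, e, a, b, he, -, ha, hb, hQ0, hfQ⟩ := S36FI_frac_X0 N H f hf
  have hP0 : (∑ i, a i • e i) ≠ 0 := by
    rw [← hfQ]
    exact mul_ne_zero hf0 hQ0
  have hπ0 : (q : Ω) ≠ 0 := by exact_mod_cast hq.out.ne_zero
  have hπ : (q : Ω) ∈ A.nonunits := hA
  obtain ⟨hPfix, hPb⟩ := S36FI_comb N A H φ hφc hgen n e a he ha
  obtain ⟨hQfix, hQb⟩ := S36FI_comb N A H φ hφc hgen n e b he hb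
  have hdisc' : ∀ x ∈ {x : Ω | ∀ σ ∈ H, σ x = x}, x ≠ 0 →
      ∃ k : ℤ, A.valuation (x ^ m * (q : Ω) ^ k) = 1 := fun x hx hx0 => hdisc x hx hx0
  obtain ⟨c₁, hc₁0, hc₁, s₁, hs₁, e₁⟩ := S36FI_prim A (q : Ω) hπ0 hπ (S36FI_arch A hA)
    {x : Ω | ∀ σ ∈ H, σ x = x} m hm hdisc' (φ (∑ i, a i • e i))
    ((map_ne_zero φ).mpr hP0) hPfix hPb
  obtain ⟨c₂, hc₂0, hc₂, s₂, hs₂, e₂⟩ := S36FI_prim A (q : Ω) hπ0 hπ (S36FI_arch A hA)
    {x : Ω | ∀ σ ∈ H, σ x = x} m hm hdisc' (φ (∑ i, b i • e i))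
    ((map_ne_zero φ).mpr hQ0) hQfix hQb
  refine ⟨c₁ / c₂, div_ne_zero hc₁0 hc₂0, fun σ hσ => by rw [map_div₀, hc₁ σ hσ, hc₂ σ hσ],
    s₁, s₂, hs₁, hs₂, ?_⟩
  have hC : (HahnSeries.C c₂ : LaurentSeries Ω) ≠ 0 := by
    rw [Ne, map_eq_zero]
    exact hc₂0
  have h := congrArg φ hfQ
  rw [map_mul, e₁, e₂] at h
  apply mul_left_cancel₀ hC
  have e : (HahnSeries.C c₂ : LaurentSeries Ω) * (HahnSeries.C (c₁ / c₂) * S18_ι A s₁) =
      HahnSeries.C c₁ * S18_ι A s₁ := by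
    rw [← mul_assoc, ← map_mul, mul_div_cancel₀ _ hc₂0]
  rw [e, ← h]
  ring

end val

end Fermat.Agent.S36
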