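import Mathlib
import Fermat.Agent.S36.OrdQ
import Fermat.Agent.S36.OrdQFrob
import Fermat.Agent.S36.FixLInst
import Fermat.Agent.S18.ValDefs

/-!
# TRACK 10 (S36), package FROB-RAT (helper24), part 1: rational Gauss-integral functions

`A ⊂ ℚ̄` a valuation subring of residue characteristic `q`, `k` its residue field.

* `S36FR_prim` : the primitive part of a non-zero series over `ℤ`: `x = q^m · x'`, `x' mod q ≠ 0`;
* `S36FR_rep_series` : a Gauss-integral series `s` (a fraction `ι s₁ / ι s₂`, `ρ s₂ ≠ 0`) which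
  is a fraction of INTEGER series is a fraction `a / b` of integer series with `b mod q ≠ 0`;
* `S36FR_QInt` : series that become integer series after multiplication by a non-zero integer;
  closed under sums and rational multiples (`S36FR_QInt_sum`);
* `S36FR_mon_int` : the monomials in the generators `j(t^d)` are integer series;
* **`S36FR_rep`** : every `τ ∈ S18_O A N` with RATIONAL `q`-expansion coefficients satisfies
  `τ · ι_ℤ b = ι_ℤ a` with `a, b ∈ ℤ((t))`, `b mod q ≠ 0`;
* `S36FR_frob_frac` : **Frobenius congruence for fractions of integer series**: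
  `x · ι_ℤ b = ι_ℤ a`, `b mod q ≠ 0` ⇒ `(x(t^q) - x^q) · ι_ℤ d = q · ι_ℤ c`, `d mod q ≠ 0`;
* `S36FR_red_frob` : the reduction `ā / b̄` of such a fraction satisfies `x̄(t^q) = x̄^q`.
-/

set_option autoImplicit false
set_option linter.unusedSectionVars false

open HahnSeries ModularCurve

noncomputable section

namespace Fermat.Agent.S36

open Fermat.Agent.S18 Fermat.Agent.S24 Fermat.Agent.Lib

local notation "Qb" => AlgebraicClosure ℚ

/-! ### the primitive part -/

/-- the primitive part of a non-zero series over `ℤ` at the prime `q`. -/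
theorem S36FR_prim (q : ℕ) [Fact q.Prime] (k : Type*) [CommRing k] [CharP k q]
    (x : LaurentSeries ℤ) (hx : x ≠ 0) :
    ∃ (m : ℕ) (x' : LaurentSeries ℤ), x = HahnSeries.C ((q : ℤ) ^ m) * x' ∧
      coeffMap (Int.castRingHom k) x' ≠ 0 := by
  have hq : q.Prime := Fact.out
  obtain ⟨n₀, hn₀⟩ : ∃ n₀, x.coeff n₀ ≠ 0 := by
    by_contra h
    apply hx
    ext n
    rw [HahnSeries.coeff_zero]
    by_contra hn
    exact h ⟨n, hn⟩
  -- strong induction on the absolute value of the coefficient
  suffices H : ∀ (B : ℕ) (x : LaurentSeries ℤ), (x.coeff n₀).natAbs ≤ B → x.coeff n₀ ≠ 0 →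
      ∃ (m : ℕ) (x' : LaurentSeries ℤ), x = HahnSeries.C ((q : ℤ) ^ m) * x' ∧
        coeffMap (Int.castRingHom k) x' ≠ 0 from H _ x le_rfl hn₀
  intro B
  induction B with
  | zero =>
    intro x hB hx0
    exact absurd (Int.natAbs_eq_zero.mp (Nat.le_zero.mp hB)) hx0
  | succ B ih =>
    intro x hB hx0
    by_cases hred : coeffMap (Int.castRingHom k) x = 0
    · have hdvd : ∀ n, (q : ℤ) ∣ x.coeff n := by
        intro n
        have h1 := congrArg (fun y : LaurentSeries k => y.coeff n) hred
        simp only [coeffMap_coeff, HahnSeries.coeff_zero] at h1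
        exact (CharP.intCast_eq_zero_iff k q _).mp h1
      obtain ⟨γ, hγ⟩ := S36OQ_exists_div (q : ℤ) x hdvd
      have hc : x.coeff n₀ = (q : ℤ) * γ.coeff n₀ := by
        rw [hγ, HahnSeries.C_apply, HahnSeries.coeff_single_zero_mul]
      have hγ0 : γ.coeff n₀ ≠ 0 := by
        intro h0
        apply hx0
        rw [hc, h0, mul_zero]
      have hlt : (γ.coeff n₀).natAbs ≤ B := by
        have h2 : (x.coeff n₀).natAbs = q * (γ.coeff n₀).natAbs := by
          rw [hc, Int.natAbs_mul, Int.natAbs_natCast]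
        have h3 : 0 < (γ.coeff n₀).natAbs := Int.natAbs_pos.mpr hγ0
        have h4 : 2 ≤ q := hq.two_le
        have h5 : 2 * (γ.coeff n₀).natAbs ≤ q * (γ.coeff n₀).natAbs :=
          Nat.mul_le_mul_right _ h4
        omega
      obtain ⟨m, x', hx', hne⟩ := ih γ hlt hγ0
      refine ⟨m + 1, x', ?_, hne⟩
      rw [hγ, hx', ← mul_assoc, ← map_mul, pow_succ']
    · exact ⟨0, x, by rw [pow_zero, map_one, one_mul], hred⟩

/-! ### integer series inside `A((t))` and `ℚ̄((t))` -/

variable (A : ValuationSubring Qb)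

/-- `ι (x mod A) = x` for an integer series. -/
theorem S36FR_iota_int (x : LaurentSeries ℤ) :
    S18_ι A (coeffMap (Int.castRingHom A) x) = coeffMap (Int.castRingHom Qb) x := by
  show coeffMap A.subtype (coeffMap (Int.castRingHom A) x) = _
  rw [coeffMap_coeffMap, RingHom.ext_int (A.subtype.comp (Int.castRingHom A)) (Int.castRingHom Qb)]

/-- `ρ (x mod A) = x mod q` for an integer series. -/
theorem S36FR_rho_int (x : LaurentSeries ℤ) :
    S18_ρ A (coeffMap (Int.castRingHom A) x) =
      coeffMap (Int.castRingHom (IsLocalRing.ResidueField A)) x := by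
  show coeffMap (IsLocalRing.residue A) (coeffMap (Int.castRingHom A) x) = _
  rw [coeffMap_coeffMap, RingHom.ext_int ((IsLocalRing.residue A).comp (Int.castRingHom A))
    (Int.castRingHom (IsLocalRing.ResidueField A))]

theorem S36FR_iZ_injective : Function.Injective (coeffMap (Int.castRingHom Qb)) := by
  intro x y h
  ext n
  have h1 := congrArg (fun z : LaurentSeries Qb => z.coeff n) h
  simp only [coeffMap_coeff] at h1
  exact Int.cast_injective h1

/-- **a Gauss-integral fraction of integer series is a fraction with primitive denominator.** -/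
theorem S36FR_rep_series (q : ℕ) [Fact q.Prime] [CharP (IsLocalRing.ResidueField A) q]
    (s : LaurentSeries Qb)
    (hs : ∃ s₁ s₂ : LaurentSeries A, S18_ρ A s₂ ≠ 0 ∧ s * S18_ι A s₂ = S18_ι A s₁)
    (P Q : LaurentSeries ℤ) (hQ : Q ≠ 0)
    (h : s * coeffMap (Int.castRingHom Qb) Q = coeffMap (Int.castRingHom Qb) P) :
    ∃ a b : LaurentSeries ℤ, coeffMap (Int.castRingHom (IsLocalRing.ResidueField A)) b ≠ 0 ∧
      s * coeffMap (Int.castRingHom Qb) b = coeffMap (Int.castRingHom Qb) a := by
  have hq : q.Prime := Fact.out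
  have hq0 : (HahnSeries.C ((q : ℤ) : Qb) : LaurentSeries Qb) ≠ 0 := by
    intro h0
    have h1 := congrArg (fun z : LaurentSeries Qb => z.coeff 0) h0
    simp only [HahnSeries.C_apply, HahnSeries.coeff_single_same, HahnSeries.coeff_zero] at h1
    exact hq.ne_zero (by exact_mod_cast h1)
  have hCpow : ∀ m : ℕ, coeffMap (Int.castRingHom Qb) (HahnSeries.C ((q : ℤ) ^ m)) =
      (HahnSeries.C ((q : ℤ) : Qb) : LaurentSeries Qb) ^ m := by
    intro m
    rw [S36OQ_coeffMap_C, ← map_pow]
    congr 1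
    simp
  by_cases hP : P = 0
  · -- `s = 0`
    have hQ' : coeffMap (Int.castRingHom Qb) Q ≠ 0 := by
      intro h0
      apply hQ
      apply S36FR_iZ_injective
      rw [h0, map_zero]
    have hs0 : s = 0 := by
      rw [hP, map_zero] at h
      exact (mul_eq_zero.mp h).resolve_right hQ'
    refine ⟨0, 1, ?_, ?_⟩
    · rw [map_one]
      exact one_ne_zero
    · rw [hs0, zero_mul, map_zero]
  · obtain ⟨m, P', hP', hPne⟩ := S36FR_prim q (IsLocalRing.ResidueField A) P hP
    obtain ⟨n, Q', hQ', hQne⟩ := S36FR_prim q (IsLocalRing.ResidueField A) Q hQ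
    have hkey : s * coeffMap (Int.castRingHom Qb) Q' *
        (HahnSeries.C ((q : ℤ) : Qb) : LaurentSeries Qb) ^ n =
        coeffMap (Int.castRingHom Qb) P' * (HahnSeries.C ((q : ℤ) : Qb) : LaurentSeries Qb) ^ m := by
      rw [hP', hQ', map_mul, map_mul, hCpow, hCpow] at h
      linear_combination h
    rcases le_or_gt n m with hnm | hnm
    · refine ⟨HahnSeries.C ((q : ℤ) ^ (m - n)) * P', Q', hQne, ?_⟩
      rw [map_mul, hCpow]
      have hm : m = (m - n) + n := by omega
      rw [hm, _root_.pow_add] at hkey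
      have hcancel := mul_right_cancel₀ (pow_ne_zero n hq0)
        (show s * coeffMap (Int.castRingHom Qb) Q' *
            (HahnSeries.C ((q : ℤ) : Qb) : LaurentSeries Qb) ^ n =
          ((HahnSeries.C ((q : ℤ) : Qb) : LaurentSeries Qb) ^ (m - n) *
            coeffMap (Int.castRingHom Qb) P') *
            (HahnSeries.C ((q : ℤ) : Qb) : LaurentSeries Qb) ^ n by
          rw [hkey]; ring)
      rw [hcancel]
    · -- impossible: `s` would not be Gauss-integral
      exfalso
      obtain ⟨s₁, s₂, hne, hs12⟩ := hs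
      have hn : n = (n - m - 1) + 1 + m := by omega
      rw [hn, _root_.pow_add] at hkey
      have hkey' : s * coeffMap (Int.castRingHom Qb) Q' *
          (HahnSeries.C ((q : ℤ) : Qb) : LaurentSeries Qb) ^ (n - m - 1 + 1) =
          coeffMap (Int.castRingHom Qb) P' := by
        apply mul_right_cancel₀ (pow_ne_zero m hq0)
        rw [← hkey]
        ring
      have h1 : S18_ι A (coeffMap (Int.castRingHom A) P' * s₂) =
          S18_ι A (HahnSeries.C ((q : ℤ) : A) ^ (n - m - 1 + 1) * s₁ *
            coeffMap (Int.castRingHom A) Q') := by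
        rw [map_mul, map_mul, map_mul, map_pow, S36FR_iota_int, S36FR_iota_int, ← hkey', ← hs12]
        have hC : S18_ι A (HahnSeries.C ((q : ℤ) : A)) =
            (HahnSeries.C ((q : ℤ) : Qb) : LaurentSeries Qb) := by
          show coeffMap A.subtype _ = _
          rw [S36OQ_coeffMap_C]
          congr 1
        rw [hC]
        ring
      have h2 := S18_ι_injective A h1
      have h3 := congrArg (S18_ρ A) h2
      rw [map_mul, map_mul, map_mul, map_pow, S36FR_rho_int, S36FR_rho_int] at h3
      have hCq : S18_ρ A (HahnSeries.C ((q : ℤ) : A)) = 0 := by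
        show coeffMap (IsLocalRing.residue A) _ = _
        rw [S36OQ_coeffMap_C]
        have : IsLocalRing.residue A ((q : ℤ) : A) = 0 := by
          rw [map_intCast]
          exact_mod_cast CharP.cast_eq_zero (IsLocalRing.ResidueField A) q
        rw [this, map_zero]
      rw [hCq, zero_pow (Nat.succ_ne_zero _), zero_mul, zero_mul] at h3
      rcases mul_eq_zero.mp h3 with h4 | h4
      · exact hPne h4
      · exact hne h4

/-! ### series with bounded rational coefficients -/

/-- a series which becomes an integer series after multiplication by a non-zero integer. -/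
def S36FR_QInt (s : LaurentSeries Qb) : Prop :=
  ∃ (D : ℤ) (x : LaurentSeries ℤ), D ≠ 0 ∧
    HahnSeries.C ((D : ℤ) : Qb) * s = coeffMap (Int.castRingHom Qb) x

theorem S36FR_QInt_of_int (x : LaurentSeries ℤ) :
    S36FR_QInt (coeffMap (Int.castRingHom Qb) x) :=
  ⟨1, x, one_ne_zero, by rw [Int.cast_one, map_one, one_mul]⟩

theorem S36FR_QInt_zero : S36FR_QInt 0 :=
  ⟨1, 0, one_ne_zero, by rw [mul_zero, map_zero]⟩

theorem S36FR_QInt_add {s t : LaurentSeries Qb} (hs : S36FR_QInt s) (ht : S36FR_QInt t) :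
    S36FR_QInt (s + t) := by
  obtain ⟨D₁, x₁, hD₁, h₁⟩ := hs
  obtain ⟨D₂, x₂, hD₂, h₂⟩ := ht
  refine ⟨D₁ * D₂, HahnSeries.C D₂ * x₁ + HahnSeries.C D₁ * x₂, mul_ne_zero hD₁ hD₂, ?_⟩
  rw [map_add, map_mul, map_mul, S36OQ_coeffMap_C, S36OQ_coeffMap_C, ← h₁, ← h₂, Int.cast_mul,
    map_mul]
  simp only [eq_intCast]
  ring

theorem S36FR_QInt_rat_mul (c : ℚ) {s : LaurentSeries Qb} (hs : S36FR_QInt s) :
    S36FR_QInt (HahnSeries.C (algebraMap ℚ Qb c) * s) := by
  obtain ⟨D, x, hD, h⟩ := hs
  refine ⟨(c.den : ℤ) * D, HahnSeries.C c.num * x,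
    mul_ne_zero (by exact_mod_cast c.den_nz) hD, ?_⟩
  rw [map_mul, S36OQ_coeffMap_C, ← h, Int.cast_mul, map_mul]
  have hc : (HahnSeries.C (((c.den : ℤ) : Qb)) : LaurentSeries Qb) *
      HahnSeries.C (algebraMap ℚ Qb c) = HahnSeries.C (((c.num : ℤ) : Qb)) := by
    rw [← map_mul]
    congr 1
    have h1 : ((c.den : ℤ) : Qb) = algebraMap ℚ Qb (c.den : ℚ) := by
      rw [Int.cast_natCast, map_natCast]
    have h2 : ((c.num : ℤ) : Qb) = algebraMap ℚ Qb (c.num : ℚ) := by
      rw [map_intCast]
    rw [h1, h2, ← map_mul]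
    congr 1
    rw [mul_comm]
    exact Rat.mul_den_eq_num c
  simp only [eq_intCast]
  linear_combination (HahnSeries.C ((D : ℤ) : Qb) * s) * hc

theorem S36FR_QInt_sum {ι : Type*} (t : Finset ι) (f : ι → LaurentSeries Qb)
    (h : ∀ i ∈ t, S36FR_QInt (f i)) : S36FR_QInt (∑ i ∈ t, f i) := by
  classical
  induction t using Finset.induction_on with
  | empty =>
    rw [Finset.sum_empty]
    exact S36FR_QInt_zero
  | insert a t ha ih =>
    rw [Finset.sum_insert ha]
    exact S36FR_QInt_add (h a (Finset.mem_insert_self a t))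
      (ih fun i hi => h i (Finset.mem_insert_of_mem hi))

/-! ### the monomials in the `j(t^d)` are integer series -/

variable (N : ℕ) [NeZero N]

theorem S36FR_jBar_int (d : ℕ) [NeZero d] (hd : d ∣ N) :
    ((jBar N d hd : ↥(modularFunctionFieldBar N)) : LaurentSeries Qb) =
      coeffMap (Int.castRingHom Qb) (jqNModC ℤ d) := by
  rw [coeffMap_jqNModC]
  show coeffEmb Qb (jqNModC ℚ d) = _
  exact coeffMap_jqNModC _ d

theorem S36FR_mon_int {e : ↥(modularFunctionFieldBar N)} (he : e ∈ S36FI_mon N) :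
    ∃ x : LaurentSeries ℤ, (e : LaurentSeries Qb) = coeffMap (Int.castRingHom Qb) x := by
  induction he using Submonoid.closure_induction with
  | mem x hx =>
    obtain ⟨d, hne, hd, rfl⟩ := hx
    exact ⟨jqNModC ℤ d, S36FR_jBar_int N d hd⟩
  | one => exact ⟨1, by rw [map_one]; rfl⟩
  | mul x y _ _ hx hy =>
    obtain ⟨a, ha⟩ := hx
    obtain ⟨b, hb⟩ := hy
    refine ⟨a * b, ?_⟩
    rw [map_mul, ← ha, ← hb]
    rfl

/-! ### the representation theorem -/

/-- **rational Gauss-integral functions are fractions of integer series with primitive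
denominator.** -/
theorem S36FR_rep (q : ℕ) [Fact q.Prime] [CharP (IsLocalRing.ResidueField A) q]
    (τ : ↥(modularFunctionFieldBar N))
    (hrat : ∀ n, (τ : LaurentSeries Qb).coeff n ∈ Set.range (algebraMap ℚ Qb))
    (hτ : ∃ s₁ s₂ : LaurentSeries A, S18_ρ A s₂ ≠ 0 ∧
      (τ : LaurentSeries Qb) * S18_ι A s₂ = S18_ι A s₁) :
    ∃ a b : LaurentSeries ℤ, coeffMap (Int.castRingHom (IsLocalRing.ResidueField A)) b ≠ 0 ∧
      (τ : LaurentSeries Qb) * coeffMap (Int.castRingHom Qb) b =
        coeffMap (Int.castRingHom Qb) a := by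
  classical
  -- `τ` is fixed by the whole Galois group
  have hfix : τ ∈ (S36FI_act N (⊤ : Subgroup (Qb ≃ₐ[ℚ] Qb))).fixF := by
    rw [S36FI_mem_fixF_iff_coeff]
    intro k
    rw [S36FI_mem_fixK]
    intro σ _
    obtain ⟨r, hr⟩ := hrat k
    rw [← hr]
    exact σ.commutes r
  obtain ⟨n, e, a, b, he, -, ha, hb, hQ0, hfrac⟩ := S36FI_frac_X0 N ⊤ τ hfix
  -- the elements fixed by the whole Galois group are rational
  have hrat' : ∀ c : Qb, c ∈ (S36FI_act N (⊤ : Subgroup (Qb ≃ₐ[ℚ] Qb))).fixK →
      c ∈ Set.range (algebraMap ℚ Qb) := by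
    intro c hc
    have : IsAlgClosure ℚ Qb := ⟨inferInstance, AlgebraicClosure.isAlgebraic ℚ⟩
    have : IsGalois ℚ Qb := IsAlgClosure.isGalois ℚ Qb
    rw [InfiniteGalois.mem_range_algebraMap_iff_fixed]
    intro σ
    exact (S36FI_mem_fixK N ⊤).1 hc σ (Subgroup.mem_top σ)
  -- the series of a combination
  have hcoe : ∀ c : Fin n → Qb,
      ((∑ i, c i • e i : ↥(modularFunctionFieldBar N)) : LaurentSeries Qb) =
        ∑ i, HahnSeries.C (c i) * ((e i : ↥(modularFunctionFieldBar N)) : LaurentSeries Qb) := by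
    intro c
    have h0 : ∀ x : ↥(modularFunctionFieldBar N),
        (x : LaurentSeries Qb) = (modularFunctionFieldBar N).val x := fun _ => rfl
    rw [h0, map_sum]
    refine Finset.sum_congr rfl fun i _ => ?_
    rw [Algebra.smul_def (c i) (e i), map_mul, AlgHom.commutes,
      algebraMap_laurentSeries_eq_single]
    rfl
  have hsum : ∀ c : Fin n → Qb,
      (∀ i, c i ∈ (S36FI_act N (⊤ : Subgroup (Qb ≃ₐ[ℚ] Qb))).fixK) →
      S36FR_QInt (((∑ i, c i • e i : ↥(modularFunctionFieldBar N)) : LaurentSeries Qb)) := by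
    intro c hc
    rw [hcoe]
    apply S36FR_QInt_sum
    intro i _
    obtain ⟨r, hr⟩ := hrat' (c i) (hc i)
    obtain ⟨x, hx⟩ := S36FR_mon_int N (he i)
    rw [← hr, hx]
    exact S36FR_QInt_rat_mul r (S36FR_QInt_of_int x)
  obtain ⟨D₁, xP, hD₁, hP⟩ := hsum a ha
  obtain ⟨D₂, xQ, hD₂, hQ⟩ := hsum b hb
  have hfrac' : (τ : LaurentSeries Qb) *
      ((∑ i, b i • e i : ↥(modularFunctionFieldBar N)) : LaurentSeries Qb) =
      ((∑ i, a i • e i : ↥(modularFunctionFieldBar N)) : LaurentSeries Qb) :=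
    congrArg (fun x : ↥(modularFunctionFieldBar N) => (x : LaurentSeries Qb)) hfrac
  have hQ0' : ((∑ i, b i • e i : ↥(modularFunctionFieldBar N)) : LaurentSeries Qb) ≠ 0 := by
    intro h0
    exact hQ0 (Subtype.ext h0)
  have hC : ∀ D : ℤ, D ≠ 0 → (HahnSeries.C ((D : ℤ) : Qb) : LaurentSeries Qb) ≠ 0 := by
    intro D hD h0
    have h1 := congrArg (fun z : LaurentSeries Qb => z.coeff 0) h0
    simp only [HahnSeries.C_apply, HahnSeries.coeff_single_same, HahnSeries.coeff_zero] at h1
    exact hD (by exact_mod_cast h1)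
  apply S36FR_rep_series A q (τ : LaurentSeries Qb) hτ (HahnSeries.C D₂ * xP)
    (HahnSeries.C D₁ * xQ)
  · intro h0
    have h1 := congrArg (coeffMap (Int.castRingHom Qb)) h0
    rw [map_mul, S36OQ_coeffMap_C, ← hQ, map_zero] at h1
    simp only [eq_intCast] at h1
    rcases mul_eq_zero.mp h1 with h2 | h2
    · exact hC D₁ hD₁ h2
    · rcases mul_eq_zero.mp h2 with h3 | h3
      · exact hC D₂ hD₂ h3
      · exact hQ0' h3
  · rw [map_mul, map_mul, S36OQ_coeffMap_C, S36OQ_coeffMap_C, ← hP, ← hQ, ← hfrac']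
    simp only [eq_intCast]
    ring

/-! ### the Frobenius congruence for fractions of integer series -/

/-- **Frobenius congruence for fractions of integer series.** -/
theorem S36FR_frob_frac (q : ℕ) [Fact q.Prime] [NeZero q] (k : Type*) [Field k] [CharP k q]
    (x : LaurentSeries Qb) (a b : LaurentSeries ℤ)
    (hb : coeffMap (Int.castRingHom k) b ≠ 0)
    (h : x * coeffMap (Int.castRingHom Qb) b = coeffMap (Int.castRingHom Qb) a) :
    ∃ c d : LaurentSeries ℤ, coeffMap (Int.castRingHom k) d ≠ 0 ∧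
      (qExpand Qb q x - x ^ q) * coeffMap (Int.castRingHom Qb) d =
        HahnSeries.C ((q : ℤ) : Qb) * coeffMap (Int.castRingHom Qb) c := by
  obtain ⟨γa, hγa⟩ := S36OQ_frob_int q a
  obtain ⟨γb, hγb⟩ := S36OQ_frob_int q b
  refine ⟨γa * b ^ q - a ^ q * γb, qExpand ℤ q b * b ^ q, ?_, ?_⟩
  · rw [map_mul, map_pow, S36OQ_coeffMap_qExpand]
    refine mul_ne_zero ?_ (pow_ne_zero _ hb)
    exact (map_ne_zero_iff _ (qExpand k q).injective).2 hb
  · have h1 : qExpand Qb q x * coeffMap (Int.castRingHom Qb) (qExpand ℤ q b) =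
        coeffMap (Int.castRingHom Qb) (qExpand ℤ q a) := by
      rw [S36OQ_coeffMap_qExpand, S36OQ_coeffMap_qExpand, ← map_mul, h]
    have h2 : coeffMap (Int.castRingHom Qb) (qExpand ℤ q a) =
        coeffMap (Int.castRingHom Qb) a ^ q +
          HahnSeries.C ((q : ℤ) : Qb) * coeffMap (Int.castRingHom Qb) γa := by
      have := congrArg (coeffMap (Int.castRingHom Qb)) hγa
      rw [map_sub, map_pow, map_mul, S36OQ_coeffMap_C] at this
      simp only [eq_intCast] at this
      linear_combination this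
    have h3 : coeffMap (Int.castRingHom Qb) (qExpand ℤ q b) =
        coeffMap (Int.castRingHom Qb) b ^ q +
          HahnSeries.C ((q : ℤ) : Qb) * coeffMap (Int.castRingHom Qb) γb := by
      have := congrArg (coeffMap (Int.castRingHom Qb)) hγb
      rw [map_sub, map_pow, map_mul, S36OQ_coeffMap_C] at this
      simp only [eq_intCast] at this
      linear_combination this
    rw [map_mul, map_pow, map_sub, map_mul, map_mul, map_pow, map_pow]
    have h4 : x ^ q * coeffMap (Int.castRingHom Qb) b ^ q = coeffMap (Int.castRingHom Qb) a ^ q := by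
      rw [← mul_pow, h]
    rw [h3] at h1 ⊢
    rw [h2] at h1
    linear_combination (coeffMap (Int.castRingHom Qb) b ^ q) * h1 -
      (coeffMap (Int.castRingHom Qb) b ^ q +
        HahnSeries.C ((q : ℤ) : Qb) * coeffMap (Int.castRingHom Qb) γb) * h4

/-- the reduction of a fraction of integer series is fixed by the coefficientwise Frobenius:
`x̄(t^q) = x̄^q`. -/
theorem S36FR_red_frob (q : ℕ) [Fact q.Prime] [NeZero q] (k : Type*) [Field k] [CharP k q]
    (a b : LaurentSeries ℤ) :
    qExpand k q (coeffMap (Int.castRingHom k) a / coeffMap (Int.castRingHom k) b) =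
      (coeffMap (Int.castRingHom k) a / coeffMap (Int.castRingHom k) b) ^ q := by
  rw [map_div₀, div_pow, S36OQ_pow_char_int q a, S36OQ_pow_char_int q b]

end Fermat.Agent.S36
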