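import Fermat.Agent.S36.Triv3Ss

/-!
# TRACK 10 (S36), AUDIT FINDING 1 (helper19): the chart coordinate is NOT separating.
Prefix `S36GS_`.

Ruling D9: the charts of level `M q²` use the coordinate `x = B = j(t^q)`, whose three reductions
are `x₁ = x₂ = x₃ = j̄(t^q) = j̄ ^ q` — a `q`-th power, so `κ / k(x_j)` is NOT separable and the
hypotheses `[Algebra.IsSeparable k⟮x_j⟯ Fk_j]` of `S36TX_geo_U`, `S36TX_geo_U_ss` cannot be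
satisfied for the chart `S36CU_U S k j x₁ x₂ x₃ n hn` with `x_j = red_j B`.

The fix: a second, separating coordinate `w_j` (`= j̄`) with the same regularity locus,
`Q.adicValuation x_j ≤ 1 ↔ Q.adicValuation w_j ≤ 1` (e.g. `x_j = w_j ^ m`, `S36GS_val_pow`); the
Nullstellensatz (`S36TI_Geo.ofPlaces`) is applied to `w_j`.

* `S36GS_val_pow`, `S36GS_val_pow_of_eq` : `v (w ^ m) ≤ 1 ↔ v w ≤ 1`;
* `S36GS_mem_reg` : the chart ring `S34SB_reg k x` in terms of `w`;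
* `S36GS_geo_U_ss` : **`S36TX_geo_U_ss` with a separating coordinate `w_j`** (all other
  hypotheses unchanged);
* `S36GS_geo_U_pow` : the same with `x_j = w_j ^ m`.
-/

set_option autoImplicit false
set_option linter.unusedSectionVars false
set_option linter.style.haveILetI false

open AlgebraicCurve IntermediateField

namespace Fermat.Agent.S36

open Fermat.Agent.Lib Fermat.Agent.S18 Fermat.Agent.S34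

universe w

section val

variable {k κ : Type*} [Field k] [Field κ] [Algebra k κ]

/-- a power is regular at a place iff the base is. -/
theorem S36GS_val_pow (Q : Place k κ) (w : κ) {m : ℕ} (hm : m ≠ 0) :
    Q.adicValuation (w ^ m) ≤ 1 ↔ Q.adicValuation w ≤ 1 := by
  rw [map_pow]
  exact pow_le_one_iff hm

theorem S36GS_val_pow_of_eq {x w : κ} {m : ℕ} (hm : m ≠ 0) (h : x = w ^ m) (Q : Place k κ) :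
    Q.adicValuation x ≤ 1 ↔ Q.adicValuation w ≤ 1 := by
  rw [h]
  exact S36GS_val_pow Q w hm

/-- the chart ring of `x` in terms of a coordinate `w` with the same regularity locus. -/
theorem S36GS_mem_reg {x w : κ}
    (hxw : ∀ Q : Place k κ, Q.adicValuation x ≤ 1 ↔ Q.adicValuation w ≤ 1) (y : κ) :
    y ∈ S34SB_reg k x ↔
      ∀ Q : Place k κ, Q.adicValuation w ≤ 1 → Q.adicValuation y ≤ 1 := by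
  rw [S36CU_mem_reg_adic]
  exact forall_congr' fun Q => by rw [hxw Q]

end val

section conc

variable {k Fk₁ Fk₂ Fk₃ : Type*} [Field k]
  [Field Fk₁] [Field Fk₂] [Field Fk₃] [Algebra k Fk₁] [Algebra k Fk₂] [Algebra k Fk₃]
  {K₀ F₀ H₀ : Type*} [Field K₀] [Field F₀] [Algebra K₀ F₀] (S : S36FL_Act K₀ F₀ H₀)
  {T₁ : S18_Val ↥S.fixK ↥S.fixF k Fk₁} {T₂ : S18_Val ↥S.fixK ↥S.fixF k Fk₂}
  {T₃ : S18_Val ↥S.fixK ↥S.fixF k Fk₃}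

/-- **the geometric inputs of the chart `U = {j ≠ ∞}`** (bundles split by type of point), with
a separating coordinate `w_j` on each component in addition to the chart coordinate `x_j`. -/
theorem S36GS_geo_U_ss (hT : S36L3_Same T₁ T₂ T₃) [IsAlgClosed k]
    (j : ↥S.fixF) (x₁ : Fk₁) (x₂ : Fk₂) (x₃ : Fk₃) (n : ℕ) (hn : 0 < n)
    {ι : Type*} {X : S36SE_Pts k Fk₁ Fk₂ Fk₃ ι}
    {hC : S36SE_Reg (S36CU_U S k j x₁ x₂ x₃ n hn) X}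
    {Kp : Subgroup (↥S.fixF)ˣ} (hKp : Kp ≤ S36L3_NormGrp T₁ T₂ T₃)
    -- RBAR, for the separating coordinates
    (h₁ : RR_Hyp k Fk₁) (h₂ : RR_Hyp k Fk₂) (h₃ : RR_Hyp k Fk₃)
    (w₁ : Fk₁) (w₂ : Fk₂) (w₃ : Fk₃)
    (hxw₁ : ∀ Q : Place k Fk₁, Q.adicValuation x₁ ≤ 1 ↔ Q.adicValuation w₁ ≤ 1)
    (hxw₂ : ∀ Q : Place k Fk₂, Q.adicValuation x₂ ≤ 1 ↔ Q.adicValuation w₂ ≤ 1)
    (hxw₃ : ∀ Q : Place k Fk₃, Q.adicValuation x₃ ≤ 1 ↔ Q.adicValuation w₃ ≤ 1)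
    (c₁ : Place k Fk₁) (c₂ : Place k Fk₂) (c₃ : Place k Fk₃)
    (hc₁ : c₁.ord w₁ < 0) (hc₂ : c₂.ord w₂ < 0) (hc₃ : c₃.ord w₃ < 0)
    (hw₁ : Transcendental k w₁) (hw₂ : Transcendental k w₂) (hw₃ : Transcendental k w₃)
    [FiniteDimensional k⟮w₁⟯ Fk₁] [Algebra.IsSeparable k⟮w₁⟯ Fk₁]
    [FiniteDimensional k⟮w₂⟯ Fk₂] [Algebra.IsSeparable k⟮w₂⟯ Fk₂]
    [FiniteDimensional k⟮w₃⟯ Fk₃] [Algebra.IsSeparable k⟮w₃⟯ Fk₃]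
    -- NODAL3-INST + EVAL-INST
    (hW1 : ∀ m ∈ S36L3_W hT (S36CU_U S k j x₁ x₂ x₃ n hn) 1, ∀ y,
      S36SE_e₁ (S36CU_U S k j x₁ x₂ x₃ n hn) X hC y m.1 =
        S36SE_e₂ (S36CU_U S k j x₁ x₂ x₃ n hn) X hC y m.2.1 ∧
      S36SE_e₁ (S36CU_U S k j x₁ x₂ x₃ n hn) X hC y m.1 =
        S36SE_e₃ (S36CU_U S k j x₁ x₂ x₃ n hn) X hC y m.2.2)
    (hint₁ : ∀ g g' : ↥(S36CU_U S k j x₁ x₂ x₃ n hn).Rb₁,
      (∀ y, S36SE_e₁ (S36CU_U S k j x₁ x₂ x₃ n hn) X hC y g = 0) →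
      (∀ y, S36SE_e₁ (S36CU_U S k j x₁ x₂ x₃ n hn) X hC y g' = 0) →
      ((g * g', 0, 0) : ↥(S36CU_U S k j x₁ x₂ x₃ n hn).Rb₁ ×
        ↥(S36CU_U S k j x₁ x₂ x₃ n hn).Rb₂ × ↥(S36CU_U S k j x₁ x₂ x₃ n hn).Rb₃) ∈
        S36L3_W hT (S36CU_U S k j x₁ x₂ x₃ n hn) 1)
    (hint₂ : ∀ g g' : ↥(S36CU_U S k j x₁ x₂ x₃ n hn).Rb₂,
      (∀ y, S36SE_e₂ (S36CU_U S k j x₁ x₂ x₃ n hn) X hC y g = 0) →
      (∀ y, S36SE_e₂ (S36CU_U S k j x₁ x₂ x₃ n hn) X hC y g' = 0) →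
      ((0, g * g', 0) : ↥(S36CU_U S k j x₁ x₂ x₃ n hn).Rb₁ ×
        ↥(S36CU_U S k j x₁ x₂ x₃ n hn).Rb₂ × ↥(S36CU_U S k j x₁ x₂ x₃ n hn).Rb₃) ∈
        S36L3_W hT (S36CU_U S k j x₁ x₂ x₃ n hn) 1)
    (hint₃ : ∀ g g' : ↥(S36CU_U S k j x₁ x₂ x₃ n hn).Rb₃,
      (∀ y, S36SE_e₃ (S36CU_U S k j x₁ x₂ x₃ n hn) X hC y g = 0) →
      (∀ y, S36SE_e₃ (S36CU_U S k j x₁ x₂ x₃ n hn) X hC y g' = 0) →
      ((0, 0, g * g') : ↥(S36CU_U S k j x₁ x₂ x₃ n hn).Rb₁ ×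
        ↥(S36CU_U S k j x₁ x₂ x₃ n hn).Rb₂ × ↥(S36CU_U S k j x₁ x₂ x₃ n hn).Rb₃) ∈
        S36L3_W hT (S36CU_U S k j x₁ x₂ x₃ n hn) 1)
    (hsep : ∀ y, ∃ w ∈ S36L3_W hT (S36CU_U S k j x₁ x₂ x₃ n hn) 1,
      S36SE_e₁ (S36CU_U S k j x₁ x₂ x₃ n hn) X hC y w.1 = 1 ∧
      ∀ y', y' ≠ y → S36SE_e₁ (S36CU_U S k j x₁ x₂ x₃ n hn) X hC y' w.1 = 0)
    -- INT / FIN / LI-INST
    {Ω' F' : Type*} [Field Ω'] [Field F'] [Algebra Ω' F'] {ιw : Type*}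
    (E : S36IT_Fam Ω' F' ↥S.fixF ιw) [Finite ιw] [IsNoetherianRing E.Λ]
    (hle : E.Λ ≤ S36LJ_Lam T₁ T₂ T₃ (S36CU_U S k j x₁ x₂ x₃ n hn).B.toSubring)
    (R : S36LJ_Red (S₁ := T₁) (S₂ := T₂) (S₃ := T₃) (S36CU_U S k j x₁ x₂ x₃ n hn))
    (hOv : ∀ i : ιw, E.Ov i = T₁.O ∨ E.Ov i = T₂.O ∨ E.Ov i = T₃.O)
    (hfrac : ∀ x : ↥S.fixF, ∃ b : E.Λ, (b : ↥S.fixF) ≠ 0 ∧ (b : ↥S.fixF) * x ∈ E.Λ)
    (hsepH : ∀ u ∈ Kp, ∀ Q ∈ E.U, ∃ g : ↥S.fixF, g ≠ 0 ∧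
      (n : ℤ) * Q.ord (E.φ g) + Q.ord (E.φ ((u : (↥S.fixF)ˣ) : ↥S.fixF)) = 0 ∧
      ∀ Q' ∈ E.U, 0 ≤ (n : ℤ) * Q'.ord (E.φ g) + Q'.ord (E.φ ((u : (↥S.fixF)ˣ) : ↥S.fixF)))
    (hsepH0 : ∀ u ∈ Kp, ∃ g : ↥S.fixF, g ≠ 0 ∧
      ∀ Q' ∈ E.U, 0 ≤ (n : ℤ) * Q'.ord (E.φ g) + Q'.ord (E.φ ((u : (↥S.fixF)ˣ) : ↥S.fixF)))
    -- CART-INST, by type of point
    (hss : ∀ y : ι, S36TX_Bun.{w} E
      (S36LK_y₁ E hle R ((S36SE_e₁ (S36CU_U S k j x₁ x₂ x₃ n hn) X hC y :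
        ↥(S36CU_U S k j x₁ x₂ x₃ n hn).Rb₁ →ₐ[k] k) :
        ↥(S36CU_U S k j x₁ x₂ x₃ n hn).Rb₁ →+* k)))
    (hord₁ : ∀ (P : Place k Fk₁)
      (hP : ∀ f ∈ (S36CU_U S k j x₁ x₂ x₃ n hn).Rb₁, P.adicValuation f ≤ 1),
      (∀ y, P ≠ X.P₁ y) → S36TX_Bun.{w} E
        (S36LK_y₁ E hle R ((S36SE_ev (S36CU_U S k j x₁ x₂ x₃ n hn).Rb₁ P (h₁.deg_one P) hP :
          ↥(S36CU_U S k j x₁ x₂ x₃ n hn).Rb₁ →ₐ[k] k) :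
          ↥(S36CU_U S k j x₁ x₂ x₃ n hn).Rb₁ →+* k)))
    (hord₂ : ∀ (P : Place k Fk₂)
      (hP : ∀ f ∈ (S36CU_U S k j x₁ x₂ x₃ n hn).Rb₂, P.adicValuation f ≤ 1),
      (∀ y, P ≠ X.P₂ y) → S36TX_Bun.{w} E
        (S36LK_y₂ E hle R ((S36SE_ev (S36CU_U S k j x₁ x₂ x₃ n hn).Rb₂ P (h₂.deg_one P) hP :
          ↥(S36CU_U S k j x₁ x₂ x₃ n hn).Rb₂ →ₐ[k] k) :
          ↥(S36CU_U S k j x₁ x₂ x₃ n hn).Rb₂ →+* k)))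
    (hord₃ : ∀ (P : Place k Fk₃)
      (hP : ∀ f ∈ (S36CU_U S k j x₁ x₂ x₃ n hn).Rb₃, P.adicValuation f ≤ 1),
      (∀ y, P ≠ X.P₃ y) → S36TX_Bun.{w} E
        (S36LK_y₃ E hle R ((S36SE_ev (S36CU_U S k j x₁ x₂ x₃ n hn).Rb₃ P (h₃.deg_one P) hP :
          ↥(S36CU_U S k j x₁ x₂ x₃ n hn).Rb₃ →ₐ[k] k) :
          ↥(S36CU_U S k j x₁ x₂ x₃ n hn).Rb₃ →+* k))) :
    S36TI_Geo hT (S36CU_U S k j x₁ x₂ x₃ n hn) X hC Kp := by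
  have hR₁ : ∀ y : Fk₁, y ∈ (S36CU_U S k j x₁ x₂ x₃ n hn).Rb₁ ↔
      ∀ Q : Place k Fk₁, Q.adicValuation w₁ ≤ 1 → Q.adicValuation y ≤ 1 :=
    fun y => S36GS_mem_reg hxw₁ y
  have hR₂ : ∀ y : Fk₂, y ∈ (S36CU_U S k j x₁ x₂ x₃ n hn).Rb₂ ↔
      ∀ Q : Place k Fk₂, Q.adicValuation w₂ ≤ 1 → Q.adicValuation y ≤ 1 :=
    fun y => S36GS_mem_reg hxw₂ y
  have hR₃ : ∀ y : Fk₃, y ∈ (S36CU_U S k j x₁ x₂ x₃ n hn).Rb₃ ↔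
      ∀ Q : Place k Fk₃, Q.adicValuation w₃ ≤ 1 → Q.adicValuation y ≤ 1 :=
    fun y => S36GS_mem_reg hxw₃ y
  exact S36TI_Geo.ofPlaces hT hKp h₁ h₂ h₃ w₁ w₂ w₃ c₁ c₂ c₃ hc₁ hc₂ hc₃ hR₁ hR₂ hR₃
    hw₁ hw₂ hw₃ hW1 hint₁ hint₂ hint₃ hsep
    (S36TI_pl₁ hT E hle R hOv hfrac w₁ h₁.deg_one hR₁
      (S36TX_hB₁ E hle R h₁.deg_one hss hord₁) hKp hsepH hsepH0)
    (S36TI_pl₂ hT E hle R hOv hfrac w₂ h₂.deg_one hR₂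
      (S36TX_hB₂ hT E hle R h₂.deg_one hW1 hss hord₂) hKp hsepH hsepH0)
    (S36TI_pl₃ hT E hle R hOv hfrac w₃ h₃.deg_one hR₃
      (S36TX_hB₃ hT E hle R h₃.deg_one hW1 hss hord₃) hKp hsepH hsepH0)

end conc

end Fermat.Agent.S36
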