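import Fermat.Agent.S36.GlueAbs
import Fermat.Agent.S34.ValAB
import Fermat.Agent.S34.ValGen
import Fermat.Agent.S37.FinrankAlpha

/-!
# TRACK 10 (S36), package P-VAL3 (helper12), part 2: GLUE for `F_{M q²}` (`q ∤ M`)

Levels `M`, `N₁ = M q`, `N₂ = M q q`; `α', β' : F_M → F_{N₁}`, `α, β : F_{N₁} → F_{N₂}` the Prelude
maps, `w = S34DF_wq M q hq hqM` the Atkin–Lehner involution of `F_{N₁}`.

`S36V_glue`: ring maps `φ₁, φ₂ : F_{N₁} → Ω` (`Ω` a domain) with `φ₁ ∘ β' = φ₂ ∘ α'` and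
`φ₂ t ≠ φ₁ (w t)` for one `t` glue to a unique ring map `ι : F_{N₂} → Ω` with `ι ∘ α = φ₁`,
`ι ∘ β = φ₂`.  (`F_{N₁} ⊗_{F_M} F_{N₁} = F_{N₂} × F_{N₁}` by the degrees `q + 1` and `q`.)
-/

set_option autoImplicit false
set_option synthInstance.maxHeartbeats 400000
set_option maxHeartbeats 1000000
set_option linter.style.haveILetI false
set_option linter.unusedSectionVars false

open HahnSeries IntermediateField AlgebraicCurve ModularCurve

noncomputable section

namespace Fermat.Agent.S36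

open Fermat.Agent.S18 Fermat.Agent.S24 Fermat.Agent.S34 Fermat.Agent.S37 Fermat.Agent.GalRep

variable (M q : ℕ) [NeZero M] [NeZero q] (hq : q.Prime) (hqM : ¬ q ∣ M)

/-- `α ∘ β' = β ∘ α'` on `F_M`. -/
theorem S36V_alpha_beta' (g : ↥(modularFunctionFieldBar M)) :
    heckeAlphaBar (AlgebraicClosure ℚ) (M * q) q (heckeBetaBar (AlgebraicClosure ℚ) M q g) =
      heckeBetaBar (AlgebraicClosure ℚ) (M * q) q (heckeAlphaBar (AlgebraicClosure ℚ) M q g) := by
  apply Subtype.ext
  rw [coe_heckeAlphaBar, coe_heckeBetaBar, coe_heckeBetaBar, coe_heckeAlphaBar]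

/-- `F_{N₂}` is generated as a ring by `α F_{N₁} ∪ β F_{N₁}`. -/
theorem S36V_closure_top (hq : q.Prime) :
    Subring.closure
      (Set.range (heckeAlphaBar (AlgebraicClosure ℚ) (M * q) q).toRingHom ∪
        Set.range (heckeBetaBar (AlgebraicClosure ℚ) (M * q) q).toRingHom) = ⊤ := by
  letI := algebraAlong (heckeAlphaBar (AlgebraicClosure ℚ) (M * q) q)
  have h := S34VG_adjoin_top (M * q) q hq
  have h2 := congrArg Subalgebra.toSubring h
  rw [Algebra.adjoin_eq_ring_closure, Algebra.top_toSubring] at h2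
  rw [eq_top_iff, ← h2]
  apply Subring.closure_mono
  rintro x (⟨s, rfl⟩ | ⟨d, hd0, hd, rfl⟩)
  · exact Or.inl ⟨s, rfl⟩
  · exact Or.inr ⟨_, rfl⟩

include hq hqM in
/-- **GLUE** at level `M q²`. -/
theorem S36V_glue {Ω : Type*} [CommRing Ω] [IsDomain Ω]
    (φ₁ φ₂ : ↥(modularFunctionFieldBar (M * q)) →+* Ω)
    (hφ : ∀ g : ↥(modularFunctionFieldBar M),
      φ₁ (heckeBetaBar (AlgebraicClosure ℚ) M q g) = φ₂ (heckeAlphaBar (AlgebraicClosure ℚ) M q g))
    (hne : ∃ t, φ₂ t ≠ φ₁ (S34DF_wq M q hq hqM t)) :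
    ∃ ι : ↥(modularFunctionFieldBar (M * q * q)) →+* Ω,
      (∀ s, ι (heckeAlphaBar (AlgebraicClosure ℚ) (M * q) q s) = φ₁ s) ∧
      (∀ t, ι (heckeBetaBar (AlgebraicClosure ℚ) (M * q) q t) = φ₂ t) := by
  -- the two algebra structures of `F_{N₁}` over `F_M`
  let algβ : Algebra ↥(modularFunctionFieldBar M) ↥(modularFunctionFieldBar (M * q)) :=
    (heckeBetaBar (AlgebraicClosure ℚ) M q).toRingHom.toAlgebra
  let algα : Algebra ↥(modularFunctionFieldBar M) ↥(modularFunctionFieldBar (M * q)) :=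
    (heckeAlphaBar (AlgebraicClosure ℚ) M q).toRingHom.toAlgebra
  let w : @AlgHom ↥(modularFunctionFieldBar M) ↥(modularFunctionFieldBar (M * q))
      ↥(modularFunctionFieldBar (M * q)) _ _ _ algα algβ :=
    @AlgHom.mk ↥(modularFunctionFieldBar M) ↥(modularFunctionFieldBar (M * q))
      ↥(modularFunctionFieldBar (M * q)) _ _ _ algα algβ
      ((S34DF_wq M q hq hqM : ↥(modularFunctionFieldBar (M * q)) ≃ₐ[AlgebraicClosure ℚ]
        ↥(modularFunctionFieldBar (M * q))) : ↥(modularFunctionFieldBar (M * q)) →+*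
          ↥(modularFunctionFieldBar (M * q)))
      (fun r => S34VW_wq_alpha M q hq hqM r)
  have hfr : @Module.finrank ↥(modularFunctionFieldBar M) ↥(modularFunctionFieldBar (M * q)) _ _
      algα.toModule = q + 1 := S37P_finrank_alpha M q hq hqM
  have hfin : @Module.Finite ↥(modularFunctionFieldBar M) ↥(modularFunctionFieldBar (M * q)) _ _
      algα.toModule := by
    letI := algα
    exact Module.finite_of_finrank_pos (by rw [hfr]; omega)
  have hF : @Module.finrank ↥(modularFunctionFieldBar (M * q))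
      ↥(modularFunctionFieldBar (M * q * q)) _ _
      (heckeAlphaBar (AlgebraicClosure ℚ) (M * q) q).toRingHom.toAlgebra.toModule = q := by
    have h := S37P_finrank_alpha' (M * q) q hq
    rw [if_pos (dvd_mul_left q M)] at h
    exact h
  exact @S36V_glue_abs ↥(modularFunctionFieldBar M) ↥(modularFunctionFieldBar (M * q))
    ↥(modularFunctionFieldBar (M * q)) ↥(modularFunctionFieldBar (M * q * q)) Ω _ _ _ _ _ _
    algβ algα q hq.one_lt.ne'
    (heckeAlphaBar (AlgebraicClosure ℚ) (M * q) q).toRingHom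
    (heckeBetaBar (AlgebraicClosure ℚ) (M * q) q).toRingHom
    (fun r => S36V_alpha_beta' M q r) w hfin hfr hF (S36V_closure_top M q hq) φ₁ φ₂ hφ hne

/-- uniqueness in GLUE. -/
theorem S36V_glue_unique (hq : q.Prime) {Ω : Type*} [CommRing Ω]
    (ι ι' : ↥(modularFunctionFieldBar (M * q * q)) →+* Ω)
    (hα : ∀ s, ι (heckeAlphaBar (AlgebraicClosure ℚ) (M * q) q s) =
      ι' (heckeAlphaBar (AlgebraicClosure ℚ) (M * q) q s))
    (hβ : ∀ t, ι (heckeBetaBar (AlgebraicClosure ℚ) (M * q) q t) =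
      ι' (heckeBetaBar (AlgebraicClosure ℚ) (M * q) q t)) : ι = ι' := by
  have h : Subring.closure
      (Set.range (heckeAlphaBar (AlgebraicClosure ℚ) (M * q) q).toRingHom ∪
        Set.range (heckeBetaBar (AlgebraicClosure ℚ) (M * q) q).toRingHom) ≤
      RingHom.eqLocus ι ι' := by
    rw [Subring.closure_le]
    rintro x (⟨s, rfl⟩ | ⟨t, rfl⟩)
    · exact hα s
    · exact hβ t
  rw [S36V_closure_top M q hq] at h
  exact RingHom.ext fun x => h (Subring.mem_top x)

end Fermat.Agent.S36
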