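import Mathlib

/-!
# TRACK 10 (S36), package P-VAL3 (helper12), part 1: the abstract GLUE lemma

Pure algebra over Mathlib.  `R ⊂ S₁, S₂` fields (two copies of the level-`q` field over the
level-`1` field), `F` the level-`q²` field with `a : S₁ → F`, `b : S₂ → F` (`α`, `β`),
`w : S₂ → S₁` an `R`-algebra map (Atkin–Lehner).  If `[S₂ : R] = n + 1`, `[F : a S₁] = n ≠ 1`
and `F` is generated by `a S₁ ∪ b S₂`, then `S₁ ⊗_R S₂ = F × S₁` (the second factor is the
"diagonal" `s ⊗ t ↦ s · w t`), so: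

`S36V_glue_abs`: every pair `φ₁ : S₁ → Ω`, `φ₂ : S₂ → Ω` of ring maps into a domain which agree on
`R` and do NOT factor through the diagonal (`φ₂ t ≠ φ₁ (w t)` for one `t`) glues to a ring map
`ι : F → Ω` with `ι ∘ a = φ₁`, `ι ∘ b = φ₂`.
-/

set_option autoImplicit false
set_option linter.style.haveILetI false

open TensorProduct

namespace Fermat.Agent.S36

section GlueAbs

variable {R S₁ S₂ F Ω : Type*} [Field R] [Field S₁] [Field S₂] [Field F] [CommRing Ω] [IsDomain Ω]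
  [Algebra R S₁] [Algebra R S₂]

/-- **GLUE** (see the module docstring). -/
theorem S36V_glue_abs (n : ℕ) (hn : n ≠ 1)
    (a : S₁ →+* F) (b : S₂ →+* F)
    (hab : ∀ r : R, a (algebraMap R S₁ r) = b (algebraMap R S₂ r))
    (w : S₂ →ₐ[R] S₁)
    (hS₂fin : Module.Finite R S₂) (hS₂ : Module.finrank R S₂ = n + 1)
    (hF : @Module.finrank S₁ F _ _ a.toAlgebra.toModule = n)
    (hgen : Subring.closure (Set.range a ∪ Set.range b) = ⊤)
    (φ₁ : S₁ →+* Ω) (φ₂ : S₂ →+* Ω)
    (hφ : ∀ r : R, φ₁ (algebraMap R S₁ r) = φ₂ (algebraMap R S₂ r))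
    (hne : ∃ t : S₂, φ₂ t ≠ φ₁ (w t)) :
    ∃ ι : F →+* Ω, (∀ s, ι (a s) = φ₁ s) ∧ (∀ t, ι (b t) = φ₂ t) := by
  classical
  letI algF : Algebra R F := (a.comp (algebraMap R S₁)).toAlgebra
  letI algΩ : Algebra R Ω := (φ₁.comp (algebraMap R S₁)).toAlgebra
  letI algSF : Algebra S₁ F := a.toAlgebra
  let aA : S₁ →ₐ[R] F := { a with commutes' := fun r => rfl }
  let bA : S₂ →ₐ[R] F := { b with commutes' := fun r => (hab r).symm }
  let φ₁A : S₁ →ₐ[R] Ω := { φ₁ with commutes' := fun r => rfl }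
  let φ₂A : S₂ →ₐ[R] Ω := { φ₂ with commutes' := fun r => (hφ r).symm }
  let m : S₁ ⊗[R] S₂ →ₐ[R] F := Algebra.TensorProduct.productMap aA bA
  let d : S₁ ⊗[R] S₂ →ₐ[R] S₁ := Algebra.TensorProduct.productMap (AlgHom.id R S₁) w
  let Φ : S₁ ⊗[R] S₂ →ₐ[R] Ω := Algebra.TensorProduct.productMap φ₁A φ₂A
  have hm_tmul : ∀ s t, m (s ⊗ₜ[R] t) = a s * b t := fun s t => rfl
  have hd_tmul : ∀ s t, d (s ⊗ₜ[R] t) = s * w t := fun s t => rfl
  have hΦ_tmul : ∀ s t, Φ (s ⊗ₜ[R] t) = φ₁ s * φ₂ t := fun s t => rfl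
  -- `m` is onto
  have hm_surj : Function.Surjective m := by
    have hle : Subring.closure (Set.range a ∪ Set.range b) ≤ m.toRingHom.range := by
      rw [Subring.closure_le]
      rintro x (⟨s, rfl⟩ | ⟨t, rfl⟩)
      · exact ⟨s ⊗ₜ[R] 1, by show m (s ⊗ₜ[R] 1) = a s; rw [hm_tmul, map_one, mul_one]⟩
      · exact ⟨1 ⊗ₜ[R] t, by show m (1 ⊗ₜ[R] t) = b t; rw [hm_tmul, map_one, one_mul]⟩
    intro f
    have : f ∈ m.toRingHom.range := hle (by rw [hgen]; trivial)
    obtain ⟨x, hx⟩ := this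
    exact ⟨x, hx⟩
  -- the `S₁`-linear versions
  have hsmul : ∀ (s : S₁) (x : S₁ ⊗[R] S₂), s • x = (s ⊗ₜ[R] (1 : S₂)) * x := by
    intro s x
    rw [Algebra.smul_def, Algebra.TensorProduct.algebraMap_apply]
    rfl
  let mL : S₁ ⊗[R] S₂ →ₗ[S₁] F :=
    { toFun := m
      map_add' := map_add m
      map_smul' := fun s x => by
        show m (s • x) = s • m x
        rw [hsmul, map_mul, hm_tmul, map_one, mul_one, Algebra.smul_def]
        rfl }
  let dL : S₁ ⊗[R] S₂ →ₗ[S₁] S₁ :=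
    { toFun := d
      map_add' := map_add d
      map_smul' := fun s x => by
        show d (s • x) = s • d x
        rw [hsmul, map_mul, hd_tmul, map_one, mul_one, smul_eq_mul] }
  have hmL : ∀ x, mL x = m x := fun _ => rfl
  have hdL : ∀ x, dL x = d x := fun _ => rfl
  haveI : Module.Finite S₁ (S₁ ⊗[R] S₂) := Module.Finite.base_change R S₁ S₂
  have hT : Module.finrank S₁ (S₁ ⊗[R] S₂) = n + 1 := by
    rw [Module.finrank_baseChange, hS₂]
  -- dimensions of the kernels
  have hmLsurj : Function.Surjective mL := hm_surj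
  have hdLsurj : Function.Surjective dL := fun s =>
    ⟨s ⊗ₜ[R] 1, by show d (s ⊗ₜ[R] 1) = s; rw [hd_tmul, map_one, mul_one]⟩
  have hkm : Module.finrank S₁ (LinearMap.ker mL) = 1 := by
    have h := LinearMap.finrank_range_add_finrank_ker mL
    rw [LinearMap.range_eq_top.mpr hmLsurj, finrank_top, hT, hF] at h
    omega
  have hkd : Module.finrank S₁ (LinearMap.ker dL) = n := by
    have h := LinearMap.finrank_range_add_finrank_ker dL
    rw [LinearMap.range_eq_top.mpr hdLsurj, finrank_top, hT, Module.finrank_self] at h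
    omega
  -- `ker m ⊓ ker d = 0`
  have hinf : LinearMap.ker mL ⊓ LinearMap.ker dL = ⊥ := by
    by_contra hne0
    have hpos : 0 < Module.finrank S₁ ↥(LinearMap.ker mL ⊓ LinearMap.ker dL) := by
      rw [Module.finrank_pos_iff]
      exact (Submodule.nontrivial_iff_ne_bot).mpr hne0
    have hle : LinearMap.ker mL ⊓ LinearMap.ker dL ≤ LinearMap.ker mL := inf_le_left
    have heq : LinearMap.ker mL ⊓ LinearMap.ker dL = LinearMap.ker mL :=
      Submodule.eq_of_le_of_finrank_le hle (by rw [hkm]; exact hpos)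
    have hmd : LinearMap.ker mL ≤ LinearMap.ker dL := by
      rw [← heq]; exact inf_le_right
    -- maximality: `ker d ≤ ker m`
    have hdm : LinearMap.ker dL ≤ LinearMap.ker mL := by
      intro z hz
      rw [LinearMap.mem_ker, hdL] at hz
      rw [LinearMap.mem_ker, hmL]
      by_contra hmz
      obtain ⟨x', hx'⟩ := hm_surj (m z)⁻¹
      have h1 : m (z * x' - 1) = 0 := by
        rw [map_sub, map_mul, hx', mul_inv_cancel₀ hmz, map_one, sub_self]
      have h2 : d (z * x' - 1) = 0 := by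
        have := hmd (show z * x' - 1 ∈ LinearMap.ker mL from h1)
        exact this
      rw [map_sub, map_mul, hz, zero_mul, map_one, zero_sub, neg_eq_zero] at h2
      exact one_ne_zero h2
    have : LinearMap.ker mL = LinearMap.ker dL := le_antisymm hmd hdm
    rw [this, hkd] at hkm
    exact hn hkm
  -- `ker m ⊂ ker Φ`
  have hker : ∀ x, m x = 0 → Φ x = 0 := by
    intro x hx
    obtain ⟨t, ht⟩ := hne
    set y : S₁ ⊗[R] S₂ := (1 : S₁) ⊗ₜ[R] t - (w t) ⊗ₜ[R] (1 : S₂) with hy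
    have hdy : d y = 0 := by
      rw [hy, map_sub, hd_tmul, hd_tmul, map_one, one_mul, mul_one, sub_self]
    have hΦy : Φ y ≠ 0 := by
      rw [hy, map_sub, hΦ_tmul, hΦ_tmul, map_one, map_one, one_mul, mul_one]
      exact sub_ne_zero.mpr ht
    have hxy : x * y ∈ LinearMap.ker mL ⊓ LinearMap.ker dL := by
      refine ⟨?_, ?_⟩
      · show m (x * y) = 0
        rw [map_mul, hx, zero_mul]
      · show d (x * y) = 0
        rw [map_mul, hdy, mul_zero]
    rw [hinf, Submodule.mem_bot] at hxy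
    have := congrArg Φ hxy
    rw [map_mul, map_zero] at this
    rcases mul_eq_zero.mp this with h | h
    · exact h
    · exact absurd h hΦy
  -- the lift
  let g : { g : S₁ ⊗[R] S₂ →+* Ω // RingHom.ker m.toRingHom ≤ RingHom.ker g } :=
    ⟨Φ.toRingHom, fun x hx => by
      rw [RingHom.mem_ker] at hx ⊢
      exact hker x hx⟩
  refine ⟨RingHom.liftOfSurjective m.toRingHom hm_surj g, fun s => ?_, fun t => ?_⟩
  · have h := RingHom.liftOfSurjective_comp_apply m.toRingHom hm_surj g (s ⊗ₜ[R] 1)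
    have e1 : m.toRingHom (s ⊗ₜ[R] 1) = a s := by
      show m (s ⊗ₜ[R] 1) = a s
      rw [hm_tmul, map_one, mul_one]
    rw [e1] at h
    rw [h]
    show Φ (s ⊗ₜ[R] 1) = φ₁ s
    rw [hΦ_tmul, map_one, mul_one]
  · have h := RingHom.liftOfSurjective_comp_apply m.toRingHom hm_surj g (1 ⊗ₜ[R] t)
    have e1 : m.toRingHom (1 ⊗ₜ[R] t) = b t := by
      show m (1 ⊗ₜ[R] t) = b t
      rw [hm_tmul, map_one, one_mul]
    rw [e1] at h
    rw [h]
    show Φ (1 ⊗ₜ[R] t) = φ₂ t
    rw [hΦ_tmul, map_one, one_mul]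

end GlueAbs

end Fermat.Agent.S36
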