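import Fermat.Agent.S36.Comp3S18
import Fermat.Agent.S36.Triv3Lat
import Fermat.Agent.S36.WireCore

/-!
# TRACK 10 (S36), package C3.3 = hV, ABSTRACT part (helper2): the two norm relations at the
triple points from NORMRES and the gluing at level `q`

Setting: `Hc : S36CH_Hyp L F₂ F₁ k Ω n q` (helper13: the five valuations `FF FV VV` of `F₂`,
`F V` of `F₁`, with residue maps into one field `Ω`, the norms `N₁ N₂`, the valuation table and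
the four norm–residue formulas), the LAT3 triple `S₁ S₂ S₃` with the same valuation rings and
compatible residue maps (`emb_j : Fk_j → Ω`), a chart `C` of level `q²` with the evaluations
`e₁ e₂ e₃` at the triple points, and at level `q`: the functions `B₁` regular on the chart, the
coordinate rings `RbF, RbV ⊆ Ω` with TWO families of evaluations at the nodes, `(eF, eV)` (used for
`N₁`) and `(eF', eV')` (used for `N₂`), both glued on the integral regular functions (`glue`,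
TRACK 7).

* `S36HA_r_pow` : the residue of a power;
* `S36HA_stepA` : a trivial generator `w = c · gⁿ` of level `q` which is a principal unit at `F`
  and `V` can be written with `c` a unit of `A` and `g` a unit at `F`, `V` with CONSTANT residues;
* `S36HA_main` : **hV** — for a normalised `u` with `N₁ u`, `N₂ u` trivial over `L` and (LI) at the
  triple points there are constants `ξ ξ'` such that at every triple point `y` some section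
  `m ∈ W u` has branch values `(a, b, c)`, `a ≠ 0`, with
  `a * b ^ (q - 1) = ξ * c ^ q` and `ξ' * (b ^ (q - 1) * c) = a ^ q`
  (literally the hypothesis `hV` of `S36TL_core`).
-/

set_option autoImplicit false
set_option linter.unusedSectionVars false
set_option linter.unusedVariables false

namespace Fermat.Agent.S36

open Fermat.Agent.S18 Fermat.Agent.S34

section val

variable {F Ω : Type*} [Field F] [Field Ω] (D : S36CV_Val F Ω)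

theorem S36HA_r_one : D.r 1 = 1 := by
  apply Units.ext
  rw [D.r_val (S36CV_UG D.O).one_mem]
  exact map_one D.ρ

/-- the residue of a power of a unit. -/
theorem S36HA_r_pow (a : Fˣ) (ha : D.v a = 0) (j : ℕ) : D.r (a ^ j) = D.r a ^ j := by
  induction j with
  | zero => rw [pow_zero, pow_zero]; exact S36HA_r_one D
  | succ j ih =>
    have hj : D.v (a ^ j) = 0 := by rw [D.v_pow, ha, mul_zero]
    rw [pow_succ, pow_succ, D.r_mul _ _ hj ha, ih]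

end val

variable {L F₂ F₁ k Ω Fk₁ Fk₂ Fk₃ : Type*} [Field L] [Field F₂] [Field F₁] [Field k] [Field Ω]
  [Algebra L F₂] [Algebra L F₁] [Algebra k Ω]
  [Field Fk₁] [Field Fk₂] [Field Fk₃] [Algebra k Fk₁] [Algebra k Fk₂] [Algebra k Fk₃]

/-- **step A**: normal form of a trivial generator of level `q` which is a principal unit at the
two valuations. -/
theorem S36HA_stepA {n q : ℕ} (hn : 0 < n) (Hc : S36CH_Hyp L F₂ F₁ k Ω n q)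
    (root_n : ∀ (x : Ω) (c : k), x ^ n = algebraMap k Ω c → ∃ d : k, x = algebraMap k Ω d)
    (w : F₁ˣ) (hwF : Hc.F.v w = 0) (hwV : Hc.V.v w = 0) (hrF : Hc.F.r w = 1)
    (hrV : Hc.V.r w = 1) (hw : ∃ (c : Lˣ) (g : F₁ˣ), w = S36CH_const L F₁ c * g ^ n) :
    ∃ (c : Lˣ) (g : F₁ˣ) (γF γV : k), w = S36CH_const L F₁ c * g ^ n ∧
      Hc.F.v g = 0 ∧ Hc.V.v g = 0 ∧
      ((Hc.F.r g : Ωˣ) : Ω) = algebraMap k Ω γF ∧ ((Hc.V.r g : Ωˣ) : Ω) = algebraMap k Ω γV := by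
  obtain ⟨c, g, e⟩ := hw
  obtain ⟨m, hm⟩ := Hc.dvL c
  have vFc := Hc.v_const Hc.F Hc.F_const Hc.F_π c m hm
  have vVc := Hc.v_const Hc.V Hc.V_const Hc.V_π c m hm
  have h1 : m + (n : ℤ) * Hc.F.v g = 0 := by
    have := hwF
    rw [e, Hc.F.v_mul, Hc.F.v_pow, vFc] at this
    exact this
  have h2 : m + (n : ℤ) * Hc.V.v g = 0 := by
    have := hwV
    rw [e, Hc.V.v_mul, Hc.V.v_pow, vVc] at this
    exact this
  have hn' : (n : ℤ) ≠ 0 := by exact_mod_cast hn.ne'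
  have h3 : Hc.V.v g = Hc.F.v g := by
    have : (n : ℤ) * Hc.V.v g = (n : ℤ) * Hc.F.v g := by linarith
    exact mul_left_cancel₀ hn' this
  set t : ℤ := Hc.F.v g with ht
  set c' : Lˣ := c * Hc.ϖ ^ (-m) with hc'
  set g' : F₁ˣ := g * (S36CH_const L F₁ Hc.ϖ) ^ (-t) with hg'
  have e' : w = S36CH_const L F₁ c' * g' ^ n := by
    rw [e, hc', hg', map_mul, map_zpow, mul_pow, ← zpow_natCast ((S36CH_const L F₁ Hc.ϖ) ^ (-t)) n,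
      ← zpow_mul]
    have : S36CH_const L F₁ c * (S36CH_const L F₁) Hc.ϖ ^ (-m) *
        (g ^ n * (S36CH_const L F₁) Hc.ϖ ^ (-t * (n : ℤ))) =
        S36CH_const L F₁ c * g ^ n * ((S36CH_const L F₁) Hc.ϖ ^ (-m) *
          (S36CH_const L F₁) Hc.ϖ ^ (-t * (n : ℤ))) := by
      rw [mul_mul_mul_comm]
    rw [this, ← zpow_add]
    have h0 : -m + -t * (n : ℤ) = 0 := by linarith
    rw [h0, zpow_zero, mul_one]
  have hc'U : c' * Hc.ϖ ^ (-(0 : ℤ)) ∈ S36CV_UG Hc.A := by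
    rw [neg_zero, zpow_zero, mul_one]
    exact hm
  have vFc' := Hc.v_const Hc.F Hc.F_const Hc.F_π c' 0 hc'U
  have vVc' := Hc.v_const Hc.V Hc.V_const Hc.V_π c' 0 hc'U
  have vFg' : Hc.F.v g' = 0 := by
    rw [hg', Hc.F.v_mul, Hc.F.v_zpow, Hc.F_π]
    ring
  have vVg' : Hc.V.v g' = 0 := by
    rw [hg', Hc.V.v_mul, Hc.V.v_zpow, Hc.V_π, h3]
    ring
  -- the residues
  have key : ∀ (D : S36CV_Val F₁ Ω)
      (hc : ∀ a : L, a ∈ Hc.A → algebraMap L F₁ a ∈ D.O)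
      (hπ : D.v (S36CH_const L F₁ Hc.ϖ) = 1)
      (hρ : ∀ (a : L) (ha : a ∈ Hc.A) (h : algebraMap L F₁ a ∈ D.O),
        D.ρ ⟨_, h⟩ = algebraMap k Ω (Hc.res ⟨a, ha⟩)),
      D.v (S36CH_const L F₁ c') = 0 → D.v g' = 0 → D.r w = 1 →
      ∃ γ : k, ((D.r g' : Ωˣ) : Ω) = algebraMap k Ω γ := by
    intro D hc hπ hρ v0 vg hr
    have hcst := Hc.r_const D hc hπ hρ c' v0
    obtain ⟨c₀, hc₀⟩ := Hc.mem_Cst_iff.1 hcst
    have hgn : D.v (g' ^ n) = 0 := by rw [D.v_pow, vg, mul_zero]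
    have e1 : D.r w = D.r (S36CH_const L F₁ c') * D.r g' ^ n := by
      rw [e', D.r_mul _ _ v0 hgn, S36HA_r_pow D g' vg]
    rw [hr] at e1
    have e2 : (1 : Ω) = algebraMap k Ω c₀ * ((D.r g' : Ωˣ) : Ω) ^ n := by
      have := congrArg (fun z : Ωˣ => (z : Ω)) e1
      simp only [Units.val_one, Units.val_mul, Units.val_pow_eq_pow_val] at this
      rw [hc₀] at this
      exact this
    have hc₀0 : c₀ ≠ 0 := by
      rintro rfl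
      rw [map_zero, zero_mul] at e2
      exact one_ne_zero e2
    have e3 : ((D.r g' : Ωˣ) : Ω) ^ n = algebraMap k Ω c₀⁻¹ := by
      rw [map_inv₀]
      have hne : algebraMap k Ω c₀ ≠ 0 := by rwa [Ne, map_eq_zero]
      field_simp
      rw [mul_comm]
      exact e2.symm
    exact root_n _ _ e3
  obtain ⟨γF, hγF⟩ := key Hc.F Hc.F_const Hc.F_π Hc.F_ρ_const vFc' vFg' hrF
  obtain ⟨γV, hγV⟩ := key Hc.V Hc.V_const Hc.V_π Hc.V_ρ_const vVc' vVg' hrV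
  exact ⟨c', g', γF, γV, e', vFg', vVg', hγF, hγV⟩

/-- a unit of the valuation ring of an `S18_Val` with non-zero reduction, as a unit of an
`S36CV_Val` with the same valuation ring. -/
theorem S36HA_mem_UG {Fk : Type*} [Field Fk] [Algebra k Fk] (S : S18_Val L F₂ k Fk)
    (D : S36CV_Val F₂ Ω) (hO : S.O = D.O) (φ : F₂ˣ) (hφ : (φ : F₂) ∈ S.O)
    (hne : S.red ⟨φ, hφ⟩ ≠ 0) : φ ∈ S36CV_UG D.O := by
  refine ⟨hO ▸ hφ, ?_⟩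
  rw [Units.val_inv_eq_inv_val]
  exact hO ▸ S36L3_inv_mem_of_red_ne S hφ hne

/-- **hV**: the two norm relations at the triple points.  See the module docstring. -/
theorem S36HA_main {n q : ℕ} (hn : 0 < n) (Hc : S36CH_Hyp L F₂ F₁ k Ω n q)
    {S₁ : S18_Val L F₂ k Fk₁} {S₂ : S18_Val L F₂ k Fk₂} {S₃ : S18_Val L F₂ k Fk₃}
    (hS : S36L3_Same S₁ S₂ S₃)
    (hO₁ : S₁.O = Hc.FF.O) (hO₂ : S₂.O = Hc.FV.O) (hO₃ : S₃.O = Hc.VV.O)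
    (emb₁ : Fk₁ →ₐ[k] Ω) (emb₂ : Fk₂ →ₐ[k] Ω) (emb₃ : Fk₃ →ₐ[k] Ω)
    (hρ₁ : ∀ (x : F₂) (h : x ∈ S₁.O) (h' : x ∈ Hc.FF.O),
      Hc.FF.ρ ⟨x, h'⟩ = emb₁ (S₁.red ⟨x, h⟩))
    (hρ₂ : ∀ (x : F₂) (h : x ∈ S₂.O) (h' : x ∈ Hc.FV.O),
      Hc.FV.ρ ⟨x, h'⟩ = emb₂ (S₂.red ⟨x, h⟩))
    (hρ₃ : ∀ (x : F₂) (h : x ∈ S₃.O) (h' : x ∈ Hc.VV.O),
      Hc.VV.ρ ⟨x, h'⟩ = emb₃ (S₃.red ⟨x, h⟩))
    (hperf : ∀ c : k, ∃ d : k, d ^ q = c)
    (root_n : ∀ (x : Ω) (c : k), x ^ n = algebraMap k Ω c → ∃ d : k, x = algebraMap k Ω d)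
    (C : S36L3_Chart L F₂ k Fk₁ Fk₂ Fk₃ n) {ι : Type*}
    (e₁ : ι → ↥C.Rb₁ →ₐ[k] k) (e₂ : ι → ↥C.Rb₂ →ₐ[k] k) (e₃ : ι → ↥C.Rb₃ →ₐ[k] k)
    (B₁ : Subalgebra L F₁) (hB₁ : ∀ h : F₁, h ^ n ∈ B₁ → h ∈ B₁)
    (RbF RbV : Subalgebra k Ω)
    (eF eF' : ι → ↥RbF →ₐ[k] k) (eV eV' : ι → ↥RbV →ₐ[k] k)
    (glue : ∀ (h : F₁) (hF : h ∈ Hc.F.O) (hV : h ∈ Hc.V.O), h ∈ B₁ →
      ∃ (mF : ↥RbF) (mV : ↥RbV), (mF : Ω) = Hc.F.ρ ⟨h, hF⟩ ∧ (mV : Ω) = Hc.V.ρ ⟨h, hV⟩ ∧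
        ∀ y, eF y mF = eV y mV ∧ eF' y mF = eV' y mV)
    (E1F : ∀ y (z : ↥RbF) (a : ↥C.Rb₁) (b : ↥C.Rb₂),
      (z : Ω) = emb₁ (a : Fk₁) * emb₂ (b : Fk₂) ^ (q - 1) →
      eF y z = e₁ y a * e₂ y b ^ (q - 1))
    (E1V : ∀ y (z : ↥RbV) (c : ↥C.Rb₃),
      Hc.Ψ (z : Ω) = emb₃ (c : Fk₃) ^ q → eV y z = e₃ y c ^ q)
    (E2F : ∀ y (z : ↥RbF) (a : ↥C.Rb₁),
      Hc.Ψ (z : Ω) = emb₁ (a : Fk₁) ^ q → eF' y z = e₁ y a ^ q)
    (E2V : ∀ y (z : ↥RbV) (b : ↥C.Rb₂) (c : ↥C.Rb₃),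
      (z : Ω) = emb₂ (b : Fk₂) ^ (q - 1) * emb₃ (c : Fk₃) →
      eV' y z = e₂ y b ^ (q - 1) * e₃ y c)
    (nB₁ : ∀ x : F₂ˣ, (x : F₂) ∈ S36L3_O3 S₁ S₂ S₃ → (x : F₂) ∈ C.B →
      ((Hc.N₁ x : F₁ˣ) : F₁) ∈ B₁)
    (nB₂ : ∀ x : F₂ˣ, (x : F₂) ∈ S36L3_O3 S₁ S₂ S₃ → (x : F₂) ∈ C.B →
      ((Hc.N₂ x : F₁ˣ) : F₁) ∈ B₁)
    (u : F₂ˣ) (hu : u ∈ S36L3_NormGrp S₁ S₂ S₃)
    (h₁ : Hc.N₁ u ∈ S36TL_Triv L (F := F₁) n) (h₂ : Hc.N₂ u ∈ S36TL_Triv L (F := F₁) n)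
    (li : ∀ y, ∃ m ∈ S36L3_W hS C ((u : F₂ˣ) : F₂),
      e₁ y m.1 ≠ 0 ∧ e₂ y m.2.1 ≠ 0 ∧ e₃ y m.2.2 ≠ 0) :
    ∃ ξ ξ' : k, ∀ y, ∃ m ∈ S36L3_W hS C ((u : F₂ˣ) : F₂), e₁ y m.1 ≠ 0 ∧
      e₁ y m.1 * e₂ y m.2.1 ^ (q - 1) = ξ * e₃ y m.2.2 ^ q ∧
      ξ' * (e₂ y m.2.1 ^ (q - 1) * e₃ y m.2.2) = e₁ y m.1 ^ q := by
  classical
  have hΨinj : Function.Injective (Units.map (Hc.Ψ : Ω →* Ω)) :=
    Units.map_injective (f := (Hc.Ψ : Ω →* Ω)) Hc.Ψ.injective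
  -- `u` is a principal unit at the three valuations
  obtain ⟨huO, hured⟩ := (S36L3_mem_NormGrp S₁ S₂ S₃).1 hu
  have hr1 : S₁.red ⟨u, huO.1⟩ = 1 := congrArg Prod.fst hured
  have hr2 : S₂.red ⟨u, huO.2.1⟩ = 1 := congrArg (fun z => z.2.1) hured
  have hr3 : S₃.red ⟨u, huO.2.2⟩ = 1 := congrArg (fun z => z.2.2) hured
  have uFF : u ∈ S36CV_UG Hc.FF.O :=
    S36HA_mem_UG S₁ Hc.FF hO₁ u huO.1 (by rw [hr1]; exact one_ne_zero)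
  have uFV : u ∈ S36CV_UG Hc.FV.O :=
    S36HA_mem_UG S₂ Hc.FV hO₂ u huO.2.1 (by rw [hr2]; exact one_ne_zero)
  have uVV : u ∈ S36CV_UG Hc.VV.O :=
    S36HA_mem_UG S₃ Hc.VV hO₃ u huO.2.2 (by rw [hr3]; exact one_ne_zero)
  have vFF := Hc.FF.v_eq_zero_iff.2 uFF
  have vFV := Hc.FV.v_eq_zero_iff.2 uFV
  have vVV := Hc.VV.v_eq_zero_iff.2 uVV
  have rFF : Hc.FF.r u = 1 := by
    apply Units.ext
    rw [Hc.FF.r_val uFF, hρ₁ _ huO.1, hr1, map_one, Units.val_one]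
  have rFV : Hc.FV.r u = 1 := by
    apply Units.ext
    rw [Hc.FV.r_val uFV, hρ₂ _ huO.2.1, hr2, map_one, Units.val_one]
  have rVV : Hc.VV.r u = 1 := by
    apply Units.ext
    rw [Hc.VV.r_val uVV, hρ₃ _ huO.2.2, hr3, map_one, Units.val_one]
  -- the norms of `u` are principal units at `F`, `V`
  have a1 : Hc.F.v (Hc.N₁ u) = 0 := by rw [Hc.vF_N₁, vFF, vFV, add_zero]
  have a2 : Hc.V.v (Hc.N₁ u) = 0 := by rw [Hc.vV_N₁, vVV, mul_zero]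
  have a3 : Hc.F.v (Hc.N₂ u) = 0 := by rw [Hc.vF_N₂, vFF, mul_zero]
  have a4 : Hc.V.v (Hc.N₂ u) = 0 := by rw [Hc.vV_N₂, vFV, vVV, add_zero]
  have b1 : Hc.F.r (Hc.N₁ u) = 1 := by
    rw [Hc.NR1F u vFF vFV vVV, rFF, rFV, one_pow, one_mul]
  have b2 : Hc.V.r (Hc.N₁ u) = 1 := by
    apply hΨinj
    rw [Hc.NR1V u vFF vFV vVV, rVV, one_pow, map_one]
  have b3 : Hc.F.r (Hc.N₂ u) = 1 := by
    apply hΨinj
    rw [Hc.NR2F u vFF vFV vVV, rFF, one_pow, map_one]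
  have b4 : Hc.V.r (Hc.N₂ u) = 1 := by
    rw [Hc.NR2V u vFF vFV vVV, rFV, rVV, one_pow, one_mul]
  obtain ⟨c₁, g₁, γF₁, γV₁, E₁, vg₁F, vg₁V, rg₁F, rg₁V⟩ :=
    S36HA_stepA hn Hc root_n (Hc.N₁ u) a1 a2 b1 b2 (S36WC_units_iff.1 h₁)
  obtain ⟨c₂, g₂, γF₂, γV₂, E₂, vg₂F, vg₂V, rg₂F, rg₂V⟩ :=
    S36HA_stepA hn Hc root_n (Hc.N₂ u) a3 a4 b3 b4 (S36WC_units_iff.1 h₂)
  have hγF₁ : γF₁ ≠ 0 := by
    rintro rfl
    rw [map_zero] at rg₁F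
    exact (Hc.F.r g₁).ne_zero rg₁F
  have hγV₂ : γV₂ ≠ 0 := by
    rintro rfl
    rw [map_zero] at rg₂V
    exact (Hc.V.r g₂).ne_zero rg₂V
  obtain ⟨γV₁', hγV₁'⟩ := Hc.Ψ_const γV₁
  obtain ⟨γF₂', hγF₂'⟩ := Hc.Ψ_const γF₂
  have hγF₂'0 : γF₂' ≠ 0 := by
    rintro rfl
    rw [map_zero, ← rg₂F, map_eq_zero] at hγF₂'
    exact (Hc.F.r g₂).ne_zero hγF₂'
  obtain ⟨δ₁, hδ₁⟩ := hperf γV₁'
  obtain ⟨δ₂, hδ₂⟩ := hperf γF₂'
  refine ⟨γV₁' / γF₁, γV₂ / γF₂', fun y => ?_⟩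
  obtain ⟨m, hm, ha, hb, hc⟩ := li y
  obtain ⟨f, hfB, hfm⟩ := (S36L3_mem_W hS C _ m).1 hm
  have f1 : S₁.red ⟨f, f.2.1⟩ = (m.1 : Fk₁) := congrArg Prod.fst hfm
  have f2 : S₂.red ⟨f, f.2.2.1⟩ = (m.2.1 : Fk₂) := congrArg (fun z => z.2.1) hfm
  have f3 : S₃.red ⟨f, f.2.2.2⟩ = (m.2.2 : Fk₃) := congrArg (fun z => z.2.2) hfm
  have m1 : (m.1 : Fk₁) ≠ 0 := by
    intro h
    apply ha
    have : m.1 = 0 := Subtype.ext h
    rw [this, map_zero]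
  have m2 : (m.2.1 : Fk₂) ≠ 0 := by
    intro h
    apply hb
    have : m.2.1 = 0 := Subtype.ext h
    rw [this, map_zero]
  have m3 : (m.2.2 : Fk₃) ≠ 0 := by
    intro h
    apply hc
    have : m.2.2 = 0 := Subtype.ext h
    rw [this, map_zero]
  have hf0 : (f : F₂) ≠ 0 := by
    intro h
    apply m1
    rw [← f1]
    have : (⟨(f : F₂), f.2.1⟩ : S₁.O) = 0 := Subtype.ext h
    rw [this, map_zero]
  set φ : F₂ˣ := Units.mk0 (f : F₂) hf0 with hφ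
  have hφ1 : (φ : F₂) ∈ S₁.O := f.2.1
  have hφ2 : (φ : F₂) ∈ S₂.O := f.2.2.1
  have hφ3 : (φ : F₂) ∈ S₃.O := f.2.2.2
  have g1 : S₁.red ⟨(φ : F₂), hφ1⟩ = (m.1 : Fk₁) := f1
  have g2 : S₂.red ⟨(φ : F₂), hφ2⟩ = (m.2.1 : Fk₂) := f2
  have g3 : S₃.red ⟨(φ : F₂), hφ3⟩ = (m.2.2 : Fk₃) := f3
  have φFF : φ ∈ S36CV_UG Hc.FF.O :=
    S36HA_mem_UG S₁ Hc.FF hO₁ φ hφ1 (by rw [g1]; exact m1)
  have φFV : φ ∈ S36CV_UG Hc.FV.O :=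
    S36HA_mem_UG S₂ Hc.FV hO₂ φ hφ2 (by rw [g2]; exact m2)
  have φVV : φ ∈ S36CV_UG Hc.VV.O :=
    S36HA_mem_UG S₃ Hc.VV hO₃ φ hφ3 (by rw [g3]; exact m3)
  have wFF := Hc.FF.v_eq_zero_iff.2 φFF
  have wFV := Hc.FV.v_eq_zero_iff.2 φFV
  have wVV := Hc.VV.v_eq_zero_iff.2 φVV
  have sFF : ((Hc.FF.r φ : Ωˣ) : Ω) = emb₁ (m.1 : Fk₁) := by
    rw [Hc.FF.r_val φFF, hρ₁ _ hφ1, g1]
  have sFV : ((Hc.FV.r φ : Ωˣ) : Ω) = emb₂ (m.2.1 : Fk₂) := by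
    rw [Hc.FV.r_val φFV, hρ₂ _ hφ2, g2]
  have sVV : ((Hc.VV.r φ : Ωˣ) : Ω) = emb₃ (m.2.2 : Fk₃) := by
    rw [Hc.VV.r_val φVV, hρ₃ _ hφ3, g3]
  -- the regular integral function `x = fⁿ u`
  set x : F₂ˣ := φ ^ n * u with hx
  have hxB : (x : F₂) ∈ C.B := by
    have : (x : F₂) = (f : F₂) ^ n * (u : F₂) := by
      rw [hx, Units.val_mul, Units.val_pow_eq_pow_val]
      rfl
    rw [this]
    exact hfB
  have hxO : (x : F₂) ∈ S36L3_O3 S₁ S₂ S₃ := by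
    have : (x : F₂) = (f : F₂) ^ n * (u : F₂) := by
      rw [hx, Units.val_mul, Units.val_pow_eq_pow_val]
      rfl
    rw [this]
    exact (S36L3_O3 S₁ S₂ S₃).mul_mem ((S36L3_O3 S₁ S₂ S₃).pow_mem f.2 n) huO
  -- the general step at level `q`
  have step : ∀ (N : F₂ˣ →* F₁ˣ) (c₀ : Lˣ) (g₀ : F₁ˣ),
      N u = S36CH_const L F₁ c₀ * g₀ ^ n → ((N x : F₁ˣ) : F₁) ∈ B₁ →
      Hc.F.v (N φ) = 0 → Hc.V.v (N φ) = 0 → Hc.F.v g₀ = 0 → Hc.V.v g₀ = 0 →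
      ∃ (mF : ↥RbF) (mV : ↥RbV),
        (mF : Ω) = ((Hc.F.r (N φ) : Ωˣ) : Ω) * ((Hc.F.r g₀ : Ωˣ) : Ω) ∧
        (mV : Ω) = ((Hc.V.r (N φ) : Ωˣ) : Ω) * ((Hc.V.r g₀ : Ωˣ) : Ω) ∧
        ∀ y, eF y mF = eV y mV ∧ eF' y mF = eV' y mV := by
    intro N c₀ g₀ hNu hNx vF vV vgF vgV
    set h : F₁ˣ := N φ * g₀ with hh
    have hhn : h ^ n = N x * (S36CH_const L F₁ c₀)⁻¹ := by
      rw [hh, hx, map_mul, map_pow, hNu, mul_pow]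
      rw [mul_comm (S36CH_const L F₁ c₀) (g₀ ^ n), ← mul_assoc, mul_assoc _ (S36CH_const L F₁ c₀),
        mul_inv_cancel, mul_one]
    have hhB : (h : F₁) ∈ B₁ := by
      apply hB₁
      have : ((h : F₁)) ^ n = ((N x : F₁ˣ) : F₁) * algebraMap L F₁ ((c₀⁻¹ : Lˣ) : L) := by
        rw [← Units.val_pow_eq_pow_val, hhn, Units.val_mul, ← map_inv]
        rfl
      rw [this]
      exact B₁.mul_mem hNx (B₁.algebraMap_mem _)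
    have hvF : Hc.F.v h = 0 := by rw [hh, Hc.F.v_mul, vF, vgF, add_zero]
    have hvV : Hc.V.v h = 0 := by rw [hh, Hc.V.v_mul, vV, vgV, add_zero]
    have hUF := Hc.F.v_eq_zero_iff.1 hvF
    have hUV := Hc.V.v_eq_zero_iff.1 hvV
    obtain ⟨mF, mV, eF1, eV1, hgl⟩ := glue (h : F₁) hUF.1 hUV.1 hhB
    refine ⟨mF, mV, ?_, ?_, hgl⟩
    · rw [eF1, ← Hc.F.r_val hUF, hh, Hc.F.r_mul _ _ vF vgF, Units.val_mul]
    · rw [eV1, ← Hc.V.r_val hUV, hh, Hc.V.r_mul _ _ vV vgV, Units.val_mul]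
  refine ⟨m, hm, ha, ?_, ?_⟩
  · -- the relation from `N₁`
    have vF : Hc.F.v (Hc.N₁ φ) = 0 := by rw [Hc.vF_N₁, wFF, wFV, add_zero]
    have vV : Hc.V.v (Hc.N₁ φ) = 0 := by rw [Hc.vV_N₁, wVV, mul_zero]
    obtain ⟨mF, mV, eF1, eV1, hgl⟩ :=
      step Hc.N₁ c₁ g₁ E₁ (nB₁ x hxO hxB) vF vV vg₁F vg₁V
    have nF : ((Hc.F.r (Hc.N₁ φ) : Ωˣ) : Ω) =
        emb₁ (m.1 : Fk₁) * emb₂ (m.2.1 : Fk₂) ^ (q - 1) := by
      rw [Hc.NR1F φ wFF wFV wVV, Units.val_mul, Units.val_pow_eq_pow_val, sFF, sFV]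
    have nV : Hc.Ψ ((Hc.V.r (Hc.N₁ φ) : Ωˣ) : Ω) = emb₃ (m.2.2 : Fk₃) ^ q := by
      have := congrArg (fun z : Ωˣ => (z : Ω)) (Hc.NR1V φ wFF wFV wVV)
      simp only [Units.coe_map, Units.val_pow_eq_pow_val, MonoidHom.coe_coe] at this
      rw [this, sVV]
    have r1 : eF y mF = γF₁ * (e₁ y m.1 * e₂ y m.2.1 ^ (q - 1)) := by
      have := E1F y mF (γF₁ • m.1) m.2.1 (by
        rw [eF1, nF, rg₁F]
        have : (((γF₁ • m.1 : ↥C.Rb₁) : ↥C.Rb₁) : Fk₁) = γF₁ • (m.1 : Fk₁) := rfl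
        rw [this, map_smul, Algebra.smul_def]
        ring)
      rw [this, map_smul, smul_eq_mul]
      ring
    have r2 : eV y mV = γV₁' * e₃ y m.2.2 ^ q := by
      have := E1V y mV (δ₁ • m.2.2) (by
        rw [eV1, map_mul, nV, rg₁V, hγV₁', ← hδ₁]
        have : (((δ₁ • m.2.2 : ↥C.Rb₃) : ↥C.Rb₃) : Fk₃) = δ₁ • (m.2.2 : Fk₃) := rfl
        rw [this, map_smul, Algebra.smul_def, map_pow]
        ring)
      rw [this, map_smul, smul_eq_mul, mul_pow, hδ₁]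
    have := (hgl y).1
    rw [r1, r2] at this
    field_simp
    linear_combination this
  · -- the relation from `N₂`
    have vF : Hc.F.v (Hc.N₂ φ) = 0 := by rw [Hc.vF_N₂, wFF, mul_zero]
    have vV : Hc.V.v (Hc.N₂ φ) = 0 := by rw [Hc.vV_N₂, wFV, wVV, add_zero]
    obtain ⟨mF, mV, eF1, eV1, hgl⟩ :=
      step Hc.N₂ c₂ g₂ E₂ (nB₂ x hxO hxB) vF vV vg₂F vg₂V
    have nF : Hc.Ψ ((Hc.F.r (Hc.N₂ φ) : Ωˣ) : Ω) = emb₁ (m.1 : Fk₁) ^ q := by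
      have := congrArg (fun z : Ωˣ => (z : Ω)) (Hc.NR2F φ wFF wFV wVV)
      simp only [Units.coe_map, Units.val_pow_eq_pow_val, MonoidHom.coe_coe] at this
      rw [this, sFF]
    have nV : ((Hc.V.r (Hc.N₂ φ) : Ωˣ) : Ω) =
        emb₂ (m.2.1 : Fk₂) ^ (q - 1) * emb₃ (m.2.2 : Fk₃) := by
      rw [Hc.NR2V φ wFF wFV wVV, Units.val_mul, Units.val_pow_eq_pow_val, sFV, sVV]
    have r1 : eF' y mF = γF₂' * e₁ y m.1 ^ q := by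
      have := E2F y mF (δ₂ • m.1) (by
        rw [eF1, map_mul, nF, rg₂F, hγF₂', ← hδ₂]
        have : (((δ₂ • m.1 : ↥C.Rb₁) : ↥C.Rb₁) : Fk₁) = δ₂ • (m.1 : Fk₁) := rfl
        rw [this, map_smul, Algebra.smul_def, map_pow]
        ring)
      rw [this, map_smul, smul_eq_mul, mul_pow, hδ₂]
    have r2 : eV' y mV = γV₂ * (e₂ y m.2.1 ^ (q - 1) * e₃ y m.2.2) := by
      have := E2V y mV m.2.1 (γV₂ • m.2.2) (by
        rw [eV1, nV, rg₂V]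
        have : (((γV₂ • m.2.2 : ↥C.Rb₃) : ↥C.Rb₃) : Fk₃) = γV₂ • (m.2.2 : Fk₃) := rfl
        rw [this, map_smul, Algebra.smul_def]
        ring)
      rw [this, map_smul, smul_eq_mul]
      ring
    have := (hgl y).2
    rw [r1, r2] at this
    field_simp
    linear_combination -this

end Fermat.Agent.S36
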