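import Mathlib

/-!
# TRACK 10 (S36), C3.3 = HVInst (helper29), part 0: transport of points to the image in `Ω`

Prefix `S36HV_`.  Abstract (Mathlib only).

`emb : Fk →ₐ[k] Ω` an embedding of fields (`Fk` a residue field, `Ω = k((t))`), `Rb ⊂ Fk` a
coordinate ring.  The node evaluations of level `q` of `S36HA_main` live on subalgebras of `Ω`:

* `S36HV_back emb Rb : ↥(Rb.map emb) →ₐ[k] ↥Rb` : the inverse of `Rb ≃ Rb.map emb`
  (`S36HV_back_spec : emb ↑(back m) = ↑m`, `S36HV_back_mk`);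
* `S36HV_ev emb Rb e : ↥(Rb.map emb) →ₐ[k] k` : the point `e : ↥Rb →ₐ[k] k` on the image
  (`S36HV_ev_apply`, `S36HV_ev_mk : ev ⟨emb a, _⟩ = e a`, `S36HV_ev_of_eq`).

CONCRETE USE (level `M q`, TRACK 7's chart `S34M_chart M q A n hn`, nodes `e₁ e₂` of
`S36SS_Data`, `emb := (modularFunctionFieldFullC k (M * q)).val`, `π₁ π₂ : ι → Fin s`):
  `RbF := Rb₁.map emb`, `RbV := Rb₂.map emb`,
  `eF y := S36HV_ev emb Rb₁ (e₁ (π₁ y))`, `eV y := S36HV_ev emb Rb₂ (e₂ (π₁ y))`,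
  `eF' y := S36HV_ev emb Rb₁ (e₁ (π₂ y))`, `eV' y := S36HV_ev emb Rb₂ (e₂ (π₂ y))`.
-/

set_option autoImplicit false

namespace Fermat.Agent.S36

variable {k Fk Ω : Type*} [Field k] [Field Fk] [Field Ω] [Algebra k Fk] [Algebra k Ω]

/-- the inverse of the restriction `Rb ≃ Rb.map emb` of an embedding of fields. -/
noncomputable def S36HV_back (emb : Fk →ₐ[k] Ω) (Rb : Subalgebra k Fk) :
    ↥(Rb.map emb) →ₐ[k] ↥Rb :=
  ((Rb.equivMapOfInjective emb emb.toRingHom.injective).symm : ↥(Rb.map emb) →ₐ[k] ↥Rb)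

theorem S36HV_back_spec (emb : Fk →ₐ[k] Ω) (Rb : Subalgebra k Fk) (m : ↥(Rb.map emb)) :
    emb ((S36HV_back emb Rb m : ↥Rb) : Fk) = (m : Ω) := by
  have h := (Rb.equivMapOfInjective emb emb.toRingHom.injective).apply_symm_apply m
  have h2 := congrArg (fun z : ↥(Rb.map emb) => (z : Ω)) h
  simp only [Subalgebra.coe_equivMapOfInjective_apply] at h2
  exact h2

theorem S36HV_back_mk (emb : Fk →ₐ[k] Ω) (Rb : Subalgebra k Fk) (a : ↥Rb)
    (h : emb (a : Fk) ∈ Rb.map emb) : S36HV_back emb Rb ⟨emb (a : Fk), h⟩ = a := by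
  apply Subtype.ext
  apply emb.toRingHom.injective
  exact S36HV_back_spec emb Rb ⟨emb (a : Fk), h⟩

/-- membership in the image. -/
theorem S36HV_mem_map (emb : Fk →ₐ[k] Ω) (Rb : Subalgebra k Fk) (a : ↥Rb) :
    emb (a : Fk) ∈ Rb.map emb := ⟨a, a.2, rfl⟩

/-- a point of `Rb` as a point of the image of `Rb` in `Ω`. -/
noncomputable def S36HV_ev (emb : Fk →ₐ[k] Ω) (Rb : Subalgebra k Fk) (e : ↥Rb →ₐ[k] k) :
    ↥(Rb.map emb) →ₐ[k] k :=
  e.comp (S36HV_back emb Rb)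

theorem S36HV_ev_apply (emb : Fk →ₐ[k] Ω) (Rb : Subalgebra k Fk) (e : ↥Rb →ₐ[k] k)
    (m : ↥(Rb.map emb)) : S36HV_ev emb Rb e m = e (S36HV_back emb Rb m) := rfl

theorem S36HV_ev_mk (emb : Fk →ₐ[k] Ω) (Rb : Subalgebra k Fk) (e : ↥Rb →ₐ[k] k) (a : ↥Rb)
    (h : emb (a : Fk) ∈ Rb.map emb) : S36HV_ev emb Rb e ⟨emb (a : Fk), h⟩ = e a := by
  rw [S36HV_ev_apply, S36HV_back_mk]

/-- the value of the transported point at `m`, from any `a ∈ Rb` with `emb a = m`. -/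
theorem S36HV_ev_of_eq (emb : Fk →ₐ[k] Ω) (Rb : Subalgebra k Fk) (e : ↥Rb →ₐ[k] k)
    (m : ↥(Rb.map emb)) (a : ↥Rb) (h : emb (a : Fk) = (m : Ω)) :
    S36HV_ev emb Rb e m = e a := by
  have hm : m = ⟨emb (a : Fk), S36HV_mem_map emb Rb a⟩ := Subtype.ext h.symm
  rw [hm, S36HV_ev_mk]

end Fermat.Agent.S36
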