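import Mathlib
import Fermat.Agent.S34.HexX0
import Fermat.Agent.S36.HVDefs
import Fermat.Agent.S36.Comp3Tie
import Fermat.Agent.S36.Val3Mem
import Fermat.Agent.S36.Val3Res

/-!
# TRACK 10 (S36), C3.3 = HVInst (helper29), part 1: the node relation of level `q` (`glue`)

Prefix `S36HV_`.  Level `M q`, `A ⊂ ℚ̄` over `q`, `k` its residue field, `Ω = k((t))`.
TRACK 7's canonical pair `T₁ = S34M_T1`, `T₂ = S34M_T2`, chart `S34M_chart M q A n hn`
(`B` = regular off the poles of `j`, `Rb₁ = reg j̄`, `Rb₂ = reg (j̄ ^ q)`), nodes `e₁ e₂` with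
`hW1 : W¹ = S34B_W e₁ e₂` (TRACK 7: `S34NX_nodes`, or `S36SS_Data`).

* `S36HV_red_mem` : the reductions of an integral function regular on the chart are regular on
  the reduced charts (from the chain of the chart, `S34SI_G0_fun`);
* `S36HV_node_rel` : **the node relation** `e₁ i (red₁ f) = e₂ i (red₂ f)`;
* `S36HV_F_le_S18`, `S36HV_F_red`, `S36HV_V_le`, `S36HV_V_red` : the Gauss rings along `emF`,
  `emV` are TRACK 7's valuation rings, with the same reductions (in `Ω`);
* `S36HV_glue_G` : the node relation in `Ω` for the Gauss reductions;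
* **`S36HV_glue`** : the hypothesis `glue` of `S36HA_main` for valuation data `DF`, `DV` on the
  fixed field tied to the Gauss rings (`S36CG_Tie`, helper13).
-/

set_option autoImplicit false
set_option synthInstance.maxHeartbeats 400000
set_option maxHeartbeats 1000000
set_option linter.unusedSectionVars false
set_option linter.unusedVariables false
set_option linter.style.haveILetI false
set_option linter.style.longLine false

open HahnSeries IntermediateField AlgebraicCurve ModularCurve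

noncomputable section

namespace Fermat.Agent.S36

open Fermat.Agent.S18 Fermat.Agent.S24 Fermat.Agent.S34 Fermat.Agent.Lib

local notation "ℚbar" => AlgebraicClosure ℚ

variable (M q : ℕ) [NeZero M] [NeZero q] [NeZero (M * q)] (hq : q.Prime) (hqM : ¬ q ∣ M)
  (A : ValuationSubring ℚbar) (hA : A.LiesOverPrime q)
  (hgen : PrincipalGeneratedByIntegral A (IsLocalRing.residue A) (M * q))

/-! ### the reductions of regular functions are regular -/

include hA in
/-- the reductions of an integral function, regular off the cusps, are regular off the cusps. -/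
theorem S36HV_red_mem {n : ℕ} (hn : 0 < n)
    (f : S34P_O2 (S34M_T1 M q A hgen) (S34M_T2 M q hq hqM A hgen))
    (hf : (f : ↥(modularFunctionFieldBar (M * q))) ∈ (S34M_chart M q A n hn).B) :
    (S34P_red (S34M_T1 M q A hgen) (S34M_T2 M q hq hqM A hgen) f).1 ∈
        (S34M_chart M q A n hn).Rb₁ ∧
      (S34P_red (S34M_T1 M q A hgen) (S34M_T2 M q hq hqM A hgen) f).2 ∈
        (S34M_chart M q A n hn).Rb₂ := by
  obtain ⟨s, m₀, -, hchain⟩ := S34SI_G0_fun M q hq hqM A hgen hA (S18_hRR (M * q))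
    (S34VF_hk M A hq hA hqM) (S34VF_hk M A hq hA hqM) (S34M_xb M q A) (S34M_xb M q A ^ q)
    (S34HX_red_j M q hq hqM A hgen hA)
  have hf' : (f : ↥(modularFunctionFieldBar (M * q))) ∈
      S34SB_reg ℚbar (jB (M * q)) := hf
  obtain ⟨m, hm⟩ := (S34SB_mem_reg_iff_exists (S18_hRR (M * q)).principal (jB (M * q))).mp hf'
  have hmem := hchain.le m ⟨f, hm, rfl⟩
  obtain ⟨h1, h2⟩ := hmem
  exact ⟨S34SB_RR_le_reg (S34VF_hk M A hq hA hqM).principal (S34M_xb M q A) m h1,
    S34SB_RR_le_reg (S34VF_hk M A hq hA hqM).principal (S34M_xb M q A ^ q) m h2⟩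

include hA in
/-- **the node relation of level `q`** (TRACK 7): an integral function regular on the chart has
the same values on the two branches of every node. -/
theorem S36HV_node_rel {n : ℕ} (hn : 0 < n) {I : Type*}
    (e₁ : I → ↥(S34M_chart M q A n hn).Rb₁ →ₐ[IsLocalRing.ResidueField A]
      IsLocalRing.ResidueField A)
    (e₂ : I → ↥(S34M_chart M q A n hn).Rb₂ →ₐ[IsLocalRing.ResidueField A]
      IsLocalRing.ResidueField A)
    (hW1 : S34K_W (S34M_same M q hq hqM A hgen) (S34M_chart M q A n hn) 1 = S34B_W e₁ e₂)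
    (f : S34P_O2 (S34M_T1 M q A hgen) (S34M_T2 M q hq hqM A hgen))
    (hf : (f : ↥(modularFunctionFieldBar (M * q))) ∈ (S34M_chart M q A n hn).B) (i : I) :
    e₁ i ⟨_, (S36HV_red_mem M q hq hqM A hA hgen hn f hf).1⟩ =
      e₂ i ⟨_, (S36HV_red_mem M q hq hqM A hA hgen hn f hf).2⟩ := by
  have hm : ((⟨_, (S36HV_red_mem M q hq hqM A hA hgen hn f hf).1⟩,
      ⟨_, (S36HV_red_mem M q hq hqM A hA hgen hn f hf).2⟩) :
      ↥(S34M_chart M q A n hn).Rb₁ × ↥(S34M_chart M q A n hn).Rb₂) ∈
      S34K_W (S34M_same M q hq hqM A hgen) (S34M_chart M q A n hn) 1 := by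
    rw [S34K_mem_W_one]
    exact ⟨f, hf, rfl⟩
  rw [hW1, S34B_mem_W] at hm
  exact hm i

/-! ### the Gauss rings along `emF`, `emV` are TRACK 7's valuation rings -/

include hq hqM hA in
/-- the Gauss ring along `emF` is contained in `S18_O A (M q)`. -/
theorem S36HV_F_le_S18 : S36V_G A (S36V_emF M q) ≤ S18_O A (M * q) := by
  intro f hf
  by_cases hf0 : f = 0
  · subst hf0
    exact zero_mem _
  · obtain ⟨c, s₁, s₂, hc, h1, h2, hrep⟩ := S34VH_exists_rep M q hq hqM A hA f hf0
    exact S36VR_mem_S18_of_rep A (M * q) (S36V_emF M q) (fun _ => rfl) hf h1 h2 hrep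

/-- the Gauss reduction along `emF` is the reduction of `S18`. -/
theorem S36HV_F_red (f : ↥(modularFunctionFieldBar (M * q)))
    (hf : f ∈ S36V_G A (S36V_emF M q)) (hf' : f ∈ S18_O A (M * q)) :
    S36V_Gred A (S36V_emF M q) ⟨f, hf⟩ =
      ((S18_red A (M * q) ⟨f, hf'⟩ :
        ↥(modularFunctionFieldFullC (IsLocalRing.ResidueField A) (M * q))) :
        LaurentSeries (IsLocalRing.ResidueField A)) :=
  S36V_Gred_S18 A (M * q) ⟨f, hf'⟩

include hq hqM hA in
/-- the Gauss ring along `emV` is contained in `O₂ = O₁ ∘ w_q`. -/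
theorem S36HV_V_le (f : ↥(modularFunctionFieldBar (M * q)))
    (hf : f ∈ S36V_G A (S36V_emV M q hq hqM)) :
    S34DF_wq M q hq hqM f ∈ S18_O A (M * q) := by
  have h1 : S36V_emV M q hq hqM f = S36V_emF M q (S34DF_wq M q hq hqM f) := rfl
  exact S36HV_F_le_S18 M q hq hqM A hA ((S36V_mem_G_of_eq A _ _ h1).1 hf)

/-- the Gauss reduction along `emV` is the reduction of `S18` of `w_q f`. -/
theorem S36HV_V_red (f : ↥(modularFunctionFieldBar (M * q)))
    (hf : f ∈ S36V_G A (S36V_emV M q hq hqM))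
    (hf' : S34DF_wq M q hq hqM f ∈ S18_O A (M * q)) :
    S36V_Gred A (S36V_emV M q hq hqM) ⟨f, hf⟩ =
      ((S18_red A (M * q) ⟨S34DF_wq M q hq hqM f, hf'⟩ :
        ↥(modularFunctionFieldFullC (IsLocalRing.ResidueField A) (M * q))) :
        LaurentSeries (IsLocalRing.ResidueField A)) := by
  have h1 : S36V_emV M q hq hqM f = S36V_emF M q (S34DF_wq M q hq hqM f) := rfl
  have hf2 : S34DF_wq M q hq hqM f ∈ S36V_G A (S36V_emF M q) :=
    (S36V_mem_G_of_eq A _ _ h1).1 hf
  rw [S36V_Gred_of_eq A _ _ h1 hf hf2]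
  exact S36HV_F_red M q A _ hf2 hf'

/-! ### the node relation in `Ω` -/

include hA in
/-- **the node relation in `Ω`** for the Gauss reductions along `emF`, `emV`. -/
theorem S36HV_glue_G {n : ℕ} (hn : 0 < n) {I : Type*}
    (e₁ : I → ↥(S34M_chart M q A n hn).Rb₁ →ₐ[IsLocalRing.ResidueField A]
      IsLocalRing.ResidueField A)
    (e₂ : I → ↥(S34M_chart M q A n hn).Rb₂ →ₐ[IsLocalRing.ResidueField A]
      IsLocalRing.ResidueField A)
    (hW1 : S34K_W (S34M_same M q hq hqM A hgen) (S34M_chart M q A n hn) 1 = S34B_W e₁ e₂)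
    (f : ↥(modularFunctionFieldBar (M * q)))
    (hF : f ∈ S36V_G A (S36V_emF M q)) (hV : f ∈ S36V_G A (S36V_emV M q hq hqM))
    (hB : f ∈ (S34M_chart M q A n hn).B) :
    ∃ (mF : ↥((S34M_chart M q A n hn).Rb₁.map
          (modularFunctionFieldFullC (IsLocalRing.ResidueField A) (M * q)).val))
      (mV : ↥((S34M_chart M q A n hn).Rb₂.map
          (modularFunctionFieldFullC (IsLocalRing.ResidueField A) (M * q)).val)),
      (mF : LaurentSeries (IsLocalRing.ResidueField A)) = S36V_Gred A (S36V_emF M q) ⟨f, hF⟩ ∧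
      (mV : LaurentSeries (IsLocalRing.ResidueField A)) =
        S36V_Gred A (S36V_emV M q hq hqM) ⟨f, hV⟩ ∧
      ∀ i, S36HV_ev (modularFunctionFieldFullC (IsLocalRing.ResidueField A) (M * q)).val
          (S34M_chart M q A n hn).Rb₁ (e₁ i) mF =
        S36HV_ev (modularFunctionFieldFullC (IsLocalRing.ResidueField A) (M * q)).val
          (S34M_chart M q A n hn).Rb₂ (e₂ i) mV := by
  have h1 : f ∈ S18_O A (M * q) := S36HV_F_le_S18 M q hq hqM A hA hF
  have h2 : S34DF_wq M q hq hqM f ∈ S18_O A (M * q) := S36HV_V_le M q hq hqM A hA f hV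
  set f₂ : S34P_O2 (S34M_T1 M q A hgen) (S34M_T2 M q hq hqM A hgen) := ⟨f, ⟨h1, h2⟩⟩ with hf₂
  have hmem := S36HV_red_mem M q hq hqM A hA hgen hn f₂ hB
  have hrel := S36HV_node_rel M q hq hqM A hA hgen hn e₁ e₂ hW1 f₂ hB
  refine ⟨⟨_, S36HV_mem_map _ _ ⟨_, hmem.1⟩⟩, ⟨_, S36HV_mem_map _ _ ⟨_, hmem.2⟩⟩, ?_, ?_, ?_⟩
  · rw [S36HV_F_red M q A f hF h1]
    rfl
  · rw [S36HV_V_red M q hq hqM A f hV h2]
    rfl
  · intro i
    rw [S36HV_ev_mk, S36HV_ev_mk]
    exact hrel i

/-! ### `glue` of `S36HA_main` -/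

include hA in
/-- **`glue`**: for valuation data `DF`, `DV` on the fixed field of level `M q` which are tied
to the Gauss rings along `emF`, `emV` (helper13's `S36CG_Tie`): an integral function of the fixed
field, regular off the cusps, has reductions in the coordinate rings `RbF`, `RbV` with the same
values on the two branches of every node of TRACK 7. -/
theorem S36HV_glue (H : Subgroup (ℚbar ≃ₐ[ℚ] ℚbar))
    {πF πV : ↥(modularFunctionFieldBar (M * q))}
    (DF DV : S36CV_Val ↥(S36FI_act (M * q) H).fixF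
      (LaurentSeries (IsLocalRing.ResidueField A)))
    (TF : S36CG_Tie (M * q) H A (S36V_emF M q) πF DF)
    (TV : S36CG_Tie (M * q) H A (S36V_emV M q hq hqM) πV DV)
    {n : ℕ} (hn : 0 < n) {I : Type*}
    (e₁ : I → ↥(S34M_chart M q A n hn).Rb₁ →ₐ[IsLocalRing.ResidueField A]
      IsLocalRing.ResidueField A)
    (e₂ : I → ↥(S34M_chart M q A n hn).Rb₂ →ₐ[IsLocalRing.ResidueField A]
      IsLocalRing.ResidueField A)
    (hW1 : S34K_W (S34M_same M q hq hqM A hgen) (S34M_chart M q A n hn) 1 = S34B_W e₁ e₂)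
    (h : ↥(S36FI_act (M * q) H).fixF) (hF : h ∈ DF.O) (hV : h ∈ DV.O)
    (hB : (h : ↥(modularFunctionFieldBar (M * q))) ∈ (S34M_chart M q A n hn).B) :
    ∃ (mF : ↥((S34M_chart M q A n hn).Rb₁.map
          (modularFunctionFieldFullC (IsLocalRing.ResidueField A) (M * q)).val))
      (mV : ↥((S34M_chart M q A n hn).Rb₂.map
          (modularFunctionFieldFullC (IsLocalRing.ResidueField A) (M * q)).val)),
      (mF : LaurentSeries (IsLocalRing.ResidueField A)) = DF.ρ ⟨h, hF⟩ ∧
      (mV : LaurentSeries (IsLocalRing.ResidueField A)) = DV.ρ ⟨h, hV⟩ ∧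
      ∀ i, S36HV_ev (modularFunctionFieldFullC (IsLocalRing.ResidueField A) (M * q)).val
          (S34M_chart M q A n hn).Rb₁ (e₁ i) mF =
        S36HV_ev (modularFunctionFieldFullC (IsLocalRing.ResidueField A) (M * q)).val
          (S34M_chart M q A n hn).Rb₂ (e₂ i) mV := by
  have gF := (TF.mem h).1 hF
  have gV := (TV.mem h).1 hV
  obtain ⟨mF, mV, e1, e2, e3⟩ :=
    S36HV_glue_G M q hq hqM A hA hgen hn e₁ e₂ hW1 (h : ↥(modularFunctionFieldBar (M * q)))
      gF gV hB
  exact ⟨mF, mV, by rw [e1, TF.red h hF gF], by rw [e2, TV.red h hV gV], e3⟩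

end Fermat.Agent.S36
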