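import Mathlib
import Fermat.Agent.S18.Norm
import Fermat.Agent.S34.SatPoleX0
import Fermat.Agent.S35.BridgeA
import Fermat.Agent.S36.Inj3Chart
import Fermat.Agent.S36.FixLInst

/-!
# TRACK 10 (S36), C3.3 = HVInst (helper29), part 2: `B₁` and the norms of regular functions
(`nB₁`, `nB₂` of `S36HA_main`)

Prefix `S36HV_`.  Levels `N` (`= M q`) and `N * q`; `α = heckeAlphaBar ℚ̄ N q`,
`β = heckeBetaBar ℚ̄ N q : F_N → F_{N q}`; `A = α j = j`, `B = β j = j(t^q)` in `F_{N q}`.
The chart of level `N q` is `U = {B ≠ ∞}` (ruling D9), the chart of level `N` is TRACK 7's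
`{j ≠ ∞}`.

* `S36HV_norm_reg` (abstract) : the norm along `φ : F → F'` of an element integral over `K[φ x]`
  is regular where `x` is regular;
* `S36HV_NA_reg`, `S36HV_NB_reg` : `N_α f`, `N_β f` are regular where `j` is regular if `f` is
  regular where `B` is regular;
* `S36HV_NA_mem`, `S36HV_NB_mem` : the same for the charts `S34IX_reg (S34IX_TU _)`;
* `S36HV_B₁ S hL T` : the functions of the fixed field `S.fixF` regular on `T`, as a subalgebra
  over ANY field `L` acting through constants (`hL`), e.g. `L = ℚ̄^H` written at another level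
  (`S36CT_alg`); `S36HV_mem_B₁`, `S36HV_B₁_root` (= `hB₁` of `S36HA_main`);
* `S36HV_nB₁`, `S36HV_nB₂` : **`nB₁`, `nB₂` of `S36HA_main`** for norms `N₁ N₂` on the units of
  the fixed fields which restrict `S35B_NA`, `S35B_NB` (helper18's `S36CN_NA/NB` with
  `S36CN_NA_coe/NB_coe`) and a chart coordinate `j₂` with `↑j₂ = β j`.
-/

set_option autoImplicit false
set_option synthInstance.maxHeartbeats 400000
set_option maxHeartbeats 1000000
set_option linter.unusedSectionVars false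
set_option linter.unusedVariables false
set_option linter.style.haveILetI false
set_option linter.style.longLine false

open IntermediateField AlgebraicCurve ModularCurve

noncomputable section

namespace Fermat.Agent.S36

open Fermat.Agent.S18 Fermat.Agent.S24 Fermat.Agent.S34 Fermat.Agent.S35 Fermat.Agent.Lib

/-! ### abstract -/

section generic

variable {K F F' : Type*} [Field K] [Field F] [Field F'] [Algebra K F] [Algebra K F']

/-- the norm along `φ` of an element integral over `K[φ x]` is regular where `x` is. -/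
theorem S36HV_norm_reg (φ : F →ₐ[K] F') (x : F) (f : F')
    (hint : IsIntegral (Algebra.adjoin K ({φ x} : Set F')) f)
    (P : Place K F) (hP : 0 ≤ P.ord x) :
    0 ≤ P.ord (@Algebra.norm F F' _ _ φ.toRingHom.toAlgebra f) := by
  letI : Algebra F F' := φ.toRingHom.toAlgebra
  haveI : IsScalarTower K F F' :=
    IsScalarTower.of_algebraMap_eq (fun c => (φ.commutes c).symm)
  exact NM_regular_of_isIntegral x _ (NM_isIntegral_norm x f hint) P hP

end generic

/-! ### the fixed-field chart as a subalgebra over the constants -/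

section B1

variable {K F H : Type*} [Field K] [Field F] [Algebra K F] (S : S36FL_Act K F H)
  {L : Type*} [Field L] [Algebra L ↥S.fixF]

/-- the functions of the fixed field regular on `T`, as an `L`-subalgebra, for any field `L`
acting through constants of `K`. -/
def S36HV_B₁ (hL : ∀ c : L, ∃ a : K, ((algebraMap L ↥S.fixF c : ↥S.fixF) : F) = algebraMap K F a)
    (T : Set (Place K F)) : Subalgebra L ↥S.fixF where
  carrier := {f | (f : F) ∈ S34IX_reg T}
  mul_mem' := fun ha hb => (S34IX_reg T).mul_mem ha hb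
  add_mem' := fun ha hb => (S34IX_reg T).add_mem ha hb
  algebraMap_mem' := fun c => by
    obtain ⟨a, ha⟩ := hL c
    show ((algebraMap L ↥S.fixF c : ↥S.fixF) : F) ∈ S34IX_reg T
    rw [ha]
    exact (S34IX_reg T).algebraMap_mem a

theorem S36HV_mem_B₁ {hL : ∀ c : L, ∃ a : K,
      ((algebraMap L ↥S.fixF c : ↥S.fixF) : F) = algebraMap K F a}
    {T : Set (Place K F)} {f : ↥S.fixF} :
    f ∈ S36HV_B₁ S hL T ↔ (f : F) ∈ S34IX_reg T := Iff.rfl

/-- `B₁` is root closed (`hB₁` of `S36HA_main`). -/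
theorem S36HV_B₁_root (hL : ∀ c : L, ∃ a : K,
      ((algebraMap L ↥S.fixF c : ↥S.fixF) : F) = algebraMap K F a)
    (T : Set (Place K F)) {n : ℕ} (hn : 0 < n) (f : ↥S.fixF)
    (hf : f ^ n ∈ S36HV_B₁ S hL T) : f ∈ S36HV_B₁ S hL T :=
  S34IX_reg_root T hn (f : F) hf

end B1

/-! ### the norms along `α`, `β` of functions regular off the cusps -/

local notation "ℚbar" => AlgebraicClosure ℚ

section norms

variable (N q : ℕ) [NeZero N] [NeZero q]

/-- `B = β j` is regular where `A = α j = j` is regular. -/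
theorem S36HV_B_reg (P : Place ℚbar ↥(modularFunctionFieldBar (N * q)))
    (hP : 0 ≤ P.ord (jB (N * q))) : 0 ≤ P.ord (heckeBetaBar ℚbar N q (jB N)) := by
  rw [S34SP_beta_jB]
  exact S34SX_reg_jBar (N * q) P hP q (Dvd.intro_left N rfl)

/-- **the norm along `α`** of a function regular where `B` is regular is regular where `j` is
regular. -/
theorem S36HV_NA_reg (f : ↥(modularFunctionFieldBar (N * q)))
    (hf : ∀ P : Place ℚbar ↥(modularFunctionFieldBar (N * q)),
      0 ≤ P.ord (heckeBetaBar ℚbar N q (jB N)) → 0 ≤ P.ord f)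
    (P : Place ℚbar ↥(modularFunctionFieldBar N)) (hP : 0 ≤ P.ord (jB N)) :
    0 ≤ P.ord (S35B_NA N q f) := by
  have hint : IsIntegral (Algebra.adjoin ℚbar
      ({heckeAlphaBar ℚbar N q (jB N)} : Set ↥(modularFunctionFieldBar (N * q)))) f := by
    rw [S34SP_alpha_jB]
    exact S34SP_reg (N * q) f (fun P' hP' => hf P' (S36HV_B_reg N q P' hP'))
  exact S36HV_norm_reg (heckeAlphaBar ℚbar N q) (jB N) f hint P hP

/-- **the norm along `β`** of a function regular where `B` is regular is regular where `j` is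
regular. -/
theorem S36HV_NB_reg (f : ↥(modularFunctionFieldBar (N * q)))
    (hf : ∀ P : Place ℚbar ↥(modularFunctionFieldBar (N * q)),
      0 ≤ P.ord (heckeBetaBar ℚbar N q (jB N)) → 0 ≤ P.ord f)
    (P : Place ℚbar ↥(modularFunctionFieldBar N)) (hP : 0 ≤ P.ord (jB N)) :
    0 ≤ P.ord (S35B_NB N q f) := by
  have ht : Transcendental ℚbar (heckeBetaBar ℚbar N q (jB N)) := fun h =>
    transcendental_jB N
      ((isAlgebraic_algHom_iff (heckeBetaBar ℚbar N q) (heckeBetaBar ℚbar N q).injective).mp h)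
  haveI : FiniteDimensional ℚbar⟮heckeBetaBar ℚbar N q (jB N)⟯
      ↥(modularFunctionFieldBar (N * q)) :=
    BL_finite_of_transcendental (finiteDimensional_jB (N * q)) ht
  haveI : CharZero ℚbar⟮heckeBetaBar ℚbar N q (jB N)⟯ :=
    charZero_of_injective_algebraMap
      (algebraMap ℚbar ℚbar⟮heckeBetaBar ℚbar N q (jB N)⟯).injective
  haveI : Algebra.IsSeparable ℚbar⟮heckeBetaBar ℚbar N q (jB N)⟯
      ↥(modularFunctionFieldBar (N * q)) := Algebra.IsSeparable.of_integral _ _
  have hint : IsIntegral (Algebra.adjoin ℚbar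
      ({heckeBetaBar ℚbar N q (jB N)} : Set ↥(modularFunctionFieldBar (N * q)))) f :=
    S18_semi_isIntegral_of_regular ht f hf
  exact S36HV_norm_reg (heckeBetaBar ℚbar N q) (jB N) f hint P hP

/-- chart form of `S36HV_NA_reg`. -/
theorem S36HV_NA_mem (f : ↥(modularFunctionFieldBar (N * q)))
    (hf : f ∈ S34IX_reg (S34IX_TU (K := ℚbar) (heckeBetaBar ℚbar N q (jB N)))) :
    S35B_NA N q f ∈ S34IX_reg (S34IX_TU (K := ℚbar) (jB N)) := by
  rw [S34IX_mem_reg_iff_ord] at hf ⊢
  exact fun P hP => S36HV_NA_reg N q f hf P hP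

/-- chart form of `S36HV_NB_reg`. -/
theorem S36HV_NB_mem (f : ↥(modularFunctionFieldBar (N * q)))
    (hf : f ∈ S34IX_reg (S34IX_TU (K := ℚbar) (heckeBetaBar ℚbar N q (jB N)))) :
    S35B_NB N q f ∈ S34IX_reg (S34IX_TU (K := ℚbar) (jB N)) := by
  rw [S34IX_mem_reg_iff_ord] at hf ⊢
  exact fun P hP => S36HV_NB_reg N q f hf P hP

/-! ### `nB₁`, `nB₂` -/

variable [NeZero (N * q)] (H : Subgroup (ℚbar ≃ₐ[ℚ] ℚbar))
  {L : Type*} [Field L] [Algebra L ↥(S36FI_act N H).fixF]

/-- **`nB₁` of `S36HA_main`**: the norm `N₁` (restricting `S35B_NA`) of a function of the fixed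
field of level `N q`, regular on the chart `{j₂ ≠ ∞}`, `↑j₂ = β j`, lies in `B₁`. -/
theorem S36HV_nB₁
    (hL : ∀ c : L, ∃ a : ℚbar, ((algebraMap L ↥(S36FI_act N H).fixF c :
      ↥(S36FI_act N H).fixF) : ↥(modularFunctionFieldBar N)) =
        algebraMap ℚbar ↥(modularFunctionFieldBar N) a)
    (N₁ : (↥(S36FI_act (N * q) H).fixF)ˣ →* (↥(S36FI_act N H).fixF)ˣ)
    (hN₁ : ∀ u : (↥(S36FI_act (N * q) H).fixF)ˣ,
      (((N₁ u : (↥(S36FI_act N H).fixF)ˣ) : ↥(S36FI_act N H).fixF) :
        ↥(modularFunctionFieldBar N)) =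
      S35B_NA N q (((u : ↥(S36FI_act (N * q) H).fixF)) : ↥(modularFunctionFieldBar (N * q))))
    (j₂ : ↥(S36FI_act (N * q) H).fixF)
    (hj₂ : (j₂ : ↥(modularFunctionFieldBar (N * q))) = heckeBetaBar ℚbar N q (jB N))
    (x : (↥(S36FI_act (N * q) H).fixF)ˣ)
    (hx : (x : ↥(S36FI_act (N * q) H).fixF) ∈
      S36I3_reg (S36FI_act (N * q) H)
        (S34IX_TU (K := ℚbar) (j₂ : ↥(modularFunctionFieldBar (N * q))))) :
    ((N₁ x : (↥(S36FI_act N H).fixF)ˣ) : ↥(S36FI_act N H).fixF) ∈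
      S36HV_B₁ (S36FI_act N H) hL (S34IX_TU (K := ℚbar) (jB N)) := by
  rw [S36HV_mem_B₁, hN₁]
  rw [S36I3_mem_reg, hj₂] at hx
  exact S36HV_NA_mem N q _ hx

/-- **`nB₂` of `S36HA_main`**. -/
theorem S36HV_nB₂
    (hL : ∀ c : L, ∃ a : ℚbar, ((algebraMap L ↥(S36FI_act N H).fixF c :
      ↥(S36FI_act N H).fixF) : ↥(modularFunctionFieldBar N)) =
        algebraMap ℚbar ↥(modularFunctionFieldBar N) a)
    (N₂ : (↥(S36FI_act (N * q) H).fixF)ˣ →* (↥(S36FI_act N H).fixF)ˣ)
    (hN₂ : ∀ u : (↥(S36FI_act (N * q) H).fixF)ˣ,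
      (((N₂ u : (↥(S36FI_act N H).fixF)ˣ) : ↥(S36FI_act N H).fixF) :
        ↥(modularFunctionFieldBar N)) =
      S35B_NB N q (((u : ↥(S36FI_act (N * q) H).fixF)) : ↥(modularFunctionFieldBar (N * q))))
    (j₂ : ↥(S36FI_act (N * q) H).fixF)
    (hj₂ : (j₂ : ↥(modularFunctionFieldBar (N * q))) = heckeBetaBar ℚbar N q (jB N))
    (x : (↥(S36FI_act (N * q) H).fixF)ˣ)
    (hx : (x : ↥(S36FI_act (N * q) H).fixF) ∈
      S36I3_reg (S36FI_act (N * q) H)
        (S34IX_TU (K := ℚbar) (j₂ : ↥(modularFunctionFieldBar (N * q))))) :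
    ((N₂ x : (↥(S36FI_act N H).fixF)ˣ) : ↥(S36FI_act N H).fixF) ∈
      S36HV_B₁ (S36FI_act N H) hL (S34IX_TU (K := ℚbar) (jB N)) := by
  rw [S36HV_mem_B₁, hN₂]
  rw [S36I3_mem_reg, hj₂] at hx
  exact S36HV_NB_mem N q _ hx

end norms

end Fermat.Agent.S36
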