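import Fermat.Agent.S36.HVAbs
import Fermat.Agent.S36.HVGlue
import Fermat.Agent.S36.HVNorm
import Fermat.Agent.S36.Charts

/-!
# TRACK 10 (S36), C3.3 = HVInst (helper29), part 3: `hV` on the concrete objects

Prefix `S36HV_`.  `q ∤ M` prime, `A ⊂ ℚ̄` over `q`, `H ≤ Gal(ℚ̄/ℚ)` (the inertia group),
`k` the residue field of `A`, `Ω = k((t))`;  `F₂ = F_{M q²}^H`, `F₁ = F_{M q}^H`,
`L = ℚ̄^H` (written at level `M q²`), `F₁` an `L`-algebra through the constants (`halg`).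

`S36HV_main` is `S36HA_main` (helper2) with the LEVEL-`q` block supplied:

* `B₁ := S36HV_B₁ … (S34IX_TU (jB (M q)))` (regular off the cusps), root closed;
* `RbF := Rb₁.map emb`, `RbV := Rb₂.map emb` for TRACK 7's chart `S34M_chart M q A n hn` and
  `emb := (F̄_{Mq}).val`;
* `eF y := S36HV_ev emb Rb₁ (nF (π₁ y))`, `eV y := S36HV_ev emb Rb₂ (nV (π₁ y))`,
  `eF' y := S36HV_ev emb Rb₁ (nF (π₂ y))`, `eV' y := S36HV_ev emb Rb₂ (nV (π₂ y))`
  for TRACK 7's nodes `nF nV` (`hW1`; `S36SS_Data.e₁/e₂/hW1`) and `π₁ π₂ : ι → I`;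
* `glue` = `S36HV_glue` (ties `TF`, `TV` of `Hc.F`, `Hc.V` to the Gauss rings along `emF`, `emV`);
* `nB₁`, `nB₂` = `S36HV_nB₁`, `S36HV_nB₂` (`Hc.N₁`, `Hc.N₂` restrict `S35B_NA`, `S35B_NB`; the
  chart `C` of level `q²` is cut out by `j₂` with `↑j₂ = β j`);
* `hperf`, `root_n` : `k` is algebraically closed.

Remaining inputs: `E1F … E2V` (helper4, `S36HE_Coord`), and the objects of `S36HA_main`.
-/

set_option autoImplicit false
set_option synthInstance.maxHeartbeats 400000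
set_option maxHeartbeats 1000000
set_option linter.unusedSectionVars false
set_option linter.unusedVariables false
set_option linter.style.haveILetI false
set_option linter.style.longLine false

open HahnSeries IntermediateField AlgebraicCurve ModularCurve

noncomputable section

namespace Fermat.Agent.S36

open Fermat.Agent.S18 Fermat.Agent.S24 Fermat.Agent.S34 Fermat.Agent.S35 Fermat.Agent.Lib

/-- `n`-th roots of constants are constants (over an algebraically closed field). -/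
theorem S36HV_root_n {k Ω : Type*} [Field k] [Field Ω] [Algebra k Ω] [IsAlgClosed k]
    {n : ℕ} (hn : 0 < n) (x : Ω) (c : k) (h : x ^ n = algebraMap k Ω c) :
    ∃ d : k, x = algebraMap k Ω d := by
  have hint : IsIntegral k x := by
    refine ⟨Polynomial.X ^ n - Polynomial.C c, Polynomial.monic_X_pow_sub_C c hn.ne', ?_⟩
    rw [Polynomial.eval₂_sub, Polynomial.eval₂_pow, Polynomial.eval₂_X, Polynomial.eval₂_C, h,
      sub_self]
  have hdeg := IsAlgClosed.degree_eq_one_of_irreducible k (minpoly.irreducible hint)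
  obtain ⟨d, hd⟩ := minpoly.mem_range_of_degree_eq_one k x hdeg
  exact ⟨d, hd.symm⟩

local notation "ℚbar" => AlgebraicClosure ℚ

variable (M q : ℕ) [NeZero M] [NeZero q] [NeZero (M * q)] [NeZero (M * q * q)]
  (hq : q.Prime) (hqM : ¬ q ∣ M)
  (A : ValuationSubring ℚbar) (hA : A.LiesOverPrime q)
  (hgen : PrincipalGeneratedByIntegral A (IsLocalRing.residue A) (M * q))
  (H : Subgroup (ℚbar ≃ₐ[ℚ] ℚbar))

include hA in
/-- **`hV` on the concrete objects**: `S36HA_main` with the level-`q` block supplied. -/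
theorem S36HV_main
    [Algebra ↥(S36FI_act (M * q * q) H).fixK ↥(S36FI_act (M * q) H).fixF]
    (halg : ∀ c : ↥(S36FI_act (M * q * q) H).fixK,
      ((algebraMap ↥(S36FI_act (M * q * q) H).fixK ↥(S36FI_act (M * q) H).fixF c :
        ↥(S36FI_act (M * q) H).fixF) : ↥(modularFunctionFieldBar (M * q))) =
        algebraMap ℚbar ↥(modularFunctionFieldBar (M * q)) (c : ℚbar))
    {Fk₁ Fk₂ Fk₃ : Type*} [Field Fk₁] [Field Fk₂] [Field Fk₃]
    [Algebra (IsLocalRing.ResidueField A) Fk₁] [Algebra (IsLocalRing.ResidueField A) Fk₂]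
    [Algebra (IsLocalRing.ResidueField A) Fk₃]
    {n : ℕ} (hn : 0 < n)
    (Hc : S36CH_Hyp ↥(S36FI_act (M * q * q) H).fixK ↥(S36FI_act (M * q * q) H).fixF
      ↥(S36FI_act (M * q) H).fixF (IsLocalRing.ResidueField A)
      (LaurentSeries (IsLocalRing.ResidueField A)) n q)
    {πF πV : ↥(modularFunctionFieldBar (M * q))}
    (TF : S36CG_Tie (M * q) H A (S36V_emF M q) πF Hc.F)
    (TV : S36CG_Tie (M * q) H A (S36V_emV M q hq hqM) πV Hc.V)
    (hN₁ : ∀ u : (↥(S36FI_act (M * q * q) H).fixF)ˣ,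
      (((Hc.N₁ u : (↥(S36FI_act (M * q) H).fixF)ˣ) : ↥(S36FI_act (M * q) H).fixF) :
        ↥(modularFunctionFieldBar (M * q))) =
      S35B_NA (M * q) q (((u : ↥(S36FI_act (M * q * q) H).fixF)) :
        ↥(modularFunctionFieldBar (M * q * q))))
    (hN₂ : ∀ u : (↥(S36FI_act (M * q * q) H).fixF)ˣ,
      (((Hc.N₂ u : (↥(S36FI_act (M * q) H).fixF)ˣ) : ↥(S36FI_act (M * q) H).fixF) :
        ↥(modularFunctionFieldBar (M * q))) =
      S35B_NB (M * q) q (((u : ↥(S36FI_act (M * q * q) H).fixF)) :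
        ↥(modularFunctionFieldBar (M * q * q))))
    {S₁ : S18_Val ↥(S36FI_act (M * q * q) H).fixK ↥(S36FI_act (M * q * q) H).fixF
      (IsLocalRing.ResidueField A) Fk₁}
    {S₂ : S18_Val ↥(S36FI_act (M * q * q) H).fixK ↥(S36FI_act (M * q * q) H).fixF
      (IsLocalRing.ResidueField A) Fk₂}
    {S₃ : S18_Val ↥(S36FI_act (M * q * q) H).fixK ↥(S36FI_act (M * q * q) H).fixF
      (IsLocalRing.ResidueField A) Fk₃}
    (hS : S36L3_Same S₁ S₂ S₃)
    (hO₁ : S₁.O = Hc.FF.O) (hO₂ : S₂.O = Hc.FV.O) (hO₃ : S₃.O = Hc.VV.O)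
    (emb₁ : Fk₁ →ₐ[IsLocalRing.ResidueField A] LaurentSeries (IsLocalRing.ResidueField A))
    (emb₂ : Fk₂ →ₐ[IsLocalRing.ResidueField A] LaurentSeries (IsLocalRing.ResidueField A))
    (emb₃ : Fk₃ →ₐ[IsLocalRing.ResidueField A] LaurentSeries (IsLocalRing.ResidueField A))
    (hρ₁ : ∀ (x : ↥(S36FI_act (M * q * q) H).fixF) (h : x ∈ S₁.O) (h' : x ∈ Hc.FF.O),
      Hc.FF.ρ ⟨x, h'⟩ = emb₁ (S₁.red ⟨x, h⟩))
    (hρ₂ : ∀ (x : ↥(S36FI_act (M * q * q) H).fixF) (h : x ∈ S₂.O) (h' : x ∈ Hc.FV.O),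
      Hc.FV.ρ ⟨x, h'⟩ = emb₂ (S₂.red ⟨x, h⟩))
    (hρ₃ : ∀ (x : ↥(S36FI_act (M * q * q) H).fixF) (h : x ∈ S₃.O) (h' : x ∈ Hc.VV.O),
      Hc.VV.ρ ⟨x, h'⟩ = emb₃ (S₃.red ⟨x, h⟩))
    (C : S36L3_Chart ↥(S36FI_act (M * q * q) H).fixK ↥(S36FI_act (M * q * q) H).fixF
      (IsLocalRing.ResidueField A) Fk₁ Fk₂ Fk₃ n)
    (j₂ : ↥(S36FI_act (M * q * q) H).fixF)
    (hj₂ : (j₂ : ↥(modularFunctionFieldBar (M * q * q))) =
      heckeBetaBar ℚbar (M * q) q (jB (M * q)))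
    (hCB : ∀ x : ↥(S36FI_act (M * q * q) H).fixF, x ∈ C.B →
      x ∈ S36I3_reg (S36FI_act (M * q * q) H)
        (S34IX_TU (K := ℚbar) (j₂ : ↥(modularFunctionFieldBar (M * q * q)))))
    {ι : Type*}
    (e₁ : ι → ↥C.Rb₁ →ₐ[IsLocalRing.ResidueField A] IsLocalRing.ResidueField A)
    (e₂ : ι → ↥C.Rb₂ →ₐ[IsLocalRing.ResidueField A] IsLocalRing.ResidueField A)
    (e₃ : ι → ↥C.Rb₃ →ₐ[IsLocalRing.ResidueField A] IsLocalRing.ResidueField A)
    {I : Type*}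
    (nF : I → ↥(S34M_chart M q A n hn).Rb₁ →ₐ[IsLocalRing.ResidueField A]
      IsLocalRing.ResidueField A)
    (nV : I → ↥(S34M_chart M q A n hn).Rb₂ →ₐ[IsLocalRing.ResidueField A]
      IsLocalRing.ResidueField A)
    (hW1 : S34K_W (S34M_same M q hq hqM A hgen) (S34M_chart M q A n hn) 1 = S34B_W nF nV)
    (π₁ π₂ : ι → I)
    (E1F : ∀ y (z : ↥((S34M_chart M q A n hn).Rb₁.map
          (modularFunctionFieldFullC (IsLocalRing.ResidueField A) (M * q)).val))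
        (a : ↥C.Rb₁) (b : ↥C.Rb₂),
      (z : LaurentSeries (IsLocalRing.ResidueField A)) = emb₁ (a : Fk₁) * emb₂ (b : Fk₂) ^ (q - 1) →
      S36HV_ev (modularFunctionFieldFullC (IsLocalRing.ResidueField A) (M * q)).val
          (S34M_chart M q A n hn).Rb₁ (nF (π₁ y)) z = e₁ y a * e₂ y b ^ (q - 1))
    (E1V : ∀ y (z : ↥((S34M_chart M q A n hn).Rb₂.map
          (modularFunctionFieldFullC (IsLocalRing.ResidueField A) (M * q)).val))
        (c : ↥C.Rb₃),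
      Hc.Ψ (z : LaurentSeries (IsLocalRing.ResidueField A)) = emb₃ (c : Fk₃) ^ q →
      S36HV_ev (modularFunctionFieldFullC (IsLocalRing.ResidueField A) (M * q)).val
          (S34M_chart M q A n hn).Rb₂ (nV (π₁ y)) z = e₃ y c ^ q)
    (E2F : ∀ y (z : ↥((S34M_chart M q A n hn).Rb₁.map
          (modularFunctionFieldFullC (IsLocalRing.ResidueField A) (M * q)).val))
        (a : ↥C.Rb₁),
      Hc.Ψ (z : LaurentSeries (IsLocalRing.ResidueField A)) = emb₁ (a : Fk₁) ^ q →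
      S36HV_ev (modularFunctionFieldFullC (IsLocalRing.ResidueField A) (M * q)).val
          (S34M_chart M q A n hn).Rb₁ (nF (π₂ y)) z = e₁ y a ^ q)
    (E2V : ∀ y (z : ↥((S34M_chart M q A n hn).Rb₂.map
          (modularFunctionFieldFullC (IsLocalRing.ResidueField A) (M * q)).val))
        (b : ↥C.Rb₂) (c : ↥C.Rb₃),
      (z : LaurentSeries (IsLocalRing.ResidueField A)) = emb₂ (b : Fk₂) ^ (q - 1) * emb₃ (c : Fk₃) →
      S36HV_ev (modularFunctionFieldFullC (IsLocalRing.ResidueField A) (M * q)).val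
          (S34M_chart M q A n hn).Rb₂ (nV (π₂ y)) z = e₂ y b ^ (q - 1) * e₃ y c)
    (u : (↥(S36FI_act (M * q * q) H).fixF)ˣ) (hu : u ∈ S36L3_NormGrp S₁ S₂ S₃)
    (h₁ : Hc.N₁ u ∈ S36TL_Triv ↥(S36FI_act (M * q * q) H).fixK
      (F := ↥(S36FI_act (M * q) H).fixF) n)
    (h₂ : Hc.N₂ u ∈ S36TL_Triv ↥(S36FI_act (M * q * q) H).fixK
      (F := ↥(S36FI_act (M * q) H).fixF) n)
    (li : ∀ y, ∃ m ∈ S36L3_W hS C ((u : (↥(S36FI_act (M * q * q) H).fixF)ˣ) :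
        ↥(S36FI_act (M * q * q) H).fixF),
      e₁ y m.1 ≠ 0 ∧ e₂ y m.2.1 ≠ 0 ∧ e₃ y m.2.2 ≠ 0) :
    ∃ ξ ξ' : IsLocalRing.ResidueField A, ∀ y,
      ∃ m ∈ S36L3_W hS C ((u : (↥(S36FI_act (M * q * q) H).fixF)ˣ) :
        ↥(S36FI_act (M * q * q) H).fixF), e₁ y m.1 ≠ 0 ∧
      e₁ y m.1 * e₂ y m.2.1 ^ (q - 1) = ξ * e₃ y m.2.2 ^ q ∧
      ξ' * (e₂ y m.2.1 ^ (q - 1) * e₃ y m.2.2) = e₁ y m.1 ^ q := by
  haveI : IsAlgClosed (IsLocalRing.ResidueField A) := S18_residue_isAlgClosed A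
  have hL : ∀ c : ↥(S36FI_act (M * q * q) H).fixK, ∃ a : ℚbar,
      ((algebraMap ↥(S36FI_act (M * q * q) H).fixK ↥(S36FI_act (M * q) H).fixF c :
        ↥(S36FI_act (M * q) H).fixF) : ↥(modularFunctionFieldBar (M * q))) =
        algebraMap ℚbar ↥(modularFunctionFieldBar (M * q)) a := fun c => ⟨_, halg c⟩
  refine S36HA_main hn Hc hS hO₁ hO₂ hO₃ emb₁ emb₂ emb₃ hρ₁ hρ₂ hρ₃
    (fun c => IsAlgClosed.exists_pow_nat_eq c hq.pos)
    (fun x c h => S36HV_root_n hn x c h) C e₁ e₂ e₃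
    (S36HV_B₁ (S36FI_act (M * q) H) hL (S34IX_TU (K := ℚbar) (jB (M * q))))
    (fun h hh => S36HV_B₁_root (S36FI_act (M * q) H) hL _ hn h hh)
    ((S34M_chart M q A n hn).Rb₁.map
      (modularFunctionFieldFullC (IsLocalRing.ResidueField A) (M * q)).val)
    ((S34M_chart M q A n hn).Rb₂.map
      (modularFunctionFieldFullC (IsLocalRing.ResidueField A) (M * q)).val)
    (fun y => S36HV_ev _ _ (nF (π₁ y))) (fun y => S36HV_ev _ _ (nF (π₂ y)))
    (fun y => S36HV_ev _ _ (nV (π₁ y))) (fun y => S36HV_ev _ _ (nV (π₂ y)))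
    ?_ E1F E1V E2F E2V ?_ ?_ u hu h₁ h₂ li
  · -- glue
    intro h hF hV hB
    have hB' : (h : ↥(modularFunctionFieldBar (M * q))) ∈ (S34M_chart M q A n hn).B := by
      have h1 : (h : ↥(modularFunctionFieldBar (M * q))) ∈
          S34IX_reg (S34IX_TU (K := ℚbar) (jB (M * q))) := hB
      rw [S36CU_reg_eq] at h1
      exact h1
    obtain ⟨mF, mV, e1, e2, e3⟩ :=
      S36HV_glue M q hq hqM A hA hgen H Hc.F Hc.V TF TV hn nF nV hW1 h hF hV hB'
    exact ⟨mF, mV, e1, e2, fun y => ⟨e3 (π₁ y), e3 (π₂ y)⟩⟩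
  · -- nB₁
    intro x _ hx
    exact S36HV_nB₁ (M * q) q H hL Hc.N₁ hN₁ j₂ hj₂ x (hCB _ hx)
  · -- nB₂
    intro x _ hx
    exact S36HV_nB₂ (M * q) q H hL Hc.N₂ hN₂ j₂ hj₂ x (hCB _ hx)

end Fermat.Agent.S36
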