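import Fermat.Agent.S36.Nodal3Pkg

/-!
# TRACK 10 (S36), package F3 = NODAL3 (R11) (helper14), part 3: the branch points

Prefix `S36N3_`.  Abstract (Mathlib + `Nodal3Pkg`).

Level-`M` coordinates: `R₀` = the ring of regular functions of `κ` (all residue rings of
level `q` and `q²` are identified with it by helper12's reductions), `Ψ : R₀ → R₀` the
`k`-linear Frobenius (`t ↦ t^q`), `φ : R₀ → R₀` the coefficientwise Frobenius, `Ψ (φ x) = x ^ q`.
`P i`, `Q i` (`i : I`) the two branches of TRACK 7's nodes at level `q`, with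
`P i = Q i ∘ Ψ`, `Q i = P i ∘ Ψ` (`S36N3_nodes_frob`) and `{P i} = {Q i}` (`S36N3_nodes_symm`).
`z : ι → R₀ →ₐ[k] k` the supersingular points (`range z = range P`).

The three branch points of the triple point `y` at level `q²` are the SAME point `z y`
(forced by `hW1` and the table `red (α s) = (a, a, Ψ b)`, `red (β s) = (Ψ a, b, b)`).

* `S36N3_pi₁`, `S36N3_pi₂ : ι → I` : `P (π₁ y) = z y`, `Q (π₂ y) = z y`
  (the node of level `q` under `y` via `p₁`, resp. `p₂`);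
* `S36N3_Q_pi₁`, `S36N3_P_pi₂` : `Q (π₁ y) = z y ∘ Ψ = P (π₂ y)`;
* `S36N3_C2`, `S36N3_C3` : the compatibilities (C2), (C3) of helper29's HVInst;
* `S36N3_frob_sq` : `z y ∘ Ψ² = z y`;
* `S36N3_hW1_alpha`, `S36N3_hW1_beta` : the three branch values of `(a, a, Ψ b)` and
  `(Ψ a, b, b)` at `z y` agree for `(a, b) ∈ W'`;
* `S36N3_norm_rel` : the norm relation `(a − t)(b − t)^(q−1) = (c − t)^q` of `S36N3_eq_of_norm`
  from the unit norm–residue formulas and the node relation of level `q`.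
-/

set_option autoImplicit false

namespace Fermat.Agent.S36

section Pts

variable {k R₀ : Type*} [Field k] [CommRing R₀] [Algebra k R₀] {I ι : Type*}
  (P Q : I → R₀ →ₐ[k] k) (z : ι → R₀ →ₐ[k] k)

/-- the node of level `q` whose `F`-branch is the supersingular point `y`. -/
noncomputable def S36N3_pi₁ (hz : Set.range z = Set.range P) (y : ι) : I :=
  (show z y ∈ Set.range P from hz ▸ Set.mem_range_self y).choose

theorem S36N3_P_pi₁ (hz : Set.range z = Set.range P) (y : ι) :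
    P (S36N3_pi₁ P z hz y) = z y :=
  (show z y ∈ Set.range P from hz ▸ Set.mem_range_self y).choose_spec

/-- the node of level `q` whose `V`-branch is the supersingular point `y`. -/
noncomputable def S36N3_pi₂ (hz : Set.range z = Set.range P)
    (hPQ : Set.range P = Set.range Q) (y : ι) : I :=
  (show z y ∈ Set.range Q from hPQ ▸ hz ▸ Set.mem_range_self y).choose

theorem S36N3_Q_pi₂ (hz : Set.range z = Set.range P) (hPQ : Set.range P = Set.range Q)
    (y : ι) : Q (S36N3_pi₂ P Q z hz hPQ y) = z y :=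
  (show z y ∈ Set.range Q from hPQ ▸ hz ▸ Set.mem_range_self y).choose_spec

variable (Ψ : R₀ → R₀) (hP : ∀ i a, P i a = Q i (Ψ a)) (hQ : ∀ i a, Q i a = P i (Ψ a))

include hQ in
/-- `Q (π₁ y) = z y ∘ Ψ`. -/
theorem S36N3_Q_pi₁ (hz : Set.range z = Set.range P) (y : ι) (a : R₀) :
    Q (S36N3_pi₁ P z hz y) a = z y (Ψ a) := by
  rw [hQ, S36N3_P_pi₁ P z hz y]

include hP in
/-- `P (π₂ y) = z y ∘ Ψ`. -/
theorem S36N3_P_pi₂ (hz : Set.range z = Set.range P) (hPQ : Set.range P = Set.range Q)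
    (y : ι) (a : R₀) : P (S36N3_pi₂ P Q z hz hPQ y) a = z y (Ψ a) := by
  rw [hP, S36N3_Q_pi₂ P Q z hz hPQ y]

include hP hQ in
/-- the supersingular points are fixed by `Ψ²`. -/
theorem S36N3_frob_sq (hz : Set.range z = Set.range P) (y : ι) (a : R₀) :
    z y (Ψ (Ψ a)) = z y a := by
  rw [← S36N3_P_pi₁ P z hz y, ← hQ, ← hP]

variable (q : ℕ) (φ : R₀ → R₀) (hφ : ∀ x, Ψ (φ x) = x ^ q)

include hQ hφ in
/-- **(C2)** of HVInst: `e₁ = e₂ = P (π₁ y)` and `(e₃ x)^q = Q (π₁ y) (φ x)`, with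
`e₁ = e₂ = e₃ = z y`. -/
theorem S36N3_C2 (hz : Set.range z = Set.range P) (y : ι) (x : R₀) :
    z y x = P (S36N3_pi₁ P z hz y) x ∧ z y x ^ q = Q (S36N3_pi₁ P z hz y) (φ x) := by
  refine ⟨by rw [S36N3_P_pi₁ P z hz y], ?_⟩
  rw [S36N3_Q_pi₁ P Q z Ψ hQ hz y, hφ, map_pow]

include hP hφ in
/-- **(C3)** of HVInst: `(e₁ x)^q = P (π₂ y) (φ x)` and `e₂ = e₃ = Q (π₂ y)`, with
`e₁ = e₂ = e₃ = z y`. -/
theorem S36N3_C3 (hz : Set.range z = Set.range P) (hPQ : Set.range P = Set.range Q)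
    (y : ι) (x : R₀) :
    z y x ^ q = P (S36N3_pi₂ P Q z hz hPQ y) (φ x) ∧
      z y x = Q (S36N3_pi₂ P Q z hz hPQ y) x := by
  refine ⟨?_, by rw [S36N3_Q_pi₂ P Q z hz hPQ y]⟩
  rw [S36N3_P_pi₂ P Q z Ψ hP hz hPQ y, hφ, map_pow]

include hQ in
/-- `hW1` on the pull backs by `p₁`: the three branch values of `(a, a, Ψ b)` agree. -/
theorem S36N3_hW1_alpha (hz : Set.range z = Set.range P)
    {a b : R₀} (hab : ∀ i, P i a = Q i b) (y : ι) : z y a = z y (Ψ b) := by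
  rw [← S36N3_P_pi₁ P z hz y, hab, hQ, S36N3_P_pi₁ P z hz y]

include hP in
/-- `hW1` on the pull backs by `p₂`: the three branch values of `(Ψ a, b, b)` agree. -/
theorem S36N3_hW1_beta (hz : Set.range z = Set.range P) (hPQ : Set.range P = Set.range Q)
    {a b : R₀} (hab : ∀ i, P i a = Q i b) (y : ι) : z y (Ψ a) = z y b := by
  rw [← S36N3_Q_pi₂ P Q z hz hPQ y, ← hab, hP, S36N3_Q_pi₂ P Q z hz hPQ y]

include hQ in
/-- **the norm relation at a supersingular point**: if `(g₁, g₂, g₃)` are the three reductions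
of a unit `g`, `(n₁, n₂)` the two reductions of its norm `N₁ g` (a function of level `q`, so
`P i n₁ = Q i n₂`), `n₁ = g₁ g₂^(q−1)` (NR1F) and `Ψ n₂ = g₃^q` (NR1V), then
`z y g₁ * z y g₂ ^ (q − 1) = z y g₃ ^ q`. -/
theorem S36N3_norm_rel (hz : Set.range z = Set.range P)
    {g₁ g₂ g₃ n₁ n₂ : R₀} (hn : ∀ i, P i n₁ = Q i n₂)
    (h1 : n₁ = g₁ * g₂ ^ (q - 1)) (h2 : Ψ n₂ = g₃ ^ q) (y : ι) :
    z y g₁ * z y g₂ ^ (q - 1) = z y g₃ ^ q := by
  have e1 : z y n₁ = z y (Ψ n₂) := by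
    rw [← S36N3_P_pi₁ P z hz y, hn, hQ, S36N3_P_pi₁ P z hz y]
  rw [h1, h2, map_mul, map_pow, map_pow] at e1
  exact e1

end Pts

end Fermat.Agent.S36
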