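import Mathlib
import Fermat.Agent.S36.Nodal3Pts

/-!
# TRACK 10 (S36), C3.3 = HVInst, part E (helper4): the four compatibilities `E1F … E2V`

Prefix `S36HE_`.  Abstract (Mathlib + `Nodal3Pts`).

`S36HA_main` (helper2, `S36/HVAbs.lean`) asks for four compatibilities between the node
evaluations of level `q` (`eF eV` for `N₁ = N_α`, `eF' eV'` for `N₂ = N_β`) and the evaluations
`e₁ e₂ e₃` at the triple points of level `q²`: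

* `E1F : (z : Ω) = emb₁ a * emb₂ b ^ (q-1) → eF y z = e₁ y a * e₂ y b ^ (q-1)`,
* `E1V : Ψ (z : Ω) = emb₃ c ^ q → eV y z = e₃ y c ^ q`,
* `E2F : Ψ (z : Ω) = emb₁ a ^ q → eF' y z = e₁ y a ^ q`,
* `E2V : (z : Ω) = emb₂ b ^ (q-1) * emb₃ c → eV' y z = e₂ y b ^ (q-1) * e₃ y c`.

Here they are derived from **coordinates of level `M`** (`S36HE_Coord`):  a `k`-algebra `R₀`
(the regular functions of `κ`) with an injective `ε : R₀ → Ω`, identifications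
`u_j : Rb_j → R₀`, `uF : RbF → R₀`, `uV : RbV → R₀` compatible with the embeddings into `Ω`,
a map `φ : R₀ → R₀` with `Ψ (ε (φ x)) = ε x ^ q` (the coefficientwise Frobenius), the
supersingular points `z y : R₀ →ₐ[k] k`, TRACK 7's nodes `P i`, `Q i : R₀ →ₐ[k] k`, the maps
`π₁ π₂ : ι → I`, and helper14's compatibilities (C2), (C3) (`S36N3_C2`, `S36N3_C3`).
-/

set_option autoImplicit false

namespace Fermat.Agent.S36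

/-- the coordinates of level `M` for the evaluations of `S36HA_main`. -/
structure S36HE_Coord {k Ω Fk₁ Fk₂ Fk₃ : Type*} [Field k] [Field Ω] [Algebra k Ω]
    [Field Fk₁] [Field Fk₂] [Field Fk₃] [Algebra k Fk₁] [Algebra k Fk₂] [Algebra k Fk₃]
    (q : ℕ) (Ψ : Ω →+* Ω)
    (emb₁ : Fk₁ →ₐ[k] Ω) (emb₂ : Fk₂ →ₐ[k] Ω) (emb₃ : Fk₃ →ₐ[k] Ω)
    (Rb₁ : Subalgebra k Fk₁) (Rb₂ : Subalgebra k Fk₂) (Rb₃ : Subalgebra k Fk₃)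
    (RbF RbV : Subalgebra k Ω) {ι : Type*}
    (e₁ : ι → ↥Rb₁ →ₐ[k] k) (e₂ : ι → ↥Rb₂ →ₐ[k] k) (e₃ : ι → ↥Rb₃ →ₐ[k] k)
    (eF eF' : ι → ↥RbF →ₐ[k] k) (eV eV' : ι → ↥RbV →ₐ[k] k)
    (R₀ : Type*) [CommRing R₀] [Algebra k R₀] (I : Type*) where
  /-- the embedding of the coordinate ring -/
  ε : R₀ →+* Ω
  ε_inj : Function.Injective ε
  u₁ : ↥Rb₁ →+* R₀
  u₂ : ↥Rb₂ →+* R₀
  u₃ : ↥Rb₃ →+* R₀
  uF : ↥RbF →+* R₀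
  uV : ↥RbV →+* R₀
  hu₁ : ∀ a, ε (u₁ a) = emb₁ (a : Fk₁)
  hu₂ : ∀ a, ε (u₂ a) = emb₂ (a : Fk₂)
  hu₃ : ∀ a, ε (u₃ a) = emb₃ (a : Fk₃)
  huF : ∀ m, ε (uF m) = (m : Ω)
  huV : ∀ m, ε (uV m) = (m : Ω)
  /-- the coefficientwise Frobenius -/
  φ : R₀ → R₀
  hφ : ∀ x, Ψ (ε (φ x)) = ε x ^ q
  /-- the supersingular points -/
  z : ι → R₀ →ₐ[k] k
  /-- the `F`-branches of the nodes of level `q` -/
  P : I → R₀ →ₐ[k] k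
  /-- the `V`-branches of the nodes of level `q` -/
  Q : I → R₀ →ₐ[k] k
  π₁ : ι → I
  π₂ : ι → I
  he₁ : ∀ y a, e₁ y a = z y (u₁ a)
  he₂ : ∀ y a, e₂ y a = z y (u₂ a)
  he₃ : ∀ y a, e₃ y a = z y (u₃ a)
  heF : ∀ y m, eF y m = P (π₁ y) (uF m)
  heV : ∀ y m, eV y m = Q (π₁ y) (uV m)
  heF' : ∀ y m, eF' y m = P (π₂ y) (uF m)
  heV' : ∀ y m, eV' y m = Q (π₂ y) (uV m)
  /-- (C2) -/
  C2 : ∀ y x, z y x = P (π₁ y) x ∧ z y x ^ q = Q (π₁ y) (φ x)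
  /-- (C3) -/
  C3 : ∀ y x, z y x ^ q = P (π₂ y) (φ x) ∧ z y x = Q (π₂ y) x

namespace S36HE_Coord

variable {k Ω Fk₁ Fk₂ Fk₃ : Type*} [Field k] [Field Ω] [Algebra k Ω]
  [Field Fk₁] [Field Fk₂] [Field Fk₃] [Algebra k Fk₁] [Algebra k Fk₂] [Algebra k Fk₃]
  {q : ℕ} {Ψ : Ω →+* Ω}
  {emb₁ : Fk₁ →ₐ[k] Ω} {emb₂ : Fk₂ →ₐ[k] Ω} {emb₃ : Fk₃ →ₐ[k] Ω}
  {Rb₁ : Subalgebra k Fk₁} {Rb₂ : Subalgebra k Fk₂} {Rb₃ : Subalgebra k Fk₃}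
  {RbF RbV : Subalgebra k Ω} {ι : Type*}
  {e₁ : ι → ↥Rb₁ →ₐ[k] k} {e₂ : ι → ↥Rb₂ →ₐ[k] k} {e₃ : ι → ↥Rb₃ →ₐ[k] k}
  {eF eF' : ι → ↥RbF →ₐ[k] k} {eV eV' : ι → ↥RbV →ₐ[k] k}
  {R₀ : Type*} [CommRing R₀] [Algebra k R₀] {I : Type*}
  (N : S36HE_Coord q Ψ emb₁ emb₂ emb₃ Rb₁ Rb₂ Rb₃ RbF RbV e₁ e₂ e₃ eF eF' eV eV' R₀ I)

include N in
/-- **E1F**. -/
theorem E1F (y : ι) (z : ↥RbF) (a : ↥Rb₁) (b : ↥Rb₂)
    (h : (z : Ω) = emb₁ a * emb₂ b ^ (q - 1)) : eF y z = e₁ y a * e₂ y b ^ (q - 1) := by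
  have hz : N.uF z = N.u₁ a * N.u₂ b ^ (q - 1) := by
    apply N.ε_inj
    rw [N.huF, map_mul, map_pow, N.hu₁, N.hu₂, h]
  rw [N.heF, hz, map_mul, map_pow, ← (N.C2 y _).1, ← (N.C2 y _).1, N.he₁, N.he₂]

include N in
/-- **E1V**. -/
theorem E1V (y : ι) (z : ↥RbV) (c : ↥Rb₃) (h : Ψ (z : Ω) = emb₃ c ^ q) :
    eV y z = e₃ y c ^ q := by
  have hz : N.uV z = N.φ (N.u₃ c) := by
    apply N.ε_inj
    apply Ψ.injective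
    rw [N.huV, N.hφ, N.hu₃, h]
  rw [N.heV, hz, ← (N.C2 y _).2, N.he₃]

include N in
/-- **E2F**. -/
theorem E2F (y : ι) (z : ↥RbF) (a : ↥Rb₁) (h : Ψ (z : Ω) = emb₁ a ^ q) :
    eF' y z = e₁ y a ^ q := by
  have hz : N.uF z = N.φ (N.u₁ a) := by
    apply N.ε_inj
    apply Ψ.injective
    rw [N.huF, N.hφ, N.hu₁, h]
  rw [N.heF', hz, ← (N.C3 y _).1, N.he₁]

include N in
/-- **E2V**. -/
theorem E2V (y : ι) (z : ↥RbV) (b : ↥Rb₂) (c : ↥Rb₃)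
    (h : (z : Ω) = emb₂ b ^ (q - 1) * emb₃ c) : eV' y z = e₂ y b ^ (q - 1) * e₃ y c := by
  have hz : N.uV z = N.u₂ b ^ (q - 1) * N.u₃ c := by
    apply N.ε_inj
    rw [N.huV, map_mul, map_pow, N.hu₂, N.hu₃, h]
  rw [N.heV', hz, map_mul, map_pow, ← (N.C3 y _).2, ← (N.C3 y _).2, N.he₂, N.he₃]

end S36HE_Coord

end Fermat.Agent.S36
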