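import Fermat.Agent.S36.Spec3Sep
import Fermat.Agent.S36.HVDefs
import Fermat.Agent.S36.Nodal3Sym

/-!
# TRACK 10 (S36), C3.3 = HVInst, part E, CONCRETE (helper4): the four compatibilities
`E1F … E2V` of `S36HV_main` — prefix `S36HF_`

`q ∤ M` prime, `A ⊂ ℚ̄` over `q`, `k` its residue field, `Ω = k((t))`,
`κ = modularFunctionFieldFullC k M`, `κ₁ = modularFunctionFieldFullC k (M q)` (equal subfields of
`Ω`), `R₀ = S34SB_reg k j̄_M ⊂ κ` (the functions regular off the cusps),
`D : S36SS_Data M q hq hqM A hgen n hn` (helper3: TRACK 7's nodes `D.e₁`, `D.e₂` of level `q`,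
the supersingular places `D.SS` of `κ`).

* `S36HF_toRb₁`, `S36HF_toRb₂ : R₀ →ₐ[k] Rb₁, Rb₂` (TRACK 7's chart `S34M_chart M q A n hn`);
* `S36HF_node_val` : `D.e₁ i` is the evaluation at the place `D.φ (D.P i)` of `κ`;
* `S36HF_pi₁ D : ↥D.SS → Fin D.s` (the node whose `F`-branch is `y`), `S36HF_pi₂ D hswap` (the node
  whose `V`-branch is `y`; `hswap` : every `F`-branch is a `V`-branch, helper29's HVSwap);
* **`S36HF_E1F`, `S36HF_E1V`, `S36HF_E2F`, `S36HF_E2V`** : LITERALLY the hypotheses `E1F … E2V` of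
  `S36HV_main` (helper29) for `nF := D.e₁`, `nV := D.e₂`, `π₁ := S36HF_pi₁ …`,
  `π₂ := S36HF_pi₂ …`, `e_j := S36SE_e_j C (S36SE_XSS M q hq hqM A hA D) hC` (helper21), any chart
  `C` over `κ, κ, κ` with `C.Rb_j ≤ R₀`, embeddings `emb_j` with `emb_j x = ↑x`, and `Ψ` with
  `Ψ x = qExpand k q x`.
-/

set_option autoImplicit false
set_option synthInstance.maxHeartbeats 400000
set_option maxHeartbeats 1000000
set_option linter.style.haveILetI false
set_option linter.unusedSectionVars false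
set_option linter.unusedVariables false

open HahnSeries IntermediateField AlgebraicCurve ModularCurve

noncomputable section

namespace Fermat.Agent.S36

open Fermat.Agent.S18 Fermat.Agent.S24 Fermat.Agent.S34 Fermat.Agent.Lib Fermat.Agent.S17

variable (M q : ℕ) [NeZero M] [NeZero q] [NeZero (M * q)] (hq : q.Prime) (hqM : ¬ q ∣ M)
  (A : ValuationSubring (AlgebraicClosure ℚ)) (hA : A.LiesOverPrime q)
  (hgen : PrincipalGeneratedByIntegral A (IsLocalRing.residue A) (M * q))
  (n : ℕ) (hn : 0 < n)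

/-! ### the coordinate ring of level `M` and the chart of level `q` -/

/-- `ι : R₀ → Rb₁` (TRACK 7's chart of level `q`). -/
def S36HF_toRb₁ :
    ↥(S34SB_reg (IsLocalRing.ResidueField A) (S18_jbar M (IsLocalRing.ResidueField A)))
      →ₐ[IsLocalRing.ResidueField A] ↥(S34M_chart M q A n hn).Rb₁ where
  toFun x := ⟨S34NX_iota M q A hq hA x.1, (S34NXR_RbSpec M q hq A hA n hn).2.1 x.1 x.2⟩
  map_one' := Subtype.ext (map_one (S34NX_iota M q A hq hA))
  map_mul' x y := Subtype.ext (map_mul (S34NX_iota M q A hq hA) x.1 y.1)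
  map_zero' := Subtype.ext (map_zero (S34NX_iota M q A hq hA))
  map_add' x y := Subtype.ext (map_add (S34NX_iota M q A hq hA) x.1 y.1)
  commutes' c := Subtype.ext (S34NX_iota_algebraMap M q A hq hA c)

/-- `ι : R₀ → Rb₂` (TRACK 7's chart of level `q`). -/
def S36HF_toRb₂ :
    ↥(S34SB_reg (IsLocalRing.ResidueField A) (S18_jbar M (IsLocalRing.ResidueField A)))
      →ₐ[IsLocalRing.ResidueField A] ↥(S34M_chart M q A n hn).Rb₂ where
  toFun x := ⟨S34NX_iota M q A hq hA x.1, (S34NXR_RbSpec M q hq A hA n hn).2.2.2 x.1 x.2⟩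
  map_one' := Subtype.ext (map_one (S34NX_iota M q A hq hA))
  map_mul' x y := Subtype.ext (map_mul (S34NX_iota M q A hq hA) x.1 y.1)
  map_zero' := Subtype.ext (map_zero (S34NX_iota M q A hq hA))
  map_add' x y := Subtype.ext (map_add (S34NX_iota M q A hq hA) x.1 y.1)
  commutes' c := Subtype.ext (S34NX_iota_algebraMap M q A hq hA c)

theorem S36HF_toRb₁_coe
    (x : ↥(S34SB_reg (IsLocalRing.ResidueField A) (S18_jbar M (IsLocalRing.ResidueField A)))) :
    (((S36HF_toRb₁ M q hq A hA n hn x : ↥(S34M_chart M q A n hn).Rb₁) :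
      ↥(modularFunctionFieldFullC (IsLocalRing.ResidueField A) (M * q))) :
        LaurentSeries (IsLocalRing.ResidueField A)) =
      ((x : ↥(modularFunctionFieldFullC (IsLocalRing.ResidueField A) M)) :
        LaurentSeries (IsLocalRing.ResidueField A)) :=
  S34NX_iota_coe M q A hq hA x.1

theorem S36HF_toRb₂_coe
    (x : ↥(S34SB_reg (IsLocalRing.ResidueField A) (S18_jbar M (IsLocalRing.ResidueField A)))) :
    (((S36HF_toRb₂ M q hq A hA n hn x : ↥(S34M_chart M q A n hn).Rb₂) :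
      ↥(modularFunctionFieldFullC (IsLocalRing.ResidueField A) (M * q))) :
        LaurentSeries (IsLocalRing.ResidueField A)) =
      ((x : ↥(modularFunctionFieldFullC (IsLocalRing.ResidueField A) M)) :
        LaurentSeries (IsLocalRing.ResidueField A)) :=
  S34NX_iota_coe M q A hq hA x.1

include hq hA in
/-- every element of `RbF = Rb₁.map emb` is the series of an element of `R₀`. -/
theorem S36HF_exists₁
    (z : ↥((S34M_chart M q A n hn).Rb₁.map
      (modularFunctionFieldFullC (IsLocalRing.ResidueField A) (M * q)).val)) :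
    ∃ x : ↥(S34SB_reg (IsLocalRing.ResidueField A) (S18_jbar M (IsLocalRing.ResidueField A))),
      ((x : ↥(modularFunctionFieldFullC (IsLocalRing.ResidueField A) M)) :
        LaurentSeries (IsLocalRing.ResidueField A)) =
          (z : LaurentSeries (IsLocalRing.ResidueField A)) := by
  obtain ⟨a, ha, haz⟩ := z.2
  obtain ⟨y, hy, hya⟩ := (S34NXR_RbSpec M q hq A hA n hn).1 a ha
  refine ⟨⟨y, hy⟩, ?_⟩
  rw [← haz, ← hya]
  exact (S34NX_iota_coe M q A hq hA y).symm

include hq hA in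
/-- every element of `RbV = Rb₂.map emb` is the series of an element of `R₀`. -/
theorem S36HF_exists₂
    (z : ↥((S34M_chart M q A n hn).Rb₂.map
      (modularFunctionFieldFullC (IsLocalRing.ResidueField A) (M * q)).val)) :
    ∃ x : ↥(S34SB_reg (IsLocalRing.ResidueField A) (S18_jbar M (IsLocalRing.ResidueField A))),
      ((x : ↥(modularFunctionFieldFullC (IsLocalRing.ResidueField A) M)) :
        LaurentSeries (IsLocalRing.ResidueField A)) =
          (z : LaurentSeries (IsLocalRing.ResidueField A)) := by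
  obtain ⟨a, ha, haz⟩ := z.2
  obtain ⟨y, hy, hya⟩ := (S34NXR_RbSpec M q hq A hA n hn).2.2.1 a ha
  refine ⟨⟨y, hy⟩, ?_⟩
  rw [← haz, ← hya]
  exact (S34NX_iota_coe M q A hq hA y).symm

/-! ### the nodes are the supersingular places -/

variable {M q hq hqM A hgen n hn}

/-- the functions regular off the cusps are regular at the supersingular places. -/
theorem S36HF_reg (D : S36SS_Data M q hq hqM A hgen n hn) (y : ↥D.SS)
    (f : ↥(modularFunctionFieldFullC (IsLocalRing.ResidueField A) M))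
    (hf : f ∈ S34SB_reg (IsLocalRing.ResidueField A)
      (S18_jbar M (IsLocalRing.ResidueField A))) :
    (y.1 : Place (IsLocalRing.ResidueField A)
      ↥(modularFunctionFieldFullC (IsLocalRing.ResidueField A) M)).adicValuation f ≤ 1 :=
  (S36CU_mem_reg_adic).1 hf y.1 ((S36CU_adic_iff_ord _ _).2 (D.SS_reg y.1 y.2))

include hA in
/-- **`D.e₁ i` is the evaluation at the place `D.φ (D.P i)` of `κ`.** -/
theorem S36HF_node_val (D : S36SS_Data M q hq hqM A hgen n hn) (i : Fin D.s)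
    (x : ↥(S34SB_reg (IsLocalRing.ResidueField A) (S18_jbar M (IsLocalRing.ResidueField A)))) :
    FD_c0 (D.φ (D.P i)) (x : ↥(modularFunctionFieldFullC (IsLocalRing.ResidueField A) M)) =
      D.e₁ i (S36HF_toRb₁ M q hq A hA n hn x) := by
  apply FD_c0_unique
  rw [S36SP_val_lt_one_iff]
  have h0 : D.e₁ i (S36HF_toRb₁ M q hq A hA n hn
      (x - algebraMap _ _ (D.e₁ i (S36HF_toRb₁ M q hq A hA n hn x)))) = 0 := by
    rw [map_sub, map_sub, AlgHom.commutes, AlgHom.commutes]
    exact sub_self _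
  have hcoe : (((x - algebraMap _ _ (D.e₁ i (S36HF_toRb₁ M q hq A hA n hn x)) :
      ↥(S34SB_reg (IsLocalRing.ResidueField A) (S18_jbar M (IsLocalRing.ResidueField A)))) :
        ↥(modularFunctionFieldFullC (IsLocalRing.ResidueField A) M))) =
      (x : ↥(modularFunctionFieldFullC (IsLocalRing.ResidueField A) M)) -
        algebraMap (IsLocalRing.ResidueField A) _
          (D.e₁ i (S36HF_toRb₁ M q hq A hA n hn x)) := rfl
  rcases (D.P_ker i _).1 h0 with h1 | h1
  · left
    have h2 : S34NX_iota M q A hq hA (((x - algebraMap _ _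
        (D.e₁ i (S36HF_toRb₁ M q hq A hA n hn x)) :
      ↥(S34SB_reg (IsLocalRing.ResidueField A) (S18_jbar M (IsLocalRing.ResidueField A)))) :
        ↥(modularFunctionFieldFullC (IsLocalRing.ResidueField A) M))) = 0 := h1
    have h3 := S34NX_iota_injective M q A hq hA (h2.trans (map_zero _).symm)
    rw [← hcoe]
    exact h3
  · right
    have h2 := D.φ_ord (D.P i) (S34NX_iota M q A hq hA (((x - algebraMap _ _
        (D.e₁ i (S36HF_toRb₁ M q hq A hA n hn x)) :
      ↥(S34SB_reg (IsLocalRing.ResidueField A) (S18_jbar M (IsLocalRing.ResidueField A)))) :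
        ↥(modularFunctionFieldFullC (IsLocalRing.ResidueField A) M)))) _
      (S34NX_iota_coe M q A hq hA _)
    rw [← hcoe, h2]
    exact h1

/-- the node of level `q` whose `F`-branch is the supersingular place `y`. -/
def S36HF_pi₁ (D : S36SS_Data M q hq hqM A hgen n hn) (y : ↥D.SS) : Fin D.s :=
  ((D.mem_SS y.1).1 y.2).choose

theorem S36HF_pi₁_spec (D : S36SS_Data M q hq hqM A hgen n hn) (y : ↥D.SS) :
    (y.1 : Place (IsLocalRing.ResidueField A)
      ↥(modularFunctionFieldFullC (IsLocalRing.ResidueField A) M)) =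
      D.φ (D.P (S36HF_pi₁ D y)) :=
  ((D.mem_SS y.1).1 y.2).choose_spec

include hA in
/-- the value at the supersingular place `y` is the value at the `F`-branch of the node
`π₁ y`. -/
theorem S36HF_val_pi₁ (D : S36SS_Data M q hq hqM A hgen n hn) (y : ↥D.SS)
    (x : ↥(S34SB_reg (IsLocalRing.ResidueField A) (S18_jbar M (IsLocalRing.ResidueField A)))) :
    FD_c0 (y.1 : Place (IsLocalRing.ResidueField A)
      ↥(modularFunctionFieldFullC (IsLocalRing.ResidueField A) M))
        (x : ↥(modularFunctionFieldFullC (IsLocalRing.ResidueField A) M)) =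
      D.e₁ (S36HF_pi₁ D y) (S36HF_toRb₁ M q hq A hA n hn x) := by
  have h := S36HF_node_val hA D (S36HF_pi₁ D y) x
  rw [← S36HF_pi₁_spec D y] at h
  exact h

/-- the hypothesis NODE-SYM: every `F`-branch of a node is the `V`-branch of a node. -/
def S36HF_Swap (hA : A.LiesOverPrime q) (D : S36SS_Data M q hq hqM A hgen n hn) : Prop :=
  ∀ i : Fin D.s, ∃ i' : Fin D.s,
    ∀ x : ↥(S34SB_reg (IsLocalRing.ResidueField A) (S18_jbar M (IsLocalRing.ResidueField A))),
      D.e₂ i' (S36HF_toRb₂ M q hq A hA n hn x) = D.e₁ i (S36HF_toRb₁ M q hq A hA n hn x)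

/-- the node of level `q` whose `V`-branch is the supersingular place `y`. -/
def S36HF_pi₂ (D : S36SS_Data M q hq hqM A hgen n hn) (hswap : S36HF_Swap hA D)
    (y : ↥D.SS) : Fin D.s :=
  (hswap (S36HF_pi₁ D y)).choose

/-- the value at the supersingular place `y` is the value at the `V`-branch of the node
`π₂ y`. -/
theorem S36HF_val_pi₂ (D : S36SS_Data M q hq hqM A hgen n hn) (hswap : S36HF_Swap hA D)
    (y : ↥D.SS)
    (x : ↥(S34SB_reg (IsLocalRing.ResidueField A) (S18_jbar M (IsLocalRing.ResidueField A)))) :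
    FD_c0 (y.1 : Place (IsLocalRing.ResidueField A)
      ↥(modularFunctionFieldFullC (IsLocalRing.ResidueField A) M))
        (x : ↥(modularFunctionFieldFullC (IsLocalRing.ResidueField A) M)) =
      D.e₂ (S36HF_pi₂ hA D hswap y) (S36HF_toRb₂ M q hq A hA n hn x) := by
  rw [S36HF_val_pi₁ hA D y x]
  exact ((hswap (S36HF_pi₁ D y)).choose_spec x).symm

include hA in
/-- NODE-SYM holds (helper3's `S36N3S_P_mem`). -/
theorem S36HF_swap (D : S36SS_Data M q hq hqM A hgen n hn) : S36HF_Swap hA D := by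
  intro i
  obtain ⟨j, hj⟩ := S36N3S_P_mem D i
  exact ⟨j, fun x => (hj _ _ _).symm⟩

/-! ### the Frobenius on `R₀` -/

/-- the relative Frobenius `t ↦ t^q` on `R₀`. -/
def S36HF_Fr (hq : q.Prime) (hqM : ¬ q ∣ M) (hA : A.LiesOverPrime q)
    (x : ↥(S34SB_reg (IsLocalRing.ResidueField A) (S18_jbar M (IsLocalRing.ResidueField A)))) :
    ↥(S34SB_reg (IsLocalRing.ResidueField A) (S18_jbar M (IsLocalRing.ResidueField A))) :=
  ⟨S34NX_Fr M q A hq hA x.1, S36SS_Fr_reg hA hq hqM x.2⟩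

/-- the coefficientwise inverse Frobenius on `R₀`. -/
def S36HF_tau (hq : q.Prime) (hqM : ¬ q ∣ M) (hA : A.LiesOverPrime q)
    (x : ↥(S34SB_reg (IsLocalRing.ResidueField A) (S18_jbar M (IsLocalRing.ResidueField A)))) :
    ↥(S34SB_reg (IsLocalRing.ResidueField A) (S18_jbar M (IsLocalRing.ResidueField A))) :=
  ⟨S34NX_tau M q A hq hA x.1, S34NX_tau_reg M q A hq hqM hA x.2⟩

theorem S36HF_Fr_eq (hq : q.Prime) (hqM : ¬ q ∣ M) (hA : A.LiesOverPrime q)
    (x : ↥(S34SB_reg (IsLocalRing.ResidueField A) (S18_jbar M (IsLocalRing.ResidueField A)))) :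
    S36HF_Fr hq hqM hA x = S36HF_tau hq hqM hA x ^ q :=
  Subtype.ext (S34NX_Fr_eq M q A hq hA x.1)

theorem S36HF_Fr_coe (hq : q.Prime) (hqM : ¬ q ∣ M) (hA : A.LiesOverPrime q)
    (x : ↥(S34SB_reg (IsLocalRing.ResidueField A) (S18_jbar M (IsLocalRing.ResidueField A)))) :
    (((S36HF_Fr hq hqM hA x :
      ↥(S34SB_reg (IsLocalRing.ResidueField A) (S18_jbar M (IsLocalRing.ResidueField A)))) :
        ↥(modularFunctionFieldFullC (IsLocalRing.ResidueField A) M)) :
          LaurentSeries (IsLocalRing.ResidueField A)) =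
      qExpand (IsLocalRing.ResidueField A) q
        ((x : ↥(modularFunctionFieldFullC (IsLocalRing.ResidueField A) M)) :
          LaurentSeries (IsLocalRing.ResidueField A)) := rfl

/-- `Ψ (x) = c ^ q` gives `τ x = c`. -/
theorem S36HF_tau_eq (hq : q.Prime) (hqM : ¬ q ∣ M) (hA : A.LiesOverPrime q)
    (x c : ↥(S34SB_reg (IsLocalRing.ResidueField A) (S18_jbar M (IsLocalRing.ResidueField A))))
    (h : qExpand (IsLocalRing.ResidueField A) q
        ((x : ↥(modularFunctionFieldFullC (IsLocalRing.ResidueField A) M)) :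
          LaurentSeries (IsLocalRing.ResidueField A)) =
      ((c : ↥(modularFunctionFieldFullC (IsLocalRing.ResidueField A) M)) :
          LaurentSeries (IsLocalRing.ResidueField A)) ^ q) :
    S36HF_tau hq hqM hA x = c := by
  haveI : Fact q.Prime := ⟨hq⟩
  haveI : CharP (IsLocalRing.ResidueField A) q := S18_residue_charP A q hq hA
  haveI : CharP (LaurentSeries (IsLocalRing.ResidueField A)) q :=
    charP_of_injective_algebraMap
      (algebraMap (IsLocalRing.ResidueField A)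
        (LaurentSeries (IsLocalRing.ResidueField A))).injective q
  haveI : ExpChar (LaurentSeries (IsLocalRing.ResidueField A)) q := ExpChar.prime hq
  have h1 : (((S36HF_tau hq hqM hA x ^ q :
      ↥(S34SB_reg (IsLocalRing.ResidueField A) (S18_jbar M (IsLocalRing.ResidueField A)))) :
        ↥(modularFunctionFieldFullC (IsLocalRing.ResidueField A) M)) :
          LaurentSeries (IsLocalRing.ResidueField A)) =
      ((c : ↥(modularFunctionFieldFullC (IsLocalRing.ResidueField A) M)) :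
          LaurentSeries (IsLocalRing.ResidueField A)) ^ q := by
    rw [← S36HF_Fr_eq, S36HF_Fr_coe]
    exact h
  have h2 : frobenius (LaurentSeries (IsLocalRing.ResidueField A)) q
      (((S36HF_tau hq hqM hA x :
      ↥(S34SB_reg (IsLocalRing.ResidueField A) (S18_jbar M (IsLocalRing.ResidueField A)))) :
        ↥(modularFunctionFieldFullC (IsLocalRing.ResidueField A) M)) :
          LaurentSeries (IsLocalRing.ResidueField A)) =
      frobenius (LaurentSeries (IsLocalRing.ResidueField A)) q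
        ((c : ↥(modularFunctionFieldFullC (IsLocalRing.ResidueField A) M)) :
          LaurentSeries (IsLocalRing.ResidueField A)) := by
    rw [frobenius_def, frobenius_def]
    exact h1
  exact Subtype.ext (Subtype.ext (frobenius_inj _ q h2))

include hA in
/-- **the crossing at the nodes, via `α`**: `e₁ i (ι x) = e₂ i (ι (Fr x))`. -/
theorem S36HF_cross_alpha (D : S36SS_Data M q hq hqM A hgen n hn) (i : Fin D.s)
    (x : ↥(S34SB_reg (IsLocalRing.ResidueField A) (S18_jbar M (IsLocalRing.ResidueField A)))) :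
    D.e₁ i (S36HF_toRb₁ M q hq A hA n hn x) =
      D.e₂ i (S36HF_toRb₂ M q hq A hA n hn (S36HF_Fr hq hqM hA x)) := by
  obtain ⟨h₁, h₂, h⟩ := S36SS_cross_alpha hA D i x.1 x.2
  exact h

include hA in
/-- **the crossing at the nodes, via `β`**: `e₁ i (ι (Fr x)) = e₂ i (ι x)`. -/
theorem S36HF_cross_beta (D : S36SS_Data M q hq hqM A hgen n hn) (i : Fin D.s)
    (x : ↥(S34SB_reg (IsLocalRing.ResidueField A) (S18_jbar M (IsLocalRing.ResidueField A)))) :
    D.e₁ i (S36HF_toRb₁ M q hq A hA n hn (S36HF_Fr hq hqM hA x)) =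
      D.e₂ i (S36HF_toRb₂ M q hq A hA n hn x) := by
  obtain ⟨h₁, h₂, h⟩ := S36SS_cross_beta hA D i x.1 x.2
  exact h

/-- the evaluation at the supersingular place `y` on `R₀`. -/
def S36HF_z (hA : A.LiesOverPrime q) (D : S36SS_Data M q hq hqM A hgen n hn) (y : ↥D.SS) :
    ↥(S34SB_reg (IsLocalRing.ResidueField A) (S18_jbar M (IsLocalRing.ResidueField A)))
      →ₐ[IsLocalRing.ResidueField A] IsLocalRing.ResidueField A :=
  S36SE_ev _ y.1 ((S18_hk M A hq hA hqM).deg_one y.1) (S36HF_reg D y)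

theorem S36HF_z_apply (hA : A.LiesOverPrime q) (D : S36SS_Data M q hq hqM A hgen n hn)
    (y : ↥D.SS)
    (x : ↥(S34SB_reg (IsLocalRing.ResidueField A) (S18_jbar M (IsLocalRing.ResidueField A)))) :
    S36HF_z hA D y x = FD_c0 (y.1 : Place (IsLocalRing.ResidueField A)
      ↥(modularFunctionFieldFullC (IsLocalRing.ResidueField A) M))
        (x : ↥(modularFunctionFieldFullC (IsLocalRing.ResidueField A) M)) := rfl

/-- the value of `Fr x` at a supersingular place. -/
theorem S36HF_z_Fr (hA : A.LiesOverPrime q) (D : S36SS_Data M q hq hqM A hgen n hn)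
    (y : ↥D.SS)
    (x : ↥(S34SB_reg (IsLocalRing.ResidueField A) (S18_jbar M (IsLocalRing.ResidueField A)))) :
    S36HF_z hA D y (S36HF_Fr hq hqM hA x) = S36HF_z hA D y (S36HF_tau hq hqM hA x) ^ q := by
  rw [S36HF_Fr_eq, map_pow]

/-! ### the four compatibilities -/

section main

variable {L F : Type*} [Field L] [Field F] [Algebra L F] {m : ℕ}
  (D : S36SS_Data M q hq hqM A hgen n hn)
  (C : S36L3_Chart L F (IsLocalRing.ResidueField A)
    ↥(modularFunctionFieldFullC (IsLocalRing.ResidueField A) M)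
    ↥(modularFunctionFieldFullC (IsLocalRing.ResidueField A) M)
    ↥(modularFunctionFieldFullC (IsLocalRing.ResidueField A) M) m)
  (hR₁ : C.Rb₁ ≤ S34SB_reg (IsLocalRing.ResidueField A) (S18_jbar M (IsLocalRing.ResidueField A)))
  (hR₂ : C.Rb₂ ≤ S34SB_reg (IsLocalRing.ResidueField A) (S18_jbar M (IsLocalRing.ResidueField A)))
  (hR₃ : C.Rb₃ ≤ S34SB_reg (IsLocalRing.ResidueField A) (S18_jbar M (IsLocalRing.ResidueField A)))
  (hC : S36SE_Reg C (S36SE_XSS M q hq hqM A hA D))
  (emb₁ emb₂ emb₃ : ↥(modularFunctionFieldFullC (IsLocalRing.ResidueField A) M)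
    →ₐ[IsLocalRing.ResidueField A] LaurentSeries (IsLocalRing.ResidueField A))
  (hemb₁ : ∀ x, emb₁ x = (x : LaurentSeries (IsLocalRing.ResidueField A)))
  (hemb₂ : ∀ x, emb₂ x = (x : LaurentSeries (IsLocalRing.ResidueField A)))
  (hemb₃ : ∀ x, emb₃ x = (x : LaurentSeries (IsLocalRing.ResidueField A)))
  (Ψ : LaurentSeries (IsLocalRing.ResidueField A) →+* LaurentSeries (IsLocalRing.ResidueField A))
  (hΨ : ∀ x, Ψ x = qExpand (IsLocalRing.ResidueField A) q x)
  (hswap : S36HF_Swap hA D)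

include hR₁ in
/-- `e₁ y` of the chart `C` is the evaluation at `y`. -/
theorem S36HF_e₁ (y : ↥D.SS) (a : ↥C.Rb₁) :
    S36SE_e₁ C (S36SE_XSS M q hq hqM A hA D) hC y a = S36HF_z hA D y ⟨a, hR₁ a.2⟩ := rfl

include hR₂ in
/-- `e₂ y` of the chart `C` is the evaluation at `y`. -/
theorem S36HF_e₂ (y : ↥D.SS) (a : ↥C.Rb₂) :
    S36SE_e₂ C (S36SE_XSS M q hq hqM A hA D) hC y a = S36HF_z hA D y ⟨a, hR₂ a.2⟩ := rfl

include hR₃ in
/-- `e₃ y` of the chart `C` is the evaluation at `y`. -/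
theorem S36HF_e₃ (y : ↥D.SS) (a : ↥C.Rb₃) :
    S36SE_e₃ C (S36SE_XSS M q hq hqM A hA D) hC y a = S36HF_z hA D y ⟨a, hR₃ a.2⟩ := rfl

include hR₁ hR₂ hemb₁ hemb₂ in
/-- **E1F** of `S36HV_main`. -/
theorem S36HF_E1F (y : ↥D.SS)
    (z : ↥((S34M_chart M q A n hn).Rb₁.map
      (modularFunctionFieldFullC (IsLocalRing.ResidueField A) (M * q)).val))
    (a : ↥C.Rb₁) (b : ↥C.Rb₂)
    (h : (z : LaurentSeries (IsLocalRing.ResidueField A)) =
      emb₁ (a : ↥(modularFunctionFieldFullC (IsLocalRing.ResidueField A) M)) *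
        emb₂ (b : ↥(modularFunctionFieldFullC (IsLocalRing.ResidueField A) M)) ^ (q - 1)) :
    S36HV_ev (modularFunctionFieldFullC (IsLocalRing.ResidueField A) (M * q)).val
        (S34M_chart M q A n hn).Rb₁ (D.e₁ (S36HF_pi₁ D y)) z =
      S36SE_e₁ C (S36SE_XSS M q hq hqM A hA D) hC y a *
        S36SE_e₂ C (S36SE_XSS M q hq hqM A hA D) hC y b ^ (q - 1) := by
  have hx : S36HV_ev (modularFunctionFieldFullC (IsLocalRing.ResidueField A) (M * q)).val
      (S34M_chart M q A n hn).Rb₁ (D.e₁ (S36HF_pi₁ D y)) z =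
      D.e₁ (S36HF_pi₁ D y) (S36HF_toRb₁ M q hq A hA n hn
        (⟨a, hR₁ a.2⟩ * ⟨b, hR₂ b.2⟩ ^ (q - 1))) := by
    apply S36HV_ev_of_eq
    rw [h, hemb₁, hemb₂]
    have e := S36HF_toRb₁_coe M q hq A hA n hn (⟨a, hR₁ a.2⟩ * ⟨b, hR₂ b.2⟩ ^ (q - 1))
    rw [Subalgebra.coe_mul, Subalgebra.coe_pow, IntermediateField.coe_mul,
      IntermediateField.coe_pow] at e
    exact e
  rw [hx, ← S36HF_val_pi₁ hA D y, ← S36HF_z_apply hA D y, map_mul, map_pow,
    S36HF_e₁ hA D C hR₁ hC, S36HF_e₂ hA D C hR₂ hC]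

include hR₂ hR₃ hemb₂ hemb₃ in
/-- **E2V** of `S36HV_main`. -/
theorem S36HF_E2V (y : ↥D.SS)
    (z : ↥((S34M_chart M q A n hn).Rb₂.map
      (modularFunctionFieldFullC (IsLocalRing.ResidueField A) (M * q)).val))
    (b : ↥C.Rb₂) (c : ↥C.Rb₃)
    (h : (z : LaurentSeries (IsLocalRing.ResidueField A)) =
      emb₂ (b : ↥(modularFunctionFieldFullC (IsLocalRing.ResidueField A) M)) ^ (q - 1) *
        emb₃ (c : ↥(modularFunctionFieldFullC (IsLocalRing.ResidueField A) M))) :
    S36HV_ev (modularFunctionFieldFullC (IsLocalRing.ResidueField A) (M * q)).val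
        (S34M_chart M q A n hn).Rb₂ (D.e₂ (S36HF_pi₂ hA D hswap y)) z =
      S36SE_e₂ C (S36SE_XSS M q hq hqM A hA D) hC y b ^ (q - 1) *
        S36SE_e₃ C (S36SE_XSS M q hq hqM A hA D) hC y c := by
  have hx : S36HV_ev (modularFunctionFieldFullC (IsLocalRing.ResidueField A) (M * q)).val
      (S34M_chart M q A n hn).Rb₂ (D.e₂ (S36HF_pi₂ hA D hswap y)) z =
      D.e₂ (S36HF_pi₂ hA D hswap y) (S36HF_toRb₂ M q hq A hA n hn
        (⟨b, hR₂ b.2⟩ ^ (q - 1) * ⟨c, hR₃ c.2⟩)) := by
    apply S36HV_ev_of_eq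
    rw [h, hemb₂, hemb₃]
    have e := S36HF_toRb₂_coe M q hq A hA n hn (⟨b, hR₂ b.2⟩ ^ (q - 1) * ⟨c, hR₃ c.2⟩)
    rw [Subalgebra.coe_mul, Subalgebra.coe_pow, IntermediateField.coe_mul,
      IntermediateField.coe_pow] at e
    exact e
  rw [hx, ← S36HF_val_pi₂ hA D hswap y, ← S36HF_z_apply hA D y, map_mul, map_pow,
    S36HF_e₂ hA D C hR₂ hC, S36HF_e₃ hA D C hR₃ hC]

include hR₃ hemb₃ hΨ in
/-- **E1V** of `S36HV_main`. -/
theorem S36HF_E1V (y : ↥D.SS)
    (z : ↥((S34M_chart M q A n hn).Rb₂.map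
      (modularFunctionFieldFullC (IsLocalRing.ResidueField A) (M * q)).val))
    (c : ↥C.Rb₃)
    (h : Ψ (z : LaurentSeries (IsLocalRing.ResidueField A)) =
      emb₃ (c : ↥(modularFunctionFieldFullC (IsLocalRing.ResidueField A) M)) ^ q) :
    S36HV_ev (modularFunctionFieldFullC (IsLocalRing.ResidueField A) (M * q)).val
        (S34M_chart M q A n hn).Rb₂ (D.e₂ (S36HF_pi₁ D y)) z =
      S36SE_e₃ C (S36SE_XSS M q hq hqM A hA D) hC y c ^ q := by
  obtain ⟨x, hxz⟩ := S36HF_exists₂ M q hq A hA n hn z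
  have hx : S36HV_ev (modularFunctionFieldFullC (IsLocalRing.ResidueField A) (M * q)).val
      (S34M_chart M q A n hn).Rb₂ (D.e₂ (S36HF_pi₁ D y)) z =
      D.e₂ (S36HF_pi₁ D y) (S36HF_toRb₂ M q hq A hA n hn x) := by
    apply S36HV_ev_of_eq
    rw [← hxz]
    exact S36HF_toRb₂_coe M q hq A hA n hn x
  have hτ : S36HF_tau hq hqM hA x = ⟨c, hR₃ c.2⟩ := by
    apply S36HF_tau_eq
    rw [hxz, ← hΨ, h, hemb₃]
  rw [hx, ← S36HF_cross_beta hA D, ← S36HF_val_pi₁ hA D y, ← S36HF_z_apply hA D y,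
    S36HF_z_Fr, hτ, S36HF_e₃ hA D C hR₃ hC]

include hR₁ hemb₁ hΨ in
/-- **E2F** of `S36HV_main`. -/
theorem S36HF_E2F (y : ↥D.SS)
    (z : ↥((S34M_chart M q A n hn).Rb₁.map
      (modularFunctionFieldFullC (IsLocalRing.ResidueField A) (M * q)).val))
    (a : ↥C.Rb₁)
    (h : Ψ (z : LaurentSeries (IsLocalRing.ResidueField A)) =
      emb₁ (a : ↥(modularFunctionFieldFullC (IsLocalRing.ResidueField A) M)) ^ q) :
    S36HV_ev (modularFunctionFieldFullC (IsLocalRing.ResidueField A) (M * q)).val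
        (S34M_chart M q A n hn).Rb₁ (D.e₁ (S36HF_pi₂ hA D hswap y)) z =
      S36SE_e₁ C (S36SE_XSS M q hq hqM A hA D) hC y a ^ q := by
  obtain ⟨x, hxz⟩ := S36HF_exists₁ M q hq A hA n hn z
  have hx : S36HV_ev (modularFunctionFieldFullC (IsLocalRing.ResidueField A) (M * q)).val
      (S34M_chart M q A n hn).Rb₁ (D.e₁ (S36HF_pi₂ hA D hswap y)) z =
      D.e₁ (S36HF_pi₂ hA D hswap y) (S36HF_toRb₁ M q hq A hA n hn x) := by
    apply S36HV_ev_of_eq
    rw [← hxz]
    exact S36HF_toRb₁_coe M q hq A hA n hn x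
  have hτ : S36HF_tau hq hqM hA x = ⟨a, hR₁ a.2⟩ := by
    apply S36HF_tau_eq
    rw [hxz, ← hΨ, h, hemb₁]
  rw [hx, S36HF_cross_alpha hA D, ← S36HF_val_pi₂ hA D hswap y, ← S36HF_z_apply hA D y,
    S36HF_z_Fr, hτ, S36HF_e₁ hA D C hR₁ hC]

include hR₁ hR₂ hR₃ hemb₁ hemb₂ hemb₃ hΨ in
/-- **the E-block of `S36HV_main`** (HOLE 5 of helper2's WireConc), for a chart `C` with
coordinate rings inside `R₀`. -/
theorem S36HF_Eblock :
    ∃ (π₁ π₂ : ↥D.SS → Fin D.s),
      (∀ y (z : ↥((S34M_chart M q A n hn).Rb₁.map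
          (modularFunctionFieldFullC (IsLocalRing.ResidueField A) (M * q)).val))
        (a : ↥C.Rb₁) (b : ↥C.Rb₂),
        (z : LaurentSeries (IsLocalRing.ResidueField A)) =
          emb₁ (a : ↥(modularFunctionFieldFullC (IsLocalRing.ResidueField A) M)) *
            emb₂ (b : ↥(modularFunctionFieldFullC (IsLocalRing.ResidueField A) M)) ^ (q - 1) →
        S36HV_ev (modularFunctionFieldFullC (IsLocalRing.ResidueField A) (M * q)).val
          (S34M_chart M q A n hn).Rb₁ (D.e₁ (π₁ y)) z =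
            S36SE_e₁ C (S36SE_XSS M q hq hqM A hA D) hC y a *
              S36SE_e₂ C (S36SE_XSS M q hq hqM A hA D) hC y b ^ (q - 1)) ∧
      (∀ y (z : ↥((S34M_chart M q A n hn).Rb₂.map
          (modularFunctionFieldFullC (IsLocalRing.ResidueField A) (M * q)).val))
        (c : ↥C.Rb₃),
        Ψ (z : LaurentSeries (IsLocalRing.ResidueField A)) =
          emb₃ (c : ↥(modularFunctionFieldFullC (IsLocalRing.ResidueField A) M)) ^ q →
        S36HV_ev (modularFunctionFieldFullC (IsLocalRing.ResidueField A) (M * q)).val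
          (S34M_chart M q A n hn).Rb₂ (D.e₂ (π₁ y)) z =
            S36SE_e₃ C (S36SE_XSS M q hq hqM A hA D) hC y c ^ q) ∧
      (∀ y (z : ↥((S34M_chart M q A n hn).Rb₁.map
          (modularFunctionFieldFullC (IsLocalRing.ResidueField A) (M * q)).val))
        (a : ↥C.Rb₁),
        Ψ (z : LaurentSeries (IsLocalRing.ResidueField A)) =
          emb₁ (a : ↥(modularFunctionFieldFullC (IsLocalRing.ResidueField A) M)) ^ q →
        S36HV_ev (modularFunctionFieldFullC (IsLocalRing.ResidueField A) (M * q)).val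
          (S34M_chart M q A n hn).Rb₁ (D.e₁ (π₂ y)) z =
            S36SE_e₁ C (S36SE_XSS M q hq hqM A hA D) hC y a ^ q) ∧
      (∀ y (z : ↥((S34M_chart M q A n hn).Rb₂.map
          (modularFunctionFieldFullC (IsLocalRing.ResidueField A) (M * q)).val))
        (b : ↥C.Rb₂) (c : ↥C.Rb₃),
        (z : LaurentSeries (IsLocalRing.ResidueField A)) =
          emb₂ (b : ↥(modularFunctionFieldFullC (IsLocalRing.ResidueField A) M)) ^ (q - 1) *
            emb₃ (c : ↥(modularFunctionFieldFullC (IsLocalRing.ResidueField A) M)) →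
        S36HV_ev (modularFunctionFieldFullC (IsLocalRing.ResidueField A) (M * q)).val
          (S34M_chart M q A n hn).Rb₂ (D.e₂ (π₂ y)) z =
            S36SE_e₂ C (S36SE_XSS M q hq hqM A hA D) hC y b ^ (q - 1) *
              S36SE_e₃ C (S36SE_XSS M q hq hqM A hA D) hC y c) :=
  ⟨S36HF_pi₁ D, S36HF_pi₂ hA D (S36HF_swap hA D),
    fun y z a b h => S36HF_E1F hA D C hR₁ hR₂ hC emb₁ emb₂ hemb₁ hemb₂ y z a b h,
    fun y z c h => S36HF_E1V hA D C hR₃ hC emb₃ hemb₃ Ψ hΨ y z c h,
    fun y z a h => S36HF_E2F hA D C hR₁ hC emb₁ hemb₁ Ψ hΨ (S36HF_swap hA D) y z a h,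
    fun y z b c h => S36HF_E2V hA D C hR₂ hR₃ hC emb₂ emb₃ hemb₂ hemb₃ (S36HF_swap hA D) y z b c h⟩

end main

end Fermat.Agent.S36
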