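import Fermat.Agent.S36.HVAbs
import Fermat.Agent.S36.Nodal3

/-!
# TRACK 10 (S36), C1.3 = NODAL3-INST (helper14), part 2: `hW1` BY NORMS

Prefix `S36N3W_`.  In helper2's framework of `S36HA_main` (`S36/HVAbs.lean`): `Hc : S36CH_Hyp`
(the five valuations and the four norm–residue formulas), the LAT3 triple `S₁ S₂ S₃`, a chart `C`
of level `q²` with the evaluations `e₁ e₂ e₃` at the triple points, and at level `q` the functions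
`B₁` regular on the chart, the coordinate rings `RbF RbV ⊆ Ω` with the evaluations `eF eV` at the
nodes, glued on the integral regular functions (`glue`, TRACK 7).

* `S36N3W_norm_rel` : for `m = red f ∈ W¹` and every `t : k` different from the three reductions,
  `(e₁ m₁ − t) (e₂ m₂ − t)^(q−1) = (e₃ m₃ − t)^q` at every triple point
  (the norm `N₁ (f − c)`, `c̄ = t`, is integral and regular of level `q`; NR1F, NR1V; the gluing);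
* `S36N3W_hW1` : **`hW1`** — the three branch values of every element of `W¹` agree
  (`S36N3_eq_of_norm`): no regularity statement at level `q²` is needed.

The hypotheses are LITERALLY those of `S36HA_main` (same names, same shapes; only `glue`, `E1F`,
`E1V`, `nB₁` are used), plus `[Infinite k]` and `2 ≤ q`.
-/

set_option autoImplicit false
set_option linter.unusedSectionVars false
set_option linter.unusedVariables false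

namespace Fermat.Agent.S36

open Fermat.Agent.S18 Fermat.Agent.S34

variable {L F₂ F₁ k Ω Fk₁ Fk₂ Fk₃ : Type*} [Field L] [Field F₂] [Field F₁] [Field k] [Field Ω]
  [Algebra L F₂] [Algebra L F₁] [Algebra k Ω]
  [Field Fk₁] [Field Fk₂] [Field Fk₃] [Algebra k Fk₁] [Algebra k Fk₂] [Algebra k Fk₃]

/-- the norm relation at a triple point for `f − c`, `c̄ = t`, `t` not one of the reductions. -/
theorem S36N3W_norm_rel {n q : ℕ} (Hc : S36CH_Hyp L F₂ F₁ k Ω n q)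
    {S₁ : S18_Val L F₂ k Fk₁} {S₂ : S18_Val L F₂ k Fk₂} {S₃ : S18_Val L F₂ k Fk₃}
    (hS : S36L3_Same S₁ S₂ S₃)
    (hO₁ : S₁.O = Hc.FF.O) (hO₂ : S₂.O = Hc.FV.O) (hO₃ : S₃.O = Hc.VV.O)
    (emb₁ : Fk₁ →ₐ[k] Ω) (emb₂ : Fk₂ →ₐ[k] Ω) (emb₃ : Fk₃ →ₐ[k] Ω)
    (hρ₁ : ∀ (x : F₂) (h : x ∈ S₁.O) (h' : x ∈ Hc.FF.O),
      Hc.FF.ρ ⟨x, h'⟩ = emb₁ (S₁.red ⟨x, h⟩))
    (hρ₂ : ∀ (x : F₂) (h : x ∈ S₂.O) (h' : x ∈ Hc.FV.O),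
      Hc.FV.ρ ⟨x, h'⟩ = emb₂ (S₂.red ⟨x, h⟩))
    (hρ₃ : ∀ (x : F₂) (h : x ∈ S₃.O) (h' : x ∈ Hc.VV.O),
      Hc.VV.ρ ⟨x, h'⟩ = emb₃ (S₃.red ⟨x, h⟩))
    (C : S36L3_Chart L F₂ k Fk₁ Fk₂ Fk₃ n) {ι : Type*}
    (e₁ : ι → ↥C.Rb₁ →ₐ[k] k) (e₂ : ι → ↥C.Rb₂ →ₐ[k] k) (e₃ : ι → ↥C.Rb₃ →ₐ[k] k)
    (B₁ : Subalgebra L F₁)
    (RbF RbV : Subalgebra k Ω)
    (eF eF' : ι → ↥RbF →ₐ[k] k) (eV eV' : ι → ↥RbV →ₐ[k] k)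
    (glue : ∀ (h : F₁) (hF : h ∈ Hc.F.O) (hV : h ∈ Hc.V.O), h ∈ B₁ →
      ∃ (mF : ↥RbF) (mV : ↥RbV), (mF : Ω) = Hc.F.ρ ⟨h, hF⟩ ∧ (mV : Ω) = Hc.V.ρ ⟨h, hV⟩ ∧
        ∀ y, eF y mF = eV y mV ∧ eF' y mF = eV' y mV)
    (E1F : ∀ y (z : ↥RbF) (a : ↥C.Rb₁) (b : ↥C.Rb₂),
      (z : Ω) = emb₁ (a : Fk₁) * emb₂ (b : Fk₂) ^ (q - 1) →
      eF y z = e₁ y a * e₂ y b ^ (q - 1))
    (E1V : ∀ y (z : ↥RbV) (c : ↥C.Rb₃),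
      Hc.Ψ (z : Ω) = emb₃ (c : Fk₃) ^ q → eV y z = e₃ y c ^ q)
    (nB₁ : ∀ x : F₂ˣ, (x : F₂) ∈ S36L3_O3 S₁ S₂ S₃ → (x : F₂) ∈ C.B →
      ((Hc.N₁ x : F₁ˣ) : F₁) ∈ B₁)
    (m : ↥C.Rb₁ × ↥C.Rb₂ × ↥C.Rb₃) (hm : m ∈ S36L3_W hS C 1) (y : ι) (t : k)
    (ht₁ : (m.1 : Fk₁) ≠ algebraMap k Fk₁ t) (ht₂ : (m.2.1 : Fk₂) ≠ algebraMap k Fk₂ t)
    (ht₃ : (m.2.2 : Fk₃) ≠ algebraMap k Fk₃ t) :
    (e₁ y m.1 - t) * (e₂ y m.2.1 - t) ^ (q - 1) = (e₃ y m.2.2 - t) ^ q := by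
  classical
  obtain ⟨f, hfB, hfm⟩ := (S36L3_mem_W_one hS C m).1 hm
  obtain ⟨a, rfl⟩ := S₁.res_surjective t
  -- the function `g = f − a`
  set c₀ : S36L3_O3 S₁ S₂ S₃ := ⟨algebraMap L F₂ a, S36L3_const_mem hS a⟩ with hc₀
  set g : S36L3_O3 S₁ S₂ S₃ := f - c₀ with hg
  have hgB : (g : F₂) ∈ C.B := by
    have : (g : F₂) = (f : F₂) - algebraMap L F₂ a := rfl
    rw [this]
    exact C.B.sub_mem hfB (C.B.algebraMap_mem _)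
  have hgred : S36L3_red S₁ S₂ S₃ g =
      ((m.1 : Fk₁) - algebraMap k Fk₁ (S₁.res a), (m.2.1 : Fk₂) - algebraMap k Fk₂ (S₁.res a),
        (m.2.2 : Fk₃) - algebraMap k Fk₃ (S₁.res a)) := by
    rw [hg, map_sub, hfm, hc₀, S36L3_red_const hS a]
    rfl
  have g1 : S₁.red ⟨g, g.2.1⟩ = (m.1 : Fk₁) - algebraMap k Fk₁ (S₁.res a) :=
    congrArg Prod.fst hgred
  have g2 : S₂.red ⟨g, g.2.2.1⟩ = (m.2.1 : Fk₂) - algebraMap k Fk₂ (S₁.res a) :=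
    congrArg (fun z => z.2.1) hgred
  have g3 : S₃.red ⟨g, g.2.2.2⟩ = (m.2.2 : Fk₃) - algebraMap k Fk₃ (S₁.res a) :=
    congrArg (fun z => z.2.2) hgred
  have n1 : (m.1 : Fk₁) - algebraMap k Fk₁ (S₁.res a) ≠ 0 := sub_ne_zero.2 ht₁
  have n2 : (m.2.1 : Fk₂) - algebraMap k Fk₂ (S₁.res a) ≠ 0 := sub_ne_zero.2 ht₂
  have n3 : (m.2.2 : Fk₃) - algebraMap k Fk₃ (S₁.res a) ≠ 0 := sub_ne_zero.2 ht₃
  have hg0 : (g : F₂) ≠ 0 := by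
    intro h
    apply n1
    rw [← g1]
    have : (⟨(g : F₂), g.2.1⟩ : S₁.O) = 0 := Subtype.ext h
    rw [this, map_zero]
  set φ : F₂ˣ := Units.mk0 (g : F₂) hg0 with hφ
  have hφ1 : (φ : F₂) ∈ S₁.O := g.2.1
  have hφ2 : (φ : F₂) ∈ S₂.O := g.2.2.1
  have hφ3 : (φ : F₂) ∈ S₃.O := g.2.2.2
  have φFF : φ ∈ S36CV_UG Hc.FF.O :=
    S36HA_mem_UG S₁ Hc.FF hO₁ φ hφ1 (by show S₁.red ⟨g, g.2.1⟩ ≠ 0; rw [g1]; exact n1)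
  have φFV : φ ∈ S36CV_UG Hc.FV.O :=
    S36HA_mem_UG S₂ Hc.FV hO₂ φ hφ2 (by show S₂.red ⟨g, g.2.2.1⟩ ≠ 0; rw [g2]; exact n2)
  have φVV : φ ∈ S36CV_UG Hc.VV.O :=
    S36HA_mem_UG S₃ Hc.VV hO₃ φ hφ3 (by show S₃.red ⟨g, g.2.2.2⟩ ≠ 0; rw [g3]; exact n3)
  have wFF := Hc.FF.v_eq_zero_iff.2 φFF
  have wFV := Hc.FV.v_eq_zero_iff.2 φFV
  have wVV := Hc.VV.v_eq_zero_iff.2 φVV
  have sFF : ((Hc.FF.r φ : Ωˣ) : Ω) = emb₁ ((m.1 : Fk₁) - algebraMap k Fk₁ (S₁.res a)) := by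
    rw [Hc.FF.r_val φFF, hρ₁ _ hφ1]
    exact congrArg emb₁ g1
  have sFV : ((Hc.FV.r φ : Ωˣ) : Ω) = emb₂ ((m.2.1 : Fk₂) - algebraMap k Fk₂ (S₁.res a)) := by
    rw [Hc.FV.r_val φFV, hρ₂ _ hφ2]
    exact congrArg emb₂ g2
  have sVV : ((Hc.VV.r φ : Ωˣ) : Ω) = emb₃ ((m.2.2 : Fk₃) - algebraMap k Fk₃ (S₁.res a)) := by
    rw [Hc.VV.r_val φVV, hρ₃ _ hφ3]
    exact congrArg emb₃ g3
  -- the norm of level `q`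
  have vF : Hc.F.v (Hc.N₁ φ) = 0 := by rw [Hc.vF_N₁, wFF, wFV, add_zero]
  have vV : Hc.V.v (Hc.N₁ φ) = 0 := by rw [Hc.vV_N₁, wVV, mul_zero]
  have hUF := Hc.F.v_eq_zero_iff.1 vF
  have hUV := Hc.V.v_eq_zero_iff.1 vV
  have hNB : ((Hc.N₁ φ : F₁ˣ) : F₁) ∈ B₁ := nB₁ φ g.2 hgB
  obtain ⟨mF, mV, eF1, eV1, hgl⟩ := glue ((Hc.N₁ φ : F₁ˣ) : F₁) hUF.1 hUV.1 hNB
  have nF : (mF : Ω) = emb₁ ((m.1 : Fk₁) - algebraMap k Fk₁ (S₁.res a)) *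
      emb₂ ((m.2.1 : Fk₂) - algebraMap k Fk₂ (S₁.res a)) ^ (q - 1) := by
    rw [eF1, ← Hc.F.r_val hUF, Hc.NR1F φ wFF wFV wVV, Units.val_mul, Units.val_pow_eq_pow_val,
      sFF, sFV]
  have nV : Hc.Ψ (mV : Ω) = emb₃ ((m.2.2 : Fk₃) - algebraMap k Fk₃ (S₁.res a)) ^ q := by
    have := congrArg (fun z : Ωˣ => (z : Ω)) (Hc.NR1V φ wFF wFV wVV)
    simp only [Units.coe_map, Units.val_pow_eq_pow_val, MonoidHom.coe_coe] at this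
    rw [eV1, ← Hc.V.r_val hUV, this, sVV]
  have r1 := E1F y mF (m.1 - algebraMap k ↥C.Rb₁ (S₁.res a))
    (m.2.1 - algebraMap k ↥C.Rb₂ (S₁.res a)) nF
  have r2 := E1V y mV (m.2.2 - algebraMap k ↥C.Rb₃ (S₁.res a)) nV
  have := (hgl y).1
  rw [r1, r2] at this
  simpa only [map_sub, AlgHom.commutes, Algebra.algebraMap_self, RingHom.id_apply] using this

/-- **`hW1` by norms**: the three branch values of every element of `W¹` agree. -/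
theorem S36N3W_hW1 [Infinite k] {n q : ℕ} (hq2 : 2 ≤ q) (Hc : S36CH_Hyp L F₂ F₁ k Ω n q)
    {S₁ : S18_Val L F₂ k Fk₁} {S₂ : S18_Val L F₂ k Fk₂} {S₃ : S18_Val L F₂ k Fk₃}
    (hS : S36L3_Same S₁ S₂ S₃)
    (hO₁ : S₁.O = Hc.FF.O) (hO₂ : S₂.O = Hc.FV.O) (hO₃ : S₃.O = Hc.VV.O)
    (emb₁ : Fk₁ →ₐ[k] Ω) (emb₂ : Fk₂ →ₐ[k] Ω) (emb₃ : Fk₃ →ₐ[k] Ω)
    (hρ₁ : ∀ (x : F₂) (h : x ∈ S₁.O) (h' : x ∈ Hc.FF.O),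
      Hc.FF.ρ ⟨x, h'⟩ = emb₁ (S₁.red ⟨x, h⟩))
    (hρ₂ : ∀ (x : F₂) (h : x ∈ S₂.O) (h' : x ∈ Hc.FV.O),
      Hc.FV.ρ ⟨x, h'⟩ = emb₂ (S₂.red ⟨x, h⟩))
    (hρ₃ : ∀ (x : F₂) (h : x ∈ S₃.O) (h' : x ∈ Hc.VV.O),
      Hc.VV.ρ ⟨x, h'⟩ = emb₃ (S₃.red ⟨x, h⟩))
    (C : S36L3_Chart L F₂ k Fk₁ Fk₂ Fk₃ n) {ι : Type*}
    (e₁ : ι → ↥C.Rb₁ →ₐ[k] k) (e₂ : ι → ↥C.Rb₂ →ₐ[k] k) (e₃ : ι → ↥C.Rb₃ →ₐ[k] k)
    (B₁ : Subalgebra L F₁)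
    (RbF RbV : Subalgebra k Ω)
    (eF eF' : ι → ↥RbF →ₐ[k] k) (eV eV' : ι → ↥RbV →ₐ[k] k)
    (glue : ∀ (h : F₁) (hF : h ∈ Hc.F.O) (hV : h ∈ Hc.V.O), h ∈ B₁ →
      ∃ (mF : ↥RbF) (mV : ↥RbV), (mF : Ω) = Hc.F.ρ ⟨h, hF⟩ ∧ (mV : Ω) = Hc.V.ρ ⟨h, hV⟩ ∧
        ∀ y, eF y mF = eV y mV ∧ eF' y mF = eV' y mV)
    (E1F : ∀ y (z : ↥RbF) (a : ↥C.Rb₁) (b : ↥C.Rb₂),
      (z : Ω) = emb₁ (a : Fk₁) * emb₂ (b : Fk₂) ^ (q - 1) →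
      eF y z = e₁ y a * e₂ y b ^ (q - 1))
    (E1V : ∀ y (z : ↥RbV) (c : ↥C.Rb₃),
      Hc.Ψ (z : Ω) = emb₃ (c : Fk₃) ^ q → eV y z = e₃ y c ^ q)
    (nB₁ : ∀ x : F₂ˣ, (x : F₂) ∈ S36L3_O3 S₁ S₂ S₃ → (x : F₂) ∈ C.B →
      ((Hc.N₁ x : F₁ˣ) : F₁) ∈ B₁) :
    ∀ m ∈ S36L3_W hS C 1, ∀ y,
      e₁ y m.1 = e₂ y m.2.1 ∧ e₁ y m.1 = e₃ y m.2.2 := by
  intro m hm y
  have hfin : {t : k | (e₁ y m.1 - t) * (e₂ y m.2.1 - t) ^ (q - 1) ≠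
      (e₃ y m.2.2 - t) ^ q}.Finite := by
    have h1 : {t : k | (m.1 : Fk₁) = algebraMap k Fk₁ t}.Subsingleton := by
      intro s hs t ht
      exact (algebraMap k Fk₁).injective (hs.symm.trans ht)
    have h2 : {t : k | (m.2.1 : Fk₂) = algebraMap k Fk₂ t}.Subsingleton := by
      intro s hs t ht
      exact (algebraMap k Fk₂).injective (hs.symm.trans ht)
    have h3 : {t : k | (m.2.2 : Fk₃) = algebraMap k Fk₃ t}.Subsingleton := by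
      intro s hs t ht
      exact (algebraMap k Fk₃).injective (hs.symm.trans ht)
    refine ((h1.finite.union h2.finite).union h3.finite).subset ?_
    intro t ht
    by_contra hcon
    have c1 : (m.1 : Fk₁) ≠ algebraMap k Fk₁ t := fun h => hcon (Or.inl (Or.inl h))
    have c2 : (m.2.1 : Fk₂) ≠ algebraMap k Fk₂ t := fun h => hcon (Or.inl (Or.inr h))
    have c3 : (m.2.2 : Fk₃) ≠ algebraMap k Fk₃ t := fun h => hcon (Or.inr h)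
    exact ht (S36N3W_norm_rel Hc hS hO₁ hO₂ hO₃ emb₁ emb₂ emb₃ hρ₁ hρ₂ hρ₃ C e₁ e₂ e₃ B₁
      RbF RbV eF eF' eV eV' glue E1F E1V nB₁ m hm y t c1 c2 c3)
  obtain ⟨h1, h2⟩ := S36N3_eq_of_norm q hq2 _ _ _ hfin
  exact ⟨h1.trans h2.symm, h1⟩

end Fermat.Agent.S36
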