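import Fermat.Agent.S36.ChartTransferW1
import Fermat.Agent.S36.Nodal3W1
import Fermat.Agent.S36.ChartsB
import Fermat.Agent.S36.LDesc

/-!
# TRACK 10 (S36), U3 of the audit (helper9): `hW1` on the chart `U''` — prefix `S36HW_`

`S36TI_hloc` / `S36WF_body` consume `hW1` on `U'' = U ∩ U'` for the evaluations
`S36SE_e_j C'' X hX` at the triple points; `hW1` by norms (helper14, `S36N3W_hW1`) is proved on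
the chart `U` of the level-`q` block, and helper2's `S36CX_hW1_up` moves it to `U''` through the
kill data `S36CX_Kill C'' C h`, `h = B − c`, provided `h̄` does not vanish at the triple points.
That last condition is FREE: `1/h̄ ∈ Rb₁(U'')` and the points are regular on `U''`.

* `S36HW_hhy`     : `e₁ y h̄ ≠ 0` from `h̄⁻¹ ∈ Rb₁(U'')`;
* `S36HW_up`      : **`hW1` on `U''`** from the level-`q` block on `U` (hypotheses LITERALLY those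
  of `S36N3W_hW1` / `S36HA_main`, with `e_j = S36SE_e_j C X (hX.of_le hle)`) + kill data;
* `S36HW_hW1_U`   : the same block gives `hW1` on `U` (the input of `S36TI_Geo.chart`);
* `S36HW_kill_CZ` : the kill data `S36CX_Kill (S36CZ_C'' c) S36CZ_C (B − c)` for helper23's
  concrete charts; `S36HW_h`, `S36HW_h_red₁` (`= S36CZ_zb c`);
* `S36HW_conc`    : **`hW1` on `S36CZ_C'' c`** — the concrete call.
-/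

set_option autoImplicit false
set_option linter.unusedSectionVars false
set_option linter.unusedVariables false
set_option linter.style.haveILetI false

open AlgebraicCurve ModularCurve

noncomputable section

namespace Fermat.Agent.S36

open Fermat.Agent.Lib Fermat.Agent.S18 Fermat.Agent.S24 Fermat.Agent.S34

/-! ### the abstract composition -/

section abs

variable {L F₂ F₁ k Ω Fk₁ Fk₂ Fk₃ : Type*} [Field L] [Field F₂] [Field F₁] [Field k] [Field Ω]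
  [Algebra L F₂] [Algebra L F₁] [Algebra k Ω]
  [Field Fk₁] [Field Fk₂] [Field Fk₃] [Algebra k Fk₁] [Algebra k Fk₂] [Algebra k Fk₃]
  {S₁ : S18_Val L F₂ k Fk₁} {S₂ : S18_Val L F₂ k Fk₂} {S₃ : S18_Val L F₂ k Fk₃}
  {n : ℕ} {ι : Type*}

/-- `h̄` does not vanish at the triple points: `1/h̄` is regular on `U''`. -/
theorem S36HW_hhy {C C'' : S36L3_Chart L F₂ k Fk₁ Fk₂ Fk₃ n} (hle : S36L3_ChartLE C C'')
    (X : S36SE_Pts k Fk₁ Fk₂ Fk₃ ι) (hX : S36SE_Reg C'' X)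
    {z : Fk₁} (hz : z ∈ C.Rb₁) (hz0 : z ≠ 0) (hinv : z⁻¹ ∈ C''.Rb₁) (y : ι) :
    S36SE_e₁ C X (hX.of_le hle) y ⟨z, hz⟩ ≠ 0 := by
  intro h0
  have h1 : S36SE_e₁ C'' X hX y ⟨z, hle.Rb₁_le hz⟩ = 0 := h0
  have h2 : (⟨z, hle.Rb₁_le hz⟩ : ↥C''.Rb₁) * ⟨z⁻¹, hinv⟩ = 1 :=
    Subtype.ext (mul_inv_cancel₀ hz0)
  have h3 := congrArg (S36SE_e₁ C'' X hX y) h2
  rw [map_mul, h1, zero_mul, map_one] at h3
  exact zero_ne_one h3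

/-- **`hW1` on `U`** from the level-`q` block (`S36N3W_hW1` for the evaluations at `X`). -/
theorem S36HW_hW1_U [Infinite k] {q : ℕ} (hq2 : 2 ≤ q) (Hc : S36CH_Hyp L F₂ F₁ k Ω n q)
    (hS : S36L3_Same S₁ S₂ S₃)
    (hO₁ : S₁.O = Hc.FF.O) (hO₂ : S₂.O = Hc.FV.O) (hO₃ : S₃.O = Hc.VV.O)
    (emb₁ : Fk₁ →ₐ[k] Ω) (emb₂ : Fk₂ →ₐ[k] Ω) (emb₃ : Fk₃ →ₐ[k] Ω)
    (hρ₁ : ∀ (x : F₂) (h : x ∈ S₁.O) (h' : x ∈ Hc.FF.O),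
      Hc.FF.ρ ⟨x, h'⟩ = emb₁ (S₁.red ⟨x, h⟩))
    (hρ₂ : ∀ (x : F₂) (h : x ∈ S₂.O) (h' : x ∈ Hc.FV.O),
      Hc.FV.ρ ⟨x, h'⟩ = emb₂ (S₂.red ⟨x, h⟩))
    (hρ₃ : ∀ (x : F₂) (h : x ∈ S₃.O) (h' : x ∈ Hc.VV.O),
      Hc.VV.ρ ⟨x, h'⟩ = emb₃ (S₃.red ⟨x, h⟩))
    (C : S36L3_Chart L F₂ k Fk₁ Fk₂ Fk₃ n)
    (X : S36SE_Pts k Fk₁ Fk₂ Fk₃ ι) (hC : S36SE_Reg C X)
    (B₁ : Subalgebra L F₁)
    (RbF RbV : Subalgebra k Ω)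
    (eF eF' : ι → ↥RbF →ₐ[k] k) (eV eV' : ι → ↥RbV →ₐ[k] k)
    (glue : ∀ (h : F₁) (hF : h ∈ Hc.F.O) (hV : h ∈ Hc.V.O), h ∈ B₁ →
      ∃ (mF : ↥RbF) (mV : ↥RbV), (mF : Ω) = Hc.F.ρ ⟨h, hF⟩ ∧ (mV : Ω) = Hc.V.ρ ⟨h, hV⟩ ∧
        ∀ y, eF y mF = eV y mV ∧ eF' y mF = eV' y mV)
    (E1F : ∀ y (z : ↥RbF) (a : ↥C.Rb₁) (b : ↥C.Rb₂),
      (z : Ω) = emb₁ (a : Fk₁) * emb₂ (b : Fk₂) ^ (q - 1) →
      eF y z = S36SE_e₁ C X hC y a * S36SE_e₂ C X hC y b ^ (q - 1))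
    (E1V : ∀ y (z : ↥RbV) (c : ↥C.Rb₃),
      Hc.Ψ (z : Ω) = emb₃ (c : Fk₃) ^ q → eV y z = S36SE_e₃ C X hC y c ^ q)
    (nB₁ : ∀ x : F₂ˣ, (x : F₂) ∈ S36L3_O3 S₁ S₂ S₃ → (x : F₂) ∈ C.B →
      ((Hc.N₁ x : F₁ˣ) : F₁) ∈ B₁) :
    ∀ m ∈ S36L3_W hS C 1, ∀ y,
      S36SE_e₁ C X hC y m.1 = S36SE_e₂ C X hC y m.2.1 ∧
      S36SE_e₁ C X hC y m.1 = S36SE_e₃ C X hC y m.2.2 :=
  S36N3W_hW1 hq2 Hc hS hO₁ hO₂ hO₃ emb₁ emb₂ emb₃ hρ₁ hρ₂ hρ₃ C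
    (S36SE_e₁ C X hC) (S36SE_e₂ C X hC) (S36SE_e₃ C X hC) B₁ RbF RbV eF eF' eV eV'
    glue E1F E1V nB₁

/-- **`hW1` on `U''`** from the level-`q` block on `U` and the kill data `U'' → U`. -/
theorem S36HW_up [Infinite k] {q : ℕ} (hq2 : 2 ≤ q) (Hc : S36CH_Hyp L F₂ F₁ k Ω n q)
    (hS : S36L3_Same S₁ S₂ S₃)
    (hO₁ : S₁.O = Hc.FF.O) (hO₂ : S₂.O = Hc.FV.O) (hO₃ : S₃.O = Hc.VV.O)
    (emb₁ : Fk₁ →ₐ[k] Ω) (emb₂ : Fk₂ →ₐ[k] Ω) (emb₃ : Fk₃ →ₐ[k] Ω)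
    (hρ₁ : ∀ (x : F₂) (h : x ∈ S₁.O) (h' : x ∈ Hc.FF.O),
      Hc.FF.ρ ⟨x, h'⟩ = emb₁ (S₁.red ⟨x, h⟩))
    (hρ₂ : ∀ (x : F₂) (h : x ∈ S₂.O) (h' : x ∈ Hc.FV.O),
      Hc.FV.ρ ⟨x, h'⟩ = emb₂ (S₂.red ⟨x, h⟩))
    (hρ₃ : ∀ (x : F₂) (h : x ∈ S₃.O) (h' : x ∈ Hc.VV.O),
      Hc.VV.ρ ⟨x, h'⟩ = emb₃ (S₃.red ⟨x, h⟩))
    {C C'' : S36L3_Chart L F₂ k Fk₁ Fk₂ Fk₃ n} (hle : S36L3_ChartLE C C'')
    (X : S36SE_Pts k Fk₁ Fk₂ Fk₃ ι) (hX : S36SE_Reg C'' X)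
    {h : S36L3_O3 S₁ S₂ S₃} (K : S36CX_Kill C'' C h)
    (hh0 : (S36L3_red S₁ S₂ S₃ h).1 ≠ 0)
    (hinv : ((S36L3_red S₁ S₂ S₃ h).1)⁻¹ ∈ C''.Rb₁)
    (B₁ : Subalgebra L F₁)
    (RbF RbV : Subalgebra k Ω)
    (eF eF' : ι → ↥RbF →ₐ[k] k) (eV eV' : ι → ↥RbV →ₐ[k] k)
    (glue : ∀ (h : F₁) (hF : h ∈ Hc.F.O) (hV : h ∈ Hc.V.O), h ∈ B₁ →
      ∃ (mF : ↥RbF) (mV : ↥RbV), (mF : Ω) = Hc.F.ρ ⟨h, hF⟩ ∧ (mV : Ω) = Hc.V.ρ ⟨h, hV⟩ ∧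
        ∀ y, eF y mF = eV y mV ∧ eF' y mF = eV' y mV)
    (E1F : ∀ y (z : ↥RbF) (a : ↥C.Rb₁) (b : ↥C.Rb₂),
      (z : Ω) = emb₁ (a : Fk₁) * emb₂ (b : Fk₂) ^ (q - 1) →
      eF y z = S36SE_e₁ C X (hX.of_le hle) y a * S36SE_e₂ C X (hX.of_le hle) y b ^ (q - 1))
    (E1V : ∀ y (z : ↥RbV) (c : ↥C.Rb₃),
      Hc.Ψ (z : Ω) = emb₃ (c : Fk₃) ^ q → eV y z = S36SE_e₃ C X (hX.of_le hle) y c ^ q)
    (nB₁ : ∀ x : F₂ˣ, (x : F₂) ∈ S36L3_O3 S₁ S₂ S₃ → (x : F₂) ∈ C.B →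
      ((Hc.N₁ x : F₁ˣ) : F₁) ∈ B₁) :
    ∀ m ∈ S36L3_W hS C'' 1, ∀ y,
      S36SE_e₁ C'' X hX y m.1 = S36SE_e₂ C'' X hX y m.2.1 ∧
      S36SE_e₁ C'' X hX y m.1 = S36SE_e₃ C'' X hX y m.2.2 :=
  S36CX_hW1_up hS hle K
    (S36SE_e₁ C X (hX.of_le hle)) (S36SE_e₂ C X (hX.of_le hle)) (S36SE_e₃ C X (hX.of_le hle))
    (S36SE_e₁ C'' X hX) (S36SE_e₂ C'' X hX) (S36SE_e₃ C'' X hX)
    (fun _ _ => rfl) (fun _ _ => rfl) (fun _ _ => rfl)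
    (fun y => S36HW_hhy hle X hX K.g₁ hh0 hinv y)
    (S36HW_hW1_U hq2 Hc hS hO₁ hO₂ hO₃ emb₁ emb₂ emb₃ hρ₁ hρ₂ hρ₃ C X (hX.of_le hle)
      B₁ RbF RbV eF eF' eV eV' glue E1F E1V nB₁)

end abs

/-! ### helper23's concrete charts -/

section conc

local notation "Ω₀" => AlgebraicClosure ℚ

variable (M q : ℕ) [NeZero M] [NeZero q] (hq : q.Prime) (hqM : ¬ q ∣ M)
  (A : ValuationSubring Ω₀) (hA : A.LiesOverPrime q)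
  (ζ : Ω₀ˣ) (hζ : ζ ^ q = 1) (hζ1 : ζ ≠ 1)
  (c : (S36FI_SFF M q hq hqM A hA).A) (n : ℕ) (hn : 0 < n)

/-- the function `h = B − c ∈ O₃`. -/
def S36HW_h :
    S36L3_O3 (S36FI_SFF M q hq hqM A hA) (S36FI_SFV M q hq hqM A hA ζ hζ hζ1)
      (S36FI_SVV M q hq hqM A hA) :=
  ⟨_, S36CZ_hjO M q hq hqM A hA ζ hζ hζ1⟩ -
    ⟨_, S36L3_const_mem (S36FI_same3 M q hq hqM A hA ζ hζ hζ1) c⟩

theorem S36HW_h_coe :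
    ((S36HW_h M q hq hqM A hA ζ hζ hζ1 c :
        S36L3_O3 (S36FI_SFF M q hq hqM A hA) (S36FI_SFV M q hq hqM A hA ζ hζ hζ1)
          (S36FI_SVV M q hq hqM A hA)) :
      ↥(S36FI_act (M * q * q) (A.inertiaSubgroupIn ℚ)).fixF) =
      S36CO_BL M q (A.inertiaSubgroupIn ℚ) -
        algebraMap ↥(S36FI_act (M * q * q) (A.inertiaSubgroupIn ℚ)).fixK
          ↥(S36FI_act (M * q * q) (A.inertiaSubgroupIn ℚ)).fixF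
          (c : ↥(S36FI_act (M * q * q) (A.inertiaSubgroupIn ℚ)).fixK) := rfl

/-- the reductions of `h`: `(z̄, z̄, z̄)`, `z̄ = x̄ − c̄`. -/
theorem S36HW_h_red :
    S36L3_red (S36FI_SFF M q hq hqM A hA) (S36FI_SFV M q hq hqM A hA ζ hζ hζ1)
        (S36FI_SVV M q hq hqM A hA) (S36HW_h M q hq hqM A hA ζ hζ hζ1 c) =
      (S36CZ_zb M q hq hqM A hA c, S36CZ_zb M q hq hqM A hA c, S36CZ_zb M q hq hqM A hA c) := by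
  rw [S36HW_h, map_sub, S36L3_red_const (S36FI_same3 M q hq hqM A hA ζ hζ hζ1) c]
  refine Prod.ext ?_ (Prod.ext ?_ ?_)
  · rfl
  · show (S36FI_SFV M q hq hqM A hA ζ hζ hζ1).red ⟨_, _⟩ - _ = _
    rw [S36CZ_red₂]
    rfl
  · show (S36FI_SVV M q hq hqM A hA).red ⟨_, _⟩ - _ = _
    rw [S36CZ_red₃]
    rfl

/-- **the kill data `U'' → U`** for helper23's concrete charts. -/
theorem S36HW_kill_CZ
    (hκ : HasPrincipalDivisors (IsLocalRing.ResidueField A) ↥(S36FI_kappa M A)) :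
    S36CX_Kill (S36CZ_C'' M q hq hqM A hA c n hn) (S36CZ_C M q hq hqM A hA n hn)
      (S36HW_h M q hq hqM A hA ζ hζ hζ1 c) := by
  have hr := S36HW_h_red M q hq hqM A hA ζ hζ hζ1 c
  exact S36CX_kill_conc'' (S36FI_act (M * q * q) (A.inertiaSubgroupIn ℚ))
    (S36LD_hRR (M * q * q)).principal hκ hκ hκ
    (S36CO_BL M q (A.inertiaSubgroupIn ℚ))
    (c : ↥(S36FI_act (M * q * q) (A.inertiaSubgroupIn ℚ)).fixK)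
    ((S36FI_SFF M q hq hqM A hA).res c)
    (S36CZ_xb M q hq hqM A hA) (S36CZ_xb M q hq hqM A hA) (S36CZ_xb M q hq hqM A hA) n hn
    (S36HW_h M q hq hqM A hA ζ hζ hζ1 c) rfl
    (congrArg Prod.fst hr) (congrArg (fun z => z.2.1) hr) (congrArg (fun z => z.2.2) hr)

variable {F₁ Ω : Type*} [Field F₁] [Field Ω]
  [Algebra ↥(S36FI_act (M * q * q) (A.inertiaSubgroupIn ℚ)).fixK F₁]
  [Algebra (IsLocalRing.ResidueField A) Ω] {ι : Type*}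

/-- **U3: `hW1` on helper23's chart `S36CZ_C'' c`** from the level-`q` block on `S36CZ_C`
(hypotheses LITERALLY those of `S36N3W_hW1` / `S36HA_main` / `S36WF_body` with
`T.e_j = S36SE_e_j (S36CZ_C) X (hX.of_le S36CZ_hle)`). -/
theorem S36HW_conc [Infinite (IsLocalRing.ResidueField A)]
    (hκ : HasPrincipalDivisors (IsLocalRing.ResidueField A) ↥(S36FI_kappa M A))
    (hq2 : 2 ≤ q)
    (Hc : S36CH_Hyp ↥(S36FI_act (M * q * q) (A.inertiaSubgroupIn ℚ)).fixK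
      ↥(S36FI_act (M * q * q) (A.inertiaSubgroupIn ℚ)).fixF F₁
      (IsLocalRing.ResidueField A) Ω n q)
    (hO₁ : (S36FI_SFF M q hq hqM A hA).O = Hc.FF.O)
    (hO₂ : (S36FI_SFV M q hq hqM A hA ζ hζ hζ1).O = Hc.FV.O)
    (hO₃ : (S36FI_SVV M q hq hqM A hA).O = Hc.VV.O)
    (emb₁ emb₂ emb₃ : ↥(S36FI_kappa M A) →ₐ[IsLocalRing.ResidueField A] Ω)
    (hρ₁ : ∀ (x : ↥(S36FI_act (M * q * q) (A.inertiaSubgroupIn ℚ)).fixF)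
      (h : x ∈ (S36FI_SFF M q hq hqM A hA).O) (h' : x ∈ Hc.FF.O),
      Hc.FF.ρ ⟨x, h'⟩ = emb₁ ((S36FI_SFF M q hq hqM A hA).red ⟨x, h⟩))
    (hρ₂ : ∀ (x : ↥(S36FI_act (M * q * q) (A.inertiaSubgroupIn ℚ)).fixF)
      (h : x ∈ (S36FI_SFV M q hq hqM A hA ζ hζ hζ1).O) (h' : x ∈ Hc.FV.O),
      Hc.FV.ρ ⟨x, h'⟩ = emb₂ ((S36FI_SFV M q hq hqM A hA ζ hζ hζ1).red ⟨x, h⟩))
    (hρ₃ : ∀ (x : ↥(S36FI_act (M * q * q) (A.inertiaSubgroupIn ℚ)).fixF)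
      (h : x ∈ (S36FI_SVV M q hq hqM A hA).O) (h' : x ∈ Hc.VV.O),
      Hc.VV.ρ ⟨x, h'⟩ = emb₃ ((S36FI_SVV M q hq hqM A hA).red ⟨x, h⟩))
    (X : S36SE_Pts (IsLocalRing.ResidueField A) ↥(S36FI_kappa M A) ↥(S36FI_kappa M A)
      ↥(S36FI_kappa M A) ι)
    (hX : S36SE_Reg (S36CZ_C'' M q hq hqM A hA c n hn) X)
    (B₁ : Subalgebra ↥(S36FI_act (M * q * q) (A.inertiaSubgroupIn ℚ)).fixK F₁)
    (RbF RbV : Subalgebra (IsLocalRing.ResidueField A) Ω)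
    (eF eF' : ι → ↥RbF →ₐ[IsLocalRing.ResidueField A] IsLocalRing.ResidueField A)
    (eV eV' : ι → ↥RbV →ₐ[IsLocalRing.ResidueField A] IsLocalRing.ResidueField A)
    (glue : ∀ (h : F₁) (hF : h ∈ Hc.F.O) (hV : h ∈ Hc.V.O), h ∈ B₁ →
      ∃ (mF : ↥RbF) (mV : ↥RbV), (mF : Ω) = Hc.F.ρ ⟨h, hF⟩ ∧ (mV : Ω) = Hc.V.ρ ⟨h, hV⟩ ∧
        ∀ y, eF y mF = eV y mV ∧ eF' y mF = eV' y mV)
    (E1F : ∀ y (z : ↥RbF) (a : ↥(S36CZ_C M q hq hqM A hA n hn).Rb₁)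
      (b : ↥(S36CZ_C M q hq hqM A hA n hn).Rb₂),
      (z : Ω) = emb₁ (a : ↥(S36FI_kappa M A)) * emb₂ (b : ↥(S36FI_kappa M A)) ^ (q - 1) →
      eF y z =
        S36SE_e₁ (S36CZ_C M q hq hqM A hA n hn) X
            (hX.of_le (S36CZ_hle M q hq hqM A hA c n hn)) y a *
          S36SE_e₂ (S36CZ_C M q hq hqM A hA n hn) X
            (hX.of_le (S36CZ_hle M q hq hqM A hA c n hn)) y b ^ (q - 1))
    (E1V : ∀ y (z : ↥RbV) (c' : ↥(S36CZ_C M q hq hqM A hA n hn).Rb₃),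
      Hc.Ψ (z : Ω) = emb₃ (c' : ↥(S36FI_kappa M A)) ^ q →
      eV y z = S36SE_e₃ (S36CZ_C M q hq hqM A hA n hn) X
        (hX.of_le (S36CZ_hle M q hq hqM A hA c n hn)) y c' ^ q)
    (nB₁ : ∀ x : (↥(S36FI_act (M * q * q) (A.inertiaSubgroupIn ℚ)).fixF)ˣ,
      (x : ↥(S36FI_act (M * q * q) (A.inertiaSubgroupIn ℚ)).fixF) ∈
        S36L3_O3 (S36FI_SFF M q hq hqM A hA) (S36FI_SFV M q hq hqM A hA ζ hζ hζ1)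
          (S36FI_SVV M q hq hqM A hA) →
      (x : ↥(S36FI_act (M * q * q) (A.inertiaSubgroupIn ℚ)).fixF) ∈
        (S36CZ_C M q hq hqM A hA n hn).B →
      ((Hc.N₁ x : F₁ˣ) : F₁) ∈ B₁) :
    ∀ m ∈ S36L3_W (S36FI_same3 M q hq hqM A hA ζ hζ hζ1)
        (S36CZ_C'' M q hq hqM A hA c n hn) 1, ∀ y,
      S36SE_e₁ (S36CZ_C'' M q hq hqM A hA c n hn) X hX y m.1 =
          S36SE_e₂ (S36CZ_C'' M q hq hqM A hA c n hn) X hX y m.2.1 ∧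
        S36SE_e₁ (S36CZ_C'' M q hq hqM A hA c n hn) X hX y m.1 =
          S36SE_e₃ (S36CZ_C'' M q hq hqM A hA c n hn) X hX y m.2.2 := by
  have hr := S36HW_h_red M q hq hqM A hA ζ hζ hζ1 c
  have hr1 : (S36L3_red (S36FI_SFF M q hq hqM A hA) (S36FI_SFV M q hq hqM A hA ζ hζ hζ1)
      (S36FI_SVV M q hq hqM A hA) (S36HW_h M q hq hqM A hA ζ hζ hζ1 c)).1 =
      S36CZ_zb M q hq hqM A hA c := congrArg Prod.fst hr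
  refine S36HW_up hq2 Hc (S36FI_same3 M q hq hqM A hA ζ hζ hζ1) hO₁ hO₂ hO₃ emb₁ emb₂ emb₃
    hρ₁ hρ₂ hρ₃ (S36CZ_hle M q hq hqM A hA c n hn) X hX
    (S36HW_kill_CZ M q hq hqM A hA ζ hζ hζ1 c n hn hκ) ?_ ?_
    B₁ RbF RbV eF eF' eV eV' glue E1F E1V nB₁
  · rw [hr1]
    exact S36CZ_zb_ne_zero M q hq hqM A hA c
  · rw [hr1]
    exact S36CU_inv_mem_reg2 _ _

end conc

end Fermat.Agent.S36
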