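import Fermat.Agent.S36.HW1Conc
import Fermat.Agent.S36.HVInst
import Fermat.Agent.S36.Comp3Closed
import Fermat.Agent.S36.Spec3SepZ

/-!
# TRACK 10 (S36), U3 / HOLE 1 of helper2's WireConc (helper9): `hW1` on `S36CZ_C'' c`,
on the concrete objects — prefix `S36HW_`

`S36HW_main` mirrors helper29's `S36HV_main` (S36/HVInst.lean): the LEVEL-`q` block
(`B₁`, `RbF`, `RbV`, `eF`, `eV`, `glue`, `nB₁`) is supplied exactly as there; the inputs left are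
the ties `TF`, `TV`, TRACK 7's nodes `nF nV` (`hW1n`), `π₁ : ι → I` and `E1F`, `E1V` of helper4's
E-block (LITERALLY the first two hypotheses of `S36HV_main`, for the chart `C = S36CZ_C` and
`e_j = S36SE_e_j C X (hX.of_le S36CZ_hle)`).

* `S36HW_main`     : `hW1` on `S36CZ_C'' c` (any `Hc` tied to the Gauss rings, any `X`);
* `S36HW_main_U`   : `hW1` on `S36CZ_C` (the input `hW1` of `G`);
* **`S36HW_hole1`** : HOLE 1 of WireConc — `Hc = S36CI_Hc`, `X = S36SE_XSS D`, any admissible `c`;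
* `S36HW_hole1_U`  : the same on the chart `U`.
-/

set_option autoImplicit false
set_option synthInstance.maxHeartbeats 400000
set_option maxHeartbeats 1000000
set_option linter.unusedSectionVars false
set_option linter.unusedVariables false
set_option linter.style.haveILetI false
set_option linter.style.longLine false

open HahnSeries IntermediateField AlgebraicCurve ModularCurve

noncomputable section

namespace Fermat.Agent.S36

open Fermat.Agent.S18 Fermat.Agent.S24 Fermat.Agent.S34 Fermat.Agent.S35 Fermat.Agent.Lib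

local notation "ℚbar" => AlgebraicClosure ℚ

variable (M q : ℕ) [NeZero M] [NeZero q] [NeZero (M * q)] [NeZero (M * q * q)]
  (hq : q.Prime) (hqM : ¬ q ∣ M)
  (A : ValuationSubring ℚbar) (hA : A.LiesOverPrime q)
  (hgen : PrincipalGeneratedByIntegral A (IsLocalRing.residue A) (M * q))
  (ζ : ℚbarˣ) (hζ : ζ ^ q = 1) (hζ1 : ζ ≠ 1)

section main

variable [Algebra ↥(S36FI_act (M * q * q) (A.inertiaSubgroupIn ℚ)).fixK
    ↥(S36FI_act (M * q) (A.inertiaSubgroupIn ℚ)).fixF]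
  (halg : ∀ c : ↥(S36FI_act (M * q * q) (A.inertiaSubgroupIn ℚ)).fixK,
    ((algebraMap ↥(S36FI_act (M * q * q) (A.inertiaSubgroupIn ℚ)).fixK
        ↥(S36FI_act (M * q) (A.inertiaSubgroupIn ℚ)).fixF c :
      ↥(S36FI_act (M * q) (A.inertiaSubgroupIn ℚ)).fixF) : ↥(modularFunctionFieldBar (M * q))) =
      algebraMap ℚbar ↥(modularFunctionFieldBar (M * q)) (c : ℚbar))
  {n : ℕ} (hn : 0 < n)
  (Hc : S36CH_Hyp ↥(S36FI_act (M * q * q) (A.inertiaSubgroupIn ℚ)).fixK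
    ↥(S36FI_act (M * q * q) (A.inertiaSubgroupIn ℚ)).fixF
    ↥(S36FI_act (M * q) (A.inertiaSubgroupIn ℚ)).fixF (IsLocalRing.ResidueField A)
    (LaurentSeries (IsLocalRing.ResidueField A)) n q)
  {πF πV : ↥(modularFunctionFieldBar (M * q))}
  (TF : S36CG_Tie (M * q) (A.inertiaSubgroupIn ℚ) A (S36V_emF M q) πF Hc.F)
  (TV : S36CG_Tie (M * q) (A.inertiaSubgroupIn ℚ) A (S36V_emV M q hq hqM) πV Hc.V)
  (hN₁ : ∀ u : (↥(S36FI_act (M * q * q) (A.inertiaSubgroupIn ℚ)).fixF)ˣ,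
    (((Hc.N₁ u : (↥(S36FI_act (M * q) (A.inertiaSubgroupIn ℚ)).fixF)ˣ) :
        ↥(S36FI_act (M * q) (A.inertiaSubgroupIn ℚ)).fixF) :
      ↥(modularFunctionFieldBar (M * q))) =
    S35B_NA (M * q) q (((u : ↥(S36FI_act (M * q * q) (A.inertiaSubgroupIn ℚ)).fixF)) :
      ↥(modularFunctionFieldBar (M * q * q))))
  (hO₁ : (S36FI_SFF M q hq hqM A hA).O = Hc.FF.O)
  (hO₂ : (S36FI_SFV M q hq hqM A hA ζ hζ hζ1).O = Hc.FV.O)
  (hO₃ : (S36FI_SVV M q hq hqM A hA).O = Hc.VV.O)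
  (emb₁ emb₂ emb₃ : ↥(S36FI_kappa M A) →ₐ[IsLocalRing.ResidueField A]
    LaurentSeries (IsLocalRing.ResidueField A))
  (hρ₁ : ∀ (x : ↥(S36FI_act (M * q * q) (A.inertiaSubgroupIn ℚ)).fixF)
    (h : x ∈ (S36FI_SFF M q hq hqM A hA).O) (h' : x ∈ Hc.FF.O),
    Hc.FF.ρ ⟨x, h'⟩ = emb₁ ((S36FI_SFF M q hq hqM A hA).red ⟨x, h⟩))
  (hρ₂ : ∀ (x : ↥(S36FI_act (M * q * q) (A.inertiaSubgroupIn ℚ)).fixF)
    (h : x ∈ (S36FI_SFV M q hq hqM A hA ζ hζ hζ1).O) (h' : x ∈ Hc.FV.O),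
    Hc.FV.ρ ⟨x, h'⟩ = emb₂ ((S36FI_SFV M q hq hqM A hA ζ hζ hζ1).red ⟨x, h⟩))
  (hρ₃ : ∀ (x : ↥(S36FI_act (M * q * q) (A.inertiaSubgroupIn ℚ)).fixF)
    (h : x ∈ (S36FI_SVV M q hq hqM A hA).O) (h' : x ∈ Hc.VV.O),
    Hc.VV.ρ ⟨x, h'⟩ = emb₃ ((S36FI_SVV M q hq hqM A hA).red ⟨x, h⟩))
  {ι : Type*}
  (X : S36SE_Pts (IsLocalRing.ResidueField A) ↥(S36FI_kappa M A) ↥(S36FI_kappa M A)
    ↥(S36FI_kappa M A) ι)
  {I : Type*}
  (nF : I → ↥(S34M_chart M q A n hn).Rb₁ →ₐ[IsLocalRing.ResidueField A]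
    IsLocalRing.ResidueField A)
  (nV : I → ↥(S34M_chart M q A n hn).Rb₂ →ₐ[IsLocalRing.ResidueField A]
    IsLocalRing.ResidueField A)
  (hW1n : S34K_W (S34M_same M q hq hqM A hgen) (S34M_chart M q A n hn) 1 = S34B_W nF nV)
  (π₁ : ι → I)

include hA halg TF TV hN₁ hW1n hO₁ hO₂ hO₃ hρ₁ hρ₂ hρ₃ in
/-- **`hW1` on the chart `U = S36CZ_C`** from `E1F`, `E1V`. -/
theorem S36HW_main_U
    (hC : S36SE_Reg (S36CZ_C M q hq hqM A hA n hn) X)
    (E1F : ∀ y (z : ↥((S34M_chart M q A n hn).Rb₁.map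
          (modularFunctionFieldFullC (IsLocalRing.ResidueField A) (M * q)).val))
        (a : ↥(S36CZ_C M q hq hqM A hA n hn).Rb₁) (b : ↥(S36CZ_C M q hq hqM A hA n hn).Rb₂),
      (z : LaurentSeries (IsLocalRing.ResidueField A)) =
        emb₁ (a : ↥(S36FI_kappa M A)) * emb₂ (b : ↥(S36FI_kappa M A)) ^ (q - 1) →
      S36HV_ev (modularFunctionFieldFullC (IsLocalRing.ResidueField A) (M * q)).val
          (S34M_chart M q A n hn).Rb₁ (nF (π₁ y)) z =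
        S36SE_e₁ (S36CZ_C M q hq hqM A hA n hn) X hC y a *
          S36SE_e₂ (S36CZ_C M q hq hqM A hA n hn) X hC y b ^ (q - 1))
    (E1V : ∀ y (z : ↥((S34M_chart M q A n hn).Rb₂.map
          (modularFunctionFieldFullC (IsLocalRing.ResidueField A) (M * q)).val))
        (c' : ↥(S36CZ_C M q hq hqM A hA n hn).Rb₃),
      Hc.Ψ (z : LaurentSeries (IsLocalRing.ResidueField A)) =
        emb₃ (c' : ↥(S36FI_kappa M A)) ^ q →
      S36HV_ev (modularFunctionFieldFullC (IsLocalRing.ResidueField A) (M * q)).val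
          (S34M_chart M q A n hn).Rb₂ (nV (π₁ y)) z =
        S36SE_e₃ (S36CZ_C M q hq hqM A hA n hn) X hC y c' ^ q) :
    ∀ m ∈ S36L3_W (S36FI_same3 M q hq hqM A hA ζ hζ hζ1) (S36CZ_C M q hq hqM A hA n hn) 1, ∀ y,
      S36SE_e₁ (S36CZ_C M q hq hqM A hA n hn) X hC y m.1 =
          S36SE_e₂ (S36CZ_C M q hq hqM A hA n hn) X hC y m.2.1 ∧
        S36SE_e₁ (S36CZ_C M q hq hqM A hA n hn) X hC y m.1 =
          S36SE_e₃ (S36CZ_C M q hq hqM A hA n hn) X hC y m.2.2 := by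
  haveI : IsAlgClosed (IsLocalRing.ResidueField A) := S18_residue_isAlgClosed A
  haveI : Infinite (IsLocalRing.ResidueField A) := IsAlgClosed.instInfinite
  have hL : ∀ c : ↥(S36FI_act (M * q * q) (A.inertiaSubgroupIn ℚ)).fixK, ∃ a : ℚbar,
      ((algebraMap ↥(S36FI_act (M * q * q) (A.inertiaSubgroupIn ℚ)).fixK
          ↥(S36FI_act (M * q) (A.inertiaSubgroupIn ℚ)).fixF c :
        ↥(S36FI_act (M * q) (A.inertiaSubgroupIn ℚ)).fixF) :
          ↥(modularFunctionFieldBar (M * q))) =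
        algebraMap ℚbar ↥(modularFunctionFieldBar (M * q)) a := fun c => ⟨_, halg c⟩
  refine S36HW_hW1_U hq.two_le Hc (S36FI_same3 M q hq hqM A hA ζ hζ hζ1) hO₁ hO₂ hO₃
    emb₁ emb₂ emb₃ hρ₁ hρ₂ hρ₃ (S36CZ_C M q hq hqM A hA n hn) X hC
    (S36HV_B₁ (S36FI_act (M * q) (A.inertiaSubgroupIn ℚ)) hL
      (S34IX_TU (K := ℚbar) (jB (M * q))))
    ((S34M_chart M q A n hn).Rb₁.map
      (modularFunctionFieldFullC (IsLocalRing.ResidueField A) (M * q)).val)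
    ((S34M_chart M q A n hn).Rb₂.map
      (modularFunctionFieldFullC (IsLocalRing.ResidueField A) (M * q)).val)
    (fun y => S36HV_ev _ _ (nF (π₁ y))) (fun y => S36HV_ev _ _ (nF (π₁ y)))
    (fun y => S36HV_ev _ _ (nV (π₁ y))) (fun y => S36HV_ev _ _ (nV (π₁ y)))
    ?_ E1F E1V ?_
  · -- glue
    intro h hF hV hB
    have hB' : (h : ↥(modularFunctionFieldBar (M * q))) ∈ (S34M_chart M q A n hn).B := by
      have h1 : (h : ↥(modularFunctionFieldBar (M * q))) ∈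
          S34IX_reg (S34IX_TU (K := ℚbar) (jB (M * q))) := hB
      rw [S36CU_reg_eq] at h1
      exact h1
    obtain ⟨mF, mV, e1, e2, e3⟩ :=
      S36HV_glue M q hq hqM A hA hgen (A.inertiaSubgroupIn ℚ) Hc.F Hc.V TF TV hn nF nV hW1n
        h hF hV hB'
    exact ⟨mF, mV, e1, e2, fun y => ⟨e3 (π₁ y), e3 (π₁ y)⟩⟩
  · -- nB₁
    intro x _ hx
    exact S36HV_nB₁ (M * q) q (A.inertiaSubgroupIn ℚ) hL Hc.N₁ hN₁
      (S36CO_BL M q (A.inertiaSubgroupIn ℚ)) (S36CO_B_eq_beta M q (S36CO_q_dvd M q)) x hx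

include hA halg TF TV hN₁ hW1n hO₁ hO₂ hO₃ hρ₁ hρ₂ hρ₃ in
/-- **`hW1` on the chart `U'' = S36CZ_C'' c`** from `E1F`, `E1V` (stated on `U`). -/
theorem S36HW_main (c : (S36FI_SFF M q hq hqM A hA).A)
    (hX : S36SE_Reg (S36CZ_C'' M q hq hqM A hA c n hn) X)
    (E1F : ∀ y (z : ↥((S34M_chart M q A n hn).Rb₁.map
          (modularFunctionFieldFullC (IsLocalRing.ResidueField A) (M * q)).val))
        (a : ↥(S36CZ_C M q hq hqM A hA n hn).Rb₁) (b : ↥(S36CZ_C M q hq hqM A hA n hn).Rb₂),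
      (z : LaurentSeries (IsLocalRing.ResidueField A)) =
        emb₁ (a : ↥(S36FI_kappa M A)) * emb₂ (b : ↥(S36FI_kappa M A)) ^ (q - 1) →
      S36HV_ev (modularFunctionFieldFullC (IsLocalRing.ResidueField A) (M * q)).val
          (S34M_chart M q A n hn).Rb₁ (nF (π₁ y)) z =
        S36SE_e₁ (S36CZ_C M q hq hqM A hA n hn) X
            (hX.of_le (S36CZ_hle M q hq hqM A hA c n hn)) y a *
          S36SE_e₂ (S36CZ_C M q hq hqM A hA n hn) X
            (hX.of_le (S36CZ_hle M q hq hqM A hA c n hn)) y b ^ (q - 1))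
    (E1V : ∀ y (z : ↥((S34M_chart M q A n hn).Rb₂.map
          (modularFunctionFieldFullC (IsLocalRing.ResidueField A) (M * q)).val))
        (c' : ↥(S36CZ_C M q hq hqM A hA n hn).Rb₃),
      Hc.Ψ (z : LaurentSeries (IsLocalRing.ResidueField A)) =
        emb₃ (c' : ↥(S36FI_kappa M A)) ^ q →
      S36HV_ev (modularFunctionFieldFullC (IsLocalRing.ResidueField A) (M * q)).val
          (S34M_chart M q A n hn).Rb₂ (nV (π₁ y)) z =
        S36SE_e₃ (S36CZ_C M q hq hqM A hA n hn) X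
          (hX.of_le (S36CZ_hle M q hq hqM A hA c n hn)) y c' ^ q) :
    ∀ m ∈ S36L3_W (S36FI_same3 M q hq hqM A hA ζ hζ hζ1)
        (S36CZ_C'' M q hq hqM A hA c n hn) 1, ∀ y,
      S36SE_e₁ (S36CZ_C'' M q hq hqM A hA c n hn) X hX y m.1 =
          S36SE_e₂ (S36CZ_C'' M q hq hqM A hA c n hn) X hX y m.2.1 ∧
        S36SE_e₁ (S36CZ_C'' M q hq hqM A hA c n hn) X hX y m.1 =
          S36SE_e₃ (S36CZ_C'' M q hq hqM A hA c n hn) X hX y m.2.2 := by
  have hU := S36HW_main_U M q hq hqM A hA hgen ζ hζ hζ1 halg hn Hc TF TV hN₁ hO₁ hO₂ hO₃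
    emb₁ emb₂ emb₃ hρ₁ hρ₂ hρ₃ X nF nV hW1n π₁
    (hX.of_le (S36CZ_hle M q hq hqM A hA c n hn)) E1F E1V
  have hr := S36HW_h_red M q hq hqM A hA ζ hζ hζ1 c
  have hr1 : (S36L3_red (S36FI_SFF M q hq hqM A hA) (S36FI_SFV M q hq hqM A hA ζ hζ hζ1)
      (S36FI_SVV M q hq hqM A hA) (S36HW_h M q hq hqM A hA ζ hζ hζ1 c)).1 =
      S36CZ_zb M q hq hqM A hA c := congrArg Prod.fst hr
  have K := S36HW_kill_CZ M q hq hqM A hA ζ hζ hζ1 c n hn (S18_hk M A hq hA hqM).principal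
  refine S36CX_hW1_up (S36FI_same3 M q hq hqM A hA ζ hζ hζ1)
    (S36CZ_hle M q hq hqM A hA c n hn) K
    (S36SE_e₁ _ X (hX.of_le (S36CZ_hle M q hq hqM A hA c n hn)))
    (S36SE_e₂ _ X (hX.of_le (S36CZ_hle M q hq hqM A hA c n hn)))
    (S36SE_e₃ _ X (hX.of_le (S36CZ_hle M q hq hqM A hA c n hn)))
    (S36SE_e₁ _ X hX) (S36SE_e₂ _ X hX) (S36SE_e₃ _ X hX)
    (fun _ _ => rfl) (fun _ _ => rfl) (fun _ _ => rfl) (fun y => ?_) hU
  refine S36HW_hhy (S36CZ_hle M q hq hqM A hA c n hn) X hX K.g₁ ?_ ?_ y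
  · rw [hr1]
    exact S36CZ_zb_ne_zero M q hq hqM A hA c
  · rw [hr1]
    exact S36CU_inv_mem_reg2 _ _

end main

/-! ### HOLE 1 of WireConc -/

section hole

attribute [local instance 10] S36CT_alg

variable (n : ℕ) (hn : 0 < n) (D : S36SS_Data M q hq hqM A hgen n hn)
  (c : (S36FI_SFF M q hq hqM A hA).A)

include hgen in
/-- **HOLE 1 of WireConc**: `hW1` on `C'' = S36CZ_C'' c` at the supersingular points
`X = S36SE_XSS D`, for `Hc = S36CI_Hc`, from `E1F`, `E1V` of the E-block (HOLE 5). -/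
theorem S36HW_hole1
    (hX : S36SE_Reg (S36CZ_C'' M q hq hqM A hA c n hn) (S36SE_XSS M q hq hqM A hA D))
    (π₁ : ↥D.SS → Fin D.s)
    (E1F : ∀ y (z : ↥((S34M_chart M q A n hn).Rb₁.map
          (modularFunctionFieldFullC (IsLocalRing.ResidueField A) (M * q)).val))
        (a : ↥(S36CZ_C M q hq hqM A hA n hn).Rb₁) (b : ↥(S36CZ_C M q hq hqM A hA n hn).Rb₂),
      (z : LaurentSeries (IsLocalRing.ResidueField A)) =
        (S36FI_kappa M A).val (a : ↥(S36FI_kappa M A)) *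
          (S36FI_kappa M A).val (b : ↥(S36FI_kappa M A)) ^ (q - 1) →
      S36HV_ev (modularFunctionFieldFullC (IsLocalRing.ResidueField A) (M * q)).val
          (S34M_chart M q A n hn).Rb₁ (D.e₁ (π₁ y)) z =
        S36SE_e₁ (S36CZ_C M q hq hqM A hA n hn) (S36SE_XSS M q hq hqM A hA D)
            (hX.of_le (S36CZ_hle M q hq hqM A hA c n hn)) y a *
          S36SE_e₂ (S36CZ_C M q hq hqM A hA n hn) (S36SE_XSS M q hq hqM A hA D)
            (hX.of_le (S36CZ_hle M q hq hqM A hA c n hn)) y b ^ (q - 1))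
    (E1V : ∀ y (z : ↥((S34M_chart M q A n hn).Rb₂.map
          (modularFunctionFieldFullC (IsLocalRing.ResidueField A) (M * q)).val))
        (c' : ↥(S36CZ_C M q hq hqM A hA n hn).Rb₃),
      (S36CI_Hc M q hq hqM A hA ζ hζ hζ1 n hn).Ψ
          (z : LaurentSeries (IsLocalRing.ResidueField A)) =
        (S36FI_kappa M A).val (c' : ↥(S36FI_kappa M A)) ^ q →
      S36HV_ev (modularFunctionFieldFullC (IsLocalRing.ResidueField A) (M * q)).val
          (S34M_chart M q A n hn).Rb₂ (D.e₂ (π₁ y)) z =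
        S36SE_e₃ (S36CZ_C M q hq hqM A hA n hn) (S36SE_XSS M q hq hqM A hA D)
          (hX.of_le (S36CZ_hle M q hq hqM A hA c n hn)) y c' ^ q) :
    ∀ m ∈ S36L3_W (S36FI_same3 M q hq hqM A hA ζ hζ hζ1)
        (S36CZ_C'' M q hq hqM A hA c n hn) 1, ∀ y,
      S36SE_e₁ (S36CZ_C'' M q hq hqM A hA c n hn) (S36SE_XSS M q hq hqM A hA D) hX y m.1 =
          S36SE_e₂ (S36CZ_C'' M q hq hqM A hA c n hn) (S36SE_XSS M q hq hqM A hA D) hX y
            m.2.1 ∧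
        S36SE_e₁ (S36CZ_C'' M q hq hqM A hA c n hn) (S36SE_XSS M q hq hqM A hA D) hX y m.1 =
          S36SE_e₃ (S36CZ_C'' M q hq hqM A hA c n hn) (S36SE_XSS M q hq hqM A hA D) hX y
            m.2.2 :=
  S36HW_main M q hq hqM A hA hgen ζ hζ hζ1
    (S36CT_algebraMap_coe (M * q * q) (M * q) (A.inertiaSubgroupIn ℚ)) hn
    (S36CI_Hc M q hq hqM A hA ζ hζ hζ1 n hn)
    (S36C5_tie_F M q hq hqM A hA) (S36C5_tie_V M q hq hqM A hA)
    (S36CI_Hc_N₁ M q hq hqM A hA ζ hζ hζ1 n hn)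
    (S36CI_Hc_FF_O M q hq hqM A hA ζ hζ hζ1 n hn)
    (S36CI_Hc_FV_O M q hq hqM A hA ζ hζ hζ1 n hn)
    (S36CI_Hc_VV_O M q hq hqM A hA ζ hζ hζ1 n hn)
    (S36FI_kappa M A).val (S36FI_kappa M A).val (S36FI_kappa M A).val
    (fun x h h' => S36CI_Hc_FF_ρ M q hq hqM A hA ζ hζ hζ1 n hn x h)
    (fun x h h' => S36CI_Hc_FV_ρ M q hq hqM A hA ζ hζ hζ1 n hn x h)
    (fun x h h' => S36CI_Hc_VV_ρ M q hq hqM A hA ζ hζ hζ1 n hn x h)
    (S36SE_XSS M q hq hqM A hA D) D.e₁ D.e₂ D.hW1 π₁ c hX E1F E1V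

include hgen in
/-- the same on the chart `U = S36CZ_C` (the input `hW1` of `G`). -/
theorem S36HW_hole1_U
    (hC : S36SE_Reg (S36CZ_C M q hq hqM A hA n hn) (S36SE_XSS M q hq hqM A hA D))
    (π₁ : ↥D.SS → Fin D.s)
    (E1F : ∀ y (z : ↥((S34M_chart M q A n hn).Rb₁.map
          (modularFunctionFieldFullC (IsLocalRing.ResidueField A) (M * q)).val))
        (a : ↥(S36CZ_C M q hq hqM A hA n hn).Rb₁) (b : ↥(S36CZ_C M q hq hqM A hA n hn).Rb₂),
      (z : LaurentSeries (IsLocalRing.ResidueField A)) =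
        (S36FI_kappa M A).val (a : ↥(S36FI_kappa M A)) *
          (S36FI_kappa M A).val (b : ↥(S36FI_kappa M A)) ^ (q - 1) →
      S36HV_ev (modularFunctionFieldFullC (IsLocalRing.ResidueField A) (M * q)).val
          (S34M_chart M q A n hn).Rb₁ (D.e₁ (π₁ y)) z =
        S36SE_e₁ (S36CZ_C M q hq hqM A hA n hn) (S36SE_XSS M q hq hqM A hA D) hC y a *
          S36SE_e₂ (S36CZ_C M q hq hqM A hA n hn) (S36SE_XSS M q hq hqM A hA D) hC y b ^
            (q - 1))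
    (E1V : ∀ y (z : ↥((S34M_chart M q A n hn).Rb₂.map
          (modularFunctionFieldFullC (IsLocalRing.ResidueField A) (M * q)).val))
        (c' : ↥(S36CZ_C M q hq hqM A hA n hn).Rb₃),
      (S36CI_Hc M q hq hqM A hA ζ hζ hζ1 n hn).Ψ
          (z : LaurentSeries (IsLocalRing.ResidueField A)) =
        (S36FI_kappa M A).val (c' : ↥(S36FI_kappa M A)) ^ q →
      S36HV_ev (modularFunctionFieldFullC (IsLocalRing.ResidueField A) (M * q)).val
          (S34M_chart M q A n hn).Rb₂ (D.e₂ (π₁ y)) z =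
        S36SE_e₃ (S36CZ_C M q hq hqM A hA n hn) (S36SE_XSS M q hq hqM A hA D) hC y c' ^ q) :
    ∀ m ∈ S36L3_W (S36FI_same3 M q hq hqM A hA ζ hζ hζ1)
        (S36CZ_C M q hq hqM A hA n hn) 1, ∀ y,
      S36SE_e₁ (S36CZ_C M q hq hqM A hA n hn) (S36SE_XSS M q hq hqM A hA D) hC y m.1 =
          S36SE_e₂ (S36CZ_C M q hq hqM A hA n hn) (S36SE_XSS M q hq hqM A hA D) hC y m.2.1 ∧
        S36SE_e₁ (S36CZ_C M q hq hqM A hA n hn) (S36SE_XSS M q hq hqM A hA D) hC y m.1 =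
          S36SE_e₃ (S36CZ_C M q hq hqM A hA n hn) (S36SE_XSS M q hq hqM A hA D) hC y m.2.2 :=
  S36HW_main_U M q hq hqM A hA hgen ζ hζ hζ1
    (S36CT_algebraMap_coe (M * q * q) (M * q) (A.inertiaSubgroupIn ℚ)) hn
    (S36CI_Hc M q hq hqM A hA ζ hζ hζ1 n hn)
    (S36C5_tie_F M q hq hqM A hA) (S36C5_tie_V M q hq hqM A hA)
    (S36CI_Hc_N₁ M q hq hqM A hA ζ hζ hζ1 n hn)
    (S36CI_Hc_FF_O M q hq hqM A hA ζ hζ hζ1 n hn)
    (S36CI_Hc_FV_O M q hq hqM A hA ζ hζ hζ1 n hn)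
    (S36CI_Hc_VV_O M q hq hqM A hA ζ hζ hζ1 n hn)
    (S36FI_kappa M A).val (S36FI_kappa M A).val (S36FI_kappa M A).val
    (fun x h h' => S36CI_Hc_FF_ρ M q hq hqM A hA ζ hζ hζ1 n hn x h)
    (fun x h h' => S36CI_Hc_FV_ρ M q hq hqM A hA ζ hζ hζ1 n hn x h)
    (fun x h h' => S36CI_Hc_VV_ρ M q hq hqM A hA ζ hζ hζ1 n hn x h)
    (S36SE_XSS M q hq hqM A hA D) D.e₁ D.e₂ D.hW1 π₁ hC E1F E1V

end hole

end Fermat.Agent.S36
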