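import Fermat.Agent.S36.Comp3S18
import Fermat.Agent.Lib.LaurentTheta
import Fermat.Prelude.Def_ModularCurve_X0ModL

/-!
# TRACK 10 (S36), inputs of COMP3-INST and of the renormalisation (helper9)

* `S36IP_indep` : three `S18_Val`s with three witnesses `t_i` (reduction `0` at the `i`-th
  valuation, reduction `≠ 0` at the two others) are pairwise incomparable (`S36CV_Indep`);
* `S36IP_indep_table` : the same from the reduction table of `A = j(z)`, `C = j(q²z)`: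
  `red A = (x₁, x₂, x₃^Q)`, `red C = (x₁^Q, x₂, x₃)` with the witnesses
  `C − A^Q`, `C − A`, `A − C^Q`;
* `S36IP_approx_const` : constants are approximated independently at the three valuations
  (`happrox` of `S36TL_renorm` / `S36TL_core`);
* `S36IP_Psi_pow` : the residue field `κ = modularFunctionFieldFullC k M ⊂ k((t))` is stable under
  the inverse of the coefficientwise Frobenius, hence `x(t^q) = g^q` with `g ∈ κ`
  (`Ψ_pow` of `S36CH_Hyp`); `S36IP_Psi_const`, `S36IP_root_q`, `S36IP_root_n`, `S36IP_k_le`.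
-/

set_option autoImplicit false
set_option linter.unusedSectionVars false

namespace Fermat.Agent.S36

open Fermat.Agent.S18 Fermat.Agent.S34 Fermat.Agent.Lib

/-! ### (i) incomparability from witnesses -/

section Indep

variable {L F k Fk₁ Fk₂ Fk₃ : Type*} [Field L] [Field F] [Algebra L F] [Field k]
  [Field Fk₁] [Field Fk₂] [Field Fk₃] [Algebra k Fk₁] [Algebra k Fk₂] [Algebra k Fk₃]

/-- a witness `t ≠ 0`, small at `O`, with `t⁻¹ ∈ O'`, shows `¬ O' ≤ O`. -/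
theorem S36IP_not_le {O O' : ValuationSubring F} {t : F} (ht : S34AP_Small O t) (ht0 : t ≠ 0)
    (hti : t⁻¹ ∈ O') : ¬ O' ≤ O := by
  intro hle
  rcases ht with h | h
  · exact ht0 h
  · exact h (hle hti)

/-- the same in the language of `S18_Val`: `red t = 0`, `red' t ≠ 0`. -/
theorem S36IP_not_le_red {Fk Fk' : Type*} [Field Fk] [Field Fk'] [Algebra k Fk]
    [Algebra k Fk'] (S : S18_Val L F k Fk) (S' : S18_Val L F k Fk') {t : F} (ht : t ∈ S.O)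
    (ht' : t ∈ S'.O) (h : S.red ⟨t, ht⟩ = 0) (h' : S'.red ⟨t, ht'⟩ ≠ 0) : ¬ S'.O ≤ S.O := by
  have ht0 : t ≠ 0 := by
    rintro rfl
    apply h'
    have : (⟨0, ht'⟩ : S'.O) = 0 := rfl
    rw [this, map_zero]
  exact S36IP_not_le ((S36CS_small_iff S t ht).1 h) ht0 (S36L3_inv_mem_of_red_ne S' ht' h')

variable (S₁ : S18_Val L F k Fk₁) (S₂ : S18_Val L F k Fk₂) (S₃ : S18_Val L F k Fk₃)

/-- **`indep` from three witnesses**: `t_i` has reduction `0` at the `i`-th valuation and a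
non-zero reduction at the two others. -/
theorem S36IP_indep (t₁ t₂ t₃ : F) (h₁ : t₁ ∈ S36L3_O3 S₁ S₂ S₃)
    (h₂ : t₂ ∈ S36L3_O3 S₁ S₂ S₃) (h₃ : t₃ ∈ S36L3_O3 S₁ S₂ S₃)
    (r₁₁ : S₁.red ⟨t₁, h₁.1⟩ = 0) (r₁₂ : S₂.red ⟨t₁, h₁.2.1⟩ ≠ 0)
    (r₁₃ : S₃.red ⟨t₁, h₁.2.2⟩ ≠ 0)
    (r₂₁ : S₁.red ⟨t₂, h₂.1⟩ ≠ 0) (r₂₂ : S₂.red ⟨t₂, h₂.2.1⟩ = 0)
    (r₂₃ : S₃.red ⟨t₂, h₂.2.2⟩ ≠ 0)
    (r₃₁ : S₁.red ⟨t₃, h₃.1⟩ ≠ 0) (r₃₂ : S₂.red ⟨t₃, h₃.2.1⟩ ≠ 0)
    (r₃₃ : S₃.red ⟨t₃, h₃.2.2⟩ = 0) :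
    S36CV_Indep S₁.O S₂.O S₃.O where
  h12 := S36IP_not_le_red S₂ S₁ h₂.2.1 h₂.1 r₂₂ r₂₁
  h21 := S36IP_not_le_red S₁ S₂ h₁.1 h₁.2.1 r₁₁ r₁₂
  h13 := S36IP_not_le_red S₃ S₁ h₃.2.2 h₃.1 r₃₃ r₃₁
  h31 := S36IP_not_le_red S₁ S₃ h₁.1 h₁.2.2 r₁₁ r₁₃
  h23 := S36IP_not_le_red S₃ S₂ h₃.2.2 h₃.2.1 r₃₃ r₃₂
  h32 := S36IP_not_le_red S₂ S₃ h₂.2.1 h₂.2.2 r₂₂ r₂₃

/-- **`indep` from the reduction table** of `A = j(z)` and `C = j(q²z)`:
`red A = (x₁, x₂, x₃^Q)`, `red C = (x₁^Q, x₂, x₃)`, where no `x_i` is fixed by `x ↦ x^Q` or by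
`x ↦ x^(Q²)`.  Witnesses: `C − A^Q` (first valuation), `C − A` (second), `A − C^Q` (third). -/
theorem S36IP_indep_table (A C : F) (hA : A ∈ S36L3_O3 S₁ S₂ S₃)
    (hC : C ∈ S36L3_O3 S₁ S₂ S₃) (Q : ℕ) (x₁ : Fk₁) (x₂ : Fk₂) (x₃ : Fk₃)
    (hredA : S36L3_red S₁ S₂ S₃ ⟨A, hA⟩ = (x₁, x₂, x₃ ^ Q))
    (hredC : S36L3_red S₁ S₂ S₃ ⟨C, hC⟩ = (x₁ ^ Q, x₂, x₃))
    (hx₁ : x₁ ^ Q ≠ x₁) (hx₁' : (x₁ ^ Q) ^ Q ≠ x₁)
    (hx₂ : x₂ ^ Q ≠ x₂)
    (hx₃ : x₃ ^ Q ≠ x₃) (hx₃' : (x₃ ^ Q) ^ Q ≠ x₃) :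
    S36CV_Indep S₁.O S₂.O S₃.O := by
  set O3 := S36L3_O3 S₁ S₂ S₃ with hO3
  set a : O3 := ⟨A, hA⟩ with ha
  set c : O3 := ⟨C, hC⟩ with hc
  have e1 : ∀ f : O3, S₁.red ⟨f, f.2.1⟩ = (S36L3_red S₁ S₂ S₃ f).1 := fun f => rfl
  have e2 : ∀ f : O3, S₂.red ⟨f, f.2.2.1⟩ = (S36L3_red S₁ S₂ S₃ f).2.1 := fun f => rfl
  have e3 : ∀ f : O3, S₃.red ⟨f, f.2.2.2⟩ = (S36L3_red S₁ S₂ S₃ f).2.2 := fun f => rfl
  have r1 : S36L3_red S₁ S₂ S₃ (c - a ^ Q) = (0, x₂ - x₂ ^ Q, x₃ - (x₃ ^ Q) ^ Q) := by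
    rw [map_sub, map_pow, hredA, hredC]
    refine Prod.ext ?_ (Prod.ext ?_ ?_)
    · simp
    · simp
    · simp
  have r2 : S36L3_red S₁ S₂ S₃ (c - a) = (x₁ ^ Q - x₁, 0, x₃ - x₃ ^ Q) := by
    rw [map_sub, hredA, hredC]
    refine Prod.ext ?_ (Prod.ext ?_ ?_)
    · simp
    · simp
    · simp
  have r3 : S36L3_red S₁ S₂ S₃ (a - c ^ Q) = (x₁ - (x₁ ^ Q) ^ Q, x₂ - x₂ ^ Q, 0) := by
    rw [map_sub, map_pow, hredA, hredC]
    refine Prod.ext ?_ (Prod.ext ?_ ?_)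
    · simp
    · simp
    · simp
  refine S36IP_indep S₁ S₂ S₃ ((c - a ^ Q : O3) : F) ((c - a : O3) : F) ((a - c ^ Q : O3) : F)
    (c - a ^ Q : O3).2 (c - a : O3).2 (a - c ^ Q : O3).2 ?_ ?_ ?_ ?_ ?_ ?_ ?_ ?_ ?_
  · rw [e1 (c - a ^ Q), r1]
  · rw [e2 (c - a ^ Q), r1]
    exact sub_ne_zero.2 (Ne.symm hx₂)
  · rw [e3 (c - a ^ Q), r1]
    exact sub_ne_zero.2 (Ne.symm hx₃')
  · rw [e1 (c - a), r2]
    exact sub_ne_zero.2 hx₁
  · rw [e2 (c - a), r2]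
  · rw [e3 (c - a), r2]
    exact sub_ne_zero.2 (Ne.symm hx₃)
  · rw [e1 (a - c ^ Q), r3]
    exact sub_ne_zero.2 (Ne.symm hx₁')
  · rw [e2 (a - c ^ Q), r3]
    exact sub_ne_zero.2 (Ne.symm hx₂)
  · rw [e3 (a - c ^ Q), r3]

/-! ### (ii) approximation of constants -/

variable {S₁ S₂ S₃}

/-- an "idempotent" at the first valuation, as an element of `O₃` with its reduction. -/
theorem S36IP_idem (h : S36CV_Indep S₁.O S₂.O S₃.O) :
    ∃ e : S36L3_O3 S₁ S₂ S₃, S36L3_red S₁ S₂ S₃ e = (1, 0, 0) := by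
  obtain ⟨e, he1, he2, he3⟩ := S36CV_idem3 h
  obtain ⟨m1, r1⟩ := S36CS_red_eq_one S₁ he1
  refine ⟨⟨e, m1, he2.mem, he3.mem⟩, ?_⟩
  refine Prod.ext ?_ (Prod.ext ?_ ?_)
  · exact r1
  · exact (S36CS_small_iff S₂ e he2.mem).2 he2
  · exact (S36CS_small_iff S₃ e he3.mem).2 he3

/-- the three "idempotents". -/
theorem S36IP_idem3 (h : S36CV_Indep S₁.O S₂.O S₃.O) :
    ∃ e₁ e₂ e₃ : S36L3_O3 S₁ S₂ S₃, S36L3_red S₁ S₂ S₃ e₁ = (1, 0, 0) ∧
      S36L3_red S₁ S₂ S₃ e₂ = (0, 1, 0) ∧ S36L3_red S₁ S₂ S₃ e₃ = (0, 0, 1) := by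
  obtain ⟨e₁, h₁⟩ := S36IP_idem h
  obtain ⟨e, he2, he3, he1⟩ := S36CV_idem3 h.rot
  obtain ⟨m2, r2⟩ := S36CS_red_eq_one S₂ he2
  obtain ⟨e', he3', he1', he2'⟩ := S36CV_idem3 h.rot.rot
  obtain ⟨m3, r3⟩ := S36CS_red_eq_one S₃ he3'
  refine ⟨e₁, ⟨e, he1.mem, m2, he3.mem⟩, ⟨e', he1'.mem, he2'.mem, m3⟩, h₁, ?_, ?_⟩
  · refine Prod.ext ?_ (Prod.ext ?_ ?_)
    · exact (S36CS_small_iff S₁ e he1.mem).2 he1
    · exact r2
    · exact (S36CS_small_iff S₃ e he3.mem).2 he3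
  · refine Prod.ext ?_ (Prod.ext ?_ ?_)
    · exact (S36CS_small_iff S₁ e' he1'.mem).2 he1'
    · exact (S36CS_small_iff S₂ e' he2'.mem).2 he2'
    · exact r3

/-- **approximation of constants**: three constants of `k` are the reductions of one element
of `O₃`. -/
theorem S36IP_approx_const (hS : S36L3_Same S₁ S₂ S₃) (h : S36CV_Indep S₁.O S₂.O S₃.O)
    (b₁ b₂ b₃ : k) :
    ∃ f : S36L3_O3 S₁ S₂ S₃, S36L3_red S₁ S₂ S₃ f =
      (algebraMap k Fk₁ b₁, algebraMap k Fk₂ b₂, algebraMap k Fk₃ b₃) := by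
  obtain ⟨e₁, e₂, e₃, h₁, h₂, h₃⟩ := S36IP_idem3 h
  obtain ⟨a₁, rfl⟩ := S₁.res_surjective b₁
  obtain ⟨a₂, rfl⟩ := S₁.res_surjective b₂
  obtain ⟨a₃, rfl⟩ := S₁.res_surjective b₃
  refine ⟨⟨algebraMap L F a₁, S36L3_const_mem hS a₁⟩ * e₁ +
    ⟨algebraMap L F a₂, S36L3_const_mem hS a₂⟩ * e₂ +
    ⟨algebraMap L F a₃, S36L3_const_mem hS a₃⟩ * e₃, ?_⟩
  rw [map_add, map_add, map_mul, map_mul, map_mul, S36L3_red_const hS, S36L3_red_const hS,
    S36L3_red_const hS, h₁, h₂, h₃]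
  refine Prod.ext ?_ (Prod.ext ?_ ?_)
  · simp
  · simp
  · simp

/-- **`happrox`** in the exact shape of `S36TL_renorm` / `S36TL_core`. -/
theorem S36IP_happrox (hS : S36L3_Same S₁ S₂ S₃) (h : S36CV_Indep S₁.O S₂.O S₃.O) :
    ∀ b₂ b₃ : k, b₂ ≠ 0 → b₃ ≠ 0 → ∃ f : S36L3_O3 S₁ S₂ S₃,
      S36L3_red S₁ S₂ S₃ f = (1, algebraMap k Fk₂ b₂, algebraMap k Fk₃ b₃) := by
  intro b₂ b₃ _ _
  obtain ⟨f, hf⟩ := S36IP_approx_const hS h 1 b₂ b₃
  refine ⟨f, ?_⟩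
  rw [hf, map_one]

end Indep

/-! ### (iii) the Frobenius substitution on `κ` -/

section Psi

open HahnSeries ModularCurve IntermediateField

variable (k : Type*) [Field k] (q : ℕ) [Fact q.Prime] [CharP k q]

/-- `coeffMap φ` of a constant. -/
theorem S36IP_coeffMap_const (φ : k →+* k) (c : k) :
    coeffMap φ (algebraMap k (LaurentSeries k) c) = algebraMap k (LaurentSeries k) (φ c) := by
  rw [algebraMap_laurentSeries_eq_single, coeffMap_single, algebraMap_laurentSeries_eq_single]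

/-- the function field `κ` is stable under every coefficientwise endomorphism of `k`. -/
theorem S36IP_coeffMap_mem (M : ℕ) (φ : k →+* k) (x : LaurentSeries k)
    (hx : x ∈ modularFunctionFieldFullC k M) :
    coeffMap φ x ∈ modularFunctionFieldFullC k M := by
  -- the preimage of `κ` is an intermediate field containing the generators
  let P : IntermediateField k (LaurentSeries k) :=
    { (modularFunctionFieldFullC k M).toSubfield.comap (coeffMap φ) with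
      algebraMap_mem' := by
        intro c
        show coeffMap φ (algebraMap k (LaurentSeries k) c) ∈ modularFunctionFieldFullC k M
        rw [S36IP_coeffMap_const]
        exact (modularFunctionFieldFullC k M).algebraMap_mem _ }
  have hP : modularFunctionFieldFullC k M ≤ P := by
    rw [modularFunctionFieldFullC, adjoin_le_iff]
    rintro y ⟨d, hne, hdvd, rfl⟩
    have := hne
    show coeffMap φ (qExpand k d (jqModC k)) ∈ modularFunctionFieldFullC k M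
    rw [ModularCurve.coeffMap_qExpand, coeffMap_jqModC]
    exact jqModCd_mem_full k M hdvd
  exact hP hx

/-- `Ψ` of a constant is the constant. -/
theorem S36IP_Psi_const [NeZero q] (c : k) :
    qExpand k q (algebraMap k (LaurentSeries k) c) = algebraMap k (LaurentSeries k) c := by
  rw [algebraMap_laurentSeries_eq_single, qExpand_single, mul_zero]

/-- **`Ψ_pow`**: over a perfect field of characteristic `q`, `x(t^q)` is the `q`-th power of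
an element of `κ`, for every `x ∈ κ`. -/
theorem S36IP_Psi_pow [NeZero q] [PerfectRing k q] (M : ℕ) (x : LaurentSeries k)
    (hx : x ∈ modularFunctionFieldFullC k M) :
    ∃ g ∈ modularFunctionFieldFullC k M, qExpand k q x = g ^ q := by
  refine ⟨coeffMap ((frobeniusEquiv k q).symm : k →+* k) x,
    S36IP_coeffMap_mem k M _ x hx, ?_⟩
  rw [LT_pow_char q]
  congr 1
  ext n
  rw [coeffMap_coeff, coeffMap_coeff]
  exact (frobenius_apply_frobeniusEquiv_symm k q _).symm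

/-- **`root_q`**: a `q`-th root of a constant is a constant. -/
theorem S36IP_root_q [PerfectRing k q] (x : LaurentSeries k) (c : k)
    (h : x ^ q = algebraMap k (LaurentSeries k) c) :
    ∃ d : k, x = algebraMap k (LaurentSeries k) d := by
  have : CharP (LaurentSeries k) q := charP_of_injective_algebraMap
    (algebraMap k (LaurentSeries k)).injective q
  refine ⟨(frobeniusEquiv k q).symm c, ?_⟩
  have h1 : (algebraMap k (LaurentSeries k) ((frobeniusEquiv k q).symm c)) ^ q =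
      algebraMap k (LaurentSeries k) c := by
    rw [← map_pow, ← frobenius_def, frobenius_apply_frobeniusEquiv_symm]
  have h2 : frobenius (LaurentSeries k) q x =
      frobenius (LaurentSeries k) q (algebraMap k (LaurentSeries k)
        ((frobeniusEquiv k q).symm c)) := by
    rw [frobenius_def, frobenius_def, h, h1]
  exact frobenius_inj (LaurentSeries k) q h2

/-- **`root_n`**: an algebraically closed field is `n`-divisible. -/
theorem S36IP_root_n [IsAlgClosed k] (n : ℕ) (hn : 0 < n) (c : k) : ∃ d : k, d ^ n = c :=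
  IsAlgClosed.exists_pow_nat_eq c hn

/-- **`k_le_K`**. -/
theorem S36IP_k_le (M : ℕ) (c : k) :
    algebraMap k (LaurentSeries k) c ∈ (modularFunctionFieldFullC k M).toSubfield :=
  (modularFunctionFieldFullC k M).algebraMap_mem c

end Psi

end Fermat.Agent.S36
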