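import Fermat.Agent.S36.Inj3Lat

/-!
# TRACK 10 (S36), package F9 INJ3 (helper27): `hrad`, `hjO`, `hsO` from the valuations

* `S36I3_hrad_of_disc` : for one valuation datum `S : S18_Val L F k Fk` and a non-unit
  `c ≠ 0` of `A`: if `K·v(f) ∈ ℤ·v(c)` for the elements `f` of `O` (discreteness: `K = 1` for
  `FF`, `VV`, `K = q − 1` for `FV`, `c = q`), then `red f = 0 ⇒ f^K ∈ c·O`;
* `S36I3_hrad_mono` : the exponent may be enlarged;
* `S36I3_hrad3` : `hrad` of `S36L3I_inj_W` for the triple from the three discreteness statements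
  (exponents `K₁, K₂, K₃`);
* `S36I3_inv_sub_mem` : `1/(j − c) ∈ O₃` as soon as the three reductions of `j` are not constants.
-/

set_option autoImplicit false

namespace Fermat.Agent.S36

open Fermat.Agent.S18 Fermat.Agent.S34

section one

variable {L F k Fk : Type*} [Field L] [Field F] [Algebra L F] [Field k] [Field Fk]
  [Algebra k Fk]

/-- **`hrad` for one valuation from discreteness.** -/
theorem S36I3_hrad_of_disc (S : S18_Val L F k Fk) (c : S.A) (hc : ¬ IsUnit c) (hc0 : c ≠ 0)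
    (K : ℕ) (hK : 0 < K)
    (hdisc : ∀ f : S.O, (f : F) ≠ 0 → ∃ m : ℤ, (f : F) ^ K * (algebraMap L F (c : L)) ^ m ∈ S.O ∧
      ((f : F) ^ K * (algebraMap L F (c : L)) ^ m)⁻¹ ∈ S.O) :
    ∀ f : S.O, S.red f = 0 → (algebraMap L F (c : L))⁻¹ * (f : F) ^ K ∈ S.O := by
  intro f hf
  set C : F := algebraMap L F (c : L) with hC
  have hcL : (c : L) ≠ 0 := fun h => hc0 (Subtype.ext h)
  have hC0 : C ≠ 0 := by
    intro h
    exact hcL ((algebraMap L F).injective (h.trans (map_zero _).symm))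
  rcases eq_or_ne (f : F) 0 with h0 | h0
  · rw [h0, zero_pow hK.ne', mul_zero]
    exact S.O.zero_mem
  obtain ⟨m, hm1, hm2⟩ := hdisc f h0
  set v := S.O.valuation with hv
  -- `v f < 1`
  have hfv : v (f : F) < 1 := by
    have hnu : ¬ IsUnit f := (S.red_eq_zero_iff f).1 hf
    have hle : v (f : F) ≤ 1 := (S.O.valuation_le_one_iff _).2 f.2
    rcases lt_or_eq_of_le hle with h | h
    · exact h
    · exfalso
      apply hnu
      exact (S.O.valuation_eq_one_iff f).2 h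
  -- `v c < 1`
  have hcv : v C < 1 := by
    have hcO : C ∈ S.O := (S.algebraMap_mem_iff c).2 c.2
    have hle : v C ≤ 1 := (S.O.valuation_le_one_iff _).2 hcO
    rcases lt_or_eq_of_le hle with h | h
    · exact h
    · exfalso
      have hu : IsUnit (⟨C, hcO⟩ : S.O) := (S.O.valuation_eq_one_iff ⟨C, hcO⟩).2 h
      have hr : S.red ⟨C, hcO⟩ ≠ 0 := (S.red_ne_zero_iff _).2 hu
      rw [S.red_algebraMap c c.2 hcO] at hr
      have hres : S.res c ≠ 0 := fun h0 => hr (by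
        have : S.res ⟨(c : L), c.2⟩ = 0 := h0
        rw [this, map_zero])
      exact hc (by
        by_contra hcu
        exact hres ((S.res_eq_zero_iff c).2 hcu))
  -- the unit `w = f^K c^m`
  have hw : v ((f : F) ^ K * C ^ m) = 1 := by
    apply le_antisymm
    · exact (S.O.valuation_le_one_iff _).2 hm1
    · have h1 : v (((f : F) ^ K * C ^ m)⁻¹) ≤ 1 := (S.O.valuation_le_one_iff _).2 hm2
      rw [map_inv₀] at h1
      have hne : v ((f : F) ^ K * C ^ m) ≠ 0 :=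
        (Valuation.ne_zero_iff _).2 (mul_ne_zero (pow_ne_zero _ h0) (zpow_ne_zero _ hC0))
      exact (inv_le_one₀ (zero_lt_iff.2 hne)).1 h1
  rw [map_mul, map_pow, map_zpow₀] at hw
  have hvC0 : v C ≠ 0 := (Valuation.ne_zero_iff _).2 hC0
  have hvf0 : v (f : F) ≠ 0 := (Valuation.ne_zero_iff _).2 h0
  -- `m ≤ -1`
  have hm : m ≤ -1 := by
    by_contra hcon
    have hm0 : 0 ≤ m := by omega
    have h1 : v C ^ m ≤ 1 := by
      obtain ⟨m', rfl⟩ := Int.eq_ofNat_of_zero_le hm0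
      rw [zpow_natCast]
      exact pow_le_one₀ zero_le hcv.le
    have h2 : v (f : F) ^ K < 1 := pow_lt_one₀ zero_le hfv hK.ne'
    have h3 : v (f : F) ^ K * v C ^ m < 1 := by
      calc v (f : F) ^ K * v C ^ m ≤ v (f : F) ^ K * 1 := mul_le_mul' le_rfl h1
        _ = v (f : F) ^ K := mul_one _
        _ < 1 := h2
    rw [hw] at h3
    exact lt_irrefl _ h3
  -- `c⁻¹ f^K = w · c^(-m-1)`
  obtain ⟨t, ht⟩ : ∃ t : ℕ, -m - 1 = (t : ℤ) := Int.eq_ofNat_of_zero_le (by omega)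
  have hcO : C ∈ S.O := (S.algebraMap_mem_iff c).2 c.2
  have heq : C⁻¹ * (f : F) ^ K = ((f : F) ^ K * C ^ m) * C ^ t := by
    have hm' : m = -(t : ℤ) - 1 := by omega
    rw [hm', zpow_sub₀ hC0, zpow_neg, zpow_natCast, zpow_one]
    field_simp
  rw [heq]
  exact mul_mem hm1 (pow_mem hcO t)

/-- the exponent of `hrad` may be enlarged. -/
theorem S36I3_hrad_mono (S : S18_Val L F k Fk) (c : S.A) (K K' : ℕ) (hKK' : K ≤ K')
    (h : ∀ f : S.O, S.red f = 0 → (algebraMap L F (c : L))⁻¹ * (f : F) ^ K ∈ S.O) :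
    ∀ f : S.O, S.red f = 0 → (algebraMap L F (c : L))⁻¹ * (f : F) ^ K' ∈ S.O := by
  intro f hf
  obtain ⟨t, rfl⟩ := Nat.exists_eq_add_of_le hKK'
  rw [pow_add, ← mul_assoc]
  exact mul_mem (h f hf) (pow_mem f.2 t)

/-- `1/(j − c) ∈ O` if the reduction of `j` is not a constant. -/
theorem S36I3_inv_sub_mem_one (S : S18_Val L F k Fk) (j : F) (hj : j ∈ S.O)
    (hjk : ∀ a : k, S.red ⟨j, hj⟩ ≠ algebraMap k Fk a) (c : S.A) :
    (j - algebraMap L F (c : L))⁻¹ ∈ S.O := by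
  have hcO : algebraMap L F (c : L) ∈ S.O := (S.algebraMap_mem_iff c).2 c.2
  have hmem : j - algebraMap L F (c : L) ∈ S.O := sub_mem hj hcO
  have hred : S.red ⟨j - algebraMap L F (c : L), hmem⟩ ≠ 0 := by
    have e : (⟨j - algebraMap L F (c : L), hmem⟩ : S.O) = ⟨j, hj⟩ - ⟨_, hcO⟩ := rfl
    rw [e, map_sub, S.red_algebraMap c c.2 hcO]
    exact sub_ne_zero.2 (hjk _)
  have hu : IsUnit (⟨j - algebraMap L F (c : L), hmem⟩ : S.O) := (S.red_ne_zero_iff _).1 hred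
  obtain ⟨w, hw⟩ := hu
  have e : (((w⁻¹ : S.Oˣ) : S.O) : F) * (j - algebraMap L F (c : L)) = 1 := by
    have := congrArg (fun z : S.O => (z : F)) w.inv_mul
    simp only [hw] at this
    simpa using this
  have : (j - algebraMap L F (c : L))⁻¹ = (((w⁻¹ : S.Oˣ) : S.O) : F) :=
    (eq_inv_of_mul_eq_one_left e).symm
  rw [this]
  exact ((w⁻¹ : S.Oˣ) : S.O).2

end one

section three

variable {L F k Fk₁ Fk₂ Fk₃ : Type*} [Field L] [Field F] [Algebra L F] [Field k]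
  [Field Fk₁] [Field Fk₂] [Field Fk₃] [Algebra k Fk₁] [Algebra k Fk₂] [Algebra k Fk₃]
  {S₁ : S18_Val L F k Fk₁} {S₂ : S18_Val L F k Fk₂} {S₃ : S18_Val L F k Fk₃}

/-- **`hrad` for the triple** from the discreteness of the three valuations
(`K₁ = K₃ = 1`, `K₂ = q − 1` at level `q²`). -/
theorem S36I3_hrad3 (hS : S36L3_Same S₁ S₂ S₃) (c : S₁.A) (hc : ¬ IsUnit c) (hc0 : c ≠ 0)
    (K₁ K₂ K₃ : ℕ) (hK₁ : 0 < K₁) (hK₂ : 0 < K₂) (hK₃ : 0 < K₃)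
    (hd₁ : ∀ f : S₁.O, (f : F) ≠ 0 → ∃ m : ℤ,
      (f : F) ^ K₁ * (algebraMap L F (c : L)) ^ m ∈ S₁.O ∧
      ((f : F) ^ K₁ * (algebraMap L F (c : L)) ^ m)⁻¹ ∈ S₁.O)
    (hd₂ : ∀ f : S₂.O, (f : F) ≠ 0 → ∃ m : ℤ,
      (f : F) ^ K₂ * (algebraMap L F (c : L)) ^ m ∈ S₂.O ∧
      ((f : F) ^ K₂ * (algebraMap L F (c : L)) ^ m)⁻¹ ∈ S₂.O)
    (hd₃ : ∀ f : S₃.O, (f : F) ≠ 0 → ∃ m : ℤ,
      (f : F) ^ K₃ * (algebraMap L F (c : L)) ^ m ∈ S₃.O ∧
      ((f : F) ^ K₃ * (algebraMap L F (c : L)) ^ m)⁻¹ ∈ S₃.O) :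
    ∃ K : ℕ, ∀ f : (S36L3_toLat hS).O, (S36L3_toLat hS).red f = 0 →
      ∃ g : (S36L3_toLat hS).O, f ^ K = (S36L3_toLat hS).const c * g := by
  have hc₂ : ¬ IsUnit (⟨(c : L), hS.same₂.A_eq ▸ c.2⟩ : S₂.A) := by
    intro hu
    apply hc
    rw [← not_not (a := IsUnit c), ← S₁.res_eq_zero_iff]
    have h2 : S₂.res ⟨(c : L), hS.same₂.A_eq ▸ c.2⟩ ≠ 0 := by
      rw [Ne, S₂.res_eq_zero_iff, not_not]
      exact hu
    rwa [← hS.same₂.res_eq (c : L) c.2 (hS.same₂.A_eq ▸ c.2)] at h2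
  have hc₃ : ¬ IsUnit (⟨(c : L), hS.same₃.A_eq ▸ c.2⟩ : S₃.A) := by
    intro hu
    apply hc
    rw [← not_not (a := IsUnit c), ← S₁.res_eq_zero_iff]
    have h2 : S₃.res ⟨(c : L), hS.same₃.A_eq ▸ c.2⟩ ≠ 0 := by
      rw [Ne, S₃.res_eq_zero_iff, not_not]
      exact hu
    rwa [← hS.same₃.res_eq (c : L) c.2 (hS.same₃.A_eq ▸ c.2)] at h2
  have hcL : (c : L) ≠ 0 := fun h => hc0 (Subtype.ext h)
  refine S36L3I_hrad hS c (K₁ + K₂ + K₃) ?_ ?_ ?_ hc0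
  · exact S36I3_hrad_mono S₁ c K₁ _ (by omega) (S36I3_hrad_of_disc S₁ c hc hc0 K₁ hK₁ hd₁)
  · exact S36I3_hrad_mono S₂ ⟨(c : L), hS.same₂.A_eq ▸ c.2⟩ K₂ _ (by omega)
      (S36I3_hrad_of_disc S₂ ⟨(c : L), hS.same₂.A_eq ▸ c.2⟩ hc₂
        (fun h => hcL (congrArg Subtype.val h)) K₂ hK₂ hd₂)
  · exact S36I3_hrad_mono S₃ ⟨(c : L), hS.same₃.A_eq ▸ c.2⟩ K₃ _ (by omega)
      (S36I3_hrad_of_disc S₃ ⟨(c : L), hS.same₃.A_eq ▸ c.2⟩ hc₃
        (fun h => hcL (congrArg Subtype.val h)) K₃ hK₃ hd₃)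

/-- **`hsO`**: `1/(j − c) ∈ O₃` as soon as the three reductions of `j` are not constants
(e.g. transcendental over `k`). -/
theorem S36I3_inv_sub_mem (hS : S36L3_Same S₁ S₂ S₃) (j : F) (hj : j ∈ S36L3_O3 S₁ S₂ S₃)
    (h₁ : ∀ a : k, S₁.red ⟨j, hj.1⟩ ≠ algebraMap k Fk₁ a)
    (h₂ : ∀ a : k, S₂.red ⟨j, hj.2.1⟩ ≠ algebraMap k Fk₂ a)
    (h₃ : ∀ a : k, S₃.red ⟨j, hj.2.2⟩ ≠ algebraMap k Fk₃ a) (c : S₁.A) :
    (j - algebraMap S₁.A F c)⁻¹ ∈ S36L3_O3 S₁ S₂ S₃ := by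
  have e : algebraMap S₁.A F c = algebraMap L F (c : L) := rfl
  rw [e]
  exact ⟨S36I3_inv_sub_mem_one S₁ j hj.1 h₁ c,
    S36I3_inv_sub_mem_one S₂ j hj.2.1 h₂ ⟨(c : L), hS.same₂.A_eq ▸ c.2⟩,
    S36I3_inv_sub_mem_one S₃ j hj.2.2 h₃ ⟨(c : L), hS.same₃.A_eq ▸ c.2⟩⟩

end three

end Fermat.Agent.S36
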