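import Fermat.Agent.S36.Inj3Inst
import Fermat.Agent.S36.Inj3Rad
import Fermat.Agent.S36.Fin3Closed
import Fermat.Agent.S36.ChartsB
import Fermat.Agent.S36.BaseLIrr
import Fermat.Agent.S36.Triv3Lat

/-!
# TRACK 10 (S36), package INJ3-B (helper28): `inj` of `S36WF_body` on the charts of the
coordinate `B = j(t^q)` (ruling D9) — prefix `S36IB_`

Level `N₂ = M q²`, `A ⊂ ℚ̄` over `q`, `I = A.inertiaSubgroupIn ℚ`, `S = S36FI_act N₂ I`,
`L = S.fixK`, `F_L = S.fixF`, `O_L = S36FL_AL S A`, the three valuation data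
`S36FI_SFF`, `S36FI_SFV ζ`, `S36FI_SVV` (helper1), the coordinate `B = S36CO_BL M q I` and the
charts `S36CZ_C`, `S36CZ_C' c`, `S36CZ_C'' c` (helper23).

* `S36IB_dv_transfer` : the Gauss-unit form of discreteness (helper1's `S36FI_dv_*`) in the
  shape of `S36I3_hrad3`;
* `S36IB_qA`, `S36IB_qA_irreducible`, `S36IB_isDVR` : the uniformiser `q` of `O_L`
  (`S36BL_irreducible_q`, helper20; `S36FG_isDVR_OL`, helper17);
* `S36IB_hrad` : `hrad` of INJ3 for `c = q` (`K = 1 + (q − 1) + 1`);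
* `S36IB_hint` : a function of `O₃` regular on `U = {B ≠ ∞}` is integral over `O_L[B]`
  (`S36FG_hint`, helper17);
* **`S36IB_inj_elt`** : INJ3 on the charts `S36CZ_C`, `S36CZ_C' c` (element form);
* **`S36IB_inj`** : `inj` of `S36WF_body` for `C = S36CZ_C`, `C' = S36CZ_C' c`
  (`n` prime to `q`, any `c ∈ O_L`);
* `S36IB_inj_gen` : the same for any charts `C`, `C'` whose rings `B` are those of `U`, `U'`.
-/

set_option autoImplicit false
set_option linter.unusedSectionVars false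
set_option linter.unusedVariables false
set_option linter.style.haveILetI false
set_option linter.style.longLine false
set_option synthInstance.maxHeartbeats 400000
set_option maxHeartbeats 1000000

open AlgebraicCurve ModularCurve IntermediateField HahnSeries

noncomputable section

namespace Fermat.Agent.S36

open Fermat.Agent.Lib Fermat.Agent.S18 Fermat.Agent.S24 Fermat.Agent.S34 Fermat.Agent.GalRep

local notation "Ω" => AlgebraicClosure ℚ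

/-! ### transfer of the discreteness statements to the fixed field -/

section transfer

/-- the Gauss-unit form of discreteness (helper1's `S36FI_dv_*`) in the shape of
`S36I3_hrad3`. -/
theorem S36IB_dv_transfer (N : ℕ) (H : Subgroup (Ω ≃ₐ[ℚ] Ω)) (q K : ℕ)
    (c : ↥(S36FI_act N H).fixK) (hc : ((c : ↥(S36FI_act N H).fixK) : Ω) = (q : Ω))
    (G : Subring ↥(modularFunctionFieldBar N))
    (O : ValuationSubring ↥(S36FI_act N H).fixF)
    (hO : ∀ f : ↥(S36FI_act N H).fixF, f ∈ O ↔ (f : ↥(modularFunctionFieldBar N)) ∈ G)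
    (h : ∀ f : ↥(modularFunctionFieldBar N), f ∈ (S36FI_act N H).fixF → f ≠ 0 →
      ∃ k : ℤ, f ^ K * algebraMap Ω ↥(modularFunctionFieldBar N) ((q : Ω) ^ k) ∈ G ∧
        (f ^ K * algebraMap Ω ↥(modularFunctionFieldBar N) ((q : Ω) ^ k))⁻¹ ∈ G)
    (f : O) (hf0 : ((f : ↥(S36FI_act N H).fixF)) ≠ 0) :
    ∃ m : ℤ, (f : ↥(S36FI_act N H).fixF) ^ K *
        (algebraMap ↥(S36FI_act N H).fixK ↥(S36FI_act N H).fixF c) ^ m ∈ O ∧
      ((f : ↥(S36FI_act N H).fixF) ^ K *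
        (algebraMap ↥(S36FI_act N H).fixK ↥(S36FI_act N H).fixF c) ^ m)⁻¹ ∈ O := by
  obtain ⟨m, h1, h2⟩ := h ((f : ↥(S36FI_act N H).fixF) : ↥(modularFunctionFieldBar N))
    (f : ↥(S36FI_act N H).fixF).2 (fun h0 => hf0 (Subtype.ext h0))
  have hcoe : ((algebraMap ↥(S36FI_act N H).fixK ↥(S36FI_act N H).fixF c :
      ↥(S36FI_act N H).fixF) : ↥(modularFunctionFieldBar N)) =
      algebraMap Ω ↥(modularFunctionFieldBar N) (q : Ω) := by
    rw [← hc]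
    rfl
  refine ⟨m, ?_, ?_⟩
  · rw [hO]
    show ((f : ↥(S36FI_act N H).fixF) : ↥(modularFunctionFieldBar N)) ^ K *
      ((algebraMap ↥(S36FI_act N H).fixK ↥(S36FI_act N H).fixF c :
        ↥(S36FI_act N H).fixF) : ↥(modularFunctionFieldBar N)) ^ m ∈ G
    rw [hcoe, ← map_zpow₀]
    exact h1
  · rw [hO]
    show (((f : ↥(S36FI_act N H).fixF) : ↥(modularFunctionFieldBar N)) ^ K *
      ((algebraMap ↥(S36FI_act N H).fixK ↥(S36FI_act N H).fixF c :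
        ↥(S36FI_act N H).fixF) : ↥(modularFunctionFieldBar N)) ^ m)⁻¹ ∈ G
    rw [hcoe, ← map_zpow₀]
    exact h2

end transfer

/-! ### the concrete inputs of INJ3 for `x = B` -/

section conc

variable (M q : ℕ) [NeZero M] [NeZero q] (hq : q.Prime) (hqM : ¬ q ∣ M)
  (A : ValuationSubring Ω) (hA : A.LiesOverPrime q)
  (ζ : Ωˣ) (hζ : ζ ^ q = 1) (hζ1 : ζ ≠ 1)

/-- the elements of `L` are fixed by the inertia group. -/
theorem S36IB_hL (c : Ω) (hc : c ∈ (S36FI_act (M * q * q) (A.inertiaSubgroupIn ℚ)).fixK)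
    (τ : Ω ≃ₐ[ℚ] Ω) (hτ : τ ∈ A.inertiaSubgroupIn ℚ) : τ c = c :=
  (S36FI_mem_fixK (M * q * q) (A.inertiaSubgroupIn ℚ)).1 hc τ hτ

/-- **the uniformiser `q` of `O_L`**, as an element of the base ring of `S36FI_SFF`. -/
def S36IB_qA : (S36FI_SFF M q hq hqM A hA).A :=
  haveI : Fact q.Prime := ⟨hq⟩
  ⟨((q : ℕ) : ↥(S36FI_act (M * q * q) (A.inertiaSubgroupIn ℚ)).fixK),
    S36BL_pi_mem A (S36FI_act (M * q * q) (A.inertiaSubgroupIn ℚ)).fixK hA⟩

theorem S36IB_qA_coe :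
    (((S36IB_qA M q hq hqM A hA : (S36FI_SFF M q hq hqM A hA).A) :
      ↥(S36FI_act (M * q * q) (A.inertiaSubgroupIn ℚ)).fixK) : Ω) = (q : Ω) := rfl

/-- `q` is irreducible in `O_L`. -/
theorem S36IB_qA_irreducible : Irreducible (S36IB_qA M q hq hqM A hA) :=
  haveI : Fact q.Prime := ⟨hq⟩
  S36BL_irreducible_q A (S36FI_act (M * q * q) (A.inertiaSubgroupIn ℚ)).fixK hA
    (S36IB_hL M q A)

/-- `O_L` is a discrete valuation ring (as the base ring of `S36FI_SFF`). -/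
theorem S36IB_isDVR : IsDiscreteValuationRing (S36FI_SFF M q hq hqM A hA).A :=
  S36FG_isDVR_OL M q hq A hA

/-- **`hrad`** of INJ3 for the uniformiser `q`. -/
theorem S36IB_hrad :
    ∃ K : ℕ, ∀ f : (S36L3_toLat (S36FI_same3 M q hq hqM A hA ζ hζ hζ1)).O,
      (S36L3_toLat (S36FI_same3 M q hq hqM A hA ζ hζ hζ1)).red f = 0 →
      ∃ g : (S36L3_toLat (S36FI_same3 M q hq hqM A hA ζ hζ hζ1)).O,
        f ^ K = (S36L3_toLat (S36FI_same3 M q hq hqM A hA ζ hζ hζ1)).const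
          (S36IB_qA M q hq hqM A hA) * g := by
  refine S36I3_hrad3 (S36FI_same3 M q hq hqM A hA ζ hζ hζ1) (S36IB_qA M q hq hqM A hA)
    (S36IB_qA_irreducible M q hq hqM A hA).not_isUnit
    (S36IB_qA_irreducible M q hq hqM A hA).ne_zero 1 (q - 1) 1 one_pos
    (Nat.sub_pos_of_lt hq.one_lt) one_pos ?_ ?_ ?_
  · intro f hf0
    exact S36IB_dv_transfer (M * q * q) (A.inertiaSubgroupIn ℚ) q 1 _
      (S36IB_qA_coe M q hq hqM A hA) (S36V_G A (S36V_emFF M q)) _ (fun _ => Iff.rfl)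
      (fun g hg hg0 => by
        simpa only [pow_one] using S36FI_dv_FF M q hq A hA g hg hg0) f hf0
  · intro f hf0
    exact S36IB_dv_transfer (M * q * q) (A.inertiaSubgroupIn ℚ) q (q - 1) _
      (S36IB_qA_coe M q hq hqM A hA) (S36V_G A (S36V_emFV M q hq hqM ζ hζ hζ1)) _
      (fun _ => Iff.rfl)
      (fun g hg hg0 => S36FI_dv_FV M q hq hqM A ζ hζ hζ1 hA g hg hg0) f hf0
  · intro f hf0
    exact S36IB_dv_transfer (M * q * q) (A.inertiaSubgroupIn ℚ) q 1 _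
      (S36IB_qA_coe M q hq hqM A hA) (S36V_G A (S36V_emVV M q hq hqM)) _ (fun _ => Iff.rfl)
      (fun g hg hg0 => by
        simpa only [pow_one] using S36FI_dv_VV M q hq hqM A hA g hg hg0) f hf0

/-- **`hint`**: a function of `O₃` regular on `U = {B ≠ ∞}` is integral over `O_L[B]`. -/
theorem S36IB_hint (g : ↥(S36FI_act (M * q * q) (A.inertiaSubgroupIn ℚ)).fixF)
    (hg : g ∈ S36L3_O3 (S36FI_SFF M q hq hqM A hA) (S36FI_SFV M q hq hqM A hA ζ hζ hζ1)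
      (S36FI_SVV M q hq hqM A hA))
    (hB : g ∈ S36I3_reg (S36FI_act (M * q * q) (A.inertiaSubgroupIn ℚ))
      (S34IX_TU (K := Ω) ((S36CO_BL M q (A.inertiaSubgroupIn ℚ) :
        ↥(S36FI_act (M * q * q) (A.inertiaSubgroupIn ℚ)).fixF) :
          ↥(modularFunctionFieldBar (M * q * q))))) :
    IsIntegral (Algebra.adjoin (S36FI_SFF M q hq hqM A hA).A
      {S36CO_BL M q (A.inertiaSubgroupIn ℚ)}) g :=
  S36FG_hint M q hq hqM A hA ζ hζ hζ1 (S36IT_dvr3_inst M q hq hqM A hA ζ hζ hζ1) g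
    ((S36IT_fam3_mem_Λ_G M q hq hqM A hA ζ hζ hζ1 _ _ g).2
      ⟨hg.1, hg.2.1, hg.2.2, fun Q hQ => hB Q hQ⟩)

/-! ### INJ3 on the charts of `B` -/

/-- **INJ3-B, general charts**: a normalised Kummer generator `u ∈ F_L` with `1 ∈ W^u` on two
charts whose rings are those of `U = {B ≠ ∞}` and `U' = {B ≠ c}` is trivial. -/
theorem S36IB_inj_gen (n : ℕ) (hnk : (n : IsLocalRing.ResidueField A) ≠ 0)
    (C C' C'' : S36L3_Chart ↥(S36FI_act (M * q * q) (A.inertiaSubgroupIn ℚ)).fixK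
      ↥(S36FI_act (M * q * q) (A.inertiaSubgroupIn ℚ)).fixF (IsLocalRing.ResidueField A)
      ↥(S36FI_kappa M A) ↥(S36FI_kappa M A) ↥(S36FI_kappa M A) n)
    (c : (S36FI_SFF M q hq hqM A hA).A)
    (hC : C.B = S36I3_reg (S36FI_act (M * q * q) (A.inertiaSubgroupIn ℚ))
      (S34IX_TU (K := Ω) ((S36CO_BL M q (A.inertiaSubgroupIn ℚ) :
        ↥(S36FI_act (M * q * q) (A.inertiaSubgroupIn ℚ)).fixF) :
          ↥(modularFunctionFieldBar (M * q * q)))))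
    (hC' : C'.B = S36I3_reg (S36FI_act (M * q * q) (A.inertiaSubgroupIn ℚ))
      (S34IX_TU' ((S36CO_BL M q (A.inertiaSubgroupIn ℚ) :
        ↥(S36FI_act (M * q * q) (A.inertiaSubgroupIn ℚ)).fixF) :
          ↥(modularFunctionFieldBar (M * q * q)))
        (((c : ↥(S36FI_act (M * q * q) (A.inertiaSubgroupIn ℚ)).fixK)) : Ω)))
    (hC'' : C''.B = S36I3_reg (S36FI_act (M * q * q) (A.inertiaSubgroupIn ℚ))
      (S34IX_TU'' ((S36CO_BL M q (A.inertiaSubgroupIn ℚ) :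
        ↥(S36FI_act (M * q * q) (A.inertiaSubgroupIn ℚ)).fixF) :
          ↥(modularFunctionFieldBar (M * q * q)))
        (((c : ↥(S36FI_act (M * q * q) (A.inertiaSubgroupIn ℚ)).fixK)) : Ω)))
    (u : ↥(S36FI_act (M * q * q) (A.inertiaSubgroupIn ℚ)).fixF)
    (hu : u ∈ S36L3_Norm (S36FI_SFF M q hq hqM A hA) (S36FI_SFV M q hq hqM A hA ζ hζ hζ1)
      (S36FI_SVV M q hq hqM A hA))
    (h1 : (1 : ↥C.Rb₁ × ↥C.Rb₂ × ↥C.Rb₃) ∈
      S36L3_W (S36FI_same3 M q hq hqM A hA ζ hζ hζ1) C u)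
    (h1' : (1 : ↥C'.Rb₁ × ↥C'.Rb₂ × ↥C'.Rb₃) ∈
      S36L3_W (S36FI_same3 M q hq hqM A hA ζ hζ hζ1) C' u) :
    ∃ (a : ↥(S36FI_act (M * q * q) (A.inertiaSubgroupIn ℚ)).fixK)
      (g : ↥(S36FI_act (M * q * q) (A.inertiaSubgroupIn ℚ)).fixF), a ≠ 0 ∧ g ≠ 0 ∧
      u = algebraMap ↥(S36FI_act (M * q * q) (A.inertiaSubgroupIn ℚ)).fixK
        ↥(S36FI_act (M * q * q) (A.inertiaSubgroupIn ℚ)).fixF a * g ^ n := by
  haveI := S36IB_isDVR M q hq hqM A hA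
  haveI := S36I3_charZero (M * q * q) (A.inertiaSubgroupIn ℚ)
  haveI := S36CZ_finite M q A
  exact S36I3_inj_fix' (S36FI_act (M * q * q) (A.inertiaSubgroupIn ℚ)) (S36I3_hRR (M * q * q))
    (S36FI_same3 M q hq hqM A hA ζ hζ hζ1) (S36IB_qA M q hq hqM A hA)
    (S36IB_qA_irreducible M q hq hqM A hA) (S36IB_hrad M q hq hqM A hA ζ hζ hζ1) n hnk
    C C' C'' (S36CO_BL M q (A.inertiaSubgroupIn ℚ)) c hC hC' hC'' (S36CZ_hj M q A)
    (S36CZ_hjO M q hq hqM A hA ζ hζ hζ1) (S36CZ_hsO M q hq hqM A hA ζ hζ hζ1 c) u hu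
    (fun g hg hB => S36IB_hint M q hq hqM A hA ζ hζ hζ1 g hg (hC ▸ hB)) h1 h1'

/-- **INJ3-B on the concrete charts** `S36CZ_C`, `S36CZ_C' c` (element form). -/
theorem S36IB_inj_elt (n : ℕ) (hn : 0 < n) (hnk : (n : IsLocalRing.ResidueField A) ≠ 0)
    (c : (S36FI_SFF M q hq hqM A hA).A)
    (u : ↥(S36FI_act (M * q * q) (A.inertiaSubgroupIn ℚ)).fixF)
    (hu : u ∈ S36L3_Norm (S36FI_SFF M q hq hqM A hA) (S36FI_SFV M q hq hqM A hA ζ hζ hζ1)
      (S36FI_SVV M q hq hqM A hA))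
    (h1 : (1 : ↥(S36CZ_C M q hq hqM A hA n hn).Rb₁ × ↥(S36CZ_C M q hq hqM A hA n hn).Rb₂ ×
        ↥(S36CZ_C M q hq hqM A hA n hn).Rb₃) ∈
      S36L3_W (S36FI_same3 M q hq hqM A hA ζ hζ hζ1) (S36CZ_C M q hq hqM A hA n hn) u)
    (h1' : (1 : ↥(S36CZ_C' M q hq hqM A hA c n hn).Rb₁ ×
        ↥(S36CZ_C' M q hq hqM A hA c n hn).Rb₂ × ↥(S36CZ_C' M q hq hqM A hA c n hn).Rb₃) ∈
      S36L3_W (S36FI_same3 M q hq hqM A hA ζ hζ hζ1) (S36CZ_C' M q hq hqM A hA c n hn) u) :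
    ∃ (a : ↥(S36FI_act (M * q * q) (A.inertiaSubgroupIn ℚ)).fixK)
      (g : ↥(S36FI_act (M * q * q) (A.inertiaSubgroupIn ℚ)).fixF), a ≠ 0 ∧ g ≠ 0 ∧
      u = algebraMap ↥(S36FI_act (M * q * q) (A.inertiaSubgroupIn ℚ)).fixK
        ↥(S36FI_act (M * q * q) (A.inertiaSubgroupIn ℚ)).fixF a * g ^ n :=
  S36IB_inj_gen M q hq hqM A hA ζ hζ hζ1 n hnk (S36CZ_C M q hq hqM A hA n hn)
    (S36CZ_C' M q hq hqM A hA c n hn) (S36CZ_C'' M q hq hqM A hA c n hn) c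
    (S36CZ_hC M q hq hqM A hA n hn) (S36CZ_hC' M q hq hqM A hA c n hn)
    (S36CZ_hC'' M q hq hqM A hA c n hn) u hu h1 h1'

include hq hA in
/-- `n` prime to `q` is invertible in the residue field. -/
theorem S36IB_hnk {n : ℕ} (hnq : Nat.Coprime n q) : (n : IsLocalRing.ResidueField A) ≠ 0 := by
  haveI : CharP (IsLocalRing.ResidueField A) q := S18_residue_charP A q hq hA
  intro h0
  rw [CharP.cast_eq_zero_iff (IsLocalRing.ResidueField A) q] at h0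
  exact (Nat.Prime.coprime_iff_not_dvd hq).1 hnq.symm h0

/-- **INJ3-B = `inj` of `S36WF_body`** for `S₁ S₂ S₃ = S36FI_SFF, S36FI_SFV ζ, S36FI_SVV`,
`C = S36CZ_C`, `C' = S36CZ_C' c` (`n` prime to `q`, any `c ∈ O_L`). -/
theorem S36IB_inj (n : ℕ) (hn : 0 < n) (hnq : Nat.Coprime n q)
    (c : (S36FI_SFF M q hq hqM A hA).A)
    (v : (↥(S36FI_act (M * q * q) (A.inertiaSubgroupIn ℚ)).fixF)ˣ)
    (hv : v ∈ S36L3_NormGrp (S36FI_SFF M q hq hqM A hA) (S36FI_SFV M q hq hqM A hA ζ hζ hζ1)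
      (S36FI_SVV M q hq hqM A hA))
    (h1 : (1 : ↥(S36CZ_C M q hq hqM A hA n hn).Rb₁ × ↥(S36CZ_C M q hq hqM A hA n hn).Rb₂ ×
        ↥(S36CZ_C M q hq hqM A hA n hn).Rb₃) ∈
      S36L3_W (S36FI_same3 M q hq hqM A hA ζ hζ hζ1) (S36CZ_C M q hq hqM A hA n hn)
        ((v : (↥(S36FI_act (M * q * q) (A.inertiaSubgroupIn ℚ)).fixF)ˣ) :
          ↥(S36FI_act (M * q * q) (A.inertiaSubgroupIn ℚ)).fixF))
    (h1' : (1 : ↥(S36CZ_C' M q hq hqM A hA c n hn).Rb₁ ×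
        ↥(S36CZ_C' M q hq hqM A hA c n hn).Rb₂ × ↥(S36CZ_C' M q hq hqM A hA c n hn).Rb₃) ∈
      S36L3_W (S36FI_same3 M q hq hqM A hA ζ hζ hζ1) (S36CZ_C' M q hq hqM A hA c n hn)
        ((v : (↥(S36FI_act (M * q * q) (A.inertiaSubgroupIn ℚ)).fixF)ˣ) :
          ↥(S36FI_act (M * q * q) (A.inertiaSubgroupIn ℚ)).fixF)) :
    v ∈ S36TL_Triv ↥(S36FI_act (M * q * q) (A.inertiaSubgroupIn ℚ)).fixK
      (F := ↥(S36FI_act (M * q * q) (A.inertiaSubgroupIn ℚ)).fixF) n :=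
  S36IB_inj_elt M q hq hqM A hA ζ hζ hζ1 n hn (S36IB_hnk q hq A hA hnq) c _ hv h1 h1'

end conc

end Fermat.Agent.S36
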