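import Fermat.Agent.S36.Triv3Lat
import Fermat.Agent.S36.Inj3Inst
import Fermat.Agent.S36.Inj3Rad

/-!
# TRACK 10 (S36), C3.7 (helper27): the local core with INJ3 / TORS3 / HGLOB plugged in

`S36TL_core` (helper11: normalised `u` + norm relations at the triple points ⇒
`u ^ (q² − 1)` trivial) asks for `hrank`, `hconst`, `htors` (for every `v ∈ Kp`).  On the fixed
field of a semilinear action and for the standard charts of a coordinate `j` these are theorems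
(`S36I3_hrank`, `S36I3_hconst_fix`, `S36I3_htors_fix`):

* `S36I3_core_fix`  : `S36TL_core` over `F_L = F^H`, inputs `hrank`, `hconst`, `htors` removed;
* `S36I3_core_inst` : the same on `F = modularFunctionFieldBar N`, `S = S36FI_act N H`,
  `j = S36I3_jL N H`, with `RR_Hyp`, transcendence and finiteness discharged.
-/

set_option autoImplicit false
set_option linter.unusedSectionVars false

open AlgebraicCurve IntermediateField ModularCurve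

namespace Fermat.Agent.S36

open Fermat.Agent.Lib Fermat.Agent.S18 Fermat.Agent.S24 Fermat.Agent.S34

section fix

variable {K F H : Type*} [Field K] [Field F] [Algebra K F] (S : S36FL_Act K F H)
  {k Fk₁ Fk₂ Fk₃ : Type*} [Field k]
  [Field Fk₁] [Field Fk₂] [Field Fk₃] [Algebra k Fk₁] [Algebra k Fk₂] [Algebra k Fk₃]
  {S₁ : S18_Val S.fixK S.fixF k Fk₁} {S₂ : S18_Val S.fixK S.fixF k Fk₂}
  {S₃ : S18_Val S.fixK S.fixF k Fk₃}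

/-- **the local core over the fixed field**, standard charts of `j`. -/
theorem S36I3_core_fix (hRR : RR_Hyp K F) (hS : S36L3_Same S₁ S₂ S₃)
    [IsDiscreteValuationRing S₁.A] [CharZero S.fixK]
    {n : ℕ} {ι : Type*} [Finite ι]
    (q : ℕ) [hq : Fact q.Prime] [CharP k q] (hnq : Nat.Coprime n q)
    (π : S₁.A) (hπ : Irreducible π)
    (hrad : ∃ N : ℕ, ∀ f : (S36L3_toLat hS).O, (S36L3_toLat hS).red f = 0 →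
      ∃ g : (S36L3_toLat hS).O, f ^ N = (S36L3_toLat hS).const π * g)
    {C C' C'' : S36L3_Chart S.fixK S.fixF k Fk₁ Fk₂ Fk₃ n}
    (hle : S36L3_ChartLE C C'') (hle' : S36L3_ChartLE C' C'')
    (j : S.fixF) (c : S₁.A)
    (hC : C.B = S36I3_reg S (S34IX_TU (K := K) (j : F)))
    (hC' : C'.B = S36I3_reg S (S34IX_TU' (j : F) ((c : S.fixK) : K)))
    (hC'' : C''.B = S36I3_reg S (S34IX_TU'' (j : F) ((c : S.fixK) : K)))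
    (hj : Transcendental S.fixK j) [FiniteDimensional (S.fixK)⟮j⟯ S.fixF]
    (hjO : j ∈ S36L3_O3 S₁ S₂ S₃)
    (hsO : (j - algebraMap S₁.A S.fixF c)⁻¹ ∈ S36L3_O3 S₁ S₂ S₃)
    (hint : ∀ g : S.fixF, g ∈ S36L3_O3 S₁ S₂ S₃ → g ∈ C.B →
      IsIntegral (Algebra.adjoin S₁.A {j}) g)
    {Kp : Subgroup (S.fixF)ˣ} (hKp : Kp ≤ S36L3_NormGrp S₁ S₂ S₃)
    (T : S36TL_Chart hS C Kp ι) (T' : S36TL_Chart hS C' Kp ι)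
    (e₁ : ι → ↥C''.Rb₁ →ₐ[k] k) (e₂ : ι → ↥C''.Rb₂ →ₐ[k] k) (e₃ : ι → ↥C''.Rb₃ →ₐ[k] k)
    (hW1 : ∀ m ∈ S36L3_W hS C'' 1, ∀ y, e₁ y m.1 = e₂ y m.2.1 ∧ e₁ y m.1 = e₃ y m.2.2)
    (c₁ : ∀ y (r : ↥C.Rb₁), e₁ y ⟨r, hle.Rb₁_le r.2⟩ = T.e₁ y r)
    (c₂ : ∀ y (r : ↥C.Rb₂), e₂ y ⟨r, hle.Rb₂_le r.2⟩ = T.e₂ y r)
    (c₃ : ∀ y (r : ↥C.Rb₃), e₃ y ⟨r, hle.Rb₃_le r.2⟩ = T.e₃ y r)
    (c₁' : ∀ y (r : ↥C'.Rb₁), e₁ y ⟨r, hle'.Rb₁_le r.2⟩ = T'.e₁ y r)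
    (c₂' : ∀ y (r : ↥C'.Rb₂), e₂ y ⟨r, hle'.Rb₂_le r.2⟩ = T'.e₂ y r)
    (c₃' : ∀ y (r : ↥C'.Rb₃), e₃ y ⟨r, hle'.Rb₃_le r.2⟩ = T'.e₃ y r)
    (hKtriv : ∀ t : (S.fixF)ˣ, t ∈ S36L3_NormGrp S₁ S₂ S₃ →
      t ∈ S36TL_Triv S.fixK (F := S.fixF) n → t ∈ Kp)
    (happrox : ∀ b₂ b₃ : k, b₂ ≠ 0 → b₃ ≠ 0 → ∃ f : S36L3_O3 S₁ S₂ S₃,
      S36L3_red S₁ S₂ S₃ f = ((1 : Fk₁), algebraMap k Fk₂ b₂, algebraMap k Fk₃ b₃))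
    {u : (S.fixF)ˣ} (hu : u ∈ Kp) (ξ ξ' : k)
    (hV : ∀ y, ∃ m ∈ S36L3_W hS C ((u : (S.fixF)ˣ) : S.fixF), T.e₁ y m.1 ≠ 0 ∧
      T.e₁ y m.1 * T.e₂ y m.2.1 ^ (q - 1) = ξ * T.e₃ y m.2.2 ^ q ∧
      ξ' * (T.e₂ y m.2.1 ^ (q - 1) * T.e₃ y m.2.2) = T.e₁ y m.1 ^ q) :
    u ^ (q ^ 2 - 1) ∈ S36TL_Triv S.fixK (F := S.fixF) n := by
  refine S36TL_core hS q hnq π hπ.not_isUnit hπ.ne_zero (S36I3_hrank π hπ) hrad hle hle' ?_ hKp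
    T T' e₁ e₂ e₃ hW1 c₁ c₂ c₃ c₁' c₂' c₃' ?_ hKtriv happrox hu ξ ξ' hV
  · intro f hf hf'
    rw [hC] at hf
    rw [hC'] at hf'
    exact S36I3_hconst_fix S hRR j (c : S.fixK) f hf hf'
  · intro v hv
    exact S36I3_htors_fix S hRR hS n C C' C'' j c hC hC' hC'' hj hjO hsO hint (v : S.fixF)
      ((S36L3_mem_NormGrp S₁ S₂ S₃).1 (hKp hv))

end fix

section inst

variable (N : ℕ) [NeZero N] (H : Subgroup (AlgebraicClosure ℚ ≃ₐ[ℚ] AlgebraicClosure ℚ))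
  {k Fk₁ Fk₂ Fk₃ : Type*} [Field k]
  [Field Fk₁] [Field Fk₂] [Field Fk₃] [Algebra k Fk₁] [Algebra k Fk₂] [Algebra k Fk₃]
  {S₁ : S18_Val (S36FI_act N H).fixK (S36FI_act N H).fixF k Fk₁}
  {S₂ : S18_Val (S36FI_act N H).fixK (S36FI_act N H).fixF k Fk₂}
  {S₃ : S18_Val (S36FI_act N H).fixK (S36FI_act N H).fixF k Fk₃}

/-- **the local core on the modular function field** (`F = modularFunctionFieldBar N`,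
`H` the inertia group, `j = jB N`). -/
theorem S36I3_core_inst (hS : S36L3_Same S₁ S₂ S₃) [IsDiscreteValuationRing S₁.A]
    {n : ℕ} {ι : Type*} [Finite ι]
    (q : ℕ) [hq : Fact q.Prime] [CharP k q] (hnq : Nat.Coprime n q)
    (π : S₁.A) (hπ : Irreducible π)
    (hrad : ∃ K : ℕ, ∀ f : (S36L3_toLat hS).O, (S36L3_toLat hS).red f = 0 →
      ∃ g : (S36L3_toLat hS).O, f ^ K = (S36L3_toLat hS).const π * g)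
    {C C' C'' : S36L3_Chart (S36FI_act N H).fixK (S36FI_act N H).fixF k Fk₁ Fk₂ Fk₃ n}
    (hle : S36L3_ChartLE C C'') (hle' : S36L3_ChartLE C' C'') (c : S₁.A)
    (hC : C.B = S36I3_reg (S36FI_act N H) (S34IX_TU (K := AlgebraicClosure ℚ) (jB N)))
    (hC' : C'.B = S36I3_reg (S36FI_act N H)
      (S34IX_TU' (jB N) (((c : (S36FI_act N H).fixK)) : AlgebraicClosure ℚ)))
    (hC'' : C''.B = S36I3_reg (S36FI_act N H)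
      (S34IX_TU'' (jB N) (((c : (S36FI_act N H).fixK)) : AlgebraicClosure ℚ)))
    (hjO : S36I3_jL N H ∈ S36L3_O3 S₁ S₂ S₃)
    (hsO : (S36I3_jL N H - algebraMap S₁.A (S36FI_act N H).fixF c)⁻¹ ∈ S36L3_O3 S₁ S₂ S₃)
    (hint : ∀ g : (S36FI_act N H).fixF, g ∈ S36L3_O3 S₁ S₂ S₃ → g ∈ C.B →
      IsIntegral (Algebra.adjoin S₁.A {S36I3_jL N H}) g)
    {Kp : Subgroup ((S36FI_act N H).fixF)ˣ} (hKp : Kp ≤ S36L3_NormGrp S₁ S₂ S₃)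
    (T : S36TL_Chart hS C Kp ι) (T' : S36TL_Chart hS C' Kp ι)
    (e₁ : ι → ↥C''.Rb₁ →ₐ[k] k) (e₂ : ι → ↥C''.Rb₂ →ₐ[k] k) (e₃ : ι → ↥C''.Rb₃ →ₐ[k] k)
    (hW1 : ∀ m ∈ S36L3_W hS C'' 1, ∀ y, e₁ y m.1 = e₂ y m.2.1 ∧ e₁ y m.1 = e₃ y m.2.2)
    (c₁ : ∀ y (r : ↥C.Rb₁), e₁ y ⟨r, hle.Rb₁_le r.2⟩ = T.e₁ y r)
    (c₂ : ∀ y (r : ↥C.Rb₂), e₂ y ⟨r, hle.Rb₂_le r.2⟩ = T.e₂ y r)
    (c₃ : ∀ y (r : ↥C.Rb₃), e₃ y ⟨r, hle.Rb₃_le r.2⟩ = T.e₃ y r)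
    (c₁' : ∀ y (r : ↥C'.Rb₁), e₁ y ⟨r, hle'.Rb₁_le r.2⟩ = T'.e₁ y r)
    (c₂' : ∀ y (r : ↥C'.Rb₂), e₂ y ⟨r, hle'.Rb₂_le r.2⟩ = T'.e₂ y r)
    (c₃' : ∀ y (r : ↥C'.Rb₃), e₃ y ⟨r, hle'.Rb₃_le r.2⟩ = T'.e₃ y r)
    (hKtriv : ∀ t : ((S36FI_act N H).fixF)ˣ, t ∈ S36L3_NormGrp S₁ S₂ S₃ →
      t ∈ S36TL_Triv (S36FI_act N H).fixK (F := (S36FI_act N H).fixF) n → t ∈ Kp)
    (happrox : ∀ b₂ b₃ : k, b₂ ≠ 0 → b₃ ≠ 0 → ∃ f : S36L3_O3 S₁ S₂ S₃,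
      S36L3_red S₁ S₂ S₃ f = ((1 : Fk₁), algebraMap k Fk₂ b₂, algebraMap k Fk₃ b₃))
    {u : ((S36FI_act N H).fixF)ˣ} (hu : u ∈ Kp) (ξ ξ' : k)
    (hV : ∀ y, ∃ m ∈ S36L3_W hS C ((u : ((S36FI_act N H).fixF)ˣ) : (S36FI_act N H).fixF),
      T.e₁ y m.1 ≠ 0 ∧
      T.e₁ y m.1 * T.e₂ y m.2.1 ^ (q - 1) = ξ * T.e₃ y m.2.2 ^ q ∧
      ξ' * (T.e₂ y m.2.1 ^ (q - 1) * T.e₃ y m.2.2) = T.e₁ y m.1 ^ q) :
    u ^ (q ^ 2 - 1) ∈ S36TL_Triv (S36FI_act N H).fixK (F := (S36FI_act N H).fixF) n := by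
  have := S36I3_charZero N H
  have := S36I3_jL_finite N H
  exact S36I3_core_fix (S36FI_act N H) (S36I3_hRR N) hS q hnq π hπ hrad hle hle'
    (S36I3_jL N H) c hC hC' hC'' (S36I3_jL_transc N H) hjO hsO hint hKp T T' e₁ e₂ e₃ hW1
    c₁ c₂ c₃ c₁' c₂' c₃' hKtriv happrox hu ξ ξ' hV

end inst

end Fermat.Agent.S36
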