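import Fermat.Agent.S36.Inj3Chart

/-!
# TRACK 10 (S36), package F9 INJ3 (helper27): the denominator `d` of the Kummer generator

`S36T_htors_kummer` / `S36I3_inj_fix` ask for one `d ≠ 0` with `dⁿ/u` integral on the chart `U`.
Such a `d` always exists in `A[j]`:

* `S36I3_exists_mul_integral` : `R` a domain with fraction field `L`, `x ∈ F` transcendental over
  `L`, `F / L(x)` finite: every `z ∈ F` has a multiple `d·z`, `0 ≠ d ∈ R[x]`, integral over `R[x]`;
* `S36I3_reg_int` : the charts `S36I3_reg S T` are integrally closed over `A[j]`;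
* `S36I3_inj_fix'` : `S36I3_inj_fix` without the hypothesis on `d`.
-/

set_option autoImplicit false
set_option linter.style.haveILetI false

open AlgebraicCurve IntermediateField Polynomial

namespace Fermat.Agent.S36

open Fermat.Agent.Lib Fermat.Agent.S18 Fermat.Agent.S24 Fermat.Agent.S34

section den

variable {R L F : Type*} [CommRing R] [Field L] [Algebra R L] [IsFractionRing R L]
  [Field F] [Algebra L F] [Algebra R F] [IsScalarTower R L F]

/-- every element of `F` has a nonzero multiple by an element of `R[x]` which is integral over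
`R[x]`. -/
theorem S36I3_exists_mul_integral [IsDomain R] (x : F) (hx : Transcendental L x)
    [FiniteDimensional L⟮x⟯ F] (z : F) :
    ∃ d : F, d ∈ Algebra.adjoin R {x} ∧ d ≠ 0 ∧ IsIntegral (Algebra.adjoin R {x}) (d * z) := by
  classical
  letI algA : Algebra R[X] F := (aeval x : R[X] →ₐ[R] F).toRingHom.toAlgebra
  have hmap : ∀ p : R[X], algebraMap R[X] F p = aeval x p := fun _ => rfl
  have hinj : Function.Injective (algebraMap R[X] F) := S36T_aeval_injective (L := L) x hx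
  haveI : FaithfulSMul R[X] F := (faithfulSMul_iff_algebraMap_injective R[X] F).mpr hinj
  letI algK : Algebra (FractionRing R[X]) F := FractionRing.liftAlgebra R[X] F
  haveI : IsScalarTower R[X] (FractionRing R[X]) F :=
    FractionRing.isScalarTower_liftAlgebra R[X] F
  have hφ : ∀ p : R[X], algebraMap (FractionRing R[X]) F
      (algebraMap R[X] (FractionRing R[X]) p) = aeval x p := by
    intro p
    rw [← IsScalarTower.algebraMap_apply, hmap]
  haveI : FiniteDimensional (FractionRing R[X]) F := by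
    let b := Module.finBasis L⟮x⟯ F
    refine Module.finite_def.mpr ⟨Finset.univ.image b, ?_⟩
    rw [eq_top_iff]
    intro f _
    rw [← b.sum_repr f]
    refine Submodule.sum_mem _ fun i _ => ?_
    obtain ⟨k, hk⟩ := S36T_range_fraction (L := L) x (algebraMap (FractionRing R[X]) F) hφ
      (b.repr f i)
    have h1 : (b.repr f i) • b i = k • b i := by
      rw [Algebra.smul_def, Algebra.smul_def, hk]
      rfl
    rw [h1]
    exact Submodule.smul_mem _ _ (Submodule.subset_span (by simp))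
  have halgK : IsAlgebraic (FractionRing R[X]) z := Algebra.IsAlgebraic.isAlgebraic z
  have halg : IsAlgebraic R[X] z :=
    (IsFractionRing.isAlgebraic_iff R[X] (FractionRing R[X]) F).2 halgK
  obtain ⟨y, hy0, hy⟩ := halg.exists_integral_multiple
  refine ⟨aeval x y, ?_, ?_, ?_⟩
  · rw [Algebra.adjoin_singleton_eq_range_aeval]
    exact ⟨y, rfl⟩
  · intro h0
    apply hy0
    apply hinj
    rw [hmap, h0, map_zero]
  · -- integrality over `R[X]` is integrality over `R[x]`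
    have hyz : y • z = aeval x y * z := by rw [Algebra.smul_def, hmap]
    rw [hyz] at hy
    let ψ : R[X] →+* Algebra.adjoin R {x} :=
      { toFun := fun p => ⟨aeval x p, by
          rw [Algebra.adjoin_singleton_eq_range_aeval]; exact ⟨p, rfl⟩⟩
        map_one' := Subtype.ext (map_one _)
        map_mul' := fun _ _ => Subtype.ext (map_mul _ _ _)
        map_zero' := Subtype.ext (map_zero _)
        map_add' := fun _ _ => Subtype.ext (map_add _ _ _) }
    have := IsIntegral.map_of_comp_eq (R := R[X]) (S := F) (T := Algebra.adjoin R {x}) (U := F)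
      ψ (RingHom.id F) (by ext p <;> rfl) hy
    simpa using this

end den

section fix

variable {K F H : Type*} [Field K] [Field F] [Algebra K F] (S : S36FL_Act K F H)

/-- the elements of `A[j]` are regular on a chart on which `j` is regular. -/
theorem S36I3_adjoin_le_reg (T : Set (Place K F)) (A : ValuationSubring S.fixK) (j : S.fixF)
    (hj : j ∈ S36I3_reg S T) (y : S.fixF) (hy : y ∈ Algebra.adjoin A {j}) :
    y ∈ S36I3_reg S T := by
  induction hy using Algebra.adjoin_induction with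
  | mem y hy =>
    rw [Set.mem_singleton_iff.mp hy]
    exact hj
  | algebraMap a => exact (S36I3_reg S T).algebraMap_mem (a : S.fixK)
  | add y z _ _ hy hz => exact (S36I3_reg S T).add_mem hy hz
  | mul y z _ _ hy hz => exact (S36I3_reg S T).mul_mem hy hz

/-- the charts are integrally closed over `A[j]`. -/
theorem S36I3_reg_int (T : Set (Place K F)) (A : ValuationSubring S.fixK) (j : S.fixF)
    (hj : j ∈ S36I3_reg S T) (g : S.fixF) (hg : IsIntegral (Algebra.adjoin A {j}) g) :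
    g ∈ S36I3_reg S T := by
  intro v hv
  let φ : Algebra.adjoin A {j} →+* v.toValuationSubring :=
    { toFun := fun y => ⟨((y : S.fixF) : F), S36I3_adjoin_le_reg S T A j hj y y.2 v hv⟩
      map_one' := rfl
      map_mul' := fun _ _ => rfl
      map_zero' := rfl
      map_add' := fun _ _ => rfl }
  have h1 : IsIntegral v.toValuationSubring ((g : S.fixF) : F) :=
    IsIntegral.map_of_comp_eq (R := Algebra.adjoin A {j}) (S := S.fixF)
      (T := v.toValuationSubring) (U := F) φ S.fixF.subtype (by ext y; rfl) hg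
  obtain ⟨y, hy⟩ := IsIntegrallyClosed.isIntegral_iff.mp h1
  rw [← hy]
  exact y.2

variable {k Fk₁ Fk₂ Fk₃ : Type*} [Field k]
  [Field Fk₁] [Field Fk₂] [Field Fk₃] [Algebra k Fk₁] [Algebra k Fk₂] [Algebra k Fk₃]
  {S₁ : S18_Val S.fixK S.fixF k Fk₁} {S₂ : S18_Val S.fixK S.fixF k Fk₂}
  {S₃ : S18_Val S.fixK S.fixF k Fk₃}

/-- the elements of `A[j]` lie in `O₃` if `j` does. -/
theorem S36I3_adjoin_le_O3 (hS : S36L3_Same S₁ S₂ S₃) (j : S.fixF)
    (hjO : j ∈ S36L3_O3 S₁ S₂ S₃) (y : S.fixF) (hy : y ∈ Algebra.adjoin S₁.A {j}) :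
    y ∈ S36L3_O3 S₁ S₂ S₃ := by
  induction hy using Algebra.adjoin_induction with
  | mem y hy =>
    rw [Set.mem_singleton_iff.mp hy]
    exact hjO
  | algebraMap a => exact S36L3_const_mem hS a
  | add y z _ _ hy hz => exact (S36L3_O3 S₁ S₂ S₃).add_mem hy hz
  | mul y z _ _ hy hz => exact (S36L3_O3 S₁ S₂ S₃).mul_mem hy hz

/-- **INJ3 over the fixed field, standard charts, final form** (F9): as `S36I3_inj_fix`, the
denominator `d` of `u` being constructed. -/
theorem S36I3_inj_fix' (hRR : RR_Hyp K F) (hS : S36L3_Same S₁ S₂ S₃)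
    [IsDiscreteValuationRing S₁.A] [CharZero S.fixK]
    (q : S₁.A) (hq : Irreducible q)
    (hrad : ∃ N : ℕ, ∀ f : (S36L3_toLat hS).O, (S36L3_toLat hS).red f = 0 →
      ∃ g : (S36L3_toLat hS).O, f ^ N = (S36L3_toLat hS).const q * g)
    (n : ℕ) (hnk : (n : k) ≠ 0)
    (C C' C'' : S36L3_Chart S.fixK S.fixF k Fk₁ Fk₂ Fk₃ n)
    (j : S.fixF) (c : S₁.A)
    (hC : C.B = S36I3_reg S (S34IX_TU (K := K) (j : F)))
    (hC' : C'.B = S36I3_reg S (S34IX_TU' (j : F) ((c : S.fixK) : K)))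
    (hC'' : C''.B = S36I3_reg S (S34IX_TU'' (j : F) ((c : S.fixK) : K)))
    (hj : Transcendental S.fixK j) [FiniteDimensional (S.fixK)⟮j⟯ S.fixF]
    (hjO : j ∈ S36L3_O3 S₁ S₂ S₃)
    (hsO : (j - algebraMap S₁.A S.fixF c)⁻¹ ∈ S36L3_O3 S₁ S₂ S₃)
    (u : S.fixF) (hu : u ∈ S36L3_Norm S₁ S₂ S₃)
    (hint : ∀ g : S.fixF, g ∈ S36L3_O3 S₁ S₂ S₃ → g ∈ C.B →
      IsIntegral (Algebra.adjoin S₁.A {j}) g)
    (h1 : (1 : ↥C.Rb₁ × ↥C.Rb₂ × ↥C.Rb₃) ∈ S36L3_W hS C u)
    (h1' : (1 : ↥C'.Rb₁ × ↥C'.Rb₂ × ↥C'.Rb₃) ∈ S36L3_W hS C' u) :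
    ∃ (a : S.fixK) (g : S.fixF), a ≠ 0 ∧ g ≠ 0 ∧ u = algebraMap S.fixK S.fixF a * g ^ n := by
  obtain ⟨d, hdA, hd0, hdint⟩ :=
    S36I3_exists_mul_integral (R := S₁.A) (L := S.fixK) (F := S.fixF) j hj u⁻¹
  have hjB : j ∈ S36I3_reg S (S34IX_TU (K := K) (j : F)) := S34IX_x_mem (K := K) (j : F)
  have hui : u⁻¹ ∈ S36L3_O3 S₁ S₂ S₃ := (S36L3_inv_mem_Norm hu).1
  have hdO : d ∈ S36L3_O3 S₁ S₂ S₃ := S36I3_adjoin_le_O3 S hS j hjO d hdA
  have hdB : d ∈ S36I3_reg S (S34IX_TU (K := K) (j : F)) :=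
    S36I3_adjoin_le_reg S _ S₁.A j hjB d hdA
  have hduB : d * u⁻¹ ∈ S36I3_reg S (S34IX_TU (K := K) (j : F)) :=
    S36I3_reg_int S _ S₁.A j hjB _ hdint
  obtain ⟨n', hn'⟩ : ∃ n', n = n' + 1 := ⟨n - 1, by have := C.hn; omega⟩
  have hpow : d ^ n * u⁻¹ = d ^ n' * (d * u⁻¹) := by
    rw [hn', pow_succ]
    ring
  refine S36I3_inj_fix S hRR hS q hq hrad n hnk C C' C'' j c hC hC' hC'' hj hjO hsO u hu hint
    d hd0 ?_ ?_ h1 h1'
  · rw [hpow]
    exact (S36L3_O3 S₁ S₂ S₃).mul_mem ((S36L3_O3 S₁ S₂ S₃).pow_mem hdO n')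
      ((S36L3_O3 S₁ S₂ S₃).mul_mem hdO hui)
  · rw [hpow, hC]
    exact (S36I3_reg S _).mul_mem ((S36I3_reg S _).pow_mem hdB n') hduB

/-- **`hconst` for the standard charts** `U = {j ≠ ∞}`, `U' = {j ≠ c}` over the fixed field. -/
theorem S36I3_hconst_fix (hRR : RR_Hyp K F) (j : S.fixF) (c : S.fixK) (f : S.fixF)
    (hf : f ∈ S36I3_reg S (S34IX_TU (K := K) (j : F)))
    (hf' : f ∈ S36I3_reg S (S34IX_TU' (j : F) (c : K))) :
    ∃ a : S.fixK, f = algebraMap S.fixK S.fixF a :=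
  S36I3_reg_const S hRR (S34IX_cover (j : F) (c : K)) f hf hf'

/-- **`htors` for the standard charts over the fixed field**, for every normalised `u`
(the shape of `S36L3I_inj_W` and of `S36TL_core`), the denominator being constructed. -/
theorem S36I3_htors_fix (hRR : RR_Hyp K F) (hS : S36L3_Same S₁ S₂ S₃)
    [IsNoetherianRing S₁.A] [CharZero S.fixK]
    (n : ℕ) (C C' C'' : S36L3_Chart S.fixK S.fixF k Fk₁ Fk₂ Fk₃ n)
    (j : S.fixF) (c : S₁.A)
    (hC : C.B = S36I3_reg S (S34IX_TU (K := K) (j : F)))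
    (hC' : C'.B = S36I3_reg S (S34IX_TU' (j : F) ((c : S.fixK) : K)))
    (hC'' : C''.B = S36I3_reg S (S34IX_TU'' (j : F) ((c : S.fixK) : K)))
    (hj : Transcendental S.fixK j) [FiniteDimensional (S.fixK)⟮j⟯ S.fixF]
    (hjO : j ∈ S36L3_O3 S₁ S₂ S₃)
    (hsO : (j - algebraMap S₁.A S.fixF c)⁻¹ ∈ S36L3_O3 S₁ S₂ S₃)
    (hint : ∀ g : S.fixF, g ∈ S36L3_O3 S₁ S₂ S₃ → g ∈ C.B →
      IsIntegral (Algebra.adjoin S₁.A {j}) g)
    (u : S.fixF) (hu : u ∈ S36L3_Norm S₁ S₂ S₃) :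
    ∃ c₀ : S₁.A, c₀ ≠ 0 ∧
      ∀ h ∈ S34IC_M (S36L3_toLat hS) C''.B n C''.root u, ∀ a : S₁.A, a ≠ 0 →
      a • h ∈ S34IC_M (S36L3_toLat hS) C.B n C.root u ⊔
        S34IC_M (S36L3_toLat hS) C'.B n C'.root u →
      c₀ • h ∈ S34IC_M (S36L3_toLat hS) C.B n C.root u ⊔
        S34IC_M (S36L3_toLat hS) C'.B n C'.root u := by
  have : HasPrincipalDivisors K F := hRR.principal
  obtain ⟨d, hdA, hd0, hdint⟩ :=
    S36I3_exists_mul_integral (R := S₁.A) (L := S.fixK) (F := S.fixF) j hj u⁻¹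
  have hjB : j ∈ S36I3_reg S (S34IX_TU (K := K) (j : F)) := S34IX_x_mem (K := K) (j : F)
  have hui : u⁻¹ ∈ S36L3_O3 S₁ S₂ S₃ := (S36L3_inv_mem_Norm hu).1
  have hdO : d ∈ S36L3_O3 S₁ S₂ S₃ := S36I3_adjoin_le_O3 S hS j hjO d hdA
  have hdB : d ∈ S36I3_reg S (S34IX_TU (K := K) (j : F)) :=
    S36I3_adjoin_le_reg S _ S₁.A j hjB d hdA
  have hduB : d * u⁻¹ ∈ S36I3_reg S (S34IX_TU (K := K) (j : F)) :=
    S36I3_reg_int S _ S₁.A j hjB _ hdint
  obtain ⟨n', hn'⟩ : ∃ n', n = n' + 1 := ⟨n - 1, by have := C.hn; omega⟩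
  have hpow : d ^ n * u⁻¹ = d ^ n' * (d * u⁻¹) := by
    rw [hn', pow_succ]
    ring
  have hjc : j - algebraMap S₁.A S.fixF c ≠ 0 := by
    intro h0
    apply hj
    rw [sub_eq_zero.mp h0]
    exact isAlgebraic_algebraMap (R := S.fixK) (A := S.fixF) (c : S.fixK)
  have hcoe : ((j - algebraMap S₁.A S.fixF c : S.fixF) : F)
      = (j : F) - algebraMap K F ((c : S.fixK) : K) := rfl
  refine S36I3_htors hS j c (j - algebraMap S₁.A S.fixF c)⁻¹ (inv_mul_cancel₀ hjc) hj hjO hsO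
    n C C' C'' ?_ ?_ u hu hint ?_ ?_ d hd0 ?_ ?_
  · rw [hC]
    exact hjB
  · rw [hC']
    show (((j - algebraMap S₁.A S.fixF c)⁻¹ : S.fixF) : F) ∈ S34IX_reg _
    have := S34IX_inv_mem (j : F) ((c : S.fixK) : K)
    rw [← hcoe] at this
    simpa using this
  · intro g hg
    rw [hC''] at hg
    rw [hC]
    obtain ⟨a, ha⟩ := S36I3_loc_K (j : F) ((c : S.fixK) : K) (g : F) hg
    refine ⟨a, ?_⟩
    show (((j - algebraMap S₁.A S.fixF c) ^ a * g : S.fixF) : F) ∈ S34IX_reg _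
    rw [← hcoe] at ha
    simpa using ha
  · intro g hg
    rw [hC] at hg
    rw [hC']
    obtain ⟨b, hb⟩ := S36I3_glob_K (j : F) ((c : S.fixK) : K) (g : F) hg
    refine ⟨b, ?_⟩
    show ((((j - algebraMap S₁.A S.fixF c)⁻¹) ^ b * g : S.fixF) : F) ∈ S34IX_reg _
    rw [← hcoe] at hb
    simpa using hb
  · rw [hpow]
    exact (S36L3_O3 S₁ S₂ S₃).mul_mem ((S36L3_O3 S₁ S₂ S₃).pow_mem hdO n')
      ((S36L3_O3 S₁ S₂ S₃).mul_mem hdO hui)
  · rw [hpow, hC]
    exact (S36I3_reg S _).mul_mem ((S36I3_reg S _).pow_mem hdB n') hduB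

end fix

end Fermat.Agent.S36
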