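import Mathlib

/-!
# TRACK 10 (S36), package LI-ABS (helper27): a Cartier branch with principal-ideal quotient makes
finitely generated "divisorial" rank-one modules principal

Abstract form of (LI) of `NOTES/items/35_LI_pullback_lead.md` (Mathlib only).

`R` a domain with fraction field `K`, `s ∈ R` in the Jacobson radical (e.g. `R` local, `s` a
non-unit), `R ⧸ (s)` a principal ideal DOMAIN (e.g. a DVR), `⋂ (sⁿ) = 0`.
`M ⊆ K` a finitely generated `R`-submodule which is `s`-saturated: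
`r m ∈ s M`, `r ∉ (s)` `⇒` `m ∈ s M` (this is what "divisorial" gives).  Then `M = R m`.

* `S36LI_core`      : the module-theoretic statement;
* `S36LI_val`       : the valuation-theoretic wrapper: `R = {v_i ≤ 1 ∀ i}`, `M = {v_i ≤ d_i ∀ i}`,
                      `s` with `v_{i₀}(s) < 1` generating the centre of `v_{i₀}` on `R` and
                      `v_i(s) = 1` for `i ≠ i₀`; conclusion `M = R m` and `v_i(m) = d_i` at every `i`
                      where `d_i` is attained on `M`.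
No quotient modules are used: two elements of `M` are always generated by one modulo `s M`
(Bézout in `R ⧸ (s)`), then Nakayama.
-/

set_option autoImplicit false

namespace Fermat.Agent.S36

section core

variable {R K : Type*} [CommRing R] [IsDomain R] [Field K] [Algebra R K] [IsFractionRing R K]

/-- two elements of the fraction field are `R`-dependent. -/
theorem S36LI_dep (x y : K) : ∃ a b : R, (a ≠ 0 ∨ b ≠ 0) ∧ a • x = b • y := by
  by_cases hy : y = 0
  · exact ⟨0, 1, Or.inr one_ne_zero, by simp [hy]⟩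
  · obtain ⟨p, q, hq, hpq⟩ := IsFractionRing.div_surjective (A := R) (x / y)
    have hq0 : (algebraMap R K q) ≠ 0 :=
      IsFractionRing.to_map_ne_zero_of_mem_nonZeroDivisors hq
    refine ⟨q, p, Or.inl (nonZeroDivisors.ne_zero hq), ?_⟩
    rw [Algebra.smul_def, Algebra.smul_def]
    field_simp at hpq
    linear_combination -hpq

/-- dividing a dependence relation by powers of `s`. -/
theorem S36LI_dep_red (s : R) (hK : ∀ a : R, a ≠ 0 → ∃ n : ℕ, a ∉ Ideal.span {s ^ n})
    (x y : K) :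
    ∃ a b : R, (a ∉ Ideal.span {s} ∨ b ∉ Ideal.span {s}) ∧ a • x = b • y := by
  have key : ∀ n : ℕ, ∀ a b : R, a • x = b • y →
      (a ∉ Ideal.span {s ^ n} ∨ b ∉ Ideal.span {s ^ n}) →
      ∃ a' b' : R, (a' ∉ Ideal.span {s} ∨ b' ∉ Ideal.span {s}) ∧ a' • x = b' • y := by
    intro n
    induction n with
    | zero =>
      intro a b _ h
      exfalso
      rw [pow_zero, Ideal.span_singleton_one] at h
      rcases h with h | h <;> exact h trivial
    | succ n ih =>
      intro a b hab h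
      by_cases h1 : a ∉ Ideal.span {s} ∨ b ∉ Ideal.span {s}
      · exact ⟨a, b, h1, hab⟩
      · obtain ⟨ha, hb⟩ := not_or.mp h1
        rw [not_not] at ha hb
        obtain ⟨a₁, rfl⟩ := Ideal.mem_span_singleton'.mp ha
        obtain ⟨b₁, rfl⟩ := Ideal.mem_span_singleton'.mp hb
        have hs0 : s ≠ 0 := by
          rintro rfl
          rcases h with h | h
          · exact h (by simp)
          · exact h (by simp)
        have hsK : (algebraMap R K s) ≠ 0 := by
          intro h0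
          exact hs0 ((IsFractionRing.injective R K) (by rw [h0, map_zero]))
        apply ih a₁ b₁
        · have h2 : algebraMap R K s * (a₁ • x) = algebraMap R K s * (b₁ • y) := by
            have := hab
            rw [Algebra.smul_def, Algebra.smul_def, map_mul, map_mul] at this
            rw [Algebra.smul_def, Algebra.smul_def]
            linear_combination this
          exact mul_left_cancel₀ hsK h2
        · rcases h with h | h
          · left
            intro h3
            apply h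
            obtain ⟨c, hc⟩ := Ideal.mem_span_singleton'.mp h3
            exact Ideal.mem_span_singleton'.mpr ⟨c, by rw [← hc, pow_succ]; ring⟩
          · right
            intro h3
            apply h
            obtain ⟨c, hc⟩ := Ideal.mem_span_singleton'.mp h3
            exact Ideal.mem_span_singleton'.mpr ⟨c, by rw [← hc, pow_succ]; ring⟩
  obtain ⟨a, b, hab0, hab⟩ := S36LI_dep (R := R) x y
  rcases hab0 with ha | hb
  · obtain ⟨n, hn⟩ := hK a ha
    exact key n a b hab (Or.inl hn)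
  · obtain ⟨n, hn⟩ := hK b hb
    exact key n a b hab (Or.inr hn)

variable (s : R) [IsPrincipalIdealRing (R ⧸ Ideal.span {s})] [IsDomain (R ⧸ Ideal.span {s})]

omit [IsDomain R] in
/-- Bézout data in `R ⧸ (s)`, lifted to `R`: for `a, b` not both in `(s)` there are
`g ∉ (s)`, `a', b', u, v` with `a ≡ g a'`, `b ≡ g b'`, `u a' + v b' ≡ 1` modulo `s`. -/
theorem S36LI_bezout (a b : R) (h : a ∉ Ideal.span {s} ∨ b ∉ Ideal.span {s}) :
    ∃ g a' b' u v e₁ e₂ e₃ : R, g ∉ Ideal.span {s} ∧ g * a' - a = s * e₁ ∧ g * b' - b = s * e₂ ∧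
      u * a' + v * b' - 1 = s * e₃ := by
  set π := Ideal.Quotient.mk (Ideal.span {s}) with hπ
  have hπs : Function.Surjective π := Ideal.Quotient.mk_surjective
  obtain ⟨a'q, ha'⟩ := IsBezout.gcd_dvd_left (π a) (π b)
  obtain ⟨b'q, hb'⟩ := IsBezout.gcd_dvd_right (π a) (π b)
  obtain ⟨uq, vq, huv⟩ := IsBezout.gcd_eq_sum (π a) (π b)
  set gq := IsBezout.gcd (π a) (π b) with hgq
  have hg0 : gq ≠ 0 := by
    intro h0
    rw [h0, zero_mul] at ha' hb'
    rcases h with h | h
    · exact h (Ideal.Quotient.eq_zero_iff_mem.mp ha')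
    · exact h (Ideal.Quotient.eq_zero_iff_mem.mp hb')
  have h1 : uq * a'q + vq * b'q = 1 := by
    have : gq * (uq * a'q + vq * b'q) = gq * 1 := by
      rw [mul_one]
      calc gq * (uq * a'q + vq * b'q) = uq * (gq * a'q) + vq * (gq * b'q) := by ring
        _ = uq * π a + vq * π b := by rw [← ha', ← hb']
        _ = gq := huv
    exact mul_left_cancel₀ hg0 this
  obtain ⟨g, hg⟩ := hπs gq
  obtain ⟨a', ha'l⟩ := hπs a'q
  obtain ⟨b', hb'l⟩ := hπs b'q
  obtain ⟨u, hu⟩ := hπs uq
  obtain ⟨v, hv⟩ := hπs vq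
  have m1 : g * a' - a ∈ Ideal.span {s} := by
    rw [← Ideal.Quotient.eq_zero_iff_mem, map_sub, map_mul, ← hπ, hg, ha'l, ← ha', sub_self]
  have m2 : g * b' - b ∈ Ideal.span {s} := by
    rw [← Ideal.Quotient.eq_zero_iff_mem, map_sub, map_mul, ← hπ, hg, hb'l, ← hb', sub_self]
  have m3 : u * a' + v * b' - 1 ∈ Ideal.span {s} := by
    rw [← Ideal.Quotient.eq_zero_iff_mem, map_sub, map_add, map_mul, map_mul, map_one, ← hπ,
      hu, hv, ha'l, hb'l, h1, sub_self]
  obtain ⟨e₁, he₁⟩ := Ideal.mem_span_singleton'.mp m1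
  obtain ⟨e₂, he₂⟩ := Ideal.mem_span_singleton'.mp m2
  obtain ⟨e₃, he₃⟩ := Ideal.mem_span_singleton'.mp m3
  refine ⟨g, a', b', u, v, e₁, e₂, e₃, ?_, by rw [← he₁]; ring, by rw [← he₂]; ring,
    by rw [← he₃]; ring⟩
  intro hgs
  apply hg0
  rw [← hg]
  exact Ideal.Quotient.eq_zero_iff_mem.mpr hgs

variable {s}

/-- **two generators are one modulo `s M`**. -/
theorem S36LI_two (hK : ∀ a : R, a ≠ 0 → ∃ n : ℕ, a ∉ Ideal.span {s ^ n})
    (M : Submodule R K)
    (hsat : ∀ (r : R) (m : K), m ∈ M → r ∉ Ideal.span {s} →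
      (∃ m' ∈ M, r • m = s • m') → ∃ m'' ∈ M, m = s • m'')
    (x y : K) (hx : x ∈ M) (hy : y ∈ M) :
    ∃ z ∈ M, (∃ (c : R), ∃ m' ∈ M, x = c • z + s • m') ∧ (∃ (c : R), ∃ m' ∈ M, y = c • z + s • m') := by
  obtain ⟨a, b, hab0, hab⟩ := S36LI_dep_red s hK x y
  obtain ⟨g, a', b', u, v, e₁, e₂, e₃, hg, h1, h2, h3⟩ := S36LI_bezout s a b hab0
  -- g (a' x − b' y) ∈ s M
  have hm1 : e₁ • x - e₂ • y ∈ M := M.sub_mem (M.smul_mem _ hx) (M.smul_mem _ hy)
  have hgm : g • (a' • x - b' • y) = s • (e₁ • x - e₂ • y) := by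
    have e1 : (g * a') • x = (a + s * e₁) • x := by rw [← h1]; congr 1; ring
    have e2 : (g * b') • y = (b + s * e₂) • y := by rw [← h2]; congr 1; ring
    calc g • (a' • x - b' • y) = (g * a') • x - (g * b') • y := by
          rw [smul_sub, mul_smul, mul_smul]
      _ = (a + s * e₁) • x - (b + s * e₂) • y := by rw [e1, e2]
      _ = (a • x - b • y) + s • (e₁ • x - e₂ • y) := by
          rw [add_smul, add_smul, mul_smul, mul_smul, smul_sub]; abel
      _ = s • (e₁ • x - e₂ • y) := by rw [hab, sub_self, zero_add]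
  obtain ⟨m₀, hm₀, hm₀e⟩ := hsat g (a' • x - b' • y)
    (M.sub_mem (M.smul_mem _ hx) (M.smul_mem _ hy)) hg ⟨_, hm1, hgm⟩
  refine ⟨v • x + u • y, M.add_mem (M.smul_mem _ hx) (M.smul_mem _ hy), ?_, ?_⟩
  · refine ⟨b', -(e₃ • x) + u • m₀, M.add_mem (M.neg_mem (M.smul_mem _ hx)) (M.smul_mem _ hm₀), ?_⟩
    have hx1 : x = (u * a' + v * b' - s * e₃) • x := by
      rw [show u * a' + v * b' - s * e₃ = 1 by linear_combination h3, one_smul]
    have hb'y : b' • y = a' • x - s • m₀ := by rw [← hm₀e]; abel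
    calc x = (u * a' + v * b' - s * e₃) • x := hx1
      _ = (b' * v) • x + u • (a' • x) - s • (e₃ • x) := by
          rw [sub_smul, add_smul, mul_smul, mul_smul, mul_smul, mul_smul, smul_comm v b' x]; abel
      _ = (b' * v) • x + u • (b' • y + s • m₀) - s • (e₃ • x) := by
          rw [hb'y, sub_add_cancel]
      _ = b' • (v • x + u • y) + s • (-(e₃ • x) + u • m₀) := by
          rw [smul_add, smul_add, smul_add, mul_smul, smul_neg, smul_comm u b' y, smul_comm u s m₀]
          abel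
  · refine ⟨a', -(v • m₀) - e₃ • y, M.sub_mem (M.neg_mem (M.smul_mem _ hm₀)) (M.smul_mem _ hy), ?_⟩
    have hy1 : y = (u * a' + v * b' - s * e₃) • y := by
      rw [show u * a' + v * b' - s * e₃ = 1 by linear_combination h3, one_smul]
    have ha'x : a' • x = b' • y + s • m₀ := by rw [← hm₀e]; abel
    calc y = (u * a' + v * b' - s * e₃) • y := hy1
      _ = (a' * u) • y + v • (b' • y) - s • (e₃ • y) := by
          rw [sub_smul, add_smul, mul_smul, mul_smul, mul_smul, mul_smul, smul_comm u a' y]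
      _ = (a' * u) • y + v • (a' • x - s • m₀) - s • (e₃ • y) := by
          rw [ha'x, add_sub_cancel_right]
      _ = a' • (v • x + u • y) + s • (-(v • m₀) - e₃ • y) := by
          rw [smul_add, smul_sub, smul_sub, mul_smul, smul_neg, smul_comm v a' x,
            smul_comm v s m₀]
          abel

/-- **LI-ABS, module form**: a finitely generated `s`-saturated submodule `M ⊆ K = Frac R` is
principal, if `s` lies in the Jacobson radical, `R ⧸ (s)` is a principal ideal domain and
`⋂ₙ (sⁿ) = 0`. -/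
theorem S36LI_core (hs : s ∈ (⊥ : Ideal R).jacobson)
    (hK : ∀ a : R, a ≠ 0 → ∃ n : ℕ, a ∉ Ideal.span {s ^ n})
    (M : Submodule R K) (hfg : M.FG)
    (hsat : ∀ (r : R) (m : K), m ∈ M → r ∉ Ideal.span {s} →
      (∃ m' ∈ M, r • m = s • m') → ∃ m'' ∈ M, m = s • m'') :
    ∃ m ∈ M, M = Submodule.span R {m} := by
  classical
  obtain ⟨S, hS⟩ := hfg
  have hSM : ∀ x ∈ S, x ∈ M := fun x hx => hS ▸ Submodule.subset_span hx
  have key : ∀ T : Finset K, (∀ x ∈ T, x ∈ M) →
      ∃ z ∈ M, ∀ x ∈ T, ∃ (c : R), ∃ m' ∈ M, x = c • z + s • m' := by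
    intro T
    induction T using Finset.induction_on with
    | empty => exact fun _ => ⟨0, M.zero_mem, fun x hx => absurd hx (Finset.notMem_empty x)⟩
    | insert x T _ ih =>
      intro hT
      obtain ⟨z', hz', hz'T⟩ := ih (fun y hy => hT y (Finset.mem_insert_of_mem hy))
      obtain ⟨z, hz, ⟨c₁, m₁, hm₁, hx⟩, ⟨c₂, m₂, hm₂, hz'e⟩⟩ :=
        S36LI_two hK M hsat x z' (hT x (Finset.mem_insert_self x T)) hz'
      refine ⟨z, hz, fun y hy => ?_⟩
      rcases Finset.mem_insert.mp hy with rfl | hy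
      · exact ⟨c₁, m₁, hm₁, hx⟩
      · obtain ⟨c, m', hm', hye⟩ := hz'T y hy
        refine ⟨c * c₂, c • m₂ + m', M.add_mem (M.smul_mem _ hm₂) hm', ?_⟩
        rw [hye, hz'e, smul_add, smul_add, mul_smul, smul_comm c s m₂, add_assoc]
  obtain ⟨z, hz, hzS⟩ := key S hSM
  refine ⟨z, hz, le_antisymm ?_ ((Submodule.span_singleton_le_iff_mem z M).mpr hz)⟩
  apply Submodule.le_of_le_smul_of_le_jacobson_bot (I := Ideal.span {s}) ⟨S, hS⟩
    ((Ideal.span_singleton_le_iff_mem _).mpr hs)
  rw [← hS]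
  apply Submodule.span_le.mpr
  intro x hx
  obtain ⟨c, m', hm', hxe⟩ := hzS x hx
  rw [hxe]
  apply Submodule.add_mem
  · exact Submodule.mem_sup_left (Submodule.smul_mem _ _ (Submodule.mem_span_singleton_self z))
  · apply Submodule.mem_sup_right
    rw [hS]
    exact Submodule.smul_mem_smul (Ideal.mem_span_singleton_self s) hm'

end core

section val

variable {K : Type*} [Field K] {Γ₀ : Type*} [LinearOrderedCommGroupWithZero Γ₀] {ι : Type*}

/-- **LI-ABS, valuation form**.  `R = {x : v_i(x) ≤ 1 ∀ i}` with fraction field `K`,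
`M = {x : v_i(x) ≤ d_i ∀ i}` finitely generated over `R`; `s ∈ R`, `s ≠ 0`, in the Jacobson
radical, with `v_{i₀}(s) < 1` generating the centre of `v_{i₀}` on `R`
(`v_{i₀}(x) < 1 ⇒ v_{i₀}(x) ≤ v_{i₀}(s)` on `R`), `v_i(s) = 1` for `i ≠ i₀`, `v_{i₀}` archimedean
with respect to `s`, and `R ⧸ (s)` a principal ideal domain.  Then `M = R m`, and
`v_i(m) = d_i` at every `i` where the bound `d_i` is attained on `M`. -/
theorem S36LI_val (v : ι → Valuation K Γ₀) (R : Subring K)
    (hR : ∀ x : K, x ∈ R ↔ ∀ i, v i x ≤ 1) [IsFractionRing R K]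
    (s : R) (hs0 : (s : K) ≠ 0) (hjac : s ∈ (⊥ : Ideal R).jacobson)
    [IsPrincipalIdealRing (R ⧸ Ideal.span {s})] [IsDomain (R ⧸ Ideal.span {s})]
    (i₀ : ι) (hs1 : ∀ i, i ≠ i₀ → v i (s : K) = 1)
    (hloc : ∀ x : K, x ∈ R → v i₀ x < 1 → v i₀ x ≤ v i₀ (s : K))
    (harch : ∀ x : K, x ≠ 0 → ∃ n : ℕ, (v i₀ (s : K)) ^ n < v i₀ x)
    (d : ι → Γ₀) (M : Submodule R K) (hM : ∀ x : K, x ∈ M ↔ ∀ i, v i x ≤ d i) (hfg : M.FG) :
    ∃ m : K, m ∈ M ∧ M = Submodule.span R {m} ∧
      ∀ i, (∃ f ∈ M, v i f = d i) → v i m = d i := by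
  classical
  have hvs0 : ∀ i, v i (s : K) ≠ 0 := fun i => (Valuation.ne_zero_iff _).mpr hs0
  -- `x ∈ R`, `v_{i₀} x < 1` ⇒ `x ∈ s R`
  have hdiv : ∀ x : R, v i₀ (x : K) < 1 → x ∈ Ideal.span {s} := by
    intro x hx
    have hmem : (x : K) / (s : K) ∈ R := by
      rw [hR]
      intro i
      rw [map_div₀]
      by_cases hi : i = i₀
      · subst hi
        exact (div_le_one₀ (zero_lt_iff.mpr (hvs0 _))).mpr (hloc _ x.2 hx)
      · rw [hs1 i hi, div_one]
        exact (hR _).mp x.2 i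
    refine Ideal.mem_span_singleton'.mpr ⟨⟨_, hmem⟩, ?_⟩
    apply Subtype.ext
    show (x : K) / (s : K) * (s : K) = (x : K)
    exact div_mul_cancel₀ _ hs0
  have hK : ∀ a : R, a ≠ 0 → ∃ n : ℕ, a ∉ Ideal.span {s ^ n} := by
    intro a ha
    have haK : (a : K) ≠ 0 := fun h => ha (Subtype.ext h)
    obtain ⟨n, hn⟩ := harch _ haK
    refine ⟨n, fun hmem => ?_⟩
    obtain ⟨c, hc⟩ := Ideal.mem_span_singleton'.mp hmem
    have hcK : (a : K) = (c : K) * (s : K) ^ n := by
      rw [← hc]; rfl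
    have h1 : v i₀ (a : K) ≤ (v i₀ (s : K)) ^ n := by
      rw [hcK, map_mul, map_pow]
      calc v i₀ (c : K) * v i₀ (s : K) ^ n ≤ 1 * v i₀ (s : K) ^ n :=
            mul_le_mul_left ((hR _).mp c.2 i₀) _
        _ = v i₀ (s : K) ^ n := one_mul _
    exact absurd hn (not_lt.mpr h1)
  have hsat : ∀ (r : R) (m : K), m ∈ M → r ∉ Ideal.span {s} →
      (∃ m' ∈ M, r • m = s • m') → ∃ m'' ∈ M, m = s • m'' := by
    intro r m hm hr ⟨m', hm', hrm⟩
    have hr1 : v i₀ (r : K) = 1 := by
      rcases lt_or_eq_of_le ((hR _).mp r.2 i₀) with h | h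
      · exact absurd (hdiv r h) hr
      · exact h
    have hrm' : (r : K) * m = (s : K) * m' := hrm
    refine ⟨m / (s : K), ?_, ?_⟩
    · rw [hM]
      intro i
      by_cases hi : i = i₀
      · subst hi
        have hr0 : (r : K) ≠ 0 := (Valuation.ne_zero_iff _).mp (by rw [hr1]; exact one_ne_zero)
        have e : m / (s : K) = m' / (r : K) := by
          field_simp
          linear_combination hrm'
        rw [e, map_div₀, hr1, div_one]
        exact (hM _).mp hm' _
      · rw [map_div₀, hs1 i hi, div_one]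
        exact (hM _).mp hm i
    · show m = (s : K) * (m / (s : K))
      rw [mul_div_cancel₀ _ hs0]
  obtain ⟨m, hm, hMm⟩ := S36LI_core hjac hK M hfg hsat
  refine ⟨m, hm, hMm, fun i ⟨f, hf, hfi⟩ => ?_⟩
  apply le_antisymm ((hM _).mp hm i)
  rw [hMm] at hf
  obtain ⟨r, rfl⟩ := Submodule.mem_span_singleton.mp hf
  rw [← hfi]
  show v i ((r : K) * m) ≤ v i m
  rw [map_mul]
  calc v i (r : K) * v i m ≤ 1 * v i m := mul_le_mul_left ((hR _).mp r.2 i) _
    _ = v i m := one_mul _

end val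

end Fermat.Agent.S36
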