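import Mathlib
import Fermat.Agent.S36.Int3Sub
import Fermat.Agent.S36.Cart3

/-!
# TRACK 10 (S36), package F7 = LI, value form (R15) (helper19).  Prefix `S36LV_`.

Abstract, on the shapes of `S36/Int3Sub.lean` (INT, helper17) and `S36/Cart3.lean`
(CART, helper5).

`K₀ ⊂ K` a subfield (the `I`-invariant functions; `K₀ = ⊤` is allowed),
`Λ = {x ∈ K₀ | ∀ i, v i x ≤ 1}`, `y : Λ →+* k` a closed point, `Λ_y = S36IT_loc Λ y`,
`M^u = {f ∈ K₀ | ∀ i, v i f ^ n * v i u ≤ 1}` (i.e. `fⁿ u ∈ Λ`).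

`S36LV_main`: if
* (CART) `H : S36CA_Branch Λ y ρ s O`, where `ρ` is the reduction along the valuation `v i₀`
  (`hker : ρ f = 0 ↔ v i₀ f < 1`) and `s` is a unit at all other valuations through `y` (`hs1`),
* (FIN) `M^u` is finitely generated over `Λ`,
* (EXACT) for every `i` through `y` there is `f ∈ K₀` with `fⁿ u ∈ Λ_y` and `v i (fⁿ u) = 1`,
then there is `f ∈ M^u` with `v i (fⁿ u) = 1` for EVERY `i` through `y`;
`S36LV_y_ne_zero`: then `y (fⁿ u) ≠ 0`.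
-/

set_option autoImplicit false

namespace Fermat.Agent.S36

section LiVal

variable {K : Type*} [Field K] {Γ₀ : Type*} [LinearOrderedCommGroupWithZero Γ₀] {ι : Type*}
  {k : Type*} [Field k]

/-- the `R`-submodule of `K` cut out, inside a subfield, by bounds on valuations which are
`≤ 1` on `R`. -/
def S36LV_ball (v : ι → Valuation K Γ₀) (K₀ : Subfield K) (R : Subring K)
    (hR₀ : ∀ x : K, x ∈ R → x ∈ K₀) (hR : ∀ x : K, x ∈ R → ∀ i, v i x ≤ 1)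
    (d : ι → Γ₀) : Submodule R K where
  carrier := {x | x ∈ K₀ ∧ ∀ i, v i x ≤ d i}
  add_mem' := by
    intro a b ha hb
    exact ⟨K₀.add_mem ha.1 hb.1, fun i =>
      le_trans (Valuation.map_add _ _ _) (max_le (ha.2 i) (hb.2 i))⟩
  zero_mem' := by
    refine ⟨K₀.zero_mem, fun i => ?_⟩
    rw [map_zero]
    exact zero_le
  smul_mem' := by
    intro c x hx
    refine ⟨K₀.mul_mem (hR₀ _ c.2) hx.1, fun i => ?_⟩
    show v i ((c : K) * x) ≤ d i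
    rw [map_mul]
    calc v i (c : K) * v i x ≤ 1 * d i := mul_le_mul' (hR _ c.2 i) (hx.2 i)
      _ = d i := one_mul _

theorem S36LV_mem_ball {v : ι → Valuation K Γ₀} {K₀ : Subfield K} {R : Subring K}
    {hR₀ : ∀ x : K, x ∈ R → x ∈ K₀}
    {hR : ∀ x : K, x ∈ R → ∀ i, v i x ≤ 1} {d : ι → Γ₀} {x : K} :
    x ∈ S36LV_ball v K₀ R hR₀ hR d ↔ x ∈ K₀ ∧ ∀ i, v i x ≤ d i := Iff.rfl

/-- comparison of values by `n`-th powers. -/
theorem S36LV_pow_le_iff {a b c : Γ₀} {n : ℕ} (hn : n ≠ 0) (hc : c ≠ 0) (hb : b ^ n * c = 1) :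
    a ^ n * c ≤ 1 ↔ a ≤ b := by
  rw [← hb, mul_le_mul_iff_left₀ (zero_lt_iff.2 hc)]
  exact pow_le_pow_iff_left₀ zero_le zero_le hn

/-- globalisation: a local section of `M^u` at `y` becomes a global one after multiplication
by a denominator not vanishing at `y`. -/
theorem S36LV_globalise (v : ι → Valuation K Γ₀) (K₀ : Subfield K) (Λ : Subring K)
    (hΛ : ∀ x : K, x ∈ Λ ↔ x ∈ K₀ ∧ ∀ i, v i x ≤ 1)
    (hfin : ∀ x : K, x ∈ K₀ → x ≠ 0 → {i | 1 < v i x}.Finite)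
    (harch : ∀ (i : ι) (d x : K), v i d < 1 → ∃ n : ℕ, v i d ^ n * v i x ≤ 1)
    (y : Λ →+* k) (u : K) (hu₀ : u ∈ K₀) (n : ℕ) (hn : n ≠ 0) (x : K) (hx₀ : x ∈ K₀)
    (hx : ∀ i ∈ S36IT_thru v Λ y, v i x ^ n * v i u ≤ 1) :
    ∃ e : Λ, y e ≠ 0 ∧ ∀ i, v i ((e : K) * x) ^ n * v i u ≤ 1 := by
  obtain ⟨e, he, hex⟩ := S36IT_exists_den_sub v K₀ Λ hΛ hfin harch y (x ^ n * u)
    (K₀.mul_mem (K₀.pow_mem hx₀ n) hu₀) (fun i hi => by
      rw [map_mul, map_pow]; exact hx i hi)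
  refine ⟨e, he, fun i => ?_⟩
  have h1 := ((hΛ _).1 hex).2 i
  have h2 := ((hΛ _).1 e.2).2 i
  obtain ⟨m, rfl⟩ := Nat.exists_eq_succ_of_ne_zero hn
  rw [map_mul, map_mul, map_pow] at h1
  rw [map_mul, mul_pow]
  calc v i (e : K) ^ (m + 1) * v i x ^ (m + 1) * v i u
      = v i (e : K) ^ m * (v i (e : K) * (v i x ^ (m + 1) * v i u)) := by
        rw [pow_succ]; simp only [mul_assoc]
    _ ≤ 1 * 1 := mul_le_mul' (pow_le_one' h2 m) h1
    _ = 1 := one_mul _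

/-- **LI, value form (R15)**: at a closed point `y` with a Cartier branch (R14), the module
`M^u` has a section `f` with `fⁿ u` a unit at every valuation through `y`. -/
theorem S36LV_main {κ : Type*} [Field κ] (v : ι → Valuation K Γ₀) (K₀ : Subfield K)
    (Λ : Subring K) (hΛ : ∀ x : K, x ∈ Λ ↔ x ∈ K₀ ∧ ∀ i, v i x ≤ 1)
    (hfin : ∀ x : K, x ∈ K₀ → x ≠ 0 → {i | 1 < v i x}.Finite)
    (harch : ∀ (i : ι) (d x : K), v i d < 1 → ∃ n : ℕ, v i d ^ n * v i x ≤ 1)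
    (hfrac : ∀ x : K, x ∈ K₀ → ∃ b : Λ, (b : K) ≠ 0 ∧ (b : K) * x ∈ Λ)
    (y : Λ →+* k) (ρ : Λ →+* κ) (s : Λ) (O : ValuationSubring κ)
    (H : S36CA_Branch Λ y ρ s O) (hs0 : (s : K) ≠ 0)
    (i₀ : ι) (hker : ∀ f : Λ, ρ f = 0 ↔ v i₀ (f : K) < 1)
    (hs1 : ∀ i ∈ S36IT_thru v Λ y, i ≠ i₀ → v i (s : K) = 1)
    (u : K) (hu₀ : u ∈ K₀) (hu : u ≠ 0) (n : ℕ) (hn : n ≠ 0)
    (MU : Submodule Λ K) (hMU : ∀ f : K, f ∈ MU ↔ f ∈ K₀ ∧ ∀ i, v i f ^ n * v i u ≤ 1)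
    (hfg : MU.FG)
    (hex : ∀ i ∈ S36IT_thru v Λ y, ∃ f : K, f ∈ K₀ ∧
      (∀ j ∈ S36IT_thru v Λ y, v j f ^ n * v j u ≤ 1) ∧ v i f ^ n * v i u = 1) :
    ∃ f ∈ MU, ∀ i ∈ S36IT_thru v Λ y, v i f ^ n * v i u = 1 := by
  classical
  have hi₀ : i₀ ∈ S36IT_thru v Λ y := fun x hx => H.hthr x ((hker x).2 hx)
  have hloc := S36IT_mem_loc_iff_sub v K₀ Λ hΛ hfin harch y
  have hΛle : ∀ x : K, x ∈ Λ → ∀ i, v i x ≤ 1 := fun x hx => ((hΛ x).1 hx).2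
  have hR₀ : ∀ x : K, x ∈ S36IT_loc Λ y → x ∈ K₀ := fun x hx => ((hloc x).1 hx).1
  have hR : ∀ x : K, x ∈ S36IT_loc Λ y → ∀ i : S36IT_thru v Λ y, v i x ≤ 1 :=
    fun x hx i => ((hloc x).1 hx).2 i i.2
  have hex' : ∀ i : S36IT_thru v Λ y, ∃ f : K, f ∈ K₀ ∧
      (∀ j ∈ S36IT_thru v Λ y, v j f ^ n * v j u ≤ 1) ∧ v i f ^ n * v i u = 1 :=
    fun i => hex i i.2
  choose F hF₀ hFle hFeq using hex'
  set d : S36IT_thru v Λ y → Γ₀ := fun i => v i (F i) with hd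
  set M : Submodule (S36IT_loc Λ y) K :=
    S36LV_ball (fun i : S36IT_thru v Λ y => v i) K₀ (S36IT_loc Λ y) hR₀ hR d with hM
  have hvu : ∀ i, v i u ≠ 0 := fun i => (Valuation.ne_zero_iff _).2 hu
  have hmemM : ∀ x : K, x ∈ M ↔ x ∈ K₀ ∧ ∀ i ∈ S36IT_thru v Λ y, v i x ^ n * v i u ≤ 1 := by
    intro x
    rw [hM, S36LV_mem_ball]
    constructor
    · rintro ⟨h0, h⟩
      exact ⟨h0, fun i hi => (S36LV_pow_le_iff hn (hvu i) (hFeq ⟨i, hi⟩)).2 (h ⟨i, hi⟩)⟩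
    · rintro ⟨h0, h⟩
      exact ⟨h0, fun i => (S36LV_pow_le_iff hn (hvu i) (hFeq i)).1 (h i i.2)⟩
  -- finite generation of the local module
  have hfgM : M.FG := by
    obtain ⟨S, hS⟩ := hfg
    refine ⟨S, le_antisymm ?_ ?_⟩
    · rw [Submodule.span_le]
      intro x hx
      have hxMU : x ∈ MU := hS ▸ Submodule.subset_span hx
      rw [hMU] at hxMU
      exact (hmemM x).2 ⟨hxMU.1, fun i _ => hxMU.2 i⟩
    · intro x hx
      obtain ⟨hx0, hxT⟩ := (hmemM x).1 hx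
      obtain ⟨e, he, hee⟩ := S36LV_globalise v K₀ Λ hΛ hfin harch y u hu₀ n hn x hx0 hxT
      have hexMU : (e : K) * x ∈ MU := (hMU _).2 ⟨K₀.mul_mem ((hΛ _).1 e.2).1 hx0, hee⟩
      rw [← hS] at hexMU
      have key : ∀ z ∈ Submodule.span Λ (S : Set K),
          z ∈ Submodule.span (S36IT_loc Λ y) (S : Set K) := by
        intro z hz
        refine Submodule.span_induction ?_ ?_ ?_ ?_ hz
        · intro a ha
          exact Submodule.subset_span ha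
        · exact Submodule.zero_mem _
        · intro a b _ _ ha hb
          exact Submodule.add_mem _ ha hb
        · intro c a _ ha
          have : c • a = (S36CA_incl Λ y c) • a := rfl
          rw [this]
          exact Submodule.smul_mem _ _ ha
      have h1 := key _ hexMU
      have he0 : (e : K) ≠ 0 := S36IT_den_ne_zero he
      have h2 := Submodule.smul_mem _ (⟨(e : K)⁻¹, S36IT_inv_mem_loc he⟩ : S36IT_loc Λ y) h1
      have h3 : (⟨(e : K)⁻¹, S36IT_inv_mem_loc he⟩ : S36IT_loc Λ y) • ((e : K) * x) = x := by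
        show (e : K)⁻¹ * ((e : K) * x) = x
        rw [← mul_assoc, inv_mul_cancel₀ he0, one_mul]
      rwa [h3] at h2
  -- rank one
  have hrank : ∀ m ∈ M, ∀ m' ∈ M, ∃ a a' : S36IT_loc Λ y,
      (a ≠ 0 ∨ a' ≠ 0) ∧ a • m = a' • m' := by
    intro m hm m' hm'
    rcases eq_or_ne m' 0 with rfl | h0
    · exact ⟨0, 1, Or.inr one_ne_zero, by simp⟩
    · obtain ⟨b, hb0, hb⟩ := hfrac (m / m')
        (K₀.div_mem ((hmemM m).1 hm).1 ((hmemM m').1 hm').1)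
      refine ⟨S36CA_incl Λ y b, ⟨_, S36IT_le_loc Λ y hb⟩, Or.inl ?_, ?_⟩
      · intro h
        exact hb0 (congrArg Subtype.val h)
      · show (b : K) * m = (b : K) * (m / m') * m'
        field_simp
  -- saturation
  have hvs : v i₀ (s : K) < 1 := (hker s).1 H.hρs
  have hsat : ∀ m ∈ M, ∀ m' ∈ M, ∀ r : S36IT_loc Λ y, ¬ S36CA_incl Λ y s ∣ r →
      r • m = S36CA_incl Λ y s • m' → ∃ m'' ∈ M, m = S36CA_incl Λ y s • m'' := by
    intro m hm m' hm' r hr hrm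
    have hr1 : v i₀ (r : K) = 1 := by
      refine le_antisymm (hR _ r.2 ⟨i₀, hi₀⟩) (not_lt.1 fun hlt => hr ?_)
      obtain ⟨a, d0, hd0, hra⟩ := (S36CA_mem_loc Λ y _).1 r.2
      have hva : v i₀ (a : K) < 1 := by
        rw [← hra, map_mul, S36IT_val_den hΛle hi₀ hd0, mul_one]
        exact hlt
      exact H.dvd_of_red r a d0 hd0 hra ((hker a).2 hva)
    have hrm' : (r : K) * m = (s : K) * m' := hrm
    have hr0 : (r : K) ≠ 0 := (Valuation.ne_zero_iff _).1 (by rw [hr1]; exact one_ne_zero)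
    have e : m / (s : K) = m' / (r : K) := by
      field_simp
      linear_combination hrm'
    refine ⟨m / (s : K), ?_, ?_⟩
    · rw [hM, S36LV_mem_ball]
      have hmm := (S36LV_mem_ball.1 hm)
      have hmm' := (S36LV_mem_ball.1 hm')
      refine ⟨K₀.div_mem hmm.1 ((hΛ _).1 s.2).1, fun i => ?_⟩
      by_cases hi : (i : ι) = i₀
      · show v (i : ι) (m / (s : K)) ≤ d i
        rw [e, map_div₀]
        have : v (i : ι) (r : K) = 1 := by rw [hi]; exact hr1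
        rw [this, div_one]
        exact hmm'.2 i
      · show v (i : ι) (m / (s : K)) ≤ d i
        rw [map_div₀, hs1 i i.2 hi, div_one]
        exact hmm.2 i
    · show m = (s : K) * (m / (s : K))
      rw [mul_div_cancel₀ _ hs0]
  -- `hsep` data
  have hVarch : ∀ r : K, r ≠ 0 → ∃ j : ℕ, r / (s : K) ^ j ∉ (v i₀).valuationSubring := by
    intro r hr
    obtain ⟨j, hj⟩ := harch i₀ s r⁻¹ hvs
    refine ⟨j + 1, fun hmem => ?_⟩
    have h1 : v i₀ (r / (s : K) ^ (j + 1)) ≤ 1 := hmem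
    have hvs0 : v i₀ (s : K) ≠ 0 := (Valuation.ne_zero_iff _).2 hs0
    have hvr0 : v i₀ r ≠ 0 := (Valuation.ne_zero_iff _).2 hr
    rw [map_div₀, map_pow, div_le_one₀ (zero_lt_iff.2 (pow_ne_zero _ hvs0))] at h1
    rw [map_inv₀, ← div_eq_mul_inv, div_le_one₀ (zero_lt_iff.2 hvr0)] at hj
    have h2 : v i₀ (s : K) ^ (j + 1) < v i₀ (s : K) ^ j := by
      rw [pow_succ]
      exact mul_lt_of_lt_one_right (zero_lt_iff.2 (pow_ne_zero _ hvs0)) hvs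
    exact absurd (lt_of_lt_of_le h2 (le_trans hj h1)) (lt_irrefl _)
  obtain ⟨m₀, hm₀, hMm₀⟩ := H.principal (v i₀).valuationSubring
    (fun f => hΛle _ f.2 i₀)
    (fun d hd => by
      show v i₀ ((d : K)⁻¹) ≤ 1
      rw [map_inv₀, S36IT_val_den hΛle hi₀ hd, inv_one])
    hVarch M hfgM hrank hsat
  -- the generator is exact at every valuation through `y`
  have hm₀' := (hmemM m₀).1 hm₀
  have hexact : ∀ i ∈ S36IT_thru v Λ y, v i m₀ ^ n * v i u = 1 := by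
    intro i hi
    have hFi : F ⟨i, hi⟩ ∈ M := (hmemM _).2 ⟨hF₀ _, hFle _⟩
    rw [hMm₀] at hFi
    obtain ⟨r, hr⟩ := Submodule.mem_span_singleton.1 hFi
    have hr' : (r : K) * m₀ = F ⟨i, hi⟩ := hr
    have h1 : v i (F ⟨i, hi⟩) ≤ v i m₀ := by
      rw [← hr', map_mul]
      calc v i (r : K) * v i m₀ ≤ 1 * v i m₀ := mul_le_mul' (hR _ r.2 ⟨i, hi⟩) le_rfl
        _ = v i m₀ := one_mul _
    have h2 : v i m₀ ≤ v i (F ⟨i, hi⟩) := (S36LV_mem_ball.1 hm₀).2 ⟨i, hi⟩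
    have h3 : v i m₀ = v i (F ⟨i, hi⟩) := le_antisymm h2 h1
    rw [h3]
    exact hFeq ⟨i, hi⟩
  -- globalise
  obtain ⟨e, he, hee⟩ := S36LV_globalise v K₀ Λ hΛ hfin harch y u hu₀ n hn m₀ hm₀'.1
    (fun i hi => (hexact i hi).le)
  refine ⟨(e : K) * m₀, (hMU _).2 ⟨K₀.mul_mem ((hΛ _).1 e.2).1 hm₀'.1, hee⟩, fun i hi => ?_⟩
  rw [map_mul, S36IT_val_den hΛle hi he, one_mul]
  exact hexact i hi

/-- an element of `Λ` which has value `1` at every valuation through `y` does not vanish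
at `y`. -/
theorem S36LV_y_ne_zero (v : ι → Valuation K Γ₀) (K₀ : Subfield K)
    (Λ : Subring K) (hΛ : ∀ x : K, x ∈ Λ ↔ x ∈ K₀ ∧ ∀ i, v i x ≤ 1)
    (hfin : ∀ x : K, x ∈ K₀ → x ≠ 0 → {i | 1 < v i x}.Finite)
    (harch : ∀ (i : ι) (d x : K), v i d < 1 → ∃ n : ℕ, v i d ^ n * v i x ≤ 1)
    (y : Λ →+* k) (z : Λ) (hz0 : (z : K) ≠ 0)
    (hz : ∀ i ∈ S36IT_thru v Λ y, v i (z : K) = 1) : y z ≠ 0 := by
  obtain ⟨d, hd, hdz⟩ := S36IT_exists_den_sub v K₀ Λ hΛ hfin harch y (z : K)⁻¹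
    (K₀.inv_mem ((hΛ _).1 z.2).1) (fun i hi => by rw [map_inv₀, hz i hi, inv_one])
  intro h0
  apply hd
  have e : d = ⟨(d : K) * (z : K)⁻¹, hdz⟩ * z := by
    apply Subtype.ext
    show (d : K) = (d : K) * (z : K)⁻¹ * (z : K)
    rw [mul_assoc, inv_mul_cancel₀ hz0, mul_one]
  rw [e, map_mul, h0, mul_zero]

/-- **LI, value form (R15)**, with the value at `y`: there is `f ∈ M^u` such that `fⁿ u ∈ Λ`
does not vanish at `y`. -/
theorem S36LV_main' {κ : Type*} [Field κ] (v : ι → Valuation K Γ₀) (K₀ : Subfield K)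
    (Λ : Subring K) (hΛ : ∀ x : K, x ∈ Λ ↔ x ∈ K₀ ∧ ∀ i, v i x ≤ 1)
    (hfin : ∀ x : K, x ∈ K₀ → x ≠ 0 → {i | 1 < v i x}.Finite)
    (harch : ∀ (i : ι) (d x : K), v i d < 1 → ∃ n : ℕ, v i d ^ n * v i x ≤ 1)
    (hfrac : ∀ x : K, x ∈ K₀ → ∃ b : Λ, (b : K) ≠ 0 ∧ (b : K) * x ∈ Λ)
    (y : Λ →+* k) (ρ : Λ →+* κ) (s : Λ) (O : ValuationSubring κ)
    (H : S36CA_Branch Λ y ρ s O) (hs0 : (s : K) ≠ 0)
    (i₀ : ι) (hker : ∀ f : Λ, ρ f = 0 ↔ v i₀ (f : K) < 1)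
    (hs1 : ∀ i ∈ S36IT_thru v Λ y, i ≠ i₀ → v i (s : K) = 1)
    (u : K) (hu₀ : u ∈ K₀) (hu : u ≠ 0) (n : ℕ) (hn : n ≠ 0)
    (MU : Submodule Λ K) (hMU : ∀ f : K, f ∈ MU ↔ f ∈ K₀ ∧ ∀ i, v i f ^ n * v i u ≤ 1)
    (hfg : MU.FG)
    (hex : ∀ i ∈ S36IT_thru v Λ y, ∃ f : K, f ∈ K₀ ∧
      (∀ j ∈ S36IT_thru v Λ y, v j f ^ n * v j u ≤ 1) ∧ v i f ^ n * v i u = 1) :
    ∃ f ∈ MU, ∃ hf : f ^ n * u ∈ Λ, y ⟨f ^ n * u, hf⟩ ≠ 0 := by
  obtain ⟨f, hf, hfv⟩ := S36LV_main v K₀ Λ hΛ hfin harch hfrac y ρ s O H hs0 i₀ hker hs1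
    u hu₀ hu n hn MU hMU hfg hex
  have hi₀ : i₀ ∈ S36IT_thru v Λ y := fun x hx => H.hthr x ((hker x).2 hx)
  have hfM := (hMU f).1 hf
  have hmem : f ^ n * u ∈ Λ := by
    rw [hΛ]
    refine ⟨K₀.mul_mem (K₀.pow_mem hfM.1 n) hu₀, fun i => ?_⟩
    rw [map_mul, map_pow]
    exact hfM.2 i
  refine ⟨f, hf, hmem, ?_⟩
  have hne : f ^ n * u ≠ 0 := by
    have := hfv i₀ hi₀
    rw [← map_pow, ← map_mul] at this
    exact (Valuation.ne_zero_iff _).1 (by rw [this]; exact one_ne_zero)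
  exact S36LV_y_ne_zero v K₀ Λ hΛ hfin harch y ⟨f ^ n * u, hmem⟩ hne
    (fun i hi => by
      show v i (f ^ n * u) = 1
      rw [map_mul, map_pow]
      exact hfv i hi)

end LiVal

end Fermat.Agent.S36
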