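import Mathlib
import Fermat.Agent.S36.LiVal

/-!
# TRACK 10 (S36), package F7 = LI (R15), the EXACTNESS input (helper19).  Prefix `S36LV_`.

`S36LV_exact` produces the hypothesis `hex` of `S36LV_main` from

* (vertical generators) for each of the finitely many vertical valuations `i ∈ Vt` through `y`
  an element `t i ∈ K₀` which generates the value group of `v i` on `K₀` and is a unit at every
  other valuation through `y` ((R13)/(R14): `q`, `ϖ_τ`, `t₁`, `t₂`);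
* (`hun`) the vertical part of `u` is an `n`-th power ((R8): `u` is normalised);
* (`hgen`, horizontal separation = Riemann–Roch on the generic fibre, SEP-H) for every horizontal
  `i` through `y` a function `g ∈ K₀` with `gⁿ u` regular at all horizontal valuations through
  `y` and a unit at `i`.
-/

set_option autoImplicit false

namespace Fermat.Agent.S36

section LiExact

variable {K : Type*} [Field K] {Γ₀ : Type*} [LinearOrderedCommGroupWithZero Γ₀] {ι : Type*}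
  {k : Type*} [Field k]

/-- vertical normalisation: a function can be corrected by a product of vertical generators
(a unit at all horizontal valuations through `y`) so that `fⁿ u` becomes a unit at all vertical
valuations through `y`. -/
theorem S36LV_vert (v : ι → Valuation K Γ₀) (K₀ : Subfield K) (T : Set ι)
    (u : K) (n : ℕ)
    (Vt : Finset ι) (hVt : ∀ i ∈ Vt, i ∈ T)
    (t : ι → K) (ht₀ : ∀ i ∈ Vt, t i ∈ K₀) (ht0 : ∀ i ∈ Vt, t i ≠ 0)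
    (ht1 : ∀ i ∈ Vt, ∀ j ∈ T, j ≠ i → v j (t i) = 1)
    (htgen : ∀ i ∈ Vt, ∀ x ∈ K₀, x ≠ 0 → ∃ a : ℤ, v i x = v i (t i) ^ a)
    (hun : ∀ i ∈ Vt, ∃ c : ℤ, v i u = (v i (t i) ^ c) ^ n)
    (g : K) (hg₀ : g ∈ K₀) (hg0 : g ≠ 0) :
    ∃ w ∈ K₀, w ≠ 0 ∧ (∀ j ∈ T, j ∉ Vt → v j w = 1) ∧
      ∀ i ∈ Vt, v i (g * w) ^ n * v i u = 1 := by
  classical
  have hA : ∀ i : ι, ∃ a : ℤ, i ∈ Vt → v i g = v i (t i) ^ a := by
    intro i
    by_cases hi : i ∈ Vt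
    · obtain ⟨a, ha⟩ := htgen i hi g hg₀ hg0
      exact ⟨a, fun _ => ha⟩
    · exact ⟨0, fun h => absurd h hi⟩
  have hC : ∀ i : ι, ∃ c : ℤ, i ∈ Vt → v i u = (v i (t i) ^ c) ^ n := by
    intro i
    by_cases hi : i ∈ Vt
    · obtain ⟨c, hc⟩ := hun i hi
      exact ⟨c, fun _ => hc⟩
    · exact ⟨0, fun h => absurd h hi⟩
  choose a ha using hA
  choose c hc using hC
  refine ⟨∏ i ∈ Vt, t i ^ (-a i - c i), ?_, ?_, ?_, ?_⟩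
  · exact K₀.prod_mem fun i hi => K₀.zpow_mem (ht₀ i hi) _
  · exact Finset.prod_ne_zero_iff.2 fun i hi => zpow_ne_zero _ (ht0 i hi)
  · intro j hj hjV
    rw [map_prod]
    refine Finset.prod_eq_one fun i hi => ?_
    have hji : j ≠ i := fun h => hjV (h ▸ hi)
    rw [map_zpow₀, ht1 i hi j hj hji, one_zpow]
  · intro i hi
    have hvt0 : v i (t i) ≠ 0 := (Valuation.ne_zero_iff _).2 (ht0 i hi)
    have hw : v i (∏ i ∈ Vt, t i ^ (-a i - c i)) = v i (t i) ^ (-a i - c i) := by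
      rw [map_prod, Finset.prod_eq_single i]
      · rw [map_zpow₀]
      · intro i' hi' hne
        rw [map_zpow₀, ht1 i' hi' i (hVt i hi) (Ne.symm hne), one_zpow]
      · intro h
        exact absurd hi h
    rw [map_mul, hw, ha i hi, hc i hi, ← zpow_add₀ hvt0, ← mul_pow, ← zpow_add₀ hvt0]
    have : a i + (-a i - c i) + c i = 0 := by ring
    rw [this, zpow_zero, one_pow]

/-- **EXACT** (hypothesis `hex` of `S36LV_main`) from vertical generators and horizontal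
separation. -/
theorem S36LV_exact (v : ι → Valuation K Γ₀) (K₀ : Subfield K) (T : Set ι)
    (u : K) (n : ℕ)
    (Vt : Finset ι) (hVt : ∀ i ∈ Vt, i ∈ T)
    (t : ι → K) (ht₀ : ∀ i ∈ Vt, t i ∈ K₀) (ht0 : ∀ i ∈ Vt, t i ≠ 0)
    (ht1 : ∀ i ∈ Vt, ∀ j ∈ T, j ≠ i → v j (t i) = 1)
    (htgen : ∀ i ∈ Vt, ∀ x ∈ K₀, x ≠ 0 → ∃ a : ℤ, v i x = v i (t i) ^ a)
    (hun : ∀ i ∈ Vt, ∃ c : ℤ, v i u = (v i (t i) ^ c) ^ n)
    (hgen : ∀ i ∈ T, i ∉ Vt → ∃ g ∈ K₀, g ≠ 0 ∧ v i g ^ n * v i u = 1 ∧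
      ∀ j ∈ T, j ∉ Vt → v j g ^ n * v j u ≤ 1)
    (hgen0 : ∃ g ∈ K₀, g ≠ 0 ∧ ∀ j ∈ T, j ∉ Vt → v j g ^ n * v j u ≤ 1) :
    ∀ i ∈ T, ∃ f : K, f ∈ K₀ ∧ (∀ j ∈ T, v j f ^ n * v j u ≤ 1) ∧ v i f ^ n * v i u = 1 := by
  classical
  -- every admissible `g` can be normalised vertically
  have key : ∀ g ∈ K₀, g ≠ 0 → (∀ j ∈ T, j ∉ Vt → v j g ^ n * v j u ≤ 1) →
      ∃ f ∈ K₀, (∀ j ∈ T, v j f ^ n * v j u ≤ 1) ∧ (∀ i ∈ Vt, v i f ^ n * v i u = 1) ∧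
        ∀ j ∈ T, j ∉ Vt → v j f = v j g := by
    intro g hg₀ hg0 hg
    obtain ⟨w, hw₀, -, hw1, hwV⟩ := S36LV_vert v K₀ T u n Vt hVt t ht₀ ht0 ht1 htgen hun g hg₀ hg0
    have hval : ∀ j ∈ T, j ∉ Vt → v j (g * w) = v j g := fun j hj hjV => by
      rw [map_mul, hw1 j hj hjV, mul_one]
    refine ⟨g * w, K₀.mul_mem hg₀ hw₀, fun j hj => ?_, hwV, hval⟩
    by_cases hjV : j ∈ Vt
    · exact (hwV j hjV).le
    · rw [hval j hj hjV]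
      exact hg j hj hjV
  intro i hi
  by_cases hiV : i ∈ Vt
  · obtain ⟨g, hg₀, hg0, hg⟩ := hgen0
    obtain ⟨f, hf₀, hfle, hfV, -⟩ := key g hg₀ hg0 hg
    exact ⟨f, hf₀, hfle, hfV i hiV⟩
  · obtain ⟨g, hg₀, hg0, hgi, hg⟩ := hgen i hi hiV
    obtain ⟨f, hf₀, hfle, -, hfg⟩ := key g hg₀ hg0 hg
    refine ⟨f, hf₀, hfle, ?_⟩
    rw [hfg i hi hiV]
    exact hgi

/-- **LI, value form (R15), assembled**: CART (R14) at `y` with Cartier generator `s = t i₀`,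
vertical generators `t i` (`i ∈ Vt`), `u` normalised vertically, FIN, and horizontal separation
(SEP-H) give `f ∈ M^u` with `y (fⁿ u) ≠ 0`. -/
theorem S36LV_li {κ : Type*} [Field κ] (v : ι → Valuation K Γ₀) (K₀ : Subfield K)
    (Λ : Subring K) (hΛ : ∀ x : K, x ∈ Λ ↔ x ∈ K₀ ∧ ∀ i, v i x ≤ 1)
    (hfin : ∀ x : K, x ∈ K₀ → x ≠ 0 → {i | 1 < v i x}.Finite)
    (harch : ∀ (i : ι) (d x : K), v i d < 1 → ∃ n : ℕ, v i d ^ n * v i x ≤ 1)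
    (hfrac : ∀ x : K, x ∈ K₀ → ∃ b : Λ, (b : K) ≠ 0 ∧ (b : K) * x ∈ Λ)
    (y : Λ →+* k) (ρ : Λ →+* κ) (s : Λ) (O : ValuationSubring κ)
    (H : S36CA_Branch Λ y ρ s O)
    (i₀ : ι) (hker : ∀ f : Λ, ρ f = 0 ↔ v i₀ (f : K) < 1)
    (u : K) (hu₀ : u ∈ K₀) (hu : u ≠ 0) (n : ℕ) (hn : n ≠ 0)
    (MU : Submodule Λ K) (hMU : ∀ f : K, f ∈ MU ↔ f ∈ K₀ ∧ ∀ i, v i f ^ n * v i u ≤ 1)
    (hfg : MU.FG)
    (Vt : Finset ι) (hVt : ∀ i ∈ Vt, i ∈ S36IT_thru v Λ y) (hi₀ : i₀ ∈ Vt)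
    (t : ι → K) (hst : (s : K) = t i₀) (ht₀ : ∀ i ∈ Vt, t i ∈ K₀) (ht0 : ∀ i ∈ Vt, t i ≠ 0)
    (ht1 : ∀ i ∈ Vt, ∀ j ∈ S36IT_thru v Λ y, j ≠ i → v j (t i) = 1)
    (htgen : ∀ i ∈ Vt, ∀ x ∈ K₀, x ≠ 0 → ∃ a : ℤ, v i x = v i (t i) ^ a)
    (hun : ∀ i ∈ Vt, ∃ c : ℤ, v i u = (v i (t i) ^ c) ^ n)
    (hgen : ∀ i ∈ S36IT_thru v Λ y, i ∉ Vt → ∃ g ∈ K₀, g ≠ 0 ∧ v i g ^ n * v i u = 1 ∧
      ∀ j ∈ S36IT_thru v Λ y, j ∉ Vt → v j g ^ n * v j u ≤ 1)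
    (hgen0 : ∃ g ∈ K₀, g ≠ 0 ∧ ∀ j ∈ S36IT_thru v Λ y, j ∉ Vt → v j g ^ n * v j u ≤ 1) :
    ∃ f ∈ MU, ∃ hf : f ^ n * u ∈ Λ, y ⟨f ^ n * u, hf⟩ ≠ 0 :=
  S36LV_main' v K₀ Λ hΛ hfin harch hfrac y ρ s O H (by rw [hst]; exact ht0 i₀ hi₀) i₀ hker
    (fun i hi hne => by rw [hst]; exact ht1 i₀ hi₀ i hi hne)
    u hu₀ hu n hn MU hMU hfg
    (S36LV_exact v K₀ (S36IT_thru v Λ y) u n Vt hVt t ht₀ ht0 ht1 htgen hun hgen hgen0)

end LiExact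

end Fermat.Agent.S36
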