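import Mathlib
import Fermat.Agent.S24.EvExists

/-!
# TRACK 10 (S36), package F0 (helper3), part 0: the modular unit `f₀ = Δ(qz)/Δ(z)` — definitions

* `S36F0_ser R q : LaurentSeries R` — the formal series `Δ(t^q)/Δ(t) = t^{q-1}·E(t^q)·E(t)⁻¹`
  (`E = ∏ (1 - tⁿ)^{24}`), over any commutative ring `R`; `S36F0_serInv R q` its inverse;
* `S36F0_b q : BFrac`, `S36F0_y q : Mer` — the analytic function `τ ↦ Δ(qτ)/Δ(τ)`;
* `S36F0_thetaHom_b` — the `q`-expansion of `S36F0_b q` is `S36F0_ser ℂ q`;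
* `S36F0_ev_of_mem` — if the series lies in `F_N = modularFunctionFieldBar N`, the analytic
  realisation `ev N` of the corresponding element is `S36F0_y q`.
-/

set_option autoImplicit false

open UpperHalfPlane hiding I
open scoped MatrixGroups Manifold ModularForm
open CongruenceSubgroup ModularCurve EisensteinSeries Function

noncomputable section

namespace Fermat.Agent.S36

open Fermat.Agent.S24

section formal

variable (R : Type*) [CommRing R] (q : ℕ) [NeZero q]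

/-- `E = ∏ (1 - tⁿ)^{24}` over `R`, as a Laurent series. -/
def S36F0_E : LaurentSeries R :=
  HahnSeries.ofPowerSeries ℤ R (dedekindEtaUnit.map (Int.castRingHom R))

/-- `E⁻¹` over `R`, as a Laurent series. -/
def S36F0_Einv : LaurentSeries R :=
  HahnSeries.ofPowerSeries ℤ R (dedekindEtaUnitInv.map (Int.castRingHom R))

theorem S36F0_E_mul_Einv : S36F0_E R * S36F0_Einv R = 1 := by
  rw [S36F0_E, S36F0_Einv, ← map_mul, ← map_mul, dedekindEtaUnit_mul_inv, map_one, map_one]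

/-- the formal `Δ(t^q)/Δ(t) = t^{q-1}·E(t^q)·E(t)⁻¹`. -/
def S36F0_ser : LaurentSeries R :=
  HahnSeries.single ((q : ℤ) - 1) (1 : R) * qExpand R q (S36F0_E R) * S36F0_Einv R

/-- the formal `Δ(t)/Δ(t^q) = t^{1-q}·E(t)·E(t^q)⁻¹`. -/
def S36F0_serInv : LaurentSeries R :=
  HahnSeries.single (1 - (q : ℤ)) (1 : R) * S36F0_E R * qExpand R q (S36F0_Einv R)

theorem S36F0_ser_mul_serInv : S36F0_ser R q * S36F0_serInv R q = 1 := by
  have h1 : HahnSeries.single ((q : ℤ) - 1) (1 : R) * HahnSeries.single (1 - (q : ℤ)) (1 : R)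
      = 1 := by
    rw [HahnSeries.single_mul_single]
    simp
  have h2 : qExpand R q (S36F0_E R) * qExpand R q (S36F0_Einv R) = 1 := by
    rw [← map_mul, S36F0_E_mul_Einv, map_one]
  have h3 := S36F0_E_mul_Einv R
  rw [S36F0_ser, S36F0_serInv]
  calc HahnSeries.single ((q : ℤ) - 1) (1 : R) * qExpand R q (S36F0_E R) * S36F0_Einv R *
        (HahnSeries.single (1 - (q : ℤ)) (1 : R) * S36F0_E R * qExpand R q (S36F0_Einv R))
      = (HahnSeries.single ((q : ℤ) - 1) (1 : R) * HahnSeries.single (1 - (q : ℤ)) (1 : R)) *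
        (qExpand R q (S36F0_E R) * qExpand R q (S36F0_Einv R)) *
        (S36F0_E R * S36F0_Einv R) := by ring
    _ = 1 := by rw [h1, h2, h3, one_mul, one_mul]

end formal

section coeffMap

variable {R S : Type*} [CommRing R] [CommRing S] (φ : R →+* S) (q : ℕ) [NeZero q]

theorem S36F0_coeffMap_E : coeffMap φ (S36F0_E R) = S36F0_E S := by
  rw [S36F0_E, S36F0_E, coeffMap_ofPowerSeries,
    ← RingHom.comp_apply (PowerSeries.map φ) (PowerSeries.map (Int.castRingHom R)),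
    ← PowerSeries.map_comp, RingHom.ext_int (φ.comp (Int.castRingHom R)) (Int.castRingHom S)]

theorem S36F0_coeffMap_Einv : coeffMap φ (S36F0_Einv R) = S36F0_Einv S := by
  rw [S36F0_Einv, S36F0_Einv, coeffMap_ofPowerSeries,
    ← RingHom.comp_apply (PowerSeries.map φ) (PowerSeries.map (Int.castRingHom R)),
    ← PowerSeries.map_comp, RingHom.ext_int (φ.comp (Int.castRingHom R)) (Int.castRingHom S)]

theorem S36F0_coeffMap_ser : coeffMap φ (S36F0_ser R q) = S36F0_ser S q := by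
  rw [S36F0_ser, S36F0_ser, map_mul, map_mul, coeffMap_single, map_one, coeffMap_qExpand,
    S36F0_coeffMap_E, S36F0_coeffMap_Einv]

theorem S36F0_coeffMap_serInv : coeffMap φ (S36F0_serInv R q) = S36F0_serInv S q := by
  rw [S36F0_serInv, S36F0_serInv, map_mul, map_mul, coeffMap_single, map_one, coeffMap_qExpand,
    S36F0_coeffMap_E, S36F0_coeffMap_Einv]

end coeffMap

section analytic

variable (q : ℕ) [NeZero q]

/-- `τ ↦ Δ(qτ)/Δ(τ)` as an element of `BFrac`. -/
def S36F0_b : BFrac :=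
  algebraMap BddSub BFrac (Dgen q) / algebraMap BddSub BFrac (Dgen 1)

/-- `τ ↦ Δ(qτ)/Δ(τ)` as an element of `Mer`. -/
def S36F0_y : Mer := bToMer (S36F0_b q)

theorem S36F0_b_ne_zero : S36F0_b q ≠ 0 :=
  div_ne_zero (algebraMap_Dgen_ne_zero q) (algebraMap_Dgen_ne_zero 1)

theorem S36F0_y_ne_zero : S36F0_y q ≠ 0 :=
  (map_ne_zero bToMer).mpr (S36F0_b_ne_zero q)

theorem S36F0_y_eq : S36F0_y q =
    algebraMap Hol Mer (bddToHol (Dgen q)) / algebraMap Hol Mer (bddToHol (Dgen 1)) := by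
  rw [S36F0_y, S36F0_b, map_div₀, bToMer_algebraMap, bToMer_algebraMap]

/-- the expansion of `Δ(dτ)`: `t^d · E(t^d)`. -/
theorem S36F0_thetaHom_Dgen (d : ℕ) [NeZero d] :
    thetaHom (algebraMap BddSub BFrac (Dgen d)) =
      HahnSeries.single (d : ℤ) (1 : ℂ) * qExpand ℂ d (S36F0_E ℂ) := by
  rw [thetaHom_algebraMap]
  show HahnSeries.ofPowerSeries ℤ ℂ (qExpansion 1 (scaleFun d discFun)) = _
  rw [ofPowerSeries_qExpansion_scaleFun discFun_mem_BddSub, qExpansion_discFun, map_mul,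
    PowerSeries.map_X, map_mul, HahnSeries.ofPowerSeries_X, map_mul, qExpand_single,
    mul_one, S36F0_E, dedekindEtaUnit]

theorem S36F0_thetaHom_b : thetaHom (S36F0_b q) = S36F0_ser ℂ q := by
  have h1 := S36F0_thetaHom_Dgen 1
  rw [qExpand_one_apply] at h1
  have hD : thetaHom (algebraMap BddSub BFrac (Dgen 1)) ≠ 0 :=
    (map_ne_zero thetaHom).mpr (algebraMap_Dgen_ne_zero 1)
  rw [S36F0_b, map_div₀, div_eq_iff hD, S36F0_thetaHom_Dgen q, h1, S36F0_ser]
  have h2 : HahnSeries.single ((q : ℤ) - 1) (1 : ℂ) * HahnSeries.single ((1 : ℕ) : ℤ) (1 : ℂ)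
      = HahnSeries.single (q : ℤ) (1 : ℂ) := by
    rw [HahnSeries.single_mul_single]
    simp
  have h3 : S36F0_Einv ℂ * S36F0_E ℂ = 1 := by rw [mul_comm]; exact S36F0_E_mul_Einv ℂ
  calc HahnSeries.single (q : ℤ) (1 : ℂ) * qExpand ℂ q (S36F0_E ℂ)
      = (HahnSeries.single ((q : ℤ) - 1) (1 : ℂ) * HahnSeries.single ((1 : ℕ) : ℤ) (1 : ℂ)) *
          qExpand ℂ q (S36F0_E ℂ) * (S36F0_Einv ℂ * S36F0_E ℂ) := by rw [h2, h3, mul_one]
    _ = HahnSeries.single ((q : ℤ) - 1) (1 : ℂ) * qExpand ℂ q (S36F0_E ℂ) * S36F0_Einv ℂ *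
          (HahnSeries.single ((1 : ℕ) : ℤ) (1 : ℂ) * S36F0_E ℂ) := by ring

/-- **normalisation**: if the formal series lies in `F_N`, then the analytic realisation of the
corresponding element is `τ ↦ Δ(qτ)/Δ(τ)`. -/
theorem S36F0_ev_of_mem (N : ℕ) [NeZero N]
    (hmem : S36F0_ser (AlgebraicClosure ℚ) q ∈ modularFunctionFieldBar N) :
    ev N ⟨S36F0_ser (AlgebraicClosure ℚ) q, hmem⟩ = S36F0_y q := by
  show bToMer (evB N _) = bToMer (S36F0_b q)
  congr 1
  apply thetaHom_injective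
  rw [thetaHom_evB, S36F0_thetaHom_b]
  exact S36F0_coeffMap_ser kEmb q

end analytic

end Fermat.Agent.S36
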