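import Mathlib
import Fermat.Agent.GalRep.KCDict
import Fermat.Agent.GalRep.KMKumBar
import Fermat.Agent.S36.ModUnitDefs

/-!
# TRACK 10 (S36), package F0, piece C (helper24): the modular unit has no finite zero or pole

* `S36FF_dict_fin N v hv` — the **`ℚ̄`-dictionary at finite places**: a place `v` of
  `F_N = modularFunctionFieldBar N` with `0 ≤ v.ord (jB N)` is the place of a point `τ ∈ ℍ`:
  `∃ τ m, 0 < m ∧ ∀ f ≠ 0, S24_ordM τ (ev N f) = m * v.ord f`
  (`ℚ̄`-port of the finite half of `GalRep.KC_dict`).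
* `S36FF_ordM_y q τ : S24_ordM τ (S36F0_y q) = 0` — `Δ(qτ)/Δ(τ)` has neither zero nor pole on `ℍ`.
* `S36FF_ord_eq_zero_of_ordM` — an element of `F_N` whose analytic realisation has order `0` at
  every point of `ℍ` has order `0` at every finite place.
* `S36FF_ord_f0` — **piece C**: `∀ v, 0 ≤ v.ord (jB N) → v.ord f₀ = 0` for
  `f₀ = ⟨S36F0_ser ℚ̄ q, hmem⟩`.
-/

set_option autoImplicit false
set_option maxHeartbeats 400000

open UpperHalfPlane hiding I
open scoped MatrixGroups Manifold ModularForm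
open CongruenceSubgroup ModularCurve IntermediateField AlgebraicCurve
open Fermat.Agent.S20 Fermat.Agent.S24 Fermat.Agent.GalRep

noncomputable section

namespace Fermat.Agent.S36

/-- **The `ℚ̄`-dictionary at the finite places.**  Every place of `F_ℚ̄ = modularFunctionFieldBar N`
at which `j` is integral is the place of a point of `ℍ`, for the realisation `ev N`. -/
theorem S36FF_dict_fin (N : ℕ) [NeZero N]
    (v : Place (AlgebraicClosure ℚ) ↥(modularFunctionFieldBar N)) (hv : 0 ≤ v.ord (jB N)) :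
    ∃ (τ : ℍ) (m : ℤ), 0 < m ∧
      ∀ f : ↥(modularFunctionFieldBar N), f ≠ 0 → S24_ordM τ (ev N f) = m * v.ord f := by
  classical
  have he := isEv_ev N
  have hinv := S24_hinv N (ev N) he
  have hfd := finiteDimensional_jB N
  have hj := transcendental_jB N
  have hne : ∀ γ (f : ↥(modularFunctionFieldBar N)), f ≠ 0 → S24_sig N (ev N) γ f ≠ 0 :=
    fun γ f hf => (map_ne_zero (S24_sig N (ev N) γ)).mpr hf
  have : Nonempty (S20_Q N) := ⟨QuotientGroup.mk 1⟩
  obtain ⟨c, hc⟩ := W_hres hj v hv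
  obtain ⟨τ₀, -, hord⟩ := S24_exists_basepoint (kEmb c)
  obtain ⟨e₀, he₀, hord'⟩ : ∃ e₀ : ℤ, 0 < e₀ ∧
      meromorphicOrderAt ((fun z : ℍ => S24_jfun z - kEmb c) ∘ ofComplex) (τ₀ : ℂ) = e₀ := by
    rcases hord with ⟨-, -, h⟩ | ⟨-, -, h⟩ | ⟨-, -, -, -, h⟩
    · exact ⟨2, by norm_num, by rw [h]; rfl⟩
    · exact ⟨3, by norm_num, by rw [h]; rfl⟩
    · exact ⟨1, by norm_num, by rw [h]; rfl⟩
  have hordM := S24_ordM_j_sub (kEmb c) τ₀ e₀ hord'
  have := W_finite_sub (jB N) c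
  have hx := W_transcendental_sub hj c
  set w : S20_Q N → ↥(modularFunctionFieldBar N) → ℤ :=
    fun γ f => S24_ordM τ₀ (S24_sig N (ev N) γ f) with hw
  have hval : ∀ γ, IsVal (K := AlgebraicClosure ℚ) (w γ) :=
    fun γ => S24_isVal_ordM kEmb (S24_sig N (ev N) γ) (S24_sig_const he γ) τ₀
  have hwx : ∀ γ, 0 < w γ (jB N -
      algebraMap (AlgebraicClosure ℚ) ↥(modularFunctionFieldBar N) c) := by
    intro γ
    show 0 < S24_ordM τ₀ (S24_sig N (ev N) γ _)
    rw [map_sub, S24_sig_jB he, S24_sig_const he, hordM]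
    exact he₀
  have hnorm : ∀ f : ↥(modularFunctionFieldBar N), f ≠ 0 → ∀ γ₀, ∑ᶠ γ, w γ f =
      w γ₀ (algebraMap (AlgebraicClosure ℚ)⟮jB N -
          algebraMap (AlgebraicClosure ℚ) ↥(modularFunctionFieldBar N) c⟯
          ↥(modularFunctionFieldBar N)
        (Algebra.norm (AlgebraicClosure ℚ)⟮jB N -
          algebraMap (AlgebraicClosure ℚ) ↥(modularFunctionFieldBar N) c⟯ f)) := by
    intro f hf γ₀
    rw [W_norm_sub (jB N) c f]
    show ∑ᶠ γ, S24_ordM τ₀ (S24_sig N (ev N) γ f) = S24_ordM τ₀ (S24_sig N (ev N) γ₀ _)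
    rw [S24_sig_norm_ev N (ev N) he f γ₀, S24_ordM_finprod _ (fun γ => hne γ f hf)]
  obtain ⟨γ, m, hm, hmf⟩ := KC_place_surj hx w hval hwx hnorm v hc
  refine ⟨(Quotient.out γ)⁻¹ • τ₀, m, hm, fun f hf => ?_⟩
  rw [← hmf f hf]
  show S24_ordM _ (ev N f) = S24_ordM τ₀ (merComp (Quotient.out γ)⁻¹ (ev N f))
  rw [S24_ordM_merComp]

/-- an element of `F_ℚ̄` whose analytic realisation has order `0` at every point of `ℍ` has order
`0` at every finite place. -/
theorem S36FF_ord_eq_zero_of_ordM (N : ℕ) [NeZero N] (f : ↥(modularFunctionFieldBar N))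
    (hf : ∀ τ : ℍ, S24_ordM τ (ev N f) = 0)
    (v : Place (AlgebraicClosure ℚ) ↥(modularFunctionFieldBar N)) (hv : 0 ≤ v.ord (jB N)) :
    v.ord f = 0 := by
  rcases eq_or_ne f 0 with rfl | hf0
  · exact v.ord_zero
  obtain ⟨τ, m, hm, hmf⟩ := S36FF_dict_fin N v hv
  have h := hmf f hf0
  rw [hf τ] at h
  rcases mul_eq_zero.mp h.symm with h1 | h1
  · exact absurd h1 hm.ne'
  · exact h1

/-- `Δ(dτ)` does not vanish on `ℍ`. -/
theorem S36FF_ordH_Dgen (d : ℕ) [NeZero d] (τ : ℍ) : S24_ordH τ (bddToHol (Dgen d)) = 0 := by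
  have hD : bddToHol (Dgen d) ≠ 0 := fun h =>
    Dgen_ne_zero d (bddToHol_injective (by rw [h, map_zero]))
  have h1 : S24_ordAt ((bddToHol (Dgen d) : Hol) : ℍ → ℂ) τ = 0 := by
    rw [S24_ordAt_eq_zero_iff (S24_Hol_mdiff _) τ]
    show scaleFun d discFun τ ≠ 0
    simp only [scaleFun, discFun]
    exact ModularForm.discriminant_ne_zero _
  rw [S24_ordH, h1]
  rfl

/-- `Δ(qτ)/Δ(τ)` has neither zero nor pole on `ℍ`. -/
theorem S36FF_ordM_y (q : ℕ) [NeZero q] (τ : ℍ) : S24_ordM τ (S36F0_y q) = 0 := by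
  have hD : ∀ d : ℕ, ∀ _ : NeZero d, bddToHol (Dgen d) ≠ 0 := fun d _ h =>
    Dgen_ne_zero d (bddToHol_injective (by rw [h, map_zero]))
  rw [S36F0_y_eq, S24_ordM_div_hol τ (hD q _) (hD 1 _), S36FF_ordH_Dgen, S36FF_ordH_Dgen, sub_zero]

/-- **T10 F0, piece C.**  The modular unit `f₀ = Δ(qz)/Δ(z)` of `F_N` has order `0` at every
finite place (i.e. every place at which `j` is integral). -/
theorem S36FF_ord_f0 (N q : ℕ) [NeZero N] [NeZero q]
    (hmem : S36F0_ser (AlgebraicClosure ℚ) q ∈ modularFunctionFieldBar N)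
    (v : Place (AlgebraicClosure ℚ) ↥(modularFunctionFieldBar N)) (hv : 0 ≤ v.ord (jB N)) :
    v.ord (⟨S36F0_ser (AlgebraicClosure ℚ) q, hmem⟩ : ↥(modularFunctionFieldBar N)) = 0 :=
  S36FF_ord_eq_zero_of_ordM N _ (fun τ => by rw [S36F0_ev_of_mem q N hmem]; exact S36FF_ordM_y q τ)
    v hv

end Fermat.Agent.S36
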