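import Mathlib
import Fermat.Agent.S36.ModUnitDefs
import Fermat.Agent.S20.DeltaN
import Fermat.Agent.GalRep.Bridge
import Fermat.Agent.GalRep.HeckeDescAdj
import Fermat.Agent.GalRep.KCEv

/-!
# TRACK 10 (S36), package F0 (helper3), part B: `Δ(t^q)/Δ(t)` lies in the modular function field

* `S36F0_key` — `Δ(q·γτ)·q¹¹·Δ(τ) = (Δ_q ∣₁₂ γ)(τ)·Δ(γτ)` for `γ ∈ SL(2,ℤ)` (`Δ_q = DeltaN q`);
* `S36F0_y_inv` — `τ ↦ Δ(qτ)/Δ(τ)` is `Γ₀(q)`-invariant;
* `S36F0_y_cusp` — it is meromorphic at all cusps (`CuspFrac q`);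
* `S36F0_ser_mem_level` — the formal series lies in `F_q = modularFunctionFieldBar q`;
* `S36F0_ser_mem` — hence in `F_N` for every `N` divisible by `q`.
-/

set_option autoImplicit false
set_option maxHeartbeats 400000

open UpperHalfPlane hiding I
open scoped MatrixGroups Manifold ModularForm
open CongruenceSubgroup ModularCurve EisensteinSeries Function Filter Matrix.SpecialLinearGroup

noncomputable section

namespace Fermat.Agent.S36

open Fermat.Agent.S24 Fermat.Agent.S20 Fermat.Agent.GalRep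

local notation "Δ" => ModularForm.discriminant

variable (q : ℕ) [NeZero q]

theorem S36F0_ut_smul (τ : ℍ) : Fermat.Agent.S28.ut q 0 1 • τ = diagN q • τ := by
  apply UpperHalfPlane.ext
  rw [Fermat.Agent.S28.coe_ut_smul (Nat.pos_of_ne_zero (NeZero.ne q)) one_pos]
  unfold diagN
  rw [upperGL_coe_smul]
  push_cast
  rfl

theorem S36F0_Dgen_apply (d : ℕ) [NeZero d] (τ : ℍ) :
    ((bddToHol (Dgen d) : Hol) : ℍ → ℂ) τ = Δ (Fermat.Agent.S28.ut d 0 1 • τ) := rfl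

theorem S36F0_Dgen_one_apply (τ : ℍ) : ((bddToHol (Dgen 1) : Hol) : ℍ → ℂ) τ = Δ τ := by
  rw [S36F0_Dgen_apply]
  have : Fermat.Agent.S28.ut 1 0 1 • τ = τ := by
    apply UpperHalfPlane.ext
    rw [Fermat.Agent.S28.coe_ut_smul one_pos one_pos]
    simp
  rw [this]

theorem S36F0_disc_smul (γ : SL(2, ℤ)) (τ : ℍ) :
    Δ (γ • τ) * denom γ τ ^ (-(12 : ℤ)) = Δ τ := by
  have h := congrFun (discriminant_slash_SL γ) τ
  have h2 : (Δ ∣[(12 : ℤ)] γ) τ = Δ τ := h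
  rw [ModularForm.SL_slash_apply] at h2
  exact h2

theorem S36F0_denom_ne (γ : SL(2, ℤ)) (τ : ℍ) : (denom γ τ : ℂ) ≠ 0 := denom_ne_zero γ τ

/-- the key identity `Δ(q·γτ)·q¹¹·Δ(τ) = (Δ_q ∣₁₂ γ)(τ)·Δ(γτ)`. -/
theorem S36F0_key (γ : SL(2, ℤ)) (τ : ℍ) :
    Δ (Fermat.Agent.S28.ut q 0 1 • (γ • τ)) * ((q : ℂ) ^ (11 : ℕ) * Δ τ) =
      (DeltaN q ∣[(12 : ℤ)] γ) τ * Δ (γ • τ) := by
  rw [ModularForm.SL_slash_apply, DeltaN_apply, S36F0_ut_smul, ← S36F0_disc_smul γ τ]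
  ring

theorem S36F0_DeltaN_eq (τ : ℍ) :
    DeltaN q τ = Δ (Fermat.Agent.S28.ut q 0 1 • τ) * (q : ℂ) ^ (11 : ℕ) := by
  rw [DeltaN_apply, S36F0_ut_smul]

/-- `Γ₀(q)`-invariance, pointwise. -/
theorem S36F0_inv_pointwise {γ : SL(2, ℤ)} (hγ : γ ∈ Gamma0 q) (τ : ℍ) :
    Δ (Fermat.Agent.S28.ut q 0 1 • (γ • τ)) * Δ τ =
      Δ (Fermat.Agent.S28.ut q 0 1 • τ) * Δ (γ • τ) := by
  have h := S36F0_key q γ τ
  have h2 : (DeltaN q ∣[(12 : ℤ)] γ) τ = DeltaN q τ := congrFun (DeltaN_slash_of_mem q hγ) τ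
  rw [h2, S36F0_DeltaN_eq] at h
  have hq : ((q : ℂ) ^ (11 : ℕ)) ≠ 0 := pow_ne_zero _ (Nat.cast_ne_zero.mpr (NeZero.ne q))
  apply mul_left_cancel₀ hq
  linear_combination h

theorem S36F0_algDgen_ne (d : ℕ) [NeZero d] : algebraMap Hol Mer (bddToHol (Dgen d)) ≠ 0 := by
  rw [← bToMer_algebraMap]
  exact (map_ne_zero bToMer).mpr (algebraMap_Dgen_ne_zero d)

theorem S36F0_merComp_y (γ : SL(2, ℤ)) : merComp γ (S36F0_y q) =
    algebraMap Hol Mer (holComp γ (bddToHol (Dgen q))) /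
      algebraMap Hol Mer (holComp γ (bddToHol (Dgen 1))) := by
  rw [S36F0_y_eq, map_div₀, merComp_algebraMap, merComp_algebraMap]

theorem S36F0_hol_inv {γ : SL(2, ℤ)} (hγ : γ ∈ Gamma0 q) :
    holComp γ (bddToHol (Dgen q)) * bddToHol (Dgen 1) =
      bddToHol (Dgen q) * holComp γ (bddToHol (Dgen 1)) := by
  rw [hol_ext_iff]
  intro τ
  rw [Subalgebra.coe_mul, Subalgebra.coe_mul, Pi.mul_apply, Pi.mul_apply, holComp_apply,
    holComp_apply, S36F0_Dgen_one_apply, S36F0_Dgen_one_apply, S36F0_Dgen_apply q,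
    S36F0_Dgen_apply q]
  exact S36F0_inv_pointwise q hγ τ

/-- **`Γ₀(q)`-invariance** of `τ ↦ Δ(qτ)/Δ(τ)`. -/
theorem S36F0_y_inv : ∀ γ ∈ Gamma0 q, merComp γ (S36F0_y q) = S36F0_y q := by
  intro γ hγ
  have hne1 : algebraMap Hol Mer (holComp γ (bddToHol (Dgen 1))) ≠ 0 := by
    rw [← merComp_algebraMap]
    exact (map_ne_zero (merComp γ)).mpr (S36F0_algDgen_ne 1)
  rw [S36F0_merComp_y, S36F0_y_eq, div_eq_div_iff hne1 (S36F0_algDgen_ne 1), ← map_mul, ← map_mul,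
    S36F0_hol_inv q hγ]

/-! ### the cusps -/

open Fermat.Agent.S28 in
/-- key identity in the form used at the cusps. -/
theorem S36F0_key_ut (γ : SL(2, ℤ)) (τ : ℍ) :
    Δ (ut q 0 1 • (γ • τ)) * ((q : ℂ) ^ (11 : ℕ) * Δ τ) =
      ((baseFn false ∣[(12 : ℤ)] ut q 0 1) ∣[(12 : ℤ)] γ) τ * Δ (γ • τ) := by
  rw [ModularForm.SL_slash_apply, slash_ut_apply 12 (Nat.pos_of_ne_zero (NeZero.ne q)) one_pos,
    ← S36F0_disc_smul γ τ]
  simp only [baseFn, Nat.cast_one, mul_one]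
  have h1 : ((1 : ℂ)) ^ (-(12 : ℤ)) = 1 := one_zpow _
  have h2 : (q : ℂ) ^ ((12 : ℤ) - 1) = (q : ℂ) ^ (11 : ℕ) := by
    rw [show ((12 : ℤ) - 1) = ((11 : ℕ) : ℤ) by norm_num, zpow_natCast]
  rw [h1, h2]
  ring

/-- `q¹¹·Δ` as a holomorphic function. -/
def S36F0_den : Hol := algebraMap ℂ Hol ((q : ℂ) ^ (11 : ℕ)) * bddToHol (Dgen 1)

omit [NeZero q] in
theorem S36F0_den_apply (τ : ℍ) : ((S36F0_den q : Hol) : ℍ → ℂ) τ = (q : ℂ) ^ (11 : ℕ) * Δ τ := by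
  unfold S36F0_den
  rw [Subalgebra.coe_mul, Pi.mul_apply, S36F0_Dgen_one_apply]
  rfl

theorem S36F0_bddToHol_Dgen_ne (d : ℕ) [NeZero d] : bddToHol (Dgen d) ≠ 0 := by
  intro h
  exact Dgen_ne_zero d (bddToHol_injective (by rw [h, map_zero]))

theorem S36F0_den_ne_zero : S36F0_den q ≠ 0 := by
  unfold S36F0_den
  refine mul_ne_zero ?_ (S36F0_bddToHol_Dgen_ne 1)
  intro h
  have h1 := congrArg (fun f : Hol ↦ (f : ℍ → ℂ) UpperHalfPlane.I) h
  have h2 : ((algebraMap ℂ Hol ((q : ℂ) ^ (11 : ℕ)) : Hol) : ℍ → ℂ) UpperHalfPlane.I =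
      (q : ℂ) ^ (11 : ℕ) := rfl
  simp only [h2] at h1
  exact pow_ne_zero _ (Nat.cast_ne_zero.mpr (NeZero.ne q)) h1

open Fermat.Agent.S28 in
theorem S36F0_meroCusp_disc : MeroCusp q (fun τ : ℍ ↦ Δ τ) := by
  have h := (cuspOrd_den (N := q) (a := 1) (b := 0) (d' := 1) one_pos one_pos q (by ring)).1
  have e : (baseFn false ∣[(12 : ℤ)] ut 1 0 1) = fun τ : ℍ ↦ Δ τ := by
    funext τ
    rw [slash_ut_apply 12 one_pos one_pos]
    have : ut 1 0 1 • τ = τ := by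
      apply UpperHalfPlane.ext
      rw [coe_ut_smul one_pos one_pos]
      simp
    rw [this]
    simp [baseFn]
  rwa [e] at h

theorem S36F0_meroCusp_den : MeroCusp q ((S36F0_den q : Hol) : ℍ → ℂ) := by
  have h := (MeroCusp.const (N := q) ((q : ℂ) ^ (11 : ℕ))).mul (S36F0_meroCusp_disc q)
  have e : ((S36F0_den q : Hol) : ℍ → ℂ) = (fun _ : ℍ ↦ (q : ℂ) ^ (11 : ℕ)) * fun τ : ℍ ↦ Δ τ := by
    funext τ
    rw [S36F0_den_apply]
    rfl
  rwa [e]

open Fermat.Agent.S28 in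
/-- **the cusps**: every `SL(2,ℤ)`-conjugate of `Δ(qτ)/Δ(τ)` is meromorphic at `i∞`. -/
theorem S36F0_y_cusp (γ : SL(2, ℤ)) :
    ∃ (m : ℤ) (c : ℂ), CuspFrac q (merComp γ (S36F0_y q)) m c := by
  have hq : 0 < q := Nat.pos_of_ne_zero (NeZero.ne q)
  obtain ⟨γ', a, b, d', ha, hd', hadd, -, -, h⟩ := hnf_GL γ q hq
  have hd'q : d' ∣ q := Dvd.intro_left a hadd
  have he : a * (q / d') * d' = a * q := by
    rw [mul_assoc, Nat.div_mul_cancel hd'q]
  obtain ⟨hmB, hB0, -⟩ := cuspOrd_den (N := q) (b := b) ha hd' _ he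
  let B : Hol := ⟨baseFn false ∣[(12 : ℤ)] ut a b d', mdiff_slash_ut false ha hd'⟩
  have hB : B ≠ 0 := fun h0 ↦ hB0 (congrArg Subtype.val h0)
  have hne1 : algebraMap Hol Mer (holComp γ (bddToHol (Dgen 1))) ≠ 0 := by
    rw [← merComp_algebraMap]
    exact (map_ne_zero (merComp γ)).mpr (S36F0_algDgen_ne 1)
  have hid : holComp γ (bddToHol (Dgen q)) * S36F0_den q = B * holComp γ (bddToHol (Dgen 1)) := by
    rw [hol_ext_iff]
    intro τ
    rw [Subalgebra.coe_mul, Subalgebra.coe_mul, Pi.mul_apply, Pi.mul_apply, holComp_apply,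
      holComp_apply, S36F0_Dgen_one_apply, S36F0_Dgen_apply q, S36F0_den_apply]
    have hk := S36F0_key_ut q γ τ
    rw [slash_ut_SL false γ γ' h] at hk
    exact hk
  refine ⟨_, _, B, S36F0_den q, hmB, S36F0_meroCusp_den q, hB, S36F0_den_ne_zero q, ?_, rfl, rfl⟩
  rw [S36F0_merComp_y, div_mul_eq_mul_div, div_eq_iff hne1, ← map_mul, ← map_mul, hid]

/-! ### membership in the function field -/

theorem S36F0_y_mem_range : S36F0_y q ∈ Set.range (KC_ev q) :=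
  KMB_bridge q (S36F0_y q) (S36F0_y_inv q) (S36F0_y_cusp q)

theorem S36F0_serC_mem :
    S36F0_ser ℂ q ∈ laurentBaseChange ℂ (modularFunctionFieldFull q) := by
  obtain ⟨g, hg⟩ := S36F0_y_mem_range q
  have h1 : KC_evB q g = S36F0_b q := by
    apply bToMer.injective
    rw [← KC_ev_eq, hg]
    rfl
  have h2 := KC_thetaHom_evB q g
  rw [h1, S36F0_thetaHom_b] at h2
  rw [h2]
  exact g.2

/-- the series `Δ(t^q)/Δ(t)` lies in `F_q`. -/
theorem S36F0_ser_mem_level : S36F0_ser (AlgebraicClosure ℚ) q ∈ modularFunctionFieldBar q := by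
  apply GRHD_mem_bar q
  rw [S36F0_coeffMap_ser]
  exact S36F0_serC_mem q

theorem S36F0_bar_le {M N : ℕ} [NeZero M] [NeZero N] (h : M ∣ N) :
    modularFunctionFieldBar M ≤ modularFunctionFieldBar N := by
  show laurentBaseChange (AlgebraicClosure ℚ) (modularFunctionFieldFull M) ≤
    laurentBaseChange (AlgebraicClosure ℚ) (modularFunctionFieldFull N)
  rw [laurentBaseChange, IntermediateField.adjoin_le_iff]
  rintro _ ⟨y, hy, rfl⟩
  exact coeffEmb_mem_laurentBaseChange (AlgebraicClosure ℚ) (full_degeneracy_le h hy)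

/-- **F0, part B**: the series `Δ(t^q)/Δ(t)` lies in `F_N` for every level `N` divisible by `q`. -/
theorem S36F0_ser_mem (N : ℕ) [NeZero N] (h : q ∣ N) :
    S36F0_ser (AlgebraicClosure ℚ) q ∈ modularFunctionFieldBar N :=
  S36F0_bar_le h (S36F0_ser_mem_level q)

/-- the inverse series lies in `F_N` as well. -/
theorem S36F0_serInv_mem (N : ℕ) [NeZero N] (h : q ∣ N) :
    S36F0_serInv (AlgebraicClosure ℚ) q ∈ modularFunctionFieldBar N := by
  have h1 := inv_mem (S36F0_ser_mem q N h)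
  have h2 : (S36F0_ser (AlgebraicClosure ℚ) q)⁻¹ = S36F0_serInv (AlgebraicClosure ℚ) q :=
    inv_eq_of_mul_eq_one_right (S36F0_ser_mul_serInv (AlgebraicClosure ℚ) q)
  rwa [h2] at h1

end Fermat.Agent.S36
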