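import Mathlib
import Fermat.Agent.S34.Defs
import Fermat.Agent.S36.ModUnitDefs

/-!
# TRACK 10 (S36), package F0, piece D (helper24): Atkin–Lehner on the modular unit

For `f₀ = Δ(qz)/Δ(z) ∈ F_{Mq}` (`q` prime, `q ∤ M`):  `w_q f₀ = q⁻¹² · f₀⁻¹`.

* `S36FW_disc_w`, `S36FW_disc_w'` — `Δ(Wτ) = (Mqτ + qw)¹² Δ(qτ)`, `Δ(q·Wτ) = (Mτ + w)¹² Δ(τ)` for the
  Atkin–Lehner map `W = S34WQ_w q M w y h`.
* `S36FW_merW_y` — `(Δ(qτ)/Δ(τ)) ∘ W = q⁻¹² · (Δ(qτ)/Δ(τ))⁻¹` in `Mer`.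
* `S36FW_wq_f0` — **piece D**: `S34DF_wq M q hq hqM f₀ = algebraMap ℚ̄ F ((q : ℚ̄) ^ 12)⁻¹ * f₀⁻¹`.
-/

set_option autoImplicit false
set_option synthInstance.maxHeartbeats 400000

open UpperHalfPlane hiding I
open scoped MatrixGroups Manifold ModularForm
open CongruenceSubgroup ModularCurve

noncomputable section

namespace Fermat.Agent.S36

open Fermat.Agent.S20 Fermat.Agent.S24 Fermat.Agent.S28 Fermat.Agent.S34

theorem S36FW_ut_one_smul (τ : ℍ) : ut 1 0 1 • τ = τ := by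
  apply UpperHalfPlane.ext
  rw [coe_ut_smul one_pos one_pos]
  simp

/-- `Δ(Wτ) = (Mqτ + qw)¹² Δ(qτ)`. -/
theorem S36FW_disc_w {q M : ℕ} (hq : 0 < q) (w y : ℤ) (h : (q : ℤ) * w - (M : ℤ) * y = 1)
    (τ : ℍ) :
    ModularForm.discriminant (S34WQ_w q M w y h τ) =
      ((M : ℂ) * ((q : ℂ) * τ) + (q : ℂ) * w) ^ 12 *
        ModularForm.discriminant (ut q 0 1 • τ) := by
  have h1 := isMF1_Delta.apply_smul (S34WQ_sl 1 y M (q * w) (by linear_combination h))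
    (ut q 0 1 • τ : ℍ)
  have hden : denom (S34WQ_sl 1 y M (q * w) (by linear_combination h)) (ut q 0 1 • τ : ℍ) =
      (M : ℂ) * ((q : ℂ) * τ) + (q : ℂ) * w := by
    rw [ModularGroup.denom_apply, coe_ut_smul hq one_pos]
    simp [S34WQ_sl]
  rw [hden] at h1
  have e : (12 : ℤ) = ((12 : ℕ) : ℤ) := rfl
  rw [e, zpow_natCast] at h1
  exact h1

/-- `Δ(q·Wτ) = (Mτ + w)¹² Δ(τ)`. -/
theorem S36FW_disc_w' {q M : ℕ} (hq : 0 < q) (w y : ℤ) (h : (q : ℤ) * w - (M : ℤ) * y = 1)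
    (τ : ℍ) :
    ModularForm.discriminant (ut q 0 1 • S34WQ_w q M w y h τ) =
      ((M : ℂ) * τ + w) ^ 12 * ModularForm.discriminant τ := by
  have h1 := S34WQ_ut_smul_w' (q := q) (M := M) (d := 1) (e := M) hq one_pos (one_mul M) w y h τ
  rw [S36FW_ut_one_smul] at h1
  have h2 : ut (q * 1) 0 1 = ut q 0 1 := by rw [mul_one]
  rw [h2] at h1
  rw [h1]
  have h3 := isMF1_Delta.apply_smul
    (S34WQ_sl q (((1 : ℕ) : ℤ) * y) M w (by push_cast; linear_combination h)) τ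
  have hden : denom (S34WQ_sl q (((1 : ℕ) : ℤ) * y) M w (by push_cast; linear_combination h)) τ =
      (M : ℂ) * τ + w := by
    rw [ModularGroup.denom_apply]
    simp [S34WQ_sl]
  rw [hden] at h3
  have e : (12 : ℤ) = ((12 : ℕ) : ℤ) := rfl
  rw [e, zpow_natCast] at h3
  exact h3

theorem S36FW_Dgen_apply (d : ℕ) [NeZero d] (τ : ℍ) :
    ((bddToHol (Dgen d) : Hol) : ℍ → ℂ) τ = ModularForm.discriminant (ut d 0 1 • τ) := rfl

/-- the key identity in `Hol`: `(Δ_q ∘ W) · q¹² · Δ_q = (Δ_1 ∘ W) · Δ_1`. -/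
theorem S36FW_hol_key {q M : ℕ} [NeZero q] (hq : 0 < q) (w y : ℤ)
    (h : (q : ℤ) * w - (M : ℤ) * y = 1) :
    S34WQ_holW q M w y h (bddToHol (Dgen q)) *
        (algebraMap ℂ Hol ((q : ℂ) ^ 12) * bddToHol (Dgen q)) =
      S34WQ_holW q M w y h (bddToHol (Dgen 1)) * bddToHol (Dgen 1) := by
  rw [hol_ext_iff]
  intro τ
  show ((S34WQ_holW q M w y h (bddToHol (Dgen q)) : Hol) : ℍ → ℂ) τ *
      ((q : ℂ) ^ 12 * ((bddToHol (Dgen q) : Hol) : ℍ → ℂ) τ) =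
    ((S34WQ_holW q M w y h (bddToHol (Dgen 1)) : Hol) : ℍ → ℂ) τ *
      ((bddToHol (Dgen 1) : Hol) : ℍ → ℂ) τ
  rw [S34WQ_holW_apply, S34WQ_holW_apply, S36FW_Dgen_apply, S36FW_Dgen_apply, S36FW_Dgen_apply,
    S36FW_Dgen_apply, S36FW_ut_one_smul, S36FW_ut_one_smul, S36FW_disc_w' hq, S36FW_disc_w hq]
  ring

/-- `(Δ(qτ)/Δ(τ)) ∘ W = q⁻¹² · (Δ(qτ)/Δ(τ))⁻¹`. -/
theorem S36FW_merW_y {q M : ℕ} [NeZero q] (hq : 0 < q) (w y : ℤ)
    (h : (q : ℤ) * w - (M : ℤ) * y = 1) :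
    S34WQ_merW hq w y h (S36F0_y q) =
      algebraMap ℂ Mer (((q : ℂ)) ^ 12)⁻¹ * (S36F0_y q)⁻¹ := by
  have hD : ∀ d : ℕ, ∀ _ : NeZero d, algebraMap Hol Mer (bddToHol (Dgen d)) ≠ 0 := fun d _ =>
    S24_algebraMap_ne_zero (fun h0 => Dgen_ne_zero d (bddToHol_injective (by rw [h0, map_zero])))
  have hW : ∀ d : ℕ, ∀ _ : NeZero d,
      algebraMap Hol Mer (S34WQ_holW q M w y h (bddToHol (Dgen d))) ≠ 0 := fun d _ =>
    S24_algebraMap_ne_zero (fun h0 => Dgen_ne_zero d (bddToHol_injective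
      (S34WQ_holW_injective hq w y h (by rw [h0, map_zero, map_zero]))))
  have hq0 : (q : ℂ) ^ 12 ≠ 0 := pow_ne_zero _ (Nat.cast_ne_zero.mpr hq.ne')
  have hc : algebraMap ℂ Mer ((q : ℂ) ^ 12) ≠ 0 := by
    rw [IsScalarTower.algebraMap_apply ℂ Hol Mer]
    apply S24_algebraMap_ne_zero
    intro h0
    have := congrFun (congrArg Subtype.val h0) UpperHalfPlane.I
    exact hq0 this
  have key := congrArg (algebraMap Hol Mer) (S36FW_hol_key (M := M) hq w y h)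
  rw [map_mul, map_mul, map_mul, ← IsScalarTower.algebraMap_apply ℂ Hol Mer] at key
  have hDq := hD q inferInstance
  have hD1 := hD 1 inferInstance
  have hW1 := hW 1 inferInstance
  rw [S36F0_y_eq, map_div₀, S34WQ_merW_algebraMap, S34WQ_merW_algebraMap, map_inv₀, inv_div,
    div_eq_iff hW1]
  field_simp
  linear_combination key

/-- **T10 F0, piece D.**  The Atkin–Lehner involution `w_q` maps the modular unit
`f₀ = Δ(qz)/Δ(z)` of `F_{Mq}` to `q⁻¹² · f₀⁻¹`. -/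
theorem S36FW_wq_f0 (M q : ℕ) [NeZero (M * q)] [NeZero q] (hq : q.Prime) (hqM : ¬ q ∣ M)
    (hmem : S36F0_ser (AlgebraicClosure ℚ) q ∈ modularFunctionFieldBar (M * q)) :
    S34DF_wq M q hq hqM ⟨S36F0_ser (AlgebraicClosure ℚ) q, hmem⟩ =
      algebraMap (AlgebraicClosure ℚ) ↥(modularFunctionFieldBar (M * q))
          (((q : AlgebraicClosure ℚ)) ^ 12)⁻¹ *
        (⟨S36F0_ser (AlgebraicClosure ℚ) q, hmem⟩ : ↥(modularFunctionFieldBar (M * q)))⁻¹ := by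
  obtain ⟨w, y, h, hev⟩ := S34WQ_ev_wq hq hqM (mul_comm q M)
  apply (ev (M * q)).injective
  show ev (M * q) (S34WQ_wq hq hqM (mul_comm q M) _) = _
  rw [hev, S36F0_ev_of_mem q (M * q) hmem, S36FW_merW_y hq.pos w y h, map_mul (ev (M * q)),
    map_inv₀ (ev (M * q)), S36F0_ev_of_mem q (M * q) hmem, (isEv_ev (M * q)).const,
    map_inv₀ kEmb, map_pow, map_natCast]

end Fermat.Agent.S36
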