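import Mathlib
import Fermat.Agent.S34.ValWire
import Fermat.Agent.S36.ModUnitDefs
import Fermat.Agent.S36.ModUnitMem
import Fermat.Agent.S36.ModUnitFin
import Fermat.Agent.S36.ModUnitWq

/-!
# TRACK 10 (S36), package F0 (helper3): the modular unit `f₀ = Δ(qz)/Δ(z)` of `F_{Mq}` — interface

`S36F0_Unit M q hq hqM A f₀` is the interface consumed by REG-q COUNT (NOTES/items/35_F0_iface.md):

* `ne_zero`, `ord_fin` — `f₀` is a unit at every finite place (piece C, helper24);
* `mem_O`, `inv_mem_O` — `V₁(f₀) = 0` (piece E1);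
* `wq` — `w_q f₀ = q⁻¹² f₀⁻¹`, i.e. `V₂(f₀) = −12` (piece D, helper24);
* `red_inv` — `red₁ (f₀⁻¹) = P(j̄)` with `deg P = q − 1` (piece E2).

`S36F0_f0 M q` is the element itself (membership = piece B, `S36F0_ser_mem`), `S36F0_unit_of_red`
assembles the interface from the statements of piece E.
-/

set_option autoImplicit false
set_option linter.unusedSectionVars false

open AlgebraicCurve ModularCurve Polynomial

noncomputable section

namespace Fermat.Agent.S36

open Fermat.Agent.S18 Fermat.Agent.S24 Fermat.Agent.S34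

/-- **Interface of F0**: the properties of the modular unit used by REG-q COUNT. -/
structure S36F0_Unit (M q : ℕ) [NeZero (M * q)] (hq : q.Prime) (hqM : ¬ q ∣ M)
    (A : ValuationSubring (AlgebraicClosure ℚ))
    (f₀ : ↥(modularFunctionFieldBar (M * q))) : Prop where
  ne_zero : f₀ ≠ 0
  ord_fin : ∀ v : Place (AlgebraicClosure ℚ) ↥(modularFunctionFieldBar (M * q)),
    0 ≤ v.ord (jB (M * q)) → v.ord f₀ = 0
  mem_O : f₀ ∈ S18_O A (M * q)
  inv_mem_O : f₀⁻¹ ∈ S18_O A (M * q)
  wq : S34DF_wq M q hq hqM f₀ =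
    algebraMap (AlgebraicClosure ℚ) ↥(modularFunctionFieldBar (M * q))
      (((q : AlgebraicClosure ℚ)) ^ 12)⁻¹ * f₀⁻¹
  red_inv : ∃ P : Polynomial (IsLocalRing.ResidueField A), P.natDegree = q - 1 ∧
    ((S18_red A (M * q) ⟨f₀⁻¹, inv_mem_O⟩ :
        ↥(modularFunctionFieldFullC (IsLocalRing.ResidueField A) (M * q))) :
          LaurentSeries (IsLocalRing.ResidueField A)) =
      Polynomial.aeval
        ((S18_red A (M * q) ⟨jB (M * q), S34VW_jB_mem M q A⟩ :
          ↥(modularFunctionFieldFullC (IsLocalRing.ResidueField A) (M * q))) :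
            LaurentSeries (IsLocalRing.ResidueField A)) P

section

variable (M q : ℕ) [NeZero (M * q)] [NeZero q]

/-- the modular unit `f₀ = Δ(qz)/Δ(z)` as an element of `F_{Mq}`. -/
def S36F0_f0 : ↥(modularFunctionFieldBar (M * q)) :=
  ⟨S36F0_ser (AlgebraicClosure ℚ) q, S36F0_ser_mem q (M * q) (dvd_mul_left q M)⟩

theorem S36F0_f0_coe :
    ((S36F0_f0 M q : ↥(modularFunctionFieldBar (M * q))) : LaurentSeries (AlgebraicClosure ℚ)) =
      S36F0_ser (AlgebraicClosure ℚ) q := rfl

theorem S36F0_f0_inv_coe :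
    (((S36F0_f0 M q)⁻¹ : ↥(modularFunctionFieldBar (M * q))) :
        LaurentSeries (AlgebraicClosure ℚ)) = S36F0_serInv (AlgebraicClosure ℚ) q := by
  have h : (S36F0_f0 M q)⁻¹ =
      (⟨S36F0_serInv (AlgebraicClosure ℚ) q, S36F0_serInv_mem q (M * q) (dvd_mul_left q M)⟩ :
        ↥(modularFunctionFieldBar (M * q))) := by
    apply inv_eq_of_mul_eq_one_right
    apply Subtype.ext
    exact S36F0_ser_mul_serInv (AlgebraicClosure ℚ) q
  rw [h]

theorem S36F0_f0_ne_zero : S36F0_f0 M q ≠ 0 := by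
  intro h
  have h1 := congrArg (fun x : ↥(modularFunctionFieldBar (M * q)) =>
    (x : LaurentSeries (AlgebraicClosure ℚ))) h
  simp only [S36F0_f0_coe, ZeroMemClass.coe_zero] at h1
  have h2 := S36F0_ser_mul_serInv (AlgebraicClosure ℚ) q
  rw [h1, zero_mul] at h2
  exact zero_ne_one h2

theorem S36F0_f0_ord_fin
    (v : Place (AlgebraicClosure ℚ) ↥(modularFunctionFieldBar (M * q)))
    (hv : 0 ≤ v.ord (jB (M * q))) : v.ord (S36F0_f0 M q) = 0 :=
  S36FF_ord_f0 (M * q) q _ v hv

theorem S36F0_f0_wq (hq : q.Prime) (hqM : ¬ q ∣ M) :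
    S34DF_wq M q hq hqM (S36F0_f0 M q) =
      algebraMap (AlgebraicClosure ℚ) ↥(modularFunctionFieldBar (M * q))
        (((q : AlgebraicClosure ℚ)) ^ 12)⁻¹ * (S36F0_f0 M q)⁻¹ :=
  S36FW_wq_f0 M q hq hqM _

/-- **Assembly of F0** from the statements of piece E (Gauss valuation and reduction). -/
theorem S36F0_unit_of_red (hq : q.Prime) (hqM : ¬ q ∣ M)
    (A : ValuationSubring (AlgebraicClosure ℚ))
    (hO : S36F0_f0 M q ∈ S18_O A (M * q))
    (hOinv : (S36F0_f0 M q)⁻¹ ∈ S18_O A (M * q))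
    (hred : ∃ P : Polynomial (IsLocalRing.ResidueField A), P.natDegree = q - 1 ∧
      ((S18_red A (M * q) ⟨(S36F0_f0 M q)⁻¹, hOinv⟩ :
          ↥(modularFunctionFieldFullC (IsLocalRing.ResidueField A) (M * q))) :
            LaurentSeries (IsLocalRing.ResidueField A)) =
        Polynomial.aeval
          ((S18_red A (M * q) ⟨jB (M * q), S34VW_jB_mem M q A⟩ :
            ↥(modularFunctionFieldFullC (IsLocalRing.ResidueField A) (M * q))) :
              LaurentSeries (IsLocalRing.ResidueField A)) P) :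
    S36F0_Unit M q hq hqM A (S36F0_f0 M q) where
  ne_zero := S36F0_f0_ne_zero M q
  ord_fin := S36F0_f0_ord_fin M q
  mem_O := hO
  inv_mem_O := hOinv
  wq := S36F0_f0_wq M q hq hqM
  red_inv := hred

end

end Fermat.Agent.S36
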