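import Mathlib
import Fermat.Agent.S34.ValWire
import Fermat.Agent.S34.PoleX0
import Fermat.Agent.S34.ValCart
import Fermat.Agent.S34.ValHgenAsm
import Fermat.Agent.S36.ModUnit

/-!
# TRACK 10 (S36), package F0, piece E2 (helper3): `red₁ (f₀⁻¹)` is a polynomial in `j̄`

`k` = residue field of a valuation ring `A ⊂ ℚ̄` over the prime `q`.  The formal series
`Δ(t)/Δ(t^q)` over `k` (which is `Δ^{1-q}`, the inverse of the Hasse invariant in disguise) is
`P(j̄)` for a polynomial `P ∈ k[X]` of degree `q − 1`:

* `S36FP_poly_of_integral` — an element of `k(J)`, `J` transcendental, integral over `k[J]`, lies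
  in `k[J]`;
* `S36FP_serInv_coeff_top`, `S36FP_serInv_coeff_lt` — the leading term of the series is `t^{1-q}`;
* `S36FP_natDegree` — the degree of `P` from the pole order of `P(j̄)`;
* `S36FP_adjoin_top` — at level `q` in characteristic `q` the reduced function field is `k(j̄)`
  (Kronecker: `j̄(t^q) = j̄^q`);
* `S36FP_main` — **E2**, from E1 at level `1 * q`: `f₀⁻¹` is regular at all finite places (piece C),
  so integral over `ℚ̄[j]` (`S34P_Hyp.reg`), so its reduction is integral over `k[j̄]`
  (`S34P_Hyp.int`), and it lies in `k(j̄)`.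
-/

set_option autoImplicit false
set_option synthInstance.maxHeartbeats 400000
set_option maxHeartbeats 1000000
set_option linter.unusedSectionVars false
set_option linter.style.haveILetI false

open Polynomial IntermediateField HahnSeries ModularCurve AlgebraicCurve

noncomputable section

namespace Fermat.Agent.S36

open Fermat.Agent.S18 Fermat.Agent.S24 Fermat.Agent.S34 Fermat.Agent.Lib

/-- an element of `k(J)` (`J` transcendental) that is integral over `k[J]` is a polynomial in
`J`. -/
theorem S36FP_poly_of_integral {k K : Type*} [Field k] [Field K] [Algebra k K] (J : K)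
    (hJ : Transcendental k J) (htop : IntermediateField.adjoin k {J} = ⊤) (g : K)
    (hint : IsIntegral (Algebra.adjoin k ({J} : Set K)) g) :
    ∃ P : k[X], g = aeval J P := by
  classical
  have hinj : Function.Injective (aeval (R := k) J) := transcendental_iff_injective.mp hJ
  let e : k[X] ≃ₐ[k] ↥(Algebra.adjoin k ({J} : Set K)) :=
    (AlgEquiv.ofInjective (aeval (R := k) J) hinj).trans
      (Subalgebra.equivOfEq _ _ (Algebra.adjoin_singleton_eq_range_aeval k J).symm)
  haveI : IsIntegrallyClosed ↥(Algebra.adjoin k ({J} : Set K)) :=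
    IsIntegrallyClosed.of_equiv e.toRingEquiv
  open IntermediateField.algebraAdjoinAdjoin in
  have hg : g ∈ IntermediateField.adjoin k {J} := by rw [htop]; trivial
  open IntermediateField.algebraAdjoinAdjoin in
  have hint' : IsIntegral (Algebra.adjoin k ({J} : Set K))
      (⟨g, hg⟩ : ↥(IntermediateField.adjoin k ({J} : Set K))) := by
    have : IsIntegral (Algebra.adjoin k ({J} : Set K))
        (algebraMap ↥(IntermediateField.adjoin k ({J} : Set K)) K ⟨g, hg⟩) := hint
    exact (isIntegral_algebraMap_iff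
      (algebraMap ↥(IntermediateField.adjoin k ({J} : Set K)) K).injective).mp this
  open IntermediateField.algebraAdjoinAdjoin in
  obtain ⟨y, hy⟩ := (IsIntegrallyClosed.isIntegral_iff
    (R := ↥(Algebra.adjoin k ({J} : Set K)))
    (K := ↥(IntermediateField.adjoin k ({J} : Set K)))).mp hint'
  have hy2 : (y : K) = g := congrArg Subtype.val hy
  obtain ⟨P, hP⟩ : ∃ P : k[X], aeval J P = (y : K) := by
    have h1 : (y : K) ∈ (aeval (R := k) J).range := by
      rw [← Algebra.adjoin_singleton_eq_range_aeval]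
      exact y.2
    exact h1
  exact ⟨P, by rw [hP, hy2]⟩

section coeffs

variable (R : Type*) [CommRing R] (q : ℕ) [NeZero q]

/-- the power series `E(t)·E(t^q)⁻¹`. -/
def S36FP_G : PowerSeries R :=
  dedekindEtaUnit.map (Int.castRingHom R) *
    PowerSeries.expand q (NeZero.ne q) (dedekindEtaUnitInv.map (Int.castRingHom R))

theorem S36FP_serInv_eq :
    S36F0_serInv R q = HahnSeries.single (1 - (q : ℤ)) (1 : R) *
      HahnSeries.ofPowerSeries ℤ R (S36FP_G R q) := by
  rw [S36F0_serInv, S36F0_E, S36F0_Einv, LT_qExpand_ofPowerSeries, S36FP_G, map_mul, mul_assoc]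

theorem S36FP_G_constantCoeff : PowerSeries.constantCoeff (S36FP_G R q) = 1 := by
  have h := congrArg
    (fun p : PowerSeries ℤ => PowerSeries.constantCoeff (p.map (Int.castRingHom R)))
    dedekindEtaUnit_mul_inv
  simp only [map_mul, map_one] at h
  rw [S36FP_G, map_mul, PowerSeries.constantCoeff_expand]
  exact h

theorem S36FP_serInv_coeff_top : (S36F0_serInv R q).coeff (1 - (q : ℤ)) = 1 := by
  rw [S36FP_serInv_eq, HahnSeries.coeff_single_mul, one_mul, sub_self,
    show (0 : ℤ) = ((0 : ℕ) : ℤ) from rfl, HahnSeries.ofPowerSeries_apply_coeff,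
    PowerSeries.coeff_zero_eq_constantCoeff]
  exact S36FP_G_constantCoeff R q

theorem S36FP_serInv_coeff_lt {m : ℤ} (hm : m < 1 - (q : ℤ)) :
    (S36F0_serInv R q).coeff m = 0 := by
  rw [S36FP_serInv_eq, HahnSeries.coeff_single_mul, one_mul]
  exact ofPowerSeries_coeff_of_neg _ (by omega)

end coeffs

section degree

variable (k : Type*) [Field k]

theorem S36FP_aeval_coeff_top (P : k[X]) :
    (Polynomial.aeval (jqModC k) P).coeff (-(P.natDegree : ℤ)) = P.leadingCoeff := by
  rw [Polynomial.aeval_def, Polynomial.eval₂_eq_sum_range, HahnSeries.coeff_sum,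
    Finset.sum_eq_single P.natDegree]
  · rw [algebraMap_laurentSeries_eq_single, HahnSeries.coeff_single_zero_mul,
      coeff_jqModC_pow_self, mul_one]
    rfl
  · intro i hi hin
    have hilt : i < P.natDegree :=
      lt_of_le_of_ne (Nat.lt_succ_iff.mp (Finset.mem_range.mp hi)) hin
    rw [algebraMap_laurentSeries_eq_single, HahnSeries.coeff_single_zero_mul,
      coeff_jqModC_pow_of_lt, mul_zero]
    omega
  · intro hn'
    exact absurd (Finset.self_mem_range_succ P.natDegree) hn'

theorem S36FP_aeval_coeff_lt (P : k[X]) {m : ℤ} (hm : m < -(P.natDegree : ℤ)) :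
    (Polynomial.aeval (jqModC k) P).coeff m = 0 := by
  rw [Polynomial.aeval_def, Polynomial.eval₂_eq_sum_range, HahnSeries.coeff_sum]
  apply Finset.sum_eq_zero
  intro i hi
  have hile : i ≤ P.natDegree := Nat.lt_succ_iff.mp (Finset.mem_range.mp hi)
  rw [algebraMap_laurentSeries_eq_single, HahnSeries.coeff_single_zero_mul,
    coeff_jqModC_pow_of_lt, mul_zero]
  omega

/-- the degree of `P` is read off from the pole order of `P(j̄)`. -/
theorem S36FP_natDegree (P : k[X]) (n : ℕ) (g : LaurentSeries k)
    (hg : g = Polynomial.aeval (jqModC k) P) (h1 : g.coeff (-(n : ℤ)) ≠ 0)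
    (h2 : ∀ m : ℤ, m < -(n : ℤ) → g.coeff m = 0) : P.natDegree = n := by
  have hP : P ≠ 0 := by
    rintro rfl
    rw [map_zero] at hg
    rw [hg] at h1
    exact h1 rfl
  rcases lt_trichotomy P.natDegree n with h | h | h
  · exfalso
    apply h1
    rw [hg]
    exact S36FP_aeval_coeff_lt k P (by omega)
  · exact h
  · exfalso
    have h3 := h2 (-(P.natDegree : ℤ)) (by omega)
    rw [hg, S36FP_aeval_coeff_top] at h3
    exact hP (Polynomial.leadingCoeff_eq_zero.mp h3)

end degree

section top

theorem S36FP_qExpand_congr {R : Type*} [CommRing R] {a b : ℕ} [NeZero a] [NeZero b] (h : a = b)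
    (f : LaurentSeries R) : qExpand R a f = qExpand R b f := by
  subst h
  rfl

variable (k : Type*) [Field k] (q : ℕ) [Fact q.Prime] [CharP k q] [NeZero (1 * q)]

/-- at level `q` in characteristic `q` the reduced function field is `k(j̄)`. -/
theorem S36FP_adjoin_top :
    IntermediateField.adjoin k ({S18_jbar (1 * q) k} :
      Set ↥(modularFunctionFieldFullC k (1 * q))) = ⊤ := by
  haveI : NeZero q := ⟨(Fact.out : q.Prime).ne_zero⟩
  haveI : NeZero (q * 1) := ⟨by rw [mul_one]; exact (Fact.out : q.Prime).ne_zero⟩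
  rw [eq_top_iff]
  intro x _
  rw [← IntermediateField.mem_lift, IntermediateField.lift_adjoin_simple]
  have hx : (x : LaurentSeries k) ∈ modularFunctionFieldFullC k (1 * q) := x.2
  have hle : modularFunctionFieldFullC k (1 * q) ≤
      IntermediateField.adjoin k ({jqModC k} : Set (LaurentSeries k)) := by
    rw [modularFunctionFieldFullC, IntermediateField.adjoin_le_iff]
    rintro y ⟨d, hd0, hd, rfl⟩
    have hd' : d = 1 ∨ d = q := by
      rw [one_mul] at hd
      exact (Nat.dvd_prime (Fact.out : q.Prime)).mp hd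
    rcases hd' with rfl | rfl
    · rw [qExpand_one_apply]
      exact IntermediateField.mem_adjoin_simple_self k _
    · have h := S34VW_frob k d 1
      rw [qExpand_one_apply] at h
      have h2 : qExpand k d (jqModC k) = jqModC k ^ d := by
        rw [← h]
        exact S36FP_qExpand_congr (mul_one d).symm _
      rw [h2]
      exact pow_mem (IntermediateField.mem_adjoin_simple_self k _) _
  exact hle hx

end top

section wire

variable (q : ℕ) [NeZero (1 * q)] [NeZero q] (hq : q.Prime)
  (A : ValuationSubring (AlgebraicClosure ℚ)) (hA : A.LiesOverPrime q)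

include hq hA in
/-- **F0, piece E2** (from piece E1 at level `1 * q`): the series `Δ(t)/Δ(t^q)` over the residue
field is a polynomial of degree `q − 1` in `j̄`. -/
theorem S36FP_main
    (hO : S36F0_f0 1 q ∈ S18_O A (1 * q))
    (hOinv : (S36F0_f0 1 q)⁻¹ ∈ S18_O A (1 * q))
    (hred : ((S18_red A (1 * q) ⟨(S36F0_f0 1 q)⁻¹, hOinv⟩ :
        ↥(modularFunctionFieldFullC (IsLocalRing.ResidueField A) (1 * q))) :
          LaurentSeries (IsLocalRing.ResidueField A)) =
        S36F0_serInv (IsLocalRing.ResidueField A) q) :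
    ∃ P : Polynomial (IsLocalRing.ResidueField A), P.natDegree = q - 1 ∧
      S36F0_serInv (IsLocalRing.ResidueField A) q =
        Polynomial.aeval (jqModC (IsLocalRing.ResidueField A)) P := by
  classical
  have hq1 : ¬ q ∣ 1 := hq.not_dvd_one
  haveI : Fact q.Prime := ⟨hq⟩
  haveI : CharP (IsLocalRing.ResidueField A) q := S18_residue_charP A q hq hA
  haveI : IsAlgClosed (IsLocalRing.ResidueField A) := S18_residue_isAlgClosed A
  have hgen : PrincipalGeneratedByIntegral A (IsLocalRing.residue A) (1 * q) :=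
    S34VH_hgen 1 q hq hq1 A hA
  have hcart : S34PX_Cart 1 q hq hq1 A hgen := S34VW_cart 1 q hq hq1 A hgen hA
  have hyp := S34PX_hyp hcart
  have hqA : (q : AlgebraicClosure ℚ) ∈ A := by
    have h2 : (q : AlgebraicClosure ℚ) ∈ A.nonunits := hA
    rw [ValuationSubring.mem_nonunits_iff_exists_mem_maximalIdeal] at h2
    exact h2.1
  have hw : S34DF_wq 1 q hq hq1 (S36F0_f0 1 q)⁻¹ ∈ S18_O A (1 * q) := by
    have e : S34DF_wq 1 q hq hq1 (S36F0_f0 1 q)⁻¹ =
        algebraMap (AlgebraicClosure ℚ) ↥(modularFunctionFieldBar (1 * q))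
          ((q : AlgebraicClosure ℚ) ^ 12) * S36F0_f0 1 q := by
      rw [map_inv₀, S36F0_f0_wq 1 q hq hq1, mul_inv, inv_inv, ← map_inv₀, inv_inv]
    rw [e]
    exact mul_mem ((S18_algebraMap_mem_O_iff (A := A) (N := 1 * q) _).mpr (pow_mem hqA 12)) hO
  let z : S34P_O2 (S34PX_S1 1 q A hgen) (S34PX_S2 1 q hq hq1 A hgen) :=
    ⟨(S36F0_f0 1 q)⁻¹, hOinv, hw⟩
  have hzint : IsIntegral (Algebra.adjoin (AlgebraicClosure ℚ)
      ({((S34PX_j 1 q hq hq1 A hgen : S34P_O2 (S34PX_S1 1 q A hgen)
        (S34PX_S2 1 q hq hq1 A hgen)) : ↥(modularFunctionFieldBar (1 * q)))} :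
          Set ↥(modularFunctionFieldBar (1 * q))))
      (z : ↥(modularFunctionFieldBar (1 * q))) := by
    apply hyp.reg
    intro P hP
    show 0 ≤ P.ord (S36F0_f0 1 q)⁻¹
    rw [Place.ord_inv, S36F0_f0_ord_fin 1 q P hP, neg_zero]
  have h1 := (hyp.int z hzint).1
  rw [S34PX_red_j_fst] at h1
  obtain ⟨P, hP⟩ := S36FP_poly_of_integral
    (S18_jbar (1 * q) (IsLocalRing.ResidueField A))
    (S18_transcendental_jbar (k := IsLocalRing.ResidueField A) (1 * q))
    (S36FP_adjoin_top (IsLocalRing.ResidueField A) q) _ h1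
  have hP' : S36F0_serInv (IsLocalRing.ResidueField A) q =
      Polynomial.aeval (jqModC (IsLocalRing.ResidueField A)) P := by
    rw [← hred]
    have h2 : ((S18_red A (1 * q) ⟨(S36F0_f0 1 q)⁻¹, hOinv⟩ :
        ↥(modularFunctionFieldFullC (IsLocalRing.ResidueField A) (1 * q))) :
          LaurentSeries (IsLocalRing.ResidueField A)) =
        ((Polynomial.aeval (S18_jbar (1 * q) (IsLocalRing.ResidueField A)) P :
          ↥(modularFunctionFieldFullC (IsLocalRing.ResidueField A) (1 * q))) :
            LaurentSeries (IsLocalRing.ResidueField A)) := congrArg Subtype.val hP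
    rw [h2, ← IntermediateField.aeval_coe]
    rfl
  refine ⟨P, S36FP_natDegree _ P (q - 1) _ hP' ?_ ?_, hP'⟩
  · have e : (-((q - 1 : ℕ) : ℤ)) = 1 - (q : ℤ) := by
      have := hq.one_lt
      omega
    rw [e, S36FP_serInv_coeff_top]
    exact one_ne_zero
  · intro m hm
    apply S36FP_serInv_coeff_lt
    have := hq.one_lt
    omega

end wire

end Fermat.Agent.S36
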