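import Mathlib
import Fermat.Agent.S36.ModUnit
import Fermat.Agent.S18.Der
import Fermat.Agent.S18.Reduce
import Fermat.Agent.S34.ValHgenAsm

/-!
# TRACK 10 (S36), package F0, piece E1 (helper8): the Gauss valuation of the modular unit

`f₀ = Δ(qz)/Δ(z) = S36F0_f0 M q ∈ F_{Mq}`, `A ⊂ ℚ̄` a valuation ring over `q`, `k` its residue field.
Since `f₀` and `f₀⁻¹` have integral `q`-expansions (`S36F0_ser ℤ q`, `S36F0_serInv ℤ q`), both lie
in the Gauss ring `O₁ = S18_O A (M q)` and reduce to the same formal series over `k`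
(`S18_frac_mem_O` of TRACK 3 with denominator `1`).  Prefix `S36FR_`.

* `S36FR_mem_O`, `S36FR_inv_mem_O` : the hypotheses `hO`, `hOinv` of `S36F0_unit_of_red`;
* `S36FR_red`, `S36FR_red_inv`     : `red₁ f₀ = S36F0_ser k q`, `red₁ f₀⁻¹ = S36F0_serInv k q`;
* `S36FR_red_jB`                   : `red₁ j = jqModC k` (the shape of `hred`);
* `S36FR_hred_of`                  : `hred` of `S36F0_unit_of_red` from the formal statement (E2)
  `∃ P, P.natDegree = q − 1 ∧ S36F0_serInv k q = aeval (jqModC k) P`;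
* `S36FR_unit_of`                  : `S36F0_Unit M q hq hqM A (S36F0_f0 M q)` from (E2).
-/

set_option autoImplicit false
set_option synthInstance.maxHeartbeats 400000
set_option maxHeartbeats 1000000
set_option linter.unusedSectionVars false

open HahnSeries IntermediateField AlgebraicCurve ModularCurve

noncomputable section

namespace Fermat.Agent.S36

open Fermat.Agent.S18 Fermat.Agent.S24 Fermat.Agent.S34

variable (M q : ℕ) [NeZero M] [NeZero q] [NeZero (M * q)] (hq : q.Prime) (hqM : ¬ q ∣ M)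
  (A : ValuationSubring (AlgebraicClosure ℚ)) (hA : A.LiesOverPrime q)

include hq hqM hA

/-- `f₀ ∈ O₁` and `red₁ f₀ = S36F0_ser k q`. -/
theorem S36FR_exists :
    ∃ hO : S36F0_f0 M q ∈ S18_O A (M * q),
      ((S18_red A (M * q) ⟨S36F0_f0 M q, hO⟩ :
          ↥(modularFunctionFieldFullC (IsLocalRing.ResidueField A) (M * q))) :
        LaurentSeries (IsLocalRing.ResidueField A)) = S36F0_ser (IsLocalRing.ResidueField A) q := by
  have hb : S18_ρ A (1 : LaurentSeries ↥A) ≠ 0 := by
    rw [map_one]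
    exact one_ne_zero
  have hf : ((S36F0_f0 M q : ↥(modularFunctionFieldBar (M * q))) :
      LaurentSeries (AlgebraicClosure ℚ)) * S18_ι A (1 : LaurentSeries ↥A) =
      S18_ι A (S36F0_ser ↥A q) := by
    rw [map_one, mul_one, S36F0_f0_coe]
    exact (S36F0_coeffMap_ser A.subtype q).symm
  obtain ⟨hO, hred⟩ := S18_frac_mem_O A (M * q) (S18_hPD (M * q)) (S18_hconst (M * q))
    (S34VH_hgen M q hq hqM A hA) (S36F0_f0 M q) (S36F0_ser ↥A q) 1 hb hf
  refine ⟨hO, ?_⟩
  rw [hred, map_one, div_one]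
  exact S36F0_coeffMap_ser (IsLocalRing.residue ↥A) q

/-- `f₀⁻¹ ∈ O₁` and `red₁ f₀⁻¹ = S36F0_serInv k q`. -/
theorem S36FR_exists_inv :
    ∃ hO : (S36F0_f0 M q)⁻¹ ∈ S18_O A (M * q),
      ((S18_red A (M * q) ⟨(S36F0_f0 M q)⁻¹, hO⟩ :
          ↥(modularFunctionFieldFullC (IsLocalRing.ResidueField A) (M * q))) :
        LaurentSeries (IsLocalRing.ResidueField A)) =
          S36F0_serInv (IsLocalRing.ResidueField A) q := by
  have hb : S18_ρ A (1 : LaurentSeries ↥A) ≠ 0 := by
    rw [map_one]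
    exact one_ne_zero
  have hf : (((S36F0_f0 M q)⁻¹ : ↥(modularFunctionFieldBar (M * q))) :
      LaurentSeries (AlgebraicClosure ℚ)) * S18_ι A (1 : LaurentSeries ↥A) =
      S18_ι A (S36F0_serInv ↥A q) := by
    rw [map_one, mul_one, S36F0_f0_inv_coe]
    exact (S36F0_coeffMap_serInv A.subtype q).symm
  obtain ⟨hO, hred⟩ := S18_frac_mem_O A (M * q) (S18_hPD (M * q)) (S18_hconst (M * q))
    (S34VH_hgen M q hq hqM A hA) (S36F0_f0 M q)⁻¹ (S36F0_serInv ↥A q) 1 hb hf
  refine ⟨hO, ?_⟩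
  rw [hred, map_one, div_one]
  exact S36F0_coeffMap_serInv (IsLocalRing.residue ↥A) q

/-- **(E1)** `hO`. -/
theorem S36FR_mem_O : S36F0_f0 M q ∈ S18_O A (M * q) :=
  (S36FR_exists M q hq hqM A hA).1

/-- **(E1)** `hOinv`. -/
theorem S36FR_inv_mem_O : (S36F0_f0 M q)⁻¹ ∈ S18_O A (M * q) :=
  (S36FR_exists_inv M q hq hqM A hA).1

/-- **(E1)** `red₁ f₀ = S36F0_ser k q` (for ANY proof of membership). -/
theorem S36FR_red (hO : S36F0_f0 M q ∈ S18_O A (M * q)) :
    ((S18_red A (M * q) ⟨S36F0_f0 M q, hO⟩ :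
        ↥(modularFunctionFieldFullC (IsLocalRing.ResidueField A) (M * q))) :
      LaurentSeries (IsLocalRing.ResidueField A)) = S36F0_ser (IsLocalRing.ResidueField A) q :=
  (S36FR_exists M q hq hqM A hA).2

/-- **(E1)** `red₁ f₀⁻¹ = S36F0_serInv k q` (for ANY proof of membership). -/
theorem S36FR_red_inv (hO : (S36F0_f0 M q)⁻¹ ∈ S18_O A (M * q)) :
    ((S18_red A (M * q) ⟨(S36F0_f0 M q)⁻¹, hO⟩ :
        ↥(modularFunctionFieldFullC (IsLocalRing.ResidueField A) (M * q))) :
      LaurentSeries (IsLocalRing.ResidueField A)) =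
        S36F0_serInv (IsLocalRing.ResidueField A) q :=
  (S36FR_exists_inv M q hq hqM A hA).2

omit hq hqM hA in
/-- `red₁ j = jqModC k` as Laurent series. -/
theorem S36FR_red_jB :
    ((S18_red A (M * q) ⟨jB (M * q), S34VW_jB_mem M q A⟩ :
        ↥(modularFunctionFieldFullC (IsLocalRing.ResidueField A) (M * q))) :
      LaurentSeries (IsLocalRing.ResidueField A)) = jqModC (IsLocalRing.ResidueField A) :=
  S34VW_red_jB M q A

/-- the hypothesis `hred` of `S36F0_unit_of_red` from the formal statement (E2). -/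
theorem S36FR_hred_of
    (hE2 : ∃ P : Polynomial (IsLocalRing.ResidueField A), P.natDegree = q - 1 ∧
      S36F0_serInv (IsLocalRing.ResidueField A) q =
        Polynomial.aeval (jqModC (IsLocalRing.ResidueField A)) P)
    (hOinv : (S36F0_f0 M q)⁻¹ ∈ S18_O A (M * q)) :
    ∃ P : Polynomial (IsLocalRing.ResidueField A), P.natDegree = q - 1 ∧
      ((S18_red A (M * q) ⟨(S36F0_f0 M q)⁻¹, hOinv⟩ :
          ↥(modularFunctionFieldFullC (IsLocalRing.ResidueField A) (M * q))) :
            LaurentSeries (IsLocalRing.ResidueField A)) =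
        Polynomial.aeval
          ((S18_red A (M * q) ⟨jB (M * q), S34VW_jB_mem M q A⟩ :
            ↥(modularFunctionFieldFullC (IsLocalRing.ResidueField A) (M * q))) :
              LaurentSeries (IsLocalRing.ResidueField A)) P := by
  obtain ⟨P, hdeg, hP⟩ := hE2
  refine ⟨P, hdeg, ?_⟩
  rw [S36FR_red_inv M q hq hqM A hA hOinv, S36FR_red_jB M q A, hP]

/-- **F0 from (E2)**: the interface `S36F0_Unit` for `f₀ = S36F0_f0 M q`. -/
theorem S36FR_unit_of
    (hE2 : ∃ P : Polynomial (IsLocalRing.ResidueField A), P.natDegree = q - 1 ∧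
      S36F0_serInv (IsLocalRing.ResidueField A) q =
        Polynomial.aeval (jqModC (IsLocalRing.ResidueField A)) P) :
    S36F0_Unit M q hq hqM A (S36F0_f0 M q) :=
  S36F0_unit_of_red M q hq hqM A (S36FR_mem_O M q hq hqM A hA)
    (S36FR_inv_mem_O M q hq hqM A hA)
    (S36FR_hred_of M q hq hqM A hA hE2 (S36FR_inv_mem_O M q hq hqM A hA))

end Fermat.Agent.S36
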