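import Mathlib
import Fermat.Agent.S36.ModUnitRed
import Fermat.Agent.S36.ModUnitPoly

/-!
# TRACK 10 (S36), package F0 (helper3): the modular unit `f₀ = Δ(qz)/Δ(z)` — FINAL

All pieces wired: B (`S36/ModUnitMem.lean`, helper3), C and D (`S36/ModUnitFin.lean`,
`S36/ModUnitWq.lean`, helper24), E1 (`S36/ModUnitRed.lean`, helper8), E2
(`S36/ModUnitPoly.lean`, helper3).

* `S36F0_E2` — over the residue field `k` of a valuation ring over `q`:
  `Δ(t)/Δ(t^q) = P(j̄)` with `deg P = q − 1`;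
* `S36F0_unit` — `S36F0_Unit M q hq hqM A (S36F0_f0 M q)`;
* `S36F0_exists` — `∃ f₀, S36F0_Unit M q hq hqM A f₀`.
-/

set_option autoImplicit false
set_option linter.unusedSectionVars false
set_option linter.style.haveILetI false

open AlgebraicCurve ModularCurve Polynomial

noncomputable section

namespace Fermat.Agent.S36

open Fermat.Agent.S18 Fermat.Agent.S24 Fermat.Agent.S34

/-- **E2, unconditional**: the series `Δ(t)/Δ(t^q)` over the residue field of a valuation ring
over `q` is a polynomial of degree `q − 1` in `j̄`. -/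
theorem S36F0_E2 (q : ℕ) [NeZero q] (hq : q.Prime)
    (A : ValuationSubring (AlgebraicClosure ℚ)) (hA : A.LiesOverPrime q) :
    ∃ P : Polynomial (IsLocalRing.ResidueField A),
      P.natDegree = q - 1 ∧
        S36F0_serInv (IsLocalRing.ResidueField A) q =
          Polynomial.aeval (jqModC (IsLocalRing.ResidueField A)) P := by
  haveI : NeZero (1 * q) := ⟨by rw [one_mul]; exact hq.ne_zero⟩
  have hq1 : ¬ q ∣ 1 := hq.not_dvd_one
  exact S36FP_main q hq A hA (S36FR_mem_O 1 q hq hq1 A hA) (S36FR_inv_mem_O 1 q hq hq1 A hA)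
    (S36FR_red_inv 1 q hq hq1 A hA _)

/-- **F0**: the modular unit `f₀ = Δ(qz)/Δ(z)` of `F_{Mq}` satisfies the whole interface. -/
theorem S36F0_unit (M q : ℕ) [NeZero (M * q)] [NeZero q] (hq : q.Prime) (hqM : ¬ q ∣ M)
    (A : ValuationSubring (AlgebraicClosure ℚ)) (hA : A.LiesOverPrime q) :
    S36F0_Unit M q hq hqM A (S36F0_f0 M q) := by
  haveI : NeZero M := ⟨fun h => NeZero.ne (M * q) (by rw [h, zero_mul])⟩
  exact S36FR_unit_of M q hq hqM A hA (S36F0_E2 q hq A hA)

/-- **F0, existence form.** -/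
theorem S36F0_exists (M q : ℕ) [NeZero (M * q)] (hq : q.Prime) (hqM : ¬ q ∣ M)
    (A : ValuationSubring (AlgebraicClosure ℚ)) (hA : A.LiesOverPrime q) :
    ∃ f₀ : ↥(modularFunctionFieldBar (M * q)), S36F0_Unit M q hq hqM A f₀ :=
  haveI : NeZero q := ⟨hq.ne_zero⟩
  ⟨S36F0_f0 M q, S36F0_unit M q hq hqM A hA⟩

end Fermat.Agent.S36
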