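import Mathlib
import Fermat.Agent.S36.SSCard
import Fermat.Agent.S36.Nodal3Sym
import Fermat.Agent.S36.Spec3Pts
import Fermat.Agent.S34.ChartLev
import Fermat.Agent.S34.NodalX0Fin

/-!
# TRACK 10 (S36), hint_j on the chart `U'` — REQUEST 2 of helper12 (helper21).  Prefix `S36NE_`.

Level `M q`, `κ₁ = F̄_{Mq}`, `x̄ = S34M_xb M q A = j̄`, `D : S36SS_Data` (the nodes `e₁ e₂` of
TRACK 7's chart `U` with the places `D.P i` of the first branches).  For a function `a₁ ∈ κ₁`
regular off the zeros of `x̄^q − γ` and vanishing at the supersingular places `D.P i`: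

  `a₁ ∈ L(b · (x̄^q − γ)₀)`  for all large `b`,  and  `ev₂ i a₁ = 0`  at every second-branch node,

i.e. the hypotheses (H1), (H2) of helper12's `S36NU_lift_q` / `S36NU_core`.

* `S36NE_exists_b` : (H1), generic (`∃ b₀, ∀ b ≥ b₀`);
* `S36NE_ev_zero`  : `S34CH_ev R ρ hρ e a = 0` as soon as `e` kills every `ρ^m a ∈ R`;
* `S36NE_val_lt`   : `v (ρ^m a) < 1` if `v ρ ≤ 1`, `v a < 1`;
* `S36NE_main`     : **REQUEST 2**, with NODE-SYM as hypothesis `hsym` (literal shape);
* `S36NE_main'`    : the same with NODE-SYM discharged by helper3's `S36N3S_Q_mem`;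
* `S36NE_all`, `S36NE_all'` : the `∃ b₀, ∀ b ≥ b₀` forms.
-/

set_option autoImplicit false
set_option synthInstance.maxHeartbeats 400000
set_option maxHeartbeats 1000000
set_option linter.style.haveILetI false
set_option linter.unusedSectionVars false
set_option linter.unusedVariables false

open HahnSeries IntermediateField AlgebraicCurve ModularCurve

namespace Fermat.Agent.S36

open Fermat.Agent.S18 Fermat.Agent.S24 Fermat.Agent.S34 Fermat.Agent.Lib

/-! ### generic -/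

section generic

variable {K F : Type*} [Field K] [Field F] [Algebra K F]

/-- **(H1)**: a function regular off the zeros of `x − c` lies in `L(b (x − c)₀)` for all large
`b`. -/
theorem S36NE_exists_b (hP : HasPrincipalDivisors K F) (x : F) (c : K) {s : F}
    (hs : s ∈ S34SB_regZ K (x - algebraMap K F c)) :
    ∃ b₀ : ℕ, ∀ b, b₀ ≤ b →
      s ∈ riemannRochSpace (S34P_E hP x (x - algebraMap K F c) 0 b) := by
  refine S34SB_regOff_ex hP (S34SB_zeros K (x - algebraMap K F c))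
    (fun b => S34P_E hP x (x - algebraMap K F c) 0 b)
    (fun m Q => S34SB_E_nonneg hP x c 0 m Q) (fun m Q hQ => ?_) hs
  rw [S34SB_mem_zeros] at hQ
  rcases S34P_E_apply_sub hP x c 0 m Q with ⟨h, _⟩ | ⟨_, _, e⟩
  · rw [LC_ord_sub_const_of_neg Q h c] at hQ
    omega
  · rw [e]
    have h5 : (0 : ℤ) ≤ m := Int.natCast_nonneg _
    nlinarith

/-- `v (ρ^m a) < 1` if `v ρ ≤ 1` and `v a < 1`. -/
theorem S36NE_val_lt (Q : Place K F) {ρ a : F} (hρ : Q.adicValuation ρ ≤ 1)
    (ha : Q.adicValuation a < 1) (m : ℕ) : Q.adicValuation (ρ ^ m * a) < 1 := by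
  rw [map_mul, map_pow]
  calc Q.adicValuation ρ ^ m * Q.adicValuation a
      ≤ 1 * Q.adicValuation a := mul_le_mul_left (pow_le_one₀ zero_le hρ) _
    _ = Q.adicValuation a := one_mul _
    _ < 1 := ha

end generic

section ev

variable {k : Type*} [Field k] {K : Type*} [CommRing K] [Algebra k K]

/-- the extended value vanishes as soon as `e` kills every `ρ^m a ∈ R`. -/
theorem S36NE_ev_zero (R : Subalgebra k K) (ρ : K) (hρ : ρ ∈ R) (e : R →ₐ[k] k) (a : K)
    (h : ∀ (m : ℕ) (hm : ρ ^ m * a ∈ R), e ⟨ρ ^ m * a, hm⟩ = 0) :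
    S34CH_ev R ρ hρ e a = 0 := by
  classical
  unfold S34CH_ev
  by_cases hex : ∃ m : ℕ, ρ ^ m * a ∈ R
  · rw [dif_pos hex, h _ (Classical.choose_spec hex), zero_div]
  · rw [dif_neg hex]

end ev

/-! ### REQUEST 2 -/

section conc

variable (M q : ℕ) [NeZero M] [NeZero q] [NeZero (M * q)] (hq : q.Prime) (hqM : ¬ q ∣ M)
  (A : ValuationSubring (AlgebraicClosure ℚ)) (hA : A.LiesOverPrime q)
  {hgen : PrincipalGeneratedByIntegral A (IsLocalRing.residue A) (M * q)}
  {n' : ℕ} {hn' : 0 < n'}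

include hq in
/-- **(H2)**: the extended values at the second-branch nodes of a function vanishing at the
supersingular places are zero. -/
theorem S36NE_ev₂ (D : S36SS_Data M q hq hqM A hgen n' hn')
    (hsym : ∀ i, ∃ j, ∀ (f : ↥(modularFunctionFieldFullC (IsLocalRing.ResidueField A) (M * q)))
      (h₁ : f ∈ (S34M_chart M q A n' hn').Rb₁) (h₂ : f ∈ (S34M_chart M q A n' hn').Rb₂),
      D.e₂ i ⟨f, h₂⟩ = D.e₁ j ⟨f, h₁⟩)
    (γ : IsLocalRing.ResidueField A)
    (a₁ : ↥(modularFunctionFieldFullC (IsLocalRing.ResidueField A) (M * q)))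
    (hv : ∀ i, (D.P i).adicValuation a₁ < 1) (i : Fin D.s) :
    S34CH_ev (S34SB_reg (IsLocalRing.ResidueField A) (S34M_xb M q A ^ q))
      (S34M_xb M q A ^ q - algebraMap (IsLocalRing.ResidueField A)
        ↥(modularFunctionFieldFullC (IsLocalRing.ResidueField A) (M * q)) γ)
      (S34SB_sub_const_mem_reg (S34M_xb M q A ^ q) γ) (D.e₂ i) a₁ = 0 := by
  obtain ⟨j, hj⟩ := hsym i
  refine S36NE_ev_zero _ _ _ _ _ (fun m hm => ?_)
  have hRb : S34SB_reg (IsLocalRing.ResidueField A) (S34M_xb M q A ^ q) =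
      S34SB_reg (IsLocalRing.ResidueField A) (S34M_xb M q A) :=
    S34SB_reg_pow (S34M_xb M q A) hq.pos
  have hm₁ : (S34M_xb M q A ^ q - algebraMap (IsLocalRing.ResidueField A)
        ↥(modularFunctionFieldFullC (IsLocalRing.ResidueField A) (M * q)) γ) ^ m * a₁ ∈
      (S34M_chart M q A n' hn').Rb₁ := (SetLike.ext_iff.mp hRb _).mp hm
  have e1 := hj _ hm₁ hm
  refine e1.trans ((D.P_ker j _).2 ?_)
  rw [← S36SP_val_lt_one_iff]
  refine S36NE_val_lt (D.P j) ?_ (hv j) m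
  -- `ρ` is regular at `P_j`
  have hρ := S34SB_sub_const_mem_reg (K := IsLocalRing.ResidueField A) (S34M_xb M q A ^ q) γ
  rw [hRb, S34SB_mem_reg] at hρ
  have hreg : 0 ≤ (D.P j).ord (S34M_xb M q A) := by
    rw [S34NXF_xb M q A]
    exact D.P_reg j
  exact (BL_adicValuation_le_one_iff (D.P j) _).2 (hρ (D.P j) hreg)

include hq hA in
/-- **REQUEST 2** (helper12): (H1) and (H2) for a function regular off the zeros of `x̄^q − γ`
and vanishing at the supersingular places; NODE-SYM as hypothesis. -/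
theorem S36NE_main (D : S36SS_Data M q hq hqM A hgen n' hn')
    (hsym : ∀ i, ∃ j, ∀ (f : ↥(modularFunctionFieldFullC (IsLocalRing.ResidueField A) (M * q)))
      (h₁ : f ∈ (S34M_chart M q A n' hn').Rb₁) (h₂ : f ∈ (S34M_chart M q A n' hn').Rb₂),
      D.e₂ i ⟨f, h₂⟩ = D.e₁ j ⟨f, h₁⟩)
    (γ : IsLocalRing.ResidueField A)
    (hγ : ∀ i, D.e₁ i ⟨S34M_xb M q A, S34SB_self_mem_reg (S34M_xb M q A)⟩ ≠ γ)
    (a₁ : ↥(modularFunctionFieldFullC (IsLocalRing.ResidueField A) (M * q)))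
    (ha : a₁ ∈ S34SB_regZ (IsLocalRing.ResidueField A)
      (S34M_xb M q A ^ q - algebraMap (IsLocalRing.ResidueField A)
        ↥(modularFunctionFieldFullC (IsLocalRing.ResidueField A) (M * q)) γ))
    (hv : ∀ i, (D.P i).adicValuation a₁ < 1) (m₀ : ℕ) :
    ∃ b, m₀ ≤ b ∧
      a₁ ∈ riemannRochSpace (S34P_E (S34VF_hk M A hq hA hqM).principal (S34M_xb M q A ^ q)
        (S34M_xb M q A ^ q - algebraMap (IsLocalRing.ResidueField A)
          ↥(modularFunctionFieldFullC (IsLocalRing.ResidueField A) (M * q)) γ) 0 b) ∧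
      ∀ i, S34CH_ev (S34SB_reg (IsLocalRing.ResidueField A) (S34M_xb M q A ^ q))
        (S34M_xb M q A ^ q - algebraMap (IsLocalRing.ResidueField A)
          ↥(modularFunctionFieldFullC (IsLocalRing.ResidueField A) (M * q)) γ)
        (S34SB_sub_const_mem_reg (S34M_xb M q A ^ q) γ) (D.e₂ i) a₁ = 0 := by
  obtain ⟨b₀, hb₀⟩ := S36NE_exists_b (S34VF_hk M A hq hA hqM).principal (S34M_xb M q A ^ q) γ ha
  exact ⟨max b₀ m₀, le_max_right _ _, hb₀ _ (le_max_left _ _),
    S36NE_ev₂ M q hq hqM A D hsym γ a₁ hv⟩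

include hq hA in
/-- **REQUEST 2**, the form `∃ b₀, ∀ b ≥ b₀`. -/
theorem S36NE_all (D : S36SS_Data M q hq hqM A hgen n' hn')
    (hsym : ∀ i, ∃ j, ∀ (f : ↥(modularFunctionFieldFullC (IsLocalRing.ResidueField A) (M * q)))
      (h₁ : f ∈ (S34M_chart M q A n' hn').Rb₁) (h₂ : f ∈ (S34M_chart M q A n' hn').Rb₂),
      D.e₂ i ⟨f, h₂⟩ = D.e₁ j ⟨f, h₁⟩)
    (γ : IsLocalRing.ResidueField A)
    (a₁ : ↥(modularFunctionFieldFullC (IsLocalRing.ResidueField A) (M * q)))
    (ha : a₁ ∈ S34SB_regZ (IsLocalRing.ResidueField A)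
      (S34M_xb M q A ^ q - algebraMap (IsLocalRing.ResidueField A)
        ↥(modularFunctionFieldFullC (IsLocalRing.ResidueField A) (M * q)) γ))
    (hv : ∀ i, (D.P i).adicValuation a₁ < 1) :
    ∃ b₀ : ℕ, ∀ b, b₀ ≤ b →
      a₁ ∈ riemannRochSpace (S34P_E (S34VF_hk M A hq hA hqM).principal (S34M_xb M q A ^ q)
        (S34M_xb M q A ^ q - algebraMap (IsLocalRing.ResidueField A)
          ↥(modularFunctionFieldFullC (IsLocalRing.ResidueField A) (M * q)) γ) 0 b) ∧
      ∀ i, S34CH_ev (S34SB_reg (IsLocalRing.ResidueField A) (S34M_xb M q A ^ q))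
        (S34M_xb M q A ^ q - algebraMap (IsLocalRing.ResidueField A)
          ↥(modularFunctionFieldFullC (IsLocalRing.ResidueField A) (M * q)) γ)
        (S34SB_sub_const_mem_reg (S34M_xb M q A ^ q) γ) (D.e₂ i) a₁ = 0 := by
  obtain ⟨b₀, hb₀⟩ := S36NE_exists_b (S34VF_hk M A hq hA hqM).principal (S34M_xb M q A ^ q) γ ha
  exact ⟨b₀, fun b hb => ⟨hb₀ b hb, S36NE_ev₂ M q hq hqM A D hsym γ a₁ hv⟩⟩

include hq hA in
/-- **REQUEST 2** with NODE-SYM discharged (helper3's `S36N3S_Q_mem`). -/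
theorem S36NE_main' (D : S36SS_Data M q hq hqM A hgen n' hn')
    (γ : IsLocalRing.ResidueField A)
    (a₁ : ↥(modularFunctionFieldFullC (IsLocalRing.ResidueField A) (M * q)))
    (ha : a₁ ∈ S34SB_regZ (IsLocalRing.ResidueField A)
      (S34M_xb M q A ^ q - algebraMap (IsLocalRing.ResidueField A)
        ↥(modularFunctionFieldFullC (IsLocalRing.ResidueField A) (M * q)) γ))
    (hv : ∀ i, (D.P i).adicValuation a₁ < 1) (m₀ : ℕ) :
    ∃ b, m₀ ≤ b ∧
      a₁ ∈ riemannRochSpace (S34P_E (S34VF_hk M A hq hA hqM).principal (S34M_xb M q A ^ q)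
        (S34M_xb M q A ^ q - algebraMap (IsLocalRing.ResidueField A)
          ↥(modularFunctionFieldFullC (IsLocalRing.ResidueField A) (M * q)) γ) 0 b) ∧
      ∀ i, S34CH_ev (S34SB_reg (IsLocalRing.ResidueField A) (S34M_xb M q A ^ q))
        (S34M_xb M q A ^ q - algebraMap (IsLocalRing.ResidueField A)
          ↥(modularFunctionFieldFullC (IsLocalRing.ResidueField A) (M * q)) γ)
        (S34SB_sub_const_mem_reg (S34M_xb M q A ^ q) γ) (D.e₂ i) a₁ = 0 := by
  obtain ⟨b₀, hb₀⟩ := S36NE_exists_b (S34VF_hk M A hq hA hqM).principal (S34M_xb M q A ^ q) γ ha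
  exact ⟨max b₀ m₀, le_max_right _ _, hb₀ _ (le_max_left _ _),
    S36NE_ev₂ M q hq hqM A D (fun i => S36N3S_Q_mem D i) γ a₁ hv⟩

end conc

end Fermat.Agent.S36
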