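import Fermat.Agent.S36.HVGlue
import Fermat.Agent.S36.DescWChart
import Fermat.Agent.S36.SSCard

/-!
# TRACK 10 (S36), C1.3 = NODAL3-INST (helper14), part 6: the level-`q` functions for the chart `U`

Prefix `S36N3H_`.  Level `M q`, TRACK 7's canonical pair `(T₁, T₂)`, chart `S34M_chart`, nodes
`e₁ e₂` with `hW1 : W¹ = S34B_W e₁ e₂` (`S36SS_Data`).

* `S36N3H_lev` : for `(a, b) ∈ Rb₁ × Rb₂` with `e₁ i a = e₂ i b` for all nodes `i` there is
  `s ∈ F_{Mq}`, regular off the cusps, Gauss-integral along `emF` and `emV`, with Gauss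
  reductions `a` and `b` (TRACK 7 + the comparison of the Gauss rings, helper29);
* **`S36N3H_levI`** : the same with `s` INERTIA-FIXED (DESC-W-INST, helper26 `S36DW_levU`);
* `S36N3H_levI_A`, `S36N3H_levI_B` : the cases `(a, 0)` (`a` vanishing at the first branches)
  and `(0, b)` (`b` vanishing at the second branches).
-/

set_option autoImplicit false
set_option synthInstance.maxHeartbeats 400000
set_option maxHeartbeats 1000000
set_option linter.unusedSectionVars false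
set_option linter.unusedVariables false
set_option linter.style.haveILetI false
set_option linter.style.longLine false

open HahnSeries IntermediateField AlgebraicCurve ModularCurve

noncomputable section

namespace Fermat.Agent.S36

open Fermat.Agent.S18 Fermat.Agent.S24 Fermat.Agent.S34 Fermat.Agent.Lib Fermat.Agent.GalRep

local notation "ℚbar" => AlgebraicClosure ℚ

variable (M q : ℕ) [NeZero M] [NeZero q] [NeZero (M * q)] (hq : q.Prime) (hqM : ¬ q ∣ M)
  (A : ValuationSubring ℚbar) (hA : A.LiesOverPrime q)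
  (hgen : PrincipalGeneratedByIntegral A (IsLocalRing.residue A) (M * q))

/-- **the level-`q` functions over `ℚ̄`** with prescribed glued reductions. -/
theorem S36N3H_lev {n : ℕ} (hn : 0 < n) {I : Type*}
    (e₁ : I → ↥(S34M_chart M q A n hn).Rb₁ →ₐ[IsLocalRing.ResidueField A]
      IsLocalRing.ResidueField A)
    (e₂ : I → ↥(S34M_chart M q A n hn).Rb₂ →ₐ[IsLocalRing.ResidueField A]
      IsLocalRing.ResidueField A)
    (hW1 : S34K_W (S34M_same M q hq hqM A hgen) (S34M_chart M q A n hn) 1 = S34B_W e₁ e₂)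
    (a : ↥(S34M_chart M q A n hn).Rb₁) (b : ↥(S34M_chart M q A n hn).Rb₂)
    (hab : ∀ i, e₁ i a = e₂ i b) :
    ∃ s : ↥(modularFunctionFieldBar (M * q)), s ∈ S34SB_reg ℚbar (jB (M * q)) ∧
      ∃ (h₁ : s ∈ S36V_G A (S36V_emF M q)) (h₂ : s ∈ S36V_G A (S36V_emV M q hq hqM)),
        S36V_Gred A (S36V_emF M q) ⟨s, h₁⟩ =
          (((a : ↥(modularFunctionFieldFullC (IsLocalRing.ResidueField A) (M * q))) :
            LaurentSeries (IsLocalRing.ResidueField A))) ∧
        S36V_Gred A (S36V_emV M q hq hqM) ⟨s, h₂⟩ =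
          (((b : ↥(modularFunctionFieldFullC (IsLocalRing.ResidueField A) (M * q))) :
            LaurentSeries (IsLocalRing.ResidueField A))) := by
  have hm : ((a, b) : ↥(S34M_chart M q A n hn).Rb₁ × ↥(S34M_chart M q A n hn).Rb₂) ∈
      S34K_W (S34M_same M q hq hqM A hgen) (S34M_chart M q A n hn) 1 := by
    rw [hW1, S34B_mem_W]
    exact hab
  rw [S34K_mem_W_one] at hm
  obtain ⟨f, hfB, hfred⟩ := hm
  have hO1 : (f : ↥(modularFunctionFieldBar (M * q))) ∈ S18_O A (M * q) := f.2.1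
  have hO2 : S34DF_wq M q hq hqM (f : ↥(modularFunctionFieldBar (M * q))) ∈ S18_O A (M * q) :=
    f.2.2
  have h₁ : (f : ↥(modularFunctionFieldBar (M * q))) ∈ S36V_G A (S36V_emF M q) :=
    S36V_S18_le A (M * q) hO1
  have hw : S34DF_wq M q hq hqM (f : ↥(modularFunctionFieldBar (M * q))) ∈
      S36V_G A (S36V_emF M q) := S36V_S18_le A (M * q) hO2
  have e1 : S36V_emV M q hq hqM (f : ↥(modularFunctionFieldBar (M * q))) =
      S36V_emF M q (S34DF_wq M q hq hqM (f : ↥(modularFunctionFieldBar (M * q)))) := rfl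
  have h₂ : (f : ↥(modularFunctionFieldBar (M * q))) ∈ S36V_G A (S36V_emV M q hq hqM) :=
    (S36V_mem_G_of_eq A _ _ e1).2 hw
  refine ⟨f, hfB, h₁, h₂, ?_, ?_⟩
  · rw [S36HV_F_red M q A _ h₁ hO1]
    exact congrArg (fun z : ↥(modularFunctionFieldFullC (IsLocalRing.ResidueField A) (M * q)) =>
      (z : LaurentSeries (IsLocalRing.ResidueField A))) (congrArg Prod.fst hfred)
  · rw [S36HV_V_red M q hq hqM A _ h₂ hO2]
    exact congrArg (fun z : ↥(modularFunctionFieldFullC (IsLocalRing.ResidueField A) (M * q)) =>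
      (z : LaurentSeries (IsLocalRing.ResidueField A))) (congrArg Prod.snd hfred)

include hA in
/-- **the INERTIA-FIXED level-`q` functions** with prescribed glued reductions. -/
theorem S36N3H_levI {n : ℕ} (hn : 0 < n) {I : Type*}
    (e₁ : I → ↥(S34M_chart M q A n hn).Rb₁ →ₐ[IsLocalRing.ResidueField A]
      IsLocalRing.ResidueField A)
    (e₂ : I → ↥(S34M_chart M q A n hn).Rb₂ →ₐ[IsLocalRing.ResidueField A]
      IsLocalRing.ResidueField A)
    (hW1 : S34K_W (S34M_same M q hq hqM A hgen) (S34M_chart M q A n hn) 1 = S34B_W e₁ e₂)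
    (a : ↥(S34M_chart M q A n hn).Rb₁) (b : ↥(S34M_chart M q A n hn).Rb₂)
    (hab : ∀ i, e₁ i a = e₂ i b) :
    ∃ s : ↥(modularFunctionFieldBar (M * q)), s ∈ S34SB_reg ℚbar (jB (M * q)) ∧
      s ∈ (S36FI_act (M * q) (A.inertiaSubgroupIn ℚ)).fixF ∧
      ∃ (h₁ : s ∈ S36V_G A (S36V_emF M q)) (h₂ : s ∈ S36V_G A (S36V_emV M q hq hqM)),
        S36V_Gred A (S36V_emF M q) ⟨s, h₁⟩ =
          (((a : ↥(modularFunctionFieldFullC (IsLocalRing.ResidueField A) (M * q))) :
            LaurentSeries (IsLocalRing.ResidueField A))) ∧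
        S36V_Gred A (S36V_emV M q hq hqM) ⟨s, h₂⟩ =
          (((b : ↥(modularFunctionFieldFullC (IsLocalRing.ResidueField A) (M * q))) :
            LaurentSeries (IsLocalRing.ResidueField A))) := by
  obtain ⟨s, hsB, h₁, h₂, r1, r2⟩ := S36N3H_lev M q hq hqM A hgen hn e₁ e₂ hW1 a b hab
  obtain ⟨g, hgB, hgfix, hg₁, hg₂, e1, e2⟩ := S36DW_levU M q hq hqM A hA (jB (M * q))
    (fun τ _ => S36FI_jBar_fixed (M * q) τ 1 (one_dvd _)) s hsB h₁ h₂
  refine ⟨g, hgB, (S36FI_mem_fixF (M * q) (A.inertiaSubgroupIn ℚ)).2 hgfix, hg₁, hg₂,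
    e1.trans r1, e2.trans r2⟩

include hA in
/-- the case `(a, 0)`: `a` vanishes at the first branches of all nodes. -/
theorem S36N3H_levI_A {n : ℕ} (hn : 0 < n) {I : Type*}
    (e₁ : I → ↥(S34M_chart M q A n hn).Rb₁ →ₐ[IsLocalRing.ResidueField A]
      IsLocalRing.ResidueField A)
    (e₂ : I → ↥(S34M_chart M q A n hn).Rb₂ →ₐ[IsLocalRing.ResidueField A]
      IsLocalRing.ResidueField A)
    (hW1 : S34K_W (S34M_same M q hq hqM A hgen) (S34M_chart M q A n hn) 1 = S34B_W e₁ e₂)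
    (a : ↥(S34M_chart M q A n hn).Rb₁) (ha : ∀ i, e₁ i a = 0) :
    ∃ s : ↥(modularFunctionFieldBar (M * q)), s ∈ S34SB_reg ℚbar (jB (M * q)) ∧
      s ∈ (S36FI_act (M * q) (A.inertiaSubgroupIn ℚ)).fixF ∧
      ∃ (h₁ : s ∈ S36V_G A (S36V_emF M q)) (h₂ : s ∈ S36V_G A (S36V_emV M q hq hqM)),
        S36V_Gred A (S36V_emF M q) ⟨s, h₁⟩ =
          (((a : ↥(modularFunctionFieldFullC (IsLocalRing.ResidueField A) (M * q))) :
            LaurentSeries (IsLocalRing.ResidueField A))) ∧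
        S36V_Gred A (S36V_emV M q hq hqM) ⟨s, h₂⟩ = 0 := by
  obtain ⟨s, hsB, hfix, h₁, h₂, r1, r2⟩ := S36N3H_levI M q hq hqM A hA hgen hn e₁ e₂ hW1 a 0
    (fun i => by rw [ha i, map_zero])
  exact ⟨s, hsB, hfix, h₁, h₂, r1, r2⟩

include hA in
/-- the case `(0, b)`: `b` vanishes at the second branches of all nodes. -/
theorem S36N3H_levI_B {n : ℕ} (hn : 0 < n) {I : Type*}
    (e₁ : I → ↥(S34M_chart M q A n hn).Rb₁ →ₐ[IsLocalRing.ResidueField A]
      IsLocalRing.ResidueField A)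
    (e₂ : I → ↥(S34M_chart M q A n hn).Rb₂ →ₐ[IsLocalRing.ResidueField A]
      IsLocalRing.ResidueField A)
    (hW1 : S34K_W (S34M_same M q hq hqM A hgen) (S34M_chart M q A n hn) 1 = S34B_W e₁ e₂)
    (b : ↥(S34M_chart M q A n hn).Rb₂) (hb : ∀ i, e₂ i b = 0) :
    ∃ s : ↥(modularFunctionFieldBar (M * q)), s ∈ S34SB_reg ℚbar (jB (M * q)) ∧
      s ∈ (S36FI_act (M * q) (A.inertiaSubgroupIn ℚ)).fixF ∧
      ∃ (h₁ : s ∈ S36V_G A (S36V_emF M q)) (h₂ : s ∈ S36V_G A (S36V_emV M q hq hqM)),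
        S36V_Gred A (S36V_emF M q) ⟨s, h₁⟩ = 0 ∧
        S36V_Gred A (S36V_emV M q hq hqM) ⟨s, h₂⟩ =
          (((b : ↥(modularFunctionFieldFullC (IsLocalRing.ResidueField A) (M * q))) :
            LaurentSeries (IsLocalRing.ResidueField A))) := by
  obtain ⟨s, hsB, hfix, h₁, h₂, r1, r2⟩ := S36N3H_levI M q hq hqM A hA hgen hn e₁ e₂ hW1 0 b
    (fun i => by rw [hb i, map_zero])
  exact ⟨s, hsB, hfix, h₁, h₂, r1, r2⟩

end Fermat.Agent.S36
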