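import Fermat.Agent.S36.Lat3
import Fermat.Agent.S36.Nodal3

/-!
# TRACK 10 (S36), C1.3 = NODAL3-INST (helper14), part 1: the chart level

Prefix `S36N3I_`.  Semi-concrete: against LAT3 (`S36L3_W hS C 1`), for three valuation data
`S₁ S₂ S₃ : S18_Val L F k Fk` with the SAME residue field `Fk` (`= κ`; helper12's reductions, all
in `κ ⊂ k((t))`) and a chart `C` (`x = B`, so that `Rb₁ = Rb₂ = Rb₃` as subalgebras of `κ`).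

* `S36N3I_W1 hS C : Subring _` : `W¹ = S36L3_W hS C 1` as a subring;
* `S36N3I_mem_of_red` : an integral function regular on the chart with reductions in the
  coordinate rings gives an element of `W¹`;
* `S36N3I_IZ₁/₂/₃`, `S36N3I_c` : the ideals of the branch points and the conductor
  `I₁² × I₂² × I₃²`;
* **`S36N3I_hcW`** : `c ⊂ W¹` from the two families
    (HA) `a` vanishing on `SS` ⇒ `(a, a, 0) = red f`, `f ∈ O₃ ∩ B`,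
    (HB) `a` vanishing on `SS` ⇒ `(0, a, a) = red f`, `f ∈ O₃ ∩ B`
  — the field `hcW` of `S36TL_Chart` (helper11);
* `S36N3I_hnil` : the field `hnil` of `S36TL_Chart`;
* `S36N3I_HA_of_pull`, `S36N3I_HB_of_pull` : (HA), (HB) from the level-`q` functions
  (`S'₁ S'₂` on `F'`, NODAL-L = TRACK 7 + DESC-W) and helper12's table
  `red (α s) = (a, a, Ψ b)`, `red (β s) = (Ψ a, b, b)`;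
* `S36N3I_ord₁/₂/₃` : (R11a) at a `k`-point of one component which is not a branch point;
* `S36N3I_hW1` : `hW1` BY NORMS from the norm relation at the branch points.
-/

set_option autoImplicit false
set_option linter.unusedSectionVars false

namespace Fermat.Agent.S36

open Fermat.Agent.S18 Fermat.Agent.S34

variable {L F k Fk : Type*} [Field L] [Field F] [Algebra L F] [Field k] [Field Fk]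
  [Algebra k Fk] {S₁ S₂ S₃ : S18_Val L F k Fk} (hS : S36L3_Same S₁ S₂ S₃)

/-- `W¹ = red (B ∩ O₃) ∩ (Rb₁ × Rb₂ × Rb₃)` as a subring. -/
def S36N3I_W1 {n : ℕ} (C : S36L3_Chart L F k Fk Fk Fk n) :
    Subring (↥C.Rb₁ × ↥C.Rb₂ × ↥C.Rb₃) where
  carrier := S36L3_W hS C 1
  mul_mem' := fun {a b} ha hb => by
    have := S36L3_mul_mem_W hS C ha hb
    rwa [mul_one] at this
  one_mem' := S36L3_one_mem_W hS C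
  add_mem' := fun {a b} ha hb => (S36L3_W hS C 1).add_mem ha hb
  zero_mem' := (S36L3_W hS C 1).zero_mem
  neg_mem' := fun {a} ha => (S36L3_W hS C 1).neg_mem ha

theorem S36N3I_mem_W1 {n : ℕ} (C : S36L3_Chart L F k Fk Fk Fk n)
    {m : ↥C.Rb₁ × ↥C.Rb₂ × ↥C.Rb₃} : m ∈ S36N3I_W1 hS C ↔ m ∈ S36L3_W hS C 1 := Iff.rfl

/-- an integral function, regular on the chart, with reductions in the coordinate rings. -/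
theorem S36N3I_mem_of_red {n : ℕ} (C : S36L3_Chart L F k Fk Fk Fk n)
    (f : S36L3_O3 S₁ S₂ S₃) (hf : (f : F) ∈ C.B) (m : ↥C.Rb₁ × ↥C.Rb₂ × ↥C.Rb₃)
    (hm : S36L3_red S₁ S₂ S₃ f = ((m.1 : Fk), (m.2.1 : Fk), (m.2.2 : Fk))) :
    m ∈ S36L3_W hS C 1 := by
  rw [S36L3_mem_W]
  refine ⟨f, ?_, hm⟩
  rw [mul_one]
  exact C.B.pow_mem hf n

section Cond

variable {n : ℕ} (C : S36L3_Chart L F k Fk Fk Fk n) {ι : Type*}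
  (e₁ : ι → ↥C.Rb₁ →ₐ[k] k) (e₂ : ι → ↥C.Rb₂ →ₐ[k] k) (e₃ : ι → ↥C.Rb₃ →ₐ[k] k)

/-- the ideal of the branch points on `FF`. -/
def S36N3I_IZ₁ : Ideal ↥C.Rb₁ := ⨅ y, RingHom.ker (e₁ y : ↥C.Rb₁ →+* k)

/-- the ideal of the branch points on `FV`. -/
def S36N3I_IZ₂ : Ideal ↥C.Rb₂ := ⨅ y, RingHom.ker (e₂ y : ↥C.Rb₂ →+* k)

/-- the ideal of the branch points on `VV`. -/
def S36N3I_IZ₃ : Ideal ↥C.Rb₃ := ⨅ y, RingHom.ker (e₃ y : ↥C.Rb₃ →+* k)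

theorem S36N3I_mem_IZ₁ {a : ↥C.Rb₁} : a ∈ S36N3I_IZ₁ C e₁ ↔ ∀ y, e₁ y a = 0 := by
  rw [S36N3I_IZ₁, Ideal.mem_iInf]; exact Iff.rfl

theorem S36N3I_mem_IZ₂ {a : ↥C.Rb₂} : a ∈ S36N3I_IZ₂ C e₂ ↔ ∀ y, e₂ y a = 0 := by
  rw [S36N3I_IZ₂, Ideal.mem_iInf]; exact Iff.rfl

theorem S36N3I_mem_IZ₃ {a : ↥C.Rb₃} : a ∈ S36N3I_IZ₃ C e₃ ↔ ∀ y, e₃ y a = 0 := by
  rw [S36N3I_IZ₃, Ideal.mem_iInf]; exact Iff.rfl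

/-- the conductor `I₁² × I₂² × I₃²` of the chart. -/
def S36N3I_c : Ideal (↥C.Rb₁ × ↥C.Rb₂ × ↥C.Rb₃) :=
  S36N3_c (S36N3I_IZ₁ C e₁) (S36N3I_IZ₂ C e₂) (S36N3I_IZ₃ C e₃)

/-- **`hnil`** of `S36TL_Chart`. -/
theorem S36N3I_hnil (x : ↥C.Rb₁ × ↥C.Rb₂ × ↥C.Rb₃)
    (hx : ∀ y, e₁ y x.1 = 0 ∧ e₂ y x.2.1 = 0 ∧ e₃ y x.2.2 = 0) :
    x ^ 2 ∈ S36N3I_c C e₁ e₂ e₃ :=
  S36N3_sq_mem_c ((S36N3I_mem_IZ₁ C e₁).2 fun y => (hx y).1)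
    ((S36N3I_mem_IZ₂ C e₂).2 fun y => (hx y).2.1)
    ((S36N3I_mem_IZ₃ C e₃).2 fun y => (hx y).2.2)

/-- the three branch evaluations are the same function on `κ`. -/
structure S36N3I_SameEv : Prop where
  R₁₂ : ∀ a : Fk, a ∈ C.Rb₁ ↔ a ∈ C.Rb₂
  R₂₃ : ∀ a : Fk, a ∈ C.Rb₂ ↔ a ∈ C.Rb₃
  e₁₂ : ∀ y (a : Fk) (h₁ : a ∈ C.Rb₁) (h₂ : a ∈ C.Rb₂), e₁ y ⟨a, h₁⟩ = e₂ y ⟨a, h₂⟩
  e₂₃ : ∀ y (a : Fk) (h₂ : a ∈ C.Rb₂) (h₃ : a ∈ C.Rb₃), e₂ y ⟨a, h₂⟩ = e₃ y ⟨a, h₃⟩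

/-- **`hcW`** of `S36TL_Chart`: the conductor `I₁² × I₂² × I₃²` is contained in `W¹`. -/
theorem S36N3I_hcW (hE : S36N3I_SameEv C e₁ e₂ e₃)
    (HA : ∀ (a : Fk) (h₂ : a ∈ C.Rb₂), (∀ y, e₂ y ⟨a, h₂⟩ = 0) →
      ∃ f : S36L3_O3 S₁ S₂ S₃, (f : F) ∈ C.B ∧ S36L3_red S₁ S₂ S₃ f = (a, a, 0))
    (HB : ∀ (a : Fk) (h₂ : a ∈ C.Rb₂), (∀ y, e₂ y ⟨a, h₂⟩ = 0) →
      ∃ f : S36L3_O3 S₁ S₂ S₃, (f : F) ∈ C.B ∧ S36L3_red S₁ S₂ S₃ f = (0, a, a)) :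
    ∀ x ∈ S36N3I_c C e₁ e₂ e₃, x ∈ S36L3_W hS C 1 := by
  have hA' : ∀ (a : Fk) (h₁ : a ∈ C.Rb₁) (h₂ : a ∈ C.Rb₂), (∀ y, e₂ y ⟨a, h₂⟩ = 0) →
      ((⟨a, h₁⟩, ⟨a, h₂⟩, 0) : ↥C.Rb₁ × ↥C.Rb₂ × ↥C.Rb₃) ∈ S36N3I_W1 hS C := by
    intro a h₁ h₂ ha
    obtain ⟨f, hf, hred⟩ := HA a h₂ ha
    exact S36N3I_mem_of_red hS C f hf _ hred
  have hB' : ∀ (a : Fk) (h₂ : a ∈ C.Rb₂) (h₃ : a ∈ C.Rb₃), (∀ y, e₂ y ⟨a, h₂⟩ = 0) →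
      ((0, ⟨a, h₂⟩, ⟨a, h₃⟩) : ↥C.Rb₁ × ↥C.Rb₂ × ↥C.Rb₃) ∈ S36N3I_W1 hS C := by
    intro a h₂ h₃ ha
    obtain ⟨f, hf, hred⟩ := HB a h₂ ha
    exact S36N3I_mem_of_red hS C f hf _ hred
  refine S36N3_cond (S36N3I_W1 hS C) _ _ _ ?_ ?_ ?_ ?_
  · rintro ⟨a, h₁⟩ hx
    rw [S36N3I_mem_IZ₁] at hx
    have h₂ : a ∈ C.Rb₂ := (hE.R₁₂ a).1 h₁
    have h0 : ∀ y, e₂ y ⟨a, h₂⟩ = 0 := fun y => by rw [← hE.e₁₂ y a h₁ h₂, hx y]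
    exact ⟨⟨a, h₂⟩, (S36N3I_mem_IZ₂ C e₂).2 h0, hA' a h₁ h₂ h0⟩
  · rintro ⟨a, h₂⟩ hx
    rw [S36N3I_mem_IZ₂] at hx
    exact ⟨⟨a, (hE.R₁₂ a).2 h₂⟩, hA' a _ h₂ hx⟩
  · rintro ⟨a, h₂⟩ hx
    rw [S36N3I_mem_IZ₂] at hx
    exact ⟨⟨a, (hE.R₂₃ a).1 h₂⟩, hB' a h₂ _ hx⟩
  · rintro ⟨a, h₃⟩ hx
    rw [S36N3I_mem_IZ₃] at hx
    have h₂ : a ∈ C.Rb₂ := (hE.R₂₃ a).2 h₃
    have h0 : ∀ y, e₂ y ⟨a, h₂⟩ = 0 := fun y => by rw [hE.e₂₃ y a h₂ h₃, hx y]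
    exact ⟨⟨a, h₂⟩, (S36N3I_mem_IZ₂ C e₂).2 h0, hB' a h₂ h₃ h0⟩

/-- componentwise form of `hcW`. -/
theorem S36N3I_hcW_comp (hE : S36N3I_SameEv C e₁ e₂ e₃)
    (HA : ∀ (a : Fk) (h₂ : a ∈ C.Rb₂), (∀ y, e₂ y ⟨a, h₂⟩ = 0) →
      ∃ f : S36L3_O3 S₁ S₂ S₃, (f : F) ∈ C.B ∧ S36L3_red S₁ S₂ S₃ f = (a, a, 0))
    (HB : ∀ (a : Fk) (h₂ : a ∈ C.Rb₂), (∀ y, e₂ y ⟨a, h₂⟩ = 0) →
      ∃ f : S36L3_O3 S₁ S₂ S₃, (f : F) ∈ C.B ∧ S36L3_red S₁ S₂ S₃ f = (0, a, a)) :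
    (∀ z ∈ S36N3I_IZ₁ C e₁ ^ 2, ((z, 0, 0) : ↥C.Rb₁ × ↥C.Rb₂ × ↥C.Rb₃) ∈ S36L3_W hS C 1) ∧
    (∀ z ∈ S36N3I_IZ₂ C e₂ ^ 2, ((0, z, 0) : ↥C.Rb₁ × ↥C.Rb₂ × ↥C.Rb₃) ∈ S36L3_W hS C 1) ∧
    (∀ z ∈ S36N3I_IZ₃ C e₃ ^ 2, ((0, 0, z) : ↥C.Rb₁ × ↥C.Rb₂ × ↥C.Rb₃) ∈ S36L3_W hS C 1) := by
  have h := S36N3I_hcW hS C e₁ e₂ e₃ hE HA HB
  refine ⟨fun z hz => h _ ?_, fun z hz => h _ ?_, fun z hz => h _ ?_⟩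
  · exact S36N3_mem_c.2 ⟨hz, Ideal.zero_mem _, Ideal.zero_mem _⟩
  · exact S36N3_mem_c.2 ⟨Ideal.zero_mem _, hz, Ideal.zero_mem _⟩
  · exact S36N3_mem_c.2 ⟨Ideal.zero_mem _, Ideal.zero_mem _, hz⟩

/-- **(R11a)** on `FF`: a `k`-point of the first component which is not a branch point has a
function `g ∈ O₃ ∩ B`, `red g = (g₁, 0, 0)`, `g₁` not vanishing at the point. -/
theorem S36N3I_ord₁ [Finite ι] (hE : S36N3I_SameEv C e₁ e₂ e₃)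
    (HA : ∀ (a : Fk) (h₂ : a ∈ C.Rb₂), (∀ y, e₂ y ⟨a, h₂⟩ = 0) →
      ∃ f : S36L3_O3 S₁ S₂ S₃, (f : F) ∈ C.B ∧ S36L3_red S₁ S₂ S₃ f = (a, a, 0))
    (HB : ∀ (a : Fk) (h₂ : a ∈ C.Rb₂), (∀ y, e₂ y ⟨a, h₂⟩ = 0) →
      ∃ f : S36L3_O3 S₁ S₂ S₃, (f : F) ∈ C.B ∧ S36L3_red S₁ S₂ S₃ f = (0, a, a))
    (e : ↥C.Rb₁ →ₐ[k] k) (hne : ∀ y, e ≠ e₁ y) :
    ∃ g ∈ S36L3_W hS C 1, e g.1 ≠ 0 ∧ g.2.1 = 0 ∧ g.2.2 = 0 := by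
  obtain ⟨x, hx0, hxe⟩ := S36N3_exists_ne e₁ e hne
  exact S36N3_ord₁ (S36N3I_W1 hS C) (S36N3I_IZ₁ C e₁)
    (S36N3I_hcW_comp hS C e₁ e₂ e₃ hE HA HB).1 (e : ↥C.Rb₁ →+* k)
    ⟨x, (S36N3I_mem_IZ₁ C e₁).2 hx0, hxe⟩

/-- **(R11a)** on `FV`. -/
theorem S36N3I_ord₂ [Finite ι] (hE : S36N3I_SameEv C e₁ e₂ e₃)
    (HA : ∀ (a : Fk) (h₂ : a ∈ C.Rb₂), (∀ y, e₂ y ⟨a, h₂⟩ = 0) →
      ∃ f : S36L3_O3 S₁ S₂ S₃, (f : F) ∈ C.B ∧ S36L3_red S₁ S₂ S₃ f = (a, a, 0))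
    (HB : ∀ (a : Fk) (h₂ : a ∈ C.Rb₂), (∀ y, e₂ y ⟨a, h₂⟩ = 0) →
      ∃ f : S36L3_O3 S₁ S₂ S₃, (f : F) ∈ C.B ∧ S36L3_red S₁ S₂ S₃ f = (0, a, a))
    (e : ↥C.Rb₂ →ₐ[k] k) (hne : ∀ y, e ≠ e₂ y) :
    ∃ g ∈ S36L3_W hS C 1, e g.2.1 ≠ 0 ∧ g.1 = 0 ∧ g.2.2 = 0 := by
  obtain ⟨x, hx0, hxe⟩ := S36N3_exists_ne e₂ e hne
  exact S36N3_ord₂ (S36N3I_W1 hS C) (S36N3I_IZ₂ C e₂)
    (S36N3I_hcW_comp hS C e₁ e₂ e₃ hE HA HB).2.1 (e : ↥C.Rb₂ →+* k)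
    ⟨x, (S36N3I_mem_IZ₂ C e₂).2 hx0, hxe⟩

/-- **(R11a)** on `VV`. -/
theorem S36N3I_ord₃ [Finite ι] (hE : S36N3I_SameEv C e₁ e₂ e₃)
    (HA : ∀ (a : Fk) (h₂ : a ∈ C.Rb₂), (∀ y, e₂ y ⟨a, h₂⟩ = 0) →
      ∃ f : S36L3_O3 S₁ S₂ S₃, (f : F) ∈ C.B ∧ S36L3_red S₁ S₂ S₃ f = (a, a, 0))
    (HB : ∀ (a : Fk) (h₂ : a ∈ C.Rb₂), (∀ y, e₂ y ⟨a, h₂⟩ = 0) →
      ∃ f : S36L3_O3 S₁ S₂ S₃, (f : F) ∈ C.B ∧ S36L3_red S₁ S₂ S₃ f = (0, a, a))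
    (e : ↥C.Rb₃ →ₐ[k] k) (hne : ∀ y, e ≠ e₃ y) :
    ∃ g ∈ S36L3_W hS C 1, e g.2.2 ≠ 0 ∧ g.1 = 0 ∧ g.2.1 = 0 := by
  obtain ⟨x, hx0, hxe⟩ := S36N3_exists_ne e₃ e hne
  exact S36N3_ord₃ (S36N3I_W1 hS C) (S36N3I_IZ₃ C e₃)
    (S36N3I_hcW_comp hS C e₁ e₂ e₃ hE HA HB).2.2 (e : ↥C.Rb₃ →+* k)
    ⟨x, (S36N3I_mem_IZ₃ C e₃).2 hx0, hxe⟩

/-- **`hW1` by norms**: if for every integral function `f` regular on the chart and all but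
finitely many `t : k` the norm relation
`(e₁ f̄₁ − t)(e₂ f̄₂ − t)^(q−1) = (e₃ f̄₃ − t)^q` holds at every branch point, then the three
branch values of every element of `W¹` agree. -/
theorem S36N3I_hW1 [Infinite k] (q : ℕ) (hq : 2 ≤ q)
    (hN : ∀ m ∈ S36L3_W hS C 1, ∀ y,
      {t : k | (e₁ y m.1 - t) * (e₂ y m.2.1 - t) ^ (q - 1) ≠ (e₃ y m.2.2 - t) ^ q}.Finite) :
    ∀ m ∈ S36L3_W hS C 1, ∀ y, e₁ y m.1 = e₂ y m.2.1 ∧ e₁ y m.1 = e₃ y m.2.2 := by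
  intro m hm y
  obtain ⟨h1, h2⟩ := S36N3_eq_of_norm q hq _ _ _ (hN m hm y)
  exact ⟨h1.trans h2.symm, h1⟩

end Cond

/-! ### (HA), (HB) from the pull backs of level `q` -/

section Pull

variable {F' : Type*} [Field F'] [Algebra L F'] {S₁' S₂' : S18_Val L F' k Fk}
  {n : ℕ} (C : S36L3_Chart L F k Fk Fk Fk n)

/-- **(HA)** from the functions of level `q` with reduction `(a, 0)` (NODAL-L) and the table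
`red (α s) = (s̄₁, s̄₁, Ψ s̄₂)` of the pull back `α = p₁^*`. -/
theorem S36N3I_HA_of_pull (α : F' →+* F) (Ψ : Fk →+* Fk) (B' : Set F')
    (hα : ∀ s : S34P_O2 S₁' S₂', (s : F') ∈ B' → ∃ h : α s ∈ S36L3_O3 S₁ S₂ S₃, α s ∈ C.B ∧
      S36L3_red S₁ S₂ S₃ ⟨α s, h⟩ =
        ((S34P_red S₁' S₂' s).1, (S34P_red S₁' S₂' s).1, Ψ (S34P_red S₁' S₂' s).2))
    (Z : Fk → Prop)
    (hNL : ∀ a : Fk, Z a → ∃ s : S34P_O2 S₁' S₂', (s : F') ∈ B' ∧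
      S34P_red S₁' S₂' s = (a, 0))
    (a : Fk) (ha : Z a) :
    ∃ f : S36L3_O3 S₁ S₂ S₃, (f : F) ∈ C.B ∧ S36L3_red S₁ S₂ S₃ f = (a, a, 0) := by
  obtain ⟨s, hsB, hs⟩ := hNL a ha
  obtain ⟨h, hB, hred⟩ := hα s hsB
  refine ⟨⟨α s, h⟩, hB, ?_⟩
  rw [hred, hs, map_zero]

/-- **(HB)** from the functions of level `q` with reduction `(0, a)` (NODAL-L) and the table
`red (β s) = (Ψ s̄₁, s̄₂, s̄₂)` of the pull back `β = p₂^*`. -/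
theorem S36N3I_HB_of_pull (β : F' →+* F) (Ψ : Fk →+* Fk) (B' : Set F')
    (hβ : ∀ s : S34P_O2 S₁' S₂', (s : F') ∈ B' → ∃ h : β s ∈ S36L3_O3 S₁ S₂ S₃, β s ∈ C.B ∧
      S36L3_red S₁ S₂ S₃ ⟨β s, h⟩ =
        (Ψ (S34P_red S₁' S₂' s).1, (S34P_red S₁' S₂' s).2, (S34P_red S₁' S₂' s).2))
    (Z : Fk → Prop)
    (hNL : ∀ a : Fk, Z a → ∃ s : S34P_O2 S₁' S₂', (s : F') ∈ B' ∧
      S34P_red S₁' S₂' s = (0, a))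
    (a : Fk) (ha : Z a) :
    ∃ f : S36L3_O3 S₁ S₂ S₃, (f : F) ∈ C.B ∧ S36L3_red S₁ S₂ S₃ f = (0, a, a) := by
  obtain ⟨s, hsB, hs⟩ := hNL a ha
  obtain ⟨h, hB, hred⟩ := hβ s hsB
  refine ⟨⟨β s, h⟩, hB, ?_⟩
  rw [hred, hs, map_zero]

end Pull

end Fermat.Agent.S36
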