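import Fermat.Agent.S34.ChartLevX1
import Fermat.Agent.S34.NodalX0Main

/-!
# TRACK 10 (S36), hint_j on the chart `U'` (helper12), part 1: the EXPLICIT level description of
TRACK 7 at `u = 1`

Level `M q` over `ℚ̄`, the canonical pair `(S34M_T1, S34M_T2)` (`= (F, V)`), nodes `e₁ e₂` of the
chart `U` (output of `S34NX_nodes`).  For every constant `c ∈ A` whose reduction avoids the values
of `j̄` at the nodes and all `a + b ≥ m₀`:

  `red (L(a·(j)_∞ + b·(j − c)₀) ∩ O₂) = S34CL_G … a b`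
     `= {(f₁, f₂) ∈ L(Ē₁(a,b)) × L(Ē₂(a,b)) | ev₁ i f₁ = ev₂ i f₂ for all nodes i}`.

With `a = 0` this is the nodal description of the chart `U' = {j ≠ c}` of level `q`
(lifts regular at the cusps).  Prefix `S36NU_`.
-/

set_option autoImplicit false
set_option synthInstance.maxHeartbeats 400000
set_option maxHeartbeats 1000000
set_option linter.unusedSectionVars false
set_option linter.unusedVariables false
set_option linter.style.haveILetI false

open HahnSeries IntermediateField AlgebraicCurve ModularCurve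

noncomputable section

namespace Fermat.Agent.S36

open Fermat.Agent.Lib Fermat.Agent.S18 Fermat.Agent.S24 Fermat.Agent.GalRep Fermat.Agent.S34

section X0

variable (M q : ℕ) [NeZero M] [NeZero (M * q)] (hq : q.Prime) (hqM : ¬ q ∣ M)
  (A : ValuationSubring (AlgebraicClosure ℚ))
  (hgen : PrincipalGeneratedByIntegral A (IsLocalRing.residue A) (M * q))

/-- the explicit level description at `u = 1`, with `x₁ = j̄` as a variable. -/
theorem S36NU_lev_aux (hA : A.LiesOverPrime q)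
    (x₁ : ↥(modularFunctionFieldFullC (IsLocalRing.ResidueField A) (M * q)))
    (hx₁ : x₁ = S18_jbar (M * q) (IsLocalRing.ResidueField A))
    {n : ℕ} (hn : 0 < n) {ι : Type*} [Fintype ι]
    (e₁ : ι → ↥(S34SB_reg (IsLocalRing.ResidueField A) x₁) →ₐ[IsLocalRing.ResidueField A]
      IsLocalRing.ResidueField A)
    (e₂ : ι → ↥(S34SB_reg (IsLocalRing.ResidueField A) (x₁ ^ q)) →ₐ[IsLocalRing.ResidueField A]
      IsLocalRing.ResidueField A)
    (hE : Function.Surjective (S34B_E e₁ e₂))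
    (hW1 : S34K_W (S34M_same M q hq hqM A hgen)
        (S34SB_chart (AlgebraicClosure ℚ) (IsLocalRing.ResidueField A) (jB (M * q))
          x₁ (x₁ ^ q) n hn) 1 = S34B_W e₁ e₂)
    (c : (S34M_T1 M q A hgen).A)
    (hc : ∀ i, e₁ i ⟨x₁, S34SB_self_mem_reg x₁⟩ ≠ (S34M_T1 M q A hgen).res c) :
    ∃ (he₁ : ∀ i, e₁ i ⟨x₁ - algebraMap _ _ ((S34M_T1 M q A hgen).res c),
        S34SB_sub_const_mem_reg x₁ _⟩ ≠ 0)
      (he₁₂ : ∀ i, e₁ i ⟨x₁ - algebraMap _ _ ((S34M_T1 M q A hgen).res c),
        S34SB_sub_const_mem_reg x₁ _⟩ =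
        e₂ i ⟨x₁ ^ q - algebraMap _ _ ((S34M_T1 M q A hgen).res c),
          S34SB_sub_const_mem_reg (x₁ ^ q) _⟩)
      (m₀ : ℕ), ∀ a b, m₀ ≤ a + b →
        (S34P_lat (S34M_same M q hq hqM A hgen)).redSub (riemannRochSpace
          (S34P_E (S18_hRR (M * q)).principal (jB (M * q))
            (jB (M * q) - algebraMap (AlgebraicClosure ℚ) ↥(modularFunctionFieldBar (M * q))
              (c : AlgebraicClosure ℚ)) a b)) =
        S34CL_G (S34VF_hk M A hq hA hqM).principal (S34VF_hk M A hq hA hqM).principal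
          x₁ (x₁ ^ q) ((S34M_T1 M q A hgen).res c) e₁ e₂ he₁ he₁₂ a b := by
  haveI : IsAlgClosed (IsLocalRing.ResidueField A) := S18_residue_isAlgClosed A
  haveI : Infinite (IsLocalRing.ResidueField A) := IsAlgClosed.instInfinite
  have hcard := S34CL_card_X0_aux M q hq hqM A hgen hA x₁ hx₁ hn e₁ e₂ hE hW1
  subst hx₁
  have hk := S34VF_hk M A hq hA hqM
  have hcart : S34PX_Cart M q hq hqM A hgen := S34VW_cart M q hq hqM A hgen hA
  have hd₁ := S34PX_pole (M := M) (hq := hq) (hqM := hqM) (A := A) hA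
  have hd₂ : 0 < (RR_poleDiv hk.principal
      (S18_jbar (M * q) (IsLocalRing.ResidueField A) ^ q)).degree := by
    rw [S34VD_poleDiv_pow_degree]
    have : (0 : ℤ) < (q : ℤ) := by exact_mod_cast hq.pos
    exact mul_pos this hd₁
  have hred : S34P_red (S34M_T1 M q A hgen) (S34M_T2 M q hq hqM A hgen)
      (S34PX_j M q hq hqM A hgen) =
      (S18_jbar (M * q) (IsLocalRing.ResidueField A),
        S18_jbar (M * q) (IsLocalRing.ResidueField A) ^ q) :=
    Prod.ext (S34PX_red_j_fst M q hq hqM A hgen) (S34PX_red_j_snd M q hq hqM A hgen hA)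
  have hWu : S34K_W (S34M_same M q hq hqM A hgen)
        (S34SB_chart (AlgebraicClosure ℚ) (IsLocalRing.ResidueField A) (jB (M * q))
          (S18_jbar (M * q) (IsLocalRing.ResidueField A))
          (S18_jbar (M * q) (IsLocalRing.ResidueField A) ^ q) n hn) 1 =
      S34B_glued e₁ e₂ (fun _ => 1) := hW1
  have he₁ : ∀ i, e₁ i ⟨S18_jbar (M * q) (IsLocalRing.ResidueField A) -
      algebraMap _ _ ((S34M_T1 M q A hgen).res c), S34SB_sub_const_mem_reg _ _⟩ ≠ 0 := by
    intro i
    rw [S34CL_e_sub]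
    exact sub_ne_zero.mpr (hc i)
  have he₁₂ : ∀ i, e₁ i ⟨S18_jbar (M * q) (IsLocalRing.ResidueField A) -
      algebraMap _ _ ((S34M_T1 M q A hgen).res c), S34SB_sub_const_mem_reg _ _⟩ =
      e₂ i ⟨S18_jbar (M * q) (IsLocalRing.ResidueField A) ^ q -
        algebraMap _ _ ((S34M_T1 M q A hgen).res c), S34SB_sub_const_mem_reg _ _⟩ := by
    intro i
    rw [S34CL_e_sub, S34CL_e_sub, S34CL_node_x (S34M_same M q hq hqM A hgen)
      (S34PX_j M q hq hqM A hgen) _ _ hred hn e₁ e₂ 1 hWu i]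
  have hD : n • (0 : Divisor (AlgebraicClosure ℚ) ↥(modularFunctionFieldBar (M * q))) =
      RR_div (S18_hRR (M * q)).principal 1 := by
    rw [smul_zero]
    ext v
    rw [RR_div_apply, Place.ord_one]
    rfl
  obtain ⟨m₀, hm₀⟩ := S34CL_hlev (S34M_same M q hq hqM A hgen) (S18_hRR (M * q)) hk hk
    (S34PX_j M q hq hqM A hgen) (S34PX_hyp hcart)
    (fun V hV => by
      rw [S34P_lat_redSub]
      exact S34PX_count hcart V hV)
    _ _ hred hd₁ hd₂ (S34VF_hdeg M A hq hA hqM hk.principal hk.principal _) hn e₁ e₂ hE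
    (by linarith) c he₁ he₁₂ 1 S34K_one_mem_Norm 0 hD hWu
  refine ⟨he₁, he₁₂, m₀, fun a b hab => ?_⟩
  have := hm₀ a b hab
  rw [add_zero] at this
  exact this

end X0

end Fermat.Agent.S36
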