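import Fermat.Agent.S36.Nodal3Lev
import Fermat.Agent.S36.Val3Mem
import Fermat.Agent.S36.NormRes3
import Fermat.Agent.S34.NodalAB

/-!
# TRACK 10 (S36), hint_j on the chart `U'` (helper12), part 2: the lifts of level `q`

Level `M q` over `ℚ̄`.  From the explicit level description (`S36NU_lev_aux`) with `a = 0`:
for `b ≥ m₀` and every `ā ∈ L(b·(j̄^q − c̄)₀)` (a function on the `V`-component, regular at the
cusps) which vanishes at the second branches of the nodes there is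

  `s ∈ F_{Mq}`,  Gauss-integral at `F` and at `V`,  `s ∈ L(b·(j − c)₀)`,  `red_F s = 0`,
  `red_V s = ā`.

* `S36NU_lift_q`   : in TRACK 7's language (`S18_O`, `S18_red`);
* `S36NU_lift_qG`  : in the language of the Gauss rings `S36V_G A (S36V_emF M q)`,
  `S36V_G A (S36V_emV M q hq hqM)`.
Prefix `S36NU_`.
-/

set_option autoImplicit false
set_option synthInstance.maxHeartbeats 400000
set_option maxHeartbeats 1000000
set_option linter.unusedSectionVars false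
set_option linter.unusedVariables false
set_option linter.style.haveILetI false

open HahnSeries IntermediateField AlgebraicCurve ModularCurve

noncomputable section

namespace Fermat.Agent.S36

open Fermat.Agent.Lib Fermat.Agent.S18 Fermat.Agent.S24 Fermat.Agent.GalRep Fermat.Agent.S34

section X0

variable (M q : ℕ) [NeZero M] [NeZero q] [NeZero (M * q)] (hq : q.Prime) (hqM : ¬ q ∣ M)
  (A : ValuationSubring (AlgebraicClosure ℚ))
  (hgen : PrincipalGeneratedByIntegral A (IsLocalRing.residue A) (M * q))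

/-- **the lifts of level `q` on the chart `{j ≠ c}`**, TRACK 7's language. -/
theorem S36NU_lift_q (hA : A.LiesOverPrime q)
    (x₁ : ↥(modularFunctionFieldFullC (IsLocalRing.ResidueField A) (M * q)))
    (hx₁ : x₁ = S18_jbar (M * q) (IsLocalRing.ResidueField A))
    {n : ℕ} (hn : 0 < n) {ι : Type*} [Fintype ι]
    (e₁ : ι → ↥(S34SB_reg (IsLocalRing.ResidueField A) x₁) →ₐ[IsLocalRing.ResidueField A]
      IsLocalRing.ResidueField A)
    (e₂ : ι → ↥(S34SB_reg (IsLocalRing.ResidueField A) (x₁ ^ q)) →ₐ[IsLocalRing.ResidueField A]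
      IsLocalRing.ResidueField A)
    (hE : Function.Surjective (S34B_E e₁ e₂))
    (hW1 : S34K_W (S34M_same M q hq hqM A hgen)
        (S34SB_chart (AlgebraicClosure ℚ) (IsLocalRing.ResidueField A) (jB (M * q))
          x₁ (x₁ ^ q) n hn) 1 = S34B_W e₁ e₂)
    (c : (S34M_T1 M q A hgen).A)
    (hc : ∀ i, e₁ i ⟨x₁, S34SB_self_mem_reg x₁⟩ ≠ (S34M_T1 M q A hgen).res c) :
    ∃ m₀ : ℕ, ∀ b, m₀ ≤ b →
      ∀ a : ↥(modularFunctionFieldFullC (IsLocalRing.ResidueField A) (M * q)),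
      a ∈ riemannRochSpace (S34P_E (S34VF_hk M A hq hA hqM).principal (x₁ ^ q)
        (x₁ ^ q - algebraMap _ _ ((S34M_T1 M q A hgen).res c)) 0 b) →
      (∀ i, S34CH_ev (S34SB_reg (IsLocalRing.ResidueField A) (x₁ ^ q))
        (x₁ ^ q - algebraMap _ _ ((S34M_T1 M q A hgen).res c))
        (S34SB_sub_const_mem_reg (x₁ ^ q) _) (e₂ i) a = 0) →
      ∃ (s : ↥(modularFunctionFieldBar (M * q))) (h₁ : s ∈ S18_O A (M * q))
        (h₂ : S34DF_wq M q hq hqM s ∈ S18_O A (M * q)),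
        s ∈ riemannRochSpace (S34P_E (S18_hRR (M * q)).principal (jB (M * q))
          (jB (M * q) - algebraMap (AlgebraicClosure ℚ) ↥(modularFunctionFieldBar (M * q))
            (c : AlgebraicClosure ℚ)) 0 b) ∧
        S18_red A (M * q) ⟨s, h₁⟩ = 0 ∧
        S18_red A (M * q) ⟨S34DF_wq M q hq hqM s, h₂⟩ = a := by
  obtain ⟨he₁, he₁₂, m₀, h⟩ := S36NU_lev_aux M q hq hqM A hgen hA x₁ hx₁ hn e₁ e₂ hE hW1 c hc
  refine ⟨m₀, fun b hb a ha hev => ?_⟩
  have hmem : ((0 : ↥(modularFunctionFieldFullC (IsLocalRing.ResidueField A) (M * q))), a) ∈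
      S34CL_G (S34VF_hk M A hq hA hqM).principal (S34VF_hk M A hq hA hqM).principal
        x₁ (x₁ ^ q) ((S34M_T1 M q A hgen).res c) e₁ e₂ he₁ he₁₂ 0 b := by
    rw [S34CL_mem_G]
    refine ⟨⟨Submodule.zero_mem _, ha⟩, fun i => ?_⟩
    have h0 : (S34CL_data x₁ (x₁ ^ q) ((S34M_T1 M q A hgen).res c) e₁ e₂ he₁ he₁₂).ev₁ i 0 = 0 :=
      S34CH_ev_zero _ _ _ _ (he₁ i)
    have h1 : (S34CL_data x₁ (x₁ ^ q) ((S34M_T1 M q A hgen).res c) e₁ e₂ he₁ he₁₂).ev₂ i a = 0 :=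
      hev i
    rw [h0, h1]
  rw [← h 0 b (by omega), S34P_lat_redSub, S34P_mem_redSub] at hmem
  obtain ⟨f, hfV, hfred⟩ := hmem
  have h₁ : (f : ↥(modularFunctionFieldBar (M * q))) ∈ S18_O A (M * q) := f.2.1
  have h₂ : S34DF_wq M q hq hqM (f : ↥(modularFunctionFieldBar (M * q))) ∈ S18_O A (M * q) :=
    f.2.2
  have hred := S34NI_pair_red_X0 M q hq hqM A hgen h₁ h₂
  have hred' : S34P_red (S34M_T1 M q A hgen) (S34M_T2 M q hq hqM A hgen) f =
      (S18_red A (M * q) ⟨f, h₁⟩, S18_red A (M * q) ⟨S34DF_wq M q hq hqM f, h₂⟩) := hred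
  rw [hred'] at hfred
  exact ⟨f, h₁, h₂, hfV, (Prod.ext_iff.mp hfred).1, (Prod.ext_iff.mp hfred).2⟩

/-- **the lifts of level `q` on the chart `{j ≠ c}`**, language of the Gauss rings. -/
theorem S36NU_lift_qG (hA : A.LiesOverPrime q)
    (x₁ : ↥(modularFunctionFieldFullC (IsLocalRing.ResidueField A) (M * q)))
    (hx₁ : x₁ = S18_jbar (M * q) (IsLocalRing.ResidueField A))
    {n : ℕ} (hn : 0 < n) {ι : Type*} [Fintype ι]
    (e₁ : ι → ↥(S34SB_reg (IsLocalRing.ResidueField A) x₁) →ₐ[IsLocalRing.ResidueField A]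
      IsLocalRing.ResidueField A)
    (e₂ : ι → ↥(S34SB_reg (IsLocalRing.ResidueField A) (x₁ ^ q)) →ₐ[IsLocalRing.ResidueField A]
      IsLocalRing.ResidueField A)
    (hE : Function.Surjective (S34B_E e₁ e₂))
    (hW1 : S34K_W (S34M_same M q hq hqM A hgen)
        (S34SB_chart (AlgebraicClosure ℚ) (IsLocalRing.ResidueField A) (jB (M * q))
          x₁ (x₁ ^ q) n hn) 1 = S34B_W e₁ e₂)
    (c : (S34M_T1 M q A hgen).A)
    (hc : ∀ i, e₁ i ⟨x₁, S34SB_self_mem_reg x₁⟩ ≠ (S34M_T1 M q A hgen).res c) :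
    ∃ m₀ : ℕ, ∀ b, m₀ ≤ b →
      ∀ a : ↥(modularFunctionFieldFullC (IsLocalRing.ResidueField A) (M * q)),
      a ∈ riemannRochSpace (S34P_E (S34VF_hk M A hq hA hqM).principal (x₁ ^ q)
        (x₁ ^ q - algebraMap _ _ ((S34M_T1 M q A hgen).res c)) 0 b) →
      (∀ i, S34CH_ev (S34SB_reg (IsLocalRing.ResidueField A) (x₁ ^ q))
        (x₁ ^ q - algebraMap _ _ ((S34M_T1 M q A hgen).res c))
        (S34SB_sub_const_mem_reg (x₁ ^ q) _) (e₂ i) a = 0) →
      ∃ (s : ↥(modularFunctionFieldBar (M * q))) (hF : s ∈ S36V_G A (S36V_emF M q))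
        (hV : s ∈ S36V_G A (S36V_emV M q hq hqM)),
        s ∈ riemannRochSpace (S34P_E (S18_hRR (M * q)).principal (jB (M * q))
          (jB (M * q) - algebraMap (AlgebraicClosure ℚ) ↥(modularFunctionFieldBar (M * q))
            (c : AlgebraicClosure ℚ)) 0 b) ∧
        S36V_Gred A (S36V_emF M q) ⟨s, hF⟩ = 0 ∧
        S36V_Gred A (S36V_emV M q hq hqM) ⟨s, hV⟩ =
          (a : LaurentSeries (IsLocalRing.ResidueField A)) := by
  obtain ⟨m₀, h⟩ := S36NU_lift_q M q hq hqM A hgen hA x₁ hx₁ hn e₁ e₂ hE hW1 c hc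
  refine ⟨m₀, fun b hb a ha hev => ?_⟩
  obtain ⟨s, h₁, h₂, hsV, hr₁, hr₂⟩ := h b hb a ha hev
  have hF : s ∈ S36V_G A (S36V_emF M q) := S36V_S18_le A (M * q) h₁
  have hwF : S34DF_wq M q hq hqM s ∈ S36V_G A (S36V_emF M q) := S36V_S18_le A (M * q) h₂
  have e1 : S36V_emV M q hq hqM s = S36V_emF M q (S34DF_wq M q hq hqM s) := rfl
  have hV : s ∈ S36V_G A (S36V_emV M q hq hqM) := (S36V_mem_G_of_eq A _ _ e1).2 hwF
  refine ⟨s, hF, hV, hsV, ?_, ?_⟩
  · have := S36V_Gred_S18 A (M * q) ⟨s, h₁⟩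
    rw [hr₁] at this
    rw [show S36V_Gred A (S36V_emF M q) ⟨s, hF⟩ = _ from this]
    rfl
  · rw [S36V_Gred_of_eq A _ _ e1 hV hwF]
    have := S36V_Gred_S18 A (M * q) ⟨S34DF_wq M q hq hqM s, h₂⟩
    rw [hr₂] at this
    exact this

end X0

end Fermat.Agent.S36
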