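import Fermat.Agent.S36.Nodal3UFin
import Fermat.Agent.S36.SSCard
import Fermat.Agent.S36.Spec3Pts
import Fermat.Agent.S36.ChartsBPow
import Fermat.Agent.S34.NodalX0Fin

/-!
# TRACK 10 (S36), hint_j on the chart `U'` (helper12), part 5: the transport `κ → κ₁` and
(HA), (HB) on helper23's chart `S36CZ_C'`

`κ = F̄_M` (the residue field of `SFF`, `SFV`, `SVV`), `κ₁ = F̄_{Mq}` (TRACK 7's residue field);
`ι = S34NX_iota : κ → κ₁` (the identity on series), `D.φ` the identification of the places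
(helper3's `S36SS_Data`).

* `S36NU_iota_jbar`  : `ι j̄ = S34M_xb`;
* `S36NU_iota_zb`    : `ι (S36CZ_zb c) = S34M_xb ^ q − c̄`;
* `S36NU_phi_val`    : `v(φ Q)(y) < 1 ↔ v_Q(ι y) < 1`;  `S36NU_phi_mem`;
* `S36NU_iota_regZ`  : `ι` maps `regZ z` into `regZ (ι z)`;
* **`S36NU_HAB_of`** : (HA) and (HB) of `S36N3C_hint` on `C = S36CZ_C' … c n hn`,
  `X = S36SE_XSS D`, from the level description on `κ₁` (`hNE`, = REQUEST 2).
Prefix `S36NU_`.
-/

set_option autoImplicit false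
set_option synthInstance.maxHeartbeats 400000
set_option maxHeartbeats 1000000
set_option linter.unusedSectionVars false
set_option linter.unusedVariables false
set_option linter.style.haveILetI false

open HahnSeries IntermediateField AlgebraicCurve ModularCurve

noncomputable section

namespace Fermat.Agent.S36

open Fermat.Agent.Lib Fermat.Agent.S18 Fermat.Agent.S24 Fermat.Agent.GalRep Fermat.Agent.S34

local notation "ℚbar" => AlgebraicClosure ℚ

section bridge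

variable {M q : ℕ} [NeZero M] [NeZero q] [NeZero (M * q)] {hq : q.Prime} {hqM : ¬ q ∣ M}
  {A : ValuationSubring ℚbar} (hA : A.LiesOverPrime q)
  {hgen : PrincipalGeneratedByIntegral A (IsLocalRing.residue A) (M * q)}
  {n' : ℕ} {hn' : 0 < n'}

/-- `ι j̄ = S34M_xb`. -/
theorem S36NU_iota_jbar :
    S34NX_iota M q A hq hA (S18_jbar M (IsLocalRing.ResidueField A)) = S34M_xb M q A := by
  rw [S34NX_iota_eq_iff, S34NXF_xb]
  rfl

/-- `ι (x̄ − c̄) = S34M_xb ^ q − c̄`. -/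
theorem S36NU_iota_zb (c : (S36FI_SFF M q hq hqM A hA).A) :
    S34NX_iota M q A hq hA (S36CZ_zb M q hq hqM A hA c) =
      S34M_xb M q A ^ q - algebraMap (IsLocalRing.ResidueField A)
        ↥(modularFunctionFieldFullC (IsLocalRing.ResidueField A) (M * q))
        ((S36FI_SFF M q hq hqM A hA).res c) := by
  unfold S36CZ_zb
  rw [map_sub, S36CZ_xb_eq_pow M q hq hqM A hA, map_pow, S36NU_iota_jbar hA,
    S34NX_iota_algebraMap]

/-- `ι y = 0 ↔ y = 0`. -/
theorem S36NU_iota_eq_zero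
    (y : ↥(modularFunctionFieldFullC (IsLocalRing.ResidueField A) M)) :
    S34NX_iota M q A hq hA y = 0 ↔ y = 0 := by
  constructor
  · intro h
    exact S34NX_iota_injective M q A hq hA (h.trans (map_zero _).symm)
  · rintro rfl
    exact map_zero _

/-- the valuations `< 1` correspond along `φ`. -/
theorem S36NU_phi_val (D : S36SS_Data M q hq hqM A hgen n' hn')
    (Q : Place (IsLocalRing.ResidueField A)
      ↥(modularFunctionFieldFullC (IsLocalRing.ResidueField A) (M * q)))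
    (y : ↥(modularFunctionFieldFullC (IsLocalRing.ResidueField A) M)) :
    (D.φ Q).adicValuation y < 1 ↔ Q.adicValuation (S34NX_iota M q A hq hA y) < 1 := by
  rw [S36SP_val_lt_one_iff, S36SP_val_lt_one_iff,
    D.φ_ord Q (S34NX_iota M q A hq hA y) y (S34NX_iota_coe M q A hq hA y),
    S36NU_iota_eq_zero hA]

/-- the valuation rings correspond along `φ`. -/
theorem S36NU_phi_mem (D : S36SS_Data M q hq hqM A hgen n' hn')
    (Q : Place (IsLocalRing.ResidueField A)
      ↥(modularFunctionFieldFullC (IsLocalRing.ResidueField A) (M * q)))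
    (y : ↥(modularFunctionFieldFullC (IsLocalRing.ResidueField A) M)) :
    y ∈ (D.φ Q).toValuationSubring ↔ S34NX_iota M q A hq hA y ∈ Q.toValuationSubring := by
  by_cases hy : y = 0
  · rw [hy, map_zero]
    exact ⟨fun _ => Q.toValuationSubring.zero_mem, fun _ => (D.φ Q).toValuationSubring.zero_mem⟩
  · have hy' : S34NX_iota M q A hq hA y ≠ 0 := fun h => hy ((S36NU_iota_eq_zero hA y).1 h)
    rw [BG_mem_iff_ord_nonneg _ hy, BG_mem_iff_ord_nonneg _ hy',
      D.φ_ord Q (S34NX_iota M q A hq hA y) y (S34NX_iota_coe M q A hq hA y)]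

/-- `ι` maps `regZ z` into `regZ (ι z)`. -/
theorem S36NU_iota_regZ (D : S36SS_Data M q hq hqM A hgen n' hn')
    (z a : ↥(modularFunctionFieldFullC (IsLocalRing.ResidueField A) M))
    (ha : a ∈ S34SB_regZ (IsLocalRing.ResidueField A) z) :
    S34NX_iota M q A hq hA a ∈
      S34SB_regZ (IsLocalRing.ResidueField A) (S34NX_iota M q A hq hA z) := by
  intro Q hQ
  have h1 : D.φ Q ∉ S34SB_zeros (IsLocalRing.ResidueField A) z := by
    rw [S34SB_mem_zeros,
      D.φ_ord Q (S34NX_iota M q A hq hA z) z (S34NX_iota_coe M q A hq hA z)]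
    exact hQ
  exact (S36NU_phi_mem hA D Q a).1 (ha _ h1)

end bridge

section final

variable (M q : ℕ) [NeZero M] [NeZero q] [NeZero (M * q)] (hq : q.Prime) (hqM : ¬ q ∣ M)
  (A : ValuationSubring ℚbar) (hA : A.LiesOverPrime q)
  (ζ : ℚbarˣ) (hζ : ζ ^ q = 1) (hζ1 : ζ ≠ 1)
  (hgen : PrincipalGeneratedByIntegral A (IsLocalRing.residue A) (M * q))
  {n' : ℕ} {hn' : 0 < n'}

include hA in
/-- **(HA), (HB) on the chart `U' = {B ≠ c}`** (`C = S36CZ_C' … c n hn`, `X = S36SE_XSS D`), from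
the level description on `κ₁` (`hNE`). -/
theorem S36NU_HAB_of (D : S36SS_Data M q hq hqM A hgen n' hn')
    (c : (S36FI_SFF M q hq hqM A hA).A)
    (hc : ∀ i, D.e₁ i ⟨S34M_xb M q A, S34SB_self_mem_reg _⟩ ≠ (S36FI_SFF M q hq hqM A hA).res c)
    (hNE : ∀ a₁ : ↥(modularFunctionFieldFullC (IsLocalRing.ResidueField A) (M * q)),
      a₁ ∈ S34SB_regZ (IsLocalRing.ResidueField A) (S34M_xb M q A ^ q -
        algebraMap (IsLocalRing.ResidueField A)
          ↥(modularFunctionFieldFullC (IsLocalRing.ResidueField A) (M * q))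
          ((S36FI_SFF M q hq hqM A hA).res c)) →
      (∀ i, (D.P i).adicValuation a₁ < 1) → ∀ m₀ : ℕ, ∃ b, m₀ ≤ b ∧
        a₁ ∈ riemannRochSpace (S34P_E (S34VF_hk M A hq hA hqM).principal (S34M_xb M q A ^ q)
          (S34M_xb M q A ^ q - algebraMap _ _ ((S36FI_SFF M q hq hqM A hA).res c)) 0 b) ∧
        ∀ i, S34CH_ev (S34SB_reg (IsLocalRing.ResidueField A) (S34M_xb M q A ^ q))
          (S34M_xb M q A ^ q - algebraMap _ _ ((S36FI_SFF M q hq hqM A hA).res c))
          (S34SB_sub_const_mem_reg (S34M_xb M q A ^ q) _) (D.e₂ i) a₁ = 0)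
    (n : ℕ) (hn : 0 < n) :
    (∀ a ∈ (S36CZ_C' M q hq hqM A hA c n hn).Rb₂, (∀ v ∈ D.SS, v.adicValuation a < 1) →
      ∃ f : S36L3_O3 (S36FI_SFF M q hq hqM A hA) (S36FI_SFV M q hq hqM A hA ζ hζ hζ1)
          (S36FI_SVV M q hq hqM A hA),
        (f : ↥(S36FI_act (M * q * q) (A.inertiaSubgroupIn ℚ)).fixF) ∈
          (S36CZ_C' M q hq hqM A hA c n hn).B ∧ S36L3_red _ _ _ f = (a, a, 0)) ∧
    (∀ a ∈ (S36CZ_C' M q hq hqM A hA c n hn).Rb₂, (∀ v ∈ D.SS, v.adicValuation a < 1) →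
      ∃ f : S36L3_O3 (S36FI_SFF M q hq hqM A hA) (S36FI_SFV M q hq hqM A hA ζ hζ hζ1)
          (S36FI_SVV M q hq hqM A hA),
        (f : ↥(S36FI_act (M * q * q) (A.inertiaSubgroupIn ℚ)).fixF) ∈
          (S36CZ_C' M q hq hqM A hA c n hn).B ∧ S36L3_red _ _ _ f = (0, a, a)) := by
  obtain ⟨m₀, hcore⟩ := S36NU_core M q hq hqM A hA ζ hζ hζ1 hgen (S34M_xb M q A)
    (S34NXF_xb M q A) hn' D.e₁ D.e₂ D.hE D.hW1 c hc n hn
  have key : ∀ a ∈ (S36CZ_C' M q hq hqM A hA c n hn).Rb₂,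
      (∀ v ∈ D.SS, v.adicValuation a < 1) →
      (∃ f : S36L3_O3 (S36FI_SFF M q hq hqM A hA) (S36FI_SFV M q hq hqM A hA ζ hζ hζ1)
          (S36FI_SVV M q hq hqM A hA),
        (f : ↥(S36FI_act (M * q * q) (A.inertiaSubgroupIn ℚ)).fixF) ∈
          (S36CZ_C' M q hq hqM A hA c n hn).B ∧ S36L3_red _ _ _ f = (a, a, 0)) ∧
      (∃ f : S36L3_O3 (S36FI_SFF M q hq hqM A hA) (S36FI_SFV M q hq hqM A hA ζ hζ hζ1)
          (S36FI_SVV M q hq hqM A hA),
        (f : ↥(S36FI_act (M * q * q) (A.inertiaSubgroupIn ℚ)).fixF) ∈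
          (S36CZ_C' M q hq hqM A hA c n hn).B ∧ S36L3_red _ _ _ f = (0, a, a)) := by
    intro a ha hv
    have ha' : a ∈ S34SB_regZ (IsLocalRing.ResidueField A) (S36CZ_zb M q hq hqM A hA c) := ha
    have h1 := S36NU_iota_regZ hA D _ a ha'
    rw [S36NU_iota_zb hA c] at h1
    have h2 : ∀ i, (D.P i).adicValuation (S34NX_iota M q A hq hA a) < 1 := by
      intro i
      rw [← S36NU_phi_val hA D (D.P i) a]
      exact hv _ ((D.mem_SS _).2 ⟨i, rfl⟩)
    obtain ⟨b, hb, hH1, hH2⟩ := hNE _ h1 h2 m₀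
    exact hcore b hb _ hH1 hH2 a (S34NX_iota_coe M q A hq hA a).symm
  exact ⟨fun a ha hv => (key a ha hv).1, fun a ha hv => (key a ha hv).2⟩

end final

end Fermat.Agent.S36
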