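import Fermat.Agent.S36.Nodal3UQ2
import Fermat.Agent.S36.Nodal3T
import Fermat.Agent.S36.DescWChart
import Fermat.Agent.S36.ChartsB

/-!
# TRACK 10 (S36), hint_j on the chart `U'` (helper12), part 4: (HA), (HB) on `S36CZ_C'`

The chain  `S36NU_lift_qG` (level-`q` lift, reduction `(0, ā)`, regular off the zeros of `j − c`)
→ `S36DW_levZ` (helper26: an inertia-FIXED lift with the same properties)
→ `S36N3T_HA` / `S36N3T_HB` (helper14: the TABLE on helper1's `SFF`, `SFV`, `SVV`)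
→ membership in `(S36CZ_C' … c n hn).B` (helper23's chart `U' = {B ≠ c}`).

* `S36NU_wq_G`     : `w_q` swaps the Gauss rings at `F` and `V` and the reductions;
* `S36NU_beta_jB`  : `β₂ j = B`;
* `S36NU_mem_B'`   : regular off the zeros of `B − c` ⇒ in `(S36CZ_C' … c n hn).B`;
* **`S36NU_core`** : for `b ≥ m₀` and `ā ∈ L(b·(j̄^q − c̄)₀)` vanishing at the second branches of
  TRACK 7's nodes:  `∃ f ∈ O₃ ∩ B'`, `red f = (a, a, 0)`  and  `∃ f ∈ O₃ ∩ B'`, `red f = (0, a, a)`.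
Prefix `S36NU_`.
-/

set_option autoImplicit false
set_option synthInstance.maxHeartbeats 400000
set_option maxHeartbeats 1000000
set_option linter.unusedSectionVars false
set_option linter.unusedVariables false
set_option linter.style.haveILetI false

open HahnSeries IntermediateField AlgebraicCurve ModularCurve

noncomputable section

namespace Fermat.Agent.S36

open Fermat.Agent.Lib Fermat.Agent.S18 Fermat.Agent.S24 Fermat.Agent.GalRep Fermat.Agent.S34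

local notation "ℚbar" => AlgebraicClosure ℚ

section wq

variable (M q : ℕ) [NeZero M] [NeZero q] (hq : q.Prime) (hqM : ¬ q ∣ M)
  (A : ValuationSubring ℚbar)

/-- `w_q` swaps the Gauss rings at `F` and `V`, and the reductions. -/
theorem S36NU_wq_G {s : ↥(modularFunctionFieldBar (M * q))}
    (hF : s ∈ S36V_G A (S36V_emF M q)) (hV : s ∈ S36V_G A (S36V_emV M q hq hqM)) :
    ∃ (hwF : S34DF_wq M q hq hqM s ∈ S36V_G A (S36V_emF M q))
      (hwV : S34DF_wq M q hq hqM s ∈ S36V_G A (S36V_emV M q hq hqM)),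
      S36V_Gred A (S36V_emF M q) ⟨_, hwF⟩ = S36V_Gred A (S36V_emV M q hq hqM) ⟨s, hV⟩ ∧
      S36V_Gred A (S36V_emV M q hq hqM) ⟨_, hwV⟩ = S36V_Gred A (S36V_emF M q) ⟨s, hF⟩ := by
  have e1 : S36V_emV M q hq hqM s = S36V_emF M q (S34DF_wq M q hq hqM s) := rfl
  have hwF : S34DF_wq M q hq hqM s ∈ S36V_G A (S36V_emF M q) :=
    (S36V_mem_G_of_eq A _ _ e1).1 hV
  have hwFred : S36V_Gred A (S36V_emF M q) ⟨_, hwF⟩ =
      S36V_Gred A (S36V_emV M q hq hqM) ⟨s, hV⟩ :=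
    (S36V_Gred_of_eq A _ _ e1 hV hwF).symm
  have e2 : S36V_emV M q hq hqM (S34DF_wq M q hq hqM s) = S36V_emF M q s := by
    show S36V_emF M q (S34DF_wq M q hq hqM (S34DF_wq M q hq hqM s)) = _
    rw [S34DF_wq_wq]
  have hwV : S34DF_wq M q hq hqM s ∈ S36V_G A (S36V_emV M q hq hqM) :=
    (S36V_mem_G_of_eq A _ _ e2).2 hF
  have hwVred : S36V_Gred A (S36V_emV M q hq hqM) ⟨_, hwV⟩ =
      S36V_Gred A (S36V_emF M q) ⟨s, hF⟩ :=
    S36V_Gred_of_eq A _ _ e2 hwV hF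
  exact ⟨hwF, hwV, hwFred, hwVred⟩

/-- `β₂ j = B`. -/
theorem S36NU_beta_jB :
    heckeBetaBar ℚbar (M * q) q (jB (M * q)) = jBar (M * q * q) q (S36CO_q_dvd M q) := by
  apply Subtype.ext
  rw [coe_heckeBetaBar, KE_jBar_coe]
  have h1 : ((jB (M * q) : ↥(modularFunctionFieldBar (M * q))) : LaurentSeries ℚbar) =
      qExpand ℚbar 1 (jqModC ℚbar) := KE_jBar_coe (M * q) 1 (one_dvd _)
  rw [h1, qExpand_one_apply]

end wq

section chart

variable (M q : ℕ) [NeZero M] [NeZero q] (hq : q.Prime) (hqM : ¬ q ∣ M)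
  (A : ValuationSubring ℚbar) (hA : A.LiesOverPrime q)
  (ζ : ℚbarˣ) (hζ : ζ ^ q = 1) (hζ1 : ζ ≠ 1)

/-- a fixed function regular off the zeros of `B − c` lies in the ring `B` of the chart `U'`. -/
theorem S36NU_mem_B' (c : (S36FI_SFF M q hq hqM A hA).A) (n : ℕ) (hn : 0 < n)
    (f : ↥(S36FI_act (M * q * q) (A.inertiaSubgroupIn ℚ)).fixF)
    (hf : ∀ Q : Place ℚbar ↥(modularFunctionFieldBar (M * q * q)),
      Q.ord (heckeBetaBar ℚbar (M * q) q (jB (M * q)) -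
        algebraMap ℚbar ↥(modularFunctionFieldBar (M * q * q))
          (((c : ↥(S36FI_act (M * q * q) (A.inertiaSubgroupIn ℚ)).fixK)) : ℚbar)) ≤ 0 →
      0 ≤ Q.ord (f : ↥(modularFunctionFieldBar (M * q * q)))) :
    f ∈ (S36CZ_C' M q hq hqM A hA c n hn).B := by
  rw [S36CZ_hC', S36I3_mem_reg, S34IX_mem_reg]
  intro v hv
  have hv' : v.ord (jBar (M * q * q) q (S36CO_q_dvd M q) -
      algebraMap ℚbar ↥(modularFunctionFieldBar (M * q * q))
        (((c : ↥(S36FI_act (M * q * q) (A.inertiaSubgroupIn ℚ)).fixK)) : ℚbar)) ≤ 0 := hv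
  rw [← S36NU_beta_jB M q] at hv'
  by_cases h0 : (f : ↥(modularFunctionFieldBar (M * q * q))) = 0
  · rw [h0]
    exact v.toValuationSubring.zero_mem
  · exact (BG_mem_iff_ord_nonneg v h0).2 (hf v hv')

end chart

section core

variable (M q : ℕ) [NeZero M] [NeZero q] [NeZero (M * q)] (hq : q.Prime) (hqM : ¬ q ∣ M)
  (A : ValuationSubring ℚbar) (hA : A.LiesOverPrime q)
  (ζ : ℚbarˣ) (hζ : ζ ^ q = 1) (hζ1 : ζ ≠ 1)
  (hgen : PrincipalGeneratedByIntegral A (IsLocalRing.residue A) (M * q))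

include hA in
/-- the chain `lift_qG → DESC → TABLE` at the level of the Gauss rings: the inertia-fixed lift
`g` of level `q`. -/
theorem S36NU_core_lift
    (x₁ : ↥(modularFunctionFieldFullC (IsLocalRing.ResidueField A) (M * q)))
    (hx₁ : x₁ = S18_jbar (M * q) (IsLocalRing.ResidueField A))
    {n' : ℕ} (hn' : 0 < n') {ι : Type*} [Fintype ι]
    (e₁ : ι → ↥(S34SB_reg (IsLocalRing.ResidueField A) x₁) →ₐ[IsLocalRing.ResidueField A]
      IsLocalRing.ResidueField A)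
    (e₂ : ι → ↥(S34SB_reg (IsLocalRing.ResidueField A) (x₁ ^ q)) →ₐ[IsLocalRing.ResidueField A]
      IsLocalRing.ResidueField A)
    (hE : Function.Surjective (S34B_E e₁ e₂))
    (hW1 : S34K_W (S34M_same M q hq hqM A hgen)
        (S34SB_chart (AlgebraicClosure ℚ) (IsLocalRing.ResidueField A) (jB (M * q))
          x₁ (x₁ ^ q) n' hn') 1 = S34B_W e₁ e₂)
    (c₁ : (S34M_T1 M q A hgen).A)
    (hcfix : ∀ τ ∈ A.inertiaSubgroupIn ℚ, τ (c₁ : ℚbar) = (c₁ : ℚbar))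
    (γ : IsLocalRing.ResidueField A) (hγ : γ = (S34M_T1 M q A hgen).res c₁)
    (hc : ∀ i, e₁ i ⟨x₁, S34SB_self_mem_reg x₁⟩ ≠ γ) :
    ∃ m₀ : ℕ, ∀ b, m₀ ≤ b →
      ∀ a₁ : ↥(modularFunctionFieldFullC (IsLocalRing.ResidueField A) (M * q)),
      a₁ ∈ riemannRochSpace (S34P_E (S34VF_hk M A hq hA hqM).principal (x₁ ^ q)
        (x₁ ^ q - algebraMap _ _ γ) 0 b) →
      (∀ i, S34CH_ev (S34SB_reg (IsLocalRing.ResidueField A) (x₁ ^ q))
        (x₁ ^ q - algebraMap _ _ γ)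
        (S34SB_sub_const_mem_reg (x₁ ^ q) _) (e₂ i) a₁ = 0) →
      ∃ g : ↥(modularFunctionFieldBar (M * q)),
        g ∈ (S36FI_act (M * q) (A.inertiaSubgroupIn ℚ)).fixF ∧
        (∀ P : Place ℚbar ↥(modularFunctionFieldBar (M * q)),
          P.ord (jB (M * q) - algebraMap ℚbar ↥(modularFunctionFieldBar (M * q))
            (c₁ : ℚbar)) ≤ 0 → 0 ≤ P.ord g) ∧
        ∃ (hgF : g ∈ S36V_G A (S36V_emF M q)) (hgV : g ∈ S36V_G A (S36V_emV M q hq hqM)),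
          S36V_Gred A (S36V_emF M q) ⟨g, hgF⟩ = 0 ∧
          S36V_Gred A (S36V_emV M q hq hqM) ⟨g, hgV⟩ =
            (a₁ : LaurentSeries (IsLocalRing.ResidueField A)) := by
  subst hγ
  obtain ⟨m₀, h⟩ := S36NU_lift_qG M q hq hqM A hgen hA x₁ hx₁ hn' e₁ e₂ hE hW1 c₁ hc
  refine ⟨m₀, fun b hb a₁ h1 h2 => ?_⟩
  obtain ⟨s, hF, hV, hsL, hrF, hrV⟩ := h b hb a₁ h1 h2
  -- `s` is regular off the zeros of `j − c`
  have hsZ : s ∈ S34SB_regZ ℚbar (jB (M * q) -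
      algebraMap ℚbar ↥(modularFunctionFieldBar (M * q)) (c₁ : ℚbar)) := by
    intro Q hQ
    have hQ' : Q.ord (jB (M * q) - algebraMap ℚbar ↥(modularFunctionFieldBar (M * q))
        (c₁ : ℚbar)) ≤ 0 := not_lt.1 hQ
    have h0 := S36NU_reg_of_mem (M * q) _ b hsL Q hQ'
    by_cases hs0 : s = 0
    · rw [hs0]
      exact Q.toValuationSubring.zero_mem
    · exact (BG_mem_iff_ord_nonneg Q hs0).2 h0
  -- DESC: an inertia-fixed lift
  obtain ⟨g, hgZ, hgfix, hgF, hgV, hgrF, hgrV⟩ :=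
    S36DW_levZ M q hq hqM A hA (jB (M * q)) (fun τ _ => S34SW_gal_jB (M * q) τ) _ hcfix
      s hsZ hF hV
  refine ⟨g, (S36FI_mem_fixF (M * q) (A.inertiaSubgroupIn ℚ)).2 hgfix, ?_, hgF, hgV,
    hgrF.trans hrF, hgrV.trans hrV⟩
  intro P hP
  by_cases hg0 : g = 0
  · rw [hg0, Place.ord_zero]
  · exact (BG_mem_iff_ord_nonneg P hg0).1 (hgZ P (not_lt.2 hP))

include hA in
/-- the TABLE step: from an inertia-fixed lift `g` of level `q` with reductions `(0, a)`,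
regular off the zeros of `j − c`, to (HA) and (HB) on the chart `U' = {B ≠ c}`. -/
theorem S36NU_core_table (c : (S36FI_SFF M q hq hqM A hA).A) (n : ℕ) (hn : 0 < n)
    (g : ↥(modularFunctionFieldBar (M * q)))
    (hgfix : g ∈ (S36FI_act (M * q) (A.inertiaSubgroupIn ℚ)).fixF)
    (hgreg : ∀ P : Place ℚbar ↥(modularFunctionFieldBar (M * q)),
      P.ord (jB (M * q) - algebraMap ℚbar ↥(modularFunctionFieldBar (M * q))
        ((c : ↥(S36FI_act (M * q * q) (A.inertiaSubgroupIn ℚ)).fixK) : ℚbar)) ≤ 0 →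
        0 ≤ P.ord g)
    (hgF : g ∈ S36V_G A (S36V_emF M q)) (hgV : g ∈ S36V_G A (S36V_emV M q hq hqM))
    (a : ↥(S36FI_kappa M A))
    (hgF0 : S36V_Gred A (S36V_emF M q) ⟨g, hgF⟩ = 0)
    (hgVa : S36V_Gred A (S36V_emV M q hq hqM) ⟨g, hgV⟩ =
      (a : LaurentSeries (IsLocalRing.ResidueField A))) :
    (∃ f : S36L3_O3 (S36FI_SFF M q hq hqM A hA) (S36FI_SFV M q hq hqM A hA ζ hζ hζ1)
        (S36FI_SVV M q hq hqM A hA),
      (f : ↥(S36FI_act (M * q * q) (A.inertiaSubgroupIn ℚ)).fixF) ∈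
        (S36CZ_C' M q hq hqM A hA c n hn).B ∧ S36L3_red _ _ _ f = (a, a, 0)) ∧
    (∃ f : S36L3_O3 (S36FI_SFF M q hq hqM A hA) (S36FI_SFV M q hq hqM A hA ζ hζ hζ1)
        (S36FI_SVV M q hq hqM A hA),
      (f : ↥(S36FI_act (M * q * q) (A.inertiaSubgroupIn ℚ)).fixF) ∈
        (S36CZ_C' M q hq hqM A hA c n hn).B ∧ S36L3_red _ _ _ f = (0, a, a)) := by
  constructor
  · -- (HA): `α₂ (w_q g)`
    obtain ⟨hwF, hwV, hwFr, hwVr⟩ := S36NU_wq_G M q hq hqM A hgF hgV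
    obtain ⟨f, hf, hred⟩ := S36N3T_HA M q hq hqM A hA ζ hζ hζ1 (S34DF_wq M q hq hqM g)
      (S36NU_fix_wq M q hq hqM (A.inertiaSubgroupIn ℚ) hgfix) hwF hwV a
      (hwFr.trans hgVa) (hwVr.trans hgF0)
    refine ⟨f, S36NU_mem_B' M q hq hqM A hA c n hn _ fun Q hQ => ?_, hred⟩
    rw [hf]
    exact (S36NU_pull_alpha M q hq hqM A ζ hζ hζ1 (A.inertiaSubgroupIn ℚ) _ hgfix hgF hgV
      hgreg).2.1 Q hQ
  · -- (HB): `β₂ g`
    obtain ⟨f, hf, hred⟩ := S36N3T_HB M q hq hqM A hA ζ hζ hζ1 g hgfix hgF hgV a hgF0 hgVa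
    refine ⟨f, S36NU_mem_B' M q hq hqM A hA c n hn _ fun Q hQ => ?_, hred⟩
    rw [hf]
    exact S36NU_reg_map _ (heckeBetaBar ℚbar (M * q) q) hgreg Q hQ

include hA in
/-- **(HA) and (HB) on the chart `U' = {B ≠ c}`, core form**: for `b ≥ m₀`, every
`ā ∈ L(b·(j̄^q − c̄)₀)` (on `κ₁ = F̄_{Mq}`) vanishing at the second branches of TRACK 7's nodes is
the common reduction of `f, f' ∈ O₃ ∩ B'` with `red f = (a, a, 0)`, `red f' = (0, a, a)`. -/
theorem S36NU_core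
    (x₁ : ↥(modularFunctionFieldFullC (IsLocalRing.ResidueField A) (M * q)))
    (hx₁ : x₁ = S18_jbar (M * q) (IsLocalRing.ResidueField A))
    {n' : ℕ} (hn' : 0 < n') {ι : Type*} [Fintype ι]
    (e₁ : ι → ↥(S34SB_reg (IsLocalRing.ResidueField A) x₁) →ₐ[IsLocalRing.ResidueField A]
      IsLocalRing.ResidueField A)
    (e₂ : ι → ↥(S34SB_reg (IsLocalRing.ResidueField A) (x₁ ^ q)) →ₐ[IsLocalRing.ResidueField A]
      IsLocalRing.ResidueField A)
    (hE : Function.Surjective (S34B_E e₁ e₂))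
    (hW1 : S34K_W (S34M_same M q hq hqM A hgen)
        (S34SB_chart (AlgebraicClosure ℚ) (IsLocalRing.ResidueField A) (jB (M * q))
          x₁ (x₁ ^ q) n' hn') 1 = S34B_W e₁ e₂)
    (c : (S36FI_SFF M q hq hqM A hA).A)
    (hc : ∀ i, e₁ i ⟨x₁, S34SB_self_mem_reg x₁⟩ ≠ (S36FI_SFF M q hq hqM A hA).res c)
    (n : ℕ) (hn : 0 < n) :
    ∃ m₀ : ℕ, ∀ b, m₀ ≤ b →
      ∀ a₁ : ↥(modularFunctionFieldFullC (IsLocalRing.ResidueField A) (M * q)),
      a₁ ∈ riemannRochSpace (S34P_E (S34VF_hk M A hq hA hqM).principal (x₁ ^ q)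
        (x₁ ^ q - algebraMap _ _ ((S36FI_SFF M q hq hqM A hA).res c)) 0 b) →
      (∀ i, S34CH_ev (S34SB_reg (IsLocalRing.ResidueField A) (x₁ ^ q))
        (x₁ ^ q - algebraMap _ _ ((S36FI_SFF M q hq hqM A hA).res c))
        (S34SB_sub_const_mem_reg (x₁ ^ q) _) (e₂ i) a₁ = 0) →
      ∀ a : ↥(S36FI_kappa M A),
        (a : LaurentSeries (IsLocalRing.ResidueField A)) =
          (a₁ : LaurentSeries (IsLocalRing.ResidueField A)) →
      (∃ f : S36L3_O3 (S36FI_SFF M q hq hqM A hA) (S36FI_SFV M q hq hqM A hA ζ hζ hζ1)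
          (S36FI_SVV M q hq hqM A hA),
        (f : ↥(S36FI_act (M * q * q) (A.inertiaSubgroupIn ℚ)).fixF) ∈
          (S36CZ_C' M q hq hqM A hA c n hn).B ∧ S36L3_red _ _ _ f = (a, a, 0)) ∧
      (∃ f : S36L3_O3 (S36FI_SFF M q hq hqM A hA) (S36FI_SFV M q hq hqM A hA ζ hζ hζ1)
          (S36FI_SVV M q hq hqM A hA),
        (f : ↥(S36FI_act (M * q * q) (A.inertiaSubgroupIn ℚ)).fixF) ∈
          (S36CZ_C' M q hq hqM A hA c n hn).B ∧ S36L3_red _ _ _ f = (0, a, a)) := by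
  have hcA : ((c : ↥(S36FI_act (M * q * q) (A.inertiaSubgroupIn ℚ)).fixK) : ℚbar) ∈ A := c.2
  have hcfix : ∀ τ ∈ A.inertiaSubgroupIn ℚ,
      τ ((c : ↥(S36FI_act (M * q * q) (A.inertiaSubgroupIn ℚ)).fixK) : ℚbar) =
        ((c : ↥(S36FI_act (M * q * q) (A.inertiaSubgroupIn ℚ)).fixK) : ℚbar) :=
    (S36FI_mem_fixK (M * q * q) (A.inertiaSubgroupIn ℚ)).1
      (c : ↥(S36FI_act (M * q * q) (A.inertiaSubgroupIn ℚ)).fixK).2
  obtain ⟨m₀, h⟩ := S36NU_core_lift M q hq hqM A hA hgen x₁ hx₁ hn' e₁ e₂ hE hW1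
    (⟨((c : ↥(S36FI_act (M * q * q) (A.inertiaSubgroupIn ℚ)).fixK) : ℚbar), hcA⟩ :
      (S34M_T1 M q A hgen).A) hcfix ((S36FI_SFF M q hq hqM A hA).res c) rfl hc
  refine ⟨m₀, fun b hb a₁ h1 h2 a haa => ?_⟩
  obtain ⟨g, hgfix, hgreg, hgF, hgV, hgF0, hgVa⟩ := h b hb a₁ h1 h2
  exact S36NU_core_table M q hq hqM A hA ζ hζ hζ1 c n hn g hgfix hgreg hgF hgV a hgF0
    (hgVa.trans haa.symm)

end core

end Fermat.Agent.S36
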