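import Fermat.Agent.S36.Nodal3U
import Fermat.Agent.S36.Val3Res
import Fermat.Agent.S36.Val3Eq
import Fermat.Agent.S34.SatPoleX0

/-!
# TRACK 10 (S36), hint_j on the chart `U'` (helper12), part 3: the pull backs to level `q²`

`B = β₂ (j) = j(t^q) ∈ F_{M q²}` (`j = jB (M q)`), chart `U' = {B ≠ c}`.  For `s ∈ F_{Mq}`,
`I`-fixed, Gauss-integral at `F` and `V`, regular off the zeros of `j − c`:

* `S36NU_pull_beta`  : `β₂ s` is `I`-fixed, regular off the zeros of `B − c`, lies in the three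
  Gauss rings, with reductions `(Ψ s̄_F, s̄_V, s̄_V)`;
* `S36NU_pull_alpha` : `α₂ (w_q s)` is `I`-fixed, regular off the zeros of `B − c`, lies in the
  three Gauss rings, with reductions `(s̄_V, s̄_V, Ψ s̄_F)`.

With the lifts of level `q` (`S36NU_lift_qG`) and the descent to `I`-fixed functions (DESC-W,
hypothesis `hdesc`):

* **`S36NU_HB`** : `(0, ā, ā)`, **`S36NU_HA`** : `(ā, ā, 0)` are reductions of `I`-fixed
  functions of `Λ_{U'}`, for every `ā ∈ L(b·(j̄^q − c̄)₀)` vanishing at the (second branches of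
  the) nodes — the inputs (HA), (HB) of helper14's `S36N3I_hcW_comp` (⇒ hint_j) on `U'`.
Prefix `S36NU_`.
-/

set_option autoImplicit false
set_option synthInstance.maxHeartbeats 400000
set_option maxHeartbeats 1000000
set_option linter.unusedSectionVars false
set_option linter.unusedVariables false
set_option linter.style.haveILetI false

open HahnSeries IntermediateField AlgebraicCurve ModularCurve

noncomputable section

namespace Fermat.Agent.S36

open Fermat.Agent.Lib Fermat.Agent.S18 Fermat.Agent.S24 Fermat.Agent.GalRep Fermat.Agent.S34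

local notation "ℚbar" => AlgebraicClosure ℚ

/-! ### regularity -/

section reg

variable (N : ℕ) [NeZero N] (c : ℚbar)

/-- the elements of `L(b·(j − c)₀)` are regular off the zeros of `j − c`. -/
theorem S36NU_reg_of_mem (b : ℕ) {s : ↥(modularFunctionFieldBar N)}
    (hs : s ∈ riemannRochSpace (S34P_E (S18_hRR N).principal (jB N)
      (jB N - algebraMap ℚbar ↥(modularFunctionFieldBar N) c) 0 b))
    (P : Place ℚbar ↥(modularFunctionFieldBar N))
    (hP : P.ord (jB N - algebraMap ℚbar ↥(modularFunctionFieldBar N) c) ≤ 0) :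
    0 ≤ P.ord s := by
  rw [mem_riemannRochSpace_iff] at hs
  rcases hs P with h0 | h
  · rw [h0, Place.ord_zero]
  · rcases S34P_E_apply_sub (S18_hRR N).principal (jB N) c 0 b P with ⟨_, e⟩ | ⟨_, hz, e⟩
    · rw [e] at h
      simpa using h
    · have h0 : P.ord (jB N - algebraMap ℚbar ↥(modularFunctionFieldBar N) c) = 0 :=
        le_antisymm hP hz
      rw [e, h0] at h
      simpa using h

/-- a function regular off the zeros of `j − c` is integral over `ℚ̄[1/(j − c)]`. -/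
theorem S36NU_int_of_reg {s : ↥(modularFunctionFieldBar N)}
    (hs : ∀ P : Place ℚbar ↥(modularFunctionFieldBar N),
      P.ord (jB N - algebraMap ℚbar ↥(modularFunctionFieldBar N) c) ≤ 0 → 0 ≤ P.ord s) :
    IsIntegral (Algebra.adjoin ℚbar
      ({(jB N - algebraMap ℚbar ↥(modularFunctionFieldBar N) c)⁻¹} :
        Set ↥(modularFunctionFieldBar N))) s := by
  have hadj := S24_adjoin_sub_const (K := ℚbar) (jB N) c
  haveI hfd : FiniteDimensional ℚbar⟮jB N - algebraMap ℚbar ↥(modularFunctionFieldBar N) c⟯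
      ↥(modularFunctionFieldBar N) :=
    S24_finiteDimensional_congr hadj.symm (finiteDimensional_jB N)
  haveI : CharZero ℚbar⟮jB N - algebraMap ℚbar ↥(modularFunctionFieldBar N) c⟯ :=
    charZero_of_injective_algebraMap
      (algebraMap ℚbar ℚbar⟮jB N - algebraMap ℚbar ↥(modularFunctionFieldBar N) c⟯).injective
  haveI : Algebra.IsSeparable ℚbar⟮jB N - algebraMap ℚbar ↥(modularFunctionFieldBar N) c⟯
      ↥(modularFunctionFieldBar N) := Algebra.IsSeparable.of_integral _ _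
  exact S18_semi_isIntegral_of_regular_inv (W_transcendental_sub (transcendental_jB N) c) s hs

variable {N}

/-- transfer of the regularity along a `ℚ̄`-embedding of function fields. -/
theorem S36NU_reg_map {N' : ℕ} [NeZero N']
    (φ : ↥(modularFunctionFieldBar N) →ₐ[ℚbar] ↥(modularFunctionFieldBar N'))
    {s : ↥(modularFunctionFieldBar N)}
    (hs : ∀ P : Place ℚbar ↥(modularFunctionFieldBar N),
      P.ord (jB N - algebraMap ℚbar ↥(modularFunctionFieldBar N) c) ≤ 0 → 0 ≤ P.ord s)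
    (Q : Place ℚbar ↥(modularFunctionFieldBar N'))
    (hQ : Q.ord (φ (jB N) - algebraMap ℚbar ↥(modularFunctionFieldBar N') c) ≤ 0) :
    0 ≤ Q.ord (φ s) := by
  have hint := S34S_tp_isIntegral_map φ (S36NU_int_of_reg N c hs)
  have e : φ ((jB N - algebraMap ℚbar ↥(modularFunctionFieldBar N) c)⁻¹) =
      (φ (jB N) - algebraMap ℚbar ↥(modularFunctionFieldBar N') c)⁻¹ := by
    rw [map_inv₀, map_sub, AlgHom.commutes]
  rw [e] at hint
  have hmem : (φ (jB N) - algebraMap ℚbar ↥(modularFunctionFieldBar N') c)⁻¹ ∈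
      Q.toValuationSubring := by
    by_cases h0 : (φ (jB N) - algebraMap ℚbar ↥(modularFunctionFieldBar N') c)⁻¹ = 0
    · rw [h0]
      exact Q.toValuationSubring.zero_mem
    · rw [BG_mem_iff_ord_nonneg Q h0, Place.ord_inv]
      omega
  have hφs := BL_mem_of_isIntegral Q hmem hint
  by_cases h0 : φ s = 0
  · rw [h0, Place.ord_zero]
  · exact (BG_mem_iff_ord_nonneg Q h0).mp hφs

end reg

/-! ### the two pull backs -/

section pull

variable (M q : ℕ) [NeZero M] [NeZero q] (hq : q.Prime) (hqM : ¬ q ∣ M)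
  (A : ValuationSubring ℚbar) (hA : A.LiesOverPrime q)
  (ζ : ℚbarˣ) (hζ : ζ ^ q = 1) (hζ1 : ζ ≠ 1)
  (H : Subgroup (ℚbar ≃ₐ[ℚ] ℚbar)) (c : ℚbar)

/-- `w_q` preserves the `H`-fixed functions. -/
theorem S36NU_fix_wq {s : ↥(modularFunctionFieldBar (M * q))}
    (hs : s ∈ (S36FI_act (M * q) H).fixF) :
    S34DF_wq M q hq hqM s ∈ (S36FI_act (M * q) H).fixF := by
  rw [S36FI_mem_fixF] at hs ⊢
  intro σ hσ
  have h := S36VE_wq_gal M q hq hqM σ s
  have h' : GR_gal (M * q) σ (S34DF_wq M q hq hqM s) =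
      S34DF_wq M q hq hqM (GR_gal (M * q) σ s) := h.symm
  have h2 : GR_gal (M * q) σ s = s := hs σ hσ
  rw [h2] at h'
  exact h'

/-- `α₂ (w_q j) = β₂ j = B`. -/
theorem S36NU_alpha_wq_jB :
    heckeAlphaBar ℚbar (M * q) q (S34DF_wq M q hq hqM (jB (M * q))) =
      heckeBetaBar ℚbar (M * q) q (jB (M * q)) := by
  haveI : NeZero (q * 1) := ⟨by rw [mul_one]; exact hq.ne_zero⟩
  apply Subtype.ext
  rw [coe_heckeAlphaBar, coe_heckeBetaBar, S34VW_wq_jB M q hq hqM, KE_jBar_coe]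
  have h1 : ((jB (M * q) : ↥(modularFunctionFieldBar (M * q))) : LaurentSeries ℚbar) =
      qExpand ℚbar 1 (jqModC ℚbar) := KE_jBar_coe (M * q) 1 (one_dvd _)
  rw [h1, qExpand_qExpand]

include hA in
/-- **the pull back `β₂ s`**: reductions `(Ψ s̄_F, s̄_V, s̄_V)`. -/
theorem S36NU_pull_beta {s : ↥(modularFunctionFieldBar (M * q))}
    (hfix : s ∈ (S36FI_act (M * q) H).fixF)
    (hF : s ∈ S36V_G A (S36V_emF M q)) (hV : s ∈ S36V_G A (S36V_emV M q hq hqM))
    (hreg : ∀ P : Place ℚbar ↥(modularFunctionFieldBar (M * q)),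
      P.ord (jB (M * q) - algebraMap ℚbar ↥(modularFunctionFieldBar (M * q)) c) ≤ 0 →
        0 ≤ P.ord s) :
    heckeBetaBar ℚbar (M * q) q s ∈ (S36FI_act (M * q * q) H).fixF ∧
    (∀ Q : Place ℚbar ↥(modularFunctionFieldBar (M * q * q)),
      Q.ord (heckeBetaBar ℚbar (M * q) q (jB (M * q)) -
        algebraMap ℚbar ↥(modularFunctionFieldBar (M * q * q)) c) ≤ 0 →
      0 ≤ Q.ord (heckeBetaBar ℚbar (M * q) q s)) ∧
    (∃ h : heckeBetaBar ℚbar (M * q) q s ∈ S36V_G A (S36V_emFF M q),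
      S36V_Gred A (S36V_emFF M q) ⟨_, h⟩ =
        qExpand (IsLocalRing.ResidueField A) q (S36V_Gred A (S36V_emF M q) ⟨s, hF⟩)) ∧
    (∃ h : heckeBetaBar ℚbar (M * q) q s ∈ S36V_G A (S36V_emFV M q hq hqM ζ hζ hζ1),
      S36V_Gred A (S36V_emFV M q hq hqM ζ hζ hζ1) ⟨_, h⟩ =
        S36V_Gred A (S36V_emV M q hq hqM) ⟨s, hV⟩) ∧
    (∃ h : heckeBetaBar ℚbar (M * q) q s ∈ S36V_G A (S36V_emVV M q hq hqM),
      S36V_Gred A (S36V_emVV M q hq hqM) ⟨_, h⟩ =
        S36V_Gred A (S36V_emV M q hq hqM) ⟨s, hV⟩) := by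
  haveI : Fact q.Prime := ⟨hq⟩
  haveI : CharP (IsLocalRing.ResidueField A) q := S18_residue_charP A q hq hA
  refine ⟨S36VR_fix_beta (M * q) q H hfix,
    fun Q hQ => S36NU_reg_map c (heckeBetaBar ℚbar (M * q) q) hreg Q hQ, ?_, ?_, ?_⟩
  · exact ⟨S36V_FF_beta M q A hF, S36V_FF_beta_red M q A hF _⟩
  · exact ⟨S36V_FV_beta M q hq hqM A ζ hζ hζ1 hV,
      S36V_FV_beta_red M q hq hqM A ζ hζ hζ1 hV _⟩
  · exact ⟨(S36V_VV_beta M q hq hqM A).2 hV, S36V_VV_beta_red M q hq hqM A hV _⟩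

/-- **the pull back `α₂ (w_q s)`**: reductions `(s̄_V, s̄_V, Ψ s̄_F)`. -/
theorem S36NU_pull_alpha {s : ↥(modularFunctionFieldBar (M * q))}
    (hfix : s ∈ (S36FI_act (M * q) H).fixF)
    (hF : s ∈ S36V_G A (S36V_emF M q)) (hV : s ∈ S36V_G A (S36V_emV M q hq hqM))
    (hreg : ∀ P : Place ℚbar ↥(modularFunctionFieldBar (M * q)),
      P.ord (jB (M * q) - algebraMap ℚbar ↥(modularFunctionFieldBar (M * q)) c) ≤ 0 →
        0 ≤ P.ord s) :
    heckeAlphaBar ℚbar (M * q) q (S34DF_wq M q hq hqM s) ∈ (S36FI_act (M * q * q) H).fixF ∧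
    (∀ Q : Place ℚbar ↥(modularFunctionFieldBar (M * q * q)),
      Q.ord (heckeBetaBar ℚbar (M * q) q (jB (M * q)) -
        algebraMap ℚbar ↥(modularFunctionFieldBar (M * q * q)) c) ≤ 0 →
      0 ≤ Q.ord (heckeAlphaBar ℚbar (M * q) q (S34DF_wq M q hq hqM s))) ∧
    (∃ h : heckeAlphaBar ℚbar (M * q) q (S34DF_wq M q hq hqM s) ∈ S36V_G A (S36V_emFF M q),
      S36V_Gred A (S36V_emFF M q) ⟨_, h⟩ = S36V_Gred A (S36V_emV M q hq hqM) ⟨s, hV⟩) ∧
    (∃ h : heckeAlphaBar ℚbar (M * q) q (S34DF_wq M q hq hqM s) ∈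
        S36V_G A (S36V_emFV M q hq hqM ζ hζ hζ1),
      S36V_Gred A (S36V_emFV M q hq hqM ζ hζ hζ1) ⟨_, h⟩ =
        S36V_Gred A (S36V_emV M q hq hqM) ⟨s, hV⟩) ∧
    (∃ h : heckeAlphaBar ℚbar (M * q) q (S34DF_wq M q hq hqM s) ∈
        S36V_G A (S36V_emVV M q hq hqM),
      S36V_Gred A (S36V_emVV M q hq hqM) ⟨_, h⟩ =
        qExpand (IsLocalRing.ResidueField A) q (S36V_Gred A (S36V_emF M q) ⟨s, hF⟩)) := by
  -- `w_q s` at `F` and `V`
  have e1 : S36V_emV M q hq hqM s = S36V_emF M q (S34DF_wq M q hq hqM s) := rfl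
  have hwF : S34DF_wq M q hq hqM s ∈ S36V_G A (S36V_emF M q) :=
    (S36V_mem_G_of_eq A _ _ e1).1 hV
  have hwFred : S36V_Gred A (S36V_emF M q) ⟨_, hwF⟩ =
      S36V_Gred A (S36V_emV M q hq hqM) ⟨s, hV⟩ :=
    (S36V_Gred_of_eq A _ _ e1 hV hwF).symm
  have e2 : S36V_emV M q hq hqM (S34DF_wq M q hq hqM s) = S36V_emF M q s := by
    show S36V_emF M q (S34DF_wq M q hq hqM (S34DF_wq M q hq hqM s)) = _
    rw [S34DF_wq_wq]
  have hwV : S34DF_wq M q hq hqM s ∈ S36V_G A (S36V_emV M q hq hqM) :=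
    (S36V_mem_G_of_eq A _ _ e2).2 hF
  have hwVred : S36V_Gred A (S36V_emV M q hq hqM) ⟨_, hwV⟩ =
      S36V_Gred A (S36V_emF M q) ⟨s, hF⟩ :=
    S36V_Gred_of_eq A _ _ e2 hwV hF
  -- regularity
  have hregQ : ∀ Q : Place ℚbar ↥(modularFunctionFieldBar (M * q * q)),
      Q.ord (heckeBetaBar ℚbar (M * q) q (jB (M * q)) -
        algebraMap ℚbar ↥(modularFunctionFieldBar (M * q * q)) c) ≤ 0 →
      0 ≤ Q.ord (heckeAlphaBar ℚbar (M * q) q (S34DF_wq M q hq hqM s)) := by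
    intro Q hQ
    have h := S36NU_reg_map c
      ((heckeAlphaBar ℚbar (M * q) q).comp
        ((S34DF_wq M q hq hqM : ↥(modularFunctionFieldBar (M * q)) ≃ₐ[ℚbar]
          ↥(modularFunctionFieldBar (M * q))) : ↥(modularFunctionFieldBar (M * q)) →ₐ[ℚbar]
          ↥(modularFunctionFieldBar (M * q)))) hreg Q
      (by
        show Q.ord (heckeAlphaBar ℚbar (M * q) q (S34DF_wq M q hq hqM (jB (M * q))) - _) ≤ 0
        rw [S36NU_alpha_wq_jB M q hq hqM]
        exact hQ)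
    exact h
  refine ⟨S36VR_fix_alpha (M * q) q H (S36NU_fix_wq M q hq hqM H hfix), hregQ, ?_, ?_, ?_⟩
  · exact ⟨(S36V_FF_alpha M q A).2 hwF, (S36V_FF_alpha_red M q A hwF _).trans hwFred⟩
  · exact ⟨(S36V_FV_alpha M q hq hqM A ζ hζ hζ1).2 hwF,
      (S36V_FV_alpha_red M q hq hqM A ζ hζ hζ1 hwF _).trans hwFred⟩
  · exact ⟨S36V_VV_alpha M q hq hqM A hwV, by
      rw [S36V_VV_alpha_red M q hq hqM A hwV _, hwVred]⟩

end pull

end Fermat.Agent.S36
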