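import Fermat.Agent.S36.Val3
import Fermat.Agent.S36.Bridge2

/-!
# TRACK 10 (S36), package NORMRES (helper4), part 1: the norm product formulas in `ℚ̄((t))`

Levels `M`, `N₁ = M q`, `N₂ = M q q` (`q ∤ M` prime); `α, β : F_{N₁} → F_{N₂}`;
`N_α = S35B_NA (M q) q`, `N_β = S35B_NB (M q) q : F_{N₂} → F_{N₁}` the two norms;
`ι_ζ = S36V_iota` the middle embeddings (helper12), `tw_ζ = ES_tw ζ` the twist `t ↦ ζ t`.

* `S36NR_alpha` : `N_α m = m · ∏_{ζ^q = 1, ζ ≠ 1} ι_ζ m`            (in `ℚ̄((t))`);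
* `S36NR_beta`  : `(N_β m)(t^q) = ∏_{ζ^q = 1} tw_ζ m`               (in `ℚ̄((t))`).
-/

set_option autoImplicit false
set_option synthInstance.maxHeartbeats 400000
set_option maxHeartbeats 1000000
set_option linter.style.haveILetI false
set_option linter.unusedSectionVars false

open HahnSeries IntermediateField AlgebraicCurve ModularCurve

noncomputable section

namespace Fermat.Agent.S36

open Fermat.Agent.S18 Fermat.Agent.S24 Fermat.Agent.S34 Fermat.Agent.S35 Fermat.Agent.S37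
open Fermat.Agent.GalRep

/-! ### the index sets -/

/-- the nontrivial `q`-th roots of unity of `ℚ̄`. -/
def S36NR_Z (q : ℕ) : Type := {ζ : (AlgebraicClosure ℚ)ˣ // ζ ^ q = 1 ∧ ζ ≠ 1}

/-- all `q`-th roots of unity of `ℚ̄`. -/
def S36NR_Y (q : ℕ) : Type := {ζ : (AlgebraicClosure ℚ)ˣ // ζ ^ q = 1}

theorem S36NR_Y_equiv (q : ℕ) [NeZero q] :
    Nonempty (S36NR_Y q ≃ ↥(rootsOfUnity q (AlgebraicClosure ℚ))) :=
  ⟨{ toFun := fun ζ => ⟨ζ.1, (mem_rootsOfUnity _ _).mpr ζ.2⟩
     invFun := fun ζ => ⟨ζ.1, (mem_rootsOfUnity _ _).mp ζ.2⟩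
     left_inv := fun _ => rfl
     right_inv := fun _ => rfl }⟩

instance S36NR_Y_finite (q : ℕ) [NeZero q] : Finite (S36NR_Y q) :=
  Finite.of_equiv _ (S36NR_Y_equiv q).some.symm

instance S36NR_Y_fintype (q : ℕ) [NeZero q] : Fintype (S36NR_Y q) := Fintype.ofFinite _

theorem S36NR_card_Y (q : ℕ) [NeZero q] : Fintype.card (S36NR_Y q) = q := by
  rw [← Nat.card_eq_fintype_card, Nat.card_congr (S36NR_Y_equiv q).some]
  haveI : NeZero ((q : ℕ) : AlgebraicClosure ℚ) := ⟨Nat.cast_ne_zero.mpr (NeZero.ne q)⟩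
  exact HasEnoughRootsOfUnity.natCard_rootsOfUnity (AlgebraicClosure ℚ) q

/-- the inclusion of the nontrivial roots of unity. -/
def S36NR_ZtoY (q : ℕ) (ζ : S36NR_Z q) : S36NR_Y q := ⟨ζ.1, ζ.2.1⟩

instance S36NR_Z_finite (q : ℕ) [NeZero q] : Finite (S36NR_Z q) :=
  @Finite.of_injective (S36NR_Z q) (S36NR_Y q) (S36NR_Y_finite q) (S36NR_ZtoY q)
    (fun _ _ h => Subtype.ext (congrArg (fun z : S36NR_Y q => z.1) h))

instance S36NR_Z_fintype (q : ℕ) [NeZero q] : Fintype (S36NR_Z q) := Fintype.ofFinite _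

open Classical in
theorem S36NR_card_optZ (q : ℕ) [NeZero q] : q ≤ Fintype.card (Option (S36NR_Z q)) := by
  refine (S36NR_card_Y q).symm.le.trans ?_
  refine Fintype.card_le_of_injective
    (fun ζ : S36NR_Y q => if h : ζ.1 = 1 then none else some ⟨ζ.1, ζ.2, h⟩) ?_
  intro a b hab
  simp only at hab
  by_cases ha : a.1 = 1 <;> by_cases hb : b.1 = 1
  · exact Subtype.ext (ha.trans hb.symm)
  · rw [dif_pos ha, dif_neg hb] at hab
    exact absurd hab (by simp)
  · rw [dif_neg ha, dif_pos hb] at hab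
    exact absurd hab (by simp)
  · rw [dif_neg ha, dif_neg hb] at hab
    have := Option.some.inj hab
    exact Subtype.ext (congrArg (fun z : S36NR_Z q => z.1) this)

/-! ### the abstract product formula -/

section abs

variable {K F Ω : Type*} [Field K] [Field F] [Field Ω] [CharZero K]
  {X : Type*} [Fintype X]

/-- **norm = product over a full family of embeddings**, in ring-hom form: `a : K → F` a finite
extension, `c : K → Ω`, and `e x : F → Ω` pairwise distinct with `e x ∘ a = c`, at least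
`[F : K]` of them. -/
theorem S36NR_norm_prod_abs (a : K →+* F) (c : K →+* Ω) (e : X → (F →+* Ω))
    (he : ∀ x k, e x (a k) = c k) (hinj : Function.Injective e)
    (hfd : @FiniteDimensional K F _ _ (@Algebra.toModule _ _ _ _ a.toAlgebra))
    (hcard : @Module.finrank K F _ _ (@Algebra.toModule _ _ _ _ a.toAlgebra) ≤ Fintype.card X)
    (m : F) :
    c (@Algebra.norm K F _ _ a.toAlgebra m) = ∏ x, e x m := by
  classical
  letI algF : Algebra K F := a.toAlgebra
  letI algM : Algebra K Ω := c.toAlgebra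
  haveI fd : FiniteDimensional K F := hfd
  let σ : X → (F →ₐ[K] Ω) := fun x => { e x with commutes' := fun k => he x k }
  have hσ : Function.Injective σ := by
    intro x y hxy
    apply hinj
    ext f
    exact congrArg (fun φ : F →ₐ[K] Ω => φ f) hxy
  exact S24_norm_eq_prod_of_injective σ hσ hcard m

end abs

/-! ### the norm along `α` -/

section alpha

variable (M q : ℕ) [NeZero M] [NeZero q] (hq : q.Prime) (hqM : ¬ q ∣ M)

/-- the inclusion `F_{N₂} ⊂ ℚ̄((t))` as a ring map. -/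
def S36NR_coe2 : ↥(modularFunctionFieldBar (M * q * q)) →+* LaurentSeries (AlgebraicClosure ℚ) :=
  (modularFunctionFieldBar (M * q * q)).val.toRingHom

theorem S36NR_coe2_apply (f : ↥(modularFunctionFieldBar (M * q * q))) :
    S36NR_coe2 M q f = (f : LaurentSeries (AlgebraicClosure ℚ)) := rfl

/-- the coefficient of `t⁻¹` of `tw_ζ j` is `ζ⁻¹`. -/
theorem S36NR_tw_j_coeff (ζ : (AlgebraicClosure ℚ)ˣ) :
    (ES_tw ζ (jqModC (AlgebraicClosure ℚ))).coeff (-1 : ℤ) = ((ζ⁻¹ : (AlgebraicClosure ℚ)ˣ) :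
      AlgebraicClosure ℚ) := by
  rw [ES_tw_coeff, ModularCurve.coeff_jqModC_neg_one, mul_one, zpow_neg_one]

/-- the separating element `C = β t₀ = j(t^{q²})`. -/
def S36NR_C : ↥(modularFunctionFieldBar (M * q * q)) :=
  heckeBetaBar (AlgebraicClosure ℚ) (M * q) q (S36V_t0 M q hq hqM)

theorem S36NR_coe2_C_coeff :
    (S36NR_coe2 M q (S36NR_C M q hq hqM)).coeff (-1 : ℤ) = 0 := by
  rw [S36NR_coe2_apply, S36NR_C, coe_heckeBetaBar]
  exact S36V_qExpand_coeff_neg_one q hq _

theorem S36NR_iota_C_coeff (ζ : S36NR_Z q) :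
    (S36V_iota M q hq hqM ζ.1 ζ.2.1 ζ.2.2 (S36NR_C M q hq hqM)).coeff (-1 : ℤ)
      = ((ζ.1⁻¹ : (AlgebraicClosure ℚ)ˣ) : AlgebraicClosure ℚ) := by
  rw [S36NR_C, S36V_iota_beta, S36V_w_t0, S24_deg_jB_val, S36NR_tw_j_coeff]

/-- the `q` embeddings of `F_{N₂}` over `α F_{N₁}`: the inclusion and the middle embeddings. -/
def S36NR_embA (i : Option (S36NR_Z q)) :
    ↥(modularFunctionFieldBar (M * q * q)) →+* LaurentSeries (AlgebraicClosure ℚ) :=
  i.elim (S36NR_coe2 M q) (fun ζ => (S36V_iota M q hq hqM ζ.1 ζ.2.1 ζ.2.2 :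
    ↥(modularFunctionFieldBar (M * q * q)) →+* LaurentSeries (AlgebraicClosure ℚ)))

theorem S36NR_embA_none : S36NR_embA M q hq hqM none = S36NR_coe2 M q := rfl

theorem S36NR_embA_some (ζ : S36NR_Z q) (m : ↥(modularFunctionFieldBar (M * q * q))) :
    S36NR_embA M q hq hqM (some ζ) m = S36V_iota M q hq hqM ζ.1 ζ.2.1 ζ.2.2 m := rfl

theorem S36NR_embA_alpha_none (s : ↥(modularFunctionFieldBar (M * q))) :
    S36NR_embA M q hq hqM none
        (heckeAlphaBar (AlgebraicClosure ℚ) (M * q) q s) = S36V_coe1 M q s := by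
  rw [S36NR_embA_none, S36NR_coe2_apply, S36V_coe1_apply]
  exact coe_heckeAlphaBar (L := AlgebraicClosure ℚ) (M * q) q s

theorem S36NR_embA_alpha_some (ζ : S36NR_Z q) (s : ↥(modularFunctionFieldBar (M * q))) :
    S36NR_embA M q hq hqM (some ζ)
        (heckeAlphaBar (AlgebraicClosure ℚ) (M * q) q s) = S36V_coe1 M q s := by
  rw [S36NR_embA_some, S36V_coe1_apply]
  exact S36V_iota_alpha M q hq hqM ζ.1 ζ.2.1 ζ.2.2 s

theorem S36NR_embA_alpha (i : Option (S36NR_Z q)) (s : ↥(modularFunctionFieldBar (M * q))) :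
    S36NR_embA M q hq hqM i
        ((heckeAlphaBar (AlgebraicClosure ℚ) (M * q) q).toRingHom s) = S36V_coe1 M q s := by
  rw [AlgHom.toRingHom_eq_coe, RingHom.coe_coe]
  rcases i with _ | ζ
  · exact S36NR_embA_alpha_none M q hq hqM s
  · exact S36NR_embA_alpha_some M q hq hqM ζ s

theorem S36NR_embA_injective : Function.Injective (S36NR_embA M q hq hqM) := by
  intro i k hik
  have hval : (S36NR_embA M q hq hqM i (S36NR_C M q hq hqM)).coeff (-1 : ℤ)
      = (S36NR_embA M q hq hqM k (S36NR_C M q hq hqM)).coeff (-1 : ℤ) := by rw [hik]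
  rcases i with _ | ζ <;> rcases k with _ | ζ'
  · rfl
  · exfalso
    rw [S36NR_embA_none, S36NR_embA_some, S36NR_coe2_C_coeff, S36NR_iota_C_coeff] at hval
    exact (Units.ne_zero _) hval.symm
  · exfalso
    rw [S36NR_embA_none, S36NR_embA_some, S36NR_coe2_C_coeff, S36NR_iota_C_coeff] at hval
    exact (Units.ne_zero _) hval
  · rw [S36NR_embA_some, S36NR_embA_some, S36NR_iota_C_coeff, S36NR_iota_C_coeff] at hval
    congr 1
    apply Subtype.ext
    exact inv_injective (Units.ext hval)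

/-- **the norm along `α` as a product over the `q` cusps above `∞`**, index form. -/
theorem S36NR_alpha_opt (m : ↥(modularFunctionFieldBar (M * q * q))) :
    S36V_coe1 M q (S35B_NA (M * q) q m) = ∏ i, S36NR_embA M q hq hqM i m :=
  S36NR_norm_prod_abs (heckeAlphaBar (AlgebraicClosure ℚ) (M * q) q).toRingHom (S36V_coe1 M q)
    (S36NR_embA M q hq hqM) (S36NR_embA_alpha M q hq hqM) (S36NR_embA_injective M q hq hqM)
    (S36B_finiteDimensional_alpha hq (Dvd.intro_left M rfl))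
    ((S36B_finrank_alpha hq (Dvd.intro_left M rfl)).le.trans (S36NR_card_optZ q)) m

/-- **the norm along `α` as a product over the `q` cusps above `∞`**:
`N_α m = m · ∏_{ζ ≠ 1} ι_ζ m` in `ℚ̄((t))`. -/
theorem S36NR_alpha (m : ↥(modularFunctionFieldBar (M * q * q))) :
    ((S35B_NA (M * q) q m : ↥(modularFunctionFieldBar (M * q))) :
        LaurentSeries (AlgebraicClosure ℚ))
      = (m : LaurentSeries (AlgebraicClosure ℚ))
        * ∏ ζ : S36NR_Z q, S36V_iota M q hq hqM ζ.1 ζ.2.1 ζ.2.2 m := by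
  have key := S36NR_alpha_opt M q hq hqM m
  rw [Fintype.prod_option] at key
  exact key

end alpha

end Fermat.Agent.S36
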