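import Fermat.Agent.S36.NormRes

/-!
# TRACK 10 (S36), package NORMRES (helper4), part 2: trace along `α`, norm and trace along `β`,
the symmetry `w₂`

Notation of `S36/NormRes.lean`.  `Ψ = qExpand ℚ̄ q` (`t ↦ t^q`), `tw_ζ = ES_tw ζ` (`t ↦ ζ t`).

* `S36NR_trace_alpha` : `Tr_α m = m + ∑_{ζ ≠ 1} ι_ζ m`;
* `S36NR_beta`        : `Ψ (N_β m) = ∏_{ζ^q = 1} tw_ζ m`;
* `S36NR_trace_beta`  : `Ψ (Tr_β m) = ∑_{ζ^q = 1} tw_ζ m`;
* `S36NR_NB_eq`       : `N_β m = w_q (N_α (w₂ m))`,   `S36NR_NA_eq : N_α m = w_q (N_β (w₂ m))`;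
* `S36NR_iota_w2`     : `ι_ζ (w₂ m) = tw_ζ (ι_{ζ⁻¹} m)`.
-/

set_option autoImplicit false
set_option synthInstance.maxHeartbeats 400000
set_option maxHeartbeats 1000000
set_option linter.style.haveILetI false
set_option linter.unusedSectionVars false

open HahnSeries IntermediateField AlgebraicCurve ModularCurve

noncomputable section

namespace Fermat.Agent.S36

open Fermat.Agent.S18 Fermat.Agent.S24 Fermat.Agent.S34 Fermat.Agent.S35 Fermat.Agent.S37
open Fermat.Agent.GalRep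

/-! ### the abstract trace formula -/

section abs

variable {K F Ω : Type*} [Field K] [Field F] [Field Ω] [CharZero K]
  {X : Type*} [Fintype X]

/-- **trace = sum over a full family of embeddings**, in ring-hom form. -/
theorem S36NR_trace_sum_abs (a : K →+* F) (c : K →+* Ω) (e : X → (F →+* Ω))
    (he : ∀ x k, e x (a k) = c k) (hinj : Function.Injective e)
    (hfd : @FiniteDimensional K F _ _ (@Algebra.toModule _ _ _ _ a.toAlgebra))
    (hcard : @Module.finrank K F _ _ (@Algebra.toModule _ _ _ _ a.toAlgebra) ≤ Fintype.card X)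
    (m : F) :
    c (@Algebra.trace K F _ _ a.toAlgebra m) = ∑ x, e x m := by
  classical
  letI algF : Algebra K F := a.toAlgebra
  letI algM : Algebra K Ω := c.toAlgebra
  haveI fd : FiniteDimensional K F := hfd
  let σ : X → (F →ₐ[K] Ω) := fun x => { e x with commutes' := fun k => he x k }
  have hσ : Function.Injective σ := by
    intro x y hxy
    apply hinj
    ext f
    exact congrArg (fun φ : F →ₐ[K] Ω => φ f) hxy
  exact S24_trace_eq_sum_of_injective σ hσ hcard m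

end abs

section alpha

variable (M q : ℕ) [NeZero M] [NeZero q] (hq : q.Prime) (hqM : ¬ q ∣ M)

/-- the trace `F_{N₂} → F_{N₁}` along `α`. -/
def S36NR_TA (m : ↥(modularFunctionFieldBar (M * q * q))) : ↥(modularFunctionFieldBar (M * q)) :=
  @Algebra.trace ↥(modularFunctionFieldBar (M * q)) ↥(modularFunctionFieldBar (M * q * q)) _ _
    (heckeAlphaBar (AlgebraicClosure ℚ) (M * q) q).toRingHom.toAlgebra m

/-- the trace `F_{N₂} → F_{N₁}` along `β`. -/
def S36NR_TB (m : ↥(modularFunctionFieldBar (M * q * q))) : ↥(modularFunctionFieldBar (M * q)) :=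
  @Algebra.trace ↥(modularFunctionFieldBar (M * q)) ↥(modularFunctionFieldBar (M * q * q)) _ _
    (heckeBetaBar (AlgebraicClosure ℚ) (M * q) q).toRingHom.toAlgebra m

/-- **the trace along `α`**, index form. -/
theorem S36NR_trace_alpha_opt (m : ↥(modularFunctionFieldBar (M * q * q))) :
    S36V_coe1 M q (S36NR_TA M q m) = ∑ i, S36NR_embA M q hq hqM i m :=
  S36NR_trace_sum_abs (heckeAlphaBar (AlgebraicClosure ℚ) (M * q) q).toRingHom (S36V_coe1 M q)
    (S36NR_embA M q hq hqM) (S36NR_embA_alpha M q hq hqM) (S36NR_embA_injective M q hq hqM)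
    (S36B_finiteDimensional_alpha hq (Dvd.intro_left M rfl))
    ((S36B_finrank_alpha hq (Dvd.intro_left M rfl)).le.trans (S36NR_card_optZ q)) m

/-- **the trace along `α`**: `Tr_α m = m + ∑_{ζ ≠ 1} ι_ζ m` in `ℚ̄((t))`. -/
theorem S36NR_trace_alpha (m : ↥(modularFunctionFieldBar (M * q * q))) :
    ((S36NR_TA M q m : ↥(modularFunctionFieldBar (M * q))) : LaurentSeries (AlgebraicClosure ℚ))
      = (m : LaurentSeries (AlgebraicClosure ℚ))
        + ∑ ζ : S36NR_Z q, S36V_iota M q hq hqM ζ.1 ζ.2.1 ζ.2.2 m := by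
  have key := S36NR_trace_alpha_opt M q hq hqM m
  rw [Fintype.sum_option] at key
  exact key

end alpha

/-! ### the norm along `β` -/

section beta

variable (M q : ℕ) [NeZero M] [NeZero q] (hq : q.Prime) (hqM : ¬ q ∣ M)

/-- `Ψ ∘ coe₁ : F_{N₁} → ℚ̄((t))`, `f ↦ f(t^q)`. -/
def S36NR_psi1 : ↥(modularFunctionFieldBar (M * q)) →+* LaurentSeries (AlgebraicClosure ℚ) :=
  (qExpand (AlgebraicClosure ℚ) q).comp (S36V_coe1 M q)

theorem S36NR_psi1_apply (f : ↥(modularFunctionFieldBar (M * q))) :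
    S36NR_psi1 M q f = qExpand (AlgebraicClosure ℚ) q (f : LaurentSeries (AlgebraicClosure ℚ)) :=
  rfl

/-- the `q` embeddings of `F_{N₂}` over `β F_{N₁}`: the twists `m ↦ m(ζ t)`. -/
def S36NR_embB (ζ : S36NR_Y q) :
    ↥(modularFunctionFieldBar (M * q * q)) →+* LaurentSeries (AlgebraicClosure ℚ) :=
  (ES_tw ζ.1).comp (S36NR_coe2 M q)

theorem S36NR_embB_apply (ζ : S36NR_Y q) (m : ↥(modularFunctionFieldBar (M * q * q))) :
    S36NR_embB M q ζ m = ES_tw ζ.1 (m : LaurentSeries (AlgebraicClosure ℚ)) := rfl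

theorem S36NR_embB_beta' (ζ : S36NR_Y q) (s : ↥(modularFunctionFieldBar (M * q))) :
    S36NR_embB M q ζ (heckeBetaBar (AlgebraicClosure ℚ) (M * q) q s) = S36NR_psi1 M q s := by
  rw [S36NR_embB_apply, S36NR_psi1_apply, coe_heckeBetaBar, S36V_tw_qExpand q ζ.1 ζ.2]

theorem S36NR_embB_beta (ζ : S36NR_Y q) (s : ↥(modularFunctionFieldBar (M * q))) :
    S36NR_embB M q ζ ((heckeBetaBar (AlgebraicClosure ℚ) (M * q) q).toRingHom s)
      = S36NR_psi1 M q s := by
  rw [AlgHom.toRingHom_eq_coe, RingHom.coe_coe]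
  exact S36NR_embB_beta' M q ζ s

theorem S36NR_embB_j_coeff (ζ : S36NR_Y q) :
    (S36NR_embB M q ζ (jB (M * q * q))).coeff (-1 : ℤ)
      = ((ζ.1⁻¹ : (AlgebraicClosure ℚ)ˣ) : AlgebraicClosure ℚ) := by
  rw [S36NR_embB_apply, S24_deg_jB_val, S36NR_tw_j_coeff]

theorem S36NR_embB_injective : Function.Injective (S36NR_embB M q) := by
  intro ζ ζ' h
  have hval : (S36NR_embB M q ζ (jB (M * q * q))).coeff (-1 : ℤ)
      = (S36NR_embB M q ζ' (jB (M * q * q))).coeff (-1 : ℤ) := by rw [h]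
  rw [S36NR_embB_j_coeff, S36NR_embB_j_coeff] at hval
  apply Subtype.ext
  exact inv_injective (Units.ext hval)

include hq in
theorem S36NR_finrank_beta_le :
    @Module.finrank ↥(modularFunctionFieldBar (M * q)) ↥(modularFunctionFieldBar (M * q * q)) _ _
        ((heckeBetaBar (AlgebraicClosure ℚ) (M * q) q).toRingHom.toAlgebra.toModule)
      ≤ Fintype.card (S36NR_Y q) := by
  rw [GRHF_finrank_beta (M * q) q hq, if_pos (Dvd.intro_left M rfl), S36NR_card_Y]

include hq in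
/-- **the norm along `β`**: `(N_β m)(t^q) = ∏_{ζ^q = 1} m(ζ t)` in `ℚ̄((t))`. -/
theorem S36NR_beta (m : ↥(modularFunctionFieldBar (M * q * q))) :
    qExpand (AlgebraicClosure ℚ) q
        ((S35B_NB (M * q) q m : ↥(modularFunctionFieldBar (M * q))) :
          LaurentSeries (AlgebraicClosure ℚ))
      = ∏ ζ : S36NR_Y q, ES_tw ζ.1 (m : LaurentSeries (AlgebraicClosure ℚ)) :=
  S36NR_norm_prod_abs (heckeBetaBar (AlgebraicClosure ℚ) (M * q) q).toRingHom (S36NR_psi1 M q)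
    (S36NR_embB M q) (S36NR_embB_beta M q) (S36NR_embB_injective M q)
    (GRHK_finiteDimensional hq) (S36NR_finrank_beta_le M q hq) m

include hq in
/-- **the trace along `β`**: `(Tr_β m)(t^q) = ∑_{ζ^q = 1} m(ζ t)` in `ℚ̄((t))`. -/
theorem S36NR_trace_beta (m : ↥(modularFunctionFieldBar (M * q * q))) :
    qExpand (AlgebraicClosure ℚ) q
        ((S36NR_TB M q m : ↥(modularFunctionFieldBar (M * q))) :
          LaurentSeries (AlgebraicClosure ℚ))
      = ∑ ζ : S36NR_Y q, ES_tw ζ.1 (m : LaurentSeries (AlgebraicClosure ℚ)) :=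
  S36NR_trace_sum_abs (heckeBetaBar (AlgebraicClosure ℚ) (M * q) q).toRingHom (S36NR_psi1 M q)
    (S36NR_embB M q) (S36NR_embB_beta M q) (S36NR_embB_injective M q)
    (GRHK_finiteDimensional hq) (S36NR_finrank_beta_le M q hq) m

end beta

/-! ### the symmetry `w₂` -/

section sym

variable (M q : ℕ) [NeZero M] [NeZero q] (hq : q.Prime) (hqM : ¬ q ∣ M)

theorem S36NR_wq_symm (f : ↥(modularFunctionFieldBar (M * q))) :
    (S34DF_wq M q hq hqM).symm f = S34DF_wq M q hq hqM f := by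
  rw [AlgEquiv.symm_apply_eq, S34DF_wq_wq]

/-- **`N_β m = w_q (N_α (w₂ m))`**. -/
theorem S36NR_NB_eq (m : ↥(modularFunctionFieldBar (M * q * q))) :
    S35B_NB (M * q) q m
      = S34DF_wq M q hq hqM (S35B_NA (M * q) q (S36V_w2 M q hq hqM m)) := by
  have h := @Algebra.norm_eq_of_equiv_equiv ↥(modularFunctionFieldBar (M * q))
    ↥(modularFunctionFieldBar (M * q * q)) ↥(modularFunctionFieldBar (M * q))
    ↥(modularFunctionFieldBar (M * q * q)) _ _ _ _
    (heckeBetaBar (AlgebraicClosure ℚ) (M * q) q).toRingHom.toAlgebra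
    (heckeAlphaBar (AlgebraicClosure ℚ) (M * q) q).toRingHom.toAlgebra
    ((S34DF_wq M q hq hqM).toRingEquiv) ((S36V_w2 M q hq hqM).toRingEquiv)
    (RingHom.ext fun a => (S36V_w2_beta M q hq hqM a).symm) m
  have h2 : S35B_NB (M * q) q m
      = (S34DF_wq M q hq hqM).symm (S35B_NA (M * q) q (S36V_w2 M q hq hqM m)) := h
  rw [h2, S36NR_wq_symm]

/-- **`N_α m = w_q (N_β (w₂ m))`**. -/
theorem S36NR_NA_eq (m : ↥(modularFunctionFieldBar (M * q * q))) :
    S35B_NA (M * q) q m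
      = S34DF_wq M q hq hqM (S35B_NB (M * q) q (S36V_w2 M q hq hqM m)) := by
  rw [S36NR_NB_eq M q hq hqM, S36V_w2_w2, S34DF_wq_wq]

/-- `tw_ζ ∘ tw_{ζ⁻¹} = id`. -/
theorem S36NR_tw_inv (ζ : (AlgebraicClosure ℚ)ˣ) (f : LaurentSeries (AlgebraicClosure ℚ)) :
    ES_tw ζ (ES_tw ζ⁻¹ f) = f := by
  ext n
  rw [ES_tw_coeff, ES_tw_coeff, ← mul_assoc, ← Units.val_mul, inv_zpow, mul_inv_cancel,
    Units.val_one, one_mul]

variable (ζ : (AlgebraicClosure ℚ)ˣ) (hζ : ζ ^ q = 1) (hζ1 : ζ ≠ 1)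

/-- **`ι_ζ ∘ w₂ = tw_ζ ∘ ι_{ζ⁻¹}`**. -/
theorem S36NR_iota_w2 (m : ↥(modularFunctionFieldBar (M * q * q))) :
    S36V_iota M q hq hqM ζ hζ hζ1 (S36V_w2 M q hq hqM m)
      = ES_tw ζ (S36V_iota M q hq hqM ζ⁻¹ (by rw [inv_pow, hζ, inv_one])
          (fun h => hζ1 (inv_eq_one.mp h)) m) := by
  have hζ' : ζ⁻¹ ^ q = 1 := by rw [inv_pow, hζ, inv_one]
  have hζ1' : ζ⁻¹ ≠ 1 := fun h => hζ1 (inv_eq_one.mp h)
  have key := S36V_glue_unique M q hq
    (((S36V_iota M q hq hqM ζ hζ hζ1 : ↥(modularFunctionFieldBar (M * q * q)) →+*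
        LaurentSeries (AlgebraicClosure ℚ))).comp
      ((S36V_w2 M q hq hqM).toRingEquiv : ↥(modularFunctionFieldBar (M * q * q)) →+*
        ↥(modularFunctionFieldBar (M * q * q))))
    ((ES_tw ζ).comp (S36V_iota M q hq hqM ζ⁻¹ hζ' hζ1' :
      ↥(modularFunctionFieldBar (M * q * q)) →+* LaurentSeries (AlgebraicClosure ℚ)))
    (fun s => by
      show S36V_iota M q hq hqM ζ hζ hζ1 (S36V_w2 M q hq hqM
          (heckeAlphaBar (AlgebraicClosure ℚ) (M * q) q s))
        = ES_tw ζ (S36V_iota M q hq hqM ζ⁻¹ hζ' hζ1'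
          (heckeAlphaBar (AlgebraicClosure ℚ) (M * q) q s))
      rw [S36V_w2_alpha, S36V_iota_beta, S34DF_wq_wq, S36V_iota_alpha])
    (fun t => by
      show S36V_iota M q hq hqM ζ hζ hζ1 (S36V_w2 M q hq hqM
          (heckeBetaBar (AlgebraicClosure ℚ) (M * q) q t))
        = ES_tw ζ (S36V_iota M q hq hqM ζ⁻¹ hζ' hζ1'
          (heckeBetaBar (AlgebraicClosure ℚ) (M * q) q t))
      rw [S36V_w2_beta, S36V_iota_alpha, S36V_iota_beta, S36NR_tw_inv])
  exact congrArg (fun φ : ↥(modularFunctionFieldBar (M * q * q)) →+*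
    LaurentSeries (AlgebraicClosure ℚ) => φ m) key

end sym

end Fermat.Agent.S36
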