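import Fermat.Agent.S36.NormRes4

/-!
# TRACK 10 (S36), package NORMRES (helper4), part 6: the valuation table

Notation of `S36/NormRes4.lean`.  `S36NR_U A (em X) f` : `f` is a unit of the Gauss ring `X`
(junk-tolerant: `0` qualifies).  Constants `c : ℚ̄` are written for `algebraMap ℚ̄ F c`.

## The table (leading constants)
* `S36NR_tab_NA_F` : `m = c₀·(FF-unit)`, `m = π^b·(FV_ζ-unit)` for all `ζ`, `π ≠ 0` an `FF`-unit
    with `π^(q-1) = e·(FV_ζ-unit)` for all `ζ`  ⟹  `N_α m = c₀ e^b · (F-unit)`;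
* `S36NR_tab_NA_V` : `m = c₂·(VV-unit)` ⟹ `N_α m = c₂^q · (V-unit)`;
* `S36NR_tab_NB_F` : `m = c₀·(FF-unit)` ⟹ `N_β m = c₀^q · (F-unit)`;
* `S36NR_tab_NB_V` : `m = c₂·(VV-unit)`, `m = π^b·(FV_ζ-unit)`, `π ≠ 0` a `VV`-unit with
    `π^(q-1) = e·(FV_ζ-unit)`  ⟹  `N_β m = c₂ e^b · (V-unit)`.
  With `c₀ = q^a`, `c₂ = q^c`, `e = q` this is the table
  `v_F N_α = v_FF + v_FV`, `v_V N_α = q v_VV`, `v_F N_β = q v_FF`, `v_V N_β = v_FV + v_VV`
  (`v_FV` normalised by `v_FV(π) = 1`, `v_FV(q) = q - 1`).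

## Units to units
* `S36NR_NA_U_F`, `S36NR_NA_U_V`, `S36NR_NB_U_F`, `S36NR_NB_U_V`.
-/

set_option autoImplicit false
set_option synthInstance.maxHeartbeats 400000
set_option maxHeartbeats 1000000
set_option linter.style.haveILetI false
set_option linter.unusedSectionVars false

open HahnSeries IntermediateField AlgebraicCurve ModularCurve

noncomputable section

namespace Fermat.Agent.S36

open Fermat.Agent.S18 Fermat.Agent.S24 Fermat.Agent.S34 Fermat.Agent.S35 Fermat.Agent.S37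
  Fermat.Agent.GalRep Fermat.Agent.Lib

/-! ### the abstract computation -/

/-- the table computation in a field with a multiplicative "unit" predicate. -/
theorem S36NR_tab_abs {K : Type*} [Field K] (U : K → Prop)
    (hmul : ∀ x y, U x → U y → U (x * y)) (hinv : ∀ x, U x → U x⁻¹)
    (hzpow : ∀ x, U x → ∀ k : ℤ, U (x ^ k)) (hpow : ∀ x, U x → ∀ k : ℕ, U (x ^ k))
    (x Q P p E C₀ : K) (b : ℤ) (n : ℕ) (hP : P ≠ 0) (hp : p ≠ 0)
    (h1 : U (x * C₀⁻¹)) (h2 : U (Q * P ^ (-b))) (h3 : U (P ^ n * (E ^ n)⁻¹)) (h4 : U p)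
    (hroot : U ((p * P * E⁻¹) ^ n) → U (p * P * E⁻¹)) :
    U (x * Q * (C₀ * E ^ b)⁻¹) := by
  have e1 : (p * P * E⁻¹) ^ n = p ^ n * (P ^ n * (E ^ n)⁻¹) := by
    rw [mul_pow, mul_pow, inv_pow, mul_assoc]
  have h5 : U (p * P * E⁻¹) := by
    apply hroot
    rw [e1]
    exact hmul _ _ (hpow p h4 n) h3
  have h6 : U (P * E⁻¹) := by
    have : P * E⁻¹ = p⁻¹ * (p * P * E⁻¹) := by
      rw [mul_assoc, ← mul_assoc p⁻¹, inv_mul_cancel₀ hp, one_mul]
    rw [this]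
    exact hmul _ _ (hinv _ h4) h5
  have hPb : P ^ b ≠ 0 := zpow_ne_zero b hP
  have e2 : x * Q * (C₀ * E ^ b)⁻¹ = (x * C₀⁻¹) * (Q * P ^ (-b)) * (P * E⁻¹) ^ b := by
    rw [mul_zpow, inv_zpow, zpow_neg, mul_inv]
    have : (P ^ b)⁻¹ * P ^ b = 1 := inv_mul_cancel₀ hPb
    calc x * Q * (C₀⁻¹ * (E ^ b)⁻¹)
        = x * C₀⁻¹ * Q * ((P ^ b)⁻¹ * P ^ b) * (E ^ b)⁻¹ := by rw [this]; ring
      _ = x * C₀⁻¹ * (Q * (P ^ b)⁻¹) * (P ^ b * (E ^ b)⁻¹) := by ring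
  rw [e2]
  exact hmul _ _ (hmul _ _ h1 h2) (hzpow _ h6 b)

local notation "ℚbar" => AlgebraicClosure ℚ

variable (M q : ℕ) [NeZero M] [NeZero q] (hq : q.Prime) (hqM : ¬ q ∣ M)
  (A : ValuationSubring ℚbar) (hA : A.LiesOverPrime q)

/-! ### units along the five embeddings, series form -/

theorem S36NR_U_F_iff {f : ↥(modularFunctionFieldBar (M * q))} :
    S36NR_U A (S36V_emF M q) f ↔ S36NR_Us A (f : LaurentSeries ℚbar) :=
  S36NR_U_iff A (S36V_emF M q)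

theorem S36NR_U_FF_iff {m : ↥(modularFunctionFieldBar (M * q * q))} :
    S36NR_U A (S36V_emFF M q) m ↔ S36NR_Us A (m : LaurentSeries ℚbar) :=
  S36NR_U_iff A (S36V_emFF M q)

theorem S36NR_U_FV_iff (ζ : ℚbarˣ) (hζ : ζ ^ q = 1) (hζ1 : ζ ≠ 1)
    {m : ↥(modularFunctionFieldBar (M * q * q))} :
    S36NR_U A (S36V_emFV M q hq hqM ζ hζ hζ1) m ↔
      S36NR_Us A (S36V_iota M q hq hqM ζ hζ hζ1 m) :=
  S36NR_U_iff A (S36V_emFV M q hq hqM ζ hζ hζ1)

theorem S36NR_U_V_iff {f : ↥(modularFunctionFieldBar (M * q))} :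
    S36NR_U A (S36V_emV M q hq hqM) f ↔ S36NR_U A (S36V_emF M q) (S34DF_wq M q hq hqM f) := by
  constructor
  · rintro ⟨h1, h2⟩
    refine ⟨(S36NR_mem_V_iff M q hq hqM A).1 h1, ?_⟩
    rw [← map_inv₀]
    exact (S36NR_mem_V_iff M q hq hqM A).1 h2
  · rintro ⟨h1, h2⟩
    refine ⟨(S36NR_mem_V_iff M q hq hqM A).2 h1, ?_⟩
    rw [← map_inv₀] at h2
    exact (S36NR_mem_V_iff M q hq hqM A).2 h2

theorem S36NR_U_VV_iff {m : ↥(modularFunctionFieldBar (M * q * q))} :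
    S36NR_U A (S36V_emVV M q hq hqM) m ↔
      S36NR_U A (S36V_emFF M q) (S36V_w2 M q hq hqM m) := by
  constructor
  · rintro ⟨h1, h2⟩
    refine ⟨(S36NR_mem_VV_iff M q hq hqM A).1 h1, ?_⟩
    rw [← map_inv₀]
    exact (S36NR_mem_VV_iff M q hq hqM A).1 h2
  · rintro ⟨h1, h2⟩
    refine ⟨(S36NR_mem_VV_iff M q hq hqM A).2 h1, ?_⟩
    rw [← map_inv₀] at h2
    exact (S36NR_mem_VV_iff M q hq hqM A).2 h2

/-- `w₂` maps `FV_{ζ⁻¹}`-units to `FV_ζ`-units. -/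
theorem S36NR_U_FV_w2 (ζ : S36NR_Z q) {m : ↥(modularFunctionFieldBar (M * q * q))}
    (h : S36NR_U A (S36V_emFV M q hq hqM (S36NR_Zinv q ζ).1 (S36NR_Zinv q ζ).2.1
      (S36NR_Zinv q ζ).2.2) m) :
    S36NR_U A (S36V_emFV M q hq hqM ζ.1 ζ.2.1 ζ.2.2) (S36V_w2 M q hq hqM m) := by
  refine ⟨S36NR_w2_mem_FV M q hq hqM A ζ.1 ζ.2.1 ζ.2.2 h.1, ?_⟩
  rw [← map_inv₀]
  exact S36NR_w2_mem_FV M q hq hqM A ζ.1 ζ.2.1 ζ.2.2 h.2

/-- twists by `q`-th roots of unity preserve units. -/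
theorem S36NR_zeta_tw_Us (ζ : ℚbarˣ) (hζ : ζ ^ q = 1) {x : LaurentSeries ℚbar}
    (hx : S36NR_Us A x) : S36NR_Us A (ES_tw ζ x) := by
  refine ⟨S36NR_zeta_tw_mem q A ζ hζ hx.1, ?_⟩
  rw [← map_inv₀]
  exact S36NR_zeta_tw_mem q A ζ hζ hx.2

/-! ### constants through the embeddings -/

theorem S36NR_coe1_const (c : ℚbar) :
    ((algebraMap ℚbar ↥(modularFunctionFieldBar (M * q)) c : ↥(modularFunctionFieldBar (M * q))) :
      LaurentSeries ℚbar) = algebraMap ℚbar (LaurentSeries ℚbar) c := rfl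

theorem S36NR_coe2_const (c : ℚbar) :
    ((algebraMap ℚbar ↥(modularFunctionFieldBar (M * q * q)) c :
      ↥(modularFunctionFieldBar (M * q * q))) : LaurentSeries ℚbar) =
      algebraMap ℚbar (LaurentSeries ℚbar) c := rfl

theorem S36NR_iota_const (ζ : ℚbarˣ) (hζ : ζ ^ q = 1) (hζ1 : ζ ≠ 1) (c : ℚbar) :
    S36V_iota M q hq hqM ζ hζ hζ1 (algebraMap ℚbar ↥(modularFunctionFieldBar (M * q * q)) c) =
      algebraMap ℚbar (LaurentSeries ℚbar) c :=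
  AlgHom.commutes _ c

theorem S36NR_tw_const (ζ : ℚbarˣ) (c : ℚbar) :
    ES_tw ζ (algebraMap ℚbar (LaurentSeries ℚbar) c) = algebraMap ℚbar (LaurentSeries ℚbar) c := by
  rw [LaurentSeries.algebraMap_apply]
  exact ES_tw_C ζ c

theorem S36NR_psi_const (c : ℚbar) :
    qExpand ℚbar q (algebraMap ℚbar (LaurentSeries ℚbar) c) =
      algebraMap ℚbar (LaurentSeries ℚbar) c := by
  rw [LaurentSeries.algebraMap_apply]
  exact ES_qExpand_C q c

/-! ### the table at `F` -/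

include hq hA in
/-- **TABLE, `N_β` at `F`**: `m = c₀·(FF-unit) ⟹ N_β m = c₀^q·(F-unit)`. -/
theorem S36NR_tab_NB_F (m : ↥(modularFunctionFieldBar (M * q * q))) (c₀ : ℚbar)
    (hFF : S36NR_U A (S36V_emFF M q)
      (m * (algebraMap ℚbar ↥(modularFunctionFieldBar (M * q * q)) c₀)⁻¹)) :
    S36NR_U A (S36V_emF M q)
      (S35B_NB (M * q) q m * (algebraMap ℚbar ↥(modularFunctionFieldBar (M * q)) (c₀ ^ q))⁻¹) := by
  have hι : ∀ s, S18_ι A (qExpand A q s) = qExpand ℚbar q (S18_ι A s) :=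
    fun s => ModularCurve.coeffMap_qExpand A.subtype q s
  have hρ : ∀ s, S18_ρ A (qExpand A q s) = qExpand _ q (S18_ρ A s) :=
    fun s => ModularCurve.coeffMap_qExpand (IsLocalRing.residue A) q s
  refine S36NR_U_reflect (qExpand ℚbar q) (qExpand A q) (qExpand _ q) hι hρ
    (fun c => ES_qExpand_C q c) (S36V_rep_emF M q hq A hA) ?_
  have hx : S36NR_Us A ((m : LaurentSeries ℚbar) *
      (algebraMap ℚbar (LaurentSeries ℚbar) c₀)⁻¹) := by
    have := (S36NR_U_iff A (S36V_emFF M q)).1 hFF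
    rw [map_mul, map_inv₀, S36V_emFF_const, S36V_emFF_apply] at this
    exact this
  have e1 : qExpand ℚbar q (S36V_emF M q (S35B_NB (M * q) q m *
      (algebraMap ℚbar ↥(modularFunctionFieldBar (M * q)) (c₀ ^ q))⁻¹)) =
      ∏ ζ : S36NR_Y q, ES_tw ζ.1 ((m : LaurentSeries ℚbar) *
        (algebraMap ℚbar (LaurentSeries ℚbar) c₀)⁻¹) := by
    rw [map_mul, map_inv₀, S36V_emF_apply, S36V_emF_apply, S36NR_coe1_const, map_mul, map_inv₀,
      S36NR_psi_const, S36NR_beta M q hq m]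
    have : ∀ ζ : S36NR_Y q, ES_tw ζ.1 ((m : LaurentSeries ℚbar) *
        (algebraMap ℚbar (LaurentSeries ℚbar) c₀)⁻¹) =
        ES_tw ζ.1 (m : LaurentSeries ℚbar) * (algebraMap ℚbar (LaurentSeries ℚbar) c₀)⁻¹ := by
      intro ζ
      rw [map_mul, map_inv₀, S36NR_tw_const]
    rw [Finset.prod_congr rfl fun ζ _ => this ζ, Finset.prod_mul_distrib, Finset.prod_const,
      Finset.card_univ, S36NR_card_Y, map_pow, inv_pow]
  rw [e1]
  exact S36NR_Us_prod _ _ fun ζ _ => S36NR_zeta_tw_Us q A ζ.1 ζ.2 hx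

include hA in
/-- **TABLE, `N_α` at `F`**: `m = c₀·(FF-unit)`, `m = π^b·(FV_ζ-unit)` for all `ζ`, where `π ≠ 0`
is an `FF`-unit with `π^(q-1) = e·(FV_ζ-unit)` for all `ζ`  ⟹  `N_α m = c₀ e^b·(F-unit)`. -/
theorem S36NR_tab_NA_F (m π : ↥(modularFunctionFieldBar (M * q * q))) (hπ : π ≠ 0)
    (c₀ e : ℚbar) (b : ℤ)
    (hFF : S36NR_U A (S36V_emFF M q)
      (m * (algebraMap ℚbar ↥(modularFunctionFieldBar (M * q * q)) c₀)⁻¹))
    (hFV : ∀ ζ : S36NR_Z q, S36NR_U A (S36V_emFV M q hq hqM ζ.1 ζ.2.1 ζ.2.2) (m * π ^ (-b)))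
    (hπFF : S36NR_U A (S36V_emFF M q) π)
    (hπFV : ∀ ζ : S36NR_Z q, S36NR_U A (S36V_emFV M q hq hqM ζ.1 ζ.2.1 ζ.2.2)
      (π ^ (q - 1) * (algebraMap ℚbar ↥(modularFunctionFieldBar (M * q * q)) e)⁻¹)) :
    S36NR_U A (S36V_emF M q)
      (S35B_NA (M * q) q m *
        (algebraMap ℚbar ↥(modularFunctionFieldBar (M * q)) (c₀ * e ^ b))⁻¹) := by
  rw [S36NR_U_iff]
  -- the series
  set x : LaurentSeries ℚbar := (m : LaurentSeries ℚbar) with hx
  set Q : LaurentSeries ℚbar := ∏ ζ : S36NR_Z q, S36V_iota M q hq hqM ζ.1 ζ.2.1 ζ.2.2 m with hQ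
  set P : LaurentSeries ℚbar := ∏ ζ : S36NR_Z q, S36V_iota M q hq hqM ζ.1 ζ.2.1 ζ.2.2 π with hP
  set p : LaurentSeries ℚbar := (π : LaurentSeries ℚbar) with hp
  set E : LaurentSeries ℚbar := algebraMap ℚbar (LaurentSeries ℚbar) e with hE
  set C₀ : LaurentSeries ℚbar := algebraMap ℚbar (LaurentSeries ℚbar) c₀ with hC₀
  have e0 : S36V_emF M q (S35B_NA (M * q) q m *
      (algebraMap ℚbar ↥(modularFunctionFieldBar (M * q)) (c₀ * e ^ b))⁻¹) =
      x * Q * (C₀ * E ^ b)⁻¹ := by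
    rw [map_mul, map_inv₀, S36V_emF_apply, S36V_emF_apply, S36NR_coe1_const, map_mul, map_zpow₀,
      S36NR_alpha M q hq hqM m]
  have eπ : S36V_emF M q (S35B_NA (M * q) q π *
      (algebraMap ℚbar ↥(modularFunctionFieldBar (M * q)) e)⁻¹) = p * P * E⁻¹ := by
    rw [map_mul, map_inv₀, S36V_emF_apply, S36V_emF_apply, S36NR_coe1_const,
      S36NR_alpha M q hq hqM π]
  have hp0 : p ≠ 0 := by
    intro h0
    apply hπ
    exact Subtype.ext h0
  have hP0 : P ≠ 0 := by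
    rw [hP, Finset.prod_ne_zero_iff]
    intro ζ _
    exact (map_ne_zero _).2 hπ
  have h1 : S36NR_Us A (x * C₀⁻¹) := by
    have := (S36NR_U_iff A (S36V_emFF M q)).1 hFF
    rw [map_mul, map_inv₀, S36V_emFF_const, S36V_emFF_apply] at this
    exact this
  have h2 : S36NR_Us A (Q * P ^ (-b)) := by
    have e : Q * P ^ (-b) = ∏ ζ : S36NR_Z q,
        S36V_iota M q hq hqM ζ.1 ζ.2.1 ζ.2.2 (m * π ^ (-b)) := by
      rw [hQ, hP, ← Finset.prod_zpow, ← Finset.prod_mul_distrib]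
      refine Finset.prod_congr rfl fun ζ _ => ?_
      rw [map_mul, map_zpow₀]
    rw [e]
    exact S36NR_Us_prod _ _ fun ζ _ =>
      (S36NR_U_FV_iff M q hq hqM A ζ.1 ζ.2.1 ζ.2.2).1 (hFV ζ)
  have h3 : S36NR_Us A (P ^ (q - 1) * (E ^ (q - 1))⁻¹) := by
    have e : P ^ (q - 1) * (E ^ (q - 1))⁻¹ = ∏ ζ : S36NR_Z q,
        S36V_iota M q hq hqM ζ.1 ζ.2.1 ζ.2.2
          (π ^ (q - 1) * (algebraMap ℚbar ↥(modularFunctionFieldBar (M * q * q)) e)⁻¹) := by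
      have : ∀ ζ : S36NR_Z q, S36V_iota M q hq hqM ζ.1 ζ.2.1 ζ.2.2
          (π ^ (q - 1) * (algebraMap ℚbar ↥(modularFunctionFieldBar (M * q * q)) e)⁻¹) =
          S36V_iota M q hq hqM ζ.1 ζ.2.1 ζ.2.2 π ^ (q - 1) * E⁻¹ := by
        intro ζ
        rw [map_mul, map_inv₀, map_pow, S36NR_iota_const]
      rw [Finset.prod_congr rfl fun ζ _ => this ζ, Finset.prod_mul_distrib, Finset.prod_pow,
        Finset.prod_const, Finset.card_univ, S36NR_card_Z, inv_pow]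
    rw [e]
    exact S36NR_Us_prod _ _ fun ζ _ =>
      (S36NR_U_FV_iff M q hq hqM A ζ.1 ζ.2.1 ζ.2.2).1 (hπFV ζ)
  have h4 : S36NR_Us A p := (S36NR_U_FF_iff M q A).1 hπFF
  have hq1 : q - 1 ≠ 0 := by
    have := hq.two_le
    omega
  have hroot : S36NR_Us A ((p * P * E⁻¹) ^ (q - 1)) → S36NR_Us A (p * P * E⁻¹) := by
    intro h
    rw [← eπ, ← map_pow] at h
    rw [← eπ]
    exact (S36NR_U_iff A (S36V_emF M q)).1
      (S36NR_U_of_pow (S36V_rep_emF M q hq A hA) (q - 1) hq1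
        ((S36NR_U_iff A (S36V_emF M q)).2 h))
  rw [e0]
  exact S36NR_tab_abs (S36NR_Us A) (fun _ _ => S36NR_Us_mul) (fun _ => S36NR_Us_inv)
    (fun _ => S36NR_Us_zpow) (fun _ => S36NR_Us_pow) x Q P p E C₀ b (q - 1) hP0 hp0 h1 h2 h3 h4
    hroot

/-! ### the table at `V` -/

include hA in
/-- **TABLE, `N_α` at `V`**: `m = c₂·(VV-unit) ⟹ N_α m = c₂^q·(V-unit)`. -/
theorem S36NR_tab_NA_V (m : ↥(modularFunctionFieldBar (M * q * q))) (c₂ : ℚbar)
    (hVV : S36NR_U A (S36V_emVV M q hq hqM)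
      (m * (algebraMap ℚbar ↥(modularFunctionFieldBar (M * q * q)) c₂)⁻¹)) :
    S36NR_U A (S36V_emV M q hq hqM)
      (S35B_NA (M * q) q m * (algebraMap ℚbar ↥(modularFunctionFieldBar (M * q)) (c₂ ^ q))⁻¹) := by
  rw [S36NR_U_V_iff, map_mul, map_inv₀, AlgEquiv.commutes, S36NR_NA_eq M q hq hqM m, S34DF_wq_wq]
  apply S36NR_tab_NB_F M q hq A hA
  have := (S36NR_U_VV_iff M q hq hqM A).1 hVV
  rw [map_mul, map_inv₀, AlgEquiv.commutes] at this
  exact this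

include hA in
/-- **TABLE, `N_β` at `V`**: `m = c₂·(VV-unit)`, `m = π^b·(FV_ζ-unit)` for all `ζ`, where `π ≠ 0`
is a `VV`-unit with `π^(q-1) = e·(FV_ζ-unit)` for all `ζ`  ⟹  `N_β m = c₂ e^b·(V-unit)`. -/
theorem S36NR_tab_NB_V (m π : ↥(modularFunctionFieldBar (M * q * q))) (hπ : π ≠ 0)
    (c₂ e : ℚbar) (b : ℤ)
    (hVV : S36NR_U A (S36V_emVV M q hq hqM)
      (m * (algebraMap ℚbar ↥(modularFunctionFieldBar (M * q * q)) c₂)⁻¹))
    (hFV : ∀ ζ : S36NR_Z q, S36NR_U A (S36V_emFV M q hq hqM ζ.1 ζ.2.1 ζ.2.2) (m * π ^ (-b)))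
    (hπVV : S36NR_U A (S36V_emVV M q hq hqM) π)
    (hπFV : ∀ ζ : S36NR_Z q, S36NR_U A (S36V_emFV M q hq hqM ζ.1 ζ.2.1 ζ.2.2)
      (π ^ (q - 1) * (algebraMap ℚbar ↥(modularFunctionFieldBar (M * q * q)) e)⁻¹)) :
    S36NR_U A (S36V_emV M q hq hqM)
      (S35B_NB (M * q) q m *
        (algebraMap ℚbar ↥(modularFunctionFieldBar (M * q)) (c₂ * e ^ b))⁻¹) := by
  rw [S36NR_U_V_iff, map_mul, map_inv₀, AlgEquiv.commutes, S36NR_NB_eq M q hq hqM m, S34DF_wq_wq]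
  refine S36NR_tab_NA_F M q hq hqM A hA (S36V_w2 M q hq hqM m) (S36V_w2 M q hq hqM π)
    ((map_ne_zero _).2 hπ) c₂ e b ?_ ?_ ((S36NR_U_VV_iff M q hq hqM A).1 hπVV) ?_
  · have := (S36NR_U_VV_iff M q hq hqM A).1 hVV
    rw [map_mul, map_inv₀, AlgEquiv.commutes] at this
    exact this
  · intro ζ
    have := S36NR_U_FV_w2 M q hq hqM A ζ (hFV (S36NR_Zinv q ζ))
    rw [map_mul, map_zpow₀] at this
    exact this
  · intro ζ
    have := S36NR_U_FV_w2 M q hq hqM A ζ (hπFV (S36NR_Zinv q ζ))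
    rw [map_mul, map_inv₀, map_pow, AlgEquiv.commutes] at this
    exact this

/-! ### units to units -/

/-- `N_α` maps `FF ∩ ⋂ FV_ζ`-units to `F`-units. -/
theorem S36NR_NA_U_F {m : ↥(modularFunctionFieldBar (M * q * q))}
    (h0 : S36NR_U A (S36V_emFF M q) m)
    (hζ : ∀ ζ : S36NR_Z q, S36NR_U A (S36V_emFV M q hq hqM ζ.1 ζ.2.1 ζ.2.2) m) :
    S36NR_U A (S36V_emF M q) (S35B_NA (M * q) q m) := by
  rw [S36NR_U_F_iff, S36NR_alpha M q hq hqM m]
  exact S36NR_Us_mul ((S36NR_U_FF_iff M q A).1 h0)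
    (S36NR_Us_prod _ _ fun ζ _ => (S36NR_U_FV_iff M q hq hqM A ζ.1 ζ.2.1 ζ.2.2).1 (hζ ζ))

include hq hA in
/-- `N_β` maps `FF`-units to `F`-units. -/
theorem S36NR_NB_U_F {m : ↥(modularFunctionFieldBar (M * q * q))}
    (h0 : S36NR_U A (S36V_emFF M q) m) :
    S36NR_U A (S36V_emF M q) (S35B_NB (M * q) q m) := by
  have := S36NR_tab_NB_F M q hq A hA m 1 (by rw [map_one, inv_one, mul_one]; exact h0)
  rw [one_pow, map_one, inv_one, mul_one] at this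
  exact this

include hA in
/-- `N_α` maps `VV`-units to `V`-units. -/
theorem S36NR_NA_U_V {m : ↥(modularFunctionFieldBar (M * q * q))}
    (h2 : S36NR_U A (S36V_emVV M q hq hqM) m) :
    S36NR_U A (S36V_emV M q hq hqM) (S35B_NA (M * q) q m) := by
  have := S36NR_tab_NA_V M q hq hqM A hA m 1 (by rw [map_one, inv_one, mul_one]; exact h2)
  rw [one_pow, map_one, inv_one, mul_one] at this
  exact this

/-- `N_β` maps `VV ∩ ⋂ FV_ζ`-units to `V`-units. -/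
theorem S36NR_NB_U_V {m : ↥(modularFunctionFieldBar (M * q * q))}
    (h2 : S36NR_U A (S36V_emVV M q hq hqM) m)
    (hζ : ∀ ζ : S36NR_Z q, S36NR_U A (S36V_emFV M q hq hqM ζ.1 ζ.2.1 ζ.2.2) m) :
    S36NR_U A (S36V_emV M q hq hqM) (S35B_NB (M * q) q m) := by
  rw [S36NR_U_V_iff, S36NR_NB_eq M q hq hqM m, S34DF_wq_wq]
  exact S36NR_NA_U_F M q hq hqM A ((S36NR_U_VV_iff M q hq hqM A).1 h2)
    (fun ζ => S36NR_U_FV_w2 M q hq hqM A ζ (hζ (S36NR_Zinv q ζ)))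

/-! ### the norms as monoid homomorphisms, constants -/

/-- `N_α` as a monoid homomorphism. -/
def S36NR_NAhom : ↥(modularFunctionFieldBar (M * q * q)) →* ↥(modularFunctionFieldBar (M * q)) :=
  @Algebra.norm ↥(modularFunctionFieldBar (M * q)) ↥(modularFunctionFieldBar (M * q * q)) _ _
    (heckeAlphaBar (AlgebraicClosure ℚ) (M * q) q).toRingHom.toAlgebra

/-- `N_β` as a monoid homomorphism. -/
def S36NR_NBhom : ↥(modularFunctionFieldBar (M * q * q)) →* ↥(modularFunctionFieldBar (M * q)) :=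
  @Algebra.norm ↥(modularFunctionFieldBar (M * q)) ↥(modularFunctionFieldBar (M * q * q)) _ _
    (heckeBetaBar (AlgebraicClosure ℚ) (M * q) q).toRingHom.toAlgebra

theorem S36NR_NAhom_apply (m : ↥(modularFunctionFieldBar (M * q * q))) :
    S36NR_NAhom M q m = S35B_NA (M * q) q m := rfl

theorem S36NR_NBhom_apply (m : ↥(modularFunctionFieldBar (M * q * q))) :
    S36NR_NBhom M q m = S35B_NB (M * q) q m := rfl

theorem S36NR_NA_mul (m m' : ↥(modularFunctionFieldBar (M * q * q))) :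
    S35B_NA (M * q) q (m * m') = S35B_NA (M * q) q m * S35B_NA (M * q) q m' :=
  map_mul (S36NR_NAhom M q) m m'

theorem S36NR_NB_mul (m m' : ↥(modularFunctionFieldBar (M * q * q))) :
    S35B_NB (M * q) q (m * m') = S35B_NB (M * q) q m * S35B_NB (M * q) q m' :=
  map_mul (S36NR_NBhom M q) m m'

theorem S36NR_NA_one : S35B_NA (M * q) q 1 = 1 := map_one (S36NR_NAhom M q)

theorem S36NR_NB_one : S35B_NB (M * q) q 1 = 1 := map_one (S36NR_NBhom M q)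

/-- `N_α` on units. -/
def S36NR_NAu : (↥(modularFunctionFieldBar (M * q * q)))ˣ →* (↥(modularFunctionFieldBar (M * q)))ˣ :=
  Units.map (S36NR_NAhom M q)

/-- `N_β` on units. -/
def S36NR_NBu : (↥(modularFunctionFieldBar (M * q * q)))ˣ →* (↥(modularFunctionFieldBar (M * q)))ˣ :=
  Units.map (S36NR_NBhom M q)

theorem S36NR_NAu_val (u : (↥(modularFunctionFieldBar (M * q * q)))ˣ) :
    ((S36NR_NAu M q u : (↥(modularFunctionFieldBar (M * q)))ˣ) : ↥(modularFunctionFieldBar (M * q)))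
      = S35B_NA (M * q) q (u : ↥(modularFunctionFieldBar (M * q * q))) := rfl

theorem S36NR_NBu_val (u : (↥(modularFunctionFieldBar (M * q * q)))ˣ) :
    ((S36NR_NBu M q u : (↥(modularFunctionFieldBar (M * q)))ˣ) : ↥(modularFunctionFieldBar (M * q)))
      = S35B_NB (M * q) q (u : ↥(modularFunctionFieldBar (M * q * q))) := rfl

include hq hqM in
/-- **`N_α c = c^q`** on constants. -/
theorem S36NR_NA_const (c : ℚbar) :
    S35B_NA (M * q) q (algebraMap ℚbar ↥(modularFunctionFieldBar (M * q * q)) c) =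
      algebraMap ℚbar ↥(modularFunctionFieldBar (M * q)) (c ^ q) := by
  apply Subtype.ext
  rw [S36NR_alpha M q hq hqM, S36NR_coe2_const, S36NR_coe1_const,
    Finset.prod_congr rfl fun ζ _ => S36NR_iota_const M q hq hqM ζ.1 ζ.2.1 ζ.2.2 c,
    Finset.prod_const, Finset.card_univ, S36NR_card_Z, ← pow_succ', map_pow]
  congr 1
  have := hq.two_le
  omega

include hq hqM in
/-- **`N_β c = c^q`** on constants. -/
theorem S36NR_NB_const (c : ℚbar) :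
    S35B_NB (M * q) q (algebraMap ℚbar ↥(modularFunctionFieldBar (M * q * q)) c) =
      algebraMap ℚbar ↥(modularFunctionFieldBar (M * q)) (c ^ q) := by
  rw [S36NR_NB_eq M q hq hqM, AlgEquiv.commutes, S36NR_NA_const M q hq hqM, AlgEquiv.commutes]

end Fermat.Agent.S36
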