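import Mathlib
import Fermat.Agent.S36.Bridge2
import Fermat.Agent.S41.UNewFull

/-!
# TRACK 10 (S36), package P-OP (helper4): the operator identities of the two degeneracy maps
`Γ₀(N q) ⇉ Γ₀(N)` for `q ∣ N`, on `parInt`

Notation of `S41/DegDefs.lean`: `α = S41D_alpha N q`, `β = S41D_beta N q : parInt N → parInt (N q)`,
`trA = S41D_trA N q`, `trB = S41D_trB N q : parInt (N q) → parInt N`,
`U = GRD_heckeL N (heckeGen q)`.

## Part 1 (any `N` with `q ∣ N`)
* `S36OP_trA_alpha` : `trA (α χ) = q • χ`;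
* `S36OP_trB_beta`  : `trB (β χ) = q • χ`;
* `S36OP_trB_alpha` : `trB (α χ) = U χ`.
-/

set_option autoImplicit false
set_option maxHeartbeats 1000000
set_option linter.unusedSectionVars false
set_option linter.style.haveILetI false

open Matrix MatrixGroups CongruenceSubgroup Matrix.SpecialLinearGroup
open ModularCurve ModularCurve.Period
open P2MW.S_ModularForm_heckeT_slash_eq_self_of_mem_Gamma0.ModularForm.HeckeSlashInvariance
open ModularForm

namespace Fermat.Agent.S36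

open Fermat.Agent.S16 Fermat.Agent.GalRep Fermat.Agent.S41

section pattern

variable {N q : ℕ} [NeZero N] [Fact q.Prime]

/-- **the pattern `cor_j ∘ (j')* = U_q`** for `q ∣ N` (the `U`-analogue of
`S41D_tr_pull_eq_hecke`). -/
theorem S36OP_tr_pull_eq_heckeU (hqN : q ∣ N)
    (j j' : Gamma0 (N * q) →* Gamma0 N) (hj : Function.Injective j) [j.range.FiniteIndex]
    (s k : ZMod q → Gamma0 N)
    (hs : Function.Bijective (fun i => (((s i)⁻¹ : Gamma0 N) : Gamma0 N ⧸ j.range)))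
    (E : GL (Fin 2) ℝ)
    (ha : ∀ h : Gamma0 (N * q), E * mapGL ℝ ((j h : Gamma0 N) : SL(2, ℤ))
      = mapGL ℝ ((j' h : Gamma0 N) : SL(2, ℤ)) * E)
    (hb : ∀ i : ZMod q, E * mapGL ℝ ((s i : Gamma0 N) : SL(2, ℤ))
      = mapGL ℝ ((k i : Gamma0 N) : SL(2, ℤ)) * heckeMatrix q i.val)
    (χ : ↥(parInt N)) (γ : Gamma0 N) :
    S41D_tr j hj ((χ : Additive (Gamma0 N) →+ ℤ).comp (MonoidHom.toAdditive j'))
        (Additive.ofMul γ)
      = ((GRD_heckeL N (ModularCurve.heckeGen ⟨q, Fact.out⟩) χ : ↥(parInt N)) :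
          Additive (Gamma0 N) →+ ℤ) (Additive.ofMul γ) := by
  haveI : NeZero q := ⟨(Fact.out : q.Prime).ne_zero⟩
  obtain ⟨σ, h, hmul⟩ := S41D_exists_data j.range (fun i => (s i)⁻¹) hs γ
  choose h' hh' using fun i => (h i).2
  have hmul' : ∀ i, γ * (s (σ i))⁻¹ = (s i)⁻¹ * j (h' i) := fun i => by
    rw [hh']; exact hmul i
  have hsγ : ∀ i, s i * γ = j (h' i) * s (σ i) := by
    intro i
    have := hmul' i
    calc s i * γ = s i * (γ * (s (σ i))⁻¹) * s (σ i) := by group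
      _ = j (h' i) * s (σ i) := by rw [this]; group
  rw [S41D_tr_apply j hj _ (fun i => (s i)⁻¹) hs γ σ h' hmul']
  haveI : Fact ((⟨q, Fact.out⟩ : Nat.Primes) : ℕ).Prime := ⟨(Fact.out : q.Prime)⟩
  rw [GRD_heckeL_heckeU N ⟨q, Fact.out⟩ hqN χ γ σ (fun i => (k i)⁻¹ * j' (h' i) * k (σ i)) ?_]
  · have h1 : ∀ i, (χ : Additive (Gamma0 N) →+ ℤ)
        (Additive.ofMul ((k i)⁻¹ * j' (h' i) * k (σ i)))
        = (χ : Additive (Gamma0 N) →+ ℤ) (Additive.ofMul (j' (h' i)))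
          + ((χ : Additive (Gamma0 N) →+ ℤ) (Additive.ofMul (k (σ i)))
            - (χ : Additive (Gamma0 N) →+ ℤ) (Additive.ofMul (k i))) := by
      intro i
      rw [ofMul_mul, ofMul_mul, ofMul_inv, map_add, map_add, map_neg]
      ring
    simp only [h1]
    rw [Finset.sum_add_distrib, Finset.sum_sub_distrib, Equiv.sum_comp σ
      (fun i => (χ : Additive (Gamma0 N) →+ ℤ) (Additive.ofMul (k i))), sub_self, add_zero]
    rfl
  · intro i
    show heckeMatrix q i.val * mapGL ℝ ((γ : Gamma0 N) : SL(2, ℤ))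
      = mapGL ℝ (((k i)⁻¹ * j' (h' i) * k (σ i) : Gamma0 N) : SL(2, ℤ))
        * heckeMatrix q (σ i).val
    have e1 : mapGL ℝ ((k i : Gamma0 N) : SL(2, ℤ)) * (heckeMatrix q i.val
        * mapGL ℝ ((γ : Gamma0 N) : SL(2, ℤ)))
        = mapGL ℝ ((j' (h' i) : Gamma0 N) : SL(2, ℤ))
          * (mapGL ℝ ((k (σ i) : Gamma0 N) : SL(2, ℤ)) * heckeMatrix q (σ i).val) := by
      rw [← mul_assoc, ← hb i, mul_assoc, ← map_mul, ← Subgroup.coe_mul, hsγ i,
        Subgroup.coe_mul, map_mul, ← mul_assoc, ha, mul_assoc, hb (σ i)]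
    rw [Subgroup.coe_mul, Subgroup.coe_mul, Subgroup.coe_inv, map_mul, map_mul, map_inv,
      mul_assoc, mul_assoc, ← e1, inv_mul_cancel_left]

end pattern

section part1

variable (N q : ℕ) [NeZero N] [Fact q.Prime]

/-- **`trA ∘ α* = q`** for `q ∣ N`. -/
theorem S36OP_trA_alpha (hqN : q ∣ N) (χ : ↥(parInt N)) :
    S41D_trA N q (S41D_alpha N q χ) = (q : ℤ) • χ := by
  haveI : NeZero q := ⟨(Fact.out : q.Prime).ne_zero⟩
  haveI := S41D_res_finiteIndex N q
  apply Subtype.ext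
  rw [S41D_trA_coe]
  have h1 := S41D_tr_comp (S41A_res N q) (S41D_res_injective N q)
    (χ : Additive (Gamma0 N) →+ ℤ) (fun i : ZMod q => (S36B_lA N (i.val : ℤ))⁻¹)
    (S36B_lA_bijective hqN)
  rw [ZMod.card] at h1
  exact h1

/-- **`trB ∘ β* = q`** for `q ∣ N`. -/
theorem S36OP_trB_beta (hqN : q ∣ N) (χ : ↥(parInt N)) :
    S41D_trB N q (S41D_beta N q χ) = (q : ℤ) • χ := by
  haveI : NeZero q := ⟨(Fact.out : q.Prime).ne_zero⟩
  haveI := S41D_deg_finiteIndex N q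
  apply Subtype.ext
  rw [S41D_trB_coe]
  have h1 := S41D_tr_comp (S41A_deg N q) (S41D_deg_injective N q)
    (χ : Additive (Gamma0 N) →+ ℤ) (fun i : ZMod q => (S41D_T N (i.val : ℤ))⁻¹)
    (S36B_tB_bijective hqN)
  rw [ZMod.card] at h1
  exact h1

/-- **`trB ∘ α* = U_q`** for `q ∣ N`. -/
theorem S36OP_trB_alpha (hqN : q ∣ N) (χ : ↥(parInt N)) :
    S41D_trB N q (S41D_alpha N q χ) = GRD_heckeL N (ModularCurve.heckeGen ⟨q, Fact.out⟩) χ := by
  have hq : q.Prime := Fact.out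
  haveI : NeZero q := ⟨hq.ne_zero⟩
  haveI := S41D_deg_finiteIndex N q
  apply Subtype.ext
  refine AddMonoidHom.ext fun γ => ?_
  obtain ⟨γ, rfl⟩ := Additive.ofMul.surjective γ
  rw [S41D_trB_coe]
  exact S36OP_tr_pull_eq_heckeU hqN (S41A_deg N q) (S41A_res N q) (S41D_deg_injective N q)
    (fun i => S41D_T N (i.val : ℤ)) (fun _ => 1) (S36B_tB_bijective hqN) (heckeMatrix q 0)
    (S41D_D_deg hq.ne_zero) (fun i => S41D_D_T hq.ne_zero i.val) χ γ

end part1

/-! ## Part 2: level `M q` with `q ∤ M`, against level `M q q` -/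

section transversal

variable (M q : ℕ) [NeZero M] [Fact q.Prime] (a b : ℤ) (hab : (q : ℤ) * a - M * b = 1)

/-- the family `{r} ∪ {[[1,0],[j M,1]]}` : its inverses represent `Γ₀(M) / Γ₀(M q)`. -/
def S36OP_s (i : Option (ZMod q)) : Gamma0 M :=
  i.elim (S41U_r M q a b hab) (fun j => S36B_lA M (j.val : ℤ))

theorem S36OP_s_none : S36OP_s M q a b hab none = S41U_r M q a b hab := rfl

theorem S36OP_s_some (j : ZMod q) : S36OP_s M q a b hab (some j) = S36B_lA M (j.val : ℤ) := rfl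

/-- `q ∤ 1 - q j`. -/
theorem S36OP_not_dvd (x : ℤ) : ¬ (q : ℤ) ∣ 1 - q * x := by
  have hq : q.Prime := Fact.out
  intro h
  have h1 : (q : ℤ) ∣ 1 := by
    have h2 : (q : ℤ) ∣ (1 - q * x) + q * x := dvd_add h (dvd_mul_right _ _)
    simpa using h2
  have h3 := Int.eq_one_of_dvd_one (by positivity) h1
  have : q = 1 := by exact_mod_cast h3
  exact hq.one_lt.ne' this

theorem S36OP_s_bijective :
    Function.Bijective (fun i : Option (ZMod q) =>
      (((S36OP_s M q a b hab i)⁻¹ : Gamma0 M) : Gamma0 M ⧸ (S41A_res M q).range)) := by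
  have hq : q.Prime := Fact.out
  haveI : NeZero q := ⟨hq.ne_zero⟩
  have hM0 : (M : ℤ) ≠ 0 := by exact_mod_cast NeZero.ne M
  have hq0 : (q : ℤ) ≠ 0 := by exact_mod_cast hq.ne_zero
  have hcast : (((M * q : ℕ) : ℤ)) = (M : ℤ) * q := by push_cast; ring
  apply S41D_bijective_of
  · intro i j hij
    rw [S36B_mem_range_res, hcast] at hij
    rcases i with _ | i <;> rcases j with _ | j
    · rfl
    · exfalso
      have key : ((S36OP_s M q a b hab none * (S36OP_s M q a b hab (some j))⁻¹ : Gamma0 M) :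
          SL(2, ℤ)) 1 0 = (M : ℤ) * (1 - q * (j.val : ℤ)) := by
        rw [S36OP_s_none, S36OP_s_some, S41D_mul_10, S41D_inv_00, S41D_inv_10, S36B_lA_10,
          S36B_lA_11, S41U_r_10, S41U_r_11]
        ring
      rw [key] at hij
      exact S36OP_not_dvd q _ ((mul_dvd_mul_iff_left hM0).mp hij)
    · exfalso
      have key : ((S36OP_s M q a b hab (some i) * (S36OP_s M q a b hab none)⁻¹ : Gamma0 M) :
          SL(2, ℤ)) 1 0 = (M : ℤ) * (-(1 - q * (i.val : ℤ))) := by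
        rw [S36OP_s_none, S36OP_s_some, S41D_mul_10, S41D_inv_00, S41D_inv_10, S36B_lA_10,
          S36B_lA_11, S41U_r_10, S41U_r_11]
        ring
      rw [key] at hij
      have := (mul_dvd_mul_iff_left hM0).mp hij
      exact S36OP_not_dvd q _ ((dvd_neg).mp this)
    · have key : ((S36OP_s M q a b hab (some i) * (S36OP_s M q a b hab (some j))⁻¹ : Gamma0 M) :
          SL(2, ℤ)) 1 0 = (M : ℤ) * ((i.val : ℤ) - (j.val : ℤ)) := by
        rw [S36OP_s_some, S36OP_s_some, S41D_mul_10, S41D_inv_00, S41D_inv_10, S36B_lA_10,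
          S36B_lA_11, S36B_lA_11, S36B_lA_10]
        ring
      rw [key] at hij
      congr 1
      exact S36B_zmod_eq_of_dvd i j ((mul_dvd_mul_iff_left hM0).mp hij)
  · intro g
    obtain ⟨z, hz⟩ : ((M : ℕ) : ℤ) ∣ (g : SL(2, ℤ)) 1 0 := S41A_Gamma0_mem_iff.mp g.2
    by_cases hx : (q : ℤ) ∣ (g : SL(2, ℤ)) 0 0
    · refine ⟨none, ?_⟩
      rw [S36B_mem_range_res, hcast, S36OP_s_none, S41D_mul_10, S41U_r_10, S41U_r_11, hz]
      obtain ⟨x', hx'⟩ := hx
      exact ⟨x' + z, by rw [hx']; ring⟩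
    · -- `x` is invertible mod `q`
      have hcop : IsCoprime ((g : SL(2, ℤ)) 0 0) (q : ℤ) := by
        rw [Int.isCoprime_iff_gcd_eq_one]
        have hp : Prime (q : ℤ) := Nat.prime_iff_prime_int.mp hq
        have := (Int.isCoprime_iff_gcd_eq_one).mp
          ((Prime.coprime_iff_not_dvd hp).mpr hx)
        rw [Int.gcd_comm]
        exact this
      obtain ⟨u, v, huv⟩ := hcop
      -- `u x + v q = 1`; take `j ≡ - z u`
      refine ⟨some (((-(z * u) : ℤ)) : ZMod q), ?_⟩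
      set j : ZMod q := (((-(z * u) : ℤ)) : ZMod q) with hj
      have hjv : (q : ℤ) ∣ (j.val : ℤ) - (-(z * u)) := by
        rw [← ZMod.intCast_eq_intCast_iff_dvd_sub]
        simp [hj]
      obtain ⟨c, hc⟩ := hjv
      have hjval : (j.val : ℤ) = -(z * u) + q * c := by linear_combination hc
      rw [S36B_mem_range_res, hcast, S36OP_s_some, S41D_mul_10, S36B_lA_10, S36B_lA_11, hz,
        hjval]
      refine ⟨c * (g : SL(2, ℤ)) 0 0 + z * v, ?_⟩
      linear_combination (-(M : ℤ) * z) * huv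

end transversal

section compat

variable (M q : ℕ)

/-- `deg₁ ∘ res₂ = res₁ ∘ deg₂` on `Γ₀(M q q)`. -/
theorem S36OP_deg_res (h : Gamma0 (M * q * q)) :
    S41A_deg M q (S41A_res (M * q) q h) = S41A_res M q (S41A_deg (M * q) q h) :=
  Subtype.ext (S41A_ext_int rfl rfl rfl rfl)

/-- `deg₁ [[1,0],[m M q,1]] = [[1,0],[m M,1]]`. -/
theorem S36OP_deg_lA [NeZero q] (m : ℤ) :
    S41A_deg M q (S36B_lA (M * q) m) = S36B_lA M m := by
  have hq0 : (q : ℤ) ≠ 0 := by exact_mod_cast NeZero.ne q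
  apply Subtype.ext
  rw [S41A_deg_coe]
  apply S41A_ext_int
  · rw [S41A_degMat_00, S36B_lA_00, S36B_lA_00]
  · rw [S41A_degMat_01, S36B_lA_01, S36B_lA_01, mul_zero]
  · have h1 := S41A_q_mul_degMat_10 (N := M) (q := q) (S36B_lA (M * q) m)
    rw [S36B_lA_10] at h1
    rw [S36B_lA_10]
    have h2 : (q : ℤ) * S41A_degMat (N := M) (q := q) (S36B_lA (M * q) m) 1 0
        = (q : ℤ) * (m * (M : ℤ)) := by
      rw [h1]; push_cast; ring
    exact mul_left_cancel₀ hq0 h2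
  · rw [S41A_degMat_11, S36B_lA_11, S36B_lA_11]

end compat

section key2

variable (M q : ℕ) [NeZero M] [Fact q.Prime] (a b : ℤ) (hab : (q : ℤ) * a - M * b = 1)

/-- **KEY 2**: `β₁* ∘ trA₁ = trA₂ ∘ β₂* + w_q` on `parInt (M q)`, where the index `1` refers to
the pair of levels `(M, M q)` and the index `2` to `(M q, M q q)`. -/
theorem S36OP_beta_trA (χ : ↥(parInt (M * q))) :
    S41D_beta M q (S41D_trA M q χ)
      = S41D_trA (M * q) q (S41D_beta (M * q) q χ) + S41U_w M q a b hab χ := by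
  classical
  have hq : q.Prime := Fact.out
  haveI : NeZero q := ⟨hq.ne_zero⟩
  apply Subtype.ext
  refine AddMonoidHom.ext fun γ => ?_
  obtain ⟨γ, rfl⟩ := Additive.ofMul.surjective γ
  -- level-2 coset data of `γ`
  have ht₂ := S36B_lA_bijective (N := M * q) (q := q) (Dvd.intro_left M rfl)
  obtain ⟨σ, h, hmul⟩ := S41D_exists_data (S41A_res (M * q) q).range
    (fun j : ZMod q => (S36B_lA (M * q) (j.val : ℤ))⁻¹) ht₂ γ
  choose h' hh' using fun i => (h i).2
  have hmul' : ∀ j, γ * (S36B_lA (M * q) ((σ j).val : ℤ))⁻¹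
      = (S36B_lA (M * q) (j.val : ℤ))⁻¹ * S41A_res (M * q) q (h' j) := fun j => by
    rw [hh']; exact hmul j
  rw [S41D_beta_apply,
    S41D_trA_apply M q χ (fun i => (S36OP_s M q a b hab i)⁻¹) (S36OP_s_bijective M q a b hab)
      (S41A_deg M q γ) (Option.map σ)
      (fun i => i.elim (S41U_cW M q a b hab γ) (fun j => S41A_deg (M * q) q (h' j))) ?_]
  · refine (Fintype.sum_option _).trans ?_
    show _ = ((S41D_trA (M * q) q (S41D_beta (M * q) q χ) : ↥(parInt (M * q))) :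
        Additive (Gamma0 (M * q)) →+ ℤ) (Additive.ofMul γ)
      + ((S41U_w M q a b hab χ : ↥(parInt (M * q))) : Additive (Gamma0 (M * q)) →+ ℤ)
        (Additive.ofMul γ)
    rw [S41D_trA_apply (M * q) q (S41D_beta (M * q) q χ)
      (fun j : ZMod q => (S36B_lA (M * q) (j.val : ℤ))⁻¹) ht₂ γ σ h' hmul', S41U_w_apply,
      add_comm]
    rfl
  · intro i
    rcases i with _ | j
    · show S41A_deg M q γ * (S41U_r M q a b hab)⁻¹
        = (S41U_r M q a b hab)⁻¹ * S41A_res M q (S41U_cW M q a b hab γ)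
      rw [S41U_res_cW]
      group
    · show S41A_deg M q γ * (S36B_lA M ((σ j).val : ℤ))⁻¹
        = (S36B_lA M (j.val : ℤ))⁻¹ * S41A_res M q (S41A_deg (M * q) q (h' j))
      have h1 := congrArg (S41A_deg M q) (hmul' j)
      rw [map_mul, map_mul, map_inv, map_inv, S36OP_deg_lA, S36OP_deg_lA, S36OP_deg_res] at h1
      exact h1

end key2

/-! ## Part 3: the matrix of `ψ₂ ∘ φ₂` on `parInt (M q)²` and its kernel on the `q`-new part -/

section main

variable (M q : ℕ) [NeZero M] [Fact q.Prime] (a b : ℤ) (hab : (q : ℤ) * a - M * b = 1)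

/-- **`trA₂ ∘ β₂* = β₁* ∘ trA₁ − w_q`** on `parInt (M q)`. -/
theorem S36OP_trA_beta (χ : ↥(parInt (M * q))) :
    S41D_trA (M * q) q (S41D_beta (M * q) q χ)
      = S41D_beta M q (S41D_trA M q χ) - S41U_w M q a b hab χ := by
  rw [S36OP_beta_trA M q a b hab χ, add_sub_cancel_right]

/-- **`trB₂ ∘ α₂* = α₁* ∘ trB₁ − w_q`** on `parInt (M q)` (both sides are `U_q`). -/
theorem S36OP_trB_alpha_w (χ : ↥(parInt (M * q))) :
    S41D_trB (M * q) q (S41D_alpha (M * q) q χ)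
      = S41D_alpha M q (S41D_trB M q χ) - S41U_w M q a b hab χ := by
  rw [S36OP_trB_alpha (M * q) q (Dvd.intro_left M rfl) χ, S41U_alpha_trB M q a b hab χ,
    add_sub_cancel_right]

/-- **`trA₂ (α₂* x + β₂* y) = q x − w y + β₁*(trA₁ y)`**. -/
theorem S36OP_trA_phi (x y : ↥(parInt (M * q))) :
    S41D_trA (M * q) q (S41D_alpha (M * q) q x + S41D_beta (M * q) q y)
      = (q : ℤ) • x - S41U_w M q a b hab y + S41D_beta M q (S41D_trA M q y) := by
  rw [map_add, S36OP_trA_alpha (M * q) q (Dvd.intro_left M rfl) x,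
    S36OP_trA_beta M q a b hab y]
  abel

/-- **`trB₂ (α₂* x + β₂* y) = q y − w x + α₁*(trB₁ x)`**. -/
theorem S36OP_trB_phi (x y : ↥(parInt (M * q))) :
    S41D_trB (M * q) q (S41D_alpha (M * q) q x + S41D_beta (M * q) q y)
      = (q : ℤ) • y - S41U_w M q a b hab x + S41D_alpha M q (S41D_trB M q x) := by
  rw [map_add, S36OP_trB_beta (M * q) q (Dvd.intro_left M rfl) y,
    S36OP_trB_alpha_w M q a b hab x]
  abel

/-- on the `q`-new part of level `M q`: `trA₂ (α₂* x + β₂* y) = q x − w y` and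
`trB₂ (α₂* x + β₂* y) = q y − w x`. -/
theorem S36OP_new (x y : ↥(parInt (M * q))) (hx : x ∈ S41D_B M q) (hy : y ∈ S41D_B M q) :
    S41D_trA (M * q) q (S41D_alpha (M * q) q x + S41D_beta (M * q) q y)
        = (q : ℤ) • x - S41U_w M q a b hab y ∧
      S41D_trB (M * q) q (S41D_alpha (M * q) q x + S41D_beta (M * q) q y)
        = (q : ℤ) • y - S41U_w M q a b hab x := by
  rw [S41D_mem_B] at hx hy
  rw [S36OP_trA_phi M q a b hab, S36OP_trB_phi M q a b hab, hy.1, hx.2, map_zero, map_zero,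
    add_zero, add_zero]
  exact ⟨rfl, rfl⟩

/-- the algebra behind the kernel statements: `q u − w v = n e₁`, `q v − w u = n e₂`,
`w² = 1` give `(q² − 1) u = n (q e₁ + w e₂)`. -/
theorem S36OP_solve (n : ℤ) (u v e₁ e₂ : ↥(parInt (M * q)))
    (h1 : (q : ℤ) • u - S41U_w M q a b hab v = n • e₁)
    (h2 : (q : ℤ) • v - S41U_w M q a b hab u = n • e₂) :
    (((q : ℤ) ^ 2 - 1) • u = n • ((q : ℤ) • e₁ + S41U_w M q a b hab e₂)) := by
  have hq : q.Prime := Fact.out
  haveI : NeZero q := ⟨hq.ne_zero⟩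
  have hw := S41U_w_w M q a b hab u
  have h3 : S41U_w M q a b hab ((q : ℤ) • v - S41U_w M q a b hab u)
      = S41U_w M q a b hab (n • e₂) := by rw [h2]
  rw [map_sub, map_zsmul, hw, map_zsmul] at h3
  have h4 : (q : ℤ) • ((q : ℤ) • u - S41U_w M q a b hab v) = (q : ℤ) • (n • e₁) := by rw [h1]
  rw [smul_sub] at h4
  calc ((q : ℤ) ^ 2 - 1) • u
      = ((q : ℤ) • ((q : ℤ) • u) - (q : ℤ) • S41U_w M q a b hab v)
        + ((q : ℤ) • S41U_w M q a b hab v - u) := by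
        rw [sub_smul, one_smul, pow_two, mul_smul]
        abel
    _ = (q : ℤ) • (n • e₁) + n • S41U_w M q a b hab e₂ := by rw [h4, h3]
    _ = n • ((q : ℤ) • e₁ + S41U_w M q a b hab e₂) := by
        rw [smul_add, smul_comm (q : ℤ) n e₁]

end main

section kernel

variable (M q : ℕ) [NeZero M] [Fact q.Prime]

/-- **the kernel of `(x, y) ↦ α₂* x + β₂* y` composed with `ψ₂`, modulo `n`**: if `x`, `y` are
`q`-new modulo `n` at level `M q` and `ψ₂ (α₂* x + β₂* y) ≡ 0` modulo `n`, then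
`(q² − 1) x ≡ 0` and `(q² − 1) y ≡ 0` modulo `n`. -/
theorem S36OP_ker_mod (hqM : ¬ q ∣ M) (n : ℤ) (x y : ↥(parInt (M * q)))
    (hxB : ∃ c, S41D_trB M q x = n • c) (hyA : ∃ c, S41D_trA M q y = n • c)
    (hA : ∃ c, S41D_trA (M * q) q (S41D_alpha (M * q) q x + S41D_beta (M * q) q y) = n • c)
    (hB : ∃ c, S41D_trB (M * q) q (S41D_alpha (M * q) q x + S41D_beta (M * q) q y) = n • c) :
    (∃ d, ((q : ℤ) ^ 2 - 1) • x = n • d) ∧ (∃ d, ((q : ℤ) ^ 2 - 1) • y = n • d) := by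
  obtain ⟨a, b, hab⟩ := S41D_exists_ab (Fact.out : q.Prime) hqM
  obtain ⟨cx, hcx⟩ := hxB
  obtain ⟨cy, hcy⟩ := hyA
  obtain ⟨cA, hcA⟩ := hA
  obtain ⟨cB, hcB⟩ := hB
  rw [S36OP_trA_phi M q a b hab, hcy, map_zsmul] at hcA
  rw [S36OP_trB_phi M q a b hab, hcx, map_zsmul] at hcB
  have h1 : (q : ℤ) • x - S41U_w M q a b hab y = n • (cA - S41D_beta M q cy) := by
    rw [smul_sub, ← hcA]; abel
  have h2 : (q : ℤ) • y - S41U_w M q a b hab x = n • (cB - S41D_alpha M q cx) := by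
    rw [smul_sub, ← hcB]; abel
  exact ⟨⟨_, S36OP_solve M q a b hab n x y _ _ h1 h2⟩,
    ⟨_, S36OP_solve M q a b hab n y x _ _ h2 h1⟩⟩

/-- **integral form**: `q`-new classes `x`, `y` of level `M q` with `α₂* x + β₂* y` in the
`q`-new part `B₂` of level `M q q` vanish. -/
theorem S36OP_ker (hqM : ¬ q ∣ M) (x y : ↥(parInt (M * q))) (hx : x ∈ S41D_B M q)
    (hy : y ∈ S41D_B M q)
    (h : S41D_alpha (M * q) q x + S41D_beta (M * q) q y ∈ S41D_B (M * q) q) :
    x = 0 ∧ y = 0 := by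
  have hq : q.Prime := Fact.out
  haveI := isAddTorsionFree_parInt (M * q)
  rw [S41D_mem_B] at hx hy h
  obtain ⟨⟨d, hd⟩, ⟨d', hd'⟩⟩ := S36OP_ker_mod M q hqM 0 x y
    ⟨0, by rw [hx.2, smul_zero]⟩ ⟨0, by rw [hy.1, smul_zero]⟩
    ⟨0, by rw [h.1, smul_zero]⟩ ⟨0, by rw [h.2, smul_zero]⟩
  rw [zero_smul] at hd hd'
  have hne : ((q : ℤ) ^ 2 - 1) ≠ 0 := by
    have h2 : (2 : ℤ) ≤ q := by exact_mod_cast hq.two_le
    nlinarith
  exact ⟨(smul_eq_zero.1 hd).resolve_left hne, (smul_eq_zero.1 hd').resolve_left hne⟩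

end kernel

/-- **P-OP, statement without Bezout data**: for `q ∤ M` there is an involution `w` of
`parInt (M q)` with the four operator identities. -/
theorem S36OP_main (M q : ℕ) [NeZero M] [Fact q.Prime] (hqM : ¬ q ∣ M) :
    ∃ w : ↥(parInt (M * q)) →ₗ[ℤ] ↥(parInt (M * q)),
      (∀ χ, w (w χ) = χ) ∧
      (∀ χ, S41D_trA (M * q) q (S41D_alpha (M * q) q χ) = (q : ℤ) • χ) ∧
      (∀ χ, S41D_trB (M * q) q (S41D_beta (M * q) q χ) = (q : ℤ) • χ) ∧
      (∀ χ, S41D_trA (M * q) q (S41D_beta (M * q) q χ)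
        = S41D_beta M q (S41D_trA M q χ) - w χ) ∧
      (∀ χ, S41D_trB (M * q) q (S41D_alpha (M * q) q χ)
        = S41D_alpha M q (S41D_trB M q χ) - w χ) ∧
      (∀ χ, S41D_trB (M * q) q (S41D_alpha (M * q) q χ)
        = GRD_heckeL (M * q) (ModularCurve.heckeGen ⟨q, Fact.out⟩) χ) ∧
      (∀ χ, S41D_trA M q (w χ) = S41D_trB M q χ) ∧
      (∀ χ, S41D_trB M q (w χ) = S41D_trA M q χ) := by
  have hq : q.Prime := Fact.out
  haveI : NeZero q := ⟨hq.ne_zero⟩
  obtain ⟨a, b, hab⟩ := S41D_exists_ab hq hqM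
  refine ⟨S41U_w M q a b hab, S41U_w_w M q a b hab,
    S36OP_trA_alpha (M * q) q (Dvd.intro_left M rfl),
    S36OP_trB_beta (M * q) q (Dvd.intro_left M rfl),
    S36OP_trA_beta M q a b hab, S36OP_trB_alpha_w M q a b hab,
    S36OP_trB_alpha (M * q) q (Dvd.intro_left M rfl),
    fun χ => (S41U_trB_eq_trA_w M q a b hab χ).symm,
    fun χ => (S41U_trA_eq_trB_w M q a b hab χ).symm⟩

end Fermat.Agent.S36
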