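import Mathlib
import Fermat.Agent.S36.OrdChain

/-!
# TRACK 10 (S36), package C2.4 = ORD-LOWER (helper16), prefix `S36OL_`: abstract part

The two LOWER BOUNDS `hord`, `hss` of `S36OC_main` (route note (D3 c)), as lattice algebra.

`Λ = {x | ∀ i, v i x ≤ 1}` (vertical and horizontal valuations), `ρ : Λ →+* E` the reduction along
the middle component `FV` (`E = κ`), `P` a place of `E` at which all reductions of elements of
`Λ` are regular (`hreg`; = FIN-INST, "reductions of `Λ_U` are integral over `k[j̄]`").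

* `S36OL_mem_ram` : `g ϖ^(m+1) / q ∈ Λ` if at every `i` either `v i ϖ^(m+1) ≤ v i q`
  (`FV`, horizontal) or `v i g ≤ v i q` (`FF`, `VV`);
* `S36OL_mem_ss`  : `t₁ t₂ ϖ^(m+1) / q ∈ Λ` if at every `i` one of `ϖ^(m+1)`, `t₁`, `t₂` is
  divisible by `q`;
* `S36OL_ord`     : ordinary point: `ρ d = ρ g * H`, `ρ g` a unit at `P` ⇒ `0 ≤ ord_P H`;
* `S36OL_ss`      : supersingular point: `ρ ε = ρ t₁ * ρ t₂ * H`, `ρ t₁`, `ρ t₂` simple zeros at `P`
  ⇒ `-2 ≤ ord_P H`;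
* `S36OL_simple`  : **simple zero, twisted form**: `ord_P (f - c) = 1`, `h` regular at `P` with
  value `c'`, `c' ^ (p^n) = c` ⇒ `ord_P (f - h ^ (p^n)) = 1`
  (`f = τ̄`, `h = Fr⁻² τ̄`, `h ^ (q²) = τ̄(t^{q²})`; the point is `𝔽_{q²}`-rational);
* `S36OL_choose`  : the functions `τ, Hτ, c` of `S36OC_main` from pointwise data.
-/

set_option autoImplicit false
set_option linter.unusedSectionVars false

open AlgebraicCurve

namespace Fermat.Agent.S36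

section mem

variable {K : Type*} [Field K] {Γ₀ : Type*} [LinearOrderedCommGroupWithZero Γ₀] {ι : Type*}

/-- ordinary points of the ramified component: `g ϖ^(m+1) / q ∈ Λ`. -/
theorem S36OL_mem_ram (v : ι → Valuation K Γ₀) (Λ : Subring K)
    (hΛ : ∀ x : K, x ∈ Λ ↔ ∀ i, v i x ≤ 1) (q ϖ g : Λ) (hq0 : (q : K) ≠ 0) (m : ℕ)
    (h : ∀ i, v i (ϖ : K) ^ (m + 1) ≤ v i (q : K) ∨ v i (g : K) ≤ v i (q : K)) :
    (g : K) * (ϖ : K) ^ (m + 1) / q ∈ Λ := by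
  rw [hΛ]
  intro i
  have hvq : v i (q : K) ≠ 0 := (Valuation.ne_zero_iff _).2 hq0
  have hg : v i (g : K) ≤ 1 := (hΛ _).1 g.2 i
  have hϖ : v i (ϖ : K) ^ (m + 1) ≤ 1 := pow_le_one₀ zero_le ((hΛ _).1 ϖ.2 i)
  rw [map_div₀, map_mul, map_pow, div_le_one₀ (zero_lt_iff.2 hvq)]
  rcases h i with h1 | h1
  · calc v i (g : K) * v i (ϖ : K) ^ (m + 1) ≤ 1 * v i (q : K) := mul_le_mul' hg h1
      _ = v i (q : K) := one_mul _
  · calc v i (g : K) * v i (ϖ : K) ^ (m + 1) ≤ v i (q : K) * 1 := mul_le_mul' h1 hϖ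
      _ = v i (q : K) := mul_one _

/-- supersingular points: `t₁ t₂ ϖ^(m+1) / q ∈ Λ`. -/
theorem S36OL_mem_ss (v : ι → Valuation K Γ₀) (Λ : Subring K)
    (hΛ : ∀ x : K, x ∈ Λ ↔ ∀ i, v i x ≤ 1) (q ϖ t₁ t₂ : Λ) (hq0 : (q : K) ≠ 0) (m : ℕ)
    (h : ∀ i, v i (ϖ : K) ^ (m + 1) ≤ v i (q : K) ∨ v i (t₁ : K) ≤ v i (q : K) ∨
      v i (t₂ : K) ≤ v i (q : K)) :
    (t₁ : K) * t₂ * (ϖ : K) ^ (m + 1) / q ∈ Λ := by
  rw [hΛ]
  intro i
  have hvq : v i (q : K) ≠ 0 := (Valuation.ne_zero_iff _).2 hq0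
  have h₁ : v i (t₁ : K) ≤ 1 := (hΛ _).1 t₁.2 i
  have h₂ : v i (t₂ : K) ≤ 1 := (hΛ _).1 t₂.2 i
  have hϖ : v i (ϖ : K) ^ (m + 1) ≤ 1 := pow_le_one₀ zero_le ((hΛ _).1 ϖ.2 i)
  rw [map_div₀, map_mul, map_mul, map_pow, div_le_one₀ (zero_lt_iff.2 hvq)]
  rcases h i with h1 | h1 | h1
  · calc v i (t₁ : K) * v i (t₂ : K) * v i (ϖ : K) ^ (m + 1) ≤ 1 * 1 * v i (q : K) :=
        mul_le_mul' (mul_le_mul' h₁ h₂) h1
      _ = v i (q : K) := by rw [one_mul, one_mul]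
  · calc v i (t₁ : K) * v i (t₂ : K) * v i (ϖ : K) ^ (m + 1) ≤ v i (q : K) * 1 * 1 :=
        mul_le_mul' (mul_le_mul' h1 h₂) hϖ
      _ = v i (q : K) := by rw [mul_one, mul_one]
  · calc v i (t₁ : K) * v i (t₂ : K) * v i (ϖ : K) ^ (m + 1) ≤ 1 * v i (q : K) * 1 :=
        mul_le_mul' (mul_le_mul' h₁ h1) hϖ
      _ = v i (q : K) := by rw [one_mul, mul_one]

end mem

section lower

variable {k E : Type*} [Field k] [Field E] [Algebra k E] {Λ : Type*} [CommRing Λ]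

/-- **(hord)**: at an ordinary point `P`, `H = red_FV (ϖ^(q-1) / q)` is regular. -/
theorem S36OL_ord (P : Place k E) (ρ : Λ →+* E) (hreg : ∀ f : Λ, 0 ≤ P.ord (ρ f))
    (g d : Λ) (H : E) (hρ : ρ d = ρ g * H) (hg0 : ρ g ≠ 0) (hg : P.ord (ρ g) = 0) :
    0 ≤ P.ord H :=
  S36OC_lower_ord P hg0 hg (hρ ▸ hreg d)

/-- **(hss)**: at a supersingular point `P`, `H = red_FV (ϖ^(q-1) / q)` has a pole of order at
most `2`. -/
theorem S36OL_ss (P : Place k E) (ρ : Λ →+* E) (hreg : ∀ f : Λ, 0 ≤ P.ord (ρ f))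
    (t₁ t₂ ε : Λ) (H : E) (hρ : ρ ε = ρ t₁ * ρ t₂ * H)
    (h1 : P.ord (ρ t₁) = 1) (h2 : P.ord (ρ t₂) = 1) : -2 ≤ P.ord H :=
  S36OC_lower_ss P h1 h2 (hρ ▸ hreg ε)

end lower

section simple

variable {k E : Type*} [Field k] [Field E] [Algebra k E]

/-- **simple zero, twisted form** (D3 c): in characteristic `p`, if `f - c` is a local parameter
at `P`, `h - c'` vanishes at `P` and `c' ^ (p ^ n) = c` (`n ≠ 0`), then `f - h ^ (p ^ n)` has a
simple zero at `P`. -/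
theorem S36OL_simple (P : Place k E) (p : ℕ) [Fact p.Prime] [CharP E p] (n : ℕ) (hn : n ≠ 0)
    {f h : E} {c c' : k} (hc : c' ^ (p ^ n) = c)
    (hf : P.ord (f - algebraMap k E c) = 1)
    (hh : h - algebraMap k E c' = 0 ∨ 1 ≤ P.ord (h - algebraMap k E c')) :
    P.ord (f - h ^ (p ^ n)) = 1 := by
  set a : E := f - algebraMap k E c with ha
  set b : E := h - algebraMap k E c' with hb
  have ha0 : a ≠ 0 := by
    intro h0
    rw [h0, P.ord_zero] at hf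
    exact zero_ne_one hf
  have hw := Fermat.Agent.S24.S24_isVal_ord (K := k) P
  have hEq : f - h ^ (p ^ n) = a + -(b ^ (p ^ n)) := by
    rw [ha, hb, sub_pow_char_pow, ← map_pow, hc]
    ring
  rcases eq_or_ne b 0 with hb0 | hb0
  · rw [hEq, hb0, zero_pow (pow_ne_zero _ (Fact.out : p.Prime).ne_zero), neg_zero, add_zero, hf]
  · have hb1 : 1 ≤ P.ord b := by
      rcases hh with hh | hh
      · exact absurd hh hb0
      · exact hh
    have hpn : 1 < p ^ n := Nat.one_lt_pow hn (Fact.out : p.Prime).one_lt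
    have hlt : P.ord a < P.ord (-(b ^ (p ^ n))) := by
      rw [hw.neg (pow_ne_zero _ hb0), hw.pow hb0, hf]
      have h2 : ((p ^ n : ℕ) : ℤ) * 1 ≤ ((p ^ n : ℕ) : ℤ) * P.ord b :=
        mul_le_mul_of_nonneg_left hb1 (by positivity)
      have h3 : (1 : ℤ) < ((p ^ n : ℕ) : ℤ) := by exact_mod_cast hpn
      linarith
    rw [hEq, (hw.add_eq_of_lt ha0 (neg_ne_zero.2 (pow_ne_zero _ hb0)) hlt).2, hf]

end simple

section choose

variable {k E M : Type*} [Field k] [Field E] [Algebra k E]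

/-- the functions `τ`, `Hτ`, `c` of `S36OC_main` from pointwise data: `R τ H` is the relation
"`H = C (θ τ)^(q-1)`". -/
theorem S36OL_choose (cusps SS : Finset (Place k E)) (R : E → E → Prop)
    (hO : ∀ v : Place k E, v ∉ cusps → v ∉ SS →
      ∃ (τ H : E) (c : k), v.ord (τ - algebraMap k E c) = 1 ∧ R τ H ∧ 0 ≤ v.ord H)
    (hS : ∀ v ∈ SS, v ∉ cusps →
      ∃ (τ H : E) (c : k), v.ord (τ - algebraMap k E c) = 1 ∧ R τ H ∧ -2 ≤ v.ord H) :
    ∃ (τ Hτ : Place k E → E) (c : Place k E → k),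
      (∀ v : Place k E, v ∉ cusps → v.ord (τ v - algebraMap k E (c v)) = 1) ∧
      (∀ v : Place k E, v ∉ cusps → R (τ v) (Hτ v)) ∧
      (∀ v : Place k E, v ∉ cusps → v ∉ SS → 0 ≤ v.ord (Hτ v)) ∧
      (∀ v ∈ SS, v ∉ cusps → -2 ≤ v.ord (Hτ v)) := by
  classical
  have key : ∀ v : Place k E, ∃ (τ H : E) (c : k), v ∉ cusps →
      (v.ord (τ - algebraMap k E c) = 1 ∧ R τ H ∧ (v ∉ SS → 0 ≤ v.ord H) ∧
        (v ∈ SS → -2 ≤ v.ord H)) := by
    intro v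
    by_cases hc : v ∈ cusps
    · exact ⟨0, 0, 0, fun h => absurd hc h⟩
    · by_cases hs : v ∈ SS
      · obtain ⟨τ, H, c, h1, h2, h3⟩ := hS v hs hc
        exact ⟨τ, H, c, fun _ => ⟨h1, h2, fun h => absurd hs h, fun _ => h3⟩⟩
      · obtain ⟨τ, H, c, h1, h2, h3⟩ := hO v hc hs
        exact ⟨τ, H, c, fun _ => ⟨h1, h2, fun _ => h3, fun h => absurd h hs⟩⟩
  choose τ H c hkey using key
  exact ⟨τ, H, c, fun v hv => (hkey v hv).1, fun v hv => (hkey v hv).2.1,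
    fun v hv hs => (hkey v hv).2.2.1 hs, fun v hs hv => (hkey v hv).2.2.2 hs⟩

end choose

end Fermat.Agent.S36
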