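import Fermat.Agent.S36.OrdLowerFin
import Fermat.Agent.S36.ParamQ2

/-!
# TRACK 10 (S36), package C2.4 = ORD-LOWER (helper16), part 5: the concrete ring `B`

`B = S36OL_B M q A ⊂ F₂ = F_{M q²}` : the functions fixed by the inertia group
`I = A.inertiaSubgroupIn ℚ` (`∈ (S36FI_act (M q²) I).fixF`) and regular off the cusps
(`0 ≤ ord_Q j → f ∈ O_Q`).

* `S36OL_B_q_inv` : `q⁻¹ ∈ B`;
* `S36OL_B_pull`  : `δ_A^* τ, δ_B^* τ, δ_C^* τ ∈ B` for every `G_ℚ`-fixed `τ ∈ L(m · ∞)` of level `M`;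
* `S36OL_hord_B`, `S36OL_hss_B` : `hord`, `hss` of `S36OI_main` with the only inputs
  `hreg` (FIN-INST, on `Λ_U = B ∩ FF ∩ FV ∩ VV`) and, at ordinary places, `hg` (NODAL3-INST (a)).
-/

set_option autoImplicit false
set_option synthInstance.maxHeartbeats 400000
set_option maxHeartbeats 1000000
set_option linter.style.haveILetI false
set_option linter.unusedSectionVars false

open HahnSeries IntermediateField AlgebraicCurve ModularCurve

noncomputable section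

namespace Fermat.Agent.S36

open Fermat.Agent.S18 Fermat.Agent.S24 Fermat.Agent.S34 Fermat.Agent.GalRep Fermat.Agent.Lib
  Fermat.Agent.S17 Fermat.Agent.S19

local notation "ℚbar" => AlgebraicClosure ℚ

variable (M q : ℕ) [NeZero M] [NeZero q] (hq : q.Prime) (hqM : ¬ q ∣ M)
  (A : ValuationSubring ℚbar)
  (ζ : ℚbarˣ) (hζ : ζ ^ q = 1) (hζ1 : ζ ≠ 1)

/-- the ring of inertia-fixed functions of level `M q²` which are regular off the cusps. -/
def S36OL_B : Subring ↥(modularFunctionFieldBar (M * q * q)) :=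
  (S36FI_act (M * q * q) (A.inertiaSubgroupIn ℚ)).fixF.toSubring ⊓
    (S34SB_reg ℚbar (jB (M * q * q))).toSubring

theorem S36OL_mem_B {f : ↥(modularFunctionFieldBar (M * q * q))} :
    f ∈ S36OL_B M q A ↔ f ∈ (S36FI_act (M * q * q) (A.inertiaSubgroupIn ℚ)).fixF ∧
      ∀ Q : Place ℚbar ↥(modularFunctionFieldBar (M * q * q)), 0 ≤ Q.ord (jB (M * q * q)) →
        f ∈ Q.toValuationSubring := by
  rw [S36OL_B, Subring.mem_inf, Subalgebra.mem_toSubring, S34SB_mem_reg]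
  rfl

/-- membership from the order form of regularity. -/
theorem S36OL_mem_B_of_ord {f : ↥(modularFunctionFieldBar (M * q * q))}
    (hfix : f ∈ (S36FI_act (M * q * q) (A.inertiaSubgroupIn ℚ)).fixF)
    (hreg : ∀ Q : Place ℚbar ↥(modularFunctionFieldBar (M * q * q)),
      0 ≤ Q.ord (jB (M * q * q)) → 0 ≤ Q.ord f) : f ∈ S36OL_B M q A := by
  rw [S36OL_mem_B]
  refine ⟨hfix, fun Q hQ => ?_⟩
  by_cases h0 : f = 0
  · rw [h0]
    exact Q.toValuationSubring.zero_mem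
  · exact (BG_mem_iff_ord_nonneg Q h0).2 (hreg Q hQ)

/-- `q⁻¹ ∈ B`. -/
theorem S36OL_B_q_inv :
    (algebraMap ℚbar ↥(modularFunctionFieldBar (M * q * q)) (q : ℚbar))⁻¹ ∈ S36OL_B M q A := by
  rw [S36OL_mem_B]
  refine ⟨?_, fun Q _ => ?_⟩
  · refine Subfield.inv_mem _ ?_
    rw [map_natCast]
    exact natCast_mem _ q
  · rw [← map_inv₀]
    exact Q.algebraMap_mem' _

/-- a function of `L(m · ∞)` is regular off the cusps. -/
theorem S36OL_reg_of_mem (m : ℕ) {τ : ↥(modularFunctionFieldBar M)}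
    (hτ : τ ∈ riemannRochSpace (S17EM_D M m))
    (P : Place ℚbar ↥(modularFunctionFieldBar M)) (hP : 0 ≤ P.ord (jB M)) : 0 ≤ P.ord τ := by
  classical
  have hne : P ≠ S17EM_O M := by
    rintro rfl
    rw [S17EM_ord_O M (S17EM_jB_ne_zero M), ← S17EM_w_def, S17EM_order_jB] at hP
    norm_num at hP
  rw [mem_riemannRochSpace_iff] at hτ
  rcases hτ P with h0 | h1
  · rw [h0, Place.ord_zero]
  · rwa [S17EM_D, Finsupp.single_apply, if_neg (Ne.symm hne), neg_zero] at h1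

/-- `δ_A^* τ, δ_B^* τ, δ_C^* τ ∈ B` for `G_ℚ`-fixed `τ ∈ L(m · ∞)`. -/
theorem S36OL_B_pull (m : ℕ) (τ : ↥(modularFunctionFieldBar M))
    (hfix : ∀ σ : ℚbar ≃ₐ[ℚ] ℚbar,
      arithmeticGalois (modularFunctionFieldFull M) σ • τ = τ)
    (hτ : τ ∈ riemannRochSpace (S17EM_D M m)) :
    S36OQ_dA M q τ ∈ S36OL_B M q A ∧ S36FR_dB M q τ ∈ S36OL_B M q A ∧
      S36OQ_dC M q τ ∈ S36OL_B M q A := by
  have hF : τ ∈ (S36FI_act M (A.inertiaSubgroupIn ℚ)).fixF :=
    S36PA_fix_of_smul M (A.inertiaSubgroupIn ℚ) (fun σ _ => hfix σ)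
  have hreg := S36OL_reg_of_mem M m hτ
  refine ⟨?_, ?_, ?_⟩
  · exact S36OL_mem_B_of_ord M q A (S36VR_fix_alpha (M * q) q _ (S36VR_fix_alpha M q _ hF))
      (fun Q hQ => S36PA_reg_AA M q hreg Q hQ)
  · exact S36OL_mem_B_of_ord M q A (S36VR_fix_alpha (M * q) q _ (S36VR_fix_beta M q _ hF))
      (fun Q hQ => S36PA_reg_alpha (M * q) q (fun P hP => S36PA_reg_beta M q hreg P hP) Q hQ)
  · exact S36OL_mem_B_of_ord M q A (S36VR_fix_beta (M * q) q _ (S36VR_fix_beta M q _ hF))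
      (fun Q hQ => S36PA_reg_BB M q hreg Q hQ)

/-- **`hord` of `S36OI_main`**, with `B = S36OL_B M q A`. -/
theorem S36OL_hord_B (hA : A.LiesOverPrime q)
    (v : Place (IsLocalRing.ResidueField A)
      ↥(modularFunctionFieldFullC (IsLocalRing.ResidueField A) M))
    (hv : 0 ≤ v.ord (S18_jbar M (IsLocalRing.ResidueField A)))
    (hreg : ∀ f : ↥(modularFunctionFieldBar (M * q * q)), f ∈ S36OL_B M q A →
      f ∈ S36V_G A (S36V_emFF M q) → f ∈ S36V_G A (S36V_emVV M q hq hqM) →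
      ∀ hf : f ∈ S36V_G A (S36V_emFV M q hq hqM ζ hζ hζ1),
      ∃ e : ↥(modularFunctionFieldFullC (IsLocalRing.ResidueField A) M),
        (e : LaurentSeries (IsLocalRing.ResidueField A)) =
          S36V_Gred A (S36V_emFV M q hq hqM ζ hζ hζ1) ⟨f, hf⟩ ∧ 0 ≤ v.ord e)
    (hg : ∃ g : ↥(modularFunctionFieldBar (M * q * q)), g ∈ S36OL_B M q A ∧
      (algebraMap ℚbar ↥(modularFunctionFieldBar (M * q * q)) (q : ℚbar))⁻¹ * g ∈
        S36V_G A (S36V_emFF M q) ∧
      (algebraMap ℚbar ↥(modularFunctionFieldBar (M * q * q)) (q : ℚbar))⁻¹ * g ∈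
        S36V_G A (S36V_emVV M q hq hqM) ∧
      ∃ (hgFV : g ∈ S36V_G A (S36V_emFV M q hq hqM ζ hζ hζ1))
        (eg : ↥(modularFunctionFieldFullC (IsLocalRing.ResidueField A) M)),
        (eg : LaurentSeries (IsLocalRing.ResidueField A)) =
          S36V_Gred A (S36V_emFV M q hq hqM ζ hζ hζ1) ⟨g, hgFV⟩ ∧ eg ≠ 0 ∧ v.ord eg = 0) :
    ∃ (τ Hτ : ↥(modularFunctionFieldFullC (IsLocalRing.ResidueField A) M))
      (c : IsLocalRing.ResidueField A),
      v.ord (τ - algebraMap (IsLocalRing.ResidueField A)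
        ↥(modularFunctionFieldFullC (IsLocalRing.ResidueField A) M) c) = 1 ∧
      (Hτ : LaurentSeries (IsLocalRing.ResidueField A)) =
        -(LT_theta (τ : LaurentSeries (IsLocalRing.ResidueField A))) ^ (q - 1) ∧
      0 ≤ v.ord Hτ :=
  S36OL_hord M q hq hqM A ζ hζ hζ1 hA (S36OL_B M q A) (S36OL_B_q_inv M q A)
    (S36OL_B_pull M q A) v hv hreg hg

/-- **`hss` of `S36OI_main`**, with `B = S36OL_B M q A`. -/
theorem S36OL_hss_B [NeZero (M * q)] (hA : A.LiesOverPrime q)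
    {hgen : PrincipalGeneratedByIntegral A (IsLocalRing.residue A) (M * q)}
    {n : ℕ} {hn : 0 < n} (D : S36SS_Data M q hq hqM A hgen n hn)
    (v : Place (IsLocalRing.ResidueField A)
      ↥(modularFunctionFieldFullC (IsLocalRing.ResidueField A) M))
    (hv : v ∈ D.SS)
    (hreg : ∀ f : ↥(modularFunctionFieldBar (M * q * q)), f ∈ S36OL_B M q A →
      f ∈ S36V_G A (S36V_emFF M q) → f ∈ S36V_G A (S36V_emVV M q hq hqM) →
      ∀ hf : f ∈ S36V_G A (S36V_emFV M q hq hqM ζ hζ hζ1),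
      ∃ e : ↥(modularFunctionFieldFullC (IsLocalRing.ResidueField A) M),
        (e : LaurentSeries (IsLocalRing.ResidueField A)) =
          S36V_Gred A (S36V_emFV M q hq hqM ζ hζ hζ1) ⟨f, hf⟩ ∧ 0 ≤ v.ord e) :
    ∃ (τ Hτ : ↥(modularFunctionFieldFullC (IsLocalRing.ResidueField A) M))
      (c : IsLocalRing.ResidueField A),
      v.ord (τ - algebraMap (IsLocalRing.ResidueField A)
        ↥(modularFunctionFieldFullC (IsLocalRing.ResidueField A) M) c) = 1 ∧
      (Hτ : LaurentSeries (IsLocalRing.ResidueField A)) =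
        -(LT_theta (τ : LaurentSeries (IsLocalRing.ResidueField A))) ^ (q - 1) ∧
      -2 ≤ v.ord Hτ :=
  S36OL_hss M q hq hqM A ζ hζ hζ1 hA D (S36OL_B M q A) (S36OL_B_q_inv M q A)
    (S36OL_B_pull M q A) v hv hreg

end Fermat.Agent.S36
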