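import Fermat.Agent.S36.RamJ0
import Fermat.Agent.S34.OntoM

/-!
# TRACK 10 (S36), package RAMJ, part 2 (helper25), prefix `S36RJ_`: ramification of `j̄` in char `ℓ`

`ℓ ∤ N`, `A ⊂ ℚ̄` a valuation ring over `ℓ`, `k` its residue field, `F_k = k(X̄₀(N))`,
`j̄ = S18_jbar N k`.

* `S36RJ_dvd_red`   : abstract (`S18_Spec`): if `r` maps poles of `x` to poles of `red x` and `e`
  divides the order of `x` at every zero of `x`, then `e` divides the order of `red x` at every
  place where `red x` is regular;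
* `S36RJ_three_dvd` : `ν₃(N) = 0` ⇒ `3 ∣ ord_Q j̄` at every place `Q` with `0 ≤ ord_Q j̄`;
* `S36RJ_two_dvd`   : `ν₂(N) = 0` ⇒ `2 ∣ ord_Q (j̄ − 1728)` at every place `Q` with
  `0 ≤ ord_Q (j̄ − 1728)`;
* `S36RJ_card_zero_le`, `S36RJ_card_1728_le` : the counting forms
  `3 · #{Q | 0 < ord_Q j̄} ≤ ψ(N)`, `2 · #{Q | 0 < ord_Q (j̄ − 1728)} ≤ ψ(N)`.
-/

set_option autoImplicit false
set_option synthInstance.maxHeartbeats 400000
set_option maxHeartbeats 1000000
set_option linter.style.haveILetI false
set_option linter.unusedSectionVars false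

open HahnSeries IntermediateField AlgebraicCurve ModularCurve

namespace Fermat.Agent.S36

open Fermat.Agent.Lib Fermat.Agent.S24 Fermat.Agent.S18 Fermat.Agent.S34

section Abstract

variable {L F k Fk : Type*} [Field L] [Field F] [Algebra L F] [Field k] [Field Fk]
  [Algebra k Fk] (S : S18_Spec L F k Fk)

/-- **divisibility of orders passes to the reduction.** -/
theorem S36RJ_dvd_red (hPD : HasPrincipalDivisors L F) (x : S.O) (hx : S.red x ≠ 0)
    (hpole : ∀ P : Place L F, P.ord (x : F) < 0 → (S.r P).ord (S.red x) < 0)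
    (e : ℤ) (he : ∀ P : Place L F, 0 < P.ord (x : F) → e ∣ P.ord (x : F))
    (Q : Place k Fk) (hQ : 0 ≤ Q.ord (S.red x)) : e ∣ Q.ord (S.red x) := by
  classical
  have hx0 : (x : F) ≠ 0 := S.ne_zero_of_red_ne_zero hx
  obtain ⟨D, hD, -⟩ := hPD.exists_divisor (x : F) hx0
  rw [← S.mapDomain_div x hx D hD Q, Finsupp.mapDomain, Finsupp.sum_apply, Finsupp.sum]
  refine Finset.dvd_sum fun P _ => ?_
  rw [Finsupp.single_apply]
  split_ifs with h
  · rw [hD P]
    rcases lt_trichotomy (P.ord (x : F)) 0 with h1 | h1 | h1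
    · exfalso
      have := hpole P h1
      rw [h] at this
      omega
    · rw [h1]
      exact dvd_zero _
    · exact he P h1
  · exact dvd_zero _

end Abstract

section X0

variable (N : ℕ) [NeZero N] (A : ValuationSubring (AlgebraicClosure ℚ)) {ℓ : ℕ}

/-- the specialisation map sends the poles of `j` to poles of `j̄`. -/
theorem S36RJ_pole (hℓ : ℓ.Prime) (hA : A.LiesOverPrime ℓ) (hℓN : ¬ ℓ ∣ N)
    (h : ReductionInputsModL A N)
    (P : Place (AlgebraicClosure ℚ) ↥(modularFunctionFieldBar N)) (hP : P.ord (jB N) < 0) :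
    ((S18_specModL N A h).r P).ord (S18_jbar N (IsLocalRing.ResidueField A)) < 0 := by
  obtain ⟨Pl, T, hPl, hT, hsum⟩ := S18_poles_sum_le_k N A hℓ hA hℓN
  have hred := S18_red_jO N A h
  have hne : (S18_specModL N A h).red (S18_jO N A h) ≠ 0 := by
    rw [hred]
    intro h0
    haveI : IsAlgClosed (IsLocalRing.ResidueField A) := S18_residue_isAlgClosed A
    have htr := S18_transcendental_jbar (k := IsLocalRing.ResidueField A) N
    rw [h0] at htr
    exact htr isAlgebraic_zero
  have := ((S18_specModL N A h).LC_compat (S18_hRR N).principal (S18_jO N A h) hne Pl hPl T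
    (by rw [hred]; exact hT) (by rw [hred]; exact hsum)).1 P hP
  rwa [hred] at this

/-- **`3 ∣ ord_Q j̄`** at every place where `j̄` is regular, if `ν₃(N) = 0`. -/
theorem S36RJ_three_dvd (hℓ : ℓ.Prime) (hA : A.LiesOverPrime ℓ) (hℓN : ¬ ℓ ∣ N)
    (hν : ModularCurve.nuThree N = 0)
    (Q : Place (IsLocalRing.ResidueField A)
      ↥(modularFunctionFieldFullC (IsLocalRing.ResidueField A) N))
    (hQ : 0 ≤ Q.ord (S18_jbar N (IsLocalRing.ResidueField A))) :
    (3 : ℤ) ∣ Q.ord (S18_jbar N (IsLocalRing.ResidueField A)) := by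
  have h : ReductionInputsModL A N := RI_main N A hℓ hA hℓN
  have hred := S18_red_jO N A h
  have hne : (S18_specModL N A h).red (S18_jO N A h) ≠ 0 := by
    rw [hred]
    intro h0
    haveI : IsAlgClosed (IsLocalRing.ResidueField A) := S18_residue_isAlgClosed A
    have htr := S18_transcendental_jbar (k := IsLocalRing.ResidueField A) N
    rw [h0] at htr
    exact htr isAlgebraic_zero
  have := S36RJ_dvd_red (S18_specModL N A h) (S18_hRR N).principal (S18_jO N A h) hne
    (fun P hP => by rw [hred]; exact S36RJ_pole N A hℓ hA hℓN h P hP) 3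
    (fun P hP => by
      rw [S18_jO_coe] at hP ⊢
      rw [S36RJ_ord_zero_eq N hν P hP]) Q (by rw [hred]; exact hQ)
  rwa [hred] at this

/-- **`2 ∣ ord_Q (j̄ − 1728)`** at every place where `j̄` is regular, if `ν₂(N) = 0`. -/
theorem S36RJ_two_dvd (hℓ : ℓ.Prime) (hA : A.LiesOverPrime ℓ) (hℓN : ¬ ℓ ∣ N)
    (hν : ModularCurve.nuTwo N = 0)
    (Q : Place (IsLocalRing.ResidueField A)
      ↥(modularFunctionFieldFullC (IsLocalRing.ResidueField A) N))
    (hQ : 0 ≤ Q.ord (S18_jbar N (IsLocalRing.ResidueField A))) :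
    (2 : ℤ) ∣ Q.ord (S18_jbar N (IsLocalRing.ResidueField A) -
      algebraMap (IsLocalRing.ResidueField A)
        ↥(modularFunctionFieldFullC (IsLocalRing.ResidueField A) N) 1728) := by
  have h : ReductionInputsModL A N := RI_main N A hℓ hA hℓN
  set S := S18_specModL N A h with hS
  have hred := S18_red_jO N A h
  haveI : IsAlgClosed (IsLocalRing.ResidueField A) := S18_residue_isAlgClosed A
  have htr := S18_transcendental_jbar (k := IsLocalRing.ResidueField A) N
  -- the constant `1728`
  have hcA : (1728 : AlgebraicClosure ℚ) ∈ S.A := by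
    have : ((1728 : S.A) : AlgebraicClosure ℚ) = 1728 := rfl
    rw [← this]
    exact (1728 : S.A).2
  have hcO : algebraMap (AlgebraicClosure ℚ) ↥(modularFunctionFieldBar N) 1728 ∈ S.O :=
    (S.algebraMap_mem_iff _).mpr hcA
  have hres : S.res ⟨1728, hcA⟩ = 1728 := by
    have : (⟨1728, hcA⟩ : S.A) = (1728 : S.A) := rfl
    rw [this, map_ofNat]
  set x : S.O := S18_jO N A h - ⟨_, hcO⟩ with hx
  have hxF : (x : ↥(modularFunctionFieldBar N)) =
      jB N - algebraMap (AlgebraicClosure ℚ) ↥(modularFunctionFieldBar N) 1728 := rfl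
  have hxred : S.red x = S18_jbar N (IsLocalRing.ResidueField A) -
      algebraMap (IsLocalRing.ResidueField A)
        ↥(modularFunctionFieldFullC (IsLocalRing.ResidueField A) N) 1728 := by
    rw [hx, map_sub, hred, S.red_algebraMap 1728 hcA hcO, hres]
  have hne : S.red x ≠ 0 := by
    rw [hxred]
    intro h0
    rw [sub_eq_zero] at h0
    rw [h0] at htr
    exact htr (isAlgebraic_algebraMap _)
  have := S36RJ_dvd_red S (S18_hRR N).principal x hne
    (fun P hP => by
      rw [hxred]
      rw [hxF] at hP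
      have hPj : P.ord (jB N) < 0 := by
        by_contra hcon
        push Not at hcon
        have := LC_ord_sub_const_nonneg P hcon (1728 : AlgebraicClosure ℚ)
        omega
      have hQj := S36RJ_pole N A hℓ hA hℓN h P hPj
      rw [LC_ord_sub_const_of_neg _ hQj]
      exact hQj) 2
    (fun P hP => by
      rw [hxF] at hP ⊢
      rw [S36RJ_ord_1728_eq N hν P hP]) Q
    (by rw [hxred]; exact LC_ord_sub_const_nonneg Q hQ _)
  rwa [hxred] at this

end X0

end Fermat.Agent.S36
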