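import Fermat.Agent.S36.OrdLowerInst
import Fermat.Agent.S36.FrobRat
import Fermat.Agent.S36.SSCard
import Fermat.Agent.S36.RamJ

/-!
# TRACK 10 (S36), package C2.4 = ORD-LOWER (helper16), part 4: `hord` and `hss` of `S36OI_main`

`M`, `q ∤ M` prime, `A ⊂ ℚ̄` over `q`, `ζ` a primitive `q`-th root of unity, `κ = F̄_M`,
`F₂ = F_{M q²}` with its Gauss rings `FF`, `FV`, `VV`.  `B ⊂ F₂` any subring with

* `hqB`   : `q⁻¹ ∈ B`;
* `hpull` : `δ_A^* τ, δ_B^* τ, δ_C^* τ ∈ B` for every `G_ℚ`-fixed `τ ∈ L(m · ∞)` of level `M`;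
* `hreg`  : at the place `v`: the reduction along `FV` of every `f ∈ B ∩ FF ∩ FV ∩ VV` lies in `κ`
            and is regular at `v`   (FIN-INST);
* `hg`    : (ordinary `v` only) some `g ∈ B` with `q⁻¹ g ∈ FF ∩ VV`, `g ∈ FV`, `red_FV g ∈ κ` a unit
            at `v`   (NODAL3-INST (a)).

Then (`S36OL_hord`, `S36OL_hss`) there are `τ, H_τ ∈ κ`, `c ∈ k` with `ord_v (τ - c) = 1`,
`H_τ = -(θ τ)^(q-1)` and `0 ≤ ord_v H_τ` (ordinary), `-2 ≤ ord_v H_τ` (`v ∈ SS`, helper3's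
`S36SS_Data`): literally the hypotheses `hord`, `hss` of `S36OI_main` (helper22).

Inputs used: `S36OL_tau` (the rational local coordinate), `S36FR_R1..R5` (helper24),
`S36SS_const` (helper3), `S36RJ_pole`.
-/

set_option autoImplicit false
set_option synthInstance.maxHeartbeats 400000
set_option maxHeartbeats 1000000
set_option linter.style.haveILetI false
set_option linter.unusedSectionVars false

open HahnSeries IntermediateField AlgebraicCurve ModularCurve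

noncomputable section

namespace Fermat.Agent.S36

open Fermat.Agent.S18 Fermat.Agent.S24 Fermat.Agent.S34 Fermat.Agent.GalRep Fermat.Agent.Lib
  Fermat.Agent.S17 Fermat.Agent.S19

local notation "ℚbar" => AlgebraicClosure ℚ

variable (M q : ℕ) [NeZero M] [NeZero q] (hq : q.Prime) (hqM : ¬ q ∣ M)
  (A : ValuationSubring ℚbar)
  (ζ : ℚbarˣ) (hζ : ζ ^ q = 1) (hζ1 : ζ ≠ 1)

include hq hqM in
/-- the reduction of the cusp `∞` is a pole of `j̄`. -/
theorem S36OL_cusp_pole (hA : A.LiesOverPrime q) (h : ReductionInputsModL A M) :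
    ((S18_specModL M A h).r (S17EM_O M)).ord (S18_jbar M (IsLocalRing.ResidueField A)) < 0 := by
  refine S36RJ_pole M A hq hA hqM h (S17EM_O M) ?_
  rw [S17EM_ord_O M (S17EM_jB_ne_zero M), ← S17EM_w_def, S17EM_order_jB]
  norm_num

include hq hqM in
/-- **the rational local coordinate at a non-cuspidal place**, as an element of `S18_O A M`,
with regular reduction. -/
theorem S36OL_tau' (hA : A.LiesOverPrime q)
    (v : Place (IsLocalRing.ResidueField A)
      ↥(modularFunctionFieldFullC (IsLocalRing.ResidueField A) M))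
    (hv : 0 ≤ v.ord (S18_jbar M (IsLocalRing.ResidueField A))) :
    ∃ (m : ℕ) (τ : S18_O A M) (c : IsLocalRing.ResidueField A),
      (∀ σ : ℚbar ≃ₐ[ℚ] ℚbar,
        arithmeticGalois (modularFunctionFieldFull M) σ • (τ : ↥(modularFunctionFieldBar M)) =
          (τ : ↥(modularFunctionFieldBar M))) ∧
      (τ : ↥(modularFunctionFieldBar M)) ∈ riemannRochSpace (S17EM_D M m) ∧
      v.ord (S18_red A M τ - algebraMap (IsLocalRing.ResidueField A)
        ↥(modularFunctionFieldFullC (IsLocalRing.ResidueField A) M) c) = 1 ∧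
      S18_red A M τ ∈ S34SB_reg (IsLocalRing.ResidueField A)
        (S18_jbar M (IsLocalRing.ResidueField A)) := by
  classical
  haveI : Fact q.Prime := ⟨hq⟩
  have h : ReductionInputsModL A M := RI_main M A hq hA hqM
  have hpole := S36OL_cusp_pole M q hq hqM A hA h
  have hne : v ≠ (S18_specModL M A h).r (S17EM_O M) := by
    rintro rfl
    exact absurd hv (not_le.2 hpole)
  obtain ⟨m, τ, hτ, c, hfix, hmem, hord⟩ := S36OL_tau M A h hA hqM v hne
  refine ⟨m, ⟨τ, hτ⟩, c, hfix, hmem, hord, ?_⟩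
  rw [S34SB_mem_reg]
  intro Q hQ
  have hQne : Q ≠ (S18_specModL M A h).r (S17EM_O M) := by
    rintro rfl
    exact absurd hQ (not_le.2 hpole)
  have hred := S19RR_red_mem (S18_specModL M A h) (S18_hPD M) (S17EM_D M m) ⟨τ, hτ⟩ hmem
  rw [S17EM_D, Finsupp.mapDomain_single, mem_riemannRochSpace_iff] at hred
  rcases hred Q with h0 | h1
  · have h0' : S18_red A M ⟨τ, hτ⟩ = 0 := h0
    rw [h0']
    exact Q.toValuationSubring.zero_mem
  · rw [Finsupp.single_apply, if_neg (Ne.symm hQne), neg_zero] at h1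
    have h1' : 0 ≤ Q.ord (S18_red A M ⟨τ, hτ⟩) := h1
    by_cases h0 : S18_red A M ⟨τ, hτ⟩ = 0
    · rw [h0]
      exact Q.toValuationSubring.zero_mem
    · exact (BG_mem_iff_ord_nonneg Q h0).2 h1'

/-- **`hord` of `S36OI_main`** at an ordinary place `v`. -/
theorem S36OL_hord (hA : A.LiesOverPrime q)
    (B : Subring ↥(modularFunctionFieldBar (M * q * q)))
    (hqB : (algebraMap ℚbar ↥(modularFunctionFieldBar (M * q * q)) (q : ℚbar))⁻¹ ∈ B)
    (hpull : ∀ (m : ℕ) (τ : ↥(modularFunctionFieldBar M)),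
      (∀ σ : ℚbar ≃ₐ[ℚ] ℚbar, arithmeticGalois (modularFunctionFieldFull M) σ • τ = τ) →
      τ ∈ riemannRochSpace (S17EM_D M m) →
      S36OQ_dA M q τ ∈ B ∧ S36FR_dB M q τ ∈ B ∧ S36OQ_dC M q τ ∈ B)
    (v : Place (IsLocalRing.ResidueField A)
      ↥(modularFunctionFieldFullC (IsLocalRing.ResidueField A) M))
    (hv : 0 ≤ v.ord (S18_jbar M (IsLocalRing.ResidueField A)))
    (hreg : ∀ f : ↥(modularFunctionFieldBar (M * q * q)), f ∈ B →
      f ∈ S36V_G A (S36V_emFF M q) → f ∈ S36V_G A (S36V_emVV M q hq hqM) →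
      ∀ hf : f ∈ S36V_G A (S36V_emFV M q hq hqM ζ hζ hζ1),
      ∃ e : ↥(modularFunctionFieldFullC (IsLocalRing.ResidueField A) M),
        (e : LaurentSeries (IsLocalRing.ResidueField A)) =
          S36V_Gred A (S36V_emFV M q hq hqM ζ hζ hζ1) ⟨f, hf⟩ ∧ 0 ≤ v.ord e)
    (hg : ∃ g : ↥(modularFunctionFieldBar (M * q * q)), g ∈ B ∧
      (algebraMap ℚbar ↥(modularFunctionFieldBar (M * q * q)) (q : ℚbar))⁻¹ * g ∈
        S36V_G A (S36V_emFF M q) ∧
      (algebraMap ℚbar ↥(modularFunctionFieldBar (M * q * q)) (q : ℚbar))⁻¹ * g ∈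
        S36V_G A (S36V_emVV M q hq hqM) ∧
      ∃ (hgFV : g ∈ S36V_G A (S36V_emFV M q hq hqM ζ hζ hζ1))
        (eg : ↥(modularFunctionFieldFullC (IsLocalRing.ResidueField A) M)),
        (eg : LaurentSeries (IsLocalRing.ResidueField A)) =
          S36V_Gred A (S36V_emFV M q hq hqM ζ hζ hζ1) ⟨g, hgFV⟩ ∧ eg ≠ 0 ∧ v.ord eg = 0) :
    ∃ (τ Hτ : ↥(modularFunctionFieldFullC (IsLocalRing.ResidueField A) M))
      (c : IsLocalRing.ResidueField A),
      v.ord (τ - algebraMap (IsLocalRing.ResidueField A)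
        ↥(modularFunctionFieldFullC (IsLocalRing.ResidueField A) M) c) = 1 ∧
      (Hτ : LaurentSeries (IsLocalRing.ResidueField A)) =
        -(LT_theta (τ : LaurentSeries (IsLocalRing.ResidueField A))) ^ (q - 1) ∧
      0 ≤ v.ord Hτ := by
  haveI : Fact q.Prime := ⟨hq⟩
  haveI : CharP (IsLocalRing.ResidueField A) q := S18_residue_charP A q hq hA
  obtain ⟨m, τ, c, hfix, hmem, hord, -⟩ := S36OL_tau' M q hq hqM A hA v hv
  obtain ⟨hdA, -, hdC⟩ := hpull m τ hfix hmem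
  obtain ⟨g, hgB, hgFF, hgVV, hgFV, eg, heg, heg0, hegv⟩ := hg
  obtain ⟨H, hH, hHv⟩ := S36OL_X0_ord M q hq hqM A ζ hζ hζ1 B v hreg hqB τ hdA hdC g hgB hgFF
    hgVV hgFV eg heg heg0 hegv
  exact ⟨S18_red A M τ, H, c, hord, hH, hHv⟩

/-- **`hss` of `S36OI_main`** at a supersingular place `v ∈ SS` (helper3's `S36SS_Data`). -/
theorem S36OL_hss [NeZero (M * q)] (hA : A.LiesOverPrime q)
    {hgen : PrincipalGeneratedByIntegral A (IsLocalRing.residue A) (M * q)}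
    {n : ℕ} {hn : 0 < n} (D : S36SS_Data M q hq hqM A hgen n hn)
    (B : Subring ↥(modularFunctionFieldBar (M * q * q)))
    (hqB : (algebraMap ℚbar ↥(modularFunctionFieldBar (M * q * q)) (q : ℚbar))⁻¹ ∈ B)
    (hpull : ∀ (m : ℕ) (τ : ↥(modularFunctionFieldBar M)),
      (∀ σ : ℚbar ≃ₐ[ℚ] ℚbar, arithmeticGalois (modularFunctionFieldFull M) σ • τ = τ) →
      τ ∈ riemannRochSpace (S17EM_D M m) →
      S36OQ_dA M q τ ∈ B ∧ S36FR_dB M q τ ∈ B ∧ S36OQ_dC M q τ ∈ B)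
    (v : Place (IsLocalRing.ResidueField A)
      ↥(modularFunctionFieldFullC (IsLocalRing.ResidueField A) M))
    (hv : v ∈ D.SS)
    (hreg : ∀ f : ↥(modularFunctionFieldBar (M * q * q)), f ∈ B →
      f ∈ S36V_G A (S36V_emFF M q) → f ∈ S36V_G A (S36V_emVV M q hq hqM) →
      ∀ hf : f ∈ S36V_G A (S36V_emFV M q hq hqM ζ hζ hζ1),
      ∃ e : ↥(modularFunctionFieldFullC (IsLocalRing.ResidueField A) M),
        (e : LaurentSeries (IsLocalRing.ResidueField A)) =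
          S36V_Gred A (S36V_emFV M q hq hqM ζ hζ hζ1) ⟨f, hf⟩ ∧ 0 ≤ v.ord e) :
    ∃ (τ Hτ : ↥(modularFunctionFieldFullC (IsLocalRing.ResidueField A) M))
      (c : IsLocalRing.ResidueField A),
      v.ord (τ - algebraMap (IsLocalRing.ResidueField A)
        ↥(modularFunctionFieldFullC (IsLocalRing.ResidueField A) M) c) = 1 ∧
      (Hτ : LaurentSeries (IsLocalRing.ResidueField A)) =
        -(LT_theta (τ : LaurentSeries (IsLocalRing.ResidueField A))) ^ (q - 1) ∧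
      -2 ≤ v.ord Hτ := by
  haveI : Fact q.Prime := ⟨hq⟩
  haveI : CharP (IsLocalRing.ResidueField A) q := S18_residue_charP A q hq hA
  obtain ⟨m, τ, c, hfix, hmem, hord, hτreg⟩ :=
    S36OL_tau' M q hq hqM A hA v (D.SS_reg v hv)
  obtain ⟨hdA, hdB, hdC⟩ := hpull m τ hfix hmem
  have hR5 := S36FR_R5 M q A τ hfix
  have hFr : S34NX_Fr M q A hq hA (S18_red A M τ) = S18_red A M τ ^ q := Subtype.ext hR5
  have hc : c ^ (q ^ 2) = c :=
    S36SS_const hA D v hv (S18_red A M τ) hτreg hFr c (by rw [hord]; exact one_pos)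
  obtain ⟨⟨h1FF, h2FF⟩, ⟨h1FV, h2FV⟩, ⟨h1VV, h2VV⟩⟩ := S36FR_t_mem M q hq hqM A ζ hζ hζ1 τ
  have h1B : S36FR_t1 M q (τ : ↥(modularFunctionFieldBar M)) ∈ B :=
    B.sub_mem hdC (B.pow_mem hdB q)
  have h2B : S36FR_t2 M q (τ : ↥(modularFunctionFieldBar M)) ∈ B :=
    B.sub_mem hdA (B.pow_mem hdB q)
  obtain ⟨H, hH, hHv⟩ := S36OL_X0_ss M q hq hqM A ζ hζ hζ1 B v hreg hqB τ hdA hdC
    (S36FR_t1 M q τ) (S36FR_t2 M q τ) h1B h2B
    (S36FR_R1 M q hq A τ hfix) h2FF h1VV (S36FR_R2 M q hq hqM A τ hfix) h1FV h2FV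
    (S36FR_R3_t1 M q hq hqM A ζ hζ hζ1 τ hfix h1FV)
    (S36FR_R3_t2 M q hq hqM A ζ hζ hζ1 τ hfix h2FV) c hord hc
  exact ⟨S18_red A M τ, H, c, hord, hH, hHv⟩

end Fermat.Agent.S36
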