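import Mathlib
import Fermat.Agent.S19.RatB
import Fermat.Agent.S19.LiftPRB
import Fermat.Agent.S17.NGSep

/-!
# TRACK 10 (S36), package C2.4 = ORD-LOWER (helper16), part 2: the functions `τ_v`

Level `N` (`= M`), `ℓ ∤ N` (`= q`), `A ⊂ ℚ̄` over `ℓ`, `k` its residue field, `κ` the function
field of the reduction.  For every place `Q` of `κ` other than the reduction of the cusp `∞`
there is a function `τ` of level `N` which is

* fixed by `G_ℚ` (rational `q`-expansion; in particular fixed by inertia),
* Gauss-integral (`τ ∈ O`),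
* regular off the cusp `∞` (`τ ∈ L(m · ∞)`),

and whose reduction `τ̄` is a local coordinate at `Q`: `ord_Q (τ̄ - c) = 1`.

`S36OL_tau` : the statement; from T9's RATB (`S19RB_main`, a `G_ℚ`-fixed orthonormal basis of
`L(m · ∞)`), RED-RR (`S19LF_span_of_chart`) and the immersion lemma `S17NGS_immersion`.
-/

set_option autoImplicit false
set_option synthInstance.maxHeartbeats 400000
set_option maxHeartbeats 1000000
set_option linter.unusedSectionVars false
set_option linter.style.haveILetI false

open HahnSeries IntermediateField AlgebraicCurve ModularCurve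

namespace Fermat.Agent.S36

open Fermat.Agent.S18 Fermat.Agent.Lib Fermat.Agent.S17 Fermat.Agent.S19

variable (N : ℕ) [NeZero N] (A : ValuationSubring (AlgebraicClosure ℚ))
  (h : ReductionInputsModL A N)

/-- **the functions `τ_v`**: rational, integral, regular off `∞`, local coordinate at `Q`. -/
theorem S36OL_tau {ℓ : ℕ} [Fact ℓ.Prime] (hA : A.LiesOverPrime ℓ) (hℓN : ¬ ℓ ∣ N)
    (Q : Place (IsLocalRing.ResidueField A)
      ↥(modularFunctionFieldFullC (IsLocalRing.ResidueField A) N))
    (hQ : Q ≠ (S18_specModL N A h).r (S17EM_O N)) :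
    ∃ (m : ℕ) (τ : ↥(modularFunctionFieldBar N)) (hτ : τ ∈ (S18_specModL N A h).O)
      (c : IsLocalRing.ResidueField A),
      (∀ σ : AlgebraicClosure ℚ ≃ₐ[ℚ] AlgebraicClosure ℚ,
        arithmeticGalois (modularFunctionFieldFull N) σ • τ = τ) ∧
      τ ∈ riemannRochSpace (S17EM_D N m) ∧
      Q.ord ((S18_specModL N A h).red ⟨τ, hτ⟩ -
        algebraMap (IsLocalRing.ResidueField A)
          ↥(modularFunctionFieldFullC (IsLocalRing.ResidueField A) N) c) = 1 := by
  classical
  have hℓ : ℓ.Prime := Fact.out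
  haveI : IsAlgClosed (IsLocalRing.ResidueField A) := S18_residue_isAlgClosed A
  haveI : Infinite (IsLocalRing.ResidueField A) := IsAlgClosed.instInfinite
  have hk := S18_hk N A hℓ hA hℓN
  set g := RR_genus (IsLocalRing.ResidueField A)
    ↥(modularFunctionFieldFullC (IsLocalRing.ResidueField A) N) with hg
  set m : ℕ := 2 * g + 2 with hm
  obtain ⟨n, b, hO, hinv, hmem, hspan, hred⟩ := S19RB_main N A h hA hℓN m
  set Dk : Divisor (IsLocalRing.ResidueField A)
      ↥(modularFunctionFieldFullC (IsLocalRing.ResidueField A) N) :=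
    Finsupp.single ((S18_specModL N A h).r (S17EM_O N)) (m : ℤ) with hDk
  set e : Fin n → ↥(modularFunctionFieldFullC (IsLocalRing.ResidueField A) N) :=
    fun i => (S18_specModL N A h).red ⟨b i, hO i⟩ with he
  have hge : riemannRochSpace Dk ≤ Submodule.span (IsLocalRing.ResidueField A) (Set.range e) :=
    S19LF_span_of_chart hℓ hA hℓN m (by omega) (fun i => ⟨b i, hO i⟩) hmem hspan hred
  have hle : Submodule.span (IsLocalRing.ResidueField A) (Set.range e) ≤ riemannRochSpace Dk := by
    rw [Submodule.span_le]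
    rintro _ ⟨i, rfl⟩
    have := S19RR_red_mem (S18_specModL N A h) (S18_hPD N) (S17EM_D N m) ⟨b i, hO i⟩ (hmem i)
    rwa [S17EM_D, Finsupp.mapDomain_single] at this
  have hsp : Submodule.span (IsLocalRing.ResidueField A) (Set.range e) = riemannRochSpace Dk :=
    le_antisymm hle hge
  have hB : ∀ P : Place (IsLocalRing.ResidueField A)
      ↥(modularFunctionFieldFullC (IsLocalRing.ResidueField A) N),
      P ≠ (S18_specModL N A h).r (S17EM_O N) → Dk P = 0 := by
    intro P hP
    rw [hDk, Finsupp.single_apply, if_neg (Ne.symm hP)]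
  have hdeg : 2 * (g : ℤ) + 2 ≤ Dk.degree := by
    rw [hDk, Divisor.degree_single, hk.deg_one, Nat.cast_one, mul_one, hm]
    push_cast
    exact le_rfl
  obtain ⟨j, hj⟩ := S17NGS_immersion hk hB hdeg hsp hQ
  exact ⟨m, b j, hO j, FD_c0 Q (e j), fun σ => hinv σ j, hmem j, hj⟩

end Fermat.Agent.S36
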