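import Fermat.Agent.S36.OrdLower
import Fermat.Agent.S36.OrdLowerTau
import Fermat.Agent.S36.OrdQVal

/-!
# TRACK 10 (S36), package C2.4 = ORD-LOWER (helper16), part 3: the instance at `X₀(M q²)`

`M`, `q ∤ M` prime, `A ⊂ ℚ̄` a valuation subring of residue characteristic `q`, `k` its residue
field, `κ = modularFunctionFieldFullC k M ⊂ k((t))`, `F₂ = F_{M q²}`, with its three Gauss rings
`FF`, `FV`, `VV` (helper12, `S36/Val3Three.lean`) and `δ_A^* = α∘α`, `δ_C^* = β∘β : F_M → F₂`,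
`ϖ_τ = δ_C^* τ - δ_A^* τ`, `w_τ = q⁻¹ ϖ_τ^(q-1)` (helper24, `S36/OrdQVal.lean`).

`B ⊂ F₂` is any subring (in the application: the inertia-fixed functions regular on the chart),
and the ONLY input on the lattice `Λ_U = B ∩ FF ∩ FV ∩ VV` is

  `hreg` : the reduction along `FV` of every element of `Λ_U` lies in `κ` and is regular at `v`

(FIN-INST: reductions are integral over `k[j̄]`).

* `S36OL_dA_FF`, `S36OL_dC_FF`, `S36OL_dA_VV`, `S36OL_dC_VV`, `S36OL_varpi_FF`, `S36OL_varpi_VV` :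
  `δ_A^* τ, δ_C^* τ, ϖ_τ ∈ FF ∩ VV` for `τ` Gauss-integral at level `M`;
* `S36OL_X0_ord` : **ordinary point** `v`: from `g ∈ B` with `q⁻¹ g ∈ FF ∩ VV`, `g ∈ FV`,
  `red_FV g` a unit at `v`:  `H_τ = -(θ τ̄)^(q-1) ∈ κ` and `0 ≤ ord_v H_τ`;
* `S36OL_X0_ss` : **supersingular point** `v`: from `t₁, t₂ ∈ B` with `q⁻¹ t₁ ∈ FF`, `t₂ ∈ FF`,
  `t₁ ∈ VV`, `q⁻¹ t₂ ∈ VV`, `red_FV t_i = τ̄ - τ̄^(q²)`, `ord_v (τ̄ - c) = 1`, `c^(q²) = c`:
  `H_τ ∈ κ` and `-2 ≤ ord_v H_τ`;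
* `S36OL_c_of_vanish` : `c^(q²) = c` from `ord_v (τ̄ - c) = 1` and the vanishing of
  `τ̄ - τ̄^(q²)` at `v`;
* `S36OL_X0` : the functions `τ, Hτ, c` and the hypotheses `hτ, hHτ, hord, hss` of `S36OC_main`
  (with `C = -1`), from `S36OL_tau`.
-/

set_option autoImplicit false
set_option synthInstance.maxHeartbeats 400000
set_option maxHeartbeats 1000000
set_option linter.style.haveILetI false
set_option linter.unusedSectionVars false

open HahnSeries IntermediateField AlgebraicCurve ModularCurve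

noncomputable section

namespace Fermat.Agent.S36

open Fermat.Agent.S18 Fermat.Agent.S24 Fermat.Agent.S34 Fermat.Agent.GalRep Fermat.Agent.Lib
  Fermat.Agent.S17 Fermat.Agent.S19

local notation "ℚbar" => AlgebraicClosure ℚ

variable (M q : ℕ) [NeZero M] [NeZero q] (hq : q.Prime) (hqM : ¬ q ∣ M)
  (A : ValuationSubring ℚbar)
  (ζ : ℚbarˣ) (hζ : ζ ^ q = 1) (hζ1 : ζ ≠ 1)

/-! ### `δ_A^* τ`, `δ_C^* τ`, `ϖ_τ` along `FF` and `VV` -/

theorem S36OL_emF_beta (τ : ↥(modularFunctionFieldBar M)) :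
    S36V_emF M q (heckeBetaBar ℚbar M q τ) = qExpand ℚbar q (S36OQ_coe0 M τ) :=
  coe_heckeBetaBar M q τ

theorem S36OL_emF_alpha (τ : ↥(modularFunctionFieldBar M)) :
    S36V_emF M q (heckeAlphaBar ℚbar M q τ) = S36OQ_coe0 M τ :=
  coe_heckeAlphaBar M q τ

theorem S36OL_emV_alpha (τ : ↥(modularFunctionFieldBar M)) :
    S36V_emV M q hq hqM (heckeAlphaBar ℚbar M q τ) = qExpand ℚbar q (S36OQ_coe0 M τ) := by
  rw [S36V_emV_apply, S34VW_wq_alpha]
  exact coe_heckeBetaBar M q τ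

theorem S36OL_emV_beta (τ : ↥(modularFunctionFieldBar M)) :
    S36V_emV M q hq hqM (heckeBetaBar ℚbar M q τ) = S36OQ_coe0 M τ := by
  rw [S36V_emV_apply, S34VW_wq_beta]
  exact coe_heckeAlphaBar M q τ

theorem S36OL_alpha_F (τ : S18_O A M) :
    heckeAlphaBar ℚbar M q (τ : ↥(modularFunctionFieldBar M)) ∈ S36V_G A (S36V_emF M q) :=
  (S36V_mem_G_of_eq A _ (S36OQ_coe0 M) (S36OL_emF_alpha M q τ.1)).2 (S36OQ_S18_le M A τ.2)

theorem S36OL_beta_F (τ : S18_O A M) :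
    heckeBetaBar ℚbar M q (τ : ↥(modularFunctionFieldBar M)) ∈ S36V_G A (S36V_emF M q) :=
  S36V_mem_G_of_eq_qExpand A _ (S36OQ_coe0 M) q (S36OL_emF_beta M q τ.1) (S36OQ_S18_le M A τ.2)

theorem S36OL_alpha_V (τ : S18_O A M) :
    heckeAlphaBar ℚbar M q (τ : ↥(modularFunctionFieldBar M)) ∈
      S36V_G A (S36V_emV M q hq hqM) :=
  S36V_mem_G_of_eq_qExpand A _ (S36OQ_coe0 M) q (S36OL_emV_alpha M q hq hqM τ.1)
    (S36OQ_S18_le M A τ.2)

theorem S36OL_beta_V (τ : S18_O A M) :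
    heckeBetaBar ℚbar M q (τ : ↥(modularFunctionFieldBar M)) ∈
      S36V_G A (S36V_emV M q hq hqM) :=
  (S36V_mem_G_of_eq A _ (S36OQ_coe0 M) (S36OL_emV_beta M q hq hqM τ.1)).2 (S36OQ_S18_le M A τ.2)

theorem S36OL_dA_FF (τ : S18_O A M) :
    S36OQ_dA M q (τ : ↥(modularFunctionFieldBar M)) ∈ S36V_G A (S36V_emFF M q) :=
  (S36V_FF_alpha M q A).2 (S36OL_alpha_F M q A τ)

theorem S36OL_dC_FF (τ : S18_O A M) :
    S36OQ_dC M q (τ : ↥(modularFunctionFieldBar M)) ∈ S36V_G A (S36V_emFF M q) :=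
  S36V_FF_beta M q A (S36OL_beta_F M q A τ)

theorem S36OL_dA_VV (τ : S18_O A M) :
    S36OQ_dA M q (τ : ↥(modularFunctionFieldBar M)) ∈ S36V_G A (S36V_emVV M q hq hqM) :=
  S36V_VV_alpha M q hq hqM A (S36OL_alpha_V M q hq hqM A τ)

theorem S36OL_dC_VV (τ : S18_O A M) :
    S36OQ_dC M q (τ : ↥(modularFunctionFieldBar M)) ∈ S36V_G A (S36V_emVV M q hq hqM) :=
  (S36V_VV_beta M q hq hqM A).2 (S36OL_beta_V M q hq hqM A τ)

theorem S36OL_varpi_FF (τ : S18_O A M) :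
    S36OQ_varpi M q (τ : ↥(modularFunctionFieldBar M)) ∈ S36V_G A (S36V_emFF M q) :=
  Subring.sub_mem _ (S36OL_dC_FF M q A τ) (S36OL_dA_FF M q A τ)

theorem S36OL_varpi_VV (τ : S18_O A M) :
    S36OQ_varpi M q (τ : ↥(modularFunctionFieldBar M)) ∈ S36V_G A (S36V_emVV M q hq hqM) :=
  Subring.sub_mem _ (S36OL_dC_VV M q hq hqM A τ) (S36OL_dA_VV M q hq hqM A τ)

/-! ### the two lower bounds at a place `v` -/

section bounds

variable [Fact q.Prime] [CharP (IsLocalRing.ResidueField A) q]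

/-- `w_τ = q⁻¹ ϖ_τ^(q-1)` lies in every subring containing `q⁻¹`, `δ_A^* τ`, `δ_C^* τ`. -/
theorem S36OL_w_mem_B (B : Subring ↥(modularFunctionFieldBar (M * q * q)))
    (hqB : (algebraMap ℚbar ↥(modularFunctionFieldBar (M * q * q)) (q : ℚbar))⁻¹ ∈ B)
    (τ : ↥(modularFunctionFieldBar M)) (hdA : S36OQ_dA M q τ ∈ B) (hdC : S36OQ_dC M q τ ∈ B) :
    S36OQ_w M q τ ∈ B :=
  B.mul_mem hqB (B.pow_mem (B.sub_mem hdC hdA) _)

/-- **(hord) at `X₀(M q²)`**: at an ordinary point `v`, `H_τ = -(θ τ̄)^(q-1)` lies in `κ` and is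
regular at `v`. -/
theorem S36OL_X0_ord (B : Subring ↥(modularFunctionFieldBar (M * q * q)))
    (v : Place (IsLocalRing.ResidueField A)
      ↥(modularFunctionFieldFullC (IsLocalRing.ResidueField A) M))
    (hreg : ∀ f : ↥(modularFunctionFieldBar (M * q * q)), f ∈ B →
      f ∈ S36V_G A (S36V_emFF M q) → f ∈ S36V_G A (S36V_emVV M q hq hqM) →
      ∀ hf : f ∈ S36V_G A (S36V_emFV M q hq hqM ζ hζ hζ1),
      ∃ e : ↥(modularFunctionFieldFullC (IsLocalRing.ResidueField A) M),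
        (e : LaurentSeries (IsLocalRing.ResidueField A)) =
          S36V_Gred A (S36V_emFV M q hq hqM ζ hζ hζ1) ⟨f, hf⟩ ∧ 0 ≤ v.ord e)
    (hqB : (algebraMap ℚbar ↥(modularFunctionFieldBar (M * q * q)) (q : ℚbar))⁻¹ ∈ B)
    (τ : S18_O A M) (hdA : S36OQ_dA M q (τ : ↥(modularFunctionFieldBar M)) ∈ B)
    (hdC : S36OQ_dC M q (τ : ↥(modularFunctionFieldBar M)) ∈ B)
    (g : ↥(modularFunctionFieldBar (M * q * q))) (hgB : g ∈ B)
    (hgFF : (algebraMap ℚbar ↥(modularFunctionFieldBar (M * q * q)) (q : ℚbar))⁻¹ * g ∈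
      S36V_G A (S36V_emFF M q))
    (hgVV : (algebraMap ℚbar ↥(modularFunctionFieldBar (M * q * q)) (q : ℚbar))⁻¹ * g ∈
      S36V_G A (S36V_emVV M q hq hqM))
    (hgFV : g ∈ S36V_G A (S36V_emFV M q hq hqM ζ hζ hζ1))
    (eg : ↥(modularFunctionFieldFullC (IsLocalRing.ResidueField A) M))
    (heg : (eg : LaurentSeries (IsLocalRing.ResidueField A)) =
      S36V_Gred A (S36V_emFV M q hq hqM ζ hζ hζ1) ⟨g, hgFV⟩)
    (heg0 : eg ≠ 0) (hegv : v.ord eg = 0) :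
    ∃ H : ↥(modularFunctionFieldFullC (IsLocalRing.ResidueField A) M),
      (H : LaurentSeries (IsLocalRing.ResidueField A)) =
        -(LT_theta ((S18_red A M τ : ↥(modularFunctionFieldFullC (IsLocalRing.ResidueField A) M)) :
          LaurentSeries (IsLocalRing.ResidueField A))) ^ (q - 1) ∧ 0 ≤ v.ord H := by
  have hw := S36OQ_w_mem M q hq hqM A ζ hζ hζ1 τ
  have hwred := S36OQ_w_red M q hq hqM A ζ hζ hζ1 τ
  have hdB : g * S36OQ_w M q (τ : ↥(modularFunctionFieldBar M)) ∈ B :=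
    B.mul_mem hgB (S36OL_w_mem_B M q B hqB _ hdA hdC)
  have hEq : g * S36OQ_w M q (τ : ↥(modularFunctionFieldBar M)) =
      (algebraMap ℚbar ↥(modularFunctionFieldBar (M * q * q)) (q : ℚbar))⁻¹ * g *
        S36OQ_varpi M q (τ : ↥(modularFunctionFieldBar M)) ^ (q - 1) := by
    rw [S36OQ_w]
    ring
  have hdFF : g * S36OQ_w M q (τ : ↥(modularFunctionFieldBar M)) ∈ S36V_G A (S36V_emFF M q) := by
    rw [hEq]
    exact Subring.mul_mem _ hgFF (Subring.pow_mem _ (S36OL_varpi_FF M q A τ) _)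
  have hdVV : g * S36OQ_w M q (τ : ↥(modularFunctionFieldBar M)) ∈
      S36V_G A (S36V_emVV M q hq hqM) := by
    rw [hEq]
    exact Subring.mul_mem _ hgVV (Subring.pow_mem _ (S36OL_varpi_VV M q hq hqM A τ) _)
  have hdFV : g * S36OQ_w M q (τ : ↥(modularFunctionFieldBar M)) ∈
      S36V_G A (S36V_emFV M q hq hqM ζ hζ hζ1) := Subring.mul_mem _ hgFV hw
  obtain ⟨e, he, hev⟩ := hreg _ hdB hdFF hdVV hdFV
  have hmul : S36V_Gred A (S36V_emFV M q hq hqM ζ hζ hζ1) ⟨_, hdFV⟩ =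
      S36V_Gred A (S36V_emFV M q hq hqM ζ hζ hζ1) ⟨g, hgFV⟩ *
        S36V_Gred A (S36V_emFV M q hq hqM ζ hζ hζ1) ⟨_, hw⟩ := by
    rw [← map_mul]
    rfl
  have hegL : (eg : LaurentSeries (IsLocalRing.ResidueField A)) ≠ 0 := fun h0 =>
    heg0 (Subtype.ext h0)
  refine ⟨eg⁻¹ * e, ?_, ?_⟩
  · rw [IntermediateField.coe_mul, IntermediateField.coe_inv, he, hmul, ← heg, hwred,
      ← mul_assoc, inv_mul_cancel₀ hegL, one_mul]
  · have hE : e = eg * (eg⁻¹ * e) := by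
      rw [← mul_assoc, mul_inv_cancel₀ heg0, one_mul]
    exact S36OC_lower_ord v heg0 hegv (hE ▸ hev)

/-- **(hss) at `X₀(M q²)`**: at a supersingular point `v`, `H_τ = -(θ τ̄)^(q-1)` lies in `κ` and
has a pole of order at most `2` at `v`. -/
theorem S36OL_X0_ss (B : Subring ↥(modularFunctionFieldBar (M * q * q)))
    (v : Place (IsLocalRing.ResidueField A)
      ↥(modularFunctionFieldFullC (IsLocalRing.ResidueField A) M))
    (hreg : ∀ f : ↥(modularFunctionFieldBar (M * q * q)), f ∈ B →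
      f ∈ S36V_G A (S36V_emFF M q) → f ∈ S36V_G A (S36V_emVV M q hq hqM) →
      ∀ hf : f ∈ S36V_G A (S36V_emFV M q hq hqM ζ hζ hζ1),
      ∃ e : ↥(modularFunctionFieldFullC (IsLocalRing.ResidueField A) M),
        (e : LaurentSeries (IsLocalRing.ResidueField A)) =
          S36V_Gred A (S36V_emFV M q hq hqM ζ hζ hζ1) ⟨f, hf⟩ ∧ 0 ≤ v.ord e)
    (hqB : (algebraMap ℚbar ↥(modularFunctionFieldBar (M * q * q)) (q : ℚbar))⁻¹ ∈ B)
    (τ : S18_O A M) (hdA : S36OQ_dA M q (τ : ↥(modularFunctionFieldBar M)) ∈ B)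
    (hdC : S36OQ_dC M q (τ : ↥(modularFunctionFieldBar M)) ∈ B)
    (t₁ t₂ : ↥(modularFunctionFieldBar (M * q * q))) (h1B : t₁ ∈ B) (h2B : t₂ ∈ B)
    (h1FF : (algebraMap ℚbar ↥(modularFunctionFieldBar (M * q * q)) (q : ℚbar))⁻¹ * t₁ ∈
      S36V_G A (S36V_emFF M q))
    (h2FF : t₂ ∈ S36V_G A (S36V_emFF M q))
    (h1VV : t₁ ∈ S36V_G A (S36V_emVV M q hq hqM))
    (h2VV : (algebraMap ℚbar ↥(modularFunctionFieldBar (M * q * q)) (q : ℚbar))⁻¹ * t₂ ∈
      S36V_G A (S36V_emVV M q hq hqM))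
    (h1FV : t₁ ∈ S36V_G A (S36V_emFV M q hq hqM ζ hζ hζ1))
    (h2FV : t₂ ∈ S36V_G A (S36V_emFV M q hq hqM ζ hζ hζ1))
    (h1red : S36V_Gred A (S36V_emFV M q hq hqM ζ hζ hζ1) ⟨t₁, h1FV⟩ =
      ((S18_red A M τ : ↥(modularFunctionFieldFullC (IsLocalRing.ResidueField A) M)) :
        LaurentSeries (IsLocalRing.ResidueField A)) -
      ((S18_red A M τ : ↥(modularFunctionFieldFullC (IsLocalRing.ResidueField A) M)) :
        LaurentSeries (IsLocalRing.ResidueField A)) ^ (q ^ 2))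
    (h2red : S36V_Gred A (S36V_emFV M q hq hqM ζ hζ hζ1) ⟨t₂, h2FV⟩ =
      ((S18_red A M τ : ↥(modularFunctionFieldFullC (IsLocalRing.ResidueField A) M)) :
        LaurentSeries (IsLocalRing.ResidueField A)) -
      ((S18_red A M τ : ↥(modularFunctionFieldFullC (IsLocalRing.ResidueField A) M)) :
        LaurentSeries (IsLocalRing.ResidueField A)) ^ (q ^ 2))
    (c : IsLocalRing.ResidueField A)
    (hτv : v.ord (S18_red A M τ - algebraMap (IsLocalRing.ResidueField A)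
      ↥(modularFunctionFieldFullC (IsLocalRing.ResidueField A) M) c) = 1)
    (hc : c ^ (q ^ 2) = c) :
    ∃ H : ↥(modularFunctionFieldFullC (IsLocalRing.ResidueField A) M),
      (H : LaurentSeries (IsLocalRing.ResidueField A)) =
        -(LT_theta ((S18_red A M τ : ↥(modularFunctionFieldFullC (IsLocalRing.ResidueField A) M)) :
          LaurentSeries (IsLocalRing.ResidueField A))) ^ (q - 1) ∧ -2 ≤ v.ord H := by
  haveI : CharP ↥(modularFunctionFieldFullC (IsLocalRing.ResidueField A) M) q :=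
    charP_of_injective_algebraMap (algebraMap (IsLocalRing.ResidueField A)
      ↥(modularFunctionFieldFullC (IsLocalRing.ResidueField A) M)).injective q
  have hw := S36OQ_w_mem M q hq hqM A ζ hζ hζ1 τ
  have hwred := S36OQ_w_red M q hq hqM A ζ hζ hζ1 τ
  have hwB := S36OL_w_mem_B M q B hqB _ hdA hdC
  set et : ↥(modularFunctionFieldFullC (IsLocalRing.ResidueField A) M) :=
    S18_red A M τ - S18_red A M τ ^ (q ^ 2) with het
  have hetv : v.ord et = 1 := S36OC_simple_zero v q 2 (by norm_num) hc hτv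
  have het0 : et ≠ 0 := by
    intro h0
    rw [h0, v.ord_zero] at hetv
    exact zero_ne_one hetv
  have hetL : (et : LaurentSeries (IsLocalRing.ResidueField A)) =
      ((S18_red A M τ : ↥(modularFunctionFieldFullC (IsLocalRing.ResidueField A) M)) :
        LaurentSeries (IsLocalRing.ResidueField A)) -
      ((S18_red A M τ : ↥(modularFunctionFieldFullC (IsLocalRing.ResidueField A) M)) :
        LaurentSeries (IsLocalRing.ResidueField A)) ^ (q ^ 2) := by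
    rw [het]
    rfl
  have hetL0 : (et : LaurentSeries (IsLocalRing.ResidueField A)) ≠ 0 := fun h0 =>
    het0 (Subtype.ext h0)
  have hEB : t₁ * t₂ * S36OQ_w M q (τ : ↥(modularFunctionFieldBar M)) ∈ B :=
    B.mul_mem (B.mul_mem h1B h2B) hwB
  have hEq1 : t₁ * t₂ * S36OQ_w M q (τ : ↥(modularFunctionFieldBar M)) =
      (algebraMap ℚbar ↥(modularFunctionFieldBar (M * q * q)) (q : ℚbar))⁻¹ * t₁ * t₂ *
        S36OQ_varpi M q (τ : ↥(modularFunctionFieldBar M)) ^ (q - 1) := by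
    rw [S36OQ_w]
    ring
  have hEq2 : t₁ * t₂ * S36OQ_w M q (τ : ↥(modularFunctionFieldBar M)) =
      t₁ * ((algebraMap ℚbar ↥(modularFunctionFieldBar (M * q * q)) (q : ℚbar))⁻¹ * t₂) *
        S36OQ_varpi M q (τ : ↥(modularFunctionFieldBar M)) ^ (q - 1) := by
    rw [S36OQ_w]
    ring
  have hEFF : t₁ * t₂ * S36OQ_w M q (τ : ↥(modularFunctionFieldBar M)) ∈
      S36V_G A (S36V_emFF M q) := by
    rw [hEq1]
    exact Subring.mul_mem _ (Subring.mul_mem _ h1FF h2FF)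
      (Subring.pow_mem _ (S36OL_varpi_FF M q A τ) _)
  have hEVV : t₁ * t₂ * S36OQ_w M q (τ : ↥(modularFunctionFieldBar M)) ∈
      S36V_G A (S36V_emVV M q hq hqM) := by
    rw [hEq2]
    exact Subring.mul_mem _ (Subring.mul_mem _ h1VV h2VV)
      (Subring.pow_mem _ (S36OL_varpi_VV M q hq hqM A τ) _)
  have hEFV : t₁ * t₂ * S36OQ_w M q (τ : ↥(modularFunctionFieldBar M)) ∈
      S36V_G A (S36V_emFV M q hq hqM ζ hζ hζ1) :=
    Subring.mul_mem _ (Subring.mul_mem _ h1FV h2FV) hw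
  obtain ⟨e, he, hev⟩ := hreg _ hEB hEFF hEVV hEFV
  have hmul : S36V_Gred A (S36V_emFV M q hq hqM ζ hζ hζ1) ⟨_, hEFV⟩ =
      S36V_Gred A (S36V_emFV M q hq hqM ζ hζ hζ1) ⟨t₁, h1FV⟩ *
        S36V_Gred A (S36V_emFV M q hq hqM ζ hζ hζ1) ⟨t₂, h2FV⟩ *
        S36V_Gred A (S36V_emFV M q hq hqM ζ hζ hζ1) ⟨_, hw⟩ := by
    rw [← map_mul, ← map_mul]
    rfl
  refine ⟨(et * et)⁻¹ * e, ?_, ?_⟩
  · rw [IntermediateField.coe_mul, IntermediateField.coe_inv, IntermediateField.coe_mul, he, hmul,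
      h1red, h2red, ← hetL, hwred, ← mul_assoc,
      inv_mul_cancel₀ (mul_ne_zero hetL0 hetL0), one_mul]
  · have hE : e = et * et * ((et * et)⁻¹ * e) := by
      rw [← mul_assoc, mul_inv_cancel₀ (mul_ne_zero het0 het0), one_mul]
    exact S36OC_lower_ss v hetv hetv (hE ▸ hev)

end bounds

end Fermat.Agent.S36
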