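import Fermat.Agent.S36.OrdLowerB
import Fermat.Agent.S36.FixLFive
import Fermat.Agent.S36.FixLFiveVal
import Fermat.Agent.S36.LiInst
import Fermat.Agent.S36.Charts
import Fermat.Agent.S36.ChartsO3Inst

/-!
# TRACK 10 (S36), package C2.4 = ORD-LOWER (helper16), part 6: `hreg` and `hg` from the framework

`S₁ = S36FI_SFF`, `S₂ = S36FI_SFV ζ`, `S₃ = S36FI_SVV` (helper1: the three valuation data over the
inertia field `L`, residue field `κ`), `C = S36CU_U … j x₁ x₂ x₃ n hn` (helper23: the chart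
`U = {j ≠ ∞}`), `R : S36LJ_Red C` (FIN-INST: the reductions of `Λ_U` are regular on the chart).

* `S36OL_div_q_FF`, `S36OL_div_q_VV` : an inertia-fixed `f ∈ FF` (resp. `VV`) with reduction `0`
  is divisible by `q` in `FF` (resp. `VV`)   (from helper1's `S36FI_dv_FF/_VV`: `q` is a
  uniformiser along `FF`, `VV` on `F₂,L`);
* `S36OL_hg_of_R11a` : the hypothesis `hg` of `S36OL_hord_B` from (R11a) on `FV`: some
  `g ∈ B ∩ FF ∩ FV ∩ VV` with reductions `(0, ḡ, 0)`, `ḡ` a unit at `v`;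
* `S36OL_hreg_of_Red` : the hypothesis `hreg` of `S36OL_hord_B`, `S36OL_hss_B` from `R`;
* `S36OL_poles_B` : the poles of `j(z)` are poles of `B = j(qz)` (so that `j := B` is allowed
  in `S36OL_hreg_of_Red`);
* `S36OL_hord_fin`, `S36OL_hss_fin` : `hord`, `hss` of `S36OI_main` from `R` and (R11a).
-/

set_option autoImplicit false
set_option synthInstance.maxHeartbeats 400000
set_option maxHeartbeats 1000000
set_option linter.style.haveILetI false
set_option linter.unusedSectionVars false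

open HahnSeries IntermediateField AlgebraicCurve ModularCurve

noncomputable section

namespace Fermat.Agent.S36

open Fermat.Agent.S18 Fermat.Agent.S24 Fermat.Agent.S34 Fermat.Agent.GalRep Fermat.Agent.Lib
  Fermat.Agent.S17 Fermat.Agent.S19

local notation "ℚbar" => AlgebraicClosure ℚ

variable (M q : ℕ) [NeZero M] [NeZero q] (hq : q.Prime) (hqM : ¬ q ∣ M)
  (A : ValuationSubring ℚbar)
  (ζ : ℚbarˣ) (hζ : ζ ^ q = 1) (hζ1 : ζ ≠ 1)

/-! ### divisibility by `q` along the unramified components -/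

section divq

variable {F : Type*} [Field F] [Algebra ℚbar F] (φ : F →+* LaurentSeries ℚbar)

/-- abstract form: if `f q^k` is a unit of the Gauss ring for some `k : ℤ` and `f` is a
non-unit of the Gauss ring, then `q⁻¹ f` lies in the Gauss ring. -/
theorem S36OL_div_q_abs {f : F} (hf : f ∈ S36V_G A φ)
    (hred : S36V_Gred A φ ⟨f, hf⟩ = 0)
    (hdv : f ≠ 0 → ∃ k : ℤ, f * algebraMap ℚbar F ((q : ℚbar) ^ k) ∈ S36V_G A φ ∧
      (f * algebraMap ℚbar F ((q : ℚbar) ^ k))⁻¹ ∈ S36V_G A φ) :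
    (algebraMap ℚbar F (q : ℚbar))⁻¹ * f ∈ S36V_G A φ := by
  rcases eq_or_ne f 0 with rfl | hf0
  · rw [mul_zero]
    exact Subring.zero_mem _
  obtain ⟨k, hu, hu'⟩ := hdv hf0
  have hq0 : (q : ℚbar) ≠ 0 := Nat.cast_ne_zero.2 (NeZero.ne q)
  have hqF : algebraMap ℚbar F (q : ℚbar) ≠ 0 := by
    rw [Ne, map_eq_zero]
    exact hq0
  have hqmem : ∀ n : ℕ, algebraMap ℚbar F ((q : ℚbar) ^ n) ∈ S36V_G A φ := by
    intro n
    rw [map_pow, map_natCast]
    exact Subring.pow_mem _ (natCast_mem _ q) n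
  -- `k < 0`
  have hk : k < 0 := by
    by_contra hk
    push Not at hk
    obtain ⟨n, rfl⟩ := Int.eq_ofNat_of_zero_le hk
    rw [zpow_natCast] at hu hu'
    have hunit : IsUnit (⟨_, hu⟩ : S36V_G A φ) := by
      refine ⟨⟨⟨_, hu⟩, ⟨_, hu'⟩, ?_, ?_⟩, rfl⟩
      · apply Subtype.ext
        show f * algebraMap ℚbar F ((q : ℚbar) ^ n) *
          (f * algebraMap ℚbar F ((q : ℚbar) ^ n))⁻¹ = 1
        exact mul_inv_cancel₀ (mul_ne_zero hf0 (by
          rw [Ne, map_eq_zero]; exact pow_ne_zero _ hq0))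
      · apply Subtype.ext
        show (f * algebraMap ℚbar F ((q : ℚbar) ^ n))⁻¹ *
          (f * algebraMap ℚbar F ((q : ℚbar) ^ n)) = 1
        exact inv_mul_cancel₀ (mul_ne_zero hf0 (by
          rw [Ne, map_eq_zero]; exact pow_ne_zero _ hq0))
    have hne := (S36V_Gred_ne_zero_iff A φ _).2 hunit
    apply hne
    have e : (⟨_, hu⟩ : S36V_G A φ) = ⟨f, hf⟩ * ⟨_, hqmem n⟩ := Subtype.ext rfl
    rw [e, map_mul, hred, zero_mul]
  obtain ⟨n, hn⟩ : ∃ n : ℕ, k = -((n : ℤ) + 1) := ⟨(-k - 1).toNat, by omega⟩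
  have e : (algebraMap ℚbar F (q : ℚbar))⁻¹ * f =
      f * algebraMap ℚbar F ((q : ℚbar) ^ k) * algebraMap ℚbar F ((q : ℚbar) ^ n) := by
    rw [hn, mul_assoc, ← map_mul, ← map_inv₀]
    rw [mul_comm _ f]
    congr 2
    rw [zpow_neg, zpow_add₀ hq0, zpow_natCast, zpow_one]
    field_simp
  rw [e]
  exact Subring.mul_mem _ hu (hqmem n)

end divq

include hq in
/-- an inertia-fixed `f ∈ FF` with reduction `0` is divisible by `q` in `FF`. -/
theorem S36OL_div_q_FF (hA : A.LiesOverPrime q) {f : ↥(modularFunctionFieldBar (M * q * q))}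
    (hfix : f ∈ (S36FI_act (M * q * q) (A.inertiaSubgroupIn ℚ)).fixF)
    (hf : f ∈ S36V_G A (S36V_emFF M q))
    (hred : S36V_Gred A (S36V_emFF M q) ⟨f, hf⟩ = 0) :
    (algebraMap ℚbar ↥(modularFunctionFieldBar (M * q * q)) (q : ℚbar))⁻¹ * f ∈
      S36V_G A (S36V_emFF M q) :=
  S36OL_div_q_abs q A (S36V_emFF M q) hf hred
    (fun hf0 => S36FI_dv_FF M q hq A hA f hfix hf0)

/-- an inertia-fixed `f ∈ VV` with reduction `0` is divisible by `q` in `VV`. -/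
theorem S36OL_div_q_VV (hA : A.LiesOverPrime q) {f : ↥(modularFunctionFieldBar (M * q * q))}
    (hfix : f ∈ (S36FI_act (M * q * q) (A.inertiaSubgroupIn ℚ)).fixF)
    (hf : f ∈ S36V_G A (S36V_emVV M q hq hqM))
    (hred : S36V_Gred A (S36V_emVV M q hq hqM) ⟨f, hf⟩ = 0) :
    (algebraMap ℚbar ↥(modularFunctionFieldBar (M * q * q)) (q : ℚbar))⁻¹ * f ∈
      S36V_G A (S36V_emVV M q hq hqM) :=
  S36OL_div_q_abs q A (S36V_emVV M q hq hqM) hf hred
    (fun hf0 => S36FI_dv_VV M q hq hqM A hA f hfix hf0)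

/-- **`hg` from (R11a)**: a function `g ∈ B ∩ FF ∩ FV ∩ VV` with reductions `(0, ḡ, 0)`. -/
theorem S36OL_hg_of_R11a (hA : A.LiesOverPrime q)
    (v : Place (IsLocalRing.ResidueField A)
      ↥(modularFunctionFieldFullC (IsLocalRing.ResidueField A) M))
    (g : ↥(modularFunctionFieldBar (M * q * q))) (hgB : g ∈ S36OL_B M q A)
    (hgFF : g ∈ S36V_G A (S36V_emFF M q))
    (hgFF0 : S36V_Gred A (S36V_emFF M q) ⟨g, hgFF⟩ = 0)
    (hgVV : g ∈ S36V_G A (S36V_emVV M q hq hqM))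
    (hgVV0 : S36V_Gred A (S36V_emVV M q hq hqM) ⟨g, hgVV⟩ = 0)
    (hgFV : g ∈ S36V_G A (S36V_emFV M q hq hqM ζ hζ hζ1))
    (eg : ↥(modularFunctionFieldFullC (IsLocalRing.ResidueField A) M))
    (heg : (eg : LaurentSeries (IsLocalRing.ResidueField A)) =
      S36V_Gred A (S36V_emFV M q hq hqM ζ hζ hζ1) ⟨g, hgFV⟩)
    (heg0 : eg ≠ 0) (hegv : v.ord eg = 0) :
    ∃ g : ↥(modularFunctionFieldBar (M * q * q)), g ∈ S36OL_B M q A ∧
      (algebraMap ℚbar ↥(modularFunctionFieldBar (M * q * q)) (q : ℚbar))⁻¹ * g ∈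
        S36V_G A (S36V_emFF M q) ∧
      (algebraMap ℚbar ↥(modularFunctionFieldBar (M * q * q)) (q : ℚbar))⁻¹ * g ∈
        S36V_G A (S36V_emVV M q hq hqM) ∧
      ∃ (hgFV : g ∈ S36V_G A (S36V_emFV M q hq hqM ζ hζ hζ1))
        (eg : ↥(modularFunctionFieldFullC (IsLocalRing.ResidueField A) M)),
        (eg : LaurentSeries (IsLocalRing.ResidueField A)) =
          S36V_Gred A (S36V_emFV M q hq hqM ζ hζ hζ1) ⟨g, hgFV⟩ ∧ eg ≠ 0 ∧ v.ord eg = 0 :=
  ⟨g, hgB, S36OL_div_q_FF M q hq A hA ((S36OL_mem_B M q A).1 hgB).1 hgFF hgFF0,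
    S36OL_div_q_VV M q hq hqM A hA ((S36OL_mem_B M q A).1 hgB).1 hgVV hgVV0,
    hgFV, eg, heg, heg0, hegv⟩

/-! ### `hreg` from `S36LJ_Red` on the chart `U` -/

/-- **`hreg` from FIN-INST** (`R : S36LJ_Red C`, `C` the chart `U = {j ≠ ∞}` with any coordinate
`j` all of whose regular points are regular points of `j(z)`). -/
theorem S36OL_hreg_of_Red (hA : A.LiesOverPrime q)
    (j : ↥(S36FI_act (M * q * q) (A.inertiaSubgroupIn ℚ)).fixF)
    (hj : ∀ P : Place ℚbar ↥(modularFunctionFieldBar (M * q * q)),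
      0 ≤ P.ord (j : ↥(modularFunctionFieldBar (M * q * q))) → 0 ≤ P.ord (jB (M * q * q)))
    (x₁ x₂ x₃ : ↥(S36FI_kappa M A)) (n : ℕ) (hn : 0 < n)
    (R : S36LJ_Red (S₁ := S36FI_SFF M q hq hqM A hA)
      (S₂ := S36FI_SFV M q hq hqM A hA ζ hζ hζ1) (S₃ := S36FI_SVV M q hq hqM A hA)
      (S36CU_U (S36FI_act (M * q * q) (A.inertiaSubgroupIn ℚ)) (IsLocalRing.ResidueField A)
        j x₁ x₂ x₃ n hn))
    (v : Place (IsLocalRing.ResidueField A)
      ↥(modularFunctionFieldFullC (IsLocalRing.ResidueField A) M))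
    (hv : 0 ≤ v.ord (x₂ : ↥(modularFunctionFieldFullC (IsLocalRing.ResidueField A) M)))
    (f : ↥(modularFunctionFieldBar (M * q * q))) (hfB : f ∈ S36OL_B M q A)
    (hFF : f ∈ S36V_G A (S36V_emFF M q)) (hVV : f ∈ S36V_G A (S36V_emVV M q hq hqM))
    (hf : f ∈ S36V_G A (S36V_emFV M q hq hqM ζ hζ hζ1)) :
    ∃ e : ↥(modularFunctionFieldFullC (IsLocalRing.ResidueField A) M),
      (e : LaurentSeries (IsLocalRing.ResidueField A)) =
        S36V_Gred A (S36V_emFV M q hq hqM ζ hζ hζ1) ⟨f, hf⟩ ∧ 0 ≤ v.ord e := by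
  obtain ⟨hfix, hfreg⟩ := (S36OL_mem_B M q A).1 hfB
  set f' : ↥(S36FI_act (M * q * q) (A.inertiaSubgroupIn ℚ)).fixF := ⟨f, hfix⟩ with hf'
  have hΛ : f' ∈ S36LJ_Lam (S36FI_SFF M q hq hqM A hA) (S36FI_SFV M q hq hqM A hA ζ hζ hζ1)
      (S36FI_SVV M q hq hqM A hA)
      (S36CU_U (S36FI_act (M * q * q) (A.inertiaSubgroupIn ℚ)) (IsLocalRing.ResidueField A)
        j x₁ x₂ x₃ n hn).B.toSubring := by
    refine ⟨⟨hFF, hf, hVV⟩, ?_⟩
    intro P hP
    exact hfreg P (hj P hP)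
  have h2 := R.red₂ f' hΛ
  rw [S36CU_U_Rb₂, S34SB_mem_reg] at h2
  have h3 := h2 v hv
  refine ⟨(S36FI_SFV M q hq hqM A hA ζ hζ hζ1).red ⟨f', hΛ.1.2.1⟩, ?_, ?_⟩
  · exact S36FI_SFV_red M q hq hqM A hA ζ hζ hζ1 f' hΛ.1.2.1
  · by_cases h0 : (S36FI_SFV M q hq hqM A hA ζ hζ hζ1).red ⟨f', hΛ.1.2.1⟩ = 0
    · rw [h0]
      exact le_of_eq (Place.ord_zero v).symm
    · exact (BG_mem_iff_ord_nonneg v h0).1 h3

/-! ### the chart coordinate `B = j(qz)` -/

include hq in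
/-- the regular points of `B = j(qz)` are regular points of `j(z)`. -/
theorem S36OL_poles_B (P : Place ℚbar ↥(modularFunctionFieldBar (M * q * q)))
    (hP : 0 ≤ P.ord (jBar (M * q * q) q (S36CO_q_dvd M q))) : 0 ≤ P.ord (jB (M * q * q)) := by
  by_contra h
  push Not at h
  exact absurd hP (not_le.2 (S34SX_AB (M * q * q) P h q hq (S36CO_q_dvd M q)).2.2)

include hq in
/-- the reduction `x₂ = j̄(t^q) = j̄^q` of `B` is regular where `j̄` is. -/
theorem S36OL_ord_x₂ (hA : A.LiesOverPrime q)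
    (x₂ : ↥(modularFunctionFieldFullC (IsLocalRing.ResidueField A) M))
    (hx₂ : (x₂ : LaurentSeries (IsLocalRing.ResidueField A)) =
      jqNModC (IsLocalRing.ResidueField A) q)
    (v : Place (IsLocalRing.ResidueField A)
      ↥(modularFunctionFieldFullC (IsLocalRing.ResidueField A) M))
    (hv : 0 ≤ v.ord (S18_jbar M (IsLocalRing.ResidueField A))) : 0 ≤ v.ord x₂ := by
  haveI : Fact q.Prime := ⟨hq⟩
  haveI : CharP (IsLocalRing.ResidueField A) q := S18_residue_charP A q hq hA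
  have e : x₂ = S18_jbar M (IsLocalRing.ResidueField A) ^ q := by
    apply Subtype.ext
    rw [hx₂]
    show _ = (jqModC (IsLocalRing.ResidueField A)) ^ q
    have h1 := S34VH_jq_pow (IsLocalRing.ResidueField A) q 1
    rw [jqNModC_one] at h1
    rw [h1]
    rfl
  rw [e, ← zpow_natCast, v.ord_zpow]
  exact mul_nonneg (Int.natCast_nonneg q) hv

/-! ### the final forms -/

/-- **`hord` of `S36OI_main`** from FIN-INST (`R`) and (R11a) on `FV`. -/
theorem S36OL_hord_fin (hA : A.LiesOverPrime q)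
    (j : ↥(S36FI_act (M * q * q) (A.inertiaSubgroupIn ℚ)).fixF)
    (hj : ∀ P : Place ℚbar ↥(modularFunctionFieldBar (M * q * q)),
      0 ≤ P.ord (j : ↥(modularFunctionFieldBar (M * q * q))) → 0 ≤ P.ord (jB (M * q * q)))
    (x₁ x₂ x₃ : ↥(S36FI_kappa M A)) (n : ℕ) (hn : 0 < n)
    (R : S36LJ_Red (S₁ := S36FI_SFF M q hq hqM A hA)
      (S₂ := S36FI_SFV M q hq hqM A hA ζ hζ hζ1) (S₃ := S36FI_SVV M q hq hqM A hA)
      (S36CU_U (S36FI_act (M * q * q) (A.inertiaSubgroupIn ℚ)) (IsLocalRing.ResidueField A)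
        j x₁ x₂ x₃ n hn))
    (v : Place (IsLocalRing.ResidueField A)
      ↥(modularFunctionFieldFullC (IsLocalRing.ResidueField A) M))
    (hv : 0 ≤ v.ord (S18_jbar M (IsLocalRing.ResidueField A)))
    (hv₂ : 0 ≤ v.ord (x₂ : ↥(modularFunctionFieldFullC (IsLocalRing.ResidueField A) M)))
    (g : ↥(modularFunctionFieldBar (M * q * q))) (hgB : g ∈ S36OL_B M q A)
    (hgFF : g ∈ S36V_G A (S36V_emFF M q))
    (hgFF0 : S36V_Gred A (S36V_emFF M q) ⟨g, hgFF⟩ = 0)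
    (hgVV : g ∈ S36V_G A (S36V_emVV M q hq hqM))
    (hgVV0 : S36V_Gred A (S36V_emVV M q hq hqM) ⟨g, hgVV⟩ = 0)
    (hgFV : g ∈ S36V_G A (S36V_emFV M q hq hqM ζ hζ hζ1))
    (eg : ↥(modularFunctionFieldFullC (IsLocalRing.ResidueField A) M))
    (heg : (eg : LaurentSeries (IsLocalRing.ResidueField A)) =
      S36V_Gred A (S36V_emFV M q hq hqM ζ hζ hζ1) ⟨g, hgFV⟩)
    (heg0 : eg ≠ 0) (hegv : v.ord eg = 0) :
    ∃ (τ Hτ : ↥(modularFunctionFieldFullC (IsLocalRing.ResidueField A) M))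
      (c : IsLocalRing.ResidueField A),
      v.ord (τ - algebraMap (IsLocalRing.ResidueField A)
        ↥(modularFunctionFieldFullC (IsLocalRing.ResidueField A) M) c) = 1 ∧
      (Hτ : LaurentSeries (IsLocalRing.ResidueField A)) =
        -(LT_theta (τ : LaurentSeries (IsLocalRing.ResidueField A))) ^ (q - 1) ∧
      0 ≤ v.ord Hτ :=
  S36OL_hord_B M q hq hqM A ζ hζ hζ1 hA v hv
    (fun f hfB hFF hVV hf =>
      S36OL_hreg_of_Red M q hq hqM A ζ hζ hζ1 hA j hj x₁ x₂ x₃ n hn R v hv₂ f hfB hFF hVV hf)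
    (S36OL_hg_of_R11a M q hq hqM A ζ hζ hζ1 hA v g hgB hgFF hgFF0 hgVV hgVV0 hgFV eg heg
      heg0 hegv)

/-- **`hss` of `S36OI_main`** from FIN-INST (`R`). -/
theorem S36OL_hss_fin [NeZero (M * q)] (hA : A.LiesOverPrime q)
    {hgen : PrincipalGeneratedByIntegral A (IsLocalRing.residue A) (M * q)}
    {n' : ℕ} {hn' : 0 < n'} (D : S36SS_Data M q hq hqM A hgen n' hn')
    (j : ↥(S36FI_act (M * q * q) (A.inertiaSubgroupIn ℚ)).fixF)
    (hj : ∀ P : Place ℚbar ↥(modularFunctionFieldBar (M * q * q)),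
      0 ≤ P.ord (j : ↥(modularFunctionFieldBar (M * q * q))) → 0 ≤ P.ord (jB (M * q * q)))
    (x₁ x₂ x₃ : ↥(S36FI_kappa M A)) (n : ℕ) (hn : 0 < n)
    (R : S36LJ_Red (S₁ := S36FI_SFF M q hq hqM A hA)
      (S₂ := S36FI_SFV M q hq hqM A hA ζ hζ hζ1) (S₃ := S36FI_SVV M q hq hqM A hA)
      (S36CU_U (S36FI_act (M * q * q) (A.inertiaSubgroupIn ℚ)) (IsLocalRing.ResidueField A)
        j x₁ x₂ x₃ n hn))
    (v : Place (IsLocalRing.ResidueField A)
      ↥(modularFunctionFieldFullC (IsLocalRing.ResidueField A) M))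
    (hv : v ∈ D.SS)
    (hv₂ : 0 ≤ v.ord (x₂ : ↥(modularFunctionFieldFullC (IsLocalRing.ResidueField A) M))) :
    ∃ (τ Hτ : ↥(modularFunctionFieldFullC (IsLocalRing.ResidueField A) M))
      (c : IsLocalRing.ResidueField A),
      v.ord (τ - algebraMap (IsLocalRing.ResidueField A)
        ↥(modularFunctionFieldFullC (IsLocalRing.ResidueField A) M) c) = 1 ∧
      (Hτ : LaurentSeries (IsLocalRing.ResidueField A)) =
        -(LT_theta (τ : LaurentSeries (IsLocalRing.ResidueField A))) ^ (q - 1) ∧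
      -2 ≤ v.ord Hτ :=
  S36OL_hss_B M q hq hqM A ζ hζ hζ1 hA D v hv
    (fun f hfB hFF hVV hf =>
      S36OL_hreg_of_Red M q hq hqM A ζ hζ hζ1 hA j hj x₁ x₂ x₃ n hn R v hv₂ f hfB hFF hVV hf)

end Fermat.Agent.S36
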