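import Fermat.Agent.S36.Cart3Comp
import Fermat.Agent.S36.Int3Three
import Fermat.Agent.S36.FixLFiveVal
import Fermat.Agent.S36.OrdInst
import Fermat.Agent.S36.OrdLowerB

/-!
# TRACK 10 (S36), package (R13)-INST = ORD-UNIT (helper24), prefix `S36OU_`

The inputs (R13) of the CART bundles (`S36CA_comp_ram`, `S36CA_comp_ss`, `S36CP_pl₂`,
`S36CP_li_all` of helper5) on THE concrete family `D = S36IT_fam3 M q hq hqM A hA ζ hζ hζ1 dvr U`
(helper17) with the concrete valuation data `S36FI_SFF`, `S36FI_SFV ζ`, `S36FI_SVV` (helper1).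

`K = F₂,L` the `I`-fixed functions of level `M q²`, `κ = F̄_M`, `P` a place of `κ`,
`ϖ = ϖ_τ = δ_C^* τ - δ_A^* τ`, `w_τ = ϖ^(q-1) / q`, `τ` the rational local coordinate at `P`
(`S36OL_tau'`, helper16), `H_τ = -(θ τ̄)^(q-1) = red_FV w_τ`.

* `S36OU_c0_ne_zero`, `S36OU_ord_of_c0` : `FD_c0 P x ≠ 0 ↔ x ≠ 0 ∧ ord_P x = 0` (for regular `x`);
* `S36OU_theta_ne_zero` : `θ τ̄ ≠ 0` for a local coordinate `τ̄` at `P`;
* `S36OU_mk` : the element of `Λ_U` given by a function of `B ∩ FF ∩ FV ∩ VV`;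
* `S36OU_ord` : **(R13), ordinary point of `FV`** : `∃ ϖ g d ∈ Λ_U`, `d = g ϖ^(m+1) / q`,
  `FD_c0 P (red_FV d) ≠ 0`, `ϖ^(m+1) / q ∈ O_FV`  — exactly `hR13` of `S36CP_pl₂`;
* `S36OU_ss_FV` : **(R13), supersingular point**, value along `FV`;
* `S36OU_ss` : the same with the value along `FF` at the point `P₁` with the same values
  (`hW1`) — exactly `hR13` of `S36CP_li_all`.

Inputs left to the consumer: `Hord` / `Hss` (= the conclusion of `S36OI_main` at `P`),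
`hg` (NODAL3 (R11a) on `FV`, in `Λ`-form), `hqFF`, `hqVV` (helper8), `hregP` (FIN),
`hU` (the chart lies in the affine part), `hW` (`hW1`).
-/

set_option autoImplicit false
set_option synthInstance.maxHeartbeats 400000
set_option maxHeartbeats 1000000
set_option linter.style.haveILetI false
set_option linter.unusedSectionVars false
set_option linter.unusedVariables false

open HahnSeries IntermediateField AlgebraicCurve ModularCurve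

noncomputable section

namespace Fermat.Agent.S36

open Fermat.Agent.S18 Fermat.Agent.S24 Fermat.Agent.S34 Fermat.Agent.GalRep Fermat.Agent.Lib
  Fermat.Agent.S17 Fermat.Agent.S19

local notation "ℚbar" => AlgebraicClosure ℚ

/-! ### generalities -/

section gen

variable {k κ : Type*} [Field k] [Field κ] [Algebra k κ]

/-- a unit at `P` has non-zero value at `P`. -/
theorem S36OU_c0_ne_zero (P : Place k κ) (hdeg : P.deg = 1) {x : κ} (hx0 : x ≠ 0)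
    (hx : P.ord x = 0) : FD_c0 P x ≠ 0 := by
  have hreg : P.adicValuation x ≤ 1 := (P.adicValuation_le_one_iff).2 (Or.inr hx.ge)
  intro h0
  have h1 := (FD_c0_eq_zero_iff P hdeg hreg).1 h0
  rcases (S36SP_val_lt_one_iff P).1 h1 with h | h
  · exact hx0 h
  · rw [hx] at h
    exact lt_irrefl _ h

/-- a regular function with non-zero value at `P` is a unit at `P`. -/
theorem S36OU_ord_of_c0 (P : Place k κ) (hdeg : P.deg = 1) {x : κ}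
    (hreg : P.adicValuation x ≤ 1) (h : FD_c0 P x ≠ 0) : x ≠ 0 ∧ P.ord x = 0 := by
  have h1 : ¬ P.adicValuation x < 1 := fun hlt => h ((FD_c0_eq_zero_iff P hdeg hreg).2 hlt)
  rw [S36SP_val_lt_one_iff, not_or, not_lt] at h1
  obtain ⟨hx0, hle⟩ := h1
  rcases (P.adicValuation_le_one_iff).1 hreg with h0 | h0
  · exact absurd h0 hx0
  · exact ⟨hx0, le_antisymm hle h0⟩

/-- a non-unit of a valuation ring is divisible by the uniformiser. -/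
theorem S36OU_div_mem {K : Type*} [Field K] (O : ValuationSubring K) {t g : K}
    (ht : S36CA_IsUnif O t) (hg : g ∈ O) (hg' : g = 0 ∨ g⁻¹ ∉ O) : g / t ∈ O := by
  rcases hg' with rfl | h
  · rw [zero_div]
    exact O.zero_mem
  · exact ht.gen g hg h

end gen

variable (M q : ℕ) [NeZero M] [NeZero q] (hq : q.Prime) (hqM : ¬ q ∣ M)
  (A : ValuationSubring ℚbar) (hA : A.LiesOverPrime q)
  (ζ : ℚbarˣ) (hζ : ζ ^ q = 1) (hζ1 : ζ ≠ 1)

/-! ### the local coordinate is separating -/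

include hq hqM hA in
/-- `θ τ̄ ≠ 0` for every local coordinate `τ̄` at a place of `κ = F̄_M`. -/
theorem S36OU_theta_ne_zero
    (v : Place (IsLocalRing.ResidueField A)
      ↥(modularFunctionFieldFullC (IsLocalRing.ResidueField A) M))
    (τ : ↥(modularFunctionFieldFullC (IsLocalRing.ResidueField A) M))
    (c : IsLocalRing.ResidueField A)
    (hτ : v.ord (τ - algebraMap (IsLocalRing.ResidueField A)
      ↥(modularFunctionFieldFullC (IsLocalRing.ResidueField A) M) c) = 1) :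
    LT_theta (τ : LaurentSeries (IsLocalRing.ResidueField A)) ≠ 0 := by
  classical
  haveI : IsAlgClosed (IsLocalRing.ResidueField A) := S18_residue_isAlgClosed A
  haveI : CharP (IsLocalRing.ResidueField A) q := S18_residue_charP A q hq hA
  haveI : Fact q.Prime := ⟨hq⟩
  haveI hfdk := S18_finite_jbar M hq hqM (S18_ψ A hq hA)
  haveI hsepk := S18_isSeparable_jbar M hqM (S18_ψ A hq hA)
  have h := S18_hk M A hq hA hqM
  obtain ⟨-, f, hf, -⟩ := S36OC_chain_D (S18_jbar M (IsLocalRing.ResidueField A)) v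
    (h.deg_one v) hτ
  have hd := S36OC_d_of_D (modularFunctionFieldFullC (IsLocalRing.ResidueField A) M)
    (LT_theta (R := IsLocalRing.ResidueField A)) hf
  intro h0
  apply S18_theta_jbar_ne_zero M (IsLocalRing.ResidueField A)
  rw [hd, h0, mul_zero]

/-! ### elements of the lattice -/

section lattice

variable
    (dvr : ∀ i, IsDiscreteValuationRing
      (S36FL_OL (S36FI_act (M * q * q) (A.inertiaSubgroupIn ℚ))
        (S36IT_Ov3 M q hq hqM A hA ζ hζ hζ1 i)))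
    (U : Set (Place ℚbar ↥(modularFunctionFieldBar (M * q * q))))

/-- the Gauss reduction depends only on the function. -/
theorem S36OU_Gred_congr {F : Type*} [Field F] (φ : F →+* LaurentSeries ℚbar) {x y : F}
    (h : x = y) (hx : x ∈ S36V_G A φ) (hy : y ∈ S36V_G A φ) :
    S36V_Gred A φ ⟨x, hx⟩ = S36V_Gred A φ ⟨y, hy⟩ := by
  subst h
  rfl

/-- membership in `Λ_U` of an `I`-fixed function from the memberships of its image in `F₂`: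
regularity on `U` from `B`. -/
theorem S36OU_mem_Λ (hU : ∀ Q ∈ U, 0 ≤ Q.ord (jB (M * q * q)))
    (f : ↥(S36FI_act (M * q * q) (A.inertiaSubgroupIn ℚ)).fixF)
    (hB : (f : ↥(modularFunctionFieldBar (M * q * q))) ∈ S36OL_B M q A)
    (hFF : (f : ↥(modularFunctionFieldBar (M * q * q))) ∈ S36V_G A (S36V_emFF M q))
    (hFV : (f : ↥(modularFunctionFieldBar (M * q * q))) ∈
      S36V_G A (S36V_emFV M q hq hqM ζ hζ hζ1))
    (hVV : (f : ↥(modularFunctionFieldBar (M * q * q))) ∈ S36V_G A (S36V_emVV M q hq hqM)) :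
    f ∈ (S36IT_fam3 M q hq hqM A hA ζ hζ hζ1 dvr U).Λ :=
  (S36IT_fam3_mem_Λ_G M q hq hqM A hA ζ hζ hζ1 dvr U f).2
    ⟨hFF, hFV, hVV, fun Q hQ => ((S36OL_mem_B M q A).1 hB).2 Q (hU Q hQ)⟩

/-- the element of `Λ_U` given by a function of `B ∩ FF ∩ FV ∩ VV`. -/
def S36OU_mk (hU : ∀ Q ∈ U, 0 ≤ Q.ord (jB (M * q * q)))
    (f : ↥(modularFunctionFieldBar (M * q * q))) (hB : f ∈ S36OL_B M q A)
    (hFF : f ∈ S36V_G A (S36V_emFF M q))
    (hFV : f ∈ S36V_G A (S36V_emFV M q hq hqM ζ hζ hζ1))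
    (hVV : f ∈ S36V_G A (S36V_emVV M q hq hqM)) :
    (S36IT_fam3 M q hq hqM A hA ζ hζ hζ1 dvr U).Λ :=
  ⟨⟨f, ((S36OL_mem_B M q A).1 hB).1⟩,
    S36OU_mem_Λ M q hq hqM A hA ζ hζ hζ1 dvr U hU ⟨f, ((S36OL_mem_B M q A).1 hB).1⟩
      hB hFF hFV hVV⟩

theorem S36OU_mk_coe (hU : ∀ Q ∈ U, 0 ≤ Q.ord (jB (M * q * q)))
    (f : ↥(modularFunctionFieldBar (M * q * q))) (hB : f ∈ S36OL_B M q A)
    (hFF : f ∈ S36V_G A (S36V_emFF M q))
    (hFV : f ∈ S36V_G A (S36V_emFV M q hq hqM ζ hζ hζ1))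
    (hVV : f ∈ S36V_G A (S36V_emVV M q hq hqM)) :
    (((S36OU_mk M q hq hqM A hA ζ hζ hζ1 dvr U hU f hB hFF hFV hVV :
      (S36IT_fam3 M q hq hqM A hA ζ hζ hζ1 dvr U).Λ) :
        ↥(S36FI_act (M * q * q) (A.inertiaSubgroupIn ℚ)).fixF) :
          ↥(modularFunctionFieldBar (M * q * q))) = f := rfl

/-- the elements of `Λ_U` are Gauss-integral along the three components. -/
theorem S36OU_Λ_mem (f : (S36IT_fam3 M q hq hqM A hA ζ hζ hζ1 dvr U).Λ) :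
    (((f : ↥(S36FI_act (M * q * q) (A.inertiaSubgroupIn ℚ)).fixF) :
      ↥(modularFunctionFieldBar (M * q * q))) ∈ S36V_G A (S36V_emFF M q)) ∧
    (((f : ↥(S36FI_act (M * q * q) (A.inertiaSubgroupIn ℚ)).fixF) :
      ↥(modularFunctionFieldBar (M * q * q))) ∈ S36V_G A (S36V_emFV M q hq hqM ζ hζ hζ1)) ∧
    (((f : ↥(S36FI_act (M * q * q) (A.inertiaSubgroupIn ℚ)).fixF) :
      ↥(modularFunctionFieldBar (M * q * q))) ∈ S36V_G A (S36V_emVV M q hq hqM)) ∧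
    ∀ Q ∈ U, ((f : ↥(S36FI_act (M * q * q) (A.inertiaSubgroupIn ℚ)).fixF) :
      ↥(modularFunctionFieldBar (M * q * q))) ∈ Q.toValuationSubring :=
  (S36IT_fam3_mem_Λ_G M q hq hqM A hA ζ hζ hζ1 dvr U _).1 f.2

end lattice

/-! ### (R13) at an ordinary point of `FV` -/

section ord

variable
    (dvr : ∀ i, IsDiscreteValuationRing
      (S36FL_OL (S36FI_act (M * q * q) (A.inertiaSubgroupIn ℚ))
        (S36IT_Ov3 M q hq hqM A hA ζ hζ hζ1 i)))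
    (U : Set (Place ℚbar ↥(modularFunctionFieldBar (M * q * q))))

/-- the image of `q ∈ Λ` in `F₂`. -/
theorem S36OU_q_coe
    (qΛ : (S36IT_fam3 M q hq hqM A hA ζ hζ hζ1 dvr U).Λ)
    (hqΛ : (qΛ : ↥(S36FI_act (M * q * q) (A.inertiaSubgroupIn ℚ)).fixF) =
      ((q : ℕ) : ↥(S36FI_act (M * q * q) (A.inertiaSubgroupIn ℚ)).fixF)) :
    (((qΛ : ↥(S36FI_act (M * q * q) (A.inertiaSubgroupIn ℚ)).fixF)) :
      ↥(modularFunctionFieldBar (M * q * q))) =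
      algebraMap ℚbar ↥(modularFunctionFieldBar (M * q * q)) (q : ℚbar) := by
  rw [hqΛ]
  exact S36FI_natCast_coe (M * q * q) (A.inertiaSubgroupIn ℚ) q

/-- `x^(m+1) / q` in `F₂`, for `x, q ∈ Λ`. -/
theorem S36OU_pow_div_coe
    (qΛ : (S36IT_fam3 M q hq hqM A hA ζ hζ hζ1 dvr U).Λ)
    (hqΛ : (qΛ : ↥(S36FI_act (M * q * q) (A.inertiaSubgroupIn ℚ)).fixF) =
      ((q : ℕ) : ↥(S36FI_act (M * q * q) (A.inertiaSubgroupIn ℚ)).fixF))
    (m : ℕ) (hm : m + 1 = q - 1)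
    (x : ↥(S36FI_act (M * q * q) (A.inertiaSubgroupIn ℚ)).fixF) :
    ((x ^ (m + 1) / (qΛ : ↥(S36FI_act (M * q * q) (A.inertiaSubgroupIn ℚ)).fixF) :
      ↥(S36FI_act (M * q * q) (A.inertiaSubgroupIn ℚ)).fixF) :
        ↥(modularFunctionFieldBar (M * q * q))) =
      (algebraMap ℚbar ↥(modularFunctionFieldBar (M * q * q)) (q : ℚbar))⁻¹ *
        (x : ↥(modularFunctionFieldBar (M * q * q))) ^ (q - 1) := by
  rw [Subfield.coe_div, SubmonoidClass.coe_pow, S36OU_q_coe M q hq hqM A hA ζ hζ hζ1 dvr U qΛ hqΛ,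
    hm, div_eq_inv_mul]

/-- `x / q` in `F₂`, for `x, q ∈ Λ`. -/
theorem S36OU_div_coe
    (qΛ : (S36IT_fam3 M q hq hqM A hA ζ hζ hζ1 dvr U).Λ)
    (hqΛ : (qΛ : ↥(S36FI_act (M * q * q) (A.inertiaSubgroupIn ℚ)).fixF) =
      ((q : ℕ) : ↥(S36FI_act (M * q * q) (A.inertiaSubgroupIn ℚ)).fixF))
    (x : ↥(S36FI_act (M * q * q) (A.inertiaSubgroupIn ℚ)).fixF) :
    ((x / (qΛ : ↥(S36FI_act (M * q * q) (A.inertiaSubgroupIn ℚ)).fixF) :
      ↥(S36FI_act (M * q * q) (A.inertiaSubgroupIn ℚ)).fixF) :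
        ↥(modularFunctionFieldBar (M * q * q))) =
      (algebraMap ℚbar ↥(modularFunctionFieldBar (M * q * q)) (q : ℚbar))⁻¹ *
        (x : ↥(modularFunctionFieldBar (M * q * q))) := by
  rw [Subfield.coe_div, S36OU_q_coe M q hq hqM A hA ζ hζ hζ1 dvr U qΛ hqΛ, div_eq_inv_mul]

/-- a function of `Λ` vanishing along `FF` is divisible by `q` along `FF`. -/
theorem S36OU_div_FF
    (hO₁ : ∀ f : (S36IT_fam3 M q hq hqM A hA ζ hζ hζ1 dvr U).Λ,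
      (f : ↥(S36FI_act (M * q * q) (A.inertiaSubgroupIn ℚ)).fixF) ∈
        (S36FI_SFF M q hq hqM A hA).O)
    (qΛ : (S36IT_fam3 M q hq hqM A hA ζ hζ hζ1 dvr U).Λ)
    (hqΛ : (qΛ : ↥(S36FI_act (M * q * q) (A.inertiaSubgroupIn ℚ)).fixF) =
      ((q : ℕ) : ↥(S36FI_act (M * q * q) (A.inertiaSubgroupIn ℚ)).fixF))
    (hqFF : S36CA_IsUnif ((S36IT_fam3 M q hq hqM A hA ζ hζ hζ1 dvr U).Ov 0)
      (qΛ : ↥(S36FI_act (M * q * q) (A.inertiaSubgroupIn ℚ)).fixF))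
    (g : (S36IT_fam3 M q hq hqM A hA ζ hζ hζ1 dvr U).Λ)
    (hg : (S36FI_SFF M q hq hqM A hA).red ⟨g, hO₁ g⟩ = 0) :
    (algebraMap ℚbar ↥(modularFunctionFieldBar (M * q * q)) (q : ℚbar))⁻¹ *
      ((g : ↥(S36FI_act (M * q * q) (A.inertiaSubgroupIn ℚ)).fixF) :
        ↥(modularFunctionFieldBar (M * q * q))) ∈ S36V_G A (S36V_emFF M q) := by
  have h0 : (g : ↥(S36FI_act (M * q * q) (A.inertiaSubgroupIn ℚ)).fixF) = 0 ∨
      ((g : ↥(S36FI_act (M * q * q) (A.inertiaSubgroupIn ℚ)).fixF))⁻¹ ∉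
        (S36IT_fam3 M q hq hqM A hA ζ hζ hζ1 dvr U).Ov 0 := by
    rcases (S36CA_compRed_eq_zero_iff (S36FI_SFF M q hq hqM A hA)
      (S36IT_fam3 M q hq hqM A hA ζ hζ hζ1 dvr U) (j₀ := 0) rfl hO₁ g).1 hg with h | h
    · exact Or.inl (by rw [h]; rfl)
    · exact Or.inr h
  have h1 := S36OU_div_mem _ hqFF (hO₁ g) h0
  have h2 : (((g : ↥(S36FI_act (M * q * q) (A.inertiaSubgroupIn ℚ)).fixF) /
      (qΛ : ↥(S36FI_act (M * q * q) (A.inertiaSubgroupIn ℚ)).fixF) :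
        ↥(S36FI_act (M * q * q) (A.inertiaSubgroupIn ℚ)).fixF) :
          ↥(modularFunctionFieldBar (M * q * q))) ∈ S36V_G A (S36V_emFF M q) := h1
  rwa [S36OU_div_coe M q hq hqM A hA ζ hζ hζ1 dvr U qΛ hqΛ] at h2

/-- a function of `Λ` vanishing along `VV` is divisible by `q` along `VV`. -/
theorem S36OU_div_VV
    (hO₃ : ∀ f : (S36IT_fam3 M q hq hqM A hA ζ hζ hζ1 dvr U).Λ,
      (f : ↥(S36FI_act (M * q * q) (A.inertiaSubgroupIn ℚ)).fixF) ∈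
        (S36FI_SVV M q hq hqM A hA).O)
    (qΛ : (S36IT_fam3 M q hq hqM A hA ζ hζ hζ1 dvr U).Λ)
    (hqΛ : (qΛ : ↥(S36FI_act (M * q * q) (A.inertiaSubgroupIn ℚ)).fixF) =
      ((q : ℕ) : ↥(S36FI_act (M * q * q) (A.inertiaSubgroupIn ℚ)).fixF))
    (hqVV : S36CA_IsUnif ((S36IT_fam3 M q hq hqM A hA ζ hζ hζ1 dvr U).Ov 2)
      (qΛ : ↥(S36FI_act (M * q * q) (A.inertiaSubgroupIn ℚ)).fixF))
    (g : (S36IT_fam3 M q hq hqM A hA ζ hζ hζ1 dvr U).Λ)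
    (hg : (S36FI_SVV M q hq hqM A hA).red ⟨g, hO₃ g⟩ = 0) :
    (algebraMap ℚbar ↥(modularFunctionFieldBar (M * q * q)) (q : ℚbar))⁻¹ *
      ((g : ↥(S36FI_act (M * q * q) (A.inertiaSubgroupIn ℚ)).fixF) :
        ↥(modularFunctionFieldBar (M * q * q))) ∈ S36V_G A (S36V_emVV M q hq hqM) := by
  have h0 : (g : ↥(S36FI_act (M * q * q) (A.inertiaSubgroupIn ℚ)).fixF) = 0 ∨
      ((g : ↥(S36FI_act (M * q * q) (A.inertiaSubgroupIn ℚ)).fixF))⁻¹ ∉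
        (S36IT_fam3 M q hq hqM A hA ζ hζ hζ1 dvr U).Ov 2 := by
    rcases (S36CA_compRed_eq_zero_iff (S36FI_SVV M q hq hqM A hA)
      (S36IT_fam3 M q hq hqM A hA ζ hζ hζ1 dvr U) (j₀ := 2) rfl hO₃ g).1 hg with h | h
    · exact Or.inl (by rw [h]; rfl)
    · exact Or.inr h
  have h1 := S36OU_div_mem _ hqVV (hO₃ g) h0
  have h2 : (((g : ↥(S36FI_act (M * q * q) (A.inertiaSubgroupIn ℚ)).fixF) /
      (qΛ : ↥(S36FI_act (M * q * q) (A.inertiaSubgroupIn ℚ)).fixF) :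
        ↥(S36FI_act (M * q * q) (A.inertiaSubgroupIn ℚ)).fixF) :
          ↥(modularFunctionFieldBar (M * q * q))) ∈ S36V_G A (S36V_emVV M q hq hqM) := h1
  rwa [S36OU_div_coe M q hq hqM A hA ζ hζ hζ1 dvr U qΛ hqΛ] at h2

/-- the reduction along `FV` of a product `g · w_τ`. -/
theorem S36OU_red_mul [Fact q.Prime] [CharP (IsLocalRing.ResidueField A) q]
    (τ : S18_O A M) (x : ↥(modularFunctionFieldBar (M * q * q)))
    (hx : x ∈ S36V_G A (S36V_emFV M q hq hqM ζ hζ hζ1))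
    (d : ↥(modularFunctionFieldBar (M * q * q)))
    (hd : d = x * S36OQ_w M q (τ : ↥(modularFunctionFieldBar M)))
    (hdFV : d ∈ S36V_G A (S36V_emFV M q hq hqM ζ hζ hζ1)) :
    S36V_Gred A (S36V_emFV M q hq hqM ζ hζ hζ1) ⟨d, hdFV⟩ =
      S36V_Gred A (S36V_emFV M q hq hqM ζ hζ hζ1) ⟨x, hx⟩ *
        -(LT_theta ((S18_red A M τ :
          ↥(modularFunctionFieldFullC (IsLocalRing.ResidueField A) M)) :
            LaurentSeries (IsLocalRing.ResidueField A))) ^ (q - 1) := by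
  subst hd
  rw [← S36OQ_w_red M q hq hqM A ζ hζ hζ1 τ, ← map_mul]
  rfl

/-- **(R13) at an ordinary point `P` of `FV`**: `d = g ϖ^(m+1) / q ∈ Λ_U` with non-zero value
at `P`  (`hR13` of `S36CP_pl₂`). -/
theorem S36OU_ord (hU : ∀ Q ∈ U, 0 ≤ Q.ord (jB (M * q * q)))
    (hO₁ : ∀ f : (S36IT_fam3 M q hq hqM A hA ζ hζ hζ1 dvr U).Λ,
      (f : ↥(S36FI_act (M * q * q) (A.inertiaSubgroupIn ℚ)).fixF) ∈
        (S36FI_SFF M q hq hqM A hA).O)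
    (hO₂ : ∀ f : (S36IT_fam3 M q hq hqM A hA ζ hζ hζ1 dvr U).Λ,
      (f : ↥(S36FI_act (M * q * q) (A.inertiaSubgroupIn ℚ)).fixF) ∈
        (S36FI_SFV M q hq hqM A hA ζ hζ hζ1).O)
    (hO₃ : ∀ f : (S36IT_fam3 M q hq hqM A hA ζ hζ hζ1 dvr U).Λ,
      (f : ↥(S36FI_act (M * q * q) (A.inertiaSubgroupIn ℚ)).fixF) ∈
        (S36FI_SVV M q hq hqM A hA).O)
    (qΛ : (S36IT_fam3 M q hq hqM A hA ζ hζ hζ1 dvr U).Λ)
    (hqΛ : (qΛ : ↥(S36FI_act (M * q * q) (A.inertiaSubgroupIn ℚ)).fixF) =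
      ((q : ℕ) : ↥(S36FI_act (M * q * q) (A.inertiaSubgroupIn ℚ)).fixF))
    (hqFF : S36CA_IsUnif ((S36IT_fam3 M q hq hqM A hA ζ hζ hζ1 dvr U).Ov 0)
      (qΛ : ↥(S36FI_act (M * q * q) (A.inertiaSubgroupIn ℚ)).fixF))
    (hqVV : S36CA_IsUnif ((S36IT_fam3 M q hq hqM A hA ζ hζ hζ1 dvr U).Ov 2)
      (qΛ : ↥(S36FI_act (M * q * q) (A.inertiaSubgroupIn ℚ)).fixF))
    (m : ℕ) (hm : m + 1 = q - 1)
    (P : Place (IsLocalRing.ResidueField A)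
      ↥(modularFunctionFieldFullC (IsLocalRing.ResidueField A) M))
    (hv : 0 ≤ P.ord (S18_jbar M (IsLocalRing.ResidueField A)))
    (Hord : ∀ (τ Hτ : ↥(modularFunctionFieldFullC (IsLocalRing.ResidueField A) M))
      (c : IsLocalRing.ResidueField A),
      P.ord (τ - algebraMap (IsLocalRing.ResidueField A)
        ↥(modularFunctionFieldFullC (IsLocalRing.ResidueField A) M) c) = 1 →
      (Hτ : LaurentSeries (IsLocalRing.ResidueField A)) =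
        -(LT_theta (τ : LaurentSeries (IsLocalRing.ResidueField A))) ^ (q - 1) →
      P.ord Hτ = 0)
    (hregP : ∀ f : (S36IT_fam3 M q hq hqM A hA ζ hζ hζ1 dvr U).Λ,
      P.adicValuation ((S36FI_SFV M q hq hqM A hA ζ hζ hζ1).red ⟨f, hO₂ f⟩) ≤ 1)
    (hg : ∃ g : (S36IT_fam3 M q hq hqM A hA ζ hζ hζ1 dvr U).Λ,
      (S36FI_SFF M q hq hqM A hA).red ⟨g, hO₁ g⟩ = 0 ∧
      (S36FI_SVV M q hq hqM A hA).red ⟨g, hO₃ g⟩ = 0 ∧
      FD_c0 P ((S36FI_SFV M q hq hqM A hA ζ hζ hζ1).red ⟨g, hO₂ g⟩) ≠ 0) :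
    ∃ ϖ g d : (S36IT_fam3 M q hq hqM A hA ζ hζ hζ1 dvr U).Λ,
      (d : ↥(S36FI_act (M * q * q) (A.inertiaSubgroupIn ℚ)).fixF) =
        g * (ϖ : ↥(S36FI_act (M * q * q) (A.inertiaSubgroupIn ℚ)).fixF) ^ (m + 1) / qΛ ∧
      FD_c0 P ((S36FI_SFV M q hq hqM A hA ζ hζ hζ1).red ⟨d, hO₂ d⟩) ≠ 0 ∧
      (ϖ : ↥(S36FI_act (M * q * q) (A.inertiaSubgroupIn ℚ)).fixF) ^ (m + 1) / qΛ ∈
        (S36IT_fam3 M q hq hqM A hA ζ hζ hζ1 dvr U).Ov 1 := by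
  classical
  haveI : Fact q.Prime := ⟨hq⟩
  haveI : CharP (IsLocalRing.ResidueField A) q := S18_residue_charP A q hq hA
  have h := S18_hk M A hq hA hqM
  obtain ⟨m₀, τ, c, hfix, hmem, hτP, -⟩ := S36OL_tau' M q hq hqM A hA P hv
  obtain ⟨hdA, hdB, hdC⟩ := S36OL_B_pull M q A m₀ τ hfix hmem
  have hwB := S36OL_w_mem_B M q (S36OL_B M q A) (S36OL_B_q_inv M q A) _ hdA hdC
  have hϖB : S36OQ_varpi M q (τ : ↥(modularFunctionFieldBar M)) ∈ S36OL_B M q A :=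
    Subring.sub_mem _ hdC hdA
  have hw := S36OQ_w_mem M q hq hqM A ζ hζ hζ1 τ
  obtain ⟨g, hg1, hg3, hg2⟩ := hg
  obtain ⟨hgFF, hgFV, hgVV, hgU⟩ := S36OU_Λ_mem M q hq hqM A hA ζ hζ hζ1 dvr U g
  have hgq1 := S36OU_div_FF M q hq hqM A hA ζ hζ hζ1 dvr U hO₁ qΛ hqΛ hqFF g hg1
  have hgq3 := S36OU_div_VV M q hq hqM A hA ζ hζ hζ1 dvr U hO₃ qΛ hqΛ hqVV g hg3
  -- the uniformiser `ϖ_τ`
  obtain ⟨ϖ, hϖ⟩ : ∃ ϖ : (S36IT_fam3 M q hq hqM A hA ζ hζ hζ1 dvr U).Λ,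
      ((ϖ : ↥(S36FI_act (M * q * q) (A.inertiaSubgroupIn ℚ)).fixF) :
        ↥(modularFunctionFieldBar (M * q * q))) =
        S36OQ_varpi M q (τ : ↥(modularFunctionFieldBar M)) :=
    ⟨S36OU_mk M q hq hqM A hA ζ hζ hζ1 dvr U hU _ hϖB (S36OL_varpi_FF M q A τ)
      (S36OQ_varpi_mem M q hq hqM A ζ hζ hζ1 τ) (S36OL_varpi_VV M q hq hqM A τ), rfl⟩
  have hwK : (((ϖ : ↥(S36FI_act (M * q * q) (A.inertiaSubgroupIn ℚ)).fixF) ^ (m + 1) / qΛ :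
      ↥(S36FI_act (M * q * q) (A.inertiaSubgroupIn ℚ)).fixF) :
        ↥(modularFunctionFieldBar (M * q * q))) =
      S36OQ_w M q (τ : ↥(modularFunctionFieldBar M)) := by
    rw [S36OU_pow_div_coe M q hq hqM A hA ζ hζ hζ1 dvr U qΛ hqΛ m hm, hϖ, S36OQ_w]
  -- the function `d`
  have hdcoe : ((((g : ↥(S36FI_act (M * q * q) (A.inertiaSubgroupIn ℚ)).fixF) *
      (ϖ : ↥(S36FI_act (M * q * q) (A.inertiaSubgroupIn ℚ)).fixF) ^ (m + 1) / qΛ :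
        ↥(S36FI_act (M * q * q) (A.inertiaSubgroupIn ℚ)).fixF)) :
          ↥(modularFunctionFieldBar (M * q * q))) =
      ((g : ↥(S36FI_act (M * q * q) (A.inertiaSubgroupIn ℚ)).fixF) :
        ↥(modularFunctionFieldBar (M * q * q))) *
        S36OQ_w M q (τ : ↥(modularFunctionFieldBar M)) := by
    rw [mul_div_assoc, Subfield.coe_mul, hwK]
  have hEq : ((g : ↥(S36FI_act (M * q * q) (A.inertiaSubgroupIn ℚ)).fixF) :
        ↥(modularFunctionFieldBar (M * q * q))) *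
        S36OQ_w M q (τ : ↥(modularFunctionFieldBar M)) =
      (algebraMap ℚbar ↥(modularFunctionFieldBar (M * q * q)) (q : ℚbar))⁻¹ *
        ((g : ↥(S36FI_act (M * q * q) (A.inertiaSubgroupIn ℚ)).fixF) :
          ↥(modularFunctionFieldBar (M * q * q))) *
        S36OQ_varpi M q (τ : ↥(modularFunctionFieldBar M)) ^ (q - 1) := by
    rw [S36OQ_w]
    ring
  have hdFF : ((((g : ↥(S36FI_act (M * q * q) (A.inertiaSubgroupIn ℚ)).fixF) *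
      (ϖ : ↥(S36FI_act (M * q * q) (A.inertiaSubgroupIn ℚ)).fixF) ^ (m + 1) / qΛ :
        ↥(S36FI_act (M * q * q) (A.inertiaSubgroupIn ℚ)).fixF)) :
          ↥(modularFunctionFieldBar (M * q * q))) ∈ S36V_G A (S36V_emFF M q) := by
    rw [hdcoe, hEq]
    exact Subring.mul_mem _ hgq1 (Subring.pow_mem _ (S36OL_varpi_FF M q A τ) _)
  have hdVV : ((((g : ↥(S36FI_act (M * q * q) (A.inertiaSubgroupIn ℚ)).fixF) *
      (ϖ : ↥(S36FI_act (M * q * q) (A.inertiaSubgroupIn ℚ)).fixF) ^ (m + 1) / qΛ :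
        ↥(S36FI_act (M * q * q) (A.inertiaSubgroupIn ℚ)).fixF)) :
          ↥(modularFunctionFieldBar (M * q * q))) ∈ S36V_G A (S36V_emVV M q hq hqM) := by
    rw [hdcoe, hEq]
    exact Subring.mul_mem _ hgq3 (Subring.pow_mem _ (S36OL_varpi_VV M q hq hqM A τ) _)
  have hdFV : ((((g : ↥(S36FI_act (M * q * q) (A.inertiaSubgroupIn ℚ)).fixF) *
      (ϖ : ↥(S36FI_act (M * q * q) (A.inertiaSubgroupIn ℚ)).fixF) ^ (m + 1) / qΛ :
        ↥(S36FI_act (M * q * q) (A.inertiaSubgroupIn ℚ)).fixF)) :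
          ↥(modularFunctionFieldBar (M * q * q))) ∈
      S36V_G A (S36V_emFV M q hq hqM ζ hζ hζ1) := by
    rw [hdcoe]
    exact Subring.mul_mem _ hgFV hw
  have hdU : ∀ Q ∈ U, ((((g : ↥(S36FI_act (M * q * q) (A.inertiaSubgroupIn ℚ)).fixF) *
      (ϖ : ↥(S36FI_act (M * q * q) (A.inertiaSubgroupIn ℚ)).fixF) ^ (m + 1) / qΛ :
        ↥(S36FI_act (M * q * q) (A.inertiaSubgroupIn ℚ)).fixF)) :
          ↥(modularFunctionFieldBar (M * q * q))) ∈ Q.toValuationSubring := by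
    intro Q hQ
    rw [hdcoe]
    exact Q.toValuationSubring.mul_mem _ _ (hgU Q hQ)
      (((S36OL_mem_B M q A).1 hwB).2 Q (hU Q hQ))
  have hdΛ : ((g : ↥(S36FI_act (M * q * q) (A.inertiaSubgroupIn ℚ)).fixF) *
      (ϖ : ↥(S36FI_act (M * q * q) (A.inertiaSubgroupIn ℚ)).fixF) ^ (m + 1) / qΛ) ∈
      (S36IT_fam3 M q hq hqM A hA ζ hζ hζ1 dvr U).Λ :=
    (S36IT_fam3_mem_Λ_G M q hq hqM A hA ζ hζ hζ1 dvr U _).2 ⟨hdFF, hdFV, hdVV, hdU⟩
  refine ⟨ϖ, g, ⟨_, hdΛ⟩, rfl, ?_, ?_⟩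
  · -- the value at `P`
    obtain ⟨eg0, egv⟩ := S36OU_ord_of_c0 P (h.deg_one P) (hregP g) hg2
    obtain ⟨Hτ, hHτ⟩ := S36OI_Htau M A hq hA hqM P (S18_red A M τ) c hτP
    have hH0 := Hord _ Hτ c hτP hHτ
    have hθ := S36OU_theta_ne_zero M q hq hqM A hA P _ c hτP
    have hHne : Hτ ≠ 0 := by
      intro h0
      rw [h0] at hHτ
      have h1 : -(LT_theta ((S18_red A M τ :
          ↥(modularFunctionFieldFullC (IsLocalRing.ResidueField A) M)) :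
            LaurentSeries (IsLocalRing.ResidueField A))) ^ (q - 1) = 0 := hHτ.symm
      exact hθ (pow_eq_zero_iff (Nat.sub_ne_zero_of_lt hq.one_lt) |>.1 (neg_eq_zero.1 h1))
    have hE : (S36FI_SFV M q hq hqM A hA ζ hζ hζ1).red ⟨_, hO₂ ⟨_, hdΛ⟩⟩ =
        (S36FI_SFV M q hq hqM A hA ζ hζ hζ1).red ⟨g, hO₂ g⟩ * Hτ := by
      apply Subtype.ext
      rw [S36FI_SFV_red, IntermediateField.coe_mul, S36FI_SFV_red, hHτ]
      exact S36OU_red_mul M q hq hqM A ζ hζ hζ1 τ _ hgFV _ hdcoe _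
    rw [hE]
    exact S36OU_c0_ne_zero P (h.deg_one P) (mul_ne_zero eg0 hHne)
      (by rw [P.ord_mul eg0 hHne, egv, hH0, add_zero])
  · -- `ϖ^(m+1) / q ∈ O_FV`
    have h1 : (((ϖ : ↥(S36FI_act (M * q * q) (A.inertiaSubgroupIn ℚ)).fixF) ^ (m + 1) / qΛ :
        ↥(S36FI_act (M * q * q) (A.inertiaSubgroupIn ℚ)).fixF) :
          ↥(modularFunctionFieldBar (M * q * q))) ∈
        S36V_G A (S36V_emFV M q hq hqM ζ hζ hζ1) := by
      rw [hwK]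
      exact hw
    exact h1

end ord

/-! ### (R13) at a supersingular point -/

section ss

variable [NeZero (M * q)]
    (dvr : ∀ i, IsDiscreteValuationRing
      (S36FL_OL (S36FI_act (M * q * q) (A.inertiaSubgroupIn ℚ))
        (S36IT_Ov3 M q hq hqM A hA ζ hζ hζ1 i)))
    (U : Set (Place ℚbar ↥(modularFunctionFieldBar (M * q * q))))

/-- **(R13) at a supersingular point `P`**, value along `FV`: `ε = t₁ t₂ ϖ^(m+1) / q ∈ Λ_U`
with non-zero value at `P`, `t₁ / q ∈ O_FF`, `t₂ / q ∈ O_VV`, `ϖ^(m+1) / q ∈ O_FV`. -/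
theorem S36OU_ss_FV (hU : ∀ Q ∈ U, 0 ≤ Q.ord (jB (M * q * q)))
    (hO₂ : ∀ f : (S36IT_fam3 M q hq hqM A hA ζ hζ hζ1 dvr U).Λ, (f : ↥(S36FI_act (M * q * q) (A.inertiaSubgroupIn ℚ)).fixF) ∈ (S36FI_SFV M q hq hqM A hA ζ hζ hζ1).O)
    (qΛ : (S36IT_fam3 M q hq hqM A hA ζ hζ hζ1 dvr U).Λ) (hqΛ : (qΛ : ↥(S36FI_act (M * q * q) (A.inertiaSubgroupIn ℚ)).fixF) = ((q : ℕ) : ↥(S36FI_act (M * q * q) (A.inertiaSubgroupIn ℚ)).fixF))
    (m : ℕ) (hm : m + 1 = q - 1)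
    {hgen : PrincipalGeneratedByIntegral A (IsLocalRing.residue A) (M * q)}
    {n : ℕ} {hn : 0 < n} (SSD : S36SS_Data M q hq hqM A hgen n hn)
    (P : Place (IsLocalRing.ResidueField A) ↥(modularFunctionFieldFullC (IsLocalRing.ResidueField A) M)) (hP : P ∈ SSD.SS)
    (Hss : ∀ (τ Hτ : ↥(modularFunctionFieldFullC (IsLocalRing.ResidueField A) M)) (c : (IsLocalRing.ResidueField A)),
      P.ord (τ - algebraMap (IsLocalRing.ResidueField A) ↥(modularFunctionFieldFullC (IsLocalRing.ResidueField A) M) c) = 1 →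
      (Hτ : LaurentSeries (IsLocalRing.ResidueField A)) = -(LT_theta (τ : LaurentSeries (IsLocalRing.ResidueField A))) ^ (q - 1) →
      P.ord Hτ = -2) :
    ∃ ϖ t₁ t₂ ε : (S36IT_fam3 M q hq hqM A hA ζ hζ hζ1 dvr U).Λ,
      (ε : ↥(S36FI_act (M * q * q) (A.inertiaSubgroupIn ℚ)).fixF) = t₁ * t₂ * (ϖ : ↥(S36FI_act (M * q * q) (A.inertiaSubgroupIn ℚ)).fixF) ^ (m + 1) / qΛ ∧
      FD_c0 P ((S36FI_SFV M q hq hqM A hA ζ hζ hζ1).red ⟨ε, hO₂ ε⟩) ≠ 0 ∧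
      (t₁ : ↥(S36FI_act (M * q * q) (A.inertiaSubgroupIn ℚ)).fixF) / qΛ ∈ (S36IT_fam3 M q hq hqM A hA ζ hζ hζ1 dvr U).Ov 0 ∧ (t₂ : ↥(S36FI_act (M * q * q) (A.inertiaSubgroupIn ℚ)).fixF) / qΛ ∈ (S36IT_fam3 M q hq hqM A hA ζ hζ hζ1 dvr U).Ov 2 ∧
      (ϖ : ↥(S36FI_act (M * q * q) (A.inertiaSubgroupIn ℚ)).fixF) ^ (m + 1) / qΛ ∈ (S36IT_fam3 M q hq hqM A hA ζ hζ hζ1 dvr U).Ov 1 := by
  classical
  haveI : Fact q.Prime := ⟨hq⟩
  haveI : CharP (IsLocalRing.ResidueField A) q := S18_residue_charP A q hq hA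
  haveI : CharP ↥(modularFunctionFieldFullC (IsLocalRing.ResidueField A) M) q :=
    charP_of_injective_algebraMap (algebraMap (IsLocalRing.ResidueField A) ↥(modularFunctionFieldFullC (IsLocalRing.ResidueField A) M)).injective q
  have h := S18_hk M A hq hA hqM
  obtain ⟨m₀, τ, c, hfix, hmem, hτP, hτreg⟩ :=
    S36OL_tau' M q hq hqM A hA P (SSD.SS_reg P hP)
  obtain ⟨hdA, hdB, hdC⟩ := S36OL_B_pull M q A m₀ τ hfix hmem
  have hwB := S36OL_w_mem_B M q (S36OL_B M q A) (S36OL_B_q_inv M q A) _ hdA hdC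
  have hϖB : S36OQ_varpi M q (τ : ↥(modularFunctionFieldBar M)) ∈ S36OL_B M q A :=
    Subring.sub_mem _ hdC hdA
  have hw := S36OQ_w_mem M q hq hqM A ζ hζ hζ1 τ
  have hR5 := S36FR_R5 M q A τ hfix
  have hFr : S34NX_Fr M q A hq hA (S18_red A M τ) = S18_red A M τ ^ q := Subtype.ext hR5
  have hc : c ^ (q ^ 2) = c :=
    S36SS_const hA SSD P hP (S18_red A M τ) hτreg hFr c (by rw [hτP]; exact one_pos)
  obtain ⟨⟨h1FF, h2FF⟩, ⟨h1FV, h2FV⟩, ⟨h1VV, h2VV⟩⟩ := S36FR_t_mem M q hq hqM A ζ hζ hζ1 τ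
  have h1B : S36FR_t1 M q (τ : ↥(modularFunctionFieldBar M)) ∈ S36OL_B M q A :=
    Subring.sub_mem _ hdC (Subring.pow_mem _ hdB q)
  have h2B : S36FR_t2 M q (τ : ↥(modularFunctionFieldBar M)) ∈ S36OL_B M q A :=
    Subring.sub_mem _ hdA (Subring.pow_mem _ hdB q)
  have hR1 := S36FR_R1 M q hq A τ hfix
  have hR2 := S36FR_R2 M q hq hqM A τ hfix
  have h1red := S36FR_R3_t1 M q hq hqM A ζ hζ hζ1 τ hfix h1FV
  have h2red := S36FR_R3_t2 M q hq hqM A ζ hζ hζ1 τ hfix h2FV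
  -- the three functions of `Λ`
  obtain ⟨ϖ, hϖ⟩ : ∃ ϖ : (S36IT_fam3 M q hq hqM A hA ζ hζ hζ1 dvr U).Λ, ((ϖ : ↥(S36FI_act (M * q * q) (A.inertiaSubgroupIn ℚ)).fixF) : ↥(modularFunctionFieldBar (M * q * q))) =
        S36OQ_varpi M q (τ : ↥(modularFunctionFieldBar M)) :=
    ⟨S36OU_mk M q hq hqM A hA ζ hζ hζ1 dvr U hU _ hϖB (S36OL_varpi_FF M q A τ)
      (S36OQ_varpi_mem M q hq hqM A ζ hζ hζ1 τ) (S36OL_varpi_VV M q hq hqM A τ), rfl⟩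
  obtain ⟨t₁, ht₁⟩ : ∃ t₁ : (S36IT_fam3 M q hq hqM A hA ζ hζ hζ1 dvr U).Λ, ((t₁ : ↥(S36FI_act (M * q * q) (A.inertiaSubgroupIn ℚ)).fixF) : ↥(modularFunctionFieldBar (M * q * q))) =
        S36FR_t1 M q (τ : ↥(modularFunctionFieldBar M)) :=
    ⟨S36OU_mk M q hq hqM A hA ζ hζ hζ1 dvr U hU _ h1B h1FF h1FV h1VV, rfl⟩
  obtain ⟨t₂, ht₂⟩ : ∃ t₂ : (S36IT_fam3 M q hq hqM A hA ζ hζ hζ1 dvr U).Λ, ((t₂ : ↥(S36FI_act (M * q * q) (A.inertiaSubgroupIn ℚ)).fixF) : ↥(modularFunctionFieldBar (M * q * q))) =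
        S36FR_t2 M q (τ : ↥(modularFunctionFieldBar M)) :=
    ⟨S36OU_mk M q hq hqM A hA ζ hζ hζ1 dvr U hU _ h2B h2FF h2FV h2VV, rfl⟩
  have hwK : (((ϖ : ↥(S36FI_act (M * q * q) (A.inertiaSubgroupIn ℚ)).fixF) ^ (m + 1) / qΛ : ↥(S36FI_act (M * q * q) (A.inertiaSubgroupIn ℚ)).fixF) : ↥(modularFunctionFieldBar (M * q * q))) =
      S36OQ_w M q (τ : ↥(modularFunctionFieldBar M)) := by
    rw [S36OU_pow_div_coe M q hq hqM A hA ζ hζ hζ1 dvr U qΛ hqΛ m hm, hϖ, S36OQ_w]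
  -- the function `ε`
  have hεcoe : ((((t₁ : ↥(S36FI_act (M * q * q) (A.inertiaSubgroupIn ℚ)).fixF) * (t₂ : ↥(S36FI_act (M * q * q) (A.inertiaSubgroupIn ℚ)).fixF) * (ϖ : ↥(S36FI_act (M * q * q) (A.inertiaSubgroupIn ℚ)).fixF) ^ (m + 1) / qΛ : ↥(S36FI_act (M * q * q) (A.inertiaSubgroupIn ℚ)).fixF)) : ↥(modularFunctionFieldBar (M * q * q))) =
      S36FR_t1 M q (τ : ↥(modularFunctionFieldBar M)) *
        S36FR_t2 M q (τ : ↥(modularFunctionFieldBar M)) *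
        S36OQ_w M q (τ : ↥(modularFunctionFieldBar M)) := by
    rw [mul_div_assoc, Subfield.coe_mul, Subfield.coe_mul, hwK, ht₁, ht₂]
  have hEq1 : S36FR_t1 M q (τ : ↥(modularFunctionFieldBar M)) *
        S36FR_t2 M q (τ : ↥(modularFunctionFieldBar M)) *
        S36OQ_w M q (τ : ↥(modularFunctionFieldBar M)) =
      (algebraMap ℚbar ↥(modularFunctionFieldBar (M * q * q)) (q : ℚbar))⁻¹ * S36FR_t1 M q (τ : ↥(modularFunctionFieldBar M)) *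
        S36FR_t2 M q (τ : ↥(modularFunctionFieldBar M)) *
        S36OQ_varpi M q (τ : ↥(modularFunctionFieldBar M)) ^ (q - 1) := by
    rw [S36OQ_w]
    ring
  have hEq2 : S36FR_t1 M q (τ : ↥(modularFunctionFieldBar M)) *
        S36FR_t2 M q (τ : ↥(modularFunctionFieldBar M)) *
        S36OQ_w M q (τ : ↥(modularFunctionFieldBar M)) =
      S36FR_t1 M q (τ : ↥(modularFunctionFieldBar M)) *
        ((algebraMap ℚbar ↥(modularFunctionFieldBar (M * q * q)) (q : ℚbar))⁻¹ *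
          S36FR_t2 M q (τ : ↥(modularFunctionFieldBar M))) *
        S36OQ_varpi M q (τ : ↥(modularFunctionFieldBar M)) ^ (q - 1) := by
    rw [S36OQ_w]
    ring
  have hεFF : ((((t₁ : ↥(S36FI_act (M * q * q) (A.inertiaSubgroupIn ℚ)).fixF) * (t₂ : ↥(S36FI_act (M * q * q) (A.inertiaSubgroupIn ℚ)).fixF) * (ϖ : ↥(S36FI_act (M * q * q) (A.inertiaSubgroupIn ℚ)).fixF) ^ (m + 1) / qΛ : ↥(S36FI_act (M * q * q) (A.inertiaSubgroupIn ℚ)).fixF)) : ↥(modularFunctionFieldBar (M * q * q))) ∈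
      S36V_G A (S36V_emFF M q) := by
    rw [hεcoe, hEq1]
    exact Subring.mul_mem _ (Subring.mul_mem _ hR1 h2FF)
      (Subring.pow_mem _ (S36OL_varpi_FF M q A τ) _)
  have hεVV : ((((t₁ : ↥(S36FI_act (M * q * q) (A.inertiaSubgroupIn ℚ)).fixF) * (t₂ : ↥(S36FI_act (M * q * q) (A.inertiaSubgroupIn ℚ)).fixF) * (ϖ : ↥(S36FI_act (M * q * q) (A.inertiaSubgroupIn ℚ)).fixF) ^ (m + 1) / qΛ : ↥(S36FI_act (M * q * q) (A.inertiaSubgroupIn ℚ)).fixF)) : ↥(modularFunctionFieldBar (M * q * q))) ∈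
      S36V_G A (S36V_emVV M q hq hqM) := by
    rw [hεcoe, hEq2]
    exact Subring.mul_mem _ (Subring.mul_mem _ h1VV hR2)
      (Subring.pow_mem _ (S36OL_varpi_VV M q hq hqM A τ) _)
  have h12FV : S36FR_t1 M q (τ : ↥(modularFunctionFieldBar M)) *
      S36FR_t2 M q (τ : ↥(modularFunctionFieldBar M)) ∈
      S36V_G A (S36V_emFV M q hq hqM ζ hζ hζ1) := Subring.mul_mem _ h1FV h2FV
  have hεFV : ((((t₁ : ↥(S36FI_act (M * q * q) (A.inertiaSubgroupIn ℚ)).fixF) * (t₂ : ↥(S36FI_act (M * q * q) (A.inertiaSubgroupIn ℚ)).fixF) * (ϖ : ↥(S36FI_act (M * q * q) (A.inertiaSubgroupIn ℚ)).fixF) ^ (m + 1) / qΛ : ↥(S36FI_act (M * q * q) (A.inertiaSubgroupIn ℚ)).fixF)) : ↥(modularFunctionFieldBar (M * q * q))) ∈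
      S36V_G A (S36V_emFV M q hq hqM ζ hζ hζ1) := by
    rw [hεcoe]
    exact Subring.mul_mem _ h12FV hw
  have hεU : ∀ Q ∈ U, ((((t₁ : ↥(S36FI_act (M * q * q) (A.inertiaSubgroupIn ℚ)).fixF) * (t₂ : ↥(S36FI_act (M * q * q) (A.inertiaSubgroupIn ℚ)).fixF) * (ϖ : ↥(S36FI_act (M * q * q) (A.inertiaSubgroupIn ℚ)).fixF) ^ (m + 1) / qΛ : ↥(S36FI_act (M * q * q) (A.inertiaSubgroupIn ℚ)).fixF)) : ↥(modularFunctionFieldBar (M * q * q))) ∈
      Q.toValuationSubring := by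
    intro Q hQ
    rw [hεcoe]
    exact ((S36OL_mem_B M q A).1 (Subring.mul_mem _ (Subring.mul_mem _ h1B h2B) hwB)).2 Q
      (hU Q hQ)
  have hεΛ : ((t₁ : ↥(S36FI_act (M * q * q) (A.inertiaSubgroupIn ℚ)).fixF) * (t₂ : ↥(S36FI_act (M * q * q) (A.inertiaSubgroupIn ℚ)).fixF) * (ϖ : ↥(S36FI_act (M * q * q) (A.inertiaSubgroupIn ℚ)).fixF) ^ (m + 1) / qΛ) ∈ (S36IT_fam3 M q hq hqM A hA ζ hζ hζ1 dvr U).Λ :=
    (S36IT_fam3_mem_Λ_G M q hq hqM A hA ζ hζ hζ1 dvr U _).2 ⟨hεFF, hεFV, hεVV, hεU⟩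
  refine ⟨ϖ, t₁, t₂, ⟨_, hεΛ⟩, rfl, ?_, ?_, ?_, ?_⟩
  · -- the value at `P`
    obtain ⟨Hτ, hHτ⟩ := S36OI_Htau M A hq hA hqM P (S18_red A M τ) c hτP
    have hH2 := Hss _ Hτ c hτP hHτ
    have hetv : P.ord (S18_red A M τ - S18_red A M τ ^ (q ^ 2)) = 1 :=
      S36OC_simple_zero P q 2 (by norm_num) hc hτP
    have hE : (S36FI_SFV M q hq hqM A hA ζ hζ hζ1).red ⟨_, hO₂ ⟨_, hεΛ⟩⟩ =
        (S18_red A M τ - S18_red A M τ ^ (q ^ 2)) *
          (S18_red A M τ - S18_red A M τ ^ (q ^ 2)) * Hτ := by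
      apply Subtype.ext
      rw [S36FI_SFV_red, IntermediateField.coe_mul, hHτ]
      refine (S36OU_red_mul M q hq hqM A ζ hζ hζ1 τ _ h12FV _ hεcoe _).trans ?_
      congr 1
      have hmul : S36V_Gred A (S36V_emFV M q hq hqM ζ hζ hζ1) ⟨_, h12FV⟩ =
          S36V_Gred A (S36V_emFV M q hq hqM ζ hζ hζ1) ⟨_, h1FV⟩ *
            S36V_Gred A (S36V_emFV M q hq hqM ζ hζ hζ1) ⟨_, h2FV⟩ := by
        rw [← map_mul]
        rfl
      rw [hmul, h1red, h2red]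
      rfl
    have hord0 := S36OI_unit_ss P hetv hetv hH2
    have hne : (S18_red A M τ - S18_red A M τ ^ (q ^ 2)) *
        (S18_red A M τ - S18_red A M τ ^ (q ^ 2)) * Hτ ≠ 0 := by
      have het0 : S18_red A M τ - S18_red A M τ ^ (q ^ 2) ≠ 0 := by
        intro h0
        rw [h0, P.ord_zero] at hetv
        exact zero_ne_one hetv
      have hH0 : Hτ ≠ 0 := by
        intro h0
        rw [h0, P.ord_zero] at hH2
        norm_num at hH2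
      exact mul_ne_zero (mul_ne_zero het0 het0) hH0
    rw [hE]
    exact S36OU_c0_ne_zero P (h.deg_one P) hne hord0
  · -- `t₁ / q ∈ O_FF`
    have h1 : (((t₁ : ↥(S36FI_act (M * q * q) (A.inertiaSubgroupIn ℚ)).fixF) / qΛ : ↥(S36FI_act (M * q * q) (A.inertiaSubgroupIn ℚ)).fixF) : ↥(modularFunctionFieldBar (M * q * q))) ∈ S36V_G A (S36V_emFF M q) := by
      rw [S36OU_div_coe M q hq hqM A hA ζ hζ hζ1 dvr U qΛ hqΛ, ht₁]
      exact hR1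
    exact h1
  · -- `t₂ / q ∈ O_VV`
    have h1 : (((t₂ : ↥(S36FI_act (M * q * q) (A.inertiaSubgroupIn ℚ)).fixF) / qΛ : ↥(S36FI_act (M * q * q) (A.inertiaSubgroupIn ℚ)).fixF) : ↥(modularFunctionFieldBar (M * q * q))) ∈ S36V_G A (S36V_emVV M q hq hqM) := by
      rw [S36OU_div_coe M q hq hqM A hA ζ hζ hζ1 dvr U qΛ hqΛ, ht₂]
      exact hR2
    exact h1
  · -- `ϖ^(m+1) / q ∈ O_FV`
    have h1 : (((ϖ : ↥(S36FI_act (M * q * q) (A.inertiaSubgroupIn ℚ)).fixF) ^ (m + 1) / qΛ : ↥(S36FI_act (M * q * q) (A.inertiaSubgroupIn ℚ)).fixF) : ↥(modularFunctionFieldBar (M * q * q))) ∈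
        S36V_G A (S36V_emFV M q hq hqM ζ hζ hζ1) := by
      rw [hwK]
      exact hw
    exact h1

/-- **(R13) at a supersingular point**, value along `FF` at the point `P₁` with the same values
as `P` (`hW1`)  (`hR13` of `S36CP_li_all`). -/
theorem S36OU_ss (hU : ∀ Q ∈ U, 0 ≤ Q.ord (jB (M * q * q)))
    (hO₁ : ∀ f : (S36IT_fam3 M q hq hqM A hA ζ hζ hζ1 dvr U).Λ, (f : ↥(S36FI_act (M * q * q) (A.inertiaSubgroupIn ℚ)).fixF) ∈ (S36FI_SFF M q hq hqM A hA).O)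
    (hO₂ : ∀ f : (S36IT_fam3 M q hq hqM A hA ζ hζ hζ1 dvr U).Λ, (f : ↥(S36FI_act (M * q * q) (A.inertiaSubgroupIn ℚ)).fixF) ∈ (S36FI_SFV M q hq hqM A hA ζ hζ hζ1).O)
    (qΛ : (S36IT_fam3 M q hq hqM A hA ζ hζ hζ1 dvr U).Λ) (hqΛ : (qΛ : ↥(S36FI_act (M * q * q) (A.inertiaSubgroupIn ℚ)).fixF) = ((q : ℕ) : ↥(S36FI_act (M * q * q) (A.inertiaSubgroupIn ℚ)).fixF))
    (m : ℕ) (hm : m + 1 = q - 1)
    {hgen : PrincipalGeneratedByIntegral A (IsLocalRing.residue A) (M * q)}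
    {n : ℕ} {hn : 0 < n} (SSD : S36SS_Data M q hq hqM A hgen n hn)
    (P : Place (IsLocalRing.ResidueField A) ↥(modularFunctionFieldFullC (IsLocalRing.ResidueField A) M)) (hP : P ∈ SSD.SS)
    (Hss : ∀ (τ Hτ : ↥(modularFunctionFieldFullC (IsLocalRing.ResidueField A) M)) (c : (IsLocalRing.ResidueField A)),
      P.ord (τ - algebraMap (IsLocalRing.ResidueField A) ↥(modularFunctionFieldFullC (IsLocalRing.ResidueField A) M) c) = 1 →
      (Hτ : LaurentSeries (IsLocalRing.ResidueField A)) = -(LT_theta (τ : LaurentSeries (IsLocalRing.ResidueField A))) ^ (q - 1) →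
      P.ord Hτ = -2)
    (P₁ : Place (IsLocalRing.ResidueField A) ↥(modularFunctionFieldFullC (IsLocalRing.ResidueField A) M))
    (hW : ∀ f : (S36IT_fam3 M q hq hqM A hA ζ hζ hζ1 dvr U).Λ, FD_c0 P₁ ((S36FI_SFF M q hq hqM A hA).red ⟨f, hO₁ f⟩) = FD_c0 P ((S36FI_SFV M q hq hqM A hA ζ hζ hζ1).red ⟨f, hO₂ f⟩)) :
    ∃ ϖ t₁ t₂ ε : (S36IT_fam3 M q hq hqM A hA ζ hζ hζ1 dvr U).Λ,
      (ε : ↥(S36FI_act (M * q * q) (A.inertiaSubgroupIn ℚ)).fixF) = t₁ * t₂ * (ϖ : ↥(S36FI_act (M * q * q) (A.inertiaSubgroupIn ℚ)).fixF) ^ (m + 1) / qΛ ∧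
      FD_c0 P₁ ((S36FI_SFF M q hq hqM A hA).red ⟨ε, hO₁ ε⟩) ≠ 0 ∧
      (t₁ : ↥(S36FI_act (M * q * q) (A.inertiaSubgroupIn ℚ)).fixF) / qΛ ∈ (S36IT_fam3 M q hq hqM A hA ζ hζ hζ1 dvr U).Ov 0 ∧ (t₂ : ↥(S36FI_act (M * q * q) (A.inertiaSubgroupIn ℚ)).fixF) / qΛ ∈ (S36IT_fam3 M q hq hqM A hA ζ hζ hζ1 dvr U).Ov 2 ∧
      (ϖ : ↥(S36FI_act (M * q * q) (A.inertiaSubgroupIn ℚ)).fixF) ^ (m + 1) / qΛ ∈ (S36IT_fam3 M q hq hqM A hA ζ hζ hζ1 dvr U).Ov 1 := by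
  obtain ⟨ϖ, t₁, t₂, ε, h1, h2, h3, h4, h5⟩ :=
    S36OU_ss_FV M q hq hqM A hA ζ hζ hζ1 dvr U hU hO₂ qΛ hqΛ m hm SSD P hP Hss
  exact ⟨ϖ, t₁, t₂, ε, h1, by rw [hW ε]; exact h2, h3, h4, h5⟩

end ss

end Fermat.Agent.S36
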