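import Fermat.Agent.S36.Triv3Gen
import Fermat.Agent.S36.ChartsBPow
import Fermat.Agent.S36.Fin3Chart
import Fermat.Agent.S36.Fin3Red
import Fermat.Agent.S36.SepHInst
import Fermat.Agent.S36.Val3DvInst
import Fermat.Agent.S36.LocCore
import Fermat.Agent.S18.Sep

/-!
# TRACK 10 (S36), C3.4 TRIV-CONC part 6 (helper11): **`G` on THE concrete chart `U`**

Objects (helper1 `FixLFiveVal`, helper23 `ChartsB`, helper17 `Int3Closed`):
`S = S36FI_act (M q q) I`, `k = ResidueField A`, `κ = S36FI_kappa M A`, `S₁ = S36FI_SFF`,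
`S₂ = S36FI_SFV ζ`, `S₃ = S36FI_SVV`, `C = S36CZ_C M q hq hqM A hA n hn` (chart `U = {B ≠ ∞}`),
`D = S36IT_lat … (S34IX_TU B)` (the lattice family of the chart).

`S36TY_geo_U` is `S36TX_geo_fin` (Triv3Gen) on these objects, with the separable coordinate
`w_j = j̄` (`x̄ = j̄^q`, two-coordinate fix of helper19's FINDING 1) and everything that is
landed plugged in:

* RBAR for `j̄` (`S18_RR_hyp_k`, `S18_finite_jbar`, `S18_isSeparable_jbar`);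
* `hR_j` (`S36TY_hR`), `hle` / `hge` (`S36CZ_hleΛ`, `S36CZ_Lam_eq`), `R` (`S36TY_R` from
  helper7's `S36F3R_red_U` + helper17's `S36FG_hint`), Noetherian (`S36FG_noeth_lat`),
  `hfrac` (`S36FQ_hfrac_U`), `hsepH`, `hsepH0` (`S36SJ_hsepH_U`, `S36SJ_hsepH0_U`),
  the uniformisers `q`, `ϖ` (helper8 `S36VDV_isUnif_FF/_VV/_FV`, `S36VDV_isU_FV`).

Left as hypotheses (owners): `hW1` (helper14/29/4), `hint_j` (helper14), `hsep` (helper21),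
(R13 ord) `hR13`, the lifts `hliftss` and (R13 ss) `hR13ss` at the triple points (helper5/16/24/25).
-/

set_option autoImplicit false
set_option linter.unusedSectionVars false
set_option linter.unusedVariables false
set_option linter.style.haveILetI false

open AlgebraicCurve ModularCurve HahnSeries IntermediateField

noncomputable section

namespace Fermat.Agent.S36

open Fermat.Agent.Lib Fermat.Agent.S18 Fermat.Agent.S24 Fermat.Agent.S34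

local notation "Ω" => AlgebraicClosure ℚ

variable (M q : ℕ) [NeZero M] [NeZero q] (hq : q.Prime) (hqM : ¬ q ∣ M)
  (A : ValuationSubring Ω) (hA : A.LiesOverPrime q)
  (ζ : Ωˣ) (hζ : ζ ^ q = 1) (hζ1 : ζ ≠ 1)

/-- the chart `U = {B ≠ ∞}` as a set of places of `F₂`. -/
abbrev S36TY_T : Set (Place Ω ↥(modularFunctionFieldBar (M * q * q))) :=
  S34IX_TU (K := Ω) ((S36CO_BL M q (A.inertiaSubgroupIn ℚ) :
    (S36FI_act (M * q * q) (A.inertiaSubgroupIn ℚ)).fixF) :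
      ↥(modularFunctionFieldBar (M * q * q)))

/-- **the lattice family of the chart `U`.** -/
abbrev S36TY_D : S36IT_Fam Ω ↥(modularFunctionFieldBar (M * q * q))
    ↥(S36FI_act (M * q * q) (A.inertiaSubgroupIn ℚ)).fixF (Fin 3) :=
  S36IT_lat M q hq hqM A hA ζ hζ hζ1 (S36TY_T M q A)

include hq hqM hA in
/-- RBAR for `κ`. -/
theorem S36TY_hRR : RR_Hyp (IsLocalRing.ResidueField A) ↥(S36FI_kappa M A) :=
  S18_hk M A hq hA hqM

include hq hA in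
/-- **`hR_j`**: the coordinate ring of the chart is the ring of the functions regular where
`j̄` is regular. -/
theorem S36TY_hR (y : ↥(S36FI_kappa M A)) :
    y ∈ S34SB_reg (IsLocalRing.ResidueField A) (S36CZ_xb M q hq hqM A hA) ↔
      ∀ Q : Place (IsLocalRing.ResidueField A) ↥(S36FI_kappa M A),
        Q.adicValuation (S18_jbar M (IsLocalRing.ResidueField A)) ≤ 1 →
          Q.adicValuation y ≤ 1 := by
  refine S36TX_hR_pow (S34SB_reg (IsLocalRing.ResidueField A) (S36CZ_xb M q hq hqM A hA))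
    (S18_jbar M (IsLocalRing.ResidueField A)) hq.ne_zero (fun y => ?_) y
  rw [← S36CZ_xb_eq_pow M q hq hqM A hA]
  exact S36CU_mem_reg_adic

/-- `B` has a pole. -/
theorem S36TY_hpole :
    ∃ v : Place Ω ↥(modularFunctionFieldBar (M * q * q)),
      v.ord ((S36CO_BL M q (A.inertiaSubgroupIn ℚ) :
        (S36FI_act (M * q * q) (A.inertiaSubgroupIn ℚ)).fixF) :
          ↥(modularFunctionFieldBar (M * q * q))) < 0 := by
  refine DSC_exists_pole (S36LD_hRR (M * q * q)) _ ?_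
  rintro ⟨c, hc⟩
  have h := isAlgebraic_algebraMap (R := Ω) (A := ↥(modularFunctionFieldBar (M * q * q))) c
  rw [← hc] at h
  exact S36CZ_B_transc M q h

/-- **`hle`**. -/
theorem S36TY_hle (n : ℕ) (hn : 0 < n) :
    (S36TY_D M q hq hqM A hA ζ hζ hζ1).Λ ≤
      S36LJ_Lam (S36FI_SFF M q hq hqM A hA) (S36FI_SFV M q hq hqM A hA ζ hζ hζ1)
        (S36FI_SVV M q hq hqM A hA) (S36CZ_C M q hq hqM A hA n hn).B.toSubring :=
  S36CZ_hleΛ M q hq hqM A hA ζ hζ hζ1 n hn (S36IT_dvr3_inst M q hq hqM A hA ζ hζ hζ1)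

/-- **`hge`**. -/
theorem S36TY_hge (n : ℕ) (hn : 0 < n) :
    S36LJ_Lam (S36FI_SFF M q hq hqM A hA) (S36FI_SFV M q hq hqM A hA ζ hζ hζ1)
        (S36FI_SVV M q hq hqM A hA) (S36CZ_C M q hq hqM A hA n hn).B.toSubring ≤
      (S36TY_D M q hq hqM A hA ζ hζ hζ1).Λ :=
  (S36CZ_Lam_eq M q hq hqM A hA ζ hζ hζ1 (S36IT_dvr3_inst M q hq hqM A hA ζ hζ hζ1)
    (S36TY_T M q A)).ge

/-- **`R`**: the reductions of `Λ_U` are regular on the chart (FIN). -/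
theorem S36TY_R (n : ℕ) (hn : 0 < n) :
    S36LJ_Red (S₁ := S36FI_SFF M q hq hqM A hA) (S₂ := S36FI_SFV M q hq hqM A hA ζ hζ hζ1)
      (S₃ := S36FI_SVV M q hq hqM A hA) (S36CZ_C M q hq hqM A hA n hn) := by
  have h := S36F3R_red_U (S36FI_act (M * q * q) (A.inertiaSubgroupIn ℚ))
    (k := IsLocalRing.ResidueField A)
    (S36FI_same3 M q hq hqM A hA ζ hζ hζ1) (S36CO_BL M q (A.inertiaSubgroupIn ℚ))
    (S36CZ_hjO M q hq hqM A hA ζ hζ hζ1) n hn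
    (fun g hg hgB => S36FG_hint_C M q hq hqM A hA ζ hζ hζ1 n hn g hg hgB)
  rw [S36CZ_red₁, S36CZ_red₂, S36CZ_red₃] at h
  exact h

include hq in
/-- **`hfrac`**. -/
theorem S36TY_hfrac :
    ∀ x : ↥(S36FI_act (M * q * q) (A.inertiaSubgroupIn ℚ)).fixF,
      ∃ b : (S36TY_D M q hq hqM A hA ζ hζ hζ1).Λ,
        (b : ↥(S36FI_act (M * q * q) (A.inertiaSubgroupIn ℚ)).fixF) ≠ 0 ∧
          (b : ↥(S36FI_act (M * q * q) (A.inertiaSubgroupIn ℚ)).fixF) * x ∈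
            (S36TY_D M q hq hqM A hA ζ hζ hζ1).Λ :=
  S36FQ_hfrac_U M q hq hqM A hA ζ hζ hζ1 (S36IT_dvr3_inst M q hq hqM A hA ζ hζ hζ1)
    (S36TY_T M q A) (S36FG_TU_eq M q (A.inertiaSubgroupIn ℚ)).le

/-- the uniformiser `q` of `FF`, `VV` as an element of the lattice. -/
def S36TY_qΛ : (S36TY_D M q hq hqM A hA ζ hζ hζ1).Λ :=
  ⟨((q : ℕ) : ↥(S36FI_act (M * q * q) (A.inertiaSubgroupIn ℚ)).fixF), natCast_mem _ q⟩

@[simp] theorem S36TY_qΛ_coe :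
    ((S36TY_qΛ M q hq hqM A hA ζ hζ hζ1 : (S36TY_D M q hq hqM A hA ζ hζ hζ1).Λ) :
      ↥(S36FI_act (M * q * q) (A.inertiaSubgroupIn ℚ)).fixF) =
      ((q : ℕ) : ↥(S36FI_act (M * q * q) (A.inertiaSubgroupIn ℚ)).fixF) := rfl

include hq hqM hA in
/-- **`G` on THE chart `U = {B ≠ ∞}`** (`C = S36CZ_C`, lattice `D = S36IT_lat … (S34IX_TU B)`),
separable coordinate `j̄`.  Inputs left: `hW1`, `hint_j`, `hsep`, (R13 ord) on `FV` off the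
triple points, the lifts and (R13 ss) at the triple points. -/
theorem S36TY_geo_U (n : ℕ) (hn : 0 < n) {ι : Type*} [Finite ι]
    {X : S36SE_Pts (IsLocalRing.ResidueField A) ↥(S36FI_kappa M A) ↥(S36FI_kappa M A) ↥(S36FI_kappa M A) ι}
    {hC : S36SE_Reg (S36CZ_C M q hq hqM A hA n hn) X}
    -- NODAL3-INST + EVAL-INST
    (hW1 : ∀ m ∈ S36L3_W (S36FI_same3 M q hq hqM A hA ζ hζ hζ1) (S36CZ_C M q hq hqM A hA n hn) 1, ∀ y,
      S36SE_e₁ (S36CZ_C M q hq hqM A hA n hn) X hC y m.1 = S36SE_e₂ (S36CZ_C M q hq hqM A hA n hn) X hC y m.2.1 ∧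
      S36SE_e₁ (S36CZ_C M q hq hqM A hA n hn) X hC y m.1 = S36SE_e₃ (S36CZ_C M q hq hqM A hA n hn) X hC y m.2.2)
    (hint₁ : ∀ g g' : ↥(S36CZ_C M q hq hqM A hA n hn).Rb₁,
      (∀ y, S36SE_e₁ (S36CZ_C M q hq hqM A hA n hn) X hC y g = 0) →
      (∀ y, S36SE_e₁ (S36CZ_C M q hq hqM A hA n hn) X hC y g' = 0) →
      ((g * g', 0, 0) : ↥(S36CZ_C M q hq hqM A hA n hn).Rb₁ × ↥(S36CZ_C M q hq hqM A hA n hn).Rb₂ × ↥(S36CZ_C M q hq hqM A hA n hn).Rb₃) ∈ S36L3_W (S36FI_same3 M q hq hqM A hA ζ hζ hζ1) (S36CZ_C M q hq hqM A hA n hn) 1)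
    (hint₂ : ∀ g g' : ↥(S36CZ_C M q hq hqM A hA n hn).Rb₂,
      (∀ y, S36SE_e₂ (S36CZ_C M q hq hqM A hA n hn) X hC y g = 0) →
      (∀ y, S36SE_e₂ (S36CZ_C M q hq hqM A hA n hn) X hC y g' = 0) →
      ((0, g * g', 0) : ↥(S36CZ_C M q hq hqM A hA n hn).Rb₁ × ↥(S36CZ_C M q hq hqM A hA n hn).Rb₂ × ↥(S36CZ_C M q hq hqM A hA n hn).Rb₃) ∈ S36L3_W (S36FI_same3 M q hq hqM A hA ζ hζ hζ1) (S36CZ_C M q hq hqM A hA n hn) 1)
    (hint₃ : ∀ g g' : ↥(S36CZ_C M q hq hqM A hA n hn).Rb₃,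
      (∀ y, S36SE_e₃ (S36CZ_C M q hq hqM A hA n hn) X hC y g = 0) →
      (∀ y, S36SE_e₃ (S36CZ_C M q hq hqM A hA n hn) X hC y g' = 0) →
      ((0, 0, g * g') : ↥(S36CZ_C M q hq hqM A hA n hn).Rb₁ × ↥(S36CZ_C M q hq hqM A hA n hn).Rb₂ × ↥(S36CZ_C M q hq hqM A hA n hn).Rb₃) ∈ S36L3_W (S36FI_same3 M q hq hqM A hA ζ hζ hζ1) (S36CZ_C M q hq hqM A hA n hn) 1)
    (hsep : ∀ y, ∃ m ∈ S36L3_W (S36FI_same3 M q hq hqM A hA ζ hζ hζ1) (S36CZ_C M q hq hqM A hA n hn) 1,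
      S36SE_e₁ (S36CZ_C M q hq hqM A hA n hn) X hC y m.1 = 1 ∧
      ∀ y', y' ≠ y → S36SE_e₁ (S36CZ_C M q hq hqM A hA n hn) X hC y' m.1 = 0)
    -- (R13 ord) at the points of `FV` off the triple points
    (hR13 : ∀ (P : Place (IsLocalRing.ResidueField A) ↥(S36FI_kappa M A))
      (hP : ∀ f ∈ (S36CZ_C M q hq hqM A hA n hn).Rb₂, P.adicValuation f ≤ 1),
      (∀ y, P ≠ X.P₂ y) → ∃ ϖ g d : (S36TY_D M q hq hqM A hA ζ hζ hζ1).Λ,
        (d : ↥(S36FI_act (M * q * q) (A.inertiaSubgroupIn ℚ)).fixF) = g * (ϖ : ↥(S36FI_act (M * q * q) (A.inertiaSubgroupIn ℚ)).fixF) ^ (q - 2 + 1) /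
          ((S36TY_qΛ M q hq hqM A hA ζ hζ hζ1) : (S36TY_D M q hq hqM A hA ζ hζ hζ1).Λ) ∧
        S36LK_y₂ (S36TY_D M q hq hqM A hA ζ hζ hζ1) (S36TY_hle M q hq hqM A hA ζ hζ hζ1 n hn) (S36TY_R M q hq hqM A hA ζ hζ hζ1 n hn)
          ((S36SE_ev (S36CZ_C M q hq hqM A hA n hn).Rb₂ P ((S36TY_hRR M q hq hqM A hA).deg_one P) hP :
            ↥(S36CZ_C M q hq hqM A hA n hn).Rb₂ →ₐ[(IsLocalRing.ResidueField A)] (IsLocalRing.ResidueField A)) :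
            ↥(S36CZ_C M q hq hqM A hA n hn).Rb₂ →+* (IsLocalRing.ResidueField A)) d ≠ 0 ∧
        (ϖ : ↥(S36FI_act (M * q * q) (A.inertiaSubgroupIn ℚ)).fixF) ^ (q - 2 + 1) / ((S36TY_qΛ M q hq hqM A hA ζ hζ hζ1) : (S36TY_D M q hq hqM A hA ζ hζ hζ1).Λ) ∈ (S36TY_D M q hq hqM A hA ζ hζ hζ1).Ov 1)
    -- the triple points: lifts on `VV` and (R13 ss)
    (hliftss : ∀ (y : ι) (a₁ a₂ : ↥(S36FI_kappa M A)),
      (∀ Q : Place (IsLocalRing.ResidueField A) ↥(S36FI_kappa M A),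
        Q ∉ {Q : Place (IsLocalRing.ResidueField A) ↥(S36FI_kappa M A) | ¬ Q.adicValuation (S18_jbar M (IsLocalRing.ResidueField A)) ≤ 1} → 0 ≤ Q.ord a₁) →
      (∀ Q : Place (IsLocalRing.ResidueField A) ↥(S36FI_kappa M A),
        Q ∉ {Q : Place (IsLocalRing.ResidueField A) ↥(S36FI_kappa M A) | ¬ Q.adicValuation (S18_jbar M (IsLocalRing.ResidueField A)) ≤ 1} → 0 ≤ Q.ord a₂) →
      ∃ (ε : ↥(S36FI_kappa M A)) (f₁ f₂ : (S36TY_D M q hq hqM A hA ζ hζ hζ1).Λ), ε ≠ 0 ∧ (X.P₃ y).ord ε = 0 ∧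
        S36CA_compRed (S36FI_SVV M q hq hqM A hA) (S36TY_D M q hq hqM A hA ζ hζ hζ1) (S36CW_mem₃ (S36TY_D M q hq hqM A hA ζ hζ hζ1) (S36TY_hle M q hq hqM A hA ζ hζ hζ1 n hn)) f₁ = a₁ * ε ∧
        S36CA_compRed (S36FI_SVV M q hq hqM A hA) (S36TY_D M q hq hqM A hA ζ hζ hζ1) (S36CW_mem₃ (S36TY_D M q hq hqM A hA ζ hζ hζ1) (S36TY_hle M q hq hqM A hA ζ hζ hζ1 n hn)) f₂ = a₂ * ε)
    (hR13ss : ∀ y : ι, ∃ ϖ t₁ t₂ ε : (S36TY_D M q hq hqM A hA ζ hζ hζ1).Λ,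
      (ε : ↥(S36FI_act (M * q * q) (A.inertiaSubgroupIn ℚ)).fixF) = t₁ * t₂ * (ϖ : ↥(S36FI_act (M * q * q) (A.inertiaSubgroupIn ℚ)).fixF) ^ (q - 2 + 1) / ((S36TY_qΛ M q hq hqM A hA ζ hζ hζ1) : (S36TY_D M q hq hqM A hA ζ hζ hζ1).Λ) ∧
      S36LK_y₁ (S36TY_D M q hq hqM A hA ζ hζ hζ1) (S36TY_hle M q hq hqM A hA ζ hζ hζ1 n hn) (S36TY_R M q hq hqM A hA ζ hζ hζ1 n hn)
        ((S36SE_e₁ (S36CZ_C M q hq hqM A hA n hn) X hC y : ↥(S36CZ_C M q hq hqM A hA n hn).Rb₁ →ₐ[(IsLocalRing.ResidueField A)] (IsLocalRing.ResidueField A)) : ↥(S36CZ_C M q hq hqM A hA n hn).Rb₁ →+* (IsLocalRing.ResidueField A)) ε ≠ 0 ∧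
      (t₁ : ↥(S36FI_act (M * q * q) (A.inertiaSubgroupIn ℚ)).fixF) / ((S36TY_qΛ M q hq hqM A hA ζ hζ hζ1) : (S36TY_D M q hq hqM A hA ζ hζ hζ1).Λ) ∈ (S36TY_D M q hq hqM A hA ζ hζ hζ1).Ov 0 ∧
      (t₂ : ↥(S36FI_act (M * q * q) (A.inertiaSubgroupIn ℚ)).fixF) / ((S36TY_qΛ M q hq hqM A hA ζ hζ hζ1) : (S36TY_D M q hq hqM A hA ζ hζ hζ1).Λ) ∈ (S36TY_D M q hq hqM A hA ζ hζ hζ1).Ov 2 ∧
      (ϖ : ↥(S36FI_act (M * q * q) (A.inertiaSubgroupIn ℚ)).fixF) ^ (q - 2 + 1) / ((S36TY_qΛ M q hq hqM A hA ζ hζ hζ1) : (S36TY_D M q hq hqM A hA ζ hζ hζ1).Λ) ∈ (S36TY_D M q hq hqM A hA ζ hζ hζ1).Ov 1) :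
    S36TI_Geo (S36FI_same3 M q hq hqM A hA ζ hζ hζ1) (S36CZ_C M q hq hqM A hA n hn) X hC
      (S36LC_Kp (S36FI_act (M * q * q) (A.inertiaSubgroupIn ℚ)) n
        (S36FI_SFF M q hq hqM A hA) (S36FI_SFV M q hq hqM A hA ζ hζ hζ1) (S36FI_SVV M q hq hqM A hA)) := by
  haveI : Fact q.Prime := ⟨hq⟩
  haveI : IsAlgClosed (IsLocalRing.ResidueField A) := S18_residue_isAlgClosed A
  haveI : CharP (IsLocalRing.ResidueField A) q := S18_residue_charP A q hq hA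
  haveI hfd : FiniteDimensional (IsLocalRing.ResidueField A)⟮(S18_jbar M (IsLocalRing.ResidueField A))⟯ ↥(S36FI_kappa M A) := S18_finite_jbar M hq hqM (S18_ψ A hq hA)
  haveI hsp : Algebra.IsSeparable (IsLocalRing.ResidueField A)⟮(S18_jbar M (IsLocalRing.ResidueField A))⟯ ↥(S36FI_kappa M A) := S18_isSeparable_jbar M hqM (S18_ψ A hq hA)
  haveI : IsNoetherianRing (S36TY_D M q hq hqM A hA ζ hζ hζ1).Λ := S36FG_noeth_lat M q hq hqM A hA ζ hζ hζ1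
  have htr : Transcendental (IsLocalRing.ResidueField A) (S18_jbar M (IsLocalRing.ResidueField A)) := S18_transcendental_jbar M
  obtain ⟨c₀, hc₀⟩ : ∃ c₀ : Place (IsLocalRing.ResidueField A) ↥(S36FI_kappa M A), c₀.ord (S18_jbar M (IsLocalRing.ResidueField A)) < 0 := by
    refine DSC_exists_pole (S36TY_hRR M q hq hqM A hA) _ ?_
    rintro ⟨c, hc⟩
    exact htr (hc ▸ isAlgebraic_algebraMap c)
  have hq2 : q - 2 + 1 = q - 1 := by have := hq.two_le; omega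
  have hqne : ((q : ℕ) : Ω) ≠ 0 := by exact_mod_cast hq.ne_zero
  exact S36TX_geo_fin (S36FI_same3 M q hq hqM A hA ζ hζ hζ1) S36LC_Kp_le (S36TY_hRR M q hq hqM A hA) (S36TY_hRR M q hq hqM A hA) (S36TY_hRR M q hq hqM A hA) (S18_jbar M (IsLocalRing.ResidueField A)) (S18_jbar M (IsLocalRing.ResidueField A)) (S18_jbar M (IsLocalRing.ResidueField A)) c₀ c₀ c₀ hc₀ hc₀ hc₀
    htr htr htr
    (S36TY_hR M q hq hqM A hA) (S36TY_hR M q hq hqM A hA) (S36TY_hR M q hq hqM A hA)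
    hW1 hint₁ hint₂ hint₃ hsep
    (S36TY_D M q hq hqM A hA ζ hζ hζ1) (S36TY_hle M q hq hqM A hA ζ hζ hζ1 n hn) (S36TY_hge M q hq hqM A hA ζ hζ hζ1 n hn) (S36TY_R M q hq hqM A hA ζ hζ hζ1 n hn)
    (jFF := 0) (jFV := 1) (jVV := 2) rfl rfl rfl (by decide) (by decide) (by decide)
    (by decide)
    (S36TY_hfrac M q hq hqM A hA ζ hζ hζ1)
    (S36SJ_hsepH_U M q hq hqM A hA ζ hζ hζ1 (S36IT_dvr3_inst M q hq hqM A hA ζ hζ hζ1)
      (S36CO_BL M q (A.inertiaSubgroupIn ℚ)) n _ (S36TY_hpole M q A) hn.ne' inf_le_left)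
    (S36SJ_hsepH0_U M q hq hqM A hA ζ hζ hζ1 (S36IT_dvr3_inst M q hq hqM A hA ζ hζ hζ1)
      (S36CO_BL M q (A.inertiaSubgroupIn ℚ)) n _ (S36TY_hpole M q A) hn.ne' inf_le_left)
    (S36TY_qΛ M q hq hqM A hA ζ hζ hζ1) ((q : ℕ) : Ω) hqne (by simp)
    (S36VDV_isUnif_FF M q hq A (S36V_OFF M q hq A hA) hA (fun _ => Iff.rfl))
    (S36VDV_isUnif_VV M q hq hqM A (S36V_OVV M q hq hqM A hA) hA (fun _ => Iff.rfl))
    (q - 2) (S36VDV_varpiL M q (A.inertiaSubgroupIn ℚ))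
    (S36VDV_isUnif_FV M q hq hqM A ζ hζ hζ1 (S36V_OFV M q hq hqM A hA ζ hζ hζ1) hA
      (fun _ => Iff.rfl))
    (by
      rw [hq2]
      exact S36VDV_isU_FV M q hq hqM A ζ hζ hζ1 (S36V_OFV M q hq hqM A hA ζ hζ hζ1) hA
        (fun _ => Iff.rfl))
    hR13 hliftss hR13ss

end Fermat.Agent.S36
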