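import Fermat.Agent.S36.OrdUnitFin
import Fermat.Agent.S36.OrdLowerMain
import Fermat.Agent.S36.Triv3U
import Fermat.Agent.S36.Spec3Sep

/-!
# TRACK 10 (S36), package (R13)-INST = ORD-UNIT (helper24), part 3 = R13-FIN: `hR13`, `hR13ss`
# of `S36TY_geo_U` (helper11) on THE concrete chart `U`.  Prefix `S36OU_`.

`C = S36CZ_C M q hq hqM A hA n hn` (helper23), `D = S36TY_D` (the lattice family of the chart
`U = {B ≠ ∞}`), `X = S36SE_XSS … SSD` (helper21: the supersingular places of helper3's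
`SSD : S36SS_Data`), `q = S36TY_qΛ`, `m = q - 2`.

* `S36OU_Hmain_U` : the order of `H_τ` at every non-cuspidal place (`S36OL_H_main`, helper16), with
  (R11a) supplied by the conductor `hint₂`;
* `S36OU_hR13_U`   : **`hR13` of `S36TY_geo_U`**;
* `S36OU_hR13ss_U` : **`hR13ss` of `S36TY_geo_U`**.

Hypotheses left: `ν₂(M) = ν₃(M) = 0`, `hint₂`, `hW1` (NODAL3-INST on `S36CZ_C`).
-/

set_option autoImplicit false
set_option synthInstance.maxHeartbeats 400000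
set_option maxHeartbeats 1000000
set_option linter.style.haveILetI false
set_option linter.unusedSectionVars false
set_option linter.unusedVariables false
set_option linter.style.longLine false

open HahnSeries IntermediateField AlgebraicCurve ModularCurve

noncomputable section

namespace Fermat.Agent.S36

open Fermat.Agent.S18 Fermat.Agent.S24 Fermat.Agent.S34 Fermat.Agent.GalRep Fermat.Agent.Lib
  Fermat.Agent.S17 Fermat.Agent.S19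

local notation "ℚbar" => AlgebraicClosure ℚ

variable (M q : ℕ) [NeZero M] [NeZero q] (hq : q.Prime) (hqM : ¬ q ∣ M)
  (A : ValuationSubring ℚbar) (hA : A.LiesOverPrime q)
  (ζ : ℚbarˣ) (hζ : ζ ^ q = 1) (hζ1 : ζ ≠ 1)
  [NeZero (M * q)]

include hq in
/-- the chart `U = {B ≠ ∞}` lies in the affine part `{j ≠ ∞}`. -/
theorem S36OU_hU : ∀ Q ∈ S36TY_T M q A, 0 ≤ Q.ord (jB (M * q * q)) :=
  fun Q hQ => S36OL_poles_B M q hq Q hQ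

include hq hqM hA in
/-- `j̄` has a pole. -/
theorem S36OU_pole : ∃ c₀ : Place (IsLocalRing.ResidueField A) ↥(S36FI_kappa M A), c₀.ord (S18_jbar M (IsLocalRing.ResidueField A)) < 0 := by
  haveI : IsAlgClosed (IsLocalRing.ResidueField A) := S18_residue_isAlgClosed A
  have htr : Transcendental (IsLocalRing.ResidueField A) (S18_jbar M (IsLocalRing.ResidueField A)) := S18_transcendental_jbar M
  refine DSC_exists_pole (S36TY_hRR M q hq hqM A hA) _ ?_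
  rintro ⟨c, hc⟩
  exact htr (hc ▸ isAlgebraic_algebraMap c)

variable {hgen : PrincipalGeneratedByIntegral A (IsLocalRing.residue A) (M * q)}
  {n' : ℕ} {hn' : 0 < n'} (SSD : S36SS_Data M q hq hqM A hgen n' hn')
  (n : ℕ) (hn : 0 < n)
  {hC : S36SE_Reg (S36CZ_C M q hq hqM A hA n hn) (S36SE_XSS M q hq hqM A hA SSD)}

/-- **the order of `H_τ` at every non-cuspidal place**, with (R11a) from the conductor. -/
theorem S36OU_Hmain_U (hν₂ : nuTwo M = 0) (hν₃ : nuThree M = 0)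
    (hint₂ : ∀ g g' : ↥(S36CZ_C M q hq hqM A hA n hn).Rb₂, (∀ y, S36SE_e₂ (S36CZ_C M q hq hqM A hA n hn) (S36SE_XSS M q hq hqM A hA SSD) hC y g = 0) →
      (∀ y, S36SE_e₂ (S36CZ_C M q hq hqM A hA n hn) (S36SE_XSS M q hq hqM A hA SSD) hC y g' = 0) →
      ((0, g * g', 0) : ↥(S36CZ_C M q hq hqM A hA n hn).Rb₁ × ↥(S36CZ_C M q hq hqM A hA n hn).Rb₂ × ↥(S36CZ_C M q hq hqM A hA n hn).Rb₃) ∈ S36L3_W (S36FI_same3 M q hq hqM A hA ζ hζ hζ1) (S36CZ_C M q hq hqM A hA n hn) 1) :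
    ∀ v : Place (IsLocalRing.ResidueField A) ↥(modularFunctionFieldFullC (IsLocalRing.ResidueField A) M), 0 ≤ v.ord (S18_jbar M (IsLocalRing.ResidueField A)) →
      ∀ (τ Hτ : ↥(modularFunctionFieldFullC (IsLocalRing.ResidueField A) M)) (c : (IsLocalRing.ResidueField A)), v.ord (τ - algebraMap (IsLocalRing.ResidueField A) ↥(modularFunctionFieldFullC (IsLocalRing.ResidueField A) M) c) = 1 →
        (Hτ : LaurentSeries (IsLocalRing.ResidueField A)) = -(LT_theta (τ : LaurentSeries (IsLocalRing.ResidueField A))) ^ (q - 1) →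
        (v ∉ SSD.SS → v.ord Hτ = 0) ∧ (v ∈ SSD.SS → v.ord Hτ = -2) := by
  classical
  haveI : IsAlgClosed (IsLocalRing.ResidueField A) := S18_residue_isAlgClosed A
  have h₂ := S36TY_hRR M q hq hqM A hA
  obtain ⟨c₀, hc₀⟩ := S36OU_pole M q hq hqM A hA
  have hR₂ : ∀ y : ↥(S36FI_kappa M A), y ∈ (S36CZ_C M q hq hqM A hA n hn).Rb₂ ↔
      ∀ Q : Place (IsLocalRing.ResidueField A) ↥(S36FI_kappa M A), Q.adicValuation (S18_jbar M (IsLocalRing.ResidueField A)) ≤ 1 → Q.adicValuation y ≤ 1 :=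
    S36TY_hR M q hq hqM A hA
  refine S36OL_H_main M q hq hqM A ζ hζ hζ1 hA hν₂ hν₃ SSD
    (S36CO_BL M q (A.inertiaSubgroupIn ℚ)) (fun P hP => S36OL_poles_B M q hq P hP)
    (S36CZ_xb M q hq hqM A hA) (S36CZ_xb M q hq hqM A hA) (S36CZ_xb M q hq hqM A hA) n hn
    (S36TY_R M q hq hqM A hA ζ hζ hζ1 n hn)
    (fun v hv => S36OL_ord_x₂ M q hq A hA _ (S36CZ_xb_coe M q hq hqM A hA) v hv) ?_
  intro v hv hs
  have hP : ∀ f ∈ (S36CZ_C M q hq hqM A hA n hn).Rb₂, v.adicValuation f ≤ 1 := fun f hf =>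
    (hR₂ f).1 hf v ((v.adicValuation_le_one_iff).2 (Or.inr hv))
  have hne : ∀ y, v ≠ (S36SE_XSS M q hq hqM A hA SSD).P₂ y := by
    intro y hy
    apply hs
    rw [hy]
    exact y.2
  have hev : ∀ y, S36SE_ev (S36CZ_C M q hq hqM A hA n hn).Rb₂ v (h₂.deg_one v) hP ≠ S36SE_e₂ (S36CZ_C M q hq hqM A hA n hn) (S36SE_XSS M q hq hqM A hA SSD) hC y := fun y =>
    S36TX_ev_ne₂ h₂ (S18_jbar M (IsLocalRing.ResidueField A)) c₀ hc₀ hR₂ v hP y (hne y)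
  obtain ⟨g, hgW, hg2, hg1, hg3⟩ := S36TX_R11a₂ (S36FI_same3 M q hq hqM A hA ζ hζ hζ1) (S36SE_e₂ (S36CZ_C M q hq hqM A hA n hn) (S36SE_XSS M q hq hqM A hA SSD) hC) hint₂ _ hev
  obtain ⟨f, e1, e2, e3⟩ := S36CW_exists_of_W (S36FI_same3 M q hq hqM A hA ζ hζ hζ1) (S36TY_D M q hq hqM A hA ζ hζ hζ1)
    (S36TY_hle M q hq hqM A hA ζ hζ hζ1 n hn) (S36TY_hge M q hq hqM A hA ζ hζ hζ1 n hn) g hgW
  refine ⟨(f : ↥(S36FI_act (M * q * q) (A.inertiaSubgroupIn ℚ)).fixF), S36CW_mem₁ (S36TY_D M q hq hqM A hA ζ hζ hζ1) (S36TY_hle M q hq hqM A hA ζ hζ hζ1 n hn) f,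
    S36CW_mem₂ (S36TY_D M q hq hqM A hA ζ hζ hζ1) (S36TY_hle M q hq hqM A hA ζ hζ hζ1 n hn) f,
    S36CW_mem₃ (S36TY_D M q hq hqM A hA ζ hζ hζ1) (S36TY_hle M q hq hqM A hA ζ hζ hζ1 n hn) f, ?_, ?_, ?_, ?_⟩
  · intro Q hQ
    exact (S36OU_Λ_mem M q hq hqM A hA ζ hζ hζ1 (S36IT_dvr3_inst M q hq hqM A hA ζ hζ hζ1)
      (S36TY_T M q A) f).2.2.2 Q (S36OL_TU_B M q Q hQ)
  · exact e1.trans (by rw [hg1]; rfl)
  · exact e3.trans (by rw [hg3]; rfl)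
  · have : (S36FI_SFV M q hq hqM A hA ζ hζ hζ1).red ⟨f, S36CW_mem₂ (S36TY_D M q hq hqM A hA ζ hζ hζ1) (S36TY_hle M q hq hqM A hA ζ hζ hζ1 n hn) f⟩ =
        (g.2.1 : ↥(S36FI_kappa M A)) := e2
    rw [this]
    exact hg2

/-- **`hR13` of `S36TY_geo_U`**: (R13) at the points of `FV` off the triple points. -/
theorem S36OU_hR13_U (hν₂ : nuTwo M = 0) (hν₃ : nuThree M = 0)
    (hint₂ : ∀ g g' : ↥(S36CZ_C M q hq hqM A hA n hn).Rb₂, (∀ y, S36SE_e₂ (S36CZ_C M q hq hqM A hA n hn) (S36SE_XSS M q hq hqM A hA SSD) hC y g = 0) →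
      (∀ y, S36SE_e₂ (S36CZ_C M q hq hqM A hA n hn) (S36SE_XSS M q hq hqM A hA SSD) hC y g' = 0) →
      ((0, g * g', 0) : ↥(S36CZ_C M q hq hqM A hA n hn).Rb₁ × ↥(S36CZ_C M q hq hqM A hA n hn).Rb₂ × ↥(S36CZ_C M q hq hqM A hA n hn).Rb₃) ∈ S36L3_W (S36FI_same3 M q hq hqM A hA ζ hζ hζ1) (S36CZ_C M q hq hqM A hA n hn) 1) :
    ∀ (P : Place (IsLocalRing.ResidueField A) ↥(S36FI_kappa M A)) (hP : ∀ f ∈ (S36CZ_C M q hq hqM A hA n hn).Rb₂, P.adicValuation f ≤ 1),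
      (∀ y, P ≠ (S36SE_XSS M q hq hqM A hA SSD).P₂ y) → ∃ ϖ g d : (S36TY_D M q hq hqM A hA ζ hζ hζ1).Λ,
        (d : ↥(S36FI_act (M * q * q) (A.inertiaSubgroupIn ℚ)).fixF) = g * (ϖ : ↥(S36FI_act (M * q * q) (A.inertiaSubgroupIn ℚ)).fixF) ^ (q - 2 + 1) / ((S36TY_qΛ M q hq hqM A hA ζ hζ hζ1) : (S36TY_D M q hq hqM A hA ζ hζ hζ1).Λ) ∧
        S36LK_y₂ (S36TY_D M q hq hqM A hA ζ hζ hζ1) (S36TY_hle M q hq hqM A hA ζ hζ hζ1 n hn)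
          (S36TY_R M q hq hqM A hA ζ hζ hζ1 n hn)
          ((S36SE_ev (S36CZ_C M q hq hqM A hA n hn).Rb₂ P ((S36TY_hRR M q hq hqM A hA).deg_one P) hP :
            ↥(S36CZ_C M q hq hqM A hA n hn).Rb₂ →ₐ[(IsLocalRing.ResidueField A)] (IsLocalRing.ResidueField A)) : ↥(S36CZ_C M q hq hqM A hA n hn).Rb₂ →+* (IsLocalRing.ResidueField A)) d ≠ 0 ∧
        (ϖ : ↥(S36FI_act (M * q * q) (A.inertiaSubgroupIn ℚ)).fixF) ^ (q - 2 + 1) / ((S36TY_qΛ M q hq hqM A hA ζ hζ hζ1) : (S36TY_D M q hq hqM A hA ζ hζ hζ1).Λ) ∈ (S36TY_D M q hq hqM A hA ζ hζ hζ1).Ov 1 := by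
  obtain ⟨c₀, hc₀⟩ := S36OU_pole M q hq hqM A hA
  have hq2 : q - 2 + 1 = q - 1 := by have := hq.two_le; omega
  exact S36OU_hR13 M q hq hqM A hA ζ hζ hζ1 (S36IT_dvr3_inst M q hq hqM A hA ζ hζ hζ1)
    (S36TY_T M q A) (S36OU_hU M q hq A) (S36TY_hRR M q hq hqM A hA)
    (S36TY_hle M q hq hqM A hA ζ hζ hζ1 n hn) (S36TY_hge M q hq hqM A hA ζ hζ hζ1 n hn)
    (S36TY_R M q hq hqM A hA ζ hζ hζ1 n hn) c₀ hc₀ (S36TY_hR M q hq hqM A hA) hint₂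
    (S36TY_qΛ M q hq hqM A hA ζ hζ hζ1) rfl
    (S36VDV_isUnif_FF M q hq A (S36V_OFF M q hq A hA) hA (fun _ => Iff.rfl))
    (S36VDV_isUnif_VV M q hq hqM A (S36V_OVV M q hq hqM A hA) hA (fun _ => Iff.rfl))
    (q - 2) hq2 SSD (fun P h hP => h ⟨P, hP⟩ rfl)
    (S36OU_Hmain_U M q hq hqM A hA ζ hζ hζ1 SSD n hn hν₂ hν₃ hint₂)

/-- **`hR13ss` of `S36TY_geo_U`**: (R13) at the triple points. -/
theorem S36OU_hR13ss_U (hν₂ : nuTwo M = 0) (hν₃ : nuThree M = 0)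
    (hW1 : ∀ m ∈ S36L3_W (S36FI_same3 M q hq hqM A hA ζ hζ hζ1) (S36CZ_C M q hq hqM A hA n hn) 1, ∀ y,
      S36SE_e₁ (S36CZ_C M q hq hqM A hA n hn) (S36SE_XSS M q hq hqM A hA SSD) hC y m.1 = S36SE_e₂ (S36CZ_C M q hq hqM A hA n hn) (S36SE_XSS M q hq hqM A hA SSD) hC y m.2.1 ∧
      S36SE_e₁ (S36CZ_C M q hq hqM A hA n hn) (S36SE_XSS M q hq hqM A hA SSD) hC y m.1 = S36SE_e₃ (S36CZ_C M q hq hqM A hA n hn) (S36SE_XSS M q hq hqM A hA SSD) hC y m.2.2)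
    (hint₂ : ∀ g g' : ↥(S36CZ_C M q hq hqM A hA n hn).Rb₂, (∀ y, S36SE_e₂ (S36CZ_C M q hq hqM A hA n hn) (S36SE_XSS M q hq hqM A hA SSD) hC y g = 0) →
      (∀ y, S36SE_e₂ (S36CZ_C M q hq hqM A hA n hn) (S36SE_XSS M q hq hqM A hA SSD) hC y g' = 0) →
      ((0, g * g', 0) : ↥(S36CZ_C M q hq hqM A hA n hn).Rb₁ × ↥(S36CZ_C M q hq hqM A hA n hn).Rb₂ × ↥(S36CZ_C M q hq hqM A hA n hn).Rb₃) ∈ S36L3_W (S36FI_same3 M q hq hqM A hA ζ hζ hζ1) (S36CZ_C M q hq hqM A hA n hn) 1) :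
    ∀ y : ↥SSD.SS, ∃ ϖ t₁ t₂ ε : (S36TY_D M q hq hqM A hA ζ hζ hζ1).Λ,
      (ε : ↥(S36FI_act (M * q * q) (A.inertiaSubgroupIn ℚ)).fixF) = t₁ * t₂ * (ϖ : ↥(S36FI_act (M * q * q) (A.inertiaSubgroupIn ℚ)).fixF) ^ (q - 2 + 1) / ((S36TY_qΛ M q hq hqM A hA ζ hζ hζ1) : (S36TY_D M q hq hqM A hA ζ hζ hζ1).Λ) ∧
      S36LK_y₁ (S36TY_D M q hq hqM A hA ζ hζ hζ1) (S36TY_hle M q hq hqM A hA ζ hζ hζ1 n hn)
        (S36TY_R M q hq hqM A hA ζ hζ hζ1 n hn)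
        ((S36SE_e₁ (S36CZ_C M q hq hqM A hA n hn) (S36SE_XSS M q hq hqM A hA SSD) hC y : ↥(S36CZ_C M q hq hqM A hA n hn).Rb₁ →ₐ[(IsLocalRing.ResidueField A)] (IsLocalRing.ResidueField A)) : ↥(S36CZ_C M q hq hqM A hA n hn).Rb₁ →+* (IsLocalRing.ResidueField A)) ε ≠ 0 ∧
      (t₁ : ↥(S36FI_act (M * q * q) (A.inertiaSubgroupIn ℚ)).fixF) / ((S36TY_qΛ M q hq hqM A hA ζ hζ hζ1) : (S36TY_D M q hq hqM A hA ζ hζ hζ1).Λ) ∈ (S36TY_D M q hq hqM A hA ζ hζ hζ1).Ov 0 ∧ (t₂ : ↥(S36FI_act (M * q * q) (A.inertiaSubgroupIn ℚ)).fixF) / ((S36TY_qΛ M q hq hqM A hA ζ hζ hζ1) : (S36TY_D M q hq hqM A hA ζ hζ hζ1).Λ) ∈ (S36TY_D M q hq hqM A hA ζ hζ hζ1).Ov 2 ∧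
      (ϖ : ↥(S36FI_act (M * q * q) (A.inertiaSubgroupIn ℚ)).fixF) ^ (q - 2 + 1) / ((S36TY_qΛ M q hq hqM A hA ζ hζ hζ1) : (S36TY_D M q hq hqM A hA ζ hζ hζ1).Λ) ∈ (S36TY_D M q hq hqM A hA ζ hζ hζ1).Ov 1 := by
  have hq2 : q - 2 + 1 = q - 1 := by have := hq.two_le; omega
  exact S36OU_hR13ss M q hq hqM A hA ζ hζ hζ1 (S36IT_dvr3_inst M q hq hqM A hA ζ hζ hζ1)
    (S36TY_T M q A) (S36OU_hU M q hq A)
    (S36TY_hle M q hq hqM A hA ζ hζ hζ1 n hn)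
    (S36TY_R M q hq hqM A hA ζ hζ hζ1 n hn) hW1 (S36TY_qΛ M q hq hqM A hA ζ hζ hζ1) rfl (q - 2) hq2 SSD (fun y => y.2)
    (S36OU_Hmain_U M q hq hqM A hA ζ hζ hζ1 SSD n hn hν₂ hν₃ hint₂)

include hq hqM hA in
/-- **`G` on THE chart `U`** (`S36TY_geo_U` of helper11) with `X = S36SE_XSS … SSD` and (R13 ord),
(R13 ss) plugged in.  Left: `hW1`, `hint_j`, `hsep`, the lifts at the triple points. -/
theorem S36OU_geo_U (hν₂ : nuTwo M = 0) (hν₃ : nuThree M = 0)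
    (hW1 : ∀ m ∈ S36L3_W (S36FI_same3 M q hq hqM A hA ζ hζ hζ1) (S36CZ_C M q hq hqM A hA n hn) 1, ∀ y,
      S36SE_e₁ (S36CZ_C M q hq hqM A hA n hn) (S36SE_XSS M q hq hqM A hA SSD) hC y m.1 = S36SE_e₂ (S36CZ_C M q hq hqM A hA n hn) (S36SE_XSS M q hq hqM A hA SSD) hC y m.2.1 ∧
      S36SE_e₁ (S36CZ_C M q hq hqM A hA n hn) (S36SE_XSS M q hq hqM A hA SSD) hC y m.1 = S36SE_e₃ (S36CZ_C M q hq hqM A hA n hn) (S36SE_XSS M q hq hqM A hA SSD) hC y m.2.2)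
    (hint₁ : ∀ g g' : ↥(S36CZ_C M q hq hqM A hA n hn).Rb₁, (∀ y, S36SE_e₁ (S36CZ_C M q hq hqM A hA n hn) (S36SE_XSS M q hq hqM A hA SSD) hC y g = 0) →
      (∀ y, S36SE_e₁ (S36CZ_C M q hq hqM A hA n hn) (S36SE_XSS M q hq hqM A hA SSD) hC y g' = 0) →
      ((g * g', 0, 0) : ↥(S36CZ_C M q hq hqM A hA n hn).Rb₁ × ↥(S36CZ_C M q hq hqM A hA n hn).Rb₂ × ↥(S36CZ_C M q hq hqM A hA n hn).Rb₃) ∈ S36L3_W (S36FI_same3 M q hq hqM A hA ζ hζ hζ1) (S36CZ_C M q hq hqM A hA n hn) 1)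
    (hint₂ : ∀ g g' : ↥(S36CZ_C M q hq hqM A hA n hn).Rb₂, (∀ y, S36SE_e₂ (S36CZ_C M q hq hqM A hA n hn) (S36SE_XSS M q hq hqM A hA SSD) hC y g = 0) →
      (∀ y, S36SE_e₂ (S36CZ_C M q hq hqM A hA n hn) (S36SE_XSS M q hq hqM A hA SSD) hC y g' = 0) →
      ((0, g * g', 0) : ↥(S36CZ_C M q hq hqM A hA n hn).Rb₁ × ↥(S36CZ_C M q hq hqM A hA n hn).Rb₂ × ↥(S36CZ_C M q hq hqM A hA n hn).Rb₃) ∈ S36L3_W (S36FI_same3 M q hq hqM A hA ζ hζ hζ1) (S36CZ_C M q hq hqM A hA n hn) 1)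
    (hint₃ : ∀ g g' : ↥(S36CZ_C M q hq hqM A hA n hn).Rb₃, (∀ y, S36SE_e₃ (S36CZ_C M q hq hqM A hA n hn) (S36SE_XSS M q hq hqM A hA SSD) hC y g = 0) →
      (∀ y, S36SE_e₃ (S36CZ_C M q hq hqM A hA n hn) (S36SE_XSS M q hq hqM A hA SSD) hC y g' = 0) →
      ((0, 0, g * g') : ↥(S36CZ_C M q hq hqM A hA n hn).Rb₁ × ↥(S36CZ_C M q hq hqM A hA n hn).Rb₂ × ↥(S36CZ_C M q hq hqM A hA n hn).Rb₃) ∈ S36L3_W (S36FI_same3 M q hq hqM A hA ζ hζ hζ1) (S36CZ_C M q hq hqM A hA n hn) 1)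
    (hsep : ∀ y, ∃ m ∈ S36L3_W (S36FI_same3 M q hq hqM A hA ζ hζ hζ1) (S36CZ_C M q hq hqM A hA n hn) 1, S36SE_e₁ (S36CZ_C M q hq hqM A hA n hn) (S36SE_XSS M q hq hqM A hA SSD) hC y m.1 = 1 ∧
      ∀ y', y' ≠ y → S36SE_e₁ (S36CZ_C M q hq hqM A hA n hn) (S36SE_XSS M q hq hqM A hA SSD) hC y' m.1 = 0)
    (hliftss : ∀ (y : ↥SSD.SS) (a₁ a₂ : ↥(S36FI_kappa M A)),
      (∀ Q : Place (IsLocalRing.ResidueField A) ↥(S36FI_kappa M A),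
        Q ∉ {Q : Place (IsLocalRing.ResidueField A) ↥(S36FI_kappa M A) | ¬ Q.adicValuation (S18_jbar M (IsLocalRing.ResidueField A)) ≤ 1} → 0 ≤ Q.ord a₁) →
      (∀ Q : Place (IsLocalRing.ResidueField A) ↥(S36FI_kappa M A),
        Q ∉ {Q : Place (IsLocalRing.ResidueField A) ↥(S36FI_kappa M A) | ¬ Q.adicValuation (S18_jbar M (IsLocalRing.ResidueField A)) ≤ 1} → 0 ≤ Q.ord a₂) →
      ∃ (ε : ↥(S36FI_kappa M A)) (f₁ f₂ : (S36TY_D M q hq hqM A hA ζ hζ hζ1).Λ), ε ≠ 0 ∧ ((S36SE_XSS M q hq hqM A hA SSD).P₃ y).ord ε = 0 ∧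
        S36CA_compRed (S36FI_SVV M q hq hqM A hA) (S36TY_D M q hq hqM A hA ζ hζ hζ1) (S36CW_mem₃ (S36TY_D M q hq hqM A hA ζ hζ hζ1) (S36TY_hle M q hq hqM A hA ζ hζ hζ1 n hn)) f₁ =
          a₁ * ε ∧
        S36CA_compRed (S36FI_SVV M q hq hqM A hA) (S36TY_D M q hq hqM A hA ζ hζ hζ1) (S36CW_mem₃ (S36TY_D M q hq hqM A hA ζ hζ hζ1) (S36TY_hle M q hq hqM A hA ζ hζ hζ1 n hn)) f₂ =
          a₂ * ε) :
    S36TI_Geo (S36FI_same3 M q hq hqM A hA ζ hζ hζ1) (S36CZ_C M q hq hqM A hA n hn) (S36SE_XSS M q hq hqM A hA SSD) hC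
      (S36LC_Kp (S36FI_act (M * q * q) (A.inertiaSubgroupIn ℚ)) n
        (S36FI_SFF M q hq hqM A hA) (S36FI_SFV M q hq hqM A hA ζ hζ hζ1) (S36FI_SVV M q hq hqM A hA)) :=
  S36TY_geo_U M q hq hqM A hA ζ hζ hζ1 n hn hW1 hint₁ hint₂ hint₃ hsep
    (S36OU_hR13_U M q hq hqM A hA ζ hζ hζ1 SSD n hn hν₂ hν₃ hint₂) hliftss
    (S36OU_hR13ss_U M q hq hqM A hA ζ hζ hζ1 SSD n hn hν₂ hν₃ hW1 hint₂)

end Fermat.Agent.S36
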