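import Mathlib
import Fermat.Agent.S19.RatB
import Fermat.Agent.S19.LiftPRB
import Fermat.Agent.S17.RRAvoid

/-!
# TRACK 10 (S36), package C1.5 = PARAM (helper25), part (i): ONTO with inertia-fixed lifts

Level `N` (`= M`), `ℓ ∤ N` (`= q`), `A ⊂ ℚ̄` over `ℓ`, `k` its residue field, `κ` the function
field of the reduction, `I = A.inertiaSubgroupIn ℚ`.

* `S36PA_gen` : **abstract generation lemma** (Riemann–Roch on `κ`): a subring `B ⊂ κ` which
  contains `x` and every function regular off the place `c₀` contains every function which is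
  regular off `c₀` and the poles of `x`;
* `S36PA_lift` : every `ā ∈ κ` which is regular off the cusps (the poles of `j̄`) is the
  reduction of a Gauss-integral function `f` of level `N` which is fixed by the inertia group
  and regular off the cusps (the poles of `j`).
-/

set_option autoImplicit false
set_option synthInstance.maxHeartbeats 400000
set_option maxHeartbeats 1000000
set_option linter.unusedSectionVars false
set_option linter.unusedVariables false
set_option linter.style.haveILetI false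

open HahnSeries IntermediateField AlgebraicCurve ModularCurve

namespace Fermat.Agent.S36

open Fermat.Agent.S18 Fermat.Agent.Lib Fermat.Agent.S17 Fermat.Agent.S19 Fermat.Agent.S24

section gen

variable {k κ : Type*} [Field k] [Field κ] [Algebra k κ]

/-- evaluation of a finite sum of point divisors. -/
theorem S36PA_sum_single_apply [DecidableEq (Place k κ)] (T : Finset (Place k κ))
    (φ : Place k κ → ℤ) (Q : Place k κ) :
    (∑ c ∈ T, Finsupp.single c (φ c) : Divisor k κ) Q = if Q ∈ T then φ Q else 0 := by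
  rw [Finsupp.finsetSum_apply]
  simp only [Finsupp.single_apply]
  rw [Finset.sum_ite_eq' T Q]

/-- degree of a finite sum of point divisors (places of degree one). -/
theorem S36PA_sum_single_degree (hdeg : ∀ v : Place k κ, v.deg = 1) (T : Finset (Place k κ))
    (φ : Place k κ → ℤ) :
    (∑ c ∈ T, Finsupp.single c (φ c) : Divisor k κ).degree = ∑ c ∈ T, φ c := by
  rw [map_sum]
  refine Finset.sum_congr rfl fun c _ => ?_
  rw [Divisor.degree_single, hdeg c, Nat.cast_one, mul_one]

/-- one step of the induction: remove the leading term of the pole at `c`. -/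
theorem S36PA_step [Infinite k] (h : RR_Hyp k κ) (B : Subring κ) (x : κ) (hx : x ∈ B)
    (c₀ : Place k κ) (T : Finset (Place k κ)) (hc₀ : c₀ ∉ T)
    (hxT : ∀ c ∈ T, c.ord x < 0)
    (hxreg : ∀ Q : Place k κ, Q ∉ T → Q ≠ c₀ → 0 ≤ Q.ord x)
    (hB : ∀ u : κ, (∀ Q : Place k κ, Q ≠ c₀ → 0 ≤ Q.ord u) → u ∈ B)
    (a : κ) (ha : ∀ Q : Place k κ, Q ∉ T → Q ≠ c₀ → 0 ≤ Q.ord a)
    (c : Place k κ) (hc : c ∈ T) (hca : c.ord a < 0) :
    ∃ g ∈ B, (∀ Q : Place k κ, Q ∉ T → Q ≠ c₀ → 0 ≤ Q.ord (a - g)) ∧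
      (∀ c' ∈ T, (-(c'.ord (a - g))).toNat ≤ (-(c'.ord a)).toNat) ∧
      (-(c.ord (a - g))).toNat < (-(c.ord a)).toNat := by
  classical
  have hdeg := h.deg_one
  have hx0 : x ≠ 0 := by
    rintro rfl
    have := hxT c hc
    rw [Place.ord_zero] at this
    exact lt_irrefl _ this
  have ha0 : a ≠ 0 := by
    rintro rfl
    rw [Place.ord_zero] at hca
    exact lt_irrefl _ hca
  have hcc₀ : c ≠ c₀ := fun e => hc₀ (e ▸ hc)
  -- the numbers
  set n : ℕ := (-(c.ord a)).toNat with hn
  have hnZ : (n : ℤ) = -(c.ord a) := by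
    rw [hn, Int.toNat_of_nonneg (by omega)]
  have hn1 : 1 ≤ n := by omega
  set φ : Place k κ → ℤ := fun c' => (n : ℤ) * c'.ord x with hφ
  set m : ℤ := 2 * (RR_genus k κ : ℤ) + 1 - (∑ c' ∈ T, φ c') + c.ord a with hm
  set D : Divisor k κ := Finsupp.single c₀ m + (∑ c' ∈ T, Finsupp.single c' (φ c')) +
    Finsupp.single c (-(c.ord a)) with hD
  have hDdeg : D.degree = 2 * (RR_genus k κ : ℤ) + 1 := by
    rw [hD, map_add, map_add, Divisor.degree_single, Divisor.degree_single, hdeg c₀, hdeg c,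
      S36PA_sum_single_degree hdeg, hm]
    push_cast
    ring
  have hDc : D c = (n : ℤ) * c.ord x - c.ord a := by
    rw [hD, Finsupp.add_apply, Finsupp.add_apply, S36PA_sum_single_apply, if_pos hc,
      Finsupp.single_apply, if_neg (Ne.symm hcc₀), Finsupp.single_apply, if_pos rfl, hφ]
    ring
  have hDT : ∀ c' ∈ T, c' ≠ c → D c' = (n : ℤ) * c'.ord x := by
    intro c' hc' hne
    have hc'c₀ : c' ≠ c₀ := fun e => hc₀ (e ▸ hc')
    rw [hD, Finsupp.add_apply, Finsupp.add_apply, S36PA_sum_single_apply, if_pos hc',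
      Finsupp.single_apply, if_neg (Ne.symm hc'c₀), Finsupp.single_apply, if_neg (Ne.symm hne),
      hφ]
    ring
  have hDQ : ∀ Q : Place k κ, Q ∉ T → Q ≠ c₀ → D Q = 0 := by
    intro Q hQ hQc₀
    have hQc : Q ≠ c := fun e => hQ (e ▸ hc)
    rw [hD, Finsupp.add_apply, Finsupp.add_apply, S36PA_sum_single_apply, if_neg hQ,
      Finsupp.single_apply, if_neg (Ne.symm hQc₀), Finsupp.single_apply, if_neg (Ne.symm hQc)]
    ring
  obtain ⟨u, hu0, hu, huord⟩ := S17RS_exists_ord_eq h D (by rw [hDdeg]) {c}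
  have hu' := (S17RS_mem_iff_ord hu0).1 hu
  have huc : c.ord u = -((n : ℤ) * c.ord x - c.ord a) := by
    rw [huord c (Finset.mem_singleton_self c), hDc]
  have hcx := hxT c hc
  -- `u` is regular off `c₀`
  have hureg : ∀ Q : Place k κ, Q ≠ c₀ → 0 ≤ Q.ord u := by
    intro Q hQ
    have := hu' Q
    by_cases hQT : Q ∈ T
    · by_cases hQc : Q = c
      · rw [hQc, huc]
        have h1 : (n : ℤ) * c.ord x ≤ (n : ℤ) * (-1) :=
          mul_le_mul_of_nonneg_left (by omega) (by omega)
        omega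
      · rw [hDT Q hQT hQc] at this
        have h2 := hxT Q hQT
        have h1 : (n : ℤ) * Q.ord x ≤ 0 :=
          mul_nonpos_of_nonneg_of_nonpos (by omega) (by omega)
        omega
    · rw [hDQ Q hQT hQ] at this
      omega
  have huB : u ∈ B := hB u hureg
  -- the function `g₀ = u xⁿ`
  set g₀ : κ := u * x ^ n with hg₀
  have hxn0 : x ^ n ≠ 0 := pow_ne_zero n hx0
  have hg₀0 : g₀ ≠ 0 := mul_ne_zero hu0 hxn0
  have hg₀B : g₀ ∈ B := B.mul_mem huB (B.pow_mem hx n)
  have hg₀ord : ∀ Q : Place k κ, Q.ord g₀ = Q.ord u + (n : ℤ) * Q.ord x := by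
    intro Q
    rw [hg₀, Q.ord_mul hu0 hxn0, S18_ord_pow]
  have hg₀c : c.ord g₀ = c.ord a := by
    rw [hg₀ord, huc]
    ring
  have hg₀T : ∀ c' ∈ T, c' ≠ c → 0 ≤ c'.ord g₀ := by
    intro c' hc' hne
    have := hu' c'
    rw [hDT c' hc' hne] at this
    rw [hg₀ord]
    omega
  have hg₀Q : ∀ Q : Place k κ, Q ∉ T → Q ≠ c₀ → 0 ≤ Q.ord g₀ := by
    intro Q hQ hQc₀
    have := hureg Q hQc₀
    have h1 := hxreg Q hQ hQc₀
    rw [hg₀ord]
    have h2 : 0 ≤ (n : ℤ) * Q.ord x := mul_nonneg (by omega) h1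
    omega
  -- the leading coefficient
  have hy : 0 ≤ c.ord (a * g₀⁻¹) := by
    rw [c.ord_mul ha0 (inv_ne_zero hg₀0), c.ord_inv, hg₀c]
    omega
  obtain ⟨lam, hlam⟩ := S18_exists_value c (hdeg c) (a * g₀⁻¹) hy
  have hlamB : algebraMap k κ lam ∈ B := by
    apply hB
    intro Q _
    rw [S18_Spec.ord_algebraMap]
  set g : κ := algebraMap k κ lam * g₀ with hg
  have hgB : g ∈ B := B.mul_mem hlamB hg₀B
  have hgord : ∀ Q : Place k κ, g = 0 ∨ Q.ord g = Q.ord g₀ := by
    intro Q
    by_cases hl : algebraMap k κ lam = 0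
    · left
      rw [hg, hl, zero_mul]
    · right
      rw [hg, Q.ord_mul hl hg₀0, S18_Spec.ord_algebraMap, zero_add]
  have hag : a - g = (a * g₀⁻¹ - algebraMap k κ lam) * g₀ := by
    rw [hg]
    field_simp
  refine ⟨g, hgB, fun Q hQ hQc₀ => ?_, fun c' hc' => ?_, ?_⟩
  · by_cases h0 : a - g = 0
    · rw [h0, Place.ord_zero]
    · refine S18_ord_sub_ge Q h0 (Or.inr (ha Q hQ hQc₀)) ?_
      rcases hgord Q with h1 | h1
      · exact Or.inl h1
      · right
        rw [h1]
        exact hg₀Q Q hQ hQc₀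
  · by_cases hc'c : c' = c
    · -- at `c` itself
      rw [hc'c]
      by_cases h0 : a - g = 0
      · rw [h0, Place.ord_zero]
        simp
      · rcases hlam with h1 | h1
        · exfalso
          apply h0
          rw [hag, h1, sub_self, zero_mul]
        · have hne : a * g₀⁻¹ - algebraMap k κ lam ≠ 0 := by
            intro h2
            apply h0
            rw [hag, h2, zero_mul]
          have : c.ord (a - g) = c.ord (a * g₀⁻¹ - algebraMap k κ lam) + c.ord g₀ := by
            rw [hag, c.ord_mul hne hg₀0]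
          omega
    · by_cases h0 : a - g = 0
      · rw [h0, Place.ord_zero]
        simp
      · have hmin : min (c'.ord a) 0 ≤ c'.ord (a - g) := by
          refine S18_ord_sub_ge c' h0 (Or.inr (min_le_left _ _)) ?_
          rcases hgord c' with h1 | h1
          · exact Or.inl h1
          · right
            rw [h1]
            exact (min_le_right _ _).trans (hg₀T c' hc' hc'c)
        rcases le_total (c'.ord a) 0 with h3 | h3
        · rw [min_eq_left h3] at hmin
          omega
        · rw [min_eq_right h3] at hmin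
          omega
  · by_cases h0 : a - g = 0
    · rw [h0, Place.ord_zero]
      simp only [neg_zero, Int.toNat_zero]
      omega
    · rcases hlam with h1 | h1
      · exfalso
        apply h0
        rw [hag, h1, sub_self, zero_mul]
      · have hne : a * g₀⁻¹ - algebraMap k κ lam ≠ 0 := by
          intro h2
          apply h0
          rw [hag, h2, zero_mul]
        have : c.ord (a - g) = c.ord (a * g₀⁻¹ - algebraMap k κ lam) + c.ord g₀ := by
          rw [hag, c.ord_mul hne hg₀0]
        omega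

/-- **generation lemma**: a subring `B ⊂ κ` which contains `x` and every function regular off
`c₀` contains every function regular off `c₀` and the poles `T` of `x`. -/
theorem S36PA_gen [Infinite k] (h : RR_Hyp k κ) (B : Subring κ) (x : κ) (hx : x ∈ B)
    (c₀ : Place k κ) (T : Finset (Place k κ)) (hc₀ : c₀ ∉ T)
    (hxT : ∀ c ∈ T, c.ord x < 0)
    (hxreg : ∀ Q : Place k κ, Q ∉ T → Q ≠ c₀ → 0 ≤ Q.ord x)
    (hB : ∀ u : κ, (∀ Q : Place k κ, Q ≠ c₀ → 0 ≤ Q.ord u) → u ∈ B)
    (a : κ) (ha : ∀ Q : Place k κ, Q ∉ T → Q ≠ c₀ → 0 ≤ Q.ord a) : a ∈ B := by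
  classical
  have key : ∀ N : ℕ, ∀ a : κ, (∀ Q : Place k κ, Q ∉ T → Q ≠ c₀ → 0 ≤ Q.ord a) →
      ∑ c ∈ T, (-(c.ord a)).toNat ≤ N → a ∈ B := by
    intro N
    induction N with
    | zero =>
      intro a ha hsum
      apply hB
      intro Q hQ
      by_cases hQT : Q ∈ T
      · have h1 : (-(Q.ord a)).toNat ≤ ∑ c ∈ T, (-(c.ord a)).toNat :=
          Finset.single_le_sum (f := fun c => (-(c.ord a)).toNat) (fun _ _ => Nat.zero_le _) hQT
        omega
      · exact ha Q hQT hQ
    | succ N ih =>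
      intro a ha hsum
      by_cases hall : ∀ c ∈ T, 0 ≤ c.ord a
      · apply hB
        intro Q hQ
        by_cases hQT : Q ∈ T
        · exact hall Q hQT
        · exact ha Q hQT hQ
      · push Not at hall
        obtain ⟨c, hc, hca⟩ := hall
        obtain ⟨g, hgB, hreg, hle, hlt⟩ :=
          S36PA_step h B x hx c₀ T hc₀ hxT hxreg hB a ha c hc hca
        have hsum' : ∑ c' ∈ T, (-(c'.ord (a - g))).toNat < ∑ c' ∈ T, (-(c'.ord a)).toNat :=
          Finset.sum_lt_sum hle ⟨c, hc, hlt⟩
        have := ih (a - g) hreg (by omega)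
        have h2 := B.add_mem this hgB
        rwa [sub_add_cancel] at h2
  exact key _ a ha le_rfl

end gen

section concrete

variable (N : ℕ) [NeZero N] (A : ValuationSubring (AlgebraicClosure ℚ))
  (h : ReductionInputsModL A N)

/-- the ring `Λ₀` of Gauss-integral functions of level `N` which are fixed by the inertia group
and regular off the cusps. -/
def S36PA_Lam : Subring (S18_specModL N A h).O where
  carrier := {f | (∀ τ ∈ A.inertiaSubgroupIn ℚ,
      arithmeticGalois (modularFunctionFieldFull N) τ • (f : ↥(modularFunctionFieldBar N)) =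
        (f : ↥(modularFunctionFieldBar N))) ∧
    ∀ P : Place (AlgebraicClosure ℚ) ↥(modularFunctionFieldBar N), 0 ≤ P.ord (jB N) →
      P.adicValuation (f : ↥(modularFunctionFieldBar N)) ≤ 1}
  zero_mem' := ⟨fun τ _ => smul_zero _, fun P _ => by
    show P.adicValuation (0 : ↥(modularFunctionFieldBar N)) ≤ 1
    rw [map_zero]; exact zero_le_one⟩
  one_mem' := ⟨fun τ _ => smul_one _, fun P _ => by
    show P.adicValuation (1 : ↥(modularFunctionFieldBar N)) ≤ 1
    rw [map_one]⟩
  add_mem' := by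
    rintro f g ⟨hf1, hf2⟩ ⟨hg1, hg2⟩
    refine ⟨fun τ hτ => ?_, fun P hP => ?_⟩
    · show arithmeticGalois (modularFunctionFieldFull N) τ •
        ((f : ↥(modularFunctionFieldBar N)) + (g : ↥(modularFunctionFieldBar N))) = _
      rw [smul_add, hf1 τ hτ, hg1 τ hτ]
      rfl
    · show P.adicValuation ((f : ↥(modularFunctionFieldBar N)) +
        (g : ↥(modularFunctionFieldBar N))) ≤ 1
      exact (Valuation.map_add _ _ _).trans (max_le (hf2 P hP) (hg2 P hP))
  mul_mem' := by
    rintro f g ⟨hf1, hf2⟩ ⟨hg1, hg2⟩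
    refine ⟨fun τ hτ => ?_, fun P hP => ?_⟩
    · show arithmeticGalois (modularFunctionFieldFull N) τ •
        ((f : ↥(modularFunctionFieldBar N)) * (g : ↥(modularFunctionFieldBar N))) = _
      rw [smul_mul', hf1 τ hτ, hg1 τ hτ]
      rfl
    · show P.adicValuation ((f : ↥(modularFunctionFieldBar N)) *
        (g : ↥(modularFunctionFieldBar N))) ≤ 1
      rw [map_mul]
      exact mul_le_one' (hf2 P hP) (hg2 P hP)
  neg_mem' := by
    rintro f ⟨hf1, hf2⟩
    refine ⟨fun τ hτ => ?_, fun P hP => ?_⟩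
    · show arithmeticGalois (modularFunctionFieldFull N) τ •
        (-(f : ↥(modularFunctionFieldBar N))) = _
      rw [smul_neg, hf1 τ hτ]
      rfl
    · show P.adicValuation (-(f : ↥(modularFunctionFieldBar N))) ≤ 1
      rw [Valuation.map_neg]
      exact hf2 P hP

theorem S36PA_mem_Lam {f : (S18_specModL N A h).O} :
    f ∈ S36PA_Lam N A h ↔ (∀ τ ∈ A.inertiaSubgroupIn ℚ,
      arithmeticGalois (modularFunctionFieldFull N) τ • (f : ↥(modularFunctionFieldBar N)) =
        (f : ↥(modularFunctionFieldBar N))) ∧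
    ∀ P : Place (AlgebraicClosure ℚ) ↥(modularFunctionFieldBar N), 0 ≤ P.ord (jB N) →
      0 ≤ P.ord (f : ↥(modularFunctionFieldBar N)) := by
  constructor
  · rintro ⟨h1, h2⟩
    refine ⟨h1, fun P hP => ?_⟩
    rcases P.adicValuation_le_one_iff.mp (h2 P hP) with h0 | h0
    · rw [h0, Place.ord_zero]
    · exact h0
  · rintro ⟨h1, h2⟩
    exact ⟨h1, fun P hP => P.adicValuation_le_one_iff.mpr (Or.inr (h2 P hP))⟩

/-- the order of `j` at the cusp `∞`. -/
theorem S36PA_ord_O_jB : (S17EM_O N).ord (jB N) = -1 := by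
  rw [S17EM_ord_O N (S17EM_jB_ne_zero N), ← S17EM_w_def, S17EM_order_jB]

/-- **ONTO at `∞`**: every function of `κ` which is regular off the reduction of the cusp `∞`
is the reduction of a Gauss-integral function of level `N` which is fixed by the inertia group
and regular off the cusp `∞`. -/
theorem S36PA_lift_inf {ℓ : ℕ} [Fact ℓ.Prime] (hA : A.LiesOverPrime ℓ) (hℓN : ¬ ℓ ∣ N)
    (u : ↥(modularFunctionFieldFullC (IsLocalRing.ResidueField A) N))
    (hu : ∀ Q : Place (IsLocalRing.ResidueField A)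
        ↥(modularFunctionFieldFullC (IsLocalRing.ResidueField A) N),
      Q ≠ (S18_specModL N A h).r (S17EM_O N) → 0 ≤ Q.ord u) :
    ∃ x : (S18_specModL N A h).O, (S18_specModL N A h).red x = u ∧
      (∀ P : Place (AlgebraicClosure ℚ) ↥(modularFunctionFieldBar N), P ≠ S17EM_O N →
        0 ≤ P.ord (x : ↥(modularFunctionFieldBar N))) ∧
      ∀ τ ∈ A.inertiaSubgroupIn ℚ,
        arithmeticGalois (modularFunctionFieldFull N) τ • (x : ↥(modularFunctionFieldBar N)) =
          (x : ↥(modularFunctionFieldBar N)) := by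
  classical
  have hℓ : ℓ.Prime := Fact.out
  haveI : IsAlgClosed (IsLocalRing.ResidueField A) := S18_residue_isAlgClosed A
  haveI : Infinite (IsLocalRing.ResidueField A) := IsAlgClosed.instInfinite
  set S := S18_specModL N A h with hS
  set c₀ := S.r (S17EM_O N) with hc₀
  rcases eq_or_ne u 0 with rfl | hu0
  · exact ⟨0, map_zero _, fun P _ => by
      show 0 ≤ P.ord (0 : ↥(modularFunctionFieldBar N))
      rw [Place.ord_zero], fun τ _ => smul_zero _⟩
  set m : ℕ := max (2 * RR_genus (IsLocalRing.ResidueField A)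
    ↥(modularFunctionFieldFullC (IsLocalRing.ResidueField A) N)) (-(c₀.ord u)).toNat with hm
  obtain ⟨n, b, hO, hinv, hmem, hspan, hredb⟩ := S19RB_main N A h hA hℓN m
  have hge := S19LF_span_of_chart hℓ hA hℓN m (le_max_left _ _) (fun i => ⟨b i, hO i⟩)
    hmem hspan hredb
  have humem : u ∈ riemannRochSpace (Finsupp.single c₀ (m : ℤ)) := by
    rw [S17RS_mem_iff_ord hu0]
    intro v
    by_cases hv : v = c₀
    · rw [hv, Finsupp.single_apply, if_pos rfl]
      have : (-(c₀.ord u)).toNat ≤ m := le_max_right _ _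
      omega
    · rw [Finsupp.single_apply, if_neg (Ne.symm hv), neg_zero]
      exact hu v hv
  have hb_reg : ∀ i, ∀ P : Place (AlgebraicClosure ℚ) ↥(modularFunctionFieldBar N),
      P ≠ S17EM_O N → 0 ≤ P.ord (b i) := by
    intro i P hP
    have h1 := hmem i
    rw [mem_riemannRochSpace_iff] at h1
    rcases h1 P with h0 | h1
    · rw [h0, Place.ord_zero]
    · have h2 : S17EM_D N m P = 0 := by
        rw [S17EM_D, Finsupp.single_apply, if_neg (Ne.symm hP)]
      rw [h2] at h1
      linarith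
  obtain ⟨x, hx, hxreg, hxinv⟩ := S19LF_onto_of_basis S
    {g | ∃ τ ∈ A.inertiaSubgroupIn ℚ, g = arithmeticGalois (modularFunctionFieldFull N) τ}
    (S17EM_O N) (fun i => (⟨b i, hO i⟩ : S.O))
    (by rintro i g ⟨τ, hτ, rfl⟩; exact hinv τ i)
    hb_reg (S19LF_teich_X0 N A h hℓ hA) u (hge humem)
  exact ⟨x, hx, hxreg, fun τ hτ => hxinv _ ⟨τ, hτ, rfl⟩⟩

/-- **PARAM (i), ONTO with inertia-fixed lifts**: every function of `κ` which is regular off
the cusps is the reduction of a Gauss-integral function of level `N` which is fixed by the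
inertia group and regular off the cusps. -/
theorem S36PA_lift {ℓ : ℕ} [Fact ℓ.Prime] (hA : A.LiesOverPrime ℓ) (hℓN : ¬ ℓ ∣ N)
    (a : ↥(modularFunctionFieldFullC (IsLocalRing.ResidueField A) N))
    (ha : ∀ Q : Place (IsLocalRing.ResidueField A)
        ↥(modularFunctionFieldFullC (IsLocalRing.ResidueField A) N),
      0 ≤ Q.ord (S18_jbar N (IsLocalRing.ResidueField A)) → 0 ≤ Q.ord a) :
    ∃ (f : ↥(modularFunctionFieldBar N)) (hf : f ∈ (S18_specModL N A h).O),
      (∀ τ ∈ A.inertiaSubgroupIn ℚ,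
        arithmeticGalois (modularFunctionFieldFull N) τ • f = f) ∧
      (∀ P : Place (AlgebraicClosure ℚ) ↥(modularFunctionFieldBar N), 0 ≤ P.ord (jB N) →
        0 ≤ P.ord f) ∧
      (S18_specModL N A h).red ⟨f, hf⟩ = a := by
  classical
  have hℓ : ℓ.Prime := Fact.out
  haveI : IsAlgClosed (IsLocalRing.ResidueField A) := S18_residue_isAlgClosed A
  haveI : Infinite (IsLocalRing.ResidueField A) := IsAlgClosed.instInfinite
  have hk := S18_hk N A hℓ hA hℓN
  set S := S18_specModL N A h with hS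
  set c₀ := S.r (S17EM_O N) with hc₀
  set B : Subring ↥(modularFunctionFieldFullC (IsLocalRing.ResidueField A) N) :=
    (S36PA_Lam N A h).map S.red with hB
  obtain ⟨Pl, T', hPl, hT', hsum⟩ := S18_poles_sum_le_k N A hℓ hA hℓN
  have hred := S18_red_jO N A h
  -- `j̄ ∈ B`
  have hjB : S18_jbar N (IsLocalRing.ResidueField A) ∈ B := by
    rw [hB, Subring.mem_map]
    refine ⟨S18_jO N A h, ⟨fun τ _ => S19RB_jO_inv N A h τ, fun P hP => ?_⟩, hred⟩
    exact P.adicValuation_le_one_iff.mpr (Or.inr hP)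
  -- functions regular off `c₀` are in `B`
  have hBreg : ∀ u : ↥(modularFunctionFieldFullC (IsLocalRing.ResidueField A) N),
      (∀ Q : Place (IsLocalRing.ResidueField A)
        ↥(modularFunctionFieldFullC (IsLocalRing.ResidueField A) N), Q ≠ c₀ → 0 ≤ Q.ord u) →
      u ∈ B := by
    intro u hu
    obtain ⟨x, hx, hxreg, hxinv⟩ := S36PA_lift_inf N A h hA hℓN u hu
    rw [hB, Subring.mem_map]
    refine ⟨x, ⟨fun τ hτ => hxinv τ hτ, fun P hP => ?_⟩, hx⟩
    refine P.adicValuation_le_one_iff.mpr (Or.inr (hxreg P ?_))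
    rintro rfl
    rw [S36PA_ord_O_jB] at hP
    omega
  -- the generation lemma
  have hmemB : a ∈ B := by
    refine S36PA_gen hk B (S18_jbar N (IsLocalRing.ResidueField A)) hjB c₀ (T'.erase c₀)
      (Finset.notMem_erase _ _) (fun c hc => (hT' c).mp (Finset.mem_of_mem_erase hc))
      (fun Q hQ hQc₀ => ?_) hBreg a (fun Q hQ hQc₀ => ha Q ?_)
    · by_contra hlt
      exact hQ (Finset.mem_erase.mpr ⟨hQc₀, (hT' Q).mpr (by omega)⟩)
    · by_contra hlt
      exact hQ (Finset.mem_erase.mpr ⟨hQc₀, (hT' Q).mpr (by omega)⟩)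
  rw [hB, Subring.mem_map] at hmemB
  obtain ⟨f, hfL, hfa⟩ := hmemB
  obtain ⟨h1, h2⟩ := (S36PA_mem_Lam N A h).mp hfL
  exact ⟨(f : ↥(modularFunctionFieldBar N)), f.2, h1, h2, hfa⟩

end concrete

end Fermat.Agent.S36
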