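import Fermat.Agent.Lib.Hurwitz

/-!
# TRACK 10 (S36), package ORD-FV, abstract input (helper26): the Riemann–Hurwitz inequality

`K` algebraically closed (any characteristic), `F / K` a function field satisfying Riemann's
theorem (`RR_Hyp`), `x : F` a separating element, `g = RR_genus K F`.

* `S36RH_ord_dx_ge_sub`  : `ord_v (dx) ≥ ord_v (x − c) − 1` for every place `v` and every `c : K`;
* `S36RH_ord_dx_ge`      : `ord_v (dx) ≥ ord_v x − 1` (at a pole of order `e`: `≥ −e − 1`);
* `S36RH_ord_dx_nonneg`  : at a place where `x` is regular: `ord_v (dx) ≥ 0`;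
* `S36RH_sum` : for every finite set `T` of places containing all the poles of `x` and every
  function `r` on `T` with `r v ≤ ord_v (dx)`:  `∑_{v ∈ T} r v ≤ 2 g − 2`;
* `S36RH_main` : **Riemann–Hurwitz inequality** (wild or tame):
  `∑_{v ∈ T₀} (ord_v (x − c_v) − 1) ≤ 2 g − 2 + ∑_{v ∈ T∞} (e_v + 1)`, `T∞` the poles of `x` (`e_v = −ord_v x`),
  `T₀` any finite set of places where `x` is regular.
-/

set_option autoImplicit false
set_option linter.unusedSectionVars false
set_option linter.unusedVariables false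

open AlgebraicCurve IntermediateField KaehlerDifferential
open scoped IntermediateField.algebraAdjoinAdjoin

namespace Fermat.Agent.S36

open Fermat.Agent.Lib Fermat.Agent.S24

variable {K F : Type*} [Field K] [Field F] [Algebra K F] [IsAlgClosed K]
  {x : F} (hx : Transcendental K x) [FiniteDimensional K⟮x⟯ F] [Algebra.IsSeparable K⟮x⟯ F]

/-- `dx ≠ 0`. -/
theorem S36RH_dx_ne_zero (v : Place K F) : D K F x ≠ 0 := by
  intro h0
  have hnt := FD_nontrivial_kaehler v (FD_deg_one x v)
  have hspan := FD_span_D (K := K) x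
  rw [h0, Submodule.span_zero_singleton] at hspan
  exact bot_ne_top hspan

include hx in
/-- `ord_v (dx) ≥ ord_v (x − c) − 1`. -/
theorem S36RH_ord_dx_ge_sub (v : Place K F) (c : K) :
    v.ord (x - algebraMap K F c) - 1 ≤ v.ordDifferential (D K F x) :=
  FD_ordDifferential_D_of_sub_ge x v (FD_deg_one x v)
    (S36RH_dx_ne_zero v)

include hx in
/-- `ord_v (dx) ≥ ord_v x − 1`. -/
theorem S36RH_ord_dx_ge (v : Place K F) :
    v.ord x - 1 ≤ v.ordDifferential (D K F x) := by
  have hx0 : x ≠ 0 := fun h => hx (h ▸ isAlgebraic_zero)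
  exact FD_ordDifferential_D_ge x v (FD_deg_one x v) hx0
    (S36RH_dx_ne_zero v)

include hx in
/-- `ord_v (dx) ≥ 0` where `x` is regular. -/
theorem S36RH_ord_dx_nonneg (v : Place K F) (hv : 0 ≤ v.ord x) :
    0 ≤ v.ordDifferential (D K F x) := by
  have hx0 : x ≠ 0 := fun h => hx (h ▸ isAlgebraic_zero)
  exact FD_ordDifferential_D_nonneg x v (FD_deg_one x v) ((BL_mem_iff_ord_nonneg v hx0).2 hv)

include hx in
/-- the degree of a divisor over an algebraically closed field is the sum of its coefficients. -/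
theorem S36RH_degree_eq (W : Divisor K F) (T : Finset (Place K F)) (hT : W.support ⊆ T) :
    W.degree = ∑ v ∈ T, W v := by
  have h1 : W.degree = W.sum fun v n => n * (v.deg : ℤ) := by
    simp [Divisor.degree, Finsupp.liftAddHom_apply]
  rw [h1, Finsupp.sum_of_support_subset W hT _ (fun v _ => by simp)]
  refine Finset.sum_congr rfl fun v _ => ?_
  rw [FD_deg_one x v]
  simp

include hx in
/-- **Riemann–Hurwitz, general form**: a lower bound `r` for `ord (dx)` on a finite set of places
containing the poles of `x` has sum `≤ 2 g − 2`. -/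
theorem S36RH_sum (h : RR_Hyp K F) (T : Finset (Place K F))
    (hT : ∀ v : Place K F, v.ord x < 0 → v ∈ T) (r : Place K F → ℤ)
    (hr : ∀ v ∈ T, r v ≤ v.ordDifferential (D K F x)) :
    ∑ v ∈ T, r v ≤ 2 * (RR_genus K F : ℤ) - 2 := by
  classical
  obtain ⟨W, hW, hdeg⟩ := HW_hurwitz h x hx
  rw [← hdeg, S36RH_degree_eq hx W (T ∪ W.support) Finset.subset_union_right]
  calc ∑ v ∈ T, r v ≤ ∑ v ∈ T, W v :=
        Finset.sum_le_sum fun v hv => by rw [hW v]; exact hr v hv
    _ ≤ ∑ v ∈ T ∪ W.support, W v := by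
        refine Finset.sum_le_sum_of_subset_of_nonneg Finset.subset_union_left ?_
        intro v _ hvT
        rw [hW v]
        refine S36RH_ord_dx_nonneg hx v ?_
        by_contra hneg
        exact hvT (hT v (not_le.mp hneg))

include hx in
/-- **Riemann–Hurwitz inequality** (no tameness assumption). -/
theorem S36RH_main (h : RR_Hyp K F) (T₀ Tinf : Finset (Place K F))
    (hinf : ∀ v : Place K F, v.ord x < 0 ↔ v ∈ Tinf)
    (h₀ : ∀ v ∈ T₀, 0 ≤ v.ord x) (c : Place K F → K) :
    ∑ v ∈ T₀, (v.ord (x - algebraMap K F (c v)) - 1) ≤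
      2 * (RR_genus K F : ℤ) - 2 + ∑ v ∈ Tinf, (-v.ord x + 1) := by
  classical
  have hdisj : Disjoint T₀ Tinf := by
    rw [Finset.disjoint_left]
    intro v hv0 hvi
    have h1 := h₀ v hv0
    have h2 := (hinf v).2 hvi
    omega
  have key := S36RH_sum hx h (T₀ ∪ Tinf) (fun v hv => Finset.mem_union_right _ ((hinf v).1 hv))
    (fun v => if v ∈ Tinf then v.ord x - 1 else v.ord (x - algebraMap K F (c v)) - 1) ?_
  · rw [Finset.sum_union hdisj] at key
    have e1 : ∑ v ∈ T₀, (if v ∈ Tinf then v.ord x - 1 else v.ord (x - algebraMap K F (c v)) - 1)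
        = ∑ v ∈ T₀, (v.ord (x - algebraMap K F (c v)) - 1) :=
      Finset.sum_congr rfl fun v hv => if_neg (Finset.disjoint_left.mp hdisj hv)
    have e2 : ∑ v ∈ Tinf, (if v ∈ Tinf then v.ord x - 1 else v.ord (x - algebraMap K F (c v)) - 1)
        = -∑ v ∈ Tinf, (-v.ord x + 1) := by
      rw [← Finset.sum_neg_distrib]
      refine Finset.sum_congr rfl fun v hv => ?_
      rw [if_pos hv]
      ring
    rw [e1, e2] at key
    linarith
  · intro v _
    by_cases hv : v ∈ Tinf
    · rw [if_pos hv]
      exact S36RH_ord_dx_ge hx v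
    · rw [if_neg hv]
      exact S36RH_ord_dx_ge_sub hx v (c v)

end Fermat.Agent.S36
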