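import Fermat.Agent.S24.FinCountFinal

/-!
# TRACK 10 (S36), package RAMJ, part 1 (helper25), prefix `S36RJ_`: ramification of `j` in char 0

`F = ℚ̄(X₀(N))`.  The places over `j = 0` have `ord_v j ∈ {1, 3}`, the places over `j = 1728`
have `ord_v (j − 1728) ∈ {1, 2}`; if `X₀(N)` has no elliptic points of order `3` (`ν₃(N) = 0`)
every zero of `j` has order exactly `3`; if `ν₂(N) = 0` every zero of `j − 1728` has order
exactly `2`.

* `S36RJ_ord_dvd_of`  : abstract (same inputs as `S24_placeCount_of`): the order of `x` at a place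
  over `x = 0` divides the cardinality of an orbit;
* `S36RJ_ord_dvd_over`: the analogue of `S24_count_over`;
* `S36RJ_ord_zero_dvd`, `S36RJ_ord_1728_dvd` : `ord_v j ∣ 3`, `ord_v (j − 1728) ∣ 2`;
* `S36RJ_ord_zero_eq`, `S36RJ_ord_1728_eq`   : equality without elliptic points.
-/

set_option autoImplicit false
set_option maxHeartbeats 400000
set_option linter.style.haveILetI false

open UpperHalfPlane hiding I
open scoped MatrixGroups Manifold ModularForm
open CongruenceSubgroup ModularCurve IntermediateField AlgebraicCurve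
open Fermat.Agent.S20 Fermat.Agent.S24

noncomputable section

namespace Fermat.Agent.S36

section Abstract

variable {K F : Type*} [Field K] [Field F] [Algebra K F]

/-- **abstract**: under the hypotheses of the abstract place count, the order of `x` at a place
over `x = 0` divides the cardinality of an orbit. -/
theorem S36RJ_ord_dvd_of (x : F) (hx0 : x ≠ 0) [FiniteDimensional K⟮x⟯ F]
    (happrox : ∀ (v₀ : Place K F) (s : Finset (Place K F)), 0 < v₀.ord x →
      (∀ v ∈ s, 0 < v.ord x) → v₀ ∉ s →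
      ∃ b : F, b ≠ 0 ∧ IsIntegral (Algebra.adjoin K {x}) b ∧ 0 < v₀.ord b ∧ ∀ v ∈ s, v.ord b = 0)
    (hnormpos : ∀ (v : Place K F), 0 < v.ord x → ∀ b : F,
      IsIntegral (Algebra.adjoin K {x}) b → 0 < v.ord b →
      ∃ p : Polynomial K, algebraMap K⟮x⟯ F (Algebra.norm K⟮x⟯ b) = x * Polynomial.aeval x p)
    {G X : Type} [Group G] [MulAction G X] [Finite X]
    (w : X → F → ℤ) (hw : ∀ γ, IsVal (K := K) (w γ)) (hwx : ∀ γ, 0 < w γ x)
    (hdiv : ∀ γ f, f ≠ 0 → w γ x ∣ (Nat.card (MulAction.orbit G γ) : ℤ) * w γ f)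
    (hcard : Nat.card X = Module.finrank K⟮x⟯ F)
    (hnorm : ∀ f : F, f ≠ 0 → ∀ γ₀,
      ∑ᶠ γ, w γ f = w γ₀ (algebraMap K⟮x⟯ F (Algebra.norm K⟮x⟯ f)))
    (v : Place K F) (hv : 0 < v.ord x) :
    ∃ γ : X, v.ord x ∣ (Nat.card (MulAction.orbit G γ) : ℤ) := by
  classical
  have : Fintype X := Fintype.ofFinite X
  set pl : X → Place K F := fun γ => (hw γ).place x hx0 (hwx γ) with hpl
  have hm : ∀ γ, ∃ m : ℤ, 0 < m ∧ (∃ π : F, π ≠ 0 ∧ w γ π = m) ∧
      ∀ f : F, f ≠ 0 → w γ f = m * (pl γ).ord f := fun γ =>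
    (hw γ).exists_mul_ord x hx0 (hwx γ)
  have hplx : ∀ γ, 0 < (pl γ).ord x := by
    intro γ
    obtain ⟨m, hm0, -, hmf⟩ := hm γ
    have h := hwx γ
    rw [hmf x hx0] at h
    exact (mul_pos_iff_of_pos_left hm0).mp h
  have hXpos : 0 < Nat.card X := by
    rw [hcard]; exact Module.finrank_pos
  have hXne : Nonempty X := (Nat.card_pos_iff.mp hXpos).1
  -- every place over `x = 0` is attached to some `γ`
  have hsurj : ∃ γ, pl γ = v := by
    by_contra hcon
    push Not at hcon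
    have hnotin : v ∉ Finset.univ.image pl := by
      intro h
      obtain ⟨γ, -, hγ⟩ := Finset.mem_image.mp h
      exact hcon γ hγ
    obtain ⟨b, hb0, hbint, hbv, hbs⟩ := happrox v (Finset.univ.image pl) hv
      (fun u hu => by
        obtain ⟨γ, -, rfl⟩ := Finset.mem_image.mp hu
        exact hplx γ) hnotin
    have hwb : ∀ γ, w γ b = 0 := by
      intro γ
      obtain ⟨m, -, -, hmf⟩ := hm γ
      rw [hmf b hb0, hbs (pl γ) (Finset.mem_image_of_mem pl (Finset.mem_univ γ)), mul_zero]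
    obtain ⟨p, hp⟩ := hnormpos v hv b hbint hbv
    obtain ⟨γ₀⟩ := hXne
    have hN := hnorm b hb0 γ₀
    rw [finsum_eq_zero_of_forall_eq_zero hwb, hp] at hN
    have hnm0 : algebraMap K⟮x⟯ F (Algebra.norm K⟮x⟯ b) ≠ 0 := by
      rw [Ne, map_eq_zero_iff _ (algebraMap K⟮x⟯ F).injective, Algebra.norm_eq_zero_iff]
      exact hb0
    rw [hp] at hnm0
    have hp0 : Polynomial.aeval x p ≠ 0 := right_ne_zero_of_mul hnm0
    rw [(hw γ₀).mul x _ hx0 hp0] at hN
    have hpmem : Polynomial.aeval x p ∈ (hw γ₀).valuationSubring :=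
      S24_aeval_mem_valuationSubring _ (pl γ₀).algebraMap_mem'
        (((hw γ₀).mem_valuationSubring_of_ne hx0).mpr (hwx γ₀).le) p
    have hpnn : 0 ≤ w γ₀ (Polynomial.aeval x p) :=
      ((hw γ₀).mem_valuationSubring_of_ne hp0).mp hpmem
    have := hwx γ₀
    omega
  obtain ⟨γ, hγ⟩ := hsurj
  refine ⟨γ, ?_⟩
  obtain ⟨m, hm0, ⟨π, hπ0, hπ⟩, hmf⟩ := hm γ
  have h1 := hdiv γ π hπ0
  rw [hmf x hx0, hπ, mul_comm _ m] at h1
  rw [← hγ]
  exact Int.dvd_of_mul_dvd_mul_left hm0.ne' h1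

end Abstract

section General

universe u v

variable {K : Type u} {F : Type v} [Field K] [Field F] [Algebra K F] [CharZero K]

/-- the abstract statement with the global inputs discharged. -/
theorem S36RJ_ord_dvd {x : F} (hx : Transcendental K x) [FiniteDimensional K⟮x⟯ F]
    {G X : Type} [Group G] [MulAction G X] [Finite X]
    (w : X → F → ℤ) (hw : ∀ γ, IsVal (K := K) (w γ)) (hwx : ∀ γ, 0 < w γ x)
    (hdiv : ∀ γ f, f ≠ 0 → w γ x ∣ (Nat.card (MulAction.orbit G γ) : ℤ) * w γ f)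
    (hcard : Nat.card X = Module.finrank K⟮x⟯ F)
    (hnorm : ∀ f : F, f ≠ 0 → ∀ γ₀,
      ∑ᶠ γ, w γ f = w γ₀ (algebraMap K⟮x⟯ F (Algebra.norm K⟮x⟯ f)))
    (v : Place K F) (hv : 0 < v.ord x) :
    ∃ γ : X, v.ord x ∣ (Nat.card (MulAction.orbit G γ) : ℤ) :=
  S36RJ_ord_dvd_of x (fun h => hx (h ▸ isAlgebraic_zero)) (BG_approx hx) (BG_norm hx)
    w hw hwx hdiv hcard hnorm v hv

end General

section Concrete

variable {N : ℕ} [NeZero N] {e : ↥(modularFunctionFieldBar N) →+* Mer}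

/-- the cardinality of an orbit of `⟨R⟩` divides `e₀` if `R ^ e₀` acts trivially. -/
theorem S36RJ_card_orbit_dvd {G₀ X : Type} [Group G₀] [MulAction G₀ X] (R : G₀) (e₀ : ℕ)
    (γ : X) (hRe : R ^ e₀ • γ = γ) :
    Nat.card (MulAction.orbit (Subgroup.zpowers R) γ) ∣ e₀ := by
  rw [Nat.card_congr (MulAction.orbitZPowersEquiv R γ), Nat.card_zmod]
  apply Function.IsPeriodicPt.minimalPeriod_dvd
  show (fun x => R • x)^[e₀] γ = γ
  rw [smul_iterate]
  exact hRe

/-- **the analogue of `S24_count_over` for the orders**: the order of `j − c` at a place over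
`j = c` divides `e₀`. -/
theorem S36RJ_ord_dvd_over (he : IsEv N e)
    (hinv : ∀ h ∈ Gamma0 N, ∀ f, merComp h (e f) = e f)
    (hfd : FiniteDimensional (AlgebraicClosure ℚ)⟮jB N⟯ ↥(modularFunctionFieldBar N))
    (hdeg : Module.finrank (AlgebraicClosure ℚ)⟮jB N⟯ ↥(modularFunctionFieldBar N) =
      Nat.card (S20_Q N))
    (c : AlgebraicClosure ℚ)
    (τ₀ : ℍ) (R : SL(2, ℤ)) (e₀ : ℕ) (he₀ : e₀ = 1 ∨ e₀.Prime)
    (hRe : ∀ γ : S20_Q N, R ^ e₀ • γ = γ) (hfix : R • τ₀ = τ₀)
    (hord : S24_ordM τ₀ (algebraMap Hol Mer (jHol 1) - algebraMap ℂ Mer (kEmb c)) = e₀)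
    (hdvd : ∀ x : Mer, x ≠ 0 → merComp R x = x → (e₀ : ℤ) ∣ S24_ordM τ₀ x)
    (v : Place (AlgebraicClosure ℚ) ↥(modularFunctionFieldBar N))
    (hv : 0 < v.ord (jB N - algebraMap (AlgebraicClosure ℚ) ↥(modularFunctionFieldBar N) c)) :
    v.ord (jB N - algebraMap (AlgebraicClosure ℚ) ↥(modularFunctionFieldBar N) c) ∣ (e₀ : ℤ) := by
  classical
  have hadj := S24_adjoin_sub_const (K := AlgebraicClosure ℚ) (jB N) c
  haveI : FiniteDimensional (AlgebraicClosure ℚ)⟮jB N - algebraMap (AlgebraicClosure ℚ)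
      ↥(modularFunctionFieldBar N) c⟯ ↥(modularFunctionFieldBar N) :=
    S24_finiteDimensional_congr hadj.symm hfd
  haveI := hfd
  set w : S20_Q N → ↥(modularFunctionFieldBar N) → ℤ :=
    fun γ f => S24_ordM τ₀ (S24_sig N e γ f) with hw
  have hne : ∀ γ (f : ↥(modularFunctionFieldBar N)), f ≠ 0 → S24_sig N e γ f ≠ 0 :=
    fun γ f hf => (map_ne_zero (S24_sig N e γ)).mpr hf
  have hval : ∀ γ, IsVal (K := AlgebraicClosure ℚ) (w γ) :=
    fun γ => S24_isVal_ordM kEmb (S24_sig N e γ) (S24_sig_const he γ) τ₀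
  have hRinv : R⁻¹ • τ₀ = τ₀ := by
    conv_lhs => rw [← hfix]
    rw [inv_smul_smul]
  have hwx : ∀ γ, w γ (jB N - algebraMap (AlgebraicClosure ℚ) ↥(modularFunctionFieldBar N) c)
      = e₀ := by
    intro γ
    show S24_ordM τ₀ (S24_sig N e γ _) = _
    rw [map_sub, S24_sig_jB he, S24_sig_const he, hord]
  have hR : ∀ γ, w (R • γ) = w γ := by
    intro γ
    funext f
    show S24_ordM τ₀ (S24_sig N e (R • γ) f) = S24_ordM τ₀ (S24_sig N e γ f)
    rw [S24_sig_smul hinv, S24_ordM_merComp, hRinv]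
  have hfx : ∀ γ, R • γ = γ → ∀ f, f ≠ 0 → (e₀ : ℤ) ∣ w γ f := by
    intro γ hγ f hf
    apply hdvd _ (hne γ f hf)
    have h1 : merComp R⁻¹ (S24_sig N e γ f) = S24_sig N e γ f := by
      rw [← S24_sig_smul hinv, hγ]
    calc merComp R (S24_sig N e γ f) = merComp R (merComp R⁻¹ (S24_sig N e γ f)) := by rw [h1]
      _ = S24_sig N e γ f := merComp_inv_apply R _
  obtain ⟨h1, h2, h3⟩ := S24_cyclic_inputs
    (jB N - algebraMap (AlgebraicClosure ℚ) ↥(modularFunctionFieldBar N) c) R e₀ he₀ hRe w hwx hR hfx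
  obtain ⟨γ, hγ⟩ := S36RJ_ord_dvd (K := AlgebraicClosure ℚ)
    (W_transcendental_sub (transcendental_jB N) c) (G := Subgroup.zpowers R) w hval h1 h3
    (by rw [S24_finrank_congr hadj, hdeg])
    (by
      intro f hf γ₀
      rw [S24_norm_congr hadj f]
      show ∑ᶠ γ, S24_ordM τ₀ (S24_sig N e γ f) = S24_ordM τ₀ (S24_sig N e γ₀ _)
      rw [S24_sig_norm he hinv hdeg.le f γ₀, S24_ordM_finprod _ (fun γ => hne γ f hf)]) v hv
  exact hγ.trans (Int.natCast_dvd_natCast.mpr (S36RJ_card_orbit_dvd R e₀ γ (hRe γ)))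

end Concrete

section Final

variable (N : ℕ) [NeZero N]

/-- the order of `j` at a zero divides `3`. -/
theorem S36RJ_ord_zero_dvd (v : Place (AlgebraicClosure ℚ) ↥(modularFunctionFieldBar N))
    (hv : 0 < v.ord (jB N - algebraMap (AlgebraicClosure ℚ) ↥(modularFunctionFieldBar N) 0)) :
    v.ord (jB N - algebraMap (AlgebraicClosure ℚ) ↥(modularFunctionFieldBar N) 0) ∣ ((3 : ℕ) : ℤ) :=
  S36RJ_ord_dvd_over (isEv_ev N) (S24_hinv N (ev N) (isEv_ev N)) (finiteDimensional_jB N)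
    ((finrank_eq_psi N).trans (S20_card_Q N).symm) 0 Fermat.Agent.S20.rho
    (ModularGroup.S * ModularGroup.T) 3 (Or.inr Nat.prime_three)
    (fun γ => by rw [S24_ST_cube, S24_neg_one_smul]) Fermat.Agent.S20.ST_smul_rho
    (by
      have h3 : meromorphicOrderAt ((fun z : ℍ => S24_jfun z - kEmb 0) ∘ ofComplex)
          ((Fermat.Agent.S20.rho : ℍ) : ℂ) = ((3 : ℤ) : WithTop ℤ) := by
        have hf : (fun z : ℍ => S24_jfun z - kEmb 0) = S24_jfun := by
          funext z
          rw [map_zero, sub_zero]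
        rw [hf, S24_order_rho]
        rfl
      have := S24_ordM_j_sub (kEmb 0) Fermat.Agent.S20.rho 3 h3
      rw [this]; rfl)
    (fun x hx hxi => by
      have := S24_three_dvd_ordM_rho hx hxi
      exact_mod_cast this) v hv

/-- the order of `j − 1728` at a zero divides `2`. -/
theorem S36RJ_ord_1728_dvd (v : Place (AlgebraicClosure ℚ) ↥(modularFunctionFieldBar N))
    (hv : 0 < v.ord (jB N - algebraMap (AlgebraicClosure ℚ) ↥(modularFunctionFieldBar N) 1728)) :
    v.ord (jB N - algebraMap (AlgebraicClosure ℚ) ↥(modularFunctionFieldBar N) 1728) ∣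
      ((2 : ℕ) : ℤ) :=
  S36RJ_ord_dvd_over (isEv_ev N) (S24_hinv N (ev N) (isEv_ev N)) (finiteDimensional_jB N)
    ((finrank_eq_psi N).trans (S20_card_Q N).symm) 1728 UpperHalfPlane.I
    ModularGroup.S 2 (Or.inr Nat.prime_two)
    (fun γ => by rw [S24_S_sq, S24_neg_one_smul]) Fermat.Agent.S20.S_smul_I
    (by
      have := S24_ordM_j_sub (kEmb 1728) UpperHalfPlane.I 2
        (by rw [S24_kEmb_ofNat, S24_order_I]; rfl)
      rw [this]; rfl)
    (fun x hx hxi => by
      have := S24_two_dvd_ordM_I hx hxi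
      exact_mod_cast this) v hv

/-- counting: if `e • #s = ∑_{v ∈ s} f v` and `f v ∣ e` on `s`, then `f v = e` on `s`. -/
theorem S36RJ_all_eq_of_sum {ι : Type*} (s : Finset ι) (f : ι → ℤ) (e : ℕ)
    (hdvd : ∀ i ∈ s, f i ∣ (e : ℤ)) (he : 0 < e)
    (hsum : ∑ i ∈ s, f i = (e : ℤ) * s.card) : ∀ i ∈ s, f i = e := by
  classical
  have hle : ∀ i ∈ s, f i ≤ (e : ℤ) := fun i hi =>
    Int.le_of_dvd (by exact_mod_cast he) (hdvd i hi)
  intro i hi
  by_contra hne
  have hlt : f i < (e : ℤ) := lt_of_le_of_ne (hle i hi) hne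
  have h3 : ∑ k ∈ s, f k < ∑ k ∈ s, (e : ℤ) := Finset.sum_lt_sum hle ⟨i, hi, hlt⟩
  rw [Finset.sum_const, nsmul_eq_mul, hsum, mul_comm] at h3
  exact lt_irrefl _ h3

/-- **no elliptic points of order 3**: every zero of `j` has order exactly `3`. -/
theorem S36RJ_ord_zero_eq (hν : ModularCurve.nuThree N = 0)
    (v : Place (AlgebraicClosure ℚ) ↥(modularFunctionFieldBar N)) (hv : 0 < v.ord (jB N)) :
    v.ord (jB N) = 3 := by
  classical
  set x : ↥(modularFunctionFieldBar N) :=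
    jB N - algebraMap (AlgebraicClosure ℚ) ↥(modularFunctionFieldBar N) 0 with hx
  have hxj : x = jB N := by rw [hx, map_zero, sub_zero]
  have htr : Transcendental (AlgebraicClosure ℚ) x :=
    W_transcendental_sub (transcendental_jB N) 0
  haveI : FiniteDimensional (AlgebraicClosure ℚ)⟮x⟯ ↥(modularFunctionFieldBar N) := by
    rw [hxj]; exact finiteDimensional_jB N
  obtain ⟨s, hs, hsum⟩ := BG_zeros_main (K := AlgebraicClosure ℚ) htr
  have hcount := S24_h0 N
  rw [hν, mul_zero, add_zero] at hcount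
  have hcard : Nat.card {v : Place (AlgebraicClosure ℚ) ↥(modularFunctionFieldBar N) //
      0 < v.ord x} = s.card := by
    rw [← Nat.card_eq_finsetCard s]
    exact Nat.card_congr (Equiv.subtypeEquivRight (fun v => (hs v).symm))
  rw [hcard] at hcount
  have hfr : Module.finrank (AlgebraicClosure ℚ)⟮x⟯ ↥(modularFunctionFieldBar N) =
      dedekindPsi N := by
    rw [S24_finrank_congr (S24_adjoin_sub_const (K := AlgebraicClosure ℚ) (jB N) 0)]
    exact finrank_eq_psi N
  have hall := S36RJ_all_eq_of_sum s (fun v => v.ord x) 3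
    (fun v hv => S36RJ_ord_zero_dvd N v ((hs v).mp hv)) (by norm_num)
    (by rw [hsum, hfr, ← hcount]; push_cast; ring)
  have := hall v ((hs v).mpr (by rw [hxj]; exact hv))
  rw [hxj] at this
  exact_mod_cast this

/-- **no elliptic points of order 2**: every zero of `j − 1728` has order exactly `2`. -/
theorem S36RJ_ord_1728_eq (hν : ModularCurve.nuTwo N = 0)
    (v : Place (AlgebraicClosure ℚ) ↥(modularFunctionFieldBar N))
    (hv : 0 < v.ord (jB N - algebraMap (AlgebraicClosure ℚ) ↥(modularFunctionFieldBar N) 1728)) :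
    v.ord (jB N - algebraMap (AlgebraicClosure ℚ) ↥(modularFunctionFieldBar N) 1728) = 2 := by
  classical
  set x : ↥(modularFunctionFieldBar N) :=
    jB N - algebraMap (AlgebraicClosure ℚ) ↥(modularFunctionFieldBar N) 1728 with hx
  have htr : Transcendental (AlgebraicClosure ℚ) x :=
    W_transcendental_sub (transcendental_jB N) 1728
  haveI : FiniteDimensional (AlgebraicClosure ℚ)⟮x⟯ ↥(modularFunctionFieldBar N) :=
    S24_finiteDimensional_congr
      (S24_adjoin_sub_const (K := AlgebraicClosure ℚ) (jB N) 1728).symm (finiteDimensional_jB N)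
  obtain ⟨s, hs, hsum⟩ := BG_zeros_main (K := AlgebraicClosure ℚ) htr
  have hcount := S24_h1728 N
  rw [hν, add_zero] at hcount
  have hcard : Nat.card {v : Place (AlgebraicClosure ℚ) ↥(modularFunctionFieldBar N) //
      0 < v.ord x} = s.card := by
    rw [← Nat.card_eq_finsetCard s]
    exact Nat.card_congr (Equiv.subtypeEquivRight (fun v => (hs v).symm))
  rw [hcard] at hcount
  have hfr : Module.finrank (AlgebraicClosure ℚ)⟮x⟯ ↥(modularFunctionFieldBar N) =
      dedekindPsi N := by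
    rw [S24_finrank_congr (S24_adjoin_sub_const (K := AlgebraicClosure ℚ) (jB N) 1728)]
    exact finrank_eq_psi N
  have hall := S36RJ_all_eq_of_sum s (fun v => v.ord x) 2
    (fun v hv => S36RJ_ord_1728_dvd N v ((hs v).mp hv)) (by norm_num)
    (by rw [hsum, hfr, ← hcount]; push_cast; ring)
  have := hall v ((hs v).mpr hv)
  exact_mod_cast this

end Final

end Fermat.Agent.S36
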