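import Mathlib
import Fermat.Agent.Lib.RiemannBasic

/-!
# TRACK 10 (S36), package REG-q COUNT (helper17), abstract core.  Prefix `S36RC_`.

"Thickness 1 at every node at level `N₁ = q M'`" by helper19's GLOBAL COUNT (lead's check
`NOTES/items/35_REG_check_lead.md`, (i)–(iii)), in lattice language, against F0 as a hypothesis.

Data (`S36RC_Hyp k F₁ F₂ Λ ι`): a commutative ring `Λ` (the integral functions), `π : Λ`
(`= q`), two reductions `red₁ : Λ → F₁`, `red₂ : Λ → F₂` (function fields of the two components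
`C₁`, `C₂` of the fibre), the cusps of `C₁` (a finite set of places), the nodes `P i` on `C₁`,
`P' i` on `C₂` (`i : ι`), the filtration `V2 m x` (`V₂(x) ≥ m`), and `φ₀ : Λ` (`= f₀⁻¹`,
`f₀ = Δ(qz)/Δ(z)`).

Results:
* `S36RC_ord_eq`   : `ord_{P i} (red₁ φ₀) = 12` at every node;
* `S36RC_ord_zero` : `ord_Q (red₁ φ₀) = 0` at every other non-cuspidal place;
* `S36RC_unit`     : if `s t = π w`, `red₂ s ≠ 0`, `red₁ t ≠ 0` (so `red₁ s = 0`, `red₂ t = 0`),
  `ord_{P' i} (red₂ s) ≤ 1`, `ord_{P i} (red₁ t) ≤ 1`, then `red₁ w` does NOT vanish at `P i`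
  (nor `red₂ w` at `P' i`, `S36RC_unit'`);
* `S36RC_main`     : for every node such `s, t, w` exist.

Convention: the Prelude's `Place.ord` has `ord 0 = 0`; "`a` vanishes at `Q`" is
`S36RC_van Q a := a = 0 ∨ 0 < Q.ord a`, "`a` is regular at `Q`" is `0 ≤ Q.ord a`.
-/

set_option autoImplicit false

open AlgebraicCurve

namespace Fermat.Agent.S36

/-- `a` vanishes at the place `Q` (with the convention `ord 0 = 0` of the Prelude). -/
def S36RC_van {k F : Type*} [Field k] [Field F] [Algebra k F] (Q : Place k F) (a : F) : Prop :=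
  a = 0 ∨ 0 < Q.ord a

theorem S36RC_ord_pow {k F : Type*} [Field k] [Field F] [Algebra k F] (Q : Place k F) (a : F)
    (n : ℕ) : Q.ord (a ^ n) = n * Q.ord a := by
  have h := Q.ord_zpow a (n : ℤ)
  rwa [zpow_natCast] at h

/-- the hypotheses of the count, in lattice language. -/
structure S36RC_Hyp (k F₁ F₂ Λ ι : Type*) [Field k] [Field F₁] [Field F₂] [Algebra k F₁]
    [Algebra k F₂] [CommRing Λ] [Fintype ι] where
  /-- the uniformiser `q` of the base -/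
  π : Λ
  /-- reduction along the first component (`V₁`) -/
  red₁ : Λ →+* F₁
  /-- reduction along the second component (`V₂`) -/
  red₂ : Λ →+* F₂
  red₁_π : red₁ π = 0
  red₂_π : red₂ π = 0
  /-- `Λ / π Λ` is reduced: `ker red₁ ∩ ker red₂ = π Λ` -/
  cart : ∀ x : Λ, red₁ x = 0 → red₂ x = 0 → ∃ w : Λ, x = π * w
  /-- the cusps of the first component -/
  cusps : Finset (Place k F₁)
  /-- reductions are regular off the cusps -/
  reg₁ : ∀ (x : Λ) (Q : Place k F₁), Q ∉ cusps → 0 ≤ Q.ord (red₁ x)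
  /-- the nodes, seen on the first component -/
  P : ι → Place k F₁
  /-- the nodes, seen on the second component -/
  P' : ι → Place k F₂
  P_inj : Function.Injective P
  P_not_cusp : ∀ i, P i ∉ cusps
  /-- the value at a node is well defined -/
  compat : ∀ (i : ι) (f : Λ), S36RC_van (P i) (red₁ f) ↔ S36RC_van (P' i) (red₂ f)
  /-- at an ordinary point: an element of the ideal of `C₂` which does not vanish there -/
  ex_ord : ∀ Q : Place k F₁, Q ∉ cusps → (∀ i, Q ≠ P i) →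
    ∃ t : Λ, red₂ t = 0 ∧ red₁ t ≠ 0 ∧ Q.ord (red₁ t) = 0
  /-- at a node: an element of the ideal of `C₂` with a simple zero on `C₁` -/
  ex_t : ∀ i, ∃ t : Λ, red₂ t = 0 ∧ red₁ t ≠ 0 ∧ (P i).ord (red₁ t) = 1
  /-- at a node: an element of the ideal of `C₁` with a simple zero on `C₂` -/
  ex_s : ∀ i, ∃ s : Λ, red₁ s = 0 ∧ red₂ s ≠ 0 ∧ (P' i).ord (red₂ s) = 1
  /-- a function on `C₂` regular at a node is a fraction of reductions, denominator not
  vanishing at the node -/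
  ex_den : ∀ (i : ι) (ρ : F₂), 0 ≤ (P' i).ord ρ →
    ∃ H r : Λ, red₂ r = red₂ H * ρ ∧ ¬ S36RC_van (P' i) (red₂ H)
  /-- `V2 m x` : `V₂(x) ≥ m` -/
  V2 : ℕ → Λ → Prop
  V2_one : ∀ x : Λ, red₂ x = 0 → V2 1 x
  V2_mul : ∀ (a b : ℕ) (x y : Λ), V2 a x → V2 b y → V2 (a + b) (x * y)
  V2_sat : ∀ (m : ℕ) (x y : Λ), V2 m (x * y) → red₂ x ≠ 0 → V2 m y
  /-- `φ₀ = f₀⁻¹`, `f₀ = Δ(qz)/Δ(z)` : `V₁ = 0`, `V₂ = 12`, a unit off the cusps -/
  φ₀ : Λ
  φ₀_ne : red₁ φ₀ ≠ 0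
  /-- **F0**: `V₂(h) ≥ 12 ⇒ h f₀ ∈ Λ` -/
  div₀ : ∀ h : Λ, V2 12 h → ∃ h' : Λ, h = h' * φ₀
  hP : HasPrincipalDivisors k F₁
  hdeg : ∀ v : Place k F₁, v.deg = 1
  /-- the total pole order of `red₁ φ₀` at the cusps is at least `12 ·` (number of nodes) -/
  hcusp : 12 * (Fintype.card ι : ℤ) ≤ -∑ Q ∈ cusps, Q.ord (red₁ φ₀)

variable {k F₁ F₂ Λ ι : Type*} [Field k] [Field F₁] [Field F₂] [Algebra k F₁]
    [Algebra k F₂] [CommRing Λ] [Fintype ι] (H : S36RC_Hyp k F₁ F₂ Λ ι)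

theorem S36RC_V2_pow {m : ℕ} {x : Λ} (h : H.V2 m x) (n : ℕ) : H.V2 (m * (n + 1)) (x ^ (n + 1)) := by
  induction n with
  | zero => simpa using h
  | succ n ih =>
    have := H.V2_mul _ _ _ _ ih h
    rw [pow_succ x (n + 1)]
    have e : m * (n + 1 + 1) = m * (n + 1) + m := by ring
    rw [e]
    exact this

/-- the key inequality: `V₂(t) ≥ m`, `m n = 12` ⇒ `ord_Q (red₁ φ₀) ≤ n · ord_Q (red₁ t)`. -/
theorem S36RC_ord_le {m : ℕ} {t : Λ} (ht : H.V2 m t) (n : ℕ) (hmn : m * (n + 1) = 12)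
    (ht₁ : H.red₁ t ≠ 0) {Q : Place k F₁} (hQ : Q ∉ H.cusps) :
    Q.ord (H.red₁ H.φ₀) ≤ ((n + 1 : ℕ) : ℤ) * Q.ord (H.red₁ t) := by
  have h12 := S36RC_V2_pow H ht n
  rw [hmn] at h12
  obtain ⟨h', hh'⟩ := H.div₀ _ h12
  have e : H.red₁ t ^ (n + 1) = H.red₁ h' * H.red₁ H.φ₀ := by
    rw [← map_pow, hh', map_mul]
  have hne : H.red₁ h' ≠ 0 := by
    intro h0
    rw [h0, zero_mul] at e
    exact ht₁ (pow_eq_zero_iff (Nat.succ_ne_zero n) |>.1 e)
  have h1 := S36RC_ord_pow Q (H.red₁ t) (n + 1)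
  rw [e, Q.ord_mul hne H.φ₀_ne] at h1
  have h2 := H.reg₁ h' Q hQ
  linarith

theorem S36RC_ord_nonneg {Q : Place k F₁} (hQ : Q ∉ H.cusps) : 0 ≤ Q.ord (H.red₁ H.φ₀) :=
  H.reg₁ _ Q hQ

/-- **(A), ordinary points**: `red₁ φ₀` is a unit at every non-cuspidal place which is no node. -/
theorem S36RC_ord_zero {Q : Place k F₁} (hQ : Q ∉ H.cusps) (hQn : ∀ i, Q ≠ H.P i) :
    Q.ord (H.red₁ H.φ₀) = 0 := by
  obtain ⟨t, ht₂, ht₁, ht⟩ := H.ex_ord Q hQ hQn
  have h := S36RC_ord_le H (H.V2_one t ht₂) 11 (by norm_num) ht₁ hQ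
  rw [ht] at h
  have h0 := S36RC_ord_nonneg H hQ
  omega

/-- **(A), nodes**: `ord_{P i} (red₁ φ₀) ≤ 12`. -/
theorem S36RC_ord_le_twelve (i : ι) : (H.P i).ord (H.red₁ H.φ₀) ≤ 12 := by
  obtain ⟨t, ht₂, ht₁, ht⟩ := H.ex_t i
  have h := S36RC_ord_le H (H.V2_one t ht₂) 11 (by norm_num) ht₁ (H.P_not_cusp i)
  rw [ht] at h
  norm_num at h
  exact h

/-- **(B)**: the degree of `div (red₁ φ₀)` is `0`: the orders at the nodes add up to the total
pole order at the cusps. -/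
theorem S36RC_sum_nodes :
    ∑ i, (H.P i).ord (H.red₁ H.φ₀) = -∑ Q ∈ H.cusps, Q.ord (H.red₁ H.φ₀) := by
  classical
  have hsub : (Lib.RR_div H.hP (H.red₁ H.φ₀)).support ⊆
      H.cusps ∪ Finset.univ.image H.P := by
    intro Q hQ
    rw [Finsupp.mem_support_iff, Lib.RR_div_apply] at hQ
    by_contra hcon
    rw [Finset.mem_union, not_or] at hcon
    apply hQ
    refine S36RC_ord_zero H hcon.1 fun i hi => hcon.2 ?_
    rw [hi]
    exact Finset.mem_image_of_mem _ (Finset.mem_univ i)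
  have hdisj : Disjoint H.cusps (Finset.univ.image H.P) := by
    rw [Finset.disjoint_left]
    intro Q hQ hQ'
    obtain ⟨i, -, rfl⟩ := Finset.mem_image.1 hQ'
    exact H.P_not_cusp i hQ
  have h := Lib.RR_degree_eq_sum_of_subset H.hdeg (Lib.RR_div H.hP (H.red₁ H.φ₀)) hsub
  rw [Lib.RR_div_degree, Finset.sum_union hdisj,
    Finset.sum_image (fun a _ b _ hab => H.P_inj hab)] at h
  simp only [Lib.RR_div_apply] at h
  linarith

/-- **(C)**: `ord_{P i} (red₁ φ₀) = 12` at every node. -/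
theorem S36RC_ord_eq (i : ι) : (H.P i).ord (H.red₁ H.φ₀) = 12 := by
  classical
  by_contra hne
  have hlt : (H.P i).ord (H.red₁ H.φ₀) < 12 :=
    lt_of_le_of_ne (S36RC_ord_le_twelve H i) hne
  have h1 : ∑ j, (H.P j).ord (H.red₁ H.φ₀) < ∑ _j : ι, (12 : ℤ) :=
    Finset.sum_lt_sum (fun j _ => S36RC_ord_le_twelve H j) ⟨i, Finset.mem_univ i, hlt⟩
  rw [Finset.sum_const, Finset.card_univ, nsmul_eq_mul, S36RC_sum_nodes H] at h1
  have h2 := H.hcusp
  linarith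

/-- **(D), thickness 1**: if `s t = π w` with `V₁(s) ≥ 1`, `V₂(t) ≥ 1`, `red₂ s` and `red₁ t`
having simple zeros at the node `i`, then `w` does not vanish at the node. -/
theorem S36RC_unit (i : ι) {s t w : Λ} (hst : s * t = H.π * w)
    (hs₂ : H.red₂ s ≠ 0) (hs : (H.P' i).ord (H.red₂ s) ≤ 1)
    (ht₁ : H.red₁ t ≠ 0) (ht : (H.P i).ord (H.red₁ t) ≤ 1) :
    ¬ S36RC_van (H.P i) (H.red₁ w) := by
  intro hw
  have hw' : S36RC_van (H.P' i) (H.red₂ w) := (H.compat i w).1 hw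
  -- `ρ = red₂ w / red₂ s` is regular at the node
  have hρ : 0 ≤ (H.P' i).ord (H.red₂ w * (H.red₂ s)⁻¹) := by
    rcases hw' with h0 | hpos
    · rw [h0, zero_mul, Place.ord_zero]
    · have hw0 : H.red₂ w ≠ 0 := by
        intro h0
        rw [h0, Place.ord_zero] at hpos
        exact lt_irrefl _ hpos
      rw [Place.ord_mul _ hw0 (inv_ne_zero hs₂), Place.ord_inv]
      omega
  obtain ⟨Hh, r, hr, hH⟩ := H.ex_den i _ hρ
  -- `t' = H t − π r`
  have e1 : s * (Hh * t - H.π * r) = H.π * (Hh * w - s * r) := by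
    have : s * (Hh * t - H.π * r) = Hh * (s * t) - H.π * (s * r) := by ring
    rw [this, hst]
    ring
  have e2 : H.red₂ (Hh * w - s * r) = 0 := by
    rw [map_sub, map_mul, map_mul, hr]
    field_simp
    ring
  have hV : H.V2 2 (Hh * t - H.π * r) := by
    have h1 := H.V2_mul 1 1 _ _ (H.V2_one _ H.red₂_π) (H.V2_one _ e2)
    rw [← e1] at h1
    exact H.V2_sat 2 _ _ h1 hs₂
  -- `red₁ t' = red₁ H · red₁ t` has order `≤ 1` at the node
  have hH1 : ¬ S36RC_van (H.P i) (H.red₁ Hh) := fun h => hH ((H.compat i Hh).1 h)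
  have hH0 : H.red₁ Hh ≠ 0 := fun h => hH1 (Or.inl h)
  have hHord : (H.P i).ord (H.red₁ Hh) = 0 := by
    have h1 : ¬ 0 < (H.P i).ord (H.red₁ Hh) := fun h => hH1 (Or.inr h)
    have h2 := H.reg₁ Hh (H.P i) (H.P_not_cusp i)
    omega
  have et' : H.red₁ (Hh * t - H.π * r) = H.red₁ Hh * H.red₁ t := by
    rw [map_sub, map_mul, map_mul, H.red₁_π, zero_mul, sub_zero]
  have ht'0 : H.red₁ (Hh * t - H.π * r) ≠ 0 := by
    rw [et']
    exact mul_ne_zero hH0 ht₁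
  have h6 := S36RC_ord_le H hV 5 (by norm_num) ht'0 (H.P_not_cusp i)
  rw [S36RC_ord_eq H i, et', Place.ord_mul _ hH0 ht₁, hHord] at h6
  norm_num at h6
  omega

/-- the same on the second component. -/
theorem S36RC_unit' (i : ι) {s t w : Λ} (hst : s * t = H.π * w)
    (hs₂ : H.red₂ s ≠ 0) (hs : (H.P' i).ord (H.red₂ s) ≤ 1)
    (ht₁ : H.red₁ t ≠ 0) (ht : (H.P i).ord (H.red₁ t) ≤ 1) :
    ¬ S36RC_van (H.P' i) (H.red₂ w) :=
  fun h => S36RC_unit H i hst hs₂ hs ht₁ ht ((H.compat i w).2 h)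

/-- **REG-q (thickness 1 at every node)**: local equation `s t = π w`, `w` a unit at the node. -/
theorem S36RC_main (i : ι) :
    ∃ s t w : Λ, s * t = H.π * w ∧
      H.red₁ s = 0 ∧ H.red₂ s ≠ 0 ∧ (H.P' i).ord (H.red₂ s) = 1 ∧
      H.red₂ t = 0 ∧ H.red₁ t ≠ 0 ∧ (H.P i).ord (H.red₁ t) = 1 ∧
      ¬ S36RC_van (H.P i) (H.red₁ w) ∧ ¬ S36RC_van (H.P' i) (H.red₂ w) := by
  obtain ⟨t, ht₂, ht₁, ht⟩ := H.ex_t i
  obtain ⟨s, hs₁, hs₂, hs⟩ := H.ex_s i
  obtain ⟨w, hw⟩ := H.cart (s * t) (by rw [map_mul, hs₁, zero_mul]) (by rw [map_mul, ht₂, mul_zero])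
  exact ⟨s, t, w, hw, hs₁, hs₂, hs, ht₂, ht₁, ht,
    S36RC_unit H i hw hs₂ hs.le ht₁ ht.le, S36RC_unit' H i hw hs₂ hs.le ht₁ ht.le⟩

end Fermat.Agent.S36
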