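import Mathlib
import Fermat.Agent.S36.RegCount
import Fermat.Agent.S17.RRAvoid

/-!
# TRACK 10 (S36), package REG-q COUNT (helper17), part 2: the lattice hypotheses from the
fibre product and Riemann–Roch.  Prefix `S36RC_`.

`S36RC_Hyp` (`S36/RegCount.lean`) asks for elements of `Λ` with prescribed reductions
(`ex_ord`, `ex_t`, `ex_s`, `ex_den`).  Here they are produced from

* the **fibre product** in the weak form `lift₁`, `lift₁'`, `lift₂` (a function on `C₁` regular off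
  the cusps and vanishing at all nodes is the reduction of an element of the ideal of `C₂`;
  symmetric; every function on `C₂` regular off the cusps is a `red₂`), and
* **Riemann–Roch** `RR_Hyp k F₁`, `RR_Hyp k F₂` (`k` infinite), in the form `S36RC_interp`.

* `S36RC_interp` : for a divisor `E` and a place `Q ≠ c` there is `f ≠ 0`
  with `ord_v f ≥ E v` for all `v ≠ c` and `ord_Q f = E Q` (for `E ≥ 0`: poles only at `c`);
* `S36RC_denom` : denominators (`h ≠ 0`, `ord_Q h = 0`, `h`, `h ρ` regular away from `c`);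
* `S36RC_sum_ord_aeval` : `− Σ_{cusps} ord (p(j̄)) = deg p · (− Σ_{cusps} ord j̄)` (for `hcusp`, with
  helper3's `red_inv`: `red₁ f₀⁻¹ = P(j̄)`, `deg P = q − 1`);
* `S36RC_Fib` : the hypotheses; `S36RC_Fib.toHyp : S36RC_Hyp`;
* `S36RC_Fib_main`, `S36RC_Fib_ord_eq`, `S36RC_Fib_unit` : the results of the count.
-/

set_option autoImplicit false

open AlgebraicCurve

namespace Fermat.Agent.S36

open Fermat.Agent.Lib Fermat.Agent.S17

section Interp

variable {K F : Type*} [Field K] [Field F] [Algebra K F]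

/-- **interpolation with poles at one place**: `Q ≠ c` ⇒ there is `f ≠ 0`
with `ord_v f ≥ E v` for all `v ≠ c` and `ord_Q f = E Q`. -/
theorem S36RC_interp [Infinite K] (h : RR_Hyp K F) (c : Place K F) (E : Divisor K F)
    (Q : Place K F) (hQ : Q ≠ c) :
    ∃ f : F, f ≠ 0 ∧ (∀ v : Place K F, v ≠ c → E v ≤ v.ord f) ∧ Q.ord f = E Q := by
  classical
  set m : ℤ := 2 * (RR_genus K F : ℤ) + 1 + Divisor.degree E with hm
  have hdeg : Divisor.degree (Finsupp.single c m - E : Divisor K F) =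
      2 * (RR_genus K F : ℤ) + 1 := by
    rw [map_sub, Divisor.degree_single, h.deg_one]
    simp [hm]
  obtain ⟨f, hf0, hf, hord⟩ := S17RS_exists_ord_eq h (Finsupp.single c m - E) (le_of_eq hdeg.symm) {Q}
  refine ⟨f, hf0, fun v hv => ?_, ?_⟩
  · have := (S17RS_mem_iff_ord hf0).1 hf v
    rw [Finsupp.sub_apply, Finsupp.single_apply, if_neg (Ne.symm hv)] at this
    linarith
  · have := hord Q (Finset.mem_singleton_self Q)
    rw [this, Finsupp.sub_apply, Finsupp.single_apply, if_neg (Ne.symm hQ)]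
    ring

open Classical in
/-- the reduced divisor of a finite family of places. -/
noncomputable def S36RC_nodeDiv {ι : Type*} [Fintype ι] (P : ι → Place K F) : Divisor K F :=
  Finsupp.onFinset (Finset.univ.image P) (fun v => if ∃ i, v = P i then 1 else 0) (fun v hv => by
    by_contra hcon
    apply hv
    rw [if_neg]
    rintro ⟨i, rfl⟩
    exact hcon (Finset.mem_image_of_mem _ (Finset.mem_univ i)))

open Classical in
theorem S36RC_nodeDiv_apply {ι : Type*} [Fintype ι] (P : ι → Place K F) (v : Place K F) :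
    S36RC_nodeDiv P v = if ∃ i, v = P i then 1 else 0 := rfl

theorem S36RC_nodeDiv_node {ι : Type*} [Fintype ι] (P : ι → Place K F) (i : ι) :
    S36RC_nodeDiv P (P i) = 1 := by
  classical
  rw [S36RC_nodeDiv_apply, if_pos ⟨i, rfl⟩]

theorem S36RC_nodeDiv_of_ne {ι : Type*} [Fintype ι] (P : ι → Place K F) {v : Place K F}
    (hv : ∀ i, v ≠ P i) : S36RC_nodeDiv P v = 0 := by
  classical
  rw [S36RC_nodeDiv_apply, if_neg]
  rintro ⟨i, hi⟩
  exact hv i hi

theorem S36RC_nodeDiv_nonneg {ι : Type*} [Fintype ι] (P : ι → Place K F) (v : Place K F) :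
    0 ≤ S36RC_nodeDiv P v := by
  classical
  rw [S36RC_nodeDiv_apply]
  split_ifs <;> norm_num

open Classical in
/-- the polar divisor of `ρ` away from `c`. -/
noncomputable def S36RC_polDiv (hP : HasPrincipalDivisors K F) (c : Place K F) (ρ : F) :
    Divisor K F :=
  Finsupp.onFinset (RR_div hP ρ).support (fun v => if v = c then 0 else max 0 (-v.ord ρ))
    (fun v hv => by
      rw [Finsupp.mem_support_iff, RR_div_apply]
      intro h0
      apply hv
      rw [h0]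
      simp)

open Classical in
theorem S36RC_polDiv_apply (hP : HasPrincipalDivisors K F) (c : Place K F) (ρ : F)
    (v : Place K F) :
    S36RC_polDiv hP c ρ v = if v = c then 0 else max 0 (-v.ord ρ) := rfl

/-- **denominators**: for `ρ` regular at `Q ≠ c` there is `h ≠ 0` with `ord_Q h = 0` such that
`h` and `h ρ` are regular away from `c`. -/
theorem S36RC_denom [Infinite K] (h : RR_Hyp K F) (c : Place K F) (ρ : F) (Q : Place K F)
    (hQ : Q ≠ c) (hρ : 0 ≤ Q.ord ρ) :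
    ∃ g : F, g ≠ 0 ∧ Q.ord g = 0 ∧ (∀ v : Place K F, v ≠ c → 0 ≤ v.ord g) ∧
      ∀ v : Place K F, v ≠ c → 0 ≤ v.ord (g * ρ) := by
  classical
  obtain ⟨g, hg0, hg, hgQ⟩ := S36RC_interp h c (S36RC_polDiv h.principal c ρ) Q hQ
  refine ⟨g, hg0, ?_, fun v hv => ?_, fun v hv => ?_⟩
  · rw [hgQ, S36RC_polDiv_apply, if_neg hQ]
    exact max_eq_left (by linarith)
  · have := hg v hv
    rw [S36RC_polDiv_apply, if_neg hv] at this
    exact le_trans (le_max_left _ _) this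
  · rcases eq_or_ne ρ 0 with rfl | hρ0
    · simp
    · have := hg v hv
      rw [S36RC_polDiv_apply, if_neg hv] at this
      rw [Place.ord_mul _ hg0 hρ0]
      have := le_trans (le_max_right _ _) this
      linarith

/-! ### the pole order at the cusps of a polynomial in `j̄` -/

theorem S36RC_val_algebraMap (Q : Place K F) {a : K} (ha : a ≠ 0) :
    Q.adicValuation (algebraMap K F a) = 1 := by
  have h1 := Q.adicValuation_algebraMap_le_one a
  have h2 := Q.adicValuation_algebraMap_le_one a⁻¹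
  have h3 : Q.adicValuation (algebraMap K F a) * Q.adicValuation (algebraMap K F a⁻¹) = 1 := by
    rw [← map_mul, ← map_mul, mul_inv_cancel₀ ha, map_one, map_one]
  refine le_antisymm h1 ?_
  calc (1 : WithZero (Multiplicative ℤ))
      = Q.adicValuation (algebraMap K F a) * Q.adicValuation (algebraMap K F a⁻¹) := h3.symm
    _ ≤ Q.adicValuation (algebraMap K F a) * 1 := mul_le_mul_right h2 _
    _ = Q.adicValuation (algebraMap K F a) := mul_one _

/-- at a pole of `j`: `ord_Q (p(j)) = deg p · ord_Q j`. -/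
theorem S36RC_ord_aeval (Q : Place K F) {j : F} (hj : Q.ord j < 0) {p : Polynomial K}
    (hp : p ≠ 0) : Q.ord (Polynomial.aeval j p) = (p.natDegree : ℤ) * Q.ord j := by
  have hj0 : j ≠ 0 := by
    rintro rfl
    simp at hj
  have : Q.adicValuation.IsTrivialOn K := ⟨fun a ha => S36RC_val_algebraMap Q ha⟩
  have h1 : 1 < Q.adicValuation j := by
    rw [Q.adicValuation_eq_exp_neg_ord hj0, ← WithZero.exp_zero, WithZero.exp_lt_exp]
    omega
  have h := Polynomial.valuation_aeval_eq_valuation_X_pow_natDegree_of_one_lt_valuation_X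
    (v := Q.adicValuation) j h1 hp
  rw [← map_pow] at h
  have e : Q.ord (Polynomial.aeval j p) = Q.ord (j ^ p.natDegree) := by
    unfold Place.ord
    rw [h]
  rw [e, S36RC_ord_pow]

/-- **the pole order of `p(j̄)` at the cusps** (`j̄` has a pole at every cusp). -/
theorem S36RC_sum_ord_aeval (cusps : Finset (Place K F)) {j : F}
    (hj : ∀ Q ∈ cusps, Q.ord j < 0) {p : Polynomial K} (hp : p ≠ 0) :
    -∑ Q ∈ cusps, Q.ord (Polynomial.aeval j p) =
      (p.natDegree : ℤ) * (-∑ Q ∈ cusps, Q.ord j) := by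
  rw [Finset.sum_congr rfl fun Q hQ => S36RC_ord_aeval Q (hj Q hQ) hp, ← Finset.mul_sum]
  ring

end Interp

/-- the hypotheses of the count in "fibre product + Riemann–Roch" form. -/
structure S36RC_Fib (k F₁ F₂ Λ ι : Type*) [Field k] [Field F₁] [Field F₂] [Algebra k F₁]
    [Algebra k F₂] [CommRing Λ] [Fintype ι] where
  /-- the uniformiser `q` of the base -/
  π : Λ
  /-- reduction along the first component (`V₁`) -/
  red₁ : Λ →+* F₁
  /-- reduction along the second component (`V₂`) -/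
  red₂ : Λ →+* F₂
  red₁_π : red₁ π = 0
  red₂_π : red₂ π = 0
  /-- `Λ / π Λ` is reduced: `ker red₁ ∩ ker red₂ = π Λ` -/
  cart : ∀ x : Λ, red₁ x = 0 → red₂ x = 0 → ∃ w : Λ, x = π * w
  /-- the cusps of the first component -/
  cusps₁ : Finset (Place k F₁)
  /-- the cusps of the second component -/
  cusps₂ : Finset (Place k F₂)
  /-- a cusp of the first component -/
  c₁ : Place k F₁
  /-- a cusp of the second component -/
  c₂ : Place k F₂
  hc₁ : c₁ ∈ cusps₁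
  hc₂ : c₂ ∈ cusps₂
  /-- reductions are regular off the cusps -/
  reg₁ : ∀ (x : Λ) (Q : Place k F₁), Q ∉ cusps₁ → 0 ≤ Q.ord (red₁ x)
  /-- the nodes, seen on the first component -/
  P : ι → Place k F₁
  /-- the nodes, seen on the second component -/
  P' : ι → Place k F₂
  P_inj : Function.Injective P
  P_not_cusp : ∀ i, P i ∉ cusps₁
  P'_not_cusp : ∀ i, P' i ∉ cusps₂
  /-- the value at a node is well defined -/
  compat : ∀ (i : ι) (f : Λ), S36RC_van (P i) (red₁ f) ↔ S36RC_van (P' i) (red₂ f)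
  /-- fibre product, first component: `(a, 0)` lifts if `a` vanishes at the nodes -/
  lift₁ : ∀ a : F₁, (∀ Q : Place k F₁, Q ∉ cusps₁ → 0 ≤ Q.ord a) → (∀ i, S36RC_van (P i) a) →
    ∃ t : Λ, red₁ t = a ∧ red₂ t = 0
  /-- fibre product, second component: `(0, b)` lifts if `b` vanishes at the nodes -/
  lift₁' : ∀ b : F₂, (∀ Q : Place k F₂, Q ∉ cusps₂ → 0 ≤ Q.ord b) → (∀ i, S36RC_van (P' i) b) →
    ∃ s : Λ, red₁ s = 0 ∧ red₂ s = b
  /-- `red₂` is onto the functions regular off the cusps -/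
  lift₂ : ∀ b : F₂, (∀ Q : Place k F₂, Q ∉ cusps₂ → 0 ≤ Q.ord b) → ∃ x : Λ, red₂ x = b
  /-- `V2 m x` : `V₂(x) ≥ m` -/
  V2 : ℕ → Λ → Prop
  V2_one : ∀ x : Λ, red₂ x = 0 → V2 1 x
  V2_mul : ∀ (a b : ℕ) (x y : Λ), V2 a x → V2 b y → V2 (a + b) (x * y)
  V2_sat : ∀ (m : ℕ) (x y : Λ), V2 m (x * y) → red₂ x ≠ 0 → V2 m y
  /-- `φ₀ = f₀⁻¹`, `f₀ = Δ(qz)/Δ(z)` -/
  φ₀ : Λ
  φ₀_ne : red₁ φ₀ ≠ 0
  /-- **F0**: `V₂(h) ≥ 12 ⇒ h f₀ ∈ Λ` -/
  div₀ : ∀ h : Λ, V2 12 h → ∃ h' : Λ, h = h' * φ₀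
  rr₁ : RR_Hyp k F₁
  rr₂ : RR_Hyp k F₂
  /-- the total pole order of `red₁ φ₀` at the cusps is at least `12 ·` (number of nodes) -/
  hcusp : 12 * (Fintype.card ι : ℤ) ≤ -∑ Q ∈ cusps₁, Q.ord (red₁ φ₀)

variable {k F₁ F₂ Λ ι : Type*} [Field k] [Field F₁] [Field F₂] [Algebra k F₁]
    [Algebra k F₂] [CommRing Λ] [Fintype ι]

section

variable (H : S36RC_Fib k F₁ F₂ Λ ι)

theorem S36RC_Fib_ne_c₁ {Q : Place k F₁} (hQ : Q ∉ H.cusps₁) : Q ≠ H.c₁ :=
  fun h => hQ (h ▸ H.hc₁)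

theorem S36RC_Fib_ne_c₂ {Q : Place k F₂} (hQ : Q ∉ H.cusps₂) : Q ≠ H.c₂ :=
  fun h => hQ (h ▸ H.hc₂)

variable [Infinite k]

/-- a function on `C₁`, regular off the cusp `c₁`, vanishing at all nodes, with the minimal order
at a given non-cuspidal place. -/
theorem S36RC_Fib_ex₁ (Q : Place k F₁) (hQ : Q ∉ H.cusps₁) :
    ∃ t : Λ, H.red₂ t = 0 ∧ H.red₁ t ≠ 0 ∧ Q.ord (H.red₁ t) = S36RC_nodeDiv H.P Q := by
  obtain ⟨a, ha0, ha, haQ⟩ := S36RC_interp H.rr₁ H.c₁ (S36RC_nodeDiv H.P) Q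
    (S36RC_Fib_ne_c₁ H hQ)
  obtain ⟨t, ht₁, ht₂⟩ := H.lift₁ a
    (fun v hv => le_trans (S36RC_nodeDiv_nonneg _ v) (ha v (S36RC_Fib_ne_c₁ H hv)))
    (fun i => Or.inr (by
      have := ha (H.P i) (S36RC_Fib_ne_c₁ H (H.P_not_cusp i))
      rw [S36RC_nodeDiv_node] at this
      linarith))
  exact ⟨t, ht₂, by rw [ht₁]; exact ha0, by rw [ht₁]; exact haQ⟩

theorem S36RC_Fib_ex₂ (Q : Place k F₂) (hQ : Q ∉ H.cusps₂) :
    ∃ s : Λ, H.red₁ s = 0 ∧ H.red₂ s ≠ 0 ∧ Q.ord (H.red₂ s) = S36RC_nodeDiv H.P' Q := by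
  obtain ⟨a, ha0, ha, haQ⟩ := S36RC_interp H.rr₂ H.c₂ (S36RC_nodeDiv H.P') Q
    (S36RC_Fib_ne_c₂ H hQ)
  obtain ⟨s, hs₁, hs₂⟩ := H.lift₁' a
    (fun v hv => le_trans (S36RC_nodeDiv_nonneg _ v) (ha v (S36RC_Fib_ne_c₂ H hv)))
    (fun i => Or.inr (by
      have := ha (H.P' i) (S36RC_Fib_ne_c₂ H (H.P'_not_cusp i))
      rw [S36RC_nodeDiv_node] at this
      linarith))
  exact ⟨s, hs₁, by rw [hs₂]; exact ha0, by rw [hs₂]; exact haQ⟩

/-- the hypotheses of `S36/RegCount.lean` from the fibre product and Riemann–Roch. -/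
noncomputable def S36RC_Fib.toHyp : S36RC_Hyp k F₁ F₂ Λ ι where
  π := H.π
  red₁ := H.red₁
  red₂ := H.red₂
  red₁_π := H.red₁_π
  red₂_π := H.red₂_π
  cart := H.cart
  cusps := H.cusps₁
  reg₁ := H.reg₁
  P := H.P
  P' := H.P'
  P_inj := H.P_inj
  P_not_cusp := H.P_not_cusp
  compat := H.compat
  ex_ord := fun Q hQ hQn => by
    obtain ⟨t, ht₂, ht₁, ht⟩ := S36RC_Fib_ex₁ H Q hQ
    refine ⟨t, ht₂, ht₁, ?_⟩
    rw [ht]
    exact S36RC_nodeDiv_of_ne H.P hQn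
  ex_t := fun i => by
    obtain ⟨t, ht₂, ht₁, ht⟩ := S36RC_Fib_ex₁ H (H.P i) (H.P_not_cusp i)
    refine ⟨t, ht₂, ht₁, ?_⟩
    rw [ht]
    exact S36RC_nodeDiv_node H.P i
  ex_s := fun i => by
    obtain ⟨s, hs₁, hs₂, hs⟩ := S36RC_Fib_ex₂ H (H.P' i) (H.P'_not_cusp i)
    refine ⟨s, hs₁, hs₂, ?_⟩
    rw [hs]
    exact S36RC_nodeDiv_node H.P' i
  ex_den := fun i ρ hρ => by
    obtain ⟨g, hg0, hgQ, hg, hgρ⟩ := S36RC_denom H.rr₂ H.c₂ ρ (H.P' i)
      (S36RC_Fib_ne_c₂ H (H.P'_not_cusp i)) hρ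
    obtain ⟨Hh, hHh⟩ := H.lift₂ g (fun v hv => hg v (S36RC_Fib_ne_c₂ H hv))
    obtain ⟨r, hr⟩ := H.lift₂ (g * ρ) (fun v hv => hgρ v (S36RC_Fib_ne_c₂ H hv))
    refine ⟨Hh, r, by rw [hr, hHh], ?_⟩
    rw [hHh]
    rintro (h0 | hpos)
    · exact hg0 h0
    · rw [hgQ] at hpos
      exact lt_irrefl _ hpos
  V2 := H.V2
  V2_one := H.V2_one
  V2_mul := H.V2_mul
  V2_sat := H.V2_sat
  φ₀ := H.φ₀
  φ₀_ne := H.φ₀_ne
  div₀ := H.div₀
  hP := H.rr₁.principal
  hdeg := H.rr₁.deg_one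
  hcusp := H.hcusp

/-- **the Hasse invariant has simple zeros**: `ord_{P i} (red₁ φ₀) = 12` at every node. -/
theorem S36RC_Fib_ord_eq (i : ι) : (H.P i).ord (H.red₁ H.φ₀) = 12 :=
  S36RC_ord_eq H.toHyp i

theorem S36RC_Fib_ord_zero {Q : Place k F₁} (hQ : Q ∉ H.cusps₁) (hQn : ∀ i, Q ≠ H.P i) :
    Q.ord (H.red₁ H.φ₀) = 0 :=
  S36RC_ord_zero H.toHyp hQ hQn

/-- **thickness 1**. -/
theorem S36RC_Fib_unit (i : ι) {s t w : Λ} (hst : s * t = H.π * w)
    (hs₂ : H.red₂ s ≠ 0) (hs : (H.P' i).ord (H.red₂ s) ≤ 1)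
    (ht₁ : H.red₁ t ≠ 0) (ht : (H.P i).ord (H.red₁ t) ≤ 1) :
    ¬ S36RC_van (H.P i) (H.red₁ w) ∧ ¬ S36RC_van (H.P' i) (H.red₂ w) :=
  ⟨S36RC_unit H.toHyp i hst hs₂ hs ht₁ ht, S36RC_unit' H.toHyp i hst hs₂ hs ht₁ ht⟩

/-- **REG-q**: at every node there is a local equation `s t = π w` with `w` a unit at the node. -/
theorem S36RC_Fib_main (i : ι) :
    ∃ s t w : Λ, s * t = H.π * w ∧
      H.red₁ s = 0 ∧ H.red₂ s ≠ 0 ∧ (H.P' i).ord (H.red₂ s) = 1 ∧
      H.red₂ t = 0 ∧ H.red₁ t ≠ 0 ∧ (H.P i).ord (H.red₁ t) = 1 ∧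
      ¬ S36RC_van (H.P i) (H.red₁ w) ∧ ¬ S36RC_van (H.P' i) (H.red₂ w) :=
  S36RC_main H.toHyp i

end

end Fermat.Agent.S36
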