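import Mathlib
import Fermat.Agent.S36.SSCard
import Fermat.Agent.S36.OrdChain

/-!
# TRACK 10 (S36), package SS-CARD (helper3), part 2: the simple zero at the supersingular places

* `S36SS_charP` — `F̄_M` has characteristic `q`;
* `S36SS_simple_zero` — for `v ∈ SS`, `y` rational (`Fr y = y ^ q`), regular off the cusps, and
  `y − c` a local parameter at `v`: `ord_v (y − y ^ (q²)) = 1`
  (`S36SS_const` + `S36OC_simple_zero`; = the hypotheses `h1`, `h2` of `S36OL_ss`);
* `S36SS_simple_zero_coe` — the same with `hFr` in Laurent-series form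
  (`qExpand k q y = y ^ q`, = `S36FR_R5`).
-/

set_option autoImplicit false
set_option synthInstance.maxHeartbeats 400000
set_option maxHeartbeats 1000000
set_option linter.unusedSectionVars false
set_option linter.style.haveILetI false

open AlgebraicCurve IntermediateField ModularCurve

noncomputable section

namespace Fermat.Agent.S36

open Fermat.Agent.S24 Fermat.Agent.S18 Fermat.Agent.S34

variable {M q : ℕ} [NeZero M] [NeZero q] [NeZero (M * q)] {hq : q.Prime} {hqM : ¬ q ∣ M}
  {A : ValuationSubring (AlgebraicClosure ℚ)} (hA : A.LiesOverPrime q)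
  {hgen : PrincipalGeneratedByIntegral A (IsLocalRing.residue A) (M * q)}
  {n : ℕ} {hn : 0 < n}

include hA in
/-- `F̄_M` has characteristic `q`. -/
theorem S36SS_charP (hq : q.Prime) :
    CharP ↥(modularFunctionFieldFullC (IsLocalRing.ResidueField A) M) q :=
  haveI : CharP (IsLocalRing.ResidueField A) q := S18_residue_charP A q hq hA
  charP_of_injective_algebraMap
    (algebraMap (IsLocalRing.ResidueField A)
      ↥(modularFunctionFieldFullC (IsLocalRing.ResidueField A) M)).injective q

/-- **the simple zero at the supersingular places**: `ord_v (y − y ^ (q²)) = 1`. -/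
theorem S36SS_simple_zero (D : S36SS_Data M q hq hqM A hgen n hn)
    (v : Place (IsLocalRing.ResidueField A)
      ↥(modularFunctionFieldFullC (IsLocalRing.ResidueField A) M)) (hv : v ∈ D.SS)
    (y : ↥(modularFunctionFieldFullC (IsLocalRing.ResidueField A) M))
    (hy : y ∈ S34SB_reg (IsLocalRing.ResidueField A)
      (S18_jbar M (IsLocalRing.ResidueField A)))
    (hFr : S34NX_Fr M q A hq hA y = y ^ q) (c : IsLocalRing.ResidueField A)
    (hc : v.ord (y - algebraMap (IsLocalRing.ResidueField A)
      ↥(modularFunctionFieldFullC (IsLocalRing.ResidueField A) M) c) = 1) :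
    v.ord (y - y ^ (q ^ 2)) = 1 := by
  haveI : Fact q.Prime := ⟨hq⟩
  haveI := S36SS_charP (M := M) hA hq
  exact S36OC_simple_zero v q 2 two_ne_zero
    (S36SS_const hA D v hv y hy hFr c (by rw [hc]; exact one_pos)) hc

include hA in
/-- the same with the rationality in Laurent-series form. -/
theorem S36SS_simple_zero_coe (D : S36SS_Data M q hq hqM A hgen n hn)
    (v : Place (IsLocalRing.ResidueField A)
      ↥(modularFunctionFieldFullC (IsLocalRing.ResidueField A) M)) (hv : v ∈ D.SS)
    (y : ↥(modularFunctionFieldFullC (IsLocalRing.ResidueField A) M))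
    (hy : y ∈ S34SB_reg (IsLocalRing.ResidueField A)
      (S18_jbar M (IsLocalRing.ResidueField A)))
    (hFr : qExpand (IsLocalRing.ResidueField A) q
        (y : LaurentSeries (IsLocalRing.ResidueField A)) =
      (y : LaurentSeries (IsLocalRing.ResidueField A)) ^ q)
    (c : IsLocalRing.ResidueField A)
    (hc : v.ord (y - algebraMap (IsLocalRing.ResidueField A)
      ↥(modularFunctionFieldFullC (IsLocalRing.ResidueField A) M) c) = 1) :
    v.ord (y - y ^ (q ^ 2)) = 1 :=
  S36SS_simple_zero hA D v hv y hy (Subtype.ext hFr) c hc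

end Fermat.Agent.S36
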