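import Mathlib
import Fermat.Agent.Lib.DiffExpand
import Fermat.Agent.S36.Int3

/-!
# TRACK 10 (S36), package SPEC3 (helper21), abstract part.  Prefix `S36SP_`.

`Ω` a field (`ℚ̄`), `F / Ω` a function field, `Q : Place Ω F` a place of degree one (a horizontal
place), `𝔸 ⊂ Ω` a valuation ring with residue field `k`, `Λ ⊂ F` a subring of functions regular
at `Q` (the lattice `Λ_U`).  The value of `f` at `Q` is `FD_c0 Q f` (`Lib/DiffExpand.lean`).

* `S36SP_evHom Q hdeg`   : the evaluation at `Q` as a ring homomorphism on the valuation ring;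
* `S36SP_ev Q hdeg Λ hΛ` : its restriction `Λ →+* Ω`; `S36SP_ev_apply`, `S36SP_ev_eq_zero_iff`;
* `S36SP_horiz`          : the structure `S36IT_Horiz` of INT (helper17) for `ev = S36SP_ev`;
* `S36SP_thru_iff`       : `Q` is through `y` in the sense of `S36IT_thru` iff `ev x = 0 → y x = 0`;
* `S36SP_val_le_one_of_monic`, `S36SP_value_mem` (**A**): an element integral over a subring `B`
  of functions regular at `Q` with values in `𝔸` is regular at `Q` with value in `𝔸`;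
* `S36SP_closure` : the subring generated by the constants of `𝔸` and by functions regular at `Q`
  with values in `𝔸` consists of such functions (`B = 𝔸[A]`, `A = j`);
* `S36SP_y` (**B**) : THE specialisation `y_Q = res ∘ ev_Q : Λ →+* k`; `S36SP_y_apply`,
  `S36SP_y_eq_zero_iff`, `S36SP_y_thru` (`Q` is through `y_Q`), `S36SP_y_const`;
* `S36SP_y_unique` : a closed point through which `Q` passes is `y_Q` (from `S36IT_thru_spec`);
* `S36SP_sep`      : separation of `Q` from a closed point which is not its specialisation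
  (from `S36IT_horiz_den`);
* `S36SP_nilp` (**E**) : a ring homomorphism to a field kills `f` as soon as it kills `ϖ` and
  `f ^ m ∈ ϖ Λ`.
-/

set_option autoImplicit false
set_option linter.unusedSectionVars false
set_option linter.style.haveILetI false

open AlgebraicCurve Polynomial

namespace Fermat.Agent.S36

open Fermat.Agent.Lib

variable {Ω F : Type*} [Field Ω] [Field F] [Algebra Ω F]

/-! ### the evaluation at a place of degree one -/

section Ev

variable (Q : Place Ω F) (hdeg : Q.deg = 1)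

/-- the value of a constant. -/
theorem S36SP_c0_algebraMap (c : Ω) : FD_c0 Q (algebraMap Ω F c) = c :=
  FD_c0_unique Q (by rw [sub_self, map_zero]; exact zero_lt_one)

/-- the evaluation at `Q`, as a ring homomorphism on the valuation ring of `Q`. -/
noncomputable def S36SP_evHom : Q.adicValuation.integer →+* Ω where
  toFun f := FD_c0 Q (f : F)
  map_one' := by
    have := S36SP_c0_algebraMap Q (1 : Ω)
    rwa [map_one] at this
  map_mul' f g := (FD_c0_mul Q hdeg f.2 g.2).1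
  map_zero' := by
    have := S36SP_c0_algebraMap Q (0 : Ω)
    rwa [map_zero] at this
  map_add' f g := (FD_c0_add Q hdeg f.2 g.2).1

@[simp] theorem S36SP_evHom_apply (f : Q.adicValuation.integer) :
    S36SP_evHom Q hdeg f = FD_c0 Q (f : F) := rfl

variable (Λ : Subring F) (hΛ : ∀ f ∈ Λ, Q.adicValuation f ≤ 1)

/-- the evaluation at `Q` on a ring of functions regular at `Q`. -/
noncomputable def S36SP_ev : Λ →+* Ω :=
  (S36SP_evHom Q hdeg).comp (Subring.inclusion (fun f hf => hΛ f hf : Λ ≤ Q.adicValuation.integer))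

@[simp] theorem S36SP_ev_apply (f : Λ) : S36SP_ev Q hdeg Λ hΛ f = FD_c0 Q (f : F) := rfl

theorem S36SP_ev_eq_zero_iff (f : Λ) :
    S36SP_ev Q hdeg Λ hΛ f = 0 ↔ Q.adicValuation (f : F) < 1 := by
  rw [S36SP_ev_apply]
  exact FD_c0_eq_zero_iff Q hdeg (hΛ f f.2)

/-- `Q` is through `y` (in the sense of `S36IT_thru`, for any family of valuations containing
the valuation of `Q` at the index `i`) iff `ev x = 0 → y x = 0`. -/
theorem S36SP_thru_iff {k : Type*} [Field k] (y : Λ →+* k) :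
    (∀ x : Λ, Q.adicValuation (x : F) < 1 → y x = 0) ↔
      ∀ x : Λ, S36SP_ev Q hdeg Λ hΛ x = 0 → y x = 0 := by
  constructor
  · intro h x hx
    exact h x ((S36SP_ev_eq_zero_iff Q hdeg Λ hΛ x).1 hx)
  · intro h x hx
    exact h x ((S36SP_ev_eq_zero_iff Q hdeg Λ hΛ x).2 hx)

/-- **the structure `S36IT_Horiz` of INT** for the evaluation at `Q`. -/
theorem S36SP_horiz {L k : Type*} [Field L] [Field k] [Algebra L Ω] [Algebra L F]
    [IsScalarTower L Ω F] (𝔸 : Subring Ω) (res : 𝔸 →+* k) (y : Λ →+* k)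
    (hconst : ∀ c : L, algebraMap L Ω c ∈ 𝔸 → algebraMap L F c ∈ Λ)
    (hy : ∀ (c : L) (h : algebraMap L Ω c ∈ 𝔸) (h' : algebraMap L F c ∈ Λ),
      y ⟨_, h'⟩ = res ⟨_, h⟩) :
    S36IT_Horiz (L := L) Λ y 𝔸 res (S36SP_ev Q hdeg Λ hΛ) where
  const_mem := hconst
  ev_const c h := by
    rw [S36SP_ev_apply]
    show FD_c0 Q (algebraMap L F c) = _
    rw [IsScalarTower.algebraMap_apply L Ω F, S36SP_c0_algebraMap]
  y_const := hy

end Ev

/-! ### (A): values of integral functions are integral -/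

section Integral

/-- a root of a monic polynomial with integral coefficients is integral (for a valuation on a
field). -/
theorem S36SP_val_le_one_of_monic {R Γ₀ : Type*} [Field R] [LinearOrderedCommGroupWithZero Γ₀]
    (v : Valuation R Γ₀) (p : R[X]) (hp : p.Monic) (hc : ∀ i, v (p.coeff i) ≤ 1) (x : R)
    (hx : p.eval x = 0) : v x ≤ 1 := by
  have hcoef : (↑p.coeffs : Set R) ⊆ v.integer := by
    intro c hc'
    obtain ⟨i, -, rfl⟩ := Polynomial.mem_coeffs_iff.mp (Finset.mem_coe.mp hc')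
    exact hc i
  have hint : IsIntegral v.integer x := by
    refine ⟨p.toSubring v.integer hcoef, (Polynomial.monic_toSubring p v.integer hcoef).2 hp, ?_⟩
    have h1 : (p.toSubring v.integer hcoef).map v.integer.subtype = p :=
      Polynomial.map_toSubring p v.integer hcoef
    have h2 : eval₂ (algebraMap v.integer R) x (p.toSubring v.integer hcoef) =
        eval x ((p.toSubring v.integer hcoef).map v.integer.subtype) := by
      rw [eval_map]
      rfl
    rw [h2, h1, hx]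
  exact (Valuation.integer.integers v).mem_of_integral hint

variable (Q : Place Ω F) (hdeg : Q.deg = 1) (𝔸 : ValuationSubring Ω)

include hdeg in
/-- **(A)** an element integral over a subring `B` of functions regular at `Q` with values in `𝔸`
is regular at `Q` and has its value in `𝔸`. -/
theorem S36SP_value_mem (B : Subring F)
    (hB : ∀ g ∈ B, Q.adicValuation g ≤ 1 ∧ FD_c0 Q g ∈ 𝔸) {f : F} (hf : IsIntegral B f) :
    Q.adicValuation f ≤ 1 ∧ FD_c0 Q f ∈ 𝔸 := by
  obtain ⟨p, hp, hpf⟩ := hf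
  -- the polynomial over `F`
  set pF : F[X] := p.map B.subtype with hpF
  have hpFm : pF.Monic := hp.map _
  have hpFc : ∀ i, pF.coeff i ∈ B := fun i => by
    rw [hpF, coeff_map]
    exact (p.coeff i).2
  have hpFe : pF.eval f = 0 := by
    rw [hpF, eval_map]
    exact hpf
  have hreg : Q.adicValuation f ≤ 1 :=
    S36SP_val_le_one_of_monic Q.adicValuation pF hpFm (fun i => (hB _ (hpFc i)).1) f hpFe
  refine ⟨hreg, ?_⟩
  -- apply the evaluation
  set ι : B →+* Q.adicValuation.integer :=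
    Subring.inclusion (fun g hg => (hB g hg).1 : B ≤ Q.adicValuation.integer) with hι
  set e : B →+* Ω := (S36SP_evHom Q hdeg).comp ι with he
  set pΩ : Polynomial Ω := p.map e with hpΩ
  have hpΩm : pΩ.Monic := hp.map _
  have hpΩc : ∀ i, 𝔸.valuation (pΩ.coeff i) ≤ 1 := fun i => by
    rw [hpΩ, coeff_map, ValuationSubring.valuation_le_one_iff]
    exact (hB _ (p.coeff i).2).2
  have hregm : f ∈ Q.adicValuation.integer := hreg
  have hpΩe : pΩ.eval (FD_c0 Q f) = 0 := by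
    have h1 : eval₂ ι (⟨f, hregm⟩ : Q.adicValuation.integer) p = 0 := by
      apply Subtype.ext
      have h2 := Polynomial.hom_eval₂ p ι Q.adicValuation.integer.subtype
        (⟨f, hregm⟩ : Q.adicValuation.integer)
      exact h2.trans hpf
    have h3 := Polynomial.hom_eval₂ p ι (S36SP_evHom Q hdeg)
      (⟨f, hregm⟩ : Q.adicValuation.integer)
    rw [h1, map_zero] at h3
    rw [hpΩ, eval_map]
    exact h3.symm
  have := S36SP_val_le_one_of_monic 𝔸.valuation pΩ hpΩm hpΩc _ hpΩe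
  exact (ValuationSubring.valuation_le_one_iff 𝔸 _).1 this

include hdeg in
/-- the subring generated by a set of functions regular at `Q` with values in `𝔸` consists of
such functions. -/
theorem S36SP_closure (s : Set F) (hs : ∀ g ∈ s, Q.adicValuation g ≤ 1 ∧ FD_c0 Q g ∈ 𝔸) :
    ∀ g ∈ Subring.closure s, Q.adicValuation g ≤ 1 ∧ FD_c0 Q g ∈ 𝔸 := by
  intro g hg
  induction hg using Subring.closure_induction with
  | mem x hx => exact hs x hx
  | zero =>
    refine ⟨by rw [map_zero]; exact zero_le_one, ?_⟩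
    have := S36SP_c0_algebraMap Q (0 : Ω)
    rw [map_zero] at this
    rw [this]
    exact 𝔸.zero_mem
  | one =>
    refine ⟨by rw [map_one], ?_⟩
    have := S36SP_c0_algebraMap Q (1 : Ω)
    rw [map_one] at this
    rw [this]
    exact 𝔸.one_mem
  | add x y _ _ hx hy =>
    refine ⟨(Valuation.map_add _ _ _).trans (max_le hx.1 hy.1), ?_⟩
    rw [(FD_c0_add Q hdeg hx.1 hy.1).1]
    exact 𝔸.add_mem _ _ hx.2 hy.2
  | neg x _ hx =>
    have h1 : Q.adicValuation (-x) ≤ 1 := by rw [Valuation.map_neg]; exact hx.1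
    refine ⟨h1, ?_⟩
    have h2 := (FD_c0_add Q hdeg hx.1 h1).1
    rw [add_neg_cancel] at h2
    have h0 := S36SP_c0_algebraMap Q (0 : Ω)
    rw [map_zero] at h0
    rw [h0] at h2
    have h3 : FD_c0 Q (-x) = -FD_c0 Q x := by linear_combination -h2
    rw [h3]
    exact 𝔸.neg_mem _ hx.2
  | mul x y _ _ hx hy =>
    refine ⟨by rw [map_mul]; exact mul_le_one' hx.1 hy.1, ?_⟩
    rw [(FD_c0_mul Q hdeg hx.1 hy.1).1]
    exact 𝔸.mul_mem _ _ hx.2 hy.2

include hdeg in
/-- the constants of `𝔸` together with functions regular at `Q` with values in `𝔸`. -/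
theorem S36SP_closure_const (s : Set F)
    (hs : ∀ g ∈ s, Q.adicValuation g ≤ 1 ∧ FD_c0 Q g ∈ 𝔸) :
    ∀ g ∈ Subring.closure ((algebraMap Ω F) '' (𝔸 : Set Ω) ∪ s),
      Q.adicValuation g ≤ 1 ∧ FD_c0 Q g ∈ 𝔸 := by
  apply S36SP_closure Q hdeg 𝔸
  rintro g (⟨c, hc, rfl⟩ | hg)
  · exact ⟨Q.adicValuation_algebraMap_le_one c, by rw [S36SP_c0_algebraMap]; exact hc⟩
  · exact hs g hg

end Integral

/-! ### (B): the specialisation `y_Q` -/

section Spec

variable (Q : Place Ω F) (hdeg : Q.deg = 1) (𝔸 : ValuationSubring Ω) (Λ : Subring F)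
  (hΛ : ∀ f ∈ Λ, Q.adicValuation f ≤ 1 ∧ FD_c0 Q f ∈ 𝔸)

/-- the evaluation at `Q` with values in `𝔸`. -/
noncomputable def S36SP_evA : Λ →+* 𝔸 :=
  (S36SP_ev Q hdeg Λ (fun f hf => (hΛ f hf).1)).codRestrict 𝔸.toSubring
    (fun f => (hΛ f f.2).2)

@[simp] theorem S36SP_evA_coe (f : Λ) :
    ((S36SP_evA Q hdeg 𝔸 Λ hΛ f : 𝔸) : Ω) = FD_c0 Q (f : F) := rfl

/-- **(B)** THE specialisation `y_Q = res ∘ ev_Q`. -/
noncomputable def S36SP_y : Λ →+* IsLocalRing.ResidueField 𝔸 :=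
  (IsLocalRing.residue 𝔸).comp (S36SP_evA Q hdeg 𝔸 Λ hΛ)

theorem S36SP_y_apply (f : Λ) :
    S36SP_y Q hdeg 𝔸 Λ hΛ f = IsLocalRing.residue 𝔸 ⟨FD_c0 Q (f : F), (hΛ f f.2).2⟩ := rfl

theorem S36SP_y_eq_zero_iff (f : Λ) :
    S36SP_y Q hdeg 𝔸 Λ hΛ f = 0 ↔ FD_c0 Q (f : F) ∈ 𝔸.nonunits := by
  rw [S36SP_y_apply, IsLocalRing.residue_eq_zero_iff,
    ValuationSubring.mem_nonunits_iff_exists_mem_maximalIdeal]
  constructor
  · intro h
    exact ⟨_, h⟩
  · rintro ⟨_, h⟩
    exact h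

/-- `Q` is through `y_Q`. -/
theorem S36SP_y_thru (x : Λ) (hx : Q.adicValuation (x : F) < 1) :
    S36SP_y Q hdeg 𝔸 Λ hΛ x = 0 := by
  have h0 : FD_c0 Q (x : F) = 0 :=
    (FD_c0_eq_zero_iff Q hdeg (hΛ x x.2).1).2 hx
  rw [S36SP_y_apply]
  have : (⟨FD_c0 Q (x : F), (hΛ x x.2).2⟩ : 𝔸) = 0 := Subtype.ext h0
  rw [this, map_zero]

/-- `y_Q` on the constants. -/
theorem S36SP_y_const (c : Ω) (hc : c ∈ 𝔸) (h : algebraMap Ω F c ∈ Λ) :
    S36SP_y Q hdeg 𝔸 Λ hΛ ⟨_, h⟩ = IsLocalRing.residue 𝔸 ⟨c, hc⟩ := by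
  rw [S36SP_y_apply]
  congr 1
  exact Subtype.ext (S36SP_c0_algebraMap Q c)

end Spec

/-! ### uniqueness of the closed point through which `Q` passes -/

section Unique

variable {L k : Type*} [Field L] [Field k] [Algebra L Ω] [Algebra L F] [IsScalarTower L Ω F]
  [Normal L Ω] (Q : Place Ω F) (hdeg : Q.deg = 1) (𝔸 : ValuationSubring Ω) (Λ : Subring F)
  (hΛ : ∀ f ∈ Λ, Q.adicValuation f ≤ 1)

include hdeg hΛ in
/-- **a closed point through which `Q` passes is the specialisation of `Q`**: if `Gal(Ω/L)` is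
an inertia group of `𝔸` (`hI`), `Λ` contains the constants of `𝔸 ∩ L` and `y` is the residue map
on them, then `Q` through `y` implies that all values `f(Q)`, `f ∈ Λ`, lie in `𝔸` and
`y f = res (f(Q))`. -/
theorem S36SP_y_unique (res : 𝔸.toSubring →+* k) (y : Λ →+* k)
    (hconst : ∀ c : L, algebraMap L Ω c ∈ 𝔸.toSubring → algebraMap L F c ∈ Λ)
    (hy : ∀ (c : L) (h : algebraMap L Ω c ∈ 𝔸.toSubring) (h' : algebraMap L F c ∈ Λ),
      y ⟨_, h'⟩ = res ⟨_, h⟩)
    (hI : ∀ (σ : Ω ≃ₐ[L] Ω) (a : Ω) (ha : a ∈ 𝔸.toSubring),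
      ∃ h : σ a ∈ 𝔸.toSubring, res ⟨σ a, h⟩ = res ⟨a, ha⟩)
    (hres : ∀ b : 𝔸.toSubring, ¬ IsUnit b → res b = 0)
    (hthru : ∀ x : Λ, Q.adicValuation (x : F) < 1 → y x = 0) (φ : Λ) :
    ∃ h : FD_c0 Q (φ : F) ∈ 𝔸.toSubring, y φ = res ⟨FD_c0 Q (φ : F), h⟩ :=
  S36IT_thru_spec 𝔸 (S36SP_horiz Q hdeg Λ hΛ 𝔸.toSubring res y hconst hy) hI hres
    ((S36SP_thru_iff Q hdeg Λ hΛ y).1 hthru) φ

include hdeg hΛ in
/-- **separation**: if some `φ ∈ Λ` has a value at `Q` which is not in `𝔸`, or whose residue is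
not `y φ`, there is `d ∈ Λ` vanishing at `Q` with `y d ≠ 0`. -/
theorem S36SP_sep (res : 𝔸.toSubring →+* k) (y : Λ →+* k)
    (hconst : ∀ c : L, algebraMap L Ω c ∈ 𝔸.toSubring → algebraMap L F c ∈ Λ)
    (hy : ∀ (c : L) (h : algebraMap L Ω c ∈ 𝔸.toSubring) (h' : algebraMap L F c ∈ Λ),
      y ⟨_, h'⟩ = res ⟨_, h⟩)
    (hI : ∀ (σ : Ω ≃ₐ[L] Ω) (a : Ω) (ha : a ∈ 𝔸.toSubring),
      ∃ h : σ a ∈ 𝔸.toSubring, res ⟨σ a, h⟩ = res ⟨a, ha⟩)
    (hres : ∀ b : 𝔸.toSubring, ¬ IsUnit b → res b = 0)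
    (φ : Λ) (hφ : ∀ h : FD_c0 Q (φ : F) ∈ 𝔸.toSubring, y φ ≠ res ⟨FD_c0 Q (φ : F), h⟩) :
    ∃ d : Λ, Q.adicValuation (d : F) < 1 ∧ y d ≠ 0 := by
  obtain ⟨d, hd, hyd⟩ := S36IT_horiz_den 𝔸
    (S36SP_horiz Q hdeg Λ hΛ 𝔸.toSubring res y hconst hy) hI hres φ hφ
  exact ⟨d, (S36SP_ev_eq_zero_iff Q hdeg Λ hΛ d).1 hd, hyd⟩

end Unique

/-! ### (E): nilpotents of the special fibre -/

/-- **(E)** a ring homomorphism to a field which kills `ϖ` kills every `f` with `f ^ m ∈ ϖ Λ`. -/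
theorem S36SP_nilp {Λ k : Type*} [CommRing Λ] [Field k] (y : Λ →+* k) (ϖ : Λ) (hϖ : y ϖ = 0)
    (f g : Λ) (m : ℕ) (h : f ^ m = ϖ * g) : y f = 0 := by
  have h1 := congrArg y h
  rw [map_pow, map_mul, hϖ, zero_mul] at h1
  exact eq_zero_of_pow_eq_zero h1

end Fermat.Agent.S36
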