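import Mathlib
import Fermat.Agent.S36.Spec3SepZ

/-!
# TRACK 10 (S36), C1.7 = EVAL-INST (helper21), part 6: the choice of the constant `c`.
Prefix `S36SE_`.

`S36SE_exists_c_nodes D` : there is a constant `c ∈ O_L` whose residue avoids the values of
`x̄b = j̄` at the first-branch nodes of level `M q` (`hγ` / `hc` of helper12's `S36NU_*`) and
which is admissible for the supersingular points (`S36SE_Cok`: `hX` on `U'`, `U''`).
-/

set_option autoImplicit false
set_option synthInstance.maxHeartbeats 400000
set_option maxHeartbeats 1000000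
set_option linter.style.haveILetI false
set_option linter.unusedSectionVars false
set_option linter.unusedVariables false

open HahnSeries IntermediateField AlgebraicCurve ModularCurve

namespace Fermat.Agent.S36

open Fermat.Agent.S18 Fermat.Agent.S24 Fermat.Agent.S34 Fermat.Agent.Lib

local notation "ℚbar" => AlgebraicClosure ℚ

variable (M q : ℕ) [NeZero M] [NeZero q] [NeZero (M * q)] (hq : q.Prime) (hqM : ¬ q ∣ M)
  (A : ValuationSubring ℚbar) (hA : A.LiesOverPrime q)
  {hgen : PrincipalGeneratedByIntegral A (IsLocalRing.residue A) (M * q)}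
  {n' : ℕ} {hn' : 0 < n'}

/-- a constant avoiding the values of `j̄` at the nodes, their images under any given map
`φ : k → k` (e.g. the `q`-th power), and admissible for the supersingular points. -/
theorem S36SE_exists_c_nodes (D : S36SS_Data M q hq hqM A hgen n' hn')
    (φ : IsLocalRing.ResidueField A → IsLocalRing.ResidueField A) :
    ∃ c : (S36FI_SFF M q hq hqM A hA).A,
      (∀ i, D.e₁ i ⟨S34M_xb M q A, S34SB_self_mem_reg (S34M_xb M q A)⟩ ≠
        (S36FI_SFF M q hq hqM A hA).res c) ∧
      (∀ i, φ (D.e₁ i ⟨S34M_xb M q A, S34SB_self_mem_reg (S34M_xb M q A)⟩) ≠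
        (S36FI_SFF M q hq hqM A hA).res c) ∧
      S36SE_Cok M q hq hqM A hA D c := by
  classical
  obtain ⟨c, hcT, hcX⟩ := S36SE_exists_c M q hq hqM A hA D
    (Finset.univ.image (fun i => D.e₁ i ⟨S34M_xb M q A, S34SB_self_mem_reg (S34M_xb M q A)⟩) ∪
      Finset.univ.image
        (fun i => φ (D.e₁ i ⟨S34M_xb M q A, S34SB_self_mem_reg (S34M_xb M q A)⟩)))
  rw [Finset.mem_union, not_or] at hcT
  refine ⟨c, fun i h => hcT.1 ?_, fun i h => hcT.2 ?_, hcX⟩
  · exact Finset.mem_image.2 ⟨i, Finset.mem_univ i, h⟩
  · exact Finset.mem_image.2 ⟨i, Finset.mem_univ i, h⟩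

end Fermat.Agent.S36
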