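import Fermat.Agent.S36.Triv3Bun

/-!
# TRACK 10 (S36), C3.4 TRIV-CONC part 4 (helper11): the chart `U`, all bundles plugged in

`S36TX_geo_U_fin` : **`S36TI_Geo` on helper23's chart `S36CU_U S k j x₁ x₂ x₃ n hn`** with the
CART bundles of `S36TX_geo_U_ss` replaced by their sources (`S36TX_hord₁/₂/₃`, `S36TX_hss`):

* the conductor `hint₁ hint₂ hint₃` (which ALSO gives (C2) and `hnot` off the triple points, D11);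
* `q` a uniformiser of `FF` and `VV`, `π` a uniformiser of `FV` with `π^(m+1) / q` a unit;
* (R13 ord) at every ordinary point of `FV`, (R13 ss) + the lifts at every triple point.

The three residue fields live in the same universe (concretely `Fk₁ = Fk₂ = Fk₃ = κ`).
-/

set_option autoImplicit false
set_option linter.unusedSectionVars false
set_option linter.style.haveILetI false

open AlgebraicCurve IntermediateField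

namespace Fermat.Agent.S36

open Fermat.Agent.Lib Fermat.Agent.S18 Fermat.Agent.S24 Fermat.Agent.S34

universe w

variable {K F H : Type*} [Field K] [Field F] [Algebra K F] (S : S36FL_Act K F H)
  {k : Type*} {Fk₁ Fk₂ Fk₃ : Type w} [Field k]
  [Field Fk₁] [Field Fk₂] [Field Fk₃] [Algebra k Fk₁] [Algebra k Fk₂] [Algebra k Fk₃]
  {S₁ : S18_Val ↥S.fixK ↥S.fixF k Fk₁} {S₂ : S18_Val ↥S.fixK ↥S.fixF k Fk₂}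
  {S₃ : S18_Val ↥S.fixK ↥S.fixF k Fk₃}

/-- **the geometric inputs of the chart `U = {j ≠ ∞}`**, with the CART bundles plugged in. -/
theorem S36TX_geo_U_fin (hS : S36L3_Same S₁ S₂ S₃) [IsAlgClosed k]
    (j : ↥S.fixF) (x₁ : Fk₁) (x₂ : Fk₂) (x₃ : Fk₃) (n : ℕ) (hn : 0 < n)
    {ι : Type*} [Finite ι] {X : S36SE_Pts k Fk₁ Fk₂ Fk₃ ι}
    {hC : S36SE_Reg (S36CU_U S k j x₁ x₂ x₃ n hn) X}
    {Kp : Subgroup (↥S.fixF)ˣ} (hKp : Kp ≤ S36L3_NormGrp S₁ S₂ S₃)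
    -- RBAR
    (h₁ : RR_Hyp k Fk₁) (h₂ : RR_Hyp k Fk₂) (h₃ : RR_Hyp k Fk₃)
    (c₁ : Place k Fk₁) (c₂ : Place k Fk₂) (c₃ : Place k Fk₃)
    (hc₁ : c₁.ord x₁ < 0) (hc₂ : c₂.ord x₂ < 0) (hc₃ : c₃.ord x₃ < 0)
    (hx₁ : Transcendental k x₁) (hx₂ : Transcendental k x₂) (hx₃ : Transcendental k x₃)
    [FiniteDimensional k⟮x₁⟯ Fk₁] [Algebra.IsSeparable k⟮x₁⟯ Fk₁]
    [FiniteDimensional k⟮x₂⟯ Fk₂] [Algebra.IsSeparable k⟮x₂⟯ Fk₂]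
    [FiniteDimensional k⟮x₃⟯ Fk₃] [Algebra.IsSeparable k⟮x₃⟯ Fk₃]
    -- NODAL3-INST + EVAL-INST
    (hW1 : ∀ m ∈ S36L3_W hS (S36CU_U S k j x₁ x₂ x₃ n hn) 1, ∀ y,
      S36SE_e₁ (S36CU_U S k j x₁ x₂ x₃ n hn) X hC y m.1 =
        S36SE_e₂ (S36CU_U S k j x₁ x₂ x₃ n hn) X hC y m.2.1 ∧
      S36SE_e₁ (S36CU_U S k j x₁ x₂ x₃ n hn) X hC y m.1 =
        S36SE_e₃ (S36CU_U S k j x₁ x₂ x₃ n hn) X hC y m.2.2)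
    (hint₁ : ∀ g g' : ↥(S36CU_U S k j x₁ x₂ x₃ n hn).Rb₁,
      (∀ y, S36SE_e₁ (S36CU_U S k j x₁ x₂ x₃ n hn) X hC y g = 0) →
      (∀ y, S36SE_e₁ (S36CU_U S k j x₁ x₂ x₃ n hn) X hC y g' = 0) →
      ((g * g', 0, 0) : ↥(S36CU_U S k j x₁ x₂ x₃ n hn).Rb₁ ×
        ↥(S36CU_U S k j x₁ x₂ x₃ n hn).Rb₂ × ↥(S36CU_U S k j x₁ x₂ x₃ n hn).Rb₃) ∈
        S36L3_W hS (S36CU_U S k j x₁ x₂ x₃ n hn) 1)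
    (hint₂ : ∀ g g' : ↥(S36CU_U S k j x₁ x₂ x₃ n hn).Rb₂,
      (∀ y, S36SE_e₂ (S36CU_U S k j x₁ x₂ x₃ n hn) X hC y g = 0) →
      (∀ y, S36SE_e₂ (S36CU_U S k j x₁ x₂ x₃ n hn) X hC y g' = 0) →
      ((0, g * g', 0) : ↥(S36CU_U S k j x₁ x₂ x₃ n hn).Rb₁ ×
        ↥(S36CU_U S k j x₁ x₂ x₃ n hn).Rb₂ × ↥(S36CU_U S k j x₁ x₂ x₃ n hn).Rb₃) ∈
        S36L3_W hS (S36CU_U S k j x₁ x₂ x₃ n hn) 1)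
    (hint₃ : ∀ g g' : ↥(S36CU_U S k j x₁ x₂ x₃ n hn).Rb₃,
      (∀ y, S36SE_e₃ (S36CU_U S k j x₁ x₂ x₃ n hn) X hC y g = 0) →
      (∀ y, S36SE_e₃ (S36CU_U S k j x₁ x₂ x₃ n hn) X hC y g' = 0) →
      ((0, 0, g * g') : ↥(S36CU_U S k j x₁ x₂ x₃ n hn).Rb₁ ×
        ↥(S36CU_U S k j x₁ x₂ x₃ n hn).Rb₂ × ↥(S36CU_U S k j x₁ x₂ x₃ n hn).Rb₃) ∈
        S36L3_W hS (S36CU_U S k j x₁ x₂ x₃ n hn) 1)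
    (hsep : ∀ y, ∃ w ∈ S36L3_W hS (S36CU_U S k j x₁ x₂ x₃ n hn) 1,
      S36SE_e₁ (S36CU_U S k j x₁ x₂ x₃ n hn) X hC y w.1 = 1 ∧
      ∀ y', y' ≠ y → S36SE_e₁ (S36CU_U S k j x₁ x₂ x₃ n hn) X hC y' w.1 = 0)
    -- INT / FIN / LI-INST
    {Ω F' : Type*} [Field Ω] [Field F'] [Algebra Ω F'] {ιv : Type*}
    (D : S36IT_Fam Ω F' ↥S.fixF ιv) [Finite ιv] [IsNoetherianRing D.Λ]
    (hle : D.Λ ≤ S36LJ_Lam S₁ S₂ S₃ (S36CU_U S k j x₁ x₂ x₃ n hn).B.toSubring)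
    (hge : S36LJ_Lam S₁ S₂ S₃ (S36CU_U S k j x₁ x₂ x₃ n hn).B.toSubring ≤ D.Λ)
    (R : S36LJ_Red (S₁ := S₁) (S₂ := S₂) (S₃ := S₃) (S36CU_U S k j x₁ x₂ x₃ n hn))
    {jFF jFV jVV : ιv}
    (hFF : D.Ov jFF = S₁.O) (hFV : D.Ov jFV = S₂.O) (hVV : D.Ov jVV = S₃.O)
    (h12 : jFF ≠ jFV) (h13 : jFF ≠ jVV) (h23 : jFV ≠ jVV)
    (hall : ∀ i : ιv, i = jFF ∨ i = jFV ∨ i = jVV)
    (hfrac : ∀ x : ↥S.fixF, ∃ b : D.Λ, (b : ↥S.fixF) ≠ 0 ∧ (b : ↥S.fixF) * x ∈ D.Λ)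
    (hsepH : ∀ u ∈ Kp, ∀ Q ∈ D.U, ∃ g : ↥S.fixF, g ≠ 0 ∧
      (n : ℤ) * Q.ord (D.φ g) + Q.ord (D.φ ((u : (↥S.fixF)ˣ) : ↥S.fixF)) = 0 ∧
      ∀ Q' ∈ D.U, 0 ≤ (n : ℤ) * Q'.ord (D.φ g) + Q'.ord (D.φ ((u : (↥S.fixF)ˣ) : ↥S.fixF)))
    (hsepH0 : ∀ u ∈ Kp, ∃ g : ↥S.fixF, g ≠ 0 ∧
      ∀ Q' ∈ D.U, 0 ≤ (n : ℤ) * Q'.ord (D.φ g) + Q'.ord (D.φ ((u : (↥S.fixF)ˣ) : ↥S.fixF)))
    -- uniformisers (BASE-L / VAL3-DV)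
    (q : D.Λ) (c : Ω) (hc : c ≠ 0) (hqc : D.φ (q : ↥S.fixF) = algebraMap Ω F' c)
    (hqFF : S36CA_IsUnif (D.Ov jFF) (q : ↥S.fixF))
    (hqVV : S36CA_IsUnif (D.Ov jVV) (q : ↥S.fixF))
    (m : ℕ) (π : ↥S.fixF) (hπ : S36CA_IsUnif (D.Ov jFV) π)
    (hπq : S36LW_IsU (D.Ov jFV) (π ^ (m + 1) / q))
    -- (R13 ord) at the ordinary points of `FV`
    (hR13 : ∀ (P : Place k Fk₂)
      (hP : ∀ f ∈ (S36CU_U S k j x₁ x₂ x₃ n hn).Rb₂, P.adicValuation f ≤ 1),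
      (∀ y, P ≠ X.P₂ y) → ∃ ϖ g d : D.Λ,
        (d : ↥S.fixF) = g * (ϖ : ↥S.fixF) ^ (m + 1) / q ∧
        S36LK_y₂ D hle R ((S36SE_ev (S36CU_U S k j x₁ x₂ x₃ n hn).Rb₂ P (h₂.deg_one P) hP :
          ↥(S36CU_U S k j x₁ x₂ x₃ n hn).Rb₂ →ₐ[k] k) :
          ↥(S36CU_U S k j x₁ x₂ x₃ n hn).Rb₂ →+* k) d ≠ 0 ∧
        (ϖ : ↥S.fixF) ^ (m + 1) / q ∈ D.Ov jFV)
    -- the triple points: lifts on `VV` and (R13 ss)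
    (hliftss : ∀ (y : ι) (a₁ a₂ : Fk₃),
      (∀ Q : Place k Fk₃, Q ∉ {Q : Place k Fk₃ | ¬ Q.adicValuation x₃ ≤ 1} → 0 ≤ Q.ord a₁) →
      (∀ Q : Place k Fk₃, Q ∉ {Q : Place k Fk₃ | ¬ Q.adicValuation x₃ ≤ 1} → 0 ≤ Q.ord a₂) →
      ∃ (ε : Fk₃) (f₁ f₂ : D.Λ), ε ≠ 0 ∧ (X.P₃ y).ord ε = 0 ∧
        S36CA_compRed S₃ D (S36CW_mem₃ D hle) f₁ = a₁ * ε ∧
        S36CA_compRed S₃ D (S36CW_mem₃ D hle) f₂ = a₂ * ε)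
    (hR13ss : ∀ y : ι, ∃ ϖ t₁ t₂ ε : D.Λ,
      (ε : ↥S.fixF) = t₁ * t₂ * (ϖ : ↥S.fixF) ^ (m + 1) / q ∧
      S36LK_y₁ D hle R ((S36SE_e₁ (S36CU_U S k j x₁ x₂ x₃ n hn) X hC y :
        ↥(S36CU_U S k j x₁ x₂ x₃ n hn).Rb₁ →ₐ[k] k) :
        ↥(S36CU_U S k j x₁ x₂ x₃ n hn).Rb₁ →+* k) ε ≠ 0 ∧
      (t₁ : ↥S.fixF) / q ∈ D.Ov jFF ∧ (t₂ : ↥S.fixF) / q ∈ D.Ov jVV ∧
      (ϖ : ↥S.fixF) ^ (m + 1) / q ∈ D.Ov jFV) :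
    S36TI_Geo hS (S36CU_U S k j x₁ x₂ x₃ n hn) X hC Kp := by
  have hR₁ : ∀ y : Fk₁, y ∈ (S36CU_U S k j x₁ x₂ x₃ n hn).Rb₁ ↔
      ∀ Q : Place k Fk₁, Q.adicValuation x₁ ≤ 1 → Q.adicValuation y ≤ 1 :=
    fun y => S36CU_mem_reg_adic
  have hR₂ : ∀ y : Fk₂, y ∈ (S36CU_U S k j x₁ x₂ x₃ n hn).Rb₂ ↔
      ∀ Q : Place k Fk₂, Q.adicValuation x₂ ≤ 1 → Q.adicValuation y ≤ 1 :=
    fun y => S36CU_mem_reg_adic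
  have hR₃ : ∀ y : Fk₃, y ∈ (S36CU_U S k j x₁ x₂ x₃ n hn).Rb₃ ↔
      ∀ Q : Place k Fk₃, Q.adicValuation x₃ ≤ 1 → Q.adicValuation y ≤ 1 :=
    fun y => S36CU_mem_reg_adic
  have hOv : ∀ i : ιv, D.Ov i = S₁.O ∨ D.Ov i = S₂.O ∨ D.Ov i = S₃.O := by
    intro i
    rcases hall i with rfl | rfl | rfl
    · exact Or.inl hFF
    · exact Or.inr (Or.inl hFV)
    · exact Or.inr (Or.inr hVV)
  exact S36TX_geo_U_ss.{w} S hS j x₁ x₂ x₃ n hn hKp h₁ h₂ h₃ c₁ c₂ c₃ hc₁ hc₂ hc₃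
    hx₁ hx₂ hx₃ hW1 hint₁ hint₂ hint₃ hsep D hle R hOv hfrac hsepH hsepH0
    (fun y => S36TX_hss hS D h₁ h₂ h₃ hle R hFF hFV hVV h12 h13 h23 hall hW1 x₃ c₃ hc₃ hR₃
      q c hc hqc hqFF hqVV m π hπ hπq y (hliftss y) (hR13ss y))
    (fun P hP hne => S36TX_hord₁ hS D h₁ hle hge R hFF hFV hVV hall x₁ c₁ hc₁ hR₁ hint₁
      q c hc hqc hqFF P hP hne)
    (fun P hP hne => S36TX_hord₂ hS D h₂ hle hge R hFF hFV hVV hall x₂ c₂ hc₂ hR₂ hint₂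
      q c hc hqc m π hπ hπq P hP hne (hR13 P hP hne))
    (fun P hP hne => S36TX_hord₃ hS D h₃ hle hge R hFF hFV hVV hall x₃ c₃ hc₃ hR₃ hint₃
      q c hc hqc hqVV P hP hne)

end Fermat.Agent.S36
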