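import Fermat.Agent.S36.Triv3Bun

/-!
# TRACK 10 (S36), C3.4 TRIV-CONC part 5 (helper11): the geometric inputs of an ARBITRARY chart

helper19's audit (FINDING 1): for the charts of ruling D9 (`x = B = j(t^q)`) the reductions of the
chart coordinate are `x_j = j̄^q`, and `κ / k(j̄^q)` is NOT separable.  The coordinate used for
the Nullstellensatz (`S36TP_max_place`) must therefore be different from the coordinate of the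
chart.  In this file the chart `C` is ARBITRARY and the coordinates `w_j` are FREE: they are tied
to the chart only by `hR_j : Rb_j = {f regular where w_j is regular}`.

* `S36TX_val_pow`  : `v_Q (w ^ q) ≤ 1 ↔ v_Q w ≤ 1` (`q ≠ 0`);
* `S36TX_hR_pow`   : `hR` for the coordinate `w` from `hR` for the coordinate `w ^ q`;
* `S36TX_geo_fin`  : **`S36TI_Geo` on `C`** from the conductor `hint_j`, the uniformisers,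
  (R13 ord) at the points of `FV` off the triple points, (R13 ss) + the lifts at the triple
  points.  For the chart `U`: `w_j = j̄`; for the chart `U'`: `w_j = (j̄ − c₀')⁻¹`, and then
  the "points of `FV` off the triple points" include the cusps.
-/

set_option autoImplicit false
set_option linter.unusedSectionVars false
set_option linter.style.haveILetI false

open AlgebraicCurve IntermediateField

namespace Fermat.Agent.S36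

open Fermat.Agent.Lib Fermat.Agent.S18 Fermat.Agent.S24 Fermat.Agent.S34

universe w

section pow

variable {k κ : Type*} [Field k] [Field κ] [Algebra k κ]

/-- `w ^ q` is regular at `Q` iff `w` is. -/
theorem S36TX_val_pow (Q : Place k κ) (w : κ) {q : ℕ} (hq : q ≠ 0) :
    Q.adicValuation (w ^ q) ≤ 1 ↔ Q.adicValuation w ≤ 1 := by
  rw [map_pow]
  exact pow_le_one_iff hq

/-- the coordinate ring of the chart `w ^ q ≠ ∞` is the coordinate ring of the chart `w ≠ ∞`. -/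
theorem S36TX_hR_pow (Rb : Subalgebra k κ) (w : κ) {q : ℕ} (hq : q ≠ 0)
    (hR : ∀ y : κ, y ∈ Rb ↔
      ∀ Q : Place k κ, Q.adicValuation (w ^ q) ≤ 1 → Q.adicValuation y ≤ 1) (y : κ) :
    y ∈ Rb ↔ ∀ Q : Place k κ, Q.adicValuation w ≤ 1 → Q.adicValuation y ≤ 1 := by
  rw [hR y]
  exact forall_congr' fun Q => by rw [S36TX_val_pow Q w hq]

end pow

variable {L K k : Type*} {Fk₁ Fk₂ Fk₃ : Type w} [Field L] [Field K] [Algebra L K] [Field k]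
  [Field Fk₁] [Field Fk₂] [Field Fk₃] [Algebra k Fk₁] [Algebra k Fk₂] [Algebra k Fk₃]
  {S₁ : S18_Val L K k Fk₁} {S₂ : S18_Val L K k Fk₂} {S₃ : S18_Val L K k Fk₃}
  (hS : S36L3_Same S₁ S₂ S₃) {n : ℕ} {C : S36L3_Chart L K k Fk₁ Fk₂ Fk₃ n}

/-- **the geometric inputs of a chart `C`** with coordinates `w₁ w₂ w₃`, all CART bundles
plugged in. -/
theorem S36TX_geo_fin [IsAlgClosed k]
    {ι : Type*} [Finite ι] {X : S36SE_Pts k Fk₁ Fk₂ Fk₃ ι} {hC : S36SE_Reg C X}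
    {Kp : Subgroup Kˣ} (hKp : Kp ≤ S36L3_NormGrp S₁ S₂ S₃)
    -- RBAR, for the separable coordinates `w_j`
    (h₁ : RR_Hyp k Fk₁) (h₂ : RR_Hyp k Fk₂) (h₃ : RR_Hyp k Fk₃)
    (w₁ : Fk₁) (w₂ : Fk₂) (w₃ : Fk₃)
    (c₁ : Place k Fk₁) (c₂ : Place k Fk₂) (c₃ : Place k Fk₃)
    (hc₁ : c₁.ord w₁ < 0) (hc₂ : c₂.ord w₂ < 0) (hc₃ : c₃.ord w₃ < 0)
    (hw₁ : Transcendental k w₁) (hw₂ : Transcendental k w₂) (hw₃ : Transcendental k w₃)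
    [FiniteDimensional k⟮w₁⟯ Fk₁] [Algebra.IsSeparable k⟮w₁⟯ Fk₁]
    [FiniteDimensional k⟮w₂⟯ Fk₂] [Algebra.IsSeparable k⟮w₂⟯ Fk₂]
    [FiniteDimensional k⟮w₃⟯ Fk₃] [Algebra.IsSeparable k⟮w₃⟯ Fk₃]
    -- the chart is the chart `w_j ≠ ∞`
    (hR₁ : ∀ y : Fk₁, y ∈ C.Rb₁ ↔
      ∀ Q : Place k Fk₁, Q.adicValuation w₁ ≤ 1 → Q.adicValuation y ≤ 1)
    (hR₂ : ∀ y : Fk₂, y ∈ C.Rb₂ ↔
      ∀ Q : Place k Fk₂, Q.adicValuation w₂ ≤ 1 → Q.adicValuation y ≤ 1)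
    (hR₃ : ∀ y : Fk₃, y ∈ C.Rb₃ ↔
      ∀ Q : Place k Fk₃, Q.adicValuation w₃ ≤ 1 → Q.adicValuation y ≤ 1)
    -- NODAL3-INST + EVAL-INST
    (hW1 : ∀ m ∈ S36L3_W hS C 1, ∀ y, S36SE_e₁ C X hC y m.1 = S36SE_e₂ C X hC y m.2.1 ∧
      S36SE_e₁ C X hC y m.1 = S36SE_e₃ C X hC y m.2.2)
    (hint₁ : ∀ g g' : ↥C.Rb₁, (∀ y, S36SE_e₁ C X hC y g = 0) →
      (∀ y, S36SE_e₁ C X hC y g' = 0) →
      ((g * g', 0, 0) : ↥C.Rb₁ × ↥C.Rb₂ × ↥C.Rb₃) ∈ S36L3_W hS C 1)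
    (hint₂ : ∀ g g' : ↥C.Rb₂, (∀ y, S36SE_e₂ C X hC y g = 0) →
      (∀ y, S36SE_e₂ C X hC y g' = 0) →
      ((0, g * g', 0) : ↥C.Rb₁ × ↥C.Rb₂ × ↥C.Rb₃) ∈ S36L3_W hS C 1)
    (hint₃ : ∀ g g' : ↥C.Rb₃, (∀ y, S36SE_e₃ C X hC y g = 0) →
      (∀ y, S36SE_e₃ C X hC y g' = 0) →
      ((0, 0, g * g') : ↥C.Rb₁ × ↥C.Rb₂ × ↥C.Rb₃) ∈ S36L3_W hS C 1)
    (hsep : ∀ y, ∃ m ∈ S36L3_W hS C 1, S36SE_e₁ C X hC y m.1 = 1 ∧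
      ∀ y', y' ≠ y → S36SE_e₁ C X hC y' m.1 = 0)
    -- INT / FIN / LI-INST
    {Ω F : Type*} [Field Ω] [Field F] [Algebra Ω F] {ιv : Type*}
    (D : S36IT_Fam Ω F K ιv) [Finite ιv] [IsNoetherianRing D.Λ]
    (hle : D.Λ ≤ S36LJ_Lam S₁ S₂ S₃ C.B.toSubring)
    (hge : S36LJ_Lam S₁ S₂ S₃ C.B.toSubring ≤ D.Λ)
    (R : S36LJ_Red (S₁ := S₁) (S₂ := S₂) (S₃ := S₃) C)
    {jFF jFV jVV : ιv}
    (hFF : D.Ov jFF = S₁.O) (hFV : D.Ov jFV = S₂.O) (hVV : D.Ov jVV = S₃.O)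
    (h12 : jFF ≠ jFV) (h13 : jFF ≠ jVV) (h23 : jFV ≠ jVV)
    (hall : ∀ i : ιv, i = jFF ∨ i = jFV ∨ i = jVV)
    (hfrac : ∀ x : K, ∃ b : D.Λ, (b : K) ≠ 0 ∧ (b : K) * x ∈ D.Λ)
    (hsepH : ∀ u ∈ Kp, ∀ Q ∈ D.U, ∃ g : K, g ≠ 0 ∧
      (n : ℤ) * Q.ord (D.φ g) + Q.ord (D.φ ((u : Kˣ) : K)) = 0 ∧
      ∀ Q' ∈ D.U, 0 ≤ (n : ℤ) * Q'.ord (D.φ g) + Q'.ord (D.φ ((u : Kˣ) : K)))
    (hsepH0 : ∀ u ∈ Kp, ∃ g : K, g ≠ 0 ∧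
      ∀ Q' ∈ D.U, 0 ≤ (n : ℤ) * Q'.ord (D.φ g) + Q'.ord (D.φ ((u : Kˣ) : K)))
    -- uniformisers (BASE-L / VAL3-DV)
    (q : D.Λ) (c : Ω) (hc : c ≠ 0) (hqc : D.φ (q : K) = algebraMap Ω F c)
    (hqFF : S36CA_IsUnif (D.Ov jFF) (q : K)) (hqVV : S36CA_IsUnif (D.Ov jVV) (q : K))
    (m : ℕ) (π : K) (hπ : S36CA_IsUnif (D.Ov jFV) π)
    (hπq : S36LW_IsU (D.Ov jFV) (π ^ (m + 1) / q))
    -- (R13 ord) at the points of `FV` off the triple points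
    (hR13 : ∀ (P : Place k Fk₂) (hP : ∀ f ∈ C.Rb₂, P.adicValuation f ≤ 1),
      (∀ y, P ≠ X.P₂ y) → ∃ ϖ g d : D.Λ, (d : K) = g * (ϖ : K) ^ (m + 1) / q ∧
        S36LK_y₂ D hle R ((S36SE_ev C.Rb₂ P (h₂.deg_one P) hP : ↥C.Rb₂ →ₐ[k] k) :
          ↥C.Rb₂ →+* k) d ≠ 0 ∧ (ϖ : K) ^ (m + 1) / q ∈ D.Ov jFV)
    -- the triple points: lifts on `VV` and (R13 ss)
    (hliftss : ∀ (y : ι) (a₁ a₂ : Fk₃),
      (∀ Q : Place k Fk₃, Q ∉ {Q : Place k Fk₃ | ¬ Q.adicValuation w₃ ≤ 1} → 0 ≤ Q.ord a₁) →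
      (∀ Q : Place k Fk₃, Q ∉ {Q : Place k Fk₃ | ¬ Q.adicValuation w₃ ≤ 1} → 0 ≤ Q.ord a₂) →
      ∃ (ε : Fk₃) (f₁ f₂ : D.Λ), ε ≠ 0 ∧ (X.P₃ y).ord ε = 0 ∧
        S36CA_compRed S₃ D (S36CW_mem₃ D hle) f₁ = a₁ * ε ∧
        S36CA_compRed S₃ D (S36CW_mem₃ D hle) f₂ = a₂ * ε)
    (hR13ss : ∀ y : ι, ∃ ϖ t₁ t₂ ε : D.Λ,
      (ε : K) = t₁ * t₂ * (ϖ : K) ^ (m + 1) / q ∧
      S36LK_y₁ D hle R ((S36SE_e₁ C X hC y : ↥C.Rb₁ →ₐ[k] k) : ↥C.Rb₁ →+* k) ε ≠ 0 ∧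
      (t₁ : K) / q ∈ D.Ov jFF ∧ (t₂ : K) / q ∈ D.Ov jVV ∧
      (ϖ : K) ^ (m + 1) / q ∈ D.Ov jFV) :
    S36TI_Geo hS C X hC Kp := by
  have hOv : ∀ i : ιv, D.Ov i = S₁.O ∨ D.Ov i = S₂.O ∨ D.Ov i = S₃.O := by
    intro i
    rcases hall i with rfl | rfl | rfl
    · exact Or.inl hFF
    · exact Or.inr (Or.inl hFV)
    · exact Or.inr (Or.inr hVV)
  have hss : ∀ y : ι, S36TX_Bun.{w} D
      (S36LK_y₁ D hle R ((S36SE_e₁ C X hC y : ↥C.Rb₁ →ₐ[k] k) : ↥C.Rb₁ →+* k)) := fun y =>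
    S36TX_hss hS D h₁ h₂ h₃ hle R hFF hFV hVV h12 h13 h23 hall hW1 w₃ c₃ hc₃ hR₃
      q c hc hqc hqFF hqVV m π hπ hπq y (hliftss y) (hR13ss y)
  exact S36TI_Geo.ofPlaces hS hKp h₁ h₂ h₃ w₁ w₂ w₃ c₁ c₂ c₃ hc₁ hc₂ hc₃ hR₁ hR₂ hR₃
    hw₁ hw₂ hw₃ hW1 hint₁ hint₂ hint₃ hsep
    (S36TI_pl₁ hS D hle R hOv hfrac w₁ h₁.deg_one hR₁
      (S36TX_hB₁ D hle R h₁.deg_one hss fun P hP hne =>
        S36TX_hord₁ hS D h₁ hle hge R hFF hFV hVV hall w₁ c₁ hc₁ hR₁ hint₁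
          q c hc hqc hqFF P hP hne) hKp hsepH hsepH0)
    (S36TI_pl₂ hS D hle R hOv hfrac w₂ h₂.deg_one hR₂
      (S36TX_hB₂ hS D hle R h₂.deg_one hW1 hss fun P hP hne =>
        S36TX_hord₂ hS D h₂ hle hge R hFF hFV hVV hall w₂ c₂ hc₂ hR₂ hint₂
          q c hc hqc m π hπ hπq P hP hne (hR13 P hP hne)) hKp hsepH hsepH0)
    (S36TI_pl₃ hS D hle R hOv hfrac w₃ h₃.deg_one hR₃
      (S36TX_hB₃ hS D hle R h₃.deg_one hW1 hss fun P hP hne =>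
        S36TX_hord₃ hS D h₃ hle hge R hFF hFV hVV hall w₃ c₃ hc₃ hR₃ hint₃
          q c hc hqc hqVV P hP hne) hKp hsepH hsepH0)

end Fermat.Agent.S36
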