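import Fermat.Agent.S36.LiWire
import Fermat.Agent.S36.Spec3Ev
import Fermat.Agent.S36.Cart3Comp

/-!
# TRACK 10 (S36), C3.4 TRIV-CONC part 7 (helper11): the bridges `S36LK_y_j ↔ FD_c0`

The closed point `S36LK_y_j D hle R e : D.Λ →+* k` attached to the evaluation `e` at a place
`P` of the `j`-th component is `f ↦ FD_c0 P (S_j.red f)` — all by `rfl`.  These are the bridges
between the shapes of `hR13`, `hR13ss` in `S36TX_geo_fin` / `S36TY_geo_U` (`S36LK_y₂ … d ≠ 0`,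
`S36LK_y₁ … ε ≠ 0`) and the shapes of helper24's `S36OU_ord`, `S36OU_ss`
(`FD_c0 P (S₂.red ⟨d, _⟩) ≠ 0`, `FD_c0 P₁ (S₁.red ⟨ε, _⟩) ≠ 0`).
-/

set_option autoImplicit false
set_option linter.unusedSectionVars false

open AlgebraicCurve

namespace Fermat.Agent.S36

open Fermat.Agent.Lib Fermat.Agent.S18 Fermat.Agent.S24 Fermat.Agent.S34

variable {L K k Fk₁ Fk₂ Fk₃ : Type*} [Field L] [Field K] [Algebra L K] [Field k]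
  [Field Fk₁] [Field Fk₂] [Field Fk₃] [Algebra k Fk₁] [Algebra k Fk₂] [Algebra k Fk₃]
  {S₁ : S18_Val L K k Fk₁} {S₂ : S18_Val L K k Fk₂} {S₃ : S18_Val L K k Fk₃}
  {n : ℕ} {C : S36L3_Chart L K k Fk₁ Fk₂ Fk₃ n}
  {Ω F : Type*} [Field Ω] [Field F] [Algebra Ω F] {ιv : Type*} (D : S36IT_Fam Ω F K ιv)
  (hle : D.Λ ≤ S36LJ_Lam S₁ S₂ S₃ C.B.toSubring)
  (R : S36LJ_Red (S₁ := S₁) (S₂ := S₂) (S₃ := S₃) C)

/-- the closed point of `Λ` at a place `P` of `FF` is `f ↦ (red_FF f)(P)`. -/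
theorem S36TY_y₁_ev (P : Place k Fk₁) (hdeg : P.deg = 1)
    (hP : ∀ f ∈ C.Rb₁, P.adicValuation f ≤ 1) (f : D.Λ) (hf : (f : K) ∈ S₁.O) :
    S36LK_y₁ D hle R ((S36SE_ev C.Rb₁ P hdeg hP : ↥C.Rb₁ →ₐ[k] k) : ↥C.Rb₁ →+* k) f =
      FD_c0 P (S₁.red ⟨(f : K), hf⟩ : Fk₁) := rfl

/-- the closed point of `Λ` at a place `P` of `FV` is `f ↦ (red_FV f)(P)`. -/
theorem S36TY_y₂_ev (P : Place k Fk₂) (hdeg : P.deg = 1)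
    (hP : ∀ f ∈ C.Rb₂, P.adicValuation f ≤ 1) (f : D.Λ) (hf : (f : K) ∈ S₂.O) :
    S36LK_y₂ D hle R ((S36SE_ev C.Rb₂ P hdeg hP : ↥C.Rb₂ →ₐ[k] k) : ↥C.Rb₂ →+* k) f =
      FD_c0 P (S₂.red ⟨(f : K), hf⟩ : Fk₂) := rfl

/-- the closed point of `Λ` at a place `P` of `VV` is `f ↦ (red_VV f)(P)`. -/
theorem S36TY_y₃_ev (P : Place k Fk₃) (hdeg : P.deg = 1)
    (hP : ∀ f ∈ C.Rb₃, P.adicValuation f ≤ 1) (f : D.Λ) (hf : (f : K) ∈ S₃.O) :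
    S36LK_y₃ D hle R ((S36SE_ev C.Rb₃ P hdeg hP : ↥C.Rb₃ →ₐ[k] k) : ↥C.Rb₃ →+* k) f =
      FD_c0 P (S₃.red ⟨(f : K), hf⟩ : Fk₃) := rfl

variable {ι : Type*} (X : S36SE_Pts k Fk₁ Fk₂ Fk₃ ι) (hC : S36SE_Reg C X)

/-- the closed point of `Λ` at the triple point `y`, on `FF`. -/
theorem S36TY_y₁_e (y : ι) (f : D.Λ) (hf : (f : K) ∈ S₁.O) :
    S36LK_y₁ D hle R ((S36SE_e₁ C X hC y : ↥C.Rb₁ →ₐ[k] k) : ↥C.Rb₁ →+* k) f =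
      FD_c0 (X.P₁ y) (S₁.red ⟨(f : K), hf⟩ : Fk₁) := rfl

/-- the closed point of `Λ` at the triple point `y`, on `FV`. -/
theorem S36TY_y₂_e (y : ι) (f : D.Λ) (hf : (f : K) ∈ S₂.O) :
    S36LK_y₂ D hle R ((S36SE_e₂ C X hC y : ↥C.Rb₂ →ₐ[k] k) : ↥C.Rb₂ →+* k) f =
      FD_c0 (X.P₂ y) (S₂.red ⟨(f : K), hf⟩ : Fk₂) := rfl

/-- the closed point of `Λ` at the triple point `y`, on `VV`. -/
theorem S36TY_y₃_e (y : ι) (f : D.Λ) (hf : (f : K) ∈ S₃.O) :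
    S36LK_y₃ D hle R ((S36SE_e₃ C X hC y : ↥C.Rb₃ →ₐ[k] k) : ↥C.Rb₃ →+* k) f =
      FD_c0 (X.P₃ y) (S₃.red ⟨(f : K), hf⟩ : Fk₃) := rfl

/-- `S36CA_compRed` is the reduction. -/
theorem S36TY_compRed₂ (f : D.Λ) (hO : ∀ f : D.Λ, (f : K) ∈ S₂.O) :
    S36CA_compRed S₂ D hO f = S₂.red ⟨(f : K), hO f⟩ := rfl

end Fermat.Agent.S36
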