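import Fermat.Agent.S36.Triv3UZ
import Fermat.Agent.S36.CuspLiUnrFin
import Fermat.Agent.S36.Nodal3UHint

/-!
# TRACK 10 (S36), §4 ASSEMBLY, part 2 (helper19): **HOLE G' of WireConc** — `G'` on the chart
`U' = {B ≠ c}` at the supersingular points.  Prefix `S36TZ_`.

`S36TZ_geo'` (Triv3UZ) with

* `hint₁₂₃` on `C'` := `S36NU_hint` (helper12; needs `hc`: `c̄` is not the `j`-invariant of a
  node),
* `hcusp₁`, `hcusp₃` := `S36CLI_hcusp₁_fin`, `S36CLI_hcusp₃_fin` (helper8),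

plugged in:

* `S36TZ_G'_of`     : `G'` from `hX`, `hW1` on `U''`, `hc`, `G` on `U` and `hcusp₂`;
* `S36TZ_holeG'_of` : **`S36WX_HoleG'`** (helper2, `S36/WireConcHoles.lean`), in unfolded form
  (`T` = the `j`-invariants of the nodes), from a provider of `hcusp₂` (helper27).
-/

set_option autoImplicit false
set_option synthInstance.maxHeartbeats 400000
set_option maxHeartbeats 1000000
set_option linter.unusedSectionVars false
set_option linter.unusedVariables false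
set_option linter.style.haveILetI false

open AlgebraicCurve ModularCurve HahnSeries IntermediateField

noncomputable section

namespace Fermat.Agent.S36

open Fermat.Agent.Lib Fermat.Agent.S18 Fermat.Agent.S24 Fermat.Agent.S34 Fermat.Agent.GalRep

local notation "Ω" => AlgebraicClosure ℚ

variable (M q : ℕ) [NeZero M] [NeZero q] [NeZero (M * q)] (hq : q.Prime) (hqM : ¬ q ∣ M)
  (A : ValuationSubring Ω) (hA : A.LiesOverPrime q)
  (ζ : Ωˣ) (hζ : ζ ^ q = 1) (hζ1 : ζ ≠ 1)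
  {hgen : PrincipalGeneratedByIntegral A (IsLocalRing.residue A) (M * q)}
  {n' : ℕ} {hn' : 0 < n'} (n : ℕ) (hn : 0 < n)

/-- the statement `hcusp₂` of `S36CX_geo_U'2` on the concrete chart `S36CZ_C' c`, for
`Kp = S36LC_Kp`. -/
def S36TZ_Hcusp₂ (c : (S36FI_SFF M q hq hqM A hA).A) : Prop :=
  ∀ u ∈ S36LC_Kp (S36FI_act (M * q * q) (A.inertiaSubgroupIn ℚ)) n
      (S36FI_SFF M q hq hqM A hA) (S36FI_SFV M q hq hqM A hA ζ hζ hζ1)
      (S36FI_SVV M q hq hqM A hA),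
    ∀ P : Place (IsLocalRing.ResidueField A) ↥(S36FI_kappa M A),
    ¬ P.adicValuation (S36CZ_xb M q hq hqM A hA) ≤ 1 →
    P.adicValuation (S36CZ_zb M q hq hqM A hA c)⁻¹ ≤ 1 →
    ∃ m ∈ S36L3_W (S36FI_same3 M q hq hqM A hA ζ hζ hζ1) (S36CZ_C' M q hq hqM A hA c n hn)
        ((u : (↥(S36FI_act (M * q * q) (A.inertiaSubgroupIn ℚ)).fixF)ˣ) :
          ↥(S36FI_act (M * q * q) (A.inertiaSubgroupIn ℚ)).fixF),
      FD_c0 P ((m.2.1 : ↥(S36CZ_C' M q hq hqM A hA c n hn).Rb₂) : ↥(S36FI_kappa M A)) ≠ 0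

/-- the statement `hint₂` of `S36TI_Geo` on the concrete chart `S36CZ_C' c`. -/
def S36TZ_Hint₂ (SSD : S36SS_Data M q hq hqM A hgen n' hn')
    (c : (S36FI_SFF M q hq hqM A hA).A)
    (hC : S36SE_Reg (S36CZ_C' M q hq hqM A hA c n hn) (S36SE_XSS M q hq hqM A hA SSD)) : Prop :=
  ∀ g g' : ↥(S36CZ_C' M q hq hqM A hA c n hn).Rb₂,
    (∀ y, S36SE_e₂ _ (S36SE_XSS M q hq hqM A hA SSD) hC y g = 0) →
    (∀ y, S36SE_e₂ _ (S36SE_XSS M q hq hqM A hA SSD) hC y g' = 0) →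
    ((0, g * g', 0) : ↥(S36CZ_C' M q hq hqM A hA c n hn).Rb₁ ×
        ↥(S36CZ_C' M q hq hqM A hA c n hn).Rb₂ × ↥(S36CZ_C' M q hq hqM A hA c n hn).Rb₃) ∈
      S36L3_W (S36FI_same3 M q hq hqM A hA ζ hζ hζ1) (S36CZ_C' M q hq hqM A hA c n hn) 1

include hq hqM hA in
/-- **`G'` on the chart `U' = {B ≠ c}` at the supersingular points** — inputs left: `hX`, `hW1`
on `U''`, `hc`, `G` on `U` and `hcusp₂` (which may use `hint₂`). -/
theorem S36TZ_G'_of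
    (SSD : S36SS_Data M q hq hqM A hgen n' hn')
    (c : (S36FI_SFF M q hq hqM A hA).A)
    (hc : ∀ i, SSD.e₁ i ⟨S34M_xb M q A, S34SB_self_mem_reg _⟩ ≠
      (S36FI_SFF M q hq hqM A hA).res c)
    (hX : S36SE_Reg (S36CZ_C'' M q hq hqM A hA c n hn) (S36SE_XSS M q hq hqM A hA SSD))
    (hW1 : ∀ m ∈ S36L3_W (S36FI_same3 M q hq hqM A hA ζ hζ hζ1)
        (S36CZ_C'' M q hq hqM A hA c n hn) 1, ∀ y,
      S36SE_e₁ (S36CZ_C'' M q hq hqM A hA c n hn) (S36SE_XSS M q hq hqM A hA SSD) hX y m.1 =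
        S36SE_e₂ (S36CZ_C'' M q hq hqM A hA c n hn) (S36SE_XSS M q hq hqM A hA SSD) hX y m.2.1 ∧
      S36SE_e₁ (S36CZ_C'' M q hq hqM A hA c n hn) (S36SE_XSS M q hq hqM A hA SSD) hX y m.1 =
        S36SE_e₃ (S36CZ_C'' M q hq hqM A hA c n hn) (S36SE_XSS M q hq hqM A hA SSD) hX y m.2.2)
    (G : S36TI_Geo (S36FI_same3 M q hq hqM A hA ζ hζ hζ1) (S36CZ_C M q hq hqM A hA n hn)
      (S36SE_XSS M q hq hqM A hA SSD) (hX.of_le (S36CZ_hle M q hq hqM A hA c n hn))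
      (S36LC_Kp (S36FI_act (M * q * q) (A.inertiaSubgroupIn ℚ)) n
        (S36FI_SFF M q hq hqM A hA) (S36FI_SFV M q hq hqM A hA ζ hζ hζ1)
        (S36FI_SVV M q hq hqM A hA)))
    (hcusp₂ : S36TZ_Hint₂ M q hq hqM A hA ζ hζ hζ1 n hn SSD c
        (hX.of_le (S36CZ_hle' M q hq hqM A hA c n hn)) →
      S36TZ_Hcusp₂ M q hq hqM A hA ζ hζ hζ1 n hn c) :
    S36TI_Geo (S36FI_same3 M q hq hqM A hA ζ hζ hζ1) (S36CZ_C' M q hq hqM A hA c n hn)
      (S36SE_XSS M q hq hqM A hA SSD) (hX.of_le (S36CZ_hle' M q hq hqM A hA c n hn))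
      (S36LC_Kp (S36FI_act (M * q * q) (A.inertiaSubgroupIn ℚ)) n
        (S36FI_SFF M q hq hqM A hA) (S36FI_SFV M q hq hqM A hA ζ hζ hζ1)
        (S36FI_SVV M q hq hqM A hA)) := by
  obtain ⟨hint₁, hint₂, hint₃⟩ := S36NU_hint M q hq hqM A hA ζ hζ hζ1 hgen SSD c hc n hn
    (hX.of_le (S36CZ_hle' M q hq hqM A hA c n hn))
  exact S36TZ_geo' M q hq hqM A hA ζ hζ hζ1 c n hn hX S36LC_Kp_le hW1 hint₁ hint₂ hint₃ G
    (S36CLI_hcusp₁_fin M q hq hqM A hA ζ hζ hζ1 c n hn hX hint₁) (hcusp₂ hint₂)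
    (S36CLI_hcusp₃_fin M q hq hqM A hA ζ hζ hζ1 c n hn hX hint₃)

include hq hqM hA in
/-- **HOLE G' of `WireConcHoles`** (unfolded form of `S36WX_HoleG'`), from a provider of
`hcusp₂`: `T` = the `j`-invariants of the nodes. -/
theorem S36TZ_holeG'_of
    (SSD : S36SS_Data M q hq hqM A hgen n' hn')
    (H2 : ∀ (c : (S36FI_SFF M q hq hqM A hA).A),
      (∀ i, SSD.e₁ i ⟨S34M_xb M q A, S34SB_self_mem_reg _⟩ ≠
        (S36FI_SFF M q hq hqM A hA).res c) →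
      S36SE_Cok M q hq hqM A hA SSD c →
      ∀ hX : S36SE_Reg (S36CZ_C'' M q hq hqM A hA c n hn) (S36SE_XSS M q hq hqM A hA SSD),
      S36TZ_Hint₂ M q hq hqM A hA ζ hζ hζ1 n hn SSD c
          (hX.of_le (S36CZ_hle' M q hq hqM A hA c n hn)) →
        S36TZ_Hcusp₂ M q hq hqM A hA ζ hζ hζ1 n hn c) :
    ∃ T : Finset (IsLocalRing.ResidueField A), ∀ c : (S36FI_SFF M q hq hqM A hA).A,
      (S36FI_SFF M q hq hqM A hA).res c ∉ T → S36SE_Cok M q hq hqM A hA SSD c →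
      ∀ hX : S36SE_Reg (S36CZ_C'' M q hq hqM A hA c n hn) (S36SE_XSS M q hq hqM A hA SSD),
      (∀ m ∈ S36L3_W (S36FI_same3 M q hq hqM A hA ζ hζ hζ1)
          (S36CZ_C'' M q hq hqM A hA c n hn) 1, ∀ y,
        S36SE_e₁ (S36CZ_C'' M q hq hqM A hA c n hn) (S36SE_XSS M q hq hqM A hA SSD) hX y m.1 =
          S36SE_e₂ (S36CZ_C'' M q hq hqM A hA c n hn) (S36SE_XSS M q hq hqM A hA SSD) hX y
            m.2.1 ∧
        S36SE_e₁ (S36CZ_C'' M q hq hqM A hA c n hn) (S36SE_XSS M q hq hqM A hA SSD) hX y m.1 =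
          S36SE_e₃ (S36CZ_C'' M q hq hqM A hA c n hn) (S36SE_XSS M q hq hqM A hA SSD) hX y
            m.2.2) →
      S36TI_Geo (S36FI_same3 M q hq hqM A hA ζ hζ hζ1) (S36CZ_C M q hq hqM A hA n hn)
        (S36SE_XSS M q hq hqM A hA SSD) (hX.of_le (S36CZ_hle M q hq hqM A hA c n hn))
        (S36LC_Kp (S36FI_act (M * q * q) (A.inertiaSubgroupIn ℚ)) n
          (S36FI_SFF M q hq hqM A hA) (S36FI_SFV M q hq hqM A hA ζ hζ hζ1)
          (S36FI_SVV M q hq hqM A hA)) →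
      S36TI_Geo (S36FI_same3 M q hq hqM A hA ζ hζ hζ1) (S36CZ_C' M q hq hqM A hA c n hn)
        (S36SE_XSS M q hq hqM A hA SSD) (hX.of_le (S36CZ_hle' M q hq hqM A hA c n hn))
        (S36LC_Kp (S36FI_act (M * q * q) (A.inertiaSubgroupIn ℚ)) n
          (S36FI_SFF M q hq hqM A hA) (S36FI_SFV M q hq hqM A hA ζ hζ hζ1)
          (S36FI_SVV M q hq hqM A hA)) := by
  classical
  refine ⟨Finset.univ.image
    (fun i => SSD.e₁ i ⟨S34M_xb M q A, S34SB_self_mem_reg (S34M_xb M q A)⟩), ?_⟩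
  intro c hcT hcX hX hW1 G
  have hc : ∀ i, SSD.e₁ i ⟨S34M_xb M q A, S34SB_self_mem_reg _⟩ ≠
      (S36FI_SFF M q hq hqM A hA).res c := by
    intro i h
    exact hcT (Finset.mem_image.2 ⟨i, Finset.mem_univ i, h⟩)
  exact S36TZ_G'_of M q hq hqM A hA ζ hζ hζ1 n hn SSD c hc hX hW1 G
    (H2 c hc hcX hX)

end Fermat.Agent.S36
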