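import Fermat.Agent.S36.Triv3UZF
import Fermat.Agent.S36.CuspRamInst

/-!
# TRACK 10 (S36), §4 ASSEMBLY, part 3 (helper19): **HOLE G' of WireConc, CLOSED**.
Prefix `S36TZ_`.

`S36TZ_holeG'` : the unfolded form of helper2's `S36WX_HoleG'` (`S36/WireConcHoles.lean`) with
NO hypothesis left: `S36TZ_holeG'_of` (Triv3UZF: `hint_j` on `U'` by helper12, `hcusp₁/₃` by
helper8) with `hcusp₂ := S36KR_hcusp₂_fin` (helper27).  The finite set `T` to be avoided by `c̄`
is the set of the `j`-invariants of the nodes.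
-/

set_option autoImplicit false
set_option synthInstance.maxHeartbeats 400000
set_option maxHeartbeats 1000000
set_option linter.unusedSectionVars false
set_option linter.unusedVariables false
set_option linter.style.haveILetI false

open AlgebraicCurve ModularCurve HahnSeries IntermediateField

noncomputable section

namespace Fermat.Agent.S36

open Fermat.Agent.Lib Fermat.Agent.S18 Fermat.Agent.S24 Fermat.Agent.S34 Fermat.Agent.GalRep

local notation "Ω" => AlgebraicClosure ℚ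

variable (M q : ℕ) [NeZero M] [NeZero q] [NeZero (M * q)] (hq : q.Prime) (hqM : ¬ q ∣ M)
  (A : ValuationSubring Ω) (hA : A.LiesOverPrime q)
  (ζ : Ωˣ) (hζ : ζ ^ q = 1) (hζ1 : ζ ≠ 1)
  {hgen : PrincipalGeneratedByIntegral A (IsLocalRing.residue A) (M * q)}
  {n' : ℕ} {hn' : 0 < n'} (n : ℕ) (hn : 0 < n)

include hq hqM hA in
/-- **HOLE G' of `WireConcHoles`, closed** (= `S36WX_HoleG' M q hq hqM A hA ζ hζ hζ1 n hn D`
unfolded): there is a finite set `T` of residues such that for every admissible constant `c`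
with `c̄ ∉ T`, `hW1` on `U''` and `G` on `U` give `G'` on `U' = {B ≠ c}`. -/
theorem S36TZ_holeG'
    (SSD : S36SS_Data M q hq hqM A hgen n' hn') :
    ∃ T : Finset (IsLocalRing.ResidueField A), ∀ c : (S36FI_SFF M q hq hqM A hA).A,
      (S36FI_SFF M q hq hqM A hA).res c ∉ T → S36SE_Cok M q hq hqM A hA SSD c →
      ∀ hX : S36SE_Reg (S36CZ_C'' M q hq hqM A hA c n hn) (S36SE_XSS M q hq hqM A hA SSD),
      (∀ m ∈ S36L3_W (S36FI_same3 M q hq hqM A hA ζ hζ hζ1)
          (S36CZ_C'' M q hq hqM A hA c n hn) 1, ∀ y,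
        S36SE_e₁ (S36CZ_C'' M q hq hqM A hA c n hn) (S36SE_XSS M q hq hqM A hA SSD) hX y m.1 =
          S36SE_e₂ (S36CZ_C'' M q hq hqM A hA c n hn) (S36SE_XSS M q hq hqM A hA SSD) hX y
            m.2.1 ∧
        S36SE_e₁ (S36CZ_C'' M q hq hqM A hA c n hn) (S36SE_XSS M q hq hqM A hA SSD) hX y m.1 =
          S36SE_e₃ (S36CZ_C'' M q hq hqM A hA c n hn) (S36SE_XSS M q hq hqM A hA SSD) hX y
            m.2.2) →
      S36TI_Geo (S36FI_same3 M q hq hqM A hA ζ hζ hζ1) (S36CZ_C M q hq hqM A hA n hn)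
        (S36SE_XSS M q hq hqM A hA SSD) (hX.of_le (S36CZ_hle M q hq hqM A hA c n hn))
        (S36LC_Kp (S36FI_act (M * q * q) (A.inertiaSubgroupIn ℚ)) n
          (S36FI_SFF M q hq hqM A hA) (S36FI_SFV M q hq hqM A hA ζ hζ hζ1)
          (S36FI_SVV M q hq hqM A hA)) →
      S36TI_Geo (S36FI_same3 M q hq hqM A hA ζ hζ hζ1) (S36CZ_C' M q hq hqM A hA c n hn)
        (S36SE_XSS M q hq hqM A hA SSD) (hX.of_le (S36CZ_hle' M q hq hqM A hA c n hn))
        (S36LC_Kp (S36FI_act (M * q * q) (A.inertiaSubgroupIn ℚ)) n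
          (S36FI_SFF M q hq hqM A hA) (S36FI_SFV M q hq hqM A hA ζ hζ hζ1)
          (S36FI_SVV M q hq hqM A hA)) :=
  S36TZ_holeG'_of M q hq hqM A hA ζ hζ hζ1 n hn SSD
    (fun c _ _ hX hint₂ => S36KR_hcusp₂_fin M q hq hqM A hA ζ hζ hζ1 c n hn hX hint₂)

end Fermat.Agent.S36
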