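import Mathlib
import Fermat.Agent.S18.ValDefs

/-!
# TRACK 10 (S36), package VAL3-DISC (helper8, shapes by helper12), prefix `S36VD_`

`A ⊂ K` a valuation subring of a field of characteristic `0` with `q ∈ 𝔪_A` (`q` prime).
Newton-free discreteness of the valuation on number fields:

* `S36VD_val_rat` : `v(r) = v(q)^e` (`e ∈ ℤ`) for every rational `r ≠ 0`;
* `S36VD_disc_val`, `S36VD_disc` : for `x ≠ 0` algebraic over `ℚ` with `deg x ≤ D` there are
  `1 ≤ m ≤ D` and `k ∈ ℤ` with `x^m · q^k ∈ Aˣ` (two terms of the minimal equation have equal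
  valuation);
* `S36VD_fact` : for `x ≠ 0` in a number field `E` of degree `D`: `v(x)^(D!) = v(q)^κ`;
* `S36VD_min` : a non-zero series with coefficients in one number field `E`, bounded by an
  ALGEBRAIC constant, has a coefficient of largest valuation;
* `S36VD_prim_gen`, `S36VD_prim` : the primitive-part lemma `s = c · ι s'`, `s' ∈ A((t))`,
  `ρ s' ≠ 0` (`c` a coefficient of `s`, some coefficient of `s'` is `1`).

REMARK.  For a general field `K` the bound must be algebraic: over `K = ℚ(T)` with the rank-two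
valuation (`T`-adic, then `q`-adic) the series `Σ q^{-n} t^n` is bounded by `c = T` but has no
primitive part.  `S36VD_prim` is helper12's exact shape under `[Algebra.IsAlgebraic ℚ K]`.
-/

set_option autoImplicit false

open HahnSeries ModularCurve

noncomputable section

namespace Fermat.Agent.S36

open Fermat.Agent.S18

variable {K : Type*} [Field K] [Algebra ℚ K] (A : ValuationSubring K)

omit [Algebra ℚ K] in
/-- `v(q) < 1` for `q ∈ A`, `q⁻¹ ∉ A`. -/
theorem S36VD_val_lt_one {x : K} (hqA : x ∈ A) (hqA' : x⁻¹ ∉ A) : A.valuation x < 1 := by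
  rcases lt_or_eq_of_le ((A.valuation_le_one_iff x).mpr hqA) with h | h
  · exact h
  · exfalso
    apply hqA'
    rw [← A.valuation_le_one_iff, map_inv₀, h, inv_one]

omit [Algebra ℚ K] in
theorem S36VD_val_ne_zero {x : K} (hqA' : x⁻¹ ∉ A) : A.valuation x ≠ 0 := by
  intro h
  apply hqA'
  rw [(Valuation.zero_iff _).mp h, inv_zero]
  exact zero_mem A

omit [Algebra ℚ K] in
/-- integers prime to `q` are units of `A`. -/
theorem S36VD_val_coprime (q : ℕ) (hqA : (q : K) ∈ A) (hqA' : ((q : K))⁻¹ ∉ A) (b : ℤ)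
    (hb : IsCoprime b (q : ℤ)) : A.valuation (b : K) = 1 := by
  obtain ⟨r, s, hrs⟩ := hb
  have h1 : (r : K) * b = 1 - s * q := by
    have := congrArg (fun z : ℤ => (z : K)) hrs
    push_cast at this
    linear_combination this
  have hs : A.valuation ((s : K) * q) < 1 := by
    rw [map_mul]
    calc A.valuation (s : K) * A.valuation (q : K) ≤ 1 * A.valuation (q : K) := by
          gcongr
          exact (A.valuation_le_one_iff _).mpr (intCast_mem A s)
      _ = A.valuation (q : K) := one_mul _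
      _ < 1 := S36VD_val_lt_one A hqA hqA'
  have h2 : A.valuation ((r : K) * b) = 1 := by
    rw [h1]
    have := Valuation.map_sub_eq_of_lt_left (v := A.valuation) (x := (1 : K)) (y := (s : K) * q)
      (by rwa [map_one])
    rw [this, map_one]
  rw [map_mul] at h2
  have hr : A.valuation (r : K) ≤ 1 := (A.valuation_le_one_iff _).mpr (intCast_mem A r)
  have hb' : A.valuation (b : K) ≤ 1 := (A.valuation_le_one_iff _).mpr (intCast_mem A b)
  apply le_antisymm hb'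
  calc (1 : A.ValueGroup) = A.valuation (r : K) * A.valuation (b : K) := h2.symm
    _ ≤ 1 * A.valuation (b : K) := by gcongr
    _ = A.valuation (b : K) := one_mul _

omit [Algebra ℚ K] in
theorem S36VD_val_nat (q : ℕ) (hq : q.Prime) (hqA : (q : K) ∈ A) (hqA' : ((q : K))⁻¹ ∉ A)
    (n : ℕ) (hn : n ≠ 0) : ∃ e : ℕ, A.valuation (n : K) = A.valuation (q : K) ^ e := by
  obtain ⟨e, b, hb, rfl⟩ := Nat.exists_eq_pow_mul_and_not_dvd hn q hq.ne_one
  refine ⟨e, ?_⟩
  have hcop : IsCoprime (b : ℤ) (q : ℤ) :=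
    Nat.isCoprime_iff_coprime.mpr ((hq.coprime_iff_not_dvd.mpr hb).symm)
  have := S36VD_val_coprime A q hqA hqA' b hcop
  push_cast
  rw [map_mul, map_pow]
  rw [Int.cast_natCast] at this
  rw [this, mul_one]

theorem S36VD_val_rat (q : ℕ) (hq : q.Prime) (hqA : (q : K) ∈ A) (hqA' : ((q : K))⁻¹ ∉ A)
    (r : ℚ) (hr : r ≠ 0) :
    ∃ e : ℤ, A.valuation (algebraMap ℚ K r) = A.valuation (q : K) ^ e := by
  have hγ := S36VD_val_ne_zero A hqA'
  obtain ⟨e1, h1⟩ := S36VD_val_nat A q hq hqA hqA' r.num.natAbs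
    (Int.natAbs_ne_zero.mpr (Rat.num_ne_zero.mpr hr))
  obtain ⟨e2, h2⟩ := S36VD_val_nat A q hq hqA hqA' r.den r.den_ne_zero
  refine ⟨(e1 : ℤ) - e2, ?_⟩
  have hnum : A.valuation ((r.num : ℤ) : K) = A.valuation ((r.num.natAbs : ℕ) : K) := by
    rcases Int.natAbs_eq r.num with h | h
    · conv_lhs => rw [h]
      simp
    · conv_lhs => rw [h]
      simp
  have hr' : algebraMap ℚ K r = (r.num : K) / (r.den : K) := by
    conv_lhs => rw [← Rat.num_div_den r]
    rw [map_div₀, map_intCast, map_natCast]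
  rw [hr', map_div₀, hnum, h1, h2, zpow_sub₀ hγ, zpow_natCast, zpow_natCast]

/-- cancellation in the value group. -/
theorem S36VD_aux {Γ : Type*} [CommGroupWithZero Γ] (γ y : Γ) (hγ : γ ≠ 0) (hy : y ≠ 0)
    (a b : ℕ) (hab : a < b) (ea eb : ℤ) (h : γ ^ ea * y ^ a = γ ^ eb * y ^ b) :
    y ^ (b - a) * γ ^ (eb - ea) = 1 := by
  have hb : y ^ b = y ^ (b - a) * y ^ a := by
    rw [← _root_.pow_add, Nat.sub_add_cancel hab.le]
  rw [hb, ← mul_assoc] at h
  have h2 : γ ^ ea = γ ^ eb * y ^ (b - a) := mul_right_cancel₀ (pow_ne_zero a hy) h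
  rw [zpow_sub₀ hγ, h2]
  have h3 : γ ^ eb ≠ 0 := zpow_ne_zero eb hγ
  have h4 : y ^ (b - a) ≠ 0 := pow_ne_zero _ hy
  field_simp

/-- **VAL3-DISC, valuation form**: `v(x)^m = v(q)^(-k)` for some `1 ≤ m ≤ deg x`. -/
theorem S36VD_disc_val (q : ℕ) (hq : q.Prime) (hqA : (q : K) ∈ A) (hqA' : ((q : K))⁻¹ ∉ A)
    (D : ℕ) (x : K) (hx : x ≠ 0) (halg : IsAlgebraic ℚ x) (hdeg : (minpoly ℚ x).natDegree ≤ D) :
    ∃ m : ℕ, 0 < m ∧ m ≤ D ∧ ∃ k : ℤ, A.valuation x ^ m * A.valuation (q : K) ^ k = 1 := by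
  classical
  set v := A.valuation with hv
  have hγ : v (q : K) ≠ 0 := S36VD_val_ne_zero A hqA'
  have hvx : v x ≠ 0 := (Valuation.ne_zero_iff _).mpr hx
  set p := minpoly ℚ x with hp
  have hmonic : p.Monic := minpoly.monic halg.isIntegral
  set T : ℕ → K := fun i => algebraMap ℚ K (p.coeff i) * x ^ i with hT
  have hsum : ∑ i ∈ Finset.range (p.natDegree + 1), T i = 0 := by
    have h0 : Polynomial.aeval x p = 0 := minpoly.aeval ℚ x
    rw [Polynomial.aeval_eq_sum_range] at h0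
    rw [← h0]
    apply Finset.sum_congr rfl
    intro i _
    rw [hT, Algebra.smul_def]
  have hlead : v (T p.natDegree) ≠ 0 := by
    rw [hT]
    simp only
    rw [Polynomial.coeff_natDegree, hmonic.leadingCoeff, map_one, one_mul, map_pow]
    exact pow_ne_zero _ hvx
  obtain ⟨j, hj, hjmax⟩ := Finset.exists_max_image (Finset.range (p.natDegree + 1))
    (fun i => v (T i)) ⟨p.natDegree, Finset.self_mem_range_succ _⟩
  have hj0 : v (T j) ≠ 0 := by
    have := hjmax p.natDegree (Finset.self_mem_range_succ _)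
    intro h
    rw [h] at this
    exact hlead (le_antisymm this zero_le)
  -- a second index with the same valuation
  have hex : ∃ i ∈ Finset.range (p.natDegree + 1), i ≠ j ∧ v (T i) = v (T j) := by
    by_contra hcon
    push Not at hcon
    have hlt : ∀ i ∈ Finset.range (p.natDegree + 1) \ {j}, v (T i) < v (T j) := by
      intro i hi
      rw [Finset.mem_sdiff, Finset.mem_singleton] at hi
      exact lt_of_le_of_ne (hjmax i hi.1) (hcon i hi.1 hi.2)
    have := Valuation.map_sum_eq_of_lt v hj hlt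
    rw [hsum, map_zero] at this
    exact hj0 this.symm
  obtain ⟨i, hi, hij, hval⟩ := hex
  have hi0 : v (T i) ≠ 0 := by rw [hval]; exact hj0
  -- the coefficients are non-zero
  have hci : p.coeff i ≠ 0 := by
    intro h
    apply hi0
    rw [hT]
    simp only
    rw [h, map_zero, zero_mul, map_zero]
  have hcj : p.coeff j ≠ 0 := by
    intro h
    apply hj0
    rw [hT]
    simp only
    rw [h, map_zero, zero_mul, map_zero]
  obtain ⟨ei, hei⟩ := S36VD_val_rat A q hq hqA hqA' _ hci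
  obtain ⟨ej, hej⟩ := S36VD_val_rat A q hq hqA hqA' _ hcj
  have hTi : v (T i) = v (q : K) ^ ei * v x ^ i := by
    rw [hT]
    simp only
    rw [map_mul, map_pow, hv, hei]
  have hTj : v (T j) = v (q : K) ^ ej * v x ^ j := by
    rw [hT]
    simp only
    rw [map_mul, map_pow, hv, hej]
  rw [hTi, hTj] at hval
  have hiD : i ≤ D := (Nat.lt_succ_iff.mp (Finset.mem_range.mp hi)).trans hdeg
  have hjD : j ≤ D := (Nat.lt_succ_iff.mp (Finset.mem_range.mp hj)).trans hdeg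
  rcases lt_or_gt_of_ne hij with hlt | hlt
  · exact ⟨j - i, Nat.sub_pos_of_lt hlt, (Nat.sub_le _ _).trans hjD, ej - ei,
      S36VD_aux _ _ hγ hvx i j hlt ei ej hval⟩
  · exact ⟨i - j, Nat.sub_pos_of_lt hlt, (Nat.sub_le _ _).trans hiD, ei - ej,
      S36VD_aux _ _ hγ hvx j i hlt ej ei hval.symm⟩

/-- **VAL3-DISC** (helper12's shape): a non-zero algebraic `x` of degree `≤ D` has
`x^m·q^k ∈ Aˣ` for some `1 ≤ m ≤ D`, `k ∈ ℤ`. -/
theorem S36VD_disc (q : ℕ) (hq : q.Prime) (hqA : (q : K) ∈ A) (hqA' : ((q : K))⁻¹ ∉ A)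
    (D : ℕ) (x : K) (hx : x ≠ 0) (halg : IsAlgebraic ℚ x) (hdeg : (minpoly ℚ x).natDegree ≤ D) :
    ∃ m : ℕ, 0 < m ∧ m ≤ D ∧ ∃ k : ℤ, x ^ m * (q : K) ^ k ∈ A ∧ (x ^ m * (q : K) ^ k)⁻¹ ∈ A := by
  obtain ⟨m, hm, hmD, k, hk⟩ := S36VD_disc_val A q hq hqA hqA' D x hx halg hdeg
  refine ⟨m, hm, hmD, k, ?_, ?_⟩
  · rw [← A.valuation_le_one_iff, map_mul, map_pow, map_zpow₀, hk]
  · rw [← A.valuation_le_one_iff, map_inv₀, map_mul, map_pow, map_zpow₀, hk, inv_one]


theorem S36VD_natDegree_le (E : IntermediateField ℚ K) [h : FiniteDimensional ℚ E] (x : E) :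
    (minpoly ℚ (x : K)).natDegree ≤ Module.finrank ℚ E := by
  have h1 := @minpoly.natDegree_le ℚ E _ _ (IntermediateField.algebra' E) h x _
  have h2 := @IntermediateField.minpoly_eq ℚ K _ _ _ E x
  rw [← h2]
  exact h1

theorem S36VD_isAlgebraic_of_mem (E : IntermediateField ℚ K) [h : FiniteDimensional ℚ E]
    (x : E) : IsAlgebraic ℚ (x : K) := by
  have h0 : @Algebra.IsAlgebraic ℚ E _ _ (IntermediateField.algebra' E) :=
    @Algebra.IsAlgebraic.of_finite ℚ E _ _ _ (IntermediateField.algebra' E) h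
  have h1 := @Algebra.IsAlgebraic.isAlgebraic ℚ E _ _ (IntermediateField.algebra' E) h0 x
  exact (@IntermediateField.isAlgebraic_iff ℚ K _ _ _ E x).mp h1

/-- for `x ≠ 0` in a number field `E ⊂ K` of degree `D`: `v(x)^(D!) = v(q)^κ`, `κ ∈ ℤ`. -/
theorem S36VD_fact (q : ℕ) (hq : q.Prime) (hqA : (q : K) ∈ A) (hqA' : ((q : K))⁻¹ ∉ A)
    (E : IntermediateField ℚ K) [FiniteDimensional ℚ E] (x : K) (hxE : x ∈ E) (hx : x ≠ 0) :
    ∃ κ : ℤ, A.valuation x ^ (Module.finrank ℚ E).factorial = A.valuation (q : K) ^ κ := by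
  have halg : IsAlgebraic ℚ x := S36VD_isAlgebraic_of_mem E ⟨x, hxE⟩
  have hdeg : (minpoly ℚ x).natDegree ≤ Module.finrank ℚ E := S36VD_natDegree_le E ⟨x, hxE⟩
  obtain ⟨m, hm, hmD, k, hk⟩ := S36VD_disc_val A q hq hqA hqA' _ x hx halg hdeg
  obtain ⟨l, hl⟩ := Nat.dvd_factorial hm hmD
  refine ⟨-k * l, ?_⟩
  have h1 : A.valuation x ^ m = A.valuation (q : K) ^ (-k) := by
    rw [zpow_neg]
    exact eq_inv_of_mul_eq_one_left hk
  rw [hl, pow_mul, h1, zpow_mul, zpow_natCast]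

/-- in the value group: `γ < 1`, `γ ^ z ≤ 1` ⇒ `0 ≤ z`. -/
theorem S36VD_zpow_le_one {Γ : Type*} [LinearOrderedCommGroupWithZero Γ] (γ : Γ) (hγ0 : γ ≠ 0)
    (hγ1 : γ < 1) (z : ℤ) (h : γ ^ z ≤ 1) : 0 ≤ z := by
  by_contra hz
  push Not at hz
  have h1 : γ ^ (-z) < 1 := by
    obtain ⟨n, hn⟩ := Int.eq_ofNat_of_zero_le (neg_pos.mpr hz).le
    rw [hn, zpow_natCast]
    apply pow_lt_one₀ zero_le hγ1
    intro h0
    rw [h0] at hn
    omega
  rw [zpow_neg] at h1
  have h2 : 0 < γ ^ z := zero_lt_iff.mpr (zpow_ne_zero z hγ0)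
  have h3 := (inv_lt_one₀ h2).mp h1
  exact absurd h (not_le.mpr h3)

/-- **VAL3-DISC, minimum form**: a non-zero bounded series with coefficients in one number field
has a coefficient of largest valuation. -/
theorem S36VD_min (q : ℕ) (hq : q.Prime) (hqA : (q : K) ∈ A) (hqA' : ((q : K))⁻¹ ∉ A)
    (E : IntermediateField ℚ K) [FiniteDimensional ℚ E] (s : LaurentSeries K) (hs : s ≠ 0)
    (hE : ∀ n, s.coeff n ∈ E)
    (hb : ∃ c : K, c ≠ 0 ∧ IsAlgebraic ℚ c ∧ ∀ n, c * s.coeff n ∈ A) :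
    ∃ n₀, s.coeff n₀ ≠ 0 ∧ ∀ n, s.coeff n / s.coeff n₀ ∈ A := by
  classical
  have hγ0 : A.valuation (q : K) ≠ 0 := S36VD_val_ne_zero A hqA'
  have hγ1 : A.valuation (q : K) < 1 := S36VD_val_lt_one A hqA hqA'
  set N := (Module.finrank ℚ E).factorial with hN
  have hNpos : 0 < N := Nat.factorial_pos _
  obtain ⟨c, hc, hcalg, hcs⟩ := hb
  obtain ⟨mc, hmc, -, kc, hkc⟩ := S36VD_disc_val A q hq hqA hqA' _ c hc hcalg le_rfl
  have hcm : A.valuation c ^ mc = A.valuation (q : K) ^ (-kc) := by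
    rw [zpow_neg]
    exact eq_inv_of_mul_eq_one_left hkc
  let P : ℤ → Prop := fun κ => ∃ n, s.coeff n ≠ 0 ∧ A.valuation (s.coeff n) ^ N =
    A.valuation (q : K) ^ κ
  have hinh : ∃ z, P z := by
    have : ∃ n, s.coeff n ≠ 0 := by
      by_contra h
      push Not at h
      apply hs
      ext n
      rw [h n]
      rfl
    obtain ⟨n, hn⟩ := this
    obtain ⟨κ, hκ⟩ := S36VD_fact A q hq hqA hqA' E _ (hE n) hn
    exact ⟨κ, n, hn, hκ⟩
  have hbdd : ∃ b : ℤ, ∀ z, P z → b ≤ z := by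
    refine ⟨-|kc * N|, ?_⟩
    rintro z ⟨n, hn, hz⟩
    have h1 : A.valuation (c * s.coeff n) ≤ 1 := (A.valuation_le_one_iff _).mpr (hcs n)
    have h2 : A.valuation (c * s.coeff n) ^ (N * mc) ≤ 1 := pow_le_one₀ zero_le h1
    have h3 : A.valuation (c * s.coeff n) ^ (N * mc) =
        A.valuation (q : K) ^ (z * mc - kc * N) := by
      rw [map_mul, mul_pow]
      have e1 : A.valuation c ^ (N * mc) = A.valuation (q : K) ^ (-kc * N) := by
        rw [mul_comm N mc, pow_mul, hcm, zpow_mul, zpow_natCast]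
      have e2 : A.valuation (s.coeff n) ^ (N * mc) = A.valuation (q : K) ^ (z * mc) := by
        rw [pow_mul, hz, zpow_mul, zpow_natCast]
      rw [e1, e2, ← zpow_add₀ hγ0]
      congr 1
      ring
    rw [h3] at h2
    have h4 := S36VD_zpow_le_one _ hγ0 hγ1 _ h2
    have hmc' : (1 : ℤ) ≤ mc := by exact_mod_cast hmc
    by_contra hcon
    push Not at hcon
    have h5 : z < 0 := lt_of_lt_of_le hcon (neg_nonpos.mpr (abs_nonneg _))
    have h6 : z * mc ≤ z := by nlinarith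
    have h7 : kc * N ≤ |kc * N| := le_abs_self _
    have h8 : -|kc * N| ≤ kc * N := neg_abs_le _
    linarith
  obtain ⟨κ₀, ⟨n₀, hn₀, hκ₀⟩, hleast⟩ := Int.exists_least_of_bdd hbdd hinh
  refine ⟨n₀, hn₀, fun n => ?_⟩
  by_cases hn : s.coeff n = 0
  · rw [hn, zero_div]
    exact zero_mem A
  · obtain ⟨κ, hκ⟩ := S36VD_fact A q hq hqA hqA' E _ (hE n) hn
    have hle : κ₀ ≤ κ := hleast κ ⟨n, hn, hκ⟩
    have h1 : A.valuation (s.coeff n) ^ N ≤ A.valuation (s.coeff n₀) ^ N := by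
      rw [hκ, hκ₀]
      exact zpow_le_zpow_right_of_le_one₀ (zero_lt_iff.mpr hγ0) hγ1.le hle
    have h2 : A.valuation (s.coeff n) ≤ A.valuation (s.coeff n₀) :=
      (pow_le_pow_iff_left₀ zero_le zero_le hNpos.ne').mp h1
    rw [← A.valuation_le_one_iff, map_div₀]
    exact (div_le_one₀ (zero_lt_iff.mpr ((Valuation.ne_zero_iff _).mpr hn₀))).mpr h2

/-- **VAL3-DISC, primitive part** (general field; the bound `c` is algebraic). -/
theorem S36VD_prim_gen (q : ℕ) (hq : q.Prime) (hqA : (q : K) ∈ A) (hqA' : ((q : K))⁻¹ ∉ A)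
    (E : IntermediateField ℚ K) [FiniteDimensional ℚ E] (s : LaurentSeries K) (hs : s ≠ 0)
    (hE : ∀ n, s.coeff n ∈ E)
    (hb : ∃ c : K, c ≠ 0 ∧ IsAlgebraic ℚ c ∧ ∀ n, c * s.coeff n ∈ A) :
    ∃ c : K, c ≠ 0 ∧ c ∈ E ∧ ∃ s' : LaurentSeries A, S18_ρ A s' ≠ 0 ∧
      (∃ n₀, s'.coeff n₀ = 1) ∧ s = HahnSeries.C c * S18_ι A s' := by
  obtain ⟨n₀, hn₀, hall⟩ := S36VD_min A q hq hqA hqA' E s hs hE hb
  let s' : LaurentSeries A :=
    ⟨fun n => ⟨s.coeff n / s.coeff n₀, hall n⟩, s.isPWO_support.mono (by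
      intro n hn
      rw [HahnSeries.mem_support]
      intro h0
      apply hn
      apply Subtype.ext
      show s.coeff n / s.coeff n₀ = 0
      rw [h0, zero_div])⟩
  have hs'1 : s'.coeff n₀ = 1 := by
    apply Subtype.ext
    show s.coeff n₀ / s.coeff n₀ = 1
    exact div_self hn₀
  refine ⟨s.coeff n₀, hn₀, hE n₀, s', ?_, ⟨n₀, hs'1⟩, ?_⟩
  · intro h0
    have := congrArg (fun z => z.coeff n₀) h0
    simp only [coeffMap_coeff, HahnSeries.coeff_zero] at this
    rw [hs'1, map_one] at this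
    exact one_ne_zero this
  · ext n
    rw [HahnSeries.C_mul_eq_smul, HahnSeries.coeff_smul, coeffMap_coeff]
    show s.coeff n = s.coeff n₀ * (s.coeff n / s.coeff n₀)
    rw [mul_div_cancel₀ _ hn₀]

/-- **VAL3-DISC, primitive part** (helper12's exact shape; `K` algebraic over `ℚ`). -/
theorem S36VD_prim [Algebra.IsAlgebraic ℚ K] (q : ℕ) (hq : q.Prime) (hqA : (q : K) ∈ A)
    (hqA' : ((q : K))⁻¹ ∉ A)
    (E : IntermediateField ℚ K) [FiniteDimensional ℚ E] (s : LaurentSeries K) (hs : s ≠ 0)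
    (hE : ∀ n, s.coeff n ∈ E) (hb : ∃ c : K, c ≠ 0 ∧ ∀ n, c * s.coeff n ∈ A) :
    ∃ c : K, c ≠ 0 ∧ ∃ s' : LaurentSeries A, S18_ρ A s' ≠ 0 ∧
      s = HahnSeries.C c * S18_ι A s' := by
  obtain ⟨c, hc, hcs⟩ := hb
  obtain ⟨c', hc', -, s', h1, -, h2⟩ := S36VD_prim_gen A q hq hqA hqA' E s hs hE
    ⟨c, hc, Algebra.IsAlgebraic.isAlgebraic c, hcs⟩
  exact ⟨c', hc', s', h1, h2⟩

/-- `S36VD_prim` with the hypothesis `q ∈ A.nonunits` (`= A.LiesOverPrime q`). -/
theorem S36VD_prim_nonunits [Algebra.IsAlgebraic ℚ K] (q : ℕ) (hq : q.Prime)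
    (hA : (q : K) ∈ A.nonunits)
    (E : IntermediateField ℚ K) [FiniteDimensional ℚ E] (s : LaurentSeries K) (hs : s ≠ 0)
    (hE : ∀ n, s.coeff n ∈ E) (hb : ∃ c : K, c ≠ 0 ∧ ∀ n, c * s.coeff n ∈ A) :
    ∃ c : K, c ≠ 0 ∧ ∃ s' : LaurentSeries A, S18_ρ A s' ≠ 0 ∧
      s = HahnSeries.C c * S18_ι A s' := by
  haveI : CharZero K := algebraRat.charZero K
  have h1 : A.valuation (q : K) < 1 := (ValuationSubring.mem_nonunits_iff A).mp hA
  have hqA : (q : K) ∈ A := (A.valuation_le_one_iff _).mp h1.le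
  have hqA' : ((q : K))⁻¹ ∉ A := by
    rcases (ValuationSubring.mem_nonunits_iff_or A).mp hA with h | h
    · exact absurd h (Nat.cast_ne_zero.mpr hq.ne_zero)
    · exact h
  exact S36VD_prim A q hq hqA hqA' E s hs hE hb

end Fermat.Agent.S36
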