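import Fermat.Agent.S36.Val3Disc
import Fermat.Agent.S36.Val3Def

/-!
# TRACK 10 (S36), package VAL3-DV (helper8, shapes by helper12), part 1: abstract — prefix `S36VDV_`

*Discrete values of functions with coefficients in a subfield `L'` of the constants.*
`A ⊂ K` a valuation subring, `L' ⊂ K` a subfield whose non-zero elements have
`v(c)^N ∈ v(γ)^ℤ` (`hdisc`; `N = 1`, `γ = q` for the inertia field, `N = q - 1` for `L(ζ_q)`).

* `S36VDV_min`, `S36VDV_prim` : a bounded non-zero series with coefficients in `L'` is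
  `C c · ι s'`, `c ∈ L'`, `s' ∈ A((t))` with `ρ s' ≠ 0` (the least valuation is attained at a
  coefficient);
* `S36VDV_Good` + closure lemmas; `S36VDV_frac` **(DV1)**: a fraction of `L'`-combinations of
  monomials with integral expansions over `L'` is `(constant of L') · (Gauss unit)` along `φ`;
* `S36VDV_UG` (units of the Gauss ring `S36V_G A φ`), `S36VDV_UG_of_rep`;
* `S36VDV_dv`, `S36VDV_dv'` **(DV2, abstract)**: `f · π^(-κ)` resp. `f · ϖ^(-κ)` is a Gauss unit.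
-/

set_option autoImplicit false
set_option linter.unusedSectionVars false

open HahnSeries ModularCurve

noncomputable section

namespace Fermat.Agent.S36

open Fermat.Agent.S18

variable {K : Type*} [Field K] [Algebra ℚ K] (A : ValuationSubring K)

/-- **minimum lemma with a uniform exponent**: a non-zero series whose non-zero coefficients
have `v(·)^N ∈ v(γ)^ℤ` and which is bounded by a constant of the same kind has a coefficient of
largest valuation. -/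
theorem S36VDV_min (γ : K) (hγA : γ ∈ A) (hγA' : γ⁻¹ ∉ A) (N : ℕ) (hN : 0 < N)
    (L' : Set K)
    (hdisc : ∀ c ∈ L', c ≠ 0 → ∃ κ : ℤ, A.valuation c ^ N = A.valuation γ ^ κ)
    (s : LaurentSeries K) (hs : s ≠ 0) (hL : ∀ n, s.coeff n ∈ L')
    (hb : ∃ c ∈ L', c ≠ 0 ∧ ∀ n, c * s.coeff n ∈ A) :
    ∃ n₀, s.coeff n₀ ≠ 0 ∧ ∀ n, s.coeff n / s.coeff n₀ ∈ A := by
  classical
  have hγ0 : A.valuation γ ≠ 0 := S36VD_val_ne_zero A hγA'
  have hγ1 : A.valuation γ < 1 := S36VD_val_lt_one A hγA hγA'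
  obtain ⟨c, hcL, hc, hcs⟩ := hb
  obtain ⟨kc, hkc⟩ := hdisc c hcL hc
  let P : ℤ → Prop := fun κ => ∃ n, s.coeff n ≠ 0 ∧ A.valuation (s.coeff n) ^ N =
    A.valuation γ ^ κ
  have hinh : ∃ z, P z := by
    have : ∃ n, s.coeff n ≠ 0 := by
      by_contra h
      push Not at h
      apply hs
      ext n
      rw [h n]
      rfl
    obtain ⟨n, hn⟩ := this
    obtain ⟨κ, hκ⟩ := hdisc _ (hL n) hn
    exact ⟨κ, n, hn, hκ⟩
  have hbdd : ∃ b : ℤ, ∀ z, P z → b ≤ z := by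
    refine ⟨-kc, ?_⟩
    rintro z ⟨n, hn, hz⟩
    have h1 : A.valuation (c * s.coeff n) ≤ 1 := (A.valuation_le_one_iff _).mpr (hcs n)
    have h2 : A.valuation (c * s.coeff n) ^ N ≤ 1 := pow_le_one₀ zero_le h1
    have h3 : A.valuation (c * s.coeff n) ^ N = A.valuation γ ^ (kc + z) := by
      rw [map_mul, mul_pow, hkc, hz, ← zpow_add₀ hγ0]
    rw [h3] at h2
    have h4 := S36VD_zpow_le_one _ hγ0 hγ1 _ h2
    linarith
  obtain ⟨κ₀, ⟨n₀, hn₀, hκ₀⟩, hleast⟩ := Int.exists_least_of_bdd hbdd hinh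
  refine ⟨n₀, hn₀, fun n => ?_⟩
  by_cases hn : s.coeff n = 0
  · rw [hn, zero_div]
    exact zero_mem A
  · obtain ⟨κ, hκ⟩ := hdisc _ (hL n) hn
    have hle : κ₀ ≤ κ := hleast κ ⟨n, hn, hκ⟩
    have h1 : A.valuation (s.coeff n) ^ N ≤ A.valuation (s.coeff n₀) ^ N := by
      rw [hκ, hκ₀]
      exact zpow_le_zpow_right_of_le_one₀ (zero_lt_iff.mpr hγ0) hγ1.le hle
    have h2 : A.valuation (s.coeff n) ≤ A.valuation (s.coeff n₀) :=
      (pow_le_pow_iff_left₀ zero_le zero_le hN.ne').mp h1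
    rw [← A.valuation_le_one_iff, map_div₀]
    exact (div_le_one₀ (zero_lt_iff.mpr ((Valuation.ne_zero_iff _).mpr hn₀))).mpr h2

/-- **primitive part with constant in `L'`**. -/
theorem S36VDV_prim (γ : K) (hγA : γ ∈ A) (hγA' : γ⁻¹ ∉ A) (N : ℕ) (hN : 0 < N)
    (L' : Subfield K)
    (hdisc : ∀ c ∈ L', c ≠ 0 → ∃ κ : ℤ, A.valuation c ^ N = A.valuation γ ^ κ)
    (s : LaurentSeries K) (hs : s ≠ 0) (hL : ∀ n, s.coeff n ∈ L')
    (hb : ∃ c ∈ L', c ≠ 0 ∧ ∀ n, c * s.coeff n ∈ A) :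
    ∃ c ∈ L', c ≠ 0 ∧ ∃ s' : LaurentSeries A, S18_ρ A s' ≠ 0 ∧
      (∀ n, ((s'.coeff n : A) : K) ∈ L') ∧ s = HahnSeries.C c * S18_ι A s' := by
  obtain ⟨n₀, hn₀, hall⟩ := S36VDV_min A γ hγA hγA' N hN (L' : Set K) hdisc s hs hL hb
  let s' : LaurentSeries A :=
    ⟨fun n => ⟨s.coeff n / s.coeff n₀, hall n⟩, s.isPWO_support.mono (by
      intro n hn
      rw [HahnSeries.mem_support]
      intro h0
      apply hn
      apply Subtype.ext
      show s.coeff n / s.coeff n₀ = 0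
      rw [h0, zero_div])⟩
  have hs'1 : s'.coeff n₀ = 1 := by
    apply Subtype.ext
    show s.coeff n₀ / s.coeff n₀ = 1
    exact div_self hn₀
  refine ⟨s.coeff n₀, hL n₀, hn₀, s', ?_, ?_, ?_⟩
  · intro h0
    have := congrArg (fun z => z.coeff n₀) h0
    simp only [coeffMap_coeff, HahnSeries.coeff_zero] at this
    rw [hs'1, map_one] at this
    exact one_ne_zero this
  · intro n
    show s.coeff n / s.coeff n₀ ∈ L'
    exact L'.div_mem (hL n) (hL n₀)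
  · ext n
    rw [HahnSeries.C_mul_eq_smul, HahnSeries.coeff_smul, coeffMap_coeff]
    show s.coeff n = s.coeff n₀ * (s.coeff n / s.coeff n₀)
    rw [mul_div_cancel₀ _ hn₀]

/-- a **good** series: coefficients in `L'`, bounded by a constant of `L' ∩ A`. -/
def S36VDV_Good (L' : Subfield K) (s : LaurentSeries K) : Prop :=
  (∀ n, s.coeff n ∈ L') ∧ ∃ c ∈ L', c ≠ 0 ∧ c ∈ A ∧ ∀ n, c * s.coeff n ∈ A

variable (L' : Subfield K)

theorem S36VDV_good_zero : S36VDV_Good A L' 0 :=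
  ⟨fun n => by rw [HahnSeries.coeff_zero]; exact L'.zero_mem,
    1, L'.one_mem, one_ne_zero, one_mem A, fun n => by
      rw [HahnSeries.coeff_zero, mul_zero]; exact zero_mem A⟩

theorem S36VDV_good_add {s t : LaurentSeries K} (hs : S36VDV_Good A L' s)
    (ht : S36VDV_Good A L' t) : S36VDV_Good A L' (s + t) := by
  obtain ⟨h1, c, hcL, hc, hcA, hcs⟩ := hs
  obtain ⟨h2, d, hdL, hd, hdA, hdt⟩ := ht
  refine ⟨fun n => ?_, c * d, L'.mul_mem hcL hdL, mul_ne_zero hc hd, mul_mem hcA hdA,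
    fun n => ?_⟩
  · rw [HahnSeries.coeff_add]
    exact L'.add_mem (h1 n) (h2 n)
  · rw [HahnSeries.coeff_add]
    have : c * d * (s.coeff n + t.coeff n) = d * (c * s.coeff n) + c * (d * t.coeff n) := by
      ring
    rw [this]
    exact add_mem (mul_mem hdA (hcs n)) (mul_mem hcA (hdt n))

theorem S36VDV_good_C_mul {a : K} (ha : a ∈ L') {m : LaurentSeries A}
    (hm : ∀ n, ((m.coeff n : A) : K) ∈ L') :
    S36VDV_Good A L' (HahnSeries.C a * S18_ι A m) := by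
  have hcoeff : ∀ n, (HahnSeries.C a * S18_ι A m).coeff n = a * ((m.coeff n : A) : K) := by
    intro n
    rw [HahnSeries.C_mul_eq_smul, HahnSeries.coeff_smul, coeffMap_coeff]
    rfl
  refine ⟨fun n => ?_, ?_⟩
  · rw [hcoeff]
    exact L'.mul_mem ha (hm n)
  · rcases A.mem_or_inv_mem a with h | h
    · refine ⟨1, L'.one_mem, one_ne_zero, one_mem A, fun n => ?_⟩
      rw [hcoeff, one_mul]
      exact mul_mem h (m.coeff n).2
    · by_cases ha0 : a = 0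
      · refine ⟨1, L'.one_mem, one_ne_zero, one_mem A, fun n => ?_⟩
        rw [hcoeff, ha0, zero_mul, mul_zero]
        exact zero_mem A
      · refine ⟨a⁻¹, L'.inv_mem ha, inv_ne_zero ha0, h, fun n => ?_⟩
        rw [hcoeff, ← mul_assoc, inv_mul_cancel₀ ha0, one_mul]
        exact (m.coeff n).2

theorem S36VDV_good_sum {ι' : Type*} (t : Finset ι') (a : ι' → K) (ha : ∀ i, a i ∈ L')
    (m : ι' → LaurentSeries A) (hm : ∀ i n, (((m i).coeff n : A) : K) ∈ L') :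
    S36VDV_Good A L' (∑ i ∈ t, HahnSeries.C (a i) * S18_ι A (m i)) := by
  classical
  induction t using Finset.induction_on with
  | empty =>
    rw [Finset.sum_empty]
    exact S36VDV_good_zero A L'
  | insert i t hi ih =>
    rw [Finset.sum_insert hi]
    exact S36VDV_good_add A L' (S36VDV_good_C_mul A L' (ha i) (hm i)) ih

/-- primitive part of a good series. -/
theorem S36VDV_good_prim (γ : K) (hγA : γ ∈ A) (hγA' : γ⁻¹ ∉ A) (N : ℕ) (hN : 0 < N)
    (hdisc : ∀ c ∈ L', c ≠ 0 → ∃ κ : ℤ, A.valuation c ^ N = A.valuation γ ^ κ)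
    {s : LaurentSeries K} (hs : s ≠ 0) (hg : S36VDV_Good A L' s) :
    ∃ c ∈ L', c ≠ 0 ∧ ∃ s' : LaurentSeries A, S18_ρ A s' ≠ 0 ∧
      (∀ n, ((s'.coeff n : A) : K) ∈ L') ∧ s = HahnSeries.C c * S18_ι A s' := by
  obtain ⟨h1, c, hcL, hc, -, hcs⟩ := hg
  exact S36VDV_prim A γ hγA hγA' N hN L' hdisc s hs h1 ⟨c, hcL, hc, hcs⟩

/-- **(DV1), abstract**: a fraction of `L'`-combinations of monomials with integral expansions
over `L'` is `(constant of L') · (Gauss unit)` along `φ`. -/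
theorem S36VDV_frac {F : Type*} [Field F] [Algebra K F] (φ : F →+* LaurentSeries K)
    (hφ : ∀ c : K, φ (algebraMap K F c) = HahnSeries.C c)
    (γ : K) (hγA : γ ∈ A) (hγA' : γ⁻¹ ∉ A) (N : ℕ) (hN : 0 < N)
    (hdisc : ∀ c ∈ L', c ≠ 0 → ∃ κ : ℤ, A.valuation c ^ N = A.valuation γ ^ κ)
    (f : F) (hf : f ≠ 0) (n : ℕ) (e : Fin n → F) (a b : Fin n → K)
    (he : ∀ i, ∃ m : LaurentSeries A, φ (e i) = S18_ι A m ∧ ∀ k, ((m.coeff k : A) : K) ∈ L')
    (ha : ∀ i, a i ∈ L') (hb : ∀ i, b i ∈ L') (hQ : ∑ i, b i • e i ≠ 0)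
    (hfQ : f * ∑ i, b i • e i = ∑ i, a i • e i) :
    ∃ c ∈ L', c ≠ 0 ∧ ∃ s₁ s₂ : LaurentSeries A, S18_ρ A s₁ ≠ 0 ∧ S18_ρ A s₂ ≠ 0 ∧
      (∀ k, ((s₁.coeff k : A) : K) ∈ L') ∧ (∀ k, ((s₂.coeff k : A) : K) ∈ L') ∧
      φ f * S18_ι A s₂ = HahnSeries.C c * S18_ι A s₁ := by
  classical
  choose m hm hmL using he
  have hsum : ∀ c : Fin n → K, φ (∑ i, c i • e i) =
      ∑ i, HahnSeries.C (c i) * S18_ι A (m i) := by
    intro c
    rw [map_sum]
    apply Finset.sum_congr rfl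
    intro i _
    rw [Algebra.smul_def, map_mul, hφ, hm]
  have hP0 : ∑ i, a i • e i ≠ 0 := by
    rw [← hfQ]
    exact mul_ne_zero hf hQ
  have hφP0 : φ (∑ i, a i • e i) ≠ 0 := fun h => hP0 ((map_eq_zero φ).mp h)
  have hφQ0 : φ (∑ i, b i • e i) ≠ 0 := fun h => hQ ((map_eq_zero φ).mp h)
  have hPg : S36VDV_Good A L' (φ (∑ i, a i • e i)) := by
    rw [hsum]
    exact S36VDV_good_sum A L' _ a ha m hmL
  have hQg : S36VDV_Good A L' (φ (∑ i, b i • e i)) := by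
    rw [hsum]
    exact S36VDV_good_sum A L' _ b hb m hmL
  obtain ⟨cP, hcPL, hcP, s₁, hs₁, hs₁L, e₁⟩ :=
    S36VDV_good_prim A L' γ hγA hγA' N hN hdisc hφP0 hPg
  obtain ⟨cQ, hcQL, hcQ, s₂, hs₂, hs₂L, e₂⟩ :=
    S36VDV_good_prim A L' γ hγA hγA' N hN hdisc hφQ0 hQg
  refine ⟨cP / cQ, L'.div_mem hcPL hcQL, div_ne_zero hcP hcQ, s₁, s₂, hs₁, hs₂, hs₁L, hs₂L, ?_⟩
  have h1 := congrArg φ hfQ
  rw [map_mul, e₁, e₂] at h1
  have hCQ : (HahnSeries.C cQ : LaurentSeries K) ≠ 0 := by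
    intro h
    apply hcQ
    have := congrArg (fun z => z.coeff 0) h
    simpa using this
  have hdiv : (HahnSeries.C (cP / cQ) : LaurentSeries K) * HahnSeries.C cQ = HahnSeries.C cP := by
    rw [← map_mul, div_mul_cancel₀ _ hcQ]
  apply mul_left_cancel₀ hCQ
  calc HahnSeries.C cQ * (φ f * S18_ι A s₂)
      = φ f * (HahnSeries.C cQ * S18_ι A s₂) := by ring
    _ = HahnSeries.C cP * S18_ι A s₁ := h1
    _ = HahnSeries.C cQ * (HahnSeries.C (cP / cQ) * S18_ι A s₁) := by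
        rw [← hdiv]; ring


/-! ### units of the Gauss ring and discrete values -/

section units

variable {F : Type*} [Field F] (φ : F →+* LaurentSeries K)

/-- `f` is a unit of the Gauss ring along `φ`. -/
def S36VDV_UG (f : F) : Prop := f ∈ S36V_G A φ ∧ f⁻¹ ∈ S36V_G A φ

theorem S36VDV_UG_one : S36VDV_UG A φ 1 := ⟨one_mem _, by rw [inv_one]; exact one_mem _⟩

theorem S36VDV_UG_mul {f g : F} (hf : S36VDV_UG A φ f) (hg : S36VDV_UG A φ g) :
    S36VDV_UG A φ (f * g) :=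
  ⟨mul_mem hf.1 hg.1, by rw [mul_inv]; exact mul_mem hf.2 hg.2⟩

theorem S36VDV_UG_inv {f : F} (hf : S36VDV_UG A φ f) : S36VDV_UG A φ f⁻¹ :=
  ⟨hf.2, by rw [inv_inv]; exact hf.1⟩

theorem S36VDV_UG_pow {f : F} (hf : S36VDV_UG A φ f) (n : ℕ) : S36VDV_UG A φ (f ^ n) :=
  ⟨pow_mem hf.1 n, by rw [← inv_pow]; exact pow_mem hf.2 n⟩

theorem S36VDV_UG_zpow {f : F} (hf : S36VDV_UG A φ f) (n : ℤ) : S36VDV_UG A φ (f ^ n) := by
  cases n with
  | ofNat n =>
    rw [Int.ofNat_eq_natCast, zpow_natCast]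
    exact S36VDV_UG_pow A φ hf n
  | negSucc n =>
    rw [zpow_negSucc]
    exact S36VDV_UG_inv A φ (S36VDV_UG_pow A φ hf (n + 1))

/-- a representation `φ f · ι s₂ = C c · ι s₁` with `c` a unit of `A` and `ρ s₁, ρ s₂ ≠ 0`
makes `f` a unit of the Gauss ring. -/
theorem S36VDV_UG_of_rep {f : F} {c : K} (hc : A.valuation c = 1) {s₁ s₂ : LaurentSeries A}
    (h1 : S18_ρ A s₁ ≠ 0) (h2 : S18_ρ A s₂ ≠ 0)
    (h : φ f * S18_ι A s₂ = HahnSeries.C c * S18_ι A s₁) : S36VDV_UG A φ f := by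
  have hcA : c ∈ A := (A.valuation_le_one_iff c).mp hc.le
  have hcu : IsUnit (⟨c, hcA⟩ : A) := (A.valuation_eq_one_iff ⟨c, hcA⟩).mpr hc
  have hres : IsLocalRing.residue A ⟨c, hcA⟩ ≠ 0 := by
    intro h0
    rw [IsLocalRing.residue_eq_zero_iff] at h0
    exact h0 hcu
  have hι : S18_ι A (HahnSeries.C (⟨c, hcA⟩ : A) * s₁) = HahnSeries.C c * S18_ι A s₁ := by
    rw [map_mul]
    congr 1
    ext n
    rw [coeffMap_coeff, HahnSeries.C_apply, HahnSeries.C_apply, HahnSeries.coeff_single,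
      HahnSeries.coeff_single]
    split_ifs
    · rfl
    · exact map_zero _
  have hρ : S18_ρ A (HahnSeries.C (⟨c, hcA⟩ : A) * s₁) ≠ 0 := by
    rw [map_mul]
    refine mul_ne_zero ?_ h1
    intro h0
    have := congrArg (fun z => z.coeff 0) h0
    simp only [coeffMap_coeff, HahnSeries.coeff_zero] at this
    rw [HahnSeries.C_apply, HahnSeries.coeff_single_same] at this
    exact hres this
  have hrep : φ f * S18_ι A s₂ = S18_ι A (HahnSeries.C (⟨c, hcA⟩ : A) * s₁) := by rw [hι, h]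
  have hne : S18_ι A (HahnSeries.C (⟨c, hcA⟩ : A) * s₁) ≠ 0 := by
    intro h0
    apply hρ
    have : HahnSeries.C (⟨c, hcA⟩ : A) * s₁ = 0 := S18_ι_injective A (by rw [h0, map_zero])
    rw [this, map_zero]
  have hφf : φ f ≠ 0 := by
    intro h0
    rw [h0, zero_mul] at hrep
    exact hne hrep.symm
  refine ⟨⟨_, s₂, h2, hrep⟩, ⟨s₂, _, hρ, ?_⟩⟩
  rw [map_inv₀, ← hrep]
  field_simp

variable [Algebra K F]

/-- **discrete values**: if `f = c · (Gauss unit)` along `φ` and `v(c) = v(π)^κ`, then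
`f · π^(-κ)` is a unit of the Gauss ring. -/
theorem S36VDV_dv (hφ : ∀ c : K, φ (algebraMap K F c) = HahnSeries.C c) (π : K) (hπ : π ≠ 0)
    {f : F} {c : K} (κ : ℤ) (hc : A.valuation c = A.valuation π ^ κ) {s₁ s₂ : LaurentSeries A}
    (h1 : S18_ρ A s₁ ≠ 0) (h2 : S18_ρ A s₂ ≠ 0)
    (h : φ f * S18_ι A s₂ = HahnSeries.C c * S18_ι A s₁) :
    S36VDV_UG A φ (f * (algebraMap K F π) ^ (-κ)) := by
  have hvπ : A.valuation π ≠ 0 := (Valuation.ne_zero_iff _).mpr hπ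
  have hval : A.valuation (c * π ^ (-κ)) = 1 := by
    rw [map_mul, map_zpow₀, hc, ← zpow_add₀ hvπ, add_neg_cancel, zpow_zero]
  apply S36VDV_UG_of_rep A φ hval h1 h2
  have e1 : φ ((algebraMap K F π) ^ (-κ)) = HahnSeries.C (π ^ (-κ)) := by
    rw [← map_zpow₀, hφ]
  rw [map_mul, e1, map_mul]
  calc φ f * HahnSeries.C (π ^ (-κ)) * S18_ι A s₂
      = HahnSeries.C (π ^ (-κ)) * (φ f * S18_ι A s₂) := by ring
    _ = HahnSeries.C c * HahnSeries.C (π ^ (-κ)) * S18_ι A s₁ := by rw [h]; ring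

/-- the same with a uniformiser `ϖ ∈ F` such that `ϖ / π` is a Gauss unit. -/
theorem S36VDV_dv' (hφ : ∀ c : K, φ (algebraMap K F c) = HahnSeries.C c) (π : K) (hπ : π ≠ 0)
    (ϖ : F) (hϖ : S36VDV_UG A φ (ϖ * (algebraMap K F π)⁻¹))
    {f : F} {c : K} (κ : ℤ) (hc : A.valuation c = A.valuation π ^ κ) {s₁ s₂ : LaurentSeries A}
    (h1 : S18_ρ A s₁ ≠ 0) (h2 : S18_ρ A s₂ ≠ 0)
    (h : φ f * S18_ι A s₂ = HahnSeries.C c * S18_ι A s₁) :
    S36VDV_UG A φ (f * ϖ ^ (-κ)) := by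
  have hπF : algebraMap K F π ≠ 0 := by
    rw [Ne, map_eq_zero]
    exact hπ
  have h3 := S36VDV_UG_mul A φ (S36VDV_dv A φ hφ π hπ κ hc h1 h2 h)
    (S36VDV_UG_zpow A φ hϖ (-κ))
  have e : f * (algebraMap K F π) ^ (-κ) * (ϖ * (algebraMap K F π)⁻¹) ^ (-κ) = f * ϖ ^ (-κ) := by
    rw [mul_zpow, inv_zpow', neg_neg, mul_assoc]
    congr 1
    rw [mul_comm (ϖ ^ (-κ)), ← mul_assoc, ← zpow_add₀ hπF, neg_add_cancel, zpow_zero, one_mul]
  rwa [e] at h3

end units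

/-- uniqueness of roots in the value group. -/
theorem S36VDV_root_unique {Γ₀ : Type*} [LinearOrderedCommGroupWithZero Γ₀] {x y : Γ₀} {N : ℕ}
    (hN : 0 < N) (h : x ^ N = y ^ N) : x = y :=
  le_antisymm ((pow_le_pow_iff_left₀ zero_le zero_le hN.ne').mp h.le)
    ((pow_le_pow_iff_left₀ zero_le zero_le hN.ne').mp h.ge)

end Fermat.Agent.S36
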