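import Fermat.Agent.S36.Val3Three
import Fermat.Agent.S36.Val3Eq
import Fermat.Agent.S36.NormRes2
import Fermat.Agent.S36.Val3FF
import Fermat.Agent.S36.Val3Disc
import Fermat.Agent.S36.BaseLCyc
import Fermat.Agent.S36.OrdQFrob
import Fermat.Agent.S19.Teich
import Fermat.Agent.S36.OrdQInst
import Fermat.Agent.S34.ValWire
import Fermat.Agent.S34.StraightInst

/-!
# TRACK 10 (S36), package VAL3-FVRES (helper9): the reduction along `FV` of an inertia-fixed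
function lies in `κ`

`A ⊂ ℚ̄` a valuation subring over `q`, `I` its inertia group, `k` its residue field,
`κ = modularFunctionFieldFullC k M ⊂ k((t))`, `ι_ζ = S36V_emFV ζ` the embedding of
`F₂ = F_{M q²}` at the middle cusp.

* `S36VQ_resA` : the action of `τ ∈ I` on `A`; it is trivial on the residue field;
* `S36VQ_transport` : if `τ (φ f) = φ' f` coefficientwise, `τ ∈ I`, then `f ∈ G(φ) → f ∈ G(φ')`
  with the same reduction;
* `S36VQ_all_zeta` : an `I`-fixed `f ∈ G(ι_ζ)` lies in `G(ι_ζ')` for every primitive `ζ'`, with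
  the same reduction;
* `S36VQ_t1` : the multiplier `t₁ = C − B^q` (`emFF t₁ ∈ q·ℤ((t))`, `red_FV t₁ = j̄ − j̄^{q²}`);
* `S36VQ_trace` : for `g ∈ G(emFF) ∩ ⋂ G(ι_ζ')`, `I`-fixed:
  `red_F (Tr_α g) = red_FF g − red_FV g`;
* `S36VQ_main` : **`red_FV f ∈ κ`** for every `I`-fixed `f ∈ G(ι_ζ)`.
-/

set_option autoImplicit false
set_option synthInstance.maxHeartbeats 400000
set_option maxHeartbeats 1000000
set_option linter.style.haveILetI false
set_option linter.unusedSectionVars false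
set_option linter.unusedVariables false

open HahnSeries IntermediateField AlgebraicCurve ModularCurve

noncomputable section

namespace Fermat.Agent.S36

open Fermat.Agent.S18 Fermat.Agent.S24 Fermat.Agent.S34 Fermat.Agent.S35 Fermat.Agent.S37
open Fermat.Agent.GalRep Fermat.Agent.Lib Fermat.Agent.S19

local notation "ℚbar" => AlgebraicClosure ℚ

/-! ### the inertia group acts on `A((t))`, trivially modulo the maximal ideal -/

section Inertia

variable (A : ValuationSubring ℚbar)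

theorem S36VQ_gal_mem {τ : GQ} (hτ : τ ∈ A.inertiaSubgroupIn ℚ) {x : ℚbar} (hx : x ∈ A) :
    τ x ∈ A := by
  have h := S19TE_inertia_sub_mem (A := A) hτ hx
  have h1 : τ x - x ∈ A := A.nonunits_subset h
  have := A.add_mem _ _ h1 hx
  rwa [sub_add_cancel] at this

/-- the action of an inertia element on `A`. -/
def S36VQ_resA (τ : GQ) (hτ : τ ∈ A.inertiaSubgroupIn ℚ) : A →+* A where
  toFun a := ⟨τ a, S36VQ_gal_mem A hτ a.2⟩
  map_one' := Subtype.ext (map_one τ)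
  map_mul' a b := Subtype.ext (map_mul τ _ _)
  map_zero' := Subtype.ext (map_zero τ)
  map_add' a b := Subtype.ext (map_add τ _ _)

theorem S36VQ_resA_coe (τ : GQ) (hτ : τ ∈ A.inertiaSubgroupIn ℚ) (a : A) :
    ((S36VQ_resA A τ hτ a : A) : ℚbar) = τ a := rfl

theorem S36VQ_residue_resA (τ : GQ) (hτ : τ ∈ A.inertiaSubgroupIn ℚ) (a : A) :
    IsLocalRing.residue A (S36VQ_resA A τ hτ a) = IsLocalRing.residue A a := by
  rw [← sub_eq_zero, ← map_sub, IsLocalRing.residue_eq_zero_iff,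
    ← ValuationSubring.coe_mem_nonunits_iff]
  exact S19TE_inertia_sub_mem (A := A) hτ a.2

theorem S36VQ_ι_resA (τ : GQ) (hτ : τ ∈ A.inertiaSubgroupIn ℚ) (s : LaurentSeries A) :
    coeffMap (τ : ℚbar →+* ℚbar) (S18_ι A s) = S18_ι A (coeffMap (S36VQ_resA A τ hτ) s) := by
  ext n
  rfl

theorem S36VQ_ρ_resA (τ : GQ) (hτ : τ ∈ A.inertiaSubgroupIn ℚ) (s : LaurentSeries A) :
    S18_ρ A (coeffMap (S36VQ_resA A τ hτ) s) = S18_ρ A s := by
  ext n
  rw [coeffMap_coeff, coeffMap_coeff, coeffMap_coeff]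
  exact S36VQ_residue_resA A τ hτ _

/-- **transport along an inertia element**: if `τ (φ f) = φ' f` coefficientwise then
`f ∈ G(φ) → f ∈ G(φ')`, with the same reduction. -/
theorem S36VQ_transport {F : Type*} [Field F] (φ φ' : F →+* LaurentSeries ℚbar) (τ : GQ)
    (hτ : τ ∈ A.inertiaSubgroupIn ℚ) (f : F)
    (h : coeffMap (τ : ℚbar →+* ℚbar) (φ f) = φ' f) (hf : f ∈ S36V_G A φ) :
    ∃ hf' : f ∈ S36V_G A φ', S36V_Gred A φ' ⟨f, hf'⟩ = S36V_Gred A φ ⟨f, hf⟩ := by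
  have hf0 := hf
  obtain ⟨s₁, s₂, hne, e⟩ := hf0
  have hne' : S18_ρ A (coeffMap (S36VQ_resA A τ hτ) s₂) ≠ 0 := by
    rw [S36VQ_ρ_resA]; exact hne
  have e' : φ' f * S18_ι A (coeffMap (S36VQ_resA A τ hτ) s₂) =
      S18_ι A (coeffMap (S36VQ_resA A τ hτ) s₁) := by
    rw [← S36VQ_ι_resA, ← S36VQ_ι_resA, ← h, ← map_mul, e]
  have hf' : f ∈ S36V_G A φ' := S36V_G_of_rep A φ' hne' e'
  refine ⟨hf', ?_⟩
  rw [S36V_Gred_eq A φ' hf' hne' e', S36V_Gred_eq A φ hf hne e, S36VQ_ρ_resA, S36VQ_ρ_resA]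

end Inertia

/-! ### all the embeddings `ι_ζ'` give the same Gauss ring on `I`-fixed functions -/

section AllZeta

variable (M q : ℕ) [NeZero M] [NeZero q] (hq : q.Prime) (hqM : ¬ q ∣ M)
  (A : ValuationSubring ℚbar) (hA : A.LiesOverPrime q)

include hq in
theorem S36VQ_prim (ζ : ℚbarˣ) (hζ : ζ ^ q = 1) (hζ1 : ζ ≠ 1) :
    IsPrimitiveRoot (ζ : ℚbar) q := by
  haveI : Fact q.Prime := ⟨hq⟩
  have h1 : (ζ : ℚbar) ^ q = 1 := by rw [← Units.val_pow_eq_pow_val, hζ, Units.val_one]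
  have h2 : (ζ : ℚbar) ≠ 1 := fun h => hζ1 (Units.ext h)
  have := orderOf_eq_prime h1 h2
  rw [← this]
  exact IsPrimitiveRoot.orderOf _

include hA in
/-- an `I`-fixed element of `G(ι_ζ)` lies in `G(ι_ζ')` for every primitive `ζ'`, with the same
reduction. -/
theorem S36VQ_all_zeta (ζ : ℚbarˣ) (hζ : ζ ^ q = 1) (hζ1 : ζ ≠ 1)
    (ζ' : ℚbarˣ) (hζ' : ζ' ^ q = 1) (hζ'1 : ζ' ≠ 1)
    (f : ↥(modularFunctionFieldBar (M * q * q)))
    (hfix : ∀ τ ∈ A.inertiaSubgroupIn ℚ, GR_gal (M * q * q) τ f = f)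
    (hf : f ∈ S36V_G A (S36V_emFV M q hq hqM ζ hζ hζ1)) :
    ∃ hf' : f ∈ S36V_G A (S36V_emFV M q hq hqM ζ' hζ' hζ'1),
      S36V_Gred A (S36V_emFV M q hq hqM ζ' hζ' hζ'1) ⟨f, hf'⟩ =
        S36V_Gred A (S36V_emFV M q hq hqM ζ hζ hζ1) ⟨f, hf⟩ := by
  haveI : Fact q.Prime := ⟨hq⟩
  obtain ⟨τ, hτ, hτζ⟩ := S36BL_inertia_transitive A hA (S36VQ_prim q hq ζ hζ hζ1)
    (S36VQ_prim q hq ζ' hζ' hζ'1)
  refine S36VQ_transport A _ _ τ hτ f ?_ hf
  have h := S36VE_iota_gal M q hq hqM τ ζ hζ hζ1 ζ' hζ' hζ'1 hτζ.symm f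
  rw [hfix τ hτ] at h
  exact h

end AllZeta

/-! ### the multiplier `t₁ = C − B^q` -/

section Mult

variable (M q : ℕ) [NeZero M] [NeZero q] (hq : q.Prime) (hqM : ¬ q ∣ M)
  (A : ValuationSubring ℚbar)

/-- `B = j(qz)` as an element of `F_{M q²}`. -/
def S36VQ_B : ↥(modularFunctionFieldBar (M * q * q)) :=
  heckeAlphaBar ℚbar (M * q) q (heckeBetaBar ℚbar M q (jB M))

/-- `C = j(q²z)` as an element of `F_{M q²}`. -/
def S36VQ_C : ↥(modularFunctionFieldBar (M * q * q)) :=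
  heckeBetaBar ℚbar (M * q) q (heckeBetaBar ℚbar M q (jB M))

/-- the multiplier `t₁ = C − B^q`. -/
def S36VQ_t1 : ↥(modularFunctionFieldBar (M * q * q)) := S36VQ_C M q - S36VQ_B M q ^ q

theorem S36VQ_coe_B :
    ((S36VQ_B M q : ↥(modularFunctionFieldBar (M * q * q))) : LaurentSeries ℚbar) =
      qExpand ℚbar q (jqModC ℚbar) := by
  rw [S36VQ_B, coe_heckeAlphaBar, coe_heckeBetaBar, S24_deg_jB_val]

theorem S36VQ_coe_C :
    ((S36VQ_C M q : ↥(modularFunctionFieldBar (M * q * q))) : LaurentSeries ℚbar) =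
      qExpand ℚbar q (qExpand ℚbar q (jqModC ℚbar)) := by
  rw [S36VQ_C, coe_heckeBetaBar, coe_heckeBetaBar, S24_deg_jB_val]

/-- `t₁` is fixed by the whole Galois group. -/
theorem S36VQ_gal_t1 (σ : GQ) : GR_gal (M * q * q) σ (S36VQ_t1 M q) = S36VQ_t1 M q := by
  have hB : GR_gal (M * q * q) σ (S36VQ_B M q) = S36VQ_B M q := by
    rw [S36VQ_B, S36VE_gal_alpha, S36VE_gal_beta, S34SW_gal_jB]
  have hC : GR_gal (M * q * q) σ (S36VQ_C M q) = S36VQ_C M q := by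
    rw [S36VQ_C, S36VE_gal_beta, S36VE_gal_beta, S34SW_gal_jB]
  rw [S36VQ_t1, map_sub, map_pow, hB, hC]

/-- along `FF`: `t₁ = q · γ` with `γ` integral (Frobenius congruence). -/
theorem S36VQ_t1_FF [Fact q.Prime] :
    ∃ γ : LaurentSeries A, S36V_emFF M q (S36VQ_t1 M q) =
      S18_ι A (HahnSeries.C ((q : ℕ) : A) * γ) := by
  obtain ⟨γ, hγ⟩ := S36OQ_frob_int q (qExpand ℤ q (jqModC ℤ))
  refine ⟨coeffMap (Int.castRingHom A) γ, ?_⟩
  have h1 := congrArg (coeffMap (Int.castRingHom ℚbar)) hγ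
  rw [map_sub, map_pow, map_mul, S36OQ_coeffMap_qExpand, S36OQ_coeffMap_qExpand,
    coeffMap_jqModC] at h1
  rw [S36V_emFF_apply, S36VQ_t1]
  push_cast
  rw [S36VQ_coe_B, S36VQ_coe_C, h1, map_mul, coeffMap_coeffMap]
  congr 1
  ext n
  simp

variable (ζ : ℚbarˣ) (hζ : ζ ^ q = 1) (hζ1 : ζ ≠ 1)

/-- the integral series of `t₁` along `FV`: `j(ζ t) − j(t^q)^q`. -/
def S36VQ_s : LaurentSeries A :=
  ES_tw (S36V_zetaA q A ζ hζ) (jqModC A) - (qExpand A q (jqModC A)) ^ q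

/-- along `FV`: `t₁` is the integral series `j(ζ t) − j(t^q)^q`. -/
theorem S36VQ_t1_FV :
    S36V_emFV M q hq hqM ζ hζ hζ1 (S36VQ_t1 M q) = S18_ι A (S36VQ_s q A ζ hζ) := by
  have hC : S36V_emFV M q hq hqM ζ hζ hζ1 (S36VQ_C M q) = ES_tw ζ (jqModC ℚbar) := by
    have := S36OQ_iota_dC M q hq hqM ζ hζ hζ1 (jB M)
    rw [S24_deg_jB_val] at this
    exact this
  have hB : S36V_emFV M q hq hqM ζ hζ hζ1 (S36VQ_B M q) = qExpand ℚbar q (jqModC ℚbar) := by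
    rw [S36VQ_B, S36V_emFV_alpha, S36V_emF_apply, coe_heckeBetaBar, S24_deg_jB_val]
  have h1 : S18_ι A (S36VQ_s q A ζ hζ) =
      ES_tw ζ (jqModC ℚbar) - (qExpand ℚbar q (jqModC ℚbar)) ^ q := by
    show coeffMap A.subtype (S36VQ_s q A ζ hζ) = _
    rw [S36VQ_s, map_sub, map_pow, ES_coeffMap_tw, S36V_zetaA_map, S36OQ_coeffMap_qExpand,
      coeffMap_jqModC]
  rw [h1, S36VQ_t1, map_sub, map_pow, hC, hB]

/-- the reduction of `t₁` along `FV` is `j̄ − j̄^{q²}`. -/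
theorem S36VQ_rho_s [Fact q.Prime] [CharP (IsLocalRing.ResidueField A) q] :
    S18_ρ A (S36VQ_s q A ζ hζ) =
      jqModC (IsLocalRing.ResidueField A) - jqModC (IsLocalRing.ResidueField A) ^ (q * q) := by
  have h : qExpand (IsLocalRing.ResidueField A) q (jqModC (IsLocalRing.ResidueField A)) =
      jqModC (IsLocalRing.ResidueField A) ^ q := by
    rw [LT_pow_char q (jqModC (IsLocalRing.ResidueField A)), coeffMap_jqModC]
  show coeffMap (IsLocalRing.residue A) (S36VQ_s q A ζ hζ) = _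
  rw [S36VQ_s, map_sub, map_pow, ES_coeffMap_tw, S36V_zetaA_res, ES_tw_one,
    S36OQ_coeffMap_qExpand, coeffMap_jqModC, h, ← pow_mul]

theorem S36VQ_rho_s_ne [Fact q.Prime] [CharP (IsLocalRing.ResidueField A) q] :
    S18_ρ A (S36VQ_s q A ζ hζ) ≠ 0 := by
  rw [S36VQ_rho_s]
  intro h
  have hq1 : 1 < q := (Fact.out : q.Prime).one_lt
  have hqq : 1 < q * q := by nlinarith
  apply S34VW_jq_pow_ne (IsLocalRing.ResidueField A) (q * q) hqq
  rw [← neg_sub, h, neg_zero]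

theorem S36VQ_rho_s_mem [Fact q.Prime] [CharP (IsLocalRing.ResidueField A) q] :
    S18_ρ A (S36VQ_s q A ζ hζ) ∈ modularFunctionFieldFullC (IsLocalRing.ResidueField A) M := by
  rw [S36VQ_rho_s]
  have hj := jqModC_mem_full (IsLocalRing.ResidueField A) M
  exact sub_mem hj (pow_mem hj _)

/-- `t₁ ∈ G(ι_ζ)` with reduction `j̄ − j̄^{q²}`. -/
theorem S36VQ_t1_mem_FV : S36VQ_t1 M q ∈ S36V_G A (S36V_emFV M q hq hqM ζ hζ hζ1) :=
  S36V_G_of_int A _ (S36VQ_t1_FV M q hq hqM A ζ hζ hζ1)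

theorem S36VQ_t1_red_FV :
    S36V_Gred A (S36V_emFV M q hq hqM ζ hζ hζ1)
      ⟨S36VQ_t1 M q, S36VQ_t1_mem_FV M q hq hqM A ζ hζ hζ1⟩ = S18_ρ A (S36VQ_s q A ζ hζ) :=
  S36V_Gred_of_int A _ (S36VQ_t1_FV M q hq hqM A ζ hζ hζ1) _

end Mult

/-! ### constants -/

section Const

variable (q : ℕ) (hq : q.Prime) (A : ValuationSubring ℚbar) (hA : A.LiesOverPrime q)

/-- a valuation ring is root closed. -/
theorem S36VQ_root_mem {m : ℕ} (hm : 0 < m) {x : ℚbar} (hx : x ^ m ∈ A) : x ∈ A := by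
  rcases A.mem_or_inv_mem x with h | h
  · exact h
  · by_cases hx0 : x = 0
    · rw [hx0]; exact A.zero_mem
    have e : x = x ^ m * x⁻¹ ^ (m - 1) := by
      obtain ⟨n, rfl⟩ : ∃ n, m = n + 1 := ⟨m - 1, by omega⟩
      rw [Nat.add_sub_cancel, pow_succ, inv_pow]
      field_simp
    rw [e]
    exact A.mul_mem _ _ hx (A.pow_mem h _)

include hq hA in
/-- every constant becomes integral after multiplication by a power of `q`. -/
theorem S36VQ_exists_pow_mem (c : ℚbar) : ∃ e : ℕ, c * (q : ℚbar) ^ e ∈ A := by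
  by_cases hc : c = 0
  · exact ⟨0, by rw [hc, zero_mul]; exact A.zero_mem⟩
  have hqA : (q : ℚbar) ∈ A := A.nonunits_subset hA
  have hqA' : ((q : ℚbar))⁻¹ ∉ A := by
    intro h
    have h1 : A.valuation (q : ℚbar) < 1 := A.mem_nonunits_iff.mp hA
    have h2 : A.valuation ((q : ℚbar))⁻¹ ≤ 1 := (A.valuation_le_one_iff _).mpr h
    have hq0 : (q : ℚbar) ≠ 0 := Nat.cast_ne_zero.mpr hq.ne_zero
    have h3 : A.valuation (q : ℚbar) * A.valuation ((q : ℚbar))⁻¹ = 1 := by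
      rw [← map_mul, mul_inv_cancel₀ hq0, map_one]
    have h4 : A.valuation (q : ℚbar) * A.valuation ((q : ℚbar))⁻¹ < 1 := by
      calc A.valuation (q : ℚbar) * A.valuation ((q : ℚbar))⁻¹
          ≤ A.valuation (q : ℚbar) * 1 := mul_le_mul_right h2 _
        _ = A.valuation (q : ℚbar) := mul_one _
        _ < 1 := h1
    rw [h3] at h4
    exact lt_irrefl _ h4
  have halg : IsAlgebraic ℚ c := (AlgebraicClosure.isAlgebraic ℚ).isAlgebraic c
  obtain ⟨m, hm, -, k, hk, -⟩ := S36VD_disc A q hq hqA hqA' _ c hc halg le_rfl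
  refine ⟨k.toNat, ?_⟩
  apply S36VQ_root_mem A hm
  have hq0 : (q : ℚbar) ≠ 0 := Nat.cast_ne_zero.mpr hq.ne_zero
  have h1 : (0 : ℤ) ≤ ((k.toNat * m : ℕ) : ℤ) - k := by
    have h2 : k ≤ (k.toNat : ℤ) := Int.self_le_toNat k
    have h3 : (k.toNat : ℤ) ≤ (k.toNat : ℤ) * (m : ℤ) :=
      le_mul_of_one_le_right (Int.natCast_nonneg _) (by exact_mod_cast hm)
    push_cast
    omega
  have hn : k + (((((k.toNat * m : ℕ) : ℤ) - k).toNat : ℕ) : ℤ) = ((k.toNat * m : ℕ) : ℤ) := by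
    rw [Int.toNat_of_nonneg h1]
    ring
  have e : (c * (q : ℚbar) ^ k.toNat) ^ m =
      (c ^ m * (q : ℚbar) ^ k) * (q : ℚbar) ^ (((k.toNat * m : ℕ) : ℤ) - k).toNat := by
    calc (c * (q : ℚbar) ^ k.toNat) ^ m = c ^ m * (q : ℚbar) ^ (k.toNat * m) := by
          rw [mul_pow, ← pow_mul]
      _ = c ^ m * (q : ℚbar) ^ (((k.toNat * m : ℕ) : ℤ)) := by rw [zpow_natCast]
      _ = c ^ m * ((q : ℚbar) ^ k *
            (q : ℚbar) ^ (((((k.toNat * m : ℕ) : ℤ) - k).toNat : ℕ) : ℤ)) := by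
          rw [← zpow_add₀ hq0, hn]
      _ = (c ^ m * (q : ℚbar) ^ k) *
            (q : ℚbar) ^ (((k.toNat * m : ℕ) : ℤ) - k).toNat := by
          rw [zpow_natCast, mul_assoc]
  rw [e]
  exact A.mul_mem _ _ hk (A.pow_mem hqA _)

end Const

/-! ### the trace -/

section Trace

variable (A : ValuationSubring ℚbar)

/-- the series-level Gauss ring. -/
abbrev S36VQ_G0 : Subring (LaurentSeries ℚbar) := S36V_G A (RingHom.id (LaurentSeries ℚbar))

theorem S36VQ_mem_G0 {F : Type*} [Field F] (φ : F →+* LaurentSeries ℚbar) (f : F) :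
    φ f ∈ S36VQ_G0 A ↔ f ∈ S36V_G A φ :=
  S36V_mem_G_of_eq A (RingHom.id (LaurentSeries ℚbar)) φ rfl

theorem S36VQ_red_G0 {F : Type*} [Field F] (φ : F →+* LaurentSeries ℚbar) (f : F)
    (hf : f ∈ S36V_G A φ) (hf' : φ f ∈ S36VQ_G0 A) :
    S36V_Gred A (RingHom.id (LaurentSeries ℚbar)) ⟨φ f, hf'⟩ = S36V_Gred A φ ⟨f, hf⟩ :=
  S36V_Gred_of_eq A (RingHom.id (LaurentSeries ℚbar)) φ rfl hf' hf

theorem S36VQ_card_Z (q : ℕ) [NeZero q] : Fintype.card (S36NR_Z q) + 1 = q := by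
  classical
  apply le_antisymm
  · have h1 : Fintype.card (Option (S36NR_Z q)) ≤ Fintype.card (S36NR_Y q) := by
      refine Fintype.card_le_of_injective
        (fun o : Option (S36NR_Z q) => (Option.elim o (⟨1, one_pow q⟩ : S36NR_Y q)
          (fun ζ => ⟨ζ.1, ζ.2.1⟩))) ?_
      intro a b hab
      cases a with
      | none =>
        cases b with
        | none => rfl
        | some ζ =>
          exfalso
          have := congrArg (fun z : S36NR_Y q => z.1) hab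
          exact ζ.2.2 this.symm
      | some ζ =>
        cases b with
        | none =>
          exfalso
          have := congrArg (fun z : S36NR_Y q => z.1) hab
          exact ζ.2.2 this
        | some ζ' =>
          have := congrArg (fun z : S36NR_Y q => z.1) hab
          exact congrArg some (Subtype.ext this)
    rw [Fintype.card_option, S36NR_card_Y] at h1
    exact h1
  · have h := S36NR_card_optZ q
    have h2 : Fintype.card (Option (S36NR_Z q)) = Fintype.card (S36NR_Z q) + 1 := by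
      rw [← Fintype.card_option]
    omega

variable (M q : ℕ) [NeZero M] [NeZero q] (hq : q.Prime) (hqM : ¬ q ∣ M)

/-- **the trace along `α` on the reductions**: if `g ∈ G(emFF)` and `g ∈ G(ι_ζ')` with the same
reduction `r` for every `ζ'`, then `Tr_α g ∈ G(emF)` and
`red_F (Tr_α g) = red_FF g − r`. -/
theorem S36VQ_trace [Fact q.Prime] [CharP (IsLocalRing.ResidueField A) q]
    (g : ↥(modularFunctionFieldBar (M * q * q)))
    (hgFF : g ∈ S36V_G A (S36V_emFF M q))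
    (r : LaurentSeries (IsLocalRing.ResidueField A))
    (hgFV : ∀ ζ : S36NR_Z q, ∃ h : g ∈ S36V_G A (S36V_emFV M q hq hqM ζ.1 ζ.2.1 ζ.2.2),
      S36V_Gred A (S36V_emFV M q hq hqM ζ.1 ζ.2.1 ζ.2.2) ⟨g, h⟩ = r) :
    ∃ hT : S36NR_TA M q g ∈ S36V_G A (S36V_emF M q),
      S36V_Gred A (S36V_emF M q) ⟨S36NR_TA M q g, hT⟩ =
        S36V_Gred A (S36V_emFF M q) ⟨g, hgFF⟩ - r := by
  classical
  have key := S36NR_trace_alpha M q hq hqM g
  have h0 : S36V_emFF M q g ∈ S36VQ_G0 A := (S36VQ_mem_G0 A _ g).2 hgFF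
  have hζ : ∀ ζ : S36NR_Z q, S36V_emFV M q hq hqM ζ.1 ζ.2.1 ζ.2.2 g ∈ S36VQ_G0 A :=
    fun ζ => (S36VQ_mem_G0 A _ g).2 (hgFV ζ).1
  set X0 : ↥(S36VQ_G0 A) := ⟨S36V_emFF M q g, h0⟩ with hX0
  set X : S36NR_Z q → ↥(S36VQ_G0 A) :=
    fun ζ => ⟨S36V_emFV M q hq hqM ζ.1 ζ.2.1 ζ.2.2 g, hζ ζ⟩ with hX
  have hsum : ((X0 + ∑ ζ, X ζ : ↥(S36VQ_G0 A)) : LaurentSeries ℚbar) =
      S36V_emF M q (S36NR_TA M q g) := by
    rw [S36V_emF_apply, key]
    push_cast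
    rfl
  have hT0 : S36V_emF M q (S36NR_TA M q g) ∈ S36VQ_G0 A := by
    rw [← hsum]
    exact (X0 + ∑ ζ, X ζ).2
  have hT : S36NR_TA M q g ∈ S36V_G A (S36V_emF M q) := (S36VQ_mem_G0 A _ _).1 hT0
  refine ⟨hT, ?_⟩
  have e1 : S36V_Gred A (S36V_emF M q) ⟨S36NR_TA M q g, hT⟩ =
      S36V_Gred A (RingHom.id (LaurentSeries ℚbar)) ⟨S36V_emF M q (S36NR_TA M q g), hT0⟩ :=
    (S36VQ_red_G0 A _ _ hT hT0).symm
  have e2 : (⟨S36V_emF M q (S36NR_TA M q g), hT0⟩ : ↥(S36VQ_G0 A)) = X0 + ∑ ζ, X ζ :=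
    Subtype.ext hsum.symm
  have e3 : S36V_Gred A (RingHom.id (LaurentSeries ℚbar)) X0 =
      S36V_Gred A (S36V_emFF M q) ⟨g, hgFF⟩ := S36VQ_red_G0 A _ g hgFF h0
  have e4 : ∀ ζ, S36V_Gred A (RingHom.id (LaurentSeries ℚbar)) (X ζ) = r :=
    fun ζ => (S36VQ_red_G0 A _ g (hgFV ζ).1 (hζ ζ)).trans (hgFV ζ).2
  have hchar : CharP (LaurentSeries (IsLocalRing.ResidueField A)) q :=
    charP_of_injective_algebraMap
      (algebraMap (IsLocalRing.ResidueField A)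
        (LaurentSeries (IsLocalRing.ResidueField A))).injective q
  have hcard : ((Fintype.card (S36NR_Z q) : ℕ) :
      LaurentSeries (IsLocalRing.ResidueField A)) = -1 := by
    have h1 := S36VQ_card_Z q
    have h2 : ((Fintype.card (S36NR_Z q) + 1 : ℕ) :
        LaurentSeries (IsLocalRing.ResidueField A)) = 0 := by
      rw [h1]
      exact CharP.cast_eq_zero _ q
    push_cast at h2
    linear_combination h2
  rw [e1, e2, map_add, map_sum, e3, Finset.sum_congr rfl (fun ζ _ => e4 ζ), Finset.sum_const,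
    Finset.card_univ, nsmul_eq_mul, hcard]
  ring

end Trace

/-! ### the main theorem -/

section Main

variable (M q : ℕ) [NeZero M] [NeZero q] (hq : q.Prime) (hqM : ¬ q ∣ M)
  (A : ValuationSubring ℚbar) (hA : A.LiesOverPrime q)

include hq hqM hA in
/-- for every `f` there is `e` with `f · t₁^e ∈ G(emFF)`. -/
theorem S36VQ_exists_mul_mem [Fact q.Prime] (f : ↥(modularFunctionFieldBar (M * q * q))) :
    ∃ e : ℕ, f * S36VQ_t1 M q ^ e ∈ S36V_G A (S36V_emFF M q) := by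
  by_cases hf : f = 0
  · exact ⟨0, by rw [hf, zero_mul]; exact zero_mem _⟩
  obtain ⟨c, s₁, s₂, hc, h1, h2, hrep⟩ := S36VF_exists_rep M q hq hqM A hA f hf
  obtain ⟨e, he⟩ := S36VQ_exists_pow_mem q hq A hA c
  obtain ⟨γ, hγ⟩ := S36VQ_t1_FF M q A
  have hne : S18_ρ A s₂.1 ≠ 0 := by
    intro h0
    apply h2
    exact Subtype.ext h0
  have hrep' : (f : LaurentSeries ℚbar) * S18_ι A s₂.1 =
      algebraMap ℚbar (LaurentSeries ℚbar) c * S18_ι A s₁.1 :=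
    congrArg (fun z : ↥(modularFunctionFieldBar (M * q * q)) => (z : LaurentSeries ℚbar)) hrep
  refine ⟨e, S36V_G_of_rep A _
    (s₁ := HahnSeries.C (⟨c * (q : ℚbar) ^ e, he⟩ : A) * s₁.1 * γ ^ e) (s₂ := s₂.1) hne ?_⟩
  rw [map_mul, map_pow, hγ, S36V_emFF_apply]
  simp only [map_mul, map_pow, S18_ι_C]
  have hq' : (((q : ℕ) : A) : ℚbar) = (q : ℚbar) := by push_cast; rfl
  rw [hq']
  linear_combination ((algebraMap ℚbar (LaurentSeries ℚbar) (q : ℚbar) *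
    S18_ι A γ) ^ e) * hrep'

include hA in
/-- **VAL3-FVRES**: the reduction along `FV` of an inertia-fixed function lies in
`κ = modularFunctionFieldFullC k M`.  (`hFF`, `hF`: the reductions along `emFF` and `emF` lie in
`κ`; VAL3-RES.) -/
theorem S36VQ_main [Fact q.Prime] [CharP (IsLocalRing.ResidueField A) q]
    (hFF : ∀ (g : ↥(modularFunctionFieldBar (M * q * q))) (hg : g ∈ S36V_G A (S36V_emFF M q)),
      S36V_Gred A (S36V_emFF M q) ⟨g, hg⟩ ∈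
        modularFunctionFieldFullC (IsLocalRing.ResidueField A) M)
    (hF : ∀ (s : ↥(modularFunctionFieldBar (M * q))) (hs : s ∈ S36V_G A (S36V_emF M q)),
      S36V_Gred A (S36V_emF M q) ⟨s, hs⟩ ∈
        modularFunctionFieldFullC (IsLocalRing.ResidueField A) M)
    (ζ : ℚbarˣ) (hζ : ζ ^ q = 1) (hζ1 : ζ ≠ 1)
    (f : ↥(modularFunctionFieldBar (M * q * q)))
    (hfix : ∀ τ ∈ A.inertiaSubgroupIn ℚ, GR_gal (M * q * q) τ f = f)
    (hf : f ∈ S36V_G A (S36V_emFV M q hq hqM ζ hζ hζ1)) :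
    S36V_Gred A (S36V_emFV M q hq hqM ζ hζ hζ1) ⟨f, hf⟩ ∈
      modularFunctionFieldFullC (IsLocalRing.ResidueField A) M := by
  obtain ⟨e, hgFF⟩ := S36VQ_exists_mul_mem M q hq hqM A hA f
  set r := S36V_Gred A (S36V_emFV M q hq hqM ζ hζ hζ1) ⟨f, hf⟩ with hr
  set ρt : LaurentSeries (IsLocalRing.ResidueField A) :=
    jqModC (IsLocalRing.ResidueField A) - jqModC (IsLocalRing.ResidueField A) ^ (q * q) with hρt
  have hgFV : ∀ ζ' : S36NR_Z q,
      ∃ h : f * S36VQ_t1 M q ^ e ∈ S36V_G A (S36V_emFV M q hq hqM ζ'.1 ζ'.2.1 ζ'.2.2),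
        S36V_Gred A (S36V_emFV M q hq hqM ζ'.1 ζ'.2.1 ζ'.2.2) ⟨f * S36VQ_t1 M q ^ e, h⟩ =
          r * ρt ^ e := by
    intro ζ'
    obtain ⟨hf', hfr⟩ := S36VQ_all_zeta M q hq hqM A hA ζ hζ hζ1 ζ'.1 ζ'.2.1 ζ'.2.2 f hfix hf
    have ht := S36VQ_t1_mem_FV M q hq hqM A ζ'.1 ζ'.2.1 ζ'.2.2
    have hg' : f * S36VQ_t1 M q ^ e ∈ S36V_G A (S36V_emFV M q hq hqM ζ'.1 ζ'.2.1 ζ'.2.2) :=
      mul_mem hf' (pow_mem ht e)
    refine ⟨hg', ?_⟩
    have e1 : (⟨f * S36VQ_t1 M q ^ e, hg'⟩ :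
        ↥(S36V_G A (S36V_emFV M q hq hqM ζ'.1 ζ'.2.1 ζ'.2.2))) =
        ⟨f, hf'⟩ * ⟨S36VQ_t1 M q, ht⟩ ^ e := rfl
    rw [e1, map_mul, map_pow, hfr, S36VQ_t1_red_FV, S36VQ_rho_s]
  obtain ⟨hT, hTr⟩ := S36VQ_trace A M q hq hqM (f * S36VQ_t1 M q ^ e) hgFF (r * ρt ^ e) hgFV
  have h1 : r * ρt ^ e ∈ modularFunctionFieldFullC (IsLocalRing.ResidueField A) M := by
    have h2 : r * ρt ^ e = S36V_Gred A (S36V_emFF M q) ⟨f * S36VQ_t1 M q ^ e, hgFF⟩ -
        S36V_Gred A (S36V_emF M q) ⟨S36NR_TA M q (f * S36VQ_t1 M q ^ e), hT⟩ := by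
      rw [hTr]; ring
    rw [h2]
    exact sub_mem (hFF _ hgFF) (hF _ hT)
  have hρ : ρt ∈ modularFunctionFieldFullC (IsLocalRing.ResidueField A) M := by
    have hj := jqModC_mem_full (IsLocalRing.ResidueField A) M
    exact sub_mem hj (pow_mem hj _)
  have hρ0 : ρt ≠ 0 := by
    have := S36VQ_rho_s_ne q A ζ hζ
    rwa [S36VQ_rho_s] at this
  have h3 : r = (r * ρt ^ e) * (ρt ^ e)⁻¹ := by
    field_simp
  rw [h3]
  exact mul_mem h1 (inv_mem (pow_mem hρ e))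

end Main

end Fermat.Agent.S36
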