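import Mathlib
import Fermat.Agent.Lib.DiffExpand

/-!
# TRACK 10 (S36), package WIRE (helper2), layer 3a: small choices for the final instance

Prefix `S36WX_`.

* `S36WX_exists_zeta` : a primitive `q`-th root of unity `ζ ∈ ℚ̄ˣ` (`ζ ^ q = 1`, `ζ ≠ 1`);
* `S36WX_exists_c`    : a constant `c₀ ∈ k` such that `(x − c₀)⁻¹` is regular at finitely many
  given places where `x` is regular (the choice of the chart `U' = {x ≠ c₀}` through the triple
  points);
* `S36WX_inv_sub_regular` : regularity of `(x − c₀)⁻¹` at `P` from `x(P) ≠ c₀`.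
-/

set_option autoImplicit false
set_option linter.unusedSectionVars false

open AlgebraicCurve

namespace Fermat.Agent.S36

open Fermat.Agent.Lib

local notation "ℚbar" => AlgebraicClosure ℚ

/-- a primitive `q`-th root of unity in `ℚ̄`. -/
theorem S36WX_exists_zeta (q : ℕ) (hq : q.Prime) : ∃ ζ : ℚbarˣ, ζ ^ q = 1 ∧ ζ ≠ 1 := by
  haveI : NeZero ((q : ℕ) : ℚbar) := ⟨Nat.cast_ne_zero.2 hq.ne_zero⟩
  obtain ⟨ζ, hζ⟩ := HasEnoughRootsOfUnity.exists_primitiveRoot ℚbar q
  have hu : IsUnit ζ := hζ.isUnit hq.ne_zero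
  refine ⟨hu.unit, ?_, ?_⟩
  · apply Units.ext
    rw [Units.val_pow_eq_pow_val, IsUnit.unit_spec, Units.val_one]
    exact hζ.pow_eq_one
  · intro h
    have h1 : ζ = 1 := by
      have := congrArg Units.val h
      rwa [IsUnit.unit_spec, Units.val_one] at this
    exact hζ.ne_one hq.one_lt h1

section choice

variable {k κ : Type*} [Field k] [Field κ] [Algebra k κ]

/-- `(x − c₀)⁻¹` is regular at a place where `x` is regular with value `≠ c₀`. -/
theorem S36WX_inv_sub_regular (P : Place k κ) {x : κ} (hx : P.adicValuation x ≤ 1) {c₀ : k}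
    (hne : FD_c0 P x ≠ c₀) : P.adicValuation (x - algebraMap k κ c₀)⁻¹ ≤ 1 := by
  have h1 : P.adicValuation (x - algebraMap k κ c₀) ≤ 1 :=
    (Valuation.map_sub _ _ _).trans (max_le hx (P.adicValuation_algebraMap_le_one c₀))
  have h2 : ¬ P.adicValuation (x - algebraMap k κ c₀) < 1 := fun h => hne (FD_c0_unique P h)
  have h3 : P.adicValuation (x - algebraMap k κ c₀) = 1 := le_antisymm h1 (not_lt.1 h2)
  rw [map_inv₀, h3, inv_one]

/-- **the choice of `c₀`**: off the values of `x` at finitely many places. -/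
theorem S36WX_exists_c [Infinite k] (x : κ) (T : Finset (Place k κ))
    (hx : ∀ P ∈ T, P.adicValuation x ≤ 1) :
    ∃ c₀ : k, ∀ P ∈ T, P.adicValuation (x - algebraMap k κ c₀)⁻¹ ≤ 1 := by
  classical
  obtain ⟨c₀, hc₀⟩ := Infinite.exists_notMem_finset (T.image fun P => FD_c0 P x)
  refine ⟨c₀, fun P hP => S36WX_inv_sub_regular P (hx P hP) fun h => hc₀ ?_⟩
  rw [Finset.mem_image]
  exact ⟨P, hP, h⟩

end choice

end Fermat.Agent.S36
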