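import Fermat.Agent.S36.WireInst
import Fermat.Agent.S36.WireTop
import Fermat.Agent.S36.WireConcBase
import Fermat.Agent.S36.Triv3Inst
import Fermat.Agent.S36.Comp3Closed
import Fermat.Agent.S36.HVInst
import Fermat.Agent.S36.ChartsB
import Fermat.Agent.S36.Spec3SepZ
import Fermat.Agent.S36.Inj3B
import Fermat.Agent.S36.HW1Conc
import Fermat.Agent.S36.Triv3U
import Fermat.Agent.S36.Nodal3HintU

/-!
# TRACK 10 (S36), package WIRE (helper2), layer 3b: THE FINAL INSTANCE up to named holes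

Prefix `S36WX_`.  `S36WX_coreL_of_holes` proves `S36WC_CoreL (M q) q p` (CORE over the inertia
field, S36/WireTop.lean) from everything that is landed — `S36CI_Hc`, `S36CI_happrox` (helper13),
`S36FI_SFF/SFV/SVV` (helper1), `S36CZ_C/C'/C''` (helper23), `S36SS_data` (helper3),
`S36SE_XSS`, `S36SE_exists_c`, `S36SE_reg_Z''`, `S36SE_hsep_Z` (helper21), `S36IB_inj` (helper28),
`S36HW_conc` (helper9), `S36N3F_hint` (helper14), `S36TY_geo_U`, `S36TI_hloc` (helper11),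
`S36HV_main`, `S36HV_glue`, `S36HV_nB₁` (helper29) — and the following NAMED HOLES (`Prop`s):

* `S36WX_HoleE`     : the E-block `∃ π₁ π₂, E1F ∧ E1V ∧ E2F ∧ E2V` of `S36HV_main`;
* `S36WX_HoleR13`, `S36WX_HoleR13ss`, `S36WX_HoleLift` : `hR13`, `hR13ss`, `hliftss` of
  `S36TY_geo_U` at the supersingular points;
* `S36WX_HoleG`     : `G` on the chart `U` from `hW1` (`S36WX_holeG_of` : from the three above);
* `S36WX_HoleG'`    : `G'` on the chart `U'` from `hW1` on `U''` and `G`, for every admissible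
  constant `c` whose residue avoids a finite set `T` chosen by the prover.
-/

set_option autoImplicit false
set_option linter.style.haveILetI false
set_option linter.unusedSectionVars false
set_option linter.unusedVariables false
set_option linter.style.longLine false
set_option synthInstance.maxHeartbeats 400000
set_option maxHeartbeats 1000000

open AlgebraicCurve ModularCurve

namespace Fermat.Agent.S36

open Fermat.Agent.S18 Fermat.Agent.S34 Fermat.Agent.S24 Fermat.Agent.S35 Fermat.Agent.GalRep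
open Fermat.Agent.Lib

local notation "ℚbar" => AlgebraicClosure ℚ

attribute [local instance 10] S36CT_alg

section holes

variable (M q : ℕ) [NeZero M] [NeZero q] [NeZero (M * q)] [NeZero (M * q * q)]
  (hq : q.Prime) (hqM : ¬ q ∣ M)
  (A : ValuationSubring ℚbar) (hA : A.LiesOverPrime q)
  (ζ : ℚbarˣ) (hζ : ζ ^ q = 1) (hζ1 : ζ ≠ 1)
  {hgen : PrincipalGeneratedByIntegral A (IsLocalRing.residue A) (M * q)}
  (n : ℕ) (hn : 0 < n)

/-- **HOLE E**: the E-block of `S36HV_main` on the chart `U = S36CZ_C` at the supersingular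
points. -/
def S36WX_HoleE (D : S36SS_Data M q hq hqM A hgen n hn) : Prop :=
  ∀ hC : S36SE_Reg (S36CZ_C M q hq hqM A hA n hn) (S36SE_XSS M q hq hqM A hA D),
  ∃ (π₁ π₂ : ↥D.SS → Fin D.s),
    (∀ y (z : ↥((S34M_chart M q A n hn).Rb₁.map
        (modularFunctionFieldFullC (IsLocalRing.ResidueField A) (M * q)).val))
      (a : ↥(S36CZ_C M q hq hqM A hA n hn).Rb₁) (b : ↥(S36CZ_C M q hq hqM A hA n hn).Rb₂),
      (z : LaurentSeries (IsLocalRing.ResidueField A)) =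
        (S36FI_kappa M A).val (a : ↥(S36FI_kappa M A)) *
          (S36FI_kappa M A).val (b : ↥(S36FI_kappa M A)) ^ (q - 1) →
      S36HV_ev (modularFunctionFieldFullC (IsLocalRing.ResidueField A) (M * q)).val
        (S34M_chart M q A n hn).Rb₁ (D.e₁ (π₁ y)) z =
          S36SE_e₁ (S36CZ_C M q hq hqM A hA n hn) (S36SE_XSS M q hq hqM A hA D) hC y a *
            S36SE_e₂ (S36CZ_C M q hq hqM A hA n hn) (S36SE_XSS M q hq hqM A hA D) hC y b ^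
              (q - 1)) ∧
    (∀ y (z : ↥((S34M_chart M q A n hn).Rb₂.map
        (modularFunctionFieldFullC (IsLocalRing.ResidueField A) (M * q)).val))
      (c : ↥(S36CZ_C M q hq hqM A hA n hn).Rb₃),
      (S36CI_Hc M q hq hqM A hA ζ hζ hζ1 n hn).Ψ
          (z : LaurentSeries (IsLocalRing.ResidueField A)) =
        (S36FI_kappa M A).val (c : ↥(S36FI_kappa M A)) ^ q →
      S36HV_ev (modularFunctionFieldFullC (IsLocalRing.ResidueField A) (M * q)).val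
        (S34M_chart M q A n hn).Rb₂ (D.e₂ (π₁ y)) z =
          S36SE_e₃ (S36CZ_C M q hq hqM A hA n hn) (S36SE_XSS M q hq hqM A hA D) hC y c ^ q) ∧
    (∀ y (z : ↥((S34M_chart M q A n hn).Rb₁.map
        (modularFunctionFieldFullC (IsLocalRing.ResidueField A) (M * q)).val))
      (a : ↥(S36CZ_C M q hq hqM A hA n hn).Rb₁),
      (S36CI_Hc M q hq hqM A hA ζ hζ hζ1 n hn).Ψ
          (z : LaurentSeries (IsLocalRing.ResidueField A)) =
        (S36FI_kappa M A).val (a : ↥(S36FI_kappa M A)) ^ q →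
      S36HV_ev (modularFunctionFieldFullC (IsLocalRing.ResidueField A) (M * q)).val
        (S34M_chart M q A n hn).Rb₁ (D.e₁ (π₂ y)) z =
          S36SE_e₁ (S36CZ_C M q hq hqM A hA n hn) (S36SE_XSS M q hq hqM A hA D) hC y a ^ q) ∧
    (∀ y (z : ↥((S34M_chart M q A n hn).Rb₂.map
        (modularFunctionFieldFullC (IsLocalRing.ResidueField A) (M * q)).val))
      (b : ↥(S36CZ_C M q hq hqM A hA n hn).Rb₂) (c : ↥(S36CZ_C M q hq hqM A hA n hn).Rb₃),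
      (z : LaurentSeries (IsLocalRing.ResidueField A)) =
        (S36FI_kappa M A).val (b : ↥(S36FI_kappa M A)) ^ (q - 1) *
          (S36FI_kappa M A).val (c : ↥(S36FI_kappa M A)) →
      S36HV_ev (modularFunctionFieldFullC (IsLocalRing.ResidueField A) (M * q)).val
        (S34M_chart M q A n hn).Rb₂ (D.e₂ (π₂ y)) z =
          S36SE_e₂ (S36CZ_C M q hq hqM A hA n hn) (S36SE_XSS M q hq hqM A hA D) hC y b ^
              (q - 1) *
            S36SE_e₃ (S36CZ_C M q hq hqM A hA n hn) (S36SE_XSS M q hq hqM A hA D) hC y c)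

/-- `hW1` on a chart, at the supersingular points. -/
def S36WX_HW1 (D : S36SS_Data M q hq hqM A hgen n hn)
    (C : S36L3_Chart ↥(S36FI_act (M * q * q) (A.inertiaSubgroupIn ℚ)).fixK
      ↥(S36FI_act (M * q * q) (A.inertiaSubgroupIn ℚ)).fixF (IsLocalRing.ResidueField A)
      ↥(S36FI_kappa M A) ↥(S36FI_kappa M A) ↥(S36FI_kappa M A) n)
    (hC : S36SE_Reg C (S36SE_XSS M q hq hqM A hA D)) : Prop :=
  ∀ m ∈ S36L3_W (S36FI_same3 M q hq hqM A hA ζ hζ hζ1) C 1, ∀ y,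
    S36SE_e₁ C (S36SE_XSS M q hq hqM A hA D) hC y m.1 =
        S36SE_e₂ C (S36SE_XSS M q hq hqM A hA D) hC y m.2.1 ∧
      S36SE_e₁ C (S36SE_XSS M q hq hqM A hA D) hC y m.1 =
        S36SE_e₃ C (S36SE_XSS M q hq hqM A hA D) hC y m.2.2

/-- **HOLE R13**: `hR13` of `S36TY_geo_U` at the supersingular points. -/
def S36WX_HoleR13 (D : S36SS_Data M q hq hqM A hgen n hn) : Prop :=
  ∀ (P : Place (IsLocalRing.ResidueField A) ↥(S36FI_kappa M A))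
    (hP : ∀ f ∈ (S36CZ_C M q hq hqM A hA n hn).Rb₂, P.adicValuation f ≤ 1),
    (∀ y, P ≠ (S36SE_XSS M q hq hqM A hA D).P₂ y) →
    ∃ ϖ g d : (S36TY_D M q hq hqM A hA ζ hζ hζ1).Λ,
      (d : ↥(S36FI_act (M * q * q) (A.inertiaSubgroupIn ℚ)).fixF) =
        g * (ϖ : ↥(S36FI_act (M * q * q) (A.inertiaSubgroupIn ℚ)).fixF) ^ (q - 2 + 1) /
          ((S36TY_qΛ M q hq hqM A hA ζ hζ hζ1) : (S36TY_D M q hq hqM A hA ζ hζ hζ1).Λ) ∧
      S36LK_y₂ (S36TY_D M q hq hqM A hA ζ hζ hζ1) (S36TY_hle M q hq hqM A hA ζ hζ hζ1 n hn)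
        (S36TY_R M q hq hqM A hA ζ hζ hζ1 n hn)
        ((S36SE_ev (S36CZ_C M q hq hqM A hA n hn).Rb₂ P
            ((S36TY_hRR M q hq hqM A hA).deg_one P) hP :
          ↥(S36CZ_C M q hq hqM A hA n hn).Rb₂ →ₐ[(IsLocalRing.ResidueField A)]
            (IsLocalRing.ResidueField A)) :
          ↥(S36CZ_C M q hq hqM A hA n hn).Rb₂ →+* (IsLocalRing.ResidueField A)) d ≠ 0 ∧
      (ϖ : ↥(S36FI_act (M * q * q) (A.inertiaSubgroupIn ℚ)).fixF) ^ (q - 2 + 1) /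
          ((S36TY_qΛ M q hq hqM A hA ζ hζ hζ1) : (S36TY_D M q hq hqM A hA ζ hζ hζ1).Λ) ∈
        (S36TY_D M q hq hqM A hA ζ hζ hζ1).Ov 1

/-- **HOLE LIFT**: `hliftss` of `S36TY_geo_U` at the supersingular points. -/
def S36WX_HoleLift (D : S36SS_Data M q hq hqM A hgen n hn) : Prop :=
  ∀ (y : ↥D.SS) (a₁ a₂ : ↥(S36FI_kappa M A)),
    (∀ Q : Place (IsLocalRing.ResidueField A) ↥(S36FI_kappa M A),
      Q ∉ {Q : Place (IsLocalRing.ResidueField A) ↥(S36FI_kappa M A) |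
        ¬ Q.adicValuation (S18_jbar M (IsLocalRing.ResidueField A)) ≤ 1} → 0 ≤ Q.ord a₁) →
    (∀ Q : Place (IsLocalRing.ResidueField A) ↥(S36FI_kappa M A),
      Q ∉ {Q : Place (IsLocalRing.ResidueField A) ↥(S36FI_kappa M A) |
        ¬ Q.adicValuation (S18_jbar M (IsLocalRing.ResidueField A)) ≤ 1} → 0 ≤ Q.ord a₂) →
    ∃ (ε : ↥(S36FI_kappa M A)) (f₁ f₂ : (S36TY_D M q hq hqM A hA ζ hζ hζ1).Λ), ε ≠ 0 ∧
      ((S36SE_XSS M q hq hqM A hA D).P₃ y).ord ε = 0 ∧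
      S36CA_compRed (S36FI_SVV M q hq hqM A hA) (S36TY_D M q hq hqM A hA ζ hζ hζ1)
        (S36CW_mem₃ (S36TY_D M q hq hqM A hA ζ hζ hζ1)
          (S36TY_hle M q hq hqM A hA ζ hζ hζ1 n hn)) f₁ = a₁ * ε ∧
      S36CA_compRed (S36FI_SVV M q hq hqM A hA) (S36TY_D M q hq hqM A hA ζ hζ hζ1)
        (S36CW_mem₃ (S36TY_D M q hq hqM A hA ζ hζ hζ1)
          (S36TY_hle M q hq hqM A hA ζ hζ hζ1 n hn)) f₂ = a₂ * ε

/-- **HOLE R13ss**: `hR13ss` of `S36TY_geo_U` at the supersingular points. -/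
def S36WX_HoleR13ss (D : S36SS_Data M q hq hqM A hgen n hn) : Prop :=
  ∀ hC : S36SE_Reg (S36CZ_C M q hq hqM A hA n hn) (S36SE_XSS M q hq hqM A hA D),
  ∀ y : ↥D.SS, ∃ ϖ t₁ t₂ ε : (S36TY_D M q hq hqM A hA ζ hζ hζ1).Λ,
    (ε : ↥(S36FI_act (M * q * q) (A.inertiaSubgroupIn ℚ)).fixF) =
      t₁ * t₂ * (ϖ : ↥(S36FI_act (M * q * q) (A.inertiaSubgroupIn ℚ)).fixF) ^ (q - 2 + 1) /
        ((S36TY_qΛ M q hq hqM A hA ζ hζ hζ1) : (S36TY_D M q hq hqM A hA ζ hζ hζ1).Λ) ∧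
    S36LK_y₁ (S36TY_D M q hq hqM A hA ζ hζ hζ1) (S36TY_hle M q hq hqM A hA ζ hζ hζ1 n hn)
      (S36TY_R M q hq hqM A hA ζ hζ hζ1 n hn)
      ((S36SE_e₁ (S36CZ_C M q hq hqM A hA n hn) (S36SE_XSS M q hq hqM A hA D) hC y :
        ↥(S36CZ_C M q hq hqM A hA n hn).Rb₁ →ₐ[(IsLocalRing.ResidueField A)]
          (IsLocalRing.ResidueField A)) :
        ↥(S36CZ_C M q hq hqM A hA n hn).Rb₁ →+* (IsLocalRing.ResidueField A)) ε ≠ 0 ∧
    (t₁ : ↥(S36FI_act (M * q * q) (A.inertiaSubgroupIn ℚ)).fixF) /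
        ((S36TY_qΛ M q hq hqM A hA ζ hζ hζ1) : (S36TY_D M q hq hqM A hA ζ hζ hζ1).Λ) ∈
      (S36TY_D M q hq hqM A hA ζ hζ hζ1).Ov 0 ∧
    (t₂ : ↥(S36FI_act (M * q * q) (A.inertiaSubgroupIn ℚ)).fixF) /
        ((S36TY_qΛ M q hq hqM A hA ζ hζ hζ1) : (S36TY_D M q hq hqM A hA ζ hζ hζ1).Λ) ∈
      (S36TY_D M q hq hqM A hA ζ hζ hζ1).Ov 2 ∧
    (ϖ : ↥(S36FI_act (M * q * q) (A.inertiaSubgroupIn ℚ)).fixF) ^ (q - 2 + 1) /
        ((S36TY_qΛ M q hq hqM A hA ζ hζ hζ1) : (S36TY_D M q hq hqM A hA ζ hζ hζ1).Λ) ∈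
      (S36TY_D M q hq hqM A hA ζ hζ hζ1).Ov 1

/-- **HOLE G**: the geometric inputs of the chart `U = S36CZ_C` from `hW1`. -/
def S36WX_HoleG (D : S36SS_Data M q hq hqM A hgen n hn) : Prop :=
  ∀ hC : S36SE_Reg (S36CZ_C M q hq hqM A hA n hn) (S36SE_XSS M q hq hqM A hA D),
    S36WX_HW1 M q hq hqM A hA ζ hζ hζ1 n hn D (S36CZ_C M q hq hqM A hA n hn) hC →
    S36TI_Geo (S36FI_same3 M q hq hqM A hA ζ hζ hζ1) (S36CZ_C M q hq hqM A hA n hn)
      (S36SE_XSS M q hq hqM A hA D) hC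
      (S36LC_Kp (S36FI_act (M * q * q) (A.inertiaSubgroupIn ℚ)) n
        (S36FI_SFF M q hq hqM A hA) (S36FI_SFV M q hq hqM A hA ζ hζ hζ1)
        (S36FI_SVV M q hq hqM A hA))

/-- **HOLE G'**: the geometric inputs of the chart `U' = S36CZ_C' c` from `hW1` on `U''` and
`G` on `U`, for every admissible constant `c` whose residue avoids a finite set `T` (chosen by
the prover). -/
def S36WX_HoleG' (D : S36SS_Data M q hq hqM A hgen n hn) : Prop :=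
  ∃ T : Finset (IsLocalRing.ResidueField A), ∀ c : (S36FI_SFF M q hq hqM A hA).A,
    (S36FI_SFF M q hq hqM A hA).res c ∉ T → S36SE_Cok M q hq hqM A hA D c →
    ∀ hX : S36SE_Reg (S36CZ_C'' M q hq hqM A hA c n hn) (S36SE_XSS M q hq hqM A hA D),
    S36WX_HW1 M q hq hqM A hA ζ hζ hζ1 n hn D (S36CZ_C'' M q hq hqM A hA c n hn) hX →
    S36TI_Geo (S36FI_same3 M q hq hqM A hA ζ hζ hζ1) (S36CZ_C M q hq hqM A hA n hn)
      (S36SE_XSS M q hq hqM A hA D) (hX.of_le (S36CZ_hle M q hq hqM A hA c n hn))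
      (S36LC_Kp (S36FI_act (M * q * q) (A.inertiaSubgroupIn ℚ)) n
        (S36FI_SFF M q hq hqM A hA) (S36FI_SFV M q hq hqM A hA ζ hζ hζ1)
        (S36FI_SVV M q hq hqM A hA)) →
    S36TI_Geo (S36FI_same3 M q hq hqM A hA ζ hζ hζ1) (S36CZ_C' M q hq hqM A hA c n hn)
      (S36SE_XSS M q hq hqM A hA D) (hX.of_le (S36CZ_hle' M q hq hqM A hA c n hn))
      (S36LC_Kp (S36FI_act (M * q * q) (A.inertiaSubgroupIn ℚ)) n
        (S36FI_SFF M q hq hqM A hA) (S36FI_SFV M q hq hqM A hA ζ hζ hζ1)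
        (S36FI_SVV M q hq hqM A hA))

include hA in
/-- `G` on `U` from the three holes of `S36TY_geo_U` (`hint_j` : helper14, `hsep` : helper21). -/
theorem S36WX_holeG_of (D : S36SS_Data M q hq hqM A hgen n hn)
    (h13 : S36WX_HoleR13 M q hq hqM A hA ζ hζ hζ1 n hn D)
    (hlift : S36WX_HoleLift M q hq hqM A hA ζ hζ hζ1 n hn D)
    (h13ss : S36WX_HoleR13ss M q hq hqM A hA ζ hζ hζ1 n hn D) :
    S36WX_HoleG M q hq hqM A hA ζ hζ hζ1 n hn D := by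
  intro hC hW1C
  obtain ⟨hint₁, hint₂, hint₃⟩ := S36N3F_hint M q hq hqM A hA ζ hζ hζ1 n hn D hC
  exact S36TY_geo_U M q hq hqM A hA ζ hζ hζ1 n hn (X := S36SE_XSS M q hq hqM A hA D) (hC := hC)
    hW1C hint₁ hint₂ hint₃ (S36SE_hsep_Z M q hq hqM A hA ζ hζ hζ1 n hn D hC) h13 hlift
    (h13ss hC)

end holes

/-- **THE FINAL INSTANCE up to the named holes.** -/
theorem S36WX_coreL_of_holes (M q p : ℕ) [NeZero M] [NeZero q] [NeZero (M * q)]
    [NeZero (M * q * q)] [hqP : Fact q.Prime] [hpP : Fact p.Prime] (hqM : ¬ q ∣ M) (hqp : q ≠ p)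
    (H : ∀ (k : ℕ) (A : ValuationSubring ℚbar) (hA : A.LiesOverPrime q)
      (ζ : ℚbarˣ) (hζ : ζ ^ q = 1) (hζ1 : ζ ≠ 1)
      (D : S36SS_Data M q hqP.out hqM A (S34VH_hgen M q hqP.out hqM A hA) (p ^ k)
        (pow_pos hpP.out.pos k)),
      S36WX_HoleE M q hqP.out hqM A hA ζ hζ hζ1 (p ^ k) (pow_pos hpP.out.pos k) D ∧
      S36WX_HoleG M q hqP.out hqM A hA ζ hζ hζ1 (p ^ k) (pow_pos hpP.out.pos k) D ∧
      S36WX_HoleG' M q hqP.out hqM A hA ζ hζ hζ1 (p ^ k) (pow_pos hpP.out.pos k) D) :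
    S36WC_CoreL (M * q) q p := by
  have hq : q.Prime := hqP.out
  have hq2 : 2 ≤ q := hq.two_le
  refine ⟨(q + 1) * (q - 1) * (q ^ 2 - 1), ?_, fun k A hA f hf0 hfix hkum hTA hTB => ?_⟩
  · have h1 : 0 < q - 1 := by omega
    have h2 : 0 < q ^ 2 - 1 := by
      have : 4 ≤ q ^ 2 := by nlinarith
      omega
    positivity
  -- the exponent
  have hn : 0 < p ^ k := pow_pos hpP.out.pos k
  have hnq : Nat.Coprime (p ^ k) q :=
    Nat.Coprime.pow_left k ((Nat.coprime_primes hpP.out hq).2 (Ne.symm hqp))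
  -- a primitive q-th root of unity
  obtain ⟨ζ, hζ, hζ1⟩ := S36WX_exists_zeta q hq
  haveI : CharP (IsLocalRing.ResidueField A) q := S18_residue_charP A q hq hA
  haveI : IsAlgClosed (IsLocalRing.ResidueField A) := S18_residue_isAlgClosed A
  haveI : Infinite (IsLocalRing.ResidueField A) := IsAlgClosed.instInfinite
  -- [A] COMP3
  set Hc := S36CI_Hc M q hq hqM A hA ζ hζ hζ1 (p ^ k) hn with hHc
  -- abbreviations
  set S := S36FI_act (M * q * q) (A.inertiaSubgroupIn ℚ) with hSdef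
  set S₁ := S36FI_SFF M q hq hqM A hA with hS₁
  set S₂ := S36FI_SFV M q hq hqM A hA ζ hζ hζ1 with hS₂
  set S₃ := S36FI_SVV M q hq hqM A hA with hS₃
  have hS : S36L3_Same S₁ S₂ S₃ := S36FI_same3 M q hq hqM A hA ζ hζ hζ1
  -- the supersingular points
  have hgen : PrincipalGeneratedByIntegral A (IsLocalRing.residue A) (M * q) :=
    S34VH_hgen M q hq hqM A hA
  obtain ⟨D⟩ := S36SS_data M q hq hqM A hA hgen (p ^ k) hn
  obtain ⟨HE, HG, T, HG'⟩ := H k A hA ζ hζ hζ1 D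
  set X := S36SE_XSS M q hq hqM A hA D with hXdef
  -- the constant `c`
  obtain ⟨c, hcT, hcX⟩ := S36SE_exists_c M q hq hqM A hA D T
  -- the charts
  set C := S36CZ_C M q hq hqM A hA (p ^ k) hn with hCdef
  set C' := S36CZ_C' M q hq hqM A hA c (p ^ k) hn with hC'def
  set C'' := S36CZ_C'' M q hq hqM A hA c (p ^ k) hn with hC''def
  have hle : S36L3_ChartLE C C'' := S36CZ_hle M q hq hqM A hA c (p ^ k) hn
  have hle' : S36L3_ChartLE C' C'' := S36CZ_hle' M q hq hqM A hA c (p ^ k) hn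
  have hX : S36SE_Reg C'' X := S36SE_reg_Z'' M q hq hqM A hA (p ^ k) hn D c hcX
  -- [F] the E-block
  obtain ⟨π₁, π₂, E1F, E1V, E2F, E2V⟩ := HE (hX.of_le hle)
  -- the level-`q` block (as in `S36HV_main`)
  have hL : ∀ c : ↥(S36FI_act (M * q * q) (A.inertiaSubgroupIn ℚ)).fixK, ∃ a : ℚbar,
      ((algebraMap ↥(S36FI_act (M * q * q) (A.inertiaSubgroupIn ℚ)).fixK
        ↥(S36FI_act (M * q) (A.inertiaSubgroupIn ℚ)).fixF c :
        ↥(S36FI_act (M * q) (A.inertiaSubgroupIn ℚ)).fixF) : ↥(modularFunctionFieldBar (M * q))) =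
        algebraMap ℚbar ↥(modularFunctionFieldBar (M * q)) a := fun c =>
    ⟨_, S36CT_algebraMap_coe (M * q * q) (M * q) (A.inertiaSubgroupIn ℚ) c⟩
  -- hW1 on U''
  have hW1 : ∀ m ∈ S36L3_W hS C'' 1, ∀ y,
      S36SE_e₁ C'' X hX y m.1 = S36SE_e₂ C'' X hX y m.2.1 ∧
      S36SE_e₁ C'' X hX y m.1 = S36SE_e₃ C'' X hX y m.2.2 := by
    refine S36HW_conc M q hq hqM A hA ζ hζ hζ1 c (p ^ k) hn
      (S18_hk M A hq hA hqM).principal hq2 Hc
      (S36CI_Hc_FF_O M q hq hqM A hA ζ hζ hζ1 (p ^ k) hn)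
      (S36CI_Hc_FV_O M q hq hqM A hA ζ hζ hζ1 (p ^ k) hn)
      (S36CI_Hc_VV_O M q hq hqM A hA ζ hζ hζ1 (p ^ k) hn)
      (S36FI_kappa M A).val (S36FI_kappa M A).val (S36FI_kappa M A).val
      (fun x h h' => S36CI_Hc_FF_ρ M q hq hqM A hA ζ hζ hζ1 (p ^ k) hn x h)
      (fun x h h' => S36CI_Hc_FV_ρ M q hq hqM A hA ζ hζ hζ1 (p ^ k) hn x h)
      (fun x h h' => S36CI_Hc_VV_ρ M q hq hqM A hA ζ hζ hζ1 (p ^ k) hn x h)
      X hX
      (S36HV_B₁ (S36FI_act (M * q) (A.inertiaSubgroupIn ℚ)) hL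
        (S34IX_TU (K := ℚbar) (jB (M * q))))
      ((S34M_chart M q A (p ^ k) hn).Rb₁.map
        (modularFunctionFieldFullC (IsLocalRing.ResidueField A) (M * q)).val)
      ((S34M_chart M q A (p ^ k) hn).Rb₂.map
        (modularFunctionFieldFullC (IsLocalRing.ResidueField A) (M * q)).val)
      (fun y => S36HV_ev _ _ (D.e₁ (π₁ y))) (fun y => S36HV_ev _ _ (D.e₁ (π₂ y)))
      (fun y => S36HV_ev _ _ (D.e₂ (π₁ y))) (fun y => S36HV_ev _ _ (D.e₂ (π₂ y)))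
      ?_ E1F E1V ?_
    · -- glue
      intro h hF hV hB
      have hB' : (h : ↥(modularFunctionFieldBar (M * q))) ∈
          (S34M_chart M q A (p ^ k) hn).B := by
        have h1 : (h : ↥(modularFunctionFieldBar (M * q))) ∈
            S34IX_reg (S34IX_TU (K := ℚbar) (jB (M * q))) := hB
        rw [S36CU_reg_eq] at h1
        exact h1
      obtain ⟨mF, mV, e1, e2, e3⟩ :=
        S36HV_glue M q hq hqM A hA hgen (A.inertiaSubgroupIn ℚ) Hc.F Hc.V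
          (S36C5_tie_F M q hq hqM A hA) (S36C5_tie_V M q hq hqM A hA) hn D.e₁ D.e₂ D.hW1
          h hF hV hB'
      exact ⟨mF, mV, e1, e2, fun y => ⟨e3 (π₁ y), e3 (π₂ y)⟩⟩
    · -- nB₁
      intro x _ hx
      exact S36HV_nB₁ (M * q) q (A.inertiaSubgroupIn ℚ) hL Hc.N₁
        (S36CI_Hc_N₁ M q hq hqM A hA ζ hζ hζ1 (p ^ k) hn)
        (S36CO_BL M q (A.inertiaSubgroupIn ℚ)) (S36CO_B_eq_beta M q (S36CO_q_dvd M q)) x hx
  have hW1C : ∀ m ∈ S36L3_W hS C 1, ∀ y,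
      S36SE_e₁ C X (hX.of_le hle) y m.1 = S36SE_e₂ C X (hX.of_le hle) y m.2.1 ∧
      S36SE_e₁ C X (hX.of_le hle) y m.1 = S36SE_e₃ C X (hX.of_le hle) y m.2.2 :=
    S36TI_hW1_of_le hS hle (S36SE_e₁ C X (hX.of_le hle))
      (S36SE_e₂ C X (hX.of_le hle)) (S36SE_e₃ C X (hX.of_le hle))
      (S36SE_e₁ C'' X hX) (S36SE_e₂ C'' X hX) (S36SE_e₃ C'' X hX)
      (fun _ _ => rfl) (fun _ _ => rfl) (fun _ _ => rfl) hW1
  -- [C] the two charts
  have G : S36TI_Geo hS C X (hX.of_le hle) (S36LC_Kp S (p ^ k) S₁ S₂ S₃) :=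
    HG (hX.of_le hle) hW1C
  have G' : S36TI_Geo hS C' X (hX.of_le hle') (S36LC_Kp S (p ^ k) S₁ S₂ S₃) :=
    HG' c hcT hcX hX hW1 G
  -- [D], [E]
  have inj := S36IB_inj M q hq hqM A hA ζ hζ hζ1 (p ^ k) hn hnq c
  have happrox := S36CI_happrox M q hq hqM A hA ζ hζ hζ1
  -- hV
  have hV : ∀ u ∈ S36LC_Kp S (p ^ k) S₁ S₂ S₃,
      Hc.N₁ u ∈ S36TL_Triv ↥S.fixK
        (F := ↥(S36FI_act (M * q) (A.inertiaSubgroupIn ℚ)).fixF) (p ^ k) →
      Hc.N₂ u ∈ S36TL_Triv ↥S.fixK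
        (F := ↥(S36FI_act (M * q) (A.inertiaSubgroupIn ℚ)).fixF) (p ^ k) →
      ∃ ξ ξ' : IsLocalRing.ResidueField A, ∀ y,
      ∃ m ∈ S36L3_W hS C ((u : (↥S.fixF)ˣ) : ↥S.fixF),
        S36SE_e₁ C X (hX.of_le hle) y m.1 ≠ 0 ∧
        S36SE_e₁ C X (hX.of_le hle) y m.1 * S36SE_e₂ C X (hX.of_le hle) y m.2.1 ^ (q - 1) =
          ξ * S36SE_e₃ C X (hX.of_le hle) y m.2.2 ^ q ∧
        ξ' * (S36SE_e₂ C X (hX.of_le hle) y m.2.1 ^ (q - 1) *
          S36SE_e₃ C X (hX.of_le hle) y m.2.2) = S36SE_e₁ C X (hX.of_le hle) y m.1 ^ q := by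
    intro u hu h₁ h₂
    exact S36HV_main M q hq hqM A hA hgen (A.inertiaSubgroupIn ℚ)
      (S36CT_algebraMap_coe (M * q * q) (M * q) (A.inertiaSubgroupIn ℚ)) hn Hc
      (S36C5_tie_F M q hq hqM A hA) (S36C5_tie_V M q hq hqM A hA)
      (S36CI_Hc_N₁ M q hq hqM A hA ζ hζ hζ1 (p ^ k) hn)
      (S36CI_Hc_N₂ M q hq hqM A hA ζ hζ hζ1 (p ^ k) hn) hS
      (S36CI_Hc_FF_O M q hq hqM A hA ζ hζ hζ1 (p ^ k) hn)
      (S36CI_Hc_FV_O M q hq hqM A hA ζ hζ hζ1 (p ^ k) hn)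
      (S36CI_Hc_VV_O M q hq hqM A hA ζ hζ hζ1 (p ^ k) hn)
      (S36FI_kappa M A).val (S36FI_kappa M A).val (S36FI_kappa M A).val
      (fun x h h' => S36CI_Hc_FF_ρ M q hq hqM A hA ζ hζ hζ1 (p ^ k) hn x h)
      (fun x h h' => S36CI_Hc_FV_ρ M q hq hqM A hA ζ hζ hζ1 (p ^ k) hn x h)
      (fun x h h' => S36CI_Hc_VV_ρ M q hq hqM A hA ζ hζ hζ1 (p ^ k) hn x h)
      C (S36CO_BL M q (A.inertiaSubgroupIn ℚ)) (S36CO_B_eq_beta M q (S36CO_q_dvd M q))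
      (fun _ h => h)
      (S36SE_e₁ C X (hX.of_le hle)) (S36SE_e₂ C X (hX.of_le hle)) (S36SE_e₃ C X (hX.of_le hle))
      D.e₁ D.e₂ D.hW1 π₁ π₂ E1F E1V E2F E2V u (S36LC_Kp_le hu) h₁ h₂ (G.li u hu)
  -- the local core
  have hloc := S36TI_hloc (A₂ := S) hS q hnq hle hle' X hX hW1 G G' inj happrox
    (fun u => Hc.N₁ u ∈ S36TL_Triv ↥S.fixK
        (F := ↥(S36FI_act (M * q) (A.inertiaSubgroupIn ℚ)).fixF) (p ^ k))
    (fun u => Hc.N₂ u ∈ S36TL_Triv ↥S.fixK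
        (F := ↥(S36FI_act (M * q) (A.inertiaSubgroupIn ℚ)).fixF) (p ^ k)) hV
  exact S36WC_coreL_body (S36FI_act (M * q * q) (A.inertiaSubgroupIn ℚ))
    (S36FI_act (M * q) (A.inertiaSubgroupIn ℚ))
    (S36CT_algebraMap_coe (M * q * q) (M * q) (A.inertiaSubgroupIn ℚ))
    (fun a ha => (S36FI_mem_fixK (M * q * q) (A.inertiaSubgroupIn ℚ)).2
      ((S36FI_mem_fixK (M * q) (A.inertiaSubgroupIn ℚ)).1 ha))
    (S35B_NA (M * q) q) (S35B_NB (M * q) q) Hc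
    (S36CI_Hc_N₁ M q hq hqM A hA ζ hζ hζ1 (p ^ k) hn)
    (S36CI_Hc_N₂ M q hq hqM A hA ζ hζ hζ1 (p ^ k) hn)
    S₁ S₂ S₃
    (S36CI_Hc_FF_O M q hq hqM A hA ζ hζ hζ1 (p ^ k) hn)
    (S36CI_Hc_FV_O M q hq hqM A hA ζ hζ hζ1 (p ^ k) hn)
    (S36CI_Hc_VV_O M q hq hqM A hA ζ hζ hζ1 (p ^ k) hn)
    hloc f hf0 hfix hkum hTA hTB

end Fermat.Agent.S36
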