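import Fermat.Agent.S36.WireInst
import Fermat.Agent.S36.LocCore
import Fermat.Agent.S36.HVAbs

/-!
# TRACK 10 (S36), package WIRE (helper2), layer 2d: the COMPLETE semi-concrete assembly

`S36WF_body` = `S36WC_coreL_body` (COMP3 + local core ⇒ element form of CORE over the inertia
field) with the local core `hloc` produced by `S36LC_hloc` (helper11: TRIV + INJ3 + renorm +
NORMGLUE) and its hypothesis `hV` produced by `S36HA_main` (helper2: NORMRES on units + gluing at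
level `q`).  Every hypothesis of `S36WF_body` is an OUTPUT of one instantiation package:

* `Hc`, `hN₁`, `hN₂`, `halg`                         — COMP3-INST (helper13), NORM-L (helper18);
* `S₁ S₂ S₃`, `hS`, `hO_j`, `emb_j`, `hρ_j`           — FIX-L-INST / VAL3 (helper1, helper12, helper28);
* `C C' C''`, `hle`, `hle'`, `T`, `T'`, `e''`, `hW1''`, `c_j`, `c_j'`
                                                     — CHARTS, NODAL3-INST, LI-INST, CART-INST;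
* `inj`                                              — INJ3-INST (helper27, `S36I3_inj_inst`);
* `happrox`                                          — APPROX3 (helper13, `S36CS_happrox`);
* `B₁ … nB₂` (the level-`q` block)                   — HVInst (helper29).
-/

set_option autoImplicit false
set_option linter.style.haveILetI false
set_option linter.unusedSectionVars false

open AlgebraicCurve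

namespace Fermat.Agent.S36

open Fermat.Agent.S18 Fermat.Agent.S34 Fermat.Agent.S24

variable {K F₂ F₁ H : Type*} [Field K] [Field F₂] [Field F₁] [Algebra K F₂] [Algebra K F₁]

/-- **the complete semi-concrete assembly.** -/
theorem S36WF_body (A₂ : S36FL_Act K F₂ H) (A₁ : S36FL_Act K F₁ H)
    [Algebra ↥A₂.fixK ↥A₁.fixF]
    (halg : ∀ c : ↥A₂.fixK,
      ((algebraMap ↥A₂.fixK ↥A₁.fixF c : ↥A₁.fixF) : F₁) = algebraMap K F₁ (c : K))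
    (hfixK : ∀ a : K, a ∈ A₁.fixK → a ∈ A₂.fixK)
    (NA NB : F₂ → F₁)
    {k Ω Fk₁ Fk₂ Fk₃ : Type*} [Field k] [Field Ω] [Algebra k Ω]
    [Field Fk₁] [Field Fk₂] [Field Fk₃] [Algebra k Fk₁] [Algebra k Fk₂] [Algebra k Fk₃]
    {n q : ℕ} [hq : Fact q.Prime] [CharP k q] (hn : 0 < n) (hnq : Nat.Coprime n q)
    -- COMP3-INST
    (Hc : S36CH_Hyp ↥A₂.fixK ↥A₂.fixF ↥A₁.fixF k Ω n q)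
    (hN₁ : ∀ u : (↥A₂.fixF)ˣ, (((Hc.N₁ u : (↥A₁.fixF)ˣ) : ↥A₁.fixF) : F₁) =
      NA (((u : ↥A₂.fixF)) : F₂))
    (hN₂ : ∀ u : (↥A₂.fixF)ˣ, (((Hc.N₂ u : (↥A₁.fixF)ˣ) : ↥A₁.fixF) : F₁) =
      NB (((u : ↥A₂.fixF)) : F₂))
    -- the three valuations in the language of LAT3
    {S₁ : S18_Val ↥A₂.fixK ↥A₂.fixF k Fk₁} {S₂ : S18_Val ↥A₂.fixK ↥A₂.fixF k Fk₂}
    {S₃ : S18_Val ↥A₂.fixK ↥A₂.fixF k Fk₃} (hS : S36L3_Same S₁ S₂ S₃)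
    (hO₁ : S₁.O = Hc.FF.O) (hO₂ : S₂.O = Hc.FV.O) (hO₃ : S₃.O = Hc.VV.O)
    (emb₁ : Fk₁ →ₐ[k] Ω) (emb₂ : Fk₂ →ₐ[k] Ω) (emb₃ : Fk₃ →ₐ[k] Ω)
    (hρ₁ : ∀ (x : ↥A₂.fixF) (h : x ∈ S₁.O) (h' : x ∈ Hc.FF.O),
      Hc.FF.ρ ⟨x, h'⟩ = emb₁ (S₁.red ⟨x, h⟩))
    (hρ₂ : ∀ (x : ↥A₂.fixF) (h : x ∈ S₂.O) (h' : x ∈ Hc.FV.O),
      Hc.FV.ρ ⟨x, h'⟩ = emb₂ (S₂.red ⟨x, h⟩))
    (hρ₃ : ∀ (x : ↥A₂.fixF) (h : x ∈ S₃.O) (h' : x ∈ Hc.VV.O),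
      Hc.VV.ρ ⟨x, h'⟩ = emb₃ (S₃.red ⟨x, h⟩))
    (hperf : ∀ c : k, ∃ d : k, d ^ q = c)
    (root_n : ∀ (x : Ω) (c : k), x ^ n = algebraMap k Ω c → ∃ d : k, x = algebraMap k Ω d)
    -- the charts and the local core
    {ι : Type*} [Finite ι]
    {C C' C'' : S36L3_Chart ↥A₂.fixK ↥A₂.fixF k Fk₁ Fk₂ Fk₃ n}
    (hle : S36L3_ChartLE C C'') (hle' : S36L3_ChartLE C' C'')
    (T : S36TL_Chart hS C (S36LC_Kp A₂ n S₁ S₂ S₃) ι)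
    (T' : S36TL_Chart hS C' (S36LC_Kp A₂ n S₁ S₂ S₃) ι)
    (e₁ : ι → ↥C''.Rb₁ →ₐ[k] k) (e₂ : ι → ↥C''.Rb₂ →ₐ[k] k) (e₃ : ι → ↥C''.Rb₃ →ₐ[k] k)
    (hW1 : ∀ m ∈ S36L3_W hS C'' 1, ∀ y, e₁ y m.1 = e₂ y m.2.1 ∧ e₁ y m.1 = e₃ y m.2.2)
    (c₁ : ∀ y (r : ↥C.Rb₁), e₁ y ⟨r, hle.Rb₁_le r.2⟩ = T.e₁ y r)
    (c₂ : ∀ y (r : ↥C.Rb₂), e₂ y ⟨r, hle.Rb₂_le r.2⟩ = T.e₂ y r)
    (c₃ : ∀ y (r : ↥C.Rb₃), e₃ y ⟨r, hle.Rb₃_le r.2⟩ = T.e₃ y r)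
    (c₁' : ∀ y (r : ↥C'.Rb₁), e₁ y ⟨r, hle'.Rb₁_le r.2⟩ = T'.e₁ y r)
    (c₂' : ∀ y (r : ↥C'.Rb₂), e₂ y ⟨r, hle'.Rb₂_le r.2⟩ = T'.e₂ y r)
    (c₃' : ∀ y (r : ↥C'.Rb₃), e₃ y ⟨r, hle'.Rb₃_le r.2⟩ = T'.e₃ y r)
    (inj : ∀ v : (↥A₂.fixF)ˣ, v ∈ S36L3_NormGrp S₁ S₂ S₃ →
      (1 : ↥C.Rb₁ × ↥C.Rb₂ × ↥C.Rb₃) ∈ S36L3_W hS C ((v : (↥A₂.fixF)ˣ) : ↥A₂.fixF) →
      (1 : ↥C'.Rb₁ × ↥C'.Rb₂ × ↥C'.Rb₃) ∈ S36L3_W hS C' ((v : (↥A₂.fixF)ˣ) : ↥A₂.fixF) →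
      v ∈ S36TL_Triv ↥A₂.fixK (F := ↥A₂.fixF) n)
    (happrox : ∀ b₂ b₃ : k, b₂ ≠ 0 → b₃ ≠ 0 → ∃ f : S36L3_O3 S₁ S₂ S₃,
      S36L3_red S₁ S₂ S₃ f = ((1 : Fk₁), algebraMap k Fk₂ b₂, algebraMap k Fk₃ b₃))
    -- the level-`q` block of hV
    (B₁ : Subalgebra ↥A₂.fixK ↥A₁.fixF) (hB₁ : ∀ h : ↥A₁.fixF, h ^ n ∈ B₁ → h ∈ B₁)
    (RbF RbV : Subalgebra k Ω)
    (eF eF' : ι → ↥RbF →ₐ[k] k) (eV eV' : ι → ↥RbV →ₐ[k] k)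
    (glue : ∀ (h : ↥A₁.fixF) (hF : h ∈ Hc.F.O) (hV : h ∈ Hc.V.O), h ∈ B₁ →
      ∃ (mF : ↥RbF) (mV : ↥RbV), (mF : Ω) = Hc.F.ρ ⟨h, hF⟩ ∧ (mV : Ω) = Hc.V.ρ ⟨h, hV⟩ ∧
        ∀ y, eF y mF = eV y mV ∧ eF' y mF = eV' y mV)
    (E1F : ∀ y (z : ↥RbF) (a : ↥C.Rb₁) (b : ↥C.Rb₂),
      (z : Ω) = emb₁ (a : Fk₁) * emb₂ (b : Fk₂) ^ (q - 1) →
      eF y z = T.e₁ y a * T.e₂ y b ^ (q - 1))
    (E1V : ∀ y (z : ↥RbV) (c : ↥C.Rb₃),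
      Hc.Ψ (z : Ω) = emb₃ (c : Fk₃) ^ q → eV y z = T.e₃ y c ^ q)
    (E2F : ∀ y (z : ↥RbF) (a : ↥C.Rb₁),
      Hc.Ψ (z : Ω) = emb₁ (a : Fk₁) ^ q → eF' y z = T.e₁ y a ^ q)
    (E2V : ∀ y (z : ↥RbV) (b : ↥C.Rb₂) (c : ↥C.Rb₃),
      (z : Ω) = emb₂ (b : Fk₂) ^ (q - 1) * emb₃ (c : Fk₃) →
      eV' y z = T.e₂ y b ^ (q - 1) * T.e₃ y c)
    (nB₁ : ∀ x : (↥A₂.fixF)ˣ, ((x : (↥A₂.fixF)ˣ) : ↥A₂.fixF) ∈ S36L3_O3 S₁ S₂ S₃ →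
      ((x : (↥A₂.fixF)ˣ) : ↥A₂.fixF) ∈ C.B → ((Hc.N₁ x : (↥A₁.fixF)ˣ) : ↥A₁.fixF) ∈ B₁)
    (nB₂ : ∀ x : (↥A₂.fixF)ˣ, ((x : (↥A₂.fixF)ˣ) : ↥A₂.fixF) ∈ S36L3_O3 S₁ S₂ S₃ →
      ((x : (↥A₂.fixF)ˣ) : ↥A₂.fixF) ∈ C.B → ((Hc.N₂ x : (↥A₁.fixF)ˣ) : ↥A₁.fixF) ∈ B₁)
    -- the Kummer generator
    (f : F₂) (hf0 : f ≠ 0) (hfix : f ∈ A₂.fixF)
    (hkum : ∀ v : Place K F₂, (n : ℤ) ∣ v.ord f)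
    (hA : ∃ (a : K) (g : F₁), a ≠ 0 ∧ g ≠ 0 ∧ a ∈ A₁.fixK ∧ g ∈ A₁.fixF ∧
      NA f = algebraMap K F₁ a * g ^ n)
    (hB : ∃ (a : K) (g : F₁), a ≠ 0 ∧ g ≠ 0 ∧ a ∈ A₁.fixK ∧ g ∈ A₁.fixF ∧
      NB f = algebraMap K F₁ a * g ^ n) :
    ∃ (a : K) (g : F₂), a ≠ 0 ∧ g ≠ 0 ∧
      f ^ ((q + 1) * (q - 1) * (q ^ 2 - 1)) = algebraMap K F₂ a * g ^ n := by
  refine S36WC_coreL_body A₂ A₁ halg hfixK NA NB Hc hN₁ hN₂ S₁ S₂ S₃ hO₁ hO₂ hO₃ ?_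
    f hf0 hfix hkum hA hB
  refine S36LC_hloc hS q hnq hle hle' T T' e₁ e₂ e₃ hW1 c₁ c₂ c₃ c₁' c₂' c₃' inj happrox
    (fun u => Hc.N₁ u ∈ S36TL_Triv ↥A₂.fixK (F := ↥A₁.fixF) n)
    (fun u => Hc.N₂ u ∈ S36TL_Triv ↥A₂.fixK (F := ↥A₁.fixF) n) ?_
  intro u hu h₁ h₂
  exact S36HA_main hn Hc hS hO₁ hO₂ hO₃ emb₁ emb₂ emb₃ hρ₁ hρ₂ hρ₃ hperf root_n C
    T.e₁ T.e₂ T.e₃ B₁ hB₁ RbF RbV eF eF' eV eV' glue E1F E1V E2F E2V nB₁ nB₂ u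
    (S36LC_Kp_le hu) h₁ h₂ (T.li u hu)

end Fermat.Agent.S36
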